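/-
S56 / W3 (flat local bound): common definitions.  Everything lives in `Ω = PadicAlgCl p` with its
norm (`‖p‖ = p⁻¹`); "valuation `v(x) ≥ m`" is written `‖x‖ ≤ p^(-m)`, and the threshold
`t > 1/(p-1)` for a radius `r = p^(-t)` is written `p * r^(p-1) < 1` (no real exponents).
Local fields are `IntermediateField ℚ_[p] Ω`; Galois elements are absolute (`h78_G p`).
-/
import Mathlib
import Fermat.Prelude.Def_GaloisRep_CompletionBridge
import Fermat.Prelude.Def_GaloisRep_Flat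

set_option autoImplicit false

open Coalgebra WithConv

namespace Fermat.Agent.S56

variable (p : ℕ) [Fact p.Prime]

/-- the local Galois group `Gal(Ω/ℚ_p)`. -/
abbrev h78_G : Type := PadicAlgCl p ≃ₐ[ℚ_[p]] PadicAlgCl p

/-- `ℤ_(p)` as in the frozen flatness condition. -/
abbrev h78_Zp : Type := ↥(GaloisRep.ratLocalizedAt p)

theorem h78_norm_aut (g : h78_G p) (x : PadicAlgCl p) : ‖g x‖ = ‖x‖ :=
  congrArg NNReal.toReal (nnnorm_padicAlgCl_algEquiv p g x)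

/-- `π` is a uniformizer of the subfield `F`. -/
def h78_IsUnif (F : IntermediateField ℚ_[p] (PadicAlgCl p)) (π : PadicAlgCl p) : Prop :=
  π ∈ F ∧ π ≠ 0 ∧ ‖π‖ < 1 ∧ ∀ x ∈ F, x ≠ 0 → ∃ n : ℤ, ‖x‖ = ‖π‖ ^ n

/-- `K₀(L)`: the subfield generated by the roots of unity of order prime to `p` in `L`
(= the maximal unramified subfield). -/
noncomputable def h78_K0 (L : IntermediateField ℚ_[p] (PadicAlgCl p)) : IntermediateField ℚ_[p] (PadicAlgCl p) :=
  IntermediateField.adjoin ℚ_[p] {ζ | ζ ∈ L ∧ ∃ n : ℕ, 0 < n ∧ ¬ p ∣ n ∧ ζ ^ n = 1}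

/-- `J_L = Gal(Ω/K₀(L))`: the (relative) inertia group of `L`. -/
noncomputable def h78_J (L : IntermediateField ℚ_[p] (PadicAlgCl p)) : Subgroup (h78_G p) :=
  (h78_K0 p L).fixingSubgroup

/-- `P_L`: the wild inertia group of `L` (w.r.t. the uniformizer `π`; independent of `π`). -/
noncomputable def h78_P (L : IntermediateField ℚ_[p] (PadicAlgCl p)) (π : PadicAlgCl p) : Subgroup (h78_G p) where
  carrier := {g | g ∈ h78_J p L ∧ (π = 0 ∨ ‖g π - π‖ < ‖π‖)}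
  one_mem' := by
    refine ⟨Subgroup.one_mem _, ?_⟩
    by_cases h : π = 0
    · exact Or.inl h
    · right; simpa using norm_pos_iff.2 h
  mul_mem' := by
    rintro g h ⟨hg, hg'⟩ ⟨hh, hh'⟩
    refine ⟨Subgroup.mul_mem _ hg hh, ?_⟩
    rcases hg' with h0 | hg'
    · exact Or.inl h0
    rcases hh' with h0 | hh'
    · exact Or.inl h0
    right
    have h3 : (g * h) π - π = g (h π - π) + (g π - π) := by
      simp [AlgEquiv.mul_apply]
    rw [h3]
    refine lt_of_le_of_lt (IsUltrametricDist.norm_add_le_max _ _) (max_lt ?_ hg')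
    rw [h78_norm_aut]; exact hh'
  inv_mem' := by
    rintro g ⟨hg, hg'⟩
    refine ⟨Subgroup.inv_mem _ hg, ?_⟩
    rcases hg' with h0 | hg'
    · exact Or.inl h0
    right
    have h4 : g⁻¹ π - π = - g⁻¹ (g π - π) := by
      have : g⁻¹ (g π) = π := by
        show (g⁻¹ * g) π = π
        rw [inv_mul_cancel]; rfl
      rw [map_sub, this]; ring
    rw [h4, norm_neg, h78_norm_aut]; exact hg'

/-- `M = L^P`: the maximal tamely ramified subfield of `L`. -/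
noncomputable def h78_M (L : IntermediateField ℚ_[p] (PadicAlgCl p)) (π : PadicAlgCl p) :
    IntermediateField ℚ_[p] (PadicAlgCl p) :=
  L ⊓ IntermediateField.fixedField (h78_P p L π)

/-- the (finite) set of conjugates of `x` under a subgroup `S` of `Gal(Ω/ℚ_p)`. -/
noncomputable def h78_conj (S : Subgroup (h78_G p)) (x : PadicAlgCl p) : Finset (PadicAlgCl p) := by
  classical
  exact ((minpoly ℚ_[p] x).rootSet (PadicAlgCl p)).toFinset.filter (fun y => ∃ g ∈ S, g x = y)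

/-- the quantity `s(t) = ∏_{π' conj of π under J_L} max(‖tπ - π‖, ‖π' - π‖)` of the twist bound
(`= p^(-Φ(t))` in Fontaine's notation). -/
noncomputable def h78_sOf (L : IntermediateField ℚ_[p] (PadicAlgCl p)) (π : PadicAlgCl p)
    (t : h78_G p) : ℝ :=
  ∏ x ∈ h78_conj p (h78_J p L) π, max ‖t π - π‖ ‖x - π‖

/-- `𝒰(F)`: elements of `F^×` which are `≡ 1 mod p` up to `p`-th powers of `F`. -/
def h78_U (F : IntermediateField ℚ_[p] (PadicAlgCl p)) : Set (PadicAlgCl p) :=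
  {u | u ∈ F ∧ u ≠ 0 ∧ ∃ w ∈ F, w ≠ 0 ∧ ‖u * w ^ p - 1‖ ≤ (p : ℝ)⁻¹}

/-- `F/ℚ_p` is tamely ramified: the value group of `F` has prime-to-`p` index over `p^ℤ`. -/
def h78_IsTame (F : IntermediateField ℚ_[p] (PadicAlgCl p)) : Prop :=
  ∃ m : ℕ, ¬ p ∣ m ∧ ∀ x ∈ F, x ≠ 0 → ∃ n : ℤ, ‖x‖ ^ m = (p : ℝ) ^ n

/-- Kummer normal form of `u'` relative to `F`: (a) `‖u'‖ ∉ |F^×|^p`, or
(b) `p⁻¹ < ‖u' - 1‖ < 1` and `‖u' - 1‖ ∉ |F^×|^p`. -/
def h78_NF (F : IntermediateField ℚ_[p] (PadicAlgCl p)) (u' : PadicAlgCl p) : Prop :=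
  (∀ z ∈ F, z ≠ 0 → ‖u'‖ ≠ ‖z‖ ^ p) ∨
  ((p : ℝ)⁻¹ < ‖u' - 1‖ ∧ ‖u' - 1‖ < 1 ∧ ∀ z ∈ F, z ≠ 0 → ‖u' - 1‖ ≠ ‖z‖ ^ p)

/-- `L` is stable under `Gal(Ω/ℚ_p)` (i.e. `L/ℚ_p` is normal). -/
def h78_Stable (L : IntermediateField ℚ_[p] (PadicAlgCl p)) : Prop :=
  ∀ (g : h78_G p) (z : PadicAlgCl p), z ∈ L → g z ∈ L

/-- the action of `σ` on `V_a = k² × k²` (`= k[ε]²`, `(v, w) = v + ε w`) given by `rb + ε a`. -/
def h78_act {k : Type} [Field k] (rb a : h78_G p → Matrix (Fin 2) (Fin 2) k) (σ : h78_G p)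
    (v : (Fin 2 → k) × (Fin 2 → k)) : (Fin 2 → k) × (Fin 2 → k) :=
  ((rb σ).mulVec v.1, (a σ).mulVec v.1 + (rb σ).mulVec v.2)

/-- the local form of the frozen `IsFlatAt` for the lift `rb + ε a` (points in `PadicAlgCl p`). -/
def h78_LocFlat {k : Type} [Field k] (rb a : h78_G p → Matrix (Fin 2) (Fin 2) k) : Prop :=
  ∃ (H : Type) (_ : CommRing H) (_ : HopfAlgebra (h78_Zp p) H),
    Module.Finite (h78_Zp p) H ∧ Module.Flat (h78_Zp p) H ∧ Coalgebra.IsCocomm (h78_Zp p) H ∧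
    ∃ e : WithConv (H →ₐ[h78_Zp p] PadicAlgCl p) ≃ (Fin 2 → k) × (Fin 2 → k),
      (∀ f g, e (f * g) = e f + e g) ∧
      ∀ (σ : h78_G p) (f g : WithConv (H →ₐ[h78_Zp p] PadicAlgCl p)),
        (∀ h : H, g h = σ (f h)) → e g = h78_act p rb a σ (e f)

/-- `H⁰(G_p, ad⁰ rb)`. -/
def h78_H0 {k : Type} [Field k] (rb : h78_G p →* Matrix (Fin 2) (Fin 2) k) :
    Submodule k (Matrix (Fin 2) (Fin 2) k) where
  carrier := {X | X.trace = 0 ∧ ∀ s, X * rb s = rb s * X}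
  add_mem' := by
    rintro X Y ⟨hX, hX'⟩ ⟨hY, hY'⟩
    exact ⟨by rw [Matrix.trace_add, hX, hY, add_zero], fun s => by rw [add_mul, mul_add, hX', hY']⟩
  zero_mem' := ⟨by simp, fun s => by simp⟩
  smul_mem' := by
    rintro c X ⟨hX, hX'⟩
    exact ⟨by rw [Matrix.trace_smul, hX, smul_zero], fun s => by
      rw [Matrix.smul_mul, Matrix.mul_smul, hX']⟩

end Fermat.Agent.S56
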