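/-
S56 / W3 row B3b (helper28): `K₀(L)` is unramified.

`h28_K0_unram` = `sk_K0_unram` of the W3 skeleton, verbatim.  Route (no residue-field types, no
Galois theory): the STEP lemma `h28_unram_step`: if `E` is a finite subfield of `Ω` all of whose
nonzero norms are in `p^ℤ` and `ζ^n = 1` with `p ∤ n`, then `ζ` lies in a finite subfield
`K' ⊇ E` with the same property.  Proof of the step: `G` := a monic polynomial of least degree
with coefficients in the unit ball of `E` and `‖G(ζ)‖ < 1`; minimality gives "orthonormality" of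
`1, ζ, …, ζ^(f₀-1)` over `E`; dividing `X^n - 1` by `G` gives `‖G'(ζ)‖ = 1`; Hensel gives a root
`θ` of `G` with `‖θ - ζ‖ < 1`; `E(θ)` is unramified by orthonormality; Hensel for `X^n - 1` in
`E(θ)` and injectivity of reduction on `μ_n` give `ζ ∈ E(θ)`.
-/
import Mathlib
import Fermat.Agent.S56.h78_W3Defs
import Fermat.Agent.S55.h6_Hensel

set_option autoImplicit false

namespace Fermat.Agent.S56

open scoped IntermediateField

variable (p : ℕ) [Fact p.Prime]

local notation "Ω" => PadicAlgCl p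
local notation "Fld" => IntermediateField ℚ_[p] (PadicAlgCl p)

/-! ## ultrametric utilities -/

/-- ultrametric bound for finite sums (non-strict). -/
theorem h28_norm_sum_le {ι : Type*} (s : Finset ι) (f : ι → Ω) (C : ℝ) (hC : 0 ≤ C)
    (h : ∀ i ∈ s, ‖f i‖ ≤ C) : ‖∑ i ∈ s, f i‖ ≤ C := by
  classical
  induction s using Finset.induction_on with
  | empty => simpa using hC
  | insert a s ha ih =>
    rw [Finset.sum_insert ha]
    refine (IsUltrametricDist.norm_add_le_max _ _).trans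
      (max_le (h a (Finset.mem_insert_self a s)) ?_)
    exact ih fun i hi => h i (Finset.mem_insert_of_mem hi)

/-- ultrametric bound for finite sums (strict). -/
theorem h28_norm_sum_lt {ι : Type*} (s : Finset ι) (f : ι → Ω) (C : ℝ) (hC : 0 < C)
    (h : ∀ i ∈ s, ‖f i‖ < C) : ‖∑ i ∈ s, f i‖ < C := by
  classical
  induction s using Finset.induction_on with
  | empty => simpa using hC
  | insert a s ha ih =>
    rw [Finset.sum_insert ha]
    refine lt_of_le_of_lt (IsUltrametricDist.norm_add_le_max _ _)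
      (max_lt (h a (Finset.mem_insert_self a s)) ?_)
    exact ih fun i hi => h i (Finset.mem_insert_of_mem hi)

theorem h28_norm_sub_lt (x y : Ω) (C : ℝ) (hx : ‖x‖ < C) (hy : ‖y‖ < C) : ‖x - y‖ < C := by
  rw [sub_eq_add_neg]
  exact lt_of_le_of_lt (IsUltrametricDist.norm_add_le_max _ _) (max_lt hx (by rwa [norm_neg]))

theorem h28_norm_add_lt (x y : Ω) (C : ℝ) (hx : ‖x‖ < C) (hy : ‖y‖ < C) : ‖x + y‖ < C :=
  lt_of_le_of_lt (IsUltrametricDist.norm_add_le_max _ _) (max_lt hx hy)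

/-- natural numbers have norm `≤ 1`. -/
theorem h28_norm_natCast_le (n : ℕ) : ‖(n : Ω)‖ ≤ 1 := by
  have h : (n : Ω) = algebraMap ℚ_[p] Ω (n : ℚ_[p]) := by simp
  rw [h, PadicAlgCl.norm_extends]
  have := Padic.norm_int_le_one (p := p) (n : ℤ)
  simpa using this

/-- natural numbers prime to `p` have norm `1`. -/
theorem h28_norm_natCast_of_not_dvd (n : ℕ) (hn : ¬ p ∣ n) : ‖(n : Ω)‖ = 1 := by
  have h : (n : Ω) = algebraMap ℚ_[p] Ω (n : ℚ_[p]) := by simp
  rw [h, PadicAlgCl.norm_extends, Padic.norm_natCast_eq_one_iff]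
  exact (Nat.Prime.coprime_iff_not_dvd (Fact.out : p.Prime)).2 hn

/-- `‖p‖ = p⁻¹` in `Ω`. -/
theorem h28_norm_p : ‖(p : Ω)‖ = (p : ℝ)⁻¹ := by
  have h : (p : Ω) = algebraMap ℚ_[p] Ω (p : ℚ_[p]) := by simp
  rw [h, PadicAlgCl.norm_extends]
  exact Padic.norm_p

/-- `x ≡ y` and both integral: `x^i ≡ y^i` to the same precision. -/
theorem h28_norm_pow_sub_pow_le (x y : Ω) (hx : ‖x‖ ≤ 1) (hy : ‖y‖ ≤ 1) (i : ℕ) :
    ‖x ^ i - y ^ i‖ ≤ ‖x - y‖ := by
  induction i with
  | zero => simp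
  | succ i ih =>
    have h : x ^ (i + 1) - y ^ (i + 1) = x ^ i * (x - y) + (x ^ i - y ^ i) * y := by ring
    rw [h]
    refine (IsUltrametricDist.norm_add_le_max _ _).trans (max_le ?_ ?_)
    · rw [norm_mul, norm_pow]
      exact mul_le_of_le_one_left (norm_nonneg _) (pow_le_one₀ (norm_nonneg _) hx)
    · rw [norm_mul]
      exact (mul_le_of_le_one_right (norm_nonneg _) hy).trans ih

/-- a root of unity has norm one. -/
theorem h28_norm_root (n : ℕ) (hn0 : 0 < n) (ζ : Ω) (hζ : ζ ^ n = 1) : ‖ζ‖ = 1 := by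
  have h : ‖ζ‖ ^ n = 1 := by rw [← norm_pow, hζ, norm_one]
  exact (pow_eq_one_iff_of_nonneg (norm_nonneg _) hn0.ne').1 h

/-- reduction is injective on the `n`-th roots of unity, `p ∤ n`. -/
theorem h28_root_eq_of_close (n : ℕ) (hn0 : 0 < n) (hn : ¬ p ∣ n) (ζ ζ' : Ω)
    (hζ : ζ ^ n = 1) (hζ' : ζ' ^ n = 1) (h : ‖ζ' - ζ‖ < 1) : ζ' = ζ := by
  have h1 : ‖ζ‖ = 1 := h28_norm_root p n hn0 ζ hζ
  have h1' : ‖ζ'‖ = 1 := h28_norm_root p n hn0 ζ' hζ'
  have hgeom := Commute.geom_sum₂_mul (Commute.all ζ' ζ) n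
  rw [hζ, hζ', sub_self] at hgeom
  rcases mul_eq_zero.1 hgeom with hS | hd
  · exfalso
    -- the sum is `≡ n ζ^(n-1)`, a unit
    have hS' : ‖(∑ i ∈ Finset.range n, ζ' ^ i * ζ ^ (n - 1 - i)) - (n : Ω) * ζ ^ (n - 1)‖ < 1 := by
      have e : (n : Ω) * ζ ^ (n - 1) = ∑ i ∈ Finset.range n, ζ ^ i * ζ ^ (n - 1 - i) := by
        have e1 : ∀ i ∈ Finset.range n, ζ ^ i * ζ ^ (n - 1 - i) = ζ ^ (n - 1) := by
          intro i hi
          rw [← pow_add]
          congr 1
          have := Finset.mem_range.1 hi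
          omega
        rw [Finset.sum_congr rfl e1, Finset.sum_const, Finset.card_range, nsmul_eq_mul]
      rw [e, ← Finset.sum_sub_distrib]
      refine h28_norm_sum_lt p _ _ 1 one_pos fun i _ => ?_
      rw [← sub_mul, norm_mul, norm_pow, h1, one_pow, mul_one]
      exact (h28_norm_pow_sub_pow_le p ζ' ζ h1'.le h1.le i).trans_lt h
    rw [hS, zero_sub, norm_neg, norm_mul, norm_pow, h1, one_pow, mul_one,
      h28_norm_natCast_of_not_dvd p n hn] at hS'
    exact lt_irrefl _ hS'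
  · exact sub_eq_zero.1 hd

/-! ## polynomials with integral coefficients -/

theorem h28_eval_le (A : Polynomial Ω) (hA : ∀ i, ‖A.coeff i‖ ≤ 1) (x : Ω) (hx : ‖x‖ ≤ 1) :
    ‖A.eval x‖ ≤ 1 := by
  rw [Polynomial.eval_eq_sum_range]
  refine h28_norm_sum_le p _ _ 1 zero_le_one fun i _ => ?_
  rw [norm_mul, norm_pow]
  exact mul_le_one₀ (hA i) (pow_nonneg (norm_nonneg _) _) (pow_le_one₀ (norm_nonneg _) hx)

theorem h28_eval_lt (A : Polynomial Ω) (hA : ∀ i, ‖A.coeff i‖ < 1) (x : Ω) (hx : ‖x‖ ≤ 1) :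
    ‖A.eval x‖ < 1 := by
  rw [Polynomial.eval_eq_sum_range]
  refine h28_norm_sum_lt p _ _ 1 one_pos fun i _ => ?_
  rw [norm_mul, norm_pow]
  exact lt_of_le_of_lt (mul_le_of_le_one_right (norm_nonneg _)
    (pow_le_one₀ (norm_nonneg _) hx)) (hA i)

theorem h28_deriv_coeff_le (A : Polynomial Ω) (hA : ∀ i, ‖A.coeff i‖ ≤ 1) (i : ℕ) :
    ‖A.derivative.coeff i‖ ≤ 1 := by
  rw [Polynomial.coeff_derivative, norm_mul]
  have h : ((i : Ω) + 1) = ((i + 1 : ℕ) : Ω) := by push_cast; ring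
  rw [h]
  exact mul_le_one₀ (hA _) (norm_nonneg _) (h28_norm_natCast_le p _)

theorem h28_deriv_coeff_lt (A : Polynomial Ω) (hA : ∀ i, ‖A.coeff i‖ < 1) (i : ℕ) :
    ‖A.derivative.coeff i‖ < 1 := by
  rw [Polynomial.coeff_derivative, norm_mul]
  have h : ((i : Ω) + 1) = ((i + 1 : ℕ) : Ω) := by push_cast; ring
  rw [h]
  exact lt_of_le_of_lt (mul_le_of_le_one_right (norm_nonneg _) (h28_norm_natCast_le p _)) (hA _)

/-! ## Hensel in a finite subfield -/

/-- Hensel's lemma (simple roots) inside a finite subfield of `Ω`. -/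
theorem h28_hensel_sub (K : Fld) [FiniteDimensional ℚ_[p] K] (F : Polynomial Ω)
    (hFK : ∀ n, F.coeff n ∈ K) (hF : ∀ n, ‖F.coeff n‖ ≤ 1) (a : Ω) (haK : a ∈ K) (ha : ‖a‖ ≤ 1)
    (h0 : ‖F.eval a‖ < 1) (h1 : ¬ ‖F.derivative.eval a‖ < 1) :
    ∃ b ∈ K, F.eval b = 0 ∧ ‖b - a‖ < 1 := by
  have : CompleteSpace K := FiniteDimensional.complete ℚ_[p] K
  have hl : F ∈ Polynomial.lifts (algebraMap K Ω) := by
    rw [Polynomial.lifts_iff_coeff_lifts]
    intro n
    exact ⟨⟨F.coeff n, hFK n⟩, rfl⟩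
  obtain ⟨F', hF'⟩ := hl
  have hF'' : F'.map (algebraMap K Ω) = F := hF'
  have hev : ∀ z : K, F.eval (z : Ω) = ((F'.eval z : K) : Ω) := by
    intro z
    rw [← hF'', Polynomial.eval_map]
    exact Polynomial.eval₂_at_apply (algebraMap K Ω) z
  have hdev : ∀ z : K, F.derivative.eval (z : Ω) = ((F'.derivative.eval z : K) : Ω) := by
    intro z
    rw [← hF'', Polynomial.derivative_map, Polynomial.eval_map]
    exact Polynomial.eval₂_at_apply (algebraMap K Ω) z
  have hco : ∀ n, ‖F'.coeff n‖ ≤ 1 := by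
    intro n
    have : ((F'.coeff n : K) : Ω) = F.coeff n := by
      rw [← hF'', Polynomial.coeff_map]; rfl
    show ‖((F'.coeff n : K) : Ω)‖ ≤ 1
    rw [this]; exact hF n
  obtain ⟨b, hb0, hb1⟩ := Fermat.Agent.S55.h6_hensel_normed (L := K)
    (fun x y => IsUltrametricDist.norm_add_le_max (x : Ω) (y : Ω)) F' hco ⟨a, haK⟩ ha
    (by show ‖((F'.eval (⟨a, haK⟩ : K) : K) : Ω)‖ < 1; rw [← hev]; exact h0)
    (by
      intro hh
      apply h1
      have : ‖((F'.derivative.eval (⟨a, haK⟩ : K) : K) : Ω)‖ < 1 := hh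
      rw [← hdev] at this; exact this)
  refine ⟨b, b.2, ?_, hb1⟩
  rw [hev b, hb0]; rfl

/-! ## the minimal polynomial modulo the maximal ideal -/

/-- the unit ball of `E` as a subring of `Ω`. -/
def h28_O (E : Fld) : Subring Ω where
  carrier := {x | x ∈ E ∧ ‖x‖ ≤ 1}
  mul_mem' := fun {x y} hx hy =>
    ⟨E.mul_mem hx.1 hy.1, by rw [norm_mul]; exact mul_le_one₀ hx.2 (norm_nonneg _) hy.2⟩
  one_mem' := ⟨E.one_mem, by rw [norm_one]⟩
  add_mem' := fun {x y} hx hy =>
    ⟨E.add_mem hx.1 hy.1, (IsUltrametricDist.norm_add_le_max _ _).trans (max_le hx.2 hy.2)⟩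
  zero_mem' := ⟨E.zero_mem, by rw [norm_zero]; exact zero_le_one⟩
  neg_mem' := fun {x} hx => ⟨E.neg_mem hx.1, by rw [norm_neg]; exact hx.2⟩

theorem h28_mem_O (E : Fld) (x : Ω) : x ∈ h28_O p E ↔ x ∈ E ∧ ‖x‖ ≤ 1 := Iff.rfl

/-- a monic polynomial of degree `d` with coefficients in the unit ball of `E`, small at `ζ`. -/
def h28_Good (E : Fld) (ζ : Ω) (d : ℕ) : Prop :=
  ∃ G : Polynomial Ω, G.Monic ∧ G.natDegree = d ∧ (∀ i, G.coeff i ∈ h28_O p E) ∧ ‖G.eval ζ‖ < 1

/-- the monic polynomial `X^d + ∑_{i<d} c_i X^i`. -/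
theorem h28_poly_of_coeffs (O : Subring Ω) (d : ℕ) (c : ℕ → Ω) (hc : ∀ i < d, c i ∈ O) :
    ∃ G : Polynomial Ω, G.Monic ∧ G.natDegree = d ∧ (∀ i, G.coeff i ∈ O) ∧
      ∀ x, G.eval x = x ^ d + ∑ i ∈ Finset.range d, c i * x ^ i := by
  classical
  set S : Polynomial Ω := ∑ i ∈ Finset.range d, Polynomial.C (c i) * Polynomial.X ^ i with hS
  have hcoeff : ∀ m, S.coeff m = if m < d then c m else 0 := by
    intro m
    rw [hS, Polynomial.finsetSum_coeff]
    simp only [Polynomial.coeff_C_mul_X_pow]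
    rw [Finset.sum_ite_eq]
    simp [Finset.mem_range]
  have hdeg : S.degree < d := by
    rw [Polynomial.degree_lt_iff_coeff_zero]
    intro m hm
    rw [hcoeff, if_neg (by omega)]
  have hdeg' : S.degree < (Polynomial.X ^ d : Polynomial Ω).degree := by
    rw [Polynomial.degree_X_pow]; exact hdeg
  refine ⟨Polynomial.X ^ d + S, Polynomial.monic_X_pow_add hdeg, ?_, ?_, ?_⟩
  · rw [Polynomial.natDegree_add_eq_left_of_degree_lt hdeg', Polynomial.natDegree_X_pow]
  · intro i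
    rw [Polynomial.coeff_add, Polynomial.coeff_X_pow, hcoeff]
    refine O.add_mem ?_ ?_
    · split_ifs
      exacts [O.one_mem, O.zero_mem]
    · split_ifs with h
      exacts [hc i h, O.zero_mem]
  · intro x
    rw [Polynomial.eval_add, Polynomial.eval_pow, Polynomial.eval_X, hS,
      Polynomial.eval_finsetSum]
    simp

/-- minimality: `1, ζ, …, ζ^(f₀-1)` are independent modulo the maximal ideal. -/
theorem h28_min (E : Fld) (ζ : Ω) (hζ1 : ‖ζ‖ ≤ 1) (f0 : ℕ)
    (hmin : ∀ d < f0, ¬ h28_Good p E ζ d) :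
    ∀ d ≤ f0, ∀ c : ℕ → Ω, (∀ i < d, c i ∈ h28_O p E) →
      ‖∑ i ∈ Finset.range d, c i * ζ ^ i‖ < 1 → ∀ i < d, ‖c i‖ < 1 := by
  intro d
  induction d with
  | zero => intro _ c _ _ i hi; omega
  | succ d ih =>
    intro hd c hc hsum i hi
    rw [Finset.sum_range_succ] at hsum
    by_cases hcd : ‖c d‖ < 1
    · have h2 : ‖c d * ζ ^ d‖ < 1 := by
        rw [norm_mul, norm_pow]
        exact lt_of_le_of_lt (mul_le_of_le_one_right (norm_nonneg _)
          (pow_le_one₀ (norm_nonneg _) hζ1)) hcd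
      have h3 : ‖∑ i ∈ Finset.range d, c i * ζ ^ i‖ < 1 := by
        have := h28_norm_sub_lt p _ _ 1 hsum h2
        simpa using this
      rcases Nat.lt_succ_iff_lt_or_eq.1 hi with h | h
      · exact ih (by omega) c (fun j hj => hc j (by omega)) h3 i h
      · rw [h]; exact hcd
    · exfalso
      have hcd1 : ‖c d‖ = 1 := le_antisymm (hc d (by omega)).2 (not_lt.1 hcd)
      have hcd0 : c d ≠ 0 := by
        intro h0; rw [h0, norm_zero] at hcd1; exact zero_ne_one hcd1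
      obtain ⟨G, hGm, hGd, hGc, hGe⟩ := h28_poly_of_coeffs p (h28_O p E) d (fun i => c i / c d)
        (fun i hi' => ⟨E.div_mem (hc i (by omega)).1 (hc d (by omega)).1, by
          rw [norm_div, hcd1, div_one]; exact (hc i (by omega)).2⟩)
      refine hmin d (by omega) ⟨G, hGm, hGd, hGc, ?_⟩
      rw [hGe]
      have e : ζ ^ d + ∑ i ∈ Finset.range d, c i / c d * ζ ^ i
          = (∑ i ∈ Finset.range d, c i * ζ ^ i + c d * ζ ^ d) / c d := by
        rw [add_div, Finset.sum_div, mul_div_cancel_left₀ _ hcd0, add_comm]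
        congr 1
        refine Finset.sum_congr rfl fun i _ => by ring
      rw [e, norm_div, hcd1, div_one]
      exact hsum

/-- separability: the minimal polynomial modulo the maximal ideal has a simple root at `ζ`. -/
theorem h28_sep (E : Fld) (n : ℕ) (hn0 : 0 < n) (hn : ¬ p ∣ n) (ζ : Ω) (hζ : ζ ^ n = 1)
    (f0 : ℕ) (hmin : ∀ d < f0, ¬ h28_Good p E ζ d)
    (G : Polynomial Ω) (hGm : G.Monic) (hGd : G.natDegree = f0)
    (hGc : ∀ i, G.coeff i ∈ h28_O p E) (hGe : ‖G.eval ζ‖ < 1) :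
    ¬ ‖G.derivative.eval ζ‖ < 1 := by
  intro hcon
  have hζ1 : ‖ζ‖ = 1 := h28_norm_root p n hn0 ζ hζ
  have hsub : (↑G.coeffs : Set Ω) ⊆ h28_O p E := by
    intro c hc
    obtain ⟨i, -, rfl⟩ := Polynomial.mem_coeffs_iff.mp hc
    exact hGc i
  set G₀ := G.toSubring (h28_O p E) hsub with hG₀
  have hG₀m : G₀.Monic := (Polynomial.monic_toSubring G (h28_O p E) hsub).2 hGm
  have hmap : G₀.map (h28_O p E).subtype = G := Polynomial.map_toSubring G (h28_O p E) hsub
  set P₀ : Polynomial (h28_O p E) := Polynomial.X ^ n - 1 with hP₀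
  set Q := (P₀ /ₘ G₀).map (h28_O p E).subtype with hQ
  set R := (P₀ %ₘ G₀).map (h28_O p E).subtype with hR
  have hid : R + G * Q = Polynomial.X ^ n - 1 := by
    have := congrArg (Polynomial.map (h28_O p E).subtype) (Polynomial.modByMonic_add_div P₀ G₀)
    rw [Polynomial.map_add, Polynomial.map_mul, hmap] at this
    rw [hR, hQ, this, hP₀]
    simp
  have hQc : ∀ i, ‖Q.coeff i‖ ≤ 1 := fun i => by
    rw [hQ, Polynomial.coeff_map]; exact ((P₀ /ₘ G₀).coeff i).2.2
  have hRO : ∀ i, R.coeff i ∈ h28_O p E := fun i => by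
    rw [hR, Polynomial.coeff_map]; exact ((P₀ %ₘ G₀).coeff i).2
  have hG1 : G₀ ≠ 1 := by
    intro h1
    rw [h1, Polynomial.map_one] at hmap
    rw [← hmap, Polynomial.eval_one, norm_one] at hGe
    exact lt_irrefl _ hGe
  have hRdeg : R.natDegree < f0 := by
    have h1 := Polynomial.natDegree_modByMonic_lt P₀ hG₀m hG1
    have h2 : G₀.natDegree = f0 := by rw [hG₀, Polynomial.natDegree_toSubring, hGd]
    have h3 : R.natDegree ≤ (P₀ %ₘ G₀).natDegree := Polynomial.natDegree_map_le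
    omega
  have hRe : ‖R.eval ζ‖ < 1 := by
    have h1 : R.eval ζ = - (G.eval ζ * Q.eval ζ) := by
      have := congrArg (Polynomial.eval ζ) hid
      rw [Polynomial.eval_add, Polynomial.eval_mul, Polynomial.eval_sub, Polynomial.eval_pow,
        Polynomial.eval_X, Polynomial.eval_one, hζ, sub_self] at this
      exact eq_neg_of_add_eq_zero_left this
    rw [h1, norm_neg, norm_mul]
    exact lt_of_le_of_lt (mul_le_of_le_one_right (norm_nonneg _)
      (h28_eval_le p Q hQc ζ hζ1.le)) hGe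
  have hRc : ∀ i, ‖R.coeff i‖ < 1 := by
    intro i
    by_cases hi : i < f0
    · refine h28_min p E ζ hζ1.le f0 hmin f0 le_rfl (fun i => R.coeff i) (fun j _ => hRO j) ?_ i hi
      rw [← Polynomial.eval_eq_sum_range' hRdeg]; exact hRe
    · rw [Polynomial.coeff_eq_zero_of_natDegree_lt (by omega), norm_zero]; exact one_pos
  have hder : R.derivative.eval ζ + (G.derivative.eval ζ * Q.eval ζ
      + G.eval ζ * Q.derivative.eval ζ) = (n : Ω) * ζ ^ (n - 1) := by
    have := congrArg (fun A => (Polynomial.derivative A).eval ζ) hid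
    simpa [Polynomial.derivative_mul, Polynomial.derivative_X_pow] using this
  have hL : ‖R.derivative.eval ζ + (G.derivative.eval ζ * Q.eval ζ
      + G.eval ζ * Q.derivative.eval ζ)‖ < 1 := by
    refine h28_norm_add_lt p _ _ 1 (h28_eval_lt p _ (h28_deriv_coeff_lt p R hRc) ζ hζ1.le)
      (h28_norm_add_lt p _ _ 1 ?_ ?_)
    · rw [norm_mul]
      exact lt_of_le_of_lt (mul_le_of_le_one_right (norm_nonneg _)
        (h28_eval_le p Q hQc ζ hζ1.le)) hcon
    · rw [norm_mul]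
      exact lt_of_le_of_lt (mul_le_of_le_one_right (norm_nonneg _)
        (h28_eval_le p _ (h28_deriv_coeff_le p Q hQc) ζ hζ1.le)) hGe
  rw [hder, norm_mul, norm_pow, hζ1, one_pow, mul_one, h28_norm_natCast_of_not_dvd p n hn] at hL
  exact lt_irrefl _ hL

/-! ## the step: adjoining a root of unity of order prime to `p` -/

/-- "unramified": all nonzero norms are integral powers of `p`. -/
def h28_Unram (E : Fld) : Prop := ∀ x ∈ E, x ≠ 0 → ∃ m : ℤ, ‖x‖ = (p : ℝ) ^ m

theorem h28_Xn_coeff (E : Fld) (n i : ℕ) :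
    (Polynomial.X ^ n - Polynomial.C 1 : Polynomial Ω).coeff i ∈ h28_O p E := by
  rw [Polynomial.coeff_sub, Polynomial.coeff_X_pow, Polynomial.coeff_C]
  refine (h28_O p E).sub_mem ?_ ?_ <;> split_ifs <;>
    first | exact (h28_O p E).one_mem | exact (h28_O p E).zero_mem

/-- STEP: an unramified finite subfield stays unramified (inside a finite subfield) after
adjoining a root of unity of order prime to `p`. -/
theorem h28_unram_step (E : Fld) [FiniteDimensional ℚ_[p] E] (hE : h28_Unram p E)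
    (n : ℕ) (hn0 : 0 < n) (hn : ¬ p ∣ n) (ζ : Ω) (hζ : ζ ^ n = 1) :
    ∃ K' : Fld, FiniteDimensional ℚ_[p] K' ∧ E ≤ K' ∧ ζ ∈ K' ∧ h28_Unram p K' := by
  classical
  have hζ1 : ‖ζ‖ = 1 := h28_norm_root p n hn0 ζ hζ
  have hex : ∃ d, h28_Good p E ζ d := by
    refine ⟨n, Polynomial.X ^ n - Polynomial.C 1, Polynomial.monic_X_pow_sub_C 1 hn0.ne',
      Polynomial.natDegree_X_pow_sub_C, h28_Xn_coeff p E n, ?_⟩
    simp [hζ]
  obtain ⟨G, hGm, hGd, hGc, hGe⟩ := Nat.find_spec hex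
  have hmin : ∀ d < Nat.find hex, ¬ h28_Good p E ζ d := fun d hd => Nat.find_min hex hd
  generalize Nat.find hex = f0 at hGd hmin
  have hG1 := h28_sep p E n hn0 hn ζ hζ f0 hmin G hGm hGd hGc hGe
  -- Hensel in `E(ζ)`
  have hζint : IsIntegral ℚ_[p] ζ := (Algebra.IsAlgebraic.isAlgebraic ζ).isIntegral
  have : FiniteDimensional ℚ_[p] ℚ_[p]⟮ζ⟯ := IntermediateField.adjoin.finiteDimensional hζint
  obtain ⟨θ, -, hθ0, hθζ⟩ := h28_hensel_sub p (E ⊔ ℚ_[p]⟮ζ⟯) G
    (fun i => (le_sup_left : E ≤ E ⊔ ℚ_[p]⟮ζ⟯) (hGc i).1) (fun i => (hGc i).2) ζ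
    ((le_sup_right : ℚ_[p]⟮ζ⟯ ≤ E ⊔ ℚ_[p]⟮ζ⟯) (IntermediateField.mem_adjoin_simple_self ℚ_[p] ζ))
    hζ1.le hGe hG1
  have hθ1 : ‖θ‖ = 1 := by
    refine le_antisymm ?_ (not_lt.1 fun hlt => ?_)
    · have : θ = ζ + (θ - ζ) := by ring
      rw [this]
      exact (IsUltrametricDist.norm_add_le_max _ _).trans (max_le hζ1.le hθζ.le)
    · have : ‖θ - (θ - ζ)‖ < 1 := h28_norm_sub_lt p _ _ 1 hlt hθζ
      rw [sub_sub_cancel, hζ1] at this
      exact lt_irrefl _ this
  -- minimality at `θ`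
  have hminθ : ∀ c : ℕ → Ω, (∀ i < f0, c i ∈ h28_O p E) →
      ‖∑ i ∈ Finset.range f0, c i * θ ^ i‖ < 1 → ∀ i < f0, ‖c i‖ < 1 := by
    intro c hc hsum
    refine h28_min p E ζ hζ1.le f0 hmin f0 le_rfl c hc ?_
    have hd : ‖∑ i ∈ Finset.range f0, c i * θ ^ i - ∑ i ∈ Finset.range f0, c i * ζ ^ i‖ < 1 := by
      rw [← Finset.sum_sub_distrib]
      refine h28_norm_sum_lt p _ _ 1 one_pos fun i hi => ?_
      rw [← mul_sub, norm_mul]
      exact lt_of_le_of_lt (mul_le_of_le_one_left (norm_nonneg _)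
        (hc i (Finset.mem_range.1 hi)).2)
        ((h28_norm_pow_sub_pow_le p θ ζ hθ1.le hζ1.le i).trans_lt hθζ)
    have := h28_norm_sub_lt p _ _ 1 hsum hd
    simpa using this
  -- the field `E(θ)`
  have hθint : IsIntegral ℚ_[p] θ := (Algebra.IsAlgebraic.isAlgebraic θ).isIntegral
  have : FiniteDimensional ℚ_[p] ℚ_[p]⟮θ⟯ := IntermediateField.adjoin.finiteDimensional hθint
  have hθK' : θ ∈ E ⊔ ℚ_[p]⟮θ⟯ :=
    (le_sup_right : ℚ_[p]⟮θ⟯ ≤ E ⊔ ℚ_[p]⟮θ⟯) (IntermediateField.mem_adjoin_simple_self ℚ_[p] θ)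
  refine ⟨E ⊔ ℚ_[p]⟮θ⟯, inferInstance, le_sup_left, ?_, ?_⟩
  · -- `ζ ∈ E(θ)` by Hensel for `X^n - 1`
    obtain ⟨ζ', hζ'K, hζ'0, hζ'θ⟩ := h28_hensel_sub p (E ⊔ ℚ_[p]⟮θ⟯)
      (Polynomial.X ^ n - Polynomial.C 1)
      (fun i => (le_sup_left : E ≤ E ⊔ ℚ_[p]⟮θ⟯) (h28_Xn_coeff p E n i).1)
      (fun i => (h28_Xn_coeff p E n i).2) θ hθK' hθ1.le
      (by
        have : Polynomial.eval θ (Polynomial.X ^ n - Polynomial.C 1 : Polynomial Ω)
            = θ ^ n - ζ ^ n := by simp [hζ]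
        rw [this]
        exact (h28_norm_pow_sub_pow_le p θ ζ hθ1.le hζ1.le n).trans_lt hθζ)
      (by
        have : Polynomial.eval θ (Polynomial.derivative
            (Polynomial.X ^ n - Polynomial.C 1 : Polynomial Ω)) = (n : Ω) * θ ^ (n - 1) := by
          simp [Polynomial.derivative_X_pow]
        rw [this, norm_mul, norm_pow, hθ1, one_pow, mul_one,
          h28_norm_natCast_of_not_dvd p n hn]
        exact lt_irrefl _)
    have hζ'n : ζ' ^ n = 1 := by
      have : Polynomial.eval ζ' (Polynomial.X ^ n - Polynomial.C 1 : Polynomial Ω)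
          = ζ' ^ n - 1 := by simp
      rw [this] at hζ'0
      exact sub_eq_zero.1 hζ'0
    have hclose : ‖ζ' - ζ‖ < 1 := by
      have : ζ' - ζ = (ζ' - θ) + (θ - ζ) := by ring
      rw [this]
      exact h28_norm_add_lt p _ _ 1 hζ'θ hθζ
    rw [← h28_root_eq_of_close p n hn0 hn ζ ζ' hζ hζ'n hclose]
    exact hζ'K
  · -- `E(θ)` is unramified
    intro x hx hx0
    rw [← IntermediateField.restrictScalars_adjoin_eq_sup,
      IntermediateField.mem_restrictScalars] at hx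
    have hθalgE : IsAlgebraic ↥E θ :=
      (Algebra.IsAlgebraic.isAlgebraic (R := ℚ_[p]) θ).tower_top ↥E
    have hx' : x ∈ (IntermediateField.adjoin ↥E {θ}).toSubalgebra := hx
    rw [IntermediateField.adjoin_simple_toSubalgebra_of_isAlgebraic hθalgE,
      Algebra.adjoin_singleton_eq_range_aeval] at hx'
    obtain ⟨a, rfl⟩ := hx'
    have hGl : G ∈ Polynomial.lifts (algebraMap ↥E Ω) := by
      rw [Polynomial.lifts_iff_coeff_lifts]
      intro i
      exact ⟨⟨G.coeff i, (hGc i).1⟩, rfl⟩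
    obtain ⟨GE, hGEmap, hGEdeg, hGEm⟩ := Polynomial.lifts_and_natDegree_eq_and_monic hGl hGm
    have hGEθ : Polynomial.aeval θ GE = 0 := by
      rw [← Polynomial.eval_map_algebraMap, hGEmap]; exact hθ0
    have hra : Polynomial.aeval θ a = Polynomial.aeval θ (a %ₘ GE) := by
      have := congrArg (Polynomial.aeval θ) (Polynomial.modByMonic_add_div a GE)
      rw [map_add, map_mul, hGEθ, zero_mul, add_zero] at this
      exact this.symm
    have hGE1 : GE ≠ 1 := by
      intro h1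
      rw [h1, map_one] at hGEθ
      exact one_ne_zero hGEθ
    have hrdeg : (a %ₘ GE).natDegree < f0 := by
      have := Polynomial.natDegree_modByMonic_lt a hGEm hGE1
      rw [hGEdeg, hGd] at this
      exact this
    set e : ℕ → Ω := fun i => (((a %ₘ GE).coeff i : ↥E) : Ω) with he
    have heE : ∀ i, e i ∈ E := fun i => ((a %ₘ GE).coeff i).2
    have hxsum : (Polynomial.aeval θ a : Ω) = ∑ i ∈ Finset.range f0, e i * θ ^ i := by
      rw [hra, Polynomial.aeval_eq_sum_range' hrdeg]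
      refine Finset.sum_congr rfl fun i _ => ?_
      rw [Algebra.smul_def]; rfl
    have hx0' : ∑ i ∈ Finset.range f0, e i * θ ^ i ≠ 0 := by
      rw [← hxsum]; exact hx0
    have hgoal : ∃ m : ℤ, ‖∑ i ∈ Finset.range f0, e i * θ ^ i‖ = (p : ℝ) ^ m := by
      have hne : (Finset.range f0).Nonempty := by
        rw [Finset.nonempty_range_iff]
        intro h0
        apply hx0'
        rw [h0]; simp
      obtain ⟨i0, hi0, hmax⟩ := Finset.exists_max_image (Finset.range f0) (fun i => ‖e i‖) hne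
      have hei0 : e i0 ≠ 0 := by
        intro h0
        apply hx0'
        refine Finset.sum_eq_zero fun i hi => ?_
        have h1 : ‖e i‖ ≤ 0 := by
          have := hmax i hi
          simpa [h0] using this
        rw [norm_le_zero_iff.1 h1, zero_mul]
      obtain ⟨m, hm⟩ := hE (e i0) (heE i0) hei0
      refine ⟨m, ?_⟩
      have hsE : ((p : Ω) ^ m) ∈ E := zpow_mem (natCast_mem E p) m
      have hsn : ‖((p : Ω) ^ m)‖ = ((p : ℝ) ^ m)⁻¹ := by
        rw [norm_zpow, h28_norm_p, inv_zpow]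
      have hppos : (0 : ℝ) < (p : ℝ) ^ m :=
        zpow_pos (by exact_mod_cast (Fact.out : p.Prime).pos) m
      have hcO : ∀ i < f0, (p : Ω) ^ m * e i ∈ h28_O p E := fun i hi =>
        ⟨E.mul_mem hsE (heE i), by
          rw [norm_mul, hsn, inv_mul_le_iff₀ hppos, mul_one, ← hm]
          exact hmax i (Finset.mem_range.2 hi)⟩
      have hc1 : ‖(p : Ω) ^ m * e i0‖ = 1 := by
        rw [norm_mul, hsn, hm, inv_mul_cancel₀ hppos.ne']
      have hsum1 : ‖∑ i ∈ Finset.range f0, (p : Ω) ^ m * e i * θ ^ i‖ = 1 := by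
        refine le_antisymm ?_ (not_lt.1 fun hlt => ?_)
        · refine h28_norm_sum_le p _ _ 1 zero_le_one fun i hi => ?_
          rw [norm_mul, norm_pow, hθ1, one_pow, mul_one]
          exact (hcO i (Finset.mem_range.1 hi)).2
        · have := hminθ (fun i => (p : Ω) ^ m * e i) hcO hlt i0 (Finset.mem_range.1 hi0)
          rw [hc1] at this
          exact lt_irrefl _ this
      have hfac : ∑ i ∈ Finset.range f0, (p : Ω) ^ m * e i * θ ^ i
          = (p : Ω) ^ m * ∑ i ∈ Finset.range f0, e i * θ ^ i := by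
        rw [Finset.mul_sum]
        exact Finset.sum_congr rfl fun i _ => by ring
      rw [hfac, norm_mul, hsn, inv_mul_eq_one₀ hppos.ne'] at hsum1
      exact hsum1.symm
    show ∃ m : ℤ, ‖(Polynomial.aeval θ a : Ω)‖ = (p : ℝ) ^ m
    rw [hxsum]
    exact hgoal

/-! ## the main theorem -/

theorem h28_unram_finset (T : Finset Ω)
    (hT : ∀ ζ ∈ T, ∃ n : ℕ, 0 < n ∧ ¬ p ∣ n ∧ ζ ^ n = 1) :
    ∃ K' : Fld, FiniteDimensional ℚ_[p] K' ∧ (∀ ζ ∈ T, ζ ∈ K') ∧ h28_Unram p K' := by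
  classical
  induction T using Finset.induction_on with
  | empty =>
    refine ⟨⊥, inferInstance, by simp, ?_⟩
    intro x hx hx0
    rw [IntermediateField.mem_bot] at hx
    obtain ⟨y, rfl⟩ := hx
    have hy0 : y ≠ 0 := by
      rintro rfl
      exact hx0 (map_zero _)
    refine ⟨-y.valuation, ?_⟩
    rw [PadicAlgCl.norm_extends, Padic.norm_eq_zpow_neg_valuation hy0]
  | insert ζ T hζT ih =>
    obtain ⟨K, hKfd, hKT, hKu⟩ := ih fun z hz => hT z (Finset.mem_insert_of_mem hz)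
    obtain ⟨n, hn0, hn, hζ⟩ := hT ζ (Finset.mem_insert_self ζ T)
    have := hKfd
    obtain ⟨K', hK'fd, hKK', hζK', hK'u⟩ := h28_unram_step p K hKu n hn0 hn ζ hζ
    refine ⟨K', hK'fd, ?_, hK'u⟩
    intro z hz
    rcases Finset.mem_insert.1 hz with rfl | hz
    · exact hζK'
    · exact hKK' (hKT z hz)

/-- **W3-B3b** (`sk_K0_unram`): `K₀(L)` is unramified. -/
theorem h28_K0_unram (L : Fld) [FiniteDimensional ℚ_[p] L] (c : Ω) (hc : c ∈ h78_K0 p L)
    (hc0 : c ≠ 0) : ∃ n : ℤ, ‖c‖ = (p : ℝ) ^ n := by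
  unfold h78_K0 at hc
  obtain ⟨T, hTS, hcT⟩ := IntermediateField.exists_finset_of_mem_adjoin hc
  obtain ⟨K', -, hTK', hK'u⟩ := h28_unram_finset p T (fun ζ hζ => (hTS hζ).2)
  refine hK'u c ?_ hc0
  exact (IntermediateField.adjoin_le_iff.2 fun z hz => hTK' z hz) hcT

end Fermat.Agent.S56
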