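import Mathlib

set_option autoImplicit false

/-!
# S56 / W4 (Taylor–Wiles primes): definitions for the group theory

`W = ad⁰ ρ̄ (1)` is modelled by trace-zero `2 × 2` matrices with the twisted adjoint action
`g • X = det g • (g X g⁻¹)`.  Cocycles are functions `GL₂(k) → M₂(k)` with the cocycle identity
required on a subgroup `G`.
-/

namespace Fermat.Agent.S56

open Matrix

variable {k : Type*} [Field k]

/-- The twisted adjoint action `g • X = det g • (g X g⁻¹)`. -/
noncomputable def h30_act (g : GL (Fin 2) k) (X : Matrix (Fin 2) (Fin 2) k) :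
    Matrix (Fin 2) (Fin 2) k :=
  ((Matrix.GeneralLinearGroup.det g : kˣ) : k) •
    ((g : Matrix (Fin 2) (Fin 2) k) * X * ((g⁻¹ : GL (Fin 2) k) : Matrix (Fin 2) (Fin 2) k))

theorem h30_act_one (X : Matrix (Fin 2) (Fin 2) k) : h30_act (1 : GL (Fin 2) k) X = X := by
  simp [h30_act]

theorem h30_act_mul (g h : GL (Fin 2) k) (X : Matrix (Fin 2) (Fin 2) k) :
    h30_act (g * h) X = h30_act g (h30_act h X) := by
  simp only [h30_act, map_mul, Units.val_mul, _root_.mul_inv_rev, Matrix.mul_smul, Matrix.smul_mul,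
    smul_smul, Matrix.mul_assoc]

theorem h30_act_add (g : GL (Fin 2) k) (X Y : Matrix (Fin 2) (Fin 2) k) :
    h30_act g (X + Y) = h30_act g X + h30_act g Y := by
  simp only [h30_act, Matrix.mul_add, Matrix.add_mul, smul_add]

theorem h30_act_zero (g : GL (Fin 2) k) : h30_act g (0 : Matrix (Fin 2) (Fin 2) k) = 0 := by
  simp [h30_act]

theorem h30_act_neg (g : GL (Fin 2) k) (X : Matrix (Fin 2) (Fin 2) k) :
    h30_act g (-X) = -h30_act g X := by
  simp [h30_act]

theorem h30_act_sub (g : GL (Fin 2) k) (X Y : Matrix (Fin 2) (Fin 2) k) :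
    h30_act g (X - Y) = h30_act g X - h30_act g Y := by
  simp only [h30_act, Matrix.mul_sub, Matrix.sub_mul, smul_sub]

theorem h30_act_smul (g : GL (Fin 2) k) (a : k) (X : Matrix (Fin 2) (Fin 2) k) :
    h30_act g (a • X) = a • h30_act g X := by
  simp only [h30_act, Matrix.mul_smul, Matrix.smul_mul, smul_smul, mul_comm]

theorem h30_act_sum {ι : Type*} (s : Finset ι) (g : GL (Fin 2) k)
    (f : ι → Matrix (Fin 2) (Fin 2) k) :
    h30_act g (∑ i ∈ s, f i) = ∑ i ∈ s, h30_act g (f i) := by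
  classical
  induction s using Finset.induction_on with
  | empty => simp [h30_act_zero]
  | insert a s ha ih => rw [Finset.sum_insert ha, Finset.sum_insert ha, h30_act_add, ih]

theorem h30_trace_act (g : GL (Fin 2) k) (X : Matrix (Fin 2) (Fin 2) k) :
    (h30_act g X).trace = ((Matrix.GeneralLinearGroup.det g : kˣ) : k) * X.trace := by
  rw [h30_act, Matrix.trace_smul, smul_eq_mul, Matrix.trace_mul_cycle]
  simp

/-- `tr ((g • X) * g) = det g * tr (X * g)`. -/
theorem h30_trace_act_mul_self (g : GL (Fin 2) k) (X : Matrix (Fin 2) (Fin 2) k) :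
    (h30_act g X * (g : Matrix (Fin 2) (Fin 2) k)).trace =
      ((Matrix.GeneralLinearGroup.det g : kˣ) : k) * (X * (g : Matrix (Fin 2) (Fin 2) k)).trace := by
  rw [h30_act, Matrix.smul_mul, Matrix.trace_smul, smul_eq_mul, Matrix.mul_assoc]
  have : ((g⁻¹ : GL (Fin 2) k) : Matrix (Fin 2) (Fin 2) k) * (g : Matrix (Fin 2) (Fin 2) k) = 1 := by
    rw [← Units.val_mul]; simp
  rw [this, Matrix.mul_one, Matrix.trace_mul_comm]

/-- Cocycles `G → W` (`W` = trace-zero matrices with the twisted adjoint action). -/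
structure h30_IsCocycle (G : Subgroup (GL (Fin 2) k))
    (c : GL (Fin 2) k → Matrix (Fin 2) (Fin 2) k) : Prop where
  trace_zero : ∀ g ∈ G, (c g).trace = 0
  map_mul : ∀ g ∈ G, ∀ h ∈ G, c (g * h) = c g + h30_act g (c h)

/-- Coboundaries. -/
def h30_IsCobdry (G : Subgroup (GL (Fin 2) k))
    (c : GL (Fin 2) k → Matrix (Fin 2) (Fin 2) k) : Prop :=
  ∃ w : Matrix (Fin 2) (Fin 2) k, w.trace = 0 ∧ ∀ g ∈ G, c g = h30_act g w - w

theorem h30_IsCocycle.map_one {G : Subgroup (GL (Fin 2) k)}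
    {c : GL (Fin 2) k → Matrix (Fin 2) (Fin 2) k} (hc : h30_IsCocycle G c) : c 1 = 0 := by
  have h := hc.map_mul 1 G.one_mem 1 G.one_mem
  rw [mul_one, h30_act_one] at h
  exact left_eq_add.mp h

/-- Subtracting a coboundary from a cocycle. -/
theorem h30_IsCocycle.sub_cobdry {G : Subgroup (GL (Fin 2) k)}
    {c : GL (Fin 2) k → Matrix (Fin 2) (Fin 2) k} (hc : h30_IsCocycle G c)
    (w : Matrix (Fin 2) (Fin 2) k) (hw : w.trace = 0) :
    h30_IsCocycle G (fun g => c g - (h30_act g w - w)) := by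
  refine ⟨fun g hg => ?_, fun g hg h hh => ?_⟩
  · rw [Matrix.trace_sub, Matrix.trace_sub, hc.trace_zero g hg, h30_trace_act, hw]; simp
  · rw [hc.map_mul g hg h hh, h30_act_mul, h30_act_sub, h30_act_sub]
    abel

theorem h30_IsCobdry.of_sub_cobdry {G : Subgroup (GL (Fin 2) k)}
    {c : GL (Fin 2) k → Matrix (Fin 2) (Fin 2) k}
    (w : Matrix (Fin 2) (Fin 2) k) (hw : w.trace = 0)
    (h : h30_IsCobdry G (fun g => c g - (h30_act g w - w))) : h30_IsCobdry G c := by
  obtain ⟨w', hw', h'⟩ := h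
  refine ⟨w' + w, by rw [Matrix.trace_add, hw', hw, add_zero], fun g hg => ?_⟩
  have := h' g hg
  simp only at this
  rw [h30_act_add]
  rw [sub_eq_iff_eq_add] at this
  rw [this]; abel

/-- Upper unitriangular elements. -/
noncomputable def h30_u (x : k) : GL (Fin 2) k :=
  Matrix.GeneralLinearGroup.mkOfDetNeZero !![1, x; 0, 1] (by simp [Matrix.det_fin_two])

/-- Lower unitriangular elements. -/
noncomputable def h30_l (y : k) : GL (Fin 2) k :=
  Matrix.GeneralLinearGroup.mkOfDetNeZero !![1, 0; y, 1] (by simp [Matrix.det_fin_two])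

@[simp] theorem h30_u_coe (x : k) :
    ((h30_u x : GL (Fin 2) k) : Matrix (Fin 2) (Fin 2) k) = !![1, x; 0, 1] := rfl

@[simp] theorem h30_l_coe (y : k) :
    ((h30_l y : GL (Fin 2) k) : Matrix (Fin 2) (Fin 2) k) = !![1, 0; y, 1] := rfl

theorem h30_u_add (x y : k) : h30_u (x + y) = h30_u x * h30_u y := by
  apply Units.ext
  simp only [Units.val_mul, h30_u_coe]
  ext i j; fin_cases i <;> fin_cases j <;> simp [Matrix.mul_apply, Fin.sum_univ_two, add_comm]

theorem h30_u_zero : h30_u (0 : k) = 1 := by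
  apply Units.ext
  simp only [h30_u_coe, Units.val_one]
  ext i j; fin_cases i <;> fin_cases j <;> simp

theorem h30_u_inv (x : k) : (h30_u x)⁻¹ = h30_u (-x) := by
  rw [inv_eq_iff_mul_eq_one, ← h30_u_add, add_neg_cancel, h30_u_zero]

@[simp] theorem h30_u_inv_coe (x : k) :
    (((h30_u x)⁻¹ : GL (Fin 2) k) : Matrix (Fin 2) (Fin 2) k) = !![1, -x; 0, 1] := by
  rw [h30_u_inv]; rfl

theorem h30_l_add (x y : k) : h30_l (x + y) = h30_l x * h30_l y := by
  apply Units.ext
  simp only [Units.val_mul, h30_l_coe]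
  ext i j; fin_cases i <;> fin_cases j <;> simp [Matrix.mul_apply, Fin.sum_univ_two, add_comm]

theorem h30_l_zero : h30_l (0 : k) = 1 := by
  apply Units.ext
  simp only [h30_l_coe, Units.val_one]
  ext i j; fin_cases i <;> fin_cases j <;> simp

theorem h30_l_inv (x : k) : (h30_l x)⁻¹ = h30_l (-x) := by
  rw [inv_eq_iff_mul_eq_one, ← h30_l_add, add_neg_cancel, h30_l_zero]

@[simp] theorem h30_l_inv_coe (x : k) :
    (((h30_l x)⁻¹ : GL (Fin 2) k) : Matrix (Fin 2) (Fin 2) k) = !![1, 0; -x, 1] := by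
  rw [h30_l_inv]; rfl

@[simp] theorem h30_det_u (x : k) : Matrix.GeneralLinearGroup.det (h30_u x) = 1 := by
  apply Units.ext
  simp [Matrix.GeneralLinearGroup.det, h30_u, Matrix.det_fin_two]

@[simp] theorem h30_det_l (y : k) : Matrix.GeneralLinearGroup.det (h30_l y) = 1 := by
  apply Units.ext
  simp [Matrix.GeneralLinearGroup.det, h30_l, Matrix.det_fin_two]

theorem h30_u_injective : Function.Injective (h30_u : k → GL (Fin 2) k) := by
  intro x y h
  have := congrArg (fun g : GL (Fin 2) k => (g : Matrix (Fin 2) (Fin 2) k) 0 1) h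
  simpa using this

/-- The action of `u_x` in coordinates. -/
theorem h30_act_u (x : k) (X : Matrix (Fin 2) (Fin 2) k) :
    h30_act (h30_u x) X =
      !![X 0 0 + x * X 1 0, X 0 1 + x * (X 1 1 - X 0 0) - x ^ 2 * X 1 0;
         X 1 0, X 1 1 - x * X 1 0] := by
  rw [h30_act, h30_det_u, Units.val_one, one_smul, h30_u_coe, h30_u_inv_coe]
  conv_lhs => rw [Matrix.eta_fin_two X]
  rw [Matrix.mul_fin_two, Matrix.mul_fin_two]
  ext i j; fin_cases i <;> fin_cases j <;> simp <;> ring

/-- Every `2 × 2` matrix of trace zero in coordinates. -/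
theorem h30_eta_trace_zero (X : Matrix (Fin 2) (Fin 2) k) (hX : X.trace = 0) :
    X = !![X 0 0, X 0 1; X 1 0, -X 0 0] := by
  rw [Matrix.trace_fin_two] at hX
  have h11 : X 1 1 = -X 0 0 := by linear_combination hX
  ext i j; fin_cases i <;> fin_cases j <;> simp [h11]

end Fermat.Agent.S56
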