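import Mathlib
import Fermat.Agent.S54.Frob
import Fermat.Agent.S13.h6_Mink
import Fermat.Agent.GAL.h31_WChebQbar
import Fermat.Agent.S56.h30_TWDefs

set_option autoImplicit false

/-!
# S56 / W4, row G8-INDEP: independence of the choice of the place and of the Frobenius lift

`Gal(ℚ̄/ℚ)` acts transitively on the valuation subrings of `ℚ̄` over a prime `q`; two Frobenius
elements at the same valuation subring differ by inertia.  Hence, for `ρ` and an `ad⁰(1)`-cocycle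
`ψ` unramified at `q`, the conjugacy class of `ρ(Frob)` and the property
`ψ(Frob) ∈ (ρ(Frob) - 1) W` do not depend on the choices.
-/

namespace Fermat.Agent.S56

open Fermat.Agent.S54 Fermat.Agent.GAL
open scoped Pointwise

local notation "Qb" => AlgebraicClosure ℚ

attribute [local instance] isAlgebraicQbar isAlgClosureQbar normalQbar isGaloisQbar
attribute [local instance] algIntAction algIntTopology algInt_discreteTopology
  algInt_smulCommClass algInt_isInvariant algInt_continuousSMul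

/-- Two-subring version of `S54.smul_mem_valuationSubring`. -/
theorem h30_map_mem (v v' : ValuationSubring Qb) (ℓ : ℕ) (hℓ : ℓ.Prime) (hv : v.LiesOverPrime ℓ)
    (h : Qb ≃ₐ[ℚ] Qb) (hh : h • centre v = centre v') (x : Qb) (hx : x ∈ v) : h x ∈ v' := by
  obtain ⟨s, hs, hsx⟩ := exists_unit_mul_isIntegral v ℓ hℓ hv x hx
  have hs' : h • s ∉ centre v' := by
    intro hmem
    apply hs
    rw [← hh] at hmem
    exact Ideal.smul_mem_pointwise_smul_iff.mp hmem
  have hunit : IsUnit (toVal v' (h • s)) := by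
    rw [mem_centre_iff] at hs'
    exact IsLocalRing.notMem_maximalIdeal.mp hs'
  obtain ⟨u, hu⟩ := hunit
  have hb : h ((s : Qb) * x) ∈ v' :=
    mem_valuationSubring_of_isIntegral v' (map_isIntegral_int h hsx)
  have hu' : ((u : v') : Qb) = h (s : Qb) := by
    rw [hu]; rfl
  have key : h x = (((u⁻¹ : (v')ˣ) : v') : Qb) * h ((s : Qb) * x) := by
    have hinv : (((u⁻¹ : (v')ˣ) : v') : Qb) * h (s : Qb) = 1 := by
      rw [← hu']
      have h1 : (((u⁻¹ : (v')ˣ) : v') * (u : v') : v') = 1 := Units.inv_mul u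
      exact congrArg Subtype.val h1
    rw [map_mul, ← mul_assoc, hinv, one_mul]
  rw [key]
  exact v'.mul_mem _ _ (SetLike.coe_mem _) hb

/-- `Gal(ℚ̄/ℚ)` is transitive on the valuation subrings of `ℚ̄` over a prime. -/
theorem h30_exists_smul_eq (A A' : ValuationSubring Qb) (ℓ : ℕ) (hℓ : ℓ.Prime)
    (hA : A.LiesOverPrime ℓ) (hA' : A'.LiesOverPrime ℓ) :
    ∃ τ : Qb ≃ₐ[ℚ] Qb, A' = τ • A := by
  have := centre_isPrime A
  have := centre_isPrime A'
  have key : ∀ v : ValuationSubring Qb, v.LiesOverPrime ℓ → ∀ c : ℤ,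
      (algebraMap ℤ (integralClosure ℤ Qb) c ∈ centre v ↔ (ℓ : ℤ) ∣ c) := by
    intro v hv c
    constructor
    · intro h
      by_contra hc
      exact intCast_notMem_centre v ℓ hℓ hv c hc h
    · rintro ⟨d, rfl⟩
      rw [map_mul]
      apply Ideal.mul_mem_right
      have := natCast_mem_centre v ℓ hv
      simpa using this
  have hunder : (centre A).under ℤ = (centre A').under ℤ := by
    ext c
    rw [Ideal.under_def, Ideal.under_def, Ideal.mem_comap, Ideal.mem_comap, key A hA, key A' hA']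
  obtain ⟨g, hg⟩ := Algebra.IsInvariant.exists_smul_of_under_eq_of_profinite (A := ℤ)
    (G := Qb ≃ₐ[ℚ] Qb) (centre A) (centre A') hunder
  refine ⟨g, ?_⟩
  have hg' : g⁻¹ • centre A' = centre A := by rw [hg, inv_smul_smul]
  apply SetLike.ext
  intro x
  rw [ValuationSubring.mem_pointwise_smul_iff_inv_smul_mem]
  constructor
  · intro hx
    exact h30_map_mem A' A ℓ hℓ hA' g⁻¹ hg' x hx
  · intro hx
    have := h30_map_mem A A' ℓ hℓ hA g hg.symm _ hx
    simpa using this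

theorem h30_nonunits_sub (A : ValuationSubring Qb) {x y : Qb} (hx : x ∈ A.nonunits)
    (hy : y ∈ A.nonunits) : x - y ∈ A.nonunits := by
  rw [ValuationSubring.mem_nonunits_iff] at hx hy ⊢
  exact lt_of_le_of_lt (Valuation.map_sub _ _ _) (max_lt hx hy)

/-- `τ⁻¹` maps the nonunits of `τ • A` to the nonunits of `A`. -/
theorem h30_smul_nonunits (A : ValuationSubring Qb) (τ : Qb ≃ₐ[ℚ] Qb) {x : Qb}
    (hx : x ∈ (τ • A).nonunits) : τ⁻¹ x ∈ A.nonunits := by
  rw [ValuationSubring.mem_nonunits_iff_or] at hx ⊢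
  rcases hx with rfl | hx
  · left; simp
  · right
    intro h
    apply hx
    rw [ValuationSubring.mem_pointwise_smul_iff_inv_smul_mem]
    show τ⁻¹ x⁻¹ ∈ A
    rw [map_inv₀]
    exact h

/-- Two Frobenius elements at the same valuation subring differ by inertia. -/
theorem h30_frob_inertia (A : ValuationSubring Qb) (q : ℕ) (φ φ' : Qb ≃ₐ[ℚ] Qb)
    (h : A.IsFrobeniusAt φ q) (h' : A.IsFrobeniusAt φ' q) :
    φ⁻¹ * φ' ∈ A.inertiaSubgroupIn ℚ := by
  rw [h31_isFrobeniusAt_iff] at h h'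
  obtain ⟨hφ, hx⟩ := h
  obtain ⟨hφ', hx'⟩ := h'
  have hinv : φ⁻¹ ∈ A.decompositionSubgroup ℚ := inv_mem hφ
  have hinvA : φ⁻¹ • A = A := MulAction.mem_stabilizer_iff.mp hinv
  apply Fermat.Agent.S13.h6_mem_inertia_of
  · exact MulAction.mem_stabilizer_iff.mp (mul_mem hinv hφ')
  · intro x hxA
    have h1 : φ' x - φ x ∈ A.nonunits := by
      have := h30_nonunits_sub A (hx' x hxA) (hx x hxA)
      simpa using this
    have h1' : φ' x - φ x ∈ (φ • A).nonunits := by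
      rw [MulAction.mem_stabilizer_iff.mp hφ]; exact h1
    have h2 := h30_smul_nonunits A φ h1'
    have e : φ⁻¹ (φ' x - φ x) = (φ⁻¹ * φ') x - x := by
      rw [map_sub]
      simp [AlgEquiv.mul_apply]
    rw [e] at h2
    exact h2

/-- Conjugation transport of Frobenius elements. -/
theorem h30_frob_conj (A : ValuationSubring Qb) (q : ℕ) (τ φ' : Qb ≃ₐ[ℚ] Qb)
    (h' : (τ • A).IsFrobeniusAt φ' q) : A.IsFrobeniusAt (τ⁻¹ * φ' * τ) q := by
  rw [h31_isFrobeniusAt_iff] at h' ⊢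
  obtain ⟨hφ', hx'⟩ := h'
  constructor
  · rw [MulAction.mem_stabilizer_iff, mul_smul, mul_smul, MulAction.mem_stabilizer_iff.mp hφ',
      inv_smul_smul]
  · intro a ha
    have ha' : τ a ∈ τ • A := ValuationSubring.smul_mem_pointwise_smul τ a A ha
    have h1 := h30_smul_nonunits A τ (hx' (τ a) ha')
    have e : τ⁻¹ (φ' (τ a) - τ a ^ q) = (τ⁻¹ * φ' * τ) a - a ^ q := by
      rw [map_sub, map_pow]
      simp [AlgEquiv.mul_apply]
    rw [e] at h1
    exact h1

open Matrix in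
/-- **G8-INDEP**.  For `ρ` and an `ad⁰(1)`-cocycle `ψ`, both unramified at the prime `q`: the
conjugacy class of `ρ(Frob_q)` and the triviality of `ψ` on `Frob_q` do not depend on the
valuation subring over `q` nor on the Frobenius lift. -/
theorem h30_frob_indep {k : Type*} [Field k] (ρ : (Qb ≃ₐ[ℚ] Qb) →* GL (Fin 2) k)
    (ψ : (Qb ≃ₐ[ℚ] Qb) → Matrix (Fin 2) (Fin 2) k)
    (htr : ∀ σ, (ψ σ).trace = 0)
    (hψ : ∀ σ τ, ψ (σ * τ) = ψ σ + h30_act (ρ σ) (ψ τ))
    (q : ℕ) (hq : q.Prime)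
    (hunr : ∀ A : ValuationSubring Qb, A.LiesOverPrime q →
      ∀ σ ∈ A.inertiaSubgroupIn ℚ, ρ σ = 1 ∧ ψ σ = 0)
    (A : ValuationSubring Qb) (φ : Qb ≃ₐ[ℚ] Qb) (hA : A.LiesOverPrime q)
    (hφ : A.IsFrobeniusAt φ q)
    (A' : ValuationSubring Qb) (φ' : Qb ≃ₐ[ℚ] Qb) (hA' : A'.LiesOverPrime q)
    (hφ' : A'.IsFrobeniusAt φ' q) :
    ∃ τ : Qb ≃ₐ[ℚ] Qb, ρ φ' = ρ τ * ρ φ * (ρ τ)⁻¹ ∧
      ∀ w' : Matrix (Fin 2) (Fin 2) k, w'.trace = 0 → ψ φ' = h30_act (ρ φ') w' - w' →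
        ∃ w : Matrix (Fin 2) (Fin 2) k, w.trace = 0 ∧ ψ φ = h30_act (ρ φ) w - w := by
  obtain ⟨τ, rfl⟩ := h30_exists_smul_eq A A' q hq hA hA'
  have hx := h30_frob_conj A q τ φ' hφ'
  obtain ⟨hρι, hψι⟩ := hunr A hA _ (h30_frob_inertia A q φ _ hφ hx)
  -- `x = τ⁻¹ φ' τ = φ ι`
  have hρx : ρ (τ⁻¹ * φ' * τ) = ρ φ := by
    have : ρ (φ * (φ⁻¹ * (τ⁻¹ * φ' * τ))) = ρ φ := by rw [map_mul, hρι, mul_one]
    rwa [mul_inv_cancel_left] at this
  have hψx : ψ (τ⁻¹ * φ' * τ) = ψ φ := by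
    have : ψ (φ * (φ⁻¹ * (τ⁻¹ * φ' * τ))) = ψ φ := by rw [hψ, hψι, h30_act_zero, add_zero]
    rwa [mul_inv_cancel_left] at this
  have hρφ' : ρ φ' = ρ τ * ρ φ * (ρ τ)⁻¹ := by
    rw [← hρx, map_mul, map_mul, map_inv]
    group
  refine ⟨τ, hρφ', fun w' hw' hcob => ?_⟩
  have h1 : ψ 1 = 0 := by
    have := hψ 1 1
    rw [mul_one, map_one, h30_act_one] at this
    exact left_eq_add.mp this
  have hinv : ψ τ⁻¹ = -h30_act (ρ τ)⁻¹ (ψ τ) := by
    have := hψ τ⁻¹ τ
    rw [inv_mul_cancel, h1, map_inv] at this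
    exact eq_neg_of_add_eq_zero_left this.symm
  -- ψ φ' in terms of ψ x
  have e1 : ψ φ' = ψ τ + h30_act (ρ τ) (ψ φ) - h30_act (ρ φ') (ψ τ) := by
    have e : φ' = τ * (τ⁻¹ * φ' * τ) * τ⁻¹ := by group
    conv_lhs => rw [e]
    rw [hψ, hψ, hψx, hinv, h30_act_neg, ← h30_act_mul, map_mul, hρx, hρφ']
    rw [sub_eq_add_neg]
  refine ⟨h30_act (ρ τ)⁻¹ (w' + ψ τ), ?_, ?_⟩
  · rw [h30_trace_act, Matrix.trace_add, hw', htr, add_zero, mul_zero]
  · have e2 : h30_act (ρ τ) (ψ φ) = h30_act (ρ φ') (w' + ψ τ) - (w' + ψ τ) := by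
      rw [h30_act_add]
      rw [e1] at hcob
      rw [← sub_eq_zero] at hcob ⊢
      rw [← hcob]
      abel
    have e3 := congrArg (h30_act (ρ τ)⁻¹) e2
    rw [← h30_act_mul, inv_mul_cancel, h30_act_one, h30_act_sub, ← h30_act_mul] at e3
    rw [e3, ← h30_act_mul]
    congr 2
    rw [hρφ']
    group

end Fermat.Agent.S56
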