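/-
S56 / W3-B3a (helper49): the unramified part `K₀(L)` - Teichmüller half.
`h49_K0_res`, `h49_J_res` = skeleton statements `sk_K0_res`, `sk_J_res` verbatim.
Route: the unit ball of the finite extension `L` is compact, so two powers of a unit `x` are
congruent; Frobenius is injective on residue classes, so `x ^ n ≡ 1` with `p ∤ n`; Hensel in the
complete field `L` gives a root of unity `ζ ∈ L` of order dividing `n` with `‖ζ - x‖ < 1`.
-/
import Fermat.Agent.S56.h49_K0Basic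
import Fermat.Agent.S55.h6_Hensel

set_option autoImplicit false

namespace Fermat.Agent.S56

variable (p : ℕ) [Fact p.Prime]

local notation "Ω" => PadicAlgCl p
local notation "Fld" => IntermediateField ℚ_[p] (PadicAlgCl p)

/-- the unit ball of `Ω` as a subring. -/
def h49_ball : Subring Ω where
  carrier := {x | ‖x‖ ≤ 1}
  mul_mem' := fun {x y} hx hy => by
    change ‖x * y‖ ≤ 1
    rw [norm_mul]
    exact mul_le_one₀ hx (norm_nonneg _) hy
  one_mem' := by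
    change ‖(1 : Ω)‖ ≤ 1
    rw [norm_one]
  add_mem' := fun {x y} hx hy =>
    (IsUltrametricDist.norm_add_le_max x y).trans (max_le hx hy)
  zero_mem' := by
    change ‖(0 : Ω)‖ ≤ 1
    rw [norm_zero]
    exact zero_le_one
  neg_mem' := fun {x} hx => by
    change ‖-x‖ ≤ 1
    rw [norm_neg]
    exact hx

theorem h49_mem_ball (x : Ω) : x ∈ h49_ball p ↔ ‖x‖ ≤ 1 := Iff.rfl

theorem h49_norm_natCast (n : ℕ) : ‖(n : Ω)‖ = ‖(n : ℚ_[p])‖ := by
  rw [← norm_algebraMap' Ω (n : ℚ_[p]), map_natCast]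

theorem h49_norm_p_lt_one : ‖(p : Ω)‖ < 1 := by
  rw [h49_norm_natCast]
  exact Padic.norm_natCast_lt_one_iff.2 dvd_rfl

/-- Frobenius is injective on residue classes: `y ^ (p ^ a) ≡ 1 ⟹ y ≡ 1`. -/
theorem h49_frob_inj (y : Ω) (hy : ‖y‖ ≤ 1) (a : ℕ) (h : ‖y ^ (p ^ a) - 1‖ < 1) :
    ‖y - 1‖ < 1 := by
  have hy1 : y - 1 ∈ h49_ball p := Subring.sub_mem _ hy (Subring.one_mem _)
  obtain ⟨r, hr⟩ := exists_add_pow_prime_pow_eq (Fact.out : p.Prime)
    (⟨y - 1, hy1⟩ : h49_ball p) 1 a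
  have hr' : y ^ (p ^ a) = (y - 1) ^ (p ^ a) + 1 + p * (y - 1) * (r : Ω) := by
    have h2 := congrArg (Subtype.val) hr
    simpa using h2
  have h3 : (y - 1) ^ (p ^ a) = (y ^ (p ^ a) - 1) + -((p : Ω) * (y - 1) * r) := by
    rw [hr']; ring
  have h4 : ‖(y - 1) ^ (p ^ a)‖ < 1 := by
    rw [h3]
    refine lt_of_le_of_lt (IsUltrametricDist.norm_add_le_max _ _) (max_lt h ?_)
    rw [norm_neg, norm_mul, norm_mul]
    have hp1 := h49_norm_p_lt_one p
    have hr1 : ‖(r : Ω)‖ ≤ 1 := r.2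
    have hy1' : ‖y - 1‖ ≤ 1 := hy1
    calc ‖(p : Ω)‖ * ‖y - 1‖ * ‖(r : Ω)‖ ≤ ‖(p : Ω)‖ * 1 * 1 := by
          gcongr
      _ < 1 := by simpa using hp1
  by_contra hcon
  rw [not_lt] at hcon
  rw [norm_pow] at h4
  exact absurd h4 (not_lt.2 (one_le_pow₀ hcon))

/-- compactness of the unit ball of `L`: two powers of a unit are congruent. -/
theorem h49_exists_pow_near_one (L : Fld) [FiniteDimensional ℚ_[p] L] (x : Ω) (hx : x ∈ L)
    (hx1 : ‖x‖ = 1) : ∃ m : ℕ, 0 < m ∧ ‖x ^ m - 1‖ < 1 := by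
  have : ProperSpace L := FiniteDimensional.proper ℚ_[p] L
  have hcomp : IsCompact (Metric.closedBall (0 : L) 1) := isCompact_closedBall 0 1
  obtain ⟨t, htfin, hcov⟩ := Metric.totallyBounded_iff.1 hcomp.totallyBounded 1 one_pos
  have hex : ∀ i : ℕ, ∃ y : t, ‖x ^ i - ((y : L) : Ω)‖ < 1 := by
    intro i
    have hmem : (⟨x, hx⟩ : L) ^ i ∈ Metric.closedBall (0 : L) 1 := by
      rw [mem_closedBall_zero_iff]
      show ‖x ^ i‖ ≤ 1
      rw [norm_pow, hx1, one_pow]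
    have h2 := hcov hmem
    simp only [Set.mem_iUnion, Metric.mem_ball] at h2
    obtain ⟨y, hy, hd⟩ := h2
    refine ⟨⟨y, hy⟩, ?_⟩
    rw [dist_eq_norm] at hd
    exact hd
  choose f hf using hex
  have : Finite t := htfin.to_subtype
  obtain ⟨i, j, hij, hfij⟩ := Finite.exists_ne_map_eq_of_infinite f
  have hd : ‖x ^ i - x ^ j‖ < 1 := by
    have h3 : x ^ i - x ^ j = (x ^ i - ((f i : L) : Ω)) + -(x ^ j - ((f j : L) : Ω)) := by
      rw [hfij]; ring
    rw [h3]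
    refine lt_of_le_of_lt (IsUltrametricDist.norm_add_le_max _ _) (max_lt (hf i) ?_)
    rw [norm_neg]; exact hf j
  have key : ∀ i j : ℕ, i < j → ‖x ^ i - x ^ j‖ < 1 → ∃ m : ℕ, 0 < m ∧ ‖x ^ m - 1‖ < 1 := by
    intro i j hlt hd
    refine ⟨j - i, Nat.sub_pos_of_lt hlt, ?_⟩
    have h4 : x ^ i - x ^ j = -(x ^ i * (x ^ (j - i) - 1)) := by
      have : x ^ j = x ^ i * x ^ (j - i) := by
        rw [← pow_add, Nat.add_sub_cancel' hlt.le]
      rw [this]; ring
    rw [h4, norm_neg, norm_mul, norm_pow, hx1, one_pow, one_mul] at hd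
    exact hd
  rcases lt_or_gt_of_ne hij with h | h
  · exact key i j h hd
  · exact key j i h (by rw [← norm_neg]; simpa using hd)

/-- B3.1 Teichmüller: `L` and `K₀(L)` have the same residue field. -/
theorem h49_K0_res (L : Fld) [FiniteDimensional ℚ_[p] L] (x : Ω) (hx : x ∈ L) (hx1 : ‖x‖ ≤ 1) :
    ∃ c ∈ h78_K0 p L, ‖x - c‖ < 1 := by
  by_cases hlt : ‖x‖ < 1
  · exact ⟨0, zero_mem _, by simpa using hlt⟩
  have hxe : ‖x‖ = 1 := le_antisymm hx1 (not_lt.1 hlt)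
  obtain ⟨m, hm, hxm⟩ := h49_exists_pow_near_one p L x hx hxe
  obtain ⟨a, n, hpn, rfl⟩ :=
    Nat.exists_eq_pow_mul_and_not_dvd hm.ne' p (Fact.out : p.Prime).ne_one
  have hn : 0 < n := by
    rcases Nat.eq_zero_or_pos n with h | h
    · subst h; simp at hm
    · exact h
  have hxn : ‖x ^ n - 1‖ < 1 := by
    apply h49_frob_inj p (x ^ n) (by rw [norm_pow, hxe, one_pow]) a
    rw [← pow_mul, mul_comm]; exact hxm
  have : CompleteSpace L := FiniteDimensional.complete ℚ_[p] L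
  have hna : ∀ u v : L, ‖u + v‖ ≤ max ‖u‖ ‖v‖ := fun u v =>
    IsUltrametricDist.norm_add_le_max (u : Ω) (v : Ω)
  have hF : ∀ i, ‖((Polynomial.X : Polynomial L) ^ n - 1).coeff i‖ ≤ 1 := by
    intro i
    rw [Polynomial.coeff_sub, Polynomial.coeff_X_pow, Polynomial.coeff_one]
    split_ifs <;> simp
  have h0 : ‖((Polynomial.X : Polynomial L) ^ n - 1).eval (⟨x, hx⟩ : L)‖ < 1 := by
    rw [Polynomial.eval_sub, Polynomial.eval_pow, Polynomial.eval_X, Polynomial.eval_one]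
    exact hxn
  have h1 : ¬ ‖(Polynomial.derivative ((Polynomial.X : Polynomial L) ^ n - 1)).eval
      (⟨x, hx⟩ : L)‖ < 1 := by
    rw [Polynomial.derivative_sub, Polynomial.derivative_X_pow, Polynomial.derivative_one,
      sub_zero, Polynomial.eval_mul, Polynomial.eval_C, Polynomial.eval_pow, Polynomial.eval_X]
    have h5 : ‖((n : L) * (⟨x, hx⟩ : L) ^ (n - 1) : L)‖ = ‖(n : ℚ_[p])‖ := by
      show ‖((n : Ω) * x ^ (n - 1) : Ω)‖ = ‖(n : ℚ_[p])‖
      rw [norm_mul, norm_pow, hxe, one_pow, mul_one, h49_norm_natCast]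
    rw [h5]
    exact fun hlt' => hpn (Padic.norm_natCast_lt_one_iff.1 hlt')
  obtain ⟨b, hb, hbx⟩ := Fermat.Agent.S55.h6_hensel_normed hna _ hF (⟨x, hx⟩ : L) hxe.le h0 h1
  refine ⟨(b : Ω), ?_, ?_⟩
  · apply IntermediateField.subset_adjoin
    refine ⟨b.2, n, hn, hpn, ?_⟩
    rw [Polynomial.eval_sub, Polynomial.eval_pow, Polynomial.eval_X, Polynomial.eval_one,
      sub_eq_zero] at hb
    have h6 := congrArg (Subtype.val) hb
    simpa using h6
  · have h7 : ‖((b : Ω) - x)‖ < 1 := hbx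
    rw [← norm_neg]; simpa using h7

/-- B3.4 `J_L` acts trivially on the residue field of `L`. -/
theorem h49_J_res (L : Fld) [FiniteDimensional ℚ_[p] L] (g : h78_G p) (hg : g ∈ h78_J p L)
    (x : Ω) (hx : x ∈ L) (hx1 : ‖x‖ ≤ 1) : ‖g x - x‖ < 1 :=
  h49_J_res_of p L (fun x hx hx1 => h49_K0_res p L x hx hx1) g hg x hx hx1

end Fermat.Agent.S56
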