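/-
S56 / W3 row B0 (BASICS), helper62.  Statements verbatim from the W3 skeleton of helper78
(`sk_` renamed `h62_`): norm of `p`, integrality of points of finite `ℤ_(p)`-algebras,
the distinct-norms lemma, closedness of finite subfields, and the Galois correspondence
for `Ω = PadicAlgCl p` over `ℚ_p`.
-/
import Fermat.Agent.S56.h78_W3Defs

set_option autoImplicit false

open Coalgebra WithConv

namespace Fermat.Agent.S56

variable (p : ℕ) [Fact p.Prime]

local notation "Ω" => PadicAlgCl p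
local notation "Fld" => IntermediateField ℚ_[p] (PadicAlgCl p)

/-! ## B0 : basics -/

/-- B0.1 -/
theorem h62_norm_p : ‖(p : Ω)‖ = (p : ℝ)⁻¹ := by
  rw [← map_natCast (algebraMap ℚ_[p] (PadicAlgCl p)), PadicAlgCl.norm_extends, Padic.norm_p]

/-- the norm of a rational number in `Ω` is its `p`-adic norm. -/
theorem h62_norm_ratCast (q : ℚ) : ‖(q : Ω)‖ = ‖(q : ℚ_[p])‖ := by
  rw [← map_ratCast (algebraMap ℚ_[p] (PadicAlgCl p)), PadicAlgCl.norm_extends]

/-- elements of `ℤ_(p)` have norm `≤ 1` in `Ω`. -/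
theorem h62_norm_algebraMap_Zp_le_one (a : h78_Zp p) : ‖algebraMap (h78_Zp p) Ω a‖ ≤ 1 := by
  have h1 : algebraMap (h78_Zp p) Ω a = ((a : ℚ) : Ω) := by
    show algebraMap ℚ Ω (a : ℚ) = _
    exact eq_ratCast _ _
  rw [h1, h62_norm_ratCast]
  apply Padic.norm_rat_le_one
  have hp : p.Prime := Fact.out
  have h2 : (a : ℚ).den.Coprime p := a.2
  rw [Nat.coprime_comm, Nat.Prime.coprime_iff_not_dvd hp] at h2
  exact h2

/-- a root of a monic polynomial with coefficients of norm `≤ 1` has norm `≤ 1`. -/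
theorem h62_norm_le_one_of_monic_root (f : Polynomial Ω) (hf : f.Monic)
    (hc : ∀ n, ‖f.coeff n‖ ≤ 1) (x : Ω) (hx : f.eval x = 0) : ‖x‖ ≤ 1 := by
  by_contra hlt
  rw [not_le] at hlt
  have h1 := hf.as_sum
  have h2 : x ^ f.natDegree = - ∑ i ∈ Finset.range f.natDegree, f.coeff i * x ^ i := by
    have h3 := hx
    rw [h1] at h3
    simp only [Polynomial.eval_add, Polynomial.eval_pow, Polynomial.eval_X,
      Polynomial.eval_finsetSum, Polynomial.eval_mul, Polynomial.eval_C] at h3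
    exact eq_neg_of_add_eq_zero_left h3
  have hn : f.natDegree ≠ 0 := by
    intro h0
    rw [h0] at h2
    simp at h2
  have h4 : ‖∑ i ∈ Finset.range f.natDegree, f.coeff i * x ^ i‖ ≤ ‖x‖ ^ (f.natDegree - 1) := by
    apply IsUltrametricDist.norm_sum_le_of_forall_le_of_nonneg (by positivity)
    intro i hi
    rw [norm_mul, norm_pow]
    have hi' : i ≤ f.natDegree - 1 := by
      have := Finset.mem_range.1 hi
      omega
    calc ‖f.coeff i‖ * ‖x‖ ^ i ≤ 1 * ‖x‖ ^ (f.natDegree - 1) := by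
          apply mul_le_mul (hc i) (pow_le_pow_right₀ hlt.le hi') (by positivity) (by norm_num)
      _ = ‖x‖ ^ (f.natDegree - 1) := one_mul _
  have h5 : ‖x‖ ^ f.natDegree ≤ ‖x‖ ^ (f.natDegree - 1) := by
    rw [← norm_pow, h2, norm_neg]
    exact h4
  have h6 : ‖x‖ ^ (f.natDegree - 1) < ‖x‖ ^ f.natDegree :=
    pow_lt_pow_right₀ hlt (by omega)
  exact absurd h5 (not_le.2 h6)

/-- B0.2 integrality of points. -/
theorem h62_point_norm_le_one {H : Type} [CommRing H] [Algebra (h78_Zp p) H]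
    [Module.Finite (h78_Zp p) H] (γ : H →ₐ[h78_Zp p] Ω) (h : H) : ‖γ h‖ ≤ 1 := by
  have hint : IsIntegral (h78_Zp p) h := Algebra.IsIntegral.isIntegral h
  obtain ⟨g, hg, hg0⟩ := hint
  apply h62_norm_le_one_of_monic_root p (g.map (algebraMap (h78_Zp p) Ω)) (hg.map _)
  · intro n
    rw [Polynomial.coeff_map]
    exact h62_norm_algebraMap_Zp_le_one p _
  · rw [Polynomial.eval_map, ← Polynomial.aeval_def, Polynomial.aeval_algHom_apply,
      Polynomial.aeval_def, hg0, map_zero]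

/-- B0.3 distinct norms. -/
theorem h62_norm_sum_of_distinct {ι : Type} (s : Finset ι) (f : ι → Ω)
    (hd : ∀ i ∈ s, ∀ j ∈ s, i ≠ j → f i ≠ 0 → ‖f i‖ ≠ ‖f j‖) (i : ι) (hi : i ∈ s) :
    ‖f i‖ ≤ ‖∑ j ∈ s, f j‖ := by
  classical
  by_cases hfi : f i = 0
  · rw [hfi, norm_zero]; exact norm_nonneg _
  -- an index of maximal norm
  obtain ⟨j0, hj0, hmax⟩ := Finset.exists_max_image s (fun j => ‖f j‖) ⟨i, hi⟩
  have hpos : 0 < ‖f j0‖ := lt_of_lt_of_le (norm_pos_iff.2 hfi) (hmax i hi)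
  have hj0ne : f j0 ≠ 0 := norm_pos_iff.1 hpos
  have hlt : ∀ j ∈ s.erase j0, ‖f j‖ < ‖f j0‖ := by
    intro j hj
    have hjs := Finset.mem_of_mem_erase hj
    have hne := Finset.ne_of_mem_erase hj
    exact lt_of_le_of_ne (hmax j hjs) (fun h => hd j0 hj0 j hjs (Ne.symm hne) hj0ne h.symm)
  have hsum : ‖∑ j ∈ s.erase j0, f j‖ < ‖f j0‖ := by
    rcases (s.erase j0).eq_empty_or_nonempty with he | hne
    · rw [he, Finset.sum_empty, norm_zero]; exact hpos
    · obtain ⟨j1, hj1, hle⟩ := IsUltrametricDist.exists_norm_finsetSum_le_of_nonempty hne f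
      exact lt_of_le_of_lt hle (hlt j1 hj1)
  have heq : ∑ j ∈ s, f j = f j0 + ∑ j ∈ s.erase j0, f j := (Finset.add_sum_erase s f hj0).symm
  rw [heq, IsUltrametricDist.norm_add_eq_max_of_norm_ne_norm (ne_of_gt hsum)]
  exact le_trans (hmax i hi) (le_max_left _ _)

/-- B0.4 finite subfields are closed (complete). -/
theorem h62_isClosed (E : Fld) [FiniteDimensional ℚ_[p] E] : IsClosed (E : Set Ω) := by
  have h := Submodule.closed_of_finiteDimensional (𝕜 := ℚ_[p]) (E := Ω) E.toSubmodule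
  exact h

/-- B0.5 Galois correspondence: the fixed field of `Gal(Ω/E)` is `E`. -/
theorem h62_mem_of_fixed (E : Fld) [FiniteDimensional ℚ_[p] E] (x : Ω)
    (hx : ∀ g : h78_G p, (∀ z ∈ E, g z = z) → g x = x) : x ∈ E := by
  have h := InfiniteGalois.fixedField_fixingSubgroup (k := ℚ_[p]) (K := Ω) E
  rw [← h]
  rw [IntermediateField.mem_fixedField_iff]
  intro g hg
  apply hx
  intro z hz
  exact (IntermediateField.mem_fixingSubgroup_iff E g).1 hg z hz

end Fermat.Agent.S56
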