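import Mathlib

/-!
# S56 / W3-A: the core of Fontaine's ramification bound for a Hopf algebra killed by `p`

(helper71; board #2123, used by the W3 proposal #2225.)  Everything here is Mathlib-only algebra.

* `h71_rigid`      : a `p`-th root of unity `≡ 1 mod ϖ^k`, `(p-1) k > e = v(p)`, is `1`.
* `h71_pth_root`   : `x^p ≡ 1 mod p ϖ^k`  ⟹  there is `y`, `y^p = 1`, `y ≡ x mod ϖ^k`
                     (successive approximation `x ↦ x (1 - η)`, no binomial series).
* `h71_lift_point` : FONTAINE'S LIFTING PROPERTY. `H` a finite free commutative cocommutative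
                     bialgebra over `O` killed by `p` (`id^{*p} = 1`), `S` a `ϖ`-adically separated
                     and complete `ϖ`-torsion-free `O`-algebra with `p = ϖ^e * unit`, `(p-1) k > e`.
                     Every `O`-algebra hom `H → S / (p ϖ^k)` is congruent modulo `ϖ^k` to an
                     `O`-algebra hom `H → S`.
* `h71_point_unique`: two `O`-algebra homs `H → S` congruent modulo `ϖ^k` are equal.
* `h71_lift_point_of_pow`, `h71_point_unique_of_pow`: the same with NO hypothesis on `H`; instead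
  the approximate point `g` (resp. the two points) are assumed killed by `p` for the convolution
  product (`toConv g.toLinearMap ^ p = 1`), which is automatic for `g = φ ∘ γ`, `γ` a genuine point
  (`h71_pow_comp`, `h71_pow_of_comp_injective`, `h71_pow_of_algHom_pow`).

The proof works in the convolution algebras `WithConv (H →ₗ[O] S)` and
`WithConv (H ⊗ H →ₗ[O] S)`: points are the multiplicative elements, the group law is the
convolution product, and `F` is multiplicative iff `F ∘ mul = F ⊠ F`.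
-/

set_option autoImplicit false

namespace Fermat.Agent.S56


open Finset

section ringLemmas
variable {R : Type*} [CommRing R]

/-- Binomial expansion at a prime, with the linear term split off:
`(1 + z)^p = 1 + z^p + p z + p z^2 T`. -/
theorem h71_one_add_pow_prime (p : ℕ) (hp : p.Prime) (z : R) :
    ∃ T : R, (1 + z) ^ p = 1 + z ^ p + p * z + p * z ^ 2 * T := by
  have h2 : 2 ≤ p := hp.two_le
  have key := add_pow_prime_eq' hp z (1 : R)
  refine ⟨∑ k ∈ Ico 2 p, z ^ (k - 2) * ((p.choose k / p : ℕ) : R), ?_⟩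
  rw [add_comm (1 : R) z, key]
  have hIoo : Ioo 0 p = Ico 1 p := by
    ext k; simp only [mem_Ioo, mem_Ico]; omega
  rw [hIoo, Finset.sum_eq_sum_Ico_succ_bot (by omega : 1 < p)]
  have h1 : ((p.choose 1 / p : ℕ) : R) = 1 := by
    rw [Nat.choose_one_right, Nat.div_self hp.pos]; simp
  have hsum : ∑ k ∈ Ico (1 + 1) p, z ^ k * (1 : R) ^ (p - k) * ((p.choose k / p : ℕ) : R)
      = z ^ 2 * ∑ k ∈ Ico 2 p, z ^ (k - 2) * ((p.choose k / p : ℕ) : R) := by
    rw [Finset.mul_sum]
    refine Finset.sum_congr rfl fun k hk => ?_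
    have hk2 : 2 ≤ k := (mem_Ico.1 hk).1
    have : z ^ k = z ^ 2 * z ^ (k - 2) := by rw [← pow_add]; congr 1; omega
    rw [this, one_pow]; ring
  rw [hsum, h1]
  ring

/-- Rigidity: a `p`-th root of unity congruent to `1` modulo `ϖ^k`, `(p-1) k > e = v(p)`, is `1`. -/
theorem h71_rigid (p : ℕ) (hp : p.Prime) (ϖ u : R) (e k : ℕ) (hu : IsUnit u)
    (hpe : (p : R) = ϖ ^ e * u) (hk : e < (p - 1) * k)
    (hreg : ∀ z : R, ϖ * z = 0 → z = 0)
    (hH : ∀ z : R, (∀ n : ℕ, ϖ ^ n ∣ z) → z = 0)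
    (w : R) (hw : w ^ p = 1) (hw1 : ϖ ^ k ∣ w - 1) : w = 1 := by
  have h2 : 2 ≤ p := hp.two_le
  have hk1 : 1 ≤ k := by
    rcases Nat.eq_zero_or_pos k with h | h
    · subst h; simp at hk
    · exact h
  obtain ⟨r0, hr0⟩ := hw1
  set z : R := w - 1 with hz
  have hwz : w = 1 + z := by rw [hz]; ring
  obtain ⟨T, hT⟩ := h71_one_add_pow_prime p hp z
  rw [← hwz, hw] at hT
  -- regularity of powers of ϖ and of p
  have hregn : ∀ n : ℕ, ∀ y : R, ϖ ^ n * y = 0 → y = 0 := by
    intro n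
    induction n with
    | zero => intro y hy; simpa using hy
    | succ n ih =>
      intro y hy
      apply ih
      apply hreg
      rw [← mul_assoc, ← pow_succ']; exact hy
  obtain ⟨u', hu'⟩ := hu.exists_right_inv
  have hpreg : ∀ y : R, (p : R) * y = 0 → y = 0 := by
    intro y hy
    rw [hpe] at hy
    have : ϖ ^ e * (u * y) = 0 := by rw [← mul_assoc]; exact hy
    have h1 := hregn e _ this
    calc y = (u' * u) * y := by rw [mul_comm u' u, hu']; ring
      _ = u' * (u * y) := by ring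
      _ = 0 := by rw [h1]; ring
  -- z^(p-1) = p * ϖ * t'
  obtain ⟨d, hd⟩ : ∃ d, (p - 1) * k = e + 1 + d := ⟨(p - 1) * k - (e + 1), by omega⟩
  have hzp : z ^ (p - 1) = (p : R) * (ϖ * (u' * ϖ ^ d * r0 ^ (p - 1))) := by
    rw [hr0, mul_pow, ← pow_mul, mul_comm k (p - 1), hd, hpe]
    have : ϖ ^ (e + 1 + d) = ϖ ^ e * ϖ * ϖ ^ d := by ring
    rw [this]
    calc ϖ ^ e * ϖ * ϖ ^ d * r0 ^ (p - 1)
        = ϖ ^ e * (u * u') * (ϖ * (ϖ ^ d * r0 ^ (p - 1))) := by rw [hu']; ring
      _ = ϖ ^ e * u * (ϖ * (u' * ϖ ^ d * r0 ^ (p - 1))) := by ring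
  have hzpp : z ^ p = z * z ^ (p - 1) := by
    rw [← pow_succ']; congr 1; omega
  -- z * (1 + ϖ * s) = 0
  obtain ⟨k', hk'⟩ : ∃ k', k = k' + 1 := ⟨k - 1, by omega⟩
  set s : R := u' * ϖ ^ d * r0 ^ (p - 1) + ϖ ^ k' * r0 * T with hs
  have hzero : (p : R) * (z * (1 + ϖ * s)) = 0 := by
    have hzϖ : z = ϖ * (ϖ ^ k' * r0) := by rw [hr0, hk']; ring
    have e1 : (1 : R) + z ^ p + p * z + p * z ^ 2 * T = 1 + (p : R) * (z * (1 + ϖ * s)) := by
      rw [hzpp, hzp, hs]
      have : z ^ 2 = z * (ϖ * (ϖ ^ k' * r0)) := by rw [sq]; congr 1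
      rw [this]; ring
    have := hT
    rw [e1] at this
    linear_combination -this
  have hz0 : z * (1 + ϖ * s) = 0 := hpreg _ hzero
  have hzeq : z = ϖ * (-(s * z)) := by linear_combination hz0
  have hdiv : ∀ n : ℕ, ϖ ^ n ∣ z := by
    intro n
    induction n with
    | zero => simp
    | succ n ih =>
      obtain ⟨c, hc⟩ := ih
      refine ⟨-(s * c), ?_⟩
      calc z = ϖ * (-(s * z)) := hzeq
        _ = ϖ * (-(s * (ϖ ^ n * c))) := by rw [← hc]
        _ = ϖ ^ (n + 1) * (-(s * c)) := by ring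
  have := hH z hdiv
  rw [hwz, this, add_zero]

/-- One step of the successive approximation of a `p`-th root of unity. -/
theorem h71_root_step (p : ℕ) (hp : p.Prime) (ϖ u : R) (e k : ℕ) (hu : IsUnit u)
    (hpe : (p : R) = ϖ ^ e * u) (hk : e < (p - 1) * k) (m : ℕ) (hm : k ≤ m)
    (x : R) (hx : (p : R) * ϖ ^ m ∣ x ^ p - 1) :
    ∃ x' : R, ϖ ^ m ∣ x' - x ∧ (p : R) * ϖ ^ (m + 1) ∣ x' ^ p - 1 := by
  have h2 : 2 ≤ p := hp.two_le
  have hk1 : 1 ≤ k := by
    rcases Nat.eq_zero_or_pos k with h | h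
    · subst h; simp at hk
    · exact h
  obtain ⟨u', hu'⟩ := hu.exists_right_inv
  obtain ⟨ρ, hρ⟩ := hx
  obtain ⟨m', hm'⟩ : ∃ m', m = m' + 1 := ⟨m - 1, by omega⟩
  have hle : (p - 1) * k ≤ (p - 1) * m := Nat.mul_le_mul_left _ hm
  have hpm : p * m = (p - 1) * m + m := by
    obtain ⟨q, hq⟩ : ∃ q, p = q + 1 := ⟨p - 1, by omega⟩
    subst hq; simp; ring
  obtain ⟨d, hd⟩ : ∃ d, p * m = e + (m + 1) + d := ⟨p * m - (e + (m + 1)), by omega⟩
  set η : R := ϖ ^ m * ρ with hη
  obtain ⟨T, hT⟩ := h71_one_add_pow_prime p hp (-η)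
  refine ⟨x * (1 - η), ⟨-(x * ρ), by rw [hη]; ring⟩, ?_⟩
  have hxp : x ^ p = 1 + (p : R) * η := by rw [hη]; linear_combination hρ
  have hηp : (-η) ^ p = (p : R) * ϖ ^ (m + 1) * ((-1) ^ p * u' * ϖ ^ d * ρ ^ p) := by
    rw [hη, neg_pow, mul_pow, ← pow_mul, mul_comm m p, hd, hpe]
    have : ϖ ^ (e + (m + 1) + d) = ϖ ^ e * ϖ ^ (m + 1) * ϖ ^ d := by ring
    rw [this]
    calc (-1 : R) ^ p * (ϖ ^ e * ϖ ^ (m + 1) * ϖ ^ d * ρ ^ p)
        = (-1) ^ p * (ϖ ^ e * (u * u') * ϖ ^ (m + 1) * ϖ ^ d * ρ ^ p) := by rw [hu']; ring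
      _ = ϖ ^ e * u * ϖ ^ (m + 1) * ((-1) ^ p * u' * ϖ ^ d * ρ ^ p) := by ring
  have hη2 : η ^ 2 = ϖ ^ (m + 1) * (ϖ ^ m' * ρ ^ 2) := by
    rw [hη, hm']; ring
  refine ⟨(-1) ^ p * u' * ϖ ^ d * ρ ^ p * (1 + p * η) + ϖ ^ m' * ρ ^ 2 * (T - p + p * η * T), ?_⟩
  have h1 : (1 - η) ^ p = 1 + (-η) ^ p + p * (-η) + p * (-η) ^ 2 * T := by
    rw [← hT]; ring
  calc (x * (1 - η)) ^ p - 1 = x ^ p * (1 - η) ^ p - 1 := by rw [mul_pow]
    _ = (1 + (p : R) * η) * (1 + (-η) ^ p + p * (-η) + p * (-η) ^ 2 * T) - 1 := by rw [hxp, h1]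
    _ = (-η) ^ p * (1 + p * η) + (p : R) * η ^ 2 * (T - p + p * η * T) := by ring
    _ = _ := by rw [hηp, hη2]; ring

/-- `p`-th roots of unity by successive approximation: if `x^p ≡ 1 mod p ϖ^k` with
`(p-1) k > e = v(p)` in a `ϖ`-adically separated and complete ring, there is a `p`-th root of
unity `y ≡ x mod ϖ^k`. -/
theorem h71_pth_root (p : ℕ) (hp : p.Prime) (ϖ u : R) (e k : ℕ) (hu : IsUnit u)
    (hpe : (p : R) = ϖ ^ e * u) (hk : e < (p - 1) * k)
    (hH : ∀ z : R, (∀ n : ℕ, ϖ ^ n ∣ z) → z = 0)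
    (hP : ∀ f : ℕ → R, (∀ n, ϖ ^ n ∣ f (n + 1) - f n) → ∃ L, ∀ n, ϖ ^ n ∣ L - f n)
    (x : R) (hx : (p : R) * ϖ ^ k ∣ x ^ p - 1) :
    ∃ y : R, y ^ p = 1 ∧ ϖ ^ k ∣ y - x := by
  classical
  have step : ∀ (n : ℕ) (y : {y : R // (p : R) * ϖ ^ (k + n) ∣ y ^ p - 1}),
      ∃ x' : R, ϖ ^ (k + n) ∣ x' - y.1 ∧ (p : R) * ϖ ^ (k + n + 1) ∣ x' ^ p - 1 :=
    fun n y => h71_root_step p hp ϖ u e k hu hpe hk (k + n) (Nat.le_add_right k n) y.1 y.2
  let G : (n : ℕ) → {y : R // (p : R) * ϖ ^ (k + n) ∣ y ^ p - 1} := fun n =>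
    Nat.rec (motive := fun n => {y : R // (p : R) * ϖ ^ (k + n) ∣ y ^ p - 1})
      ⟨x, by simpa using hx⟩
      (fun n y => ⟨(step n y).choose, (step n y).choose_spec.2⟩) n
  have hG0 : (G 0).1 = x := rfl
  have hGs : ∀ n, ϖ ^ (k + n) ∣ (G (n + 1)).1 - (G n).1 := fun n => (step n (G n)).choose_spec.1
  obtain ⟨L, hL⟩ := hP (fun n => (G n).1) (fun n => by
    have := hGs n
    exact Dvd.dvd.trans (pow_dvd_pow ϖ (Nat.le_add_left n k)) this)
  have hk0 : ∀ n, ϖ ^ k ∣ (G n).1 - x := by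
    intro n
    induction n with
    | zero => rw [hG0]; simp
    | succ n ih =>
      have h1 : ϖ ^ k ∣ (G (n + 1)).1 - (G n).1 :=
        Dvd.dvd.trans (pow_dvd_pow ϖ (Nat.le_add_right k n)) (hGs n)
      have : (G (n + 1)).1 - x = ((G (n + 1)).1 - (G n).1) + ((G n).1 - x) := by ring
      rw [this]; exact dvd_add h1 ih
  refine ⟨L, ?_, ?_⟩
  · have : L ^ p - 1 = 0 := by
      apply hH
      intro n
      have h1 : ϖ ^ n ∣ L ^ p - (G n).1 ^ p := Dvd.dvd.trans (hL n) (sub_dvd_pow_sub_pow _ _ _)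
      have h2 : ϖ ^ n ∣ (G n).1 ^ p - 1 :=
        Dvd.dvd.trans (Dvd.dvd.trans (pow_dvd_pow ϖ (Nat.le_add_left n k))
          (Dvd.intro_left _ rfl)) (G n).2
      have : L ^ p - 1 = (L ^ p - (G n).1 ^ p) + ((G n).1 ^ p - 1) := by ring
      rw [this]; exact dvd_add h1 h2
    exact sub_eq_zero.1 this
  · have : L - x = (L - (G k).1) + ((G k).1 - x) := by ring
    rw [this]; exact dvd_add (hL k) (hk0 k)

end ringLemmas


open WithConv TensorProduct Coalgebra



section conv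
variable {O : Type*} [CommRing O] {B : Type*} [AddCommGroup B] [Module O B] [Coalgebra O B]
  {S : Type*} [CommRing S] [Algebra O S]

theorem h71_algebraMap_mul_apply (c : S) (F : WithConv (B →ₗ[O] S)) (b : B) :
    (algebraMap S (WithConv (B →ₗ[O] S)) c * F) b = c * F b := by
  rw [← Algebra.smul_def]
  rfl

theorem h71_apply_of_dvd (c : S) (F : WithConv (B →ₗ[O] S))
    (h : algebraMap S (WithConv (B →ₗ[O] S)) c ∣ F) (b : B) : c ∣ F b := by
  obtain ⟨r, rfl⟩ := h
  exact ⟨r b, h71_algebraMap_mul_apply c r b⟩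

theorem h71_dvd_of_forall [Module.Free O B] [Module.Finite O B] (c : S)
    (F : WithConv (B →ₗ[O] S)) (h : ∀ b : B, c ∣ F b) :
    algebraMap S (WithConv (B →ₗ[O] S)) c ∣ F := by
  classical
  let β := Module.Free.chooseBasis O B
  choose r hr using fun i => h (β i)
  refine ⟨toConv (β.constr S r), ?_⟩
  apply WithConv.ofConv_injective
  apply β.ext
  intro i
  have := h71_algebraMap_mul_apply c (toConv (β.constr S r)) (β i)
  rw [show (ofConv (algebraMap S (WithConv (B →ₗ[O] S)) c * toConv (β.constr S r))) (β i)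
      = (algebraMap S (WithConv (B →ₗ[O] S)) c * toConv (β.constr S r)) (β i) from rfl, this]
  rw [show (toConv (β.constr S r)) (β i) = β.constr S r (β i) from rfl, Module.Basis.constr_basis]
  exact hr i

/-- `ϖ`-regularity passes to the convolution algebra. -/
theorem h71_conv_reg (ϖ : S) (hreg : ∀ z : S, ϖ * z = 0 → z = 0)
    (z : WithConv (B →ₗ[O] S)) (hz : algebraMap S (WithConv (B →ₗ[O] S)) ϖ * z = 0) : z = 0 := by
  apply WithConv.ofConv_injective
  ext b
  have h1 := h71_algebraMap_mul_apply ϖ z b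
  rw [hz] at h1
  exact hreg _ h1.symm

/-- `ϖ`-adic separatedness passes to the convolution algebra. -/
theorem h71_conv_haus (ϖ : S) (hH : ∀ z : S, (∀ n : ℕ, ϖ ^ n ∣ z) → z = 0)
    (z : WithConv (B →ₗ[O] S))
    (hz : ∀ n : ℕ, algebraMap S (WithConv (B →ₗ[O] S)) ϖ ^ n ∣ z) : z = 0 := by
  apply WithConv.ofConv_injective
  ext b
  apply hH
  intro n
  have := hz n
  rw [← map_pow] at this
  exact h71_apply_of_dvd _ _ this b

/-- `ϖ`-adic completeness passes to the convolution algebra of a finite free coalgebra. -/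
theorem h71_conv_prec [Module.Free O B] [Module.Finite O B] (ϖ : S)
    (hP : ∀ f : ℕ → S, (∀ n, ϖ ^ n ∣ f (n + 1) - f n) → ∃ L, ∀ n, ϖ ^ n ∣ L - f n)
    (f : ℕ → WithConv (B →ₗ[O] S))
    (hf : ∀ n, algebraMap S (WithConv (B →ₗ[O] S)) ϖ ^ n ∣ f (n + 1) - f n) :
    ∃ L : WithConv (B →ₗ[O] S), ∀ n, algebraMap S (WithConv (B →ₗ[O] S)) ϖ ^ n ∣ L - f n := by
  classical
  let β := Module.Free.chooseBasis O B
  have hpt : ∀ i, ∃ L : S, ∀ n, ϖ ^ n ∣ L - (f n) (β i) := by
    intro i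
    apply hP (fun n => (f n) (β i))
    intro n
    have := hf n
    rw [← map_pow] at this
    exact h71_apply_of_dvd _ _ this (β i)
  choose L hL using hpt
  refine ⟨toConv (β.constr S L), fun n => ?_⟩
  rw [← map_pow]
  choose r hr using fun i => hL i n
  refine ⟨toConv (β.constr S r), ?_⟩
  apply WithConv.ofConv_injective
  apply β.ext
  intro i
  have h1 := h71_algebraMap_mul_apply (ϖ ^ n) (toConv (β.constr S r)) (β i)
  rw [show (ofConv (algebraMap S (WithConv (B →ₗ[O] S)) (ϖ ^ n) * toConv (β.constr S r))) (β i)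
      = (algebraMap S (WithConv (B →ₗ[O] S)) (ϖ ^ n) * toConv (β.constr S r)) (β i) from rfl, h1]
  rw [show (toConv (β.constr S r)) (β i) = β.constr S r (β i) from rfl, Module.Basis.constr_basis]
  rw [← hr i]
  show (β.constr S L) (β i) - (f n) (β i) = _
  rw [Module.Basis.constr_basis]

end conv




section hopf
variable {O : Type*} [CommRing O] {H : Type*} [CommRing H] [Bialgebra O H]
  {S : Type*} [CommRing S] [Algebra O S]

/-- Evaluation at `1` is a ring hom on the convolution algebra. -/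
noncomputable def h71_ev1 : WithConv (H →ₗ[O] S) →+* S where
  toFun F := F 1
  map_one' := by
    show algebraMap O S (counit (R := O) (1 : H)) = 1
    rw [Bialgebra.counit_one, map_one]
  map_mul' F G := by
    show LinearMap.mul' O S (TensorProduct.map F.ofConv G.ofConv (comul (R := O) (1 : H))) = _
    rw [Bialgebra.comul_one]
    rfl
  map_zero' := rfl
  map_add' _ _ := rfl

theorem h71_ev1_apply (F : WithConv (H →ₗ[O] S)) : h71_ev1 F = F 1 := rfl

/-- Precomposition with the multiplication of `H` is a ring hom of convolution algebras. -/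
noncomputable def h71_M : WithConv (H →ₗ[O] S) →+* WithConv (H ⊗[O] H →ₗ[O] S) where
  toFun F := toConv (F.ofConv ∘ₗ LinearMap.mul' O H)
  map_one' := by
    apply WithConv.ofConv_injective
    ext a b
    show algebraMap O S (counit (R := O) (a * b)) = algebraMap O S (counit (R := O) (a ⊗ₜ[O] b))
    rw [Bialgebra.counit_mul, TensorProduct.counit_tmul]
    simp [mul_comm]
  map_mul' F G := by
    apply WithConv.ofConv_injective
    exact LinearMap.convMul_comp_coalgHom_distrib F G (Bialgebra.mulCoalgHom O H)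
  map_zero' := by
    apply WithConv.ofConv_injective
    ext a b; rfl
  map_add' F G := by
    apply WithConv.ofConv_injective
    ext a b; rfl

theorem h71_M_tmul (F : WithConv (H →ₗ[O] S)) (a b : H) : h71_M F (a ⊗ₜ[O] b) = F (a * b) := rfl

theorem h71_M_apply (F : WithConv (H →ₗ[O] S)) (t : H ⊗[O] H) :
    h71_M F t = F (LinearMap.mul' O H t) := rfl

/-- The external product `F ⊠ G : a ⊗ b ↦ F a * G b`. -/
noncomputable def h71_box (F G : WithConv (H →ₗ[O] S)) : WithConv (H ⊗[O] H →ₗ[O] S) :=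
  toConv (LinearMap.mul' O S ∘ₗ TensorProduct.map F.ofConv G.ofConv)

theorem h71_box_tmul (F G : WithConv (H →ₗ[O] S)) (a b : H) :
    h71_box F G (a ⊗ₜ[O] b) = F a * G b := rfl

theorem h71_box_mul (F F' G G' : WithConv (H →ₗ[O] S)) :
    h71_box (F * F') (G * G') = h71_box F G * h71_box F' G' := by
  apply WithConv.ofConv_injective
  have h1 := LinearMap.algHom_comp_convMul_distrib (R := O) (Algebra.TensorProduct.lmul' O (S := S))
    (toConv (TensorProduct.map F.ofConv G.ofConv)) (toConv (TensorProduct.map F'.ofConv G'.ofConv))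
  have h2 := TensorProduct.map_convMul_map (R := O) (f := F) (h := F') (g := G) (k := G')
  rw [h2] at h1
  exact h1

theorem h71_box_one : h71_box (1 : WithConv (H →ₗ[O] S)) 1 = 1 := by
  apply WithConv.ofConv_injective
  ext a b
  show algebraMap O S (counit (R := O) a) * algebraMap O S (counit (R := O) b)
    = algebraMap O S (counit (R := O) (a ⊗ₜ[O] b))
  rw [TensorProduct.counit_tmul]
  simp [mul_comm]

theorem h71_box_pow (F : WithConv (H →ₗ[O] S)) (n : ℕ) :
    h71_box (F ^ n) (F ^ n) = h71_box F F ^ n := by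
  induction n with
  | zero => simp [h71_box_one]
  | succ n ih => rw [pow_succ, pow_succ, h71_box_mul, ih]

end hopf


section post
variable {O : Type*} [CommRing O] {B : Type*} [AddCommGroup B] [Module O B] [Coalgebra O B]
  {S : Type*} [CommRing S] [Algebra O S] {T : Type*} [CommRing T] [Algebra O T]

/-- Post-composition with an algebra hom is a ring hom of convolution algebras. -/
noncomputable def h71_post (φ : S →ₐ[O] T) :
    WithConv (B →ₗ[O] S) →+* WithConv (B →ₗ[O] T) where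
  toFun F := toConv (φ.toLinearMap ∘ₗ F.ofConv)
  map_one' := by
    apply WithConv.ofConv_injective
    ext b
    show φ (algebraMap O S (counit (R := O) b)) = algebraMap O T (counit (R := O) b)
    exact φ.commutes _
  map_mul' F G := by
    apply WithConv.ofConv_injective
    exact LinearMap.algHom_comp_convMul_distrib φ F G
  map_zero' := by
    apply WithConv.ofConv_injective
    ext b
    show φ 0 = 0
    exact map_zero φ
  map_add' F G := by
    apply WithConv.ofConv_injective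
    ext b
    show φ (F b + G b) = φ (F b) + φ (G b)
    exact map_add φ _ _

theorem h71_post_apply (φ : S →ₐ[O] T) (F : WithConv (B →ₗ[O] S)) (b : B) :
    h71_post φ F b = φ (F b) := rfl

end post

section main
variable {O : Type*} [CommRing O] {H : Type*} [CommRing H] [Bialgebra O H]
  [Coalgebra.IsCocomm O H] [Module.Free O H] [Module.Finite O H]
  {S : Type*} [CommRing S] [Algebra O S]

omit [Coalgebra.IsCocomm O H] [Module.Free O H] [Module.Finite O H] in
/-- If `id^{*p} = 1` on `H`, every point of `H` is killed by `p`. -/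
theorem h71_point_pow (p : ℕ)
    (hkill : (toConv (LinearMap.id : H →ₗ[O] H)) ^ p = 1)
    {T : Type*} [CommRing T] [Algebra O T] (g : H →ₐ[O] T) :
    (toConv g.toLinearMap : WithConv (H →ₗ[O] T)) ^ p = 1 := by
  have h1 : h71_post g (toConv (LinearMap.id : H →ₗ[O] H)) = toConv g.toLinearMap := by
    apply WithConv.ofConv_injective
    ext b
    rfl
  rw [← h1, ← map_pow, hkill, map_one]

omit [Coalgebra.IsCocomm O H] [Module.Free O H] [Module.Finite O H] in
/-- The `AlgHom`-level form of the killing hypothesis implies the linear one. -/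
theorem h71_kill_of_algHom (p : ℕ)
    (hkill : (toConv (AlgHom.id O H) : WithConv (H →ₐ[O] H)) ^ p = 1) :
    (toConv (LinearMap.id : H →ₗ[O] H)) ^ p = 1 := by
  have := AlgHom.toLinearMap_convPow (toConv (AlgHom.id O H) : WithConv (H →ₐ[O] H)) p
  rw [hkill] at this
  rw [show (toConv (LinearMap.id : H →ₗ[O] H)) = toConv (ofConv (toConv (AlgHom.id O H))).toLinearMap
    from rfl, ← this]
  rfl

omit [Coalgebra.IsCocomm O H] [Module.Free O H] [Module.Finite O H] in
/-- Being killed by `p` passes to the composite with an algebra hom. -/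
theorem h71_pow_comp (p : ℕ) {T T' : Type*} [CommRing T] [Algebra O T] [CommRing T'] [Algebra O T']
    (φ : T →ₐ[O] T') (γ : H →ₐ[O] T)
    (h : (toConv γ.toLinearMap : WithConv (H →ₗ[O] T)) ^ p = 1) :
    (toConv (φ.comp γ).toLinearMap : WithConv (H →ₗ[O] T')) ^ p = 1 := by
  have h1 : h71_post φ (toConv γ.toLinearMap) = toConv (φ.comp γ).toLinearMap := by
    apply WithConv.ofConv_injective
    ext b
    rfl
  rw [← h1, ← map_pow, h, map_one]

omit [Coalgebra.IsCocomm O H] [Module.Free O H] [Module.Finite O H] in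
/-- Being killed by `p` can be checked after an injective algebra hom. -/
theorem h71_pow_of_comp_injective (p : ℕ) {T T' : Type*} [CommRing T] [Algebra O T] [CommRing T']
    [Algebra O T'] (φ : T →ₐ[O] T') (hφ : Function.Injective φ) (γ : H →ₐ[O] T)
    (h : (toConv (φ.comp γ).toLinearMap : WithConv (H →ₗ[O] T')) ^ p = 1) :
    (toConv γ.toLinearMap : WithConv (H →ₗ[O] T)) ^ p = 1 := by
  have h1 : h71_post φ (toConv γ.toLinearMap) = toConv (φ.comp γ).toLinearMap := by
    apply WithConv.ofConv_injective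
    ext b
    rfl
  have hinj : Function.Injective (h71_post (B := H) φ) := by
    intro F G hFG
    apply WithConv.ofConv_injective
    ext b
    apply hφ
    have := congrArg (fun ψ : WithConv (H →ₗ[O] T') => ψ b) hFG
    exact this
  apply hinj
  rw [map_pow, h1, h, map_one]

omit [Coalgebra.IsCocomm O H] [Module.Free O H] [Module.Finite O H] in
/-- The `AlgHom`-level statement `γ^{*p} = 1` (as in the frozen `IsFlatAt`, where the group of
points is `WithConv (H →ₐ[O] T)`) implies the linear one. -/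
theorem h71_pow_of_algHom_pow (p : ℕ) {T : Type*} [CommRing T] [Algebra O T]
    (γ : WithConv (H →ₐ[O] T)) (h : γ ^ p = 1) :
    (toConv γ.ofConv.toLinearMap : WithConv (H →ₗ[O] T)) ^ p = 1 := by
  rw [← AlgHom.toLinearMap_convPow, h]
  rfl

/-- Uniqueness of lifts: two points killed by `p` and congruent modulo `ϖ^k` are equal. -/
theorem h71_point_unique_of_pow (p : ℕ) (hp : p.Prime) (ϖ u : S) (e k : ℕ) (hu : IsUnit u)
    (hpe : (p : S) = ϖ ^ e * u) (hk : e < (p - 1) * k)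
    (hreg : ∀ z : S, ϖ * z = 0 → z = 0)
    (hH : ∀ z : S, (∀ n : ℕ, ϖ ^ n ∣ z) → z = 0)
    (f f' : H →ₐ[O] S)
    (hf : (toConv f.toLinearMap : WithConv (H →ₗ[O] S)) ^ p = 1)
    (hf' : (toConv f'.toLinearMap : WithConv (H →ₗ[O] S)) ^ p = 1)
    (hff : ∀ h : H, ϖ ^ k ∣ f h - f' h) : f = f' := by
  set a : WithConv (H →ₗ[O] S) := toConv f.toLinearMap with ha
  set a' : WithConv (H →ₗ[O] S) := toConv f'.toLinearMap with ha'
  have hap : a ^ p = 1 := hf
  have hap' : a' ^ p = 1 := hf'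
  have hu1 : IsUnit (algebraMap S (WithConv (H →ₗ[O] S)) u) := hu.map _
  have hpe1 : ((p : ℕ) : WithConv (H →ₗ[O] S))
      = algebraMap S (WithConv (H →ₗ[O] S)) ϖ ^ e * algebraMap S (WithConv (H →ₗ[O] S)) u := by
    rw [← map_pow, ← map_mul, ← hpe, map_natCast]
  have hdiv : algebraMap S (WithConv (H →ₗ[O] S)) ϖ ^ k ∣ a - a' := by
    rw [← map_pow]
    apply h71_dvd_of_forall
    intro h
    exact hff h
  have hp1 : p - 1 + 1 = p := Nat.sub_add_cancel hp.one_le
  have hw : a * a' ^ (p - 1) = 1 := by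
    apply h71_rigid p hp _ _ e k hu1 hpe1 hk (h71_conv_reg ϖ hreg) (h71_conv_haus ϖ hH)
    · rw [mul_pow, hap, ← pow_mul, mul_comm (p - 1) p, pow_mul, hap', one_pow, one_mul]
    · have : a * a' ^ (p - 1) - 1 = (a - a') * a' ^ (p - 1) := by
        rw [sub_mul, ← pow_succ', hp1, hap']
      rw [this]
      exact Dvd.dvd.mul_right hdiv _
  have haa : a = a' := by
    calc a = a * a' ^ p := by rw [hap', mul_one]
      _ = (a * a' ^ (p - 1)) * a' := by rw [mul_assoc, ← pow_succ, hp1]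
      _ = a' := by rw [hw, one_mul]
  have := congrArg WithConv.ofConv haa
  exact AlgHom.toLinearMap_injective this

/-- Uniqueness of lifts when `H` itself is killed by `p`. -/
theorem h71_point_unique (p : ℕ) (hp : p.Prime) (ϖ u : S) (e k : ℕ) (hu : IsUnit u)
    (hpe : (p : S) = ϖ ^ e * u) (hk : e < (p - 1) * k)
    (hreg : ∀ z : S, ϖ * z = 0 → z = 0)
    (hH : ∀ z : S, (∀ n : ℕ, ϖ ^ n ∣ z) → z = 0)
    (hkill : (toConv (LinearMap.id : H →ₗ[O] H)) ^ p = 1)
    (f f' : H →ₐ[O] S) (hff : ∀ h : H, ϖ ^ k ∣ f h - f' h) : f = f' :=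
  h71_point_unique_of_pow p hp ϖ u e k hu hpe hk hreg hH f f' (h71_point_pow p hkill f)
    (h71_point_pow p hkill f') hff

/-- **Fontaine's lifting property**, pointwise form: `H` a finite free commutative cocommutative
bialgebra; an approximate point `g` modulo an ideal `I ⊆ (p ϖ^k)`, `(p-1) k > e = v(p)`, which is
killed by `p` for the convolution product, is congruent modulo `ϖ^k` to a true point killed by
`p`.  (No hypothesis on `H` itself: in the application `g = φ ∘ γ` with `γ` a genuine point.) -/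
theorem h71_lift_point_of_pow (p : ℕ) (hp : p.Prime) (ϖ u : S) (e k : ℕ) (hu : IsUnit u)
    (hpe : (p : S) = ϖ ^ e * u) (hk : e < (p - 1) * k)
    (hreg : ∀ z : S, ϖ * z = 0 → z = 0)
    (hH : ∀ z : S, (∀ n : ℕ, ϖ ^ n ∣ z) → z = 0)
    (hP : ∀ f : ℕ → S, (∀ n, ϖ ^ n ∣ f (n + 1) - f n) → ∃ L, ∀ n, ϖ ^ n ∣ L - f n)
    (I : Ideal S) (hI : ∀ x ∈ I, (p : S) * ϖ ^ k ∣ x)
    (g : H →ₐ[O] S ⧸ I)
    (hg : (toConv g.toLinearMap : WithConv (H →ₗ[O] S ⧸ I)) ^ p = 1) :
    ∃ f : H →ₐ[O] S, (toConv f.toLinearMap : WithConv (H →ₗ[O] S)) ^ p = 1 ∧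
      ∀ (h : H) (s : S), Ideal.Quotient.mk I s = g h → ϖ ^ k ∣ f h - s := by
  classical
  have hImem : ∀ x : S, Ideal.Quotient.mk I x = 0 → ϖ ^ k ∣ x := by
    intro x hx
    have := hI x (Ideal.Quotient.eq_zero_iff_mem.1 hx)
    exact Dvd.dvd.trans (Dvd.intro_left _ rfl) this
  -- a linear lift of `g`
  obtain ⟨f0, hf0⟩ : ∃ f0 : H →ₗ[O] S,
      (Ideal.Quotient.mkₐ O I).toLinearMap ∘ₗ f0 = g.toLinearMap :=
    Module.projective_lifting_property _ _ (Ideal.Quotient.mkₐ_surjective O I)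
  have hf0' : ∀ h : H, Ideal.Quotient.mk I (f0 h) = g h := fun h => by
    have := congrArg (fun φ : H →ₗ[O] S ⧸ I => φ h) hf0
    exact this
  have hf0mul : ∀ a b : H, ϖ ^ k ∣ f0 (a * b) - f0 a * f0 b := by
    intro a b
    apply hImem
    rw [map_sub, hf0' (a * b), map_mul (Ideal.Quotient.mk I), hf0', hf0', map_mul g, sub_self]
  have hf0one : ϖ ^ k ∣ f0 1 - 1 := by
    apply hImem
    rw [map_sub, hf0' 1, map_one g, map_one (Ideal.Quotient.mk I), sub_self]
  set F0 : WithConv (H →ₗ[O] S) := toConv f0 with hF0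
  have hu1 : IsUnit (algebraMap S (WithConv (H →ₗ[O] S)) u) := hu.map _
  have hpe1 : ((p : ℕ) : WithConv (H →ₗ[O] S))
      = algebraMap S (WithConv (H →ₗ[O] S)) ϖ ^ e * algebraMap S (WithConv (H →ₗ[O] S)) u := by
    rw [← map_pow, ← map_mul, ← hpe, map_natCast]
  -- step 1: `F0^p ≡ 1 mod p ϖ^k`
  have h1 : ((p : ℕ) : WithConv (H →ₗ[O] S)) * algebraMap S (WithConv (H →ₗ[O] S)) ϖ ^ k
      ∣ F0 ^ p - 1 := by
    have e1 : ((p : ℕ) : WithConv (H →ₗ[O] S)) * algebraMap S (WithConv (H →ₗ[O] S)) ϖ ^ k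
        = algebraMap S (WithConv (H →ₗ[O] S)) ((p : S) * ϖ ^ k) := by
      rw [map_mul, map_pow, map_natCast]
    rw [e1]
    apply h71_dvd_of_forall
    intro h
    have hred : h71_post (Ideal.Quotient.mkₐ O I) (F0 ^ p - 1) = 0 := by
      have e2 : h71_post (Ideal.Quotient.mkₐ O I) F0 = toConv g.toLinearMap := by
        apply WithConv.ofConv_injective
        ext b
        exact hf0' b
      rw [map_sub, map_pow, map_one, e2, hg, sub_self]
    have h2 : Ideal.Quotient.mk I ((F0 ^ p - 1) h) = 0 := by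
      have := congrArg (fun φ : WithConv (H →ₗ[O] S ⧸ I) => φ h) hred
      exact this
    exact hI _ (Ideal.Quotient.eq_zero_iff_mem.1 h2)
  -- step 2: the `p`-th root of unity `y ≡ F0 mod ϖ^k`
  obtain ⟨y, hy, hyx⟩ := h71_pth_root p hp _ _ e k hu1 hpe1 hk (h71_conv_haus ϖ hH)
    (h71_conv_prec ϖ hP) F0 h1
  have hyx' : ∀ h : H, ϖ ^ k ∣ y h - f0 h := fun h => by
    rw [← map_pow] at hyx
    exact h71_apply_of_dvd (ϖ ^ k) (y - F0) hyx h
  -- step 3: `y 1 = 1`
  have hy1 : y 1 = 1 := by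
    apply h71_rigid p hp ϖ u e k hu hpe hk hreg hH (y 1)
    · have := congrArg (h71_ev1 (O := O) (H := H) (S := S)) hy
      rw [map_pow, map_one] at this
      exact this
    · have : y 1 - 1 = (y 1 - f0 1) + (f0 1 - 1) := by ring
      rw [this]
      exact dvd_add (hyx' 1) hf0one
  -- step 4: `y` is multiplicative
  have hu2 : IsUnit (algebraMap S (WithConv (H ⊗[O] H →ₗ[O] S)) u) := hu.map _
  have hpe2 : ((p : ℕ) : WithConv (H ⊗[O] H →ₗ[O] S))
      = algebraMap S (WithConv (H ⊗[O] H →ₗ[O] S)) ϖ ^ e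
        * algebraMap S (WithConv (H ⊗[O] H →ₗ[O] S)) u := by
    rw [← map_pow, ← map_mul, ← hpe, map_natCast]
  have hp1 : p - 1 + 1 = p := Nat.sub_add_cancel hp.one_le
  have hMp : h71_M y ^ p = 1 := by rw [← map_pow, hy, map_one]
  have hDp : h71_box y y ^ p = 1 := by rw [← h71_box_pow, hy, h71_box_one]
  have hdiv : algebraMap S (WithConv (H ⊗[O] H →ₗ[O] S)) ϖ ^ k ∣ h71_M y - h71_box y y := by
    rw [← map_pow]
    apply h71_dvd_of_forall
    intro t
    show ϖ ^ k ∣ h71_M y t - h71_box y y t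
    induction t using TensorProduct.induction_on with
    | zero => simp
    | tmul a b =>
      rw [h71_M_tmul, h71_box_tmul]
      have e3 : y (a * b) - y a * y b = (y (a * b) - f0 (a * b)) + (f0 (a * b) - f0 a * f0 b)
          + (-(f0 a * (y b - f0 b))) + (-((y a - f0 a) * y b)) := by ring
      rw [e3]
      exact dvd_add (dvd_add (dvd_add (hyx' _) (hf0mul a b))
        ((dvd_neg).2 (Dvd.dvd.mul_left (hyx' b) _))) ((dvd_neg).2 (Dvd.dvd.mul_right (hyx' a) _))
    | add t1 t2 h1 h2 =>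
      have e4 : h71_M y (t1 + t2) - h71_box y y (t1 + t2)
          = (h71_M y t1 - h71_box y y t1) + (h71_M y t2 - h71_box y y t2) := by
        rw [map_add, map_add]; ring
      rw [e4]
      exact dvd_add h1 h2
  have hw : h71_M y * h71_box y y ^ (p - 1) = 1 := by
    apply h71_rigid p hp _ _ e k hu2 hpe2 hk (h71_conv_reg ϖ hreg) (h71_conv_haus ϖ hH)
    · rw [mul_pow, hMp, ← pow_mul, mul_comm (p - 1) p, pow_mul, hDp, one_pow, one_mul]
    · have : h71_M y * h71_box y y ^ (p - 1) - 1 = (h71_M y - h71_box y y) * h71_box y y ^ (p - 1) := by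
        rw [sub_mul, ← pow_succ', hp1, hDp]
      rw [this]
      exact Dvd.dvd.mul_right hdiv _
  have hMD : h71_M y = h71_box y y := by
    calc h71_M y = h71_M y * h71_box y y ^ p := by rw [hDp, mul_one]
      _ = (h71_M y * h71_box y y ^ (p - 1)) * h71_box y y := by rw [mul_assoc, ← pow_succ, hp1]
      _ = h71_box y y := by rw [hw, one_mul]
  have hymul : ∀ a b : H, y (a * b) = y a * y b := by
    intro a b
    have := congrArg (fun φ : WithConv (H ⊗[O] H →ₗ[O] S) => φ (a ⊗ₜ[O] b)) hMD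
    exact this
  refine ⟨AlgHom.ofLinearMap y.ofConv hy1 hymul, hy, ?_⟩
  intro h s hs
  have e5 : ϖ ^ k ∣ f0 h - s := by
    apply hImem
    rw [map_sub, hf0', hs, sub_self]
  have e6 : (AlgHom.ofLinearMap y.ofConv hy1 hymul) h - s = (y h - f0 h) + (f0 h - s) := by
    show y h - s = _
    ring
  rw [e6]
  exact dvd_add (hyx' h) e5

/-- **Fontaine's lifting property** when `H` itself is killed by `p` (`id^{*p} = 1`). -/
theorem h71_lift_point (p : ℕ) (hp : p.Prime) (ϖ u : S) (e k : ℕ) (hu : IsUnit u)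
    (hpe : (p : S) = ϖ ^ e * u) (hk : e < (p - 1) * k)
    (hreg : ∀ z : S, ϖ * z = 0 → z = 0)
    (hH : ∀ z : S, (∀ n : ℕ, ϖ ^ n ∣ z) → z = 0)
    (hP : ∀ f : ℕ → S, (∀ n, ϖ ^ n ∣ f (n + 1) - f n) → ∃ L, ∀ n, ϖ ^ n ∣ L - f n)
    (hkill : (toConv (LinearMap.id : H →ₗ[O] H)) ^ p = 1)
    (I : Ideal S) (hI : ∀ x ∈ I, (p : S) * ϖ ^ k ∣ x)
    (g : H →ₐ[O] S ⧸ I) :
    ∃ f : H →ₐ[O] S, ∀ (h : H) (s : S),
      Ideal.Quotient.mk I s = g h → ϖ ^ k ∣ f h - s := by
  obtain ⟨f, -, hf⟩ := h71_lift_point_of_pow p hp ϖ u e k hu hpe hk hreg hH hP I hI g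
    (h71_point_pow p hkill g)
  exact ⟨f, hf⟩

end main

section bridge
variable {S : Type*} [CommRing S]

theorem h71_mem_span_pow_iff (ϖ : S) (n : ℕ) (x : S) :
    x ∈ ((Ideal.span {ϖ} : Ideal S) ^ n • (⊤ : Submodule S S)) ↔ ϖ ^ n ∣ x := by
  rw [smul_eq_mul, Ideal.mul_top, Ideal.span_singleton_pow, Ideal.mem_span_singleton]

/-- Separatedness in the elementary form used by `h71_lift_point`. -/
theorem h71_haus_of_isHausdorff (ϖ : S) [IsHausdorff (Ideal.span {ϖ}) S] :
    ∀ z : S, (∀ n : ℕ, ϖ ^ n ∣ z) → z = 0 := by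
  intro z hz
  apply IsHausdorff.haus (I := Ideal.span {ϖ}) ‹_› z
  intro n
  rw [SModEq.sub_mem, sub_zero, h71_mem_span_pow_iff]
  exact hz n

/-- Completeness in the elementary form used by `h71_lift_point`. -/
theorem h71_prec_of_isPrecomplete (ϖ : S) [IsPrecomplete (Ideal.span {ϖ}) S] :
    ∀ f : ℕ → S, (∀ n, ϖ ^ n ∣ f (n + 1) - f n) → ∃ L, ∀ n, ϖ ^ n ∣ L - f n := by
  intro f hf
  have hdiff : ∀ m n : ℕ, m ≤ n → ϖ ^ m ∣ f n - f m := by
    intro m n hmn
    induction n, hmn using Nat.le_induction with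
    | base => simp
    | succ n hmn ih =>
      have h1 : ϖ ^ m ∣ f (n + 1) - f n := Dvd.dvd.trans (pow_dvd_pow ϖ hmn) (hf n)
      have : f (n + 1) - f m = (f (n + 1) - f n) + (f n - f m) := by ring
      rw [this]; exact dvd_add h1 ih
  obtain ⟨L, hL⟩ := IsPrecomplete.prec (I := Ideal.span {ϖ}) ‹_› (f := f) (by
    intro m n hmn
    rw [SModEq.sub_mem, h71_mem_span_pow_iff]
    have := hdiff m n hmn
    rw [← neg_sub]; exact (dvd_neg).2 this)
  refine ⟨L, fun n => ?_⟩
  have := hL n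
  rw [SModEq.sub_mem, h71_mem_span_pow_iff] at this
  rw [← neg_sub]; exact (dvd_neg).2 this

end bridge


section mainComplete
variable {O : Type*} [CommRing O] {H : Type*} [CommRing H] [Bialgebra O H]
  [Coalgebra.IsCocomm O H] [Module.Free O H] [Module.Finite O H]
  {S : Type*} [CommRing S] [Algebra O S]

/-- `h71_lift_point_of_pow` for a `ϖ`-adically complete ring. -/
theorem h71_lift_point_of_pow_of_isAdicComplete (p : ℕ) (hp : p.Prime) (ϖ u : S) (e k : ℕ)
    (hu : IsUnit u) (hpe : (p : S) = ϖ ^ e * u) (hk : e < (p - 1) * k)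
    (hreg : ∀ z : S, ϖ * z = 0 → z = 0) [IsAdicComplete (Ideal.span {ϖ}) S]
    (I : Ideal S) (hI : ∀ x ∈ I, (p : S) * ϖ ^ k ∣ x)
    (g : H →ₐ[O] S ⧸ I)
    (hg : (toConv g.toLinearMap : WithConv (H →ₗ[O] S ⧸ I)) ^ p = 1) :
    ∃ f : H →ₐ[O] S, (toConv f.toLinearMap : WithConv (H →ₗ[O] S)) ^ p = 1 ∧
      ∀ (h : H) (s : S), Ideal.Quotient.mk I s = g h → ϖ ^ k ∣ f h - s :=
  h71_lift_point_of_pow p hp ϖ u e k hu hpe hk hreg (h71_haus_of_isHausdorff ϖ)
    (h71_prec_of_isPrecomplete ϖ) I hI g hg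

/-- `h71_point_unique_of_pow` for a `ϖ`-adically separated ring. -/
theorem h71_point_unique_of_pow_of_isHausdorff (p : ℕ) (hp : p.Prime) (ϖ u : S) (e k : ℕ)
    (hu : IsUnit u) (hpe : (p : S) = ϖ ^ e * u) (hk : e < (p - 1) * k)
    (hreg : ∀ z : S, ϖ * z = 0 → z = 0) [IsHausdorff (Ideal.span {ϖ}) S]
    (f f' : H →ₐ[O] S)
    (hf : (toConv f.toLinearMap : WithConv (H →ₗ[O] S)) ^ p = 1)
    (hf' : (toConv f'.toLinearMap : WithConv (H →ₗ[O] S)) ^ p = 1)
    (hff : ∀ h : H, ϖ ^ k ∣ f h - f' h) : f = f' :=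
  h71_point_unique_of_pow p hp ϖ u e k hu hpe hk hreg (h71_haus_of_isHausdorff ϖ) f f' hf hf' hff

/-- `h71_lift_point` for a `ϖ`-adically complete ring, `AlgHom`-level killing hypothesis. -/
theorem h71_lift_point_of_isAdicComplete (p : ℕ) (hp : p.Prime) (ϖ u : S) (e k : ℕ)
    (hu : IsUnit u) (hpe : (p : S) = ϖ ^ e * u) (hk : e < (p - 1) * k)
    (hreg : ∀ z : S, ϖ * z = 0 → z = 0) [IsAdicComplete (Ideal.span {ϖ}) S]
    (hkill : (toConv (AlgHom.id O H) : WithConv (H →ₐ[O] H)) ^ p = 1)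
    (I : Ideal S) (hI : ∀ x ∈ I, (p : S) * ϖ ^ k ∣ x)
    (g : H →ₐ[O] S ⧸ I) :
    ∃ f : H →ₐ[O] S, ∀ (h : H) (s : S),
      Ideal.Quotient.mk I s = g h → ϖ ^ k ∣ f h - s :=
  h71_lift_point p hp ϖ u e k hu hpe hk hreg (h71_haus_of_isHausdorff ϖ)
    (h71_prec_of_isPrecomplete ϖ) (h71_kill_of_algHom p hkill) I hI g

/-- `h71_point_unique` for a `ϖ`-adically separated ring, `AlgHom`-level killing hypothesis. -/
theorem h71_point_unique_of_isHausdorff (p : ℕ) (hp : p.Prime) (ϖ u : S) (e k : ℕ)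
    (hu : IsUnit u) (hpe : (p : S) = ϖ ^ e * u) (hk : e < (p - 1) * k)
    (hreg : ∀ z : S, ϖ * z = 0 → z = 0) [IsHausdorff (Ideal.span {ϖ}) S]
    (hkill : (toConv (AlgHom.id O H) : WithConv (H →ₐ[O] H)) ^ p = 1)
    (f f' : H →ₐ[O] S) (hff : ∀ h : H, ϖ ^ k ∣ f h - f' h) : f = f' :=
  h71_point_unique p hp ϖ u e k hu hpe hk hreg (h71_haus_of_isHausdorff ϖ)
    (h71_kill_of_algHom p hkill) f f' hff

end mainComplete

end Fermat.Agent.S56
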