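import Fermat.Agent.S56.h71_PointTransfer
import Fermat.Agent.S55.h6_Hensel
import Fermat.Prelude.Def_GaloisRep_Flat

/-!
# S56 / W3: the ring of integers of a finite extension of `ℚ_p` is a complete DVR; `(P_m)` locally

(helper71.)  Bridge between the ring-level lifting results (`h71_ConvLift`, `h71_PointTransfer`)
and the S55 local layer (`h63_O q K`, `h63_ord`, spectral norm).

* `h71_O_isDVR`          : `h63_O q K` is a discrete valuation ring.
* `h71_O_irreducible`    : an element of `h63_ord` one is a uniformizer.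
* `h71_O_prec`, `h71_O_isAdicComplete` : `h63_O q K` is complete.
* `h71_Pm_local`         : `(P_m)` for finite extensions `L`, `E` of `ℚ_p`: an algebra hom
  `O_L → O_E ⧸ I` with `|x|^(p-1) < |p|^p` on `I` transfers the points killed by `p`.
* `h71_ratLoc_ringHom_ext`, `h71_ratLoc_algHom` : ring homs out of the frozen base
  `GaloisRep.ratLocalizedAt p` are unique, so every ring hom between algebras over it is linear.
* `h71_mem_O_of_monic_root`, `h71_ratLoc_point_mem_O` : integrality; points of a finite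
  `ℤ_(p)`-algebra in a finite extension `K` of `ℚ_p` have values in `O_K`.
-/

set_option autoImplicit false

namespace Fermat.Agent.S56

open Fermat.Agent.S55 WithConv

section dvr
variable (q : ℕ) [Fact q.Prime]
variable (K : Type*) [Field K] [Algebra ℚ_[q] K] [FiniteDimensional ℚ_[q] K]

variable {K} in
/-- Units of `O_K` are the elements of `ord` zero. -/
theorem h71_O_isUnit_iff (x : h63_O q K) (xu : Kˣ) (h : (x : K) = xu) :
    IsUnit x ↔ h63_ord q K xu = 0 := by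
  have hx : 0 ≤ h63_ord q K xu := (h63_mem_O_iff q xu).1 (h ▸ x.2)
  have h1 := h63_mem_nonunits_iff q xu
  rw [← h, ← h6_mem_maximalIdeal_iff, IsLocalRing.mem_maximalIdeal, mem_nonunits_iff] at h1
  constructor
  · intro hu
    by_contra hne
    have hpos : 0 < h63_ord q K xu := lt_of_le_of_ne hx (Ne.symm hne)
    exact h1.2 hpos hu
  · intro h0
    by_contra hnu
    have := h1.1 hnu
    omega

/-- There is an element of `O_K` of `ord` one. -/
theorem h71_O_exists_unif : ∃ (ϖ : h63_O q K) (π : Kˣ), (ϖ : K) = π ∧ h63_ord q K π = 1 := by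
  obtain ⟨π, hπ⟩ := h63_exists_ord_eq_one q K
  have hmem : (π : K) ∈ h63_O q K := (h63_mem_O_iff q π).2 (by omega)
  exact ⟨⟨π, hmem⟩, π, rfl, hπ⟩

variable {K} in
/-- Every nonzero element of `O_K` is a unit times a power of the uniformizer. -/
theorem h71_O_factor (ϖ : h63_O q K) (π : Kˣ) (hπ : (ϖ : K) = π) (h1 : h63_ord q K π = 1)
    (x : h63_O q K) (hx : x ≠ 0) : ∃ (n : ℕ) (u : (h63_O q K)ˣ), x = u * ϖ ^ n := by
  have hx0 : (x : K) ≠ 0 := fun h => hx (Subtype.ext h)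
  have hn : 0 ≤ h63_ord q K (Units.mk0 (x : K) hx0) := (h63_mem_O_iff q _).1 x.2
  obtain ⟨n, hn'⟩ := Int.eq_ofNat_of_zero_le hn
  have hy0 : h63_ord q K (Units.mk0 (x : K) hx0 * (π ^ n)⁻¹) = 0 := by
    rw [h63_ord_mul, h63_ord_inv, h63_ord_pow, h1, hn']
    ring
  have hyinv : h63_ord q K (Units.mk0 (x : K) hx0 * (π ^ n)⁻¹)⁻¹ = 0 := by
    rw [h63_ord_inv, hy0]
    simp
  have hym : ((Units.mk0 (x : K) hx0 * (π ^ n)⁻¹ : Kˣ) : K) ∈ h63_O q K :=
    (h63_mem_O_iff q _).2 (by omega)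
  have hyim : (((Units.mk0 (x : K) hx0 * (π ^ n)⁻¹)⁻¹ : Kˣ) : K) ∈ h63_O q K :=
    (h63_mem_O_iff q _).2 (by omega)
  have hπn : (π : K) ^ n ≠ 0 := pow_ne_zero _ π.ne_zero
  refine ⟨n, ⟨⟨_, hym⟩, ⟨_, hyim⟩, ?_, ?_⟩, ?_⟩
  · apply Subtype.ext
    show ((Units.mk0 (x : K) hx0 * (π ^ n)⁻¹ : Kˣ) : K)
      * (((Units.mk0 (x : K) hx0 * (π ^ n)⁻¹)⁻¹ : Kˣ) : K) = 1
    rw [← Units.val_mul, mul_inv_cancel, Units.val_one]
  · apply Subtype.ext
    show (((Units.mk0 (x : K) hx0 * (π ^ n)⁻¹)⁻¹ : Kˣ) : K)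
      * ((Units.mk0 (x : K) hx0 * (π ^ n)⁻¹ : Kˣ) : K) = 1
    rw [← Units.val_mul, inv_mul_cancel, Units.val_one]
  · apply Subtype.ext
    show (x : K) = ((Units.mk0 (x : K) hx0 * (π ^ n)⁻¹ : Kˣ) : K) * (ϖ : K) ^ n
    rw [hπ, Units.val_mul, Units.val_mk0, Units.val_inv_eq_inv_val, Units.val_pow_eq_pow_val]
    field_simp

variable {K} in
/-- An element of `ord` one is irreducible in `O_K`. -/
theorem h71_O_irreducible (ϖ : h63_O q K) (π : Kˣ) (hπ : (ϖ : K) = π) (h1 : h63_ord q K π = 1) :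
    Irreducible ϖ := by
  rw [irreducible_iff]
  constructor
  · rw [h71_O_isUnit_iff q ϖ π hπ]
    omega
  · intro a b hab
    have hπ0 : (ϖ : K) ≠ 0 := hπ ▸ π.ne_zero
    have hab' : (ϖ : K) = (a : K) * (b : K) := by rw [hab]; rfl
    have ha0 : (a : K) ≠ 0 := fun h => hπ0 (by rw [hab', h, zero_mul])
    have hb0 : (b : K) ≠ 0 := fun h => hπ0 (by rw [hab', h, mul_zero])
    have hprod : π = Units.mk0 (a : K) ha0 * Units.mk0 (b : K) hb0 := by
      apply Units.ext
      rw [← hπ, hab']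
      simp
    have hs : h63_ord q K (Units.mk0 (a : K) ha0) + h63_ord q K (Units.mk0 (b : K) hb0) = 1 := by
      rw [← h63_ord_mul, ← hprod, h1]
    have ha : 0 ≤ h63_ord q K (Units.mk0 (a : K) ha0) := (h63_mem_O_iff q _).1 a.2
    have hb : 0 ≤ h63_ord q K (Units.mk0 (b : K) hb0) := (h63_mem_O_iff q _).1 b.2
    rcases (by omega : h63_ord q K (Units.mk0 (a : K) ha0) = 0 ∨
        h63_ord q K (Units.mk0 (b : K) hb0) = 0) with h | h
    · left
      exact (h71_O_isUnit_iff q a _ rfl).2 h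
    · right
      exact (h71_O_isUnit_iff q b _ rfl).2 h

/-- `O_K` is a discrete valuation ring. -/
theorem h71_O_isDVR : IsDiscreteValuationRing (h63_O q K) := by
  obtain ⟨ϖ, π, hπ, h1⟩ := h71_O_exists_unif q K
  apply IsDiscreteValuationRing.ofHasUnitMulPowIrreducibleFactorization
  refine ⟨ϖ, h71_O_irreducible q ϖ π hπ h1, ?_⟩
  intro x hx
  obtain ⟨n, u, hu⟩ := h71_O_factor q ϖ π hπ h1 x hx
  exact ⟨n, u, by rw [hu, mul_comm]⟩

end dvr

section complete
variable (q : ℕ) [Fact q.Prime]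
variable (K : Type*) [Field K] [Algebra ℚ_[q] K] [FiniteDimensional ℚ_[q] K]

variable {K} in
/-- Divisibility by a power of `ϖ ≠ 0` in `O_K` in terms of the spectral norm. -/
theorem h71_O_dvd_iff (ϖ : h63_O q K) (hϖ0 : ϖ ≠ 0) (n : ℕ) (x : h63_O q K) :
    ϖ ^ n ∣ x ↔ spectralNorm ℚ_[q] K (x : K) ≤ spectralNorm ℚ_[q] K (ϖ : K) ^ n := by
  have hϖK : (ϖ : K) ≠ 0 := fun h => hϖ0 (Subtype.ext h)
  have hpos : 0 < spectralNorm ℚ_[q] K (ϖ : K) ^ n :=
    pow_pos (spectralNorm_zero_lt hϖK (Algebra.IsAlgebraic.isAlgebraic _)) n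
  constructor
  · rintro ⟨c, rfl⟩
    have h1 : ((ϖ ^ n * c : h63_O q K) : K) = (ϖ : K) ^ n * (c : K) := rfl
    rw [h1, h63_spectralNorm_mul, h6_spectralNorm_pow]
    have hc : spectralNorm ℚ_[q] K (c : K) ≤ 1 := c.2
    exact mul_le_of_le_one_right hpos.le hc
  · intro h
    have hc : (x : K) / (ϖ : K) ^ n ∈ h63_O q K := by
      show spectralNorm ℚ_[q] K ((x : K) / (ϖ : K) ^ n) ≤ 1
      have h2 : (x : K) = ((x : K) / (ϖ : K) ^ n) * (ϖ : K) ^ n := by
        field_simp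
      have h3 := h
      rw [h2, h63_spectralNorm_mul, h6_spectralNorm_pow] at h3
      exact le_of_mul_le_mul_right (by rwa [one_mul]) hpos
    refine ⟨⟨_, hc⟩, ?_⟩
    apply Subtype.ext
    show (x : K) = (ϖ : K) ^ n * ((x : K) / (ϖ : K) ^ n)
    field_simp

variable {K} in
/-- `O_K` is complete for the `ϖ`-adic topology (elementary form). -/
theorem h71_O_prec (ϖ : h63_O q K) (hϖ0 : ϖ ≠ 0) (hϖ1 : spectralNorm ℚ_[q] K (ϖ : K) < 1)
    (f : ℕ → h63_O q K) (hf : ∀ n, ϖ ^ n ∣ f (n + 1) - f n) :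
    ∃ L, ∀ n, ϖ ^ n ∣ L - f n := by
  set r : ℝ := spectralNorm ℚ_[q] K (ϖ : K) with hr
  have hr0 : 0 ≤ r := spectralNorm_nonneg _
  have hna : ∀ x y : K, spectralNorm ℚ_[q] K (x + y)
      ≤ max (spectralNorm ℚ_[q] K x) (spectralNorm ℚ_[q] K y) := isNonarchimedean_spectralNorm
  set g : ℕ → K := fun n => ((f n : h63_O q K) : K) with hg
  have hstep : ∀ n, spectralNorm ℚ_[q] K (g (n + 1) - g n) ≤ r ^ n := fun n =>
    (h71_O_dvd_iff q ϖ hϖ0 n (f (n + 1) - f n)).1 (hf n)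
  have hdiff : ∀ m n, m ≤ n → spectralNorm ℚ_[q] K (g n - g m) ≤ r ^ m := by
    intro m n hmn
    induction n, hmn using Nat.le_induction with
    | base => rw [sub_self, spectralNorm_zero]; exact pow_nonneg hr0 m
    | succ n hmn ih =>
      have h1 : g (n + 1) - g m = (g (n + 1) - g n) + (g n - g m) := by ring
      rw [h1]
      refine (hna _ _).trans (max_le ((hstep n).trans ?_) ih)
      exact pow_le_pow_of_le_one hr0 hϖ1.le hmn
  -- the limit, for the spectral norm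
  obtain ⟨L, hLn⟩ : ∃ L : K, ∀ n, spectralNorm ℚ_[q] K (L - g n) ≤ r ^ n := by
    let _ : NormedField K := spectralNorm.normedField ℚ_[q] K
    have : CompleteSpace K := spectralNorm.completeSpace ℚ_[q] K
    have hcau : CauchySeq g := by
      apply cauchySeq_of_le_geometric r 1 hϖ1
      intro n
      rw [dist_eq_norm, one_mul, ← norm_neg, neg_sub]
      exact hstep n
    obtain ⟨L, hL⟩ := cauchySeq_tendsto_of_complete hcau
    refine ⟨L, fun n => ?_⟩
    have h1 : Filter.Tendsto (fun m => ‖g m - g n‖) Filter.atTop (nhds ‖L - g n‖) :=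
      (hL.sub tendsto_const_nhds).norm
    exact le_of_tendsto h1 (Filter.eventually_atTop.2 ⟨n, fun m hm => hdiff n m hm⟩)
  have hLO : L ∈ h63_O q K := by
    have h0 := hLn 0
    rw [pow_zero] at h0
    have h1 : L = (L - g 0) + g 0 := by ring
    show spectralNorm ℚ_[q] K L ≤ 1
    rw [h1]
    exact (hna _ _).trans (max_le h0 (f 0).2)
  refine ⟨⟨L, hLO⟩, fun n => ?_⟩
  rw [h71_O_dvd_iff q ϖ hϖ0]
  exact hLn n

/-- `O_K` is adically complete. -/
theorem h71_O_isAdicComplete :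
    IsAdicComplete (IsLocalRing.maximalIdeal (h63_O q K)) (h63_O q K) := by
  have := h71_O_isDVR q K
  obtain ⟨ϖ, π, hπ, h1⟩ := h71_O_exists_unif q K
  have hirr := h71_O_irreducible q ϖ π hπ h1
  have hϖ1 : spectralNorm ℚ_[q] K (ϖ : K) < 1 := by
    rw [← h6_mem_nonunits_iff_spectralNorm, ← h6_mem_maximalIdeal_iff,
      IsLocalRing.mem_maximalIdeal, mem_nonunits_iff]
    exact hirr.not_isUnit
  rw [hirr.maximalIdeal_eq]
  refine { haus' := ?_, prec' := ?_ }
  · intro x hx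
    apply h71_dvr_haus ϖ hirr
    intro n
    have h2 := hx n
    rwa [SModEq.sub_mem, sub_zero, h71_mem_span_pow_iff] at h2
  · intro f hf
    obtain ⟨L, hL⟩ := h71_O_prec q ϖ hirr.ne_zero hϖ1 f (fun n => by
      have h2 := hf (Nat.le_succ n)
      rw [SModEq.sub_mem, h71_mem_span_pow_iff] at h2
      rw [← neg_sub]
      exact (dvd_neg).2 h2)
    refine ⟨L, fun n => ?_⟩
    rw [SModEq.sub_mem, h71_mem_span_pow_iff, ← neg_sub]
    exact (dvd_neg).2 (hL n)

variable {K} in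
/-- Units of `O_K` have spectral norm one. -/
theorem h71_O_unit_norm (u : (h63_O q K)ˣ) :
    spectralNorm ℚ_[q] K ((u : h63_O q K) : K) = 1 := by
  have h1 : spectralNorm ℚ_[q] K ((u : h63_O q K) : K)
      * spectralNorm ℚ_[q] K (((u⁻¹ : (h63_O q K)ˣ) : h63_O q K) : K) = 1 := by
    rw [← h63_spectralNorm_mul]
    have h2 : ((u : h63_O q K) : K) * (((u⁻¹ : (h63_O q K)ˣ) : h63_O q K) : K)
        = (((u * u⁻¹ : (h63_O q K)ˣ) : h63_O q K) : K) := rfl
    rw [h2, mul_inv_cancel]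
    exact spectralNorm_one
  have ha : spectralNorm ℚ_[q] K ((u : h63_O q K) : K) ≤ 1 := (u : h63_O q K).2
  have hb : spectralNorm ℚ_[q] K (((u⁻¹ : (h63_O q K)ˣ) : h63_O q K) : K) ≤ 1 :=
    ((u⁻¹ : (h63_O q K)ˣ) : h63_O q K).2
  have ha0 : 0 ≤ spectralNorm ℚ_[q] K ((u : h63_O q K) : K) := spectralNorm_nonneg _
  have hb0 : 0 ≤ spectralNorm ℚ_[q] K (((u⁻¹ : (h63_O q K)ˣ) : h63_O q K) : K) :=
    spectralNorm_nonneg _
  nlinarith

/-- The spectral norm of `p` in `O_K`. -/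
theorem h71_O_norm_p : spectralNorm ℚ_[q] K (((q : ℕ) : h63_O q K) : K) = (q : ℝ)⁻¹ := by
  have h1 : (((q : ℕ) : h63_O q K) : K) = algebraMap ℚ_[q] K (q : ℚ_[q]) := by
    rw [map_natCast]
    rfl
  rw [h1, spectralNorm_extends, Padic.norm_p]

end complete

section localPm
variable (p : ℕ) [Fact p.Prime]
variable {O : Type*} [CommRing O] {H : Type*} [CommRing H] [Bialgebra O H]
  [Coalgebra.IsCocomm O H] [Module.Free O H] [Module.Finite O H]

/-- **`(P_m)`, local form.**  `L`, `E` finite extensions of `ℚ_p` with rings of integers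
`O_L = h63_O p L`, `O_E = h63_O p E` (both `O`-algebras); `I` an ideal of `O_E` all of whose
elements satisfy `|x|^(p-1) < |p|^p` (i.e. `v(x) > p/(p-1)` for `v(p) = 1`); `φ : O_L → O_E ⧸ I`
an `O`-algebra hom.  If `O_L`, `O_E` embed in `Ω`, `Hom(H, Ω)` is finite and every point of `H`
in `Ω` killed by `p` has values in `O_L`, then every such point has values in `O_E`. -/
theorem h71_Pm_local
    (L E : Type*) [Field L] [Algebra ℚ_[p] L] [FiniteDimensional ℚ_[p] L]
    [Field E] [Algebra ℚ_[p] E] [FiniteDimensional ℚ_[p] E]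
    [Algebra O (h63_O p L)] [Algebra O (h63_O p E)]
    (I : Ideal (h63_O p E))
    (hI : ∀ x ∈ I, spectralNorm ℚ_[p] E (x : E) ^ (p - 1) < ((p : ℝ)⁻¹) ^ p)
    (φ : h63_O p L →ₐ[O] h63_O p E ⧸ I)
    {Ω : Type*} [CommRing Ω] [Algebra O Ω] [Finite (H →ₐ[O] Ω)]
    (ιL : h63_O p L →ₐ[O] Ω) (ιE : h63_O p E →ₐ[O] Ω)
    (hιL : Function.Injective ιL) (hιE : Function.Injective ιE)
    (hL : ∀ γ : H →ₐ[O] Ω, (toConv γ.toLinearMap : WithConv (H →ₗ[O] Ω)) ^ p = 1 →
      ∃ γ' : H →ₐ[O] h63_O p L, ιL.comp γ' = γ)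
    (γ : H →ₐ[O] Ω) (hγ : (toConv γ.toLinearMap : WithConv (H →ₗ[O] Ω)) ^ p = 1) :
    ∃ f : H →ₐ[O] h63_O p E, ιE.comp f = γ := by
  have hp : p.Prime := Fact.out
  have hp2 : (2 : ℝ) ≤ p := by exact_mod_cast hp.two_le
  have := h71_O_isDVR p E
  have := h71_O_isDVR p L
  have := h71_O_isAdicComplete p E
  obtain ⟨ϖ, π, hπ, h1⟩ := h71_O_exists_unif p E
  have hirr := h71_O_irreducible p ϖ π hπ h1
  have hϖ1 : spectralNorm ℚ_[p] E (ϖ : E) < 1 := by
    rw [← h6_mem_nonunits_iff_spectralNorm, ← h6_mem_maximalIdeal_iff,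
      IsLocalRing.mem_maximalIdeal, mem_nonunits_iff]
    exact hirr.not_isUnit
  have hϖK : (ϖ : E) ≠ 0 := fun h => hirr.ne_zero (Subtype.ext h)
  have hϖpos : 0 < spectralNorm ℚ_[p] E (ϖ : E) :=
    spectralNorm_zero_lt hϖK (Algebra.IsAlgebraic.isAlgebraic _)
  have hpE := h71_O_norm_p p E
  have hpinv : (0 : ℝ) < (p : ℝ)⁻¹ := by positivity
  have hp0 : ((p : ℕ) : h63_O p E) ≠ 0 := by
    intro h
    rw [h] at hpE
    have h2 : spectralNorm ℚ_[p] E ((0 : h63_O p E) : E) = 0 := spectralNorm_zero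
    rw [h2] at hpE
    linarith
  obtain ⟨e, u, hpe⟩ := IsDiscreteValuationRing.eq_unit_mul_pow_irreducible hp0 hirr
  have hpnorm : (p : ℝ)⁻¹ = spectralNorm ℚ_[p] E (ϖ : E) ^ e := by
    rw [← hpE, hpe]
    have h2 : (((u : h63_O p E) * ϖ ^ e : h63_O p E) : E)
        = ((u : h63_O p E) : E) * (ϖ : E) ^ e := rfl
    rw [h2, h63_spectralNorm_mul, h71_O_unit_norm, one_mul, h6_spectralNorm_pow]
  have he : 0 < e := by
    rcases Nat.eq_zero_or_pos e with h | h
    · rw [h, pow_zero] at hpnorm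
      have : (p : ℝ)⁻¹ < 1 := inv_lt_one_of_one_lt₀ (by linarith)
      linarith
    · exact h
  obtain ⟨M, hIM, hM⟩ : ∃ M, I ≤ Ideal.span {ϖ ^ M} ∧ p * e < (p - 1) * M := by
    by_cases hI0 : I = ⊥
    · refine ⟨p * e + 1, by rw [hI0]; exact bot_le, ?_⟩
      calc p * e < p * e + 1 := Nat.lt_succ_self _
        _ = 1 * (p * e + 1) := (one_mul _).symm
        _ ≤ (p - 1) * (p * e + 1) := Nat.mul_le_mul_right _ (by have := hp.two_le; omega)
    · obtain ⟨M, hM⟩ := IsDiscreteValuationRing.ideal_eq_span_pow_irreducible hI0 hirr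
      refine ⟨M, hM.le, ?_⟩
      have hmem : ϖ ^ M ∈ I := by
        rw [hM]
        exact Ideal.mem_span_singleton_self _
      have h2 := hI _ hmem
      have h3 : ((ϖ ^ M : h63_O p E) : E) = (ϖ : E) ^ M := rfl
      rw [h3, h6_spectralNorm_pow, hpnorm, ← pow_mul, ← pow_mul] at h2
      have h4 := (pow_lt_pow_iff_right_of_lt_one₀ hϖpos hϖ1).1 h2
      rw [mul_comm p e, mul_comm (p - 1) M]
      exact h4
  have hpL : ((p : ℕ) : h63_O p L) ≠ 0 := by
    intro h
    have h2 := h71_O_norm_p p L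
    rw [h] at h2
    have h3 : spectralNorm ℚ_[p] L ((0 : h63_O p L) : L) = 0 := spectralNorm_zero
    rw [h3] at h2
    linarith
  exact h71_points_factor_dvr p hp ϖ hirr e M (u : h63_O p E) u.isUnit (by rw [hpe, mul_comm])
    he hM I hIM hpL φ ιL ιE hιL hιE hL γ hγ

end localPm

section ratLoc

/-- Ring homs out of `ℤ_(p) = GaloisRep.ratLocalizedAt p` are unique. -/
theorem h71_ratLoc_ringHom_ext (p : ℕ) {A : Type*} [Ring A]
    (f g : GaloisRep.ratLocalizedAt p →+* A) : f = g := by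
  ext x
  have hxden : x.1.den.Coprime p := x.2
  have hden0 : x.1.den ≠ 0 := x.1.den_nz
  have hinvmem : ((x.1.den : ℚ))⁻¹ ∈ GaloisRep.ratLocalizedAt p := by
    show ((x.1.den : ℚ))⁻¹.den.Coprime p
    rw [Rat.inv_natCast_den_of_pos (Nat.pos_of_ne_zero hden0)]
    exact hxden
  set d : GaloisRep.ratLocalizedAt p := ((x.1.den : ℕ) : GaloisRep.ratLocalizedAt p) with hd
  set n : GaloisRep.ratLocalizedAt p := ((x.1.num : ℤ) : GaloisRep.ratLocalizedAt p) with hn
  set dinv : GaloisRep.ratLocalizedAt p := ⟨_, hinvmem⟩ with hdinv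
  have hfd : f d = g d := by rw [hd, map_natCast, map_natCast]
  have hfn : f n = g n := by rw [hn, map_intCast, map_intCast]
  have hxd : x * d = n := by
    apply Subtype.ext
    show (x : ℚ) * ((x.1.den : ℕ) : ℚ) = ((x.1.num : ℤ) : ℚ)
    exact Rat.mul_den_eq_num x.1
  have hdd : d * dinv = 1 := by
    apply Subtype.ext
    show ((x.1.den : ℕ) : ℚ) * ((x.1.den : ℚ))⁻¹ = 1
    exact mul_inv_cancel₀ (by exact_mod_cast hden0)
  calc f x = f x * (g d * g dinv) := by rw [← map_mul, hdd, map_one, mul_one]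
    _ = f x * f d * g dinv := by rw [← hfd, mul_assoc]
    _ = g x * g d * g dinv := by rw [← map_mul, hxd, hfn, ← hxd, map_mul]
    _ = g x := by rw [mul_assoc, ← map_mul, hdd, map_one, mul_one]

/-- Every ring hom between `ℤ_(p)`-algebras is a `ℤ_(p)`-algebra hom. -/
noncomputable def h71_ratLoc_algHom (p : ℕ) {A B : Type*} [Ring A] [Ring B]
    [Algebra (GaloisRep.ratLocalizedAt p) A] [Algebra (GaloisRep.ratLocalizedAt p) B]
    (φ : A →+* B) : A →ₐ[GaloisRep.ratLocalizedAt p] B :=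
  { φ with
    commutes' := fun r => RingHom.congr_fun
      (h71_ratLoc_ringHom_ext p (φ.comp (algebraMap _ A)) (algebraMap _ B)) r }

theorem h71_ratLoc_algHom_apply (p : ℕ) {A B : Type*} [Ring A] [Ring B]
    [Algebra (GaloisRep.ratLocalizedAt p) A] [Algebra (GaloisRep.ratLocalizedAt p) B]
    (φ : A →+* B) (a : A) : h71_ratLoc_algHom p φ a = φ a := rfl

variable (q : ℕ) [Fact q.Prime]
variable (K : Type*) [Field K] [Algebra ℚ_[q] K] [FiniteDimensional ℚ_[q] K]

/-- A root in `K` of a monic polynomial over `ℚ_q` with coefficients of norm `≤ 1` lies in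
`O_K`. -/
theorem h71_mem_O_of_monic_root (P : Polynomial ℚ_[q]) (hP : P.Monic)
    (hc : ∀ i, ‖P.coeff i‖ ≤ 1) (x : K) (hx : Polynomial.aeval x P = 0) : x ∈ h63_O q K := by
  have hco : (↑(P.map (algebraMap ℚ_[q] K)).coeffs : Set K) ⊆ (h63_O q K).toSubring := by
    intro c hc'
    rw [Finset.mem_coe, Polynomial.mem_coeffs_iff] at hc'
    obtain ⟨n, _, rfl⟩ := hc'
    rw [Polynomial.coeff_map]
    show spectralNorm ℚ_[q] K (algebraMap ℚ_[q] K (P.coeff n)) ≤ 1
    rw [spectralNorm_extends]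
    exact hc n
  have hint : IsIntegral (h63_O q K) x := by
    refine ⟨(P.map (algebraMap ℚ_[q] K)).toSubring (h63_O q K).toSubring hco,
      (Polynomial.monic_toSubring _ _ _).2 (hP.map _), ?_⟩
    rw [← Polynomial.eval_map]
    have h1 : ((P.map (algebraMap ℚ_[q] K)).toSubring (h63_O q K).toSubring hco).map
        (algebraMap (h63_O q K) K) = P.map (algebraMap ℚ_[q] K) :=
      Polynomial.map_toSubring _ _ _
    rw [h1, Polynomial.eval_map, ← Polynomial.aeval_def]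
    exact hx
  obtain ⟨y, hy⟩ := IsIntegrallyClosed.algebraMap_eq_of_integral hint
  rw [← hy]
  exact y.2

/-- Points of a finite `ℤ_(p)`-algebra in a finite extension `K` of `ℚ_p` have values in `O_K`. -/
theorem h71_ratLoc_point_mem_O {H : Type*} [CommRing H]
    [Algebra (GaloisRep.ratLocalizedAt q) H] [Module.Finite (GaloisRep.ratLocalizedAt q) H]
    [Algebra (GaloisRep.ratLocalizedAt q) K]
    (γ : H →ₐ[GaloisRep.ratLocalizedAt q] K) (h : H) : γ h ∈ h63_O q K := by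
  have hint : IsIntegral (GaloisRep.ratLocalizedAt q) h := Algebra.IsIntegral.isIntegral h
  obtain ⟨Q, hQ, hQ0⟩ := hint
  set ι : GaloisRep.ratLocalizedAt q →+* ℚ_[q] :=
    (Rat.castHom ℚ_[q]).comp (Subring.subtype _) with hι
  apply h71_mem_O_of_monic_root q K (Q.map ι) (hQ.map ι) ?_ (γ h) ?_
  · intro i
    rw [Polynomial.coeff_map]
    have hden : (Q.coeff i).1.den.Coprime q := (Q.coeff i).2
    have hnd : ¬ q ∣ (Q.coeff i).1.den := by
      intro hdvd
      have h1 : q ∣ Nat.gcd (Q.coeff i).1.den q := Nat.dvd_gcd hdvd dvd_rfl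
      rw [hden] at h1
      exact (Fact.out : q.Prime).one_lt.ne' (Nat.dvd_one.1 h1)
    exact Padic.norm_rat_le_one hnd
  · rw [Polynomial.aeval_def, Polynomial.eval₂_map]
    have hcomp : (algebraMap ℚ_[q] K).comp ι = algebraMap (GaloisRep.ratLocalizedAt q) K :=
      h71_ratLoc_ringHom_ext q _ _
    rw [hcomp, ← Polynomial.aeval_def, Polynomial.aeval_algHom_apply, Polynomial.aeval_def, hQ0,
      map_zero]

end ratLoc

end Fermat.Agent.S56
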