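/-
S56 / W3 E-RED: the counting lemma (RC).  `X` a `k`-vector space (`k` a finite field of
characteristic `p`), `E : X → kF` additive with values in a field of characteristic `p`,
Frobenius-semilinear with respect to one scalar `μ` (`E (μ • a) = E a ^ p`) and such that no
nonzero `a` has `E` vanishing on the whole line `k • a`.  Then `dim_k X ≤ 1`.
-/
import Mathlib

set_option autoImplicit false

open Polynomial IntermediateField

namespace Fermat.Agent.S56

section RedCount

variable (p : ℕ) [Fact p.Prime] {k kF : Type*} [Field k] [Field kF]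

/-- the `p`-polynomial `∑ q_j Y^(p^j)` attached to `Q = ∑ q_j T^j`. -/
noncomputable def h11_frPoly [Algebra (ZMod p) kF] (Q : (ZMod p)[X]) : kF[X] :=
  ∑ j ∈ Finset.range (Q.natDegree + 1), C (algebraMap (ZMod p) kF (Q.coeff j)) * X ^ (p ^ j)

theorem h11_frPoly_eval [Algebra (ZMod p) kF] (Q : (ZMod p)[X]) (y : kF) :
    eval y (h11_frPoly p Q) =
      ∑ j ∈ Finset.range (Q.natDegree + 1), algebraMap (ZMod p) kF (Q.coeff j) * y ^ (p ^ j) := by
  unfold h11_frPoly
  rw [eval_finsetSum]
  refine Finset.sum_congr rfl fun j _ => ?_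
  rw [eval_mul, eval_C, eval_pow, eval_X]

theorem h11_frPoly_natDegree_le [Algebra (ZMod p) kF] (Q : (ZMod p)[X]) :
    (h11_frPoly (kF := kF) p Q).natDegree ≤ p ^ Q.natDegree := by
  unfold h11_frPoly
  refine natDegree_sum_le_of_forall_le _ _ fun j hj => ?_
  refine (natDegree_C_mul_X_pow_le _ _).trans ?_
  exact Nat.pow_le_pow_right (Fact.out : p.Prime).pos (Nat.lt_succ_iff.mp (Finset.mem_range.mp hj))

theorem h11_frPoly_coeff_top [Algebra (ZMod p) kF] (Q : (ZMod p)[X]) :
    (h11_frPoly (kF := kF) p Q).coeff (p ^ Q.natDegree) =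
      algebraMap (ZMod p) kF Q.leadingCoeff := by
  unfold h11_frPoly
  rw [finsetSum_coeff, Finset.sum_eq_single Q.natDegree]
  · rw [coeff_C_mul, coeff_X_pow, if_pos rfl, mul_one]
    rfl
  · intro j _ hj
    rw [coeff_C_mul, coeff_X_pow, if_neg, mul_zero]
    intro h
    exact hj (Nat.pow_right_injective (Fact.out : p.Prime).two_le h).symm
  · intro h
    exact absurd (Finset.mem_range.mpr (Nat.lt_succ_self _)) h

variable [Fintype k] [CharP k p] [CharP kF p]

/-- **(RC)** the counting lemma of the reducible case. -/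
theorem h11_red_count (μ : k) {X : Type*} [AddCommGroup X] [Module k X]
    (E : X → kF) (hadd : ∀ a b, E (a + b) = E a + E b)
    (hfrob : ∀ a, E (μ • a) = E a ^ p)
    (hinj : ∀ a, (∀ c : k, E (c • a) = 0) → a = 0) :
    Module.finrank k X ≤ 1 := by
  classical
  let _ : Algebra (ZMod p) k := ZMod.algebra k p
  let _ : Algebra (ZMod p) kF := ZMod.algebra kF p
  have hp : p.Prime := Fact.out
  -- `E` as an additive hom
  obtain ⟨Eh, hEh⟩ : ∃ Eh : X →+ kF, ∀ a, Eh a = E a := ⟨AddMonoidHom.mk' E hadd, fun a => rfl⟩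
  -- powers of `μ`
  have hpow : ∀ (j : ℕ) (a : X), E (μ ^ j • a) = E a ^ (p ^ j) := by
    intro j
    induction j with
    | zero => intro a; simp
    | succ j ih =>
      intro a
      rw [pow_succ', mul_smul, hfrob, ih, ← pow_mul, pow_succ]
  -- scalars of the prime field
  have hscal : ∀ (q : ZMod p) (a : X),
      E (algebraMap (ZMod p) k q • a) = algebraMap (ZMod p) kF q * E a := by
    intro q a
    obtain ⟨n, rfl⟩ := ZMod.natCast_zmod_surjective q
    rw [map_natCast, map_natCast, Nat.cast_smul_eq_nsmul, ← hEh, map_nsmul, nsmul_eq_mul, hEh]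
  -- polynomials in `μ`
  have hpoly : ∀ (Q : (ZMod p)[X]) (a : X),
      E (aeval μ Q • a) = eval (E a) (h11_frPoly p Q) := by
    intro Q a
    rw [aeval_eq_sum_range, Finset.sum_smul, ← hEh, map_sum, h11_frPoly_eval]
    refine Finset.sum_congr rfl fun j _ => ?_
    rw [hEh, Algebra.smul_def, mul_smul, hscal, hpow]
  -- all values of `E` are roots of one nonzero polynomial
  have hμ : IsIntegral (ZMod p) μ := Algebra.IsIntegral.isIntegral μ
  obtain ⟨P, hP⟩ : ∃ P : (ZMod p)[X], P = minpoly (ZMod p) μ := ⟨_, rfl⟩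
  have hPmonic : P.Monic := hP ▸ minpoly.monic hμ
  have hR0 : h11_frPoly (kF := kF) p P ≠ 0 := by
    intro h0
    have h1 := h11_frPoly_coeff_top (kF := kF) p P
    rw [h0, coeff_zero, hPmonic.leadingCoeff, map_one] at h1
    exact zero_ne_one h1
  have hroot : ∀ a : X, E a ∈ (h11_frPoly (kF := kF) p P).roots.toFinset := by
    intro a
    rw [Multiset.mem_toFinset, mem_roots hR0, IsRoot.def, ← hpoly, hP, minpoly.aeval, zero_smul,
      ← hEh, map_zero]
  have hScard : (h11_frPoly (kF := kF) p P).roots.toFinset.card ≤ p ^ P.natDegree :=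
    (Multiset.toFinset_card_le _).trans
      ((card_roots' _).trans (h11_frPoly_natDegree_le p P))
  -- the subfield `k₀ = F_p(μ)` and a basis of `k` over it
  obtain ⟨k0, hk0⟩ : ∃ k0 : IntermediateField (ZMod p) k, k0 = (ZMod p)⟮μ⟯ := ⟨_, rfl⟩
  have hk0mem : ∀ c0 : k0, ∃ Q : (ZMod p)[X], aeval μ Q = (c0 : k) := by
    intro c0
    have h1 : (c0 : k) ∈ ((ZMod p)⟮μ⟯).toSubalgebra := by
      rw [← hk0]
      exact c0.2
    rw [adjoin_simple_toSubalgebra_of_isAlgebraic hμ.isAlgebraic,
      Algebra.adjoin_singleton_eq_range_aeval] at h1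
    exact h1
  obtain ⟨m, b, -⟩ : ∃ (m : ℕ) (b : Module.Basis (Fin m) k0 k), True :=
    ⟨_, Module.finBasis k0 k, trivial⟩
  -- the key vanishing
  have hvan : ∀ d : X, (∀ i, E (b i • d) = 0) → ∀ c : k, E (c • d) = 0 := by
    intro d hd c
    have hc : c = ∑ i, ((b.repr c i : k0) : k) * b i := by
      conv_lhs => rw [← b.sum_repr c]
      refine Finset.sum_congr rfl fun i _ => ?_
      rw [IntermediateField.smul_def, smul_eq_mul]
    rw [hc, Finset.sum_smul, ← hEh, map_sum]
    refine Finset.sum_eq_zero fun i _ => ?_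
    obtain ⟨Q, hQ⟩ := hk0mem (b.repr c i)
    rw [hEh, ← hQ, mul_smul, hpoly, hd i, h11_frPoly_eval]
    refine Finset.sum_eq_zero fun j _ => ?_
    rw [zero_pow (pow_ne_zero _ hp.ne_zero), mul_zero]
  -- the count
  by_contra hcon
  push Not at hcon
  have hfin : Module.Finite k X := Module.finite_of_finrank_pos (by omega)
  have : Finite X := Module.finite_of_finite k
  have : Fintype X := Fintype.ofFinite X
  have hcardX : Fintype.card X = Fintype.card k ^ Module.finrank k X := Module.card_eq_pow_finrank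
  -- the injection
  let Θ : X → (Fin m → ↥((h11_frPoly (kF := kF) p P).roots.toFinset)) :=
    fun a i => ⟨E (b i • a), hroot _⟩
  have hΘ : Function.Injective Θ := by
    intro a a' h
    have hd : ∀ i, E (b i • (a - a')) = 0 := by
      intro i
      have h1 := congrArg Subtype.val (congrFun h i)
      have h2 : E (b i • a) = E (b i • a') := h1
      rw [smul_sub, ← hEh, map_sub, hEh, hEh, h2, sub_self]
    exact sub_eq_zero.mp (hinj _ (hvan _ hd))
  have h1 := Fintype.card_le_of_injective Θ hΘ
  rw [Fintype.card_fun, Fintype.card_fin, Fintype.card_coe] at h1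
  have h2 : Fintype.card X ≤ (p ^ P.natDegree) ^ m := h1.trans (Nat.pow_le_pow_left hScard m)
  -- the cardinality of `k`
  have hk0card : Fintype.card k0 = p ^ P.natDegree := by
    have h3 : Fintype.card k0 = Fintype.card (ZMod p) ^ Module.finrank (ZMod p) k0 :=
      Module.card_eq_pow_finrank
    rw [h3, ZMod.card, hk0, adjoin.finrank hμ, hP]
  have hkcard : Fintype.card k = (p ^ P.natDegree) ^ m := by
    have h3 : Fintype.card k = Fintype.card k0 ^ Module.finrank k0 k := Module.card_eq_pow_finrank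
    rw [h3, hk0card, Module.finrank_eq_card_basis b, Fintype.card_fin]
  rw [← hkcard, hcardX] at h2
  have h4 : Fintype.card k ^ Module.finrank k X ≤ Fintype.card k ^ 1 := by
    rw [pow_one]
    exact h2
  have h5 := (Nat.pow_le_pow_iff_right Fintype.one_lt_card).mp h4
  omega

end RedCount

end Fermat.Agent.S56
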