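import Mathlib

/-!
# S56 / W3 / E-RED row RED-S4 (a): restriction to `J₁` is injective modulo coboundaries

Abstract group cohomology (Mathlib only).  `χ : Γ → k` is a character (`χ = χ₁/χ₂`), `c` a
`χ`-cocycle (`c (s t) = c s + χ s * c t`), `J ≤ Γ` a subgroup with `g τ g⁻¹ τ⁻¹ ∈ J` for all `g`
(e.g. `Γ/J` abelian, or `J` normal and `τ ∈ J`), and `χ τ ≠ 1`.  If `c` vanishes on
`J₁ = {s ∈ J | χ s = 1}` then `c` is a coboundary: `c g = x * (χ g - 1)`.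

`h11_red_res_inj'` is the same statement for the un-normalised upper right entry
`β (s t) = β s * χ₂ t + χ₁ s * β t` (conclusion `β g = x * (χ₁ g - χ₂ g)`), and
`h11_red_res_inj_mat` is the matrix form used by the E-RED assembly.
-/

set_option autoImplicit false

namespace Fermat.Agent.S56

variable {Γ : Type*} [Group Γ] {k : Type*} [Field k]

/-- a multiplicative nowhere vanishing map sends `1` to `1`. -/
theorem h11_chi_one (χ : Γ → k) (hχ : ∀ s t, χ (s * t) = χ s * χ t) (hχ0 : ∀ g, χ g ≠ 0) :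
    χ 1 = 1 := by
  have h := hχ 1 1
  rw [mul_one] at h
  exact (mul_right_cancel₀ (hχ0 1) (by rw [one_mul]; exact h)).symm

/-- a multiplicative nowhere vanishing map is trivial on commutators. -/
theorem h11_chi_comm (χ : Γ → k) (hχ : ∀ s t, χ (s * t) = χ s * χ t) (hχ0 : ∀ g, χ g ≠ 0)
    (g τ : Γ) : χ (g * τ * g⁻¹ * τ⁻¹) = 1 := by
  have h1 := h11_chi_one χ hχ hχ0
  have hg : χ g * χ g⁻¹ = 1 := by rw [← hχ, mul_inv_cancel, h1]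
  have hτ : χ τ * χ τ⁻¹ = 1 := by rw [← hχ, mul_inv_cancel, h1]
  rw [hχ, hχ, hχ]
  calc χ g * χ τ * χ g⁻¹ * χ τ⁻¹ = (χ g * χ g⁻¹) * (χ τ * χ τ⁻¹) := by ring
    _ = 1 := by rw [hg, hτ, mul_one]

/-- **RED-S4 (a)**, normalised form. -/
theorem h11_red_res_inj (χ : Γ → k) (hχ : ∀ s t, χ (s * t) = χ s * χ t) (hχ0 : ∀ g, χ g ≠ 0)
    (c : Γ → k) (hc : ∀ s t, c (s * t) = c s + χ s * c t)
    (J : Subgroup Γ) (τ : Γ) (hτJ : ∀ g : Γ, g * τ * g⁻¹ * τ⁻¹ ∈ J) (hτ1 : χ τ ≠ 1)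
    (hJ1 : ∀ s ∈ J, χ s = 1 → c s = 0) :
    ∃ x : k, ∀ g, c g = x * (χ g - 1) := by
  have hne : χ τ - 1 ≠ 0 := sub_ne_zero.mpr hτ1
  refine ⟨c τ / (χ τ - 1), fun g => ?_⟩
  -- the commutator `j = g τ g⁻¹ τ⁻¹`
  have hj0 : c (g * τ * g⁻¹ * τ⁻¹) = 0 :=
    hJ1 _ (hτJ g) (h11_chi_comm χ hχ hχ0 g τ)
  have hj1 : χ (g * τ * g⁻¹ * τ⁻¹) = 1 := h11_chi_comm χ hχ hχ0 g τ
  -- `g τ = j τ g`
  have hmul : g * τ = (g * τ * g⁻¹ * τ⁻¹) * (τ * g) := by group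
  have h1 : c (g * τ) = c g + χ g * c τ := hc g τ
  have h2 : c (g * τ) = c τ + χ τ * c g := by
    rw [hmul, hc, hj0, hj1, zero_add, one_mul, hc]
  have h3 : c g * (χ τ - 1) = c τ * (χ g - 1) := by linear_combination h1 - h2
  rw [div_mul_eq_mul_div, eq_div_iff hne, h3]

/-- **RED-S4 (a)**, un-normalised form: `β = a'₁₂` for an upper triangular cocycle. -/
theorem h11_red_res_inj' (χ₁ χ₂ : Γ → k) (h₁ : ∀ s t, χ₁ (s * t) = χ₁ s * χ₁ t)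
    (h₂ : ∀ s t, χ₂ (s * t) = χ₂ s * χ₂ t) (h₁0 : ∀ g, χ₁ g ≠ 0) (h₂0 : ∀ g, χ₂ g ≠ 0)
    (β : Γ → k) (hβ : ∀ s t, β (s * t) = β s * χ₂ t + χ₁ s * β t)
    (J : Subgroup Γ) (τ : Γ) (hτJ : ∀ g : Γ, g * τ * g⁻¹ * τ⁻¹ ∈ J) (hτ1 : χ₁ τ ≠ χ₂ τ)
    (hJ1 : ∀ s ∈ J, χ₁ s = χ₂ s → β s = 0) :
    ∃ x : k, ∀ g, β g = x * (χ₁ g - χ₂ g) := by
  obtain ⟨x, hx⟩ := h11_red_res_inj (fun g => χ₁ g / χ₂ g)
    (fun s t => by rw [h₁, h₂, mul_div_mul_comm])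
    (fun g => div_ne_zero (h₁0 g) (h₂0 g))
    (fun g => β g / χ₂ g)
    (fun s t => by
      have := h₂0 s; have := h₂0 t
      rw [hβ, h₂]; field_simp)
    J τ hτJ
    (fun h => hτ1 (by rwa [div_eq_one_iff_eq (h₂0 τ)] at h))
    (fun s hs h => by
      rw [div_eq_one_iff_eq (h₂0 s)] at h
      rw [hJ1 s hs h, zero_div])
  refine ⟨x, fun g => ?_⟩
  have h := hx g
  have := h₂0 g
  field_simp at h
  linear_combination h

end Fermat.Agent.S56
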