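import Mathlib
import Fermat.Agent.S56.h78_W3Defs

/-!
# S56 / W3, block D (Kummer): basic norm estimates in `Ω = PadicAlgCl p`

* `h5_norm_p` : `‖p‖ = p⁻¹`;
* `h5_norm_choose_le` : `‖C(p, m)‖ ≤ p⁻¹` for `0 < m < p`;
* `h5_binom` : `‖(X + Y)^p - X^p - Y^p - p X^(p-1) Y‖ ≤ p⁻¹ ‖Y‖²` for `‖X‖, ‖Y‖ ≤ 1`;
* `h5_binom_one` : `‖(1 + b)^p - 1 - b^p‖ ≤ p⁻¹ ‖b‖` for `‖b‖ ≤ 1`;
* `h5_root_unity_le`, `h5_root_unity_eq` : `‖ξ - 1‖^(p-1) ≤ p⁻¹` for `ξ^p = 1`, with equality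
  for `ξ ≠ 1`;
* `h5_zpow_inj`, `h5_zpow_lt` : exponents of a norm `0 < r < 1`.
-/

set_option autoImplicit false

namespace Fermat.Agent.S56

variable (p : ℕ) [Fact p.Prime]

local notation "Ω" => PadicAlgCl p

theorem h5_norm_p : ‖(p : Ω)‖ = (p : ℝ)⁻¹ := by
  have h : ((p : ℚ_[p]) : Ω) = (p : Ω) := map_natCast (algebraMap ℚ_[p] Ω) p
  rw [← h, PadicAlgCl.norm_extends, Padic.norm_p]

theorem h5_p_pos : (0 : ℝ) < (p : ℝ) := by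
  exact_mod_cast (Fact.out : p.Prime).pos

theorem h5_inv_p_lt_one : ((p : ℝ))⁻¹ < 1 := by
  have h1 : (1 : ℝ) < (p : ℝ) := by exact_mod_cast (Fact.out : p.Prime).one_lt
  exact inv_lt_one_of_one_lt₀ h1

theorem h5_norm_natCast_le (n : ℕ) : ‖(n : Ω)‖ ≤ 1 :=
  IsUltrametricDist.norm_natCast_le_one Ω n

theorem h5_norm_sub_le_max (x y : Ω) : ‖x - y‖ ≤ max ‖x‖ ‖y‖ := by
  have h := IsUltrametricDist.norm_add_le_max x (-y)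
  rwa [norm_neg, ← sub_eq_add_neg] at h

theorem h5_norm_choose_le (m : ℕ) (h0 : m ≠ 0) (hm : m < p) :
    ‖((p.choose m : ℕ) : Ω)‖ ≤ (p : ℝ)⁻¹ := by
  obtain ⟨c, hc⟩ := (Fact.out : p.Prime).dvd_choose_self h0 hm
  rw [hc, Nat.cast_mul, norm_mul, h5_norm_p]
  exact mul_le_of_le_one_right (inv_nonneg.2 (h5_p_pos p).le) (h5_norm_natCast_le p c)

/-- the binomial estimate. -/
theorem h5_binom (X Y : Ω) (hX : ‖X‖ ≤ 1) (hY : ‖Y‖ ≤ 1) :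
    ‖(X + Y) ^ p - X ^ p - Y ^ p - (p : Ω) * X ^ (p - 1) * Y‖ ≤ (p : ℝ)⁻¹ * ‖Y‖ ^ 2 := by
  have hp : p.Prime := Fact.out
  have hp2 : 2 ≤ p := hp.two_le
  set f : ℕ → Ω := fun m => Y ^ m * X ^ (p - m) * ((p.choose m : ℕ) : Ω) with hf
  have h1 : (X + Y) ^ p = ∑ m ∈ Finset.range (p + 1), f m := by
    rw [add_comm, add_pow]
  have h2 : ∑ m ∈ Finset.range (p + 1), f m
      = (f 0 + f 1) + ∑ m ∈ Finset.Ico 2 p, f m + f p := by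
    rw [Finset.sum_range_succ, ← Finset.sum_range_add_sum_Ico f hp2]
    simp [Finset.sum_range_succ]
  have h3 : (X + Y) ^ p - X ^ p - Y ^ p - (p : Ω) * X ^ (p - 1) * Y
      = ∑ m ∈ Finset.Ico 2 p, f m := by
    rw [h1, h2]
    simp only [hf, pow_zero, one_mul, Nat.sub_zero, Nat.choose_zero_right, Nat.cast_one, mul_one,
      pow_one, Nat.choose_one_right, Nat.sub_self, Nat.choose_self]
    ring
  rw [h3]
  refine IsUltrametricDist.norm_sum_le_of_forall_le_of_nonneg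
    (mul_nonneg (inv_nonneg.2 (h5_p_pos p).le) (sq_nonneg _)) (fun m hm => ?_)
  rw [Finset.mem_Ico] at hm
  rw [hf]
  simp only [norm_mul, norm_pow]
  have hc := h5_norm_choose_le p m (by omega) hm.2
  have hY0 : 0 ≤ ‖Y‖ := norm_nonneg Y
  have hYm : ‖Y‖ ^ m ≤ ‖Y‖ ^ 2 := pow_le_pow_of_le_one hY0 hY hm.1
  have hXm : ‖X‖ ^ (p - m) ≤ 1 := pow_le_one₀ (norm_nonneg X) hX
  calc ‖Y‖ ^ m * ‖X‖ ^ (p - m) * ‖((p.choose m : ℕ) : Ω)‖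
      ≤ ‖Y‖ ^ 2 * 1 * (p : ℝ)⁻¹ := by
        apply mul_le_mul (mul_le_mul hYm hXm (pow_nonneg (norm_nonneg X) _) (sq_nonneg _)) hc
          (norm_nonneg _) (by positivity)
    _ = (p : ℝ)⁻¹ * ‖Y‖ ^ 2 := by ring

/-- `(1 + b)^p = 1 + b^p + O(p b)`. -/
theorem h5_binom_one (b : Ω) (hb : ‖b‖ ≤ 1) :
    ‖(1 + b) ^ p - 1 - b ^ p‖ ≤ (p : ℝ)⁻¹ * ‖b‖ := by
  have h := h5_binom p 1 b (by simp) hb
  have hb0 : 0 ≤ ‖b‖ := norm_nonneg b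
  have hpi : 0 ≤ (p : ℝ)⁻¹ := inv_nonneg.2 (h5_p_pos p).le
  have e : (1 + b) ^ p - 1 - b ^ p
      = ((1 + b) ^ p - 1 ^ p - b ^ p - (p : Ω) * 1 ^ (p - 1) * b) + (p : Ω) * b := by
    simp only [one_pow, mul_one]
    ring
  rw [e]
  refine le_trans (IsUltrametricDist.norm_add_le_max _ _) (max_le ?_ ?_)
  · refine le_trans h ?_
    have : ‖b‖ ^ 2 ≤ ‖b‖ := by
      rw [sq]
      exact mul_le_of_le_one_left hb0 hb
    exact mul_le_mul_of_nonneg_left this hpi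
  · rw [norm_mul, h5_norm_p]

/-- a `p`-th root of unity is `≡ 1` to order `≥ 1/(p-1)`. -/
theorem h5_root_unity_aux (ξ : Ω) (hξ : ξ ^ p = 1) (h1 : ξ ≠ 1) :
    ‖(ξ - 1) ^ (p - 1) + (p : Ω)‖ ≤ (p : ℝ)⁻¹ * ‖ξ - 1‖ := by
  have hp : p.Prime := Fact.out
  set y : Ω := ξ - 1 with hy
  have hy0 : y ≠ 0 := sub_ne_zero.2 h1
  have hξn : ‖ξ‖ = 1 := by
    have h2 : ‖ξ‖ ^ p = 1 := by rw [← norm_pow, hξ, norm_one]
    exact (pow_eq_one_iff_of_nonneg (norm_nonneg ξ) hp.ne_zero).1 h2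
  have hyn : ‖y‖ ≤ 1 := by
    rw [hy]
    refine le_trans (h5_norm_sub_le_max p _ _) ?_
    rw [hξn, norm_one, max_self]
  have h := h5_binom p 1 y (by simp) hyn
  have e1 : (1 + y) ^ p = 1 := by
    rw [hy, add_sub_cancel, hξ]
  have e2 : (1 + y) ^ p - 1 ^ p - y ^ p - (p : Ω) * 1 ^ (p - 1) * y
      = -(y * (y ^ (p - 1) + (p : Ω))) := by
    have e3 : y ^ p = y * y ^ (p - 1) := by
      rw [← pow_succ']
      congr 1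
      have := hp.one_le
      omega
    rw [e1, e3]
    simp only [one_pow, mul_one]
    ring
  rw [e2, norm_neg, norm_mul, sq] at h
  have hyp : 0 < ‖y‖ := norm_pos_iff.2 hy0
  have h' : ‖y‖ * ‖y ^ (p - 1) + (p : Ω)‖ ≤ ‖y‖ * ((p : ℝ)⁻¹ * ‖y‖) := by
    calc ‖y‖ * ‖y ^ (p - 1) + (p : Ω)‖ ≤ (p : ℝ)⁻¹ * (‖y‖ * ‖y‖) := h
      _ = ‖y‖ * ((p : ℝ)⁻¹ * ‖y‖) := by ring
  exact le_of_mul_le_mul_left h' hyp

theorem h5_root_unity_norm_le_one (ξ : Ω) (hξ : ξ ^ p = 1) : ‖ξ - 1‖ ≤ 1 := by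
  have hp : p.Prime := Fact.out
  have hξn : ‖ξ‖ = 1 := by
    have h2 : ‖ξ‖ ^ p = 1 := by rw [← norm_pow, hξ, norm_one]
    exact (pow_eq_one_iff_of_nonneg (norm_nonneg ξ) hp.ne_zero).1 h2
  refine le_trans (h5_norm_sub_le_max p _ _) ?_
  rw [hξn, norm_one, max_self]

theorem h5_root_unity_le (ξ : Ω) (hξ : ξ ^ p = 1) : ‖ξ - 1‖ ^ (p - 1) ≤ (p : ℝ)⁻¹ := by
  have hp : p.Prime := Fact.out
  have hpi : 0 ≤ (p : ℝ)⁻¹ := inv_nonneg.2 (h5_p_pos p).le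
  by_cases h1 : ξ = 1
  · rw [h1, sub_self, norm_zero, zero_pow (by have := hp.two_le; omega)]
    exact hpi
  have h := h5_root_unity_aux p ξ hξ h1
  have hyn := h5_root_unity_norm_le_one p ξ hξ
  have e : (ξ - 1) ^ (p - 1) = ((ξ - 1) ^ (p - 1) + (p : Ω)) - (p : Ω) := by ring
  rw [← norm_pow, e]
  refine le_trans (h5_norm_sub_le_max p _ _) (max_le ?_ ?_)
  · refine le_trans h ?_
    exact mul_le_of_le_one_right hpi hyn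
  · rw [h5_norm_p]

theorem h5_root_unity_lt_one (ξ : Ω) (hξ : ξ ^ p = 1) : ‖ξ - 1‖ < 1 := by
  have hp : p.Prime := Fact.out
  have h := h5_root_unity_le p ξ hξ
  by_contra hge
  rw [not_lt] at hge
  have h2 : (1 : ℝ) ≤ ‖ξ - 1‖ ^ (p - 1) := one_le_pow₀ hge
  have := h5_inv_p_lt_one p
  linarith

theorem h5_root_unity_eq (ξ : Ω) (hξ : ξ ^ p = 1) (h1 : ξ ≠ 1) :
    ‖ξ - 1‖ ^ (p - 1) = (p : ℝ)⁻¹ := by
  have hpi : 0 < (p : ℝ)⁻¹ := inv_pos.2 (h5_p_pos p)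
  have h := h5_root_unity_aux p ξ hξ h1
  have hlt := h5_root_unity_lt_one p ξ hξ
  have hy0 : 0 < ‖ξ - 1‖ := norm_pos_iff.2 (sub_ne_zero.2 h1)
  have h3 : ‖(ξ - 1) ^ (p - 1) + (p : Ω)‖ < ‖(p : Ω)‖ := by
    rw [h5_norm_p]
    refine lt_of_le_of_lt h ?_
    calc (p : ℝ)⁻¹ * ‖ξ - 1‖ < (p : ℝ)⁻¹ * 1 := mul_lt_mul_of_pos_left hlt hpi
      _ = (p : ℝ)⁻¹ := mul_one _
  have e : (ξ - 1) ^ (p - 1) = ((ξ - 1) ^ (p - 1) + (p : Ω)) + (-(p : Ω)) := by ring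
  rw [← norm_pow, e, IsUltrametricDist.norm_add_eq_max_of_norm_ne_norm, norm_neg,
    max_eq_right h3.le, h5_norm_p]
  rw [norm_neg]
  exact h3.ne

/-- exponents of `0 < r < 1` are unique. -/
theorem h5_zpow_inj {r : ℝ} (h0 : 0 < r) (h1 : r < 1) {a b : ℤ} (h : r ^ a = r ^ b) : a = b :=
  zpow_right_injective₀ h0 h1.ne h

theorem h5_zpow_lt {r : ℝ} (h0 : 0 < r) (h1 : r < 1) {a b : ℤ} (h : r ^ a < r ^ b) : b < a :=
  (zpow_lt_zpow_iff_right_of_lt_one₀ h0 h1).1 h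

end Fermat.Agent.S56
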