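/-
S56 / W3-D3 (helper49): top level of the Kummer break table.
`h49_kummer_unram` = skeleton statement `sk_kummer_unram` verbatim:
`u ≡ 1` to order `≥ p/(p-1)` (with `ζ_p ∈ F`) gives an unramified Kummer extension,
`α ∈ F·K₀(L)` for `α ^ p = u`, `α ∈ L`.

Proof (Galois form): let `λ = ζ - 1`.  Then `‖u - 1‖ ≤ ‖λ‖ ^ p`, hence `‖α - 1‖ ≤ ‖λ‖` and
`x := (α - 1)/λ` is an integer of `L`.  If `g` fixes `F·K₀(L)` then `g ∈ J_L` and `g α = ξ α`
with `ξ ^ p = 1`; if `ξ ≠ 1` then `‖g x - x‖ = ‖α (ξ - 1)/λ‖ = 1`, contradicting the triviality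
of `J_L` on the residue field of `L` (`h49_J_res`).  So `α` is fixed by `Gal(Ω/F·K₀(L))`.
-/
import Fermat.Agent.S56.h49_K0Res
import Fermat.Agent.S56.h62_W3Basics
import Fermat.Agent.S56.h5_KumBasic

set_option autoImplicit false

namespace Fermat.Agent.S56

variable (p : ℕ) [Fact p.Prime]

local notation "Ω" => PadicAlgCl p
local notation "Fld" => IntermediateField ℚ_[p] (PadicAlgCl p)

/-- D3 top level: `u ≡ 1` to order `≥ p/(p-1)` gives an unramified Kummer extension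
(`ζ_p ∈ F`): `α ∈ F·K₀(L)`. -/
theorem h49_kummer_unram (F L : Fld) [FiniteDimensional ℚ_[p] F] [FiniteDimensional ℚ_[p] L]
    (hFL : F ≤ L) (ζ : Ω) (hζF : ζ ∈ F) (hζp : ζ ^ p = 1) (hζ1 : ζ ≠ 1)
    (u : Ω) (hu : u ∈ F) (hu1 : (p : ℝ) ^ p * ‖u - 1‖ ^ (p - 1) ≤ 1) (α : Ω) (hα : α ^ p = u)
    (hαL : α ∈ L) :
    α ∈ IntermediateField.adjoin ℚ_[p] ((F : Set Ω) ∪ (h78_K0 p L : Set Ω)) := by
  have hp : p.Prime := Fact.out
  have hp1 : p - 1 ≠ 0 := by have := hp.two_le; omega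
  have hppos : (0 : ℝ) < p := h5_p_pos p
  have hlam0 : ζ - 1 ≠ 0 := sub_ne_zero.2 hζ1
  have hlamn : ‖ζ - 1‖ ^ (p - 1) = (p : ℝ)⁻¹ := h5_root_unity_eq p ζ hζp hζ1
  have hlampos : 0 < ‖ζ - 1‖ := norm_pos_iff.2 hlam0
  have hlamlt : ‖ζ - 1‖ < 1 := h5_root_unity_lt_one p ζ hζp
  -- `‖u - 1‖ ≤ ‖λ‖ ^ p`
  have hD : ‖u - 1‖ ≤ ‖ζ - 1‖ ^ p := by
    apply le_of_pow_le_pow_left₀ hp1 (by positivity)
    rw [← pow_mul, mul_comm p (p - 1), pow_mul, hlamn, inv_pow, inv_eq_one_div,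
      le_div_iff₀ (pow_pos hppos p), mul_comm]
    exact hu1
  have hu1lt : ‖u - 1‖ < 1 :=
    lt_of_le_of_lt hD (pow_lt_one₀ (norm_nonneg _) hlamlt hp.ne_zero)
  have hun : ‖u‖ = 1 := by
    have h1 : ‖u‖ ≤ 1 := by
      have h := IsUltrametricDist.norm_add_le_max (1 : Ω) (u - 1)
      rw [add_sub_cancel] at h
      exact h.trans (max_le (by rw [norm_one]) hu1lt.le)
    have h2 : ¬ ‖u‖ < 1 := by
      intro hlt
      have h := h5_norm_sub_le_max p u (u - 1)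
      rw [sub_sub_cancel, norm_one] at h
      exact absurd h (not_le.2 (max_lt hlt hu1lt))
    exact le_antisymm h1 (not_lt.1 h2)
  have hu0 : u ≠ 0 := by
    intro h0
    rw [h0, norm_zero] at hun
    exact zero_ne_one hun
  have hαn : ‖α‖ = 1 := by
    have h2 : ‖α‖ ^ p = 1 := by rw [← norm_pow, hα, hun]
    exact (pow_eq_one_iff_of_nonneg (norm_nonneg _) hp.ne_zero).1 h2
  have hα0 : α ≠ 0 := by
    intro h
    rw [h, norm_zero] at hαn
    exact zero_ne_one hαn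
  -- `‖α - 1‖ ≤ ‖λ‖`
  have hb1 : ‖α - 1‖ ≤ 1 :=
    (h5_norm_sub_le_max p α 1).trans (max_le hαn.le (by rw [norm_one]))
  have hE : ‖α - 1‖ ≤ ‖ζ - 1‖ := by
    by_contra hcon
    rw [not_le] at hcon
    have hbin := h5_binom_one p (α - 1) hb1
    rw [add_sub_cancel, hα] at hbin
    have h3 : (p : ℝ)⁻¹ * ‖α - 1‖ < ‖α - 1‖ ^ p := by
      have h4 : (p : ℝ)⁻¹ < ‖α - 1‖ ^ (p - 1) := by
        rw [← hlamn]
        exact pow_lt_pow_left₀ hcon (norm_nonneg _) hp1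
      have h5 : ‖α - 1‖ ^ p = ‖α - 1‖ ^ (p - 1) * ‖α - 1‖ := by
        rw [← pow_succ, Nat.sub_add_cancel hp.one_le]
      rw [h5]
      exact mul_lt_mul_of_pos_right h4 (lt_trans hlampos hcon)
    have h6 : ‖u - 1‖ < ‖α - 1‖ ^ p :=
      lt_of_le_of_lt hD (pow_lt_pow_left₀ hcon (norm_nonneg _) hp.ne_zero)
    have h7 : ‖(α - 1) ^ p‖ ≤ max ‖u - 1‖ ‖u - 1 - (α - 1) ^ p‖ := by
      have h := h5_norm_sub_le_max p (u - 1) (u - 1 - (α - 1) ^ p)
      rwa [sub_sub_cancel] at h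
    rw [norm_pow] at h7
    exact absurd h7 (not_le.2 (max_lt h6 (lt_of_le_of_lt hbin h3)))
  -- the Galois argument
  have hEL : IntermediateField.adjoin ℚ_[p] ((F : Set Ω) ∪ (h78_K0 p L : Set Ω)) ≤ L :=
    IntermediateField.adjoin_le_iff.2 (Set.union_subset hFL (h49_K0_le p L))
  have hfd : FiniteDimensional ℚ_[p]
      (IntermediateField.adjoin ℚ_[p] ((F : Set Ω) ∪ (h78_K0 p L : Set Ω))) :=
    FiniteDimensional.of_injective (IntermediateField.inclusion hEL).toLinearMap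
      (IntermediateField.inclusion_injective hEL)
  apply h62_mem_of_fixed p _ α
  intro g hg
  have hgF : ∀ z ∈ F, g z = z := fun z hz =>
    hg z (IntermediateField.subset_adjoin _ _ (Or.inl hz))
  have hgJ : g ∈ h78_J p L := by
    intro x
    exact hg x (IntermediateField.subset_adjoin _ _ (Or.inr x.2))
  by_contra hne
  have hξp : (g α / α) ^ p = 1 := by
    rw [div_pow, ← map_pow, hα, hgF u hu, div_self hu0]
  have hξ1 : g α / α ≠ 1 := by
    intro h1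
    apply hne
    rwa [div_eq_one_iff_eq hα0] at h1
  have hξn : ‖g α / α - 1‖ = ‖ζ - 1‖ := by
    have h8 : ‖g α / α - 1‖ ^ (p - 1) = ‖ζ - 1‖ ^ (p - 1) := by
      rw [h5_root_unity_eq p _ hξp hξ1, hlamn]
    exact (pow_left_inj₀ (norm_nonneg _) (norm_nonneg _) hp1).1 h8
  have hxL : (α - 1) / (ζ - 1) ∈ L :=
    div_mem (sub_mem hαL (one_mem L)) (hFL (sub_mem hζF (one_mem F)))
  have hx1 : ‖(α - 1) / (ζ - 1)‖ ≤ 1 := by
    rw [norm_div, div_le_one hlampos]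
    exact hE
  have hres := h49_J_res p L g hgJ _ hxL hx1
  have hgl : g (ζ - 1) = ζ - 1 := hgF _ (sub_mem hζF (one_mem F))
  have h9 : g ((α - 1) / (ζ - 1)) - (α - 1) / (ζ - 1) = α * (g α / α - 1) / (ζ - 1) := by
    rw [map_div₀, map_sub, map_one, hgl]
    field_simp
    ring
  rw [h9, norm_div, norm_mul, hαn, hξn, one_mul, div_self hlampos.ne'] at hres
  exact lt_irrefl _ hres

end Fermat.Agent.S56
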