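import Mathlib
import Fermat.Agent.S56.h78_W3Defs

/-!
# S56 / W3, row B4b (CONJ): the `J_L`-conjugates of a uniformizer

`L` a finite extension of `ℚ_p` inside `Ω = PadicAlgCl p`, `π` a uniformizer of `L`,
`K₀ = K₀(L)` the unramified part, `J = Gal(Ω/K₀)`.  With `C` the (finite) set of `J`-conjugates
of `π`:

* `h19_prod_conjJ_of` : `∏_{x ∈ C} (X - x)` has coefficients in `K₀`;
* `h19_card_conjJ_of` : `‖π‖ ^ #C = p⁻¹`.

Hypothesis forms: the statements of the rows B0.5 (`sk_mem_of_fixed`), B3.1 (`sk_K0_res`),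
B3.2 (`sk_K0_unram`) and B4.1 (`sk_expansion`) of the W3 skeleton are taken as hypotheses,
verbatim.
-/

set_option autoImplicit false

namespace Fermat.Agent.S56

variable (p : ℕ) [Fact p.Prime]

local notation "Ω" => PadicAlgCl p
local notation "Fld" => IntermediateField ℚ_[p] (PadicAlgCl p)

/-- B0.1 -/
theorem h19_norm_p : ‖(p : Ω)‖ = (p : ℝ)⁻¹ := by
  have h := PadicAlgCl.norm_extends p (p : ℚ_[p])
  rw [Padic.norm_p, map_natCast] at h
  exact h

/-- B3.0 -/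
theorem h19_K0_le (L : Fld) : h78_K0 p L ≤ L :=
  IntermediateField.adjoin_le_iff.2 fun _ hζ => hζ.1

/-- membership in the set of conjugates -/
theorem h19_mem_conj (S : Subgroup (h78_G p)) (x y : Ω) :
    y ∈ h78_conj p S x ↔ ∃ g ∈ S, g x = y := by
  classical
  unfold h78_conj
  rw [Finset.mem_filter, Set.mem_toFinset]
  refine ⟨fun h => h.2, fun h => ⟨?_, h⟩⟩
  obtain ⟨g, -, rfl⟩ := h
  have hx : IsIntegral ℚ_[p] x := (Algebra.IsAlgebraic.isAlgebraic x).isIntegral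
  rw [Polynomial.mem_rootSet]
  refine ⟨minpoly.ne_zero hx, ?_⟩
  have h1 := Polynomial.aeval_algHom_apply (g : Ω →ₐ[ℚ_[p]] Ω) x (minpoly ℚ_[p] x)
  rw [minpoly.aeval, map_zero] at h1
  exact h1

/-- a subgroup permutes its set of conjugates -/
theorem h19_map_conj (S : Subgroup (h78_G p)) (x : Ω) (g : h78_G p) (hg : g ∈ S) :
    (h78_conj p S x).map g.toEquiv.toEmbedding = h78_conj p S x := by
  refine Finset.eq_of_subset_of_card_le (fun y hy => ?_) ?_
  · obtain ⟨z, hz, rfl⟩ := Finset.mem_map.1 hy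
    obtain ⟨h, hh, rfl⟩ := (h19_mem_conj p S x z).1 hz
    exact (h19_mem_conj p S x _).2 ⟨g * h, S.mul_mem hg hh, rfl⟩
  · rw [Finset.card_map]

/-- the polynomial of the conjugates is fixed by the subgroup -/
theorem h19_coeff_prod_conj_fixed (S : Subgroup (h78_G p)) (x : Ω) (g : h78_G p) (hg : g ∈ S)
    (n : ℕ) :
    g ((∏ y ∈ h78_conj p S x, (Polynomial.X - Polynomial.C y)).coeff n) =
      (∏ y ∈ h78_conj p S x, (Polynomial.X - Polynomial.C y)).coeff n := by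
  classical
  have hmap : Polynomial.map ((g : Ω →ₐ[ℚ_[p]] Ω) : Ω →+* Ω)
      (∏ y ∈ h78_conj p S x, (Polynomial.X - Polynomial.C y)) =
      ∏ y ∈ h78_conj p S x, (Polynomial.X - Polynomial.C y) := by
    rw [Polynomial.map_prod]
    conv_rhs => rw [← h19_map_conj p S x g hg]
    rw [Finset.prod_map]
    refine Finset.prod_congr rfl fun y _ => ?_
    rw [Polynomial.map_sub, Polynomial.map_X, Polynomial.map_C]
    rfl
  have h2 := Polynomial.coeff_map (p := ∏ y ∈ h78_conj p S x, (Polynomial.X - Polynomial.C y))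
    ((g : Ω →ₐ[ℚ_[p]] Ω) : Ω →+* Ω) n
  rw [hmap] at h2
  exact h2.symm

/-- **B4.3, second half (hypothesis form)**: `∏ (X - π')` over the `J_L`-conjugates has
coefficients in `K₀(L)`. -/
theorem h19_prod_conjJ_of
    (h_fixed : ∀ (E : Fld) [FiniteDimensional ℚ_[p] E] (x : Ω),
      (∀ g : h78_G p, (∀ z ∈ E, g z = z) → g x = x) → x ∈ E)
    (L : Fld) [FiniteDimensional ℚ_[p] L] (π : Ω) (n : ℕ) :
    (∏ x ∈ h78_conj p (h78_J p L) π, (Polynomial.X - Polynomial.C x)).coeff n ∈ h78_K0 p L := by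
  have : FiniteDimensional ℚ_[p] (h78_K0 p L) :=
    Module.Finite.of_injective (IntermediateField.inclusion (h19_K0_le p L)).toLinearMap
      (IntermediateField.inclusion (h19_K0_le p L)).injective
  refine h_fixed (h78_K0 p L) _ fun g hg => ?_
  exact h19_coeff_prod_conj_fixed p (h78_J p L) π g
    ((IntermediateField.mem_fixingSubgroup_iff _ _).2 hg) n

/-- **B4.3, first half (hypothesis form)**: `‖π‖ ^ #(J_L-conjugates of π) = p⁻¹`. -/
theorem h19_card_conjJ_of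
    (h_fixed : ∀ (E : Fld) [FiniteDimensional ℚ_[p] E] (x : Ω),
      (∀ g : h78_G p, (∀ z ∈ E, g z = z) → g x = x) → x ∈ E)
    (h_res : ∀ (L : Fld) [FiniteDimensional ℚ_[p] L] (x : Ω), x ∈ L → ‖x‖ ≤ 1 →
      ∃ c ∈ h78_K0 p L, ‖x - c‖ < 1)
    (h_unram : ∀ (L : Fld) [FiniteDimensional ℚ_[p] L] (c : Ω), c ∈ h78_K0 p L → c ≠ 0 →
      ∃ n : ℤ, ‖c‖ = (p : ℝ) ^ n)
    (h_exp : ∀ (L M₀ : Fld) [FiniteDimensional ℚ_[p] L], M₀ ≤ L →
      (∀ x ∈ L, ‖x‖ ≤ 1 → ∃ c ∈ M₀, ‖x - c‖ < 1) →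
      ∀ (π π₀ : Ω), h78_IsUnif p L π → h78_IsUnif p M₀ π₀ → ∀ (j : ℕ), ‖π₀‖ = ‖π‖ ^ j →
      ∀ (z : Ω), z ∈ L →
      ∃ c : Fin j → Ω, (∀ i, c i ∈ M₀) ∧ z = ∑ i, c i * π ^ (i : ℕ) ∧
        ∀ i, ‖c i * π ^ (i : ℕ)‖ ≤ ‖z‖)
    (L : Fld) [FiniteDimensional ℚ_[p] L]
    (π : Ω) (hπ : h78_IsUnif p L π) :
    ‖π‖ ^ (h78_conj p (h78_J p L) π).card = (p : ℝ)⁻¹ := by
  classical
  obtain ⟨hπL, hπ0, hπ1, hπv⟩ := hπ
  have hK0L : h78_K0 p L ≤ L := h19_K0_le p L
  have hp1 : (1 : ℝ) < p := by exact_mod_cast (Fact.out : p.Prime).one_lt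
  have hnp := h19_norm_p p
  -- `π` is one of its conjugates
  have hπC : π ∈ h78_conj p (h78_J p L) π :=
    (h19_mem_conj p _ π π).2 ⟨1, Subgroup.one_mem _, rfl⟩
  have hCpos : 0 < (h78_conj p (h78_J p L) π).card := Finset.card_pos.2 ⟨π, hπC⟩
  have hnorm : ∀ x ∈ h78_conj p (h78_J p L) π, ‖x‖ = ‖π‖ := fun x hx => by
    obtain ⟨g, -, rfl⟩ := (h19_mem_conj p _ π x).1 hx
    exact h78_norm_aut p g π
  -- the constant coefficient of `∏ (X - π')`
  have hc0K := h19_prod_conjJ_of p h_fixed L π 0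
  have hc0n : ‖(∏ x ∈ h78_conj p (h78_J p L) π, (Polynomial.X - Polynomial.C x)).coeff 0‖
      = ‖π‖ ^ (h78_conj p (h78_J p L) π).card := by
    rw [Polynomial.coeff_zero_eq_eval_zero, Polynomial.eval_prod, norm_prod,
      ← Finset.prod_const]
    refine Finset.prod_congr rfl fun x hx => ?_
    rw [Polynomial.eval_sub, Polynomial.eval_X, Polynomial.eval_C, zero_sub, norm_neg,
      hnorm x hx]
  have hc00 : (∏ x ∈ h78_conj p (h78_J p L) π, (Polynomial.X - Polynomial.C x)).coeff 0 ≠ 0 := by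
    rw [← norm_ne_zero_iff, hc0n]
    exact pow_ne_zero _ (norm_ne_zero_iff.2 hπ0)
  obtain ⟨n, hn⟩ := h_unram L _ hc0K hc00
  -- the exponent `j` with `‖p‖ = ‖π‖ ^ j`
  have hp0 : (p : Ω) ≠ 0 := by
    rw [← norm_ne_zero_iff, hnp]
    exact inv_ne_zero (by positivity)
  obtain ⟨m, hm⟩ := hπv (p : Ω) (natCast_mem L p) hp0
  have hmpos : 0 < m := by
    by_contra hle
    rw [not_lt] at hle
    have h1 : 1 ≤ ‖π‖ ^ m := one_le_zpow_of_nonpos₀ (norm_pos_iff.2 hπ0) hπ1.le hle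
    rw [← hm, hnp] at h1
    have h2 : (p : ℝ)⁻¹ < 1 := inv_lt_one_of_one_lt₀ hp1
    linarith
  obtain ⟨j, rfl⟩ : ∃ j : ℕ, m = j := ⟨m.toNat, (Int.toNat_of_nonneg hmpos.le).symm⟩
  rw [zpow_natCast] at hm
  -- `p` is a uniformizer of `K₀`
  have hunifK0 : h78_IsUnif p (h78_K0 p L) (p : Ω) := by
    refine ⟨natCast_mem _ p, hp0, by rw [hnp]; exact inv_lt_one_of_one_lt₀ hp1,
      fun x hx hx0 => ?_⟩
    obtain ⟨n', hn'⟩ := h_unram L x hx hx0
    refine ⟨-n', ?_⟩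
    rw [hn', hnp, inv_zpow', neg_neg]
  -- expansion of `π ^ j`
  obtain ⟨c, hcK, hsum, -⟩ := h_exp L (h78_K0 p L) hK0L (fun x hx hx1 => h_res L x hx hx1)
    π (p : Ω) ⟨hπL, hπ0, hπ1, hπv⟩ hunifK0 j hm (π ^ j) (pow_mem hπL j)
  -- the monic polynomial `Q = X^j - ∑ c_i X^i` kills every conjugate
  have hRdeg : (∑ i : Fin j, Polynomial.C (c i) * Polynomial.X ^ (i : ℕ)).degree
      < (j : WithBot ℕ) :=
    Polynomial.degree_sum_fin_lt c
  have hQmonic : (Polynomial.X ^ j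
      - ∑ i : Fin j, Polynomial.C (c i) * Polynomial.X ^ (i : ℕ)).Monic :=
    Polynomial.monic_X_pow_sub hRdeg
  have hQdeg : (Polynomial.X ^ j
      - ∑ i : Fin j, Polynomial.C (c i) * Polynomial.X ^ (i : ℕ)).natDegree = j := by
    have h1 : (Polynomial.X ^ j
        - ∑ i : Fin j, Polynomial.C (c i) * Polynomial.X ^ (i : ℕ)).degree
        = (j : WithBot ℕ) := by
      rw [Polynomial.degree_sub_eq_left_of_degree_lt (by rwa [Polynomial.degree_X_pow]),
        Polynomial.degree_X_pow]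
    exact Polynomial.natDegree_eq_of_degree_eq_some h1
  have hroot : ∀ x ∈ h78_conj p (h78_J p L) π, (Polynomial.X ^ j
      - ∑ i : Fin j, Polynomial.C (c i) * Polynomial.X ^ (i : ℕ)).IsRoot x := by
    intro x hx
    obtain ⟨g, hg, rfl⟩ := (h19_mem_conj p _ π x).1 hx
    have hgc : ∀ i, g (c i) = c i := fun i =>
      (IntermediateField.mem_fixingSubgroup_iff _ _).1 hg (c i) (hcK i)
    rw [Polynomial.IsRoot.def, Polynomial.eval_sub, Polynomial.eval_pow, Polynomial.eval_X,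
      Polynomial.eval_finsetSum]
    simp only [Polynomial.eval_mul, Polynomial.eval_C, Polynomial.eval_pow, Polynomial.eval_X]
    have h1 : (g π) ^ j - ∑ i, c i * (g π) ^ (i : ℕ) = g (π ^ j - ∑ i, c i * π ^ (i : ℕ)) := by
      rw [map_sub, map_pow, map_sum]
      congr 1
      exact Finset.sum_congr rfl fun i _ => by rw [map_mul, map_pow, hgc i]
    rw [h1, ← hsum, sub_self, map_zero]
  have hcard : (h78_conj p (h78_J p L) π).card ≤ j := by
    have hQ0 := hQmonic.ne_zero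
    calc (h78_conj p (h78_J p L) π).card
        ≤ (Polynomial.X ^ j
          - ∑ i : Fin j, Polynomial.C (c i) * Polynomial.X ^ (i : ℕ)).roots.toFinset.card :=
          Finset.card_le_card fun x hx => by
            rw [Multiset.mem_toFinset, Polynomial.mem_roots hQ0]
            exact hroot x hx
      _ ≤ Multiset.card (Polynomial.X ^ j
          - ∑ i : Fin j, Polynomial.C (c i) * Polynomial.X ^ (i : ℕ)).roots :=
          Multiset.toFinset_card_le _
      _ ≤ _ := Polynomial.card_roots' _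
      _ = j := hQdeg
  -- conclusion
  have h1 : ‖π‖ ^ (h78_conj p (h78_J p L) π).card < 1 :=
    pow_lt_one₀ (norm_nonneg _) hπ1 hCpos.ne'
  have h2 : (p : ℝ)⁻¹ ≤ ‖π‖ ^ (h78_conj p (h78_J p L) π).card := by
    rw [← hnp, hm]
    exact pow_le_pow_of_le_one (norm_nonneg _) hπ1.le hcard
  rw [← hc0n, hn] at h1 h2 ⊢
  have hn1 : n < 0 := by
    by_contra h
    rw [not_lt] at h
    have h3 : (1 : ℝ) ≤ (p : ℝ) ^ n := one_le_zpow₀ hp1.le h
    linarith
  have hn2 : -1 ≤ n := by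
    by_contra h
    rw [not_le] at h
    have h3 : (p : ℝ) ^ n < (p : ℝ) ^ (-1 : ℤ) := zpow_lt_zpow_right₀ hp1 h
    rw [zpow_neg_one] at h3
    linarith
  have hn3 : n = -1 := by omega
  rw [hn3, zpow_neg_one]

end Fermat.Agent.S56
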