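/-
S56 / W3 row B6a (WILD), core: wild and tame inertia in norm language.  The two inputs from row B3
(`J_L` acts trivially on the residue field of `L`; `K₀(L)` is Galois stable) are explicit
hypotheses here; `h6_Wild.lean` discharges them.
-/
import Mathlib
import Fermat.Agent.S56.h78_W3Defs

set_option autoImplicit false

namespace Fermat.Agent.S56

variable (p : ℕ) [Fact p.Prime]

local notation "Ω" => PadicAlgCl p
local notation "Fld" => IntermediateField ℚ_[p] (PadicAlgCl p)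

/-! ### norms -/

theorem h6_norm_natCast_of_not_dvd (m : ℕ) (hm : ¬ p ∣ m) : ‖(m : Ω)‖ = 1 := by
  rw [← map_natCast (algebraMap ℚ_[p] (PadicAlgCl p)), PadicAlgCl.norm_extends,
    Padic.norm_natCast_eq_one_iff]
  exact ((Fact.out : p.Prime).coprime_iff_not_dvd).2 hm

theorem h6_norm_natCast_le_one (m : ℕ) : ‖(m : Ω)‖ ≤ 1 :=
  IsUltrametricDist.norm_natCast_le_one Ω m

theorem h6_norm_natCast_p_lt_one : ‖((p : ℕ) : Ω)‖ < 1 := by
  rw [← map_natCast (algebraMap ℚ_[p] (PadicAlgCl p)), PadicAlgCl.norm_extends, Padic.norm_p]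
  exact inv_lt_one_of_one_lt₀ (by exact_mod_cast (Fact.out : p.Prime).one_lt)

theorem h6_norm_eq_of_sub_lt {a b : Ω} (h : ‖a - b‖ < ‖b‖) : ‖a‖ = ‖b‖ := by
  have h1 := IsUltrametricDist.norm_add_eq_max_of_norm_ne_norm (x := a - b) (y := b) (ne_of_lt h)
  rw [sub_add_cancel] at h1
  rw [h1]
  exact max_eq_right h.le

theorem h6_norm_add_lt {a b : Ω} {r : ℝ} (ha : ‖a‖ < r) (hb : ‖b‖ < r) : ‖a + b‖ < r :=
  lt_of_le_of_lt (IsUltrametricDist.norm_add_le_max a b) (max_lt ha hb)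

theorem h6_norm_sub_lt {a b : Ω} {r : ℝ} (ha : ‖a‖ < r) (hb : ‖b‖ < r) : ‖a - b‖ < r := by
  rw [sub_eq_add_neg]
  exact h6_norm_add_lt p ha (by rwa [norm_neg])

/-! ### elements moved by less than their norm -/

theorem h6_small_mul (g : h78_G p) {a b : Ω} (ha : ‖g a - a‖ < ‖a‖) (hb : ‖g b - b‖ < ‖b‖) :
    ‖g (a * b) - a * b‖ < ‖a * b‖ := by
  have ha0 : 0 < ‖a‖ := lt_of_le_of_lt (norm_nonneg _) ha
  have hb0 : 0 < ‖b‖ := lt_of_le_of_lt (norm_nonneg _) hb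
  have h1 : g (a * b) - a * b = g a * (g b - b) + (g a - a) * b := by
    rw [map_mul]; ring
  rw [h1, norm_mul a b]
  refine h6_norm_add_lt p ?_ ?_
  · rw [norm_mul, h78_norm_aut]
    exact mul_lt_mul_of_pos_left hb ha0
  · rw [norm_mul]
    exact mul_lt_mul_of_pos_right ha hb0

theorem h6_small_inv (g : h78_G p) {a : Ω} (ha : ‖g a - a‖ < ‖a‖) :
    ‖g a⁻¹ - a⁻¹‖ < ‖a⁻¹‖ := by
  have ha0 : 0 < ‖a‖ := lt_of_le_of_lt (norm_nonneg _) ha
  have hane : a ≠ 0 := norm_pos_iff.1 ha0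
  have hgane : g a ≠ 0 := by
    rw [← norm_pos_iff, h78_norm_aut]; exact ha0
  rw [map_inv₀, inv_sub_inv hgane hane, norm_div, norm_mul, h78_norm_aut, norm_inv,
    div_lt_iff₀ (mul_pos ha0 ha0), ← norm_neg, neg_sub]
  calc ‖g a - a‖ < ‖a‖ := ha
    _ = ‖a‖⁻¹ * (‖a‖ * ‖a‖) := by field_simp

theorem h6_small_pow (g : h78_G p) {a : Ω} (ha : ‖g a - a‖ < ‖a‖) (n : ℕ) :
    ‖g (a ^ n) - a ^ n‖ < ‖a ^ n‖ := by
  have ha0 : 0 < ‖a‖ := lt_of_le_of_lt (norm_nonneg _) ha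
  induction n with
  | zero => simp
  | succ n ih =>
    rw [pow_succ]
    exact h6_small_mul p g ih ha

theorem h6_small_zpow (g : h78_G p) {a : Ω} (ha : ‖g a - a‖ < ‖a‖) (n : ℤ) :
    ‖g (a ^ n) - a ^ n‖ < ‖a ^ n‖ := by
  cases n with
  | ofNat n =>
    simpa using h6_small_pow p g ha n
  | negSucc n =>
    rw [zpow_negSucc]
    exact h6_small_inv p g (h6_small_pow p g ha (n + 1))

/-- B6.1, core form: an automorphism which is trivial on the residue field of `L` and moves a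
uniformizer by less than its norm moves every nonzero element of `L` by less than its norm. -/
theorem h6_small_of_unif (L : Fld) (π : Ω) (hπ : h78_IsUnif p L π) (g : h78_G p)
    (hres : ∀ x ∈ L, ‖x‖ ≤ 1 → ‖g x - x‖ < 1) (hgπ : ‖g π - π‖ < ‖π‖)
    (z : Ω) (hz : z ∈ L) (hz0 : z ≠ 0) : ‖g z - z‖ < ‖z‖ := by
  obtain ⟨hπL, hπ0, -, hval⟩ := hπ
  obtain ⟨n, hn⟩ := hval z hz hz0
  have hπn0 : π ^ n ≠ 0 := zpow_ne_zero n hπ0
  set u : Ω := z * (π ^ n)⁻¹ with hu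
  have huL : u ∈ L := L.mul_mem hz (L.inv_mem (zpow_mem hπL n))
  have hu1 : ‖u‖ = 1 := by
    rw [hu, norm_mul, norm_inv, norm_zpow, hn]
    exact mul_inv_cancel₀ (by rw [← norm_zpow]; exact norm_ne_zero_iff.2 hπn0)
  have hzu : z = u * π ^ n := by
    rw [hu, mul_assoc, inv_mul_cancel₀ hπn0, mul_one]
  have h1 : ‖g u - u‖ < ‖u‖ := by
    rw [hu1]; exact hres u huL hu1.le
  rw [hzu]
  exact h6_small_mul p g h1 (h6_small_zpow p g hgπ n)

/-! ### finite order on a finite extension -/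

theorem h6_pow_mem (L : Fld) (g : h78_G p) (hgL : ∀ z ∈ L, g z ∈ L) (n : ℕ) :
    ∀ z ∈ L, (g ^ n) z ∈ L := by
  induction n with
  | zero => intro z hz; simpa using hz
  | succ n ih =>
    intro z hz
    rw [pow_succ, AlgEquiv.mul_apply]
    exact ih _ (hgL z hz)

theorem h6_exists_pow_fix (L : Fld) [FiniteDimensional ℚ_[p] L] (g : h78_G p) :
    ∃ N : ℕ, 0 < N ∧ ∀ z ∈ L, (g ^ N) z = z := by
  classical
  let f : ℕ → (L →ₐ[ℚ_[p]] Ω) := fun n => ((g ^ n : h78_G p) : Ω →ₐ[ℚ_[p]] Ω).comp L.val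
  have : Finite (L →ₐ[ℚ_[p]] Ω) := Fintype.finite (minpoly.AlgHom.fintype _ _ _)
  obtain ⟨x, y, hxy, hf⟩ := Finite.exists_ne_map_eq_of_infinite f
  have key : ∀ x y : ℕ, x < y → f x = f y → ∃ N : ℕ, 0 < N ∧ ∀ z ∈ L, (g ^ N) z = z := by
    intro x y hlt hf
    refine ⟨y - x, Nat.sub_pos_of_lt hlt, fun z hz => ?_⟩
    have h1 : (g ^ x) z = (g ^ y) z := by
      have := congrArg (fun φ : L →ₐ[ℚ_[p]] Ω => φ ⟨z, hz⟩) hf
      simpa [f] using this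
    have h2 : g ^ y = g ^ x * g ^ (y - x) := by
      rw [← pow_add, Nat.add_sub_cancel' hlt.le]
    rw [h2, AlgEquiv.mul_apply] at h1
    exact ((g ^ x).injective h1).symm
  rcases Nat.lt_or_gt_of_ne hxy with h | h
  · exact key x y h hf
  · exact key y x h hf.symm

/-! ### B6.3: the wild inertia group acts through a `p`-group -/

/-- an automorphism of prime-to-`p` order on `L` all of whose powers move every nonzero element of
`L` by less than its norm is trivial on `L`. -/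
theorem h6_eq_of_pow_fix (L : Fld) (g : h78_G p) (hgL : ∀ z ∈ L, g z ∈ L)
    (hsmall : ∀ i : ℕ, ∀ z ∈ L, z ≠ 0 → ‖(g ^ i) z - z‖ < ‖z‖)
    (m : ℕ) (hm0 : 0 < m) (hm : ¬ p ∣ m) (hfix : ∀ z ∈ L, (g ^ m) z = z) :
    ∀ z ∈ L, g z = z := by
  intro z hz
  by_contra hne
  set w : Ω := g z - z with hw
  have hw0 : w ≠ 0 := sub_ne_zero.2 hne
  have hwL : w ∈ L := L.sub_mem (hgL z hz) hz
  have htel : ∀ j : ℕ, (g ^ j) z - z = ∑ i ∈ Finset.range j, (g ^ i) w := by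
    intro j
    induction j with
    | zero => simp
    | succ j ih =>
      rw [Finset.sum_range_succ, ← ih, pow_succ, AlgEquiv.mul_apply, hw, map_sub]
      ring
  have hsum : ∑ i ∈ Finset.range m, (g ^ i) w
      = (m : Ω) * w + ∑ i ∈ Finset.range m, ((g ^ i) w - w) := by
    rw [Finset.sum_sub_distrib, Finset.sum_const, Finset.card_range, nsmul_eq_mul]
    ring
  have hS : ‖∑ i ∈ Finset.range m, ((g ^ i) w - w)‖ < ‖w‖ := by
    obtain ⟨i, -, hle⟩ := IsUltrametricDist.exists_norm_finsetSum_le_of_nonempty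
      (Finset.nonempty_range_iff.2 hm0.ne') (fun i => (g ^ i) w - w)
    exact lt_of_le_of_lt hle (hsmall i w hwL hw0)
  have hmw : ‖(m : Ω) * w‖ = ‖w‖ := by
    rw [norm_mul, h6_norm_natCast_of_not_dvd p m hm, one_mul]
  have h0 : (m : Ω) * w + ∑ i ∈ Finset.range m, ((g ^ i) w - w) = 0 := by
    rw [← hsum, ← htel m, hfix z hz, sub_self]
  have h1 : ‖(m : Ω) * w‖ = ‖∑ i ∈ Finset.range m, ((g ^ i) w - w)‖ := by
    rw [eq_neg_of_add_eq_zero_left h0, norm_neg]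
  rw [hmw] at h1
  exact absurd h1 (ne_of_gt hS)

/-- B6.3, core form. -/
theorem h6_pgroup_of_small (L : Fld) [FiniteDimensional ℚ_[p] L] (g : h78_G p)
    (hgL : ∀ z ∈ L, g z ∈ L)
    (hsmall : ∀ i : ℕ, ∀ z ∈ L, z ≠ 0 → ‖(g ^ i) z - z‖ < ‖z‖) :
    ∃ n : ℕ, ∀ z ∈ L, (g ^ (p ^ n)) z = z := by
  obtain ⟨N, hN0, hN⟩ := h6_exists_pow_fix p L g
  obtain ⟨n, m, hm, rfl⟩ :=
    Nat.exists_eq_pow_mul_and_not_dvd hN0.ne' p (Fact.out : p.Prime).ne_one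
  have hm0 : 0 < m := by
    rcases Nat.eq_zero_or_pos m with h | h
    · rw [h, mul_zero] at hN0; exact absurd hN0 (lt_irrefl 0)
    · exact h
  refine ⟨n, ?_⟩
  refine h6_eq_of_pow_fix p L (g ^ (p ^ n)) (h6_pow_mem p L g hgL _) ?_ m hm0 hm ?_
  · intro i z hz hz0
    rw [← pow_mul]
    exact hsmall _ z hz hz0
  · intro z hz
    rw [← pow_mul]
    exact hN z hz

/-! ### B6.4: the tame quotient has order prime to `p` -/

/-- Frobenius is injective on the residue ring: `a^(p^n) ≡ 1` implies `a ≡ 1`. -/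
theorem h6_sub_one_lt_of_pow (a : Ω) (ha : ‖a‖ ≤ 1) (n : ℕ) (h : ‖a ^ (p ^ n) - 1‖ < 1) :
    ‖a - 1‖ < 1 := by
  have hx1 : ‖a - 1‖ ≤ 1 := by
    rw [sub_eq_add_neg]
    refine le_trans (IsUltrametricDist.norm_add_le_max a (-1)) (max_le ha ?_)
    rw [norm_neg, norm_one]
  let O : Subring Ω := (Valued.v : Valuation Ω NNReal).integer
  have hmemO : ∀ y : Ω, y ∈ O ↔ ‖y‖ ≤ 1 := by
    intro y
    show Valued.v y ≤ 1 ↔ ‖y‖ ≤ 1
    rw [PadicAlgCl.valuation_def, ← NNReal.coe_le_coe, coe_nnnorm, NNReal.coe_one]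
  obtain ⟨r, hr⟩ := exists_add_pow_prime_pow_eq (Fact.out : p.Prime)
    (⟨a - 1, (hmemO _).2 hx1⟩ : O) (1 : O) n
  have hr' : ((a - 1) + 1) ^ p ^ n
      = (a - 1) ^ p ^ n + 1 ^ p ^ n + (p : Ω) * (a - 1) * 1 * (r : Ω) := by
    have := congrArg (fun y : O => (y : Ω)) hr
    simpa using this
  have hrn : ‖(r : Ω)‖ ≤ 1 := (hmemO _).1 r.2
  have hpow : (a - 1) ^ p ^ n = (a ^ p ^ n - 1) - (p : Ω) * (a - 1) * (r : Ω) := by
    rw [sub_add_cancel, one_pow, mul_one] at hr'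
    rw [hr']; ring
  have h2 : ‖(p : Ω) * (a - 1) * (r : Ω)‖ < 1 := by
    rw [norm_mul, norm_mul]
    calc ‖(p : Ω)‖ * ‖a - 1‖ * ‖(r : Ω)‖ ≤ ‖(p : Ω)‖ * 1 * 1 := by
          gcongr
      _ < 1 := by rw [mul_one, mul_one]; exact h6_norm_natCast_p_lt_one p
  have h3 : ‖(a - 1) ^ p ^ n‖ < 1 := by
    rw [hpow]; exact h6_norm_sub_lt p h h2
  rw [norm_pow] at h3
  by_contra hcon
  have h4 : ‖a - 1‖ = 1 := le_antisymm hx1 (not_lt.1 hcon)
  rw [h4, one_pow] at h3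
  exact lt_irrefl _ h3

/-- B6.4, core form: if `g` maps `L` to itself and is trivial on the residue field of `L`, then
some prime-to-`p` power of `g` moves the uniformizer by less than its norm. -/
theorem h6_tame_of_res (L : Fld) [FiniteDimensional ℚ_[p] L] (π : Ω) (hπ : h78_IsUnif p L π)
    (g : h78_G p) (hgL : ∀ z ∈ L, g z ∈ L)
    (hres : ∀ x ∈ L, ‖x‖ ≤ 1 → ‖g x - x‖ < 1) :
    ∃ m : ℕ, 0 < m ∧ ¬ p ∣ m ∧ ‖(g ^ m) π - π‖ < ‖π‖ := by
  obtain ⟨hπL, hπ0, -, -⟩ := hπ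
  have hπpos : 0 < ‖π‖ := norm_pos_iff.2 hπ0
  obtain ⟨N, hN0, hN⟩ := h6_exists_pow_fix p L g
  obtain ⟨n, m, hm, rfl⟩ :=
    Nat.exists_eq_pow_mul_and_not_dvd hN0.ne' p (Fact.out : p.Prime).ne_one
  have hm0 : 0 < m := by
    rcases Nat.eq_zero_or_pos m with h | h
    · rw [h, mul_zero] at hN0; exact absurd hN0 (lt_irrefl 0)
    · exact h
  set u : Ω := g π * π⁻¹ with hu
  have huL : u ∈ L := L.mul_mem (hgL π hπL) (L.inv_mem hπL)
  have hu1 : ‖u‖ = 1 := by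
    rw [hu, norm_mul, h78_norm_aut, norm_inv]
    exact mul_inv_cancel₀ hπpos.ne'
  have hgπ : g π = π * u := by
    rw [hu, mul_comm (g π), ← mul_assoc, mul_inv_cancel₀ hπ0, one_mul]
  have hgu : ‖g u - u‖ < ‖u‖ := by
    rw [hu1]; exact hres u huL hu1.le
  -- claim A
  have hA : ∀ j : ℕ, ‖(g ^ j) π - π * u ^ j‖ < ‖π‖ := by
    intro j
    induction j with
    | zero => simpa using hπpos
    | succ j ih =>
      have h1 : (g ^ (j + 1)) π - π * u ^ (j + 1)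
          = g ((g ^ j) π - π * u ^ j) + π * u * (g (u ^ j) - u ^ j) := by
        rw [pow_succ', AlgEquiv.mul_apply, map_sub, map_mul, hgπ]
        ring
      rw [h1]
      refine h6_norm_add_lt p ?_ ?_
      · rw [h78_norm_aut]; exact ih
      · have h2 := h6_small_pow p g hgu j
        rw [norm_pow, hu1, one_pow] at h2
        rw [norm_mul, norm_mul, hu1, mul_one]
        calc ‖π‖ * ‖g (u ^ j) - u ^ j‖ < ‖π‖ * 1 := mul_lt_mul_of_pos_left h2 hπpos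
          _ = ‖π‖ := mul_one _
  -- claim B
  have hB : ‖u ^ (p ^ n * m) - 1‖ < 1 := by
    have h1 := hA (p ^ n * m)
    rw [hN π hπL] at h1
    have h2 : π - π * u ^ (p ^ n * m) = π * (1 - u ^ (p ^ n * m)) := by ring
    rw [h2, norm_mul] at h1
    have h3 : ‖1 - u ^ (p ^ n * m)‖ < 1 := by
      by_contra hcon
      have := mul_le_mul_of_nonneg_left (not_lt.1 hcon) hπpos.le
      rw [mul_one] at this
      exact absurd h1 (not_lt.2 this)
    rwa [← norm_neg, neg_sub] at h3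
  -- claim C
  have hC : ‖u ^ m - 1‖ < 1 := by
    refine h6_sub_one_lt_of_pow p (u ^ m) (by rw [norm_pow, hu1, one_pow]) n ?_
    rw [← pow_mul, mul_comm m]
    exact hB
  refine ⟨m, hm0, hm, ?_⟩
  have h1 : (g ^ m) π - π = ((g ^ m) π - π * u ^ m) + π * (u ^ m - 1) := by ring
  rw [h1]
  refine h6_norm_add_lt p (hA m) ?_
  rw [norm_mul]
  calc ‖π‖ * ‖u ^ m - 1‖ < ‖π‖ * 1 := mul_lt_mul_of_pos_left hC hπpos
    _ = ‖π‖ := mul_one _

/-! ### the four statements of row B6a, with the B3 inputs as hypotheses -/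

/-- B6.1 -/
theorem h6_P_small_of (L : Fld)
    (hJres : ∀ g ∈ h78_J p L, ∀ x ∈ L, ‖x‖ ≤ 1 → ‖g x - x‖ < 1)
    (π : Ω) (hπ : h78_IsUnif p L π) (g : h78_G p) (hg : g ∈ h78_P p L π)
    (z : Ω) (hz : z ∈ L) (hz0 : z ≠ 0) : ‖g z - z‖ < ‖z‖ := by
  obtain ⟨hgJ, hgπ⟩ := hg
  have hgπ' : ‖g π - π‖ < ‖π‖ := hgπ.resolve_left hπ.2.1
  exact h6_small_of_unif p L π hπ g (hJres g hgJ) hgπ' z hz hz0

/-- B6.2 -/
theorem h6_P_normal_of (L : Fld) (hL : h78_Stable p L)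
    (hJres : ∀ g ∈ h78_J p L, ∀ x ∈ L, ‖x‖ ≤ 1 → ‖g x - x‖ < 1)
    (hK0 : h78_Stable p (h78_K0 p L))
    (π : Ω) (hπ : h78_IsUnif p L π) (g h : h78_G p) (hh : h ∈ h78_P p L π) :
    g * h * g⁻¹ ∈ h78_P p L π := by
  have hginv : ∀ z : Ω, g (g⁻¹ z) = z := by
    intro z
    show (g * g⁻¹) z = z
    rw [mul_inv_cancel]; rfl
  refine ⟨?_, Or.inr ?_⟩
  · -- `g h g⁻¹` fixes `K₀(L)`
    show g * h * g⁻¹ ∈ (h78_K0 p L).fixingSubgroup
    rw [IntermediateField.mem_fixingSubgroup_iff]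
    intro c hc
    have h1 : g⁻¹ c ∈ h78_K0 p L := hK0 g⁻¹ c hc
    have h2 : h (g⁻¹ c) = g⁻¹ c := by
      have := hh.1
      rw [h78_J, IntermediateField.mem_fixingSubgroup_iff] at this
      exact this _ h1
    show (g * h * g⁻¹) c = c
    rw [AlgEquiv.mul_apply, AlgEquiv.mul_apply, h2, hginv]
  · have h1 : g⁻¹ π ∈ L := hL g⁻¹ π hπ.1
    have h2 : g⁻¹ π ≠ 0 := by
      rw [← norm_pos_iff, h78_norm_aut]; exact norm_pos_iff.2 hπ.2.1
    have h3 := h6_P_small_of p L hJres π hπ h hh (g⁻¹ π) h1 h2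
    have h4 : (g * h * g⁻¹) π - π = g (h (g⁻¹ π) - g⁻¹ π) := by
      rw [AlgEquiv.mul_apply, AlgEquiv.mul_apply, map_sub, hginv]
    rw [h4, h78_norm_aut]
    rw [h78_norm_aut] at h3
    exact h3

/-- B6.3 -/
theorem h6_P_pgroup_of (L : Fld) [FiniteDimensional ℚ_[p] L] (hL : h78_Stable p L)
    (hJres : ∀ g ∈ h78_J p L, ∀ x ∈ L, ‖x‖ ≤ 1 → ‖g x - x‖ < 1)
    (π : Ω) (hπ : h78_IsUnif p L π) (g : h78_G p) (hg : g ∈ h78_P p L π) :
    ∃ n : ℕ, ∀ z ∈ L, (g ^ (p ^ n)) z = z := by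
  refine h6_pgroup_of_small p L g (hL g) ?_
  intro i z hz hz0
  exact h6_P_small_of p L hJres π hπ (g ^ i) (Subgroup.pow_mem _ hg i) z hz hz0

/-- B6.4 -/
theorem h6_J_tame_of (L : Fld) [FiniteDimensional ℚ_[p] L] (hL : h78_Stable p L)
    (hJres : ∀ g ∈ h78_J p L, ∀ x ∈ L, ‖x‖ ≤ 1 → ‖g x - x‖ < 1)
    (π : Ω) (hπ : h78_IsUnif p L π) (g : h78_G p) (hg : g ∈ h78_J p L) :
    ∃ m : ℕ, 0 < m ∧ ¬ p ∣ m ∧ g ^ m ∈ h78_P p L π := by
  obtain ⟨m, hm0, hm, hlt⟩ := h6_tame_of_res p L π hπ g (hL g) (hJres g hg)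
  exact ⟨m, hm0, hm, Subgroup.pow_mem _ hg m, Or.inr hlt⟩

end Fermat.Agent.S56
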