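import Mathlib
import Fermat.Agent.S56.h78_W3Defs

/-!
# S56 / W3 row B2 RESFIN : the residue field of a finite extension of `ℚ_p` is finite (helper93)

For `E ⊆ Ω = PadicAlgCl p` finite over `ℚ_p`:

* `h93_resO p E` : the subring `{x ∈ E, ‖x‖ ≤ 1}` of `Ω`; `h93_resm p E` : its ideal `{‖x‖ < 1}`;
  `h93_resk p E := h93_resO p E ⧸ h93_resm p E` is a finite ring (`h93_finite_resk`) in which `p = 0`;
* `h93_exists_pth_root_mod` (B2.1), `h93_exists_frob_fix` (B2.2), `h93_exists_not_AS` (B2.3).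
-/

set_option autoImplicit false

namespace Fermat.Agent.S56

variable (p : ℕ) [Fact p.Prime]

local notation "Ω" => PadicAlgCl p
local notation "Fld" => IntermediateField ℚ_[p] (PadicAlgCl p)

/-- the ring of integers `{x ∈ E, ‖x‖ ≤ 1}` of `E`, as a subring of `Ω`. -/
def h93_resO (E : Fld) : Subring Ω where
  carrier := {x | x ∈ E ∧ ‖x‖ ≤ 1}
  mul_mem' := by
    rintro a b ⟨ha, ha1⟩ ⟨hb, hb1⟩
    refine ⟨E.mul_mem ha hb, ?_⟩
    rw [norm_mul]
    exact mul_le_one₀ ha1 (norm_nonneg _) hb1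
  one_mem' := ⟨E.one_mem, by rw [norm_one]⟩
  add_mem' := by
    rintro a b ⟨ha, ha1⟩ ⟨hb, hb1⟩
    exact ⟨E.add_mem ha hb, (IsUltrametricDist.norm_add_le_max _ _).trans (max_le ha1 hb1)⟩
  zero_mem' := ⟨E.zero_mem, by rw [norm_zero]; exact zero_le_one⟩
  neg_mem' := by
    rintro a ⟨ha, ha1⟩
    exact ⟨E.neg_mem ha, by rw [norm_neg]; exact ha1⟩

theorem h93_mem_resO (E : Fld) {x : Ω} : x ∈ h93_resO p E ↔ x ∈ E ∧ ‖x‖ ≤ 1 := Iff.rfl

/-- the maximal ideal `{‖x‖ < 1}` of `h93_resO p E`. -/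
def h93_resm (E : Fld) : Ideal (h93_resO p E) where
  carrier := {x | ‖(x : Ω)‖ < 1}
  add_mem' := by
    intro a b ha hb
    exact lt_of_le_of_lt (IsUltrametricDist.norm_add_le_max _ _) (max_lt ha hb)
  zero_mem' := by
    show ‖((0 : h93_resO p E) : Ω)‖ < 1
    rw [Subring.coe_zero, norm_zero]
    exact zero_lt_one
  smul_mem' := by
    intro c x hx
    show ‖((c • x : h93_resO p E) : Ω)‖ < 1
    rw [smul_eq_mul, Subring.coe_mul, norm_mul]
    calc ‖(c : Ω)‖ * ‖(x : Ω)‖ ≤ 1 * ‖(x : Ω)‖ :=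
          mul_le_mul_of_nonneg_right c.2.2 (norm_nonneg _)
      _ < 1 := by rw [one_mul]; exact hx

theorem h93_mem_resm (E : Fld) {x : h93_resO p E} : x ∈ h93_resm p E ↔ ‖(x : Ω)‖ < 1 := Iff.rfl

/-- the residue ring of `E`. -/
abbrev h93_resk (E : Fld) : Type := h93_resO p E ⧸ h93_resm p E

theorem h93_mk_eq_iff (E : Fld) (x y : h93_resO p E) :
    (Ideal.Quotient.mk (h93_resm p E) x = Ideal.Quotient.mk (h93_resm p E) y) ↔
      ‖(x : Ω) - (y : Ω)‖ < 1 := by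
  rw [Ideal.Quotient.eq]
  exact Iff.rfl

theorem h93_mk_eq_zero_iff (E : Fld) (x : h93_resO p E) :
    Ideal.Quotient.mk (h93_resm p E) x = 0 ↔ ‖(x : Ω)‖ < 1 := by
  rw [Ideal.Quotient.eq_zero_iff_mem, h93_mem_resm]

theorem h93_norm_p : ‖(p : Ω)‖ = (p : ℝ)⁻¹ := by
  have h : ((p : ℚ_[p]) : Ω) = (p : Ω) := map_natCast _ _
  rw [← h, PadicAlgCl.norm_extends, Padic.norm_p]

instance h93_nontrivial_resk (E : Fld) : Nontrivial (h93_resk p E) := by
  refine ⟨⟨1, 0, ?_⟩⟩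
  intro h
  have h1 : Ideal.Quotient.mk (h93_resm p E) (1 : h93_resO p E) = 0 := h
  rw [h93_mk_eq_zero_iff, Subring.coe_one, norm_one] at h1
  exact lt_irrefl _ h1

theorem h93_p_eq_zero (E : Fld) : (p : h93_resk p E) = 0 := by
  have h : (p : h93_resk p E) = Ideal.Quotient.mk (h93_resm p E) (p : h93_resO p E) := by
    rw [map_natCast]
  rw [h, h93_mk_eq_zero_iff, Subring.coe_natCast, h93_norm_p]
  have hp : (1 : ℝ) < p := by exact_mod_cast (Fact.out : p.Prime).one_lt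
  exact inv_lt_one_of_one_lt₀ hp

instance h93_charP_resk (E : Fld) : CharP (h93_resk p E) p :=
  (CharP.charP_iff_prime_eq_zero (Fact.out : p.Prime)).mpr (h93_p_eq_zero p E)

/-- no `p`-nilpotents in the residue ring. -/
theorem h93_pow_eq_zero (E : Fld) (x : h93_resk p E) (h : x ^ p = 0) : x = 0 := by
  obtain ⟨a, rfl⟩ := Ideal.Quotient.mk_surjective x
  rw [← map_pow, h93_mk_eq_zero_iff, Subring.coe_pow, norm_pow] at h
  rw [h93_mk_eq_zero_iff]
  by_contra h1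
  rw [not_lt] at h1
  exact absurd h (not_lt.mpr (one_le_pow₀ h1))

theorem h93_frobenius_injective (E : Fld) : Function.Injective (frobenius (h93_resk p E) p) := by
  rw [injective_iff_map_eq_zero]
  intro x hx
  exact h93_pow_eq_zero p E x hx

/-- the residue ring is finite. -/
instance h93_finite_resk (E : Fld) [FiniteDimensional ℚ_[p] E] : Finite (h93_resk p E) := by
  let _ : NormedSpace ℚ_[p] E := ⟨fun a b => by
    show ‖((a • b : E) : Ω)‖ ≤ ‖a‖ * ‖(b : Ω)‖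
    rw [IntermediateField.coe_smul]
    exact norm_smul_le a (b : Ω)⟩
  have : ProperSpace E := FiniteDimensional.proper ℚ_[p] E
  obtain ⟨t, -, htf, htc⟩ :=
    (isCompact_closedBall (0 : E) 1).finite_cover_balls (e := 1) zero_lt_one
  have : Finite t := htf.to_subtype
  classical
  let f : t → h93_resk p E := fun x =>
    if h : ‖((x : E) : Ω)‖ ≤ 1 then Ideal.Quotient.mk (h93_resm p E) ⟨((x : E) : Ω), ⟨(x : E).2, h⟩⟩
    else 0
  refine Finite.of_surjective f ?_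
  intro r
  obtain ⟨a, rfl⟩ := Ideal.Quotient.mk_surjective r
  have ha : (⟨(a : Ω), a.2.1⟩ : E) ∈ Metric.closedBall (0 : E) 1 := by
    rw [mem_closedBall_zero_iff]
    exact a.2.2
  have := htc ha
  simp only [Set.mem_iUnion, Metric.mem_ball, exists_prop] at this
  obtain ⟨x, hxt, hx⟩ := this
  have hd : ‖(a : Ω) - (x : Ω)‖ < 1 := by
    rw [dist_eq_norm] at hx
    exact hx
  have hx1 : ‖(x : Ω)‖ ≤ 1 := by
    have h2 : (x : Ω) = (a : Ω) - ((a : Ω) - (x : Ω)) := by ring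
    rw [h2]
    rw [sub_eq_add_neg]
    refine (IsUltrametricDist.norm_add_le_max _ _).trans (max_le a.2.2 ?_)
    rw [norm_neg]
    exact hd.le
  refine ⟨⟨x, hxt⟩, ?_⟩
  show (if h : ‖(x : Ω)‖ ≤ 1 then Ideal.Quotient.mk (h93_resm p E) ⟨(x : Ω), ⟨x.2, h⟩⟩ else 0) = _
  rw [dif_pos hx1, h93_mk_eq_iff]
  rw [← norm_neg, neg_sub]
  exact hd

/-- B2.1 the residue field is perfect. -/
theorem h93_exists_pth_root_mod (E : Fld) [FiniteDimensional ℚ_[p] E] (u : Ω) (hu : u ∈ E)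
    (hu1 : ‖u‖ ≤ 1) : ∃ w ∈ E, ‖w‖ ≤ 1 ∧ ‖u - w ^ p‖ < 1 := by
  have hsurj : Function.Surjective (frobenius (h93_resk p E) p) :=
    Finite.injective_iff_surjective.mp (h93_frobenius_injective p E)
  obtain ⟨r, hr⟩ := hsurj (Ideal.Quotient.mk (h93_resm p E) ⟨u, ⟨hu, hu1⟩⟩)
  obtain ⟨w, rfl⟩ := Ideal.Quotient.mk_surjective r
  refine ⟨(w : Ω), w.2.1, w.2.2, ?_⟩
  rw [frobenius_def, ← map_pow, h93_mk_eq_iff, Subring.coe_pow] at hr
  rw [← norm_neg, neg_sub]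
  exact hr

/-- B2.2 some power of Frobenius is the identity on the residue field. -/
theorem h93_exists_frob_fix (E : Fld) [FiniteDimensional ℚ_[p] E] :
    ∃ f : ℕ, 0 < f ∧ ∀ u ∈ E, ‖u‖ ≤ 1 → ‖u ^ (p ^ f) - u‖ < 1 := by
  have hbij : Function.Bijective (frobenius (h93_resk p E) p) :=
    ⟨h93_frobenius_injective p E,
      Finite.injective_iff_surjective.mp (h93_frobenius_injective p E)⟩
  let φ : Equiv.Perm (h93_resk p E) := Equiv.ofBijective _ hbij
  refine ⟨orderOf φ, orderOf_pos φ, fun u hu hu1 => ?_⟩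
  have h1 : (φ ^ orderOf φ) (Ideal.Quotient.mk (h93_resm p E) ⟨u, ⟨hu, hu1⟩⟩) =
      Ideal.Quotient.mk (h93_resm p E) ⟨u, ⟨hu, hu1⟩⟩ := by
    rw [pow_orderOf_eq_one]
    rfl
  have h2 : ∀ (n : ℕ) (x : h93_resk p E), (φ ^ n) x = x ^ (p ^ n) := by
    intro n x
    rw [Equiv.Perm.coe_pow]
    show (frobenius (h93_resk p E) p)^[n] x = _
    rw [iterate_frobenius]
  rw [h2, ← map_pow, h93_mk_eq_iff] at h1
  exact h1

/-- B2.3 Artin-Schreier is not surjective on the residue field. -/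
theorem h93_exists_not_AS (E : Fld) [FiniteDimensional ℚ_[p] E] :
    ∃ c ∈ E, ‖c‖ ≤ 1 ∧ ∀ x ∈ E, ‖x‖ ≤ 1 → ¬ ‖x ^ p - x - c‖ < 1 := by
  let ψ : h93_resk p E →+ h93_resk p E :=
    (frobenius (h93_resk p E) p).toAddMonoidHom - AddMonoidHom.id _
  have hψ : ∀ x, ψ x = x ^ p - x := fun x => rfl
  have hni : ¬ Function.Injective ψ := by
    intro h
    have h1 : ψ 1 = ψ 0 := by rw [hψ, hψ]; simp [(Fact.out : p.Prime).ne_zero]
    exact one_ne_zero (h h1)
  have hns : ¬ Function.Surjective ψ := fun h => hni (Finite.injective_iff_surjective.mpr h)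
  simp only [Function.Surjective, not_forall, not_exists] at hns
  obtain ⟨r, hr⟩ := hns
  obtain ⟨c, rfl⟩ := Ideal.Quotient.mk_surjective r
  refine ⟨(c : Ω), c.2.1, c.2.2, fun x hx hx1 h => ?_⟩
  apply hr (Ideal.Quotient.mk (h93_resm p E) ⟨x, ⟨hx, hx1⟩⟩)
  rw [hψ, ← map_pow, ← map_sub, h93_mk_eq_iff]
  exact h

end Fermat.Agent.S56
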