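import Mathlib
import Fermat.Agent.S56.h78_W3Defs
import Fermat.Agent.S56.h93_ResFin
import Fermat.Agent.S56.h49_K0Res
import Fermat.Agent.S56.h62_W3Basics
import Fermat.Agent.S56.h19_ConjJ
import Fermat.Agent.S56.h6_WildCore

/-!
# S56 / W3 row IRR-1 (TAME-LOC): tame inertia and Frobenius in norm language (helper88)

`L ⊆ Ω = PadicAlgCl p` finite over `ℚ_p`, Galois-stable, `π` a uniformizer of `L`,
`J = h78_J p L` (relative inertia), `P = h78_P p L π` (wild inertia).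

* `h88_exists_tame_gen` : `J/P` is cyclic;
* `h88_exists_frob` : a Frobenius element `φ` exists (`φ z = z ^ p` on the prime-to-`p` roots of
  unity of `L`);
* `h88_frob_conj` : `φ g φ⁻¹ ≡ g ^ p` modulo `P` for `g ∈ J`;
* `h88_frob_gen` : every `g` is congruent to a power of `φ` modulo `J` (so `G/J` is cyclic).
-/

set_option autoImplicit false
set_option linter.style.haveILetI false

namespace Fermat.Agent.S56

variable (p : ℕ) [Fact p.Prime]

local notation "Ω" => PadicAlgCl p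
local notation "Fld" => IntermediateField ℚ_[p] (PadicAlgCl p)

/-! ### the residue field -/

instance h88_resm_isMaximal (E : Fld) : (h93_resm p E).IsMaximal := by
  rw [Ideal.isMaximal_iff]
  refine ⟨?_, ?_⟩
  · intro h
    rw [h93_mem_resm, Subring.coe_one, norm_one] at h
    exact lt_irrefl _ h
  · intro J x _ hx hxJ
    have hx1 : ‖(x : Ω)‖ = 1 := le_antisymm x.2.2 (not_lt.1 hx)
    have hx0 : (x : Ω) ≠ 0 := by
      intro h
      rw [h, norm_zero] at hx1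
      exact zero_ne_one hx1
    let y : h93_resO p E := ⟨(x : Ω)⁻¹, E.inv_mem x.2.1, by rw [norm_inv, hx1, inv_one]⟩
    have hyx : y * x = 1 := Subtype.ext (inv_mul_cancel₀ hx0)
    rw [← hyx]
    exact J.mul_mem_left y hxJ

noncomputable instance h88_field_resk (E : Fld) : Field (h93_resk p E) :=
  Ideal.Quotient.field _

/-- reduction modulo the maximal ideal. -/
noncomputable def h88_red (E : Fld) (x : Ω) (hx : x ∈ E) (hx1 : ‖x‖ ≤ 1) : h93_resk p E :=
  Ideal.Quotient.mk (h93_resm p E) ⟨x, hx, hx1⟩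

theorem h88_red_eq_iff (E : Fld) (x y : Ω) (hx : x ∈ E) (hx1 : ‖x‖ ≤ 1) (hy : y ∈ E)
    (hy1 : ‖y‖ ≤ 1) : h88_red p E x hx hx1 = h88_red p E y hy hy1 ↔ ‖x - y‖ < 1 :=
  h93_mk_eq_iff p E _ _

theorem h88_red_surj (E : Fld) (r : h93_resk p E) :
    ∃ (x : Ω) (hx : x ∈ E) (hx1 : ‖x‖ ≤ 1), h88_red p E x hx hx1 = r := by
  obtain ⟨a, rfl⟩ := Ideal.Quotient.mk_surjective r
  exact ⟨a, a.2.1, a.2.2, rfl⟩

/-! ### roots of unity of order prime to `p` -/

theorem h88_norm_eq_one_of_pow (w : Ω) (n : ℕ) (hn : n ≠ 0) (hw : w ^ n = 1) : ‖w‖ = 1 := by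
  have h1 : ‖w‖ ^ n = 1 := by rw [← norm_pow, hw, norm_one]
  exact (pow_eq_one_iff_of_nonneg (norm_nonneg w) hn).1 h1

theorem h88_norm_pow_sub_one_le (w : Ω) (hw : ‖w‖ ≤ 1) (i : ℕ) : ‖w ^ i - 1‖ ≤ ‖w - 1‖ := by
  have h1 : w ^ i - 1 = (∑ j ∈ Finset.range i, w ^ j) * (w - 1) := (geom_sum_mul w i).symm
  rw [h1, norm_mul]
  have h2 : ‖∑ j ∈ Finset.range i, w ^ j‖ ≤ 1 := by
    refine IsUltrametricDist.norm_sum_le_of_forall_le_of_nonneg zero_le_one fun j _ => ?_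
    rw [norm_pow]
    exact pow_le_one₀ (norm_nonneg _) hw
  calc ‖∑ j ∈ Finset.range i, w ^ j‖ * ‖w - 1‖ ≤ 1 * ‖w - 1‖ :=
        mul_le_mul_of_nonneg_right h2 (norm_nonneg _)
    _ = ‖w - 1‖ := one_mul _

/-- a root of unity of order prime to `p` which is congruent to `1` is `1`. -/
theorem h88_root_sub_one (w : Ω) (n : ℕ) (hn : ¬ p ∣ n) (hw : w ^ n = 1) (hw1 : ‖w - 1‖ < 1) :
    w = 1 := by
  by_contra hne
  have hn0 : n ≠ 0 := fun h => hn (h ▸ dvd_zero p)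
  have hnorm : ‖w‖ = 1 := h88_norm_eq_one_of_pow p w n hn0 hw
  have h1 : (∑ j ∈ Finset.range n, w ^ j) * (w - 1) = 0 := by
    rw [geom_sum_mul, hw, sub_self]
  have h2 : ∑ j ∈ Finset.range n, w ^ j = 0 :=
    (mul_eq_zero.1 h1).resolve_right (sub_ne_zero.2 hne)
  have h3 : ‖∑ j ∈ Finset.range n, (w ^ j - 1)‖ < 1 := by
    refine lt_of_le_of_lt (IsUltrametricDist.norm_sum_le_of_forall_le_of_nonneg
      (norm_nonneg (w - 1)) fun j _ => ?_) hw1
    exact h88_norm_pow_sub_one_le p w hnorm.le j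
  rw [Finset.sum_sub_distrib, h2, zero_sub, norm_neg] at h3
  simp only [Finset.sum_const, Finset.card_range, nsmul_eq_mul, mul_one] at h3
  rw [h6_norm_natCast_of_not_dvd p n hn] at h3
  exact lt_irrefl _ h3

/-- two roots of unity of order prime to `p` which are congruent are equal. -/
theorem h88_root_eq_of_near (z z' : Ω) (n n' : ℕ) (hn : ¬ p ∣ n) (hn' : ¬ p ∣ n')
    (hz : z ^ n = 1) (hz' : z' ^ n' = 1) (h : ‖z - z'‖ < 1) : z = z' := by
  have hn0 : n' ≠ 0 := fun h => hn' (h ▸ dvd_zero p)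
  have hnorm' : ‖z'‖ = 1 := h88_norm_eq_one_of_pow p z' n' hn0 hz'
  have hz'0 : z' ≠ 0 := by
    intro h0
    rw [h0, norm_zero] at hnorm'
    exact zero_ne_one hnorm'
  have h1 : (z * z'⁻¹) ^ (n * n') = 1 := by
    rw [mul_pow, pow_mul, hz, one_pow, one_mul, inv_pow, mul_comm n n', pow_mul, hz', one_pow,
      inv_one]
  have h2 : ¬ p ∣ n * n' := fun hd =>
    ((Fact.out : p.Prime).dvd_mul.1 hd).elim hn hn'
  have h3 : ‖z * z'⁻¹ - 1‖ < 1 := by
    have h4 : z * z'⁻¹ - 1 = (z - z') * z'⁻¹ := by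
      field_simp
    rw [h4, norm_mul, norm_inv, hnorm', inv_one, mul_one]
    exact h
  have h5 := h88_root_sub_one p (z * z'⁻¹) (n * n') h2 h1 h3
  field_simp at h5
  exact h5

/-- `z` is a root of unity of order prime to `p` lying in `L`. -/
def h88_IsMu (L : Fld) (z : Ω) : Prop := z ∈ L ∧ ∃ n : ℕ, 0 < n ∧ ¬ p ∣ n ∧ z ^ n = 1

theorem h88_isMu_norm (L : Fld) (z : Ω) (hz : h88_IsMu p L z) : ‖z‖ = 1 := by
  obtain ⟨-, n, hn, -, hzn⟩ := hz
  exact h88_norm_eq_one_of_pow p z n hn.ne' hzn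

theorem h88_isMu_eq_of_near (L : Fld) (z z' : Ω) (hz : h88_IsMu p L z) (hz' : h88_IsMu p L z')
    (h : ‖z - z'‖ < 1) : z = z' := by
  obtain ⟨-, n, -, hn, hzn⟩ := hz
  obtain ⟨-, n', -, hn', hzn'⟩ := hz'
  exact h88_root_eq_of_near p z z' n n' hn hn' hzn hzn' h

theorem h88_isMu_pow (L : Fld) (z : Ω) (hz : h88_IsMu p L z) (i : ℕ) : h88_IsMu p L (z ^ i) := by
  obtain ⟨hzL, n, hn0, hn, hzn⟩ := hz
  exact ⟨pow_mem hzL i, n, hn0, hn, by rw [← pow_mul, mul_comm, pow_mul, hzn, one_pow]⟩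

theorem h88_isMu_map (L : Fld) (hL : h78_Stable p L) (g : h78_G p) (z : Ω)
    (hz : h88_IsMu p L z) : h88_IsMu p L (g z) := by
  obtain ⟨hzL, n, hn0, hn, hzn⟩ := hz
  exact ⟨hL g z hzL, n, hn0, hn, by rw [← map_pow, hzn, map_one]⟩

/-- an automorphism fixing the prime-to-`p` roots of unity of `L` lies in `J_L`. -/
theorem h88_mem_J_of_fix (L : Fld) (σ : h78_G p) (h : ∀ z, h88_IsMu p L z → σ z = z) :
    σ ∈ h78_J p L := by
  rw [h78_J, IntermediateField.mem_fixingSubgroup_iff]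
  intro x hx
  unfold h78_K0 at hx
  induction hx using IntermediateField.adjoin_induction with
  | mem z hz => exact h z hz
  | algebraMap c => exact σ.commutes c
  | add x y _ _ hx hy => rw [map_add, hx, hy]
  | inv x _ hx => rw [map_inv₀, hx]
  | mul x y _ _ hx hy => rw [map_mul, hx, hy]

theorem h88_J_fix_mu (L : Fld) (σ : h78_G p) (hσ : σ ∈ h78_J p L) (z : Ω)
    (hz : h88_IsMu p L z) : σ z = z :=
  h49_J_fix p L σ hσ z (IntermediateField.subset_adjoin _ _ hz)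

/-- Teichmüller: every unit of `L` is congruent to a root of unity of order prime to `p`. -/
theorem h88_teich (L : Fld) [FiniteDimensional ℚ_[p] L] (x : Ω) (hx : x ∈ L) (hxe : ‖x‖ = 1) :
    ∃ z, h88_IsMu p L z ∧ ‖x - z‖ < 1 := by
  obtain ⟨m, hm, hxm⟩ := h49_exists_pow_near_one p L x hx hxe
  obtain ⟨a, n, hpn, rfl⟩ :=
    Nat.exists_eq_pow_mul_and_not_dvd hm.ne' p (Fact.out : p.Prime).ne_one
  have hn : 0 < n := by
    rcases Nat.eq_zero_or_pos n with h | h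
    · subst h; simp at hm
    · exact h
  have hxn : ‖x ^ n - 1‖ < 1 := by
    apply h49_frob_inj p (x ^ n) (by rw [norm_pow, hxe, one_pow]) a
    rw [← pow_mul, mul_comm]; exact hxm
  have : CompleteSpace L := FiniteDimensional.complete ℚ_[p] L
  have hna : ∀ u v : L, ‖u + v‖ ≤ max ‖u‖ ‖v‖ := fun u v =>
    IsUltrametricDist.norm_add_le_max (u : Ω) (v : Ω)
  have hF : ∀ i, ‖((Polynomial.X : Polynomial L) ^ n - 1).coeff i‖ ≤ 1 := by
    intro i
    rw [Polynomial.coeff_sub, Polynomial.coeff_X_pow, Polynomial.coeff_one]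
    split_ifs <;> simp
  have h0 : ‖((Polynomial.X : Polynomial L) ^ n - 1).eval (⟨x, hx⟩ : L)‖ < 1 := by
    rw [Polynomial.eval_sub, Polynomial.eval_pow, Polynomial.eval_X, Polynomial.eval_one]
    exact hxn
  have h1 : ¬ ‖(Polynomial.derivative ((Polynomial.X : Polynomial L) ^ n - 1)).eval
      (⟨x, hx⟩ : L)‖ < 1 := by
    rw [Polynomial.derivative_sub, Polynomial.derivative_X_pow, Polynomial.derivative_one,
      sub_zero, Polynomial.eval_mul, Polynomial.eval_C, Polynomial.eval_pow, Polynomial.eval_X]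
    have h5 : ‖((n : L) * (⟨x, hx⟩ : L) ^ (n - 1) : L)‖ = ‖(n : ℚ_[p])‖ := by
      show ‖((n : Ω) * x ^ (n - 1) : Ω)‖ = ‖(n : ℚ_[p])‖
      rw [norm_mul, norm_pow, hxe, one_pow, mul_one, h49_norm_natCast]
    rw [h5]
    exact fun hlt' => hpn (Padic.norm_natCast_lt_one_iff.1 hlt')
  obtain ⟨b, hb, hbx⟩ := Fermat.Agent.S55.h6_hensel_normed hna _ hF (⟨x, hx⟩ : L) hxe.le h0 h1
  refine ⟨(b : Ω), ⟨b.2, n, hn, hpn, ?_⟩, ?_⟩
  · rw [Polynomial.eval_sub, Polynomial.eval_pow, Polynomial.eval_X, Polynomial.eval_one,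
      sub_eq_zero] at hb
    have h6 := congrArg (Subtype.val) hb
    simpa using h6
  · have h7 : ‖((b : Ω) - x)‖ < 1 := hbx
    rw [← norm_neg]; simpa using h7

/-- the group of prime-to-`p` roots of unity of `L`. -/
def h88_mu (L : Fld) : Subgroup Ωˣ where
  carrier := {u | h88_IsMu p L (u : Ω)}
  mul_mem' := by
    rintro a b ⟨haL, n, hn0, hn, han⟩ ⟨hbL, m, hm0, hm, hbm⟩
    refine ⟨by rw [Units.val_mul]; exact L.mul_mem haL hbL, n * m, Nat.mul_pos hn0 hm0, ?_, ?_⟩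
    · exact fun hd => ((Fact.out : p.Prime).dvd_mul.1 hd).elim hn hm
    · rw [Units.val_mul, mul_pow, pow_mul, han, one_pow, one_mul, mul_comm n m, pow_mul, hbm,
        one_pow]
  one_mem' := ⟨by rw [Units.val_one]; exact L.one_mem, 1, one_pos,
    (Fact.out : p.Prime).not_dvd_one, by simp⟩
  inv_mem' := by
    rintro a ⟨haL, n, hn0, hn, han⟩
    refine ⟨by rw [Units.val_inv_eq_inv_val]; exact L.inv_mem haL, n, hn0, hn, ?_⟩
    rw [Units.val_inv_eq_inv_val, inv_pow, han, inv_one]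

instance h88_mu_finite (L : Fld) [FiniteDimensional ℚ_[p] L] : Finite (h88_mu p L) := by
  let f : h88_mu p L → h93_resk p L := fun u =>
    h88_red p L ((u : Ωˣ) : Ω) u.2.1 (h88_isMu_norm p L _ u.2).le
  refine Finite.of_injective f ?_
  intro u v huv
  have h1 := (h88_red_eq_iff p L _ _ _ _ _ _).1 huv
  exact Subtype.ext (Units.ext (h88_isMu_eq_of_near p L _ _ u.2 v.2 h1))

/-- the prime-to-`p` roots of unity of `L` are the powers of one of them. -/
theorem h88_exists_mu_gen (L : Fld) [FiniteDimensional ℚ_[p] L] :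
    ∃ ζ : Ω, h88_IsMu p L ζ ∧ ∀ z, h88_IsMu p L z → ∃ i : ℕ, z = ζ ^ i := by
  obtain ⟨g, hg⟩ := IsCyclic.exists_monoid_generator (α := h88_mu p L)
  refine ⟨((g : Ωˣ) : Ω), g.2, fun z hz => ?_⟩
  have hz0 : z ≠ 0 := by
    intro h
    have h1 := h88_isMu_norm p L z hz
    rw [h, norm_zero] at h1
    exact zero_ne_one h1
  obtain ⟨i, hi⟩ := (Submonoid.mem_powers_iff _ _).1 (hg ⟨Units.mk0 z hz0, hz⟩)
  refine ⟨i, ?_⟩
  have h2 := congrArg (fun u : h88_mu p L => ((u : Ωˣ) : Ω)) hi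
  simpa using h2.symm

/-! ### the action on the residue field -/

/-- the action of a Galois element on the integers of a stable field. -/
noncomputable def h88_actO (L : Fld) (hL : h78_Stable p L) (g : h78_G p) :
    h93_resO p L →+* h93_resO p L where
  toFun x := ⟨g x, hL g x x.2.1, by rw [h78_norm_aut]; exact x.2.2⟩
  map_one' := Subtype.ext (map_one g)
  map_mul' x y := Subtype.ext (map_mul g _ _)
  map_zero' := Subtype.ext (map_zero g)
  map_add' x y := Subtype.ext (map_add g _ _)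

/-- the induced endomorphism of the residue field. -/
noncomputable def h88_resMap (L : Fld) (hL : h78_Stable p L) (g : h78_G p) :
    h93_resk p L →+* h93_resk p L :=
  Ideal.Quotient.lift (h93_resm p L)
    ((Ideal.Quotient.mk (h93_resm p L)).comp (h88_actO p L hL g)) (by
      intro a ha
      rw [RingHom.comp_apply, h93_mk_eq_zero_iff]
      show ‖g (a : Ω)‖ < 1
      rw [h78_norm_aut]
      exact ha)

theorem h88_resMap_red (L : Fld) (hL : h78_Stable p L) (g : h78_G p) (x : Ω) (hx : x ∈ L)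
    (hx1 : ‖x‖ ≤ 1) :
    h88_resMap p L hL g (h88_red p L x hx hx1) =
      h88_red p L (g x) (hL g x hx) (by rw [h78_norm_aut]; exact hx1) := rfl

/-- elements of `J_L` act trivially on the residue field. -/
theorem h88_resMap_of_J (L : Fld) [FiniteDimensional ℚ_[p] L] (hL : h78_Stable p L)
    (g : h78_G p) (hg : g ∈ h78_J p L) (r : h93_resk p L) : h88_resMap p L hL g r = r := by
  obtain ⟨x, hx, hx1, rfl⟩ := h88_red_surj p L r
  rw [h88_resMap_red, h88_red_eq_iff]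
  exact h49_J_res p L g hg x hx hx1

/-- a polynomial with Frobenius-fixed coefficients commutes with Frobenius. -/
theorem h88_eval_pow_char {R : Type*} [CommRing R] (q : ℕ) [ExpChar R q] (Q : Polynomial R)
    (hQ : ∀ i, Q.coeff i ^ q = Q.coeff i) (x : R) : Q.eval (x ^ q) = (Q.eval x) ^ q := by
  rw [Polynomial.eval_eq_sum_range, Polynomial.eval_eq_sum_range, sum_pow_char]
  refine Finset.sum_congr rfl fun i _ => ?_
  rw [mul_pow, hQ, ← pow_mul, ← pow_mul, Nat.mul_comm]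

/-- the residue class of a `p`-adic integer is fixed by Frobenius. -/
theorem h88_red_padic_pow (E : Fld) (c : ℚ_[p]) (hc : ‖(algebraMap ℚ_[p] Ω c)‖ ≤ 1) :
    h88_red p E (algebraMap ℚ_[p] Ω c) (E.algebraMap_mem c) hc ^ p =
      h88_red p E (algebraMap ℚ_[p] Ω c) (E.algebraMap_mem c) hc := by
  have hc' : ‖c‖ ≤ 1 := by rwa [PadicAlgCl.norm_extends] at hc
  let c' : ℤ_[p] := ⟨c, hc'⟩
  obtain ⟨n, -, hn⟩ := PadicInt.exists_mem_range (x := c')
  have hn' : ‖c - (n : ℚ_[p])‖ < 1 := by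
    have h1 : ‖c' - (n : ℤ_[p])‖ < 1 := by
      rwa [IsLocalRing.mem_maximalIdeal, PadicInt.mem_nonunits] at hn
    have h2 : ((c' - (n : ℤ_[p]) : ℤ_[p]) : ℚ_[p]) = c - (n : ℚ_[p]) := by
      rw [PadicInt.coe_sub, PadicInt.coe_natCast]
    rw [← h2]
    exact h1
  have h2 : h88_red p E (algebraMap ℚ_[p] Ω c) (E.algebraMap_mem c) hc = ((n : ℕ) : h93_resk p E) := by
    have h3 : ((n : ℕ) : h93_resk p E) =
        h88_red p E (n : Ω) (natCast_mem E n) (h6_norm_natCast_le_one p n) := by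
      unfold h88_red
      rw [← map_natCast (Ideal.Quotient.mk (h93_resm p E)) n]
      rfl
    rw [h3, h88_red_eq_iff]
    have h4 : algebraMap ℚ_[p] Ω c - (n : Ω) = algebraMap ℚ_[p] Ω (c - (n : ℚ_[p])) := by
      rw [map_sub, map_natCast]
    rw [h4, PadicAlgCl.norm_extends]
    exact hn'
  rw [h2]
  have h5 := map_natCast (frobenius (h93_resk p E) p) n
  rwa [frobenius_def] at h5

/-! ### the Frobenius element -/

/-- coefficients of a product of `X - y` with `‖y‖ ≤ 1` are integral. -/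
theorem h88_norm_coeff_prod_le (s : Finset Ω) (hs : ∀ y ∈ s, ‖y‖ ≤ 1) (n : ℕ) :
    ‖(∏ y ∈ s, (Polynomial.X - Polynomial.C y)).coeff n‖ ≤ 1 := by
  classical
  induction s using Finset.induction_on generalizing n with
  | empty =>
    rw [Finset.prod_empty, Polynomial.coeff_one]
    split_ifs <;> simp
  | insert a s ha ih =>
    have h1 : ∀ n, ‖(∏ y ∈ s, (Polynomial.X - Polynomial.C y)).coeff n‖ ≤ 1 := fun n =>
      ih (fun y hy => hs y (Finset.mem_insert_of_mem hy)) n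
    rw [Finset.prod_insert ha, sub_mul, Polynomial.coeff_sub, Polynomial.coeff_C_mul,
      sub_eq_add_neg]
    refine (IsUltrametricDist.norm_add_le_max _ _).trans (max_le ?_ ?_)
    · cases n with
      | zero => simp
      | succ m =>
        rw [Polynomial.coeff_X_mul]
        exact h1 m
    · rw [norm_neg, norm_mul]
      exact mul_le_one₀ (hs a (Finset.mem_insert_self a s)) (norm_nonneg _) (h1 n)

/-- **(b1)** a Frobenius element: `φ z = z ^ p` for every prime-to-`p` root of unity `z ∈ L`. -/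
theorem h88_exists_frob (L : Fld) [FiniteDimensional ℚ_[p] L] :
    ∃ φ : h78_G p, ∀ z, h88_IsMu p L z → φ z = z ^ p := by
  classical
  obtain ⟨ζ, hζ, hgen⟩ := h88_exists_mu_gen p L
  have hζ1 : ‖ζ‖ = 1 := h88_isMu_norm p L ζ hζ
  obtain ⟨hζL, N, hN0, hN, hζN⟩ := hζ
  obtain ⟨C, hC⟩ : ∃ C, C = h78_conj p ⊤ ζ := ⟨_, rfl⟩
  obtain ⟨P, hP⟩ : ∃ P : Polynomial Ω, P = ∏ y ∈ C, (Polynomial.X - Polynomial.C y) := ⟨_, rfl⟩
  have hCmem : ∀ y ∈ C, ∃ g : h78_G p, g ζ = y := fun y hy => by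
    rw [hC] at hy
    obtain ⟨g, -, hg⟩ := (h19_mem_conj p ⊤ ζ y).1 hy
    exact ⟨g, hg⟩
  have hCnorm : ∀ y ∈ C, ‖y‖ ≤ 1 := fun y hy => by
    obtain ⟨g, rfl⟩ := hCmem y hy
    rw [h78_norm_aut, hζ1]
  have hζC : ζ ∈ C := by
    rw [hC]
    exact (h19_mem_conj p ⊤ ζ ζ).2 ⟨1, Subgroup.mem_top _, rfl⟩
  have hcoeff1 : ∀ n, ‖P.coeff n‖ ≤ 1 := fun n => by
    rw [hP]
    exact h88_norm_coeff_prod_le p C hCnorm n
  have hcoeffQ : ∀ n, ∃ c : ℚ_[p], algebraMap ℚ_[p] Ω c = P.coeff n := by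
    intro n
    have h1 : P.coeff n ∈ (⊥ : Fld) := by
      refine h62_mem_of_fixed p ⊥ _ fun g _ => ?_
      rw [hP, hC]
      exact h19_coeff_prod_conj_fixed p ⊤ ζ g (Subgroup.mem_top _) n
    exact IntermediateField.mem_bot.1 h1
  have hPζ : P.eval ζ = 0 := by
    rw [hP, Polynomial.eval_prod]
    refine Finset.prod_eq_zero hζC ?_
    simp
  -- lift to the integers of `L`
  have hlift : (↑P.coeffs : Set Ω) ⊆ (h93_resO p L : Set Ω) := by
    intro c hc
    obtain ⟨n, -, rfl⟩ := Polynomial.mem_coeffs_iff.1 (Finset.mem_coe.1 hc)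
    obtain ⟨c, hc⟩ := hcoeffQ n
    exact ⟨hc ▸ L.algebraMap_mem c, hcoeff1 n⟩
  let PO : Polynomial (h93_resO p L) := P.toSubring (h93_resO p L) hlift
  have hPO : PO.map (h93_resO p L).subtype = P := Polynomial.map_toSubring P _ hlift
  have hevalO : ∀ z : h93_resO p L, ((PO.eval z : h93_resO p L) : Ω) = P.eval (z : Ω) := by
    intro z
    have h1 := Polynomial.eval₂_at_apply (p := PO) (h93_resO p L).subtype z
    rw [← Polynomial.eval_map, hPO] at h1
    exact h1.symm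
  let Pk : Polynomial (h93_resk p L) := PO.map (Ideal.Quotient.mk (h93_resm p L))
  have hevalk : ∀ z : h93_resO p L, Pk.eval (Ideal.Quotient.mk (h93_resm p L) z) =
      Ideal.Quotient.mk (h93_resm p L) (PO.eval z) := by
    intro z
    rw [Polynomial.eval_map, Polynomial.eval₂_at_apply]
  have hPk : ∀ i, Pk.coeff i ^ p = Pk.coeff i := by
    intro i
    obtain ⟨c, hc⟩ := hcoeffQ i
    have h1 : ‖algebraMap ℚ_[p] Ω c‖ ≤ 1 := by rw [hc]; exact hcoeff1 i
    have h2 : Pk.coeff i = h88_red p L (algebraMap ℚ_[p] Ω c) (L.algebraMap_mem c) h1 := by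
      rw [Polynomial.coeff_map]
      unfold h88_red
      congr 1
      apply Subtype.ext
      rw [Polynomial.coeff_toSubring]
      exact hc.symm
    rw [h2]
    exact h88_red_padic_pow p L c h1
  haveI : ExpChar (h93_resk p L) p := ExpChar.prime (Fact.out : p.Prime)
  let z : h93_resO p L := ⟨ζ, hζL, hζ1.le⟩
  have hz0 : PO.eval z = 0 := by
    apply Subtype.ext
    rw [hevalO]
    exact hPζ
  have hzp : Pk.eval (Ideal.Quotient.mk (h93_resm p L) (z ^ p)) = 0 := by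
    rw [map_pow, h88_eval_pow_char p Pk hPk, hevalk, hz0, map_zero, zero_pow (Fact.out : p.Prime).ne_zero]
  rw [hevalk, h93_mk_eq_zero_iff, hevalO] at hzp
  have hprod : P.eval (ζ ^ p) = ∏ y ∈ C, (ζ ^ p - y) := by
    rw [hP, Polynomial.eval_prod]
    refine Finset.prod_congr rfl fun y _ => ?_
    simp
  have hzp' : ‖∏ y ∈ C, (ζ ^ p - y)‖ < 1 := by
    rw [← hprod]
    exact hzp
  have hex : ∃ y ∈ C, ‖ζ ^ p - y‖ < 1 := by
    by_contra hcon
    push Not at hcon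
    rw [norm_prod] at hzp'
    have h1 : (1 : ℝ) ≤ ∏ y ∈ C, ‖ζ ^ p - y‖ := by
      calc (1 : ℝ) = ∏ y ∈ C, (1 : ℝ) := by rw [Finset.prod_const_one]
        _ ≤ ∏ y ∈ C, ‖ζ ^ p - y‖ :=
          Finset.prod_le_prod (fun _ _ => zero_le_one) hcon
    exact absurd hzp' (not_lt.2 h1)
  obtain ⟨y, hyC, hy⟩ := hex
  obtain ⟨g, rfl⟩ := hCmem y hyC
  have hkey : ζ ^ p = g ζ := by
    refine h88_root_eq_of_near p (ζ ^ p) (g ζ) N N hN hN ?_ ?_ hy
    · rw [← pow_mul, mul_comm, pow_mul, hζN, one_pow]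
    · rw [← map_pow, hζN, map_one]
  refine ⟨g, fun w hw => ?_⟩
  obtain ⟨i, rfl⟩ := hgen w hw
  rw [map_pow, ← hkey, ← pow_mul, ← pow_mul, mul_comm]

/-- every Galois element acts on the residue field of a stable `L` as a power of Frobenius. -/
theorem h88_resMap_frob_pow (L : Fld) [FiniteDimensional ℚ_[p] L] (hL : h78_Stable p L)
    (g : h78_G p) : ∃ n : ℕ, ∀ r : h93_resk p L, h88_resMap p L hL g r = r ^ (p ^ n) := by
  letI : Algebra (ZMod p) (h93_resk p L) := ZMod.algebra _ p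
  let f : h93_resk p L →ₐ[ZMod p] h93_resk p L :=
    { h88_resMap p L hL g with
      commutes' := fun r => RingHom.congr_fun (Subsingleton.elim
        ((h88_resMap p L hL g).comp (algebraMap (ZMod p) (h93_resk p L)))
        (algebraMap (ZMod p) (h93_resk p L))) r }
  obtain ⟨n, hn⟩ := (FiniteField.bijective_frobeniusAlgHom_pow (ZMod p) (h93_resk p L)).2 f
  refine ⟨n.1, fun r => ?_⟩
  have h1 : (FiniteField.frobeniusAlgHom (ZMod p) (h93_resk p L) ^ n.1) r = f r :=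
    DFunLike.congr_fun hn r
  rw [AlgHom.coe_pow, FiniteField.coe_frobeniusAlgHom, pow_iterate, ZMod.card] at h1
  exact h1.symm

theorem h88_frob_pow_apply (L : Fld) (φ : h78_G p) (hφ : ∀ z, h88_IsMu p L z → φ z = z ^ p)
    (m : ℕ) : ∀ z, h88_IsMu p L z → (φ ^ m) z = z ^ (p ^ m) := by
  induction m with
  | zero => intro z _; simp
  | succ m ih =>
    intro z hz
    rw [pow_succ, AlgEquiv.mul_apply, hφ z hz, ih _ (h88_isMu_pow p L z hz p), ← pow_mul,
      pow_succ, mul_comm]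

/-- **(c)** every Galois element is congruent to a power of Frobenius modulo `J_L`:
`G / J_L` is cyclic. -/
theorem h88_frob_gen (L : Fld) [FiniteDimensional ℚ_[p] L] (hL : h78_Stable p L) (φ : h78_G p)
    (hφ : ∀ z, h88_IsMu p L z → φ z = z ^ p) (g : h78_G p) :
    ∃ j : ℕ, g * (φ⁻¹) ^ j ∈ h78_J p L := by
  obtain ⟨n, hn⟩ := h88_resMap_frob_pow p L hL g
  have hg : ∀ z, h88_IsMu p L z → g z = z ^ (p ^ n) := by
    intro z hz
    have hz1 := h88_isMu_norm p L z hz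
    have h1 := hn (h88_red p L z hz.1 hz1.le)
    rw [h88_resMap_red] at h1
    have h2 : h88_red p L z hz.1 hz1.le ^ (p ^ n) =
        h88_red p L (z ^ (p ^ n)) (pow_mem hz.1 _) (by rw [norm_pow, hz1, one_pow]) := rfl
    rw [h2, h88_red_eq_iff] at h1
    exact h88_isMu_eq_of_near p L _ _ (h88_isMu_map p L hL g z hz) (h88_isMu_pow p L z hz _) h1
  refine ⟨n, h88_mem_J_of_fix p L _ fun z hz => ?_⟩
  obtain ⟨z', hz'⟩ : ∃ z', z' = ((φ⁻¹) ^ n) z := ⟨_, rfl⟩
  have hz'mu : h88_IsMu p L z' := by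
    rw [hz']
    exact h88_isMu_map p L hL _ z hz
  have h3 : (φ ^ n) z' = z := by
    rw [hz', ← AlgEquiv.mul_apply, inv_pow, mul_inv_cancel]
    rfl
  rw [AlgEquiv.mul_apply, ← hz', hg z' hz'mu, ← h88_frob_pow_apply p L φ hφ n z' hz'mu, h3]

/-- Frobenius acts on the residue field by `x ↦ x ^ p`. -/
theorem h88_resMap_frob (L : Fld) [FiniteDimensional ℚ_[p] L] (hL : h78_Stable p L)
    (φ : h78_G p) (hφ : ∀ z, h88_IsMu p L z → φ z = z ^ p) (r : h93_resk p L) :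
    h88_resMap p L hL φ r = r ^ p := by
  obtain ⟨x, hx, hx1, rfl⟩ := h88_red_surj p L r
  by_cases hlt : ‖x‖ < 1
  · have h0 : h88_red p L x hx hx1 = 0 := (h93_mk_eq_zero_iff p L _).2 hlt
    rw [h0, map_zero, zero_pow (Fact.out : p.Prime).ne_zero]
  · have hxe : ‖x‖ = 1 := le_antisymm hx1 (not_lt.1 hlt)
    obtain ⟨z, hz, hxz⟩ := h88_teich p L x hx hxe
    have hz1 := h88_isMu_norm p L z hz
    have h1 : h88_red p L x hx hx1 = h88_red p L z hz.1 hz1.le :=
      (h88_red_eq_iff p L _ _ _ _ _ _).2 hxz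
    rw [h1, h88_resMap_red]
    have h2 : h88_red p L z hz.1 hz1.le ^ p =
        h88_red p L (z ^ p) (pow_mem hz.1 _) (by rw [norm_pow, hz1, one_pow]) := rfl
    rw [h2, h88_red_eq_iff, hφ z hz, sub_self, norm_zero]
    exact zero_lt_one

/-! ### the tame character -/

/-- the tame character `g ↦ g π / π mod 𝔪`. -/
noncomputable def h88_theta (L : Fld) (hL : h78_Stable p L) (π : Ω) (hπ : h78_IsUnif p L π)
    (g : h78_G p) : h93_resk p L :=
  h88_red p L (g π * π⁻¹) (L.mul_mem (hL g π hπ.1) (L.inv_mem hπ.1)) (by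
    rw [norm_mul, h78_norm_aut, norm_inv, mul_inv_cancel₀ (norm_ne_zero_iff.2 hπ.2.1)])

theorem h88_theta_eq_one_iff (L : Fld) (hL : h78_Stable p L) (π : Ω) (hπ : h78_IsUnif p L π)
    (g : h78_G p) : h88_theta p L hL π hπ g = 1 ↔ ‖g π - π‖ < ‖π‖ := by
  have hπ0 : π ≠ 0 := hπ.2.1
  have hπpos : 0 < ‖π‖ := norm_pos_iff.2 hπ0
  have h1 : (1 : h93_resk p L) = h88_red p L 1 L.one_mem norm_one.le := rfl
  rw [h1, h88_theta, h88_red_eq_iff]
  have h2 : g π * π⁻¹ - 1 = (g π - π) * π⁻¹ := by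
    field_simp
  rw [h2, norm_mul, norm_inv, ← div_eq_mul_inv, div_lt_one hπpos]

theorem h88_theta_one (L : Fld) (hL : h78_Stable p L) (π : Ω) (hπ : h78_IsUnif p L π) :
    h88_theta p L hL π hπ 1 = 1 := by
  rw [h88_theta_eq_one_iff]
  simpa using norm_pos_iff.2 hπ.2.1

/-- the cocycle formula `θ(gh) = θ(g) · g(θ(h))`. -/
theorem h88_theta_mul (L : Fld) (hL : h78_Stable p L) (π : Ω) (hπ : h78_IsUnif p L π)
    (g h : h78_G p) :
    h88_theta p L hL π hπ (g * h) =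
      h88_theta p L hL π hπ g * h88_resMap p L hL g (h88_theta p L hL π hπ h) := by
  have hπ0 : π ≠ 0 := hπ.2.1
  have hgπ0 : g π ≠ 0 := by
    rw [← norm_pos_iff, h78_norm_aut]
    exact norm_pos_iff.2 hπ0
  unfold h88_theta
  rw [h88_resMap_red]
  have h1 : ∀ (x y : Ω) (hx : x ∈ L) (hx1 : ‖x‖ ≤ 1) (hy : y ∈ L) (hy1 : ‖y‖ ≤ 1),
      h88_red p L x hx hx1 * h88_red p L y hy hy1 =
        h88_red p L (x * y) (L.mul_mem hx hy)
          (by rw [norm_mul]; exact mul_le_one₀ hx1 (norm_nonneg _) hy1) := fun _ _ _ _ _ _ => rfl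
  rw [h1, h88_red_eq_iff]
  have h2 : (g * h) π * π⁻¹ - g π * π⁻¹ * g (h π * π⁻¹) = 0 := by
    rw [AlgEquiv.mul_apply, map_mul, map_inv₀]
    field_simp
    ring
  rw [h2, norm_zero]
  exact zero_lt_one

theorem h88_theta_mul_of_J (L : Fld) [FiniteDimensional ℚ_[p] L] (hL : h78_Stable p L) (π : Ω)
    (hπ : h78_IsUnif p L π) (g h : h78_G p) (hg : g ∈ h78_J p L) :
    h88_theta p L hL π hπ (g * h) = h88_theta p L hL π hπ g * h88_theta p L hL π hπ h := by
  rw [h88_theta_mul, h88_resMap_of_J p L hL g hg]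

theorem h88_theta_pow_of_J (L : Fld) [FiniteDimensional ℚ_[p] L] (hL : h78_Stable p L) (π : Ω)
    (hπ : h78_IsUnif p L π) (g : h78_G p) (hg : g ∈ h78_J p L) (n : ℕ) :
    h88_theta p L hL π hπ (g ^ n) = h88_theta p L hL π hπ g ^ n := by
  induction n with
  | zero => rw [pow_zero, pow_zero, h88_theta_one]
  | succ n ih =>
    rw [pow_succ, h88_theta_mul_of_J p L hL π hπ _ _ (Subgroup.pow_mem _ hg n), ih, pow_succ]

/-- an element of `J_L` with trivial tame character is wild. -/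
theorem h88_mem_P_of_theta (L : Fld) (hL : h78_Stable p L) (π : Ω) (hπ : h78_IsUnif p L π)
    (g : h78_G p) (hg : g ∈ h78_J p L) (h : h88_theta p L hL π hπ g = 1) : g ∈ h78_P p L π :=
  ⟨hg, Or.inr ((h88_theta_eq_one_iff p L hL π hπ g).1 h)⟩

/-- **(a)** `J_L / P` is cyclic. -/
theorem h88_exists_tame_gen (L : Fld) [FiniteDimensional ℚ_[p] L] (hL : h78_Stable p L)
    (π : Ω) (hπ : h78_IsUnif p L π) :
    ∃ τ₀ ∈ h78_J p L, ∀ g ∈ h78_J p L, ∃ j : ℕ, g * (τ₀⁻¹) ^ j ∈ h78_P p L π := by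
  let Θ₀ : ↥(h78_J p L) →* h93_resk p L :=
    { toFun := fun g => h88_theta p L hL π hπ (g : h78_G p)
      map_one' := h88_theta_one p L hL π hπ
      map_mul' := fun g h => h88_theta_mul_of_J p L hL π hπ g h g.2 }
  obtain ⟨x, hx⟩ := IsCyclic.exists_monoid_generator (α := Θ₀.toHomUnits.range)
  obtain ⟨τ₀, hτ₀⟩ := x.2
  refine ⟨τ₀, τ₀.2, fun g hg => ?_⟩
  obtain ⟨j, hj⟩ := (Submonoid.mem_powers_iff _ _).1
    (hx ⟨Θ₀.toHomUnits ⟨g, hg⟩, ⟨⟨g, hg⟩, rfl⟩⟩)
  refine ⟨j, ?_⟩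
  have h1 : Θ₀.toHomUnits ⟨g, hg⟩ = Θ₀.toHomUnits τ₀ ^ j := by
    have h0 := congrArg Subtype.val hj
    rw [hτ₀]
    simpa using h0.symm
  have h2 : Θ₀.toHomUnits (⟨g, hg⟩ * (τ₀⁻¹) ^ j) = 1 := by
    rw [map_mul, h1, map_pow, map_inv, inv_pow, mul_inv_cancel]
  have h3 : Θ₀ (⟨g, hg⟩ * (τ₀⁻¹) ^ j) = 1 := by
    have h0 := congrArg Units.val h2
    rwa [MonoidHom.coe_toHomUnits, Units.val_one] at h0
  exact h88_mem_P_of_theta p L hL π hπ _
    (Subgroup.mul_mem _ hg (Subgroup.pow_mem _ (Subgroup.inv_mem _ τ₀.2) j)) h3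

/-- **(b2)** Frobenius acts on the tame quotient by `g ↦ g ^ p`. -/
theorem h88_frob_conj (L : Fld) [FiniteDimensional ℚ_[p] L] (hL : h78_Stable p L)
    (π : Ω) (hπ : h78_IsUnif p L π) (φ : h78_G p) (hφ : ∀ z, h88_IsMu p L z → φ z = z ^ p)
    (g : h78_G p) (hg : g ∈ h78_J p L) : φ * g * φ⁻¹ * (g⁻¹) ^ p ∈ h78_P p L π := by
  have hφinv : ∀ x : Ω, φ (φ⁻¹ x) = x := fun x => by
    show (φ * φ⁻¹) x = x
    rw [mul_inv_cancel]
    rfl
  have hJ1 : φ * g * φ⁻¹ ∈ h78_J p L := by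
    refine h88_mem_J_of_fix p L _ fun z hz => ?_
    rw [AlgEquiv.mul_apply, AlgEquiv.mul_apply,
      h88_J_fix_mu p L g hg _ (h88_isMu_map p L hL φ⁻¹ z hz), hφinv]
  have hginv : g⁻¹ ∈ h78_J p L := Subgroup.inv_mem _ hg
  have hJ2 : (g⁻¹) ^ p ∈ h78_J p L := Subgroup.pow_mem _ hginv p
  refine h88_mem_P_of_theta p L hL π hπ _ (Subgroup.mul_mem _ hJ1 hJ2) ?_
  rw [h88_theta_mul_of_J p L hL π hπ _ _ hJ1, h88_theta_pow_of_J p L hL π hπ _ hginv]
  -- θ(φ g φ⁻¹) = θ(g) ^ p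
  have h1 : h88_theta p L hL π hπ (φ * g * φ⁻¹) = h88_theta p L hL π hπ g ^ p := by
    rw [mul_assoc, h88_theta_mul, h88_theta_mul_of_J p L hL π hπ g _ hg, map_mul,
      h88_resMap_frob p L hL φ hφ (h88_theta p L hL π hπ g)]
    have h2 : h88_theta p L hL π hπ φ * h88_resMap p L hL φ (h88_theta p L hL π hπ φ⁻¹) = 1 := by
      rw [← h88_theta_mul, mul_inv_cancel, h88_theta_one]
    calc h88_theta p L hL π hπ φ *
          (h88_theta p L hL π hπ g ^ p * h88_resMap p L hL φ (h88_theta p L hL π hπ φ⁻¹))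
        = h88_theta p L hL π hπ g ^ p *
          (h88_theta p L hL π hπ φ * h88_resMap p L hL φ (h88_theta p L hL π hπ φ⁻¹)) := by ring
      _ = h88_theta p L hL π hπ g ^ p := by rw [h2, mul_one]
  rw [h1, ← mul_pow, ← h88_theta_mul_of_J p L hL π hπ g _ hg, mul_inv_cancel, h88_theta_one,
    one_pow]

/-! ### the cyclotomic character on inertia -/

theorem h88_norm_zeta_pow_sub_one (ζ : Ω) (hζp : ζ ^ p = 1) (k : ℕ) (hk : ¬ p ∣ k) :
    ‖ζ ^ k - 1‖ = ‖ζ - 1‖ := by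
  have hp : p.Prime := Fact.out
  have hζ1 : ‖ζ‖ = 1 := h88_norm_eq_one_of_pow p ζ p hp.ne_zero hζp
  refine le_antisymm (h88_norm_pow_sub_one_le p ζ hζ1.le k) ?_
  obtain ⟨m, -, hm⟩ := Nat.exists_mul_mod_eq_one_of_coprime
    ((Nat.Prime.coprime_iff_not_dvd hp).2 hk).symm hp.one_lt
  have h1 : (ζ ^ k) ^ m = ζ := by
    rw [← pow_mul, ← Nat.div_add_mod (k * m) p, hm, pow_add, pow_mul, hζp, one_pow, one_mul,
      pow_one]
  have h2 := h88_norm_pow_sub_one_le p (ζ ^ k) (by rw [norm_pow, hζ1, one_pow]) m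
  rwa [h1] at h2

/-- `‖ζ_p - 1‖ ^ (p - 1) = p⁻¹`. -/
theorem h88_norm_zeta_sub_one (ζ : Ω) (hζp : ζ ^ p = 1) (hζ1 : ζ ≠ 1) :
    ‖ζ - 1‖ ^ (p - 1) = (p : ℝ)⁻¹ := by
  have hp : p.Prime := Fact.out
  have hord : orderOf ζ = p := by
    rcases (Nat.dvd_prime hp).1 (orderOf_dvd_of_pow_eq_one hζp) with h | h
    · exact absurd (orderOf_eq_one_iff.1 h) hζ1
    · exact h
  have hpp : p - 1 + 1 = p := Nat.sub_add_cancel hp.one_le
  have hprim : IsPrimitiveRoot ζ (p - 1 + 1) := by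
    refine ⟨?_, fun l hl => ?_⟩
    · have h0 : ζ ^ (p - 1 + 1) = ζ ^ p := congrArg (fun m => ζ ^ m) hpp
      rw [h0]; exact hζp
    · have h := orderOf_dvd_of_pow_eq_one hl
      rw [hord] at h
      exact hpp.symm ▸ h
  have h1 := IsPrimitiveRoot.prod_one_sub_pow_eq_order hprim
  have h2 : ((p - 1 : ℕ) : Ω) + 1 = (p : Ω) := by
    have h0 : ((p - 1 : ℕ) : Ω) + 1 = ((p - 1 + 1 : ℕ) : Ω) := by push_cast; ring
    rw [h0]
    exact congrArg (fun m : ℕ => (m : Ω)) hpp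
  have h3 : ‖∏ k ∈ Finset.range (p - 1), (1 - ζ ^ (k + 1))‖ = (p : ℝ)⁻¹ := by
    have h4 : (∏ k ∈ Finset.range (p - 1), (1 - ζ ^ (k + 1))) = (p : Ω) := by
      rw [← h2]; exact h1
    rw [h4, h62_norm_p]
  rw [norm_prod] at h3
  have h5 : ∏ k ∈ Finset.range (p - 1), ‖1 - ζ ^ (k + 1)‖
      = ∏ _k ∈ Finset.range (p - 1), ‖ζ - 1‖ := by
    refine Finset.prod_congr rfl fun k hk => ?_
    have hk' : ¬ p ∣ k + 1 := by
      intro hd
      have := Nat.le_of_dvd (Nat.succ_pos k) hd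
      have := Finset.mem_range.1 hk
      omega
    rw [← norm_neg, neg_sub, h88_norm_zeta_pow_sub_one p ζ hζp (k + 1) hk']
  rw [h5, Finset.prod_const, Finset.card_range] at h3
  exact h3

/-- **(d)** over the unramified field `K₀(L)` all primitive `p`-th roots of unity are conjugate:
for `p ∤ n` some element of `J_L` maps `ζ` to `ζ ^ n`. -/
theorem h88_cyclo_conj (L : Fld) [FiniteDimensional ℚ_[p] L]
    (hunr : ∀ c ∈ h78_K0 p L, c ≠ 0 → ∃ n : ℤ, ‖c‖ = (p : ℝ) ^ n)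
    (ζ : Ω) (hζp : ζ ^ p = 1) (hζ1 : ζ ≠ 1) (n : ℕ) (hn : ¬ p ∣ n) :
    ∃ g ∈ h78_J p L, g ζ = ζ ^ n := by
  classical
  have hp : p.Prime := Fact.out
  have hp1 : (1 : ℝ) < p := by exact_mod_cast hp.one_lt
  have hp0 : (0 : ℝ) < p := by linarith
  by_contra hcon
  obtain ⟨ϖ, hϖ⟩ : ∃ ϖ, ϖ = ζ - 1 := ⟨_, rfl⟩
  have hϖ0 : ϖ ≠ 0 := by rw [hϖ]; exact sub_ne_zero.2 hζ1
  have hϖn : ‖ϖ‖ ^ (p - 1) = (p : ℝ)⁻¹ := by rw [hϖ]; exact h88_norm_zeta_sub_one p ζ hζp hζ1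
  have hϖpos : 0 < ‖ϖ‖ := norm_pos_iff.2 hϖ0
  obtain ⟨C, hC⟩ : ∃ C, C = h78_conj p (h78_J p L) ϖ := ⟨_, rfl⟩
  obtain ⟨P, hP⟩ : ∃ P : Polynomial Ω, P = ∏ y ∈ C, (Polynomial.X - Polynomial.C y) := ⟨_, rfl⟩
  have hord : orderOf ζ = p := by
    rcases (Nat.dvd_prime hp).1 (orderOf_dvd_of_pow_eq_one hζp) with h | h
    · exact absurd (orderOf_eq_one_iff.1 h) hζ1
    · exact h
  have hprim : IsPrimitiveRoot ζ p := by
    refine ⟨hζp, fun l hl => ?_⟩
    have h := orderOf_dvd_of_pow_eq_one hl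
    rwa [hord] at h
  haveI : NeZero p := ⟨hp.ne_zero⟩
  -- the conjugates are among `ζ ^ k - 1`, `1 ≤ k < p`, `ζ ^ k ≠ ζ ^ n`
  let R : Finset Ω := ((Finset.range p).erase 0).image fun k => ζ ^ k - 1
  have hRcard : R.card ≤ p - 1 := by
    refine Finset.card_image_le.trans ?_
    rw [Finset.card_erase_of_mem (Finset.mem_range.2 hp.pos), Finset.card_range]
  have hnR : ζ ^ n - 1 ∈ R := by
    refine Finset.mem_image.2 ⟨n % p, ?_, ?_⟩
    · refine Finset.mem_erase.2 ⟨fun h => hn (Nat.dvd_of_mod_eq_zero h), ?_⟩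
      exact Finset.mem_range.2 (Nat.mod_lt n hp.pos)
    · congr 1
      conv_rhs => rw [← Nat.div_add_mod n p, pow_add, pow_mul, hζp, one_pow, one_mul]
  have hCR : C ⊆ R.erase (ζ ^ n - 1) := by
    intro y hy
    rw [hC] at hy
    obtain ⟨g, hg, rfl⟩ := (h19_mem_conj p _ ϖ y).1 hy
    have hgϖ : g ϖ = g ζ - 1 := by rw [hϖ, map_sub, map_one]
    refine Finset.mem_erase.2 ⟨?_, ?_⟩
    · intro h
      apply hcon
      refine ⟨g, hg, ?_⟩
      rw [hgϖ] at h
      exact sub_left_injective h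
    · obtain ⟨i, hi, hiζ⟩ := hprim.eq_pow_of_pow_eq_one (ξ := g ζ)
        (by rw [← map_pow, hζp, map_one])
      refine Finset.mem_image.2 ⟨i, Finset.mem_erase.2 ⟨?_, Finset.mem_range.2 hi⟩, ?_⟩
      · intro h0
        rw [h0, pow_zero] at hiζ
        apply hζ1
        have : g ζ = g 1 := by rw [map_one]; exact hiζ.symm
        exact g.injective this
      · rw [hgϖ, hiζ]
  have hCcard : C.card ≤ p - 2 := by
    have h1 := Finset.card_le_card hCR
    rw [Finset.card_erase_of_mem hnR] at h1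
    omega
  have hϖC : ϖ ∈ C := by
    rw [hC]
    exact (h19_mem_conj p _ ϖ ϖ).2 ⟨1, Subgroup.one_mem _, rfl⟩
  have hPϖ : P.eval ϖ = 0 := by
    rw [hP, Polynomial.eval_prod]
    refine Finset.prod_eq_zero hϖC ?_
    simp
  have hPdeg : P.natDegree = C.card := by
    rw [hP]
    exact Polynomial.natDegree_finsetProd_X_sub_C_eq_card C fun y => y
  have hPmonic : P.Monic := by
    rw [hP]
    exact Polynomial.monic_prod_X_sub_C (fun y => y) C
  have hPK0 : ∀ k, P.coeff k ∈ h78_K0 p L := by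
    intro k
    rw [hP, hC]
    exact h19_prod_conjJ_of p (fun E _ x hx => h62_mem_of_fixed p E x hx) L ϖ k
  -- the terms of `P(ϖ)` have pairwise distinct norms
  have hdist : ∀ i ∈ Finset.range (P.natDegree + 1), ∀ j ∈ Finset.range (P.natDegree + 1),
      i ≠ j → P.coeff i * ϖ ^ i ≠ 0 → ‖P.coeff i * ϖ ^ i‖ ≠ ‖P.coeff j * ϖ ^ j‖ := by
    intro i hi j hj hij hi0 heq
    have hci : P.coeff i ≠ 0 := left_ne_zero_of_mul hi0
    have hj0 : P.coeff j * ϖ ^ j ≠ 0 := by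
      intro h0
      rw [h0, norm_zero, norm_eq_zero] at heq
      exact hi0 heq
    have hcj : P.coeff j ≠ 0 := left_ne_zero_of_mul hj0
    obtain ⟨a, ha⟩ := hunr _ (hPK0 i) hci
    obtain ⟨b, hb⟩ := hunr _ (hPK0 j) hcj
    rw [norm_mul, norm_mul, norm_pow, norm_pow, ha, hb] at heq
    have hi' : i ≤ p - 2 := by
      have := Finset.mem_range.1 hi
      omega
    have hj' : j ≤ p - 2 := by
      have := Finset.mem_range.1 hj
      omega
    -- raise to the power `p - 1`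
    have h1 := congrArg (fun x : ℝ => x ^ (p - 1)) heq
    simp only [mul_pow] at h1
    rw [← pow_mul, ← pow_mul, mul_comm i, mul_comm j, pow_mul, pow_mul, hϖn, inv_pow, inv_pow,
      ← zpow_natCast ((p : ℝ) ^ a), ← zpow_natCast ((p : ℝ) ^ b), ← zpow_mul, ← zpow_mul,
      ← zpow_natCast (p : ℝ) i, ← zpow_natCast (p : ℝ) j, ← zpow_neg, ← zpow_neg,
      ← zpow_add₀ hp0.ne', ← zpow_add₀ hp0.ne'] at h1
    have h2 := zpow_right_injective₀ hp0 hp1.ne' h1
    have h3 : ((p : ℤ) - 1) ∣ ((i : ℤ) - j) := by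
      refine ⟨a - b, ?_⟩
      have h4 : ((p - 1 : ℕ) : ℤ) = (p : ℤ) - 1 := by
        rw [Nat.cast_sub hp.one_le, Nat.cast_one]
      rw [h4] at h2
      linarith
    have h5 : (i : ℤ) - j = 0 := by
      apply Int.eq_zero_of_abs_lt_dvd h3
      have hp2 : (2 : ℤ) ≤ p := by exact_mod_cast hp.two_le
      rw [abs_lt]
      constructor <;> omega
    exact hij (by omega)
  have hsum : ∑ k ∈ Finset.range (P.natDegree + 1), P.coeff k * ϖ ^ k = 0 := by
    rw [← Polynomial.eval_eq_sum_range, hPϖ]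
  have hlast := h62_norm_sum_of_distinct p (Finset.range (P.natDegree + 1))
    (fun k => P.coeff k * ϖ ^ k) hdist P.natDegree (Finset.mem_range.2 (Nat.lt_succ_self _))
  rw [hsum, norm_zero] at hlast
  have h6 : P.coeff P.natDegree = 1 := hPmonic
  simp only [h6, one_mul, norm_pow] at hlast
  exact absurd hlast (not_le.2 (pow_pos hϖpos _))

end Fermat.Agent.S56
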