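import Mathlib
import Fermat.Agent.S56.h88_TameLoc
import Fermat.Agent.S56.h28_K0Unram

/-!
# S56 / W3 row IRR-1 (TAME-LOC): the skeleton shapes (helper88)

The statements `sk_comm_mem_J`, `sk_tame_cyclic`, `sk_exists_frob`, `sk_frob_tame`, `sk_frob_gen`,
`sk_cyclo_inertia` of the W3 skeleton (v5), verbatim, from `h88_TameLoc` and `h28_K0_unram`.
-/

set_option autoImplicit false

namespace Fermat.Agent.S56

variable (p : ℕ) [Fact p.Prime]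

local notation "Ω" => PadicAlgCl p
local notation "Fld" => IntermediateField ℚ_[p] (PadicAlgCl p)

/-- IRR-1 (c'): `G/J_L` is abelian. -/
theorem h88_sk_comm_mem_J (L : Fld) [FiniteDimensional ℚ_[p] L] (hL : h78_Stable p L)
    (g h : h78_G p) : g * h * g⁻¹ * h⁻¹ ∈ h78_J p L := by
  obtain ⟨ζ₀, hζ₀, hgen⟩ := h88_exists_mu_gen p L
  have hcomm : ∀ z, h88_IsMu p L z → g (h z) = h (g z) := by
    intro z hz
    obtain ⟨i, rfl⟩ := hgen z hz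
    obtain ⟨a, ha⟩ := hgen _ (h88_isMu_map p L hL g ζ₀ hζ₀)
    obtain ⟨b, hb⟩ := hgen _ (h88_isMu_map p L hL h ζ₀ hζ₀)
    have h1 : g (h (ζ₀ ^ i)) = (ζ₀ ^ (a * b)) ^ i := by
      rw [map_pow, map_pow, hb, map_pow, ha, pow_mul]
    have h2 : h (g (ζ₀ ^ i)) = (ζ₀ ^ (b * a)) ^ i := by
      rw [map_pow, map_pow, ha, map_pow, hb, pow_mul]
    rw [h1, h2, mul_comm a b]
  refine h88_mem_J_of_fix p L _ fun z hz => ?_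
  have hw : h88_IsMu p L (g⁻¹ (h⁻¹ z)) :=
    h88_isMu_map p L hL g⁻¹ _ (h88_isMu_map p L hL h⁻¹ z hz)
  have h1 : (g * h * g⁻¹ * h⁻¹) z = g (h (g⁻¹ (h⁻¹ z))) := rfl
  rw [h1, hcomm _ hw]
  have h2 : g (g⁻¹ (h⁻¹ z)) = h⁻¹ z := by
    show (g * g⁻¹) (h⁻¹ z) = h⁻¹ z
    rw [mul_inv_cancel]; rfl
  rw [h2]
  show (h * h⁻¹) z = z
  rw [mul_inv_cancel]; rfl

/-- IRR-1 (a): the tame quotient is cyclic. -/
theorem h88_sk_tame_cyclic (L : Fld) [FiniteDimensional ℚ_[p] L] (hL : h78_Stable p L)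
    (π : Ω) (hπ : h78_IsUnif p L π) :
    ∃ τ₀ ∈ h78_J p L, ∀ g ∈ h78_J p L, ∃ j : ℕ, g * (τ₀ ^ j)⁻¹ ∈ h78_P p L π := by
  obtain ⟨τ₀, hτ₀, h⟩ := h88_exists_tame_gen p L hL π hπ
  refine ⟨τ₀, hτ₀, fun g hg => ?_⟩
  obtain ⟨j, hj⟩ := h g hg
  exact ⟨j, by rwa [← inv_pow]⟩

/-- IRR-1 (b): Frobenius elements exist. -/
theorem h88_sk_exists_frob (L : Fld) [FiniteDimensional ℚ_[p] L] (_hL : h78_Stable p L) :
    ∃ φ : h78_G p, ∀ z ∈ L, (∃ n : ℕ, 0 < n ∧ ¬ p ∣ n ∧ z ^ n = 1) → φ z = z ^ p := by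
  obtain ⟨φ, hφ⟩ := h88_exists_frob p L
  exact ⟨φ, fun z hz h => hφ z ⟨hz, h⟩⟩

/-- IRR-1 (b): the tame relation `φ g φ⁻¹ ≡ g ^ p` modulo wild inertia. -/
theorem h88_sk_frob_tame (L : Fld) [FiniteDimensional ℚ_[p] L] (hL : h78_Stable p L)
    (π : Ω) (hπ : h78_IsUnif p L π) (φ : h78_G p)
    (hφ : ∀ z ∈ L, (∃ n : ℕ, 0 < n ∧ ¬ p ∣ n ∧ z ^ n = 1) → φ z = z ^ p)
    (g : h78_G p) (hg : g ∈ h78_J p L) : φ * g * φ⁻¹ * (g ^ p)⁻¹ ∈ h78_P p L π := by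
  have h := h88_frob_conj p L hL π hπ φ (fun z hz => hφ z hz.1 hz.2) g hg
  rwa [inv_pow] at h

/-- IRR-1 (c): `G = ⟨φ⟩ J_L`. -/
theorem h88_sk_frob_gen (L : Fld) [FiniteDimensional ℚ_[p] L] (hL : h78_Stable p L) (φ : h78_G p)
    (hφ : ∀ z ∈ L, (∃ n : ℕ, 0 < n ∧ ¬ p ∣ n ∧ z ^ n = 1) → φ z = z ^ p)
    (g : h78_G p) : ∃ j : ℕ, g * (φ ^ j)⁻¹ ∈ h78_J p L := by
  obtain ⟨j, hj⟩ := h88_frob_gen p L hL φ (fun z hz => hφ z hz.1 hz.2) g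
  exact ⟨j, by rwa [← inv_pow]⟩

/-- IRR-1 (d): `ω` is onto on inertia. -/
theorem h88_sk_cyclo_inertia (L : Fld) [FiniteDimensional ℚ_[p] L] (_hL : h78_Stable p L)
    (ζ : Ω) (hζ : ζ ^ p = 1) (hζ1 : ζ ≠ 1) (n : ℕ) (hn : ¬ p ∣ n) :
    ∃ g ∈ h78_J p L, g ζ = ζ ^ n :=
  h88_cyclo_conj p L (fun c hc hc0 => h28_K0_unram p L c hc hc0) ζ hζ hζ1 n hn

end Fermat.Agent.S56
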