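/-
S56 / W3 E-RED, row RED-S4 (c): the Fermat quotient on the units of the unramified field
`K = K₀(L)`.  For an exponent `N` prime to `p` killing the residue units of `L`,
`fq u := ((u ^ N - 1) / p mod 𝔪)` in the residue field of `L`; it is additive on units of `K`,
Frobenius-equivariant, and for a unit `v ∈ L` with `v ^ p ∈ K` one has
`fq (v ^ p) = 0` iff `v` is fixed by `J₁ = {s ∈ J_L | s ζ = ζ}` (Kummer theory of units, via D3).
-/
import Mathlib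
import Fermat.Agent.S56.h78_W3Defs
import Fermat.Agent.S56.h88_TameLoc
import Fermat.Agent.S56.h88_TameLocSk
import Fermat.Agent.S56.h49_KumUnram
import Fermat.Agent.S56.h28_K0Unram

set_option autoImplicit false

namespace Fermat.Agent.S56

variable (p : ℕ) [Fact p.Prime]

local notation "Ω" => PadicAlgCl p
local notation "Fld" => IntermediateField ℚ_[p] (PadicAlgCl p)

/-! ## generalities -/

theorem h36_red_congr (E : Fld) (x y : Ω) (hx : x ∈ E) (hx1 : ‖x‖ ≤ 1) (hy : y ∈ E)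
    (hy1 : ‖y‖ ≤ 1) (h : x = y) : h88_red p E x hx hx1 = h88_red p E y hy hy1 := by
  subst h; rfl

theorem h36_red_eq_zero_iff (E : Fld) (x : Ω) (hx : x ∈ E) (hx1 : ‖x‖ ≤ 1) :
    h88_red p E x hx hx1 = 0 ↔ ‖x‖ < 1 := by
  unfold h88_red
  rw [h93_mk_eq_zero_iff]

theorem h36_natCast_ne_zero : (p : Ω) ≠ 0 := by
  rw [← norm_pos_iff, h5_norm_p]
  exact inv_pos.2 (h5_p_pos p)

/-- elements of `K₀(L)` of norm `< p^m` have norm `≤ p^(m-1)` (`K₀(L)` is unramified). -/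
theorem h36_K0_norm_lt (L : Fld) [FiniteDimensional ℚ_[p] L] (x : Ω) (hx : x ∈ h78_K0 p L)
    (m : ℤ) (h : ‖x‖ < (p : ℝ) ^ m) : ‖x‖ ≤ (p : ℝ) ^ (m - 1) := by
  have hp1 : (1 : ℝ) < p := by exact_mod_cast (Fact.out : p.Prime).one_lt
  by_cases hx0 : x = 0
  · rw [hx0, norm_zero]; positivity
  obtain ⟨n, hn⟩ := h28_K0_unram p L x hx hx0
  rw [hn] at h ⊢
  have h1 : n < m := (zpow_lt_zpow_iff_right₀ hp1).1 h
  exact zpow_le_zpow_right₀ hp1.le (by omega)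

/-- an automorphism fixing a set fixes the field it generates. -/
theorem h36_fix_adjoin (s : h78_G p) (S : Set Ω) (h : ∀ x ∈ S, s x = x) :
    ∀ x ∈ IntermediateField.adjoin ℚ_[p] S, s x = x := by
  intro x hx
  induction hx using IntermediateField.adjoin_induction with
  | mem x hx => exact h x hx
  | algebraMap x => exact s.commutes x
  | add x y _ _ hx hy => rw [map_add, hx, hy]
  | inv x _ hx => rw [map_inv₀, hx]
  | mul x y _ _ hx hy => rw [map_mul, hx, hy]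

/-! ## the exponent -/

/-- an exponent prime to `p` killing the residue units of `L`. -/
theorem h36_exists_expo (L : Fld) [FiniteDimensional ℚ_[p] L] :
    ∃ N : ℕ, 0 < N ∧ ¬ p ∣ N ∧ ∀ u ∈ L, ‖u‖ = 1 → ‖u ^ N - 1‖ < 1 := by
  have hp : p.Prime := Fact.out
  obtain ⟨f, hf, h⟩ := h93_exists_frob_fix p L
  have hpf : 2 ≤ p ^ f := le_trans hp.two_le (Nat.le_self_pow hf.ne' p)
  have hdvd : p ∣ p ^ f := dvd_pow_self p hf.ne'
  refine ⟨p ^ f - 1, by omega, ?_, fun u hu hu1 => ?_⟩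
  · intro hN
    have h1 : p ∣ (p ^ f - 1) + 1 := by
      have : p ^ f - 1 + 1 = p ^ f := by omega
      rw [this]; exact hdvd
    have h2 : p ∣ 1 := (Nat.dvd_add_right hN).1 h1
    exact hp.one_lt.ne' (Nat.dvd_one.1 h2)
  · have h1 := h u hu hu1.le
    have e : u ^ (p ^ f) = u ^ (p ^ f - 1) * u := by
      rw [← pow_succ]; congr 1; omega
    have h2 : u ^ (p ^ f) - u = u * (u ^ (p ^ f - 1) - 1) := by rw [e]; ring
    rw [h2, norm_mul, hu1, one_mul] at h1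
    exact h1

/-- the chosen exponent. -/
noncomputable def h36_expo (L : Fld) [FiniteDimensional ℚ_[p] L] : ℕ :=
  Classical.choose (h36_exists_expo p L)

theorem h36_expo_pos (L : Fld) [FiniteDimensional ℚ_[p] L] : 0 < h36_expo p L :=
  (Classical.choose_spec (h36_exists_expo p L)).1

theorem h36_expo_not_dvd (L : Fld) [FiniteDimensional ℚ_[p] L] : ¬ p ∣ h36_expo p L :=
  (Classical.choose_spec (h36_exists_expo p L)).2.1

theorem h36_expo_spec (L : Fld) [FiniteDimensional ℚ_[p] L] (u : Ω) (hu : u ∈ L)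
    (hu1 : ‖u‖ = 1) : ‖u ^ h36_expo p L - 1‖ < 1 :=
  (Classical.choose_spec (h36_exists_expo p L)).2.2 u hu hu1

/-! ## the Fermat quotient -/

/-- the Fermat quotient `u ↦ (u ^ N - 1) / p mod 𝔪` (zero where this makes no sense). -/
noncomputable def h36_fq (L : Fld) [FiniteDimensional ℚ_[p] L] (u : Ω) : h93_resk p L := by
  classical
  exact if h : (u ^ h36_expo p L - 1) / (p : Ω) ∈ L ∧ ‖(u ^ h36_expo p L - 1) / (p : Ω)‖ ≤ 1 then
    h88_red p L _ h.1 h.2 else 0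

/-- for a unit `u` of `K₀(L)`: `u ^ N ≡ 1 mod p`. -/
theorem h36_unit_pow_sub_one (L : Fld) [FiniteDimensional ℚ_[p] L] (u : Ω)
    (hu : u ∈ h78_K0 p L) (hu1 : ‖u‖ = 1) : ‖u ^ h36_expo p L - 1‖ ≤ (p : ℝ)⁻¹ := by
  have h1 : u ^ h36_expo p L - 1 ∈ h78_K0 p L := sub_mem (pow_mem hu _) (one_mem _)
  have h2 := h36_expo_spec p L u (h49_K0_le p L hu) hu1
  have h3 := h36_K0_norm_lt p L _ h1 0 (by simpa using h2)
  simpa using h3

theorem h36_quot_mem (L : Fld) [FiniteDimensional ℚ_[p] L] (u : Ω)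
    (hu : u ∈ h78_K0 p L) (hu1 : ‖u‖ = 1) :
    (u ^ h36_expo p L - 1) / (p : Ω) ∈ h78_K0 p L ∧ ‖(u ^ h36_expo p L - 1) / (p : Ω)‖ ≤ 1 := by
  have h1 : u ^ h36_expo p L - 1 ∈ h78_K0 p L := sub_mem (pow_mem hu _) (one_mem _)
  refine ⟨div_mem h1 (natCast_mem _ p), ?_⟩
  rw [norm_div, h5_norm_p, div_le_one (inv_pos.2 (h5_p_pos p))]
  exact h36_unit_pow_sub_one p L u hu hu1

theorem h36_fq_eq (L : Fld) [FiniteDimensional ℚ_[p] L] (u : Ω)
    (hu : u ∈ h78_K0 p L) (hu1 : ‖u‖ = 1) :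
    h36_fq p L u = h88_red p L ((u ^ h36_expo p L - 1) / (p : Ω))
      (h49_K0_le p L (h36_quot_mem p L u hu hu1).1) (h36_quot_mem p L u hu hu1).2 := by
  unfold h36_fq
  exact dif_pos ⟨h49_K0_le p L (h36_quot_mem p L u hu hu1).1, (h36_quot_mem p L u hu hu1).2⟩

/-- the Fermat quotient of a unit of `K₀(L)` vanishes iff `u ^ N ≡ 1 mod p²`. -/
theorem h36_fq_eq_zero_iff_norm (L : Fld) [FiniteDimensional ℚ_[p] L] (u : Ω)
    (hu : u ∈ h78_K0 p L) (hu1 : ‖u‖ = 1) :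
    h36_fq p L u = 0 ↔ ‖u ^ h36_expo p L - 1‖ < (p : ℝ)⁻¹ := by
  rw [h36_fq_eq p L u hu hu1, h36_red_eq_zero_iff, norm_div, h5_norm_p,
    div_lt_one (inv_pos.2 (h5_p_pos p))]

/-- (c1) additivity on the units of `K₀(L)`. -/
theorem h36_fq_mul (L : Fld) [FiniteDimensional ℚ_[p] L] (u u' : Ω)
    (hu : u ∈ h78_K0 p L) (hu1 : ‖u‖ = 1) (hu' : u' ∈ h78_K0 p L) (hu1' : ‖u'‖ = 1) :
    h36_fq p L (u * u') = h36_fq p L u + h36_fq p L u' := by
  have huu : u * u' ∈ h78_K0 p L := mul_mem hu hu'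
  have huu1 : ‖u * u'‖ = 1 := by rw [norm_mul, hu1, hu1', one_mul]
  rw [h36_fq_eq p L _ huu huu1, h36_fq_eq p L u hu hu1, h36_fq_eq p L u' hu' hu1']
  obtain ⟨ht, ht1⟩ := h36_quot_mem p L u hu hu1
  obtain ⟨ht', ht1'⟩ := h36_quot_mem p L u' hu' hu1'
  have hadd : h88_red p L ((u ^ h36_expo p L - 1) / (p : Ω)) (h49_K0_le p L ht) ht1 +
      h88_red p L ((u' ^ h36_expo p L - 1) / (p : Ω)) (h49_K0_le p L ht') ht1' =
      h88_red p L ((u ^ h36_expo p L - 1) / (p : Ω) + (u' ^ h36_expo p L - 1) / (p : Ω))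
        (add_mem (h49_K0_le p L ht) (h49_K0_le p L ht'))
        ((IsUltrametricDist.norm_add_le_max _ _).trans (max_le ht1 ht1')) := rfl
  rw [hadd, h88_red_eq_iff]
  have hp0 : (p : Ω) ≠ 0 := h36_natCast_ne_zero p
  have e : ((u * u') ^ h36_expo p L - 1) / (p : Ω) -
      ((u ^ h36_expo p L - 1) / (p : Ω) + (u' ^ h36_expo p L - 1) / (p : Ω)) =
      (p : Ω) * ((u ^ h36_expo p L - 1) / (p : Ω)) * ((u' ^ h36_expo p L - 1) / (p : Ω)) := by
    field_simp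
    ring
  rw [e, norm_mul, norm_mul, h5_norm_p]
  have hpi : (0 : ℝ) ≤ (p : ℝ)⁻¹ := inv_nonneg.2 (h5_p_pos p).le
  calc (p : ℝ)⁻¹ * ‖(u ^ h36_expo p L - 1) / (p : Ω)‖ * ‖(u' ^ h36_expo p L - 1) / (p : Ω)‖
      ≤ (p : ℝ)⁻¹ * 1 * 1 := by gcongr
    _ < 1 := by simpa using h5_inv_p_lt_one p

/-- (c3) Frobenius equivariance. -/
theorem h36_fq_frob (L : Fld) [FiniteDimensional ℚ_[p] L] (hL : h78_Stable p L) (φ : h78_G p)
    (hφ : ∀ z ∈ L, (∃ n : ℕ, 0 < n ∧ ¬ p ∣ n ∧ z ^ n = 1) → φ z = z ^ p)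
    (u : Ω) (hu : u ∈ h78_K0 p L) (hu1 : ‖u‖ = 1) :
    h36_fq p L (φ u) = h36_fq p L u ^ p := by
  have hφu : φ u ∈ h78_K0 p L := h49_K0_stable p L hL φ u hu
  have hφu1 : ‖φ u‖ = 1 := by rw [h78_norm_aut, hu1]
  rw [h36_fq_eq p L _ hφu hφu1, h36_fq_eq p L u hu hu1]
  rw [← h88_resMap_frob p L hL φ (fun z hz => hφ z hz.1 hz.2), h88_resMap_red]
  apply h36_red_congr
  rw [map_div₀, map_sub, map_pow, map_one, map_natCast]

/-- `p`-th powers of units of `K₀(L)` have Fermat quotient zero. -/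
theorem h36_fq_pow_p (L : Fld) [FiniteDimensional ℚ_[p] L] (w : Ω)
    (hw : w ∈ h78_K0 p L) (hw1 : ‖w‖ = 1) : h36_fq p L (w ^ p) = 0 := by
  have hp : p.Prime := Fact.out
  have hwp : w ^ p ∈ h78_K0 p L := pow_mem hw p
  have hwp1 : ‖w ^ p‖ = 1 := by rw [norm_pow, hw1, one_pow]
  rw [h36_fq_eq_zero_iff_norm p L _ hwp hwp1]
  have hpi : (0 : ℝ) < (p : ℝ)⁻¹ := inv_pos.2 (h5_p_pos p)
  have hpl : (p : ℝ)⁻¹ < 1 := h5_inv_p_lt_one p
  have hb1 : ‖w ^ h36_expo p L - 1‖ ≤ (p : ℝ)⁻¹ := h36_unit_pow_sub_one p L w hw hw1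
  have e : (w ^ p) ^ h36_expo p L - 1 =
      ((1 + (w ^ h36_expo p L - 1)) ^ p - 1 - (w ^ h36_expo p L - 1) ^ p) +
        (w ^ h36_expo p L - 1) ^ p := by
    ring
  rw [e]
  have h4 := h5_binom_one p (w ^ h36_expo p L - 1) (hb1.trans hpl.le)
  have hsq : (p : ℝ)⁻¹ * (p : ℝ)⁻¹ < (p : ℝ)⁻¹ := by
    calc (p : ℝ)⁻¹ * (p : ℝ)⁻¹ < (p : ℝ)⁻¹ * 1 := mul_lt_mul_of_pos_left hpl hpi
      _ = (p : ℝ)⁻¹ := mul_one _
  refine lt_of_le_of_lt (IsUltrametricDist.norm_add_le_max _ _) (max_lt ?_ ?_)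
  · calc _ ≤ (p : ℝ)⁻¹ * ‖w ^ h36_expo p L - 1‖ := h4
      _ ≤ (p : ℝ)⁻¹ * (p : ℝ)⁻¹ := mul_le_mul_of_nonneg_left hb1 hpi.le
      _ < (p : ℝ)⁻¹ := hsq
  · rw [norm_pow]
    calc ‖w ^ h36_expo p L - 1‖ ^ p ≤ ((p : ℝ)⁻¹) ^ p := pow_le_pow_left₀ (norm_nonneg _) hb1 p
      _ ≤ ((p : ℝ)⁻¹) ^ 2 := pow_le_pow_of_le_one hpi.le hpl.le hp.two_le
      _ = (p : ℝ)⁻¹ * (p : ℝ)⁻¹ := pow_two _
      _ < (p : ℝ)⁻¹ := hsq

theorem h36_fq_one (L : Fld) [FiniteDimensional ℚ_[p] L] : h36_fq p L 1 = 0 := by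
  rw [h36_fq_eq_zero_iff_norm p L 1 (one_mem _) norm_one]
  simpa using h5_p_pos p

theorem h36_fq_pow (L : Fld) [FiniteDimensional ℚ_[p] L] (u : Ω)
    (hu : u ∈ h78_K0 p L) (hu1 : ‖u‖ = 1) (n : ℕ) :
    h36_fq p L (u ^ n) = n • h36_fq p L u := by
  induction n with
  | zero => simp [h36_fq_one]
  | succ n ih =>
    rw [pow_succ, h36_fq_mul p L _ _ (pow_mem hu n) (by rw [norm_pow, hu1, one_pow]) hu hu1, ih,
      succ_nsmul]

/-! ## the kernel: Kummer theory of units -/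

/-- (c2), `⟹`: if the Fermat quotient of `v ^ p` vanishes then `v` is fixed by `J₁`. -/
theorem h36_fq_kummer_fixed (L : Fld) [FiniteDimensional ℚ_[p] L]
    (ζ : Ω) (hζL : ζ ∈ L) (hζp : ζ ^ p = 1) (hζ1 : ζ ≠ 1)
    (v : Ω) (hv : v ∈ L) (hv1 : ‖v‖ = 1) (hvK : v ^ p ∈ h78_K0 p L)
    (h0 : h36_fq p L (v ^ p) = 0) (s : h78_G p) (hs : s ∈ h78_J p L) (hsζ : s ζ = ζ) :
    s v = v := by
  have hp : p.Prime := Fact.out
  have hvp1 : ‖v ^ p‖ = 1 := by rw [norm_pow, hv1, one_pow]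
  have h1 : ‖(v ^ p) ^ h36_expo p L - 1‖ < (p : ℝ)⁻¹ :=
    (h36_fq_eq_zero_iff_norm p L _ hvK hvp1).1 h0
  have h1K : (v ^ p) ^ h36_expo p L - 1 ∈ h78_K0 p L := sub_mem (pow_mem hvK _) (one_mem _)
  have h2 : ‖(v ^ p) ^ h36_expo p L - 1‖ ≤ ((p : ℝ) ^ 2)⁻¹ := by
    have h := h36_K0_norm_lt p L _ h1K (-1) (by rw [zpow_neg_one]; exact h1)
    have e : ((-1 : ℤ) - 1) = -2 := by norm_num
    rw [e, zpow_neg] at h
    exact_mod_cast h
  -- the field `F = K₀(L)(ζ)`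
  obtain ⟨F, hF⟩ : ∃ F : Fld, F = IntermediateField.adjoin ℚ_[p] ((h78_K0 p L : Set Ω) ∪ {ζ}) :=
    ⟨_, rfl⟩
  have hFL : F ≤ L := by
    rw [hF]
    refine IntermediateField.adjoin_le_iff.2 ?_
    rintro x (hx | hx)
    · exact h49_K0_le p L hx
    · rw [Set.mem_singleton_iff.1 hx]; exact hζL
  have : FiniteDimensional ℚ_[p] F :=
    FiniteDimensional.of_injective (IntermediateField.inclusion hFL).toLinearMap
      (IntermediateField.inclusion_injective hFL)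
  have hKF : ∀ x ∈ h78_K0 p L, x ∈ F := fun x hx => by
    rw [hF]; exact IntermediateField.subset_adjoin _ _ (Or.inl hx)
  have hζF : ζ ∈ F := by
    rw [hF]; exact IntermediateField.subset_adjoin _ _ (Or.inr rfl)
  have hu1 : (p : ℝ) ^ p * ‖(v ^ p) ^ h36_expo p L - 1‖ ^ (p - 1) ≤ 1 := by
    have hp1 : (1 : ℝ) ≤ p := by exact_mod_cast hp.one_lt.le
    have hpos : (0 : ℝ) < p := h5_p_pos p
    calc (p : ℝ) ^ p * ‖(v ^ p) ^ h36_expo p L - 1‖ ^ (p - 1)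
        ≤ (p : ℝ) ^ p * (((p : ℝ) ^ 2)⁻¹) ^ (p - 1) := by gcongr
      _ = (p : ℝ) ^ p * ((p : ℝ) ^ (2 * (p - 1)))⁻¹ := by rw [inv_pow, ← pow_mul]
      _ = (p : ℝ) ^ p / (p : ℝ) ^ (2 * (p - 1)) := (div_eq_mul_inv _ _).symm
      _ ≤ 1 := by
        rw [div_le_one (by positivity)]
        exact pow_le_pow_right₀ hp1 (by have := hp.two_le; omega)
  have h3 := h49_kummer_unram p F L hFL ζ hζF hζp hζ1 ((v ^ p) ^ h36_expo p L)
    (hKF _ (pow_mem hvK _)) hu1 (v ^ h36_expo p L)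
    (by rw [← pow_mul, ← pow_mul, mul_comm]) (pow_mem hv _)
  have h4 : v ^ h36_expo p L ∈ F := by
    refine (IntermediateField.adjoin_le_iff.2 ?_) h3
    rintro x (hx | hx)
    · exact hx
    · exact hKF x hx
  have hsF : ∀ x ∈ F, s x = x := by
    rw [hF]
    refine h36_fix_adjoin p s _ ?_
    rintro x (hx | hx)
    · exact h49_J_fix p L s hs x hx
    · rw [Set.mem_singleton_iff.1 hx]; exact hsζ
  have h5 : (s v) ^ h36_expo p L = v ^ h36_expo p L := by rw [← map_pow]; exact hsF _ h4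
  have h6 : (s v) ^ p = v ^ p := by rw [← map_pow]; exact h49_J_fix p L s hs _ hvK
  have hv0 : v ≠ 0 := by
    intro h; rw [h, norm_zero] at hv1; exact zero_ne_one hv1
  have h7 : (s v / v) ^ h36_expo p L = 1 := by
    rw [div_pow, h5, div_self (pow_ne_zero _ hv0)]
  have h8 : (s v / v) ^ p = 1 := by rw [div_pow, h6, div_self (pow_ne_zero _ hv0)]
  have hcop : Nat.gcd (h36_expo p L) p = 1 :=
    Nat.Coprime.symm ((Nat.Prime.coprime_iff_not_dvd hp).2 (h36_expo_not_dvd p L))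
  have h9 : (s v / v) ^ Nat.gcd (h36_expo p L) p = 1 := pow_gcd_eq_one.2 ⟨h7, h8⟩
  rw [hcop, pow_one] at h9
  exact (div_eq_one_iff_eq hv0).1 h9

theorem h36_not_dvd_val (a : (ZMod p)ˣ) : ¬ p ∣ (a : ZMod p).val := by
  intro h
  have h1 : (((a : ZMod p).val : ℕ) : ZMod p) = 0 := (ZMod.natCast_eq_zero_iff _ _).2 h
  rw [ZMod.natCast_zmod_val] at h1
  exact a.ne_zero h1

theorem h36_pow_mod (ζ : Ω) (hζp : ζ ^ p = 1) (m : ℕ) : ζ ^ (m % p) = ζ ^ m := by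
  conv_rhs => rw [← Nat.mod_add_div m p, pow_add, pow_mul, hζp, one_pow, mul_one]

/-- every automorphism maps `ζ` to `ζ ^ b` for a unit `b` of `ZMod p`. -/
theorem h36_exists_unit_pow (ζ : Ω) (hζp : ζ ^ p = 1) (hζ1 : ζ ≠ 1) (s : h78_G p) :
    ∃ b : (ZMod p)ˣ, s ζ = ζ ^ (b : ZMod p).val := by
  have hp : p.Prime := Fact.out
  have : NeZero p := ⟨hp.ne_zero⟩
  have hprim : IsPrimitiveRoot ζ p := by
    have h := IsPrimitiveRoot.orderOf ζ
    rwa [orderOf_eq_prime hζp hζ1] at h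
  have hsp : (s ζ) ^ p = 1 := by rw [← map_pow, hζp, map_one]
  obtain ⟨i, hi, hiζ⟩ := hprim.eq_pow_of_pow_eq_one hsp
  have hi0 : i ≠ 0 := by
    rintro rfl
    rw [pow_zero] at hiζ
    have : s ζ = s 1 := by rw [map_one]; exact hiζ.symm
    exact hζ1 (s.injective this)
  have hcop : Nat.Coprime i p :=
    Nat.Coprime.symm ((Nat.Prime.coprime_iff_not_dvd hp).2
      (Nat.not_dvd_of_pos_of_lt (Nat.pos_of_ne_zero hi0) hi))
  refine ⟨ZMod.unitOfCoprime i hcop, ?_⟩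
  rw [ZMod.coe_unitOfCoprime, ZMod.val_natCast, Nat.mod_eq_of_lt hi, hiζ]

/-- (c2), `⟸`: if `v` is fixed by `J₁` then `(v ^ p) ^ (p - 1)` is the `p`-th power of a unit of
`K₀(L)` (the norm of `v`), so the Fermat quotient of `v ^ p` vanishes. -/
theorem h36_fq_eq_zero_of_fixed (L : Fld) [FiniteDimensional ℚ_[p] L] (hL : h78_Stable p L)
    (ζ : Ω) (hζp : ζ ^ p = 1) (hζ1 : ζ ≠ 1)
    (v : Ω) (hv1 : ‖v‖ = 1) (hvK : v ^ p ∈ h78_K0 p L)
    (hfix : ∀ s ∈ h78_J p L, s ζ = ζ → s v = v) : h36_fq p L (v ^ p) = 0 := by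
  classical
  have hp : p.Prime := Fact.out
  have hex : ∀ a : (ZMod p)ˣ, ∃ g ∈ h78_J p L, g ζ = ζ ^ (a : ZMod p).val := fun a =>
    h88_sk_cyclo_inertia p L hL ζ hζp hζ1 _ (h36_not_dvd_val p a)
  choose g hgJ hgζ using hex
  obtain ⟨w0, hw0⟩ : ∃ w0 : Ω, w0 = ∏ a : (ZMod p)ˣ, g a v := ⟨_, rfl⟩
  -- `J`-invariance of the norm
  have hinv : ∀ s ∈ h78_J p L, s w0 = w0 := by
    intro s hs
    obtain ⟨b, hb⟩ := h36_exists_unit_pow p ζ hζp hζ1 s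
    rw [hw0, map_prod, ← Equiv.prod_comp (Equiv.mulLeft b) (fun a => g a v)]
    refine Finset.prod_congr rfl fun a _ => ?_
    have ht : (g (b * a))⁻¹ * s * g a ∈ h78_J p L :=
      mul_mem (mul_mem (inv_mem (hgJ _)) hs) (hgJ a)
    have htζ : ((g (b * a))⁻¹ * s * g a) ζ = ζ := by
      have e1 : s (g a ζ) = g (b * a) ζ := by
        rw [hgζ a, map_pow, hb, ← pow_mul, hgζ (b * a), Units.val_mul, ZMod.val_mul,
          h36_pow_mod p ζ hζp]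
      show (g (b * a))⁻¹ (s (g a ζ)) = ζ
      rw [e1]
      show ((g (b * a))⁻¹ * g (b * a)) ζ = ζ
      rw [inv_mul_cancel]; rfl
    have h1 := hfix _ ht htζ
    have e2 : s (g a v) = (g (b * a) * ((g (b * a))⁻¹ * s * g a)) v := by
      rw [← mul_assoc, ← mul_assoc, mul_inv_cancel, one_mul]; rfl
    rw [e2, AlgEquiv.mul_apply, h1]
    rfl
  have hK0L : h78_K0 p L ≤ L := h49_K0_le p L
  have : FiniteDimensional ℚ_[p] (h78_K0 p L) :=
    FiniteDimensional.of_injective (IntermediateField.inclusion hK0L).toLinearMap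
      (IntermediateField.inclusion_injective hK0L)
  have hw0K : w0 ∈ h78_K0 p L := by
    refine h62_mem_of_fixed p (h78_K0 p L) w0 fun s hs => hinv s ?_
    rw [h78_J, IntermediateField.mem_fixingSubgroup_iff]
    exact hs
  have hw01 : ‖w0‖ = 1 := by
    rw [hw0, norm_prod]
    refine Finset.prod_eq_one fun a _ => ?_
    rw [h78_norm_aut, hv1]
  have hw0p : w0 ^ p = (v ^ p) ^ (p - 1) := by
    rw [hw0, ← Finset.prod_pow]
    have h1 : ∀ a ∈ (Finset.univ : Finset (ZMod p)ˣ), (g a v) ^ p = v ^ p := fun a _ => by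
      rw [← map_pow]; exact h49_J_fix p L (g a) (hgJ a) _ hvK
    rw [Finset.prod_congr rfl h1, Finset.prod_const, Finset.card_univ, ZMod.card_units p]
  have hvp1 : ‖v ^ p‖ = 1 := by rw [norm_pow, hv1, one_pow]
  have h2 : h36_fq p L ((v ^ p) ^ (p - 1)) = 0 := by
    rw [← hw0p]; exact h36_fq_pow_p p L w0 hw0K hw01
  rw [h36_fq_pow p L _ hvK hvp1, nsmul_eq_mul] at h2
  rcases mul_eq_zero.1 h2 with h3 | h3
  · exfalso
    rw [CharP.cast_eq_zero_iff (h93_resk p L) p] at h3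
    exact Nat.not_dvd_of_pos_of_lt (by have := hp.two_le; omega) (by have := hp.two_le; omega) h3
  · exact h3

/-- (c2) the kernel: for a unit `v ∈ L` with `v ^ p ∈ K₀(L)`, the Fermat quotient of `v ^ p`
vanishes iff `v` is fixed by `J₁ = {s ∈ J_L | s ζ = ζ}` (i.e. `v ∈ K₀(L)(ζ)`). -/
theorem h36_fq_eq_zero_iff (L : Fld) [FiniteDimensional ℚ_[p] L] (hL : h78_Stable p L)
    (ζ : Ω) (hζL : ζ ∈ L) (hζp : ζ ^ p = 1) (hζ1 : ζ ≠ 1)
    (v : Ω) (hv : v ∈ L) (hv1 : ‖v‖ = 1) (hvK : v ^ p ∈ h78_K0 p L) :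
    h36_fq p L (v ^ p) = 0 ↔ ∀ s ∈ h78_J p L, s ζ = ζ → s v = v :=
  ⟨fun h0 s hs hsζ => h36_fq_kummer_fixed p L ζ hζL hζp hζ1 v hv hv1 hvK h0 s hs hsζ,
    fun hfix => h36_fq_eq_zero_of_fixed p L hL ζ hζp hζ1 v hv1 hvK hfix⟩

end Fermat.Agent.S56
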