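/-
S56 / W3-B3a (helper49): the unramified part `K₀(L)` - formal half.
`h49_K0_le`, `h49_K0_stable` = skeleton statements `sk_K0_le`, `sk_K0_stable` verbatim;
`h49_J_res_of` = `sk_J_res` with `sk_K0_res` as an explicit hypothesis.
-/
import Fermat.Agent.S56.h78_W3Defs

set_option autoImplicit false

namespace Fermat.Agent.S56

variable (p : ℕ) [Fact p.Prime]

local notation "Ω" => PadicAlgCl p
local notation "Fld" => IntermediateField ℚ_[p] (PadicAlgCl p)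

/-- B3.0 : `K₀(L) ≤ L`. -/
theorem h49_K0_le (L : Fld) : h78_K0 p L ≤ L :=
  IntermediateField.adjoin_le_iff.2 (fun _ hζ => hζ.1)

/-- B3.3 : `K₀(L)` is Galois-stable when `L` is. -/
theorem h49_K0_stable (L : Fld) (hL : h78_Stable p L) : h78_Stable p (h78_K0 p L) := by
  intro g z hz
  have h1 : (g : Ω →ₐ[ℚ_[p]] Ω) z ∈ (h78_K0 p L).map (g : Ω →ₐ[ℚ_[p]] Ω) :=
    ⟨z, hz, rfl⟩
  rw [h78_K0, IntermediateField.adjoin_map] at h1
  refine IntermediateField.adjoin.mono _ _ _ ?_ h1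
  rintro _ ⟨ζ, ⟨hζL, n, hn, hpn, hζn⟩, rfl⟩
  refine ⟨hL g ζ hζL, n, hn, hpn, ?_⟩
  show (g ζ) ^ n = 1
  rw [← map_pow, hζn, map_one]

/-- the elements of `J_L` fix `K₀(L)` pointwise. -/
theorem h49_J_fix (L : Fld) (g : h78_G p) (hg : g ∈ h78_J p L) (c : Ω)
    (hc : c ∈ h78_K0 p L) : g c = c :=
  hg ⟨c, hc⟩

/-- B3.4 from B3.1 : `J_L` acts trivially on the residue field of `L`. -/
theorem h49_J_res_of (L : Fld)
    (hres : ∀ x ∈ L, ‖x‖ ≤ 1 → ∃ c ∈ h78_K0 p L, ‖x - c‖ < 1)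
    (g : h78_G p) (hg : g ∈ h78_J p L)
    (x : Ω) (hx : x ∈ L) (hx1 : ‖x‖ ≤ 1) : ‖g x - x‖ < 1 := by
  obtain ⟨c, hc, hxc⟩ := hres x hx hx1
  have hgc : g c = c := h49_J_fix p L g hg c hc
  have h2 : g x - x = g (x - c) + -(x - c) := by rw [map_sub, hgc]; ring
  rw [h2]
  refine lt_of_le_of_lt (IsUltrametricDist.norm_add_le_max _ _) (max_lt ?_ ?_)
  · rw [h78_norm_aut]; exact hxc
  · rw [norm_neg]; exact hxc

end Fermat.Agent.S56
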