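/-
S56 / W3 row B6a (WILD), closed forms: the four skeleton statements `sk_P_small`, `sk_P_normal`,
`sk_P_pgroup`, `sk_J_tame` verbatim (core: `h6_WildCore`; row B3a inputs: `h49_J_res`,
`h49_K0_stable`).
-/
import Fermat.Agent.S56.h6_WildCore
import Fermat.Agent.S56.h49_K0Res

set_option autoImplicit false

namespace Fermat.Agent.S56

variable (p : ℕ) [Fact p.Prime]

local notation "Ω" => PadicAlgCl p
local notation "Fld" => IntermediateField ℚ_[p] (PadicAlgCl p)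

/-- B6.1 `P` acts trivially on all graded pieces. -/
theorem h6_P_small (L : Fld) [FiniteDimensional ℚ_[p] L] (hL : h78_Stable p L)
    (π : Ω) (hπ : h78_IsUnif p L π) (g : h78_G p) (hg : g ∈ h78_P p L π)
    (z : Ω) (hz : z ∈ L) (hz0 : z ≠ 0) : ‖g z - z‖ < ‖z‖ :=
  h6_P_small_of p L (fun g hg x hx hx1 => h49_J_res p L g hg x hx hx1) π hπ g hg z hz hz0

/-- B6.2 `P` is normal and does not depend on `π`. -/
theorem h6_P_normal (L : Fld) [FiniteDimensional ℚ_[p] L] (hL : h78_Stable p L)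
    (π : Ω) (hπ : h78_IsUnif p L π) (g h : h78_G p) (hh : h ∈ h78_P p L π) :
    g * h * g⁻¹ ∈ h78_P p L π :=
  h6_P_normal_of p L hL (fun g hg x hx hx1 => h49_J_res p L g hg x hx hx1)
    (h49_K0_stable p L hL) π hπ g h hh

/-- B6.3 `P` acts on `L` through a `p`-group. -/
theorem h6_P_pgroup (L : Fld) [FiniteDimensional ℚ_[p] L] (hL : h78_Stable p L)
    (π : Ω) (hπ : h78_IsUnif p L π) (g : h78_G p) (hg : g ∈ h78_P p L π) :
    ∃ n : ℕ, ∀ z ∈ L, (g ^ (p ^ n)) z = z :=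
  h6_P_pgroup_of p L hL (fun g hg x hx hx1 => h49_J_res p L g hg x hx hx1) π hπ g hg

/-- B6.4 `J/P` has order prime to `p`. -/
theorem h6_J_tame (L : Fld) [FiniteDimensional ℚ_[p] L] (hL : h78_Stable p L)
    (π : Ω) (hπ : h78_IsUnif p L π) (g : h78_G p) (hg : g ∈ h78_J p L) :
    ∃ m : ℕ, 0 < m ∧ ¬ p ∣ m ∧ g ^ m ∈ h78_P p L π :=
  h6_J_tame_of p L hL (fun g hg x hx hx1 => h49_J_res p L g hg x hx hx1) π hπ g hg

end Fermat.Agent.S56
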