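import Mathlib
import Fermat.Agent.S56.h78_W3Defs

/-!
# S56 / W3-B1 : uniformizers of finite extensions of `ℚ_p` inside `Ω = PadicAlgCl p`

* `h94_norm_p` : `‖(p : Ω)‖ = p⁻¹`;
* `h94_norm_pow_minpoly` : `‖x‖ ^ deg = ‖a₀‖` (constant coefficient of the minimal polynomial);
* `h94_norm_pow_factorial` : for `x ≠ 0` in a finite extension `E` of degree `n`,
  `‖x‖ ^ n! ∈ p^ℤ`;
* `h94_exists_unif` (= row statement `sk_exists_unif`): `E` has a uniformizer.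
-/

set_option autoImplicit false

namespace Fermat.Agent.S56

variable (p : ℕ) [Fact p.Prime]

local notation "Ω" => PadicAlgCl p
local notation "Fld" => IntermediateField ℚ_[p] (PadicAlgCl p)

theorem h94_norm_p : ‖(p : Ω)‖ = (p : ℝ)⁻¹ := by
  have h : (p : Ω) = algebraMap ℚ_[p] Ω (p : ℚ_[p]) := (map_natCast _ p).symm
  rw [h, PadicAlgCl.norm_extends, Padic.norm_p]

theorem h94_one_lt_p : (1 : ℝ) < p := by
  exact_mod_cast (Fact.out : p.Prime).one_lt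

/-- `‖x‖ ^ d = ‖a₀‖` for the minimal polynomial `X^d + … + a₀` of `x` over `ℚ_p`. -/
theorem h94_norm_pow_minpoly (x : Ω) :
    ‖x‖ ^ (minpoly ℚ_[p] x).natDegree = ‖(minpoly ℚ_[p] x).coeff 0‖ := by
  have hint : IsIntegral ℚ_[p] x := Algebra.IsIntegral.isIntegral x
  have hd : 0 < (minpoly ℚ_[p] x).natDegree := minpoly.natDegree_pos hint
  have h1 : ‖x‖ = ‖(minpoly ℚ_[p] x).coeff 0‖ ^ (1 / ((minpoly ℚ_[p] x).natDegree : ℝ)) :=
    spectralNorm.spectralNorm_eq_norm_coeff_zero_rpow ℚ_[p] Ω x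
  rw [h1, ← Real.rpow_natCast, ← Real.rpow_mul (norm_nonneg _), one_div,
    inv_mul_cancel₀ (by exact_mod_cast hd.ne'), Real.rpow_one]

/-- In a finite extension of degree `n`, `‖x‖ ^ n!` is an integral power of `p`. -/
theorem h94_norm_pow_factorial (E : Fld) [FiniteDimensional ℚ_[p] E] (x : Ω) (hx : x ∈ E)
    (hx0 : x ≠ 0) :
    ∃ m : ℤ, ‖x‖ ^ (Module.finrank ℚ_[p] E).factorial = (p : ℝ) ^ m := by
  have hint : IsIntegral ℚ_[p] x := Algebra.IsIntegral.isIntegral x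
  have hd : 0 < (minpoly ℚ_[p] x).natDegree := minpoly.natDegree_pos hint
  have hle : (minpoly ℚ_[p] x).natDegree ≤ Module.finrank ℚ_[p] E := by
    have h := minpoly.natDegree_le (A := ℚ_[p]) (⟨x, hx⟩ : E)
    rwa [IntermediateField.minpoly_eq] at h
  obtain ⟨c, hc⟩ := Nat.dvd_factorial hd hle
  have ha0 : (minpoly ℚ_[p] x).coeff 0 ≠ 0 := minpoly.coeff_zero_ne_zero hint hx0
  refine ⟨-((minpoly ℚ_[p] x).coeff 0).valuation * c, ?_⟩
  rw [hc, pow_mul, h94_norm_pow_minpoly, Padic.norm_eq_zpow_neg_valuation ha0, zpow_mul,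
    zpow_natCast]

/-- **W3-B1.** A finite extension of `ℚ_p` inside `Ω` has a uniformizer. -/
theorem h94_exists_unif (E : Fld) [FiniteDimensional ℚ_[p] E] : ∃ π, h78_IsUnif p E π := by
  classical
  set N : ℕ := (Module.finrank ℚ_[p] E).factorial with hN
  have hNpos : 0 < N := Nat.factorial_pos _
  have hp1 : (1 : ℝ) < p := h94_one_lt_p p
  have hp0 : (0 : ℝ) < p := by linarith
  -- the set of "valuations" of elements of norm `< 1`
  have hex : ∃ k : ℕ, 0 < k ∧ ∃ x : Ω, x ∈ E ∧ x ≠ 0 ∧ ‖x‖ ^ N = (p : ℝ) ^ (-(k : ℤ)) := by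
    refine ⟨N, hNpos, (p : Ω), ?_, ?_, ?_⟩
    · exact natCast_mem E p
    · exact_mod_cast (Fact.out : p.Prime).ne_zero
    · rw [h94_norm_p, inv_pow, zpow_neg, zpow_natCast]
  obtain ⟨hk0, π, hπE, hπ0, hπN⟩ := Nat.find_spec hex
  set k0 : ℕ := Nat.find hex with hk0def
  have hπpos : 0 < ‖π‖ := norm_pos_iff.mpr hπ0
  have hπlt : ‖π‖ < 1 := by
    by_contra hcon
    push Not at hcon
    have h1 : (1 : ℝ) ≤ ‖π‖ ^ N := one_le_pow₀ hcon
    rw [hπN, zpow_neg, zpow_natCast] at h1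
    have h2 : (1 : ℝ) < (p : ℝ) ^ k0 := one_lt_pow₀ hp1 hk0.ne'
    have h3 : ((p : ℝ) ^ k0)⁻¹ < 1 := inv_lt_one_of_one_lt₀ h2
    linarith
  refine ⟨π, hπE, hπ0, hπlt, ?_⟩
  intro x hxE hx0
  obtain ⟨m, hm⟩ := h94_norm_pow_factorial p E x hxE hx0
  -- division with remainder of `-m` by `k0`
  set q : ℤ := (-m) / (k0 : ℤ) with hq
  set r : ℤ := (-m) % (k0 : ℤ) with hr
  have hk0' : (0 : ℤ) < k0 := by exact_mod_cast hk0
  have hr0 : 0 ≤ r := Int.emod_nonneg _ hk0'.ne'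
  have hrlt : r < k0 := Int.emod_lt_of_pos _ hk0'
  have hdiv : (k0 : ℤ) * q + r = -m := Int.mul_ediv_add_emod _ _
  -- the element `z = x * π^(-q)`
  set z : Ω := x * π ^ (-q) with hz
  have hzE : z ∈ E := E.mul_mem hxE (zpow_mem hπE _)
  have hz0 : z ≠ 0 := mul_ne_zero hx0 (zpow_ne_zero _ hπ0)
  have hzN : ‖z‖ ^ N = (p : ℝ) ^ (-r) := by
    rw [hz, norm_mul, mul_pow, hm, norm_zpow, ← zpow_natCast (‖π‖ ^ (-q)) N, ← zpow_mul,
      mul_comm (-q) (N : ℤ), zpow_mul, zpow_natCast, hπN, ← zpow_mul, ← zpow_add₀ hp0.ne']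
    congr 1
    linarith
  have hr_eq : r = 0 := by
    by_contra hne
    have hrpos : 0 < r := lt_of_le_of_ne hr0 (Ne.symm hne)
    have hmem : 0 < r.toNat ∧ ∃ x : Ω, x ∈ E ∧ x ≠ 0 ∧ ‖x‖ ^ N = (p : ℝ) ^ (-(r.toNat : ℤ)) := by
      refine ⟨by omega, z, hzE, hz0, ?_⟩
      rw [hzN, Int.toNat_of_nonneg hr0]
    have hmin := Nat.find_min' hex hmem
    have : (k0 : ℤ) ≤ r.toNat := by exact_mod_cast hmin
    rw [Int.toNat_of_nonneg hr0] at this
    linarith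
  rw [hr_eq, neg_zero, zpow_zero] at hzN
  have hz1 : ‖z‖ = 1 := (pow_eq_one_iff_of_nonneg (norm_nonneg _) hNpos.ne').mp hzN
  refine ⟨q, ?_⟩
  rw [hz, norm_mul, norm_zpow, zpow_neg] at hz1
  have hπq : ‖π‖ ^ q ≠ 0 := zpow_ne_zero _ hπpos.ne'
  field_simp at hz1
  exact hz1

end Fermat.Agent.S56
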