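import Mathlib
import Fermat.Agent.S56.h88_TameLocSk
import Fermat.Agent.S56.h94_Unif
import Fermat.Agent.S56.h6_Wild

/-!
# S56 / W3: characters on inertia (helper88)

Consequences of row IRR-1 used by the reducible case (E-RED):

* `h88_tame_char` : a multiplicative character `χ : G → k` (`char k = p`) which is trivial on
  `G_L` is a power of the mod `p` cyclotomic character on the inertia group `J_L`;
* `h88_unram_finrank` : the additive characters `G → k` which are trivial on `J_L` form a space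
  of dimension `≤ 1`.
-/

set_option autoImplicit false

namespace Fermat.Agent.S56

variable (p : ℕ) [Fact p.Prime]

local notation "Ω" => PadicAlgCl p
local notation "Fld" => IntermediateField ℚ_[p] (PadicAlgCl p)

/-- in characteristic `p`, `x ^ (p ^ n) = 1` forces `x = 1`. -/
theorem h88_eq_one_of_pow_char_pow {k : Type*} [Field k] [CharP k p] (x : k) (n : ℕ)
    (h : x ^ (p ^ n) = 1) : x = 1 := by
  have hp : p.Prime := Fact.out
  have h1 : (x - 1) ^ (p ^ n) = 0 := by rw [sub_pow_char_pow, h, one_pow, sub_self]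
  exact sub_eq_zero.1 ((pow_eq_zero_iff (pow_pos hp.pos n).ne').1 h1)

/-- in a field of characteristic `p`, the solutions of `x ^ p = x` are the natural numbers. -/
theorem h88_exists_natCast_of_pow {k : Type*} [Field k] [CharP k p] (x : k) (h : x ^ p = x) :
    ∃ m : ℕ, x = (m : k) := by
  have h1 : x ∈ (⊥ : Subfield k) := (Subfield.mem_bot_iff_pow_eq_self k p).2 h
  rw [← ZMod.fieldRange_castHom_eq_bot p] at h1
  obtain ⟨a, rfl⟩ := h1
  refine ⟨a.val, ?_⟩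
  conv_lhs => rw [← ZMod.natCast_zmod_val a]
  simp

/-- the order of a nontrivial `p`-th root of unity. -/
theorem h88_orderOf_zeta (ζ : Ω) (hζ : ζ ^ p = 1) (hζ1 : ζ ≠ 1) : orderOf ζ = p := by
  have hp : p.Prime := Fact.out
  rcases (Nat.dvd_prime hp).1 (orderOf_dvd_of_pow_eq_one hζ) with h | h
  · exact absurd (orderOf_eq_one_iff.1 h) hζ1
  · exact h

theorem h88_zeta_ne_zero (ζ : Ω) (hζ : ζ ^ p = 1) : ζ ≠ 0 := by
  have hp : p.Prime := Fact.out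
  intro h0
  rw [h0, zero_pow hp.ne_zero] at hζ
  exact zero_ne_one hζ

theorem h88_zeta_pow_eq_iff (ζ : Ω) (hζ : ζ ^ p = 1) (hζ1 : ζ ≠ 1) (a b : ℕ) :
    ζ ^ a = ζ ^ b ↔ a ≡ b [MOD p] := by
  have hord := h88_orderOf_zeta p ζ hζ hζ1
  have hu : IsUnit ζ := (h88_zeta_ne_zero p ζ hζ).isUnit
  obtain ⟨u, rfl⟩ := hu
  have h1 : ((u : Ω) ^ a = (u : Ω) ^ b) ↔ u ^ a = u ^ b := by
    rw [← Units.val_pow_eq_pow_val, ← Units.val_pow_eq_pow_val, Units.val_inj]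
  have h2 : orderOf u = p := by rw [← orderOf_units]; exact hord
  rw [h1, pow_eq_pow_iff_modEq, h2]

/-- every automorphism maps a nontrivial `p`-th root of unity to a power of itself. -/
theorem h88_exists_cyclo_exp (ζ : Ω) (hζ : ζ ^ p = 1) (hζ1 : ζ ≠ 1) (g : h78_G p) :
    ∃ n : ℕ, g ζ = ζ ^ n := by
  have hp : p.Prime := Fact.out
  have : NeZero p := ⟨hp.ne_zero⟩
  have hord := h88_orderOf_zeta p ζ hζ hζ1
  have hprim : IsPrimitiveRoot ζ p := by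
    refine ⟨hζ, fun l hl => ?_⟩
    have h := orderOf_dvd_of_pow_eq_one hl
    rwa [hord] at h
  obtain ⟨i, -, hi⟩ := hprim.eq_pow_of_pow_eq_one (ξ := g ζ) (by rw [← map_pow, hζ, map_one])
  exact ⟨i, hi.symm⟩

/-- wild inertia acts trivially on the `p`-th roots of unity of `L`. -/
theorem h88_P_fix_zeta (L : Fld) [FiniteDimensional ℚ_[p] L] (hL : h78_Stable p L)
    (π : Ω) (hπ : h78_IsUnif p L π) (ζ : Ω) (hζL : ζ ∈ L) (hζ : ζ ^ p = 1)
    (u : h78_G p) (hu : u ∈ h78_P p L π) : u ζ = ζ := by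
  by_cases hζ1 : ζ = 1
  · rw [hζ1, map_one]
  obtain ⟨m, hm⟩ := h6_P_pgroup p L hL π hπ u hu
  obtain ⟨s, hs⟩ := h88_exists_cyclo_exp p ζ hζ hζ1 u
  have hpow : ∀ j : ℕ, (u ^ j) ζ = ζ ^ (s ^ j) := by
    intro j
    induction j with
    | zero => simp
    | succ j ih =>
      rw [pow_succ, AlgEquiv.mul_apply, hs, map_pow, ih, ← pow_mul, ← pow_succ]
  have h1 := hm ζ hζL
  rw [hpow] at h1
  have h2 : s ^ (p ^ m) ≡ 1 [MOD p] := by
    rw [← h88_zeta_pow_eq_iff p ζ hζ hζ1, h1, pow_one]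
  have h3 : ((s : ZMod p)) = 1 := by
    have h4 : ((s ^ (p ^ m) : ℕ) : ZMod p) = ((1 : ℕ) : ZMod p) :=
      (ZMod.natCast_eq_natCast_iff _ _ _).2 h2
    rw [Nat.cast_pow, ZMod.pow_card_pow, Nat.cast_one] at h4
    exact h4
  have h5 : s ≡ 1 [MOD p] := by
    rw [← ZMod.natCast_eq_natCast_iff, h3, Nat.cast_one]
  rw [hs, (h88_zeta_pow_eq_iff p ζ hζ hζ1 s 1).2 h5, pow_one]

/-- the cyclotomic character of a tame generator generates `𝔽_p^×`. -/
theorem h88_omega_gen (L : Fld) [FiniteDimensional ℚ_[p] L] (hL : h78_Stable p L)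
    (π : Ω) (hπ : h78_IsUnif p L π) (ζ : Ω) (hζL : ζ ∈ L) (hζ : ζ ^ p = 1)
    (τ₀ : h78_G p) (t : ℕ) (ht : τ₀ ζ = ζ ^ t)
    (g : h78_G p) (j : ℕ) (hj : g * (τ₀⁻¹) ^ j ∈ h78_P p L π) : g ζ = ζ ^ (t ^ j) := by
  have hpow : ∀ j : ℕ, (τ₀ ^ j) ζ = ζ ^ (t ^ j) := by
    intro j
    induction j with
    | zero => simp
    | succ j ih =>
      rw [pow_succ, AlgEquiv.mul_apply, ht, map_pow, ih, ← pow_mul, ← pow_succ]
  have h1 : g = (g * (τ₀⁻¹) ^ j) * τ₀ ^ j := by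
    rw [inv_pow, inv_mul_cancel_right]
  have h2 : g ζ = (g * (τ₀⁻¹) ^ j) ((τ₀ ^ j) ζ) := by
    conv_lhs => rw [h1]
    rfl
  rw [h2, hpow, map_pow, h88_P_fix_zeta p L hL π hπ ζ hζL hζ _ hj]

/-- **TAME-CHAR**: a multiplicative character of `G` with values in a field of characteristic
`p`, trivial on `G_L`, is a power of the cyclotomic character on the inertia group `J_L`. -/
theorem h88_tame_char {k : Type*} [Field k] [CharP k p] (L : Fld) [FiniteDimensional ℚ_[p] L]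
    (hL : h78_Stable p L) (χ : h78_G p → k) (hχ1 : χ 1 = 1)
    (hχm : ∀ s t, χ (s * t) = χ s * χ t)
    (hχ : ∀ g : h78_G p, (∀ z ∈ L, g z = z) → χ g = 1)
    (ζ : Ω) (hζL : ζ ∈ L) (hζ : ζ ^ p = 1) (hζ1 : ζ ≠ 1) :
    ∃ i : ℕ, ∀ g ∈ h78_J p L, ∀ n : ℕ, g ζ = ζ ^ n → χ g = (n : k) ^ i := by
  have hp : p.Prime := Fact.out
  obtain ⟨π, hπ⟩ := h94_exists_unif p L
  obtain ⟨τ₀, hτ₀, hgen⟩ := h88_exists_tame_gen p L hL π hπ
  obtain ⟨φ, hφ⟩ := h88_exists_frob p L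
  have hχpow : ∀ (g : h78_G p) (j : ℕ), χ (g ^ j) = χ g ^ j := by
    intro g j
    induction j with
    | zero => rw [pow_zero, pow_zero, hχ1]
    | succ j ih => rw [pow_succ, hχm, ih, pow_succ]
  have hχinv : ∀ g : h78_G p, χ g * χ g⁻¹ = 1 := by
    intro g
    rw [← hχm, mul_inv_cancel, hχ1]
  have hχP : ∀ u ∈ h78_P p L π, χ u = 1 := by
    intro u hu
    obtain ⟨m, hm⟩ := h6_P_pgroup p L hL π hπ u hu
    have h1 := hχ _ hm
    rw [hχpow] at h1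
    exact h88_eq_one_of_pow_char_pow p _ m h1
  -- `χ τ₀ ^ p = χ τ₀`
  have hx : χ τ₀ ^ p = χ τ₀ := by
    have h1 := hχP _ (h88_frob_conj p L hL π hπ φ hφ τ₀ hτ₀)
    rw [hχm, hχm, hχm, hχpow] at h1
    have h2 := hχinv φ
    have h3 := hχinv τ₀
    calc χ τ₀ ^ p = χ τ₀ ^ p * (χ φ * χ τ₀ * χ φ⁻¹ * χ τ₀⁻¹ ^ p) := by rw [h1, mul_one]
      _ = (χ φ * χ φ⁻¹) * χ τ₀ * (χ τ₀ * χ τ₀⁻¹) ^ p := by ring
      _ = χ τ₀ := by rw [h2, h3, one_pow, one_mul, mul_one]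
  obtain ⟨m, hm⟩ := h88_exists_natCast_of_pow p (χ τ₀) hx
  have hm0 : ¬ p ∣ m := by
    intro hd
    have h0 : χ τ₀ = 0 := by rw [hm]; exact (CharP.cast_eq_zero_iff k p m).2 hd
    have h3 := hχinv τ₀
    rw [h0, zero_mul] at h3
    exact zero_ne_one h3
  obtain ⟨t, ht⟩ := h88_exists_cyclo_exp p ζ hζ hζ1 τ₀
  -- `m` is a power of `t` modulo `p`
  obtain ⟨i, hi⟩ : ∃ i : ℕ, m ≡ t ^ i [MOD p] := by
    obtain ⟨g, hg, hgζ⟩ := h88_cyclo_conj p L (fun c hc hc0 => h28_K0_unram p L c hc hc0) ζ hζ hζ1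
      m hm0
    obtain ⟨j, hj⟩ := hgen g hg
    refine ⟨j, ?_⟩
    rw [← h88_zeta_pow_eq_iff p ζ hζ hζ1, ← hgζ]
    exact h88_omega_gen p L hL π hπ ζ hζL hζ τ₀ t ht g j hj
  refine ⟨i, fun g hg n hn => ?_⟩
  obtain ⟨j, hj⟩ := hgen g hg
  have h1 : g = (g * (τ₀⁻¹) ^ j) * τ₀ ^ j := by
    rw [inv_pow, inv_mul_cancel_right]
  have h2 : χ g = (m : k) ^ j := by
    conv_lhs => rw [h1]
    rw [hχm, hχP _ hj, one_mul, hχpow, hm]
  have h3 : n ≡ t ^ j [MOD p] := by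
    rw [← h88_zeta_pow_eq_iff p ζ hζ hζ1, ← hn]
    exact h88_omega_gen p L hL π hπ ζ hζL hζ τ₀ t ht g j hj
  have h4 : (n : k) = (t : k) ^ j := by
    rw [CharP.natCast_eq_natCast' k p h3, Nat.cast_pow]
  have h5 : (m : k) = (t : k) ^ i := by
    rw [CharP.natCast_eq_natCast' k p hi, Nat.cast_pow]
  rw [h2, h4, h5, ← pow_mul, ← pow_mul, mul_comm]

/-- `MonoidHom` form of `h88_tame_char`. -/
theorem h88_tame_char_hom {k : Type*} [Field k] [CharP k p] (L : Fld) [FiniteDimensional ℚ_[p] L]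
    (hL : h78_Stable p L) (χ : h78_G p →* k)
    (hχ : ∀ g : h78_G p, (∀ z ∈ L, g z = z) → χ g = 1)
    (ζ : Ω) (hζL : ζ ∈ L) (hζ : ζ ^ p = 1) (hζ1 : ζ ≠ 1) :
    ∃ i : ℕ, ∀ g ∈ h78_J p L, ∀ n : ℕ, g ζ = ζ ^ n → χ g = (n : k) ^ i :=
  h88_tame_char p L hL χ (map_one χ) (map_mul χ) hχ ζ hζL hζ hζ1

/-- for `p` odd some element of `J_L` moves the `p`-th roots of unity. -/
theorem h88_exists_J_zeta_ne (hp2 : p ≠ 2) (L : Fld) [FiniteDimensional ℚ_[p] L]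
    (ζ : Ω) (hζ : ζ ^ p = 1) (hζ1 : ζ ≠ 1) : ∃ g ∈ h78_J p L, g ζ = ζ ^ 2 ∧ g ζ ≠ ζ := by
  have hp : p.Prime := Fact.out
  have h2 : ¬ p ∣ 2 := by
    intro hd
    exact hp2 ((Nat.prime_dvd_prime_iff_eq hp Nat.prime_two).1 hd)
  obtain ⟨g, hg, hgζ⟩ := h88_cyclo_conj p L (fun c hc hc0 => h28_K0_unram p L c hc hc0) ζ hζ hζ1
    2 h2
  refine ⟨g, hg, hgζ, ?_⟩
  rw [hgζ]
  intro h
  have h3 : ζ * ζ = ζ * 1 := by rw [mul_one, ← sq]; exact h
  exact hζ1 (mul_left_cancel₀ (h88_zeta_ne_zero p ζ hζ) h3)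

/-- an additive character of `G` which is trivial on `J_L` is determined by its value at a
Frobenius element. -/
theorem h88_unram_apply {A : Type*} [AddCommGroup A] (L : Fld) [FiniteDimensional ℚ_[p] L]
    (hL : h78_Stable p L) (φ : h78_G p) (hφ : ∀ z, h88_IsMu p L z → φ z = z ^ p)
    (δ : h78_G p → A) (hδ : ∀ s t, δ (s * t) = δ s + δ t) (hδJ : ∀ g ∈ h78_J p L, δ g = 0)
    (g : h78_G p) : ∃ j : ℕ, δ g = j • δ φ := by
  obtain ⟨j, hj⟩ := h88_frob_gen p L hL φ hφ g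
  have hδ1 : δ 1 = 0 := by
    have h := hδ 1 1
    rw [mul_one] at h
    exact (add_eq_left.1 h.symm)
  have hδpow : ∀ j : ℕ, δ (φ ^ j) = j • δ φ := by
    intro j
    induction j with
    | zero => rw [pow_zero, zero_smul, hδ1]
    | succ j ih => rw [pow_succ, hδ, ih, succ_nsmul]
  refine ⟨j, ?_⟩
  have h1 : g = (g * (φ⁻¹) ^ j) * φ ^ j := by
    rw [inv_pow, inv_mul_cancel_right]
  conv_lhs => rw [h1]
  rw [hδ, hδJ _ hj, zero_add, hδpow]

/-- **UNRAM**: the additive characters `G → k` trivial on `J_L` form a space of dimension `≤ 1`. -/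
theorem h88_unram_finrank {k : Type*} [Field k] (L : Fld) [FiniteDimensional ℚ_[p] L]
    (hL : h78_Stable p L) (S : Submodule k (h78_G p → k))
    (hS : ∀ δ ∈ S, (∀ s t, δ (s * t) = δ s + δ t) ∧ ∀ g ∈ h78_J p L, δ g = 0) :
    Module.finrank k S ≤ 1 := by
  obtain ⟨φ, hφ⟩ := h88_exists_frob p L
  let ev : S →ₗ[k] k :=
    { toFun := fun δ => (δ : h78_G p → k) φ
      map_add' := fun _ _ => rfl
      map_smul' := fun _ _ => rfl }
  have hinj : Function.Injective ev := by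
    rw [← LinearMap.ker_eq_bot, LinearMap.ker_eq_bot']
    intro δ h0
    have h0' : (δ : h78_G p → k) φ = 0 := h0
    apply Subtype.ext
    funext g
    obtain ⟨j, hj⟩ := h88_unram_apply p L hL φ hφ (δ : h78_G p → k) (hS δ δ.2).1 (hS δ δ.2).2 g
    rw [hj, h0', smul_zero]
    rfl
  have h1 := LinearMap.finrank_le_finrank_of_injective hinj
  rwa [Module.finrank_self] at h1

end Fermat.Agent.S56
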