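import Mathlib
import Fermat.Agent.S56.h36_FermatQuot
import Fermat.Agent.S56.h11_RedS4a
import Fermat.Agent.S56.h11_RedCount
import Fermat.Agent.S56.h88_TameLocSk
import Fermat.Agent.S56.h88_TameChar
import Fermat.Agent.S56.h49_K0Basic

/-!
# S56 / W3 / E-RED row RED-S4 : the Kummer count (`sk_red_kum_count`)

A `k`-space `C` of `χ`-cocycles (`χ = ω` on inertia) all of whose `𝔽_p`-characters on
`J₁ = {s ∈ J_L | s ζ = ζ}` are Kummer characters of units of `K₀(L)` has dimension `≤ 1` modulo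
coboundaries (pairwise dependence form).

Ingredients: the Fermat quotient `h36_fq` (additive on units of `K₀(L)`, Frobenius equivariant,
vanishing exactly on the Kummer-trivial classes), `h11_red_res_inj` (restriction to `J₁` is
injective modulo coboundaries) and the counting lemma `h11_red_count`.
-/

set_option autoImplicit false

namespace Fermat.Agent.S56

variable (p : ℕ) [Fact p.Prime]

local notation "Ω" => PadicAlgCl p
local notation "Fld" => IntermediateField ℚ_[p] (PadicAlgCl p)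

/-- `v` is a unit Kummer generator of `ψ` on `J₁ = {s ∈ J_L | s ζ = ζ}`. -/
def h11_IsKG (L : Fld) (ζ : Ω) (ψ : h78_G p → ZMod p) (v : Ω) : Prop :=
  v ∈ L ∧ ‖v‖ = 1 ∧ v ^ p ∈ h78_K0 p L ∧
    ∀ s ∈ h78_J p L, s ζ = ζ → s v = ζ ^ (ψ s).val * v

theorem h11_zeta_val_add (ζ : Ω) (hζp : ζ ^ p = 1) (a b : ZMod p) :
    ζ ^ (a + b).val = ζ ^ a.val * ζ ^ b.val := by
  rw [ZMod.val_add, ← pow_add, h36_pow_mod p ζ hζp]

theorem h11_zeta_val_mul (ζ : Ω) (hζp : ζ ^ p = 1) (n : ℕ) (b : ZMod p) :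
    ζ ^ ((n : ZMod p) * b).val = (ζ ^ n) ^ b.val := by
  rw [ZMod.val_mul, h36_pow_mod p ζ hζp, ZMod.val_natCast, pow_mul, h36_pow_mod p ζ hζp]

theorem h11_zeta_val_eq_one (ζ : Ω) (hζp : ζ ^ p = 1) (hζ1 : ζ ≠ 1) (a : ZMod p)
    (h : ζ ^ a.val = 1) : a = 0 := by
  have hp : p.Prime := Fact.out
  have : NeZero p := ⟨hp.ne_zero⟩
  have h1 : a.val ≡ 0 [MOD p] :=
    (h88_zeta_pow_eq_iff p ζ hζp hζ1 a.val 0).1 (by rw [h, pow_zero])
  have h2 : a.val < p := ZMod.val_lt a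
  have h3 : a.val = 0 := by
    have h4 := Nat.mod_eq_of_lt h2
    rw [Nat.ModEq, Nat.zero_mod, h4] at h1
    exact h1
  exact (ZMod.val_eq_zero a).1 h3

theorem h11_kg_congr (L : Fld) (ζ : Ω) (ψ ψ' : h78_G p → ZMod p) (v : Ω)
    (hv : h11_IsKG p L ζ ψ v) (hψ : ∀ s ∈ h78_J p L, s ζ = ζ → ψ s = ψ' s) :
    h11_IsKG p L ζ ψ' v := by
  obtain ⟨h1, h2, h3, h4⟩ := hv
  exact ⟨h1, h2, h3, fun s hs hsζ => by rw [h4 s hs hsζ, hψ s hs hsζ]⟩

/-- two generators of the same character have the same Fermat quotient. -/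
theorem h11_kg_wd (L : Fld) [FiniteDimensional ℚ_[p] L] (hL : h78_Stable p L)
    (ζ : Ω) (hζp : ζ ^ p = 1) (hζ1 : ζ ≠ 1) (ψ : h78_G p → ZMod p) (v v' : Ω)
    (hv : h11_IsKG p L ζ ψ v) (hv' : h11_IsKG p L ζ ψ v') :
    h36_fq p L (v ^ p) = h36_fq p L (v' ^ p) := by
  obtain ⟨-, hv1, hvK, hvs⟩ := hv
  obtain ⟨-, hv1', hvK', hvs'⟩ := hv'
  have hv0' : v' ≠ 0 := by
    intro h
    rw [h, norm_zero] at hv1'
    exact zero_ne_one hv1'
  have hw1 : ‖v / v'‖ = 1 := by rw [norm_div, hv1, hv1', div_one]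
  have hwK : (v / v') ^ p ∈ h78_K0 p L := by
    rw [div_pow]
    exact div_mem hvK hvK'
  have hfix : ∀ s ∈ h78_J p L, s ζ = ζ → s (v / v') = v / v' := by
    intro s hs hsζ
    rw [map_div₀, hvs s hs hsζ, hvs' s hs hsζ]
    have h0 : ζ ^ (ψ s).val ≠ 0 := pow_ne_zero _ (h88_zeta_ne_zero p ζ hζp)
    field_simp
  have h0 := h36_fq_eq_zero_of_fixed p L hL ζ hζp hζ1 (v / v') hw1 hwK hfix
  have h1 : v ^ p = (v / v') ^ p * v' ^ p := by
    rw [div_pow]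
    field_simp
  rw [h1, h36_fq_mul p L _ _ hwK (by rw [norm_pow, hw1, one_pow]) hvK'
    (by rw [norm_pow, hv1', one_pow]), h0, zero_add]

theorem h11_kg_mul (L : Fld) (ζ : Ω) (hζp : ζ ^ p = 1) (ψ ψ' : h78_G p → ZMod p) (v v' : Ω)
    (hv : h11_IsKG p L ζ ψ v) (hv' : h11_IsKG p L ζ ψ' v') :
    h11_IsKG p L ζ (fun s => ψ s + ψ' s) (v * v') := by
  obtain ⟨hvL, hv1, hvK, hvs⟩ := hv
  obtain ⟨hvL', hv1', hvK', hvs'⟩ := hv'
  refine ⟨mul_mem hvL hvL', by rw [norm_mul, hv1, hv1', one_mul], ?_, fun s hs hsζ => ?_⟩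
  · rw [mul_pow]
    exact mul_mem hvK hvK'
  · rw [map_mul, hvs s hs hsζ, hvs' s hs hsζ, h11_zeta_val_add p ζ hζp]
    ring

theorem h11_kg_frob (L : Fld) [FiniteDimensional ℚ_[p] L] (hL : h78_Stable p L)
    (ζ : Ω) (hζp : ζ ^ p = 1) (ψ : h78_G p → ZMod p) (v : Ω)
    (hv : h11_IsKG p L ζ ψ v) (φ : h78_G p) (n : ℕ) (hn : φ ζ = ζ ^ n) :
    h11_IsKG p L ζ (fun s => (n : ZMod p) * ψ (φ⁻¹ * s * φ)) (φ v) := by
  obtain ⟨hvL, hv1, hvK, hvs⟩ := hv
  refine ⟨hL φ v hvL, by rw [h78_norm_aut, hv1], ?_, fun s hs hsζ => ?_⟩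
  · rw [← map_pow]
    exact h49_K0_stable p L hL φ _ hvK
  · have htJ : φ⁻¹ * s * φ ∈ h78_J p L := by
      have h1 := h88_sk_comm_mem_J p L hL φ⁻¹ s
      rw [inv_inv] at h1
      have h2 : φ⁻¹ * s * φ = (φ⁻¹ * s * φ * s⁻¹) * s := by group
      rw [h2]
      exact mul_mem h1 hs
    have htζ : (φ⁻¹ * s * φ) ζ = ζ := by
      show φ⁻¹ (s (φ ζ)) = ζ
      rw [hn, map_pow, hsζ, ← hn]
      exact φ.symm_apply_apply ζ
    have h3 : s (φ v) = φ ((φ⁻¹ * s * φ) v) := by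
      show s (φ v) = φ (φ⁻¹ (s (φ v)))
      exact (φ.apply_symm_apply _).symm
    rw [h3, hvs _ htJ htζ, map_mul, map_pow, hn, h11_zeta_val_mul p ζ hζp]

/-- the dependence lemma: two elements of a space of cocycles carrying an additive,
Frobenius-semilinear "leading coefficient" `E` whose kernel consists of coboundaries are
dependent modulo coboundaries. -/
theorem h11_red_dep_chi {Γ : Type*} {k : Type*} [Field k] [Fintype k] [CharP k p]
    {kF : Type*} [Field kF] [CharP kF p] (χ : Γ → k)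
    (Z : Submodule k (Γ → k)) (E : (Γ → k) → kF) (μ : k)
    (hEadd : ∀ z ∈ Z, ∀ z' ∈ Z, E (z + z') = E z + E z')
    (hEfrob : ∀ z ∈ Z, E (μ • z) = E z ^ p)
    (hEinj : ∀ z ∈ Z, (∀ c : k, E (c • z) = 0) → ∃ x : k, ∀ g, z g = x * (χ g - 1))
    (z1 z2 : Γ → k) (hz1 : z1 ∈ Z) (hz2 : z2 ∈ Z) :
    ∃ c1 c2 x : k, (c1 ≠ 0 ∨ c2 ≠ 0) ∧ ∀ g, c1 * z1 g + c2 * z2 g = x * (χ g - 1) := by
  by_contra hcon
  push Not at hcon
  have hmem : ∀ v : Fin 2 → k, v 0 • z1 + v 1 • z2 ∈ Z := fun v =>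
    Z.add_mem (Z.smul_mem _ hz1) (Z.smul_mem _ hz2)
  have h := h11_red_count p (k := k) (kF := kF) μ (X := Fin 2 → k)
    (fun v => E (v 0 • z1 + v 1 • z2)) ?_ ?_ ?_
  · rw [Module.finrank_fin_fun] at h
    omega
  · intro v v'
    have h1 : (v + v') 0 • z1 + (v + v') 1 • z2 =
        (v 0 • z1 + v 1 • z2) + (v' 0 • z1 + v' 1 • z2) := by
      simp only [Pi.add_apply, add_smul]
      abel
    show E ((v + v') 0 • z1 + (v + v') 1 • z2) = _
    rw [h1, hEadd _ (hmem v) _ (hmem v')]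
  · intro v
    have h1 : (μ • v) 0 • z1 + (μ • v) 1 • z2 = μ • (v 0 • z1 + v 1 • z2) := by
      simp only [Pi.smul_apply, smul_eq_mul, mul_smul, smul_add]
    show E ((μ • v) 0 • z1 + (μ • v) 1 • z2) = _
    rw [h1, hEfrob _ (hmem v)]
  · intro v hv
    have h1 : ∀ c : k, E (c • (v 0 • z1 + v 1 • z2)) = 0 := by
      intro c
      have h2 : (c • v) 0 • z1 + (c • v) 1 • z2 = c • (v 0 • z1 + v 1 • z2) := by
        simp only [Pi.smul_apply, smul_eq_mul, mul_smul, smul_add]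
      rw [← h2]
      exact hv c
    obtain ⟨x, hx⟩ := hEinj _ (hmem v) h1
    by_contra hv0
    have hne : v 0 ≠ 0 ∨ v 1 ≠ 0 := by
      by_contra hh
      push Not at hh
      apply hv0
      funext i
      fin_cases i
      · exact hh.1
      · exact hh.2
    obtain ⟨g, hg⟩ := hcon (v 0) (v 1) x hne
    apply hg
    have h3 := hx g
    simpa [Pi.add_apply, Pi.smul_apply, smul_eq_mul] using h3

set_option linter.unusedVariables false in
/-- **RED-S4, KUM-COUNT** (`sk_red_kum_count`). -/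
theorem h11_red_kum_count (hp2 : p ≠ 2) (L : Fld) [FiniteDimensional ℚ_[p] L]
    (hL : h78_Stable p L) (ζ : Ω) (hζL : ζ ∈ L) (hζp : ζ ^ p = 1) (hζ1 : ζ ≠ 1)
    {k : Type} [Field k] [Finite k] [CharP k p] (χ : h78_G p →* kˣ)
    (hχJ : ∀ s ∈ h78_J p L, ∀ n : ℕ, s ζ = ζ ^ n → ((χ s : kˣ) : k) = (n : k))
    (hχL : ∀ g ∈ L.fixingSubgroup, χ g = 1)
    (C : Submodule k (h78_G p → k))
    (hC : ∀ c ∈ C, ∀ s t, c (s * t) = c s + ((χ s : kˣ) : k) * c t)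
    (hCL : ∀ c ∈ C, ∀ g ∈ L.fixingSubgroup, c g = 0)
    (hunit : ∀ c ∈ C, ∀ ℓ : k →+ ZMod p, ∃ v ∈ L, ‖v‖ = 1 ∧ v ^ p ∈ h78_K0 p L ∧
      ∀ s ∈ h78_J p L, s ζ = ζ → s v = ζ ^ (ℓ (c s)).val * v) :
    ∀ c₁ ∈ C, ∀ c₂ ∈ C, ∃ x₁ x₂ y : k, (x₁ ≠ 0 ∨ x₂ ≠ 0) ∧
      ∀ g, x₁ * c₁ g + x₂ * c₂ g = y * (((χ g : kˣ) : k) - 1) := by
  classical
  have hp : p.Prime := Fact.out
  have : Fintype k := Fintype.ofFinite k
  -- a nonzero additive functional
  obtain ⟨ℓ0, hℓ0⟩ : ∃ ℓ0 : k →+ ZMod p, ℓ0 1 ≠ 0 := by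
    let _ : Algebra (ZMod p) k := ZMod.algebra k p
    have h1 : ¬ ∀ f : Module.Dual (ZMod p) k, f 1 = 0 := fun h =>
      one_ne_zero ((Module.forall_dual_apply_eq_zero_iff (ZMod p) (1 : k)).1 h)
    push Not at h1
    obtain ⟨f, hf⟩ := h1
    exact ⟨f.toAddMonoidHom, hf⟩
  -- generators
  have hex : ∀ c ∈ C, ∃ v, h11_IsKG p L ζ (fun s => ℓ0 (c s)) v := by
    intro c hc
    obtain ⟨v, h1, h2, h3, h4⟩ := hunit c hc ℓ0
    exact ⟨v, h1, h2, h3, h4⟩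
  -- the leading coefficient map
  let E : (h78_G p → k) → h93_resk p L := fun c =>
    if hc : c ∈ C then h36_fq p L ((Classical.choose (hex c hc)) ^ p) else 0
  have hE : ∀ c (hc : c ∈ C) (v : Ω), h11_IsKG p L ζ (fun s => ℓ0 (c s)) v →
      E c = h36_fq p L (v ^ p) := by
    intro c hc v hv
    simp only [E, dif_pos hc]
    exact h11_kg_wd p L hL ζ hζp hζ1 _ _ _ (Classical.choose_spec (hex c hc)) hv
  -- the Frobenius
  obtain ⟨φ, hφ⟩ := h88_sk_exists_frob p L hL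
  obtain ⟨n, hn⟩ := h88_exists_cyclo_exp p ζ hζp hζ1 φ
  -- `χ = 1` on `J₁`
  have hχ1 : ∀ s ∈ h78_J p L, s ζ = ζ → ((χ s : kˣ) : k) = 1 := by
    intro s hs hsζ
    have := hχJ s hs 1 (by rw [pow_one]; exact hsζ)
    simpa using this
  -- cocycles vanish at `1`
  have hc1 : ∀ c ∈ C, c 1 = 0 := by
    intro c hc
    have h1 := hC c hc 1 1
    rw [mul_one, map_one, Units.val_one, one_mul] at h1
    exact left_eq_add.mp h1
  -- conjugation by the Frobenius on `J₁`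
  have hconj : ∀ c ∈ C, ∀ s ∈ h78_J p L, s ζ = ζ →
      c (φ⁻¹ * s * φ) = ((χ φ⁻¹ : kˣ) : k) * c s := by
    intro c hc s hs hsζ
    have h1 := hC c hc (φ⁻¹ * s) φ
    have h2 := hC c hc φ⁻¹ s
    have h3 := hC c hc φ⁻¹ φ
    rw [inv_mul_cancel, hc1 c hc] at h3
    rw [h1, h2, map_mul, Units.val_mul, hχ1 s hs hsζ]
    linear_combination -h3
  refine fun c₁ hc₁ c₂ hc₂ => h11_red_dep_chi p (kF := h93_resk p L)
    (fun g => ((χ g : kˣ) : k)) C E ((n : k) * ((χ φ⁻¹ : kˣ) : k)) ?_ ?_ ?_ c₁ c₂ hc₁ hc₂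
  · -- additivity
    intro z hz z' hz'
    obtain ⟨v, hv⟩ := hex z hz
    obtain ⟨v', hv'⟩ := hex z' hz'
    have hvv := h11_kg_mul p L ζ hζp _ _ v v' hv hv'
    have hvv' : h11_IsKG p L ζ (fun s => ℓ0 ((z + z') s)) (v * v') :=
      h11_kg_congr p L ζ _ _ _ hvv (fun s _ _ => by rw [Pi.add_apply, map_add])
    rw [hE _ (C.add_mem hz hz') _ hvv', hE z hz v hv, hE z' hz' v' hv', mul_pow]
    exact h36_fq_mul p L _ _ hv.2.2.1 (by rw [norm_pow, hv.2.1, one_pow]) hv'.2.2.1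
      (by rw [norm_pow, hv'.2.1, one_pow])
  · -- Frobenius
    intro z hz
    obtain ⟨v, hv⟩ := hex z hz
    have hφv := h11_kg_frob p L hL ζ hζp _ v hv φ n hn
    have hφv' : h11_IsKG p L ζ
        (fun s => ℓ0 ((((n : k) * ((χ φ⁻¹ : kˣ) : k)) • z) s)) (φ v) := by
      refine h11_kg_congr p L ζ _ _ _ hφv (fun s hs hsζ => ?_)
      show (n : ZMod p) * ℓ0 (z (φ⁻¹ * s * φ)) = ℓ0 ((((n : k) * ((χ φ⁻¹ : kˣ) : k)) • z) s)
      rw [hconj z hz s hs hsζ, Pi.smul_apply, smul_eq_mul, mul_assoc, ← nsmul_eq_mul,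
        ← nsmul_eq_mul, map_nsmul]
    rw [hE _ (C.smul_mem _ hz) _ hφv', hE z hz v hv, ← map_pow]
    exact h36_fq_frob p L hL φ hφ _ hv.2.2.1 (by rw [norm_pow, hv.2.1, one_pow])
  · -- kernel
    intro z hz hz0
    -- `z` vanishes on `J₁`
    have hzJ1 : ∀ s ∈ h78_J p L, s ζ = ζ → z s = 0 := by
      intro s hs hsζ
      by_contra hne
      have hcz : (1 / z s) • z ∈ C := C.smul_mem _ hz
      obtain ⟨v, hv⟩ := hex _ hcz
      have h1 : h36_fq p L (v ^ p) = 0 := by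
        rw [← hE _ hcz v hv]
        exact hz0 _
      have h2 := (h36_fq_eq_zero_iff p L hL ζ hζL hζp hζ1 v hv.1 hv.2.1 hv.2.2.1).1 h1 s hs hsζ
      have h3 := hv.2.2.2 s hs hsζ
      rw [h2] at h3
      have hv0 : v ≠ 0 := by
        intro h
        have := hv.2.1
        rw [h, norm_zero] at this
        exact zero_ne_one this
      have h4 : ζ ^ (ℓ0 (((1 / z s) • z) s)).val = 1 := by
        have h5 : (1 : Ω) * v = ζ ^ (ℓ0 (((1 / z s) • z) s)).val * v := by rw [one_mul]; exact h3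
        exact (mul_right_cancel₀ hv0 h5).symm
      have h6 := h11_zeta_val_eq_one p ζ hζp hζ1 _ h4
      rw [Pi.smul_apply, smul_eq_mul, one_div, inv_mul_cancel₀ hne] at h6
      exact hℓ0 h6
    obtain ⟨τ, hτJ, hτ2, -⟩ := h88_exists_J_zeta_ne p hp2 L ζ hζp hζ1
    refine h11_red_res_inj (fun g => ((χ g : kˣ) : k))
      (fun s t => by rw [map_mul, Units.val_mul]) (fun g => (χ g).ne_zero) z (hC z hz)
      (h78_J p L) τ (fun g => h88_sk_comm_mem_J p L hL g τ) ?_ ?_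
    · have h2 := hχJ τ hτJ 2 hτ2
      rw [h2]
      intro h
      have h3 : (1 : k) = 0 := by
        have h4 : ((2 : ℕ) : k) = 1 + 1 := by norm_num
        rw [h4] at h
        exact add_eq_right.mp h
      exact one_ne_zero h3
    · intro s hs hχs
      obtain ⟨m, hm⟩ := h88_exists_cyclo_exp p ζ hζp hζ1 s
      have h1 := hχJ s hs m hm
      rw [hχs] at h1
      have h2 : ((1 : ℕ) : k) = (m : k) := by rw [Nat.cast_one]; exact h1
      have h3 : 1 ≡ m [MOD p] := (CharP.natCast_eq_natCast k p).1 h2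
      have h4 : s ζ = ζ := by
        rw [hm]
        have := (h88_zeta_pow_eq_iff p ζ hζp hζ1 m 1).2 h3.symm
        rwa [pow_one] at this
      exact hzJ1 s hs h4

end Fermat.Agent.S56
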