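/-
S56 / W3 / E-RED, row RED-S3, parts TYPE and (NS) (helper44).

Everything here is linear algebra on `V_a = k² × k²` with the action `h78_act p rb a`, against one
abstract proposition `h44_RedPts` which carries the outputs [C], [D], [A], [KL2] of rows
RED-S1 / RED-S2 transported to `k² × k²` through the point equivalence `e` of the flat datum:

* `V1` = points `≡ 1` modulo the maximal ideal, `T` = points `≡ 1` modulo `ζ - 1`;
* [C]   `(s - 1) y ∈ V1` for `s ∈ J`;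
* [D]   a point of `V1` fixed by `J₁ = {s ∈ J | s ζ = ζ}` lies in `T`;
* [A]   `s y = n • y` for `y ∈ T`, `s ∈ J`, `s ζ = ζ ^ n`;
* [KL2] `Z ≤ T` a `J`-stable subgroup, `y ∈ V1` with `(s - 1) y ∈ Z` for all `s ∈ J`: then `y ∈ Z`.

Results:
* `h44_red_span` : the `k`-span of `(J - 1) V` is contained in `V1`;
* `h44_red_NS`   : (NS) for `rb` upper triangular with `χ₁|J = ω`, `χ₂|J = 1`: a point `(0, w)` of
  `V1` has `w 1 = 0`;
* `h44_red_type` : TYPE: there is a stable line whose character is `ω` on `J`.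
-/
import Mathlib
import Fermat.Agent.S56.h78_W3Defs

set_option autoImplicit false

namespace Fermat.Agent.S56

variable (p : ℕ) [Fact p.Prime]

local notation "Ω" => PadicAlgCl p

/-- abstract form, on `V_a = k² × k²`, of the outputs [C], [D], [A], [KL2] of RED-S1 / RED-S2
for one flat lift `rb + ε a`. -/
structure h44_RedPts {k : Type} [Field k] (rb a : h78_G p → Matrix (Fin 2) (Fin 2) k)
    (J : Subgroup (h78_G p)) (ζ : Ω) (V1 T : Set ((Fin 2 → k) × (Fin 2 → k))) : Prop where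
  zero_mem : (0 : (Fin 2 → k) × (Fin 2 → k)) ∈ V1
  add_mem : ∀ x ∈ V1, ∀ y ∈ V1, x + y ∈ V1
  hC : ∀ s ∈ J, ∀ y, h78_act p rb a s y - y ∈ V1
  hD : ∀ y ∈ V1, (∀ s ∈ J, s ζ = ζ → h78_act p rb a s y = y) → y ∈ T
  hA : ∀ y ∈ T, ∀ s ∈ J, ∀ n : ℕ, s ζ = ζ ^ n → h78_act p rb a s y = n • y
  hKL2 : ∀ Z : AddSubgroup ((Fin 2 → k) × (Fin 2 → k)), (∀ z ∈ Z, z ∈ T) →
    (∀ s ∈ J, ∀ z ∈ Z, h78_act p rb a s z ∈ Z) →
    ∀ y ∈ V1, (∀ s ∈ J, h78_act p rb a s y - y ∈ Z) → y ∈ Z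

section Act

variable {k : Type} [Field k] (rb a : h78_G p → Matrix (Fin 2) (Fin 2) k)

theorem h44_act_zero_left (s : h78_G p) (w : Fin 2 → k) :
    h78_act p rb a s ((0 : Fin 2 → k), w) = ((0 : Fin 2 → k), (rb s).mulVec w) := by
  simp [h78_act]

theorem h44_act_zero (s : h78_G p) :
    h78_act p rb a s (0 : (Fin 2 → k) × (Fin 2 → k)) = 0 := by
  simp [h78_act]

theorem h44_act_smul (s : h78_G p) (c : k) (y : (Fin 2 → k) × (Fin 2 → k)) :
    h78_act p rb a s (c • y) = c • h78_act p rb a s y := by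
  simp only [h78_act, Prod.smul_fst, Prod.smul_snd, Matrix.mulVec_smul, Prod.smul_mk, smul_add]

theorem h44_act_add (s : h78_G p) (x y : (Fin 2 → k) × (Fin 2 → k)) :
    h78_act p rb a s (x + y) = h78_act p rb a s x + h78_act p rb a s y := by
  simp only [h78_act, Prod.fst_add, Prod.snd_add, Matrix.mulVec_add, Prod.mk_add_mk]
  congr 1
  abel

/-- the `k`-span of `(J - 1) V` lies in `V1`. -/
theorem h44_red_span {J : Subgroup (h78_G p)} {ζ : Ω} {V1 T : Set ((Fin 2 → k) × (Fin 2 → k))}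
    (hpts : h44_RedPts p rb a J ζ V1 T) (x : (Fin 2 → k) × (Fin 2 → k))
    (hx : x ∈ Submodule.span k {x | ∃ s ∈ J, ∃ y, x = h78_act p rb a s y - y}) : x ∈ V1 := by
  have key : ∀ c : k, c • x ∈ V1 := by
    induction hx using Submodule.span_induction with
    | mem x hx =>
      obtain ⟨s, hs, y, rfl⟩ := hx
      intro c
      rw [smul_sub, ← h44_act_smul]
      exact hpts.hC s hs _
    | zero =>
      intro c
      rw [smul_zero]
      exact hpts.zero_mem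
    | add x y _ _ hx hy =>
      intro c
      rw [smul_add]
      exact hpts.add_mem _ (hx c) _ (hy c)
    | smul r x _ hx =>
      intro c
      rw [smul_smul]
      exact hx _
  simpa using key 1

/-- scalar multiples of `(s - 1) y`, `s ∈ J`, lie in `V1`. -/
theorem h44_red_smul_mem {J : Subgroup (h78_G p)} {ζ : Ω}
    {V1 T : Set ((Fin 2 → k) × (Fin 2 → k))} (hpts : h44_RedPts p rb a J ζ V1 T)
    (s : h78_G p) (hs : s ∈ J) (c : k) (y : (Fin 2 → k) × (Fin 2 → k)) :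
    c • (h78_act p rb a s y - y) ∈ V1 := by
  rw [smul_sub, ← h44_act_smul]
  exact hpts.hC s hs _

/-- `0 ∈ T`. -/
theorem h44_red_zero_mem_T {J : Subgroup (h78_G p)} {ζ : Ω}
    {V1 T : Set ((Fin 2 → k) × (Fin 2 → k))} (hpts : h44_RedPts p rb a J ζ V1 T) :
    (0 : (Fin 2 → k) × (Fin 2 → k)) ∈ T :=
  hpts.hD 0 hpts.zero_mem fun s _ _ => h44_act_zero p rb a s

/-- **(NS)**: for `rb` upper triangular with `χ₁|J = ω` and `χ₂|J = 1`, a point `(0, w)` of `V1`
has `w 1 = 0`. -/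
theorem h44_red_NS {J : Subgroup (h78_G p)} {ζ : Ω} {V1 T : Set ((Fin 2 → k) × (Fin 2 → k))}
    (hpts : h44_RedPts p rb a J ζ V1 T) (hU : ∀ g, rb g 1 0 = 0)
    (hχ1 : ∀ g ∈ J, ∀ n : ℕ, g ζ = ζ ^ n → rb g 0 0 = (n : k))
    (hχ2 : ∀ g ∈ J, rb g 1 1 = 1) (hs₀ : ∃ s₀ ∈ J, s₀ ζ = ζ ^ 2)
    (w : Fin 2 → k) (hw : ((0 : Fin 2 → k), w) ∈ V1) : w 1 = 0 := by
  obtain ⟨s₀, hs₀J, hs₀ζ⟩ := hs₀
  let Z : AddSubgroup ((Fin 2 → k) × (Fin 2 → k)) :=
    { carrier := {y | y.1 = 0 ∧ y.2 1 = 0}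
      add_mem' := by
        rintro x y ⟨hx1, hx2⟩ ⟨hy1, hy2⟩
        refine ⟨?_, ?_⟩
        · rw [Prod.fst_add, hx1, hy1, add_zero]
        · rw [Prod.snd_add, Pi.add_apply, hx2, hy2, add_zero]
      zero_mem' := ⟨rfl, rfl⟩
      neg_mem' := by
        rintro x ⟨hx1, hx2⟩
        refine ⟨?_, ?_⟩
        · rw [Prod.fst_neg, hx1, neg_zero]
        · rw [Prod.snd_neg, Pi.neg_apply, hx2, neg_zero] }
  have hZmem : ∀ y : (Fin 2 → k) × (Fin 2 → k), y ∈ Z ↔ y.1 = 0 ∧ y.2 1 = 0 := fun y => Iff.rfl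
  have hmv : ∀ (s : h78_G p) (u : Fin 2 → k), ((rb s).mulVec u) 1 = rb s 1 1 * u 1 := by
    intro s u
    simp [Matrix.mulVec, dotProduct, Fin.sum_univ_two, hU s]
  have hmv0 : ∀ (s : h78_G p) (u : Fin 2 → k), u 1 = 0 →
      ((rb s).mulVec u) 0 = rb s 0 0 * u 0 := by
    intro s u hu
    simp [Matrix.mulVec, dotProduct, Fin.sum_univ_two, hu]
  have hZT : ∀ z ∈ Z, z ∈ T := by
    rintro ⟨z1, z2⟩ ⟨hz1, hz2⟩
    simp only at hz1 hz2
    subst hz1
    apply hpts.hD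
    · -- `(0, z2) = (s₀ - 1) (0, z2)` since `χ₁ s₀ - 1 = 1`
      have h2 : rb s₀ 0 0 = ((2 : ℕ) : k) := hχ1 s₀ hs₀J 2 hs₀ζ
      have h3 : h78_act p rb a s₀ ((0 : Fin 2 → k), z2) - ((0 : Fin 2 → k), z2) =
          ((0 : Fin 2 → k), z2) := by
        rw [h44_act_zero_left]
        refine Prod.ext (by simp) ?_
        funext i
        fin_cases i
        · simp only [Prod.snd_sub, Pi.sub_apply, Fin.zero_eta]
          rw [hmv0 s₀ z2 hz2, h2]
          push_cast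
          ring
        · simp only [Prod.snd_sub, Pi.sub_apply, Fin.mk_one]
          rw [hmv s₀ z2, hz2]
          ring
      rw [← h3]
      exact hpts.hC s₀ hs₀J _
    · intro s hs hsζ
      have h1 : rb s 0 0 = ((1 : ℕ) : k) := hχ1 s hs 1 (by rw [pow_one]; exact hsζ)
      rw [h44_act_zero_left]
      refine Prod.ext rfl ?_
      funext i
      fin_cases i
      · simp only [Fin.zero_eta]
        rw [hmv0 s z2 hz2, h1]
        push_cast
        ring
      · simp only [Fin.mk_one]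
        rw [hmv s z2, hz2, mul_zero]
  have hZJ : ∀ s ∈ J, ∀ z ∈ Z, h78_act p rb a s z ∈ Z := by
    rintro s hs ⟨z1, z2⟩ ⟨hz1, hz2⟩
    simp only at hz1 hz2
    subst hz1
    rw [h44_act_zero_left, hZmem]
    refine ⟨rfl, ?_⟩
    simp only
    rw [hmv s z2, hz2, mul_zero]
  have hy : ∀ s ∈ J, h78_act p rb a s ((0 : Fin 2 → k), w) - ((0 : Fin 2 → k), w) ∈ Z := by
    intro s hs
    rw [h44_act_zero_left, hZmem]
    refine ⟨by simp, ?_⟩
    simp only [Prod.snd_sub, Pi.sub_apply]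
    rw [hmv s w, hχ2 s hs, one_mul, sub_self]
  exact ((hZmem _).1 (hpts.hKL2 Z hZT hZJ _ hw hy)).2

end Act

end Fermat.Agent.S56
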