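import Fermat.Agent.S56.h78_W3Defs
import Fermat.Agent.S55.h66_LocCycUnr
import Fermat.Agent.S55.h6_LocTeichU
import Fermat.Agent.S55.h63_LocTower

/-!
# S56 / W3-B3b: `K₀(L)` is unramified (helper57; transport from the S55 LOC layer)

`sk_K0_unram` of helper78's W3 skeleton, verbatim: every nonzero element of
`K₀(L) = ℚ_p(prime-to-p roots of unity of L)` has norm in `p^ℤ`.

Proof: every prime-to-`p` root of unity of `L` is a power of one primitive `(Q_L - 1)`-th root of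
unity `ζ` (S55: `h6_exists_primitiveRoot`, `h66_dvd_card_sub_one`), so `K₀(L) ≤ ℚ_p(ζ)`, a
cyclotomic extension of order prime to `p`, which is unramified by `h66_cyc_unram`:
`f = [ℚ_p(ζ) : ℚ_p]`, hence `‖x‖ = p ^ (-ord x)` by `h63_spectralNorm_pow_unit`.
-/

set_option autoImplicit false

noncomputable section

namespace Fermat.Agent.S56

open Fermat.Agent.S55

variable (p : ℕ) [Fact p.Prime]

local notation "Ω" => PadicAlgCl p
local notation "Fld" => IntermediateField ℚ_[p] (PadicAlgCl p)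

/-- an abstract finite extension with `f = n` has value group `p^ℤ`. -/
theorem h57_norm_of_resDeg_eq (K : Type*) [Field K] [Algebra ℚ_[p] K] [FiniteDimensional ℚ_[p] K]
    (h : h63_resDeg p K = Module.finrank ℚ_[p] K) (x : K) (hx : x ≠ 0) :
    ∃ n : ℤ, spectralNorm ℚ_[p] K x = (p : ℝ) ^ n := by
  have hp0 : (0 : ℝ) < p := by exact_mod_cast (Fact.out : p.Prime).pos
  have hN : Module.finrank ℚ_[p] K ≠ 0 := Module.finrank_pos.ne'
  have h1 := h63_spectralNorm_pow_unit p (Units.mk0 x hx)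
  rw [Units.val_mk0, h] at h1
  refine ⟨-h63_ord p K (Units.mk0 x hx), ?_⟩
  have h2 : (p : ℝ) ^ (-(((Module.finrank ℚ_[p] K : ℕ) : ℤ) * h63_ord p K (Units.mk0 x hx))) =
      ((p : ℝ) ^ (-h63_ord p K (Units.mk0 x hx))) ^ Module.finrank ℚ_[p] K := by
    rw [← zpow_natCast, ← zpow_mul]
    congr 1
    ring
  rw [h2] at h1
  exact (pow_left_inj₀ (spectralNorm_nonneg _) (zpow_nonneg hp0.le _) hN).1 h1

/-- the norm of `Ω` restricted to a subfield is the spectral norm of the subfield. -/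
theorem h57_norm_eq_spectralNorm (E : Fld) (x : E) :
    ‖(x : Ω)‖ = spectralNorm ℚ_[p] E x := by
  rw [spectralNorm.eq_of_tower (L := PadicAlgCl p) x]
  rfl

/-- a cyclotomic extension of `ℚ_p` of order prime to `p` inside `Ω` has value group `p^ℤ`. -/
theorem h57_cyc_norm (E : Fld) [FiniteDimensional ℚ_[p] E] (m : ℕ) (hm : m.Coprime p)
    [IsCyclotomicExtension {m} ℚ_[p] E] (c : Ω) (hc : c ∈ E) (hc0 : c ≠ 0) :
    ∃ n : ℤ, ‖c‖ = (p : ℝ) ^ n := by
  have hunr : h63_resDeg p E = Module.finrank ℚ_[p] E := by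
    have h1 := h66_cyc_unram p ℚ_[p] E m hm
    rwa [h63_relResDeg_base] at h1
  obtain ⟨n, hn⟩ := h57_norm_of_resDeg_eq p E hunr ⟨c, hc⟩
    (fun h => hc0 (congrArg Subtype.val h))
  refine ⟨n, ?_⟩
  rw [← hn]
  exact h57_norm_eq_spectralNorm p E ⟨c, hc⟩

/-- every prime-to-`p` root of unity of `L` is a power of a primitive `(Q_L - 1)`-th root. -/
theorem h57_root_eq_pow (L : Fld) [FiniteDimensional ℚ_[p] L] (ζ : L)
    (hζ : IsPrimitiveRoot ζ (h63_resCard p L - 1)) (η : L) (n : ℕ) (hn0 : 0 < n)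
    (hpn : ¬ p ∣ n) (hηn : η ^ n = 1) : ∃ i : ℕ, η = ζ ^ i := by
  have hpp : p.Prime := Fact.out
  have hdn : orderOf η ∣ n := orderOf_dvd_of_pow_eq_one hηn
  have hd0 : orderOf η ≠ 0 := fun h0 => by
    rw [h0] at hdn
    exact hn0.ne' (Nat.eq_zero_of_zero_dvd hdn)
  have hdcop : (orderOf η).Coprime p := by
    rw [Nat.coprime_comm, Nat.Prime.coprime_iff_not_dvd hpp]
    exact fun hpd => hpn (hpd.trans hdn)
  have hprim : IsPrimitiveRoot η (orderOf η) := IsPrimitiveRoot.orderOf η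
  have hmemO : η ∈ h63_O p L := h66_root_mem (h63_O p L) η n hn0.ne' hηn
  have hdvd : orderOf η ∣ h63_resCard p L - 1 :=
    h66_dvd_card_sub_one p L (orderOf η) hd0
      (fun ξ hξ h1 => h6_root_sub_one p L (orderOf η) hdcop ξ hξ h1)
      (h69_resField_card p L) ⟨η, hmemO⟩ hprim
  have hηm : η ^ (h63_resCard p L - 1) = 1 := by
    obtain ⟨r, hr⟩ := hdvd
    rw [hr, pow_mul, pow_orderOf_eq_one, one_pow]
  have hm0 : h63_resCard p L - 1 ≠ 0 := by
    have := h6_two_le_resCard p L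
    omega
  have : NeZero (h63_resCard p L - 1) := ⟨hm0⟩
  obtain ⟨i, -, hi⟩ := hζ.eq_pow_of_pow_eq_one hηm
  exact ⟨i, hi.symm⟩

/-- **W3-B3.2** (`sk_K0_unram`): `K₀(L)` is unramified. -/
theorem h57_K0_unram (L : Fld) [FiniteDimensional ℚ_[p] L] (c : Ω) (hc : c ∈ h78_K0 p L)
    (hc0 : c ≠ 0) : ∃ n : ℤ, ‖c‖ = (p : ℝ) ^ n := by
  -- a primitive `(Q_L - 1)`-th root of unity of `L`
  obtain ⟨ζ, hζ⟩ := h6_exists_primitiveRoot p (↥L)
  have hmcop : (h63_resCard p (↥L) - 1).Coprime p := h6_resCard_pred_coprime p (↥L)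
  have hm0 : h63_resCard p (↥L) - 1 ≠ 0 := by
    have := h6_two_le_resCard p (↥L)
    omega
  have hne : NeZero (h63_resCard p (↥L) - 1) := ⟨hm0⟩
  have hζΩ : IsPrimitiveRoot (ζ : Ω) (h63_resCard p (↥L) - 1) :=
    hζ.map_of_injective (f := algebraMap (↥L) Ω) (algebraMap (↥L) Ω).injective
  -- `K₀(L) ≤ ℚ_p(ζ)`
  have hle : h78_K0 p L ≤ IntermediateField.adjoin ℚ_[p] {(ζ : Ω)} := by
    refine IntermediateField.adjoin_le_iff.2 ?_
    rintro η ⟨hηL, n, hn0, hpn, hηn⟩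
    obtain ⟨i, hi⟩ := h57_root_eq_pow p L ζ hζ ⟨η, hηL⟩ n hn0 hpn (Subtype.ext hηn)
    have hηeq : η = (ζ : Ω) ^ i := by
      have h := congrArg (fun z : (↥L) => (z : Ω)) hi
      simp only [SubmonoidClass.coe_pow] at h
      exact h
    have hζmem : (ζ : Ω) ∈ IntermediateField.adjoin ℚ_[p] {(ζ : Ω)} :=
      IntermediateField.mem_adjoin_simple_self ℚ_[p] _
    have hpow : (ζ : Ω) ^ i ∈ IntermediateField.adjoin ℚ_[p] {(ζ : Ω)} := pow_mem hζmem i
    rw [hηeq]
    exact hpow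
  have hcyc : IsCyclotomicExtension {h63_resCard p (↥L) - 1} ℚ_[p]
      (IntermediateField.adjoin ℚ_[p] {(ζ : Ω)}) :=
    hζΩ.intermediateField_adjoin_isCyclotomicExtension ℚ_[p]
  have hfin : FiniteDimensional ℚ_[p] (IntermediateField.adjoin ℚ_[p] {(ζ : Ω)}) :=
    IntermediateField.adjoin.finiteDimensional (Algebra.IsIntegral.isIntegral _)
  exact h57_cyc_norm p _ _ hmcop c (hle hc) hc0

end Fermat.Agent.S56

end
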