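import Fermat.Agent.S56.h71_ConvLift

/-!
# S56 / W3-A: transfer of `p`-torsion points along an approximate ring hom (abstract `(P_m)`)

(helper71; step (1) of the W3 proposal #2225, in ring language, Mathlib only.)

`H` is a finite free commutative cocommutative bialgebra over `O`.  `T` (think `O_L`) and `S`
(think `O_E`) are `O`-algebras, `S` is `ϖ`-adically separated and complete, `p = ϖ^e * unit`,
`(p - 1) k > e`, and `φ : T → S ⧸ I` is an `O`-algebra hom with `I ⊆ (p ϖ^k)`.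

* `h71_transfer_existsUnique` : every point `γ : H → T` killed by `p` has a unique companion
  `f : H → S` killed by `p` with `f ≡ φ ∘ γ` modulo `ϖ^k`.
* `h71_transfer_injective`    : `γ ↦ f` is injective as soon as `φ` reflects congruences
  (`hφ`) and `T` satisfies the uniqueness hypotheses for some `ϖT`, `kT`.
* `h71_exists_transfer`       : the packaged injection between the sets of points killed by `p`.
* `h71_points_factor`         : the conclusion `L ⊆ E` of `(P_m)` in ring language: if `T` and `S`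
  both embed in `Ω`, every point of `H` in `Ω` killed by `p` has values in `T`, and the set of
  points of `H` in `Ω` is finite, then every point of `H` in `Ω` killed by `p` has values in `S`.
* `h71_dvr_reflect`           : for discrete valuation rings the hypothesis `hφ` is automatic
  (a ring hom `T → S ⧸ (ϖ^M)`, `M > v_S(p)`, multiplies valuations by `e_S / e_T`).
* `h71_points_factor_dvr`     : `(P_m)` for DVRs: `S` a complete DVR, `T` a DVR, `p ≠ 0` in both,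
  `φ : T → S ⧸ I` an `O`-algebra hom with `I ⊆ (ϖ^M)` and `(p - 1) M > p v_S(p)`; same conclusion
  as `h71_points_factor`, no other hypothesis on `φ`.
-/

set_option autoImplicit false

namespace Fermat.Agent.S56

open WithConv

section transfer
variable {O : Type*} [CommRing O] {H : Type*} [CommRing H] [Bialgebra O H]
  [Coalgebra.IsCocomm O H] [Module.Free O H] [Module.Finite O H]
  {S : Type*} [CommRing S] [Algebra O S] {T : Type*} [CommRing T] [Algebra O T]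

/-- Existence and uniqueness of the companion point. -/
theorem h71_transfer_existsUnique (p : ℕ) (hp : p.Prime) (ϖ u : S) (e k : ℕ) (hu : IsUnit u)
    (hpe : (p : S) = ϖ ^ e * u) (hk : e < (p - 1) * k)
    (hreg : ∀ z : S, ϖ * z = 0 → z = 0)
    (hH : ∀ z : S, (∀ n : ℕ, ϖ ^ n ∣ z) → z = 0)
    (hP : ∀ f : ℕ → S, (∀ n, ϖ ^ n ∣ f (n + 1) - f n) → ∃ L, ∀ n, ϖ ^ n ∣ L - f n)
    (I : Ideal S) (hI : ∀ x ∈ I, (p : S) * ϖ ^ k ∣ x)
    (φ : T →ₐ[O] S ⧸ I) (γ : H →ₐ[O] T)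
    (hγ : (toConv γ.toLinearMap : WithConv (H →ₗ[O] T)) ^ p = 1) :
    ∃! f : H →ₐ[O] S, (toConv f.toLinearMap : WithConv (H →ₗ[O] S)) ^ p = 1 ∧
      ∀ (h : H) (s : S), Ideal.Quotient.mk I s = φ (γ h) → ϖ ^ k ∣ f h - s := by
  obtain ⟨f, hf1, hf2⟩ := h71_lift_point_of_pow p hp ϖ u e k hu hpe hk hreg hH hP I hI
    (φ.comp γ) (h71_pow_comp p φ γ hγ)
  refine ⟨f, ⟨hf1, fun h s hs => hf2 h s hs⟩, ?_⟩
  rintro f' ⟨hf'1, hf'2⟩
  refine h71_point_unique_of_pow p hp ϖ u e k hu hpe hk hreg hH f' f hf'1 hf1 ?_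
  intro h
  obtain ⟨s, hs⟩ := Ideal.Quotient.mk_surjective (φ (γ h))
  have h1 := hf'2 h s hs
  have h2 := hf2 h s hs
  have : f' h - f h = (f' h - s) - (f h - s) := by ring
  rw [this]
  exact dvd_sub h1 h2

/-- Injectivity of the transfer: two points of `T` killed by `p` with a common companion are
equal, provided `φ` reflects congruences. -/
theorem h71_transfer_injective (p : ℕ) (hp : p.Prime) (ϖ : S) (k : ℕ)
    (I : Ideal S)
    (ϖT uT : T) (eT kT : ℕ) (huT : IsUnit uT) (hpeT : (p : T) = ϖT ^ eT * uT)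
    (hkT : eT < (p - 1) * kT)
    (hregT : ∀ z : T, ϖT * z = 0 → z = 0)
    (hHT : ∀ z : T, (∀ n : ℕ, ϖT ^ n ∣ z) → z = 0)
    (φ : T →ₐ[O] S ⧸ I)
    (hφ : ∀ t : T, (∀ s : S, Ideal.Quotient.mk I s = φ t → ϖ ^ k ∣ s) → ϖT ^ kT ∣ t)
    (γ γ' : H →ₐ[O] T)
    (hγ : (toConv γ.toLinearMap : WithConv (H →ₗ[O] T)) ^ p = 1)
    (hγ' : (toConv γ'.toLinearMap : WithConv (H →ₗ[O] T)) ^ p = 1)
    (f : H →ₐ[O] S)
    (hf : ∀ (h : H) (s : S), Ideal.Quotient.mk I s = φ (γ h) → ϖ ^ k ∣ f h - s)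
    (hf' : ∀ (h : H) (s : S), Ideal.Quotient.mk I s = φ (γ' h) → ϖ ^ k ∣ f h - s) :
    γ = γ' := by
  refine h71_point_unique_of_pow p hp ϖT uT eT kT huT hpeT hkT hregT hHT γ γ' hγ hγ' ?_
  intro h
  apply hφ
  intro s hs
  obtain ⟨s1, hs1⟩ := Ideal.Quotient.mk_surjective (φ (γ h))
  have h1 := hf h s1 hs1
  have h2 : Ideal.Quotient.mk I (s1 - s) = φ (γ' h) := by
    rw [map_sub, hs1, hs, map_sub]
    ring
  have h3 := hf' h (s1 - s) h2
  have : s = (f h - (s1 - s)) - (f h - s1) := by ring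
  rw [this]
  exact dvd_sub h3 h1

/-- The packaged transfer: an injection from the points of `H` in `T` killed by `p` to the points
of `H` in `S` killed by `p`, compatible with `φ` modulo `ϖ^k`. -/
theorem h71_exists_transfer (p : ℕ) (hp : p.Prime) (ϖ u : S) (e k : ℕ) (hu : IsUnit u)
    (hpe : (p : S) = ϖ ^ e * u) (hk : e < (p - 1) * k)
    (hreg : ∀ z : S, ϖ * z = 0 → z = 0)
    (hH : ∀ z : S, (∀ n : ℕ, ϖ ^ n ∣ z) → z = 0)
    (hP : ∀ f : ℕ → S, (∀ n, ϖ ^ n ∣ f (n + 1) - f n) → ∃ L, ∀ n, ϖ ^ n ∣ L - f n)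
    (I : Ideal S) (hI : ∀ x ∈ I, (p : S) * ϖ ^ k ∣ x)
    (ϖT uT : T) (eT kT : ℕ) (huT : IsUnit uT) (hpeT : (p : T) = ϖT ^ eT * uT)
    (hkT : eT < (p - 1) * kT)
    (hregT : ∀ z : T, ϖT * z = 0 → z = 0)
    (hHT : ∀ z : T, (∀ n : ℕ, ϖT ^ n ∣ z) → z = 0)
    (φ : T →ₐ[O] S ⧸ I)
    (hφ : ∀ t : T, (∀ s : S, Ideal.Quotient.mk I s = φ t → ϖ ^ k ∣ s) → ϖT ^ kT ∣ t) :
    ∃ Φ : {γ : H →ₐ[O] T // (toConv γ.toLinearMap : WithConv (H →ₗ[O] T)) ^ p = 1} →
        {f : H →ₐ[O] S // (toConv f.toLinearMap : WithConv (H →ₗ[O] S)) ^ p = 1},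
      Function.Injective Φ ∧
      ∀ γ (h : H) (s : S), Ideal.Quotient.mk I s = φ (γ.1 h) → ϖ ^ k ∣ (Φ γ).1 h - s := by
  classical
  have key := fun γ : {γ : H →ₐ[O] T // (toConv γ.toLinearMap : WithConv (H →ₗ[O] T)) ^ p = 1} =>
    (h71_transfer_existsUnique p hp ϖ u e k hu hpe hk hreg hH hP I hI φ γ.1 γ.2).exists
  choose F hF1 hF2 using key
  refine ⟨fun γ => ⟨F γ, hF1 γ⟩, ?_, fun γ h s hs => hF2 γ h s hs⟩
  intro γ γ' hγγ'
  have hFF : F γ = F γ' := congrArg Subtype.val hγγ'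
  apply Subtype.ext
  refine h71_transfer_injective p hp ϖ k I ϖT uT eT kT huT hpeT hkT hregT hHT φ hφ γ.1 γ'.1
    γ.2 γ'.2 (F γ) (hF2 γ) ?_
  rw [hFF]
  exact hF2 γ'

/-- **Abstract `(P_m)`**: `T`, `S` subrings (via injective `O`-algebra homs) of `Ω`, the set of
points of `H` in `Ω` finite, every point of `H` in `Ω` killed by `p` has values in `T`, and
`φ : T → S ⧸ I` an approximate hom as above.  Then every point of `H` in `Ω` killed by `p` has
values in `S`. -/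
theorem h71_points_factor (p : ℕ) (hp : p.Prime) (ϖ u : S) (e k : ℕ) (hu : IsUnit u)
    (hpe : (p : S) = ϖ ^ e * u) (hk : e < (p - 1) * k)
    (hreg : ∀ z : S, ϖ * z = 0 → z = 0)
    (hH : ∀ z : S, (∀ n : ℕ, ϖ ^ n ∣ z) → z = 0)
    (hP : ∀ f : ℕ → S, (∀ n, ϖ ^ n ∣ f (n + 1) - f n) → ∃ L, ∀ n, ϖ ^ n ∣ L - f n)
    (I : Ideal S) (hI : ∀ x ∈ I, (p : S) * ϖ ^ k ∣ x)
    (ϖT uT : T) (eT kT : ℕ) (huT : IsUnit uT) (hpeT : (p : T) = ϖT ^ eT * uT)
    (hkT : eT < (p - 1) * kT)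
    (hregT : ∀ z : T, ϖT * z = 0 → z = 0)
    (hHT : ∀ z : T, (∀ n : ℕ, ϖT ^ n ∣ z) → z = 0)
    (φ : T →ₐ[O] S ⧸ I)
    (hφ : ∀ t : T, (∀ s : S, Ideal.Quotient.mk I s = φ t → ϖ ^ k ∣ s) → ϖT ^ kT ∣ t)
    {Ω : Type*} [CommRing Ω] [Algebra O Ω] [Finite (H →ₐ[O] Ω)]
    (ιT : T →ₐ[O] Ω) (ιS : S →ₐ[O] Ω) (hιT : Function.Injective ιT)
    (hιS : Function.Injective ιS)
    (hT : ∀ γ : H →ₐ[O] Ω, (toConv γ.toLinearMap : WithConv (H →ₗ[O] Ω)) ^ p = 1 →
      ∃ γ' : H →ₐ[O] T, ιT.comp γ' = γ)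
    (γ : H →ₐ[O] Ω) (hγ : (toConv γ.toLinearMap : WithConv (H →ₗ[O] Ω)) ^ p = 1) :
    ∃ f : H →ₐ[O] S, ιS.comp f = γ := by
  classical
  obtain ⟨Φ, hΦ, -⟩ := h71_exists_transfer (H := H) p hp ϖ u e k hu hpe hk hreg hH hP I hI
    ϖT uT eT kT huT hpeT hkT hregT hHT φ hφ
  -- the three sets of points
  let PΩ := {γ : H →ₐ[O] Ω // (toConv γ.toLinearMap : WithConv (H →ₗ[O] Ω)) ^ p = 1}
  let PT := {γ : H →ₐ[O] T // (toConv γ.toLinearMap : WithConv (H →ₗ[O] T)) ^ p = 1}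
  let PS := {f : H →ₐ[O] S // (toConv f.toLinearMap : WithConv (H →ₗ[O] S)) ^ p = 1}
  have : Finite PΩ := Subtype.finite
  -- `PΩ → PT`, a section of composition with `ιT`
  have hsec : ∀ γ : PΩ, ∃ γ' : PT, ιT.comp γ'.1 = γ.1 := by
    intro γ
    obtain ⟨γ', hγ'⟩ := hT γ.1 γ.2
    refine ⟨⟨γ', ?_⟩, hγ'⟩
    apply h71_pow_of_comp_injective p ιT hιT
    rw [hγ']
    exact γ.2
  choose σ hσ using hsec
  have hσinj : Function.Injective σ := by
    intro a b hab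
    apply Subtype.ext
    rw [← hσ a, ← hσ b, hab]
  -- `PS → PΩ`, composition with `ιS`
  let j : PS → PΩ := fun f => ⟨ιS.comp f.1, h71_pow_comp p ιS f.1 f.2⟩
  have hjinj : Function.Injective j := by
    intro a b hab
    apply Subtype.ext
    apply AlgHom.ext
    intro h
    apply hιS
    have := congrArg (fun g : PΩ => g.1 h) hab
    exact this
  -- the composite `PΩ → PT → PS → PΩ` is an injective self-map of a finite set
  have hcomp : Function.Injective (j ∘ Φ ∘ σ) := hjinj.comp (hΦ.comp hσinj)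
  have hsurj : Function.Surjective (j ∘ Φ ∘ σ) := Finite.surjective_of_injective hcomp
  obtain ⟨γ0, hγ0⟩ := hsurj ⟨γ, hγ⟩
  exact ⟨(Φ (σ γ0)).1, congrArg Subtype.val hγ0⟩

end transfer

section dvr

/-- In a local ring, an element whose class modulo a proper ideal is a unit is a unit. -/
theorem h71_isUnit_of_isUnit_mk {S : Type*} [CommRing S] [IsLocalRing S] (I : Ideal S)
    (hI : I ≤ IsLocalRing.maximalIdeal S) (s : S) (hs : IsUnit (Ideal.Quotient.mk I s)) :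
    IsUnit s := by
  by_contra hns
  have hsm : s ∈ IsLocalRing.maximalIdeal S := (IsLocalRing.mem_maximalIdeal s).2 hns
  obtain ⟨y, hy⟩ := hs.exists_right_inv
  obtain ⟨s', rfl⟩ := Ideal.Quotient.mk_surjective y
  rw [← map_mul, ← map_one (Ideal.Quotient.mk I), Ideal.Quotient.eq] at hy
  have h1 : s * s' - 1 ∈ IsLocalRing.maximalIdeal S := hI hy
  have h2 : s * s' ∈ IsLocalRing.maximalIdeal S := Ideal.mul_mem_right _ _ hsm
  have h3 : (1 : S) ∈ IsLocalRing.maximalIdeal S := by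
    have h4 := Ideal.sub_mem _ h2 h1
    rwa [sub_sub_cancel] at h4
  exact (IsLocalRing.maximalIdeal.isMaximal S).ne_top ((Ideal.eq_top_iff_one _).2 h3)

/-- A discrete valuation ring is separated for its uniformizer. -/
theorem h71_dvr_haus {T : Type*} [CommRing T] [IsDomain T] [IsDiscreteValuationRing T]
    (ϖ : T) (hϖ : Irreducible ϖ) : ∀ z : T, (∀ n : ℕ, ϖ ^ n ∣ z) → z = 0 := by
  intro z hz
  by_contra hz0
  obtain ⟨n, v, hv⟩ := IsDiscreteValuationRing.eq_unit_mul_pow_irreducible hz0 hϖ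
  have h1 := hz (n + 1)
  rw [hv] at h1
  have h2 : ϖ ^ (n + 1) ∣ ϖ ^ n := (IsUnit.dvd_mul_left v.isUnit).1 h1
  have h3 := (pow_dvd_pow_iff hϖ.ne_zero hϖ.not_isUnit).1 h2
  omega

variable {S : Type*} [CommRing S] [IsDomain S] [IsDiscreteValuationRing S]
  {T : Type*} [CommRing T] [IsDomain T] [IsDiscreteValuationRing T]

/-- **Ring homs between truncated DVRs reflect congruences.**  `S`, `T` discrete valuation rings,
`p = ϖ^e * unit` in `S` with `0 < e < M`, `φ : T → S ⧸ I` a ring hom with `I ⊆ (ϖ^M)`.  If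
`e < c * k` and `k ≤ M`, there is `kT` with `eT < c * kT` (`eT` the valuation of `p` in `T`) such
that every `t : T` whose image has all its lifts divisible by `ϖ^k` is divisible by `ϖT^kT`. -/
theorem h71_dvr_reflect (p : ℕ) (ϖ : S) (hϖ : Irreducible ϖ) (e M : ℕ) (u : S) (hu : IsUnit u)
    (hpe : (p : S) = ϖ ^ e * u) (he : 0 < e) (heM : e < M)
    (I : Ideal S) (hI : I ≤ Ideal.span {ϖ ^ M})
    (ϖT : T) (hϖT : Irreducible ϖT) (eT : ℕ) (uT : T) (huT : IsUnit uT)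
    (hpeT : (p : T) = ϖT ^ eT * uT)
    (φ : T →+* S ⧸ I) (k : ℕ) (c : ℕ) (hc : e < c * k) :
    ∃ kT : ℕ, eT < c * kT ∧
      ∀ t : T, (∀ s : S, Ideal.Quotient.mk I s = φ t → ϖ ^ k ∣ s) → ϖT ^ kT ∣ t := by
  classical
  have hImax : I ≤ IsLocalRing.maximalIdeal S := by
    intro x hx
    have h1 := hI hx
    rw [Ideal.mem_span_singleton] at h1
    rw [hϖ.maximalIdeal_eq, Ideal.mem_span_singleton]
    exact Dvd.dvd.trans (dvd_pow_self ϖ (by omega)) h1
  have hlift : ∀ x : T, IsUnit x → ∀ w : S, Ideal.Quotient.mk I w = φ x → IsUnit w := by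
    intro x hx w hw
    exact h71_isUnit_of_isUnit_mk I hImax w (hw ▸ hx.map φ)
  obtain ⟨s₀, hs₀⟩ := Ideal.Quotient.mk_surjective (φ ϖT)
  obtain ⟨w, hw⟩ := Ideal.Quotient.mk_surjective (φ uT)
  have hwu : IsUnit w := hlift uT huT w hw
  have h1 : Ideal.Quotient.mk I (s₀ ^ eT * w) = Ideal.Quotient.mk I (p : S) := by
    rw [map_mul, map_pow, hs₀, hw, ← map_pow, ← map_mul, ← hpeT, map_natCast, map_natCast]
  rw [Ideal.Quotient.eq] at h1
  have h2 := hI h1
  rw [Ideal.mem_span_singleton] at h2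
  obtain ⟨d, hd⟩ := h2
  have hpow : ϖ ^ M = ϖ ^ e * ϖ ^ (M - e) := by
    rw [← pow_add]
    congr 1
    omega
  have h3 : s₀ ^ eT * w = ϖ ^ e * (u + ϖ ^ (M - e) * d) := by
    linear_combination hd + hpe + d * hpow
  have hunit : IsUnit (u + ϖ ^ (M - e) * d) := by
    by_contra hns
    have hm : u + ϖ ^ (M - e) * d ∈ IsLocalRing.maximalIdeal S :=
      (IsLocalRing.mem_maximalIdeal _).2 hns
    have hm2 : ϖ ^ (M - e) * d ∈ IsLocalRing.maximalIdeal S := by
      rw [hϖ.maximalIdeal_eq, Ideal.mem_span_singleton]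
      exact Dvd.dvd.mul_right (dvd_pow_self ϖ (by omega)) d
    have hm3 : u ∈ IsLocalRing.maximalIdeal S := by
      have := Ideal.sub_mem _ hm hm2
      simpa using this
    exact (IsLocalRing.mem_maximalIdeal u).1 hm3 hu
  have hs₀ne : s₀ ≠ 0 := by
    rintro rfl
    have hne : ϖ ^ e * (u + ϖ ^ (M - e) * d) ≠ 0 :=
      mul_ne_zero (pow_ne_zero _ hϖ.ne_zero) hunit.ne_zero
    have heT : eT ≠ 0 := by
      rintro rfl
      rw [pow_zero, one_mul] at h3
      have h4 : IsUnit (ϖ ^ e) := isUnit_of_mul_isUnit_left (h3 ▸ hwu)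
      exact hϖ.not_isUnit (isUnit_of_dvd_unit (dvd_pow_self ϖ (by omega)) h4)
    rw [zero_pow heT, zero_mul] at h3
    exact hne h3.symm
  obtain ⟨a, v, hv⟩ := IsDiscreteValuationRing.eq_unit_mul_pow_irreducible hs₀ne hϖ
  have hae : a * eT = e := by
    apply IsDiscreteValuationRing.unit_mul_pow_congr_pow hϖ hϖ (v ^ eT * hwu.unit) hunit.unit
    rw [hv] at h3
    simp only [Units.val_mul, Units.val_pow_eq_pow_val, IsUnit.unit_spec]
    linear_combination h3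
  have ha : 0 < a := by
    rcases Nat.eq_zero_or_pos a with h | h
    · rw [h, zero_mul] at hae
      omega
    · exact h
  have hex : ∃ j : ℕ, k ≤ a * j := ⟨k, Nat.le_mul_of_pos_left k ha⟩
  refine ⟨Nat.find hex, ?_, ?_⟩
  · have h4 : k ≤ a * Nat.find hex := Nat.find_spec hex
    have h5 : a * eT < a * (c * Nat.find hex) := by
      calc a * eT = e := hae
        _ < c * k := hc
        _ ≤ c * (a * Nat.find hex) := Nat.mul_le_mul_left c h4
        _ = a * (c * Nat.find hex) := by ring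
    exact Nat.lt_of_mul_lt_mul_left h5
  · intro t ht
    by_cases ht0 : t = 0
    · rw [ht0]
      exact dvd_zero _
    obtain ⟨j, ut, hut⟩ := IsDiscreteValuationRing.eq_unit_mul_pow_irreducible ht0 hϖT
    obtain ⟨wt, hwt⟩ := Ideal.Quotient.mk_surjective (φ (ut : T))
    have hwtu : IsUnit wt := hlift ut ut.isUnit wt hwt
    have h6 : Ideal.Quotient.mk I (wt * s₀ ^ j) = φ t := by
      rw [map_mul, map_pow, hs₀, hwt, hut, map_mul, map_pow]
    have h7 := ht _ h6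
    rw [hv] at h7
    have h8 : ϖ ^ k ∣ ϖ ^ (a * j) := by
      have h9 : wt * ((v : S) * ϖ ^ a) ^ j = (wt * (v : S) ^ j) * ϖ ^ (a * j) := by
        rw [mul_pow, ← pow_mul]
        ring
      rw [h9] at h7
      exact (IsUnit.dvd_mul_left (hwtu.mul (v.isUnit.pow j))).1 h7
    have h10 : k ≤ a * j := (pow_dvd_pow_iff hϖ.ne_zero hϖ.not_isUnit).1 h8
    have h11 : Nat.find hex ≤ j := Nat.find_min' hex h10
    rw [hut]
    exact Dvd.dvd.mul_left (pow_dvd_pow ϖT h11) _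

end dvr

section dvrMain
variable {O : Type*} [CommRing O] {H : Type*} [CommRing H] [Bialgebra O H]
  [Coalgebra.IsCocomm O H] [Module.Free O H] [Module.Finite O H]
  {S : Type*} [CommRing S] [IsDomain S] [IsDiscreteValuationRing S] [Algebra O S]
  [IsAdicComplete (IsLocalRing.maximalIdeal S) S]
  {T : Type*} [CommRing T] [IsDomain T] [IsDiscreteValuationRing T] [Algebra O T]

/-- **`(P_m)` for discrete valuation rings** (Fontaine's lifting property, consequence).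
`S` a complete DVR (think `O_E`), `T` a DVR (think `O_L`), both of characteristic `0` with `p`
in the maximal ideal of `S`, `e = v_S(p)`; `φ : T → S ⧸ I` an `O`-algebra hom with `I ⊆ (ϖ^M)`
and `M > p e / (p - 1)`.  If `T` and `S` embed in `Ω`, the set of points of `H` in `Ω` is finite
and every point of `H` in `Ω` killed by `p` has values in `T`, then every point of `H` in `Ω`
killed by `p` has values in `S`. -/
theorem h71_points_factor_dvr (p : ℕ) (hp : p.Prime)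
    (ϖ : S) (hϖ : Irreducible ϖ) (e M : ℕ) (u : S) (hu : IsUnit u)
    (hpe : (p : S) = ϖ ^ e * u) (he : 0 < e) (hM : p * e < (p - 1) * M)
    (I : Ideal S) (hI : I ≤ Ideal.span {ϖ ^ M})
    (hpT : (p : T) ≠ 0)
    (φ : T →ₐ[O] S ⧸ I)
    {Ω : Type*} [CommRing Ω] [Algebra O Ω] [Finite (H →ₐ[O] Ω)]
    (ιT : T →ₐ[O] Ω) (ιS : S →ₐ[O] Ω) (hιT : Function.Injective ιT)
    (hιS : Function.Injective ιS)
    (hT : ∀ γ : H →ₐ[O] Ω, (toConv γ.toLinearMap : WithConv (H →ₗ[O] Ω)) ^ p = 1 →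
      ∃ γ' : H →ₐ[O] T, ιT.comp γ' = γ)
    (γ : H →ₐ[O] Ω) (hγ : (toConv γ.toLinearMap : WithConv (H →ₗ[O] Ω)) ^ p = 1) :
    ∃ f : H →ₐ[O] S, ιS.comp f = γ := by
  obtain ⟨q, rfl⟩ : ∃ q, p = q + 1 := ⟨p - 1, by have := hp.pos; omega⟩
  have heM : e < M := by
    by_contra hle
    push Not at hle
    have : q * M ≤ (q + 1) * e := by nlinarith
    simp only [Nat.add_sub_cancel] at hM
    omega
  obtain ⟨k, rfl⟩ : ∃ k, M = e + k := Nat.exists_eq_add_of_le heM.le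
  have hk : e < (q + 1 - 1) * k := by
    simp only [Nat.add_sub_cancel] at hM ⊢
    nlinarith
  have hI' : ∀ x ∈ I, ((q + 1 : ℕ) : S) * ϖ ^ k ∣ x := by
    intro x hx
    have h1 := hI hx
    rw [Ideal.mem_span_singleton] at h1
    obtain ⟨d, rfl⟩ := h1
    obtain ⟨u', hu'⟩ := hu.exists_right_inv
    refine ⟨u' * d, ?_⟩
    rw [hpe, pow_add]
    linear_combination (-(ϖ ^ e * ϖ ^ k * d)) * hu'
  have hreg : ∀ z : S, ϖ * z = 0 → z = 0 := fun z hz =>
    (mul_eq_zero.1 hz).resolve_left hϖ.ne_zero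
  have hP : ∀ f : ℕ → S, (∀ n, ϖ ^ n ∣ f (n + 1) - f n) → ∃ L, ∀ n, ϖ ^ n ∣ L - f n := by
    have : IsPrecomplete (Ideal.span {ϖ}) S := by
      rw [← hϖ.maximalIdeal_eq]
      infer_instance
    exact h71_prec_of_isPrecomplete ϖ
  obtain ⟨ϖT, hϖT⟩ := IsDiscreteValuationRing.exists_irreducible T
  obtain ⟨eT, uT, hpeT⟩ := IsDiscreteValuationRing.eq_unit_mul_pow_irreducible hpT hϖT
  have hpeT' : ((q + 1 : ℕ) : T) = ϖT ^ eT * (uT : T) := by rw [hpeT, mul_comm]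
  have heM' : e < e + k := heM
  obtain ⟨kT, hkT, hφ⟩ := h71_dvr_reflect (q + 1) ϖ hϖ e (e + k) u hu hpe he heM' I hI
    ϖT hϖT eT (uT : T) uT.isUnit hpeT' (φ : T →+* S ⧸ I) k (q + 1 - 1) hk
  have hregT : ∀ z : T, ϖT * z = 0 → z = 0 := fun z hz =>
    (mul_eq_zero.1 hz).resolve_left hϖT.ne_zero
  exact h71_points_factor (q + 1) hp ϖ u e k hu hpe hk hreg (h71_dvr_haus ϖ hϖ) hP I hI'
    ϖT (uT : T) eT kT uT.isUnit hpeT' hkT hregT (h71_dvr_haus ϖT hϖT) φ
    (fun t ht => hφ t ht) ιT ιS hιT hιS hT γ hγ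

end dvrMain

end Fermat.Agent.S56
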