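import Fermat.Agent.S56.h78_W3Defs
import Fermat.Agent.S56.h62_W3Basics
import Fermat.Agent.S56.h71_PointTransfer

/-!
# S56 / W3-A2: property `(P_s)` in norm form (helper71)

`h71_Ps` is the row statement `sk_Ps` of the W3 skeleton, with the completeness of `E` stated
as `IsComplete (E : Set Ω)` (`Ω = PadicAlgCl p` is not complete, so closedness is not enough;
for finite-dimensional `E` use `h71_isComplete_of_finiteDimensional`).

Auxiliary: `h71_int p F`, the integers `{z ∈ F | ‖z‖ ≤ 1}` of a subfield `F` of `Ω` as a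
`ℤ_(p)`-subalgebra of `Ω`; `h71_finite_algHom` (finitely many points of a finite algebra in a
domain).
-/

set_option autoImplicit false

open Coalgebra WithConv

namespace Fermat.Agent.S56

section finiteHom

/-- A finite algebra has finitely many points in a domain. -/
theorem h71_finite_algHom {O H Ω : Type*} [CommRing O] [CommRing H] [Algebra O H]
    [Module.Finite O H] [CommRing Ω] [IsDomain Ω] [Algebra O Ω] : Finite (H →ₐ[O] Ω) := by
  classical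
  obtain ⟨s, hs⟩ := (Module.Finite.fg_top : (⊤ : Submodule O H).FG)
  have hint : ∀ x : H, ∃ P : Polynomial O, P.Monic ∧ Polynomial.aeval x P = 0 := fun x =>
    Algebra.IsIntegral.isIntegral (R := O) x
  choose P hPm hP0 using hint
  have hRfin : ∀ x : H, {y : Ω | Polynomial.aeval y (P x) = 0}.Finite := by
    intro x
    have hne : (P x).map (algebraMap O Ω) ≠ 0 := ((hPm x).map _).ne_zero
    refine Set.Finite.subset ((P x).map (algebraMap O Ω)).roots.toFinset.finite_toSet ?_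
    intro y hy
    simp only [Finset.mem_coe, Multiset.mem_toFinset, Polynomial.mem_roots hne,
      Polynomial.IsRoot.def, Polynomial.eval_map]
    exact hy
  let F : (H →ₐ[O] Ω) → (∀ x : s, {y : Ω | Polynomial.aeval y (P x) = 0}) := fun γ x =>
    ⟨γ x, by
      show Polynomial.aeval (γ x) (P x) = 0
      rw [Polynomial.aeval_algHom_apply, hP0, map_zero]⟩
  have hF : Function.Injective F := by
    intro γ γ' h
    apply AlgHom.toLinearMap_injective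
    apply LinearMap.ext_on_range (v := fun x : s => (x : H))
    · rw [Subtype.range_coe_subtype]
      simpa using hs
    · intro x
      exact congrArg (fun f => (f x).1) h
  have : ∀ x : s, Finite {y : Ω | Polynomial.aeval y (P x) = 0} := fun x =>
    (hRfin x).to_subtype
  exact Finite.of_injective F hF

end finiteHom

variable (p : ℕ) [Fact p.Prime]

local notation "Ω" => PadicAlgCl p
local notation "Fld" => IntermediateField ℚ_[p] (PadicAlgCl p)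

/-- The structure map `ℤ_(p) → Ω` through `ℚ_p`. -/
theorem h71_algebraMap_Zp (a : h78_Zp p) :
    algebraMap (h78_Zp p) Ω a = algebraMap ℚ_[p] Ω (((a : ℚ)) : ℚ_[p]) := by
  have h1 : algebraMap (h78_Zp p) Ω a = ((a : ℚ) : Ω) := by
    show algebraMap ℚ Ω (a : ℚ) = _
    exact eq_ratCast _ _
  rw [h1, map_ratCast]

/-- The integers `{z ∈ F | ‖z‖ ≤ 1}` of a subfield `F` of `Ω`, as a `ℤ_(p)`-subalgebra. -/
def h71_int (F : Fld) : Subalgebra (h78_Zp p) Ω where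
  carrier := {z | z ∈ F ∧ ‖z‖ ≤ 1}
  mul_mem' := fun {a b} ha hb =>
    ⟨F.mul_mem ha.1 hb.1, by rw [norm_mul]; exact mul_le_one₀ ha.2 (norm_nonneg _) hb.2⟩
  one_mem' := ⟨F.one_mem, by rw [norm_one]⟩
  add_mem' := fun {a b} ha hb =>
    ⟨F.add_mem ha.1 hb.1, (IsUltrametricDist.norm_add_le_max _ _).trans (max_le ha.2 hb.2)⟩
  zero_mem' := ⟨F.zero_mem, by rw [norm_zero]; exact zero_le_one⟩
  algebraMap_mem' := fun a =>
    ⟨by rw [h71_algebraMap_Zp]; exact F.algebraMap_mem _, h62_norm_algebraMap_Zp_le_one p a⟩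

theorem h71_mem_int (F : Fld) (z : Ω) : z ∈ h71_int p F ↔ z ∈ F ∧ ‖z‖ ≤ 1 := Iff.rfl

/-- Divisibility in the integers of `F` is read off from the norm. -/
theorem h71_int_dvd_iff (F : Fld) (c x : h71_int p F) (hc : (c : Ω) ≠ 0) :
    c ∣ x ↔ ‖(x : Ω)‖ ≤ ‖(c : Ω)‖ := by
  constructor
  · rintro ⟨d, rfl⟩
    have h1 : ((c * d : h71_int p F) : Ω) = (c : Ω) * (d : Ω) := rfl
    rw [h1, norm_mul]
    exact mul_le_of_le_one_right (norm_nonneg _) d.2.2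
  · intro h
    have hcpos : 0 < ‖(c : Ω)‖ := norm_pos_iff.2 hc
    have hd : (x : Ω) / (c : Ω) ∈ h71_int p F := by
      refine ⟨F.div_mem x.2.1 c.2.1, ?_⟩
      rw [norm_div]
      exact (div_le_one hcpos).2 h
    refine ⟨⟨_, hd⟩, ?_⟩
    apply Subtype.ext
    show (x : Ω) = (c : Ω) * ((x : Ω) / (c : Ω))
    field_simp

/-- Finite-dimensional subfields of `Ω` are complete. -/
theorem h71_isComplete_of_finiteDimensional (E : Fld) [FiniteDimensional ℚ_[p] E] :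
    IsComplete (E : Set Ω) :=
  Submodule.complete_of_finiteDimensional (𝕜 := ℚ_[p]) (E := Ω) E.toSubmodule

/-- The integers of `F` are separated for any `ϖ` with `‖ϖ‖ < 1`. -/
theorem h71_int_haus (F : Fld) (ϖ : h71_int p F) (h0 : (ϖ : Ω) ≠ 0) (h1 : ‖(ϖ : Ω)‖ < 1) :
    ∀ z : h71_int p F, (∀ n : ℕ, ϖ ^ n ∣ z) → z = 0 := by
  intro z hz
  have h2 : ∀ n : ℕ, ‖(z : Ω)‖ ≤ ‖(ϖ : Ω)‖ ^ n := fun n => by
    have h3 := (h71_int_dvd_iff p F (ϖ ^ n) z (pow_ne_zero _ h0)).1 (hz n)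
    have h4 : ((ϖ ^ n : h71_int p F) : Ω) = (ϖ : Ω) ^ n := rfl
    rwa [h4, norm_pow] at h3
  have h5 : ‖(z : Ω)‖ ≤ 0 :=
    ge_of_tendsto' (tendsto_pow_atTop_nhds_zero_of_lt_one (norm_nonneg _) h1) h2
  exact Subtype.ext (norm_le_zero_iff.1 h5)

/-- The integers of a complete `F` are `ϖ`-adically complete (elementary form). -/
theorem h71_int_prec (F : Fld) (hF : IsComplete (F : Set Ω)) (ϖ : h71_int p F)
    (h0 : (ϖ : Ω) ≠ 0) (h1 : ‖(ϖ : Ω)‖ < 1) (f : ℕ → h71_int p F)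
    (hf : ∀ n, ϖ ^ n ∣ f (n + 1) - f n) : ∃ L, ∀ n, ϖ ^ n ∣ L - f n := by
  have hr0 : 0 ≤ ‖(ϖ : Ω)‖ := norm_nonneg _
  have hcoe : ∀ n : ℕ, ((ϖ ^ n : h71_int p F) : Ω) = (ϖ : Ω) ^ n := fun n => rfl
  have hstep : ∀ n, ‖((f (n + 1) : h71_int p F) : Ω) - (f n : Ω)‖ ≤ ‖(ϖ : Ω)‖ ^ n := fun n => by
    have h3 := (h71_int_dvd_iff p F (ϖ ^ n) (f (n + 1) - f n) (pow_ne_zero _ h0)).1 (hf n)
    rw [hcoe, norm_pow] at h3
    exact h3
  have hdiff : ∀ m n, m ≤ n → ‖((f n : h71_int p F) : Ω) - (f m : Ω)‖ ≤ ‖(ϖ : Ω)‖ ^ m := by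
    intro m n hmn
    induction n, hmn using Nat.le_induction with
    | base => rw [sub_self, norm_zero]; exact pow_nonneg hr0 m
    | succ n hmn ih =>
      have h2 : ((f (n + 1) : h71_int p F) : Ω) - (f m : Ω)
          = (((f (n + 1) : h71_int p F) : Ω) - (f n : Ω)) + ((f n : Ω) - (f m : Ω)) := by ring
      rw [h2]
      refine (IsUltrametricDist.norm_add_le_max _ _).trans (max_le ((hstep n).trans ?_) ih)
      exact pow_le_pow_of_le_one hr0 h1.le hmn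
  have hcau : CauchySeq (fun n => ((f n : h71_int p F) : Ω)) := by
    apply cauchySeq_of_le_geometric ‖(ϖ : Ω)‖ 1 h1
    intro n
    rw [dist_eq_norm, one_mul, ← norm_neg, neg_sub]
    exact hstep n
  obtain ⟨L, hLF, hL⟩ := cauchySeq_tendsto_of_isComplete hF (fun n => (f n).2.1) hcau
  have hLn : ∀ n, ‖L - (f n : Ω)‖ ≤ ‖(ϖ : Ω)‖ ^ n := by
    intro n
    have h2 : Filter.Tendsto (fun m => ‖((f m : h71_int p F) : Ω) - (f n : Ω)‖) Filter.atTop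
        (nhds ‖L - (f n : Ω)‖) := (hL.sub tendsto_const_nhds).norm
    exact le_of_tendsto h2 (Filter.eventually_atTop.2 ⟨n, fun m hm => hdiff n m hm⟩)
  have hL1 : ‖L‖ ≤ 1 := by
    have h2 := hLn 0
    rw [pow_zero] at h2
    have h3 : L = (L - (f 0 : Ω)) + (f 0 : Ω) := by ring
    rw [h3]
    exact (IsUltrametricDist.norm_add_le_max _ _).trans (max_le h2 (f 0).2.2)
  refine ⟨⟨L, hLF, hL1⟩, fun n => ?_⟩
  rw [h71_int_dvd_iff p F _ _ (pow_ne_zero _ h0), hcoe, norm_pow]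
  exact hLn n

/-- Uniformizer data in the integers of `F` from norm data. -/
theorem h71_int_unif_data (F : Fld) (ϖ : Ω) (hϖF : ϖ ∈ F) (hϖ0 : ϖ ≠ 0) (hϖ1 : ‖ϖ‖ < 1)
    (e : ℕ) (hpe : ‖(p : Ω)‖ = ‖ϖ‖ ^ e) :
    ∃ ϖS u : h71_int p F, (ϖS : Ω) = ϖ ∧ IsUnit u ∧ ((p : ℕ) : h71_int p F) = ϖS ^ e * u := by
  have hp : p.Prime := Fact.out
  have hpF : (p : Ω) ∈ F := natCast_mem F p
  have hp0 : (p : Ω) ≠ 0 := by exact_mod_cast hp.ne_zero
  have hrpos : 0 < ‖ϖ‖ := norm_pos_iff.2 hϖ0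
  have hre : ‖ϖ‖ ^ e ≠ 0 := (pow_pos hrpos e).ne'
  have huS : (p : Ω) / ϖ ^ e ∈ h71_int p F :=
    ⟨F.div_mem hpF (pow_mem hϖF e), by rw [norm_div, norm_pow, hpe, div_self hre]⟩
  have huinvS : ϖ ^ e / (p : Ω) ∈ h71_int p F :=
    ⟨F.div_mem (pow_mem hϖF e) hpF, by rw [norm_div, norm_pow, hpe, div_self hre]⟩
  refine ⟨⟨ϖ, hϖF, hϖ1.le⟩, ⟨_, huS⟩, rfl, ?_, ?_⟩
  · refine IsUnit.of_mul_eq_one (⟨_, huinvS⟩ : h71_int p F) (Subtype.ext ?_)
    show (p : Ω) / ϖ ^ e * (ϖ ^ e / (p : Ω)) = 1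
    field_simp
  · apply Subtype.ext
    show ((p : ℕ) : Ω) = ϖ ^ e * ((p : Ω) / ϖ ^ e)
    field_simp

section main
variable {H : Type} [CommRing H] [Bialgebra (h78_Zp p) H]
  [Coalgebra.IsCocomm (h78_Zp p) H] [Module.Free (h78_Zp p) H] [Module.Finite (h78_Zp p) H]

/-- Rigidity of points killed by `p` in the integers of `F`. -/
theorem h71_int_point_unique (F : Fld) (ϖ : Ω) (hϖF : ϖ ∈ F) (hϖ0 : ϖ ≠ 0) (hϖ1 : ‖ϖ‖ < 1)
    (e k : ℕ) (hpe : ‖(p : Ω)‖ = ‖ϖ‖ ^ e) (hk : e < (p - 1) * k)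
    (f f' : H →ₐ[h78_Zp p] h71_int p F)
    (hf : (toConv f.toLinearMap : WithConv (H →ₗ[h78_Zp p] h71_int p F)) ^ p = 1)
    (hf' : (toConv f'.toLinearMap : WithConv (H →ₗ[h78_Zp p] h71_int p F)) ^ p = 1)
    (hff : ∀ h : H, ‖((f h : h71_int p F) : Ω) - (f' h : Ω)‖ ≤ ‖ϖ‖ ^ k) : f = f' := by
  have hp : p.Prime := Fact.out
  obtain ⟨ϖS, u, hϖS, hu, hpeS⟩ := h71_int_unif_data p F ϖ hϖF hϖ0 hϖ1 e hpe
  have hϖS0 : (ϖS : Ω) ≠ 0 := hϖS ▸ hϖ0
  have hϖS1 : ‖(ϖS : Ω)‖ < 1 := hϖS ▸ hϖ1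
  have hreg : ∀ z : h71_int p F, ϖS * z = 0 → z = 0 := by
    intro z hz
    have h1 : (ϖS : Ω) * (z : Ω) = 0 := congrArg Subtype.val hz
    exact Subtype.ext ((mul_eq_zero.1 h1).resolve_left hϖS0)
  refine h71_point_unique_of_pow p hp ϖS u e k hu hpeS hk hreg
    (h71_int_haus p F ϖS hϖS0 hϖS1) f f' hf hf' ?_
  intro h
  rw [h71_int_dvd_iff p F _ _ (pow_ne_zero _ hϖS0)]
  show ‖((f h : h71_int p F) : Ω) - (f' h : Ω)‖ ≤ ‖(ϖS : Ω) ^ k‖
  rw [norm_pow, hϖS]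
  exact hff h

/-- **W3-A2, property `(P_s)` in norm form.**  All points of `H` in `Ω` are killed by `p`, have
norm `≤ 1` and values in `L`; `E` is a complete subfield with uniformizer `ϖ`;
`φ : L → E` is `ℚ_p`-linear, unital, norm-preserving and multiplicative on integers up to
`s`, where `p^p s^(p-1) < 1` (i.e. `v(s) > p/(p-1)`).  Then all points have values in `E`. -/
theorem h71_Ps
    (hkill : ∀ γ : WithConv (H →ₐ[h78_Zp p] Ω), γ ^ p = 1)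
    (hint : ∀ (γ : H →ₐ[h78_Zp p] Ω) (h : H), ‖γ h‖ ≤ 1)
    (L : Fld) (hLpts : ∀ (γ : H →ₐ[h78_Zp p] Ω) (h : H), γ h ∈ L)
    (E : Fld) (ϖ : Ω) (hϖ : h78_IsUnif p E ϖ) (hEc : IsComplete (E : Set Ω))
    (s : ℝ) (hs0 : 0 ≤ s) (hs : (p : ℝ) ^ p * s ^ (p - 1) < 1)
    (φ : L →ₗ[ℚ_[p]] Ω) (hφE : ∀ z, φ z ∈ E) (hφ1 : φ 1 = 1)
    (hφn : ∀ z : L, ‖φ z‖ = ‖(z : Ω)‖)
    (hφm : ∀ a b : L, ‖(a : Ω)‖ ≤ 1 → ‖(b : Ω)‖ ≤ 1 → ‖φ (a * b) - φ a * φ b‖ ≤ s)
    (γ : H →ₐ[h78_Zp p] Ω) (h : H) : γ h ∈ E := by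
  classical
  have hp : p.Prime := Fact.out
  obtain ⟨hϖE, hϖ0, hϖ1, hϖval⟩ := hϖ
  have hrpos : 0 < ‖ϖ‖ := norm_pos_iff.2 hϖ0
  have hppos : (0 : ℝ) < p := by exact_mod_cast hp.pos
  have hpE : (p : Ω) ∈ E := natCast_mem E p
  have hp0 : (p : Ω) ≠ 0 := by exact_mod_cast hp.ne_zero
  have hpn : ‖(p : Ω)‖ = (p : ℝ)⁻¹ := h62_norm_p p
  have hpinv_lt : (p : ℝ)⁻¹ < 1 := inv_lt_one_of_one_lt₀ (by exact_mod_cast hp.one_lt)
  -- the ramification index `e`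
  obtain ⟨n, hn⟩ := hϖval (p : Ω) hpE hp0
  have hn1 : 1 ≤ n := by
    by_contra hlt
    push Not at hlt
    have h1 : (1 : ℝ) ≤ ‖ϖ‖ ^ n := one_le_zpow_of_nonpos₀ hrpos hϖ1.le (by omega)
    rw [← hn, hpn] at h1
    linarith
  obtain ⟨e, rfl⟩ : ∃ e : ℕ, n = e := ⟨n.toNat, by omega⟩
  rw [zpow_natCast] at hn
  have he : 0 < e := by omega
  -- `s^(p-1) < ‖ϖ‖^(e p)`
  have hspow : s ^ (p - 1) < ‖ϖ‖ ^ (e * p) := by
    have h3 : (0 : ℝ) < (p : ℝ) ^ p := pow_pos hppos p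
    have h1 : s ^ (p - 1) < ((p : ℝ)⁻¹) ^ p := by
      rw [inv_pow]
      calc s ^ (p - 1) = ((p : ℝ) ^ p)⁻¹ * ((p : ℝ) ^ p * s ^ (p - 1)) := by field_simp
        _ < ((p : ℝ) ^ p)⁻¹ * 1 := mul_lt_mul_of_pos_left hs (inv_pos.2 h3)
        _ = ((p : ℝ) ^ p)⁻¹ := mul_one _
    rw [pow_mul, ← hn, hpn]
    exact h1
  -- the rings
  obtain ⟨ϖS, u, hϖS, hu, hpe⟩ := h71_int_unif_data p E ϖ hϖE hϖ0 hϖ1 e hn
  have hϖS0 : (ϖS : Ω) ≠ 0 := hϖS ▸ hϖ0
  have hϖS1 : ‖(ϖS : Ω)‖ < 1 := hϖS ▸ hϖ1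
  -- `N`
  obtain ⟨N, hNI, hNe⟩ : ∃ N : ℕ, (∀ x : h71_int p E, ‖(x : Ω)‖ ≤ s → ‖(x : Ω)‖ ≤ ‖ϖ‖ ^ N) ∧
      p * e < (p - 1) * N := by
    by_cases hex : ∃ m : ℕ, ‖ϖ‖ ^ m ≤ s
    · refine ⟨Nat.find hex, ?_, ?_⟩
      · intro x hx
        by_cases hx0 : (x : Ω) = 0
        · rw [hx0, norm_zero]
          exact pow_nonneg hrpos.le _
        obtain ⟨m, hm⟩ := hϖval (x : Ω) x.2.1 hx0
        have hm0 : 0 ≤ m := by
          by_contra hneg
          push Not at hneg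
          have h1 : 1 < ‖ϖ‖ ^ m := one_lt_zpow_of_neg₀ hrpos hϖ1 hneg
          have h2 := x.2.2
          rw [hm] at h2
          linarith
        obtain ⟨m', rfl⟩ : ∃ m' : ℕ, m = m' := ⟨m.toNat, by omega⟩
        rw [zpow_natCast] at hm
        have hfind : Nat.find hex ≤ m' := Nat.find_min' hex (by rw [← hm]; exact hx)
        rw [hm]
        exact pow_le_pow_of_le_one hrpos.le hϖ1.le hfind
      · have h1 := Nat.find_spec hex
        have h2 : ‖ϖ‖ ^ (Nat.find hex * (p - 1)) < ‖ϖ‖ ^ (e * p) := by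
          rw [pow_mul]
          exact lt_of_le_of_lt (pow_le_pow_left₀ (pow_nonneg hrpos.le _) h1 _) hspow
        have h3 := (pow_lt_pow_iff_right_of_lt_one₀ hrpos hϖ1).1 h2
        rw [mul_comm p e, mul_comm (p - 1) _]
        exact h3
    · push Not at hex
      refine ⟨p * e + 1, fun x hx => hx.trans (hex _).le, ?_⟩
      calc p * e < p * e + 1 := Nat.lt_succ_self _
        _ = 1 * (p * e + 1) := (one_mul _).symm
        _ ≤ (p - 1) * (p * e + 1) := Nat.mul_le_mul_right _ (by have := hp.two_le; omega)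
  have heN : e < N := by
    by_contra hle
    push Not at hle
    have h1 : (p - 1) * N ≤ p * e := Nat.mul_le_mul (Nat.sub_le p 1) hle
    omega
  obtain ⟨k, rfl⟩ : ∃ k, N = e + k := Nat.exists_eq_add_of_le heN.le
  have hk : e < (p - 1) * k := by
    have hp1 : p = (p - 1) + 1 := by have := hp.pos; omega
    generalize p - 1 = q at hNe hp1 ⊢
    rw [hp1] at hNe
    nlinarith
  -- the ideal `I = {‖z‖ ≤ s}`
  let I : Ideal (h71_int p E) :=
    { carrier := {z : h71_int p E | ‖(z : Ω)‖ ≤ s}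
      add_mem' := fun {a b} ha hb =>
        (IsUltrametricDist.norm_add_le_max _ _).trans (max_le ha hb)
      zero_mem' := by
        show ‖((0 : h71_int p E) : Ω)‖ ≤ s
        rw [ZeroMemClass.coe_zero, norm_zero]
        exact hs0
      smul_mem' := fun c {z} hz => by
        show ‖((c * z : h71_int p E) : Ω)‖ ≤ s
        rw [MulMemClass.coe_mul, norm_mul]
        exact (mul_le_of_le_one_left (norm_nonneg _) c.2.2).trans hz }
  have hI : ∀ x ∈ I, ((p : ℕ) : h71_int p E) * ϖS ^ k ∣ x := by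
    intro x hx
    have hne : ((((p : ℕ) : h71_int p E) * ϖS ^ k : h71_int p E) : Ω) ≠ 0 := by
      show ((p : ℕ) : Ω) * (ϖS : Ω) ^ k ≠ 0
      exact mul_ne_zero hp0 (pow_ne_zero _ hϖS0)
    rw [h71_int_dvd_iff p E _ x hne]
    show ‖(x : Ω)‖ ≤ ‖((p : ℕ) : Ω) * (ϖS : Ω) ^ k‖
    rw [norm_mul, norm_pow, hn, hϖS, ← pow_add]
    exact hNI x hx
  have hreg : ∀ z : h71_int p E, ϖS * z = 0 → z = 0 := by
    intro z hz
    have h1 : (ϖS : Ω) * (z : Ω) = 0 := congrArg Subtype.val hz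
    exact Subtype.ext ((mul_eq_zero.1 h1).resolve_left hϖS0)
  have hHS := h71_int_haus p E ϖS hϖS0 hϖS1
  have hPS := h71_int_prec p E hEc ϖS hϖS0 hϖS1
  -- the approximate hom `φbar : O_L → O_E ⧸ I`
  have hφS : ∀ t : h71_int p L, φ ⟨(t : Ω), t.2.1⟩ ∈ h71_int p E := fun t =>
    ⟨hφE _, by rw [hφn]; exact t.2.2⟩
  let φ0 : h71_int p L → h71_int p E := fun t => ⟨φ ⟨(t : Ω), t.2.1⟩, hφS t⟩
  have hφ0_one : φ0 1 = 1 := Subtype.ext hφ1
  have hφ0_zero : φ0 0 = 0 := Subtype.ext (map_zero φ)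
  have hφ0_add : ∀ a b, φ0 (a + b) = φ0 a + φ0 b := fun a b =>
    Subtype.ext (map_add φ ⟨(a : Ω), a.2.1⟩ ⟨(b : Ω), b.2.1⟩)
  have hφ0_sub : ∀ a b, φ0 (a - b) = φ0 a - φ0 b := fun a b =>
    Subtype.ext (map_sub φ ⟨(a : Ω), a.2.1⟩ ⟨(b : Ω), b.2.1⟩)
  have hφ0_alg : ∀ a : h78_Zp p, φ0 (algebraMap (h78_Zp p) (h71_int p L) a)
      = algebraMap (h78_Zp p) (h71_int p E) a := by
    intro a
    apply Subtype.ext
    show φ ⟨algebraMap (h78_Zp p) Ω a, _⟩ = algebraMap (h78_Zp p) Ω a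
    have h1 : (⟨algebraMap (h78_Zp p) Ω a,
        ((algebraMap (h78_Zp p) (h71_int p L) a).2.1)⟩ : L)
        = algebraMap ℚ_[p] L (((a : ℚ)) : ℚ_[p]) := Subtype.ext (h71_algebraMap_Zp p a)
    rw [h1, Algebra.algebraMap_eq_smul_one, map_smul, hφ1, ← Algebra.algebraMap_eq_smul_one,
      h71_algebraMap_Zp]
  let φbar : h71_int p L →ₐ[h78_Zp p] h71_int p E ⧸ I :=
    { toFun := fun t => Ideal.Quotient.mk I (φ0 t)
      map_one' := by rw [hφ0_one, map_one]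
      map_mul' := fun a b => by
        rw [← map_mul, Ideal.Quotient.eq]
        exact hφm ⟨(a : Ω), a.2.1⟩ ⟨(b : Ω), b.2.1⟩ a.2.2 b.2.2
      map_zero' := by rw [hφ0_zero, map_zero]
      map_add' := fun a b => by rw [hφ0_add, map_add]
      commutes' := fun a => by
        rw [hφ0_alg]
        rfl }
  -- points
  have hkillΩ : ∀ γ : H →ₐ[h78_Zp p] Ω,
      (toConv γ.toLinearMap : WithConv (H →ₗ[h78_Zp p] Ω)) ^ p = 1 :=
    fun γ => h71_pow_of_algHom_pow p (toConv γ) (hkill (toConv γ))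
  let γT : (H →ₐ[h78_Zp p] Ω) → (H →ₐ[h78_Zp p] h71_int p L) := fun γ =>
    γ.codRestrict (h71_int p L) (fun h => ⟨hLpts γ h, hint γ h⟩)
  have hγT : ∀ γ, (h71_int p L).val.comp (γT γ) = γ := fun γ =>
    AlgHom.val_comp_codRestrict _ _ _
  have hγTpow : ∀ γ, (toConv (γT γ).toLinearMap :
      WithConv (H →ₗ[h78_Zp p] h71_int p L)) ^ p = 1 := fun γ =>
    h71_pow_of_comp_injective p (h71_int p L).val Subtype.val_injective (γT γ)
      (by rw [hγT]; exact hkillΩ γ)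
  let γR : (H →ₐ[h78_Zp p] Ω) → (H →ₐ[h78_Zp p] h71_int p ⊤) := fun γ =>
    γ.codRestrict (h71_int p ⊤) (fun h => ⟨IntermediateField.mem_top, hint γ h⟩)
  have hγR : ∀ γ, (h71_int p ⊤).val.comp (γR γ) = γ := fun γ =>
    AlgHom.val_comp_codRestrict _ _ _
  have hγRpow : ∀ γ, (toConv (γR γ).toLinearMap :
      WithConv (H →ₗ[h78_Zp p] h71_int p ⊤)) ^ p = 1 := fun γ =>
    h71_pow_of_comp_injective p (h71_int p ⊤).val Subtype.val_injective (γR γ)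
      (by rw [hγR]; exact hkillΩ γ)
  -- companions
  have hcomp : ∀ γ : H →ₐ[h78_Zp p] Ω, ∃ f : H →ₐ[h78_Zp p] h71_int p E,
      (toConv f.toLinearMap : WithConv (H →ₗ[h78_Zp p] h71_int p E)) ^ p = 1 ∧
      ∀ (h : H) (x : h71_int p E), Ideal.Quotient.mk I x = φbar (γT γ h) →
        ϖS ^ k ∣ f h - x := fun γ =>
    (h71_transfer_existsUnique p hp ϖS u e k hu hpe hk hreg hHS hPS I hI φbar (γT γ)
      (hγTpow γ)).exists
  choose F hF1 hF2 using hcomp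
  let Θ : (H →ₐ[h78_Zp p] Ω) → (H →ₐ[h78_Zp p] Ω) := fun γ => (h71_int p E).val.comp (F γ)
  have hΘinj : Function.Injective Θ := by
    intro γ γ' hΘ
    have hFF : F γ = F γ' := by
      apply AlgHom.ext
      intro h
      apply Subtype.ext
      exact congrArg (fun g : H →ₐ[h78_Zp p] Ω => g h) hΘ
    have hclose : ∀ h : H, ‖((γR γ h : h71_int p ⊤) : Ω) - (γR γ' h : Ω)‖ ≤ ‖ϖ‖ ^ k := by
      intro h
      have h1 := hF2 γ h (φ0 (γT γ h)) rfl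
      have h2 := hF2 γ' h (φ0 (γT γ' h)) rfl
      rw [← hFF] at h2
      have h3 : ϖS ^ k ∣ φ0 (γT γ h) - φ0 (γT γ' h) := by
        have h4 : φ0 (γT γ h) - φ0 (γT γ' h)
            = (F γ h - φ0 (γT γ' h)) - (F γ h - φ0 (γT γ h)) := by ring
        rw [h4]
        exact dvd_sub h2 h1
      rw [← hφ0_sub, h71_int_dvd_iff p E _ _ (pow_ne_zero _ hϖS0)] at h3
      have h5 : ‖((φ0 (γT γ h - γT γ' h) : h71_int p E) : Ω)‖ = ‖γ h - γ' h‖ := hφn _
      have h6 : ((ϖS ^ k : h71_int p E) : Ω) = (ϖS : Ω) ^ k := rfl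
      rw [h5, h6, norm_pow, hϖS] at h3
      exact h3
    have hRR : γR γ = γR γ' :=
      h71_int_point_unique p ⊤ ϖ IntermediateField.mem_top hϖ0 hϖ1 e k hn hk (γR γ) (γR γ')
        (hγRpow γ) (hγRpow γ') hclose
    rw [← hγR γ, ← hγR γ', hRR]
  have : Finite (H →ₐ[h78_Zp p] Ω) := h71_finite_algHom
  obtain ⟨γ0, hγ0⟩ := Finite.surjective_of_injective hΘinj γ
  have hval : γ h = ((F γ0 h : h71_int p E) : Ω) := by
    rw [← hγ0]
    rfl
  rw [hval]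
  exact (F γ0 h).2.1

end main

end Fermat.Agent.S56
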