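import Mathlib
import Fermat.Agent.S56.h78_W3Defs
import Fermat.Agent.S28.ZlBasics

/-!
# S56 / W3 / E0 DATUM: the Hopf datum of a flat lift

`h81_flat_datum` (= `sk_flat_datum` of the W3 skeleton, verbatim): from `h78_LocFlat p rb a` we get
a cocommutative bialgebra `H` over `ℤ_(p)`, free of finite rank, all of whose `Ω`-points are killed
by `p`, and the field `La` generated by all point values: finite over `ℚ_p`, Galois-stable, with
`Gal(Ω/La) = {g | rb g = 1 ∧ a g = 0} = {g | g fixes all point values}`.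
-/

set_option autoImplicit false

open Coalgebra WithConv

namespace Fermat.Agent.S56

variable (p : ℕ) [Fact p.Prime]

local notation "Ω" => PadicAlgCl p
local notation "Fld" => IntermediateField ℚ_[p] (PadicAlgCl p)

/-- Galois elements fix the image of `ℤ_(p)`. -/
theorem h81_gal_algebraMap (g : h78_G p) (c : h78_Zp p) :
    g (algebraMap (h78_Zp p) Ω c) = algebraMap (h78_Zp p) Ω c := by
  show g (algebraMap ℚ Ω (c : ℚ)) = algebraMap ℚ Ω (c : ℚ)
  rw [eq_ratCast, map_ratCast]

/-- The image of `ℤ_(p)` lies in every intermediate field. -/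
theorem h81_algebraMap_mem (E : Fld) (c : h78_Zp p) : algebraMap (h78_Zp p) Ω c ∈ E := by
  have h : algebraMap (h78_Zp p) Ω c = algebraMap ℚ_[p] Ω (((c : ℚ) : ℚ_[p])) := by
    show algebraMap ℚ Ω (c : ℚ) = _
    rw [eq_ratCast, map_ratCast]
  rw [h]
  exact E.algebraMap_mem _

/-- The Galois action on points. -/
noncomputable def h81_galPt {H : Type} [CommRing H] [Algebra (h78_Zp p) H] (g : h78_G p)
    (γ : H →ₐ[h78_Zp p] Ω) : H →ₐ[h78_Zp p] Ω :=
  { ((g : Ω ≃+* Ω) : Ω →+* Ω).comp (γ : H →+* Ω) with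
    commutes' := fun c => by
      show g (γ (algebraMap (h78_Zp p) H c)) = algebraMap (h78_Zp p) Ω c
      rw [γ.commutes, h81_gal_algebraMap] }

theorem h81_galPt_apply {H : Type} [CommRing H] [Algebra (h78_Zp p) H] (g : h78_G p)
    (γ : H →ₐ[h78_Zp p] Ω) (h : H) : h81_galPt p g γ h = g (γ h) := rfl

/-- An automorphism fixing the generators fixes the generated field. -/
theorem h81_fix_adjoin (g : h78_G p) (T : Set Ω) (hT : ∀ x ∈ T, g x = x) :
    ∀ z ∈ IntermediateField.adjoin ℚ_[p] T, g z = z := by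
  have hle : IntermediateField.adjoin ℚ_[p] T ≤
      IntermediateField.fixedField (Subgroup.zpowers g) := by
    rw [IntermediateField.adjoin_le_iff]
    intro x hx
    rw [SetLike.mem_coe, IntermediateField.mem_fixedField_iff]
    have h1 : Subgroup.zpowers g ≤ MulAction.stabilizer (h78_G p) x := by
      rw [Subgroup.zpowers_le, MulAction.mem_stabilizer_iff]
      exact hT x hx
    intro f hf
    exact MulAction.mem_stabilizer_iff.mp (h1 hf)
  intro z hz
  exact (IntermediateField.mem_fixedField_iff _ z).mp (hle hz) g (Subgroup.mem_zpowers g)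

set_option linter.unusedVariables false in
/-- **W3-E0** (`sk_flat_datum`). -/
theorem h81_flat_datum {k : Type} [Field k] [Finite k] [CharP k p]
    (rb : h78_G p →* Matrix (Fin 2) (Fin 2) k) (a : h78_G p → Matrix (Fin 2) (Fin 2) k)
    (hcoc : ∀ s t, a (s * t) = a s * rb t + rb s * a t) (hfl : h78_LocFlat p rb a) :
    ∃ (H : Type) (_ : CommRing H) (_ : Bialgebra (h78_Zp p) H)
      (_ : Coalgebra.IsCocomm (h78_Zp p) H) (_ : Module.Free (h78_Zp p) H)
      (_ : Module.Finite (h78_Zp p) H) (La : Fld) (_ : FiniteDimensional ℚ_[p] La),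
      (∀ γ : WithConv (H →ₐ[h78_Zp p] Ω), γ ^ p = 1) ∧ h78_Stable p La ∧
      (∀ (γ : H →ₐ[h78_Zp p] Ω) (h : H), γ h ∈ La) ∧
      (∀ g : h78_G p, (∀ z ∈ La, g z = z) ↔ (rb g = 1 ∧ a g = 0)) ∧
      (∀ g : h78_G p, (∀ z ∈ La, g z = z) ↔
        ∀ (γ : H →ₐ[h78_Zp p] Ω) (h : H), g (γ h) = γ h) ∧
      ∃ e : WithConv (H →ₐ[h78_Zp p] Ω) ≃ (Fin 2 → k) × (Fin 2 → k),
        (∀ f g, e (f * g) = e f + e g) ∧
        ∀ (σ : h78_G p) (f g : WithConv (H →ₐ[h78_Zp p] Ω)),
          (∀ h : H, g h = σ (f h)) → e g = h78_act p rb a σ (e f) := by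
  classical
  obtain ⟨H, instR, instHopf, hfin, hflat, hcocomm, e, hemul, heq⟩ := hfl
  have hloc : IsLocalRing (h78_Zp p) := by
    have := Fermat.Agent.S28.ratLocalizedAt_isDiscreteValuationRing p
    infer_instance
  have hfree : Module.Free (h78_Zp p) H := Module.free_of_flat_of_isLocalRing
  -- points are finite
  have hfinPt : Finite (WithConv (H →ₐ[h78_Zp p] Ω)) := Finite.of_equiv _ e.symm
  have hfinPt' : Finite (H →ₐ[h78_Zp p] Ω) :=
    Finite.of_injective (fun γ : H →ₐ[h78_Zp p] Ω => (toConv γ : WithConv (H →ₐ[h78_Zp p] Ω)))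
      (fun γ γ' h => congrArg WithConv.ofConv h)
  -- module generators
  obtain ⟨s, hs⟩ := (Module.finite_def.mp hfin)
  set T : Set Ω := Set.range (fun x : (H →ₐ[h78_Zp p] Ω) × (s : Set H) => x.1 (x.2 : H)) with hT
  have hTfin : Finite T := Set.finite_range _
  set La : Fld := IntermediateField.adjoin ℚ_[p] T with hLa
  have hLafin : FiniteDimensional ℚ_[p] La :=
    IntermediateField.finiteDimensional_adjoin (fun x _ => Algebra.IsIntegral.isIntegral x)
  -- all point values are in `La`
  have hmem : ∀ (γ : H →ₐ[h78_Zp p] Ω) (h : H), γ h ∈ La := by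
    intro γ h
    have hh : h ∈ Submodule.span (h78_Zp p) (s : Set H) := by
      rw [hs]; exact Submodule.mem_top
    induction hh using Submodule.span_induction with
    | mem x hx => exact IntermediateField.subset_adjoin ℚ_[p] T ⟨(γ, ⟨x, hx⟩), rfl⟩
    | zero => rw [map_zero]; exact La.zero_mem
    | add x y _ _ hx hy => rw [map_add]; exact La.add_mem hx hy
    | smul c x _ hx =>
      rw [Algebra.smul_def, map_mul, γ.commutes]
      exact La.mul_mem (h81_algebraMap_mem p La c) hx
  -- the Galois action permutes the generators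
  have hstab : h78_Stable p La := by
    intro g z hz
    have h1 : (g : Ω →ₐ[ℚ_[p]] Ω) z ∈ La.map (g : Ω →ₐ[ℚ_[p]] Ω) := ⟨z, hz, rfl⟩
    rw [hLa, IntermediateField.adjoin_map] at h1
    refine IntermediateField.adjoin.mono ℚ_[p] _ T ?_ h1
    rintro _ ⟨_, ⟨⟨γ, x⟩, rfl⟩, rfl⟩
    exact ⟨(h81_galPt p g γ, x), rfl⟩
  -- fixing `La` = fixing all point values
  have h5 : ∀ g : h78_G p, (∀ z ∈ La, g z = z) ↔
      ∀ (γ : H →ₐ[h78_Zp p] Ω) (h : H), g (γ h) = γ h := by
    intro g
    constructor
    · intro hg γ h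
      exact hg _ (hmem γ h)
    · intro hg
      apply h81_fix_adjoin p g T
      rintro _ ⟨⟨γ, x⟩, rfl⟩
      exact hg γ x
  -- `e 1 = 0`, `e (γ ^ n) = n • e γ`
  have he1 : e 1 = 0 := by
    have := hemul 1 1
    rw [mul_one] at this
    exact left_eq_add.mp this
  have hepow : ∀ (γ : WithConv (H →ₐ[h78_Zp p] Ω)) (n : ℕ), e (γ ^ n) = n • e γ := by
    intro γ n
    induction n with
    | zero => rw [pow_zero, he1, zero_smul]
    | succ n ih => rw [pow_succ, hemul, ih, succ_nsmul]
  -- the action on `k² × k²` in terms of points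
  have hact : ∀ (g : h78_G p) (f : WithConv (H →ₐ[h78_Zp p] Ω)),
      e (toConv (h81_galPt p g f.ofConv)) = h78_act p rb a g (e f) :=
    fun g f => heq g f (toConv (h81_galPt p g f.ofConv)) (fun h => rfl)
  have h4 : ∀ g : h78_G p, (∀ (γ : H →ₐ[h78_Zp p] Ω) (h : H), g (γ h) = γ h) ↔
      (rb g = 1 ∧ a g = 0) := by
    intro g
    constructor
    · intro hg
      have hv : ∀ v : (Fin 2 → k) × (Fin 2 → k), h78_act p rb a g v = v := by
        intro v
        have h1 := hact g (e.symm v)
        have h2 : (toConv (h81_galPt p g (e.symm v).ofConv) : WithConv (H →ₐ[h78_Zp p] Ω)) =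
            e.symm v := by
          apply congrArg toConv
          apply AlgHom.ext
          intro h
          exact hg _ h
        rw [h2, Equiv.apply_symm_apply] at h1
        exact h1.symm
      constructor
      · apply Matrix.toLin'.injective
        apply LinearMap.ext
        intro w
        have := congrArg Prod.snd (hv (0, w))
        simp only [h78_act, Matrix.mulVec_zero, zero_add] at this
        rw [Matrix.toLin'_apply, Matrix.toLin'_one]
        exact this
      · apply Matrix.toLin'.injective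
        apply LinearMap.ext
        intro w
        have := congrArg Prod.snd (hv (w, 0))
        simp only [h78_act, Matrix.mulVec_zero, add_zero] at this
        rw [Matrix.toLin'_apply, map_zero]
        exact this
    · rintro ⟨hr, ha⟩ γ h
      have h1 := hact g (toConv γ)
      have h2 : h78_act p rb a g (e (toConv γ)) = e (toConv γ) := by
        simp only [h78_act, hr, ha, Matrix.one_mulVec, Matrix.zero_mulVec, zero_add]
      rw [h2] at h1
      have h3 := e.injective h1
      have h4' : h81_galPt p g γ = γ := congrArg WithConv.ofConv h3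
      have := congrArg (fun φ : H →ₐ[h78_Zp p] Ω => φ h) h4'
      exact this
  refine ⟨H, instR, inferInstance, hcocomm, hfree, hfin, La, hLafin, ?_, hstab, hmem,
    fun g => (h5 g).trans (h4 g), h5, e, hemul, heq⟩
  intro γ
  apply e.injective
  rw [hepow, he1]
  have hchar : ((p : ℕ) : k) = 0 := CharP.cast_eq_zero k p
  rw [← Nat.cast_smul_eq_nsmul k, hchar, zero_smul]

end Fermat.Agent.S56
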