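import Mathlib
import Fermat.Agent.S56.h78_W3Defs
import Fermat.Agent.S56.h62_W3Basics
import Fermat.Agent.S56.h49_K0Basic
import Fermat.Agent.S56.h49_K0Res
import Fermat.Agent.S56.h57_K0Unram
import Fermat.Agent.S56.h71_Ps
import Fermat.Agent.S56.h81_FlatDatum
import Fermat.Agent.S33.h9_Crux

/-!
# S56 / W3 / E-RED: the CRUX for the flat local bound (helper57)

`h57_crux` is the instance of helper9's abstract CRUX (`Fermat.Agent.S33.h9_crux_abs`) in the
norm language of W3: `A = {z ∈ L | ‖z‖ ≤ 1}`, `m = {z ∈ L | ‖z‖ < 1}`, inertia `= J_L`.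
For a finite `J_L`-stable group `N` of points and a point `x` congruent to the unit point with
`(σ - 1) x ∈ N` for all `σ ∈ J_L`, we get `x ∈ N` (`p` odd).  No quotient Hopf algebra is needed.

`h57_red_struct` is its consequence for a flat lift `rb + ε a` in pure representation language:
there is a `G`-stable subgroup `V0` of `V = k² × k²` with `(J_L - 1) V ⊆ V0` and such that for
every `J_L`-stable subgroup `N`, an element `x ∈ V0` with `(J_L - 1) x ⊆ N` lies in `N`.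
-/

set_option autoImplicit false

open Coalgebra WithConv

namespace Fermat.Agent.S56

open Fermat.Agent.S33

variable (p : ℕ) [Fact p.Prime]

local notation "Ω" => PadicAlgCl p
local notation "Fld" => IntermediateField ℚ_[p] (PadicAlgCl p)

/-- A Galois element as a `ℤ_(p)`-algebra endomorphism of `Ω`. -/
noncomputable def h57_galHom (g : h78_G p) : Ω →ₐ[h78_Zp p] Ω :=
  { ((g : Ω ≃+* Ω) : Ω →+* Ω) with
    commutes' := fun c => h81_gal_algebraMap p g c }

theorem h57_galHom_apply (g : h78_G p) (z : Ω) : h57_galHom p g z = g z := rfl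

/-- The maximal ideal `{z ∈ L | ‖z‖ < 1}` of the integers of `L`, as an additive subgroup. -/
def h57_max (L : Fld) : AddSubgroup Ω where
  carrier := {z | z ∈ L ∧ ‖z‖ < 1}
  add_mem' := fun {a b} ha hb =>
    ⟨L.add_mem ha.1 hb.1, lt_of_le_of_lt (IsUltrametricDist.norm_add_le_max _ _) (max_lt ha.2 hb.2)⟩
  zero_mem' := ⟨L.zero_mem, by rw [norm_zero]; exact zero_lt_one⟩
  neg_mem' := fun {a} ha => ⟨L.neg_mem ha.1, by rw [norm_neg]; exact ha.2⟩

theorem h57_mem_max (L : Fld) (z : Ω) : z ∈ h57_max p L ↔ z ∈ L ∧ ‖z‖ < 1 := Iff.rfl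

theorem h57_max_mul (L : Fld) (a : Ω) (ha : a ∈ h57_max p L) (b : Ω)
    (hb : b ∈ (h71_int p L).toSubring) : a * b ∈ h57_max p L := by
  have hb' : b ∈ L ∧ ‖b‖ ≤ 1 := hb
  refine ⟨L.mul_mem ha.1 hb'.1, ?_⟩
  rw [norm_mul]
  calc ‖a‖ * ‖b‖ ≤ ‖a‖ * 1 := mul_le_mul_of_nonneg_left hb'.2 (norm_nonneg _)
    _ = ‖a‖ := mul_one _
    _ < 1 := ha.2

/-- `J_L`-invariant elements of the maximal ideal of `L` are divisible by `p`. -/
theorem h57_unr (L : Fld) [FiniteDimensional ℚ_[p] L] (a : Ω) (ha : a ∈ h57_max p L)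
    (hfix : ∀ σ ∈ h78_J p L, σ a = a) : ∃ b ∈ (h71_int p L).toSubring, a = (p : Ω) * b := by
  have hfin : FiniteDimensional ℚ_[p] (h78_K0 p L) :=
    Module.Finite.of_injective (IntermediateField.inclusion (h49_K0_le p L)).toLinearMap
      (IntermediateField.inclusion (h49_K0_le p L)).injective
  have haK : a ∈ h78_K0 p L := by
    refine h62_mem_of_fixed p (h78_K0 p L) a (fun g hg => hfix g ?_)
    exact (IntermediateField.mem_fixingSubgroup_iff _ _).2 hg
  have hp0 : (p : Ω) ≠ 0 := by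
    have := (Fact.out : p.Prime).ne_zero
    exact_mod_cast this
  have hpL : (p : Ω) ∈ L := natCast_mem L p
  refine ⟨a / (p : Ω), ⟨L.div_mem ha.1 hpL, ?_⟩, by field_simp⟩
  by_cases ha0 : a = 0
  · rw [ha0, zero_div, norm_zero]; exact zero_le_one
  obtain ⟨n, hn⟩ := h57_K0_unram p L a haK ha0
  have hp1 : (1 : ℝ) < p := by exact_mod_cast (Fact.out : p.Prime).one_lt
  have hn0 : n < 0 := by
    by_contra hcon
    have h0 : (0 : ℤ) ≤ n := not_lt.1 hcon
    have : (1 : ℝ) ≤ (p : ℝ) ^ n := one_le_zpow₀ hp1.le h0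
    have := ha.2
    rw [hn] at this
    linarith
  rw [norm_div, h62_norm_p, hn, div_eq_mul_inv, inv_inv]
  have h1 : (p : ℝ) ^ n * p = (p : ℝ) ^ (n + 1) := by
    rw [zpow_add₀ (by positivity : (p : ℝ) ≠ 0), zpow_one]
  rw [h1]
  exact zpow_le_one_of_nonpos₀ hp1.le (by omega)

/-- The integers of `L` are `p`-adically separated. -/
theorem h57_sep (L : Fld) (a : Ω)
    (h : ∀ n : ℕ, ∃ b ∈ (h71_int p L).toSubring, a = (p : Ω) ^ n * b) : a = 0 := by
  by_contra ha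
  have hpos : 0 < ‖a‖ := norm_pos_iff.2 ha
  have hp1 : (1 : ℝ) < p := by exact_mod_cast (Fact.out : p.Prime).one_lt
  have hlt : (p : ℝ)⁻¹ < 1 := inv_lt_one_of_one_lt₀ hp1
  obtain ⟨n, hn⟩ := exists_pow_lt_of_lt_one hpos hlt
  obtain ⟨b, hb, hab⟩ := h n
  have hb' : b ∈ L ∧ ‖b‖ ≤ 1 := hb
  have : ‖a‖ ≤ (p : ℝ)⁻¹ ^ n := by
    rw [hab, norm_mul, norm_pow, h62_norm_p]
    calc (p : ℝ)⁻¹ ^ n * ‖b‖ ≤ (p : ℝ)⁻¹ ^ n * 1 :=
          mul_le_mul_of_nonneg_left hb'.2 (by positivity)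
      _ = (p : ℝ)⁻¹ ^ n := mul_one _
  linarith

/-- **CRUX in W3 language.**  `N` a finite `J_L`-stable group of points, `x` a point congruent
to the unit point modulo the maximal ideal, with `σ x ∈ x N` for all `σ ∈ J_L`: then `x ∈ N`. -/
theorem h57_crux (hp2 : p ≠ 2) {H : Type} [CommRing H] [Bialgebra (h78_Zp p) H]
    [Coalgebra.IsCocomm (h78_Zp p) H]
    (L : Fld) [FiniteDimensional ℚ_[p] L]
    (hLpts : ∀ (γ : H →ₐ[h78_Zp p] Ω) (h : H), γ h ∈ L)
    (hint : ∀ (γ : H →ₐ[h78_Zp p] Ω) (h : H), ‖γ h‖ ≤ 1)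
    (N : Finset (WithConv (H →ₐ[h78_Zp p] Ω))) (h1 : 1 ∈ N)
    (hmul : ∀ a ∈ N, ∀ b ∈ N, a * b ∈ N)
    (hinv : ∀ a ∈ N, ∃ b ∈ N, a * b = 1)
    (hNI : ∀ σ ∈ h78_J p L, ∀ n ∈ N, ∀ n' : WithConv (H →ₐ[h78_Zp p] Ω),
      (∀ h : H, n' h = σ (n h)) → n' ∈ N)
    (x : WithConv (H →ₐ[h78_Zp p] Ω))
    (hx1 : ∀ h : H, ‖x h - algebraMap (h78_Zp p) Ω (counit (R := h78_Zp p) h)‖ < 1)
    (hxp : x ^ p ∈ N)
    (hxI : ∀ σ ∈ h78_J p L, ∃ n ∈ N, ∀ h : H, σ (x h) = (x * n) h) : x ∈ N := by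
  have hp0 : (p : Ω) ≠ 0 := by
    have := (Fact.out : p.Prime).ne_zero
    exact_mod_cast this
  refine h9_crux_abs (O := h78_Zp p) (H := H) p (Fact.out : p.Prime) hp2 hp0
    (h71_int p L).toSubring (h57_max p L) (h57_max_mul p L)
    {τ | ∃ σ ∈ h78_J p L, τ = h57_galHom p σ} ?_ (h57_sep p L) N h1 hmul hinv ?_ ?_ x ?_ ?_ hxp ?_
  · intro a ha hfix
    exact h57_unr p L a ha (fun σ hσ => hfix (h57_galHom p σ) ⟨σ, hσ, rfl⟩)
  · intro n _ h
    exact ⟨hLpts n.ofConv h, hint n.ofConv h⟩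
  · rintro τ ⟨σ, hσ, rfl⟩ n hn
    exact hNI σ hσ n hn _ (fun h => rfl)
  · intro h
    exact ⟨hLpts x.ofConv h, hint x.ofConv h⟩
  · intro h
    exact ⟨L.sub_mem (hLpts x.ofConv h) (h81_algebraMap_mem p L _), hx1 h⟩
  · rintro τ ⟨σ, hσ, rfl⟩
    obtain ⟨n, hn, hh⟩ := hxI σ hσ
    refine ⟨n, hn, ?_⟩
    apply WithConv.ofConv_injective
    ext h
    exact hh h

/-- Congruence modulo the maximal ideal is preserved by convolution with an integral point. -/
theorem h57_conv_congr {H : Type} [CommRing H] [Bialgebra (h78_Zp p) H] (L : Fld)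
    (γ₁ γ₂ δ : WithConv (H →ₐ[h78_Zp p] Ω))
    (h12 : ∀ h : H, γ₁ h - γ₂ h ∈ h57_max p L)
    (hδ : ∀ h : H, δ h ∈ (h71_int p L).toSubring) (h : H) :
    (γ₁ * δ) h - (γ₂ * δ) h ∈ h57_max p L := by
  have key : (h9_pt γ₁ - h9_pt γ₂) * h9_pt δ = h9_pt (γ₁ * δ) - h9_pt (γ₂ * δ) := by
    rw [sub_mul, h9_pt_mul, h9_pt_mul]
  have h3 := h9_val_mul (O := h78_Zp p) (h57_max p L : Set Ω) ((h71_int p L).toSubring : Set Ω)
    (h57_max p L).toAddSubmonoid (h57_max_mul p L) (h9_pt γ₁ - h9_pt γ₂) (h9_pt δ) h12 hδ h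
  rw [key] at h3
  exact h3

/-- The predicate "congruent to the unit point". -/
def h57_Conn {H : Type} [CommRing H] [Bialgebra (h78_Zp p) H] (L : Fld)
    (γ : WithConv (H →ₐ[h78_Zp p] Ω)) : Prop :=
  ∀ h : H, γ h - algebraMap (h78_Zp p) Ω (counit (R := h78_Zp p) h) ∈ h57_max p L

theorem h57_conn_one {H : Type} [CommRing H] [Bialgebra (h78_Zp p) H] (L : Fld) :
    h57_Conn p L (1 : WithConv (H →ₐ[h78_Zp p] Ω)) := by
  intro h
  have : (1 : WithConv (H →ₐ[h78_Zp p] Ω)) h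
      = algebraMap (h78_Zp p) Ω (counit (R := h78_Zp p) h) := rfl
  rw [this, sub_self]
  exact (h57_max p L).zero_mem

theorem h57_conn_mul {H : Type} [CommRing H] [Bialgebra (h78_Zp p) H] (L : Fld)
    (hLpts : ∀ (γ : H →ₐ[h78_Zp p] Ω) (h : H), γ h ∈ L)
    (hint : ∀ (γ : H →ₐ[h78_Zp p] Ω) (h : H), ‖γ h‖ ≤ 1)
    (γ δ : WithConv (H →ₐ[h78_Zp p] Ω)) (hγ : h57_Conn p L γ) (hδ : h57_Conn p L δ) :
    h57_Conn p L (γ * δ) := by
  intro h
  have h1 := h57_conv_congr p L γ 1 δ hγ (fun h => ⟨hLpts δ.ofConv h, hint δ.ofConv h⟩) h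
  rw [one_mul] at h1
  have h2 := (h57_max p L).add_mem h1 (hδ h)
  rwa [sub_add_sub_cancel] at h2

theorem h57_conn_pow {H : Type} [CommRing H] [Bialgebra (h78_Zp p) H] (L : Fld)
    (hLpts : ∀ (γ : H →ₐ[h78_Zp p] Ω) (h : H), γ h ∈ L)
    (hint : ∀ (γ : H →ₐ[h78_Zp p] Ω) (h : H), ‖γ h‖ ≤ 1)
    (γ : WithConv (H →ₐ[h78_Zp p] Ω)) (hγ : h57_Conn p L γ) (n : ℕ) :
    h57_Conn p L (γ ^ n) := by
  induction n with
  | zero => rw [pow_zero]; exact h57_conn_one p L
  | succ n ih => rw [pow_succ]; exact h57_conn_mul p L hLpts hint _ _ ih hγ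

/-- **Structure of a flat lift** (pure representation form).  For a flat lift `rb + ε a` and a
finite `L` trivialising it there is a Galois-stable subgroup `V0 ⊆ V = k² × k²` (the points
congruent to the unit point) such that `J_L` acts trivially on `V / V0`, and for every
`J_L`-stable subgroup `N`, every `x ∈ V0` which is `J_L`-invariant modulo `N` lies in `N`. -/
theorem h57_red_struct (hp2 : p ≠ 2) {k : Type} [Field k] [Finite k] [CharP k p]
    (rb : h78_G p →* Matrix (Fin 2) (Fin 2) k) (a : h78_G p → Matrix (Fin 2) (Fin 2) k)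
    (hcoc : ∀ s t, a (s * t) = a s * rb t + rb s * a t) (hfl : h78_LocFlat p rb a)
    (L : Fld) [FiniteDimensional ℚ_[p] L]
    (htriv : ∀ g : h78_G p, (∀ z ∈ L, g z = z) → rb g = 1 ∧ a g = 0) :
    ∃ V0 : AddSubgroup ((Fin 2 → k) × (Fin 2 → k)),
      (∀ (σ : h78_G p), ∀ v ∈ V0, h78_act p rb a σ v ∈ V0) ∧
      (∀ σ ∈ h78_J p L, ∀ v, h78_act p rb a σ v - v ∈ V0) ∧
      ∀ N : AddSubgroup ((Fin 2 → k) × (Fin 2 → k)),
        (∀ σ ∈ h78_J p L, ∀ n ∈ N, h78_act p rb a σ n ∈ N) →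
        ∀ x ∈ V0, (∀ σ ∈ h78_J p L, h78_act p rb a σ x - x ∈ N) → x ∈ N := by
  classical
  obtain ⟨H, _, _, _, _, _, La, _, hkill, hLas, hLapts, h4, h5, e, hemul, heq⟩ :=
    h81_flat_datum p rb a hcoc hfl
  -- the points have values in the integers of `L`
  have hLpts : ∀ (γ : H →ₐ[h78_Zp p] Ω) (h : H), γ h ∈ L := by
    intro γ h
    refine h62_mem_of_fixed p L _ (fun g hg => ?_)
    exact (h5 g).1 ((h4 g).2 (htriv g hg)) γ h
  have hint : ∀ (γ : H →ₐ[h78_Zp p] Ω) (h : H), ‖γ h‖ ≤ 1 :=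
    fun γ h => h62_point_norm_le_one p γ h
  -- `e` is a group isomorphism onto a vector space of characteristic `p`
  have he1 : e 1 = 0 := by
    have := hemul 1 1
    rw [mul_one] at this
    exact left_eq_add.mp this
  have hepow : ∀ (γ : WithConv (H →ₐ[h78_Zp p] Ω)) (n : ℕ), e (γ ^ n) = n • e γ := by
    intro γ n
    induction n with
    | zero => rw [pow_zero, he1, zero_smul]
    | succ n ih => rw [pow_succ, hemul, ih, succ_nsmul]
  have hpv : ∀ v : (Fin 2 → k) × (Fin 2 → k), p • v = 0 := by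
    intro v
    rw [← Nat.cast_smul_eq_nsmul k, CharP.cast_eq_zero, zero_smul]
  have hp1 : 1 ≤ p := (Fact.out : p.Prime).one_lt.le
  have hneg : ∀ v : (Fin 2 → k) × (Fin 2 → k), (p - 1) • v = -v := by
    intro v
    have h1 : (p - 1) • v + v = 0 := by
      rw [← succ_nsmul, Nat.sub_add_cancel hp1, hpv]
    exact eq_neg_of_add_eq_zero_left h1
  -- Galois conjugates of points
  let cj : h78_G p → WithConv (H →ₐ[h78_Zp p] Ω) → WithConv (H →ₐ[h78_Zp p] Ω) :=
    fun σ γ => toConv (h81_galPt p σ γ.ofConv)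
  have hcj : ∀ σ γ, e (cj σ γ) = h78_act p rb a σ (e γ) :=
    fun σ γ => heq σ γ (cj σ γ) (fun h => rfl)
  have hcjconn : ∀ σ γ, h57_Conn p L γ → h57_Conn p L (cj σ γ) := by
    intro σ γ hγ h
    refine ⟨L.sub_mem (hLpts _ h) (h81_algebraMap_mem p L _), ?_⟩
    have h1 : (cj σ γ) h - algebraMap (h78_Zp p) Ω (counit (R := h78_Zp p) h)
        = σ (γ h - algebraMap (h78_Zp p) Ω (counit (R := h78_Zp p) h)) := by
      rw [map_sub, h81_gal_algebraMap]
      rfl
    rw [h1, h78_norm_aut]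
    exact (hγ h).2
  -- `σ γ γ⁻¹` is congruent to the unit point for `σ ∈ J_L`
  have hquot : ∀ σ ∈ h78_J p L, ∀ γ : WithConv (H →ₐ[h78_Zp p] Ω),
      h57_Conn p L (cj σ γ * γ ^ (p - 1)) := by
    intro σ hσ γ h
    have h1 := h57_conv_congr p L (cj σ γ) γ (γ ^ (p - 1)) (fun h' => ?_)
      (fun h' => ⟨hLpts (γ ^ (p - 1)).ofConv h', hint (γ ^ (p - 1)).ofConv h'⟩) h
    · have h2 : γ * γ ^ (p - 1) = 1 := by
        rw [← pow_succ', Nat.sub_add_cancel hp1, hkill]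
      rw [h2] at h1
      have h3 := (h57_max p L).add_mem h1 (h57_conn_one p L h)
      rwa [sub_add_sub_cancel] at h3
    · exact ⟨L.sub_mem (hLpts _ h') (hLpts γ.ofConv h'),
        h49_J_res p L σ hσ (γ h') (hLpts γ.ofConv h') (hint γ.ofConv h')⟩
  have hsymm_add : ∀ v w, e.symm (v + w) = e.symm v * e.symm w := by
    intro v w
    apply e.injective
    rw [hemul, e.apply_symm_apply, e.apply_symm_apply, e.apply_symm_apply]
  have hsymm_zero : e.symm 0 = 1 := by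
    apply e.injective
    rw [e.apply_symm_apply, he1]
  have hsymm_neg : ∀ v, e.symm (-v) = e.symm v ^ (p - 1) := by
    intro v
    apply e.injective
    rw [hepow, e.apply_symm_apply, e.apply_symm_apply, hneg]
  refine ⟨{ carrier := {v | h57_Conn p L (e.symm v)}
            add_mem' := ?_
            zero_mem' := ?_
            neg_mem' := ?_ }, ?_, ?_, ?_⟩
  · intro v w hv hw
    show h57_Conn p L (e.symm (v + w))
    rw [hsymm_add]
    exact h57_conn_mul p L hLpts hint _ _ hv hw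
  · show h57_Conn p L (e.symm 0)
    rw [hsymm_zero]
    exact h57_conn_one p L
  · intro v hv
    show h57_Conn p L (e.symm (-v))
    rw [hsymm_neg]
    exact h57_conn_pow p L hLpts hint _ hv _
  · intro σ v hv
    show h57_Conn p L (e.symm (h78_act p rb a σ v))
    have h1 : e.symm (h78_act p rb a σ v) = cj σ (e.symm v) := by
      apply e.injective
      rw [hcj, e.apply_symm_apply, e.apply_symm_apply]
    rw [h1]
    exact hcjconn σ _ hv
  · intro σ hσ v
    show h57_Conn p L (e.symm (h78_act p rb a σ v - v))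
    have h1 : e.symm (h78_act p rb a σ v - v) = cj σ (e.symm v) * e.symm v ^ (p - 1) := by
      apply e.injective
      rw [hemul, hcj, hepow, e.apply_symm_apply, e.apply_symm_apply, hneg, sub_eq_add_neg]
    rw [h1]
    exact hquot σ hσ _
  · intro N hN x hx hxN
    have hfin : Finite (WithConv (H →ₐ[h78_Zp p] Ω)) := Finite.of_equiv _ e.symm
    have : Fintype (WithConv (H →ₐ[h78_Zp p] Ω)) := Fintype.ofFinite _
    have hmem : ∀ γ : WithConv (H →ₐ[h78_Zp p] Ω),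
        γ ∈ (Finset.univ.filter (fun γ : WithConv (H →ₐ[h78_Zp p] Ω) => e γ ∈ N)) ↔ e γ ∈ N :=
      fun γ => by simp
    have key := h57_crux p hp2 L hLpts hint
      (Finset.univ.filter (fun γ : WithConv (H →ₐ[h78_Zp p] Ω) => e γ ∈ N))
      ((hmem 1).2 (by rw [he1]; exact N.zero_mem))
      (fun a ha b hb => (hmem _).2 (by
        rw [hemul]; exact N.add_mem ((hmem a).1 ha) ((hmem b).1 hb)))
      (fun a ha => ⟨a ^ (p - 1), (hmem _).2 (by
        rw [hepow]; exact N.nsmul_mem ((hmem a).1 ha) _), by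
        rw [← pow_succ', Nat.sub_add_cancel hp1, hkill]⟩)
      (fun σ hσ n hn n' hn' => (hmem _).2 (by
        rw [heq σ n n' hn']; exact hN σ hσ _ ((hmem n).1 hn)))
      (e.symm x) (fun h => (hx h).2) ((hmem _).2 (by rw [hkill, he1]; exact N.zero_mem))
      (fun σ hσ => ⟨cj σ (e.symm x) * e.symm x ^ (p - 1), (hmem _).2 (by
        rw [hemul, hcj, hepow, e.apply_symm_apply, hneg, ← sub_eq_add_neg]
        exact hxN σ hσ), fun h => by
        have h2 : e.symm x * (cj σ (e.symm x) * e.symm x ^ (p - 1)) = cj σ (e.symm x) := by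
          rw [mul_left_comm, ← pow_succ', Nat.sub_add_cancel hp1, hkill, mul_one]
        rw [h2]
        rfl⟩)
    have := (hmem _).1 key
    rwa [e.apply_symm_apply] at this

end Fermat.Agent.S56
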