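/-
S56 / W3 / E-RED : common definitions (points of the Hopf datum, Galois action on points,
the "connected" points `V1` and the "multiplicative" points `T`).
-/
import Fermat.Agent.S56.h78_W3Defs

set_option autoImplicit false

open Coalgebra WithConv

namespace Fermat.Agent.S56

variable (p : ℕ) [Fact p.Prime]

local notation "Ω" => PadicAlgCl p

/-- the Galois action on points: `(s • y) h = s (y h)`. -/
noncomputable def h78_gal {H : Type} [CommRing H] [Bialgebra (h78_Zp p) H] (s : h78_G p)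
    (y : WithConv (H →ₐ[h78_Zp p] Ω)) : WithConv (H →ₐ[h78_Zp p] Ω) :=
  toConv
    { ((s : Ω ≃+* Ω) : Ω →+* Ω).comp ((ofConv y : H →ₐ[h78_Zp p] Ω) : H →+* Ω) with
      commutes' := fun c => by
        show s ((ofConv y : H →ₐ[h78_Zp p] Ω) (algebraMap (h78_Zp p) H c)) =
          algebraMap (h78_Zp p) Ω c
        rw [AlgHom.commutes]
        show s (algebraMap ℚ Ω (c : ℚ)) = algebraMap ℚ Ω (c : ℚ)
        rw [eq_ratCast, map_ratCast] }

theorem h78_gal_apply {H : Type} [CommRing H] [Bialgebra (h78_Zp p) H] (s : h78_G p)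
    (y : WithConv (H →ₐ[h78_Zp p] Ω)) (h : H) : h78_gal p s y h = s (y h) := rfl

/-- `V1`: the points reducing to the identity (`|y h - ε h| < 1` for all `h`). -/
def h78_V1 (H : Type) [CommRing H] [Bialgebra (h78_Zp p) H] :
    Set (WithConv (H →ₐ[h78_Zp p] Ω)) :=
  {y | ∀ h : H, ‖y h - (1 : WithConv (H →ₐ[h78_Zp p] Ω)) h‖ < 1}

/-- `T`: the points with `|y h - ε h| ≤ |ζ_p - 1|` for all `h`, written without `ζ_p`. -/
def h78_T (H : Type) [CommRing H] [Bialgebra (h78_Zp p) H] :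
    Set (WithConv (H →ₐ[h78_Zp p] Ω)) :=
  {y | ∀ h : H, ‖y h - (1 : WithConv (H →ₐ[h78_Zp p] Ω)) h‖ ^ (p - 1) ≤ (p : ℝ)⁻¹}

end Fermat.Agent.S56
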