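import Mathlib
import Fermat.Agent.S56.h78_RedDefs
import Fermat.Agent.S56.h57_Crux

/-!
# S56 / W3 / E-RED route R77, row RED-S2 [KL2] (helper57)

`h57_red_KL2` = `sk_red_KL2` of `skel/h78_RedSkel.lean`, verbatim: a corollary of `h57_crux`
(the hypothesis `Z ≤ T` is not needed).
-/

set_option autoImplicit false
set_option linter.unusedSectionVars false
set_option linter.unusedVariables false

open Coalgebra WithConv

namespace Fermat.Agent.S56

variable (p : ℕ) [Fact p.Prime]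

local notation "Ω" => PadicAlgCl p
local notation "Fld" => IntermediateField ℚ_[p] (PadicAlgCl p)

section points

variable {H : Type} [CommRing H] [Bialgebra (h78_Zp p) H]
  [Coalgebra.IsCocomm (h78_Zp p) H] [Module.Free (h78_Zp p) H] [Module.Finite (h78_Zp p) H]

/-- [KL2] (replaces "the quotient by `Z` has no inertia-fixed connected point"). -/
theorem h57_red_KL2 (hp2 : p ≠ 2) (hkill : ∀ γ : WithConv (H →ₐ[h78_Zp p] Ω), γ ^ p = 1)
    (L : Fld) [FiniteDimensional ℚ_[p] L] (hL : h78_Stable p L)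
    (hLpts : ∀ (γ : H →ₐ[h78_Zp p] Ω) (h : H), γ h ∈ L)
    (Z : Submonoid (WithConv (H →ₐ[h78_Zp p] Ω))) (hZT : ∀ z ∈ Z, z ∈ h78_T p H)
    (hZJ : ∀ s ∈ h78_J p L, ∀ z ∈ Z, h78_gal p s z ∈ Z)
    (y : WithConv (H →ₐ[h78_Zp p] Ω)) (hy : y ∈ h78_V1 p H)
    (hyJ : ∀ s ∈ h78_J p L, ∃ z ∈ Z, h78_gal p s y = y * z) : y ∈ Z := by
  classical
  have hfin' : Finite (H →ₐ[h78_Zp p] Ω) := h71_finite_algHom
  have hfin : Finite (WithConv (H →ₐ[h78_Zp p] Ω)) :=
    Finite.of_injective (fun γ : WithConv (H →ₐ[h78_Zp p] Ω) => γ.ofConv)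
      WithConv.ofConv_injective
  have : Fintype (WithConv (H →ₐ[h78_Zp p] Ω)) := Fintype.ofFinite _
  have hmem : ∀ γ : WithConv (H →ₐ[h78_Zp p] Ω),
      γ ∈ (Finset.univ.filter (fun γ : WithConv (H →ₐ[h78_Zp p] Ω) => γ ∈ Z)) ↔ γ ∈ Z :=
    fun γ => by simp
  have hp1 : 1 ≤ p := (Fact.out : p.Prime).one_lt.le
  have key := h57_crux p hp2 L hLpts (fun γ h => h62_point_norm_le_one p γ h)
    (Finset.univ.filter (fun γ : WithConv (H →ₐ[h78_Zp p] Ω) => γ ∈ Z))
    ((hmem 1).2 Z.one_mem)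
    (fun a ha b hb => (hmem _).2 (Z.mul_mem ((hmem a).1 ha) ((hmem b).1 hb)))
    (fun a ha => ⟨a ^ (p - 1), (hmem _).2 (Z.pow_mem ((hmem a).1 ha) _), by
      rw [← pow_succ', Nat.sub_add_cancel hp1, hkill]⟩)
    (fun σ hσ n hn n' hn' => (hmem _).2 (by
      have h1 : n' = h78_gal p σ n := by
        apply WithConv.ofConv_injective
        ext h
        exact hn' h
      rw [h1]
      exact hZJ σ hσ n ((hmem n).1 hn)))
    y hy ((hmem _).2 (by rw [hkill]; exact Z.one_mem))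
    (fun σ hσ => by
      obtain ⟨z, hz, hyz⟩ := hyJ σ hσ
      refine ⟨z, (hmem z).2 hz, fun h => ?_⟩
      rw [← hyz]
      rfl)
  exact (hmem y).1 key

end points

end Fermat.Agent.S56
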