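/-
S56 / W3 (flat local bound), block A: rigidity of `p`-th roots of unity in the convolution
algebra of a cocommutative coalgebra (relative to a sub-coalgebra `D`).
Abstract setting: `O` a commutative ring, `Ω` an ultrametric normed field which is an `O`-algebra
with `‖algebraMap O Ω x‖ ≤ 1`.
-/
import Mathlib

set_option autoImplicit false

open Coalgebra TensorProduct WithConv

namespace Fermat.Agent.S56

variable {O : Type*} [CommRing O] {Ω : Type*} [NormedField Ω] [IsUltrametricDist Ω] [Algebra O Ω]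
  {C : Type*} [AddCommGroup C] [Module O C] [Coalgebra O C]

/-- `D` is a sub-coalgebra (in the weak, representative sense). -/
def h78_IsSubCoalg (O : Type*) [CommRing O] {C : Type*} [AddCommGroup C] [Module O C]
    [Coalgebra O C] (D : Set C) : Prop :=
  ∀ d ∈ D, ∃ (n : ℕ) (x y : Fin n → C), (∀ i, x i ∈ D ∧ y i ∈ D) ∧
    comul (R := O) d = ∑ i, x i ⊗ₜ[O] y i

/-- `f` is `r`-small on `D`. -/
def h78_SmallOn (D : Set C) (r : ℝ) (f : WithConv (C →ₗ[O] Ω)) : Prop :=
  ∀ d ∈ D, ‖f d‖ ≤ r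

theorem h78_smallOn_mul {D : Set C} (hD : h78_IsSubCoalg O D) {r s : ℝ} (hr : 0 ≤ r)
    (hs : 0 ≤ s) {f g : WithConv (C →ₗ[O] Ω)} (hf : h78_SmallOn D r f) (hg : h78_SmallOn D s g) :
    h78_SmallOn D (r * s) (f * g) := by
  intro d hd
  obtain ⟨n, x, y, hxy, hd'⟩ := hD d hd
  have h1 : (f * g) d = ∑ i, f (x i) * g (y i) := by
    rw [LinearMap.convMul_apply, hd']
    simp
  rw [h1]
  refine IsUltrametricDist.norm_sum_le_of_forall_le_of_nonneg (mul_nonneg hr hs) ?_
  intro i _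
  rw [norm_mul]
  exact mul_le_mul (hf _ (hxy i).1) (hg _ (hxy i).2) (norm_nonneg _) hr


theorem h78_smallOn_one (hO : ∀ x : O, ‖algebraMap O Ω x‖ ≤ 1) (D : Set C) :
    h78_SmallOn D 1 (1 : WithConv (C →ₗ[O] Ω)) := by
  intro d _
  have : (1 : WithConv (C →ₗ[O] Ω)) d = algebraMap O Ω (counit d) := rfl
  rw [this]
  exact hO _

theorem h78_smallOn_pow (hO : ∀ x : O, ‖algebraMap O Ω x‖ ≤ 1) {D : Set C}
    (hD : h78_IsSubCoalg O D) {r : ℝ} (hr : 0 ≤ r)
    {f : WithConv (C →ₗ[O] Ω)} (hf : h78_SmallOn D r f) (n : ℕ) :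
    h78_SmallOn D (r ^ n) (f ^ n) := by
  induction n with
  | zero => simpa using h78_smallOn_one hO D
  | succ n ih =>
    rw [pow_succ, pow_succ]
    exact h78_smallOn_mul hD (pow_nonneg hr n) hr ih hf

theorem h78_smallOn_mono {D : Set C} {r s : ℝ} (hrs : r ≤ s) {f : WithConv (C →ₗ[O] Ω)}
    (hf : h78_SmallOn D r f) : h78_SmallOn D s f := fun d hd => (hf d hd).trans hrs

omit [IsUltrametricDist Ω] in
theorem h78_conv_add_apply (f g : WithConv (C →ₗ[O] Ω)) (d : C) : (f + g) d = f d + g d := rfl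
omit [IsUltrametricDist Ω] in
theorem h78_conv_sub_apply (f g : WithConv (C →ₗ[O] Ω)) (d : C) : (f - g) d = f d - g d := rfl
omit [IsUltrametricDist Ω] in
theorem h78_conv_sum_apply {ι : Type*} (s : Finset ι) (f : ι → WithConv (C →ₗ[O] Ω)) (d : C) :
    (∑ i ∈ s, f i) d = ∑ i ∈ s, f i d := by
  classical
  induction s using Finset.induction_on with
  | empty => rfl
  | insert a s ha ih => rw [Finset.sum_insert ha, Finset.sum_insert ha, h78_conv_add_apply, ih]
omit [IsUltrametricDist Ω] in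
theorem h78_conv_mul_natCast_apply (f : WithConv (C →ₗ[O] Ω)) (n : ℕ) (d : C) :
    (f * (n : WithConv (C →ₗ[O] Ω))) d = (n : Ω) * f d := by
  rw [← Nat.cast_comm, ← nsmul_eq_mul]
  show (n • f.ofConv) d = _
  rw [LinearMap.smul_apply, nsmul_eq_mul]

/-- **Lemma A** (rigidity): a `p`-th root of unity in the convolution algebra which is
`r`-close to `1` on a sub-coalgebra `D`, with `p * r^(p-1) < 1`, equals `1` on `D`. -/
theorem h78_rigid [Coalgebra.IsCocomm O C] (hO : ∀ x : O, ‖algebraMap O Ω x‖ ≤ 1)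
    (p : ℕ) [hpp : Fact p.Prime] (hp : ‖(p : Ω)‖ = (p : ℝ)⁻¹) {D : Set C}
    (hD : h78_IsSubCoalg O D) {r : ℝ} (hr0 : 0 ≤ r) (hr : (p : ℝ) * r ^ (p - 1) < 1)
    (z : WithConv (C →ₗ[O] Ω))
    (hz : ∀ d ∈ D, (z ^ p) d = (1 : WithConv (C →ₗ[O] Ω)) d)
    (hsmall : h78_SmallOn D r (z - 1)) :
    ∀ d ∈ D, z d = (1 : WithConv (C →ₗ[O] Ω)) d := by
  have hp2 : 2 ≤ p := hpp.out.two_le
  have hppos : (0 : ℝ) < p := by exact_mod_cast hpp.out.pos
  have hr1 : r < 1 := by
    by_contra hcon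
    rw [not_lt] at hcon
    have h1 : (1 : ℝ) ≤ r ^ (p - 1) := one_le_pow₀ hcon
    have h2 : (1 : ℝ) ≤ p := by exact_mod_cast hpp.out.one_le
    nlinarith
  set y : WithConv (C →ₗ[O] Ω) := z - 1 with hy
  have hzy : z = y + 1 := by rw [hy]; ring
  set θ : ℝ := max r ((p : ℝ) * r ^ (p - 1)) with hθ
  have hθ0 : 0 ≤ θ := le_max_of_le_left hr0
  have hθ1 : θ < 1 := max_lt hr1 hr
  -- the key improvement step
  have step : ∀ s : ℝ, 0 ≤ s → s ≤ r → h78_SmallOn D s y → h78_SmallOn D (s * θ) y := by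
    intro s hs0 hsr hys d hd
    have hexp : (z ^ p) d = ∑ m ∈ Finset.range (p + 1), ((p.choose m : ℕ) : Ω) * (y ^ m) d := by
      rw [hzy, add_pow, h78_conv_sum_apply]
      refine Finset.sum_congr rfl fun m _ => ?_
      rw [one_pow, mul_one, h78_conv_mul_natCast_apply]
    have h0 := hz d hd
    rw [hexp, Finset.sum_range_succ',
      show Finset.range p = Finset.range ((p - 1) + 1) from by congr 1; omega,
      Finset.sum_range_succ'] at h0
    simp only [Nat.choose_zero_right, Nat.cast_one, pow_zero, one_mul, zero_add, Nat.choose_one_right,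
      pow_one] at h0
    have h1 : (p : Ω) * y d = - ∑ m ∈ Finset.range (p - 1), ((p.choose (m + 2) : ℕ) : Ω) * (y ^ (m + 2)) d := by
      have h00 : ∑ m ∈ Finset.range (p - 1), ((p.choose (m + 1 + 1) : ℕ) : Ω) * (y ^ (m + 1 + 1)) d
          + (p : Ω) * y d + (1 : WithConv (C →ₗ[O] Ω)) d = (1 : WithConv (C →ₗ[O] Ω)) d := h0
      linear_combination h00
    have hbound : ‖∑ m ∈ Finset.range (p - 1), ((p.choose (m + 2) : ℕ) : Ω) * (y ^ (m + 2)) d‖
        ≤ (p : ℝ)⁻¹ * (s * θ) := by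
      refine IsUltrametricDist.norm_sum_le_of_forall_le_of_nonneg (by positivity) ?_
      intro m hm
      rw [Finset.mem_range] at hm
      rw [norm_mul]
      have hym : ‖(y ^ (m + 2)) d‖ ≤ s * r ^ (m + 1) := by
        have := h78_smallOn_mul hD hs0 (pow_nonneg hr0 (m + 1)) hys
          (h78_smallOn_pow hO hD hr0 (h78_smallOn_mono hsr hys) (m + 1)) d hd
        rwa [← pow_succ'] at this
      by_cases hmp : m + 2 = p
      · -- top term
        rw [hmp, Nat.choose_self, Nat.cast_one, norm_one, one_mul]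
        have hm1 : m + 1 = p - 1 := by omega
        calc ‖(y ^ p) d‖ = ‖(y ^ (m + 2)) d‖ := by rw [hmp]
          _ ≤ s * r ^ (m + 1) := hym
          _ = (p : ℝ)⁻¹ * (s * ((p : ℝ) * r ^ (p - 1))) := by
              rw [hm1]; field_simp
          _ ≤ (p : ℝ)⁻¹ * (s * θ) := by
              gcongr
              exact le_max_right _ _
      · have hlt : m + 2 < p := by omega
        have hdvd : p ∣ p.choose (m + 2) := hpp.out.dvd_choose_self (by omega) hlt
        obtain ⟨c, hc⟩ := hdvd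
        have hnc : ‖((p.choose (m + 2) : ℕ) : Ω)‖ ≤ (p : ℝ)⁻¹ := by
          rw [hc, Nat.cast_mul, norm_mul, hp]
          exact mul_le_of_le_one_right (by positivity) (IsUltrametricDist.norm_natCast_le_one Ω c)
        have hrm : r ^ (m + 1) ≤ r := by
          calc r ^ (m + 1) ≤ r ^ 1 := pow_le_pow_of_le_one hr0 hr1.le (by omega)
            _ = r := pow_one r
        calc ‖((p.choose (m + 2) : ℕ) : Ω)‖ * ‖(y ^ (m + 2)) d‖
            ≤ (p : ℝ)⁻¹ * (s * r ^ (m + 1)) := mul_le_mul hnc hym (norm_nonneg _) (by positivity)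
          _ ≤ (p : ℝ)⁻¹ * (s * θ) := by
              gcongr
              exact hrm.trans (le_max_left _ _)
    have h2 : ‖(p : Ω) * y d‖ ≤ (p : ℝ)⁻¹ * (s * θ) := by rw [h1, norm_neg]; exact hbound
    rw [norm_mul, hp] at h2
    exact le_of_mul_le_mul_left h2 (by positivity)
  have hall : ∀ n : ℕ, h78_SmallOn D (r * θ ^ n) y := by
    intro n
    induction n with
    | zero => simpa using hsmall
    | succ n ih =>
      have := step (r * θ ^ n) (by positivity)
        (mul_le_of_le_one_right hr0 (pow_le_one₀ hθ0 hθ1.le)) ih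
      rwa [mul_assoc, ← pow_succ] at this
  intro d hd
  have hlim : ‖y d‖ ≤ 0 := by
    have htend : Filter.Tendsto (fun n : ℕ => r * θ ^ n) Filter.atTop (nhds (r * 0)) :=
      (tendsto_pow_atTop_nhds_zero_of_lt_one hθ0 hθ1).const_mul r
    rw [mul_zero] at htend
    exact ge_of_tendsto' htend (fun n => hall n d hd)
  have hyd : y d = 0 := norm_le_zero_iff.mp hlim
  have : z d = y d + (1 : WithConv (C →ₗ[O] Ω)) d := by rw [hzy]; rfl
  rw [this, hyd, zero_add]

end Fermat.Agent.S56
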