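/-
S56 / W3 / E-RED, row RED-S1 [A] (helper6).

Sup-norm toolkit on the convolution algebra `WithConv (C →ₗ[O] Ω)` (with `D = univ`) and the
statement [A]: a point `y` of a finite flat commutative group scheme killed by `p` which is
`‖ζ - 1‖`-close to the unit section is an eigenvector for the inertia group `J_L`:
`s y = y ^ n` whenever `s ζ = ζ ^ n`.
-/
import Fermat.Agent.S56.h78_Rigid
import Fermat.Agent.S56.h62_W3Basics
import Fermat.Agent.S56.h49_K0Res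
import Fermat.Agent.S56.h5_KumBasic
import Fermat.Agent.S56.h81_FlatDatum

set_option autoImplicit false

open Coalgebra TensorProduct WithConv

namespace Fermat.Agent.S56

section generic

variable {O : Type*} [CommRing O] {Ω : Type*} [NormedField Ω] [IsUltrametricDist Ω] [Algebra O Ω]
  {C : Type*} [AddCommGroup C] [Module O C] [Coalgebra O C]

omit [Coalgebra O C] in
/-- every tensor is a finite sum of pure tensors, indexed by `Fin n`. -/
theorem h6_tensor_exists_fin (t : C ⊗[O] C) :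
    ∃ (n : ℕ) (x y : Fin n → C), t = ∑ i, x i ⊗ₜ[O] y i := by
  induction t using TensorProduct.induction_on with
  | zero => exact ⟨0, Fin.elim0, Fin.elim0, by simp⟩
  | tmul a b => exact ⟨1, fun _ => a, fun _ => b, by simp⟩
  | add s t hs ht =>
    obtain ⟨n, x, y, hxy⟩ := hs
    obtain ⟨m, x', y', hxy'⟩ := ht
    refine ⟨n + m, Fin.append x x', Fin.append y y', ?_⟩
    rw [Fin.sum_univ_add, hxy, hxy']
    simp

/-- the whole coalgebra is a sub-coalgebra in the sense of `h78_IsSubCoalg`. -/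
theorem h6_isSubCoalg_univ : h78_IsSubCoalg O (Set.univ : Set C) := by
  intro d _
  obtain ⟨n, x, y, hxy⟩ := h6_tensor_exists_fin (comul (R := O) d)
  exact ⟨n, x, y, fun i => ⟨trivial, trivial⟩, hxy⟩

omit [IsUltrametricDist Ω] in
/-- the convolution product evaluated through a `Fin n`-representation of the comultiplication. -/
theorem h6_conv_apply_fin (f g : WithConv (C →ₗ[O] Ω)) (d : C) :
    ∃ (n : ℕ) (x y : Fin n → C), (f * g) d = ∑ i, f (x i) * g (y i) := by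
  obtain ⟨n, x, y, hxy⟩ := h6_tensor_exists_fin (comul (R := O) d)
  refine ⟨n, x, y, ?_⟩
  rw [LinearMap.convMul_apply, hxy]
  simp

/-- strict ultrametric bound for finite sums. -/
theorem h6_norm_sum_lt {ι : Type*} (s : Finset ι) (f : ι → Ω) {r : ℝ} (hr : 0 < r)
    (hf : ∀ i ∈ s, ‖f i‖ < r) : ‖∑ i ∈ s, f i‖ < r := by
  classical
  induction s using Finset.induction_on with
  | empty => simpa using hr
  | insert a s ha ih =>
    rw [Finset.sum_insert ha]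
    refine lt_of_le_of_lt (IsUltrametricDist.norm_add_le_max _ _) (max_lt ?_ ?_)
    · exact hf a (Finset.mem_insert_self a s)
    · exact ih fun i hi => hf i (Finset.mem_insert_of_mem hi)

/-- strict convolution bound: pointwise `< r` times integral is pointwise `< r`. -/
theorem h6_conv_lt {r : ℝ} (f g : WithConv (C →ₗ[O] Ω)) (hf : ∀ c, ‖f c‖ < r)
    (hg : ∀ c, ‖g c‖ ≤ 1) (c : C) : ‖(f * g) c‖ < r := by
  have hr : 0 < r := lt_of_le_of_lt (norm_nonneg _) (hf 0)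
  obtain ⟨n, x, y, hxy⟩ := h6_conv_apply_fin f g c
  rw [hxy]
  refine h6_norm_sum_lt _ _ hr fun i _ => ?_
  rw [norm_mul]
  calc ‖f (x i)‖ * ‖g (y i)‖ ≤ ‖f (x i)‖ * 1 :=
        mul_le_mul_of_nonneg_left (hg _) (norm_nonneg _)
    _ = ‖f (x i)‖ := mul_one _
    _ < r := hf _

/-- sums of `r`-small maps are `r`-small. -/
theorem h6_smallOn_sum {D : Set C} {r : ℝ} (hr : 0 ≤ r) {ι : Type*} (s : Finset ι)
    (f : ι → WithConv (C →ₗ[O] Ω)) (hf : ∀ i ∈ s, h78_SmallOn D r (f i)) :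
    h78_SmallOn D r (∑ i ∈ s, f i) := by
  intro d hd
  rw [h78_conv_sum_apply]
  exact IsUltrametricDist.norm_sum_le_of_forall_le_of_nonneg hr fun i hi => hf i hi d hd

/-- `f ^ j - 1` is as small as `f - 1` when `f` is integral. -/
theorem h6_smallOn_pow_sub_one [Coalgebra.IsCocomm O C] (hO : ∀ x : O, ‖algebraMap O Ω x‖ ≤ 1)
    {D : Set C} (hD : h78_IsSubCoalg O D) {r : ℝ} (hr : 0 ≤ r)
    {f : WithConv (C →ₗ[O] Ω)} (hf1 : h78_SmallOn D 1 f) (hf : h78_SmallOn D r (f - 1)) (j : ℕ) :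
    h78_SmallOn D r (f ^ j - 1) := by
  have h1 : f ^ j - 1 = (f - 1) * ∑ i ∈ Finset.range j, f ^ i := (mul_geom_sum f j).symm
  rw [h1]
  have h2 : h78_SmallOn D 1 (∑ i ∈ Finset.range j, f ^ i) :=
    h6_smallOn_sum zero_le_one _ _ fun i _ => by
      simpa using h78_smallOn_pow hO hD zero_le_one hf1 i
  simpa using h78_smallOn_mul hD hr zero_le_one hf h2

/-- second order: `f ^ n - 1 - n (f - 1)` is `r²`-small. -/
theorem h6_smallOn_pow_second [Coalgebra.IsCocomm O C] (hO : ∀ x : O, ‖algebraMap O Ω x‖ ≤ 1)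
    {D : Set C} (hD : h78_IsSubCoalg O D) {r : ℝ} (hr : 0 ≤ r)
    {f : WithConv (C →ₗ[O] Ω)} (hf1 : h78_SmallOn D 1 f) (hf : h78_SmallOn D r (f - 1)) (n : ℕ) :
    h78_SmallOn D (r * r) (f ^ n - 1 - (f - 1) * (n : WithConv (C →ₗ[O] Ω))) := by
  have h1 : f ^ n - 1 - (f - 1) * (n : WithConv (C →ₗ[O] Ω))
      = (f - 1) * ∑ j ∈ Finset.range n, (f ^ j - 1) := by
    rw [Finset.sum_sub_distrib, Finset.sum_const, Finset.card_range, nsmul_eq_mul, mul_one,
      mul_sub, mul_geom_sum]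
  rw [h1]
  exact h78_smallOn_mul hD hr hr hf
    (h6_smallOn_sum hr _ _ fun j _ => h6_smallOn_pow_sub_one hO hD hr hf1 hf j)

end generic

section padic

variable (p : ℕ) [Fact p.Prime]

local notation "Ω" => PadicAlgCl p
local notation "Fld" => IntermediateField ℚ_[p] (PadicAlgCl p)

/-- `ζ ^ n - 1 ≡ n (ζ - 1)` modulo `(ζ - 1)²`. -/
theorem h6_root_pow_sub (ζ : Ω) (hζ : ζ ^ p = 1) (n : ℕ) :
    ‖ζ ^ n - 1 - (n : Ω) * (ζ - 1)‖ ≤ ‖ζ - 1‖ * ‖ζ - 1‖ := by
  have hp : p.Prime := Fact.out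
  have hζn : ‖ζ‖ = 1 := by
    have h2 : ‖ζ‖ ^ p = 1 := by rw [← norm_pow, hζ, norm_one]
    exact (pow_eq_one_iff_of_nonneg (norm_nonneg ζ) hp.ne_zero).1 h2
  induction n with
  | zero => simp; positivity
  | succ n ih =>
    have e : ζ ^ (n + 1) - 1 - ((n + 1 : ℕ) : Ω) * (ζ - 1)
        = ζ * (ζ ^ n - 1 - (n : Ω) * (ζ - 1)) + (n : Ω) * ((ζ - 1) * (ζ - 1)) := by
      push_cast; ring
    rw [e]
    refine le_trans (IsUltrametricDist.norm_add_le_max _ _) (max_le ?_ ?_)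
    · rw [norm_mul, hζn, one_mul]; exact ih
    · rw [norm_mul, norm_mul]
      exact mul_le_of_le_one_left (by positivity) (IsUltrametricDist.norm_natCast_le_one Ω n)

/-- first-order action of inertia on the disc of radius `‖ζ - 1‖` of `L`:
`s x ≡ n x` modulo elements of norm `< ‖ζ - 1‖` when `s ζ = ζ ^ n`. -/
theorem h6_gal_sub_nat_mul_lt (L : Fld) [FiniteDimensional ℚ_[p] L] (ζ : Ω) (hζL : ζ ∈ L)
    (hζ : ζ ^ p = 1) (hζ1 : ζ ≠ 1) (s : h78_G p) (hs : s ∈ h78_J p L) (n : ℕ)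
    (hn : s ζ = ζ ^ n) (x : Ω) (hxL : x ∈ L) (hx : ‖x‖ ≤ ‖ζ - 1‖) :
    ‖s x - (n : Ω) * x‖ < ‖ζ - 1‖ := by
  have h0 : ζ - 1 ≠ 0 := sub_ne_zero.2 hζ1
  have hr0 : 0 < ‖ζ - 1‖ := norm_pos_iff.2 h0
  have hr1 : ‖ζ - 1‖ < 1 := h5_root_unity_lt_one p ζ hζ
  set t : Ω := x / (ζ - 1) with ht
  have htL : t ∈ L := L.div_mem hxL (L.sub_mem hζL L.one_mem)
  have ht1 : ‖t‖ ≤ 1 := by
    rw [ht, norm_div]; exact div_le_one_of_le₀ hx (norm_nonneg _)
  have hx' : x = (ζ - 1) * t := by rw [ht]; field_simp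
  have hst : ‖s t - t‖ < 1 := h49_J_res p L s hs t htL ht1
  have e : s x - (n : Ω) * x
      = (ζ ^ n - 1 - (n : Ω) * (ζ - 1)) * s t + (n : Ω) * (ζ - 1) * (s t - t) := by
    rw [hx', map_mul, map_sub, map_one, hn]; ring
  rw [e]
  refine lt_of_le_of_lt (IsUltrametricDist.norm_add_le_max _ _) (max_lt ?_ ?_)
  · rw [norm_mul, h78_norm_aut]
    calc ‖ζ ^ n - 1 - (n : Ω) * (ζ - 1)‖ * ‖t‖ ≤ ‖ζ - 1‖ * ‖ζ - 1‖ * 1 :=
          mul_le_mul (h6_root_pow_sub p ζ hζ n) ht1 (norm_nonneg _) (by positivity)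
      _ < ‖ζ - 1‖ := by nlinarith
  · rw [norm_mul, norm_mul]
    have hn1 : ‖(n : Ω)‖ ≤ 1 := IsUltrametricDist.norm_natCast_le_one Ω n
    have hn0 : 0 ≤ ‖(n : Ω)‖ := norm_nonneg _
    have hst0 : 0 ≤ ‖s t - t‖ := norm_nonneg _
    calc ‖(n : Ω)‖ * ‖ζ - 1‖ * ‖s t - t‖ ≤ 1 * ‖ζ - 1‖ * ‖s t - t‖ := by gcongr
      _ < ‖ζ - 1‖ := by nlinarith

/-- **[A]** (RED-S1): a point which is `‖ζ - 1‖`-close to the unit section is an eigenvector of
the inertia group `J_L`, with eigencharacter the cyclotomic character. -/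
theorem h6_red_A {H : Type} [CommRing H] [Bialgebra (h78_Zp p) H]
    [Coalgebra.IsCocomm (h78_Zp p) H] [Module.Free (h78_Zp p) H] [Module.Finite (h78_Zp p) H]
    (hkill : ∀ γ : WithConv (H →ₐ[h78_Zp p] Ω), γ ^ p = 1)
    (L : Fld) [FiniteDimensional ℚ_[p] L] (hLpts : ∀ (γ : H →ₐ[h78_Zp p] Ω) (h : H), γ h ∈ L)
    (ζ : Ω) (hζL : ζ ∈ L) (hζ : ζ ^ p = 1) (hζ1 : ζ ≠ 1)
    (y : WithConv (H →ₐ[h78_Zp p] Ω))
    (hy : ∀ h : H, ‖y h - algebraMap (h78_Zp p) Ω (Coalgebra.counit h)‖ ≤ ‖ζ - 1‖)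
    (s : h78_G p) (hs : s ∈ h78_J p L) (n : ℕ) (hn : s ζ = ζ ^ n)
    (y' : WithConv (H →ₐ[h78_Zp p] Ω)) (hy' : ∀ h : H, y' h = s (y h)) : y' = y ^ n := by
  classical
  have hp : p.Prime := Fact.out
  have hO : ∀ x : h78_Zp p, ‖algebraMap (h78_Zp p) Ω x‖ ≤ 1 := h62_norm_algebraMap_Zp_le_one p
  have hU : h78_IsSubCoalg (h78_Zp p) (Set.univ : Set H) := h6_isSubCoalg_univ
  have hr0pos : 0 < ‖ζ - 1‖ := norm_pos_iff.2 (sub_ne_zero.2 hζ1)
  have hr0lt : ‖ζ - 1‖ < 1 := h5_root_unity_lt_one p ζ hζ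
  have hr0pow : ‖ζ - 1‖ ^ (p - 1) = (p : ℝ)⁻¹ := h5_root_unity_eq p ζ hζ hζ1
  set Y : WithConv (H →ₗ[h78_Zp p] Ω) := toConv y.ofConv.toLinearMap with hY
  set Y' : WithConv (H →ₗ[h78_Zp p] Ω) := toConv y'.ofConv.toLinearMap with hY'
  have hYapp : ∀ h, Y h = y h := fun h => rfl
  have hY'app : ∀ h, Y' h = y' h := fun h => rfl
  have hone : ∀ h, (1 : WithConv (H →ₗ[h78_Zp p] Ω)) h
      = algebraMap (h78_Zp p) Ω (Coalgebra.counit h) := fun h => rfl
  have hYp : Y ^ p = 1 := by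
    rw [hY, ← AlgHom.toLinearMap_convPow, hkill y]; rfl
  have hY'p : Y' ^ p = 1 := by
    rw [hY', ← AlgHom.toLinearMap_convPow, hkill y']; rfl
  have hd : h78_SmallOn (Set.univ : Set H) ‖ζ - 1‖ (Y - 1) := fun h _ => hy h
  have hY1 : h78_SmallOn (Set.univ : Set H) 1 Y :=
    fun h _ => h62_point_norm_le_one p y.ofConv h
  have h2 := h6_smallOn_pow_second hO hU hr0pos.le hY1 hd n
  -- `u := Y' - Y ^ n` is pointwise `< ‖ζ - 1‖`
  have hu : ∀ h : H, ‖(Y' - Y ^ n) h‖ < ‖ζ - 1‖ := by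
    intro h
    have hxL : y h - algebraMap (h78_Zp p) Ω (Coalgebra.counit h) ∈ L :=
      L.sub_mem (hLpts y.ofConv h) (h81_algebraMap_mem p L _)
    have h3 := h6_gal_sub_nat_mul_lt p L ζ hζL hζ hζ1 s hs n hn _ hxL (hy h)
    have h4 := h2 h trivial
    have e : (Y' - Y ^ n) h
        = (s (y h - algebraMap (h78_Zp p) Ω (Coalgebra.counit h))
            - (n : Ω) * (y h - algebraMap (h78_Zp p) Ω (Coalgebra.counit h)))
          - (Y ^ n - 1 - (Y - 1) * (n : WithConv (H →ₗ[h78_Zp p] Ω))) h := by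
      rw [h78_conv_sub_apply, h78_conv_sub_apply, h78_conv_sub_apply,
        h78_conv_mul_natCast_apply, h78_conv_sub_apply, hY'app, hYapp, hy' h, map_sub,
        h81_gal_algebraMap, hone]
      ring
    rw [e]
    refine lt_of_le_of_lt (h5_norm_sub_le_max p _ _) (max_lt h3 ?_)
    exact lt_of_le_of_lt h4 (by nlinarith)
  set m : ℕ := (p - 1) * n with hm
  have hmn : n + m = p * n := by
    have h1 : p - 1 + 1 = p := Nat.sub_add_cancel hp.one_le
    calc n + m = (p - 1 + 1) * n := by rw [hm]; ring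
      _ = p * n := by rw [h1]
  have hYm1 : h78_SmallOn (Set.univ : Set H) 1 (Y ^ m) := by
    simpa using h78_smallOn_pow hO hU zero_le_one hY1 m
  have hYnm : Y ^ n * Y ^ m = 1 := by rw [← pow_add, hmn, pow_mul, hYp, one_pow]
  set W : WithConv (H →ₗ[h78_Zp p] Ω) := Y' * Y ^ m with hW
  have hW1 : W - 1 = (Y' - Y ^ n) * Y ^ m := by rw [sub_mul, hYnm]
  have hWlt : ∀ h, ‖(W - 1) h‖ < ‖ζ - 1‖ := by
    intro h; rw [hW1]; exact h6_conv_lt _ _ hu (fun c => hYm1 c trivial) h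
  -- the maximum over a basis
  let b := Module.Free.chooseBasis (h78_Zp p) H
  obtain ⟨r, hr0, hrlt, hr⟩ : ∃ r : ℝ, 0 ≤ r ∧ r < ‖ζ - 1‖ ∧ ∀ i, ‖(W - 1) (b i)‖ ≤ r := by
    refine ⟨((Finset.univ.sup fun i => ‖(W - 1) (b i)‖₊ : NNReal) : ℝ), NNReal.coe_nonneg _,
      ?_, ?_⟩
    · have h1 : (Finset.univ.sup fun i => ‖(W - 1) (b i)‖₊ : NNReal) < ‖ζ - 1‖₊ := by
        rw [Finset.sup_lt_iff (by exact_mod_cast hr0pos)]
        intro i _
        exact_mod_cast hWlt (b i)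
      exact_mod_cast h1
    · intro i
      have h1 := Finset.le_sup (f := fun i => ‖(W - 1) (b i)‖₊) (Finset.mem_univ i)
      exact_mod_cast h1
  have hsmall : h78_SmallOn (Set.univ : Set H) r (W - 1) := by
    intro h _
    have e : (W - 1) h = ∑ i, algebraMap (h78_Zp p) Ω (b.repr h i) * (W - 1) (b i) := by
      conv_lhs => rw [← b.sum_repr h]
      show (W - 1).ofConv _ = _
      rw [map_sum]
      refine Finset.sum_congr rfl fun i _ => ?_
      rw [map_smul, Algebra.smul_def]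
    rw [e]
    refine IsUltrametricDist.norm_sum_le_of_forall_le_of_nonneg hr0 fun i _ => ?_
    rw [norm_mul]
    calc ‖algebraMap (h78_Zp p) Ω (b.repr h i)‖ * ‖(W - 1) (b i)‖ ≤ 1 * r :=
          mul_le_mul (hO _) (hr i) (norm_nonneg _) zero_le_one
      _ = r := one_mul r
  have hpr : (p : ℝ) * r ^ (p - 1) < 1 := by
    have h1 : r ^ (p - 1) < ‖ζ - 1‖ ^ (p - 1) :=
      pow_lt_pow_left₀ hrlt hr0 (by have := hp.two_le; omega)
    rw [hr0pow] at h1
    have hppos : (0 : ℝ) < p := by exact_mod_cast hp.pos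
    calc (p : ℝ) * r ^ (p - 1) < p * (p : ℝ)⁻¹ := mul_lt_mul_of_pos_left h1 hppos
      _ = 1 := mul_inv_cancel₀ hppos.ne'
  have hWp : W ^ p = 1 := by
    rw [hW, mul_pow, hY'p, ← pow_mul, mul_comm m p, pow_mul, hYp, one_pow, one_mul]
  have hrig := h78_rigid hO p (h62_norm_p p) hU hr0 hpr W (fun d _ => by rw [hWp]) hsmall
  -- conclusion
  have e1 : toConv (y' * y ^ m).ofConv.toLinearMap = W := by
    rw [AlgHom.toLinearMap_convMul, AlgHom.toLinearMap_convPow]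
  have hpt : y' * y ^ m = 1 := by
    apply WithConv.ofConv_injective
    apply AlgHom.ext
    intro h
    have h1 : (y' * y ^ m).ofConv h = W h := by rw [← e1]; rfl
    rw [h1, hrig h trivial]
    rfl
  calc y' = y' * (y ^ m * y ^ n) := by
        rw [← pow_add, add_comm, hmn, pow_mul, hkill, one_pow, mul_one]
    _ = (y' * y ^ m) * y ^ n := (mul_assoc _ _ _).symm
    _ = y ^ n := by rw [hpt, one_mul]

end padic

end Fermat.Agent.S56
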