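/-
S56 / W3 / E-RED (route R77), row RED-S1 (helper6): the skeleton statements
`sk_red_V1_mul`, `sk_red_T_mul`, `sk_red_C`, `sk_red_A` VERBATIM
(`origin/helper78 : Fermat/Agent/S56/skel/h78_RedSkel.lean`), on top of `h6_RedA`.
-/
import Fermat.Agent.S56.h6_RedA
import Fermat.Agent.S56.h78_RedDefs

set_option autoImplicit false

open Coalgebra WithConv

namespace Fermat.Agent.S56

variable (p : ℕ) [Fact p.Prime]

local notation "Ω" => PadicAlgCl p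
local notation "Fld" => IntermediateField ℚ_[p] (PadicAlgCl p)

section points

variable {H : Type} [CommRing H] [Bialgebra (h78_Zp p) H]

/-- the linear map underlying a point, as an element of the convolution algebra. -/
noncomputable def h6_lin (y : WithConv (H →ₐ[h78_Zp p] Ω)) : WithConv (H →ₗ[h78_Zp p] Ω) :=
  toConv y.ofConv.toLinearMap

theorem h6_lin_apply (y : WithConv (H →ₐ[h78_Zp p] Ω)) (h : H) : h6_lin p y h = y h := rfl

theorem h6_lin_one : h6_lin p (1 : WithConv (H →ₐ[h78_Zp p] Ω)) = 1 := rfl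

theorem h6_lin_mul (y y' : WithConv (H →ₐ[h78_Zp p] Ω)) :
    h6_lin p (y * y') = h6_lin p y * h6_lin p y' := rfl

theorem h6_lin_pow (y : WithConv (H →ₐ[h78_Zp p] Ω)) (n : ℕ) :
    h6_lin p (y ^ n) = h6_lin p y ^ n := AlgHom.toLinearMap_convPow y n

theorem h6_lin_injective :
    Function.Injective (h6_lin p : WithConv (H →ₐ[h78_Zp p] Ω) → WithConv (H →ₗ[h78_Zp p] Ω)) := by
  intro y y' hyy'
  apply WithConv.ofConv_injective
  apply AlgHom.ext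
  intro h
  have : h6_lin p y h = h6_lin p y' h := by rw [hyy']
  exact this

theorem h6_one_apply (h : H) : (1 : WithConv (H →ₐ[h78_Zp p] Ω)) h
    = algebraMap (h78_Zp p) Ω (Coalgebra.counit h) := rfl

theorem h6_lin_sub_one_apply (y : WithConv (H →ₐ[h78_Zp p] Ω)) (h : H) :
    (h6_lin p y - 1) h = y h - (1 : WithConv (H →ₐ[h78_Zp p] Ω)) h := rfl

/-- points are integral. -/
theorem h6_lin_integral [Module.Finite (h78_Zp p) H] (y : WithConv (H →ₐ[h78_Zp p] Ω)) :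
    h78_SmallOn (Set.univ : Set H) 1 (h6_lin p y) :=
  fun h _ => h62_point_norm_le_one p y.ofConv h

theorem h6_mem_V1_iff (y : WithConv (H →ₐ[h78_Zp p] Ω)) :
    y ∈ h78_V1 p H ↔ ∀ h : H, ‖(h6_lin p y - 1) h‖ < 1 := Iff.rfl

/-- `T` in terms of a radius `r` with `r ^ (p - 1) = p⁻¹`. -/
theorem h6_mem_T_iff_of_radius (r : ℝ) (hr0 : 0 ≤ r) (hr : r ^ (p - 1) = (p : ℝ)⁻¹)
    (y : WithConv (H →ₐ[h78_Zp p] Ω)) :
    y ∈ h78_T p H ↔ h78_SmallOn (Set.univ : Set H) r (h6_lin p y - 1) := by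
  have hp : p.Prime := Fact.out
  have hp1 : p - 1 ≠ 0 := by have := hp.two_le; omega
  constructor
  · intro hy h _
    have h1 : ‖y h - (1 : WithConv (H →ₐ[h78_Zp p] Ω)) h‖ ^ (p - 1) ≤ r ^ (p - 1) := by
      rw [hr]; exact hy h
    exact (pow_le_pow_iff_left₀ (norm_nonneg _) hr0 hp1).1 h1
  · intro hy h
    have h1 : ‖y h - (1 : WithConv (H →ₐ[h78_Zp p] Ω)) h‖ ≤ r := hy h trivial
    rw [← hr]
    exact pow_le_pow_left₀ (norm_nonneg _) h1 _

/-- `T` in terms of a primitive `p`-th root of unity. -/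
theorem h6_mem_T_iff (ζ : Ω) (hζp : ζ ^ p = 1) (hζ1 : ζ ≠ 1)
    (y : WithConv (H →ₐ[h78_Zp p] Ω)) :
    y ∈ h78_T p H ↔
      ∀ h : H, ‖y h - algebraMap (h78_Zp p) Ω (Coalgebra.counit h)‖ ≤ ‖ζ - 1‖ := by
  rw [h6_mem_T_iff_of_radius p ‖ζ - 1‖ (norm_nonneg _) (h5_root_unity_eq p ζ hζp hζ1) y]
  exact ⟨fun hy h => hy h trivial, fun hy h _ => hy h⟩

/-- a radius `r ≥ 0` with `r ^ (p - 1) = p⁻¹`. -/
theorem h6_exists_radius : ∃ r : ℝ, 0 ≤ r ∧ r ^ (p - 1) = (p : ℝ)⁻¹ := by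
  have hp : p.Prime := Fact.out
  have hp1 : p - 1 ≠ 0 := by have := hp.two_le; omega
  have hpi : (0 : ℝ) ≤ (p : ℝ)⁻¹ := by positivity
  exact ⟨((p : ℝ)⁻¹) ^ (((p - 1 : ℕ) : ℝ)⁻¹), Real.rpow_nonneg hpi _,
    Real.rpow_inv_natCast_pow hpi hp1⟩

variable [Coalgebra.IsCocomm (h78_Zp p) H] [Module.Free (h78_Zp p) H]
  [Module.Finite (h78_Zp p) H]

/-- `sk_red_V1_mul` VERBATIM. -/
theorem h6_red_V1_mul (y y' : WithConv (H →ₐ[h78_Zp p] Ω)) (hy : y ∈ h78_V1 p H)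
    (hy' : y' ∈ h78_V1 p H) : y * y' ∈ h78_V1 p H := by
  rw [h6_mem_V1_iff] at hy hy' ⊢
  intro h
  have e : h6_lin p (y * y') - 1
      = (h6_lin p y - 1) * h6_lin p y' + (h6_lin p y' - 1) := by
    rw [h6_lin_mul]; ring
  rw [e, h78_conv_add_apply]
  refine lt_of_le_of_lt (IsUltrametricDist.norm_add_le_max _ _) (max_lt ?_ (hy' h))
  exact h6_conv_lt _ _ hy (fun c => h6_lin_integral p y' c trivial) h

/-- `sk_red_T_mul` VERBATIM. -/
theorem h6_red_T_mul (y y' : WithConv (H →ₐ[h78_Zp p] Ω)) (hy : y ∈ h78_T p H)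
    (hy' : y' ∈ h78_T p H) : y * y' ∈ h78_T p H := by
  obtain ⟨r, hr0, hr⟩ := h6_exists_radius p
  rw [h6_mem_T_iff_of_radius p r hr0 hr] at hy hy' ⊢
  have e : h6_lin p (y * y') - 1
      = (h6_lin p y - 1) * h6_lin p y' + (h6_lin p y' - 1) := by
    rw [h6_lin_mul]; ring
  rw [e]
  intro h _
  rw [h78_conv_add_apply]
  refine le_trans (IsUltrametricDist.norm_add_le_max _ _) (max_le ?_ (hy' h trivial))
  have h1 := h78_smallOn_mul (h6_isSubCoalg_univ (O := h78_Zp p) (C := H)) hr0 zero_le_one hy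
    (h6_lin_integral p y') h trivial
  rwa [mul_one] at h1

/-- `sk_red_C` VERBATIM: [C] inertia acts trivially modulo `V1`. -/
theorem h6_red_C (hkill : ∀ γ : WithConv (H →ₐ[h78_Zp p] Ω), γ ^ p = 1)
    (L : Fld) [FiniteDimensional ℚ_[p] L]
    (hLpts : ∀ (γ : H →ₐ[h78_Zp p] Ω) (h : H), γ h ∈ L)
    (s : h78_G p) (hs : s ∈ h78_J p L) (y : WithConv (H →ₐ[h78_Zp p] Ω)) :
    h78_gal p s y * y ^ (p - 1) ∈ h78_V1 p H := by
  have hp : p.Prime := Fact.out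
  rw [h6_mem_V1_iff]
  intro h
  have hYp : h6_lin p y * h6_lin p y ^ (p - 1) = 1 := by
    rw [← pow_succ', Nat.sub_add_cancel hp.one_le, ← h6_lin_pow, hkill y, h6_lin_one]
  have e : h6_lin p (h78_gal p s y * y ^ (p - 1)) - 1
      = (h6_lin p (h78_gal p s y) - h6_lin p y) * h6_lin p y ^ (p - 1) := by
    rw [h6_lin_mul, h6_lin_pow, sub_mul, hYp]
  rw [e]
  refine h6_conv_lt _ _ (fun c => ?_) (fun c => ?_) h
  · show ‖s (y c) - y c‖ < 1
    exact h49_J_res p L s hs (y c) (hLpts y.ofConv c) (h62_point_norm_le_one p y.ofConv c)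
  · have h1 := h78_smallOn_pow (h62_norm_algebraMap_Zp_le_one p)
      (h6_isSubCoalg_univ (O := h78_Zp p) (C := H)) zero_le_one (h6_lin_integral p y) (p - 1)
      c trivial
    rwa [one_pow] at h1

/-- `sk_red_A` VERBATIM: [A] on `T` inertia acts through the cyclotomic character. -/
theorem h6_red_A_sk (hkill : ∀ γ : WithConv (H →ₐ[h78_Zp p] Ω), γ ^ p = 1)
    (L : Fld) [FiniteDimensional ℚ_[p] L] (hL : h78_Stable p L)
    (hLpts : ∀ (γ : H →ₐ[h78_Zp p] Ω) (h : H), γ h ∈ L)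
    (ζ : Ω) (hζL : ζ ∈ L) (hζp : ζ ^ p = 1) (hζ1 : ζ ≠ 1)
    (y : WithConv (H →ₐ[h78_Zp p] Ω)) (hy : y ∈ h78_T p H)
    (s : h78_G p) (hs : s ∈ h78_J p L) (n : ℕ) (hn : s ζ = ζ ^ n) :
    h78_gal p s y = y ^ n :=
  h6_red_A p hkill L hLpts ζ hζL hζp hζ1 y ((h6_mem_T_iff p ζ hζp hζ1 y).1 hy) s hs n hn
    (h78_gal p s y) (fun _ => rfl)

end points

end Fermat.Agent.S56
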