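import Mathlib

/-!
# S56 / W3 E-RED, row RED-S3 (3)+(4): the shape of a flat deformation (abstract core, helper88)

`rb : Γ →* M₂(k)` upper triangular with diagonal characters `χ₁ = rb · 0 0`, `χ₂ = rb · 1 1`,
`J ≤ Γ` with `χ₂|J = 1` and some `τ₀ ∈ J` (all of whose conjugates lie in `J`) with `χ₁ τ₀ ≠ 1`.
For a cocycle `a` let `V_a = k² × k²` with the action `σ (v, w) = (rb σ v, a σ v + rb σ w)`.
If `(J - 1) V_a ∩ (0 × k²) ⊆ 0 × k e₀` (hypothesis `hNS`), then `a` is cohomologous to an upper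
triangular cocycle whose lower right entry vanishes on `J`.  Mathlib only.
-/

set_option autoImplicit false

namespace Fermat.Agent.S56

section core

variable {Γ : Type*} [Group Γ] {k : Type*} [Field k]

/-- the action of `σ` on `V_a = k² × k²`. -/
def h88_actV (rb a : Γ → Matrix (Fin 2) (Fin 2) k) (σ : Γ)
    (u : (Fin 2 → k) × (Fin 2 → k)) : (Fin 2 → k) × (Fin 2 → k) :=
  ((rb σ).mulVec u.1, (a σ).mulVec u.1 + (rb σ).mulVec u.2)

/-- `(J - 1) V_a`. -/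
def h88_JV (rb a : Γ → Matrix (Fin 2) (Fin 2) k) (J : Subgroup Γ) :
    AddSubgroup ((Fin 2 → k) × (Fin 2 → k)) :=
  AddSubgroup.closure {y | ∃ σ ∈ J, ∃ u, y = h88_actV rb a σ u - u}

omit [Group Γ] in
theorem h88_actV_smul (rb a : Γ → Matrix (Fin 2) (Fin 2) k) (σ : Γ) (c : k)
    (u : (Fin 2 → k) × (Fin 2 → k)) : h88_actV rb a σ (c • u) = c • h88_actV rb a σ u := by
  simp only [h88_actV, Prod.smul_fst, Prod.smul_snd, Matrix.mulVec_smul, Prod.smul_mk, smul_add]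

theorem h88_JV_smul (rb a : Γ → Matrix (Fin 2) (Fin 2) k) (J : Subgroup Γ) (c : k)
    (y : (Fin 2 → k) × (Fin 2 → k)) (hy : y ∈ h88_JV rb a J) : c • y ∈ h88_JV rb a J := by
  unfold h88_JV at hy ⊢
  induction hy using AddSubgroup.closure_induction with
  | mem y hy =>
    obtain ⟨σ, hσ, u, rfl⟩ := hy
    refine AddSubgroup.subset_closure ⟨σ, hσ, c • u, ?_⟩
    rw [h88_actV_smul, smul_sub]
  | zero => rw [smul_zero]; exact AddSubgroup.zero_mem _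
  | add x y _ _ hx hy => rw [smul_add]; exact AddSubgroup.add_mem _ hx hy
  | neg x _ hx => rw [smul_neg]; exact AddSubgroup.neg_mem _ hx

theorem h88_JV_mem (rb a : Γ → Matrix (Fin 2) (Fin 2) k) (J : Subgroup Γ) (σ : Γ) (hσ : σ ∈ J)
    (u : (Fin 2 → k) × (Fin 2 → k)) : h88_actV rb a σ u - u ∈ h88_JV rb a J :=
  AddSubgroup.subset_closure ⟨σ, hσ, u, rfl⟩

/-- **RED-S3 (3)+(4)**, abstract form with the explicit constant `β`: the lower left entry of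
`a` is `β (χ₁ - χ₂)` on `Γ` and the lower right entry is `β b` on `J`. -/
theorem h88_red_shape_beta (rb : Γ →* Matrix (Fin 2) (Fin 2) k) (hU : ∀ g, rb g 1 0 = 0)
    (J : Subgroup Γ) (hχ2 : ∀ j ∈ J, rb j 1 1 = 1)
    (τ₀ : Γ) (hτ₀ : τ₀ ∈ J) (hτ₀n : ∀ g : Γ, g * τ₀ * g⁻¹ ∈ J) (hτ₀1 : rb τ₀ 0 0 ≠ 1)
    (a : Γ → Matrix (Fin 2) (Fin 2) k)
    (hcoc : ∀ s t, a (s * t) = a s * rb t + rb s * a t)
    (hNS : ∀ y ∈ h88_JV rb a J, y.1 = 0 → y.2 1 = 0) :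
    ∃ β : k, (∀ s, a s 1 0 = β * (rb s 0 0 - rb s 1 1)) ∧ ∀ s ∈ J, a s 1 1 = β * rb s 0 1 := by
  have hd : rb τ₀ 0 0 - 1 ≠ 0 := sub_ne_zero.2 hτ₀1
  -- the two basic elements of `(J - 1) V`
  have hE0 : ∀ σ ∈ J, ((![rb σ 0 0 - 1, 0], ![a σ 0 0, a σ 1 0]) :
      (Fin 2 → k) × (Fin 2 → k)) ∈ h88_JV rb a J := by
    intro σ hσ
    have h := h88_JV_mem rb a J σ hσ (![1, 0], 0)
    have h2 : h88_actV rb a σ (![1, 0], 0) - (![1, 0], 0)
        = ((![rb σ 0 0 - 1, 0], ![a σ 0 0, a σ 1 0]) : (Fin 2 → k) × (Fin 2 → k)) := by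
      refine Prod.ext ?_ ?_
      · funext i
        fin_cases i <;> simp [h88_actV, hU]
      · funext i
        fin_cases i <;> simp [h88_actV]
    rwa [h2] at h
  have hE1 : ∀ σ ∈ J, ((![rb σ 0 1, 0], ![a σ 0 1, a σ 1 1]) :
      (Fin 2 → k) × (Fin 2 → k)) ∈ h88_JV rb a J := by
    intro σ hσ
    have h := h88_JV_mem rb a J σ hσ (![0, 1], 0)
    have h2 : h88_actV rb a σ (![0, 1], 0) - (![0, 1], 0)
        = ((![rb σ 0 1, 0], ![a σ 0 1, a σ 1 1]) : (Fin 2 → k) × (Fin 2 → k)) := by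
      refine Prod.ext ?_ ?_
      · funext i
        fin_cases i <;> simp [h88_actV, hχ2 σ hσ]
      · funext i
        fin_cases i <;> simp [h88_actV]
    rwa [h2] at h
  obtain ⟨β, hβ⟩ : ∃ β : k, β = a τ₀ 1 0 / (rb τ₀ 0 0 - 1) := ⟨_, rfl⟩
  have hβ' : β * (rb τ₀ 0 0 - 1) = a τ₀ 1 0 := by rw [hβ, div_mul_cancel₀ _ hd]
  -- (3) on `J`
  have h3J : ∀ σ ∈ J, a σ 1 0 = β * (rb σ 0 0 - 1) := by
    intro σ hσ
    have hy := AddSubgroup.sub_mem _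
      (h88_JV_smul rb a J (rb τ₀ 0 0 - 1) _ (hE0 σ hσ))
      (h88_JV_smul rb a J (rb σ 0 0 - 1) _ (hE0 τ₀ hτ₀))
    have h1 := hNS _ hy (by
      funext i
      fin_cases i <;> simp [mul_comm])
    have h2 : (rb τ₀ 0 0 - 1) * a σ 1 0 - (rb σ 0 0 - 1) * a τ₀ 1 0 = 0 := by
      simpa using h1
    have h4 : (rb τ₀ 0 0 - 1) * a σ 1 0 = (rb τ₀ 0 0 - 1) * (β * (rb σ 0 0 - 1)) := by
      rw [← hβ'] at h2
      linear_combination h2
    exact mul_left_cancel₀ hd h4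
  -- (4) on `J`
  have h4J : ∀ σ ∈ J, a σ 1 1 = β * rb σ 0 1 := by
    intro σ hσ
    have hy := AddSubgroup.sub_mem _
      (h88_JV_smul rb a J (rb τ₀ 0 0 - 1) _ (hE1 σ hσ))
      (h88_JV_smul rb a J (rb σ 0 1) _ (hE0 τ₀ hτ₀))
    have h1 := hNS _ hy (by
      funext i
      fin_cases i <;> simp [mul_comm])
    have h2 : (rb τ₀ 0 0 - 1) * a σ 1 1 - rb σ 0 1 * a τ₀ 1 0 = 0 := by
      simpa using h1
    have h4 : (rb τ₀ 0 0 - 1) * a σ 1 1 = (rb τ₀ 0 0 - 1) * (β * rb σ 0 1) := by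
      rw [← hβ'] at h2
      linear_combination h2
    exact mul_left_cancel₀ hd h4
  -- multiplicativity of the diagonal characters and the cocycle identity in the lower left corner
  have hχ1m : ∀ s t, rb (s * t) 0 0 = rb s 0 0 * rb t 0 0 := by
    intro s t
    rw [map_mul, Matrix.mul_apply, Fin.sum_univ_two, hU t, mul_zero, add_zero]
  have hχ2m : ∀ s t, rb (s * t) 1 1 = rb s 1 1 * rb t 1 1 := by
    intro s t
    rw [map_mul, Matrix.mul_apply, Fin.sum_univ_two, hU s, zero_mul, zero_add]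
  have hc10 : ∀ s t, a (s * t) 1 0 = a s 1 0 * rb t 0 0 + rb s 1 1 * a t 1 0 := by
    intro s t
    rw [hcoc s t, Matrix.add_apply, Matrix.mul_apply, Matrix.mul_apply, Fin.sum_univ_two,
      Fin.sum_univ_two, hU t, hU s, mul_zero, add_zero, zero_mul, zero_add]
  obtain ⟨c, hc⟩ : ∃ c : Γ → k, c = fun s => a s 1 0 - β * (rb s 0 0 - rb s 1 1) := ⟨_, rfl⟩
  have hcm : ∀ s t, c (s * t) = c s * rb t 0 0 + rb s 1 1 * c t := by
    intro s t
    simp only [hc]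
    rw [hc10, hχ1m, hχ2m]
    ring
  have hcJ : ∀ σ ∈ J, c σ = 0 := by
    intro σ hσ
    simp only [hc]
    rw [h3J σ hσ, hχ2 σ hσ, sub_self]
  have hc0 : ∀ g, c g = 0 := by
    intro g
    have h1 : c (g * τ₀) = c g * rb τ₀ 0 0 := by
      rw [hcm, hcJ τ₀ hτ₀, mul_zero, add_zero]
    have h2 : c (g * τ₀) = c g := by
      have h5 : g * τ₀ = (g * τ₀ * g⁻¹) * g := by group
      rw [h5, hcm, hcJ _ (hτ₀n g), zero_mul, zero_add, hχ2 _ (hτ₀n g), one_mul]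
    have h6 : c g * (rb τ₀ 0 0 - 1) = 0 := by
      rw [mul_sub, mul_one, ← h1, h2, sub_self]
    exact (mul_eq_zero.1 h6).resolve_right hd
  refine ⟨β, fun s => ?_, h4J⟩
  have h := hc0 s
  simp only [hc] at h
  exact sub_eq_zero.1 h

/-- **RED-S3 (3)+(4)**, abstract form. -/
theorem h88_red_shape_core (rb : Γ →* Matrix (Fin 2) (Fin 2) k) (hU : ∀ g, rb g 1 0 = 0)
    (J : Subgroup Γ) (hχ2 : ∀ j ∈ J, rb j 1 1 = 1)
    (τ₀ : Γ) (hτ₀ : τ₀ ∈ J) (hτ₀n : ∀ g : Γ, g * τ₀ * g⁻¹ ∈ J) (hτ₀1 : rb τ₀ 0 0 ≠ 1)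
    (a : Γ → Matrix (Fin 2) (Fin 2) k)
    (hcoc : ∀ s t, a (s * t) = a s * rb t + rb s * a t)
    (hNS : ∀ y ∈ h88_JV rb a J, y.1 = 0 → y.2 1 = 0) :
    ∃ X : Matrix (Fin 2) (Fin 2) k, (∀ s, (a s - (X * rb s - rb s * X)) 1 0 = 0) ∧
      ∀ s ∈ J, (a s - (X * rb s - rb s * X)) 1 1 = 0 := by
  obtain ⟨β, h3, h4⟩ := h88_red_shape_beta rb hU J hχ2 τ₀ hτ₀ hτ₀n hτ₀1 a hcoc hNS
  refine ⟨!![0, 0; β, 0], fun s => ?_, fun s hs => ?_⟩
  · have h := h3 s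
    simp only [Matrix.sub_apply, Matrix.mul_apply, Fin.sum_univ_two, Matrix.of_apply,
      Matrix.cons_val', Matrix.cons_val_zero, Matrix.cons_val_one, Matrix.cons_val_fin_one]
    linear_combination h
  · have h := h4 s hs
    simp only [Matrix.sub_apply, Matrix.mul_apply, Fin.sum_univ_two, Matrix.of_apply,
      Matrix.cons_val', Matrix.cons_val_zero, Matrix.cons_val_one, Matrix.cons_val_fin_one]
    linear_combination h

/-- `(NS-V)` from the crux in `V`-language (`N = 0 × k e₀`). -/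
theorem h88_NS_of_crux (rb : Γ →* Matrix (Fin 2) (Fin 2) k) (hU : ∀ g, rb g 1 0 = 0)
    (J : Subgroup Γ) (hχ2 : ∀ j ∈ J, rb j 1 1 = 1)
    (a : Γ → Matrix (Fin 2) (Fin 2) k)
    (V0 : AddSubgroup ((Fin 2 → k) × (Fin 2 → k)))
    (hV0 : ∀ σ ∈ J, ∀ v, h88_actV rb a σ v - v ∈ V0)
    (hcrux : ∀ N : AddSubgroup ((Fin 2 → k) × (Fin 2 → k)),
      (∀ σ ∈ J, ∀ n ∈ N, h88_actV rb a σ n ∈ N) →
      ∀ x ∈ V0, (∀ σ ∈ J, h88_actV rb a σ x - x ∈ N) → x ∈ N) :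
    ∀ y ∈ h88_JV rb a J, y.1 = 0 → y.2 1 = 0 := by
  intro y hy hy1
  have hyV0 : y ∈ V0 := by
    have hle : h88_JV rb a J ≤ V0 := by
      unfold h88_JV
      rw [AddSubgroup.closure_le]
      rintro _ ⟨σ, hσ, u, rfl⟩
      exact hV0 σ hσ u
    exact hle hy
  let N : AddSubgroup ((Fin 2 → k) × (Fin 2 → k)) :=
    { carrier := {x | x.1 = 0 ∧ x.2 1 = 0}
      zero_mem' := ⟨rfl, rfl⟩
      add_mem' := by
        rintro x x' ⟨h1, h2⟩ ⟨h1', h2'⟩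
        refine ⟨?_, ?_⟩
        · rw [Prod.fst_add, h1, h1', add_zero]
        · rw [Prod.snd_add, Pi.add_apply, h2, h2', add_zero]
      neg_mem' := by
        rintro x ⟨h1, h2⟩
        refine ⟨?_, ?_⟩
        · rw [Prod.fst_neg, h1, neg_zero]
        · rw [Prod.snd_neg, Pi.neg_apply, h2, neg_zero] }
  have hNstab : ∀ σ ∈ J, ∀ n ∈ N, h88_actV rb a σ n ∈ N := by
    rintro σ hσ n ⟨h1, h2⟩
    refine ⟨?_, ?_⟩
    · simp [h88_actV, h1]
    · simp [h88_actV, h1, hU, h2]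
  have hyN : ∀ σ ∈ J, h88_actV rb a σ y - y ∈ N := by
    intro σ hσ
    refine ⟨?_, ?_⟩
    · simp [h88_actV, hy1]
    · simp [h88_actV, hy1, hU, hχ2 σ hσ]
  exact (hcrux N hNstab y hyV0 hyN).2

end core

end Fermat.Agent.S56
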