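import Mathlib
import Fermat.Agent.S56.h88_RedShape
import Fermat.Agent.S56.h88_TameChar
import Fermat.Agent.S56.h49_K0Basic

/-!
# S56 / W3 E-RED, row RED-S3 (3)+(4): local form (helper88)

`h88_red_shape_core` for `Γ = h78_G p`, `J = h78_J p L`, in the language of `h78_act`.
-/

set_option autoImplicit false

namespace Fermat.Agent.S56

variable (p : ℕ) [Fact p.Prime]

local notation "Ω" => PadicAlgCl p
local notation "Fld" => IntermediateField ℚ_[p] (PadicAlgCl p)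

/-- `J_L` is normal when `L` is stable. -/
theorem h88_J_conj (L : Fld) (hL : h78_Stable p L) (g j : h78_G p) (hj : j ∈ h78_J p L) :
    g * j * g⁻¹ ∈ h78_J p L := by
  rw [h78_J, IntermediateField.mem_fixingSubgroup_iff] at hj ⊢
  intro c hc
  have h1 : g⁻¹ c ∈ h78_K0 p L := h49_K0_stable p L hL g⁻¹ c hc
  have h2 : (g * j * g⁻¹) c = g (j (g⁻¹ c)) := rfl
  rw [h2, hj _ h1]
  show (g * g⁻¹) c = c
  rw [mul_inv_cancel]; rfl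

/-- a nontrivial `p`-th root of unity exists. -/
theorem h88_exists_zeta : ∃ ζ : Ω, ζ ^ p = 1 ∧ ζ ≠ 1 := by
  have hp : p.Prime := Fact.out
  have : NeZero p := ⟨hp.ne_zero⟩
  have : NeZero (p : Ω) := ⟨by exact_mod_cast hp.ne_zero⟩
  obtain ⟨ζ, hζ⟩ := HasEnoughRootsOfUnity.exists_primitiveRoot Ω p
  exact ⟨ζ, hζ.pow_eq_one, hζ.ne_one hp.one_lt⟩

/-- **RED-S3 (3)+(4)**: the shape of a cocycle `a` with `(J - 1) V_a ∩ ε V ⊆ ε k e₀`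
(`τ₀` form). -/
theorem h88_red_shape_of_tau {k : Type} [Field k]
    (rb : h78_G p →* Matrix (Fin 2) (Fin 2) k) (hU : ∀ g, rb g 1 0 = 0)
    (L : Fld) (hL : h78_Stable p L)
    (hχ2 : ∀ j ∈ h78_J p L, rb j 1 1 = 1)
    (τ₀ : h78_G p) (hτ₀ : τ₀ ∈ h78_J p L) (hτ₀1 : rb τ₀ 0 0 ≠ 1)
    (a : h78_G p → Matrix (Fin 2) (Fin 2) k)
    (hcoc : ∀ s t, a (s * t) = a s * rb t + rb s * a t)
    (hNS : ∀ y ∈ AddSubgroup.closure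
      {y | ∃ σ ∈ h78_J p L, ∃ u, y = h78_act p rb a σ u - u}, y.1 = 0 → y.2 1 = 0) :
    ∃ X : Matrix (Fin 2) (Fin 2) k, (∀ s, (a s - (X * rb s - rb s * X)) 1 0 = 0) ∧
      ∀ s ∈ h78_J p L, (a s - (X * rb s - rb s * X)) 1 1 = 0 :=
  h88_red_shape_core rb hU (h78_J p L) hχ2 τ₀ hτ₀
    (fun g => h88_J_conj p L hL g τ₀ hτ₀) hτ₀1 a hcoc hNS

/-- **RED-S3 (3)+(4)**: the shape of a cocycle `a` with `(J - 1) V_a ∩ ε V ⊆ ε k e₀`, when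
`χ₁ = ω` and `χ₂ = 1` on `J_L` (`p` odd). -/
theorem h88_red_shape (hp2 : p ≠ 2) {k : Type} [Field k] [CharP k p]
    (rb : h78_G p →* Matrix (Fin 2) (Fin 2) k) (hU : ∀ g, rb g 1 0 = 0)
    (L : Fld) [FiniteDimensional ℚ_[p] L] (hL : h78_Stable p L)
    (hχ1 : ∀ g ∈ h78_J p L, ∀ (ζ : Ω) (n : ℕ), ζ ^ p = 1 → g ζ = ζ ^ n → rb g 0 0 = (n : k))
    (hχ2 : ∀ j ∈ h78_J p L, rb j 1 1 = 1)
    (a : h78_G p → Matrix (Fin 2) (Fin 2) k)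
    (hcoc : ∀ s t, a (s * t) = a s * rb t + rb s * a t)
    (hNS : ∀ y ∈ AddSubgroup.closure
      {y | ∃ σ ∈ h78_J p L, ∃ u, y = h78_act p rb a σ u - u}, y.1 = 0 → y.2 1 = 0) :
    ∃ X : Matrix (Fin 2) (Fin 2) k, (∀ s, (a s - (X * rb s - rb s * X)) 1 0 = 0) ∧
      ∀ s ∈ h78_J p L, (a s - (X * rb s - rb s * X)) 1 1 = 0 := by
  have hp : p.Prime := Fact.out
  obtain ⟨ζ, hζ, hζ1⟩ := h88_exists_zeta p
  obtain ⟨τ₀, hτ₀, hτ₀ζ, -⟩ := h88_exists_J_zeta_ne p hp2 L ζ hζ hζ1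
  have h1 : rb τ₀ 0 0 = ((2 : ℕ) : k) := hχ1 τ₀ hτ₀ ζ 2 hζ hτ₀ζ
  have h2 : rb τ₀ 0 0 ≠ 1 := by
    rw [h1]
    intro h
    have h3 : ((2 : ℕ) : k) = ((1 : ℕ) : k) := by rw [h, Nat.cast_one]
    rw [CharP.natCast_eq_natCast k p] at h3
    have h4 : p ∣ 2 - 1 := (Nat.modEq_iff_dvd' (by norm_num)).1 h3.symm
    exact hp.one_lt.ne' (Nat.dvd_one.1 (by simpa using h4))
  exact h88_red_shape_of_tau p rb hU L hL hχ2 τ₀ hτ₀ h2 a hcoc hNS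

/-- `(NS-V)` from the crux in `V`-language. -/
theorem h88_NS_of_crux_loc {k : Type} [Field k]
    (rb : h78_G p →* Matrix (Fin 2) (Fin 2) k) (hU : ∀ g, rb g 1 0 = 0)
    (J : Subgroup (h78_G p)) (hχ2 : ∀ j ∈ J, rb j 1 1 = 1)
    (a : h78_G p → Matrix (Fin 2) (Fin 2) k)
    (V0 : AddSubgroup ((Fin 2 → k) × (Fin 2 → k)))
    (hV0 : ∀ σ ∈ J, ∀ v, h78_act p rb a σ v - v ∈ V0)
    (hcrux : ∀ N : AddSubgroup ((Fin 2 → k) × (Fin 2 → k)),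
      (∀ σ ∈ J, ∀ n ∈ N, h78_act p rb a σ n ∈ N) →
      ∀ x ∈ V0, (∀ σ ∈ J, h78_act p rb a σ x - x ∈ N) → x ∈ N) :
    ∀ y ∈ AddSubgroup.closure {y | ∃ σ ∈ J, ∃ u, y = h78_act p rb a σ u - u},
      y.1 = 0 → y.2 1 = 0 :=
  h88_NS_of_crux rb hU J hχ2 a V0 hV0 hcrux

end Fermat.Agent.S56
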