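import Mathlib
import Fermat.Agent.S56.h78_W3Defs

/-!
# S56 / W3, row B4a (EXPANSION): `L = M₀(π)`

* `h35_expansion_norm` (B4.2): if `π₀` is a uniformizer of `M₀` and `‖π₀‖ = ‖π‖^j`, then the terms
  `c_i π^i` (`i < j`, `c_i ∈ M₀`) have pairwise distinct norms, so every term is bounded by the
  norm of the sum.
* `h35_expansion` (B4.1): if moreover `M₀ ≤ L` has the same residue field and `π` is a
  uniformizer of `L`, every `z ∈ L` is `∑_{i<j} c_i π^i` with `c_i ∈ M₀`, `‖c_i π^i‖ ≤ ‖z‖`.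

Proof of B4.1: one-step approximation (`h35_approx_step`), the `ℚ_p`-subspace of all such sums is
finite-dimensional hence closed, and the norm bound is B4.2.  No infinite series.
-/

set_option autoImplicit false

namespace Fermat.Agent.S56

section Ultra

variable {E : Type*} [NormedAddCommGroup E] [IsUltrametricDist E]

/-- In an ultrametric group, if the nonzero terms of a finite sum have pairwise distinct norms,
every term is bounded by the norm of the sum (and the norm of the sum is attained). -/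
theorem h35_norm_sum_aux {ι : Type*} (f : ι → E) (s : Finset ι)
    (hd : ∀ i ∈ s, ∀ j ∈ s, i ≠ j → f i ≠ 0 → ‖f i‖ ≠ ‖f j‖) :
    (∀ i ∈ s, ‖f i‖ ≤ ‖∑ j ∈ s, f j‖) ∧
      ((∑ j ∈ s, f j) = 0 ∨ ∃ j₀ ∈ s, ‖∑ j ∈ s, f j‖ = ‖f j₀‖) := by
  classical
  induction s using Finset.induction_on with
  | empty => exact ⟨fun i hi => absurd hi (Finset.notMem_empty i), Or.inl Finset.sum_empty⟩
  | insert a t ha ih =>
    obtain ⟨ih1, ih2⟩ := ih (fun i hi j hj =>
      hd i (Finset.mem_insert_of_mem hi) j (Finset.mem_insert_of_mem hj))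
    rw [Finset.sum_insert ha]
    by_cases hfa : f a = 0
    · rw [hfa, zero_add]
      refine ⟨fun i hi => ?_, ?_⟩
      · rcases Finset.mem_insert.mp hi with h | hi
        · rw [h, hfa, norm_zero]; exact norm_nonneg _
        · exact ih1 i hi
      · rcases ih2 with h | ⟨j₀, hj₀, h⟩
        · exact Or.inl h
        · exact Or.inr ⟨j₀, Finset.mem_insert_of_mem hj₀, h⟩
    · have hne : ‖f a‖ ≠ ‖∑ j ∈ t, f j‖ := by
        rcases ih2 with h | ⟨j₀, hj₀, h⟩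
        · rw [h, norm_zero]; exact (norm_pos_iff.mpr hfa).ne'
        · rw [h]
          exact hd a (Finset.mem_insert_self a t) j₀ (Finset.mem_insert_of_mem hj₀)
            (by rintro rfl; exact ha hj₀) hfa
      have hmax := IsUltrametricDist.norm_add_eq_max_of_norm_ne_norm hne
      refine ⟨fun i hi => ?_, ?_⟩
      · rw [hmax]
        rcases Finset.mem_insert.mp hi with h | hi
        · rw [h]; exact le_max_left _ _
        · exact (ih1 i hi).trans (le_max_right _ _)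
      · right
        rcases le_total ‖∑ j ∈ t, f j‖ ‖f a‖ with h | h
        · exact ⟨a, Finset.mem_insert_self a t, by rw [hmax, max_eq_left h]⟩
        · rcases ih2 with h0 | ⟨j₀, hj₀, hj⟩
          · exfalso
            rw [h0, norm_zero] at h
            exact hfa (norm_le_zero_iff.mp h)
          · exact ⟨j₀, Finset.mem_insert_of_mem hj₀, by rw [hmax, max_eq_right h, hj]⟩

end Ultra

variable (p : ℕ) [Fact p.Prime]

local notation "Ω" => PadicAlgCl p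
local notation "Fld" => IntermediateField ℚ_[p] (PadicAlgCl p)

/-- **B4.2** orthogonality (distinct norms). -/
theorem h35_expansion_norm (M₀ : Fld) (π π₀ : Ω) (hπ : ‖π‖ < 1) (hπ0 : π ≠ 0)
    (hπ₀ : h78_IsUnif p M₀ π₀) (j : ℕ) (hj : ‖π₀‖ = ‖π‖ ^ j)
    (c : Fin j → Ω) (hc : ∀ i, c i ∈ M₀) (i : Fin j) :
    ‖c i * π ^ (i : ℕ)‖ ≤ ‖∑ i, c i * π ^ (i : ℕ)‖ := by
  have hpos : 0 < ‖π‖ := norm_pos_iff.mpr hπ0
  refine (h35_norm_sum_aux (fun i : Fin j => c i * π ^ (i : ℕ)) Finset.univ ?_).1 i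
    (Finset.mem_univ i)
  intro a _ b _ hab ha heq
  have hca : c a ≠ 0 := left_ne_zero_of_mul ha
  have hcb : c b ≠ 0 := by
    intro h
    rw [h, zero_mul, norm_zero, norm_eq_zero] at heq
    exact ha heq
  obtain ⟨n, hn⟩ := hπ₀.2.2.2 (c a) (hc a) hca
  obtain ⟨m, hm⟩ := hπ₀.2.2.2 (c b) (hc b) hcb
  have e1 : ‖c a * π ^ (a : ℕ)‖ = ‖π‖ ^ ((j : ℤ) * n + ((a : ℕ) : ℤ)) := by
    rw [norm_mul, norm_pow, hn, hj, zpow_add₀ hpos.ne', zpow_mul, zpow_natCast, zpow_natCast]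
  have e2 : ‖c b * π ^ (b : ℕ)‖ = ‖π‖ ^ ((j : ℤ) * m + ((b : ℕ) : ℤ)) := by
    rw [norm_mul, norm_pow, hm, hj, zpow_add₀ hpos.ne', zpow_mul, zpow_natCast, zpow_natCast]
  rw [e1, e2] at heq
  have hinj : (j : ℤ) * n + ((a : ℕ) : ℤ) = (j : ℤ) * m + ((b : ℕ) : ℤ) :=
    zpow_right_injective₀ hpos hπ.ne heq
  apply hab
  apply Fin.ext
  have h1 : ((j : ℤ) * n + ((a : ℕ) : ℤ)) % (j : ℤ) = ((j : ℤ) * m + ((b : ℕ) : ℤ)) % (j : ℤ) := by
    rw [hinj]
  rw [add_comm, Int.add_mul_emod_self_left, add_comm ((j : ℤ) * m), Int.add_mul_emod_self_left,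
    Int.emod_eq_of_lt (by positivity) (by exact_mod_cast a.2),
    Int.emod_eq_of_lt (by positivity) (by exact_mod_cast b.2)] at h1
  exact_mod_cast h1

/-- one-step approximation: every nonzero `z ∈ L` is approximated by a monomial `c π^i`. -/
theorem h35_approx_step (L M₀ : Fld) (hML : M₀ ≤ L)
    (hres : ∀ x ∈ L, ‖x‖ ≤ 1 → ∃ c ∈ M₀, ‖x - c‖ < 1)
    (π π₀ : Ω) (hπ : h78_IsUnif p L π) (hπ₀ : h78_IsUnif p M₀ π₀) (j : ℕ) (hj : ‖π₀‖ = ‖π‖ ^ j)
    (z : Ω) (hz : z ∈ L) (hz0 : z ≠ 0) :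
    ∃ (i : Fin j) (c : Ω), c ∈ M₀ ∧ ‖z - c * π ^ (i : ℕ)‖ < ‖z‖ := by
  obtain ⟨hπL, hπ0, hπ1, hπv⟩ := hπ
  obtain ⟨hπ₀M, hπ₀0, hπ₀1, -⟩ := hπ₀
  have hpos : 0 < ‖π‖ := norm_pos_iff.mpr hπ0
  have hzpos : 0 < ‖z‖ := norm_pos_iff.mpr hz0
  have hj0 : 0 < j := by
    rcases Nat.eq_zero_or_pos j with h | h
    · rw [h, pow_zero] at hj
      exact absurd hj hπ₀1.ne
    · exact h
  obtain ⟨n, hn⟩ := hπv z hz hz0
  have hjz : (0 : ℤ) < j := by exact_mod_cast hj0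
  obtain ⟨q, r, hr0, hrj, hnqr⟩ : ∃ q r : ℤ, 0 ≤ r ∧ r < j ∧ n = j * q + r :=
    ⟨n / j, n % j, Int.emod_nonneg _ hjz.ne', Int.emod_lt_of_pos _ hjz,
      (Int.mul_ediv_add_emod n j).symm⟩
  obtain ⟨i, rfl⟩ : ∃ i : ℕ, r = i := ⟨r.toNat, (Int.toNat_of_nonneg hr0).symm⟩
  have hij : i < j := by exact_mod_cast hrj
  obtain ⟨d, hd⟩ : ∃ d : Ω, d = π₀ ^ q * π ^ i := ⟨_, rfl⟩
  have hdL : d ∈ L := by
    rw [hd]
    exact mul_mem (zpow_mem (hML hπ₀M) q) (pow_mem hπL i)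
  have hdn : ‖d‖ = ‖z‖ := by
    rw [hd, norm_mul, norm_zpow, norm_pow, hj, hn, hnqr, zpow_add₀ hpos.ne', zpow_mul,
      zpow_natCast, zpow_natCast]
  have hd0 : d ≠ 0 := by
    rw [← norm_pos_iff, hdn]
    exact hzpos
  have hu : ‖z / d‖ ≤ 1 := by
    rw [norm_div, hdn, div_self hzpos.ne']
  obtain ⟨c', hc'M, hc'⟩ := hres (z / d) (div_mem hz hdL) hu
  refine ⟨⟨i, hij⟩, c' * π₀ ^ q, mul_mem hc'M (zpow_mem hπ₀M q), ?_⟩
  have heq : z - c' * π₀ ^ q * π ^ i = d * (z / d - c') := by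
    rw [mul_sub, mul_div_cancel₀ _ hd0, hd]
    ring
  show ‖z - c' * π₀ ^ q * π ^ i‖ < ‖z‖
  rw [heq, norm_mul, hdn]
  calc ‖z‖ * ‖z / d - c'‖ < ‖z‖ * 1 := by gcongr
    _ = ‖z‖ := mul_one _

/-- **B4.1** expansion: if `M₀ ≤ L` has the same residue field and `‖π_{M₀}‖ = ‖π_L‖^j`, then
`1, π, …, π^(j-1)` is an orthogonal `M₀`-basis of `L`. -/
theorem h35_expansion (L M₀ : Fld) [FiniteDimensional ℚ_[p] L] (hML : M₀ ≤ L)
    (hres : ∀ x ∈ L, ‖x‖ ≤ 1 → ∃ c ∈ M₀, ‖x - c‖ < 1)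
    (π π₀ : Ω) (hπ : h78_IsUnif p L π) (hπ₀ : h78_IsUnif p M₀ π₀) (j : ℕ) (hj : ‖π₀‖ = ‖π‖ ^ j)
    (z : Ω) (hz : z ∈ L) :
    ∃ c : Fin j → Ω, (∀ i, c i ∈ M₀) ∧ z = ∑ i, c i * π ^ (i : ℕ) ∧
      ∀ i, ‖c i * π ^ (i : ℕ)‖ ≤ ‖z‖ := by
  classical
  have hπL := hπ.1
  have hπ0 := hπ.2.1
  have hπ1 := hπ.2.2.1
  have hpos : 0 < ‖π‖ := norm_pos_iff.mpr hπ0
  have hfdM : FiniteDimensional ℚ_[p] M₀ :=
    Module.Finite.of_injective (IntermediateField.inclusion hML).toLinearMap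
      (IntermediateField.inclusion_injective hML)
  let φ : (Fin j → M₀) →ₗ[ℚ_[p]] Ω :=
    { toFun := fun c => ∑ i, (c i : Ω) * π ^ (i : ℕ)
      map_add' := fun c c' => by
        simp only [Pi.add_apply, IntermediateField.coe_add, add_mul, Finset.sum_add_distrib]
      map_smul' := fun a c => by
        simp only [Pi.smul_apply, IntermediateField.coe_smul, RingHom.id_apply, Finset.smul_sum,
          smul_mul_assoc] }
  have hφ : ∀ c : Fin j → M₀, φ c = ∑ i, (c i : Ω) * π ^ (i : ℕ) := fun c => rfl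
  have hφL : ∀ c, φ c ∈ L := fun c => by
    rw [hφ]
    exact sum_mem fun i _ => mul_mem (hML (c i).2) (pow_mem hπL _)
  have hclosed : IsClosed ((LinearMap.range φ : Submodule ℚ_[p] Ω) : Set Ω) :=
    Submodule.closed_of_finiteDimensional _
  have happrox : ∀ k : ℕ, ∃ w ∈ LinearMap.range φ, ‖z - w‖ ≤ ‖π‖ ^ k * ‖z‖ := by
    intro k
    induction k with
    | zero => exact ⟨0, Submodule.zero_mem _, by simp⟩
    | succ k ih =>
      obtain ⟨w, hw, hwn⟩ := ih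
      by_cases hr : z - w = 0
      · exact ⟨w, hw, by rw [hr, norm_zero]; positivity⟩
      · obtain ⟨c0, rfl⟩ := hw
        have hrL : z - φ c0 ∈ L := sub_mem hz (hφL c0)
        obtain ⟨i, c, hcM, hlt⟩ :=
          h35_approx_step p L M₀ hML hres π π₀ hπ hπ₀ j hj (z - φ c0) hrL hr
        have hφs : φ (Pi.single i ⟨c, hcM⟩) = c * π ^ (i : ℕ) := by
          rw [hφ, Finset.sum_eq_single i]
          · rw [Pi.single_eq_same]
          · intro b _ hb
            rw [Pi.single_eq_of_ne hb]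
            simp
          · intro h
            exact absurd (Finset.mem_univ i) h
        refine ⟨φ c0 + φ (Pi.single i ⟨c, hcM⟩), Submodule.add_mem _ ⟨c0, rfl⟩ ⟨_, rfl⟩, ?_⟩
        rw [hφs, ← sub_sub]
        have hstep : ‖z - φ c0 - c * π ^ (i : ℕ)‖ ≤ ‖π‖ * ‖z - φ c0‖ := by
          by_cases h0 : z - φ c0 - c * π ^ (i : ℕ) = 0
          · rw [h0, norm_zero]
            positivity
          · have hmem : z - φ c0 - c * π ^ (i : ℕ) ∈ L :=
              sub_mem hrL (mul_mem (hML hcM) (pow_mem hπL _))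
            obtain ⟨m, hm⟩ := hπ.2.2.2 _ hmem h0
            obtain ⟨n, hn⟩ := hπ.2.2.2 _ hrL hr
            rw [hm, hn] at hlt
            rw [hm, hn]
            have hnm : n < m := by
              by_contra hcon
              exact absurd hlt
                (not_lt.mpr (zpow_le_zpow_right_of_le_one₀ hpos hπ1.le (not_lt.mp hcon)))
            calc ‖π‖ ^ m ≤ ‖π‖ ^ (n + 1) :=
                  zpow_le_zpow_right_of_le_one₀ hpos hπ1.le (by omega)
              _ = ‖π‖ * ‖π‖ ^ n := by rw [zpow_add₀ hpos.ne', zpow_one, mul_comm]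
        calc ‖z - φ c0 - c * π ^ (i : ℕ)‖ ≤ ‖π‖ * ‖z - φ c0‖ := hstep
          _ ≤ ‖π‖ * (‖π‖ ^ k * ‖z‖) := by gcongr
          _ = ‖π‖ ^ (k + 1) * ‖z‖ := by ring
  have hzmem : z ∈ LinearMap.range φ := by
    have hcl : z ∈ closure ((LinearMap.range φ : Submodule ℚ_[p] Ω) : Set Ω) := by
      rw [Metric.mem_closure_iff]
      intro ε hε
      obtain ⟨k, hk⟩ : ∃ k : ℕ, ‖π‖ ^ k * ‖z‖ < ε := by
        by_cases hz0 : z = 0
        · exact ⟨0, by rw [hz0, norm_zero, mul_zero]; exact hε⟩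
        · have hzpos : 0 < ‖z‖ := norm_pos_iff.mpr hz0
          obtain ⟨k, hk⟩ := exists_pow_lt_of_lt_one (div_pos hε hzpos) hπ1
          exact ⟨k, by rwa [lt_div_iff₀ hzpos] at hk⟩
      obtain ⟨w, hw, hwn⟩ := happrox k
      exact ⟨w, hw, by rw [dist_eq_norm]; exact lt_of_le_of_lt hwn hk⟩
    rwa [hclosed.closure_eq] at hcl
  obtain ⟨c, hc⟩ := hzmem
  rw [hφ] at hc
  refine ⟨fun i => (c i : Ω), fun i => (c i).2, hc.symm, fun i => ?_⟩
  have h := h35_expansion_norm p M₀ π π₀ hπ1 hπ0 hπ₀ j hj (fun i => (c i : Ω))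
    (fun i => (c i).2) i
  rw [hc] at h
  exact h

end Fermat.Agent.S56
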