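/-
S56 / W3 / E-RED, route R77, row RED-S1 [D] (helper93): a point of `V1` fixed by
`J₁ = {s ∈ J_L | s ζ = ζ}` lies in `T`.

Field-level core `h93_red_D_core`: an element `x` with `‖x‖ < 1` fixed by `J₁` has
`‖x‖ ≤ ‖ζ - 1‖`.  Proof: `x ∈ K(ζ)`, `K = K₀(L)` unramified; `K(ζ) = K[π]`, `π = ζ - 1`, and
`1, π, …, π^(p-2)` are orthogonal over `K` (`h35_expansion_norm`).
-/
import Fermat.Agent.S56.h78_RedDefs
import Fermat.Agent.S56.h62_W3Basics
import Fermat.Agent.S56.h28_K0Unram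
import Fermat.Agent.S56.h35_Expansion
import Fermat.Agent.S56.h5_KumBasic
import Fermat.Agent.S56.h49_K0Basic

set_option autoImplicit false
set_option linter.unusedSectionVars false
set_option linter.unusedVariables false

open Coalgebra WithConv Polynomial

namespace Fermat.Agent.S56

variable (p : ℕ) [Fact p.Prime]

local notation "Ω" => PadicAlgCl p
local notation "Fld" => IntermediateField ℚ_[p] (PadicAlgCl p)

/-- `K₀(L)` is finite over `ℚ_p` when `L` is. -/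
theorem h93_K0_finite (L : Fld) [FiniteDimensional ℚ_[p] L] :
    FiniteDimensional ℚ_[p] (h78_K0 p L) :=
  Module.Finite.of_injective (IntermediateField.inclusion (h49_K0_le p L)).toLinearMap
    (IntermediateField.inclusion (h49_K0_le p L)).injective

/-- `p` is a uniformizer of the unramified field `K₀(L)`. -/
theorem h93_K0_unif (L : Fld) [FiniteDimensional ℚ_[p] L] :
    h78_IsUnif p (h78_K0 p L) (p : Ω) := by
  have hp0 : (0 : ℝ) < p := h5_p_pos p
  refine ⟨natCast_mem _ p, ?_, ?_, ?_⟩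
  · intro h
    have := h5_norm_p p
    rw [h, norm_zero] at this
    exact (inv_pos.mpr hp0).ne this
  · rw [h5_norm_p]
    exact h5_inv_p_lt_one p
  · intro x hx hx0
    obtain ⟨n, hn⟩ := h28_K0_unram p L x hx hx0
    refine ⟨-n, ?_⟩
    rw [hn, h5_norm_p, inv_zpow', neg_neg]

/-- every element of `K ⊔ ℚ_p(ζ)` is a polynomial in `π = ζ - 1` of degree `< p - 1` with
coefficients in `K`. -/
theorem h93_exists_expansion (K : Fld) (ζ : Ω) (hζp : ζ ^ p = 1) (hζ1 : ζ ≠ 1) (x : Ω)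
    (hx : x ∈ K ⊔ IntermediateField.adjoin ℚ_[p] {ζ}) :
    ∃ c : Fin (p - 1) → Ω, (∀ i, c i ∈ K) ∧ x = ∑ i, c i * (ζ - 1) ^ (i : ℕ) := by
  have hp : p.Prime := Fact.out
  set π : Ω := ζ - 1 with hπ
  -- `π` is algebraic over `K`
  have hζint : IsIntegral (↥K) ζ :=
    ⟨X ^ p - C 1, monic_X_pow_sub_C _ hp.ne_zero, by simp [hζp]⟩
  have hπint : IsIntegral (↥K) π := hζint.sub isIntegral_one
  -- `x ∈ K⟮π⟯`
  have hle : K ⊔ IntermediateField.adjoin ℚ_[p] {ζ} ≤
      IntermediateField.restrictScalars ℚ_[p] (IntermediateField.adjoin (↥K) {π}) := by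
    refine sup_le ?_ ?_
    · intro z hz
      rw [IntermediateField.mem_restrictScalars]
      exact IntermediateField.algebraMap_mem _ (⟨z, hz⟩ : ↥K)
    · rw [IntermediateField.adjoin_simple_le_iff, IntermediateField.mem_restrictScalars]
      have h1 : ζ = π + 1 := by rw [hπ]; ring
      rw [h1]
      exact add_mem (IntermediateField.mem_adjoin_simple_self _ _) (one_mem _)
  have hx1 : x ∈ IntermediateField.adjoin (↥K) {π} :=
    (IntermediateField.mem_restrictScalars ℚ_[p]).mp (hle hx)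
  have hx2 : x ∈ (IntermediateField.adjoin (↥K) {π}).toSubalgebra := hx1
  rw [IntermediateField.adjoin_simple_toSubalgebra_of_isAlgebraic hπint.isAlgebraic,
    Algebra.adjoin_singleton_eq_range_aeval] at hx2
  obtain ⟨r, hr⟩ := hx2
  -- the monic polynomial of degree `p - 1` killing `π`
  set g : (↥K)[X] := (cyclotomic p (↥K)).comp (X + C 1) with hg
  have hgmonic : g.Monic :=
    (cyclotomic.monic p _).comp (monic_X_add_C 1) (by rw [natDegree_X_add_C]; exact one_ne_zero)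
  have hgdeg : g.natDegree = p - 1 := by
    rw [hg, natDegree_comp, natDegree_cyclotomic, natDegree_X_add_C, mul_one,
      Nat.totient_prime hp]
  have hgπ : aeval π g = 0 := by
    rw [hg, aeval_comp]
    have h1 : aeval π (X + C (1 : ↥K)) = ζ := by
      simp [hπ]
    rw [h1, cyclotomic_prime, map_sum]
    simp only [map_pow, aeval_X]
    have h2 : (ζ - 1) * ∑ i ∈ Finset.range p, ζ ^ i = 0 := by
      rw [mul_comm, geom_sum_mul, hζp, sub_self]
    exact (mul_eq_zero.mp h2).resolve_left (sub_ne_zero.mpr hζ1)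
  have hg1 : g ≠ 1 := by
    intro h
    rw [h, natDegree_one] at hgdeg
    have := hp.two_le
    omega
  -- reduce `r` modulo `g`
  have hr' : aeval π (r %ₘ g) = x := by
    have h1 := congrArg (aeval π) (modByMonic_add_div r g)
    rw [map_add, map_mul, hgπ, zero_mul, add_zero] at h1
    rw [h1]
    exact hr
  have hdeg : (r %ₘ g).natDegree < p - 1 := by
    rw [← hgdeg]
    exact natDegree_modByMonic_lt r hgmonic hg1
  refine ⟨fun i => (((r %ₘ g).coeff (i : ℕ) : ↥K) : Ω), fun i => SetLike.coe_mem _, ?_⟩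
  rw [← hr', aeval_eq_sum_range' hdeg,
    Fin.sum_univ_eq_sum_range (fun i => (((r %ₘ g).coeff i : ↥K) : Ω) * π ^ i) (p - 1)]
  refine Finset.sum_congr rfl fun i _ => ?_
  rw [Algebra.smul_def]
  rfl

/-- **[D], field-level core.** An element of norm `< 1` fixed by
`J₁ = {s ∈ J_L | s ζ = ζ}` has norm `≤ ‖ζ - 1‖`. -/
theorem h93_red_D_core (L : Fld) [FiniteDimensional ℚ_[p] L]
    (ζ : Ω) (hζp : ζ ^ p = 1) (hζ1 : ζ ≠ 1) (x : Ω) (hx : ‖x‖ < 1)
    (hfix : ∀ s ∈ h78_J p L, s ζ = ζ → s x = x) : ‖x‖ ≤ ‖ζ - 1‖ := by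
  have hp : p.Prime := Fact.out
  have hp0 : (0 : ℝ) < p := h5_p_pos p
  have hp1 : (1 : ℝ) < p := by exact_mod_cast hp.one_lt
  have := h93_K0_finite p L
  have hζint : IsIntegral ℚ_[p] ζ :=
    ⟨X ^ p - C 1, monic_X_pow_sub_C _ hp.ne_zero, by simp [hζp]⟩
  have : FiniteDimensional ℚ_[p] (IntermediateField.adjoin ℚ_[p] {ζ}) :=
    IntermediateField.adjoin.finiteDimensional hζint
  -- `x ∈ K(ζ)`
  have hxE : x ∈ h78_K0 p L ⊔ IntermediateField.adjoin ℚ_[p] {ζ} := by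
    refine h62_mem_of_fixed p _ x fun g hg => ?_
    refine hfix g ?_ (hg ζ (le_sup_right (a := h78_K0 p L)
      (IntermediateField.mem_adjoin_simple_self _ _)))
    show g ∈ (h78_K0 p L).fixingSubgroup
    rw [IntermediateField.mem_fixingSubgroup_iff]
    exact fun z hz => hg z (le_sup_left (b := IntermediateField.adjoin ℚ_[p] {ζ}) hz)
  obtain ⟨c, hc, hxc⟩ := h93_exists_expansion p (h78_K0 p L) ζ hζp hζ1 x hxE
  -- the norm of `π`
  set ρ : ℝ := ‖ζ - 1‖ with hρ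
  have hρpos : 0 < ρ := norm_pos_iff.mpr (sub_ne_zero.mpr hζ1)
  have hρlt : ρ < 1 := h5_root_unity_lt_one p ζ hζp
  have hρpow : ρ ^ (p - 1) = (p : ℝ)⁻¹ := h5_root_unity_eq p ζ hζp hζ1
  have hj : ‖(p : Ω)‖ = ‖ζ - 1‖ ^ (p - 1) := by rw [h5_norm_p, ← hρ, hρpow]
  have hterm : ∀ i : Fin (p - 1), ‖c i * (ζ - 1) ^ (i : ℕ)‖ ≤ ρ := by
    intro i
    have h1 : ‖c i * (ζ - 1) ^ (i : ℕ)‖ < 1 := by
      refine lt_of_le_of_lt ?_ hx
      rw [hxc]
      exact h35_expansion_norm p (h78_K0 p L) (ζ - 1) (p : Ω) hρlt (sub_ne_zero.mpr hζ1)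
        (h93_K0_unif p L) (p - 1) hj c hc i
    by_cases hci : c i = 0
    · rw [hci, zero_mul, norm_zero]
      exact hρpos.le
    obtain ⟨m, hm⟩ := h28_K0_unram p L (c i) (hc i) hci
    rw [norm_mul, norm_pow, hm, ← hρ] at h1 ⊢
    have hi : (i : ℕ) < p - 1 := i.2
    rcases le_or_gt m 0 with hm0 | hm0
    · -- `‖c i‖ ≤ 1`
      have hle1 : (p : ℝ) ^ m ≤ 1 := zpow_le_one_of_nonpos₀ hp1.le hm0
      by_cases hi0 : (i : ℕ) = 0
      · rw [hi0, pow_zero, mul_one] at h1 ⊢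
        -- `m ≤ -1`
        have hm1 : m ≤ -1 := by
          by_contra hcon
          have hm00 : m = 0 := by omega
          rw [hm00, zpow_zero] at h1
          exact lt_irrefl _ h1
        have h2 : (p : ℝ) ^ m ≤ (p : ℝ) ^ (-1 : ℤ) := zpow_le_zpow_right₀ hp1.le hm1
        rw [zpow_neg_one, ← hρpow] at h2
        refine le_trans h2 ?_
        calc ρ ^ (p - 1) ≤ ρ ^ 1 :=
              pow_le_pow_of_le_one hρpos.le hρlt.le (by have := hp.two_le; omega)
          _ = ρ := pow_one ρ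
      · calc (p : ℝ) ^ m * ρ ^ (i : ℕ) ≤ 1 * ρ ^ (i : ℕ) :=
              mul_le_mul_of_nonneg_right hle1 (pow_nonneg hρpos.le _)
          _ = ρ ^ (i : ℕ) := one_mul _
          _ ≤ ρ ^ 1 := pow_le_pow_of_le_one hρpos.le hρlt.le (Nat.one_le_iff_ne_zero.mpr hi0)
          _ = ρ := pow_one ρ
    · -- `‖c i‖ ≥ p` is impossible
      exfalso
      have h2 : (p : ℝ) ^ (1 : ℤ) ≤ (p : ℝ) ^ m := zpow_le_zpow_right₀ hp1.le (by omega)
      rw [zpow_one] at h2
      have h3 : ρ ^ (p - 1) ≤ ρ ^ (i : ℕ) := pow_le_pow_of_le_one hρpos.le hρlt.le hi.le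
      have h4 : (1 : ℝ) ≤ (p : ℝ) ^ m * ρ ^ (i : ℕ) := by
        calc (1 : ℝ) = (p : ℝ) * (p : ℝ)⁻¹ := (mul_inv_cancel₀ hp0.ne').symm
          _ = (p : ℝ) * ρ ^ (p - 1) := by rw [hρpow]
          _ ≤ (p : ℝ) ^ m * ρ ^ (i : ℕ) :=
              mul_le_mul h2 h3 (pow_nonneg hρpos.le _) (le_trans hp0.le h2)
      exact absurd h1 (not_lt.mpr h4)
  rw [hxc]
  exact IsUltrametricDist.norm_sum_le_of_forall_le_of_nonneg hρpos.le fun i _ => hterm i

/-- Galois elements fix the values of the identity point. -/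
theorem h93_gal_one_apply {H : Type} [CommRing H] [Bialgebra (h78_Zp p) H] (s : h78_G p)
    (h : H) : s ((1 : WithConv (H →ₐ[h78_Zp p] Ω)) h) = (1 : WithConv (H →ₐ[h78_Zp p] Ω)) h := by
  have h1 : (1 : WithConv (H →ₐ[h78_Zp p] Ω)) h
      = algebraMap (h78_Zp p) Ω (counit (R := h78_Zp p) h) := rfl
  rw [h1]
  show s (algebraMap ℚ Ω ((counit (R := h78_Zp p) h : h78_Zp p) : ℚ)) =
    algebraMap ℚ Ω ((counit (R := h78_Zp p) h : h78_Zp p) : ℚ)
  rw [eq_ratCast, map_ratCast]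

section points

variable {H : Type} [CommRing H] [Bialgebra (h78_Zp p) H]
  [Coalgebra.IsCocomm (h78_Zp p) H] [Module.Free (h78_Zp p) H] [Module.Finite (h78_Zp p) H]

/-- **[D]** a point of `V1` fixed by `J₁ = {s ∈ J | s ζ = ζ}` lies in `T`
(its values lie in `K₀(L)(ζ)`, whose value group is `|ζ - 1|^ℤ`).  Statement `sk_red_D` of the
E-RED skeleton, verbatim. -/
theorem h93_red_D (L : Fld) [FiniteDimensional ℚ_[p] L] (hL : h78_Stable p L)
    (hLpts : ∀ (γ : H →ₐ[h78_Zp p] Ω) (h : H), γ h ∈ L)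
    (ζ : Ω) (hζL : ζ ∈ L) (hζp : ζ ^ p = 1) (hζ1 : ζ ≠ 1)
    (y : WithConv (H →ₐ[h78_Zp p] Ω)) (hy : y ∈ h78_V1 p H)
    (hfix : ∀ s ∈ h78_J p L, s ζ = ζ → h78_gal p s y = y) : y ∈ h78_T p H := by
  intro h
  have h1 : ‖y h - (1 : WithConv (H →ₐ[h78_Zp p] Ω)) h‖ ≤ ‖ζ - 1‖ := by
    refine h93_red_D_core p L ζ hζp hζ1 _ (hy h) fun s hs hsζ => ?_
    have h2 := hfix s hs hsζ
    have h3 : s (y h) = y h := by
      conv_rhs => rw [← h2]
      rfl
    rw [map_sub, h3, h93_gal_one_apply]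
  calc ‖y h - (1 : WithConv (H →ₐ[h78_Zp p] Ω)) h‖ ^ (p - 1) ≤ ‖ζ - 1‖ ^ (p - 1) :=
        pow_le_pow_left₀ (norm_nonneg _) h1 _
    _ = (p : ℝ)⁻¹ := h5_root_unity_eq p ζ hζp hζ1

end points

end Fermat.Agent.S56
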