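/-
S56 / W3 / E-RED route R77, row RED-S3, `sk_red_type` (helper44).

* `h44_redPts_of_datum` : the BRIDGE.  For the Hopf datum of a flat lift `rb + ε a` and any finite
  stable `L` containing the point values and `ζ`, the sets `e '' V1`, `e '' T` of `k² × k²`
  satisfy the abstract package `h44_RedPts` ([C] = `h6_red_C`, [D] = `h93_red_D`,
  [A] = `h6_red_A_sk`, [KL2] = `h57_red_KL2`).
* `h44_red_NSV` : the closure form (NS-V) of (NS) used by `h88_red_shape`.
* `h44_redPts_of_flat` : the package for a flat lift and a field `L` trivialising it.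
* `h44_red_type_sk` : `sk_red_type` of `skel/h78_RedSkel.lean`, verbatim.
-/
import Mathlib
import Fermat.Agent.S56.h78_W3Defs
import Fermat.Agent.S56.h78_RedDefs
import Fermat.Agent.S56.h62_W3Basics
import Fermat.Agent.S56.h81_FlatDatum
import Fermat.Agent.S56.h6_RedS1
import Fermat.Agent.S56.h93_RedD
import Fermat.Agent.S56.h57_RedKL2
import Fermat.Agent.S56.h88_TameChar
import Fermat.Agent.S56.h88_RedShapeLoc
import Fermat.Agent.S56.h44_RedType
import Fermat.Agent.S56.h44_RedTypeMain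

set_option autoImplicit false

open Coalgebra WithConv

namespace Fermat.Agent.S56

variable (p : ℕ) [Fact p.Prime]

local notation "Ω" => PadicAlgCl p
local notation "Fld" => IntermediateField ℚ_[p] (PadicAlgCl p)

section Bridge

variable {H : Type} [CommRing H] [Bialgebra (h78_Zp p) H]
  [Coalgebra.IsCocomm (h78_Zp p) H] [Module.Free (h78_Zp p) H] [Module.Finite (h78_Zp p) H]
variable {k : Type} [Field k]

/-- the BRIDGE from the Hopf datum to the abstract package on `k² × k²`. -/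
theorem h44_redPts_of_datum (hp2 : p ≠ 2) (rb a : h78_G p → Matrix (Fin 2) (Fin 2) k)
    (hkill : ∀ γ : WithConv (H →ₐ[h78_Zp p] Ω), γ ^ p = 1)
    (L : Fld) [FiniteDimensional ℚ_[p] L] (hL : h78_Stable p L)
    (hLpts : ∀ (γ : H →ₐ[h78_Zp p] Ω) (h : H), γ h ∈ L)
    (ζ : Ω) (hζL : ζ ∈ L) (hζp : ζ ^ p = 1) (hζ1 : ζ ≠ 1)
    (e : WithConv (H →ₐ[h78_Zp p] Ω) ≃ (Fin 2 → k) × (Fin 2 → k))
    (he_mul : ∀ f g, e (f * g) = e f + e g)
    (he_act : ∀ (σ : h78_G p) (f g : WithConv (H →ₐ[h78_Zp p] Ω)),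
      (∀ h : H, g h = σ (f h)) → e g = h78_act p rb a σ (e f)) :
    h44_RedPts p rb a (h78_J p L) ζ (e '' h78_V1 p H) (e '' h78_T p H) := by
  have hp : p.Prime := Fact.out
  have he1 : e 1 = 0 := by
    have h := he_mul 1 1
    rw [mul_one] at h
    exact left_eq_add.1 h
  have hepow : ∀ (y : WithConv (H →ₐ[h78_Zp p] Ω)) (n : ℕ), e (y ^ n) = n • e y := by
    intro y n
    induction n with
    | zero => rw [pow_zero, he1, zero_smul]
    | succ n ih => rw [pow_succ, he_mul, ih, succ_nsmul]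
  have hegal : ∀ (s : h78_G p) (y : WithConv (H →ₐ[h78_Zp p] Ω)),
      e (h78_gal p s y) = h78_act p rb a s (e y) := fun s y => he_act s y _ (fun _ => rfl)
  have heneg : ∀ y : WithConv (H →ₐ[h78_Zp p] Ω), e (y ^ (p - 1)) = - e y := by
    intro y
    have h := he_mul (y ^ (p - 1)) y
    rw [← pow_succ, Nat.sub_add_cancel hp.one_le, hkill, he1] at h
    exact eq_neg_of_add_eq_zero_left h.symm
  have hesub : ∀ (s : h78_G p) (y : WithConv (H →ₐ[h78_Zp p] Ω)),
      e (h78_gal p s y * y ^ (p - 1)) = h78_act p rb a s (e y) - e y := by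
    intro s y
    rw [he_mul, hegal, heneg, sub_eq_add_neg]
  refine ⟨?_, ?_, ?_, ?_, ?_, ?_⟩
  · refine ⟨1, ?_, he1⟩
    intro h
    rw [sub_self, norm_zero]
    exact zero_lt_one
  · rintro _ ⟨y, hy, rfl⟩ _ ⟨y', hy', rfl⟩
    exact ⟨y * y', h6_red_V1_mul p y y' hy hy', he_mul y y'⟩
  · intro s hs x
    obtain ⟨y, rfl⟩ := e.surjective x
    exact ⟨_, h6_red_C p hkill L hLpts s hs y, hesub s y⟩
  · rintro _ ⟨y, hy, rfl⟩ hfix
    refine ⟨y, h93_red_D p L hL hLpts ζ hζL hζp hζ1 y hy (fun s hs hsζ => ?_), rfl⟩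
    apply e.injective
    rw [hegal]
    exact hfix s hs hsζ
  · rintro _ ⟨y, hy, rfl⟩ s hs n hn
    rw [← hegal, h6_red_A_sk p hkill L hL hLpts ζ hζL hζp hζ1 y hy s hs n hn, hepow]
  · rintro Z hZT hZJ _ ⟨y, hy, rfl⟩ hxJ
    let Z' : Submonoid (WithConv (H →ₐ[h78_Zp p] Ω)) :=
      { carrier := {z | e z ∈ Z}
        mul_mem' := by
          intro a b ha hb
          show e (a * b) ∈ Z
          rw [he_mul]
          exact Z.add_mem ha hb
        one_mem' := by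
          show e 1 ∈ Z
          rw [he1]
          exact Z.zero_mem }
    have h1 : ∀ z ∈ Z', z ∈ h78_T p H := by
      intro z hz
      obtain ⟨t, ht, hte⟩ := hZT _ hz
      rw [← e.injective hte]
      exact ht
    have h2 : ∀ s ∈ h78_J p L, ∀ z ∈ Z', h78_gal p s z ∈ Z' := by
      intro s hs z hz
      show e (h78_gal p s z) ∈ Z
      rw [hegal]
      exact hZJ s hs _ hz
    have h3 : ∀ s ∈ h78_J p L, ∃ z ∈ Z', h78_gal p s y = y * z := by
      intro s hs
      refine ⟨h78_gal p s y * y ^ (p - 1), ?_, ?_⟩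
      · show e (h78_gal p s y * y ^ (p - 1)) ∈ Z
        rw [hesub]
        exact hxJ s hs
      · apply e.injective
        rw [he_mul, hesub, hegal]
        abel
    exact h57_red_KL2 p hp2 hkill L hL hLpts Z' h1 h2 y hy h3

end Bridge

/-- (NS-V): the closure form of (NS) consumed by `h88_red_shape`. -/
theorem h44_red_NSV {k : Type} [Field k] (rb a : h78_G p → Matrix (Fin 2) (Fin 2) k)
    {J : Subgroup (h78_G p)} {ζ : Ω} {V1 T : Set ((Fin 2 → k) × (Fin 2 → k))}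
    (hpts : h44_RedPts p rb a J ζ V1 T) (hU : ∀ g, rb g 1 0 = 0)
    (hχ1 : ∀ g ∈ J, ∀ n : ℕ, g ζ = ζ ^ n → rb g 0 0 = (n : k))
    (hχ2 : ∀ g ∈ J, rb g 1 1 = 1) (hs₀ : ∃ s₀ ∈ J, s₀ ζ = ζ ^ 2) :
    ∀ y ∈ AddSubgroup.closure {y | ∃ σ ∈ J, ∃ u, y = h78_act p rb a σ u - u},
      y.1 = 0 → y.2 1 = 0 := by
  intro y hy hy1
  have hspan : y ∈ Submodule.span k {y | ∃ σ ∈ J, ∃ u, y = h78_act p rb a σ u - u} :=
    (AddSubgroup.closure_le (K := (Submodule.span k
      {y | ∃ σ ∈ J, ∃ u, y = h78_act p rb a σ u - u}).toAddSubgroup)).2 Submodule.subset_span hy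
  have hV1 : y ∈ V1 := h44_red_span p rb a hpts y hspan
  have hy' : y = ((0 : Fin 2 → k), y.2) := Prod.ext hy1 rfl
  rw [hy'] at hV1
  exact h44_red_NS p rb a hpts hU hχ1 hχ2 hs₀ y.2 hV1

/-- the abstract package for a flat lift, for any finite stable `L ∋ ζ` trivialising it. -/
theorem h44_redPts_of_flat (hp2 : p ≠ 2) {k : Type} [Field k] [Finite k] [CharP k p]
    (rb : h78_G p →* Matrix (Fin 2) (Fin 2) k) (a : h78_G p → Matrix (Fin 2) (Fin 2) k)
    (hcoc : ∀ s t, a (s * t) = a s * rb t + rb s * a t) (hfl : h78_LocFlat p rb a)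
    (L : Fld) [FiniteDimensional ℚ_[p] L] (hL : h78_Stable p L)
    (ζ : Ω) (hζL : ζ ∈ L) (hζp : ζ ^ p = 1) (hζ1 : ζ ≠ 1)
    (htriv : ∀ g ∈ L.fixingSubgroup, rb g = 1 ∧ a g = 0) :
    ∃ V1 T : Set ((Fin 2 → k) × (Fin 2 → k)), h44_RedPts p rb a (h78_J p L) ζ V1 T := by
  obtain ⟨H, _, _, _, _, _, La, _, hkill, -, hpts, hgal, -, e, he_mul, he_act⟩ :=
    h81_flat_datum p rb a hcoc hfl
  have hLaL : ∀ z ∈ La, z ∈ L := by
    intro z hz
    apply h62_mem_of_fixed p L z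
    intro g hg
    have hg' : g ∈ L.fixingSubgroup := (IntermediateField.mem_fixingSubgroup_iff L g).2 hg
    exact (hgal g).2 (htriv g hg') z hz
  exact ⟨_, _, h44_redPts_of_datum p hp2 rb a hkill L hL (fun γ h => hLaL _ (hpts γ h))
    ζ hζL hζp hζ1 e he_mul he_act⟩

/-- `sk_red_type`, verbatim: after a change of basis `rb` is upper triangular with unramified
lower right corner. -/
theorem h44_red_type_sk (hp2 : p ≠ 2) {k : Type} [Field k] [Finite k] [CharP k p]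
    (rb : h78_G p →* Matrix (Fin 2) (Fin 2) k)
    (hdet : ∀ (g : h78_G p) (ζ : Ω), ζ ^ p = 1 → ∃ n : ℕ, g ζ = ζ ^ n ∧ (rb g).det = (n : k))
    (hred : ∃ v : Fin 2 → k, v ≠ 0 ∧ ∀ g, ∃ c : k, (rb g).mulVec v = c • v)
    (a₀ : h78_G p → Matrix (Fin 2) (Fin 2) k)
    (hcoc : ∀ s t, a₀ (s * t) = a₀ s * rb t + rb s * a₀ t) (hfl : h78_LocFlat p rb a₀)
    (L : Fld) [FiniteDimensional ℚ_[p] L] (hL : h78_Stable p L)
    (hζ : ∀ ζ : Ω, ζ ^ p = 1 → ζ ∈ L)
    (htriv : ∀ g ∈ L.fixingSubgroup, rb g = 1 ∧ a₀ g = 0) :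
    ∃ P : Matrix (Fin 2) (Fin 2) k, IsUnit P.det ∧ (∀ g, (P⁻¹ * rb g * P) 1 0 = 0) ∧
      ∀ s ∈ h78_J p L, (P⁻¹ * rb s * P) 1 1 = 1 := by
  obtain ⟨ζ, hζp, hζ1⟩ := h88_exists_zeta p
  have hζL : ζ ∈ L := hζ ζ hζp
  obtain ⟨V1, T, hpts⟩ := h44_redPts_of_flat p hp2 rb a₀ hcoc hfl L hL ζ hζL hζp hζ1 htriv
  obtain ⟨s₀, hs₀J, hs₀ζ, -⟩ := h88_exists_J_zeta_ne p hp2 L ζ hζp hζ1
  have htame : ∀ χ : h78_G p →* k, (∀ g, rb g = 1 → χ g = 1) →
      ∀ g ∈ h78_J p L, g ζ = ζ → χ g = 1 := by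
    intro χ hχ g hg hgζ
    obtain ⟨i, hi⟩ := h88_tame_char_hom p L hL χ (fun g hg =>
      hχ g (htriv g ((IntermediateField.mem_fixingSubgroup_iff L g).2 hg)).1) ζ hζL hζp hζ1
    have h1 := hi g hg 1 (by rw [pow_one]; exact hgζ)
    rw [h1, Nat.cast_one, one_pow]
  obtain ⟨v, hv0, hv⟩ := h44_red_type p rb hdet hred a₀ (h78_J p L)
    (fun g s hs => h88_J_conj p L hL g s hs) ζ hζp hζ1 V1 T hpts ⟨s₀, hs₀J, hs₀ζ⟩ htame
  choose c hc hcJ using hv
  obtain ⟨w, hw⟩ := h44_ell_exists v hv0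
  -- the matrix `P = (v | w)`
  let P : Matrix (Fin 2) (Fin 2) k := !![v 0, w 0; v 1, w 1]
  have hPdet : P.det = h44_ell v w := by
    rw [Matrix.det_fin_two]
    simp [P, h44_ell]
    ring
  have hPu : IsUnit P.det := by
    rw [hPdet]
    exact isUnit_iff_ne_zero.2 hw
  have hPN : ∀ M : Matrix (Fin 2) (Fin 2) k, P * (P⁻¹ * M * P) = M * P := by
    intro M
    rw [← mul_assoc, ← mul_assoc, Matrix.mul_nonsing_inv P hPu, one_mul]
  have hcol0 : ∀ (M N : Matrix (Fin 2) (Fin 2) k), P * N = M * P → ∀ i : Fin 2,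
      v i * N 0 0 + w i * N 1 0 = (M.mulVec v) i := by
    intro M N h i
    have h1 := congrFun (congrFun h i) 0
    rw [Matrix.mul_apply, Matrix.mul_apply, Fin.sum_univ_two, Fin.sum_univ_two] at h1
    fin_cases i <;> simpa [P, Matrix.mulVec, dotProduct, Fin.sum_univ_two] using h1
  have hcol1 : ∀ (M N : Matrix (Fin 2) (Fin 2) k), P * N = M * P → ∀ i : Fin 2,
      v i * N 0 1 + w i * N 1 1 = (M.mulVec w) i := by
    intro M N h i
    have h1 := congrFun (congrFun h i) 1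
    rw [Matrix.mul_apply, Matrix.mul_apply, Fin.sum_univ_two, Fin.sum_univ_two] at h1
    fin_cases i <;> simpa [P, Matrix.mulVec, dotProduct, Fin.sum_univ_two] using h1
  refine ⟨P, hPu, fun g => ?_, fun s hs => ?_⟩
  · have h0 := hcol0 (rb g) _ (hPN (rb g)) 0
    have h1 := hcol0 (rb g) _ (hPN (rb g)) 1
    rw [hc g] at h0 h1
    simp only [Pi.smul_apply, smul_eq_mul] at h0 h1
    have h2 : (P⁻¹ * rb g * P) 1 0 * h44_ell v w = 0 := by
      unfold h44_ell
      linear_combination v 0 * h1 - v 1 * h0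
    rcases mul_eq_zero.1 h2 with h3 | h3
    · exact h3
    · exact absurd h3 hw
  · have h0 := hcol1 (rb s) _ (hPN (rb s)) 0
    have h1 := hcol1 (rb s) _ (hPN (rb s)) 1
    have h2 : (P⁻¹ * rb s * P) 1 1 * h44_ell v w = h44_ell v ((rb s).mulVec w) := by
      unfold h44_ell
      linear_combination v 0 * h1 - v 1 * h0
    have h3 := h44_ell_mulVec (rb s) v w (c s) (hc s)
    obtain ⟨n, hn, hd⟩ := hdet s ζ hζp
    have hcn : c s = (n : k) := hcJ s hs n hn
    have hdet0 : (rb s).det ≠ 0 := by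
      intro h0
      have h4 : (rb s).det * (rb s⁻¹).det = 1 := by
        rw [← Matrix.det_mul, ← map_mul, mul_inv_cancel, map_one, Matrix.det_one]
      rw [h0, zero_mul] at h4
      exact zero_ne_one h4
    rw [← h2, hd, hcn] at h3
    have hn0 : (n : k) ≠ 0 := by rw [← hd]; exact hdet0
    have h5 : (n : k) * h44_ell v w * ((P⁻¹ * rb s * P) 1 1 - 1) = 0 := by
      linear_combination h3
    rcases mul_eq_zero.1 h5 with h6 | h6
    · exact absurd h6 (mul_ne_zero hn0 hw)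
    · exact sub_eq_zero.1 h6

end Fermat.Agent.S56
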