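import Mathlib
import Fermat.Agent.S56.h78_W3Defs
import Fermat.Agent.S56.h78_RedDefs
import Fermat.Agent.S56.h81_FlatDatum
import Fermat.Agent.S56.h88_TameChar
import Fermat.Agent.S56.h62_W3Basics

/-!
# S56 / W3 / E-RED row RED-S4 (b): unit Kummer generators for the upper right entry

Route #2981 (skeleton `sk_red_gen`).  `h11_red_gen_pts`: for a Hopf datum `H`, `e`, `hemul`, `heq`
as in the conclusion of `h81_flat_datum` of a cocycle `a`, such that on `J = h78_J p L` the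
representation `rb` is upper triangular with diagonal `(ω, 1)` and `a` is strictly upper
triangular, the three Hopf-side facts `[C]`, `[D]`, `[UNIT]` (hypotheses `hC`, `hD`, `hU`, in the
shapes of `sk_red_C`, `sk_red_D`, `sk_red_unit`) give, for all `μ lam : k` and every additive
functional `ℓ : k →+ ZMod p`, an element `v ∈ L` of norm one with `v ^ p ∈ K₀(L)` and
`s v = ζ ^ (ℓ (μ * a s 0 1 + lam * rb s 0 1)) * v` for all `s ∈ J`.

`h11_red_gen_of`: the statement `sk_red_gen` of the skeleton, with `[C]`, `[D]`, `[UNIT]` as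
hypotheses quantified over all Hopf data.
-/

set_option autoImplicit false

open Coalgebra WithConv

namespace Fermat.Agent.S56

variable (p : ℕ) [Fact p.Prime]

local notation "Ω" => PadicAlgCl p
local notation "Fld" => IntermediateField ℚ_[p] (PadicAlgCl p)

section

variable {k : Type} [Field k] {H : Type} [CommRing H] [Bialgebra (h78_Zp p) H]

theorem h11_gal_unique (s : h78_G p) (y y' : WithConv (H →ₐ[h78_Zp p] Ω))
    (h : ∀ x : H, y' x = s (y x)) : y' = h78_gal p s y := by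
  apply WithConv.ext
  apply AlgHom.ext
  intro x
  exact h x

theorem h11_e_gal (rb a : h78_G p → Matrix (Fin 2) (Fin 2) k)
    (e : WithConv (H →ₐ[h78_Zp p] Ω) ≃ (Fin 2 → k) × (Fin 2 → k))
    (heq : ∀ (σ : h78_G p) (f g : WithConv (H →ₐ[h78_Zp p] Ω)),
      (∀ h : H, g h = σ (f h)) → e g = h78_act p rb a σ (e f))
    (s : h78_G p) (y : WithConv (H →ₐ[h78_Zp p] Ω)) :
    e (h78_gal p s y) = h78_act p rb a s (e y) :=
  heq s y _ (fun _ => rfl)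

theorem h11_e_one (e : WithConv (H →ₐ[h78_Zp p] Ω) ≃ (Fin 2 → k) × (Fin 2 → k))
    (hemul : ∀ f g, e (f * g) = e f + e g) : e 1 = 0 := by
  have := hemul 1 1
  rw [mul_one] at this
  exact left_eq_add.mp this

theorem h11_e_pow (e : WithConv (H →ₐ[h78_Zp p] Ω) ≃ (Fin 2 → k) × (Fin 2 → k))
    (hemul : ∀ f g, e (f * g) = e f + e g) (γ : WithConv (H →ₐ[h78_Zp p] Ω)) (n : ℕ) :
    e (γ ^ n) = n • e γ := by
  induction n with
  | zero => rw [pow_zero, h11_e_one p e hemul, zero_smul]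
  | succ n ih => rw [pow_succ, hemul, ih, succ_nsmul]

theorem h11_mulVec2 (M : Matrix (Fin 2) (Fin 2) k) (x y : k) :
    M.mulVec ![x, y] = ![M 0 0 * x + M 0 1 * y, M 1 0 * x + M 1 1 * y] := by
  ext i
  fin_cases i <;> simp [Matrix.mulVec, dotProduct, Fin.sum_univ_two]

/-- the point `(x e₀, w e₀)`. -/
noncomputable def h11_zpt (e : WithConv (H →ₐ[h78_Zp p] Ω) ≃ (Fin 2 → k) × (Fin 2 → k))
    (x w : k) : WithConv (H →ₐ[h78_Zp p] Ω) :=
  e.symm (![x, 0], ![w, 0])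

theorem h11_zpt_mul (e : WithConv (H →ₐ[h78_Zp p] Ω) ≃ (Fin 2 → k) × (Fin 2 → k))
    (hemul : ∀ f g, e (f * g) = e f + e g) (x w x' w' : k) :
    h11_zpt p e x w * h11_zpt p e x' w' = h11_zpt p e (x + x') (w + w') := by
  apply e.injective
  rw [hemul]
  unfold h11_zpt
  rw [e.apply_symm_apply, e.apply_symm_apply, e.apply_symm_apply]
  ext i
  · fin_cases i <;> simp
  · fin_cases i <;> simp

theorem h11_zpt_zero (e : WithConv (H →ₐ[h78_Zp p] Ω) ≃ (Fin 2 → k) × (Fin 2 → k))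
    (hemul : ∀ f g, e (f * g) = e f + e g) : h11_zpt p e 0 0 = 1 := by
  apply e.injective
  rw [h11_e_one p e hemul]
  unfold h11_zpt
  rw [e.apply_symm_apply]
  ext i
  · fin_cases i <;> simp
  · fin_cases i <;> simp

/-- the submonoid `Z = {(x e₀, w e₀)}` of points. -/
noncomputable def h11_Zsub (e : WithConv (H →ₐ[h78_Zp p] Ω) ≃ (Fin 2 → k) × (Fin 2 → k))
    (hemul : ∀ f g, e (f * g) = e f + e g) : Submonoid (WithConv (H →ₐ[h78_Zp p] Ω)) where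
  carrier := Set.range fun xw : k × k => h11_zpt p e xw.1 xw.2
  one_mem' := ⟨(0, 0), h11_zpt_zero p e hemul⟩
  mul_mem' := by
    rintro _ _ ⟨⟨x, w⟩, rfl⟩ ⟨⟨x', w'⟩, rfl⟩
    exact ⟨(x + x', w + w'), (h11_zpt_mul p e hemul x w x' w').symm⟩

theorem h11_zpt_mem (e : WithConv (H →ₐ[h78_Zp p] Ω) ≃ (Fin 2 → k) × (Fin 2 → k))
    (hemul : ∀ f g, e (f * g) = e f + e g) (x w : k) : h11_zpt p e x w ∈ h11_Zsub p e hemul :=
  ⟨(x, w), rfl⟩

theorem h11_mem_Zsub (e : WithConv (H →ₐ[h78_Zp p] Ω) ≃ (Fin 2 → k) × (Fin 2 → k))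
    (hemul : ∀ f g, e (f * g) = e f + e g) (z : WithConv (H →ₐ[h78_Zp p] Ω))
    (hz : z ∈ h11_Zsub p e hemul) : ∃ x w : k, z = h11_zpt p e x w := by
  obtain ⟨⟨x, w⟩, rfl⟩ := hz
  exact ⟨x, w, rfl⟩

/-- the action of an element with `rb s e₀ = c e₀`, `a s e₀ = 0` on the points `(x e₀, w e₀)`. -/
theorem h11_gal_zpt (rb a : h78_G p → Matrix (Fin 2) (Fin 2) k)
    (e : WithConv (H →ₐ[h78_Zp p] Ω) ≃ (Fin 2 → k) × (Fin 2 → k))
    (heq : ∀ (σ : h78_G p) (f g : WithConv (H →ₐ[h78_Zp p] Ω)),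
      (∀ h : H, g h = σ (f h)) → e g = h78_act p rb a σ (e f))
    (s : h78_G p) (c : k) (h00 : rb s 0 0 = c) (h10 : rb s 1 0 = 0)
    (ha00 : a s 0 0 = 0) (ha10 : a s 1 0 = 0) (x w : k) :
    h78_gal p s (h11_zpt p e x w) = h11_zpt p e (c * x) (c * w) := by
  apply e.injective
  rw [h11_e_gal p rb a e heq]
  unfold h11_zpt
  rw [e.apply_symm_apply, e.apply_symm_apply]
  unfold h78_act
  simp only [h11_mulVec2, h00, h10, ha00, ha10]
  ext i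
  · fin_cases i <;> simp
  · fin_cases i <;> simp

end

section

variable {k : Type} [Field k] [CharP k p] {H : Type} [CommRing H] [Bialgebra (h78_Zp p) H]

/-- **RED-S4 (b)**, for a given Hopf datum, with `[C]`, `[D]`, `[UNIT]` as hypotheses. -/
theorem h11_red_gen_pts (hp2 : p ≠ 2)
    (L : Fld) [FiniteDimensional ℚ_[p] L]
    (ζ : Ω) (hζ : ζ ^ p = 1) (hζ1 : ζ ≠ 1)
    (rb a : h78_G p → Matrix (Fin 2) (Fin 2) k)
    (e : WithConv (H →ₐ[h78_Zp p] Ω) ≃ (Fin 2 → k) × (Fin 2 → k))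
    (hemul : ∀ f g, e (f * g) = e f + e g)
    (heq : ∀ (σ : h78_G p) (f g : WithConv (H →ₐ[h78_Zp p] Ω)),
      (∀ h : H, g h = σ (f h)) → e g = h78_act p rb a σ (e f))
    (hrb10 : ∀ s ∈ h78_J p L, rb s 1 0 = 0) (hrb11 : ∀ s ∈ h78_J p L, rb s 1 1 = 1)
    (hrb00 : ∀ s ∈ h78_J p L, ∀ n : ℕ, s ζ = ζ ^ n → rb s 0 0 = (n : k))
    (ha10 : ∀ s ∈ h78_J p L, a s 1 0 = 0) (ha00 : ∀ s ∈ h78_J p L, a s 0 0 = 0)
    (ha11 : ∀ s ∈ h78_J p L, a s 1 1 = 0)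
    (hC : ∀ s ∈ h78_J p L, ∀ y : WithConv (H →ₐ[h78_Zp p] Ω),
      h78_gal p s y * y ^ (p - 1) ∈ h78_V1 p H)
    (hD : ∀ y : WithConv (H →ₐ[h78_Zp p] Ω), y ∈ h78_V1 p H →
      (∀ s ∈ h78_J p L, s ζ = ζ → h78_gal p s y = y) → y ∈ h78_T p H)
    (hU : ∀ Z : Submonoid (WithConv (H →ₐ[h78_Zp p] Ω)), (∀ z ∈ Z, z ∈ h78_T p H) →
      (∀ s ∈ h78_J p L, ∀ z ∈ Z, h78_gal p s z ∈ Z) →
      ∀ χ : WithConv (H →ₐ[h78_Zp p] Ω) → ZMod p,
        (∀ z ∈ Z, ∀ z' ∈ Z, χ (z * z') = χ z + χ z') →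
      ∀ y : WithConv (H →ₐ[h78_Zp p] Ω),
        (∀ s ∈ h78_J p L, ∃ z ∈ Z, h78_gal p s y = y * z) →
        ∃ v ∈ L, ‖v‖ = 1 ∧ v ^ p ∈ h78_K0 p L ∧
          ∀ s ∈ h78_J p L, ∀ z ∈ Z, h78_gal p s y = y * z → s v = ζ ^ (χ z).val * v)
    (μ lam : k) (ℓ : k →+ ZMod p) :
    ∃ v ∈ L, ‖v‖ = 1 ∧ v ^ p ∈ h78_K0 p L ∧
      ∀ s ∈ h78_J p L, s v = ζ ^ (ℓ (μ * a s 0 1 + lam * rb s 0 1)).val * v := by
  classical
  obtain ⟨τ, hτJ, hτ2, -⟩ := h88_exists_J_zeta_ne p hp2 L ζ hζ hζ1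
  have hτ00 : rb τ 0 0 = 2 := by
    have := hrb00 τ hτJ 2 hτ2
    simpa using this
  -- `(p - 1) • v = - v`
  have hpm : ∀ v : (Fin 2 → k) × (Fin 2 → k), (p - 1) • v = -v := by
    intro v
    have hp1 : 1 ≤ p := (Fact.out : p.Prime).one_lt.le
    have h1 : (p - 1) • v + v = 0 := by
      rw [← succ_nsmul, Nat.sub_add_cancel hp1]
      ext i
      · simp
      · simp
    exact eq_neg_of_add_eq_zero_left h1
  -- `Z ⊆ V₁`
  have hV1 : ∀ x w : k, h11_zpt p e x w ∈ h78_V1 p H := by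
    intro x w
    have h1 : h11_zpt p e x w =
        h78_gal p τ (h11_zpt p e x w) * (h11_zpt p e x w) ^ (p - 1) := by
      apply e.injective
      rw [hemul, h11_e_pow p e hemul, hpm,
        h11_gal_zpt p rb a e heq τ 2 hτ00 (hrb10 τ hτJ) (ha00 τ hτJ) (ha10 τ hτJ)]
      unfold h11_zpt
      rw [e.apply_symm_apply, e.apply_symm_apply]
      ext i
      · fin_cases i
        · simp; ring
        · simp
      · fin_cases i
        · simp; ring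
        · simp
    rw [h1]
    exact hC τ hτJ _
  -- `Z` is fixed by `J₁`
  have hfix : ∀ x w : k, ∀ s ∈ h78_J p L, s ζ = ζ →
      h78_gal p s (h11_zpt p e x w) = h11_zpt p e x w := by
    intro x w s hs hsζ
    have h00 : rb s 0 0 = 1 := by
      have := hrb00 s hs 1 (by rw [pow_one]; exact hsζ)
      simpa using this
    have h1 := h11_gal_zpt p rb a e heq s 1 h00 (hrb10 s hs) (ha00 s hs) (ha10 s hs) x w
    rwa [one_mul, one_mul] at h1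
  -- `Z ⊆ T`
  have hT : ∀ x w : k, h11_zpt p e x w ∈ h78_T p H :=
    fun x w => hD _ (hV1 x w) (hfix x w)
  -- the point `y = (μ e₁, lam e₁)` and its inertia cocycle
  have hy : ∀ s ∈ h78_J p L, h78_gal p s (e.symm (![0, μ], ![0, lam])) =
      e.symm (![0, μ], ![0, lam]) *
        h11_zpt p e (μ * rb s 0 1) (μ * a s 0 1 + lam * rb s 0 1) := by
    intro s hs
    apply e.injective
    rw [h11_e_gal p rb a e heq, hemul]
    unfold h11_zpt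
    rw [e.apply_symm_apply, e.apply_symm_apply]
    unfold h78_act
    simp only [h11_mulVec2, hrb10 s hs, hrb11 s hs, ha10 s hs, ha11 s hs]
    ext i
    · fin_cases i
      · simp; ring
      · simp
    · fin_cases i
      · simp; ring
      · simp
  -- apply `[UNIT]`
  obtain ⟨v, hvL, hv1, hvp, hv⟩ := hU (h11_Zsub p e hemul)
    (by
      intro z hz
      obtain ⟨x, w, rfl⟩ := h11_mem_Zsub p e hemul z hz
      exact hT x w)
    (by
      intro s hs z hz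
      obtain ⟨x, w, rfl⟩ := h11_mem_Zsub p e hemul z hz
      obtain ⟨n, hn⟩ := h88_exists_cyclo_exp p ζ hζ hζ1 s
      rw [h11_gal_zpt p rb a e heq s (n : k) (hrb00 s hs n hn) (hrb10 s hs) (ha00 s hs)
        (ha10 s hs)]
      exact h11_zpt_mem p e hemul _ _)
    (fun z => ℓ ((e z).2 0))
    (by
      intro z _ z' _
      show ℓ ((e (z * z')).2 0) = ℓ ((e z).2 0) + ℓ ((e z').2 0)
      rw [hemul, Prod.snd_add, Pi.add_apply, map_add])
    (e.symm (![0, μ], ![0, lam]))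
    (fun s hs => ⟨_, h11_zpt_mem p e hemul _ _, hy s hs⟩)
  refine ⟨v, hvL, hv1, hvp, fun s hs => ?_⟩
  rw [hv s hs _ (h11_zpt_mem p e hemul _ _) (hy s hs)]
  unfold h11_zpt
  rw [e.apply_symm_apply]
  rfl

end

/-- **RED-S4 (b)** = `sk_red_gen` of the skeleton, with `[C]`, `[D]`, `[UNIT]` (the statements
`sk_red_C`, `sk_red_D`, `sk_red_unit`) as hypotheses. -/
theorem h11_red_gen_of
    (hC : ∀ (H : Type) [CommRing H] [Bialgebra (h78_Zp p) H]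
      [Coalgebra.IsCocomm (h78_Zp p) H] [Module.Free (h78_Zp p) H] [Module.Finite (h78_Zp p) H]
      (_hkill : ∀ γ : WithConv (H →ₐ[h78_Zp p] Ω), γ ^ p = 1)
      (L : Fld) [FiniteDimensional ℚ_[p] L]
      (_hLpts : ∀ (γ : H →ₐ[h78_Zp p] Ω) (h : H), γ h ∈ L)
      (s : h78_G p) (_hs : s ∈ h78_J p L) (y : WithConv (H →ₐ[h78_Zp p] Ω)),
      h78_gal p s y * y ^ (p - 1) ∈ h78_V1 p H)
    (hD : ∀ (H : Type) [CommRing H] [Bialgebra (h78_Zp p) H]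
      [Coalgebra.IsCocomm (h78_Zp p) H] [Module.Free (h78_Zp p) H] [Module.Finite (h78_Zp p) H]
      (L : Fld) [FiniteDimensional ℚ_[p] L] (_hL : h78_Stable p L)
      (_hLpts : ∀ (γ : H →ₐ[h78_Zp p] Ω) (h : H), γ h ∈ L)
      (ζ : Ω) (_hζL : ζ ∈ L) (_hζp : ζ ^ p = 1) (_hζ1 : ζ ≠ 1)
      (y : WithConv (H →ₐ[h78_Zp p] Ω)) (_hy : y ∈ h78_V1 p H)
      (_hfix : ∀ s ∈ h78_J p L, s ζ = ζ → h78_gal p s y = y), y ∈ h78_T p H)
    (hU : ∀ (H : Type) [CommRing H] [Bialgebra (h78_Zp p) H]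
      [Coalgebra.IsCocomm (h78_Zp p) H] [Module.Free (h78_Zp p) H] [Module.Finite (h78_Zp p) H]
      (_hp2 : p ≠ 2) (_hkill : ∀ γ : WithConv (H →ₐ[h78_Zp p] Ω), γ ^ p = 1)
      (L : Fld) [FiniteDimensional ℚ_[p] L] (_hL : h78_Stable p L)
      (_hLpts : ∀ (γ : H →ₐ[h78_Zp p] Ω) (h : H), γ h ∈ L)
      (ζ : Ω) (_hζL : ζ ∈ L) (_hζp : ζ ^ p = 1) (_hζ1 : ζ ≠ 1)
      (Z : Submonoid (WithConv (H →ₐ[h78_Zp p] Ω))) (_hZT : ∀ z ∈ Z, z ∈ h78_T p H)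
      (_hZJ : ∀ s ∈ h78_J p L, ∀ z ∈ Z, h78_gal p s z ∈ Z)
      (χ : WithConv (H →ₐ[h78_Zp p] Ω) → ZMod p)
      (_hχ : ∀ z ∈ Z, ∀ z' ∈ Z, χ (z * z') = χ z + χ z')
      (y : WithConv (H →ₐ[h78_Zp p] Ω))
      (_hyJ : ∀ s ∈ h78_J p L, ∃ z ∈ Z, h78_gal p s y = y * z),
      ∃ v ∈ L, ‖v‖ = 1 ∧ v ^ p ∈ h78_K0 p L ∧
        ∀ s ∈ h78_J p L, ∀ z ∈ Z, h78_gal p s y = y * z → s v = ζ ^ (χ z).val * v)
    (hp2 : p ≠ 2) {k : Type} [Field k] [Finite k] [CharP k p]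
    (rb : h78_G p →* Matrix (Fin 2) (Fin 2) k)
    (hdet : ∀ (g : h78_G p) (ζ : Ω), ζ ^ p = 1 → ∃ n : ℕ, g ζ = ζ ^ n ∧ (rb g).det = (n : k))
    (hut : ∀ g, rb g 1 0 = 0)
    (L : Fld) [FiniteDimensional ℚ_[p] L] (hL : h78_Stable p L)
    (ζ : Ω) (hζL : ζ ∈ L) (hζp : ζ ^ p = 1) (hζ1 : ζ ≠ 1)
    (hχ2 : ∀ s ∈ h78_J p L, rb s 1 1 = 1)
    (a : h78_G p → Matrix (Fin 2) (Fin 2) k)
    (hcoc : ∀ s t, a (s * t) = a s * rb t + rb s * a t) (hfl : h78_LocFlat p rb a)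
    (htriv : ∀ g ∈ L.fixingSubgroup, rb g = 1 ∧ a g = 0)
    (hll : ∀ g, a g 1 0 = 0) (hd0 : ∀ s ∈ h78_J p L, a s 0 0 = 0)
    (hd1 : ∀ s ∈ h78_J p L, a s 1 1 = 0) (μ lam : k) (ℓ : k →+ ZMod p) :
    ∃ v ∈ L, ‖v‖ = 1 ∧ v ^ p ∈ h78_K0 p L ∧
      ∀ s ∈ h78_J p L, s v = ζ ^ (ℓ (μ * a s 0 1 + lam * rb s 0 1)).val * v := by
  obtain ⟨H, _, _, _, _, _, La, _, hkill, -, hpts, hgal, -, e, hemul, heq⟩ :=
    h81_flat_datum p rb a hcoc hfl
  -- all point values lie in `L`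
  have hLpts : ∀ (γ : H →ₐ[h78_Zp p] Ω) (h : H), γ h ∈ L := by
    intro γ h
    apply h62_mem_of_fixed p L
    intro g hg
    have hg' : g ∈ L.fixingSubgroup := (IntermediateField.mem_fixingSubgroup_iff L g).2 hg
    exact (hgal g).2 (htriv g hg') _ (hpts γ h)
  -- the upper left character is `ω` on inertia
  have hrb00 : ∀ s ∈ h78_J p L, ∀ n : ℕ, s ζ = ζ ^ n → rb s 0 0 = (n : k) := by
    intro s hs n hn
    obtain ⟨m, hm, hdm⟩ := hdet s ζ hζp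
    rw [Matrix.det_fin_two, hut s, mul_zero, sub_zero, hχ2 s hs, mul_one] at hdm
    rw [hdm]
    have h1 : m ≡ n [MOD p] := (h88_zeta_pow_eq_iff p ζ hζp hζ1 m n).1 (by rw [← hm, ← hn])
    exact (CharP.natCast_eq_natCast k p).2 h1
  exact h11_red_gen_pts p hp2 L ζ hζp hζ1 (fun g => rb g) a e hemul heq
    (fun s _ => hut s) hχ2 hrb00 (fun s _ => hll s) hd0 hd1
    (fun s hs y => hC H hkill L hLpts s hs y)
    (fun y hy hfix => hD H L hL hLpts ζ hζL hζp hζ1 y hy hfix)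
    (fun Z hZT hZJ χ hχ y hyJ =>
      hU H hp2 hkill L hL hLpts ζ hζL hζp hζ1 Z hZT hZJ χ hχ y hyJ)
    μ lam ℓ

end Fermat.Agent.S56
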