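/-
S56 / W3 E-RED, structure core (layer 2): points of a finite flat `ℤ_(p)`-bialgebra `H` killed by
`p`, inside the convolution algebra `WithConv (H →ₗ[ℤ_(p)] Ω)`, `Ω = PadicAlgCl p`.

No quotient or closure Hopf algebra is used: the "multiplicative part" is handled by the
integral idempotents of `h77_RedIdem`.

Exports (`Γ := WithConv (H →ₐ[ℤ_(p)] Ω)` the group of points, `J = h78_J p L`):
* `h77_C`   : `σ ∈ J` ⟹ `(σγ) * γ^(p-1) ≡ 1 mod 𝔪`.
* `h77_A`   : `‖γ - 1‖ ≤ ‖ζ - 1‖`, `σ ∈ J`, `σ ζ = ζ^n` ⟹ `σγ = γ^n`.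
* `h77_D`   : `γ ≡ 1 mod 𝔪` fixed by `{σ ∈ J | σ ζ = ζ}` ⟹ `‖γ - 1‖ ≤ ‖ζ - 1‖`.
* `h77_KL2` : `Z` a finite `J`-stable subgroup of points with `‖z - 1‖ ≤ ‖ζ - 1‖`; `y ≡ 1 mod 𝔪`
              with `σ y ∈ y Z` for `σ ∈ J` ⟹ `y ∈ Z`.
* `h77_unit`: for a character `χ` of such a `Z` and ANY point `y` with `σ y = y z_σ`: a unit `v`
              with `v^p ∈ K₀(L)` and `σ v = χ(z_σ) v`  (peu ramifié without the ramification bound).
-/
import Fermat.Agent.S56.h77_RedIdem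
import Fermat.Agent.S56.h62_W3Basics
import Fermat.Agent.S56.h49_K0Res
import Fermat.Agent.S56.h28_K0Unram
import Fermat.Agent.S56.h71_ConvLift
import Fermat.Agent.S56.h71_Ps
import Fermat.Agent.S56.h81_FlatDatum
import Fermat.Agent.S56.h88_TameLoc

set_option autoImplicit false
set_option linter.unusedSectionVars false

open Coalgebra WithConv

namespace Fermat.Agent.S56

variable (p : ℕ) [Fact p.Prime]

local notation "Ω" => PadicAlgCl p
local notation "Fld" => IntermediateField ℚ_[p] (PadicAlgCl p)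

variable {H : Type} [CommRing H] [Bialgebra (h78_Zp p) H] [Coalgebra.IsCocomm (h78_Zp p) H]
  [Module.Free (h78_Zp p) H] [Module.Finite (h78_Zp p) H]

/-! ## points, Galois action -/

/-- a point as an element of the convolution algebra. -/
noncomputable def h77_lin (γ : WithConv (H →ₐ[h78_Zp p] Ω)) : WithConv (H →ₗ[h78_Zp p] Ω) :=
  toConv γ.ofConv.toLinearMap

theorem h77_lin_apply (γ : WithConv (H →ₐ[h78_Zp p] Ω)) (d : H) : h77_lin p γ d = γ d := rfl

theorem h77_lin_one : h77_lin p (1 : WithConv (H →ₐ[h78_Zp p] Ω)) = 1 := rfl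

theorem h77_lin_mul (γ γ' : WithConv (H →ₐ[h78_Zp p] Ω)) :
    h77_lin p (γ * γ') = h77_lin p γ * h77_lin p γ' := rfl

theorem h77_lin_pow (γ : WithConv (H →ₐ[h78_Zp p] Ω)) (n : ℕ) :
    h77_lin p (γ ^ n) = h77_lin p γ ^ n := AlgHom.toLinearMap_convPow γ n

theorem h77_lin_injective :
    Function.Injective (h77_lin p : WithConv (H →ₐ[h78_Zp p] Ω) → WithConv (H →ₗ[h78_Zp p] Ω)) := by
  intro γ γ' h
  apply WithConv.ofConv_injective
  apply AlgHom.toLinearMap_injective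
  exact WithConv.toConv_injective h

/-- the Galois action on points. -/
noncomputable def h77_act (s : h78_G p) (γ : WithConv (H →ₐ[h78_Zp p] Ω)) :
    WithConv (H →ₐ[h78_Zp p] Ω) := toConv (h81_galPt p s γ.ofConv)

theorem h77_act_apply (s : h78_G p) (γ : WithConv (H →ₐ[h78_Zp p] Ω)) (d : H) :
    h77_act p s γ d = s (γ d) := rfl

/-- a Galois element as a `ℤ_(p)`-algebra endomorphism of `Ω`. -/
noncomputable def h77_sAlg (s : h78_G p) : Ω →ₐ[h78_Zp p] Ω :=
  { ((s : Ω ≃+* Ω) : Ω →+* Ω) with commutes' := fun c => h81_gal_algebraMap p s c }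

/-- the Galois action on the convolution algebra. -/
noncomputable def h77_gal (s : h78_G p) :
    WithConv (H →ₗ[h78_Zp p] Ω) →+* WithConv (H →ₗ[h78_Zp p] Ω) := h71_post (h77_sAlg p s)

theorem h77_gal_apply (s : h78_G p) (f : WithConv (H →ₗ[h78_Zp p] Ω)) (d : H) :
    h77_gal p s f d = s (f d) := rfl

theorem h77_gal_lin (s : h78_G p) (γ : WithConv (H →ₐ[h78_Zp p] Ω)) :
    h77_gal p s (h77_lin p γ) = h77_lin p (h77_act p s γ) := rfl

theorem h77_gal_smul (s : h78_G p) (c : Ω) (f : WithConv (H →ₗ[h78_Zp p] Ω)) :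
    h77_gal p s (c • f) = s c • h77_gal p s f := by
  apply WithConv.ofConv_injective
  ext d
  show s (c * f d) = s c * s (f d)
  exact map_mul s _ _

/-! ## finite generation -/

theorem h77_small_of_basis {ι : Type*} [Fintype ι] (b : Module.Basis ι (h78_Zp p) H)
    (f : WithConv (H →ₗ[h78_Zp p] Ω)) (r : ℝ) (hr : 0 ≤ r) (h : ∀ i, ‖f (b i)‖ ≤ r) :
    h77_Small r f := by
  intro d
  have h1 : f d = ∑ i, algebraMap (h78_Zp p) Ω (b.repr d i) * f (b i) := by
    conv_lhs => rw [← b.sum_repr d]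
    show f.ofConv (∑ i, b.repr d i • b i) = _
    rw [map_sum]
    refine Finset.sum_congr rfl fun i _ => ?_
    rw [map_smul, Algebra.smul_def]
  rw [h1]
  refine IsUltrametricDist.norm_sum_le_of_forall_le_of_nonneg hr fun i _ => ?_
  rw [norm_mul]
  calc ‖algebraMap (h78_Zp p) Ω (b.repr d i)‖ * ‖f (b i)‖ ≤ 1 * r :=
        mul_le_mul (h62_norm_algebraMap_Zp_le_one p _) (h i) (norm_nonneg _) zero_le_one
    _ = r := one_mul r

theorem h77_exists_small (f : WithConv (H →ₗ[h78_Zp p] Ω)) (r0 : ℝ) (hr0 : 0 < r0)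
    (h : ∀ d, ‖f d‖ < r0) : ∃ ρ, 0 ≤ ρ ∧ ρ < r0 ∧ h77_Small ρ f := by
  classical
  let b := Module.Free.chooseBasis (h78_Zp p) H
  rcases isEmpty_or_nonempty (Module.Free.ChooseBasisIndex (h78_Zp p) H) with hE | hN
  · exact ⟨0, le_rfl, hr0, h77_small_of_basis p b f 0 le_rfl fun i => isEmptyElim i⟩
  · obtain ⟨i0, hi0⟩ := Finite.exists_max (fun i => ‖f (b i)‖)
    exact ⟨‖f (b i0)‖, norm_nonneg _, h _, h77_small_of_basis p b f _ (norm_nonneg _) hi0⟩

/-- points are integral. -/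
theorem h77_lin_small (γ : WithConv (H →ₐ[h78_Zp p] Ω)) : h77_Small 1 (h77_lin p γ) :=
  fun d => h62_point_norm_le_one p γ.ofConv d

/-! ## [C] -/

/-- **[C]** for `σ ∈ J_L` the point `(σ γ) * γ^(p-1)` reduces to the identity. -/
theorem h77_C (hkill : ∀ γ : WithConv (H →ₐ[h78_Zp p] Ω), γ ^ p = 1)
    (L : Fld) [FiniteDimensional ℚ_[p] L]
    (hLpts : ∀ (γ : WithConv (H →ₐ[h78_Zp p] Ω)) (d : H), γ d ∈ L)
    (s : h78_G p) (hs : s ∈ h78_J p L) (γ : WithConv (H →ₐ[h78_Zp p] Ω)) (d : H) :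
    ‖(h77_act p s γ * γ ^ (p - 1)) d - (1 : WithConv (H →ₐ[h78_Zp p] Ω)) d‖ < 1 := by
  have hp : p.Prime := Fact.out
  set a := h77_lin p γ with ha
  have hf : ∀ d : H, ‖(h77_gal p s a - a) d‖ < 1 := by
    intro d
    show ‖s (γ d) - γ d‖ < 1
    exact h49_J_res p L s hs (γ d) (hLpts γ d) (h62_point_norm_le_one p γ.ofConv d)
  obtain ⟨ρ, hρ0, hρ1, hρ⟩ := h77_exists_small p _ 1 zero_lt_one hf
  have h1 : h77_lin p (h77_act p s γ * γ ^ (p - 1)) - 1 = (h77_gal p s a - a) * a ^ (p - 1) := by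
    have h2 : a * a ^ (p - 1) = 1 := by
      rw [← pow_succ', Nat.sub_add_cancel hp.one_le, ha, ← h77_lin_pow, hkill]
      rfl
    rw [h77_lin_mul, h77_lin_pow, ← h77_gal_lin, sub_mul, h2]
  have h3 : h77_Small (ρ * 1) ((h77_gal p s a - a) * a ^ (p - 1)) := by
    refine h77_small_mul hρ0 zero_le_one hρ ?_
    rw [ha, ← h77_lin_pow]
    exact h77_lin_small p _
  rw [← h1, mul_one] at h3
  exact lt_of_le_of_lt (h3 d) hρ1

/-! ## [A] -/

theorem h77_pow_expand (a : WithConv (H →ₗ[h78_Zp p] Ω)) (r : ℝ) (hr0 : 0 ≤ r)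
    (ha : h77_Small 1 a) (hd : h77_Small r (a - 1)) (m : ℕ) :
    h77_Small (r ^ 2) (a ^ m - 1 - (m : Ω) • (a - 1)) := by
  induction m with
  | zero =>
    intro d
    have : a ^ 0 - 1 - ((0 : ℕ) : Ω) • (a - 1) = 0 := by simp
    rw [this]
    show ‖(0 : Ω)‖ ≤ r ^ 2
    rw [norm_zero]; positivity
  | succ m ih =>
    have h1 : a ^ (m + 1) - 1 - ((m + 1 : ℕ) : Ω) • (a - 1)
        = (a ^ m - 1 - (m : Ω) • (a - 1)) * a + (m : Ω) • ((a - 1) * (a - 1)) := by
      rw [Nat.cast_add, Nat.cast_one, add_smul, one_smul, pow_succ]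
      have h2 : (m : Ω) • ((a - 1) * (a - 1)) = ((m : Ω) • (a - 1)) * (a - 1) := by
        rw [smul_mul_assoc]
      rw [h2]
      ring
    rw [h1]
    apply h77_small_add
    · have := h77_small_mul (sq_nonneg r) zero_le_one ih ha
      rwa [mul_one] at this
    · have h3 := h77_small_smul (m : Ω) (h77_small_mul hr0 hr0 hd hd)
      rw [← sq] at h3
      refine h77_small_mono ?_ h3
      exact mul_le_of_le_one_left (sq_nonneg r) (IsUltrametricDist.norm_natCast_le_one Ω m)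

/-- **[A]** on the points at distance `≤ ‖ζ - 1‖` from the identity, `J_L` acts through the
cyclotomic character. -/
theorem h77_A (hkill : ∀ γ : WithConv (H →ₐ[h78_Zp p] Ω), γ ^ p = 1)
    (L : Fld) [FiniteDimensional ℚ_[p] L]
    (hLpts : ∀ (γ : WithConv (H →ₐ[h78_Zp p] Ω)) (d : H), γ d ∈ L)
    (ζ : Ω) (hζ : IsPrimitiveRoot ζ p) (hζL : ζ ∈ L)
    (γ : WithConv (H →ₐ[h78_Zp p] Ω))
    (hγ : ∀ d : H, ‖γ d - (1 : WithConv (H →ₐ[h78_Zp p] Ω)) d‖ ≤ ‖ζ - 1‖)
    (s : h78_G p) (hs : s ∈ h78_J p L) (n : ℕ) (hn : s ζ = ζ ^ n) :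
    h77_act p s γ = γ ^ n := by
  have hp : p.Prime := Fact.out
  have hp1 : 1 ≤ p - 1 := by have := hp.two_le; omega
  have hpR : (1 : ℝ) < p := by exact_mod_cast hp.one_lt
  have hO := h62_norm_algebraMap_Zp_le_one p
  set r0 : ℝ := ‖ζ - 1‖ with hr0
  have hζ1 : ζ ≠ 1 := hζ.ne_one hp.one_lt
  have hζn : ‖ζ‖ = 1 := h77_norm_root hp.ne_zero ζ hζ.pow_eq_one
  have hr0pos : 0 < r0 := norm_pos_iff.2 (sub_ne_zero.2 hζ1)
  have hr0pow : r0 ^ (p - 1) = (p : ℝ)⁻¹ := by
    rw [hr0, h77_norm_sub_one_pow p hζ, h62_norm_p]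
  have hr0lt : r0 < 1 := by
    by_contra hcon
    rw [not_lt] at hcon
    have h1 : (1 : ℝ) ≤ r0 ^ (p - 1) := one_le_pow₀ hcon
    rw [hr0pow] at h1
    have h2 : (p : ℝ)⁻¹ < 1 := inv_lt_one_of_one_lt₀ hpR
    linarith
  set a := h77_lin p γ with ha
  have ha1 : h77_Small 1 a := h77_lin_small p γ
  have hdd : h77_Small r0 (a - 1) := fun d => hγ d
  -- the Galois twist of `a - 1`
  set g : WithConv (H →ₗ[h78_Zp p] Ω) := h77_gal p s (a - 1) - (n : Ω) • (a - 1) with hgdef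
  have hg : ∀ d : H, ‖g d‖ < r0 := by
    intro d
    set x : Ω := γ d - (1 : WithConv (H →ₐ[h78_Zp p] Ω)) d with hx
    have hxL : x ∈ L := L.sub_mem (hLpts γ d) (h81_algebraMap_mem p L _)
    have hxn : ‖x‖ ≤ r0 := hγ d
    show ‖s x - (n : Ω) * x‖ < r0
    set t : Ω := x / (ζ - 1) with ht
    have hζ10 : ζ - 1 ≠ 0 := sub_ne_zero.2 hζ1
    have hxt : x = (ζ - 1) * t := by rw [ht]; field_simp
    have htL : t ∈ L := L.div_mem hxL (L.sub_mem hζL L.one_mem)
    have htn : ‖t‖ ≤ 1 := by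
      rw [ht, norm_div]
      exact div_le_one_of_le₀ hxn (norm_nonneg _)
    set G : Ω := ∑ i ∈ Finset.range n, ζ ^ i with hG
    have hGn : ‖G‖ ≤ 1 := h77_norm_geom_le ζ hζn.le n
    have hGz : ζ ^ n - 1 = (ζ - 1) * G := by rw [hG, mul_comm, geom_sum_mul]
    have hGn' : ‖G - (n : Ω)‖ ≤ r0 := by
      have h1 : G - (n : Ω) = ∑ i ∈ Finset.range n, (ζ ^ i - 1) := by
        rw [Finset.sum_sub_distrib, hG]; simp
      rw [h1]
      refine IsUltrametricDist.norm_sum_le_of_forall_le_of_nonneg hr0pos.le fun i _ => ?_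
      exact h77_norm_pow_sub_one_le ζ hζn.le i
    have hsx : s x - (n : Ω) * x = (ζ - 1) * (G * (s t - t) + (G - (n : Ω)) * t) := by
      have h1 : s x = (ζ ^ n - 1) * s t := by
        rw [hxt, map_mul, map_sub, map_one, hn]
      rw [h1, hGz, hxt]; ring
    rw [hsx, norm_mul]
    have h2 : ‖G * (s t - t) + (G - (n : Ω)) * t‖ < 1 := by
      refine lt_of_le_of_lt (IsUltrametricDist.norm_add_le_max _ _) (max_lt ?_ ?_)
      · rw [norm_mul]
        calc ‖G‖ * ‖s t - t‖ ≤ 1 * ‖s t - t‖ :=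
              mul_le_mul_of_nonneg_right hGn (norm_nonneg _)
          _ = ‖s t - t‖ := one_mul _
          _ < 1 := h49_J_res p L s hs t htL htn
      · rw [norm_mul]
        calc ‖G - (n : Ω)‖ * ‖t‖ ≤ r0 * 1 :=
              mul_le_mul hGn' htn (norm_nonneg _) hr0pos.le
          _ = r0 := mul_one _
          _ < 1 := hr0lt
    calc ‖ζ - 1‖ * ‖G * (s t - t) + (G - (n : Ω)) * t‖ < ‖ζ - 1‖ * 1 :=
          mul_lt_mul_of_pos_left h2 hr0pos
      _ = r0 := mul_one _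
  obtain ⟨ρ1, hρ10, hρ1lt, hρ1⟩ := h77_exists_small p g r0 hr0pos hg
  -- the element `w`
  set m : ℕ := (p - 1) * n with hm
  have hnm : n + m = p * n := by
    rw [hm]
    have : p = (p - 1) + 1 := (Nat.sub_add_cancel hp.one_le).symm
    nth_rw 2 [this]
    ring
  set w := h77_gal p s a * a ^ m with hw
  have hap : a ^ p = 1 := by rw [ha, ← h77_lin_pow, hkill]; rfl
  have hwp : w ^ p = 1 := by
    rw [hw, mul_pow, ← map_pow, hap, map_one, one_mul, ← pow_mul, mul_comm, pow_mul, hap,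
      one_pow]
  have hR := h77_pow_expand p a r0 hr0pos.le ha1 hdd m
  have hgal1 : h77_gal p s a = 1 + h77_gal p s (a - 1) := by
    rw [map_sub, map_one]; ring
  have hw1 : w - 1 = g + ((n + m : ℕ) : Ω) • (a - 1)
      + (a ^ m - 1 - (m : Ω) • (a - 1)) + h77_gal p s (a - 1) * (a ^ m - 1) := by
    rw [hw, hgal1, hgdef, Nat.cast_add, add_smul]
    ring
  have hgs : h77_Small r0 (h77_gal p s (a - 1)) := by
    intro d
    show ‖s ((a - 1) d)‖ ≤ r0
    rw [h78_norm_aut]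
    exact hdd d
  have ham : h77_Small r0 (a ^ m - 1) := by
    have h1 : a ^ m - 1 = (a ^ m - 1 - (m : Ω) • (a - 1)) + (m : Ω) • (a - 1) := by ring
    rw [h1]
    apply h77_small_add
    · refine h77_small_mono ?_ hR
      calc r0 ^ 2 = r0 * r0 := sq r0
        _ ≤ r0 * 1 := mul_le_mul_of_nonneg_left hr0lt.le hr0pos.le
        _ = r0 := mul_one _
    · have h2 := h77_small_smul (m : Ω) hdd
      exact h77_small_mono
        (mul_le_of_le_one_left hr0pos.le (IsUltrametricDist.norm_natCast_le_one Ω m)) h2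
  set ρ : ℝ := max ρ1 (max (r0 ^ 2) ((p : ℝ)⁻¹ * r0)) with hρ
  have hρ0 : 0 ≤ ρ := le_max_of_le_left hρ10
  have hsq : r0 ^ 2 < r0 := by
    calc r0 ^ 2 = r0 * r0 := sq r0
      _ < r0 * 1 := mul_lt_mul_of_pos_left hr0lt hr0pos
      _ = r0 := mul_one _
  have hpr : (p : ℝ)⁻¹ * r0 < r0 := by
    have h2 : (p : ℝ)⁻¹ < 1 := inv_lt_one_of_one_lt₀ hpR
    calc (p : ℝ)⁻¹ * r0 < 1 * r0 := mul_lt_mul_of_pos_right h2 hr0pos
      _ = r0 := one_mul _
  have hρlt : ρ < r0 := max_lt hρ1lt (max_lt hsq hpr)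
  have hws : h77_Small ρ (w - 1) := by
    rw [hw1]
    refine h77_small_add (h77_small_add (h77_small_add ?_ ?_) ?_) ?_
    · exact h77_small_mono (le_max_left _ _) hρ1
    · have h2 := h77_small_smul ((n + m : ℕ) : Ω) hdd
      refine h77_small_mono ?_ h2
      have h3 : ‖((n + m : ℕ) : Ω)‖ ≤ (p : ℝ)⁻¹ := by
        rw [hnm, Nat.cast_mul, norm_mul, h62_norm_p]
        exact mul_le_of_le_one_right (by positivity) (IsUltrametricDist.norm_natCast_le_one Ω n)
      exact (mul_le_mul_of_nonneg_right h3 hr0pos.le).trans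
        ((le_max_right _ _).trans (le_max_right _ _))
    · exact h77_small_mono ((le_max_left _ _).trans (le_max_right _ _)) hR
    · have h2 := h77_small_mul hr0pos.le hr0pos.le hgs ham
      rw [← sq] at h2
      exact h77_small_mono ((le_max_left _ _).trans (le_max_right _ _)) h2
  have hρp : (p : ℝ) * ρ ^ (p - 1) < 1 := by
    have h1 : ρ ^ (p - 1) < r0 ^ (p - 1) := pow_lt_pow_left₀ hρlt hρ0 (by omega)
    rw [hr0pow] at h1
    calc (p : ℝ) * ρ ^ (p - 1) < (p : ℝ) * (p : ℝ)⁻¹ :=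
          mul_lt_mul_of_pos_left h1 (by positivity)
      _ = 1 := mul_inv_cancel₀ (by positivity)
  have hw_one : w = 1 := h77_rigid hO p (h62_norm_p p) hρ0 hρp w hwp hws
  have hpt : h77_act p s γ * γ ^ m = 1 := by
    apply h77_lin_injective p
    rw [h77_lin_mul, h77_lin_pow, ← h77_gal_lin, h77_lin_one]
    exact hw_one
  have hγnm : γ ^ n * γ ^ m = 1 := by
    rw [← pow_add, hnm, pow_mul, hkill, one_pow]
  calc h77_act p s γ = h77_act p s γ * (γ ^ n * γ ^ m) := by rw [hγnm, mul_one]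
    _ = γ ^ n * (h77_act p s γ * γ ^ m) := by
        rw [mul_comm (γ ^ n) (γ ^ m), ← mul_assoc, mul_comm]
    _ = γ ^ n := by rw [hpt, mul_one]

/-! ## Galois fixed points -/

theorem h77_K0_finite (L : Fld) [FiniteDimensional ℚ_[p] L] :
    FiniteDimensional ℚ_[p] (h78_K0 p L) :=
  Module.Finite.of_injective (IntermediateField.inclusion (h49_K0_le p L)).toLinearMap
    (IntermediateField.inclusion (h49_K0_le p L)).injective

theorem h77_mem_K0_of_fixed (L : Fld) [FiniteDimensional ℚ_[p] L] (x : Ω)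
    (hx : ∀ s ∈ h78_J p L, s x = x) : x ∈ h78_K0 p L := by
  have := h77_K0_finite p L
  refine h62_mem_of_fixed p (h78_K0 p L) x fun g hg => hx g ?_
  show g ∈ (h78_K0 p L).fixingSubgroup
  rw [IntermediateField.mem_fixingSubgroup_iff]
  exact hg

/-! ## the averaging idempotent of a character, and **[UNIT]** -/

theorem h77_act_inv (s : h78_G p) (γ : WithConv (H →ₐ[h78_Zp p] Ω)) :
    h77_act p s⁻¹ (h77_act p s γ) = γ := by
  apply WithConv.ofConv_injective
  apply AlgHom.ext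
  intro d
  show (s⁻¹ * s) (γ d) = γ d
  rw [inv_mul_cancel]; rfl

theorem h77_gal_idem (s : h78_G p) (x : WithConv (H →ₗ[h78_Zp p] Ω)) :
    h77_gal p s (h77_idem Ω p x) = h77_idem Ω p (h77_gal p s x) := by
  unfold h77_idem
  rw [h77_gal_smul, map_sum, map_inv₀, map_natCast]
  simp only [map_pow]

theorem h77_root_pow_mod (ζ : Ω) (hζp : ζ ^ p = 1) (m : ℕ) : ζ ^ (m % p) = ζ ^ m := by
  conv_rhs => rw [← Nat.mod_add_div m p]
  rw [pow_add, pow_mul, hζp, one_pow, mul_one]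

/-- **[UNIT]**, general form: `Z` a set of points containing `1`, closed under multiplication,
at distance `≤ ‖ζ - 1‖` from the identity and stable under `J_L`; `ψ` a character of `Z` with
values in `μ_p`; `y` ANY point with `σ y ∈ y Z` for all `σ ∈ J_L`.  Then there is a unit `v ∈ L`
with `v ^ p ∈ K₀(L)` and `σ v = ψ (z_σ) v` whenever `σ y = y z_σ`, `σ ∈ J_L`. -/
theorem h77_unit_gen (hkill : ∀ γ : WithConv (H →ₐ[h78_Zp p] Ω), γ ^ p = 1)
    (L : Fld) [FiniteDimensional ℚ_[p] L]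
    (hLpts : ∀ (γ : WithConv (H →ₐ[h78_Zp p] Ω)) (d : H), γ d ∈ L)
    (ζ : Ω) (hζ : IsPrimitiveRoot ζ p) (hζL : ζ ∈ L)
    (Z : Set (WithConv (H →ₐ[h78_Zp p] Ω))) (hZ1 : 1 ∈ Z)
    (hZmul : ∀ z ∈ Z, ∀ z' ∈ Z, z * z' ∈ Z)
    (hZT : ∀ z ∈ Z, ∀ d : H, ‖z d - (1 : WithConv (H →ₐ[h78_Zp p] Ω)) d‖ ≤ ‖ζ - 1‖)
    (hZJ : ∀ s ∈ h78_J p L, ∀ z ∈ Z, h77_act p s z ∈ Z)
    (ψ : WithConv (H →ₐ[h78_Zp p] Ω) → Ω)
    (hψmul : ∀ z ∈ Z, ∀ z' ∈ Z, ψ (z * z') = ψ z * ψ z')
    (hψp : ∀ z ∈ Z, ψ z ^ p = 1)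
    (y : WithConv (H →ₐ[h78_Zp p] Ω))
    (hyJ : ∀ s ∈ h78_J p L, ∃ z ∈ Z, h77_act p s y = y * z) :
    ∃ v ∈ L, ‖v‖ = 1 ∧ v ^ p ∈ h78_K0 p L ∧
      ∀ s ∈ h78_J p L, ∀ z ∈ Z, h77_act p s y = y * z → s v = ψ z * v := by
  classical
  have hp : p.Prime := Fact.out
  have hO := h62_norm_algebraMap_Zp_le_one p
  have hp0 : (p : Ω) ≠ 0 := by
    intro h0
    have h1 := h62_norm_p p
    rw [h0, norm_zero] at h1
    have hpR : (0 : ℝ) < (p : ℝ)⁻¹ := by
      have : (0 : ℝ) < p := by exact_mod_cast hp.pos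
      positivity
    linarith
  have hζp : ζ ^ p = 1 := hζ.pow_eq_one
  have hNZ : NeZero p := ⟨hp.ne_zero⟩
  -- finiteness of the group of points
  have hfin' : Finite (H →ₐ[h78_Zp p] Ω) := h71_finite_algHom
  have hfin : Finite (WithConv (H →ₐ[h78_Zp p] Ω)) :=
    Finite.of_injective (fun γ : WithConv (H →ₐ[h78_Zp p] Ω) => γ.ofConv)
      WithConv.ofConv_injective
  have hft : Fintype (WithConv (H →ₐ[h78_Zp p] Ω)) := Fintype.ofFinite _
  set Zf : Finset (WithConv (H →ₐ[h78_Zp p] Ω)) := Finset.univ.filter (fun γ => γ ∈ Z) with hZf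
  have hmem : ∀ γ, γ ∈ Zf ↔ γ ∈ Z := fun γ => by simp [hZf]
  -- basic facts on `ψ`
  have hψ0 : ∀ z ∈ Z, ψ z ≠ 0 := by
    intro z hz h0
    have h1 := hψp z hz
    rw [h0, zero_pow hp.ne_zero] at h1
    exact zero_ne_one h1
  have hψ1 : ψ 1 = 1 := by
    have h1 := hψmul 1 hZ1 1 hZ1
    rw [mul_one] at h1
    have h2 : ψ 1 * ψ 1 = ψ 1 * 1 := by rw [mul_one]; exact h1.symm
    exact mul_left_cancel₀ (hψ0 1 hZ1) h2
  have hZpow : ∀ z ∈ Z, ∀ n : ℕ, z ^ n ∈ Z := by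
    intro z hz n
    induction n with
    | zero => rw [pow_zero]; exact hZ1
    | succ n ih => rw [pow_succ]; exact hZmul _ ih _ hz
  have hψpow : ∀ z ∈ Z, ∀ n : ℕ, ψ (z ^ n) = ψ z ^ n := by
    intro z hz n
    induction n with
    | zero => rw [pow_zero, pow_zero]; exact hψ1
    | succ n ih => rw [pow_succ, pow_succ, hψmul _ (hZpow z hz n) _ hz, ih]
  -- equivariance of `ψ` under `J`, from [A]
  have hψJ : ∀ s ∈ h78_J p L, ∀ z ∈ Z, ψ (h77_act p s z) = s (ψ z) := by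
    intro s hs z hz
    have hsζp : (s ζ) ^ p = 1 := by rw [← map_pow, hζp, map_one]
    obtain ⟨n, -, hn⟩ := hζ.eq_pow_of_pow_eq_one hsζp
    obtain ⟨i, -, hi⟩ := hζ.eq_pow_of_pow_eq_one (hψp z hz)
    rw [h77_A p hkill L hLpts ζ hζ hζL z (hZT z hz) s hs n hn.symm, hψpow z hz, ← hi, map_pow,
      ← hn, ← pow_mul, ← pow_mul, mul_comm]
  -- the idempotent
  set x : WithConv (H →ₐ[h78_Zp p] Ω) → WithConv (H →ₗ[h78_Zp p] Ω) :=
    fun z => (ψ z)⁻¹ • h77_lin p z with hx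
  have hxp : ∀ z ∈ Zf, x z ^ p = 1 := by
    intro z hz
    have hz' := (hmem z).1 hz
    show ((ψ z)⁻¹ • h77_lin p z) ^ p = 1
    rw [smul_pow, inv_pow, hψp z hz', inv_one, one_smul, ← h77_lin_pow, hkill]
    rfl
  set P : WithConv (H →ₗ[h78_Zp p] Ω) := h77_proj Ω p Zf x with hP
  have hPP : P * P = P := h77_proj_idem Ω hp0 Zf x hxp
  have hPeig : ∀ z ∈ Z, h77_lin p z * P = ψ z • P := by
    intro z hz
    have h1 : x z * P = P := h77_proj_eig Ω Zf x z ((hmem z).2 hz) (hxp z ((hmem z).2 hz))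
    have h2 : h77_lin p z = ψ z • x z := by
      show h77_lin p z = ψ z • ((ψ z)⁻¹ • h77_lin p z)
      rw [smul_smul, mul_inv_cancel₀ (hψ0 z hz), one_smul]
    rw [h2, smul_mul_assoc, h1]
  have hPsmall : h77_Small 1 P :=
    h77_proj_small hO p hp0 hζ Zf (fun z => h77_lin p z) (fun z => (ψ z)⁻¹)
      (fun z hz => fun d => hZT z ((hmem z).1 hz) d)
      (fun z hz => by rw [inv_pow, hψp z ((hmem z).1 hz), inv_one])
  have hPgal : ∀ s : h78_G p, (∀ z ∈ Z, h77_act p s z ∈ Z) → (∀ z ∈ Z, h77_act p s⁻¹ z ∈ Z) →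
      (∀ z ∈ Z, ψ (h77_act p s z) = s (ψ z)) → h77_gal p s P = P := by
    intro s h1 h2 h3
    rw [hP]
    unfold h77_proj
    rw [map_prod]
    refine Finset.prod_nbij' (fun z => h77_act p s z) (fun z => h77_act p s⁻¹ z) ?_ ?_ ?_ ?_ ?_
    · intro z hz; exact (hmem _).2 (h1 z ((hmem z).1 hz))
    · intro z hz; exact (hmem _).2 (h2 z ((hmem z).1 hz))
    · intro z _; exact h77_act_inv p s z
    · intro z _
      have h4 := h77_act_inv p s⁻¹ z
      rwa [inv_inv] at h4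
    · intro z hz
      rw [h77_gal_idem]
      congr 1
      show h77_gal p s ((ψ z)⁻¹ • h77_lin p z)
        = (ψ (h77_act p s z))⁻¹ • h77_lin p (h77_act p s z)
      rw [h77_gal_smul, h77_gal_lin, map_inv₀, h3 z ((hmem z).1 hz)]
  set F : WithConv (H →ₗ[h78_Zp p] Ω) := h77_lin p y * P with hF
  have hFsmall : h77_Small 1 F := by
    have h1 := h77_small_mul zero_le_one zero_le_one (h77_lin_small p y) hPsmall
    rwa [mul_one] at h1
  -- `P ≠ 0`, by independence of characters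
  have hPne : P ≠ 0 := by
    set E : WithConv (H →ₗ[h78_Zp p] Ω) := ∑ w ∈ Zf, (ψ w)⁻¹ • h77_lin p w with hE
    have hEeig : ∀ z ∈ Z, h77_lin p z * E = ψ z • E := by
      intro z hz
      rw [hE, Finset.mul_sum, Finset.smul_sum]
      refine Finset.sum_nbij' (fun w => z * w) (fun w => z ^ (p - 1) * w) ?_ ?_ ?_ ?_ ?_
      · intro w hw; exact (hmem _).2 (hZmul z hz w ((hmem w).1 hw))
      · intro w hw; exact (hmem _).2 (hZmul _ (hZpow z hz _) w ((hmem w).1 hw))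
      · intro w _
        show z ^ (p - 1) * (z * w) = w
        rw [← mul_assoc, ← pow_succ, Nat.sub_add_cancel hp.one_le, hkill, one_mul]
      · intro w _
        show z * (z ^ (p - 1) * w) = w
        rw [← mul_assoc, ← pow_succ', Nat.sub_add_cancel hp.one_le, hkill, one_mul]
      · intro w hw
        have hw' := (hmem w).1 hw
        show h77_lin p z * ((ψ w)⁻¹ • h77_lin p w)
          = ψ z • ((ψ (z * w))⁻¹ • h77_lin p (z * w))
        rw [hψmul z hz w hw', mul_smul_comm, ← h77_lin_mul, smul_smul]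
        congr 1
        have := hψ0 z hz
        have := hψ0 w hw'
        field_simp
    have hxE : ∀ z ∈ Z, x z * E = E := by
      intro z hz
      show ((ψ z)⁻¹ • h77_lin p z) * E = E
      rw [smul_mul_assoc, hEeig z hz, smul_smul, inv_mul_cancel₀ (hψ0 z hz), one_smul]
    have hidE : ∀ z ∈ Z, h77_idem Ω p (x z) * E = E := by
      intro z hz
      unfold h77_idem
      rw [smul_mul_assoc, Finset.sum_mul]
      have h1 : ∀ j : ℕ, x z ^ j * E = E := by
        intro j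
        induction j with
        | zero => rw [pow_zero, one_mul]
        | succ j ih => rw [pow_succ, mul_assoc, hxE z hz, ih]
      rw [Finset.sum_congr rfl fun j _ => h1 j, Finset.sum_const, Finset.card_range,
        ← Nat.cast_smul_eq_nsmul Ω, smul_smul, inv_mul_cancel₀ hp0, one_smul]
    have hPE : P * E = E := by
      have key : ∀ t : Finset (WithConv (H →ₐ[h78_Zp p] Ω)), (∀ z ∈ t, z ∈ Z) →
          (∏ z ∈ t, h77_idem Ω p (x z)) * E = E := by
        intro t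
        induction t using Finset.induction_on with
        | empty => intro _; rw [Finset.prod_empty, one_mul]
        | insert a t ha ih =>
          intro h
          rw [Finset.prod_insert ha, mul_assoc,
            ih (fun z hz => h z (Finset.mem_insert_of_mem hz)),
            hidE a (h a (Finset.mem_insert_self a t))]
      exact key Zf (fun z hz => (hmem z).1 hz)
    have hEne : E ≠ 0 := by
      intro hE0
      have hli := (linearIndependent_toLinearMap (h78_Zp p) H Ω).comp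
        (fun γ : WithConv (H →ₐ[h78_Zp p] Ω) => γ.ofConv) WithConv.ofConv_injective
      have hsum : ∑ w ∈ Zf, (ψ w)⁻¹ • ((AlgHom.toLinearMap ∘
          fun γ : WithConv (H →ₐ[h78_Zp p] Ω) => γ.ofConv) w) = 0 := by
        have h1 := congrArg WithConv.ofConv hE0
        rw [hE] at h1
        simpa [h77_lin] using h1
      have h1 := linearIndependent_iff'.1 hli Zf (fun w => (ψ w)⁻¹) hsum 1 ((hmem 1).2 hZ1)
      exact inv_ne_zero (hψ0 1 hZ1) h1
    intro hP0
    rw [hP0, zero_mul] at hPE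
    exact hEne hPE.symm
  -- a value of norm one
  have hex : ∃ d0 : H, ‖F d0‖ = 1 := by
    by_contra hcon
    have hlt : ∀ d, ‖F d‖ < 1 := fun d => lt_of_le_of_ne (hFsmall d) (fun h => hcon ⟨d, h⟩)
    obtain ⟨ρ, hρ0, hρ1, hρ⟩ := h77_exists_small p F 1 zero_lt_one hlt
    have h1 : P = h77_lin p (y ^ (p - 1)) * F := by
      rw [hF, ← mul_assoc, ← h77_lin_mul, ← pow_succ, Nat.sub_add_cancel hp.one_le, hkill,
        h77_lin_one, one_mul]
    have h2 : h77_Small (1 * ρ) (h77_lin p (y ^ (p - 1)) * F) :=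
      h77_small_mul zero_le_one hρ0 (h77_lin_small p _) hρ
    rw [← h1, one_mul] at h2
    exact hPne (h77_idem_eq_zero_of_small P hPP hρ0 hρ1 h2)
  obtain ⟨d0, hd0⟩ := hex
  -- Galois action on `F`
  have hFJ : ∀ s ∈ h78_J p L, ∀ z ∈ Z, h77_act p s y = y * z → h77_gal p s F = ψ z • F := by
    intro s hs z hz hsy
    have hPs : h77_gal p s P = P :=
      hPgal s (hZJ s hs) (hZJ s⁻¹ (Subgroup.inv_mem _ hs)) (hψJ s hs)
    rw [hF, map_mul, hPs, h77_gal_lin, hsy, h77_lin_mul, mul_assoc, hPeig z hz, mul_smul_comm]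
  have hFL : ∀ g : h78_G p, (∀ t ∈ L, g t = t) → h77_gal p g F = F := by
    intro g hg
    have hact : ∀ γ : WithConv (H →ₐ[h78_Zp p] Ω), h77_act p g γ = γ := by
      intro γ
      apply WithConv.ofConv_injective
      apply AlgHom.ext
      intro d
      exact hg _ (hLpts γ d)
    have hPs : h77_gal p g P = P := by
      refine hPgal g (fun z hz => by rw [hact]; exact hz) (fun z hz => ?_) (fun z hz => ?_)
      · have h1 := h77_act_inv p g z
        rw [hact] at h1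
        rw [h1]; exact hz
      · rw [hact]
        obtain ⟨i, -, hi⟩ := hζ.eq_pow_of_pow_eq_one (hψp z hz)
        rw [← hi]
        exact (hg _ (pow_mem hζL i)).symm
    rw [hF, map_mul, hPs, h77_gal_lin, hact]
  refine ⟨F d0, ?_, hd0, ?_, ?_⟩
  · exact h62_mem_of_fixed p L _ fun g hg =>
      congrArg (fun f : WithConv (H →ₗ[h78_Zp p] Ω) => f d0) (hFL g hg)
  · refine h77_mem_K0_of_fixed p L _ fun s hs => ?_
    obtain ⟨z, hz, hsy⟩ := hyJ s hs
    have h1 : s (F d0) = ψ z * F d0 :=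
      congrArg (fun f : WithConv (H →ₗ[h78_Zp p] Ω) => f d0) (hFJ s hs z hz hsy)
    rw [map_pow, h1, mul_pow, hψp z hz, one_mul]
  · intro s hs z hz hsy
    exact congrArg (fun f : WithConv (H →ₗ[h78_Zp p] Ω) => f d0) (hFJ s hs z hz hsy)

end Fermat.Agent.S56
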