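/-
S56 / W3 E-RED, row RED-S2 **[UNIT]** (`sk_red_unit` of the skeleton `h78_RedSkel`, verbatim):
the inertia cocycle of a point modulo a subgroup `Z ≤ T` of multiplicative type, composed with a
character of `Z`, is the Kummer character of a UNIT `v` with `v ^ p` in the unramified field
`K₀(L)`.  The proof uses the integral averaging idempotent of the character in the convolution
algebra (`h77_RedIdem`, `h77_RedPts`): neither a quotient Hopf algebra nor the ramification bound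
is needed.

* `h77_red_unit` : the skeleton statement, verbatim.
* `h77_unit_fun` : the same for an `Ω`-valued character `chi` of a set `Z` of points, with the
  Galois action spelled out pointwise.
* `h77_unit_U`   : the form with a chosen cocycle `zs : G → points`.
-/
import Fermat.Agent.S56.h77_RedPts
import Fermat.Agent.S56.h78_RedDefs

set_option autoImplicit false
set_option linter.unusedSectionVars false

open Coalgebra WithConv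

namespace Fermat.Agent.S56

variable (p : ℕ) [Fact p.Prime]

local notation "Ω" => PadicAlgCl p
local notation "Fld" => IntermediateField ℚ_[p] (PadicAlgCl p)

variable {H : Type} [CommRing H] [Bialgebra (h78_Zp p) H] [Coalgebra.IsCocomm (h78_Zp p) H]
  [Module.Free (h78_Zp p) H] [Module.Finite (h78_Zp p) H]

theorem h77_act_eq_gal (s : h78_G p) (y : WithConv (H →ₐ[h78_Zp p] Ω)) :
    h77_act p s y = h78_gal p s y := by
  apply WithConv.ofConv_injective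
  apply AlgHom.ext
  intro d
  rfl

theorem h77_act_eq_of_forall (s : h78_G p) (y y' : WithConv (H →ₐ[h78_Zp p] Ω))
    (h : ∀ d : H, y' d = s (y d)) : h77_act p s y = y' := by
  apply WithConv.ofConv_injective
  apply AlgHom.ext
  intro d
  exact (h d).symm

theorem h77_isPrimitiveRoot (ζ : Ω) (hζp : ζ ^ p = 1) (hζ1 : ζ ≠ 1) : IsPrimitiveRoot ζ p := by
  have hp : p.Prime := Fact.out
  have h := IsPrimitiveRoot.orderOf ζ
  rwa [orderOf_eq_prime hζp hζ1] at h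

/-- **[UNIT]**, function form: `Z` a set of points containing `1`, closed under multiplication,
at distance `≤ ‖ζ - 1‖` from the unit section and stable under `J_L`; `chi` a character of `Z`
with values in `μ_p`; `y` ANY point with `σ y ∈ y Z` for all `σ ∈ J_L`. -/
theorem h77_unit_fun (hkill : ∀ γ : WithConv (H →ₐ[h78_Zp p] Ω), γ ^ p = 1)
    (L : Fld) [FiniteDimensional ℚ_[p] L]
    (hLpts : ∀ (γ : H →ₐ[h78_Zp p] Ω) (h : H), γ h ∈ L)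
    (ζ : Ω) (hζL : ζ ∈ L) (hζp : ζ ^ p = 1) (hζ1 : ζ ≠ 1)
    (Z : Set (WithConv (H →ₐ[h78_Zp p] Ω))) (hZ1 : 1 ∈ Z)
    (hZmul : ∀ z ∈ Z, ∀ z' ∈ Z, z * z' ∈ Z)
    (hZT : ∀ z ∈ Z, ∀ h : H,
      ‖z h - algebraMap (h78_Zp p) Ω (Coalgebra.counit h)‖ ≤ ‖ζ - 1‖)
    (hZJ : ∀ s ∈ h78_J p L, ∀ z ∈ Z, ∀ z' : WithConv (H →ₐ[h78_Zp p] Ω),
      (∀ h : H, z' h = s (z h)) → z' ∈ Z)
    (chi : WithConv (H →ₐ[h78_Zp p] Ω) → Ω)
    (hchimul : ∀ z ∈ Z, ∀ z' ∈ Z, chi (z * z') = chi z * chi z')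
    (hchip : ∀ z ∈ Z, chi z ^ p = 1)
    (y : WithConv (H →ₐ[h78_Zp p] Ω))
    (hyJ : ∀ s ∈ h78_J p L, ∃ z ∈ Z, ∀ h : H, s (y h) = (y * z) h) :
    ∃ v ∈ L, ‖v‖ = 1 ∧ v ^ p ∈ h78_K0 p L ∧
      ∀ s ∈ h78_J p L, ∀ z ∈ Z, (∀ h : H, s (y h) = (y * z) h) → s v = chi z * v := by
  have hζ := h77_isPrimitiveRoot p ζ hζp hζ1
  obtain ⟨v, hvL, hv1, hvK, hv⟩ := h77_unit_gen p hkill L (fun γ d => hLpts γ.ofConv d) ζ hζ hζL
    Z hZ1 hZmul (fun z hz d => hZT z hz d)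
    (fun s hs z hz => hZJ s hs z hz (h77_act p s z) (fun _ => rfl))
    chi hchimul hchip y
    (fun s hs => by
      obtain ⟨z, hz, h⟩ := hyJ s hs
      exact ⟨z, hz, h77_act_eq_of_forall p s y (y * z) (fun d => (h d).symm)⟩)
  exact ⟨v, hvL, hv1, hvK, fun s hs z hz h =>
    hv s hs z hz (h77_act_eq_of_forall p s y (y * z) (fun d => (h d).symm))⟩

/-- **[UNIT]**, cocycle form. -/
theorem h77_unit_U (hkill : ∀ γ : WithConv (H →ₐ[h78_Zp p] Ω), γ ^ p = 1)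
    (L : Fld) [FiniteDimensional ℚ_[p] L]
    (hLpts : ∀ (γ : H →ₐ[h78_Zp p] Ω) (h : H), γ h ∈ L)
    (ζ : Ω) (hζL : ζ ∈ L) (hζp : ζ ^ p = 1) (hζ1 : ζ ≠ 1)
    (Z : Set (WithConv (H →ₐ[h78_Zp p] Ω))) (hZ1 : 1 ∈ Z)
    (hZmul : ∀ z ∈ Z, ∀ z' ∈ Z, z * z' ∈ Z)
    (hZT : ∀ z ∈ Z, ∀ h : H,
      ‖z h - algebraMap (h78_Zp p) Ω (Coalgebra.counit h)‖ ≤ ‖ζ - 1‖)
    (hZJ : ∀ s ∈ h78_J p L, ∀ z ∈ Z, ∀ z' : WithConv (H →ₐ[h78_Zp p] Ω),
      (∀ h : H, z' h = s (z h)) → z' ∈ Z)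
    (chi : WithConv (H →ₐ[h78_Zp p] Ω) → Ω)
    (hchimul : ∀ z ∈ Z, ∀ z' ∈ Z, chi (z * z') = chi z * chi z')
    (hchip : ∀ z ∈ Z, chi z ^ p = 1)
    (y : WithConv (H →ₐ[h78_Zp p] Ω)) (zs : h78_G p → WithConv (H →ₐ[h78_Zp p] Ω))
    (hzs : ∀ s ∈ h78_J p L, zs s ∈ Z ∧ ∀ h : H, s (y h) = (y * zs s) h) :
    ∃ v ∈ L, ‖v‖ = 1 ∧ v ^ p ∈ h78_K0 p L ∧ ∀ s ∈ h78_J p L, s v = chi (zs s) * v := by
  obtain ⟨v, hvL, hv1, hvK, hv⟩ := h77_unit_fun p hkill L hLpts ζ hζL hζp hζ1 Z hZ1 hZmul hZT hZJ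
    chi hchimul hchip y (fun s hs => ⟨zs s, (hzs s hs).1, (hzs s hs).2⟩)
  exact ⟨v, hvL, hv1, hvK, fun s hs => hv s hs (zs s) (hzs s hs).1 (hzs s hs).2⟩

/-- **[UNIT]** (RED-S2, `sk_red_unit` verbatim): the inertia cocycle of a point modulo `Z ≤ T`,
composed with a character of `Z`, is the Kummer character of a unit of the unramified field
`K₀(L)`. -/
theorem h77_red_unit (hp2 : p ≠ 2) (hkill : ∀ γ : WithConv (H →ₐ[h78_Zp p] Ω), γ ^ p = 1)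
    (L : Fld) [FiniteDimensional ℚ_[p] L] (hL : h78_Stable p L)
    (hLpts : ∀ (γ : H →ₐ[h78_Zp p] Ω) (h : H), γ h ∈ L)
    (ζ : Ω) (hζL : ζ ∈ L) (hζp : ζ ^ p = 1) (hζ1 : ζ ≠ 1)
    (Z : Submonoid (WithConv (H →ₐ[h78_Zp p] Ω))) (hZT : ∀ z ∈ Z, z ∈ h78_T p H)
    (hZJ : ∀ s ∈ h78_J p L, ∀ z ∈ Z, h78_gal p s z ∈ Z)
    (χ : WithConv (H →ₐ[h78_Zp p] Ω) → ZMod p)
    (hχ : ∀ z ∈ Z, ∀ z' ∈ Z, χ (z * z') = χ z + χ z')
    (y : WithConv (H →ₐ[h78_Zp p] Ω))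
    (hyJ : ∀ s ∈ h78_J p L, ∃ z ∈ Z, h78_gal p s y = y * z) :
    ∃ v ∈ L, ‖v‖ = 1 ∧ v ^ p ∈ h78_K0 p L ∧
      ∀ s ∈ h78_J p L, ∀ z ∈ Z, h78_gal p s y = y * z → s v = ζ ^ (χ z).val * v := by
  have hp : p.Prime := Fact.out
  have hζ := h77_isPrimitiveRoot p ζ hζp hζ1
  have hr0 : ‖ζ - 1‖ ^ (p - 1) = (p : ℝ)⁻¹ := by rw [h77_norm_sub_one_pow p hζ, h62_norm_p]
  have hp1 : p - 1 ≠ 0 := by have := hp.two_le; omega
  have hT : ∀ z ∈ (Z : Set (WithConv (H →ₐ[h78_Zp p] Ω))), ∀ d : H,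
      ‖z d - (1 : WithConv (H →ₐ[h78_Zp p] Ω)) d‖ ≤ ‖ζ - 1‖ := by
    intro z hz d
    have h1 : ‖z d - (1 : WithConv (H →ₐ[h78_Zp p] Ω)) d‖ ^ (p - 1) ≤ (p : ℝ)⁻¹ := hZT z hz d
    rw [← hr0] at h1
    exact le_of_pow_le_pow_left₀ hp1 (norm_nonneg _) h1
  have hψmul : ∀ z ∈ (Z : Set (WithConv (H →ₐ[h78_Zp p] Ω))),
      ∀ z' ∈ (Z : Set (WithConv (H →ₐ[h78_Zp p] Ω))),
      ζ ^ (χ (z * z')).val = ζ ^ (χ z).val * ζ ^ (χ z').val := by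
    intro z hz z' hz'
    rw [hχ z hz z' hz', ZMod.val_add, h77_root_pow_mod p ζ hζp, pow_add]
  have hψp : ∀ z ∈ (Z : Set (WithConv (H →ₐ[h78_Zp p] Ω))), (ζ ^ (χ z).val) ^ p = 1 := by
    intro z _
    rw [← pow_mul, mul_comm, pow_mul, hζp, one_pow]
  obtain ⟨v, hvL, hv1, hvK, hv⟩ := h77_unit_gen p hkill L (fun γ d => hLpts γ.ofConv d) ζ hζ hζL
    (Z : Set (WithConv (H →ₐ[h78_Zp p] Ω))) Z.one_mem (fun z hz z' hz' => Z.mul_mem hz hz') hT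
    (fun s hs z hz => by rw [h77_act_eq_gal]; exact hZJ s hs z hz)
    (fun z => ζ ^ (χ z).val) hψmul hψp y
    (fun s hs => by
      obtain ⟨z, hz, h⟩ := hyJ s hs
      exact ⟨z, hz, by rw [h77_act_eq_gal]; exact h⟩)
  exact ⟨v, hvL, hv1, hvK, fun s hs z hz h => hv s hs z hz (by rw [h77_act_eq_gal]; exact h)⟩

end Fermat.Agent.S56
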