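import Mathlib

set_option autoImplicit false

/-!
# S56 / W3 E-RED, row RED-S6 : the abstract final count (Mathlib only)

`rb` upper triangular, `rb = [[χ₁, b], [0, χ₂]]`.  If every class of `W` has an upper triangular
representative with diagonal trivial on `J` (SHAPE), `Γ = ⟨φ⟩ J`, and the upper right entries of
the normalised classes together with `b` are pairwise dependent modulo coboundaries (COUNT), then
`finrank W ≤ finrank H⁰(ad⁰ rb) + 1`.
-/

namespace Fermat.Agent.S56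

open Matrix

section

variable {Γ : Type*} [Group Γ] {k : Type*} [Field k]

/-- the cocycle `a` normalised by the coboundary of `X`. -/
def h30_nz (rb : Γ →* Matrix (Fin 2) (Fin 2) k) (a : Γ → Matrix (Fin 2) (Fin 2) k)
    (X : Matrix (Fin 2) (Fin 2) k) (s : Γ) : Matrix (Fin 2) (Fin 2) k :=
  a s - (X * rb s - rb s * X)

theorem h30_nz_add (rb : Γ →* Matrix (Fin 2) (Fin 2) k) (a c : Γ → Matrix (Fin 2) (Fin 2) k)
    (X Y : Matrix (Fin 2) (Fin 2) k) (s : Γ) :
    h30_nz rb (a + c) (X + Y) s = h30_nz rb a X s + h30_nz rb c Y s := by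
  simp only [h30_nz, Pi.add_apply, Matrix.add_mul, Matrix.mul_add]; abel

theorem h30_nz_smul (rb : Γ →* Matrix (Fin 2) (Fin 2) k) (a : Γ → Matrix (Fin 2) (Fin 2) k)
    (X : Matrix (Fin 2) (Fin 2) k) (r : k) (s : Γ) :
    h30_nz rb (r • a) (r • X) s = r • h30_nz rb a X s := by
  simp only [h30_nz, Pi.smul_apply, Matrix.smul_mul, Matrix.mul_smul, smul_sub]

theorem h30_nz_coc (rb : Γ →* Matrix (Fin 2) (Fin 2) k) (a : Γ → Matrix (Fin 2) (Fin 2) k)
    (hcoc : ∀ s t, a (s * t) = a s * rb t + rb s * a t) (X : Matrix (Fin 2) (Fin 2) k) (s t : Γ) :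
    h30_nz rb a X (s * t) = h30_nz rb a X s * rb t + rb s * h30_nz rb a X t := by
  simp only [h30_nz, hcoc, map_mul, Matrix.sub_mul, Matrix.mul_sub, Matrix.mul_assoc]; abel

theorem h30_mul_apply2 (A B : Matrix (Fin 2) (Fin 2) k) (i j : Fin 2) :
    (A * B) i j = A i 0 * B 0 j + A i 1 * B 1 j := by
  rw [Matrix.mul_apply, Fin.sum_univ_two]

/-- the lower right entry of an upper triangular normalisation is a twisted homomorphism. -/
theorem h30_nz_coc11 (rb : Γ →* Matrix (Fin 2) (Fin 2) k) (hU : ∀ g, rb g 1 0 = 0)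
    (a : Γ → Matrix (Fin 2) (Fin 2) k) (hcoc : ∀ s t, a (s * t) = a s * rb t + rb s * a t)
    (X : Matrix (Fin 2) (Fin 2) k) (s t : Γ) (h10 : h30_nz rb a X s 1 0 = 0) :
    h30_nz rb a X (s * t) 1 1 = h30_nz rb a X s 1 1 * rb t 1 1 + rb s 1 1 * h30_nz rb a X t 1 1 := by
  rw [h30_nz_coc rb a hcoc, Matrix.add_apply, h30_mul_apply2, h30_mul_apply2, h10, hU s]
  ring

/-- if the coboundary of `D` is upper triangular then so is `D` (as `χ₁ ≠ χ₂`), and then its
diagonal vanishes. -/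
theorem h30_bd_upper (rb : Γ →* Matrix (Fin 2) (Fin 2) k) (hU : ∀ g, rb g 1 0 = 0)
    (s₁ : Γ) (hs₁ : rb s₁ 0 0 ≠ rb s₁ 1 1) (D : Matrix (Fin 2) (Fin 2) k)
    (h : ∀ s, (D * rb s - rb s * D) 1 0 = 0) (s : Γ) : (D * rb s - rb s * D) 1 1 = 0 := by
  have hD : D 1 0 = 0 := by
    have h1 := h s₁
    rw [Matrix.sub_apply, h30_mul_apply2, h30_mul_apply2, hU s₁] at h1
    have h2 : D 1 0 * (rb s₁ 0 0 - rb s₁ 1 1) = 0 := by linear_combination h1
    exact (mul_eq_zero.mp h2).resolve_right (sub_ne_zero.mpr hs₁)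
  rw [Matrix.sub_apply, h30_mul_apply2, h30_mul_apply2, hU s, hD]
  ring

/-- the lower right entry of an upper triangular normalisation does not depend on the
normalisation. -/
theorem h30_nz_indep (rb : Γ →* Matrix (Fin 2) (Fin 2) k) (hU : ∀ g, rb g 1 0 = 0)
    (s₁ : Γ) (hs₁ : rb s₁ 0 0 ≠ rb s₁ 1 1) (a : Γ → Matrix (Fin 2) (Fin 2) k)
    (X Y : Matrix (Fin 2) (Fin 2) k) (hX : ∀ s, h30_nz rb a X s 1 0 = 0)
    (hY : ∀ s, h30_nz rb a Y s 1 0 = 0) (s : Γ) : h30_nz rb a X s 1 1 = h30_nz rb a Y s 1 1 := by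
  have hD : ∀ t, ((Y - X) * rb t - rb t * (Y - X)) 1 0 = 0 := by
    intro t
    have e : (Y - X) * rb t - rb t * (Y - X) = h30_nz rb a X t - h30_nz rb a Y t := by
      simp only [h30_nz, Matrix.sub_mul, Matrix.mul_sub]; abel
    rw [e, Matrix.sub_apply, hX t, hY t, sub_zero]
  have h1 := h30_bd_upper rb hU s₁ hs₁ (Y - X) hD s
  have e : (Y - X) * rb s - rb s * (Y - X) = h30_nz rb a X s - h30_nz rb a Y s := by
    simp only [h30_nz, Matrix.sub_mul, Matrix.mul_sub]; abel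
  rw [e, Matrix.sub_apply] at h1
  exact sub_eq_zero.mp h1

/-- a twisted homomorphism vanishing on `J` and at `φ` vanishes, when `Γ = ⟨φ⟩ J`. -/
theorem h30_nz_vanish (rb : Γ →* Matrix (Fin 2) (Fin 2) k) (hU : ∀ g, rb g 1 0 = 0)
    (J : Subgroup Γ) (φ : Γ) (hgen : ∀ g, ∃ j : ℕ, g * (φ ^ j)⁻¹ ∈ J)
    (a : Γ → Matrix (Fin 2) (Fin 2) k) (hcoc : ∀ s t, a (s * t) = a s * rb t + rb s * a t)
    (X : Matrix (Fin 2) (Fin 2) k) (h10 : ∀ s, h30_nz rb a X s 1 0 = 0)
    (hJ : ∀ s ∈ J, h30_nz rb a X s 1 1 = 0) (hφ : h30_nz rb a X φ 1 1 = 0) (s : Γ) :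
    h30_nz rb a X s 1 1 = 0 := by
  have hpow : ∀ j : ℕ, h30_nz rb a X (φ ^ j) 1 1 = 0 := by
    intro j
    induction j with
    | zero => rw [pow_zero]; exact hJ 1 J.one_mem
    | succ j ih =>
      rw [pow_succ, h30_nz_coc11 rb hU a hcoc X _ _ (h10 _), ih, hφ, zero_mul, mul_zero, add_zero]
  obtain ⟨j, hj⟩ := hgen s
  have e : s = (s * (φ ^ j)⁻¹) * φ ^ j := by group
  rw [e, h30_nz_coc11 rb hU a hcoc X _ _ (h10 _), hJ _ hj, hpow j, zero_mul, mul_zero, add_zero]

/-- the core computation: a normalised class whose only nonzero entry is a combination of `b`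
and `χ₁ - χ₂` is a coboundary. -/
theorem h30_red_core (rb : Γ →* Matrix (Fin 2) (Fin 2) k) (hU : ∀ g, rb g 1 0 = 0)
    (a : Γ → Matrix (Fin 2) (Fin 2) k) (htr : ∀ s, (a s * rb s⁻¹).trace = 0)
    (X : Matrix (Fin 2) (Fin 2) k) (h10 : ∀ s, h30_nz rb a X s 1 0 = 0)
    (h11 : ∀ s, h30_nz rb a X s 1 1 = 0) (x y z : k) (hx : x ≠ 0)
    (hβ : ∀ s, x * h30_nz rb a X s 0 1 = y * rb s 0 1 + z * (rb s 0 0 - rb s 1 1)) :
    ∃ Y : Matrix (Fin 2) (Fin 2) k, ∀ s, a s = Y * rb s - rb s * Y := by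
  have h00 : ∀ s, h30_nz rb a X s 0 0 = 0 := by
    intro s
    have hinv : rb s * rb s⁻¹ = 1 := by rw [← map_mul, mul_inv_cancel, map_one]
    have ht : (h30_nz rb a X s * rb s⁻¹).trace = 0 := by
      have e : h30_nz rb a X s * rb s⁻¹ = a s * rb s⁻¹ - (X - rb s * X * rb s⁻¹) := by
        simp only [h30_nz, Matrix.sub_mul, Matrix.mul_assoc, hinv, Matrix.mul_one]
      rw [e, Matrix.trace_sub, htr s, Matrix.trace_sub, Matrix.trace_mul_comm, ← Matrix.mul_assoc,
        (by rw [← map_mul, inv_mul_cancel, map_one] : rb s⁻¹ * rb s = 1), Matrix.one_mul]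
      ring
    rw [Matrix.trace_fin_two, h30_mul_apply2, h30_mul_apply2, h10 s, h11 s, hU s⁻¹] at ht
    have h1 : rb s 0 0 * rb s⁻¹ 0 0 = 1 := by
      have := congrFun (congrFun hinv 0) 0
      rw [h30_mul_apply2, hU s⁻¹] at this
      simpa using this
    have h2 : rb s⁻¹ 0 0 ≠ 0 := right_ne_zero_of_mul_eq_one h1
    have h3 : h30_nz rb a X s 0 0 * rb s⁻¹ 0 0 = 0 := by linear_combination ht
    exact (mul_eq_zero.mp h3).resolve_right h2
  obtain ⟨Y', hY00, hY01, hY10, hY11⟩ : ∃ Y' : Matrix (Fin 2) (Fin 2) k,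
      Y' 0 0 = y / x ∧ Y' 0 1 = -(z / x) ∧ Y' 1 0 = 0 ∧ Y' 1 1 = 0 :=
    ⟨!![y / x, -(z / x); 0, 0], rfl, rfl, rfl, rfl⟩
  refine ⟨X + Y', fun s => ?_⟩
  have key : h30_nz rb a X s = Y' * rb s - rb s * Y' := by
    ext i j
    fin_cases i <;> fin_cases j
    · show h30_nz rb a X s 0 0 = (Y' * rb s - rb s * Y') 0 0
      rw [Matrix.sub_apply, h30_mul_apply2, h30_mul_apply2, h00 s, hU s, hY10]; ring
    · show h30_nz rb a X s 0 1 = (Y' * rb s - rb s * Y') 0 1
      rw [Matrix.sub_apply, h30_mul_apply2, h30_mul_apply2, hY00, hY01, hY11]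
      have := hβ s
      field_simp
      linear_combination this
    · show h30_nz rb a X s 1 0 = (Y' * rb s - rb s * Y') 1 0
      rw [Matrix.sub_apply, h30_mul_apply2, h30_mul_apply2, h10 s, hU s, hY10, hY11]; ring
    · show h30_nz rb a X s 1 1 = (Y' * rb s - rb s * Y') 1 1
      rw [Matrix.sub_apply, h30_mul_apply2, h30_mul_apply2, h11 s, hU s, hY10, hY11]; ring
  have e : a s = h30_nz rb a X s + (X * rb s - rb s * X) := by simp only [h30_nz]; abel
  rw [e, key, Matrix.add_mul, Matrix.mul_add]; abel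

/-- pairwise dependent vectors span at most a line. -/
theorem h30_finrank_le_one_of_dep {V : Type*} [AddCommGroup V] [Module k V]
    (h : ∀ v w : V, ∃ x y : k, (x ≠ 0 ∨ y ≠ 0) ∧ x • v + y • w = 0) : Module.finrank k V ≤ 1 := by
  by_cases h0 : ∀ v : V, v = 0
  · have : Subsingleton V := ⟨fun a b => by rw [h0 a, h0 b]⟩
    rw [Module.finrank_zero_of_subsingleton]; exact Nat.zero_le _
  · push Not at h0
    obtain ⟨v, hv⟩ := h0
    refine finrank_le_one v (fun w => ?_)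
    obtain ⟨x, y, hxy, e⟩ := h v w
    have hy : y ≠ 0 := by
      rintro rfl
      rw [zero_smul, add_zero] at e
      rcases hxy with hx | hy
      · exact hv ((smul_eq_zero.mp e).resolve_left hx)
      · exact hy rfl
    refine ⟨-(x / y), ?_⟩
    have e' : y • w = -(x • v) := eq_neg_of_add_eq_zero_right e
    calc (-(x / y)) • v = y⁻¹ • (-(x • v)) := by
          rw [neg_smul, smul_neg, div_eq_inv_mul, mul_smul]
      _ = y⁻¹ • (y • w) := by rw [e']
      _ = w := by rw [smul_smul, inv_mul_cancel₀ hy, one_smul]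

/-- **RED-S6, abstract form.**  The final count of E-RED. -/
theorem h30_red_asm (rb : Γ →* Matrix (Fin 2) (Fin 2) k) (hU : ∀ g, rb g 1 0 = 0)
    (hne : ∃ s, rb s 0 0 ≠ rb s 1 1)
    (J : Subgroup Γ) (φ : Γ) (hgen : ∀ g, ∃ j : ℕ, g * (φ ^ j)⁻¹ ∈ J)
    (W : Submodule k (Γ → Matrix (Fin 2) (Fin 2) k))
    (hcoc : ∀ a ∈ W, ∀ s t, a (s * t) = a s * rb t + rb s * a t)
    (htr : ∀ a ∈ W, ∀ s, (a s * rb s⁻¹).trace = 0)
    (hcob : ∀ a ∈ W, (∃ X : Matrix (Fin 2) (Fin 2) k, ∀ s, a s = X * rb s - rb s * X) → a = 0)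
    (hshape : ∀ a ∈ W, ∃ X : Matrix (Fin 2) (Fin 2) k,
      (∀ s, (a s - (X * rb s - rb s * X)) 1 0 = 0) ∧
        ∀ s ∈ J, (a s - (X * rb s - rb s * X)) 1 1 = 0)
    (Fl : Set (Γ → k))
    (hFlW : ∀ a ∈ W, a ≠ 0 → ∀ X : Matrix (Fin 2) (Fin 2) k,
      (∀ s, (a s - (X * rb s - rb s * X)) 1 0 = 0) →
      (∀ s, (a s - (X * rb s - rb s * X)) 1 1 = 0) →
        (fun s => (a s - (X * rb s - rb s * X)) 0 1) ∈ Fl)
    (hFlb : W ≠ ⊥ → (fun s => rb s 0 1) ∈ Fl)
    (hFl : ∀ β₁ ∈ Fl, ∀ β₂ ∈ Fl, ∃ x y z : k, (x ≠ 0 ∨ y ≠ 0) ∧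
      ∀ s, x * β₁ s + y * β₂ s = z * (rb s 0 0 - rb s 1 1))
    (H0 : Submodule k (Matrix (Fin 2) (Fin 2) k))
    (hH0 : ∀ X, X ∈ H0 ↔ X.trace = 0 ∧ ∀ s, X * rb s = rb s * X) :
    Module.finrank k W ≤ Module.finrank k H0 + 1 := by
  classical
  by_cases hfin : Module.Finite k W
  swap
  · rw [Module.finrank_of_not_finite hfin]; exact Nat.zero_le _
  obtain ⟨s₁, hs₁⟩ := hne
  -- choice of the normalisations
  have hshape' : ∀ a : W, ∃ X : Matrix (Fin 2) (Fin 2) k,
      (∀ s, h30_nz rb a.1 X s 1 0 = 0) ∧ ∀ s ∈ J, h30_nz rb a.1 X s 1 1 = 0 :=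
    fun a => hshape a.1 a.2
  choose Xc hXc10 hXcJ using hshape'
  -- the value at `φ` of the diagonal
  let Φ : W →ₗ[k] k :=
    { toFun := fun a => h30_nz rb a.1 (Xc a) φ 1 1
      map_add' := by
        intro a c
        have h10 : ∀ s, h30_nz rb (a + c : W).1 (Xc a + Xc c) s 1 0 = 0 := by
          intro s
          have := h30_nz_add rb a.1 c.1 (Xc a) (Xc c) s
          rw [Submodule.coe_add, this, Matrix.add_apply, hXc10 a s, hXc10 c s, add_zero]
        rw [h30_nz_indep rb hU s₁ hs₁ (a + c : W).1 (Xc (a + c)) (Xc a + Xc c) (hXc10 (a + c)) h10 φ,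
          Submodule.coe_add, h30_nz_add, Matrix.add_apply]
      map_smul' := by
        intro r a
        have h10 : ∀ s, h30_nz rb (r • a : W).1 (r • Xc a) s 1 0 = 0 := by
          intro s
          have := h30_nz_smul rb a.1 (Xc a) r s
          rw [Submodule.coe_smul, this, Matrix.smul_apply, hXc10 a s, smul_zero]
        rw [h30_nz_indep rb hU s₁ hs₁ (r • a : W).1 (Xc (r • a)) (r • Xc a) (hXc10 (r • a)) h10 φ,
          Submodule.coe_smul, h30_nz_smul, Matrix.smul_apply]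
        rfl }
  have hΦ : ∀ a : W, Φ a = h30_nz rb a.1 (Xc a) φ 1 1 := fun a => rfl
  have hker : ∀ a : W, Φ a = 0 → ∀ s, h30_nz rb a.1 (Xc a) s 1 1 = 0 := fun a ha =>
    h30_nz_vanish rb hU J φ hgen a.1 (hcoc a.1 a.2) (Xc a) (hXc10 a) (hXcJ a) ((hΦ a).symm.trans ha)
  have h1 : Module.finrank k W ≤ Module.finrank k (LinearMap.ker Φ) + 1 := by
    have h2 := LinearMap.finrank_range_add_finrank_ker Φ
    have h3 : Module.finrank k (LinearMap.range Φ) ≤ 1 := by
      have := Submodule.finrank_le (LinearMap.range Φ)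
      rwa [Module.finrank_self] at this
    omega
  -- a normalised class in `ker Φ` whose upper right entry is in `k b + k (χ₁ - χ₂)` vanishes
  have hcore : ∀ a : W, Φ a = 0 → ∀ x y z : k, x ≠ 0 →
      (∀ s, x * h30_nz rb a.1 (Xc a) s 0 1 = y * rb s 0 1 + z * (rb s 0 0 - rb s 1 1)) → a = 0 := by
    intro a ha x y z hx hβ
    exact Subtype.ext (hcob a.1 a.2 (h30_red_core rb hU a.1 (htr a.1 a.2) (Xc a) (hXc10 a)
      (hker a ha) x y z hx hβ))
  have hmemFl : ∀ a : W, Φ a = 0 → a ≠ 0 → (fun s => h30_nz rb a.1 (Xc a) s 0 1) ∈ Fl :=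
    fun a ha ha0 => hFlW a.1 a.2 (fun h => ha0 (Subtype.ext h)) (Xc a) (hXc10 a) (hker a ha)
  by_cases hsplit : ∃ z0 : k, ∀ s, rb s 0 1 = z0 * (rb s 0 0 - rb s 1 1)
  · -- split case
    obtain ⟨z0, hz0⟩ := hsplit
    have hH : 1 ≤ Module.finrank k H0 := by
      obtain ⟨X0, h00, h01, h10, h11⟩ : ∃ X0 : Matrix (Fin 2) (Fin 2) k,
          X0 0 0 = 1 ∧ X0 0 1 = 2 * z0 ∧ X0 1 0 = 0 ∧ X0 1 1 = -1 :=
        ⟨!![1, 2 * z0; 0, -1], rfl, rfl, rfl, rfl⟩
      have hmem : X0 ∈ H0 := by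
        rw [hH0]
        refine ⟨by rw [Matrix.trace_fin_two, h00, h11]; ring, fun s => ?_⟩
        ext i j
        fin_cases i <;> fin_cases j
        · show (X0 * rb s) 0 0 = (rb s * X0) 0 0
          rw [h30_mul_apply2, h30_mul_apply2, h00, h10, hU s]; ring
        · show (X0 * rb s) 0 1 = (rb s * X0) 0 1
          rw [h30_mul_apply2, h30_mul_apply2, h00, h01, h11, hz0 s]; ring
        · show (X0 * rb s) 1 0 = (rb s * X0) 1 0
          rw [h30_mul_apply2, h30_mul_apply2, h00, h10, h11, hU s]; ring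
        · show (X0 * rb s) 1 1 = (rb s * X0) 1 1
          rw [h30_mul_apply2, h30_mul_apply2, h01, h10, h11, hU s]; ring
      have hne0 : (⟨X0, hmem⟩ : H0) ≠ 0 := by
        intro h
        have h' : X0 = 0 := congrArg Subtype.val h
        have : X0 0 0 = 0 := by rw [h']; rfl
        rw [h00] at this
        exact one_ne_zero this
      exact Module.finrank_pos_iff_exists_ne_zero.mpr ⟨_, hne0⟩
    have hk : Module.finrank k (LinearMap.ker Φ) ≤ 1 := by
      refine h30_finrank_le_one_of_dep (V := ↥(LinearMap.ker Φ)) (fun v w => ?_)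
      by_cases hv : v = 0
      · exact ⟨1, 0, Or.inl one_ne_zero, by rw [hv]; simp⟩
      by_cases hw : w = 0
      · exact ⟨0, 1, Or.inr one_ne_zero, by rw [hw]; simp⟩
      have hv' : Φ v.1 = 0 := LinearMap.mem_ker.mp v.2
      have hw' : Φ w.1 = 0 := LinearMap.mem_ker.mp w.2
      have hv0 : v.1 ≠ 0 := fun h => hv (Subtype.ext h)
      have hw0 : w.1 ≠ 0 := fun h => hw (Subtype.ext h)
      obtain ⟨x, y, z, hxy, e⟩ := hFl _ (hmemFl v.1 hv' hv0) _ (hmemFl w.1 hw' hw0)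
      refine ⟨x, y, hxy, ?_⟩
      -- the combination `x v + y w`, normalised by `x X_v + y X_w`
      set c : W := x • v.1 + y • w.1 with hc
      set Y : Matrix (Fin 2) (Fin 2) k := x • Xc v.1 + y • Xc w.1 with hY
      have hnz : ∀ s, h30_nz rb c.1 Y s =
          x • h30_nz rb v.1.1 (Xc v.1) s + y • h30_nz rb w.1.1 (Xc w.1) s := by
        intro s
        rw [hc, hY, Submodule.coe_add, Submodule.coe_smul, Submodule.coe_smul, h30_nz_add,
          h30_nz_smul, h30_nz_smul]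
      have h10 : ∀ s, h30_nz rb c.1 Y s 1 0 = 0 := by
        intro s
        rw [hnz, Matrix.add_apply, Matrix.smul_apply, Matrix.smul_apply, hXc10 v.1 s,
          hXc10 w.1 s, smul_zero, smul_zero, add_zero]
      have h11 : ∀ s, h30_nz rb c.1 Y s 1 1 = 0 := by
        intro s
        rw [hnz, Matrix.add_apply, Matrix.smul_apply, Matrix.smul_apply, hker v.1 hv' s,
          hker w.1 hw' s, smul_zero, smul_zero, add_zero]
      have hβ : ∀ s, (1 : k) * h30_nz rb c.1 Y s 0 1 =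
          0 * rb s 0 1 + z * (rb s 0 0 - rb s 1 1) := by
        intro s
        rw [hnz, Matrix.add_apply, Matrix.smul_apply, Matrix.smul_apply, smul_eq_mul,
          smul_eq_mul, one_mul, zero_mul, zero_add]
        exact e s
      have hc0 : c = 0 := Subtype.ext (hcob c.1 c.2
        (h30_red_core rb hU c.1 (htr c.1 c.2) Y h10 h11 1 0 z one_ne_zero hβ))
      apply Subtype.ext
      rw [Submodule.coe_add, Submodule.coe_smul, Submodule.coe_smul, ← hc, hc0]
      rfl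
    omega
  · -- nonsplit case
    have hk : Module.finrank k (LinearMap.ker Φ) = 0 := by
      have : Subsingleton (LinearMap.ker Φ) := by
        refine ⟨fun v w => ?_⟩
        have key : ∀ u : LinearMap.ker Φ, u = 0 := by
          intro u
          by_contra hu
          have hu' : Φ u.1 = 0 := LinearMap.mem_ker.mp u.2
          have hu0 : u.1 ≠ 0 := fun h => hu (Subtype.ext h)
          have hWne : W ≠ ⊥ := by
            intro hW
            apply hu0
            have : (u.1 : Γ → Matrix (Fin 2) (Fin 2) k) ∈ (⊥ : Submodule k _) := hW ▸ u.1.2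
            exact Subtype.ext ((Submodule.mem_bot k).mp this)
          obtain ⟨x, y, z, hxy, e⟩ := hFl _ (hmemFl u.1 hu' hu0) _ (hFlb hWne)
          by_cases hx : x = 0
          · have hy : y ≠ 0 := hxy.resolve_left (fun h => h hx)
            apply hsplit
            refine ⟨z / y, fun s => ?_⟩
            have := e s
            rw [hx, zero_mul, zero_add] at this
            field_simp
            linear_combination this
          · exact hu0 (hcore u.1 hu' x (-y) z hx (fun s => by linear_combination e s))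
        rw [key v, key w]
      exact Module.finrank_zero_of_subsingleton
    omega

end

end Fermat.Agent.S56
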