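import Fermat.Agent.S56.h81_FlatDatum

/-!
# S56 / W3 / IRR-2a FIELD (`sk_irr_field`)

One finite stable field `L ⊆ Ω` containing the `p`-th roots of unity and trivialising `rb` and
every class of a finite-dimensional space `W` of flat cocycles: `L` is the compositum of the fields
of points `L_a` of `h81_flat_datum` over the finitely many `a ∈ W`, together with `μ_p`.
-/

set_option autoImplicit false

namespace Fermat.Agent.S56

variable (p : ℕ) [Fact p.Prime]

local notation "Ω" => PadicAlgCl p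
local notation "Fld" => IntermediateField ℚ_[p] (PadicAlgCl p)

/-- the bottom field is stable -/
theorem h73_stable_bot : h78_Stable p (⊥ : Fld) := by
  intro g z hz
  obtain ⟨c, rfl⟩ := IntermediateField.mem_bot.1 hz
  rw [AlgEquiv.commutes]
  exact IntermediateField.algebraMap_mem _ c

/-- a field `L` is stable iff `L.map g ≤ L` for all `g` -/
theorem h73_stable_of_map_le (L : Fld)
    (h : ∀ g : h78_G p, L.map (g : Ω →ₐ[ℚ_[p]] Ω) ≤ L) : h78_Stable p L := by
  intro g z hz
  exact h g ⟨z, hz, rfl⟩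

theorem h73_map_le_of_stable (L : Fld) (h : h78_Stable p L) (g : h78_G p) :
    L.map (g : Ω →ₐ[ℚ_[p]] Ω) ≤ L := by
  rintro _ ⟨z, hz, rfl⟩
  exact h g z hz

/-- the supremum of two stable fields is stable -/
theorem h73_stable_sup (L₁ L₂ : Fld) (h₁ : h78_Stable p L₁) (h₂ : h78_Stable p L₂) :
    h78_Stable p (L₁ ⊔ L₂) := by
  apply h73_stable_of_map_le
  intro g
  rw [IntermediateField.map_sup]
  exact sup_le_sup (h73_map_le_of_stable p L₁ h₁ g) (h73_map_le_of_stable p L₂ h₂ g)

/-- a supremum of stable fields is stable -/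
theorem h73_stable_iSup {ι : Sort*} (L : ι → Fld) (h : ∀ i, h78_Stable p (L i)) :
    h78_Stable p (⨆ i, L i) := by
  apply h73_stable_of_map_le
  intro g
  rw [IntermediateField.map_iSup]
  exact iSup_mono fun i => h73_map_le_of_stable p (L i) (h i) g

/-- the field generated by a Galois-stable set is stable -/
theorem h73_stable_adjoin (S : Set Ω) (hS : ∀ (g : h78_G p), ∀ z ∈ S, g z ∈ S) :
    h78_Stable p (IntermediateField.adjoin ℚ_[p] S) := by
  apply h73_stable_of_map_le
  intro g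
  rw [IntermediateField.adjoin_map]
  apply IntermediateField.adjoin.mono
  rintro _ ⟨z, hz, rfl⟩
  exact hS g z hz

/-- the `p`-th roots of unity form a finite set -/
theorem h73_roots_finite : {ζ : Ω | ζ ^ p = 1}.Finite := by
  classical
  have hp : 0 < p := (Fact.out : p.Prime).pos
  have h : {ζ : Ω | ζ ^ p = 1} ⊆ ((Polynomial.nthRoots p (1 : Ω)).toFinset : Set Ω) := by
    intro ζ hζ
    simp only [Finset.mem_coe, Multiset.mem_toFinset]
    exact (Polynomial.mem_nthRoots hp).2 hζ
  exact (Finset.finite_toSet _).subset h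

/-- the cyclotomic field `ℚ_p(μ_p)` -/
noncomputable def h73_cyc : Fld := IntermediateField.adjoin ℚ_[p] {ζ : Ω | ζ ^ p = 1}

theorem h73_cyc_mem (ζ : Ω) (hζ : ζ ^ p = 1) : ζ ∈ h73_cyc p :=
  IntermediateField.subset_adjoin _ _ hζ

theorem h73_cyc_finite : FiniteDimensional ℚ_[p] (h73_cyc p) := by
  have : Finite {ζ : Ω | ζ ^ p = 1} := (h73_roots_finite p).to_subtype
  exact IntermediateField.finiteDimensional_adjoin
    (fun x _ => (Algebra.IsIntegral.isIntegral (R := ℚ_[p]) x))

theorem h73_cyc_stable : h78_Stable p (h73_cyc p) := by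
  apply h73_stable_adjoin
  intro g z hz
  show (g z) ^ p = 1
  have hz' : z ^ p = 1 := hz
  rw [← map_pow, hz', map_one]

/-- **IRR-2a** (`sk_irr_field`): one finite stable field `L` trivialising `rb` and every class of
the finite-dimensional space `W` of flat cocycles. -/
theorem h73_irr_field {k : Type} [Field k] [Finite k] [CharP k p]
    (rb : h78_G p →* Matrix (Fin 2) (Fin 2) k)
    (W : Submodule k (h78_G p → Matrix (Fin 2) (Fin 2) k)) [Module.Finite k W]
    (hcoc : ∀ a ∈ W, ∀ s t, a (s * t) = a s * rb t + rb s * a t)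
    (hflat : ∀ a ∈ W, a ≠ 0 → h78_LocFlat p rb a) (hW : W ≠ ⊥) :
    ∃ (L : Fld) (_ : FiniteDimensional ℚ_[p] L), h78_Stable p L ∧
      (∀ ζ : Ω, ζ ^ p = 1 → ζ ∈ L) ∧
      ∀ g ∈ L.fixingSubgroup, rb g = 1 ∧ ∀ a ∈ W, a g = 0 := by
  classical
  have : Finite W := Module.finite_of_finite k
  -- the field of each class
  have key : ∀ a : W, ∃ La : Fld, FiniteDimensional ℚ_[p] La ∧ h78_Stable p La ∧
      ((a : h78_G p → Matrix (Fin 2) (Fin 2) k) ≠ 0 →
        ∀ g : h78_G p, (∀ z ∈ La, g z = z) → rb g = 1 ∧ a.1 g = 0) := by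
    intro a
    by_cases ha : (a : h78_G p → Matrix (Fin 2) (Fin 2) k) = 0
    · exact ⟨⊥, inferInstance, h73_stable_bot p, fun h => absurd ha h⟩
    · obtain ⟨H, _, _, _, _, _, La, hfd, -, hst, -, hiff, -⟩ :=
        h81_flat_datum p rb a.1 (hcoc _ a.2) (hflat _ a.2 ha)
      exact ⟨La, hfd, hst, fun _ g hg => (hiff g).1 hg⟩
  choose La hfd hst hLa using key
  have : ∀ a, FiniteDimensional ℚ_[p] (La a) := hfd
  have : FiniteDimensional ℚ_[p] (h73_cyc p) := h73_cyc_finite p
  refine ⟨(⨆ a : W, La a) ⊔ h73_cyc p, inferInstance, ?_, ?_, ?_⟩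
  · exact h73_stable_sup p _ _ (h73_stable_iSup p La hst) (h73_cyc_stable p)
  · intro ζ hζ
    exact (le_sup_right : h73_cyc p ≤ _) (h73_cyc_mem p ζ hζ)
  · intro g hg
    rw [IntermediateField.mem_fixingSubgroup_iff] at hg
    have hfix : ∀ a : W, ∀ z ∈ La a, g z = z := fun a z hz =>
      hg z ((le_sup_left : (⨆ a : W, La a) ≤ _) ((le_iSup La a) hz))
    -- a nonzero element of `W`
    obtain ⟨a0, ha0W, ha0⟩ := (Submodule.ne_bot_iff W).1 hW
    refine ⟨(hLa ⟨a0, ha0W⟩ ha0 g (hfix _)).1, fun a ha => ?_⟩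
    by_cases h0 : a = 0
    · rw [h0]; rfl
    · exact (hLa ⟨a, ha⟩ h0 g (hfix _)).2

end Fermat.Agent.S56
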