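/-
S56 / W3 / E-RED, row RED-S6 (route R77, hypothesis form): `sk_bound_red` from the row statements
`sk_red_type`, `sk_red_lower_left`, `sk_red_diag`, `sk_red_flat_cob`, `sk_red_gen`,
`sk_red_kum_count` (skeleton `h78_RedSkel`), on top of helper30's abstract count `h30_red_asm`,
helper73's field `h73_irr_field` and helper88's tame layer.
-/
import Fermat.Agent.S56.h78_W3Defs
import Fermat.Agent.S56.h30_RedAsm
import Fermat.Agent.S56.h30_RedConj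
import Fermat.Agent.S56.h73_IrrField
import Fermat.Agent.S56.h88_TameLocSk

set_option autoImplicit false

namespace Fermat.Agent.S56

open Matrix

variable (p : ℕ) [Fact p.Prime]

local notation "Ω" => PadicAlgCl p
local notation "Fld" => IntermediateField ℚ_[p] (PadicAlgCl p)

/-! ### the unit-Kummer-generator property -/

/-- every `𝔽_p`-character `ℓ ∘ c` on `J₁ = {s ∈ J_L | s ζ = ζ}` is the Kummer character of a unit
`v ∈ L` with `v ^ p ∈ K₀(L)`. -/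
def h78_RedGen {k : Type} [Field k] (L : Fld) (ζ : Ω) (c : h78_G p → k) : Prop :=
  ∀ ℓ : k →+ ZMod p, ∃ v ∈ L, ‖v‖ = 1 ∧ v ^ p ∈ h78_K0 p L ∧
    ∀ s ∈ h78_J p L, s ζ = ζ → s v = ζ ^ (ℓ (c s)).val * v

theorem h78_pow_val_add (ζ : Ω) (hζ : ζ ^ p = 1) (x y : ZMod p) :
    ζ ^ (x + y).val = ζ ^ x.val * ζ ^ y.val := by
  rw [ZMod.val_add, ← pow_add]
  conv_rhs => rw [← Nat.div_add_mod (x.val + y.val) p, pow_add, pow_mul, hζ, one_pow, one_mul]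

theorem h78_redGen_zero {k : Type} [Field k] (L : Fld) (ζ : Ω) :
    h78_RedGen p L ζ (0 : h78_G p → k) := by
  intro ℓ
  refine ⟨1, one_mem L, norm_one, by rw [one_pow]; exact one_mem _, fun s _ _ => ?_⟩
  simp

theorem h78_redGen_add {k : Type} [Field k] (L : Fld) (ζ : Ω) (hζ : ζ ^ p = 1)
    (c₁ c₂ : h78_G p → k) (h₁ : h78_RedGen p L ζ c₁) (h₂ : h78_RedGen p L ζ c₂) :
    h78_RedGen p L ζ (c₁ + c₂) := by
  intro ℓ
  obtain ⟨v₁, hv₁L, hv₁n, hv₁p, hv₁⟩ := h₁ ℓ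
  obtain ⟨v₂, hv₂L, hv₂n, hv₂p, hv₂⟩ := h₂ ℓ
  refine ⟨v₁ * v₂, mul_mem hv₁L hv₂L, by rw [norm_mul, hv₁n, hv₂n, one_mul],
    by rw [mul_pow]; exact mul_mem hv₁p hv₂p, fun s hs hsζ => ?_⟩
  rw [map_mul, hv₁ s hs hsζ, hv₂ s hs hsζ, Pi.add_apply, map_add, h78_pow_val_add p ζ hζ]
  ring

theorem h78_redGen_smul {k : Type} [Field k] (L : Fld) (ζ : Ω) (t : k)
    (c : h78_G p → k) (h : h78_RedGen p L ζ c) : h78_RedGen p L ζ (t • c) := by
  intro ℓ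
  obtain ⟨v, hvL, hvn, hvp, hv⟩ := h (ℓ.comp (AddMonoidHom.mulLeft t))
  refine ⟨v, hvL, hvn, hvp, fun s hs hsζ => ?_⟩
  rw [hv s hs hsζ]
  rfl

/-- the space of `χ`-cocycles trivial on `Gal(Ω/L)` with unit Kummer generators. -/
def h78_RedC {k : Type} [Field k] (L : Fld) (ζ : Ω) (hζ : ζ ^ p = 1) (χ : h78_G p →* kˣ) :
    Submodule k (h78_G p → k) where
  carrier := {c | (∀ s t, c (s * t) = c s + ((χ s : kˣ) : k) * c t) ∧
    (∀ g ∈ L.fixingSubgroup, c g = 0) ∧ h78_RedGen p L ζ c}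
  add_mem' := by
    rintro c₁ c₂ ⟨h1, h2, h3⟩ ⟨h1', h2', h3'⟩
    refine ⟨fun s t => ?_, fun g hg => ?_, h78_redGen_add p L ζ hζ c₁ c₂ h3 h3'⟩
    · simp only [Pi.add_apply, h1 s t, h1' s t]; ring
    · simp only [Pi.add_apply, h2 g hg, h2' g hg, add_zero]
  zero_mem' := ⟨fun s t => by simp, fun g _ => rfl, h78_redGen_zero p L ζ⟩
  smul_mem' := by
    rintro t c ⟨h1, h2, h3⟩
    refine ⟨fun s u => ?_, fun g hg => ?_, h78_redGen_smul p L ζ t c h3⟩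
    · simp only [Pi.smul_apply, smul_eq_mul, h1 s u]; ring
    · simp only [Pi.smul_apply, h2 g hg, smul_zero]

/-! ### small facts on upper triangular `rb` -/

theorem h78_ut_mul00 {Γ : Type*} [Group Γ] {k : Type*} [Field k]
    (rb : Γ →* Matrix (Fin 2) (Fin 2) k) (hut : ∀ g, rb g 1 0 = 0) (s t : Γ) :
    rb (s * t) 0 0 = rb s 0 0 * rb t 0 0 := by
  rw [map_mul, h30_mul_apply2, hut t]; ring

theorem h78_ut_mul11 {Γ : Type*} [Group Γ] {k : Type*} [Field k]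
    (rb : Γ →* Matrix (Fin 2) (Fin 2) k) (hut : ∀ g, rb g 1 0 = 0) (s t : Γ) :
    rb (s * t) 1 1 = rb s 1 1 * rb t 1 1 := by
  rw [map_mul, h30_mul_apply2, hut s]; ring

theorem h78_ut_mul01 {Γ : Type*} [Group Γ] {k : Type*} [Field k]
    (rb : Γ →* Matrix (Fin 2) (Fin 2) k) (s t : Γ) :
    rb (s * t) 0 1 = rb s 0 0 * rb t 0 1 + rb s 0 1 * rb t 1 1 := by
  rw [map_mul, h30_mul_apply2]

theorem h78_ut_ne00 {Γ : Type*} [Group Γ] {k : Type*} [Field k]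
    (rb : Γ →* Matrix (Fin 2) (Fin 2) k) (hut : ∀ g, rb g 1 0 = 0) (s : Γ) : rb s 0 0 ≠ 0 := by
  have h := h78_ut_mul00 rb hut s s⁻¹
  rw [mul_inv_cancel, map_one, Matrix.one_apply_eq] at h
  exact left_ne_zero_of_mul_eq_one h.symm

theorem h78_ut_ne11 {Γ : Type*} [Group Γ] {k : Type*} [Field k]
    (rb : Γ →* Matrix (Fin 2) (Fin 2) k) (hut : ∀ g, rb g 1 0 = 0) (s : Γ) : rb s 1 1 ≠ 0 := by
  have h := h78_ut_mul11 rb hut s s⁻¹
  rw [mul_inv_cancel, map_one, Matrix.one_apply_eq] at h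
  exact left_ne_zero_of_mul_eq_one h.symm

/-- the character `χ = χ₁ / χ₂` of an upper triangular `rb`. -/
noncomputable def h78_utChi {Γ : Type*} [Group Γ] {k : Type*} [Field k]
    (rb : Γ →* Matrix (Fin 2) (Fin 2) k) (hut : ∀ g, rb g 1 0 = 0) : Γ →* kˣ where
  toFun s := Units.mk0 (rb s 0 0 / rb s 1 1)
    (div_ne_zero (h78_ut_ne00 rb hut s) (h78_ut_ne11 rb hut s))
  map_one' := by
    apply Units.ext
    simp [map_one]
  map_mul' s t := by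
    apply Units.ext
    simp only [Units.val_mk0, Units.val_mul]
    rw [h78_ut_mul00 rb hut, h78_ut_mul11 rb hut]
    field_simp [h78_ut_ne11 rb hut s, h78_ut_ne11 rb hut t]

theorem h78_utChi_apply {Γ : Type*} [Group Γ] {k : Type*} [Field k]
    (rb : Γ →* Matrix (Fin 2) (Fin 2) k) (hut : ∀ g, rb g 1 0 = 0) (s : Γ) :
    ((h78_utChi rb hut s : kˣ) : k) = rb s 0 0 / rb s 1 1 := rfl

/-- the upper left entry of a normalised class with vanishing `(1,0)` entry is determined by the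
lower right entry (trace condition). -/
theorem h78_nz00 {Γ : Type*} [Group Γ] {k : Type*} [Field k]
    (rb : Γ →* Matrix (Fin 2) (Fin 2) k) (hut : ∀ g, rb g 1 0 = 0)
    (a : Γ → Matrix (Fin 2) (Fin 2) k) (htr : ∀ s, (a s * rb s⁻¹).trace = 0)
    (X : Matrix (Fin 2) (Fin 2) k) (s : Γ) (h10 : h30_nz rb a X s 1 0 = 0)
    (h11 : h30_nz rb a X s 1 1 = 0) : h30_nz rb a X s 0 0 = 0 := by
  have hinv : rb s * rb s⁻¹ = 1 := by rw [← map_mul, mul_inv_cancel, map_one]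
  have ht : (h30_nz rb a X s * rb s⁻¹).trace = 0 := by
    have e : h30_nz rb a X s * rb s⁻¹ = a s * rb s⁻¹ - (X - rb s * X * rb s⁻¹) := by
      simp only [h30_nz, Matrix.sub_mul, Matrix.mul_assoc, hinv, Matrix.mul_one]
    rw [e, Matrix.trace_sub, htr s, Matrix.trace_sub, Matrix.trace_mul_comm, ← Matrix.mul_assoc,
      (by rw [← map_mul, inv_mul_cancel, map_one] : rb s⁻¹ * rb s = 1), Matrix.one_mul]
    ring
  rw [Matrix.trace_fin_two, h30_mul_apply2, h30_mul_apply2, h10, h11, hut s⁻¹] at ht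
  have h1 : rb s 0 0 * rb s⁻¹ 0 0 = 1 := by
    have := congrFun (congrFun hinv 0) 0
    rw [h30_mul_apply2, hut s⁻¹] at this
    simpa using this
  have h2 : rb s⁻¹ 0 0 ≠ 0 := right_ne_zero_of_mul_eq_one h1
  have h3 : h30_nz rb a X s 0 0 * rb s⁻¹ 0 0 = 0 := by linear_combination ht
  exact (mul_eq_zero.mp h3).resolve_right h2

/-- equal powers of a primitive `p`-th root of unity have exponents congruent mod `p`. -/
theorem h78_cast_eq_of_pow_eq {k : Type} [Field k] [CharP k p] (ζ : Ω) (hζp : ζ ^ p = 1)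
    (hζ1 : ζ ≠ 1) (m n : ℕ) (h : ζ ^ m = ζ ^ n) : (m : k) = (n : k) := by
  have hp : p.Prime := Fact.out
  have hζ0 : ζ ≠ 0 := by
    intro h0
    rw [h0, zero_pow hp.ne_zero] at hζp
    exact zero_ne_one hζp
  have hu : (Units.mk0 ζ hζ0) ^ m = (Units.mk0 ζ hζ0) ^ n := by
    apply Units.ext
    simpa using h
  have hord : orderOf (Units.mk0 ζ hζ0) = p := by
    apply orderOf_eq_prime
    · apply Units.ext
      simpa using hζp
    · intro h1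
      apply hζ1
      have := congrArg Units.val h1
      simpa using this
  have h2 : m ≡ n [MOD p] := by
    rw [← hord]
    exact pow_eq_pow_iff_modEq.mp hu
  exact (CharP.natCast_eq_natCast k p).mpr h2

/-! ### the core: `rb` upper triangular with unramified lower right character -/

theorem h78_red_core (hp2 : p ≠ 2) {k : Type} [Field k] [Finite k] [CharP k p]
    (rb : h78_G p →* Matrix (Fin 2) (Fin 2) k)
    (hdet : ∀ (g : h78_G p) (ζ : Ω), ζ ^ p = 1 → ∃ n : ℕ, g ζ = ζ ^ n ∧ (rb g).det = (n : k))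
    (hut : ∀ g, rb g 1 0 = 0)
    (L : Fld) [FiniteDimensional ℚ_[p] L] (hL : h78_Stable p L)
    (ζ : Ω) (hζp : ζ ^ p = 1) (hζ1 : ζ ≠ 1)
    (hχ2 : ∀ s ∈ h78_J p L, rb s 1 1 = 1)
    (Hll : ∀ a : h78_G p → Matrix (Fin 2) (Fin 2) k,
      (∀ s t, a (s * t) = a s * rb t + rb s * a t) → h78_LocFlat p rb a →
      (∀ g ∈ L.fixingSubgroup, a g = 0) → ∃ β : k, ∀ g, a g 1 0 = β * (rb g 0 0 - rb g 1 1))
    (Hdiag : ∀ a : h78_G p → Matrix (Fin 2) (Fin 2) k,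
      (∀ s t, a (s * t) = a s * rb t + rb s * a t) → h78_LocFlat p rb a →
      (∀ g ∈ L.fixingSubgroup, a g = 0) → (∀ g, a g 1 0 = 0) → ∀ s ∈ h78_J p L, a s 1 1 = 0)
    (Hcob : ∀ (a : h78_G p → Matrix (Fin 2) (Fin 2) k) (X : Matrix (Fin 2) (Fin 2) k),
      h78_LocFlat p rb a → h78_LocFlat p rb (fun g => a g - (X * rb g - rb g * X)))
    (Hgen : ∀ a : h78_G p → Matrix (Fin 2) (Fin 2) k,
      (∀ s t, a (s * t) = a s * rb t + rb s * a t) → h78_LocFlat p rb a →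
      (∀ g ∈ L.fixingSubgroup, a g = 0) → (∀ g, a g 1 0 = 0) →
      (∀ s ∈ h78_J p L, a s 0 0 = 0) → (∀ s ∈ h78_J p L, a s 1 1 = 0) →
      ∀ (μ lam : k) (ℓ : k →+ ZMod p), ∃ v ∈ L, ‖v‖ = 1 ∧ v ^ p ∈ h78_K0 p L ∧
        ∀ s ∈ h78_J p L, s v = ζ ^ (ℓ (μ * a s 0 1 + lam * rb s 0 1)).val * v)
    (Hkum : ∀ χ : h78_G p →* kˣ,
      (∀ s ∈ h78_J p L, ∀ n : ℕ, s ζ = ζ ^ n → ((χ s : kˣ) : k) = (n : k)) →
      (∀ g ∈ L.fixingSubgroup, χ g = 1) →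
      ∀ C : Submodule k (h78_G p → k),
      (∀ c ∈ C, ∀ s t, c (s * t) = c s + ((χ s : kˣ) : k) * c t) →
      (∀ c ∈ C, ∀ g ∈ L.fixingSubgroup, c g = 0) →
      (∀ c ∈ C, ∀ ℓ : k →+ ZMod p, ∃ v ∈ L, ‖v‖ = 1 ∧ v ^ p ∈ h78_K0 p L ∧
        ∀ s ∈ h78_J p L, s ζ = ζ → s v = ζ ^ (ℓ (c s)).val * v) →
      ∀ c₁ ∈ C, ∀ c₂ ∈ C, ∃ x₁ x₂ y : k, (x₁ ≠ 0 ∨ x₂ ≠ 0) ∧
        ∀ g, x₁ * c₁ g + x₂ * c₂ g = y * (((χ g : kˣ) : k) - 1))
    (W : Submodule k (h78_G p → Matrix (Fin 2) (Fin 2) k))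
    (hcoc : ∀ a ∈ W, ∀ s t, a (s * t) = a s * rb t + rb s * a t)
    (htr : ∀ a ∈ W, ∀ s, (a s * rb s⁻¹).trace = 0)
    (hflat : ∀ a ∈ W, a ≠ 0 → h78_LocFlat p rb a)
    (hcob : ∀ a ∈ W, (∃ X : Matrix (Fin 2) (Fin 2) k, ∀ s, a s = X * rb s - rb s * X) → a = 0)
    (htriv : ∀ g ∈ L.fixingSubgroup, rb g = 1 ∧ ∀ a ∈ W, a g = 0) :
    Module.finrank k W ≤ Module.finrank k (h78_H0 p rb) + 1 := by
  classical
  have hp : p.Prime := Fact.out
  obtain ⟨φ, hφ⟩ := h88_sk_exists_frob p L hL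
  have hgen := h88_sk_frob_gen p L hL φ hφ
  -- `χ₁ = ω` on `J`
  have hχ1 : ∀ s ∈ h78_J p L, ∀ n : ℕ, s ζ = ζ ^ n → rb s 0 0 = (n : k) := by
    intro s hs n hn
    obtain ⟨m, hm, hdm⟩ := hdet s ζ hζp
    rw [Matrix.det_fin_two, hut s, mul_zero, sub_zero, hχ2 s hs, mul_one] at hdm
    rw [hdm]
    exact h78_cast_eq_of_pow_eq p ζ hζp hζ1 m n (by rw [← hm, hn])
  -- `χ₁ ≠ χ₂`
  have hne : ∃ s, rb s 0 0 ≠ rb s 1 1 := by
    obtain ⟨s, hs, hsζ⟩ := h88_sk_cyclo_inertia p L hL ζ hζp hζ1 2 (by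
      intro h; exact hp2 ((Nat.prime_dvd_prime_iff_eq hp Nat.prime_two).mp h))
    refine ⟨s, ?_⟩
    rw [hχ1 s hs 2 hsζ, hχ2 s hs]
    intro h
    have h1 : (1 : k) = 0 := by
      have h2 : ((2 : ℕ) : k) = 1 := h
      push_cast at h2
      linear_combination h2
    exact one_ne_zero h1
  -- normalised classes vanish on `Gal(Ω/L)`
  have hnzL : ∀ a ∈ W, ∀ X : Matrix (Fin 2) (Fin 2) k, ∀ g ∈ L.fixingSubgroup,
      h30_nz rb a X g = 0 := by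
    intro a ha X g hg
    obtain ⟨h1, h2⟩ := htriv g hg
    simp only [h30_nz, h2 a ha, h1, Matrix.mul_one, Matrix.one_mul, sub_self]
  -- SHAPE
  have hshape : ∀ a ∈ W, ∃ X : Matrix (Fin 2) (Fin 2) k,
      (∀ s, (a s - (X * rb s - rb s * X)) 1 0 = 0) ∧
        ∀ s ∈ h78_J p L, (a s - (X * rb s - rb s * X)) 1 1 = 0 := by
    intro a ha
    by_cases ha0 : a = 0
    · refine ⟨0, fun s => ?_, fun s _ => ?_⟩ <;> simp [ha0]
    · obtain ⟨β, hβ⟩ := Hll a (hcoc a ha) (hflat a ha ha0) (fun g hg => (htriv g hg).2 a ha)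
      have h10 : ∀ s, (a s - (!![0, 0; β, 0] * rb s - rb s * !![0, 0; β, 0])) 1 0 = 0 := by
        intro s
        rw [Matrix.sub_apply, Matrix.sub_apply, h30_mul_apply2, h30_mul_apply2, hβ s, hut s]
        simp
        ring
      exact ⟨!![0, 0; β, 0], h10,
        Hdiag (h30_nz rb a _) (h30_nz_coc rb a (hcoc a ha) _) (Hcob a _ (hflat a ha ha0))
          (hnzL a ha _) h10⟩
  -- the flat upper right entries
  have hFlW : ∀ a ∈ W, a ≠ 0 → ∀ X : Matrix (Fin 2) (Fin 2) k,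
      (∀ s, (a s - (X * rb s - rb s * X)) 1 0 = 0) →
      (∀ s, (a s - (X * rb s - rb s * X)) 1 1 = 0) →
        (fun s => (a s - (X * rb s - rb s * X)) 0 1) ∈
          {β : h78_G p → k | (fun s => β s / rb s 1 1) ∈ h78_RedC p L ζ hζp (h78_utChi rb hut)} := by
    intro a ha ha0 X h10 h11
    have h11' : ∀ s, h30_nz rb a X s 1 1 = 0 := h11
    have h00 : ∀ s, h30_nz rb a X s 0 0 = 0 :=
      fun s => h78_nz00 rb hut a (htr a ha) X s (h10 s) (h11 s)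
    have hcoc' := h30_nz_coc rb a (hcoc a ha) X
    refine ⟨fun s t => ?_, fun g hg => ?_, fun ℓ => ?_⟩
    · show h30_nz rb a X (s * t) 0 1 / rb (s * t) 1 1 =
        h30_nz rb a X s 0 1 / rb s 1 1 + (rb s 0 0 / rb s 1 1) * (h30_nz rb a X t 0 1 / rb t 1 1)
      have h1 := h78_ut_ne11 rb hut s
      have h2 := h78_ut_ne11 rb hut t
      rw [hcoc' s t, Matrix.add_apply, h30_mul_apply2, h30_mul_apply2, h00 s, h11' t,
        h78_ut_mul11 rb hut]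
      field_simp
      ring
    · show h30_nz rb a X g 0 1 / rb g 1 1 = 0
      rw [hnzL a ha X g hg]; simp
    · obtain ⟨v, hvL, hvn, hvp, hv⟩ := Hgen (h30_nz rb a X) hcoc' (Hcob a X (hflat a ha ha0))
        (hnzL a ha X) h10 (fun s _ => h00 s) (fun s _ => h11 s) 1 0 ℓ
      refine ⟨v, hvL, hvn, hvp, fun s hs _ => ?_⟩
      rw [hv s hs]
      show ζ ^ (ℓ (1 * h30_nz rb a X s 0 1 + 0 * rb s 0 1)).val * v =
        ζ ^ (ℓ (h30_nz rb a X s 0 1 / rb s 1 1)).val * v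
      rw [hχ2 s hs]; simp
  have hFlb : W ≠ ⊥ → (fun s => rb s 0 1) ∈
      {β : h78_G p → k | (fun s => β s / rb s 1 1) ∈ h78_RedC p L ζ hζp (h78_utChi rb hut)} := by
    intro hW
    obtain ⟨a₀, ha₀, ha₀0⟩ := Submodule.exists_mem_ne_zero_of_ne_bot hW
    obtain ⟨X₀, h10, h11J⟩ := hshape a₀ ha₀
    have hcoc' := h30_nz_coc rb a₀ (hcoc a₀ ha₀) X₀
    have h00J : ∀ s ∈ h78_J p L, h30_nz rb a₀ X₀ s 0 0 = 0 :=
      fun s hs => h78_nz00 rb hut a₀ (htr a₀ ha₀) X₀ s (h10 s) (h11J s hs)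
    refine ⟨fun s t => ?_, fun g hg => ?_, fun ℓ => ?_⟩
    · show rb (s * t) 0 1 / rb (s * t) 1 1 =
        rb s 0 1 / rb s 1 1 + (rb s 0 0 / rb s 1 1) * (rb t 0 1 / rb t 1 1)
      have h1 := h78_ut_ne11 rb hut s
      have h2 := h78_ut_ne11 rb hut t
      rw [h78_ut_mul01, h78_ut_mul11 rb hut]
      field_simp
      ring
    · show rb g 0 1 / rb g 1 1 = 0
      rw [(htriv g hg).1]; simp
    · obtain ⟨v, hvL, hvn, hvp, hv⟩ := Hgen (h30_nz rb a₀ X₀) hcoc'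
        (Hcob a₀ X₀ (hflat a₀ ha₀ ha₀0)) (hnzL a₀ ha₀ X₀) h10 h00J h11J 0 1 ℓ
      refine ⟨v, hvL, hvn, hvp, fun s hs _ => ?_⟩
      rw [hv s hs]
      show ζ ^ (ℓ (0 * h30_nz rb a₀ X₀ s 0 1 + 1 * rb s 0 1)).val * v =
        ζ ^ (ℓ (rb s 0 1 / rb s 1 1)).val * v
      rw [hχ2 s hs]; simp
  -- the count
  have hχJ : ∀ s ∈ h78_J p L, ∀ n : ℕ, s ζ = ζ ^ n →
      ((h78_utChi rb hut s : kˣ) : k) = (n : k) := by
    intro s hs n hn
    rw [h78_utChi_apply, hχ1 s hs n hn, hχ2 s hs, div_one]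
  have hχL : ∀ g ∈ L.fixingSubgroup, h78_utChi rb hut g = 1 := by
    intro g hg
    apply Units.ext
    rw [h78_utChi_apply, (htriv g hg).1]
    simp
  have hFl' : ∀ β₁ ∈ {β : h78_G p → k | (fun s => β s / rb s 1 1) ∈
        h78_RedC p L ζ hζp (h78_utChi rb hut)},
      ∀ β₂ ∈ {β : h78_G p → k | (fun s => β s / rb s 1 1) ∈
        h78_RedC p L ζ hζp (h78_utChi rb hut)},
      ∃ x y z : k, (x ≠ 0 ∨ y ≠ 0) ∧
        ∀ s, x * β₁ s + y * β₂ s = z * (rb s 0 0 - rb s 1 1) := by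
    intro β₁ h₁ β₂ h₂
    have h₁' : (fun s => β₁ s / rb s 1 1) ∈ h78_RedC p L ζ hζp (h78_utChi rb hut) := h₁
    have h₂' : (fun s => β₂ s / rb s 1 1) ∈ h78_RedC p L ζ hζp (h78_utChi rb hut) := h₂
    obtain ⟨x, y, z, hxy, h⟩ := Hkum (h78_utChi rb hut) hχJ hχL
      (h78_RedC p L ζ hζp (h78_utChi rb hut)) (fun c hc => hc.1) (fun c hc => hc.2.1)
      (fun c hc => hc.2.2) _ h₁' _ h₂'
    refine ⟨x, y, z, hxy, fun s => ?_⟩
    have h3 : x * (β₁ s / rb s 1 1) + y * (β₂ s / rb s 1 1) =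
        z * (((h78_utChi rb hut s : kˣ) : k) - 1) := h s
    rw [h78_utChi_apply] at h3
    have hne11 := h78_ut_ne11 rb hut s
    field_simp at h3
    linear_combination h3
  exact h30_red_asm rb hut hne (h78_J p L) φ hgen W hcoc htr hcob hshape _ hFlW hFlb hFl'
    (h78_H0 p rb) (fun X => Iff.rfl)

/-! ### transport along a change of basis (helper30's argument, for a given `P`) -/

theorem h78_red_transport {k : Type} [Field k] (P Pi : Matrix (Fin 2) (Fin 2) k)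
    (hP : P * Pi = 1) (hPi : Pi * P = 1)
    (rb : h78_G p →* Matrix (Fin 2) (Fin 2) k)
    (hdet : ∀ (g : h78_G p) (ζ : Ω), ζ ^ p = 1 → ∃ n : ℕ, g ζ = ζ ^ n ∧ (rb g).det = (n : k))
    (W : Submodule k (h78_G p → Matrix (Fin 2) (Fin 2) k))
    (hcoc : ∀ a ∈ W, ∀ s t, a (s * t) = a s * rb t + rb s * a t)
    (htr : ∀ a ∈ W, ∀ s, (a s * rb s⁻¹).trace = 0)
    (hflat : ∀ a ∈ W, a ≠ 0 → h78_LocFlat p rb a)
    (hcob : ∀ a ∈ W, (∃ X : Matrix (Fin 2) (Fin 2) k, ∀ s, a s = X * rb s - rb s * X) → a = 0) :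
    (∀ (g : h78_G p) (ζ : Ω), ζ ^ p = 1 →
      ∃ n : ℕ, g ζ = ζ ^ n ∧ (h30_conjHom P Pi hP hPi rb g).det = (n : k)) ∧
    (∀ a' ∈ W.map (h30_conjFun (h78_G p) P Pi hP hPi).toLinearMap,
      ∃ a ∈ W, ∀ s, a' s = Pi * a s * P) ∧
    (∀ a' ∈ W.map (h30_conjFun (h78_G p) P Pi hP hPi).toLinearMap, ∀ s t,
      a' (s * t) = a' s * h30_conjHom P Pi hP hPi rb t + h30_conjHom P Pi hP hPi rb s * a' t) ∧
    (∀ a' ∈ W.map (h30_conjFun (h78_G p) P Pi hP hPi).toLinearMap, ∀ s,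
      (a' s * h30_conjHom P Pi hP hPi rb s⁻¹).trace = 0) ∧
    (∀ a' ∈ W.map (h30_conjFun (h78_G p) P Pi hP hPi).toLinearMap, a' ≠ 0 →
      h78_LocFlat p (h30_conjHom P Pi hP hPi rb) a') ∧
    (∀ a' ∈ W.map (h30_conjFun (h78_G p) P Pi hP hPi).toLinearMap,
      (∃ X : Matrix (Fin 2) (Fin 2) k, ∀ s,
        a' s = X * h30_conjHom P Pi hP hPi rb s - h30_conjHom P Pi hP hPi rb s * X) → a' = 0) ∧
    Module.finrank k (W.map (h30_conjFun (h78_G p) P Pi hP hPi).toLinearMap) =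
      Module.finrank k W ∧
    Module.finrank k (h78_H0 p (h30_conjHom P Pi hP hPi rb)) =
      Module.finrank k (h78_H0 p rb) := by
  set rb' : h78_G p →* Matrix (Fin 2) (Fin 2) k := h30_conjHom P Pi hP hPi rb with hrb'
  have hrb'_apply : ∀ g, rb' g = Pi * rb g * P := fun g => rfl
  set F := h30_conjFun (h78_G p) P Pi hP hPi with hF
  set W' : Submodule k (h78_G p → Matrix (Fin 2) (Fin 2) k) := W.map F.toLinearMap with hW'
  have hmem : ∀ a' ∈ W', ∃ a ∈ W, ∀ s, a' s = Pi * a s * P := by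
    intro a' ha'
    obtain ⟨a, ha, rfl⟩ := Submodule.mem_map.mp ha'
    exact ⟨a, ha, fun s => rfl⟩
  have hback : ∀ a : h78_G p → Matrix (Fin 2) (Fin 2) k, ∀ s,
      P * (Pi * a s * P) * Pi = a s := by
    intro a s
    calc P * (Pi * a s * P) * Pi = (P * Pi) * a s * (P * Pi) := by simp only [Matrix.mul_assoc]
      _ = a s := by rw [hP, Matrix.one_mul, Matrix.mul_one]
  refine ⟨?_, hmem, ?_, ?_, ?_, ?_, ?_, ?_⟩
  · intro g ζ hζ
    obtain ⟨n, h1, h2⟩ := hdet g ζ hζ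
    refine ⟨n, h1, ?_⟩
    rw [hrb'_apply, Matrix.det_mul, Matrix.det_mul, mul_right_comm, ← Matrix.det_mul, hPi,
      Matrix.det_one, one_mul, h2]
  · intro a' ha' s t
    obtain ⟨a, ha, h⟩ := hmem a' ha'
    rw [h, h, h, hcoc a ha, hrb'_apply, hrb'_apply, Matrix.mul_add, Matrix.add_mul]
    congr 1
    · calc Pi * (a s * rb t) * P = Pi * a s * (1 * (rb t * P)) := by
            rw [Matrix.one_mul]; simp only [Matrix.mul_assoc]
        _ = Pi * a s * P * (Pi * rb t * P) := by rw [← hP]; simp only [Matrix.mul_assoc]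
    · calc Pi * (rb s * a t) * P = Pi * rb s * (1 * (a t * P)) := by
            rw [Matrix.one_mul]; simp only [Matrix.mul_assoc]
        _ = Pi * rb s * P * (Pi * a t * P) := by rw [← hP]; simp only [Matrix.mul_assoc]
  · intro a' ha' s
    obtain ⟨a, ha, h⟩ := hmem a' ha'
    rw [h, hrb'_apply]
    have e : Pi * a s * P * (Pi * rb s⁻¹ * P) = Pi * (a s * rb s⁻¹ * P) := by
      calc Pi * a s * P * (Pi * rb s⁻¹ * P) = Pi * a s * ((P * Pi) * (rb s⁻¹ * P)) := by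
            simp only [Matrix.mul_assoc]
        _ = Pi * (a s * rb s⁻¹ * P) := by rw [hP, Matrix.one_mul]; simp only [Matrix.mul_assoc]
    rw [e, Matrix.trace_mul_comm, Matrix.mul_assoc, hP, Matrix.mul_one]
    exact htr a ha s
  · intro a' ha' hne
    obtain ⟨a, ha, h⟩ := hmem a' ha'
    have hane : a ≠ 0 := by
      rintro rfl
      apply hne
      funext s
      rw [h]; simp
    have := h30_locFlat_conj p P Pi hP hPi rb a (hflat a ha hane)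
    have e1 : (fun s => Pi * rb s * P) = (rb' : h78_G p → Matrix (Fin 2) (Fin 2) k) := rfl
    have e2 : (fun s => Pi * a s * P) = a' := by funext s; rw [h]
    rw [e1, e2] at this
    exact this
  · intro a' ha' hX
    obtain ⟨a, ha, h⟩ := hmem a' ha'
    obtain ⟨X, hX⟩ := hX
    have ha0 : a = 0 := by
      refine hcob a ha ⟨P * X * Pi, fun s => ?_⟩
      have h1 := hX s
      rw [h, hrb'_apply] at h1
      have h2 : a s = P * (Pi * a s * P) * Pi := (hback a s).symm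
      rw [h2, h1, Matrix.mul_sub, Matrix.sub_mul]
      congr 1
      · calc P * (X * (Pi * rb s * P)) * Pi = P * X * Pi * (rb s * (P * Pi)) := by
              simp only [Matrix.mul_assoc]
          _ = P * X * Pi * rb s := by rw [hP, Matrix.mul_one]
      · calc P * (Pi * rb s * P * X) * Pi = (P * Pi) * rb s * (P * X * Pi) := by
              simp only [Matrix.mul_assoc]
          _ = rb s * (P * X * Pi) := by rw [hP, Matrix.one_mul]
    funext s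
    rw [h, ha0]; simp
  · exact LinearEquiv.finrank_map_eq F W
  · have hmap : h78_H0 p rb' = (h78_H0 p rb).map (h30_conjMat P Pi hP hPi).toLinearMap := by
      ext X
      constructor
      · rintro ⟨h1, h2⟩
        refine Submodule.mem_map.mpr ⟨P * X * Pi, ⟨?_, fun s => ?_⟩, ?_⟩
        · rw [Matrix.trace_mul_comm, ← Matrix.mul_assoc, hPi, Matrix.one_mul]; exact h1
        · have h3 := h2 s
          rw [hrb'_apply] at h3
          calc P * X * Pi * rb s = P * (X * (Pi * rb s * P)) * Pi := by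
                have : P * (X * (Pi * rb s * P)) * Pi = P * X * Pi * (rb s * (P * Pi)) := by
                  simp only [Matrix.mul_assoc]
                rw [this, hP, Matrix.mul_one]
            _ = P * (Pi * rb s * P * X) * Pi := by rw [h3]
            _ = rb s * (P * X * Pi) := by
                have : P * (Pi * rb s * P * X) * Pi = (P * Pi) * rb s * (P * X * Pi) := by
                  simp only [Matrix.mul_assoc]
                rw [this, hP, Matrix.one_mul]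
        · show Pi * (P * X * Pi) * P = X
          calc Pi * (P * X * Pi) * P = (Pi * P) * X * (Pi * P) := by simp only [Matrix.mul_assoc]
            _ = X := by rw [hPi, Matrix.one_mul, Matrix.mul_one]
      · intro hX
        obtain ⟨Y, ⟨h1, h2⟩, rfl⟩ := Submodule.mem_map.mp hX
        refine ⟨?_, fun s => ?_⟩
        · show (Pi * Y * P).trace = 0
          rw [Matrix.trace_mul_comm, ← Matrix.mul_assoc, hP, Matrix.one_mul]; exact h1
        · show Pi * Y * P * rb' s = rb' s * (Pi * Y * P)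
          rw [hrb'_apply]
          calc Pi * Y * P * (Pi * rb s * P) = Pi * (Y * ((P * Pi) * rb s)) * P := by
                simp only [Matrix.mul_assoc]
            _ = Pi * (Y * rb s) * P := by rw [hP, Matrix.one_mul]
            _ = Pi * (rb s * Y) * P := by rw [h2 s]
            _ = Pi * rb s * ((P * Pi) * Y) * P := by
                rw [hP, Matrix.one_mul]; simp only [Matrix.mul_assoc]
            _ = Pi * rb s * P * (Pi * Y * P) := by simp only [Matrix.mul_assoc]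
    rw [hmap]
    exact LinearEquiv.finrank_map_eq (h30_conjMat P Pi hP hPi) (h78_H0 p rb)

/-! ### RED-S6 in hypothesis form -/

theorem h78_exists_zeta : ∃ ζ : Ω, ζ ^ p = 1 ∧ ζ ≠ 1 := by
  have hp : p.Prime := Fact.out
  have hne : NeZero ((p : ℕ) : Ω) := ⟨by exact_mod_cast hp.ne_zero⟩
  obtain ⟨ζ, hζ⟩ := IsAlgClosed.exists_root (Polynomial.cyclotomic p Ω)
    (Polynomial.degree_cyclotomic_pos p Ω hp.pos).ne'
  rw [Polynomial.isRoot_cyclotomic_iff] at hζ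
  exact ⟨ζ, hζ.pow_eq_one, hζ.ne_one hp.one_lt⟩

/-- **RED-S6 (route R77), hypothesis form**: `sk_bound_red` from the row statements of
`skel/h78_RedSkel.lean` (`sk_red_type`, `sk_red_lower_left`, `sk_red_diag`, `sk_red_flat_cob`,
`sk_red_gen`, `sk_red_kum_count`), each taken verbatim for the field `k`. -/
theorem h78_bound_red_of (hp2 : p ≠ 2) {k : Type} [Field k] [Finite k] [CharP k p]
    (Htype : ∀ (rb : h78_G p →* Matrix (Fin 2) (Fin 2) k),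
      (∀ (g : h78_G p) (ζ : Ω), ζ ^ p = 1 → ∃ n : ℕ, g ζ = ζ ^ n ∧ (rb g).det = (n : k)) →
      (∃ v : Fin 2 → k, v ≠ 0 ∧ ∀ g, ∃ c : k, (rb g).mulVec v = c • v) →
      ∀ (a₀ : h78_G p → Matrix (Fin 2) (Fin 2) k),
      (∀ s t, a₀ (s * t) = a₀ s * rb t + rb s * a₀ t) → h78_LocFlat p rb a₀ →
      ∀ (L : Fld) [FiniteDimensional ℚ_[p] L], h78_Stable p L →
      (∀ ζ : Ω, ζ ^ p = 1 → ζ ∈ L) →
      (∀ g ∈ L.fixingSubgroup, rb g = 1 ∧ a₀ g = 0) →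
      ∃ P : Matrix (Fin 2) (Fin 2) k, IsUnit P.det ∧ (∀ g, (P⁻¹ * rb g * P) 1 0 = 0) ∧
        ∀ s ∈ h78_J p L, (P⁻¹ * rb s * P) 1 1 = 1)
    (Hll : ∀ (rb : h78_G p →* Matrix (Fin 2) (Fin 2) k),
      (∀ (g : h78_G p) (ζ : Ω), ζ ^ p = 1 → ∃ n : ℕ, g ζ = ζ ^ n ∧ (rb g).det = (n : k)) →
      (∀ g, rb g 1 0 = 0) →
      ∀ (L : Fld) [FiniteDimensional ℚ_[p] L], h78_Stable p L →
      (∀ ζ : Ω, ζ ^ p = 1 → ζ ∈ L) → (∀ s ∈ h78_J p L, rb s 1 1 = 1) →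
      ∀ (a : h78_G p → Matrix (Fin 2) (Fin 2) k),
      (∀ s t, a (s * t) = a s * rb t + rb s * a t) → h78_LocFlat p rb a →
      (∀ g ∈ L.fixingSubgroup, rb g = 1 ∧ a g = 0) →
      ∃ β : k, ∀ g, a g 1 0 = β * (rb g 0 0 - rb g 1 1))
    (Hdiag : ∀ (rb : h78_G p →* Matrix (Fin 2) (Fin 2) k),
      (∀ (g : h78_G p) (ζ : Ω), ζ ^ p = 1 → ∃ n : ℕ, g ζ = ζ ^ n ∧ (rb g).det = (n : k)) →
      (∀ g, rb g 1 0 = 0) →
      ∀ (L : Fld) [FiniteDimensional ℚ_[p] L], h78_Stable p L →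
      (∀ ζ : Ω, ζ ^ p = 1 → ζ ∈ L) → (∀ s ∈ h78_J p L, rb s 1 1 = 1) →
      ∀ (a : h78_G p → Matrix (Fin 2) (Fin 2) k),
      (∀ s t, a (s * t) = a s * rb t + rb s * a t) → h78_LocFlat p rb a →
      (∀ g ∈ L.fixingSubgroup, rb g = 1 ∧ a g = 0) →
      (∀ g, a g 1 0 = 0) → ∀ s ∈ h78_J p L, a s 1 1 = 0)
    (Hcob : ∀ (rb : h78_G p →* Matrix (Fin 2) (Fin 2) k)
      (a : h78_G p → Matrix (Fin 2) (Fin 2) k) (X : Matrix (Fin 2) (Fin 2) k),
      h78_LocFlat p rb a → h78_LocFlat p rb (fun g => a g - (X * rb g - rb g * X)))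
    (Hgen : ∀ (rb : h78_G p →* Matrix (Fin 2) (Fin 2) k),
      (∀ (g : h78_G p) (ζ : Ω), ζ ^ p = 1 → ∃ n : ℕ, g ζ = ζ ^ n ∧ (rb g).det = (n : k)) →
      (∀ g, rb g 1 0 = 0) →
      ∀ (L : Fld) [FiniteDimensional ℚ_[p] L], h78_Stable p L →
      ∀ (ζ : Ω), ζ ∈ L → ζ ^ p = 1 → ζ ≠ 1 → (∀ s ∈ h78_J p L, rb s 1 1 = 1) →
      ∀ (a : h78_G p → Matrix (Fin 2) (Fin 2) k),
      (∀ s t, a (s * t) = a s * rb t + rb s * a t) → h78_LocFlat p rb a →
      (∀ g ∈ L.fixingSubgroup, rb g = 1 ∧ a g = 0) →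
      (∀ g, a g 1 0 = 0) → (∀ s ∈ h78_J p L, a s 0 0 = 0) → (∀ s ∈ h78_J p L, a s 1 1 = 0) →
      ∀ (μ lam : k) (ℓ : k →+ ZMod p), ∃ v ∈ L, ‖v‖ = 1 ∧ v ^ p ∈ h78_K0 p L ∧
        ∀ s ∈ h78_J p L, s v = ζ ^ (ℓ (μ * a s 0 1 + lam * rb s 0 1)).val * v)
    (Hkum : ∀ (L : Fld) [FiniteDimensional ℚ_[p] L], h78_Stable p L →
      ∀ (ζ : Ω), ζ ∈ L → ζ ^ p = 1 → ζ ≠ 1 → ∀ (χ : h78_G p →* kˣ),
      (∀ s ∈ h78_J p L, ∀ n : ℕ, s ζ = ζ ^ n → ((χ s : kˣ) : k) = (n : k)) →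
      (∀ g ∈ L.fixingSubgroup, χ g = 1) →
      ∀ C : Submodule k (h78_G p → k),
      (∀ c ∈ C, ∀ s t, c (s * t) = c s + ((χ s : kˣ) : k) * c t) →
      (∀ c ∈ C, ∀ g ∈ L.fixingSubgroup, c g = 0) →
      (∀ c ∈ C, ∀ ℓ : k →+ ZMod p, ∃ v ∈ L, ‖v‖ = 1 ∧ v ^ p ∈ h78_K0 p L ∧
        ∀ s ∈ h78_J p L, s ζ = ζ → s v = ζ ^ (ℓ (c s)).val * v) →
      ∀ c₁ ∈ C, ∀ c₂ ∈ C, ∃ x₁ x₂ y : k, (x₁ ≠ 0 ∨ x₂ ≠ 0) ∧
        ∀ g, x₁ * c₁ g + x₂ * c₂ g = y * (((χ g : kˣ) : k) - 1))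
    (rb : h78_G p →* Matrix (Fin 2) (Fin 2) k)
    (hdet : ∀ (g : h78_G p) (ζ : Ω), ζ ^ p = 1 → ∃ n : ℕ, g ζ = ζ ^ n ∧ (rb g).det = (n : k))
    (hred : ∃ v : Fin 2 → k, v ≠ 0 ∧ ∀ g, ∃ c : k, (rb g).mulVec v = c • v)
    (W : Submodule k (h78_G p → Matrix (Fin 2) (Fin 2) k))
    (hcoc : ∀ a ∈ W, ∀ s t, a (s * t) = a s * rb t + rb s * a t)
    (htr : ∀ a ∈ W, ∀ s, (a s * rb s⁻¹).trace = 0)
    (hflat : ∀ a ∈ W, a ≠ 0 → h78_LocFlat p rb a)
    (hcob : ∀ a ∈ W, (∃ X : Matrix (Fin 2) (Fin 2) k, ∀ s, a s = X * rb s - rb s * X) → a = 0) :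
    Module.finrank k W ≤ Module.finrank k (h78_H0 p rb) + 1 := by
  classical
  by_cases hfin : Module.Finite k W
  swap
  · rw [Module.finrank_of_not_finite hfin]; exact Nat.zero_le _
  by_cases hW : W = ⊥
  · rw [hW, finrank_bot]; exact Nat.zero_le _
  obtain ⟨L, hLfin, hL, hζ, htriv⟩ := h73_irr_field p rb W hcoc hflat hW
  obtain ⟨a₀, ha₀, ha₀0⟩ := Submodule.exists_mem_ne_zero_of_ne_bot hW
  obtain ⟨P, hPdet, hPut, hPχ2⟩ := Htype rb hdet hred a₀ (hcoc a₀ ha₀) (hflat a₀ ha₀ ha₀0) L hL hζ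
    (fun g hg => ⟨(htriv g hg).1, (htriv g hg).2 a₀ ha₀⟩)
  have hP : P * P⁻¹ = 1 := Matrix.mul_nonsing_inv P hPdet
  have hPi : P⁻¹ * P = 1 := Matrix.nonsing_inv_mul P hPdet
  obtain ⟨hdet', hmem, hcoc', htr', hflat', hcob', hWrank, hHrank⟩ :=
    h78_red_transport p P P⁻¹ hP hPi rb hdet W hcoc htr hflat hcob
  obtain ⟨ζ, hζp, hζ1⟩ := h78_exists_zeta p
  have hζL : ζ ∈ L := hζ ζ hζp
  have hut' : ∀ g, h30_conjHom P P⁻¹ hP hPi rb g 1 0 = 0 := hPut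
  have hχ2' : ∀ s ∈ h78_J p L, h30_conjHom P P⁻¹ hP hPi rb s 1 1 = 1 := hPχ2
  have hrbL : ∀ g ∈ L.fixingSubgroup, h30_conjHom P P⁻¹ hP hPi rb g = 1 := by
    intro g hg
    rw [h30_conjHom_apply, (htriv g hg).1, Matrix.mul_one, hPi]
  have htriv' : ∀ g ∈ L.fixingSubgroup, h30_conjHom P P⁻¹ hP hPi rb g = 1 ∧
      ∀ a' ∈ W.map (h30_conjFun (h78_G p) P P⁻¹ hP hPi).toLinearMap, a' g = 0 := by
    intro g hg
    refine ⟨hrbL g hg, fun a' ha' => ?_⟩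
    obtain ⟨a, ha, h⟩ := hmem a' ha'
    rw [h, (htriv g hg).2 a ha]
    simp
  have key := h78_red_core p hp2 (h30_conjHom P P⁻¹ hP hPi rb) hdet' hut' L hL ζ hζp hζ1 hχ2'
    (fun a hc hf ht => Hll _ hdet' hut' L hL hζ hχ2' a hc hf (fun g hg => ⟨hrbL g hg, ht g hg⟩))
    (fun a hc hf ht => Hdiag _ hdet' hut' L hL hζ hχ2' a hc hf
      (fun g hg => ⟨hrbL g hg, ht g hg⟩))
    (fun a X hf => Hcob _ a X hf)
    (fun a hc hf ht => Hgen _ hdet' hut' L hL ζ hζL hζp hζ1 hχ2' a hc hf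
      (fun g hg => ⟨hrbL g hg, ht g hg⟩))
    (fun χ hχJ hχL C hC hCL hunit => Hkum L hL ζ hζL hζp hζ1 χ hχJ hχL C hC hCL hunit)
    (W.map (h30_conjFun (h78_G p) P P⁻¹ hP hPi).toLinearMap) hcoc' htr' hflat' hcob' htriv'
  rw [← hWrank, ← hHrank]
  exact key

end Fermat.Agent.S56
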