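/-
S56 / W3 / E-RED (reducible case of the flat local bound): common definitions.
Conventions of `h78_W3Defs`: everything lives in `Ω = PadicAlgCl p`; Galois elements are absolute.
-/
import Fermat.Agent.S56.h78_W3Defs

set_option autoImplicit false

open Coalgebra WithConv

namespace Fermat.Agent.S56

variable (p : ℕ) [Fact p.Prime]

/-- **Kummer datum** of a character `ξ : Gal(Ω/F) → 𝔽_p` (given as a function on the whole group;
only its values on `Gal(Ω/F)` matter): `α ∈ L`, `α^p = u ∈ F`, `u ≡ 1 mod p`, and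
`h α = ζ^(ξ h) α` for all `h` fixing `F`. -/
def h80_KD (F L : IntermediateField ℚ_[p] (PadicAlgCl p)) (ζ : PadicAlgCl p)
    (ξ : h78_G p → ZMod p) : Prop :=
  ∃ u α : PadicAlgCl p, u ∈ F ∧ α ∈ L ∧ α ^ p = u ∧ ‖u - 1‖ ≤ (p : ℝ)⁻¹ ∧
    ∀ h : h78_G p, (∀ z ∈ F, h z = z) → h α = ζ ^ (ξ h).val * α

/-- `y` is (a lift of) the **leading coefficient** of a Kummer datum of `ξ`:
`u = 1 + p x` with `x ≡ y` modulo the maximal ideal. -/
def h80_Lead (F L : IntermediateField ℚ_[p] (PadicAlgCl p)) (ζ : PadicAlgCl p)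
    (ξ : h78_G p → ZMod p) (y : PadicAlgCl p) : Prop :=
  ∃ u α : PadicAlgCl p, u ∈ F ∧ α ∈ L ∧ α ^ p = u ∧ ‖u - 1‖ ≤ (p : ℝ)⁻¹ ∧
    ‖(u - 1) / (p : PadicAlgCl p) - y‖ < 1 ∧
    ∀ h : h78_G p, (∀ z ∈ F, h z = z) → h α = ζ ^ (ξ h).val * α

/-- `V¹`: the points congruent to the unit point modulo the maximal ideal (the points of the
connected component). -/
def h80_V1 (H : Type) [CommRing H] [Bialgebra (h78_Zp p) H] :
    Set (WithConv (H →ₐ[h78_Zp p] PadicAlgCl p)) :=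
  {f | ∀ h : H, ‖f h - algebraMap (h78_Zp p) (PadicAlgCl p) (Coalgebra.counit h)‖ < 1}

/-- The Hopf datum of a flat lift `rb + ε a` (= the conclusion of row E0 `sk_flat_datum`). -/
structure h80_Datum {k : Type} [Field k] (rb : h78_G p →* Matrix (Fin 2) (Fin 2) k)
    (a : h78_G p → Matrix (Fin 2) (Fin 2) k) where
  H : Type
  instCR : CommRing H
  instBi : Bialgebra (h78_Zp p) H
  instCo : Coalgebra.IsCocomm (h78_Zp p) H
  instFree : Module.Free (h78_Zp p) H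
  instFin : Module.Finite (h78_Zp p) H
  La : IntermediateField ℚ_[p] (PadicAlgCl p)
  instLa : FiniteDimensional ℚ_[p] La
  kill : ∀ γ : WithConv (H →ₐ[h78_Zp p] PadicAlgCl p), γ ^ p = 1
  stable : h78_Stable p La
  pts : ∀ (γ : H →ₐ[h78_Zp p] PadicAlgCl p) (h : H), γ h ∈ La
  gal : ∀ g : h78_G p, (∀ z ∈ La, g z = z) ↔ (rb g = 1 ∧ a g = 0)
  faith : ∀ g : h78_G p, (∀ z ∈ La, g z = z) ↔
    ∀ (γ : H →ₐ[h78_Zp p] PadicAlgCl p) (h : H), g (γ h) = γ h
  e : WithConv (H →ₐ[h78_Zp p] PadicAlgCl p) ≃ (Fin 2 → k) × (Fin 2 → k)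
  e_mul : ∀ f g, e (f * g) = e f + e g
  e_act : ∀ (σ : h78_G p) (f g : WithConv (H →ₐ[h78_Zp p] PadicAlgCl p)),
    (∀ h : H, g h = σ (f h)) → e g = h78_act p rb a σ (e f)

attribute [instance] h80_Datum.instCR h80_Datum.instBi h80_Datum.instCo h80_Datum.instFree
  h80_Datum.instFin h80_Datum.instLa

end Fermat.Agent.S56
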