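import Mathlib
import Fermat.Agent.S56.h80_ERedDefs
import Fermat.Agent.S56.h57_Crux

/-!
# S56 / W3 / E-RED rows QR and DEP (helper57)

Verbatim statements of helper80's E-RED skeleton (`skR_quot_rigid`, `skR_V1_one`, `skR_V1_mul`,
`skR_V1_inertia`, `skR_V1_fixed`), all corollaries of `h57_crux` (the W3 instance of the abstract
CRUX `Fermat.Agent.S33.h9_crux_abs`).
-/

set_option autoImplicit false
set_option linter.unusedSectionVars false
set_option linter.unusedVariables false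

open Coalgebra WithConv

namespace Fermat.Agent.S56

variable (p : ℕ) [Fact p.Prime]

local notation "Ω" => PadicAlgCl p
local notation "Fld" => IntermediateField ℚ_[p] (PadicAlgCl p)

/-- `V¹` in terms of `h57_Conn` (for any subfield containing the point values). -/
theorem h57_V1_iff_conn {H : Type} [CommRing H] [Bialgebra (h78_Zp p) H] (L : Fld)
    (hLpts : ∀ (γ : H →ₐ[h78_Zp p] Ω) (h : H), γ h ∈ L)
    (f : WithConv (H →ₐ[h78_Zp p] Ω)) : f ∈ h80_V1 p H ↔ h57_Conn p L f :=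
  ⟨fun hf h => ⟨L.sub_mem (hLpts f.ofConv h) (h81_algebraMap_mem p L _), hf h⟩,
    fun hf h => (hf h).2⟩

section dep
variable {H : Type} [CommRing H] [Bialgebra (h78_Zp p) H]
    [Coalgebra.IsCocomm (h78_Zp p) H] [Module.Free (h78_Zp p) H] [Module.Finite (h78_Zp p) H]

/-- `skR_V1_one`. -/
theorem h57_V1_one : (1 : WithConv (H →ₐ[h78_Zp p] Ω)) ∈ h80_V1 p H :=
  (h57_V1_iff_conn p ⊤ (fun _ _ => IntermediateField.mem_top) _).2 (h57_conn_one p ⊤)

/-- `skR_V1_mul`. -/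
theorem h57_V1_mul (f g : WithConv (H →ₐ[h78_Zp p] Ω)) (hf : f ∈ h80_V1 p H)
    (hg : g ∈ h80_V1 p H) : f * g ∈ h80_V1 p H := by
  have hpts : ∀ (γ : H →ₐ[h78_Zp p] Ω) (h : H), γ h ∈ (⊤ : Fld) :=
    fun _ _ => IntermediateField.mem_top
  exact (h57_V1_iff_conn p ⊤ hpts _).2
    (h57_conn_mul p ⊤ hpts (fun γ h => h62_point_norm_le_one p γ h) f g
      ((h57_V1_iff_conn p ⊤ hpts _).1 hf) ((h57_V1_iff_conn p ⊤ hpts _).1 hg))

/-- (i) : inertia acts trivially modulo `V¹` (`skR_V1_inertia`). -/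
theorem h57_V1_inertia (hkill : ∀ γ : WithConv (H →ₐ[h78_Zp p] Ω), γ ^ p = 1)
    (L : Fld) [FiniteDimensional ℚ_[p] L] (hL : h78_Stable p L)
    (hLpts : ∀ (γ : H →ₐ[h78_Zp p] Ω) (h : H), γ h ∈ L)
    (σ : h78_G p) (hσ : σ ∈ h78_J p L) (f g : WithConv (H →ₐ[h78_Zp p] Ω))
    (hfg : ∀ h : H, g h = σ (f h)) : ∃ d ∈ h80_V1 p H, g = f * d := by
  have hint : ∀ (γ : H →ₐ[h78_Zp p] Ω) (h : H), ‖γ h‖ ≤ 1 :=
    fun γ h => h62_point_norm_le_one p γ h
  have hp1 : 1 ≤ p := (Fact.out : p.Prime).one_lt.le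
  have h2 : f * f ^ (p - 1) = 1 := by
    rw [← pow_succ', Nat.sub_add_cancel hp1, hkill]
  refine ⟨g * f ^ (p - 1), ?_, ?_⟩
  · rw [h57_V1_iff_conn p L hLpts]
    intro h
    have h1 := h57_conv_congr p L g f (f ^ (p - 1)) (fun h' => ?_)
      (fun h' => ⟨hLpts (f ^ (p - 1)).ofConv h', hint (f ^ (p - 1)).ofConv h'⟩) h
    · rw [h2] at h1
      have h3 := (h57_max p L).add_mem h1 (h57_conn_one p L h)
      rwa [sub_add_sub_cancel] at h3
    · refine ⟨L.sub_mem (hLpts g.ofConv h') (hLpts f.ofConv h'), ?_⟩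
      rw [hfg h']
      exact h49_J_res p L σ hσ (f h') (hLpts f.ofConv h') (hint f.ofConv h')
  · rw [mul_left_comm, h2, mul_one]

/-- (ii) : `V¹` has no nontrivial inertia-fixed point (`p` odd) (`skR_V1_fixed`). -/
theorem h57_V1_fixed (hp2 : p ≠ 2) (hkill : ∀ γ : WithConv (H →ₐ[h78_Zp p] Ω), γ ^ p = 1)
    (L : Fld) [FiniteDimensional ℚ_[p] L] (hL : h78_Stable p L)
    (hLpts : ∀ (γ : H →ₐ[h78_Zp p] Ω) (h : H), γ h ∈ L)
    (f : WithConv (H →ₐ[h78_Zp p] Ω)) (hf : f ∈ h80_V1 p H)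
    (hfix : ∀ σ ∈ h78_J p L, ∀ h : H, σ (f h) = f h) : f = 1 := by
  classical
  have key := h57_crux p hp2 L hLpts (fun γ h => h62_point_norm_le_one p γ h)
    ({1} : Finset (WithConv (H →ₐ[h78_Zp p] Ω))) (Finset.mem_singleton_self _)
    (fun a ha b hb => by
      rw [Finset.mem_singleton] at ha hb ⊢
      rw [ha, hb, mul_one])
    (fun a ha => ⟨1, Finset.mem_singleton_self _, by
      rw [Finset.mem_singleton] at ha
      rw [ha, mul_one]⟩)
    (fun σ hσ n hn n' hn' => by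
      rw [Finset.mem_singleton] at hn ⊢
      apply WithConv.ofConv_injective
      ext h
      have h1 : n'.ofConv h = σ (n.ofConv h) := hn' h
      rw [h1, hn]
      exact h81_gal_algebraMap p σ _)
    f hf (by rw [hkill]; exact Finset.mem_singleton_self _)
    (fun σ hσ => ⟨1, Finset.mem_singleton_self _, fun h => by
      rw [mul_one]; exact hfix σ hσ h⟩)
  exact Finset.mem_singleton.1 key

end dep

/-- **R-QR** quotient rigidity (`skR_quot_rigid`): a corollary of the CRUX. -/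
theorem h57_quot_rigid {H : Type} [CommRing H] [Bialgebra (h78_Zp p) H]
    [Coalgebra.IsCocomm (h78_Zp p) H] [Module.Free (h78_Zp p) H] [Module.Finite (h78_Zp p) H]
    (hp2 : p ≠ 2) (hkill : ∀ γ : WithConv (H →ₐ[h78_Zp p] Ω), γ ^ p = 1)
    (L : Fld) [FiniteDimensional ℚ_[p] L] (hL : h78_Stable p L)
    (hLpts : ∀ (γ : H →ₐ[h78_Zp p] Ω) (h : H), γ h ∈ L)
    (X X' : Set (WithConv (H →ₐ[h78_Zp p] Ω)))
    (hX'1 : 1 ∈ X') (hX'X : X' ⊆ X)
    (hXmul : ∀ f ∈ X, ∀ g ∈ X, f * g ∈ X) (hX'mul : ∀ f ∈ X', ∀ g ∈ X', f * g ∈ X')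
    (hXG : ∀ (σ : h78_G p) (f g : WithConv (H →ₐ[h78_Zp p] Ω)), f ∈ X →
      (∀ h : H, g h = σ (f h)) → g ∈ X)
    (hX'G : ∀ (σ : h78_G p) (f g : WithConv (H →ₐ[h78_Zp p] Ω)), f ∈ X' →
      (∀ h : H, g h = σ (f h)) → g ∈ X')
    (hJ : ∀ σ ∈ h78_J p L, ∀ (f g : WithConv (H →ₐ[h78_Zp p] Ω)), f ∈ X →
      (∀ h : H, g h = σ (f h)) → ∃ d ∈ X', g = f * d)
    (z : WithConv (H →ₐ[h78_Zp p] Ω)) (hz : z ∈ X) (hz1 : z ∈ h80_V1 p H) : z ∈ X' := by
  classical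
  have hfin' : Finite (H →ₐ[h78_Zp p] Ω) := h71_finite_algHom
  have hfin : Finite (WithConv (H →ₐ[h78_Zp p] Ω)) :=
    Finite.of_injective (fun γ : WithConv (H →ₐ[h78_Zp p] Ω) => γ.ofConv)
      WithConv.ofConv_injective
  have : Fintype (WithConv (H →ₐ[h78_Zp p] Ω)) := Fintype.ofFinite _
  have hmem : ∀ γ : WithConv (H →ₐ[h78_Zp p] Ω),
      γ ∈ (Finset.univ.filter (fun γ : WithConv (H →ₐ[h78_Zp p] Ω) => γ ∈ X')) ↔ γ ∈ X' :=
    fun γ => by simp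
  have hp1 : 1 ≤ p := (Fact.out : p.Prime).one_lt.le
  have hpow : ∀ (a : WithConv (H →ₐ[h78_Zp p] Ω)), a ∈ X' → ∀ n : ℕ, a ^ n ∈ X' := by
    intro a ha n
    induction n with
    | zero => rw [pow_zero]; exact hX'1
    | succ n ih => rw [pow_succ]; exact hX'mul _ ih _ ha
  have key := h57_crux p hp2 L hLpts (fun γ h => h62_point_norm_le_one p γ h)
    (Finset.univ.filter (fun γ : WithConv (H →ₐ[h78_Zp p] Ω) => γ ∈ X'))
    ((hmem 1).2 hX'1)
    (fun a ha b hb => (hmem _).2 (hX'mul a ((hmem a).1 ha) b ((hmem b).1 hb)))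
    (fun a ha => ⟨a ^ (p - 1), (hmem _).2 (hpow a ((hmem a).1 ha) _), by
      rw [← pow_succ', Nat.sub_add_cancel hp1, hkill]⟩)
    (fun σ hσ n hn n' hn' => (hmem _).2 (hX'G σ n n' ((hmem n).1 hn) hn'))
    z hz1 ((hmem _).2 (by rw [hkill]; exact hX'1))
    (fun σ hσ => by
      obtain ⟨d, hd, hgd⟩ := hJ σ hσ z (toConv (h81_galPt p σ z.ofConv)) hz (fun h => rfl)
      refine ⟨d, (hmem d).2 hd, fun h => ?_⟩
      rw [← hgd]
      rfl)
  exact (hmem z).1 key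

end Fermat.Agent.S56
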