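import Mathlib
import Fermat.Agent.S56.h88_RedShapeLoc
import Fermat.Agent.S56.h78_RedDefs
import Fermat.Agent.S56.h81_FlatDatum
import Fermat.Agent.S56.h57_ERedQR
import Fermat.Agent.S56.h30_RedConj

/-!
# S56 / W3 E-RED, row RED-S3: `sk_red_lower_left`, `sk_red_diag`, `sk_red_flat_cob`,
`sk_red_flat_conj` (helper88)

The bridge from the Hopf datum of a flat class to the `V`-language statement `(NS-V)`
(`(J - 1) V_a ∩ ε V ⊆ ε k e₀`; from `h57_V1_inertia` and `h57_crux`), and the four skeleton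
statements of route R77 assigned to RED-S3 (3)+(4), verbatim.
-/

set_option autoImplicit false
set_option linter.unusedVariables false

open Coalgebra WithConv

namespace Fermat.Agent.S56

variable (p : ℕ) [Fact p.Prime]

local notation "Ω" => PadicAlgCl p
local notation "Fld" => IntermediateField ℚ_[p] (PadicAlgCl p)

section bridge

variable {H : Type} [CommRing H] [Bialgebra (h78_Zp p) H]
  [Coalgebra.IsCocomm (h78_Zp p) H] [Module.Free (h78_Zp p) H] [Module.Finite (h78_Zp p) H]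

/-- `(NS-V)` from the Hopf datum of a flat class: `(J_L - 1) V_a ∩ ε V ⊆ ε k e₀`. -/
theorem h88_NS_of_datum (hp2 : p ≠ 2) {k : Type} [Field k] [Finite k]
    (rb : h78_G p →* Matrix (Fin 2) (Fin 2) k) (hU : ∀ g, rb g 1 0 = 0)
    (a : h78_G p → Matrix (Fin 2) (Fin 2) k)
    (hkill : ∀ γ : WithConv (H →ₐ[h78_Zp p] Ω), γ ^ p = 1)
    (L : Fld) [FiniteDimensional ℚ_[p] L] (hL : h78_Stable p L)
    (hLpts : ∀ (γ : H →ₐ[h78_Zp p] Ω) (h : H), γ h ∈ L)
    (hχ2 : ∀ s ∈ h78_J p L, rb s 1 1 = 1)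
    (e : WithConv (H →ₐ[h78_Zp p] Ω) ≃ (Fin 2 → k) × (Fin 2 → k))
    (he_mul : ∀ f g, e (f * g) = e f + e g)
    (he_act : ∀ (σ : h78_G p) (f g : WithConv (H →ₐ[h78_Zp p] Ω)),
      (∀ h : H, g h = σ (f h)) → e g = h78_act p rb a σ (e f)) :
    ∀ y ∈ AddSubgroup.closure {y | ∃ σ ∈ h78_J p L, ∃ u, y = h78_act p rb a σ u - u},
      y.1 = 0 → y.2 1 = 0 := by
  classical
  have hp : p.Prime := Fact.out
  have he1 : e 1 = 0 := by
    have h := he_mul 1 1
    rw [mul_one] at h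
    exact left_eq_add.1 h
  have hepow : ∀ (γ : WithConv (H →ₐ[h78_Zp p] Ω)) (n : ℕ), e (γ ^ n) = n • e γ := by
    intro γ n
    induction n with
    | zero => rw [pow_zero, zero_smul, he1]
    | succ n ih => rw [pow_succ, he_mul, ih, succ_nsmul]
  have hsymm_add : ∀ x y, e.symm (x + y) = e.symm x * e.symm y := by
    intro x y
    apply e.injective
    rw [he_mul, Equiv.apply_symm_apply, Equiv.apply_symm_apply, Equiv.apply_symm_apply]
  have hsymm_neg : ∀ x, e.symm (-x) = e.symm x ^ (p - 1) := by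
    intro x
    apply e.injective
    rw [Equiv.apply_symm_apply, hepow, Equiv.apply_symm_apply]
    have h1 : (p - 1) • x + x = 0 := by
      have h2 := hepow (e.symm x) p
      rw [hkill, he1, Equiv.apply_symm_apply] at h2
      rw [← succ_nsmul, Nat.sub_add_cancel hp.one_le]
      exact h2.symm
    exact (eq_neg_of_add_eq_zero_left h1).symm
  have hV1pow : ∀ (γ : WithConv (H →ₐ[h78_Zp p] Ω)), γ ∈ h80_V1 p H → ∀ n : ℕ,
      γ ^ n ∈ h80_V1 p H := by
    intro γ hγ n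
    induction n with
    | zero => rw [pow_zero]; exact h57_V1_one p
    | succ n ih => rw [pow_succ]; exact h57_V1_mul p _ _ ih hγ
  -- the points of `(J - 1) V` are connected
  have hconn : ∀ y ∈ AddSubgroup.closure {y | ∃ σ ∈ h78_J p L, ∃ u, y = h78_act p rb a σ u - u},
      e.symm y ∈ h80_V1 p H := by
    intro y hy
    induction hy using AddSubgroup.closure_induction with
    | mem y hy =>
      obtain ⟨σ, hσ, u, rfl⟩ := hy
      obtain ⟨d, hd, hgd⟩ := h57_V1_inertia p hkill L hL hLpts σ hσ (e.symm u)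
        (h78_gal p σ (e.symm u)) (fun h => rfl)
      have h1 : e (h78_gal p σ (e.symm u)) = h78_act p rb a σ u := by
        rw [he_act σ (e.symm u) (h78_gal p σ (e.symm u)) (fun h => rfl), Equiv.apply_symm_apply]
      have h2 : e d = h78_act p rb a σ u - u := by
        rw [hgd, he_mul, Equiv.apply_symm_apply] at h1
        rw [← h1, add_sub_cancel_left]
      rw [← h2, Equiv.symm_apply_apply]
      exact hd
    | zero =>
      have : e.symm 0 = 1 := by rw [← he1, Equiv.symm_apply_apply]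
      rw [this]
      exact h57_V1_one p
    | add x y _ _ hx hy =>
      rw [hsymm_add]
      exact h57_V1_mul p _ _ hx hy
    | neg x _ hx =>
      rw [hsymm_neg]
      exact hV1pow _ hx _
  intro y hy hy1
  have : Finite (WithConv (H →ₐ[h78_Zp p] Ω)) := Finite.of_equiv _ e.symm
  have : Fintype (WithConv (H →ₐ[h78_Zp p] Ω)) := Fintype.ofFinite _
  let N : Finset (WithConv (H →ₐ[h78_Zp p] Ω)) :=
    Finset.univ.filter fun γ => (e γ).1 = 0 ∧ (e γ).2 1 = 0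
  have hN : ∀ γ, γ ∈ N ↔ (e γ).1 = 0 ∧ (e γ).2 1 = 0 := by
    intro γ
    simp only [N, Finset.mem_filter, Finset.mem_univ, true_and]
  have hN1 : (1 : WithConv (H →ₐ[h78_Zp p] Ω)) ∈ N := by
    rw [hN, he1]
    exact ⟨rfl, rfl⟩
  have hNmul : ∀ γ ∈ N, ∀ γ' ∈ N, γ * γ' ∈ N := by
    intro γ hγ γ' hγ'
    rw [hN] at hγ hγ' ⊢
    rw [he_mul]
    refine ⟨?_, ?_⟩
    · rw [Prod.fst_add, hγ.1, hγ'.1, add_zero]
    · rw [Prod.snd_add, Pi.add_apply, hγ.2, hγ'.2, add_zero]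
  have hNpow : ∀ γ ∈ N, ∀ n : ℕ, γ ^ n ∈ N := by
    intro γ hγ n
    induction n with
    | zero => rw [pow_zero]; exact hN1
    | succ n ih => rw [pow_succ]; exact hNmul _ ih _ hγ
  have hNinv : ∀ γ ∈ N, ∃ γ' ∈ N, γ * γ' = 1 := by
    intro γ hγ
    refine ⟨γ ^ (p - 1), hNpow γ hγ _, ?_⟩
    rw [← pow_succ', Nat.sub_add_cancel hp.one_le, hkill]
  have hNJ : ∀ σ ∈ h78_J p L, ∀ n ∈ N, ∀ n' : WithConv (H →ₐ[h78_Zp p] Ω),
      (∀ h : H, n' h = σ (n h)) → n' ∈ N := by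
    intro σ _ n hn n' hn'
    rw [hN] at hn ⊢
    rw [he_act σ n n' hn']
    refine ⟨?_, ?_⟩
    · simp [h78_act, hn.1]
    · simp [h78_act, hn.1, hn.2, hU]
  have hx1 := hconn y hy
  have hxI : ∀ σ ∈ h78_J p L, ∃ n ∈ N, ∀ h : H, σ ((e.symm y) h) = (e.symm y * n) h := by
    intro σ hσ
    refine ⟨e.symm (h78_act p rb a σ y - y), ?_, ?_⟩
    · rw [hN, Equiv.apply_symm_apply]
      refine ⟨?_, ?_⟩
      · simp [h78_act, hy1]
      · simp [h78_act, hy1, hU, hχ2 σ hσ]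
    · have h1 : h78_gal p σ (e.symm y) = e.symm y * e.symm (h78_act p rb a σ y - y) := by
        apply e.injective
        rw [he_act σ (e.symm y) (h78_gal p σ (e.symm y)) (fun h => rfl), he_mul,
          Equiv.apply_symm_apply, Equiv.apply_symm_apply, add_sub_cancel]
      intro h
      rw [← h1]
      rfl
  have key := h57_crux p hp2 L hLpts (fun γ h => h62_point_norm_le_one p γ h) N hN1 hNmul hNinv
    hNJ (e.symm y) hx1 (by rw [hkill]; exact hN1) hxI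
  rw [hN, Equiv.apply_symm_apply] at key
  exact key.2

end bridge

/-- the point values of a flat class lie in every field trivialising it. -/
theorem h88_mem_of_triv {k : Type} [Field k]
    (rb : h78_G p →* Matrix (Fin 2) (Fin 2) k) (a : h78_G p → Matrix (Fin 2) (Fin 2) k)
    (La L : Fld) [FiniteDimensional ℚ_[p] L]
    (hgal : ∀ g : h78_G p, (∀ z ∈ La, g z = z) ↔ (rb g = 1 ∧ a g = 0))
    (htriv : ∀ g ∈ L.fixingSubgroup, rb g = 1 ∧ a g = 0) (x : Ω) (hx : x ∈ La) : x ∈ L := by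
  refine h62_mem_of_fixed p L x fun g hg => ?_
  have hg' : g ∈ L.fixingSubgroup := (IntermediateField.mem_fixingSubgroup_iff _ _).2 hg
  exact (hgal g).2 (htriv g hg') x hx

/-- `(NS-V)` for a flat class `a` over any finite stable field `L` trivialising `rb` and `a`. -/
theorem h88_NS_of_flat (hp2 : p ≠ 2) {k : Type} [Field k] [Finite k] [CharP k p]
    (rb : h78_G p →* Matrix (Fin 2) (Fin 2) k) (hut : ∀ g, rb g 1 0 = 0)
    (L : Fld) [FiniteDimensional ℚ_[p] L] (hL : h78_Stable p L)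
    (hχ2 : ∀ s ∈ h78_J p L, rb s 1 1 = 1)
    (a : h78_G p → Matrix (Fin 2) (Fin 2) k)
    (hcoc : ∀ s t, a (s * t) = a s * rb t + rb s * a t) (hfl : h78_LocFlat p rb a)
    (htriv : ∀ g ∈ L.fixingSubgroup, rb g = 1 ∧ a g = 0) :
    ∀ y ∈ AddSubgroup.closure {y | ∃ σ ∈ h78_J p L, ∃ u, y = h78_act p rb a σ u - u},
      y.1 = 0 → y.2 1 = 0 := by
  obtain ⟨H, i1, i2, i3, i4, i5, La, i6, hkill, -, hpts, hgal, -, e, he_mul, he_act⟩ :=
    h81_flat_datum p rb a hcoc hfl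
  exact h88_NS_of_datum p hp2 rb hut a hkill L hL
    (fun γ h => h88_mem_of_triv p rb a La L hgal htriv _ (hpts γ h)) hχ2 e he_mul he_act

/-- an element of inertia on which the upper left character is nontrivial. -/
theorem h88_exists_tau_chi1 (hp2 : p ≠ 2) {k : Type} [Field k] [CharP k p]
    (rb : h78_G p →* Matrix (Fin 2) (Fin 2) k)
    (hdet : ∀ (g : h78_G p) (ζ : Ω), ζ ^ p = 1 → ∃ n : ℕ, g ζ = ζ ^ n ∧ (rb g).det = (n : k))
    (hut : ∀ g, rb g 1 0 = 0)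
    (L : Fld) [FiniteDimensional ℚ_[p] L]
    (hχ2 : ∀ s ∈ h78_J p L, rb s 1 1 = 1) :
    ∃ τ₀ ∈ h78_J p L, rb τ₀ 0 0 ≠ 1 := by
  obtain ⟨ζ, hζ, hζ1⟩ := h88_exists_zeta p
  obtain ⟨τ₀, hτ₀, -, hne⟩ := h88_exists_J_zeta_ne p hp2 L ζ hζ hζ1
  refine ⟨τ₀, hτ₀, fun h1 => hne ?_⟩
  obtain ⟨n, hn, hdetn⟩ := hdet τ₀ ζ hζ
  rw [Matrix.det_fin_two, hut τ₀, mul_zero, sub_zero, hχ2 τ₀ hτ₀, mul_one, h1] at hdetn
  have h2 : ((n : ℕ) : k) = ((1 : ℕ) : k) := by rw [← hdetn, Nat.cast_one]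
  rw [CharP.natCast_eq_natCast k p] at h2
  rw [hn, (h88_zeta_pow_eq_iff p ζ hζ hζ1 n 1).2 h2, pow_one]

/-- `sk_red_lower_left` verbatim: (3) LOWER LEFT: the lower left entry of a flat class is a
coboundary. -/
theorem h88_red_lower_left (hp2 : p ≠ 2) {k : Type} [Field k] [Finite k] [CharP k p]
    (rb : h78_G p →* Matrix (Fin 2) (Fin 2) k)
    (hdet : ∀ (g : h78_G p) (ζ : Ω), ζ ^ p = 1 → ∃ n : ℕ, g ζ = ζ ^ n ∧ (rb g).det = (n : k))
    (hut : ∀ g, rb g 1 0 = 0)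
    (L : Fld) [FiniteDimensional ℚ_[p] L] (hL : h78_Stable p L)
    (hζ : ∀ ζ : Ω, ζ ^ p = 1 → ζ ∈ L) (hχ2 : ∀ s ∈ h78_J p L, rb s 1 1 = 1)
    (a : h78_G p → Matrix (Fin 2) (Fin 2) k)
    (hcoc : ∀ s t, a (s * t) = a s * rb t + rb s * a t) (hfl : h78_LocFlat p rb a)
    (htriv : ∀ g ∈ L.fixingSubgroup, rb g = 1 ∧ a g = 0) :
    ∃ β : k, ∀ g, a g 1 0 = β * (rb g 0 0 - rb g 1 1) := by
  obtain ⟨τ₀, hτ₀, hτ₀1⟩ := h88_exists_tau_chi1 p hp2 rb hdet hut L hχ2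
  obtain ⟨β, h3, -⟩ := h88_red_shape_beta rb hut (h78_J p L) hχ2 τ₀ hτ₀
    (fun g => h88_J_conj p L hL g τ₀ hτ₀) hτ₀1 a hcoc
    (h88_NS_of_flat p hp2 rb hut L hL hχ2 a hcoc hfl htriv)
  exact ⟨β, h3⟩

/-- `sk_red_diag` verbatim: (4) DIAGONAL: an upper triangular flat class has unramified lower
right entry. -/
theorem h88_red_diag (hp2 : p ≠ 2) {k : Type} [Field k] [Finite k] [CharP k p]
    (rb : h78_G p →* Matrix (Fin 2) (Fin 2) k)
    (hdet : ∀ (g : h78_G p) (ζ : Ω), ζ ^ p = 1 → ∃ n : ℕ, g ζ = ζ ^ n ∧ (rb g).det = (n : k))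
    (hut : ∀ g, rb g 1 0 = 0)
    (L : Fld) [FiniteDimensional ℚ_[p] L] (hL : h78_Stable p L)
    (hζ : ∀ ζ : Ω, ζ ^ p = 1 → ζ ∈ L) (hχ2 : ∀ s ∈ h78_J p L, rb s 1 1 = 1)
    (a : h78_G p → Matrix (Fin 2) (Fin 2) k)
    (hcoc : ∀ s t, a (s * t) = a s * rb t + rb s * a t) (hfl : h78_LocFlat p rb a)
    (htriv : ∀ g ∈ L.fixingSubgroup, rb g = 1 ∧ a g = 0)
    (hll : ∀ g, a g 1 0 = 0) : ∀ s ∈ h78_J p L, a s 1 1 = 0 := by
  obtain ⟨τ₀, hτ₀, hτ₀1⟩ := h88_exists_tau_chi1 p hp2 rb hdet hut L hχ2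
  obtain ⟨β, h3, h4⟩ := h88_red_shape_beta rb hut (h78_J p L) hχ2 τ₀ hτ₀
    (fun g => h88_J_conj p L hL g τ₀ hτ₀) hτ₀1 a hcoc
    (h88_NS_of_flat p hp2 rb hut L hL hχ2 a hcoc hfl htriv)
  have hβ : β = 0 := by
    have h5 := h3 τ₀
    rw [hll, hχ2 τ₀ hτ₀] at h5
    exact (mul_eq_zero.1 h5.symm).resolve_right (sub_ne_zero.2 hτ₀1)
  intro s hs
  rw [h4 s hs, hβ, zero_mul]

/-- `sk_red_flat_cob` verbatim: transport of flatness along a coboundary
(`e' (v, w) = (v, w - X v)`). -/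
theorem h88_red_flat_cob {k : Type} [Field k]
    (rb : h78_G p →* Matrix (Fin 2) (Fin 2) k) (a : h78_G p → Matrix (Fin 2) (Fin 2) k)
    (X : Matrix (Fin 2) (Fin 2) k) (hfl : h78_LocFlat p rb a) :
    h78_LocFlat p rb (fun g => a g - (X * rb g - rb g * X)) := by
  obtain ⟨H, i1, i2, hfin, hflat, hcc, e, hadd, hequiv⟩ := hfl
  let T : (Fin 2 → k) × (Fin 2 → k) ≃ (Fin 2 → k) × (Fin 2 → k) :=
    { toFun := fun v => (v.1, v.2 - X.mulVec v.1)
      invFun := fun v => (v.1, v.2 + X.mulVec v.1)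
      left_inv := fun v => Prod.ext rfl (sub_add_cancel _ _)
      right_inv := fun v => Prod.ext rfl (add_sub_cancel_right _ _) }
  refine ⟨H, i1, i2, hfin, hflat, hcc, e.trans T, ?_, ?_⟩
  · intro f g
    show T (e (f * g)) = T (e f) + T (e g)
    rw [hadd]
    refine Prod.ext rfl ?_
    show (e f + e g).2 - X.mulVec (e f + e g).1
      = ((e f).2 - X.mulVec (e f).1) + ((e g).2 - X.mulVec (e g).1)
    rw [Prod.snd_add, Prod.fst_add, Matrix.mulVec_add]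
    abel
  · intro σ f g hfg
    show T (e g) = h78_act p rb _ σ (T (e f))
    rw [hequiv σ f g hfg]
    refine Prod.ext rfl ?_
    show (a σ).mulVec (e f).1 + (rb σ).mulVec (e f).2 - X.mulVec ((rb σ).mulVec (e f).1)
      = (a σ - (X * rb σ - rb σ * X)).mulVec (e f).1
        + (rb σ).mulVec ((e f).2 - X.mulVec (e f).1)
    rw [Matrix.sub_mulVec, Matrix.sub_mulVec, Matrix.mulVec_sub, Matrix.mulVec_mulVec,
      Matrix.mulVec_mulVec]
    abel

/-- `sk_red_flat_conj` verbatim: transport of flatness along a change of basis. -/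
theorem h88_red_flat_conj {k : Type} [Field k]
    (rb rb' : h78_G p →* Matrix (Fin 2) (Fin 2) k) (a : h78_G p → Matrix (Fin 2) (Fin 2) k)
    (P : Matrix (Fin 2) (Fin 2) k) (hP : IsUnit P.det) (hrb' : ∀ g, rb' g = P⁻¹ * rb g * P)
    (hfl : h78_LocFlat p rb a) : h78_LocFlat p rb' (fun g => P⁻¹ * a g * P) := by
  have h := h30_locFlat_conj p P P⁻¹ (Matrix.mul_nonsing_inv P hP) (Matrix.nonsing_inv_mul P hP)
    rb a hfl
  have h2 : (rb' : h78_G p → Matrix (Fin 2) (Fin 2) k) = fun s => P⁻¹ * rb s * P :=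
    funext hrb'
  rw [h2]
  exact h

end Fermat.Agent.S56
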