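import Mathlib
import Fermat.Agent.S56.h78_RedAsm
import Fermat.Agent.S56.h88_RedBridge
import Fermat.Agent.S56.h11_RedS4b
import Fermat.Agent.S56.h6_RedS1
import Fermat.Agent.S56.h93_RedD
import Fermat.Agent.S56.h77_RedUnit

/-!
# S56 / W3 / E-RED (route R77): closing wiring

* `h78_red_gen` : the row `sk_red_gen` of the skeleton, closed (from `h11_red_gen_of` with
  `[C]` = `h6_red_C`, `[D]` = `h93_red_D`, `[UNIT]` = `h77_red_unit`).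
* `h78_bound_red_of2` : `sk_bound_red` from the two remaining row statements
  (`sk_red_type` and `sk_red_kum_count`), every other row plugged with its landed theorem.
-/

set_option autoImplicit false

open Coalgebra WithConv

namespace Fermat.Agent.S56

variable (p : ℕ) [Fact p.Prime]

local notation "Ω" => PadicAlgCl p
local notation "Fld" => IntermediateField ℚ_[p] (PadicAlgCl p)

/-- `sk_red_gen`, closed. -/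
theorem h78_red_gen (hp2 : p ≠ 2) {k : Type} [Field k] [Finite k] [CharP k p]
    (rb : h78_G p →* Matrix (Fin 2) (Fin 2) k)
    (hdet : ∀ (g : h78_G p) (ζ : Ω), ζ ^ p = 1 → ∃ n : ℕ, g ζ = ζ ^ n ∧ (rb g).det = (n : k))
    (hut : ∀ g, rb g 1 0 = 0)
    (L : Fld) [FiniteDimensional ℚ_[p] L] (hL : h78_Stable p L)
    (ζ : Ω) (hζL : ζ ∈ L) (hζp : ζ ^ p = 1) (hζ1 : ζ ≠ 1)
    (hχ2 : ∀ s ∈ h78_J p L, rb s 1 1 = 1)
    (a : h78_G p → Matrix (Fin 2) (Fin 2) k)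
    (hcoc : ∀ s t, a (s * t) = a s * rb t + rb s * a t) (hfl : h78_LocFlat p rb a)
    (htriv : ∀ g ∈ L.fixingSubgroup, rb g = 1 ∧ a g = 0)
    (hll : ∀ g, a g 1 0 = 0) (hd0 : ∀ s ∈ h78_J p L, a s 0 0 = 0)
    (hd1 : ∀ s ∈ h78_J p L, a s 1 1 = 0) (μ lam : k) (ℓ : k →+ ZMod p) :
    ∃ v ∈ L, ‖v‖ = 1 ∧ v ^ p ∈ h78_K0 p L ∧
      ∀ s ∈ h78_J p L, s v = ζ ^ (ℓ (μ * a s 0 1 + lam * rb s 0 1)).val * v :=
  h11_red_gen_of p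
    (fun _ _ _ _ _ _ hkill L _ hLpts s hs y => h6_red_C p hkill L hLpts s hs y)
    (fun _ _ _ _ _ _ L _ hL hLpts ζ hζL hζp hζ1 y hy hfix =>
      h93_red_D p L hL hLpts ζ hζL hζp hζ1 y hy hfix)
    (fun _ _ _ _ _ _ hp2 hkill L _ hL hLpts ζ hζL hζp hζ1 Z hZT hZJ χ hχ y hyJ =>
      h77_red_unit p hp2 hkill L hL hLpts ζ hζL hζp hζ1 Z hZT hZJ χ hχ y hyJ)
    hp2 rb hdet hut L hL ζ hζL hζp hζ1 hχ2 a hcoc hfl htriv hll hd0 hd1 μ lam ℓ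

/-- `sk_bound_red` from the two remaining rows `sk_red_type` and `sk_red_kum_count`. -/
theorem h78_bound_red_of2 (hp2 : p ≠ 2) {k : Type} [Field k] [Finite k] [CharP k p]
    (Htype : ∀ (rb : h78_G p →* Matrix (Fin 2) (Fin 2) k),
      (∀ (g : h78_G p) (ζ : Ω), ζ ^ p = 1 → ∃ n : ℕ, g ζ = ζ ^ n ∧ (rb g).det = (n : k)) →
      (∃ v : Fin 2 → k, v ≠ 0 ∧ ∀ g, ∃ c : k, (rb g).mulVec v = c • v) →
      ∀ (a₀ : h78_G p → Matrix (Fin 2) (Fin 2) k),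
      (∀ s t, a₀ (s * t) = a₀ s * rb t + rb s * a₀ t) → h78_LocFlat p rb a₀ →
      ∀ (L : Fld) [FiniteDimensional ℚ_[p] L], h78_Stable p L →
      (∀ ζ : Ω, ζ ^ p = 1 → ζ ∈ L) →
      (∀ g ∈ L.fixingSubgroup, rb g = 1 ∧ a₀ g = 0) →
      ∃ P : Matrix (Fin 2) (Fin 2) k, IsUnit P.det ∧ (∀ g, (P⁻¹ * rb g * P) 1 0 = 0) ∧
        ∀ s ∈ h78_J p L, (P⁻¹ * rb s * P) 1 1 = 1)
    (Hkum : ∀ (L : Fld) [FiniteDimensional ℚ_[p] L], h78_Stable p L →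
      ∀ (ζ : Ω), ζ ∈ L → ζ ^ p = 1 → ζ ≠ 1 → ∀ (χ : h78_G p →* kˣ),
      (∀ s ∈ h78_J p L, ∀ n : ℕ, s ζ = ζ ^ n → ((χ s : kˣ) : k) = (n : k)) →
      (∀ g ∈ L.fixingSubgroup, χ g = 1) →
      ∀ C : Submodule k (h78_G p → k),
      (∀ c ∈ C, ∀ s t, c (s * t) = c s + ((χ s : kˣ) : k) * c t) →
      (∀ c ∈ C, ∀ g ∈ L.fixingSubgroup, c g = 0) →
      (∀ c ∈ C, ∀ ℓ : k →+ ZMod p, ∃ v ∈ L, ‖v‖ = 1 ∧ v ^ p ∈ h78_K0 p L ∧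
        ∀ s ∈ h78_J p L, s ζ = ζ → s v = ζ ^ (ℓ (c s)).val * v) →
      ∀ c₁ ∈ C, ∀ c₂ ∈ C, ∃ x₁ x₂ y : k, (x₁ ≠ 0 ∨ x₂ ≠ 0) ∧
        ∀ g, x₁ * c₁ g + x₂ * c₂ g = y * (((χ g : kˣ) : k) - 1))
    (rb : h78_G p →* Matrix (Fin 2) (Fin 2) k)
    (hdet : ∀ (g : h78_G p) (ζ : Ω), ζ ^ p = 1 → ∃ n : ℕ, g ζ = ζ ^ n ∧ (rb g).det = (n : k))
    (hred : ∃ v : Fin 2 → k, v ≠ 0 ∧ ∀ g, ∃ c : k, (rb g).mulVec v = c • v)
    (W : Submodule k (h78_G p → Matrix (Fin 2) (Fin 2) k))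
    (hcoc : ∀ a ∈ W, ∀ s t, a (s * t) = a s * rb t + rb s * a t)
    (htr : ∀ a ∈ W, ∀ s, (a s * rb s⁻¹).trace = 0)
    (hflat : ∀ a ∈ W, a ≠ 0 → h78_LocFlat p rb a)
    (hcob : ∀ a ∈ W, (∃ X : Matrix (Fin 2) (Fin 2) k, ∀ s, a s = X * rb s - rb s * X) → a = 0) :
    Module.finrank k W ≤ Module.finrank k (h78_H0 p rb) + 1 :=
  h78_bound_red_of p hp2 Htype
    (fun rb hdet hut L _ hL hζ hχ2 a hcoc hfl htriv =>
      h88_red_lower_left p hp2 rb hdet hut L hL hζ hχ2 a hcoc hfl htriv)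
    (fun rb hdet hut L _ hL hζ hχ2 a hcoc hfl htriv hll =>
      h88_red_diag p hp2 rb hdet hut L hL hζ hχ2 a hcoc hfl htriv hll)
    (fun rb a X hfl => h88_red_flat_cob p rb a X hfl)
    (fun rb hdet hut L _ hL ζ hζL hζp hζ1 hχ2 a hcoc hfl htriv hll hd0 hd1 μ lam ℓ =>
      h78_red_gen p hp2 rb hdet hut L hL ζ hζL hζp hζ1 hχ2 a hcoc hfl htriv hll hd0 hd1 μ lam ℓ)
    Hkum rb hdet hred W hcoc htr hflat hcob

end Fermat.Agent.S56
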