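/-
S56 / W3 E-RED: the abstract count.  `rb` upper triangular, `W` a space of upper triangular
cocycles with trace zero and without coboundaries, whose diagonal is "unramified" (trivial on a
subgroup `J` with `Γ/J` generated by `φ0`), and a Kummer functional `E` on a space `Z` of
upper-right cocycles (additive, Frobenius-semilinear, injective up to coboundaries).  Then
`dim W ≤ 1`, or `dim W ≤ 2` and `rb` commutes with a nonzero trace-zero matrix.
-/
import Fermat.Agent.S56.h11_RedCount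

set_option autoImplicit false

namespace Fermat.Agent.S56

section RedCountAbs

variable (p : ℕ) [Fact p.Prime] {Γ : Type*} [Group Γ] {k : Type*} [Field k]

/-! ### upper triangular `2 × 2` representations -/

theorem h11_ut_mul00 (rb : Γ →* Matrix (Fin 2) (Fin 2) k) (hut : ∀ g, rb g 1 0 = 0) (s t : Γ) :
    rb (s * t) 0 0 = rb s 0 0 * rb t 0 0 := by
  rw [map_mul, Matrix.mul_apply, Fin.sum_univ_two, hut t, mul_zero, add_zero]

theorem h11_ut_mul11 (rb : Γ →* Matrix (Fin 2) (Fin 2) k) (hut : ∀ g, rb g 1 0 = 0) (s t : Γ) :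
    rb (s * t) 1 1 = rb s 1 1 * rb t 1 1 := by
  rw [map_mul, Matrix.mul_apply, Fin.sum_univ_two, hut s, zero_mul, zero_add]

theorem h11_ut_ne00 (rb : Γ →* Matrix (Fin 2) (Fin 2) k) (hut : ∀ g, rb g 1 0 = 0) (g : Γ) :
    rb g 0 0 ≠ 0 := by
  intro h0
  have h1 := h11_ut_mul00 rb hut g g⁻¹
  rw [mul_inv_cancel, map_one, h0, zero_mul] at h1
  simp at h1

theorem h11_ut_ne11 (rb : Γ →* Matrix (Fin 2) (Fin 2) k) (hut : ∀ g, rb g 1 0 = 0) (g : Γ) :
    rb g 1 1 ≠ 0 := by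
  intro h0
  have h1 := h11_ut_mul11 rb hut g g⁻¹
  rw [mul_inv_cancel, map_one, h0, zero_mul] at h1
  simp at h1

/-- the `(1,1)`-entry of an upper triangular cocycle -/
theorem h11_ut_coc11 (rb : Γ →* Matrix (Fin 2) (Fin 2) k) (hut : ∀ g, rb g 1 0 = 0)
    (a : Γ → Matrix (Fin 2) (Fin 2) k)
    (hcoc : ∀ s t, a (s * t) = a s * rb t + rb s * a t) (haut : ∀ g, a g 1 0 = 0) (s t : Γ) :
    a (s * t) 1 1 = a s 1 1 * rb t 1 1 + rb s 1 1 * a t 1 1 := by
  rw [hcoc, Matrix.add_apply, Matrix.mul_apply, Matrix.mul_apply, Fin.sum_univ_two,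
    Fin.sum_univ_two, haut s, hut s, zero_mul, zero_mul, zero_add, zero_add]

/-- an upper triangular cocycle whose `(1,1)`-entry vanishes on `J` and at `φ0` has vanishing
`(1,1)`-entry, if `Γ/J` is generated by `φ0`. -/
theorem h11_ut_diag_zero (rb : Γ →* Matrix (Fin 2) (Fin 2) k) (hut : ∀ g, rb g 1 0 = 0)
    (a : Γ → Matrix (Fin 2) (Fin 2) k)
    (hcoc : ∀ s t, a (s * t) = a s * rb t + rb s * a t) (haut : ∀ g, a g 1 0 = 0)
    (J : Subgroup Γ) (φ0 : Γ) (hcyc : ∀ g : Γ, ∃ j : ℕ, g * φ0⁻¹ ^ j ∈ J)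
    (hJ : ∀ g ∈ J, a g 1 1 = 0) (hφ : a φ0 1 1 = 0) (g : Γ) : a g 1 1 = 0 := by
  have hpow : ∀ j : ℕ, a (φ0 ^ j) 1 1 = 0 := by
    intro j
    induction j with
    | zero =>
      have h1 := h11_ut_coc11 rb hut a hcoc haut 1 1
      rw [mul_one, map_one, Matrix.one_apply_eq, mul_one, one_mul] at h1
      have h2 : a 1 1 1 = 0 := by
        have h3 : a 1 1 1 + a 1 1 1 = a 1 1 1 + 0 := by rw [add_zero]; exact h1.symm
        exact add_left_cancel h3
      rw [pow_zero]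
      exact h2
    | succ j ih =>
      rw [pow_succ, h11_ut_coc11 rb hut a hcoc haut, ih, hφ, zero_mul, mul_zero, add_zero]
  obtain ⟨j, hj⟩ := hcyc g
  have hg : g = (g * φ0⁻¹ ^ j) * φ0 ^ j := by
    rw [mul_assoc, inv_pow, inv_mul_cancel, mul_one]
  rw [hg, h11_ut_coc11 rb hut a hcoc haut, hJ _ hj, hpow j, zero_mul, mul_zero, add_zero]

/-- an upper triangular trace-zero cocycle with vanishing `(1,1)`-entry has vanishing
`(0,0)`-entry. -/
theorem h11_ut_diag00 (rb : Γ →* Matrix (Fin 2) (Fin 2) k) (hut : ∀ g, rb g 1 0 = 0)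
    (a : Γ → Matrix (Fin 2) (Fin 2) k) (htr : ∀ s, (a s * rb s⁻¹).trace = 0)
    (haut : ∀ g, a g 1 0 = 0) (h11 : ∀ g, a g 1 1 = 0) (g : Γ) : a g 0 0 = 0 := by
  have h1 := htr g
  rw [Matrix.trace_fin_two, Matrix.mul_apply, Matrix.mul_apply, Fin.sum_univ_two,
    Fin.sum_univ_two, hut g⁻¹, haut g, h11 g, mul_zero, zero_mul, zero_mul, add_zero, add_zero,
    add_zero] at h1
  exact (mul_eq_zero.mp h1).resolve_right (h11_ut_ne00 rb hut g⁻¹)

/-- an upper triangular cocycle with zero diagonal whose upper right entry is a combination of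
the two "trivial" cocycles is a coboundary. -/
theorem h11_ut_cob (rb : Γ →* Matrix (Fin 2) (Fin 2) k) (hut : ∀ g, rb g 1 0 = 0)
    (a : Γ → Matrix (Fin 2) (Fin 2) k) (haut : ∀ g, a g 1 0 = 0) (h00 : ∀ g, a g 0 0 = 0)
    (h11 : ∀ g, a g 1 1 = 0) (x c : k)
    (h : ∀ g, a g 0 1 / rb g 1 1 = x * (rb g 0 0 / rb g 1 1 - 1) + c * (rb g 0 1 / rb g 1 1)) :
    ∃ X : Matrix (Fin 2) (Fin 2) k, ∀ s, a s = X * rb s - rb s * X := by
  obtain ⟨X, hX00, hX01, hX10, hX11⟩ : ∃ X : Matrix (Fin 2) (Fin 2) k,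
      X 0 0 = c ∧ X 0 1 = -x ∧ X 1 0 = 0 ∧ X 1 1 = 0 := ⟨!![c, -x; 0, 0], rfl, rfl, rfl, rfl⟩
  refine ⟨X, fun s => ?_⟩
  have h2 : rb s 1 1 ≠ 0 := h11_ut_ne11 rb hut s
  have h01 : a s 0 1 = x * (rb s 0 0 - rb s 1 1) + c * rb s 0 1 := by
    have h3 := h s
    field_simp at h3
    linear_combination h3
  ext i j
  rw [Matrix.sub_apply, Matrix.mul_apply, Matrix.mul_apply, Fin.sum_univ_two, Fin.sum_univ_two]
  fin_cases i <;> fin_cases j
  · show a s 0 0 = X 0 0 * rb s 0 0 + X 0 1 * rb s 1 0 - (rb s 0 0 * X 0 0 + rb s 0 1 * X 1 0)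
    rw [hX00, hX01, hX10, h00 s, hut s]
    ring
  · show a s 0 1 = X 0 0 * rb s 0 1 + X 0 1 * rb s 1 1 - (rb s 0 0 * X 0 1 + rb s 0 1 * X 1 1)
    rw [hX00, hX01, hX11, h01]
    ring
  · show a s 1 0 = X 1 0 * rb s 0 0 + X 1 1 * rb s 1 0 - (rb s 1 0 * X 0 0 + rb s 1 1 * X 1 0)
    rw [hX10, hX11, haut s, hut s]
    ring
  · show a s 1 1 = X 1 0 * rb s 0 1 + X 1 1 * rb s 1 1 - (rb s 1 0 * X 0 1 + rb s 1 1 * X 1 1)
    rw [hX10, hX11, h11 s, hut s]
    ring

variable [Fintype k] [CharP k p] {kF : Type*} [Field kF] [CharP kF p]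

/-- two Kummer-good cocycles are dependent modulo coboundaries. -/
theorem h11_red_dep (rb : Γ →* Matrix (Fin 2) (Fin 2) k)
    (Z : Submodule k (Γ → k)) (E : (Γ → k) → kF) (μ : k)
    (hEadd : ∀ z ∈ Z, ∀ z' ∈ Z, E (z + z') = E z + E z')
    (hEfrob : ∀ z ∈ Z, E (μ • z) = E z ^ p)
    (hEinj : ∀ z ∈ Z, (∀ c : k, E (c • z) = 0) →
      ∃ x : k, ∀ g, z g = x * (rb g 0 0 / rb g 1 1 - 1))
    (z1 z2 : Γ → k) (hz1 : z1 ∈ Z) (hz2 : z2 ∈ Z) :
    ∃ c1 c2 : k, (c1 ≠ 0 ∨ c2 ≠ 0) ∧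
      ∃ x : k, ∀ g, c1 * z1 g + c2 * z2 g = x * (rb g 0 0 / rb g 1 1 - 1) := by
  by_contra hcon
  push Not at hcon
  have hmem : ∀ v : Fin 2 → k, v 0 • z1 + v 1 • z2 ∈ Z := fun v =>
    Z.add_mem (Z.smul_mem _ hz1) (Z.smul_mem _ hz2)
  have h := h11_red_count p (k := k) (kF := kF) μ (X := Fin 2 → k)
    (fun v => E (v 0 • z1 + v 1 • z2)) ?_ ?_ ?_
  · rw [Module.finrank_fin_fun] at h
    omega
  · intro v v'
    have h1 : (v + v') 0 • z1 + (v + v') 1 • z2 =
        (v 0 • z1 + v 1 • z2) + (v' 0 • z1 + v' 1 • z2) := by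
      simp only [Pi.add_apply, add_smul]
      abel
    show E ((v + v') 0 • z1 + (v + v') 1 • z2) = _
    rw [h1, hEadd _ (hmem v) _ (hmem v')]
  · intro v
    have h1 : (μ • v) 0 • z1 + (μ • v) 1 • z2 = μ • (v 0 • z1 + v 1 • z2) := by
      simp only [Pi.smul_apply, smul_eq_mul, mul_smul, smul_add]
    show E ((μ • v) 0 • z1 + (μ • v) 1 • z2) = _
    rw [h1, hEfrob _ (hmem v)]
  · intro v hv
    have h1 : ∀ c : k, E (c • (v 0 • z1 + v 1 • z2)) = 0 := by
      intro c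
      have h2 : (c • v) 0 • z1 + (c • v) 1 • z2 = c • (v 0 • z1 + v 1 • z2) := by
        simp only [Pi.smul_apply, smul_eq_mul, mul_smul, smul_add]
      rw [← h2]
      exact hv c
    obtain ⟨x, hx⟩ := hEinj _ (hmem v) h1
    by_contra hv0
    have hne : v 0 ≠ 0 ∨ v 1 ≠ 0 := by
      by_contra hh
      push Not at hh
      apply hv0
      funext i
      fin_cases i
      · exact hh.1
      · exact hh.2
    obtain ⟨g, hg⟩ := hcon (v 0) (v 1) hne x
    apply hg
    have h3 := hx g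
    simpa [Pi.add_apply, Pi.smul_apply, smul_eq_mul] using h3

/-- **E-RED, the abstract count.** -/
theorem h11_red_count_abs (rb : Γ →* Matrix (Fin 2) (Fin 2) k) (hut : ∀ g, rb g 1 0 = 0)
    (W : Submodule k (Γ → Matrix (Fin 2) (Fin 2) k))
    (hcoc : ∀ a ∈ W, ∀ s t, a (s * t) = a s * rb t + rb s * a t)
    (htr : ∀ a ∈ W, ∀ s, (a s * rb s⁻¹).trace = 0)
    (hcob : ∀ a ∈ W, (∃ X : Matrix (Fin 2) (Fin 2) k, ∀ s, a s = X * rb s - rb s * X) → a = 0)
    (hWut : ∀ a ∈ W, ∀ g, a g 1 0 = 0)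
    (J : Subgroup Γ) (φ0 : Γ) (hcyc : ∀ g : Γ, ∃ j : ℕ, g * φ0⁻¹ ^ j ∈ J)
    (hdiag : ∀ a ∈ W, ∀ g ∈ J, a g 1 1 = 0)
    (Z : Submodule k (Γ → k)) (E : (Γ → k) → kF) (μ : k)
    (hEadd : ∀ z ∈ Z, ∀ z' ∈ Z, E (z + z') = E z + E z')
    (hEfrob : ∀ z ∈ Z, E (μ • z) = E z ^ p)
    (hEinj : ∀ z ∈ Z, (∀ c : k, E (c • z) = 0) →
      ∃ x : k, ∀ g, z g = x * (rb g 0 0 / rb g 1 1 - 1))
    (hbZ : (fun g => rb g 0 1 / rb g 1 1) ∈ Z)
    (hWZ : ∀ a ∈ W, (∀ g, a g 1 1 = 0) → (fun g => a g 0 1 / rb g 1 1) ∈ Z) :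
    Module.finrank k W ≤ 1 ∨ (Module.finrank k W ≤ 2 ∧
      ∃ X : Matrix (Fin 2) (Fin 2) k, X ≠ 0 ∧ X.trace = 0 ∧ ∀ s, X * rb s = rb s * X) := by
  classical
  -- the linear functional `a ↦ a φ0 1 1`
  let Λ : W →ₗ[k] k :=
    { toFun := fun a => (a : Γ → Matrix (Fin 2) (Fin 2) k) φ0 1 1
      map_add' := fun a a' => rfl
      map_smul' := fun c a => rfl }
  have hΛ : ∀ a : W, Λ a = (a : Γ → Matrix (Fin 2) (Fin 2) k) φ0 1 1 := fun a => rfl
  have hker : ∀ a : W, Λ a = 0 → ∀ g, (a : Γ → Matrix (Fin 2) (Fin 2) k) g 1 1 = 0 :=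
    fun a ha => h11_ut_diag_zero rb hut a (hcoc a a.2) (hWut a a.2) J φ0 hcyc (hdiag a a.2) ha
  have hkill : ∀ a : W, Λ a = 0 → (∃ x c : k, ∀ g,
      (a : Γ → Matrix (Fin 2) (Fin 2) k) g 0 1 / rb g 1 1 =
        x * (rb g 0 0 / rb g 1 1 - 1) + c * (rb g 0 1 / rb g 1 1)) → a = 0 := by
    rintro a ha ⟨x, c, h⟩
    have h11 := hker a ha
    have h00 := h11_ut_diag00 rb hut a (htr a a.2) (hWut a a.2) h11
    exact Subtype.ext (hcob a a.2 (h11_ut_cob rb hut a (hWut a a.2) h00 h11 x c h))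
  have hzmem : ∀ a : W, Λ a = 0 →
      (fun g => (a : Γ → Matrix (Fin 2) (Fin 2) k) g 0 1 / rb g 1 1) ∈ Z :=
    fun a ha => hWZ a a.2 (hker a ha)
  by_cases hfin : Module.Finite k W
  swap
  · left
    rw [Module.finrank_of_not_finite hfin]
    exact Nat.zero_le 1
  have hrange : Module.finrank k (LinearMap.range Λ) ≤ 1 := by
    have h1 := Submodule.finrank_le (LinearMap.range Λ)
    rwa [Module.finrank_self] at h1
  have hrk := LinearMap.finrank_range_add_finrank_ker Λ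
  by_cases hsplit : ∃ x0 : k, ∀ g, rb g 0 1 / rb g 1 1 = x0 * (rb g 0 0 / rb g 1 1 - 1)
  · right
    obtain ⟨x0, hx0⟩ := hsplit
    constructor
    · have hk1 : Module.finrank k (LinearMap.ker Λ) ≤ 1 := by
        by_cases hbot : ∀ a : LinearMap.ker Λ, a = 0
        · have h0 : Module.finrank k (LinearMap.ker Λ) = 0 := by
            have : Subsingleton (LinearMap.ker Λ) := ⟨fun a b => by rw [hbot a, hbot b]⟩
            exact Module.finrank_zero_of_subsingleton
          omega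
        · push Not at hbot
          obtain ⟨a1, ha1⟩ := hbot
          refine finrank_le_one a1 fun a2 => ?_
          have h1 : Λ a1.1 = 0 := a1.2
          have h2 : Λ a2.1 = 0 := a2.2
          obtain ⟨c1, c2, hc, x, hx⟩ := h11_red_dep p rb Z E μ hEadd hEfrob hEinj _ _
            (hzmem _ h1) (hzmem _ h2)
          have h3 : c1 • a1.1 + c2 • a2.1 = 0 := by
            apply hkill
            · rw [map_add, map_smul, map_smul, h1, h2, smul_zero, smul_zero, add_zero]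
            · refine ⟨x, 0, fun g => ?_⟩
              rw [zero_mul, add_zero, ← hx g]
              show (c1 • (a1.1 : Γ → Matrix (Fin 2) (Fin 2) k) g +
                c2 • (a2.1 : Γ → Matrix (Fin 2) (Fin 2) k) g) 0 1 / rb g 1 1 = _
              rw [Matrix.add_apply, Matrix.smul_apply, Matrix.smul_apply, smul_eq_mul,
                smul_eq_mul]
              ring
          have hc2 : c2 ≠ 0 := by
            intro h0
            rw [h0, zero_smul, add_zero] at h3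
            rcases hc with hc | hc
            · exact ha1 (Subtype.ext ((smul_eq_zero.mp h3).resolve_left hc))
            · exact hc h0
          refine ⟨-(c2⁻¹ * c1), ?_⟩
          apply Subtype.ext
          apply Subtype.ext
          have h4 : c2 • a2.1 = -(c1 • a1.1) := eq_neg_of_add_eq_zero_right h3
          have h5 : a2.1 = c2⁻¹ • (c2 • a2.1) := by
            rw [smul_smul, inv_mul_cancel₀ hc2, one_smul]
          have h6 : a2.1 = (-(c2⁻¹ * c1)) • a1.1 := by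
            rw [h5, h4, smul_neg, smul_smul]
            exact (neg_smul _ _).symm
          rw [h6]
          rfl
      omega
    · obtain ⟨X, hX00, hX01, hX10, hX11⟩ : ∃ X : Matrix (Fin 2) (Fin 2) k,
          X 0 0 = 1 ∧ X 0 1 = 2 * x0 ∧ X 1 0 = 0 ∧ X 1 1 = -1 :=
        ⟨!![1, 2 * x0; 0, -1], rfl, rfl, rfl, rfl⟩
      refine ⟨X, ?_, ?_, fun s => ?_⟩
      · intro h0
        rw [h0] at hX00
        exact zero_ne_one hX00
      · rw [Matrix.trace_fin_two, hX00, hX11]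
        ring
      · have h2 : rb s 1 1 ≠ 0 := h11_ut_ne11 rb hut s
        have hb : rb s 0 1 = x0 * (rb s 0 0 - rb s 1 1) := by
          have h3 := hx0 s
          field_simp at h3
          linear_combination h3
        ext i j
        rw [Matrix.mul_apply, Matrix.mul_apply, Fin.sum_univ_two, Fin.sum_univ_two]
        fin_cases i <;> fin_cases j
        · show X 0 0 * rb s 0 0 + X 0 1 * rb s 1 0 = rb s 0 0 * X 0 0 + rb s 0 1 * X 1 0
          rw [hX00, hX10, hut s]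
          ring
        · show X 0 0 * rb s 0 1 + X 0 1 * rb s 1 1 = rb s 0 0 * X 0 1 + rb s 0 1 * X 1 1
          rw [hX00, hX01, hX11, hb]
          ring
        · show X 1 0 * rb s 0 0 + X 1 1 * rb s 1 0 = rb s 1 0 * X 0 0 + rb s 1 1 * X 1 0
          rw [hX10, hut s]
          ring
        · show X 1 0 * rb s 0 1 + X 1 1 * rb s 1 1 = rb s 1 0 * X 0 1 + rb s 1 1 * X 1 1
          rw [hX10, hX11, hut s]
          ring
  · left
    have hk0 : Module.finrank k (LinearMap.ker Λ) = 0 := by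
      have : Subsingleton (LinearMap.ker Λ) := by
        refine ⟨fun a a' => ?_⟩
        have hz : ∀ a : LinearMap.ker Λ, a = 0 := by
          intro a
          have h1 : Λ a.1 = 0 := a.2
          obtain ⟨c1, c2, hc, x, hx⟩ := h11_red_dep p rb Z E μ hEadd hEfrob hEinj _ _
            hbZ (hzmem _ h1)
          have hc2 : c2 ≠ 0 := by
            intro h0
            rcases hc with hc | hc
            · apply hsplit
              refine ⟨c1⁻¹ * x, fun g => ?_⟩
              have h3 := hx g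
              rw [h0, zero_mul, add_zero] at h3
              rw [mul_assoc, ← h3, ← mul_assoc, inv_mul_cancel₀ hc, one_mul]
            · exact hc h0
          apply Subtype.ext
          apply hkill _ h1
          refine ⟨c2⁻¹ * x, -(c2⁻¹ * c1), fun g => ?_⟩
          have h3 := hx g
          have h4 : (a.1 : Γ → Matrix (Fin 2) (Fin 2) k) g 0 1 / rb g 1 1 =
              c2⁻¹ * (x * (rb g 0 0 / rb g 1 1 - 1) - c1 * (rb g 0 1 / rb g 1 1)) := by
            rw [← h3]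
            field_simp
            ring
          rw [h4]
          ring
        rw [hz a, hz a']
      exact Module.finrank_zero_of_subsingleton
    omega

end RedCountAbs

end Fermat.Agent.S56
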