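import Mathlib
import Fermat.Agent.S56.h11_RedS4b
import Fermat.Agent.S56.h6_RedS1
import Fermat.Agent.S56.h93_RedD
import Fermat.Agent.S56.h77_RedUnit

/-!
# S56 / W3 / E-RED row RED-S4 (b): `sk_red_gen`, closed form

Unit Kummer generators for the upper right entries of a normalised flat class: the statement
`sk_red_gen` of the skeleton, verbatim, from `h11_red_gen_of` and the three Hopf-side rows
`[C]` (`h6_red_C`), `[D]` (`h93_red_D`), `[UNIT]` (`h77_red_unit`).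
-/

set_option autoImplicit false

open Coalgebra WithConv

namespace Fermat.Agent.S56

variable (p : ℕ) [Fact p.Prime]

local notation "Ω" => PadicAlgCl p
local notation "Fld" => IntermediateField ℚ_[p] (PadicAlgCl p)

/-- **RED-S4 (b)** (`sk_red_gen`): unit Kummer generators for the upper right entries. -/
theorem h11_red_gen (hp2 : p ≠ 2) {k : Type} [Field k] [Finite k] [CharP k p]
    (rb : h78_G p →* Matrix (Fin 2) (Fin 2) k)
    (hdet : ∀ (g : h78_G p) (ζ : Ω), ζ ^ p = 1 → ∃ n : ℕ, g ζ = ζ ^ n ∧ (rb g).det = (n : k))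
    (hut : ∀ g, rb g 1 0 = 0)
    (L : Fld) [FiniteDimensional ℚ_[p] L] (hL : h78_Stable p L)
    (ζ : Ω) (hζL : ζ ∈ L) (hζp : ζ ^ p = 1) (hζ1 : ζ ≠ 1)
    (hχ2 : ∀ s ∈ h78_J p L, rb s 1 1 = 1)
    (a : h78_G p → Matrix (Fin 2) (Fin 2) k)
    (hcoc : ∀ s t, a (s * t) = a s * rb t + rb s * a t) (hfl : h78_LocFlat p rb a)
    (htriv : ∀ g ∈ L.fixingSubgroup, rb g = 1 ∧ a g = 0)
    (hll : ∀ g, a g 1 0 = 0) (hd0 : ∀ s ∈ h78_J p L, a s 0 0 = 0)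
    (hd1 : ∀ s ∈ h78_J p L, a s 1 1 = 0) (μ lam : k) (ℓ : k →+ ZMod p) :
    ∃ v ∈ L, ‖v‖ = 1 ∧ v ^ p ∈ h78_K0 p L ∧
      ∀ s ∈ h78_J p L, s v = ζ ^ (ℓ (μ * a s 0 1 + lam * rb s 0 1)).val * v :=
  h11_red_gen_of p
    (fun _ _ _ _ _ _ hkill L _ hLpts s hs y => h6_red_C p hkill L hLpts s hs y)
    (fun _ _ _ _ _ _ L _ hL hLpts ζ hζL hζp hζ1 y hy hfix =>
      h93_red_D p L hL hLpts ζ hζL hζp hζ1 y hy hfix)
    (fun _ _ _ _ _ _ hp2 hkill L _ hL hLpts ζ hζL hζp hζ1 Z hZT hZJ χ hχ y hyJ =>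
      h77_red_unit p hp2 hkill L hL hLpts ζ hζL hζp hζ1 Z hZT hZJ χ hχ y hyJ)
    hp2 rb hdet hut L hL ζ hζL hζp hζ1 hχ2 a hcoc hfl htriv hll hd0 hd1 μ lam ℓ

end Fermat.Agent.S56
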