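/-
S56 / W3 row C1 (TWIST): the twist datum of a wild element `t` of order `p` on `L`.

`h11_twist_datum_of` is the row statement `sk_twist_datum` with the rows B3 (K₀ unramified),
B4a (expansion), B4b (conjugates) and B5 (twisting datum) as explicit hypotheses in their
skeleton shapes.
-/
import Fermat.Agent.S56.h78_W3Defs

set_option autoImplicit false

open Polynomial IntermediateField

namespace Fermat.Agent.S56

variable (p : ℕ) [Fact p.Prime]

local notation "Ω" => PadicAlgCl p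
local notation "Fld" => IntermediateField ℚ_[p] (PadicAlgCl p)

/-! ## basics -/

theorem h11_norm_p : ‖(p : Ω)‖ = (p : ℝ)⁻¹ := by
  have h : ((p : ℚ_[p]) : Ω) = (p : Ω) := map_natCast (algebraMap ℚ_[p] Ω) p
  rw [← h, PadicAlgCl.norm_extends, Padic.norm_p]

theorem h11_norm_pow_sub (t : h78_G p) (π : Ω) (j : ℕ) : ‖(t ^ j) π - π‖ ≤ ‖t π - π‖ := by
  induction j with
  | zero => simp
  | succ j ih =>
    have h : (t ^ (j + 1)) π - π = t ((t ^ j) π - π) + (t π - π) := by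
      rw [pow_succ', AlgEquiv.mul_apply, map_sub]
      ring
    rw [h]
    refine (IsUltrametricDist.norm_add_le_max _ _).trans (max_le ?_ le_rfl)
    rw [h78_norm_aut]
    exact ih

/-- membership in the set of conjugates -/
theorem h11_mem_conj (S : Subgroup (h78_G p)) (x y : Ω) :
    y ∈ h78_conj p S x ↔ ∃ g ∈ S, g x = y := by
  classical
  unfold h78_conj
  simp only [Finset.mem_filter, Set.mem_toFinset]
  refine ⟨fun h => h.2, fun h => ⟨?_, h⟩⟩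
  obtain ⟨g, -, rfl⟩ := h
  have hint : IsIntegral ℚ_[p] x := Algebra.IsIntegral.isIntegral x
  rw [Polynomial.mem_rootSet]
  refine ⟨minpoly.ne_zero hint, ?_⟩
  rw [Polynomial.aeval_algEquiv, AlgHom.comp_apply, minpoly.aeval]
  exact map_zero _

/-! ## the `g`-fixed element `x = π + y` -/

theorem h11_fixed_elt (L : Fld) (hL : h78_Stable p L) (π : Ω) (hπL : π ∈ L) (t g : h78_G p)
    (hg : ∀ z ∈ L, g z = t z) (htp : (t ^ p) π = π) (b : Ω) (hb : ‖b‖ ≤ 1)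
    (hsum : ∑ j ∈ Finset.range p, (g ^ j) b = 1) (hgp : (g ^ p) b = b) :
    ∃ y : Ω, g (π + y) = π + y ∧ ‖y‖ ≤ ‖t π - π‖ := by
  refine ⟨∑ j ∈ Finset.range p, ((t ^ j) π - π) * (g ^ j) b, ?_, ?_⟩
  · have h1 : g (∑ j ∈ Finset.range p, ((t ^ j) π - π) * (g ^ j) b) =
        ∑ j ∈ Finset.range p, ((t ^ (j + 1)) π - π) * (g ^ (j + 1)) b -
          (t π - π) * ∑ j ∈ Finset.range p, (g ^ (j + 1)) b := by
      rw [map_sum, Finset.mul_sum, ← Finset.sum_sub_distrib]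
      refine Finset.sum_congr rfl fun j _ => ?_
      rw [map_mul, map_sub, hg _ (hL (t ^ j) π hπL), hg π hπL, pow_succ', pow_succ',
        AlgEquiv.mul_apply, AlgEquiv.mul_apply]
      ring
    have h2 : ∑ j ∈ Finset.range p, ((t ^ (j + 1)) π - π) * (g ^ (j + 1)) b =
        ∑ j ∈ Finset.range p, ((t ^ j) π - π) * (g ^ j) b := by
      have e1 := Finset.sum_range_succ (fun j => ((t ^ j) π - π) * (g ^ j) b) p
      have e2 := Finset.sum_range_succ' (fun j => ((t ^ j) π - π) * (g ^ j) b) p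
      rw [e1] at e2
      simp only [pow_zero, AlgEquiv.one_apply, sub_self, zero_mul, add_zero] at e2
      rw [htp, sub_self, zero_mul, add_zero] at e2
      exact e2.symm
    have h3 : ∑ j ∈ Finset.range p, (g ^ (j + 1)) b = 1 := by
      have e1 := Finset.sum_range_succ (fun j => (g ^ j) b) p
      have e2 := Finset.sum_range_succ' (fun j => (g ^ j) b) p
      rw [e1, hsum, hgp] at e2
      simp only [pow_zero, AlgEquiv.one_apply] at e2
      exact add_right_cancel e2.symm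
    rw [map_add, h1, h2, h3, hg π hπL]
    ring
  · refine IsUltrametricDist.norm_sum_le_of_forall_le_of_nonneg (norm_nonneg _) fun j _ => ?_
    rw [norm_mul, h78_norm_aut]
    calc ‖(t ^ j) π - π‖ * ‖b‖ ≤ ‖(t ^ j) π - π‖ * 1 := by gcongr
      _ ≤ ‖t π - π‖ := by rw [mul_one]; exact h11_norm_pow_sub p t π j

/-! ## integral polynomials -/

/-- the closed unit ball of `Ω` as a subring -/
noncomputable def h11_ball : Subring Ω where
  carrier := {c | ‖c‖ ≤ 1}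
  mul_mem' := fun {a b} ha hb => by
    show ‖a * b‖ ≤ 1
    rw [norm_mul]
    exact mul_le_one₀ ha (norm_nonneg _) hb
  one_mem' := by
    show ‖(1 : Ω)‖ ≤ 1
    rw [norm_one]
  add_mem' := fun {a b} ha hb => (IsUltrametricDist.norm_add_le_max a b).trans (max_le ha hb)
  zero_mem' := by
    show ‖(0 : Ω)‖ ≤ 1
    rw [norm_zero]
    exact zero_le_one
  neg_mem' := fun {a} ha => by
    show ‖-a‖ ≤ 1
    rw [norm_neg]
    exact ha

/-- the integers of a subfield -/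
noncomputable def h11_int (K : Fld) : Subring Ω := K.toSubfield.toSubring ⊓ h11_ball p

theorem h11_mem_int (K : Fld) (c : Ω) : c ∈ h11_int p K ↔ c ∈ K ∧ ‖c‖ ≤ 1 := Iff.rfl

theorem h11_prod_coeff_norm {ι : Type*} (s : Finset ι) (f : ι → Ω) (hf : ∀ i ∈ s, ‖f i‖ ≤ 1)
    (n : ℕ) : ‖(∏ i ∈ s, (X - C (f i))).coeff n‖ ≤ 1 := by
  have h : (∏ i ∈ s, (X - C (f i))) ∈ (mapRingHom (h11_ball p).subtype).range := by
    refine Subring.prod_mem _ fun i hi => Subring.sub_mem _ ⟨X, ?_⟩ ⟨C ⟨f i, hf i hi⟩, ?_⟩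
    · exact map_X _
    · exact map_C _
  obtain ⟨q, hq⟩ := h
  rw [← hq]
  show ‖(q.map (h11_ball p).subtype).coeff n‖ ≤ 1
  rw [coeff_map]
  exact (q.coeff n).2

theorem h11_eval₂_norm_le (S : Subring Ω) (hS : ∀ c ∈ S, ‖c‖ ≤ 1) (Q : Polynomial S) (x : Ω)
    (hx : ‖x‖ ≤ 1) : ‖eval₂ S.subtype x Q‖ ≤ 1 := by
  rw [eval₂_eq_sum_range]
  refine IsUltrametricDist.norm_sum_le_of_forall_le_of_nonneg zero_le_one fun i _ => ?_
  rw [norm_mul, norm_pow]
  exact mul_le_one₀ (hS _ (Q.coeff i).2) (pow_nonneg (norm_nonneg _) _)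
    (pow_le_one₀ (norm_nonneg _) hx)

/-- division with remainder by a monic integral polynomial vanishing at `π`: the defect of
multiplicativity of "evaluate the remainder at `x`" is at most `‖P₀(x)‖`. -/
theorem h11_defect (S : Subring Ω) (hS : ∀ c ∈ S, ‖c‖ ≤ 1) (P0 A B : Polynomial S)
    (π x : Ω) (hπ : eval₂ S.subtype π P0 = 0) (hx : ‖x‖ ≤ 1) :
    eval₂ S.subtype π ((A * B) %ₘ P0) = eval₂ S.subtype π A * eval₂ S.subtype π B ∧
    ‖eval₂ S.subtype x ((A * B) %ₘ P0) - eval₂ S.subtype x A * eval₂ S.subtype x B‖ ≤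
      ‖eval₂ S.subtype x P0‖ := by
  have h := modByMonic_add_div (A * B) P0
  constructor
  · have h1 := congrArg (eval₂ S.subtype π) h
    rw [eval₂_add, eval₂_mul, eval₂_mul, hπ, zero_mul, add_zero] at h1
    exact h1
  · have h1 := congrArg (eval₂ S.subtype x) h
    rw [eval₂_add, eval₂_mul, eval₂_mul] at h1
    have h2 : eval₂ S.subtype x ((A * B) %ₘ P0) - eval₂ S.subtype x A * eval₂ S.subtype x B =
        - (eval₂ S.subtype x P0 * eval₂ S.subtype x ((A * B) /ₘ P0)) := by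
      rw [← h1]
      ring
    rw [h2, norm_neg, norm_mul]
    calc ‖eval₂ S.subtype x P0‖ * ‖eval₂ S.subtype x ((A * B) /ₘ P0)‖
        ≤ ‖eval₂ S.subtype x P0‖ * 1 := by
          gcongr
          exact h11_eval₂_norm_le p S hS _ x hx
      _ = ‖eval₂ S.subtype x P0‖ := mul_one _

theorem h11_exists_poly (S : Subring Ω) (e : ℕ) (c : Fin e → Ω) (hc : ∀ i, c i ∈ S) :
    ∃ A : Polynomial S, ∀ y : Ω, eval₂ S.subtype y A = ∑ i, c i * y ^ (i : ℕ) := by
  refine ⟨∑ i : Fin e, C (⟨c i, hc i⟩ : S) * X ^ (i : ℕ), fun y => ?_⟩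
  rw [eval₂_finsetSum]
  refine Finset.sum_congr rfl fun i _ => ?_
  rw [eval₂_mul, eval₂_C, eval₂_X_pow]
  rfl

theorem h11_eval₂_of_lt (S : Subring Ω) (e : ℕ) (R : Polynomial S) (hR : R.natDegree < e)
    (y : Ω) : eval₂ S.subtype y R = ∑ i : Fin e, ((R.coeff i : S) : Ω) * y ^ (i : ℕ) := by
  rw [eval₂_eq_sum_range' S.subtype hR y,
    Fin.sum_univ_eq_sum_range (fun i => ((R.coeff i : S) : Ω) * y ^ i) e]
  rfl

/-- an element of an unramified field whose product with `π^i`, `i < e`, is integral is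
integral -/
theorem h11_int_of_bound (c : Ω) (n : ℤ) (hn : ‖c‖ = (p : ℝ) ^ n) (π : Ω) (hπ0 : π ≠ 0)
    (hπ1 : ‖π‖ < 1) (e i : ℕ) (hie : i < e) (hcard : ‖π‖ ^ e = (p : ℝ)⁻¹)
    (h : ‖c * π ^ i‖ ≤ 1) : ‖c‖ ≤ 1 := by
  by_contra hc
  push Not at hc
  have hpR : (1 : ℝ) < p := by exact_mod_cast (Fact.out : p.Prime).one_lt
  have hp0 : (0 : ℝ) < p := by linarith
  have hn1 : 1 ≤ n := by
    by_contra hn0
    have hn0' : n ≤ 0 := by omega
    have h1 := zpow_le_one_of_nonpos₀ hpR.le hn0'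
    rw [hn] at hc
    linarith
  have h1 : (p : ℝ) ≤ ‖c‖ := by
    rw [hn]
    calc (p : ℝ) = (p : ℝ) ^ (1 : ℤ) := (zpow_one _).symm
      _ ≤ (p : ℝ) ^ n := zpow_le_zpow_right₀ hpR.le hn1
  have h2 : (p : ℝ)⁻¹ < ‖π‖ ^ i := by
    rw [← hcard]
    exact pow_lt_pow_right_of_lt_one₀ (norm_pos_iff.mpr hπ0) hπ1 hie
  rw [norm_mul, norm_pow] at h
  have h3 : (1 : ℝ) < ‖c‖ * ‖π‖ ^ i := by
    calc (1 : ℝ) = p * (p : ℝ)⁻¹ := (mul_inv_cancel₀ hp0.ne').symm
      _ < p * ‖π‖ ^ i := by gcongr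
      _ ≤ ‖c‖ * ‖π‖ ^ i := by gcongr
  linarith

/-! ## the map `φ` -/

/-- the `ℚ_p`-linear map `∑ c_i π^i ↦ ∑ c_i x^i` attached to a basis `1, π, …, π^(e-1)` of `L`
over `K`. -/
theorem h11_exists_phi (K L : Fld) (π x : Ω) (e : ℕ)
    (hex : ∀ z ∈ L, ∃ c : Fin e → Ω, (∀ i, c i ∈ K) ∧ z = ∑ i, c i * π ^ (i : ℕ))
    (huniq : ∀ c : Fin e → Ω, (∀ i, c i ∈ K) → ∑ i, c i * π ^ (i : ℕ) = 0 → c = 0) :
    ∃ φ : L →ₗ[ℚ_[p]] Ω, ∀ (c : Fin e → Ω), (∀ i, c i ∈ K) →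
      ∀ h : ∑ i, c i * π ^ (i : ℕ) ∈ L, φ ⟨_, h⟩ = ∑ i, c i * x ^ (i : ℕ) := by
  classical
  have hex' : ∀ z : L, ∃ c : Fin e → Ω, (∀ i, c i ∈ K) ∧ (z : Ω) = ∑ i, c i * π ^ (i : ℕ) :=
    fun z => hex z z.2
  choose cf hcK hcz using hex'
  have huniq' : ∀ c c' : Fin e → Ω, (∀ i, c i ∈ K) → (∀ i, c' i ∈ K) →
      ∑ i, c i * π ^ (i : ℕ) = ∑ i, c' i * π ^ (i : ℕ) → c = c' := by
    intro c c' hc hc' h
    have h0 := huniq (c - c') (fun i => K.sub_mem (hc i) (hc' i)) (by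
      simp only [Pi.sub_apply, sub_mul, Finset.sum_sub_distrib]
      exact sub_eq_zero.mpr h)
    exact sub_eq_zero.mp h0
  have hadd : ∀ z z' : L, cf (z + z') = cf z + cf z' := by
    intro z z'
    refine huniq' _ _ (hcK _) (fun i => K.add_mem (hcK z i) (hcK z' i)) ?_
    rw [← hcz]
    simp only [Pi.add_apply, add_mul, Finset.sum_add_distrib]
    rw [← hcz, ← hcz]
    rfl
  have hsmul : ∀ (r : ℚ_[p]) (z : L), cf (r • z) = fun i => algebraMap ℚ_[p] Ω r * cf z i := by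
    intro r z
    refine huniq' _ _ (hcK _) (fun i => K.mul_mem (K.algebraMap_mem r) (hcK z i)) ?_
    rw [← hcz]
    simp only [mul_assoc]
    rw [← Finset.mul_sum, ← hcz, IntermediateField.coe_smul, Algebra.smul_def]
  refine ⟨{ toFun := fun z => ∑ i, cf z i * x ^ (i : ℕ), map_add' := ?_, map_smul' := ?_ }, ?_⟩
  · intro z z'
    simp only [hadd, Pi.add_apply, add_mul, Finset.sum_add_distrib]
  · intro r z
    simp only [hsmul, RingHom.id_apply, mul_assoc]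
    rw [← Finset.mul_sum, Algebra.smul_def]
  · intro c hc h
    show ∑ i, cf ⟨_, h⟩ i * x ^ (i : ℕ) = _
    rw [huniq' (cf ⟨_, h⟩) c (hcK _) hc (hcz ⟨_, h⟩).symm]

/-- the field of fixed points of one automorphism -/
noncomputable def h11_fix (g : h78_G p) : Fld :=
  { carrier := {z | g z = z}
    mul_mem' := fun {a b} ha hb => by
      show g (a * b) = a * b
      rw [map_mul, ha, hb]
    one_mem' := map_one g
    add_mem' := fun {a b} ha hb => by
      show g (a + b) = a + b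
      rw [map_add, ha, hb]
    zero_mem' := map_zero g
    algebraMap_mem' := fun r => g.commutes r
    inv_mem' := fun a ha => by
      show g a⁻¹ = a⁻¹
      rw [map_inv₀, ha] }

theorem h11_mem_fix (g : h78_G p) (z : Ω) : z ∈ h11_fix p g ↔ g z = z := Iff.rfl

/-! ## the twist datum -/

/-- **C1 (twist datum), hypothesis form**: `sk_twist_datum` with the consumed rows
(B3 `K₀ ≤ L`, `K₀` unramified; B4a expansion and orthogonality over `K₀`; B4b the conjugates of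
`π`; B5 the twisting datum for `t`) as hypotheses. -/
theorem h11_twist_datum_of (L : Fld) [FiniteDimensional ℚ_[p] L] (hL : h78_Stable p L)
    (π : Ω) (hπ : h78_IsUnif p L π) (t : h78_G p) (ht : t ∈ h78_P p L π)
    (htp : ∀ z ∈ L, (t ^ p) z = z)
    (hK0le : h78_K0 p L ≤ L)
    (hunram : ∀ c : Ω, c ∈ h78_K0 p L → c ≠ 0 → ∃ n : ℤ, ‖c‖ = (p : ℝ) ^ n)
    (hexp : ∀ (π π₀ : Ω), h78_IsUnif p L π → h78_IsUnif p (h78_K0 p L) π₀ → ∀ j : ℕ,
      ‖π₀‖ = ‖π‖ ^ j → ∀ z : Ω, z ∈ L →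
      ∃ c : Fin j → Ω, (∀ i, c i ∈ h78_K0 p L) ∧ z = ∑ i, c i * π ^ (i : ℕ) ∧
        ∀ i, ‖c i * π ^ (i : ℕ)‖ ≤ ‖z‖)
    (hexpn : ∀ (π π₀ : Ω), ‖π‖ < 1 → π ≠ 0 → h78_IsUnif p (h78_K0 p L) π₀ → ∀ j : ℕ,
      ‖π₀‖ = ‖π‖ ^ j → ∀ c : Fin j → Ω, (∀ i, c i ∈ h78_K0 p L) → ∀ i : Fin j,
        ‖c i * π ^ (i : ℕ)‖ ≤ ‖∑ i, c i * π ^ (i : ℕ)‖)
    (hcard : ‖π‖ ^ (h78_conj p (h78_J p L) π).card = (p : ℝ)⁻¹)
    (hprod : ∀ n : ℕ, (∏ x ∈ h78_conj p (h78_J p L) π, (X - C x)).coeff n ∈ h78_K0 p L)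
    (htw : ∃ (g : h78_G p) (b : Ω), (∀ z ∈ L, g z = t z) ∧ ‖b‖ ≤ 1 ∧
      (∑ j ∈ Finset.range p, (g ^ j) b = 1) ∧ (g ^ p) b = b) :
    ∃ (E : Fld) (_ : FiniteDimensional ℚ_[p] E) (φ : L →ₗ[ℚ_[p]] Ω) (g : h78_G p),
      (∀ z, φ z ∈ E) ∧ φ 1 = 1 ∧ (∀ z : L, ‖φ z‖ = ‖(z : Ω)‖) ∧
      (∀ a b : L, ‖(a : Ω)‖ ≤ 1 → ‖(b : Ω)‖ ≤ 1 →
        ‖φ (a * b) - φ a * φ b‖ ≤ h78_sOf p L π t) ∧
      (∀ z ∈ L, g z = t z) ∧ ∀ z ∈ E, g z = z := by
  classical
  obtain ⟨g, b, hg, hb, hsum, hgp⟩ := htw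
  have hπL : π ∈ L := hπ.1
  have hπ0 : π ≠ 0 := hπ.2.1
  have hπ1 : ‖π‖ < 1 := hπ.2.2.1
  have htJ : ∀ z ∈ h78_K0 p L, t z = z := by
    have h1 : t ∈ h78_J p L := ht.1
    unfold h78_J at h1
    rw [IntermediateField.mem_fixingSubgroup_iff] at h1
    exact h1
  obtain ⟨K, hK⟩ : ∃ K : Fld, K = h78_K0 p L := ⟨_, rfl⟩
  obtain ⟨e, he⟩ : ∃ e : ℕ, e = (h78_conj p (h78_J p L) π).card := ⟨_, rfl⟩
  rw [← hK] at hK0le hunram hexp hexpn hprod htJ
  rw [← he] at hcard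
  have hpR : (1 : ℝ) < p := by exact_mod_cast (Fact.out : p.Prime).one_lt
  have hp0 : (p : Ω) ≠ 0 := Nat.cast_ne_zero.mpr (Fact.out : p.Prime).ne_zero
  have hnp := h11_norm_p p
  have hpu : h78_IsUnif p K (p : Ω) := by
    refine ⟨_root_.natCast_mem K p, hp0, ?_, ?_⟩
    · rw [hnp]
      exact inv_lt_one_of_one_lt₀ hpR
    · intro c hc hc0
      obtain ⟨n, hn⟩ := hunram c hc hc0
      exact ⟨-n, by rw [hn, hnp, inv_zpow', neg_neg]⟩
  have hj : ‖(p : Ω)‖ = ‖π‖ ^ e := by rw [hnp, hcard]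
  have he0 : e ≠ 0 := by
    intro h0
    rw [h0, pow_zero] at hcard
    have : (p : ℝ)⁻¹ < 1 := inv_lt_one_of_one_lt₀ hpR
    linarith
  -- the fixed element
  obtain ⟨y, hgy, hy⟩ := h11_fixed_elt p L hL π hπL t g hg (htp π hπL) b hb hsum hgp
  obtain ⟨x, hx⟩ : ∃ x : Ω, x = π + y := ⟨_, rfl⟩
  rw [← hx] at hgy
  have htπ : ‖t π - π‖ < ‖π‖ := (ht.2).resolve_left hπ0
  have hxπ : ‖x - π‖ ≤ ‖t π - π‖ := by
    rw [hx, add_sub_cancel_left]
    exact hy
  have hxn : ‖x‖ = ‖π‖ := by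
    have h1 : ‖y‖ ≠ ‖π‖ := ne_of_lt (lt_of_le_of_lt hy htπ)
    rw [hx, add_comm, IsUltrametricDist.norm_add_eq_max_of_norm_ne_norm h1]
    exact max_eq_right (le_of_lt (lt_of_le_of_lt hy htπ))
  have hx0 : x ≠ 0 := by
    intro h0
    rw [h0, norm_zero] at hxn
    exact hπ0 (norm_eq_zero.mp hxn.symm)
  have hx1 : ‖x‖ < 1 := by
    rw [hxn]
    exact hπ1
  have hjx : ‖(p : Ω)‖ = ‖x‖ ^ e := by
    rw [hxn]
    exact hj
  -- expansions
  have hex : ∀ z ∈ L, ∃ c : Fin e → Ω, (∀ i, c i ∈ K) ∧ z = ∑ i, c i * π ^ (i : ℕ) := by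
    intro z hz
    obtain ⟨c, h1, h2, -⟩ := hexp π p hπ hpu e hj z hz
    exact ⟨c, h1, h2⟩
  have hbπ := hexpn π p hπ1 hπ0 hpu e hj
  have hbx := hexpn x p hx1 hx0 hpu e hjx
  have huniq : ∀ c : Fin e → Ω, (∀ i, c i ∈ K) → ∑ i, c i * π ^ (i : ℕ) = 0 → c = 0 := by
    intro c hc h0
    funext i
    have h1 := hbπ c hc i
    rw [h0, norm_zero] at h1
    have h2 : c i * π ^ (i : ℕ) = 0 := norm_eq_zero.mp (le_antisymm h1 (norm_nonneg _))
    exact (mul_eq_zero.mp h2).resolve_right (pow_ne_zero _ hπ0)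
  obtain ⟨φ, hφ⟩ := h11_exists_phi p K L π x e hex huniq
  -- every `z : L` in expanded form
  have hφz : ∀ z : L, ∃ c : Fin e → Ω, (∀ i, c i ∈ K) ∧ (z : Ω) = ∑ i, c i * π ^ (i : ℕ) ∧
      φ z = ∑ i, c i * x ^ (i : ℕ) := by
    intro z
    obtain ⟨c, h1, h2⟩ := hex z z.2
    have hmem : ∑ i, c i * π ^ (i : ℕ) ∈ L := by
      rw [← h2]
      exact z.2
    have hz : z = ⟨_, hmem⟩ := Subtype.ext h2
    refine ⟨c, h1, h2, ?_⟩
    rw [hz]
    exact hφ c h1 hmem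
  -- the field `E = K(x)`
  have hxint : IsIntegral ℚ_[p] x := Algebra.IsIntegral.isIntegral x
  have : FiniteDimensional ℚ_[p] K :=
    Module.Finite.of_injective (IntermediateField.inclusion hK0le).toLinearMap
      (IntermediateField.inclusion_injective hK0le)
  have : FiniteDimensional ℚ_[p] ℚ_[p]⟮x⟯ := IntermediateField.adjoin.finiteDimensional hxint
  have hEfix : K ⊔ ℚ_[p]⟮x⟯ ≤ h11_fix p g := by
    refine sup_le ?_ ?_
    · intro z hz
      rw [h11_mem_fix, hg z (hK0le hz)]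
      exact htJ z hz
    · rw [IntermediateField.adjoin_simple_le_iff]
      exact hgy
  have hxE : x ∈ K ⊔ ℚ_[p]⟮x⟯ :=
    (le_sup_right : ℚ_[p]⟮x⟯ ≤ K ⊔ ℚ_[p]⟮x⟯) (IntermediateField.mem_adjoin_simple_self ℚ_[p] x)
  refine ⟨K ⊔ ℚ_[p]⟮x⟯, inferInstance, φ, g, ?_, ?_, ?_, ?_, hg, fun z hz => hEfix hz⟩
  · -- `φ z ∈ E`
    intro z
    obtain ⟨c, h1, -, h3⟩ := hφz z
    rw [h3]
    exact sum_mem fun i _ =>
      mul_mem ((le_sup_left : K ≤ K ⊔ ℚ_[p]⟮x⟯) (h1 i)) (pow_mem hxE _)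
  · -- `φ 1 = 1`
    have hpos : 0 < e := Nat.pos_of_ne_zero he0
    have hc : ∀ i : Fin e, (if (i : ℕ) = 0 then (1 : Ω) else 0) ∈ K := by
      intro i
      split_ifs
      · exact K.one_mem
      · exact K.zero_mem
    have hs : ∀ w : Ω, ∑ i : Fin e, (if (i : ℕ) = 0 then (1 : Ω) else 0) * w ^ (i : ℕ) = 1 := by
      intro w
      rw [Finset.sum_eq_single (⟨0, hpos⟩ : Fin e)]
      · simp
      · intro i _ hi
        have : (i : ℕ) ≠ 0 := fun h => hi (Fin.ext h)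
        simp [this]
      · intro h
        exact absurd (Finset.mem_univ _) h
    have hmem : ∑ i : Fin e, (if (i : ℕ) = 0 then (1 : Ω) else 0) * π ^ (i : ℕ) ∈ L := by
      rw [hs]
      exact L.one_mem
    have h1 := hφ _ hc hmem
    rw [hs x] at h1
    have h2 : (1 : L) = ⟨_, hmem⟩ := Subtype.ext (hs π).symm
    rw [h2]
    exact h1
  · -- norms
    intro z
    obtain ⟨c, h1, h2, h3⟩ := hφz z
    rw [h2, h3]
    have hterm : ∀ i : Fin e, ‖c i * x ^ (i : ℕ)‖ = ‖c i * π ^ (i : ℕ)‖ := by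
      intro i
      rw [norm_mul, norm_mul, norm_pow, norm_pow, hxn]
    apply le_antisymm
    · refine IsUltrametricDist.norm_sum_le_of_forall_le_of_nonneg (norm_nonneg _) fun i _ => ?_
      rw [hterm]
      exact hbπ c h1 i
    · refine IsUltrametricDist.norm_sum_le_of_forall_le_of_nonneg (norm_nonneg _) fun i _ => ?_
      rw [← hterm]
      exact hbx c h1 i
  · -- the defect
    intro a b' ha hb'
    obtain ⟨S, hS⟩ : ∃ S : Subring Ω, S = h11_int p K := ⟨_, rfl⟩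
    have hSmem : ∀ c : Ω, c ∈ S ↔ c ∈ K ∧ ‖c‖ ≤ 1 := fun c => by
      rw [hS]
      exact h11_mem_int p K c
    have hS1 : ∀ c ∈ S, ‖c‖ ≤ 1 := fun c hc => ((hSmem c).mp hc).2
    have hconj : ∀ π' ∈ h78_conj p (h78_J p L) π, ‖π'‖ = ‖π‖ := by
      intro π' h
      obtain ⟨σ, -, rfl⟩ := (h11_mem_conj p _ π π').mp h
      exact h78_norm_aut p σ π
    have hπconj : π ∈ h78_conj p (h78_J p L) π :=
      (h11_mem_conj p _ π π).mpr ⟨1, Subgroup.one_mem _, rfl⟩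
    obtain ⟨PΩ, hPΩ⟩ : ∃ PΩ : Polynomial Ω,
        PΩ = ∏ x ∈ h78_conj p (h78_J p L) π, (X - C x) := ⟨_, rfl⟩
    have hPcoef : (↑PΩ.coeffs : Set Ω) ⊆ S := by
      intro c hc
      obtain ⟨n, -, rfl⟩ := Polynomial.mem_coeffs_iff.mp hc
      rw [SetLike.mem_coe, hSmem]
      refine ⟨by rw [hPΩ]; exact hprod n, ?_⟩
      rw [hPΩ]
      exact h11_prod_coeff_norm p _ _ (fun i hi => by rw [hconj i hi]; exact hπ1.le) n
    have hPmonic : PΩ.Monic := by
      rw [hPΩ]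
      exact monic_prod_X_sub_C _ _
    have hPdeg : PΩ.natDegree = e := by
      rw [hPΩ, he]
      exact natDegree_finsetProd_X_sub_C_eq_card _ _
    obtain ⟨P0, hP0⟩ : ∃ P0 : Polynomial S, P0 = PΩ.toSubring S hPcoef := ⟨_, rfl⟩
    have hP0map : P0.map S.subtype = PΩ := by
      rw [hP0]
      exact map_toSubring _ _ _
    have hP0monic : P0.Monic := by
      rw [hP0]
      exact (monic_toSubring _ _ _).mpr hPmonic
    have hP0deg : P0.natDegree = e := by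
      rw [hP0, natDegree_toSubring]
      exact hPdeg
    have hP0eval : ∀ w : Ω, eval₂ S.subtype w P0 = eval w PΩ := by
      intro w
      rw [← eval_map, hP0map]
    have hP0π : eval₂ S.subtype π P0 = 0 := by
      rw [hP0eval, hPΩ, eval_prod]
      exact Finset.prod_eq_zero hπconj (by simp)
    have hP0x : ‖eval₂ S.subtype x P0‖ ≤ h78_sOf p L π t := by
      rw [hP0eval, hPΩ, eval_prod, norm_prod]
      unfold h78_sOf
      refine Finset.prod_le_prod (fun i _ => norm_nonneg _) fun π' _ => ?_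
      rw [eval_sub, eval_X, eval_C]
      have h1 : x - π' = (x - π) + (π - π') := by ring
      rw [h1]
      refine (IsUltrametricDist.norm_add_le_max _ _).trans (max_le_max hxπ ?_)
      rw [norm_sub_rev]
    -- integral expansions
    have hint : ∀ (z : L), ‖(z : Ω)‖ ≤ 1 → ∃ A : Polynomial S,
        (z : Ω) = eval₂ S.subtype π A ∧ φ z = eval₂ S.subtype x A := by
      intro z hz
      obtain ⟨c, h1, h2, h3⟩ := hφz z
      have hcS : ∀ i, c i ∈ S := by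
        intro i
        rw [hSmem]
        refine ⟨h1 i, ?_⟩
        by_cases hci : c i = 0
        · rw [hci, norm_zero]
          exact zero_le_one
        obtain ⟨n, hn⟩ := hunram (c i) (h1 i) hci
        refine h11_int_of_bound p (c i) n hn π hπ0 hπ1 e i i.2 hcard ?_
        have h4 := hbπ c h1 i
        rw [← h2] at h4
        exact h4.trans hz
      obtain ⟨A, hA⟩ := h11_exists_poly p S e c hcS
      exact ⟨A, by rw [hA, h2], by rw [hA, h3]⟩
    obtain ⟨A, hAπ, hAx⟩ := hint a ha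
    obtain ⟨B, hBπ, hBx⟩ := hint b' hb'
    obtain ⟨h1, h2⟩ := h11_defect p S hS1 P0 A B π x hP0π hx1.le
    -- the remainder
    have hRdeg : ((A * B) %ₘ P0).natDegree < e := by
      rw [← hP0deg]
      refine natDegree_modByMonic_lt _ hP0monic ?_
      intro h1'
      rw [h1', natDegree_one] at hP0deg
      exact he0 hP0deg.symm
    have hRK : ∀ i : Fin e, ((((A * B) %ₘ P0).coeff i : S) : Ω) ∈ K := fun i =>
      ((hSmem _).mp (((A * B) %ₘ P0).coeff i).2).1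
    have hRπ := h11_eval₂_of_lt p S e _ hRdeg π
    have hRx := h11_eval₂_of_lt p S e _ hRdeg x
    have hab : ((a * b' : L) : Ω) =
        ∑ i : Fin e, ((((A * B) %ₘ P0).coeff i : S) : Ω) * π ^ (i : ℕ) := by
      rw [← hRπ, h1, ← hAπ, ← hBπ]
      rfl
    have hmem : ∑ i : Fin e, ((((A * B) %ₘ P0).coeff i : S) : Ω) * π ^ (i : ℕ) ∈ L := by
      rw [← hab]
      exact (a * b').2
    have hφab : φ (a * b') = eval₂ S.subtype x ((A * B) %ₘ P0) := by
      have hz : a * b' = ⟨_, hmem⟩ := Subtype.ext hab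
      rw [hz, hφ _ hRK hmem, hRx]
    rw [hφab, hAx, hBx]
    exact h2.trans hP0x

end Fermat.Agent.S56
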