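/-
S56 / W3 row B5 (TWISTING): for `t` in the relative inertia group `J_L` there are an
automorphism `g` agreeing with `t` on `L` and an integral `b` with `∑_{j<p} g^j b = 1`,
`g^p b = b` (an integral element of trace one in an unramified cyclic extension of degree `p`,
obtained from an Artin-Schreier equation).
-/
import Mathlib
import Fermat.Agent.S56.h78_W3Defs

set_option autoImplicit false

namespace Fermat.Agent.S56

variable (p : ℕ) [Fact p.Prime]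

local notation "Ω" => PadicAlgCl p
local notation "Fld" => IntermediateField ℚ_[p] (PadicAlgCl p)

/-! ## The unit ball and its residue field -/

/-- the closed unit ball of `Ω`. -/
noncomputable def h58_O : ValuationSubring Ω where
  carrier := {x | ‖x‖ ≤ 1}
  mul_mem' := fun {a b} ha hb => by
    show ‖a * b‖ ≤ 1
    rw [norm_mul]; exact mul_le_one₀ ha (norm_nonneg _) hb
  one_mem' := by show ‖(1 : Ω)‖ ≤ 1; rw [norm_one]
  add_mem' := fun {a b} ha hb => by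
    show ‖a + b‖ ≤ 1
    exact le_trans (IsUltrametricDist.norm_add_le_max a b) (max_le ha hb)
  zero_mem' := by show ‖(0 : Ω)‖ ≤ 1; rw [norm_zero]; exact zero_le_one
  neg_mem' := fun {a} ha => by show ‖-a‖ ≤ 1; rw [norm_neg]; exact ha
  mem_or_inv_mem' := fun x => by
    by_cases h : ‖x‖ ≤ 1
    · exact Or.inl h
    · right
      show ‖x⁻¹‖ ≤ 1
      rw [norm_inv]
      exact inv_le_one_of_one_le₀ (le_of_not_ge h)

theorem h58_mem_O (x : Ω) : x ∈ h58_O p ↔ ‖x‖ ≤ 1 := Iff.rfl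

/-- the residue field of `Ω`. -/
abbrev h58_k : Type := IsLocalRing.ResidueField (h58_O p)

theorem h58_res_eq_zero_iff (x : h58_O p) :
    IsLocalRing.residue (h58_O p) x = 0 ↔ ‖(x : Ω)‖ < 1 := by
  rw [IsLocalRing.residue_eq_zero_iff, IsLocalRing.mem_maximalIdeal, mem_nonunits_iff]
  constructor
  · intro hu
    by_contra hlt
    apply hu
    have h1 : ‖(x : Ω)‖ = 1 := le_antisymm x.2 (not_lt.1 hlt)
    have hx0 : (x : Ω) ≠ 0 := by
      intro h0; rw [h0, norm_zero] at h1; exact zero_ne_one h1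
    have hinv : ‖(x : Ω)⁻¹‖ ≤ 1 := by rw [norm_inv, h1, inv_one]
    exact isUnit_iff_exists_inv.2 ⟨⟨(x : Ω)⁻¹, hinv⟩, Subtype.ext (mul_inv_cancel₀ hx0)⟩
  · intro hlt hu
    obtain ⟨y, hy⟩ := isUnit_iff_exists_inv.1 hu
    have h1 : ‖(x : Ω)‖ * ‖(y : Ω)‖ = 1 := by
      rw [← norm_mul]
      have : (x : Ω) * (y : Ω) = 1 := congrArg Subtype.val hy
      rw [this, norm_one]
    have h2 : ‖(x : Ω)‖ * ‖(y : Ω)‖ ≤ ‖(x : Ω)‖ * 1 :=
      mul_le_mul_of_nonneg_left y.2 (norm_nonneg _)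
    rw [h1, mul_one] at h2
    exact absurd hlt (not_lt.2 h2)

/-- reduction mod the maximal ideal, as a total function (zero outside the unit ball). -/
noncomputable def h58_rd (x : Ω) : h58_k p :=
  if h : ‖x‖ ≤ 1 then IsLocalRing.residue (h58_O p) ⟨x, h⟩ else 0

theorem h58_rd_of {x : Ω} (hx : ‖x‖ ≤ 1) :
    h58_rd p x = IsLocalRing.residue (h58_O p) ⟨x, hx⟩ := dif_pos hx

theorem h58_norm_add_le {x y : Ω} (hx : ‖x‖ ≤ 1) (hy : ‖y‖ ≤ 1) : ‖x + y‖ ≤ 1 :=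
  le_trans (IsUltrametricDist.norm_add_le_max x y) (max_le hx hy)

theorem h58_norm_sub_le {x y : Ω} (hx : ‖x‖ ≤ 1) (hy : ‖y‖ ≤ 1) : ‖x - y‖ ≤ 1 := by
  rw [sub_eq_add_neg]; exact h58_norm_add_le p hx (by rw [norm_neg]; exact hy)

theorem h58_norm_mul_le {x y : Ω} (hx : ‖x‖ ≤ 1) (hy : ‖y‖ ≤ 1) : ‖x * y‖ ≤ 1 := by
  rw [norm_mul]; exact mul_le_one₀ hx (norm_nonneg _) hy

theorem h58_norm_pow_le {x : Ω} (hx : ‖x‖ ≤ 1) (n : ℕ) : ‖x ^ n‖ ≤ 1 := by
  rw [norm_pow]; exact pow_le_one₀ (norm_nonneg _) hx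

theorem h58_norm_natCast_le (n : ℕ) : ‖(n : Ω)‖ ≤ 1 :=
  (h58_mem_O p _).1 (natCast_mem (h58_O p) n)

theorem h58_rd_add {x y : Ω} (hx : ‖x‖ ≤ 1) (hy : ‖y‖ ≤ 1) :
    h58_rd p (x + y) = h58_rd p x + h58_rd p y := by
  rw [h58_rd_of p hx, h58_rd_of p hy, h58_rd_of p (h58_norm_add_le p hx hy), ← map_add]
  rfl

theorem h58_rd_mul {x y : Ω} (hx : ‖x‖ ≤ 1) (hy : ‖y‖ ≤ 1) :
    h58_rd p (x * y) = h58_rd p x * h58_rd p y := by
  rw [h58_rd_of p hx, h58_rd_of p hy, h58_rd_of p (h58_norm_mul_le p hx hy), ← map_mul]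
  rfl

theorem h58_rd_sub {x y : Ω} (hx : ‖x‖ ≤ 1) (hy : ‖y‖ ≤ 1) :
    h58_rd p (x - y) = h58_rd p x - h58_rd p y := by
  rw [h58_rd_of p hx, h58_rd_of p hy, h58_rd_of p (h58_norm_sub_le p hx hy), ← map_sub]
  rfl

theorem h58_rd_one : h58_rd p (1 : Ω) = 1 := by
  rw [h58_rd_of p (by rw [norm_one]), ← map_one (IsLocalRing.residue (h58_O p))]
  rfl

theorem h58_rd_natCast (n : ℕ) : h58_rd p (n : Ω) = (n : h58_k p) := by
  rw [h58_rd_of p (h58_norm_natCast_le p n), ← map_natCast (IsLocalRing.residue (h58_O p))]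
  rfl

theorem h58_rd_pow {x : Ω} (hx : ‖x‖ ≤ 1) (n : ℕ) :
    h58_rd p (x ^ n) = h58_rd p x ^ n := by
  rw [h58_rd_of p hx, h58_rd_of p (h58_norm_pow_le p hx n), ← map_pow]
  rfl

theorem h58_rd_eq_zero_iff {x : Ω} (hx : ‖x‖ ≤ 1) : h58_rd p x = 0 ↔ ‖x‖ < 1 := by
  rw [h58_rd_of p hx, h58_res_eq_zero_iff]

theorem h58_rd_eq_iff {x y : Ω} (hx : ‖x‖ ≤ 1) (hy : ‖y‖ ≤ 1) :
    h58_rd p x = h58_rd p y ↔ ‖x - y‖ < 1 := by
  rw [← sub_eq_zero, ← h58_rd_sub p hx hy, h58_rd_eq_zero_iff p (h58_norm_sub_le p hx hy)]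

theorem h58_rd_sum {ι : Type} (s : Finset ι) (f : ι → Ω) (hf : ∀ i ∈ s, ‖f i‖ ≤ 1) :
    ‖∑ i ∈ s, f i‖ ≤ 1 ∧ h58_rd p (∑ i ∈ s, f i) = ∑ i ∈ s, h58_rd p (f i) := by
  classical
  induction s using Finset.induction_on with
  | empty =>
    refine ⟨by simp, ?_⟩
    rw [Finset.sum_empty, Finset.sum_empty]
    exact (h58_rd_eq_zero_iff p (by simp)).2 (by simp)
  | insert a s ha ih =>
    obtain ⟨h1, h2⟩ := ih (fun i hi => hf i (Finset.mem_insert_of_mem hi))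
    have hfa := hf a (Finset.mem_insert_self a s)
    rw [Finset.sum_insert ha, Finset.sum_insert ha]
    exact ⟨h58_norm_add_le p hfa h1, by rw [h58_rd_add p hfa h1, h2]⟩

theorem h58_norm_p_lt : ‖(p : Ω)‖ < 1 := by
  have h : (p : Ω) = algebraMap ℚ_[p] Ω (p : ℚ_[p]) := (map_natCast _ p).symm
  rw [h]
  have h2 : ‖algebraMap ℚ_[p] Ω (p : ℚ_[p])‖ = ‖(p : ℚ_[p])‖ := PadicAlgCl.norm_extends p _
  rw [h2]
  exact Padic.norm_p_lt_one

instance h58_charP : CharP (h58_k p) p :=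
  (CharP.charP_iff_prime_eq_zero (Fact.out : p.Prime)).2 (by
    rw [← h58_rd_natCast]
    exact (h58_rd_eq_zero_iff p (h58_norm_natCast_le p p)).2 (h58_norm_p_lt p))

/-! ## Characteristic `p` facts -/

theorem h58_sum_range_zmod {M : Type} [AddCommMonoid M] (F : ZMod p → M) :
    ∑ n ∈ Finset.range p, F (n : ZMod p) = ∑ a : ZMod p, F a := by
  refine Finset.sum_nbij' (fun n => (n : ZMod p)) (fun a => a.val) ?_ ?_ ?_ ?_ ?_
  · intro n _; exact Finset.mem_univ _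
  · intro a _; exact Finset.mem_range.2 (ZMod.val_lt a)
  · intro n hn; exact ZMod.val_cast_of_lt (Finset.mem_range.1 hn)
  · intro a _; exact ZMod.natCast_zmod_val a
  · intro n _; rfl

theorem h58_zmod_sum_pow_lt (i : ℕ) (hi : i < p - 1) :
    ∑ n ∈ Finset.range p, ((n : ℕ) : ZMod p) ^ i = 0 := by
  rw [h58_sum_range_zmod p (fun a => a ^ i)]
  exact FiniteField.sum_pow_lt_card_sub_one (ZMod p) i (by rw [ZMod.card]; exact hi)

theorem h58_zmod_sum_pow_top :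
    ∑ n ∈ Finset.range p, ((n : ℕ) : ZMod p) ^ (p - 1) = -1 := by
  classical
  have hp1 : p - 1 ≠ 0 := by have := (Fact.out : p.Prime).one_lt; omega
  rw [h58_sum_range_zmod p (fun a => a ^ (p - 1))]
  rw [← Finset.add_sum_erase Finset.univ _ (Finset.mem_univ (0 : ZMod p)), zero_pow hp1, zero_add]
  rw [Finset.sum_congr rfl (fun a ha => ZMod.pow_card_sub_one_eq_one (Finset.ne_of_mem_erase ha))]
  rw [Finset.sum_const, Finset.card_erase_of_mem (Finset.mem_univ _), Finset.card_univ, ZMod.card,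
    nsmul_eq_mul, mul_one, Nat.cast_sub (Fact.out : p.Prime).one_lt.le, ZMod.natCast_self,
    Nat.cast_one, zero_sub]

theorem h58_char_sum_pow {K : Type} [Field K] [CharP K p] (i : ℕ) (hi : i ≤ p - 1) :
    ∑ n ∈ Finset.range p, ((n : ℕ) : K) ^ i = if i = p - 1 then -1 else 0 := by
  have h : ∑ n ∈ Finset.range p, ((n : ℕ) : K) ^ i
      = ZMod.castHom (dvd_refl p) K (∑ n ∈ Finset.range p, ((n : ℕ) : ZMod p) ^ i) := by
    rw [map_sum]
    refine Finset.sum_congr rfl (fun n _ => ?_)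
    rw [map_pow, map_natCast]
  rw [h]
  split_ifs with h1
  · rw [h1, h58_zmod_sum_pow_top, map_neg, map_one]
  · rw [h58_zmod_sum_pow_lt p i (lt_of_le_of_ne hi h1), map_zero]

/-- (F2) `∑_{n<p} (x + n)^(p-1) = -1` in characteristic `p`. -/
theorem h58_char_sum_shift {K : Type} [Field K] [CharP K p] (x : K) :
    ∑ n ∈ Finset.range p, (x + ((n : ℕ) : K)) ^ (p - 1) = -1 := by
  have hp1 : p - 1 + 1 = p := Nat.sub_add_cancel (Fact.out : p.Prime).one_lt.le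
  have h1 : ∀ n ∈ Finset.range p, (x + ((n : ℕ) : K)) ^ (p - 1)
      = ∑ m ∈ Finset.range p, x ^ m * ((p - 1).choose m : K) * ((n : ℕ) : K) ^ (p - 1 - m) := by
    intro n _
    rw [add_pow, hp1]
    refine Finset.sum_congr rfl (fun m _ => ?_)
    ring
  rw [Finset.sum_congr rfl h1, Finset.sum_comm]
  have h2 : ∀ m ∈ Finset.range p,
      ∑ n ∈ Finset.range p, x ^ m * ((p - 1).choose m : K) * ((n : ℕ) : K) ^ (p - 1 - m)
      = if m = 0 then -1 else 0 := by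
    intro m hm
    rw [← Finset.mul_sum, h58_char_sum_pow p (p - 1 - m) (Nat.sub_le _ _)]
    have hm' := Finset.mem_range.1 hm
    by_cases h0 : m = 0
    · subst h0
      simp
    · have : ¬ (p - 1 - m = p - 1) := by omega
      rw [if_neg this, if_neg h0, mul_zero]
  rw [Finset.sum_congr rfl h2, Finset.sum_ite_eq' (Finset.range p) 0 (fun _ => (-1 : K)),
    if_pos (Finset.mem_range.2 (Fact.out : p.Prime).pos)]

/-- (F1) fixed points of Frobenius lie in the prime field. -/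
theorem h58_char_frob_fix {K : Type} [Field K] [CharP K p] (x : K) (hx : x ^ p = x) :
    ∃ n : ℕ, n < p ∧ x = ((n : ℕ) : K) := by
  have h1 : x ∈ (⊥ : Subfield K) := (Subfield.mem_bot_iff_pow_eq_self K p).2 hx
  obtain ⟨n, hn⟩ := (mem_bot_iff_intCast p K).1 h1
  have hp0 : (p : ℤ) ≠ 0 := by exact_mod_cast (Fact.out : p.Prime).ne_zero
  have hnn : 0 ≤ n % (p : ℤ) := Int.emod_nonneg n hp0
  have hlt : n % (p : ℤ) < p := Int.emod_lt_of_pos n (by exact_mod_cast (Fact.out : p.Prime).pos)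
  refine ⟨(n % (p : ℤ)).toNat, by omega, ?_⟩
  rw [← hn, ← Int.cast_natCast (R := K), Int.toNat_of_nonneg hnn]
  exact (CharP.intCast_eq_intCast K p).2 (Int.mod_modEq n p).symm

/-! ## Roots of the Artin-Schreier polynomial `X^p - X - c` -/

theorem h58_root_int {c ρ : Ω} (hc1 : ‖c‖ ≤ 1) (hρ : ρ ^ p = ρ + c) : ‖ρ‖ ≤ 1 := by
  by_contra h
  have h1 : 1 < ‖ρ‖ := not_le.1 h
  have h2 : ‖ρ ^ p‖ ≤ ‖ρ‖ := by
    rw [hρ]
    exact le_trans (IsUltrametricDist.norm_add_le_max ρ c) (max_le le_rfl (le_trans hc1 h1.le))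
  have h3 : ‖ρ‖ < ‖ρ ^ p‖ := by
    rw [norm_pow]
    calc ‖ρ‖ = ‖ρ‖ ^ 1 := (pow_one _).symm
      _ < ‖ρ‖ ^ p := pow_lt_pow_right₀ h1 (Fact.out : p.Prime).one_lt
  exact absurd h2 (not_le.2 h3)

/-- two roots which are congruent mod the maximal ideal are equal. -/
theorem h58_root_eq {c ρ ρ' : Ω} (hc1 : ‖c‖ ≤ 1) (hρ : ρ ^ p = ρ + c) (hρ' : ρ' ^ p = ρ' + c)
    (hd : ‖ρ - ρ'‖ < 1) : ρ = ρ' := by
  have hi := h58_root_int p hc1 hρ
  have hi' := h58_root_int p hc1 hρ'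
  have h1 : (ρ - ρ') * (∑ i ∈ Finset.range p, ρ ^ i * ρ' ^ (p - 1 - i)) = ρ - ρ' := by
    rw [Commute.mul_geom_sum₂ (Commute.all ρ ρ') p, hρ, hρ']; ring
  have hrd : h58_rd p ρ = h58_rd p ρ' := (h58_rd_eq_iff p hi hi').2 hd
  have hS1 : ‖∑ i ∈ Finset.range p, ρ ^ i * ρ' ^ (p - 1 - i)‖ < 1 := by
    have h2 := h58_rd_sum p (Finset.range p) (fun i => ρ ^ i * ρ' ^ (p - 1 - i))
      (fun i _ => h58_norm_mul_le p (h58_norm_pow_le p hi i) (h58_norm_pow_le p hi' _))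
    rw [← h58_rd_eq_zero_iff p h2.1, h2.2]
    have h3 : ∀ i ∈ Finset.range p,
        h58_rd p (ρ ^ i * ρ' ^ (p - 1 - i)) = h58_rd p ρ ^ i * h58_rd p ρ ^ (p - 1 - i) := by
      intro i _
      rw [h58_rd_mul p (h58_norm_pow_le p hi i) (h58_norm_pow_le p hi' _), h58_rd_pow p hi,
        h58_rd_pow p hi', ← hrd]
    rw [Finset.sum_congr rfl h3, geom_sum₂_self, CharP.cast_eq_zero, zero_mul]
  by_contra hne
  have hd0 : ρ - ρ' ≠ 0 := sub_ne_zero.2 hne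
  have h4 : ‖ρ - ρ'‖ * ‖∑ i ∈ Finset.range p, ρ ^ i * ρ' ^ (p - 1 - i)‖ = ‖ρ - ρ'‖ := by
    rw [← norm_mul, h1]
  have h5 : ‖ρ - ρ'‖ * ‖∑ i ∈ Finset.range p, ρ ^ i * ρ' ^ (p - 1 - i)‖ < ‖ρ - ρ'‖ * 1 :=
    mul_lt_mul_of_pos_left hS1 (norm_pos_iff.2 hd0)
  rw [h4, mul_one] at h5
  exact lt_irrefl _ h5

/-- any root is congruent to `β + n` for some `n < p`. -/
theorem h58_root_shift {c β ρ : Ω} (hc1 : ‖c‖ ≤ 1) (hβ : β ^ p = β + c) (hρ : ρ ^ p = ρ + c) :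
    ∃ n : ℕ, n < p ∧ h58_rd p ρ = h58_rd p β + (n : h58_k p) := by
  have hi := h58_root_int p hc1 hβ
  have hi' := h58_root_int p hc1 hρ
  have e1 : h58_rd p β ^ p = h58_rd p β + h58_rd p c := by
    rw [← h58_rd_pow p hi, hβ, h58_rd_add p hi hc1]
  have e2 : h58_rd p ρ ^ p = h58_rd p ρ + h58_rd p c := by
    rw [← h58_rd_pow p hi', hρ, h58_rd_add p hi' hc1]
  have e3 : (h58_rd p ρ - h58_rd p β) ^ p = h58_rd p ρ - h58_rd p β := by
    rw [sub_pow_char, e1, e2]; ring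
  obtain ⟨n, hn, hx⟩ := h58_char_frob_fix p _ e3
  exact ⟨n, hn, by rw [← hx]; ring⟩

/-! ## The twisting datum -/

/-- B5 with its inputs (B2.3 Artin-Schreier non-surjectivity on the residue field of `L`,
B3.1 `L` and `K₀(L)` have the same residue field, `K₀(L) ≤ L`, B0.5 Galois correspondence for `L`)
as explicit hypotheses. -/
theorem h58_twisting_of (L : Fld)
    (hAS : ∃ c ∈ L, ‖c‖ ≤ 1 ∧ ∀ x ∈ L, ‖x‖ ≤ 1 → ¬ ‖x ^ p - x - c‖ < 1)
    (hres : ∀ x : Ω, x ∈ L → ‖x‖ ≤ 1 → ∃ c ∈ h78_K0 p L, ‖x - c‖ < 1)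
    (hK0 : h78_K0 p L ≤ L)
    (hfix : ∀ x : Ω, (∀ g : h78_G p, (∀ z ∈ L, g z = z) → g x = x) → x ∈ L)
    (t : h78_G p) (ht : t ∈ h78_J p L) :
    ∃ (g : h78_G p) (b : Ω), (∀ z ∈ L, g z = t z) ∧ ‖b‖ ≤ 1 ∧
      (∑ j ∈ Finset.range p, (g ^ j) b = 1) ∧ (g ^ p) b = b := by
  obtain ⟨c0, hc0L, hc01, hc0⟩ := hAS
  obtain ⟨c, hcK, hcc⟩ := hres c0 hc0L hc01
  have hcL : c ∈ L := hK0 hcK
  have hc1 : ‖c‖ ≤ 1 := by
    have : c = c0 - (c0 - c) := by ring
    rw [this]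
    exact h58_norm_sub_le p hc01 hcc.le
  have hc : ∀ x ∈ L, ‖x‖ ≤ 1 → ¬ ‖x ^ p - x - c‖ < 1 := by
    intro x hxL hx1 hlt
    apply hc0 x hxL hx1
    have : x ^ p - x - c0 = (x ^ p - x - c) + -(c0 - c) := by ring
    rw [this]
    exact lt_of_le_of_lt (IsUltrametricDist.norm_add_le_max _ _)
      (max_lt hlt (by rw [norm_neg]; exact hcc))
  -- the root β
  obtain ⟨β, hβ⟩ : ∃ β : Ω, β ^ p = β + c := by
    have hdeg : (Polynomial.X ^ p - (Polynomial.X + Polynomial.C c) : Polynomial Ω).degree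
        = p := by
      rw [Polynomial.degree_sub_eq_left_of_degree_lt, Polynomial.degree_X_pow]
      rw [Polynomial.degree_X_pow, Polynomial.degree_X_add_C]
      exact_mod_cast (Fact.out : p.Prime).one_lt
    obtain ⟨β, hβ⟩ := IsAlgClosed.exists_root
      (Polynomial.X ^ p - (Polynomial.X + Polynomial.C c) : Polynomial Ω)
      (by rw [hdeg]; exact_mod_cast (Fact.out : p.Prime).ne_zero)
    refine ⟨β, ?_⟩
    have := hβ
    rw [Polynomial.IsRoot.def, Polynomial.eval_sub, Polynomial.eval_pow, Polynomial.eval_X,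
      Polynomial.eval_add, Polynomial.eval_X, Polynomial.eval_C] at this
    exact sub_eq_zero.1 this
  have hβ1 : ‖β‖ ≤ 1 := h58_root_int p hc1 hβ
  have hroot : ∀ σ : h78_G p, σ c = c → (σ β) ^ p = σ β + c := by
    intro σ hσ
    have := congrArg σ hβ
    rw [map_pow, map_add, hσ] at this
    exact this
  have hnorm : ∀ σ : h78_G p, ‖σ β‖ ≤ 1 := fun σ => by rw [h78_norm_aut]; exact hβ1
  have hJ1 : ∀ σ : h78_G p, σ c = c →
      ∃ n : ℕ, n < p ∧ h58_rd p (σ β) = h58_rd p β + (n : h58_k p) :=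
    fun σ hσ => h58_root_shift p hc1 hβ (hroot σ hσ)
  have hJ2 : ∀ (σ τ : h78_G p) (m n : ℕ), h58_rd p (σ β) = h58_rd p β + (m : h58_k p) →
      h58_rd p (τ β) = h58_rd p β + (n : h58_k p) →
      h58_rd p ((σ * τ) β) = h58_rd p β + ((m + n : ℕ) : h58_k p) := by
    intro σ τ m n hσ hτ
    have h1 : ‖τ β - (β + (n : Ω))‖ < 1 := by
      rw [← h58_rd_eq_iff p (hnorm τ) (h58_norm_add_le p hβ1 (h58_norm_natCast_le p n)),
        h58_rd_add p hβ1 (h58_norm_natCast_le p n), h58_rd_natCast]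
      exact hτ
    have h2 : ‖σ (τ β) - (σ β + (n : Ω))‖ < 1 := by
      have : σ (τ β) - (σ β + (n : Ω)) = σ (τ β - (β + (n : Ω))) := by
        rw [map_sub, map_add, map_natCast]
      rw [this, h78_norm_aut]; exact h1
    have hn2 : ‖σ (τ β)‖ ≤ 1 := by rw [h78_norm_aut]; exact hnorm τ
    have h3 : h58_rd p (σ (τ β)) = h58_rd p (σ β + (n : Ω)) :=
      (h58_rd_eq_iff p hn2 (h58_norm_add_le p (hnorm σ) (h58_norm_natCast_le p n))).2 h2
    rw [AlgEquiv.mul_apply, h3, h58_rd_add p (hnorm σ) (h58_norm_natCast_le p n), h58_rd_natCast,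
      hσ, Nat.cast_add, add_assoc]
  have hJ3 : ∀ (σ : h78_G p) (n : ℕ), h58_rd p (σ β) = h58_rd p β + (n : h58_k p) →
      ∀ i : ℕ, h58_rd p ((σ ^ i) β) = h58_rd p β + ((i * n : ℕ) : h58_k p) := by
    intro σ n hσ i
    induction i with
    | zero => simp
    | succ i ih =>
      rw [pow_succ, hJ2 (σ ^ i) σ (i * n) n ih hσ]
      congr 2; ring
  have hJ4 : ∀ (σ : h78_G p) (n : ℕ), σ c = c →
      h58_rd p (σ β) = h58_rd p β + (n : h58_k p) → (n : h58_k p) = 0 → σ β = β := by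
    intro σ n hσc hσ hn
    rw [hn, add_zero] at hσ
    exact h58_root_eq p hc1 (hroot σ hσc) hβ ((h58_rd_eq_iff p (hnorm σ) hβ1).1 hσ)
  -- an element of Gal(Ω/L) moving β
  have hex : ∃ h : h78_G p, (∀ z ∈ L, h z = z) ∧ h β ≠ β := by
    by_contra hne
    push Not at hne
    have hβL : β ∈ L := hfix β hne
    apply hc β hβL hβ1
    rw [hβ]; simp
  obtain ⟨h, hhL, hhβ⟩ := hex
  have hhc : h c = c := hhL c hcL
  obtain ⟨n, hn, hJh⟩ := hJ1 h hhc
  have hn0 : (n : h58_k p) ≠ 0 := fun h0 => hhβ (hJ4 h n hhc hJh h0)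
  have htc : t c = c := (IntermediateField.mem_fixingSubgroup_iff (h78_K0 p L) t).1 ht c hcK
  obtain ⟨m, hm, hJt⟩ := hJ1 t htc
  have hnz : (n : ZMod p) ≠ 0 := by
    intro h0
    apply hn0
    have := congrArg (ZMod.castHom (dvd_refl p) (h58_k p)) h0
    rwa [map_natCast, map_zero] at this
  obtain ⟨i, hi⟩ : ∃ i : ℕ, ((m + i * n : ℕ) : h58_k p) = 1 := by
    refine ⟨((1 - (m : ZMod p)) * (n : ZMod p)⁻¹).val, ?_⟩
    have hz : ((m + ((1 - (m : ZMod p)) * (n : ZMod p)⁻¹).val * n : ℕ) : ZMod p) = 1 := by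
      rw [Nat.cast_add, Nat.cast_mul, ZMod.natCast_zmod_val, mul_assoc, inv_mul_cancel₀ hnz]
      ring
    have := congrArg (ZMod.castHom (dvd_refl p) (h58_k p)) hz
    rwa [map_natCast, map_one] at this
  have hhi : ∀ j : ℕ, ∀ z ∈ L, (h ^ j) z = z := by
    intro j
    induction j with
    | zero => intro z _; simp
    | succ j ih =>
      intro z hz
      rw [pow_succ, AlgEquiv.mul_apply, hhL z hz, ih z hz]
  have hgL : ∀ z ∈ L, (t * h ^ i) z = t z := by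
    intro z hz
    rw [AlgEquiv.mul_apply, hhi i z hz]
  have hgc : (t * h ^ i) c = c := by rw [hgL c hcL, htc]
  have hJg : h58_rd p ((t * h ^ i) β) = h58_rd p β + ((1 : ℕ) : h58_k p) := by
    rw [hJ2 t (h ^ i) m (i * n) hJt (hJ3 h n hJh i), hi, Nat.cast_one]
  generalize t * h ^ i = g at hgL hgc hJg
  have hgpow : ∀ j : ℕ, h58_rd p ((g ^ j) β) = h58_rd p β + ((j : ℕ) : h58_k p) := by
    intro j
    have := hJ3 g 1 hJg j
    rwa [mul_one] at this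
  have hgjc : ∀ j : ℕ, (g ^ j) c = c := by
    intro j
    induction j with
    | zero => simp
    | succ j ih => rw [pow_succ, AlgEquiv.mul_apply, hgc, ih]
  have hgp : (g ^ p) β = β := hJ4 (g ^ p) p (hgjc p) (hgpow p) (CharP.cast_eq_zero _ p)
  -- the trace `T` of `β^(p-1)`
  have hgT : g (∑ j ∈ Finset.range p, (g ^ j) (β ^ (p - 1)))
      = ∑ j ∈ Finset.range p, (g ^ j) (β ^ (p - 1)) := by
    rw [map_sum]
    have h1 : ∀ j ∈ Finset.range p, g ((g ^ j) (β ^ (p - 1))) = (g ^ (j + 1)) (β ^ (p - 1)) := by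
      intro j _
      rw [pow_succ', AlgEquiv.mul_apply]
    rw [Finset.sum_congr rfl h1]
    have h2 := Finset.sum_range_succ' (fun j => (g ^ j) (β ^ (p - 1))) p
    have h3 := Finset.sum_range_succ (fun j => (g ^ j) (β ^ (p - 1))) p
    have h4 : (g ^ p) (β ^ (p - 1)) = (g ^ 0) (β ^ (p - 1)) := by
      rw [map_pow, hgp, pow_zero]; rfl
    have h5 : ∑ j ∈ Finset.range p, (g ^ (j + 1)) (β ^ (p - 1)) + (g ^ 0) (β ^ (p - 1))
        = ∑ j ∈ Finset.range p, (g ^ j) (β ^ (p - 1)) + (g ^ p) (β ^ (p - 1)) := by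
      rw [← h2, ← h3]
    rw [h4] at h5
    exact add_right_cancel h5
  have hterm : ∀ j ∈ Finset.range p, ‖(g ^ j) (β ^ (p - 1))‖ ≤ 1 := by
    intro j _
    rw [h78_norm_aut]; exact h58_norm_pow_le p hβ1 _
  have hTs := h58_rd_sum p (Finset.range p) (fun j => (g ^ j) (β ^ (p - 1))) hterm
  have hrdT : h58_rd p (∑ j ∈ Finset.range p, (g ^ j) (β ^ (p - 1))) = -1 := by
    rw [hTs.2]
    have h1 : ∀ j ∈ Finset.range p, h58_rd p ((g ^ j) (β ^ (p - 1)))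
        = (h58_rd p β + ((j : ℕ) : h58_k p)) ^ (p - 1) := by
      intro j _
      rw [map_pow, h58_rd_pow p (hnorm _), hgpow j]
    rw [Finset.sum_congr rfl h1]
    exact h58_char_sum_shift p _
  have hsum : ∀ T : Ω, (∑ j ∈ Finset.range p, (g ^ j) (β ^ (p - 1))) = T → g T = T → ‖T‖ ≤ 1 →
      h58_rd p T = -1 → ∃ b : Ω, ‖b‖ ≤ 1 ∧
      (∑ j ∈ Finset.range p, (g ^ j) b = 1) ∧ (g ^ p) b = b := by
    intro T hT hgT hTle hrdT
    have hgjT : ∀ j : ℕ, (g ^ j) T = T := by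
      intro j
      induction j with
      | zero => simp
      | succ j ih => rw [pow_succ, AlgEquiv.mul_apply, hgT, ih]
    have hT1 : ‖T‖ = 1 := by
      refine le_antisymm hTle (not_lt.1 (fun hlt => ?_))
      have := (h58_rd_eq_zero_iff p hTle).2 hlt
      rw [hrdT] at this
      exact one_ne_zero (neg_eq_zero.1 this)
    have hT0 : T ≠ 0 := by
      intro h0; rw [h0, norm_zero] at hT1; exact zero_ne_one hT1
    refine ⟨β ^ (p - 1) * T⁻¹, ?_, ?_, ?_⟩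
    · rw [norm_mul, norm_inv, hT1, inv_one, mul_one]
      exact h58_norm_pow_le p hβ1 _
    · have h1 : ∀ j ∈ Finset.range p,
          (g ^ j) (β ^ (p - 1) * T⁻¹) = (g ^ j) (β ^ (p - 1)) * T⁻¹ := by
        intro j _
        rw [map_mul, map_inv₀, hgjT j]
      rw [Finset.sum_congr rfl h1, ← Finset.sum_mul, hT]
      exact mul_inv_cancel₀ hT0
    · rw [map_mul, map_inv₀, hgjT p, map_pow, hgp]
  obtain ⟨b, hb1, hb2, hb3⟩ := hsum _ rfl hgT hTs.1 hrdT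
  exact ⟨g, b, hgL, hb1, hb2, hb3⟩

end Fermat.Agent.S56
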