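/-
S56 / W3 row B5 (TWISTING), final form: the skeleton statement `sk_twisting` verbatim,
from `h58_twisting_of` and the landed rows B0.5 (`h62_mem_of_fixed`), B2.3 (`h93_exists_not_AS`),
B3a (`h49_K0_le`, `h49_K0_res`).
-/
import Fermat.Agent.S56.h58_Twisting
import Fermat.Agent.S56.h62_W3Basics
import Fermat.Agent.S56.h93_ResFin
import Fermat.Agent.S56.h49_K0Res

set_option autoImplicit false

namespace Fermat.Agent.S56

variable (p : ℕ) [Fact p.Prime]

local notation "Ω" => PadicAlgCl p
local notation "Fld" => IntermediateField ℚ_[p] (PadicAlgCl p)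

set_option linter.unusedVariables false in
/-- W3-B5 : the twisting datum (`sk_twisting` verbatim). -/
theorem h58_twisting (L : Fld) [FiniteDimensional ℚ_[p] L] (hL : h78_Stable p L)
    (t : h78_G p) (ht : t ∈ h78_J p L) :
    ∃ (g : h78_G p) (b : Ω), (∀ z ∈ L, g z = t z) ∧ ‖b‖ ≤ 1 ∧
      (∑ j ∈ Finset.range p, (g ^ j) b = 1) ∧ (g ^ p) b = b :=
  h58_twisting_of p L (h93_exists_not_AS p L) (h49_K0_res p L) (h49_K0_le p L)
    (h62_mem_of_fixed p L) t ht

end Fermat.Agent.S56
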