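/-
S56 / W3 row B4a EXPANSION: if `M₀ ≤ L` has the same residue field and `‖π_{M₀}‖ = ‖π_L‖^j`,
then `1, π, …, π^(j-1)` is an orthogonal `M₀`-basis of `L` (statements verbatim from the W3
skeleton, `sk_expansion` / `sk_expansion_norm`).
-/
import Fermat.Agent.S56.h78_W3Defs

set_option autoImplicit false

namespace Fermat.Agent.S56

variable (p : ℕ) [Fact p.Prime]

local notation "Ω" => PadicAlgCl p
local notation "Fld" => IntermediateField ℚ_[p] (PadicAlgCl p)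

/-- distinct norms: each term is bounded by the norm of the sum. -/
theorem h8_norm_sum_of_distinct {ι : Type} (s : Finset ι) (f : ι → Ω)
    (hd : ∀ i ∈ s, ∀ j ∈ s, i ≠ j → f i ≠ 0 → ‖f i‖ ≠ ‖f j‖) (i : ι) (hi : i ∈ s) :
    ‖f i‖ ≤ ‖∑ j ∈ s, f j‖ := by
  classical
  by_cases h0 : f i = 0
  · rw [h0, norm_zero]; exact norm_nonneg _
  have hsum : ∑ j ∈ s, f j = ∑ j ∈ s.filter (fun j => f j ≠ 0), f j :=
    (Finset.sum_filter_ne_zero s).symm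
  have hi' : i ∈ s.filter (fun j => f j ≠ 0) := Finset.mem_filter.2 ⟨hi, h0⟩
  rw [hsum, IsUltrametricDist.norm_sum_eq_sup'_of_pairwise_ne ⟨i, hi'⟩]
  · exact Finset.le_sup' (fun j => ‖f j‖) hi'
  · intro a ha b hb hab
    have ha' := Finset.mem_filter.1 (Finset.mem_coe.1 ha)
    have hb' := Finset.mem_filter.1 (Finset.mem_coe.1 hb)
    exact hd a ha'.1 b hb'.1 hab ha'.2

/-- B4.2 orthogonality (distinct norms). -/
theorem h8_expansion_norm (M₀ : Fld) (π π₀ : Ω) (hπ : ‖π‖ < 1) (hπ0 : π ≠ 0)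
    (hπ₀ : h78_IsUnif p M₀ π₀) (j : ℕ) (hj : ‖π₀‖ = ‖π‖ ^ j)
    (c : Fin j → Ω) (hc : ∀ i, c i ∈ M₀) (i : Fin j) :
    ‖c i * π ^ (i : ℕ)‖ ≤ ‖∑ i, c i * π ^ (i : ℕ)‖ := by
  have hq0 : 0 < ‖π‖ := norm_pos_iff.2 hπ0
  refine h8_norm_sum_of_distinct p Finset.univ (fun i => c i * π ^ (i : ℕ)) ?_ i
    (Finset.mem_univ _)
  intro a _ b _ hab ha0 heq
  have hca : c a ≠ 0 := left_ne_zero_of_mul ha0
  have hcb : c b ≠ 0 := by
    intro h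
    rw [h, zero_mul, norm_zero, norm_eq_zero] at heq
    exact ha0 heq
  obtain ⟨na, hna⟩ := hπ₀.2.2.2 (c a) (hc a) hca
  obtain ⟨nb, hnb⟩ := hπ₀.2.2.2 (c b) (hc b) hcb
  rw [norm_mul, norm_mul, norm_pow, norm_pow, hna, hnb, hj] at heq
  have h1 : ‖π‖ ^ ((j : ℤ) * na + ((a : ℕ) : ℤ)) = ‖π‖ ^ ((j : ℤ) * nb + ((b : ℕ) : ℤ)) := by
    rw [zpow_add₀ hq0.ne', zpow_add₀ hq0.ne', zpow_mul, zpow_mul, zpow_natCast, zpow_natCast,
      zpow_natCast]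
    exact heq
  have h2 : (j : ℤ) * na + ((a : ℕ) : ℤ) = (j : ℤ) * nb + ((b : ℕ) : ℤ) :=
    zpow_right_injective₀ hq0 hπ.ne h1
  have h3 : (j : ℤ) ∣ ((b : ℕ) : ℤ) - ((a : ℕ) : ℤ) := ⟨na - nb, by linarith⟩
  have h4 : ((b : ℕ) : ℤ) - ((a : ℕ) : ℤ) = 0 := by
    refine Int.eq_zero_of_abs_lt_dvd h3 ?_
    have := a.2
    have := b.2
    rw [abs_lt]
    constructor <;> omega
  exact hab (Fin.ext (by omega))

/-- B4.1 expansion: if `M₀ ≤ L` has the same residue field and `‖π_{M₀}‖ = ‖π_L‖^j`, then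
`1, π, …, π^(j-1)` is an orthogonal `M₀`-basis of `L`. -/
theorem h8_expansion (L M₀ : Fld) [FiniteDimensional ℚ_[p] L] (hML : M₀ ≤ L)
    (hres : ∀ x ∈ L, ‖x‖ ≤ 1 → ∃ c ∈ M₀, ‖x - c‖ < 1)
    (π π₀ : Ω) (hπ : h78_IsUnif p L π) (hπ₀ : h78_IsUnif p M₀ π₀) (j : ℕ) (hj : ‖π₀‖ = ‖π‖ ^ j)
    (z : Ω) (hz : z ∈ L) :
    ∃ c : Fin j → Ω, (∀ i, c i ∈ M₀) ∧ z = ∑ i, c i * π ^ (i : ℕ) ∧
      ∀ i, ‖c i * π ^ (i : ℕ)‖ ≤ ‖z‖ := by
  classical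
  obtain ⟨hπL, hπ0, hπ1, hπv⟩ := hπ
  obtain ⟨hπ₀M, hπ₀0, hπ₀1, hπ₀v⟩ := id hπ₀
  have hq0 : 0 < ‖π‖ := norm_pos_iff.2 hπ0
  have hjpos : 0 < j := by
    rcases Nat.eq_zero_or_pos j with h | h
    · subst h; rw [pow_zero] at hj; exact absurd hj hπ₀1.ne
    · exact h
  -- the `M₀`-span of `1, π, …, π^(j-1)`
  let V : Submodule ℚ_[p] Ω :=
    { carrier := {v | ∃ c : Fin j → Ω, (∀ i, c i ∈ M₀) ∧ v = ∑ i, c i * π ^ (i : ℕ)}
      add_mem' := by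
        rintro _ _ ⟨c, hc, rfl⟩ ⟨c', hc', rfl⟩
        exact ⟨fun i => c i + c' i, fun i => add_mem (hc i) (hc' i), by
          simp [add_mul, Finset.sum_add_distrib]⟩
      zero_mem' := ⟨fun _ => 0, fun _ => zero_mem _, by simp⟩
      smul_mem' := by
        rintro r _ ⟨c, hc, rfl⟩
        exact ⟨fun i => r • c i, fun i => M₀.smul_mem (hc i), by
          simp [Finset.smul_sum]⟩ }
  have hVmem : ∀ v, v ∈ V ↔ ∃ c : Fin j → Ω, (∀ i, c i ∈ M₀) ∧ v = ∑ i, c i * π ^ (i : ℕ) :=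
    fun v => Iff.rfl
  have hVL : V ≤ L.toSubalgebra.toSubmodule := by
    rintro _ ⟨c, hc, rfl⟩
    show ∑ i, c i * π ^ (i : ℕ) ∈ L
    exact sum_mem fun i _ => mul_mem (hML (hc i)) (pow_mem hπL _)
  have hfdL : FiniteDimensional ℚ_[p] ↥(L.toSubalgebra.toSubmodule) :=
    inferInstanceAs (FiniteDimensional ℚ_[p] ↥L)
  have : FiniteDimensional ℚ_[p] V := Submodule.finiteDimensional_of_le hVL
  have hVcl : IsClosed (V : Set Ω) := V.closed_of_finiteDimensional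
  -- one approximation step
  have step : ∀ y ∈ L, ∃ v ∈ V, ‖y - v‖ ≤ ‖π‖ * ‖y‖ := by
    intro y hy
    by_cases hy0 : y = 0
    · exact ⟨0, V.zero_mem, by simp [hy0]⟩
    obtain ⟨n, hn⟩ := hπv y hy hy0
    have hjZ : (0 : ℤ) < (j : ℤ) := by exact_mod_cast hjpos
    obtain ⟨i, hi⟩ : ∃ i : Fin j, ((i : ℕ) : ℤ) = n % (j : ℤ) := by
      have h1 := Int.emod_nonneg n hjZ.ne'
      have h2 := Int.emod_lt_of_pos n hjZ
      exact ⟨⟨(n % (j : ℤ)).toNat, by omega⟩, by simp [Int.toNat_of_nonneg h1]⟩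
    have hn' : n = (j : ℤ) * (n / (j : ℤ)) + ((i : ℕ) : ℤ) := by
      rw [hi]; exact (Int.mul_ediv_add_emod n j).symm
    set a : ℤ := n / (j : ℤ) with ha
    set d : Ω := π₀ ^ a * π ^ (i : ℕ) with hd
    have hd0 : d ≠ 0 := mul_ne_zero (zpow_ne_zero _ hπ₀0) (pow_ne_zero _ hπ0)
    have hdL : d ∈ L := mul_mem (zpow_mem (hML hπ₀M) a) (pow_mem hπL _)
    have hdn : ‖d‖ = ‖y‖ := by
      rw [hd, norm_mul, norm_zpow, norm_pow, hj, hn, hn', zpow_add₀ hq0.ne', zpow_mul,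
        zpow_natCast, zpow_natCast]
    have hu : ‖y / d‖ ≤ 1 := by
      rw [norm_div, hdn, div_self (norm_ne_zero_iff.2 hy0)]
    obtain ⟨c, hcM, hc⟩ := hres (y / d) (div_mem hy hdL) hu
    have hle : ‖y / d - c‖ ≤ ‖π‖ := by
      by_cases h0 : y / d - c = 0
      · rw [h0, norm_zero]; exact hq0.le
      obtain ⟨m, hm⟩ := hπv (y / d - c) (sub_mem (div_mem hy hdL) (hML hcM)) h0
      rw [hm] at hc ⊢
      have hm1 : 1 ≤ m := by
        by_contra hcon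
        have hm0 : m ≤ 0 := by omega
        have : 1 ≤ ‖π‖ ^ m := one_le_zpow_of_nonpos₀ hq0 hπ1.le hm0
        linarith
      calc ‖π‖ ^ m ≤ ‖π‖ ^ (1 : ℤ) := zpow_le_zpow_right_of_le_one₀ hq0 hπ1.le hm1
        _ = ‖π‖ := zpow_one _
    refine ⟨c * d, ?_, ?_⟩
    · refine (hVmem _).2 ⟨fun i' => if i' = i then c * π₀ ^ a else 0, ?_, ?_⟩
      · intro i'
        by_cases h : i' = i
        · simp only [h, if_true]; exact mul_mem hcM (zpow_mem hπ₀M a)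
        · simp only [h, if_false]; exact zero_mem _
      · simp [hd, mul_assoc]
    · have : y - c * d = (y / d - c) * d := by field_simp
      rw [this, norm_mul, hdn]
      exact mul_le_mul_of_nonneg_right hle (norm_nonneg _)
  have iter : ∀ k : ℕ, ∃ v ∈ V, ‖z - v‖ ≤ ‖π‖ ^ k * ‖z‖ := by
    intro k
    induction k with
    | zero => exact ⟨0, V.zero_mem, by simp⟩
    | succ k ih =>
      obtain ⟨v, hv, hvz⟩ := ih
      obtain ⟨w, hw, hwz⟩ := step (z - v) (sub_mem hz (hVL hv))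
      refine ⟨v + w, V.add_mem hv hw, ?_⟩
      calc ‖z - (v + w)‖ = ‖z - v - w‖ := by rw [sub_add_eq_sub_sub]
        _ ≤ ‖π‖ * ‖z - v‖ := hwz
        _ ≤ ‖π‖ * (‖π‖ ^ k * ‖z‖) := mul_le_mul_of_nonneg_left hvz hq0.le
        _ = ‖π‖ ^ (k + 1) * ‖z‖ := by ring
  have hzV : z ∈ V := by
    rw [← SetLike.mem_coe, ← hVcl.closure_eq, Metric.mem_closure_iff]
    intro ε hε
    obtain ⟨k, hk⟩ : ∃ k : ℕ, ‖π‖ ^ k * ‖z‖ < ε := by
      by_cases hz0 : z = 0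
      · exact ⟨0, by simpa [hz0] using hε⟩
      have hzpos : 0 < ‖z‖ := norm_pos_iff.2 hz0
      obtain ⟨k, hk⟩ := exists_pow_lt_of_lt_one (div_pos hε hzpos) hπ1
      exact ⟨k, (lt_div_iff₀ hzpos).1 hk⟩
    obtain ⟨v, hv, hvz⟩ := iter k
    exact ⟨v, hv, by rw [dist_eq_norm]; exact lt_of_le_of_lt hvz hk⟩
  obtain ⟨c, hc, rfl⟩ := (hVmem z).1 hzV
  exact ⟨c, hc, rfl, fun i => h8_expansion_norm p M₀ π π₀ hπ1 hπ0 hπ₀ j hj c hc i⟩

end Fermat.Agent.S56
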