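/-
S56 / W3 row C1 (TWIST), closed form: `h11_twist_datum` = `sk_twist_datum` verbatim, from
`h11_twist_datum_of` and the landed rows B3a (`h49_K0_le`, `h49_K0_res`), B3b (`h28_K0_unram`),
B4a (`h8_expansion`, `h8_expansion_norm`), B4b (`h19_card_conjJ`, `h19_prod_conjJ`) and
B5 (`h58_twisting`).
-/
import Fermat.Agent.S56.h11_Twist
import Fermat.Agent.S56.h49_K0Res
import Fermat.Agent.S56.h28_K0Unram
import Fermat.Agent.S56.h8_Expansion
import Fermat.Agent.S56.h19_ConjJ2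
import Fermat.Agent.S56.h58_TwistingFinal

set_option autoImplicit false

namespace Fermat.Agent.S56

variable (p : ℕ) [Fact p.Prime]

local notation "Ω" => PadicAlgCl p
local notation "Fld" => IntermediateField ℚ_[p] (PadicAlgCl p)

/-- **W3-C1 (twist datum)**: for a wild element `t` of order `p` on `L` there are a finite field
`E`, a norm-preserving `ℚ_p`-linear map `φ : L → E` with `φ 1 = 1` which is multiplicative on
integers up to `h78_sOf p L π t`, and an automorphism `g` extending `t|L` and fixing `E`. -/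
theorem h11_twist_datum (L : Fld) [FiniteDimensional ℚ_[p] L] (hL : h78_Stable p L)
    (π : Ω) (hπ : h78_IsUnif p L π) (t : h78_G p) (ht : t ∈ h78_P p L π)
    (htp : ∀ z ∈ L, (t ^ p) z = z) :
    ∃ (E : Fld) (_ : FiniteDimensional ℚ_[p] E) (φ : L →ₗ[ℚ_[p]] Ω) (g : h78_G p),
      (∀ z, φ z ∈ E) ∧ φ 1 = 1 ∧ (∀ z : L, ‖φ z‖ = ‖(z : Ω)‖) ∧
      (∀ a b : L, ‖(a : Ω)‖ ≤ 1 → ‖(b : Ω)‖ ≤ 1 →
        ‖φ (a * b) - φ a * φ b‖ ≤ h78_sOf p L π t) ∧
      (∀ z ∈ L, g z = t z) ∧ ∀ z ∈ E, g z = z :=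
  h11_twist_datum_of p L hL π hπ t ht htp (h49_K0_le p L) (h28_K0_unram p L)
    (h8_expansion p L (h78_K0 p L) (h49_K0_le p L) (h49_K0_res p L))
    (h8_expansion_norm p (h78_K0 p L))
    (h19_card_conjJ p L hL π hπ) (h19_prod_conjJ p L hL π hπ) (h58_twisting p L hL t ht.1)

end Fermat.Agent.S56
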