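/-
S56 (TAME) T3 = TAME-REL, abstract core (Mathlib only).

A valued field `Ω` (valuation subring `O`), a group `G` acting on `Ω` by field automorphisms that
preserve the valuation, a `G`-stable subfield `L` on which every element of `G` has finite order,
a normal subgroup `I` of `G` acting trivially on the residue field.  Residue characteristic `q`,
`p` a prime dividing `q - 1`.  Then every map `w : G → A` (`p • A = 0`) that is constant on cosets of
the pointwise stabiliser of `L` and additive on `I` is invariant under conjugation on `I`.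
-/
import Mathlib

namespace Fermat.Agent.S56

open Polynomial

section FF

variable {k : Type*} [Field k]

/-- In a field of characteristic `q`, the fixed points of the `q`-power map are the prime field. -/
theorem h52_pow_char_fixed (q : ℕ) [Fact q.Prime] [CharP k q] (ζ : k) (h : ζ ^ q = ζ) :
    ∃ z : ZMod q, ZMod.castHom (dvd_refl q) k z = ζ := by
  classical
  by_contra hne
  push Not at hne
  have hq : q.Prime := Fact.out
  set f : k[X] := X ^ q - X with hf
  have hdeg : f.natDegree = q := by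
    rw [hf]; exact FiniteField.X_pow_card_sub_X_natDegree_eq k hq.one_lt
  have hf0 : f ≠ 0 := by
    intro h0; rw [h0] at hdeg; simp at hdeg; exact hq.ne_zero hdeg.symm
  set S : Finset k := (Finset.univ : Finset (ZMod q)).image (ZMod.castHom (dvd_refl q) k) with hS
  have hScard : S.card = q := by
    rw [hS, Finset.card_image_of_injective _ (RingHom.injective _), Finset.card_univ, ZMod.card]
  have hζS : ζ ∉ S := by
    intro hmem
    rw [hS, Finset.mem_image] at hmem
    obtain ⟨z, -, hz⟩ := hmem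
    exact hne z hz
  have hsub : insert ζ S ⊆ f.roots.toFinset := by
    intro x hx
    rw [Multiset.mem_toFinset, mem_roots hf0, IsRoot.def, hf]
    simp only [eval_sub, eval_pow, eval_X]
    rw [Finset.mem_insert] at hx
    rcases hx with rfl | hx
    · rw [h, sub_self]
    · rw [hS, Finset.mem_image] at hx
      obtain ⟨z, -, rfl⟩ := hx
      rw [← map_pow, ZMod.pow_card, sub_self]
  have h1 : (insert ζ S).card ≤ q := by
    calc (insert ζ S).card ≤ f.roots.toFinset.card := Finset.card_le_card hsub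
      _ ≤ Multiset.card f.roots := Multiset.toFinset_card_le _
      _ ≤ f.natDegree := card_roots' f
      _ = q := hdeg
  rw [Finset.card_insert_of_notMem hζS, hScard] at h1
  omega

/-- A ring endomorphism of a field of characteristic `q` fixes the `p`-th roots of unity when
`p ∣ q - 1`. -/
theorem h52_ringHom_fix_of_pow (q p : ℕ) [Fact q.Prime] [CharP k q] (hpq : p ∣ q - 1)
    (φ : k →+* k) (ζ : k) (hζ : ζ ^ p = 1) : φ ζ = ζ := by
  have hq : q.Prime := Fact.out
  obtain ⟨t, ht⟩ := hpq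
  have h1 : ζ ^ (q - 1) = 1 := by rw [ht, pow_mul, hζ, one_pow]
  have h2 : ζ ^ q = ζ := by
    have : q = (q - 1) + 1 := by have := hq.one_lt; omega
    rw [this, pow_succ, h1, one_mul]
  obtain ⟨z, rfl⟩ := h52_pow_char_fixed q ζ h2
  have : φ.comp (ZMod.castHom (dvd_refl q) k) = ZMod.castHom (dvd_refl q) k :=
    Subsingleton.elim _ _
  exact congrArg (fun g : ZMod q →+* k => g z) this

/-- Uniform exponent: a ring endomorphism of a field of characteristic `q` acts on the `N`-th roots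
of unity as a `c`-th power with `c ≡ 1 [MOD p]`, for `p ∣ q - 1`. -/
theorem h52_ff_exp (q p : ℕ) [Fact q.Prime] [CharP k q] (hp : p.Prime) (hpq : p ∣ q - 1)
    (φ : k →+* k) (N : ℕ) (hN : 0 < N) :
    ∃ c : ℕ, c ≡ 1 [MOD p] ∧ ∀ ζ : k, ζ ^ N = 1 → φ ζ = ζ ^ c := by
  classical
  have : NeZero N := ⟨hN.ne'⟩
  obtain ⟨g, hg⟩ := IsCyclic.exists_monoid_generator (α := rootsOfUnity N k)
  -- the image of the generator
  have hgN : ((g : kˣ) : k) ^ N = 1 := by
    have := g.2
    rw [mem_rootsOfUnity] at this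
    have h2 := congrArg (fun u : kˣ => (u : k)) this
    simpa using h2
  have hφg : (φ ((g : kˣ) : k)) ^ N = 1 := by rw [← map_pow, hgN, map_one]
  have hφg0 : φ ((g : kˣ) : k) ≠ 0 := by
    intro h0; rw [h0, zero_pow hN.ne'] at hφg; exact zero_ne_one hφg
  have hmem : Units.mk0 _ hφg0 ∈ rootsOfUnity N k := by
    rw [mem_rootsOfUnity]; ext; simpa using hφg
  obtain ⟨a₀, ha₀⟩ := hg ⟨_, hmem⟩
  have ha₀' : φ ((g : kˣ) : k) = ((g : kˣ) : k) ^ a₀ := by
    have := congrArg (fun u : rootsOfUnity N k => ((u : kˣ) : k)) ha₀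
    simpa using this.symm
  -- every root of unity is a power of g
  have hall : ∀ ζ : k, ζ ^ N = 1 → ∃ a : ℕ, ζ = ((g : kˣ) : k) ^ a := by
    intro ζ hζ
    have hζ0 : ζ ≠ 0 := by
      intro h0; rw [h0, zero_pow hN.ne'] at hζ; exact zero_ne_one hζ
    have hmemζ : Units.mk0 ζ hζ0 ∈ rootsOfUnity N k := by
      rw [mem_rootsOfUnity]; ext; simpa using hζ
    obtain ⟨a, ha⟩ := hg ⟨_, hmemζ⟩
    refine ⟨a, ?_⟩
    have := congrArg (fun u : rootsOfUnity N k => ((u : kˣ) : k)) ha
    simpa using this.symm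
  set γ : kˣ := (g : kˣ) with hγ
  set M := orderOf γ with hM
  have hγN : γ ^ N = 1 := by
    have := g.2
    rwa [mem_rootsOfUnity] at this
  have hMpos : 0 < M := by
    rw [hM, orderOf_pos_iff]
    exact isOfFinOrder_iff_pow_eq_one.mpr ⟨N, hN, hγN⟩
  -- choice of the exponent
  have hc : ∃ c : ℕ, c ≡ 1 [MOD p] ∧ c ≡ a₀ [MOD M] := by
    by_cases hpM : p ∣ M
    · refine ⟨a₀, ?_, Nat.ModEq.refl _⟩
      obtain ⟨M', hM'⟩ := hpM
      have hM'pos : 0 < M' := by
        rcases Nat.eq_zero_or_pos M' with h | h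
        · rw [h, mul_zero] at hM'; omega
        · exact h
      have h1 : (γ ^ M') ^ p = 1 := by
        rw [← pow_mul, mul_comm, ← hM', hM]; exact pow_orderOf_eq_one γ
      have h1' : (((γ ^ M' : kˣ) : k)) ^ p = 1 := by
        rw [← Units.val_pow_eq_pow_val, h1, Units.val_one]
      have h2 := h52_ringHom_fix_of_pow q p hpq φ _ h1'
      rw [Units.val_pow_eq_pow_val, map_pow, ha₀', ← pow_mul, ← Units.val_pow_eq_pow_val,
        ← Units.val_pow_eq_pow_val] at h2
      have h2' : γ ^ (a₀ * M') = γ ^ M' := Units.ext h2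
      have h3 : a₀ * M' ≡ M' [MOD M] := (pow_eq_pow_iff_modEq).mp h2'
      have h4 : M' * a₀ ≡ M' * 1 [MOD M' * p] := by
        rw [mul_one, mul_comm M' a₀, mul_comm M' p, ← hM']; exact h3
      exact Nat.ModEq.mul_left_cancel' hM'pos.ne' h4
    · have hco : p.Coprime M := (Nat.Prime.coprime_iff_not_dvd hp).mpr hpM
      obtain ⟨c, hc1, hc2⟩ := Nat.chineseRemainder hco 1 a₀
      exact ⟨c, hc1, hc2⟩
  obtain ⟨c, hc1, hc2⟩ := hc
  refine ⟨c, hc1, fun ζ hζ => ?_⟩
  obtain ⟨a, rfl⟩ := hall ζ hζ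
  rw [map_pow, ha₀']
  have h5 : γ ^ a₀ = γ ^ c := (pow_eq_pow_iff_modEq).mpr hc2.symm
  have h6 : ((γ : kˣ) : k) ^ a₀ = ((γ : kˣ) : k) ^ c := by
    rw [← Units.val_pow_eq_pow_val, ← Units.val_pow_eq_pow_val, h5]
  rw [h6, ← pow_mul, ← pow_mul, mul_comm]

end FF

section Core

open IsLocalRing

variable {Ω : Type*} [Field Ω] (O : ValuationSubring Ω) {G : Type*} [Group G]
  [MulSemiringAction G Ω] (hunit : ∀ (g : G) (x : Ω), g • x * x⁻¹ ∈ O)

include hunit in
theorem h52_smul_mem (g : G) {x : Ω} (hx : x ∈ O) : g • x ∈ O := by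
  rcases eq_or_ne x 0 with rfl | h0
  · rw [smul_zero]; exact O.zero_mem
  · have : g • x = g • x * x⁻¹ * x := by rw [inv_mul_cancel_right₀ h0]
    rw [this]; exact O.mul_mem _ _ (hunit g x) hx

include hunit in
theorem h52_unit_inv_mem (g : G) (x : Ω) : (g • x * x⁻¹)⁻¹ ∈ O := by
  have h := hunit g⁻¹ (g • x)
  rwa [inv_smul_smul, mul_comm, ← inv_inv x, ← mul_inv, inv_inv x] at h

include hunit in
theorem h52_smul_mem_nonunits (g : G) {x : Ω} (hx : x ∈ O.nonunits) : g • x ∈ O.nonunits := by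
  rw [ValuationSubring.mem_nonunits_iff] at hx ⊢
  rcases eq_or_ne x 0 with rfl | h0
  · simp
  · have : g • x = g • x * x⁻¹ * x := by rw [inv_mul_cancel_right₀ h0]
    rw [this, map_mul]
    have h1 : O.valuation (g • x * x⁻¹) ≤ 1 := (O.valuation_le_one_iff _).mpr (hunit g x)
    calc O.valuation (g • x * x⁻¹) * O.valuation x ≤ 1 * O.valuation x := mul_le_mul_left h1 _
      _ = O.valuation x := one_mul _
      _ < 1 := hx

/-- The action of `g` on the valuation ring. -/
def h52_resHom (g : G) : O →+* O where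
  toFun x := ⟨g • (x : Ω), h52_smul_mem O hunit g x.2⟩
  map_one' := Subtype.ext (by simp)
  map_mul' x y := Subtype.ext (by simp [smul_mul'])
  map_zero' := Subtype.ext (by simp)
  map_add' x y := Subtype.ext (by simp [smul_add])

theorem h52_resHom_coe (g : G) (x : O) : ((h52_resHom O hunit g x : O) : Ω) = g • (x : Ω) := rfl

/-- The action of `g` on the residue field. -/
noncomputable def h52_resMap (g : G) : ResidueField O →+* ResidueField O :=
  Ideal.Quotient.lift (maximalIdeal O) ((residue O).comp (h52_resHom O hunit g)) (by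
    intro a ha
    rw [RingHom.comp_apply, residue_eq_zero_iff, ← ValuationSubring.coe_mem_nonunits_iff]
    exact h52_smul_mem_nonunits O hunit g (ValuationSubring.coe_mem_nonunits_iff.mpr ha))

theorem h52_resMap_residue (g : G) (a : O) :
    h52_resMap O hunit g (residue O a) = residue O (h52_resHom O hunit g a) := rfl

/-- `τ` acts trivially on the residue field. -/
def h52_Inert (τ : G) : Prop := ∀ x ∈ O, τ • x - x ∈ O.nonunits

variable {O} in
theorem h52_resMap_of_inert {τ : G} (hτ : h52_Inert O τ) (z : ResidueField O) :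
    h52_resMap O hunit τ z = z := by
  obtain ⟨a, rfl⟩ := residue_surjective z
  rw [h52_resMap_residue, ← sub_eq_zero, ← map_sub, residue_eq_zero_iff,
    ← ValuationSubring.coe_mem_nonunits_iff]
  exact hτ a a.2

/-- The class of the unit `g x / x` in the residue field (`0` for `x = 0`). -/
noncomputable def h52_chi (g : G) (x : Ω) : ResidueField O := residue O ⟨g • x * x⁻¹, hunit g x⟩

theorem h52_chi_mul (g h : G) (x : Ω) :
    h52_chi O hunit (g * h) x = h52_resMap O hunit g (h52_chi O hunit h x) * h52_chi O hunit g x := by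
  unfold h52_chi
  rw [h52_resMap_residue, ← map_mul]
  congr 1
  apply Subtype.ext
  show (g * h) • x * x⁻¹ = g • (h • x * x⁻¹) * (g • x * x⁻¹)
  rw [mul_smul, smul_mul', smul_inv'']
  rcases eq_or_ne x 0 with rfl | h0
  · simp
  · have h1 : g • x ≠ 0 := by rwa [Ne, smul_eq_zero_iff_eq]
    field_simp

variable {O} in
theorem h52_chi_mul_of_inert {g : G} (hg : h52_Inert O g) (h : G) (x : Ω) :
    h52_chi O hunit (g * h) x = h52_chi O hunit h x * h52_chi O hunit g x := by
  rw [h52_chi_mul, h52_resMap_of_inert hunit hg]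

theorem h52_chi_fix {g : G} {x : Ω} (h : g • x = x) (hx : x ≠ 0) : h52_chi O hunit g x = 1 := by
  unfold h52_chi
  rw [← map_one (residue O)]
  congr 1
  apply Subtype.ext
  show g • x * x⁻¹ = 1
  rw [h, mul_inv_cancel₀ hx]

variable {O} in
theorem h52_chi_pow {g : G} (hg : h52_Inert O g) {x : Ω} (hx : x ≠ 0) (n : ℕ) :
    h52_chi O hunit (g ^ n) x = h52_chi O hunit g x ^ n := by
  induction n with
  | zero => rw [pow_zero, pow_zero]; exact h52_chi_fix O hunit (one_smul _ _) hx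
  | succ n ih => rw [pow_succ', h52_chi_mul_of_inert hunit hg, ih, pow_succ]

variable {O} in
theorem h52_chi_inv {g : G} (hg : h52_Inert O g) {x : Ω} (hx : x ≠ 0) :
    h52_chi O hunit g⁻¹ x * h52_chi O hunit g x = 1 := by
  rw [← h52_chi_mul_of_inert hunit hg, mul_inv_cancel]
  exact h52_chi_fix O hunit (one_smul _ _) hx

theorem h52_chi_mul_right (g : G) (x y : Ω) :
    h52_chi O hunit g (x * y) = h52_chi O hunit g x * h52_chi O hunit g y := by
  unfold h52_chi
  rw [← map_mul]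
  congr 1
  apply Subtype.ext
  show g • (x * y) * (x * y)⁻¹ = g • x * x⁻¹ * (g • y * y⁻¹)
  rw [smul_mul', mul_inv]
  ring

variable {O} in
theorem h52_chi_unit {g : G} (hg : h52_Inert O g) {c : Ω} (hc : c ∈ O) (hc' : c⁻¹ ∈ O)
    (hc0 : c ≠ 0) : h52_chi O hunit g c = 1 := by
  have h1 : h52_chi O hunit g c = residue O (h52_resHom O hunit g ⟨c, hc⟩) * residue O ⟨c⁻¹, hc'⟩ := by
    unfold h52_chi
    rw [← map_mul]
    congr 1
  rw [h1, ← h52_resMap_residue, h52_resMap_of_inert hunit hg, ← map_mul, ← map_one (residue O)]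
  congr 1
  apply Subtype.ext
  show c * c⁻¹ = 1
  exact mul_inv_cancel₀ hc0

theorem h52_chi_conj (σ τ : G) (x : Ω) :
    h52_chi O hunit (σ * τ * σ⁻¹) x = h52_resMap O hunit σ (h52_chi O hunit τ (σ⁻¹ • x)) := by
  unfold h52_chi
  rw [h52_resMap_residue]
  congr 1
  apply Subtype.ext
  show (σ * τ * σ⁻¹) • x * x⁻¹ = σ • (τ • σ⁻¹ • x * (σ⁻¹ • x)⁻¹)
  rw [smul_mul', smul_inv'', smul_inv_smul, mul_smul, mul_smul]

variable {O} in
theorem h52_chi_smul {τ : G} (hτ : h52_Inert O τ) (g : G) {x : Ω} (hx : x ≠ 0) :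
    h52_chi O hunit τ (g • x) = h52_chi O hunit τ x := by
  have h1 : g • x = g • x * x⁻¹ * x := by rw [inv_mul_cancel_right₀ hx]
  have h2 : g • x * x⁻¹ ≠ 0 := by
    apply mul_ne_zero _ (inv_ne_zero hx)
    rwa [Ne, smul_eq_zero_iff_eq]
  rw [h1, h52_chi_mul_right,
    h52_chi_unit hunit hτ (hunit g x) (h52_unit_inv_mem O hunit g x) h2, one_mul]

variable {O} in
/-- An inert element in the kernel of all the characters `χ · y`, `y ∈ L`, whose order on `L` is
prime to the residue characteristic, fixes `L` pointwise. -/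
theorem h52_fix_of_pow_fix {τ : G} (hτ : h52_Inert O τ) (L : Set Ω)
    (hsub : ∀ x ∈ L, ∀ y ∈ L, x - y ∈ L) (hstab : ∀ g : G, ∀ x ∈ L, g • x ∈ L)
    (hP : ∀ y ∈ L, y ≠ 0 → h52_chi O hunit τ y = 1) (n : ℕ) (hn : (n : ResidueField O) ≠ 0)
    (hfix : ∀ x ∈ L, τ ^ n • x = x) : ∀ x ∈ L, τ • x = x := by
  intro x hx
  by_contra hne
  set y := τ • x - x with hy
  have hy0 : y ≠ 0 := sub_ne_zero.mpr hne
  have hyL : y ∈ L := hsub _ (hstab τ x hx) _ hx
  have hsum : ∑ j ∈ Finset.range n, τ ^ j • y = 0 := by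
    have h1 : ∀ j, τ ^ j • y = τ ^ (j + 1) • x - τ ^ j • x := by
      intro j; rw [hy, smul_sub, ← mul_smul, ← pow_succ]
    simp_rw [h1]
    rw [Finset.sum_range_sub (fun j => τ ^ j • x), pow_zero, one_smul, hfix x hx, sub_self]
  have h1 : ∑ j ∈ Finset.range n, h52_chi O hunit (τ ^ j) y = 0 := by
    unfold h52_chi
    rw [← map_sum]
    have h0 : (∑ j ∈ Finset.range n, (⟨τ ^ j • y * y⁻¹, hunit (τ ^ j) y⟩ : O)) = 0 := by
      apply Subtype.val_injective
      have h2 := map_sum O.subtype (fun j => (⟨τ ^ j • y * y⁻¹, hunit (τ ^ j) y⟩ : O))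
        (Finset.range n)
      have h3 : ∑ j ∈ Finset.range n, O.subtype (⟨τ ^ j • y * y⁻¹, hunit (τ ^ j) y⟩ : O)
          = ∑ j ∈ Finset.range n, τ ^ j • y * y⁻¹ := rfl
      rw [h3, ← Finset.sum_mul, hsum, zero_mul] at h2
      exact h2
    rw [h0, map_zero]
  have h2 : ∀ j ∈ Finset.range n, h52_chi O hunit (τ ^ j) y = 1 := by
    intro j _; rw [h52_chi_pow hunit hτ hy0, hP y hyL hy0, one_pow]
  rw [Finset.sum_congr rfl h2, Finset.sum_const, Finset.card_range, nsmul_one] at h1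
  exact hn h1

/-- **TAME-REL, abstract core.**  `w` is constant on cosets of the pointwise stabiliser of `L`,
additive on the normal subgroup `I` of inert elements, `p • A = 0`, `p ∣ q - 1`, residue
characteristic `q`: then `w` is invariant under conjugation on `I`. -/
theorem h52_tame_core (hunit : ∀ (g : G) (x : Ω), g • x * x⁻¹ ∈ O) {q p : ℕ} (hq : q.Prime) (hp : p.Prime) (hpq : p ∣ q - 1)
    (hqO : (q : Ω) ∈ O.nonunits)
    (L : Set Ω) (hsub : ∀ x ∈ L, ∀ y ∈ L, x - y ∈ L) (hstab : ∀ g : G, ∀ x ∈ L, g • x ∈ L)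
    (hfin : ∀ g : G, ∃ n : ℕ, 0 < n ∧ ∀ x ∈ L, g ^ n • x = x)
    (I : Subgroup G) (hIn : I.Normal) (hI : ∀ τ ∈ I, h52_Inert O τ)
    {A : Type*} [AddCommGroup A] (hA : ∀ a : A, p • a = 0) (w : G → A)
    (hw : ∀ g s : G, (∀ x ∈ L, s • x = x) → w (g * s) = w g)
    (hadd : ∀ τ ∈ I, ∀ τ' ∈ I, w (τ * τ') = w τ + w τ') (σ : G) {τ : G} (hτ : τ ∈ I) :
    w (σ * τ * σ⁻¹) = w τ := by
  classical
  have : Fact q.Prime := ⟨hq⟩
  have : CharP (ResidueField O) q := by
    rw [CharP.charP_iff_prime_eq_zero hq]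
    have h1 : (((q : ℕ) : O) : Ω) ∈ O.nonunits := by simpa using hqO
    have h2 := (ValuationSubring.coe_mem_nonunits_iff).mp h1
    rw [← map_natCast (residue O)]; exact (residue_eq_zero_iff _).mpr h2
  -- generalities on `w`
  have hw1 : w 1 = 0 := by
    have := hadd 1 I.one_mem 1 I.one_mem
    rw [mul_one] at this
    exact (add_eq_left.mp this.symm)
  have hwpow : ∀ g ∈ I, ∀ n : ℕ, w (g ^ n) = n • w g := by
    intro g hg n
    induction n with
    | zero => rw [pow_zero, zero_nsmul, hw1]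
    | succ n ih => rw [pow_succ, hadd _ (I.pow_mem hg n) _ hg, ih, succ_nsmul]
  have hmod : ∀ (n : ℕ) (a : A), n ≡ 1 [MOD p] → n • a = a := by
    intro n a hn
    have h1 := Nat.div_add_mod n p
    have h2 : n % p = 1 := by
      have : n % p = 1 % p := hn
      rwa [Nat.mod_eq_of_lt hp.one_lt] at this
    rw [h2] at h1
    rw [← h1, add_nsmul, mul_nsmul, hA, nsmul_zero, zero_add, one_nsmul]
  have hq1 : q ≡ 1 [MOD p] := ((Nat.modEq_iff_dvd' hq.one_le).mpr hpq).symm
  -- the exponent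
  obtain ⟨N, hN, hNfix⟩ := hfin τ
  obtain ⟨c, hc1, hc⟩ := h52_ff_exp q p hp hpq (h52_resMap O hunit σ) N hN
  set ρ : G := σ * τ * σ⁻¹ * (τ ^ c)⁻¹ with hρ
  have hconj : σ * τ * σ⁻¹ ∈ I := hIn.conj_mem τ hτ σ
  have hτc : τ ^ c ∈ I := I.pow_mem hτ c
  have hρI : ρ ∈ I := I.mul_mem hconj (I.inv_mem hτc)
  -- `ρ` is in the kernel of all the characters
  have hρP : ∀ y ∈ L, y ≠ 0 → h52_chi O hunit ρ y = 1 := by
    intro y hy hy0
    have e1 : h52_chi O hunit ρ y
        = h52_chi O hunit (τ ^ c)⁻¹ y * h52_chi O hunit (σ * τ * σ⁻¹) y :=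
      h52_chi_mul_of_inert hunit (hI _ hconj) _ y
    have e2 : h52_chi O hunit (σ * τ * σ⁻¹) y = h52_chi O hunit (τ ^ c) y := by
      rw [h52_chi_conj, h52_chi_smul hunit (hI τ hτ) σ⁻¹ hy0, h52_chi_pow hunit (hI τ hτ) hy0]
      apply hc
      rw [← h52_chi_pow hunit (hI τ hτ) hy0]
      exact h52_chi_fix O hunit (hNfix y hy) hy0
    rw [e1, e2]
    exact h52_chi_inv hunit (hI _ hτc) hy0
  -- hence `ρ` has `q`-power order on `L`
  obtain ⟨N', hN', hN'fix⟩ := hfin ρ
  obtain ⟨m, n, hn, hN'eq⟩ := Nat.exists_eq_pow_mul_and_not_dvd hN'.ne' q hq.ne_one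
  have hρ1I : ρ ^ q ^ m ∈ I := I.pow_mem hρI _
  have hρ1fix : ∀ x ∈ L, (ρ ^ q ^ m) • x = x := by
    apply h52_fix_of_pow_fix hunit (hI _ hρ1I) L hsub hstab _ n
    · rwa [Ne, CharP.cast_eq_zero_iff (ResidueField O) q]
    · intro x hx
      rw [← pow_mul, ← hN'eq]
      exact hN'fix x hx
    · intro y hy hy0
      rw [h52_chi_pow hunit (hI _ hρI) hy0, hρP y hy hy0, one_pow]
  have hwρ : w ρ = 0 := by
    have h1 : w (ρ ^ q ^ m) = 0 := by
      have := hw 1 (ρ ^ q ^ m) hρ1fix
      rw [one_mul] at this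
      rw [this, hw1]
    rw [hwpow ρ hρI, hmod _ _ (by simpa using hq1.pow m)] at h1
    exact h1
  have hfinal : σ * τ * σ⁻¹ = ρ * τ ^ c := by rw [hρ, inv_mul_cancel_right]
  rw [hfinal, hadd _ hρI _ hτc, hwρ, zero_add, hwpow τ hτ, hmod _ _ hc1]

end Core

end Fermat.Agent.S56
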