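/-
S56 (TAME) T3 = TAME-REL, in the language of the frozen definitions:
local group `Gal(ℚ̄_q/ℚ_q)`, `localGaloisToGlobal q`, inertia of `padicPlace q`,
level-constant maps `groupCohomology.IsLevelConstant₁`.
-/
import Fermat.Agent.S56.h52_TameCore
import Fermat.Prelude.Def_GroupCohomology_ContinuousUnramified

set_option autoImplicit false

namespace Fermat.Agent.S56

open scoped NNReal

/-- `Gal(ℚ̄_q/ℚ_q)` acts on `ℚ̄` by `q`-adic isometries. -/
theorem h52_padic_unit (q : ℕ) [Fact q.Prime] (g : PadicAlgCl q ≃ₐ[ℚ_[q]] PadicAlgCl q)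
    (x : AlgebraicClosure ℚ) : localGaloisToGlobal q g x * x⁻¹ ∈ padicPlace q := by
  rw [mem_padicPlace_iff, map_mul, map_inv₀, padicEmbedding_localGaloisToGlobal, nnnorm_mul,
    nnnorm_inv, nnnorm_padicAlgCl_algEquiv]
  rcases eq_or_ne (‖padicEmbedding q x‖₊) 0 with h | h
  · rw [h]; simp
  · rw [mul_inv_cancel₀ h]

/-- `padicPlace q` lies over `q`. -/
theorem h52_padic_nonunit (q : ℕ) [Fact q.Prime] :
    (q : AlgebraicClosure ℚ) ∈ (padicPlace q).nonunits := by
  have hq : q.Prime := Fact.out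
  rw [ValuationSubring.mem_nonunits_iff_or]
  right
  intro h
  rw [mem_padicPlace_iff, map_inv₀, map_natCast, nnnorm_inv] at h
  have h1 : ‖(q : PadicAlgCl q)‖₊ = 1 / (q : ℝ≥0) := by
    rw [← PadicAlgCl.valuation_def]; exact PadicAlgCl.valuation_p q
  rw [h1, one_div, inv_inv] at h
  have h2 : (1 : ℝ≥0) < q := by exact_mod_cast hq.one_lt
  exact absurd h (not_le.mpr h2)

/-- Elements of the inertia group act trivially on the residue field. -/
theorem h52_inert_of_mem_inertia (A : ValuationSubring (AlgebraicClosure ℚ))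
    (σ : AlgebraicClosure ℚ ≃ₐ[ℚ] AlgebraicClosure ℚ) (hσ : σ ∈ A.inertiaSubgroupIn ℚ)
    (x : AlgebraicClosure ℚ) (hx : x ∈ A) : σ x - x ∈ A.nonunits := by
  obtain ⟨t, ht, rfl⟩ := hσ
  have h1 : MulSemiringAction.toRingAut (A.decompositionSubgroup ℚ) (IsLocalRing.ResidueField A) t
      = 1 := ht
  have h2 : t • IsLocalRing.residue A ⟨x, hx⟩ = IsLocalRing.residue A ⟨x, hx⟩ :=
    congrArg (fun f : RingAut (IsLocalRing.ResidueField A) => f (IsLocalRing.residue A ⟨x, hx⟩)) h1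
  have h3 : t • IsLocalRing.residue A ⟨x, hx⟩ = IsLocalRing.residue A (t • (⟨x, hx⟩ : A)) := rfl
  rw [h3] at h2
  have h4 : (t • (⟨x, hx⟩ : A) - ⟨x, hx⟩ : A) ∈ IsLocalRing.maximalIdeal A := by
    rw [← IsLocalRing.residue_eq_zero_iff, map_sub, h2, sub_self]
  exact ValuationSubring.coe_mem_nonunits_iff.mpr h4

theorem h52_inertia_normal {K L : Type*} [Field K] [Field L] [Algebra K L]
    (A : ValuationSubring L) : (A.inertiaSubgroup K).Normal := by
  unfold ValuationSubring.inertiaSubgroup; infer_instance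

/-- Conjugation by the decomposition group preserves the inertia group. -/
theorem h52_inertia_conj {K L : Type*} [Field K] [Field L] [Algebra K L] (A : ValuationSubring L)
    (d t : L ≃ₐ[K] L) (hd : d ∈ A.decompositionSubgroup K) (ht : t ∈ A.inertiaSubgroupIn K) :
    d * t * d⁻¹ ∈ A.inertiaSubgroupIn K := by
  obtain ⟨t', ht', ht'eq⟩ := Subgroup.mem_map.mp ht
  have h1 : (⟨d, hd⟩ : A.decompositionSubgroup K) * t' *
      (⟨d, hd⟩ : A.decompositionSubgroup K)⁻¹ ∈ A.inertiaSubgroup K :=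
    (h52_inertia_normal A).conj_mem t' ht' _
  rw [← ht'eq]
  exact Subgroup.mem_map.mpr ⟨_, h1, rfl⟩

/-- A normal subgroup of finite index of `Gal(ℚ̄/ℚ)` fixing a given number field. -/
theorem h52_exists_normal_fix (E : IntermediateField ℚ (AlgebraicClosure ℚ))
    [FiniteDimensional ℚ E] :
    ∃ U : Subgroup (AlgebraicClosure ℚ ≃ₐ[ℚ] AlgebraicClosure ℚ), U.Normal ∧ U.FiniteIndex ∧
      (∀ σ ∈ U, ∀ a ∈ E, σ a = a) := by
  have halg : Algebra.IsAlgebraic ℚ (AlgebraicClosure ℚ) := AlgebraicClosure.isAlgebraic ℚ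
  have hclo : IsAlgClosure ℚ (AlgebraicClosure ℚ) := ⟨inferInstance, inferInstance⟩
  have hnor : Normal ℚ (AlgebraicClosure ℚ) := IsAlgClosure.normal ℚ (AlgebraicClosure ℚ)
  have hLfin : FiniteDimensional ℚ (IntermediateField.normalClosure ℚ E (AlgebraicClosure ℚ)) :=
    inferInstance
  have hLnormal : Normal ℚ (IntermediateField.normalClosure ℚ E (AlgebraicClosure ℚ)) :=
    normalClosure.normal ℚ E (AlgebraicClosure ℚ)
  have hker : (AlgEquiv.restrictNormalHom (F := ℚ) (K₁ := AlgebraicClosure ℚ)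
      (IntermediateField.normalClosure ℚ E (AlgebraicClosure ℚ))).ker =
      (IntermediateField.normalClosure ℚ E (AlgebraicClosure ℚ)).fixingSubgroup :=
    IntermediateField.restrictNormalHom_ker _
  refine ⟨(IntermediateField.normalClosure ℚ E (AlgebraicClosure ℚ)).fixingSubgroup, ?_, ?_, ?_⟩
  · rw [← hker]; infer_instance
  · rw [← hker]; infer_instance
  · intro σ hσ a ha
    exact (IntermediateField.mem_fixingSubgroup_iff _ σ).mp hσ a
      (IntermediateField.le_normalClosure E ha)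

/-- **TAME-REL.**  `p ∣ q - 1`, `A` an abelian group killed by `p`, `w : Gal(ℚ̄_q/ℚ_q) → A`
level-constant and additive on inertia.  Then `w` is invariant under conjugation on inertia. -/
theorem h52_tame_rel (q : ℕ) [Fact q.Prime] {p : ℕ} (hp : p.Prime) (hpq : p ∣ q - 1)
    {A : Type*} [AddCommGroup A] (hA : ∀ a : A, p • a = 0)
    (w : (PadicAlgCl q ≃ₐ[ℚ_[q]] PadicAlgCl q) → A)
    (hw : groupCohomology.IsLevelConstant₁ (localGaloisToGlobal q) w)
    (hadd : ∀ τ τ' : PadicAlgCl q ≃ₐ[ℚ_[q]] PadicAlgCl q,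
      localGaloisToGlobal q τ ∈ (padicPlace q).inertiaSubgroupIn ℚ →
      localGaloisToGlobal q τ' ∈ (padicPlace q).inertiaSubgroupIn ℚ → w (τ * τ') = w τ + w τ')
    (σ τ : PadicAlgCl q ≃ₐ[ℚ_[q]] PadicAlgCl q)
    (hτ : localGaloisToGlobal q τ ∈ (padicPlace q).inertiaSubgroupIn ℚ) :
    w (σ * τ * σ⁻¹) = w τ := by
  classical
  obtain ⟨F, hF, hFw⟩ := hw
  obtain ⟨U, hUn, hUfin, hUF⟩ := h52_exists_normal_fix F
  let _ : MulSemiringAction (PadicAlgCl q ≃ₐ[ℚ_[q]] PadicAlgCl q) (AlgebraicClosure ℚ) :=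
    MulSemiringAction.compHom _ (localGaloisToGlobal q)
  have hsmul : ∀ (g : PadicAlgCl q ≃ₐ[ℚ_[q]] PadicAlgCl q) (x : AlgebraicClosure ℚ),
      g • x = localGaloisToGlobal q g x := fun _ _ => rfl
  have hunit : ∀ (g : PadicAlgCl q ≃ₐ[ℚ_[q]] PadicAlgCl q) (x : AlgebraicClosure ℚ),
      g • x * x⁻¹ ∈ padicPlace q := by
    intro g x; rw [hsmul]; exact h52_padic_unit q g x
  set L : Set (AlgebraicClosure ℚ) := {x | ∀ u ∈ U, u x = x} with hL
  have hsub : ∀ x ∈ L, ∀ y ∈ L, x - y ∈ L := by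
    intro x hx y hy u hu
    rw [map_sub, hx u hu, hy u hu]
  have hstab : ∀ g : PadicAlgCl q ≃ₐ[ℚ_[q]] PadicAlgCl q, ∀ x ∈ L, g • x ∈ L := by
    intro g x hx u hu
    rw [hsmul]
    have h1 : (localGaloisToGlobal q g)⁻¹ * u * (localGaloisToGlobal q g)⁻¹⁻¹ ∈ U :=
      hUn.conj_mem u hu _
    have h2 := hx _ h1
    rw [inv_inv] at h2
    have h3 : u (localGaloisToGlobal q g x)
        = localGaloisToGlobal q g
          (((localGaloisToGlobal q g)⁻¹ * u * localGaloisToGlobal q g) x) := by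
      simp [AlgEquiv.mul_apply]
    rw [h3, h2]
  have hfin : ∀ g : PadicAlgCl q ≃ₐ[ℚ_[q]] PadicAlgCl q, ∃ n : ℕ, 0 < n ∧
      ∀ x ∈ L, g ^ n • x = x := by
    intro g
    refine ⟨U.index, Nat.pos_of_ne_zero hUfin.index_ne_zero, fun x hx => ?_⟩
    rw [hsmul, map_pow]
    exact hx _ (Subgroup.pow_index_mem U _)
  have hIn : (Subgroup.comap (localGaloisToGlobal q)
      ((padicPlace q).inertiaSubgroupIn ℚ)).Normal := by
    refine ⟨fun t ht g => ?_⟩
    rw [Subgroup.mem_comap] at ht ⊢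
    rw [map_mul, map_mul, map_inv]
    exact h52_inertia_conj _ _ _ (localGaloisToGlobal_mem_decompositionSubgroup q g) ht
  have hI : ∀ t ∈ Subgroup.comap (localGaloisToGlobal q) ((padicPlace q).inertiaSubgroupIn ℚ),
      h52_Inert (padicPlace q) t := by
    intro t ht x hx
    rw [hsmul]
    exact h52_inert_of_mem_inertia (padicPlace q) _ ht x hx
  have hw' : ∀ g s : PadicAlgCl q ≃ₐ[ℚ_[q]] PadicAlgCl q,
      (∀ x ∈ L, s • x = x) → w (g * s) = w g := by
    intro g s hs
    apply hFw g s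
    rw [IntermediateField.mem_fixingSubgroup_iff]
    intro x hx
    have := hs x (fun u hu => hUF u hu x hx)
    rwa [hsmul] at this
  exact h52_tame_core (padicPlace q) hunit (Fact.out : q.Prime) hp hpq
    (h52_padic_nonunit q) L hsub
    hstab hfin (Subgroup.comap (localGaloisToGlobal q) ((padicPlace q).inertiaSubgroupIn ℚ))
    hIn hI hA w hw' (fun t ht t' ht' => hadd t t' ht ht') σ hτ

end Fermat.Agent.S56

namespace Fermat.Agent.S56

open ExtCitation groupCohomology

/-- **MID-TS1** (skeleton statement `h12_tame_inv`, verbatim): for `q ≡ 1 mod p`, a level-constant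
map on `G_q` with values in an abelian group of exponent `p`, additive on inertia, is invariant
under conjugation on inertia. -/
theorem h52_tame_inv (p : ℕ) [Fact p.Prime] (q : Nat.Primes) (hpq : p ∣ (q : ℕ) - 1)
    {A : Type*} [AddCommGroup A]
    (hA : ∀ x : A, p • x = 0) (w : primeLocalGaloisGroup q → A)
    (hlev : IsLevelConstant₁ (primeLocalToGlobal q) w)
    (hadd : ∀ i i' : primeLocalGaloisGroup q,
      primeLocalToGlobal q i ∈ (primeLocalPlace q).inertiaSubgroupIn ℚ →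
      primeLocalToGlobal q i' ∈ (primeLocalPlace q).inertiaSubgroupIn ℚ →
      w (i * i') = w i + w i') :
    ∀ g i : primeLocalGaloisGroup q,
      primeLocalToGlobal q i ∈ (primeLocalPlace q).inertiaSubgroupIn ℚ →
      w (g * i * g⁻¹) = w i := by
  intro g i hi
  haveI : Fact (q : ℕ).Prime := ⟨q.2⟩
  exact h52_tame_rel (q : ℕ) (Fact.out : p.Prime) hpq hA w hlev hadd g i hi

end Fermat.Agent.S56
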