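import Fermat.Agent.S56.h56_Tame
import Fermat.Agent.S56.h52_TameRel

/-!
# S56 / MID-TAME (row 595), closed form

`h12_tame` = the skeleton (v2) statement verbatim: `h56_tame_of` fed with (TS1) `h52_tame_inv`.
-/

set_option autoImplicit false

namespace Fermat.Agent.S56

open Fermat.Agent.S53 Fermat.Agent.S53.Dict ExtCitation groupCohomology

local notation "M₂[" k "]" => Matrix (Fin 2) (Fin 2) k

section Rows

variable {k : Type} [Field k] [Finite k] (p : ℕ) [Fact p.Prime] [Algebra (ZMod p) k]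
variable (rb : GQ →* M₂[k])

/-- **ROW MID-TAME.**  A trace-free tangent cocycle whose cup products with all `k`-multiples
of an `N`-cocycle `ψ` (nontrivial at the Taylor-Wiles prime `q`) are locally trivial at `q` is
trivial on inertia at `q`. -/
theorem h12_tame (hp2 : p ≠ 2) (hdet : h12_DetCyc p rb)
    (hrb : GaloisFactorsThroughFiniteLevel rb) (S₀ : Finset Nat.Primes)
    (q : Nat.Primes) (hqS₀ : q ∉ S₀) (hq : h12_IsTWPrime p 0 rb (q : ℕ))
    (hrbq : ∀ P : ValuationSubring (AlgebraicClosure ℚ), P.LiesOverPrime (q : ℕ) →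
      ∀ σ ∈ P.inertiaSubgroupIn ℚ, rb σ = 1)
    (a : GQ → M₂[k]) (ha : a ∈ h40_TanZ rb)
    (htr : ∀ σ, (a σ * (rb σ).adjugate).trace = 0)
    (ψ : GQ → M₂[k]) (hψ : ψ ∈ h12_ZN rb S₀) (hψq : h12_FrobNonCob rb ψ (q : ℕ))
    (h : ∀ c : k, h12_LocCob₂ p q (h12_cup p rb a (c • ψ))) :
    h12_InertiaTriv rb a (q : ℕ) :=
  h56_tame_of p rb hp2 hdet hrb S₀ q hqS₀ hq
    (fun _ _ hA w hlev hadd => h52_tame_inv p q (by simpa using hq.2.1) hA w hlev hadd)
    hrbq a ha htr ψ hψ hψq h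

end Rows

end Fermat.Agent.S56
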