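import Fermat.Agent.S56.h12_MidDefs
import Fermat.Agent.S55.h72_AmbFinal
import Fermat.Agent.S55.h95_HypRecip
import Fermat.Agent.S55.h4_LfBetaFinal
import Fermat.Agent.S55.h82_AsmSha2W

/-!
# S56 / MID-RECIP (helper70): reciprocity for `H²(G_S, μ_p)`

A twisted 2-cocycle `z : G_ℚ × G_ℚ → 𝔽_p(1)` of level `S` which is locally a coboundary at every
prime of `S` but one is locally a coboundary at that one (`h70_recip` = row statement
`h12_recip` of the MID skeleton).

Route: the S55 ambient `h72_PTAmbient` (which exists unconditionally: `h70_exists_ambient`).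
`d q ∈ JJ q` the diagonal `p`-th root of unity, `ft q : 𝔽_p(1) → JJ q`, `n ↦ n • d q`;
`∑_q κ q ∘ ft q = 0` (`kum_diag`); for `q ≠ q₀` the cocycle `κ q ∘ ft q ∘ z` is an `S`-level
coboundary in `CC` (Shapiro); hence so is `κ q₀ ∘ ft q₀ ∘ z`; every equivariant map
`𝔽_p(1) → JJ q₀` is a multiple of `ft q₀` (`xx_tors`), and `h82_sha2_mp` (local duality)
concludes.
-/

set_option autoImplicit false

namespace Fermat.Agent.S56

open Fermat.Agent.S53 Fermat.Agent.S53.Dict ExtCitation groupCohomology Fermat.Agent.S55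

section Mu

variable (p : ℕ) [Fact p.Prime]

/-- The representation `𝔽_p(1)`: `ZMod p` with `G_ℚ` acting through the mod `p` cyclotomic
character. -/
noncomputable def h70_muRho : Representation (ZMod p) GQ (ZMod p) :=
  ((algebraMap (ZMod p) (Module.End (ZMod p) (ZMod p))) : ZMod p →* _).comp
    ((Units.coeHom (ZMod p)).comp (cycloChar p))

theorem h70_muRho_apply (g : GQ) (m : ZMod p) :
    h70_muRho p g m = (cycloChar p g : ZMod p) * m := rfl

/-- `𝔽_p(1)` as an object of `Rep (ZMod p) G_ℚ` (carrier `ZMod p`). -/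
noncomputable def h70_mu : Rep.{0} (ZMod p) GQ := Rep.of (h70_muRho p)

theorem h70_mu_ρ_apply (g : GQ) (m : ZMod p) :
    (h70_mu p).ρ g m = (cycloChar p g : ZMod p) * m := rfl

instance h70_mu_finiteDimensional : FiniteDimensional (ZMod p) (h70_mu p) :=
  inferInstanceAs (FiniteDimensional (ZMod p) (ZMod p))

/-- **The S55 ambient exists unconditionally** (reciprocity at levels and the cyclotomic norm
statement are on main). -/
theorem h70_exists_ambient (hp2 : p ≠ 2) (S : Finset Nat.Primes) (hpS : pPrime p ∈ S) :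
    ∃ (CC : Type) (_ : AddCommGroup CC) (_ : DistribMulAction GQ CC)
      (JJ : ↥S → Type) (_ : ∀ q, AddCommGroup (JJ q)) (_ : ∀ q, DistribMulAction GQ (JJ q))
      (XX : ↥S → Type) (_ : ∀ q, AddCommGroup (XX q))
      (_ : ∀ q : ↥S, DistribMulAction (primeLocalGaloisGroup q.1) (XX q))
      (κ : ∀ q, JJ q →+ CC) (ev : ∀ q, JJ q →+ XX q) (zz : ∀ q, XX q),
      h72_PTAmbient p S CC JJ XX κ ev zz :=
  h72_glob_exists_ambient_of hp2 S hpS
    (h72_openFields_of hp2 S hpS (h95_hypRecip S p hp2 hpS) (h4_lf_hnorm p S hp2 hpS))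

/-- A Galois `S`-level on which the mod `p` cyclotomic character is trivial (`p ∈ S`). -/
theorem h70_exists_cyclo_level (S : Finset Nat.Primes) (hpS : pPrime p ∈ S) :
    ∃ L₀ : h72_Lev S, ∀ s ∈ L₀.U, cycloChar p s = 1 := by
  have : NeZero p := ⟨(Fact.out : p.Prime).ne_zero⟩
  obtain ⟨ζ, hζ⟩ := HasEnoughRootsOfUnity.exists_primitiveRoot (AlgebraicClosure ℚ) p
  have hp : ∀ q : Nat.Primes, (q : ℕ) ∣ p → q ∈ S := by
    intro q' hq'
    have : (q' : ℕ) = p := (Nat.prime_dvd_prime_iff_eq q'.2 Fact.out).1 hq'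
    have e : q' = pPrime p := Subtype.ext this
    rw [e]; exact hpS
  have h2 := h56_isUnramifiedOutside_adjoin_root_of_unity S p (NeZero.ne p) hp ⊥
    (IntermediateField.isUnramifiedOutside_bot S) ζ hζ.pow_eq_one
  obtain ⟨F, hle, hF, hgal⟩ := h56_exists_galois_level S _ h2
  have hζF : ζ ∈ F := hle ((le_sup_right : IntermediateField.adjoin ℚ {ζ} ≤ _)
    (IntermediateField.mem_adjoin_simple_self ℚ ζ))
  exact ⟨⟨F, hF, hgal⟩, fun s hs =>
    h56_cycloChar_eq_one_of_fix hζ s ((IntermediateField.mem_fixingSubgroup_iff _ _).1 hs ζ hζF)⟩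

end Mu

section Aux

/-- `n • x` only depends on `n` modulo `p` when `p • x = 0`. -/
theorem h70_nsmul_mod {A : Type*} [AddCommGroup A] (p : ℕ) (x : A) (hx : p • x = 0) (n : ℕ) :
    n • x = (n % p) • x := by
  conv_lhs => rw [← Nat.div_add_mod n p]
  rw [add_smul, mul_comm, mul_smul, hx, smul_zero, zero_add]

theorem h70_nsmul_congr {A : Type*} [AddCommGroup A] (p : ℕ) (x : A) (hx : p • x = 0) {n m : ℕ}
    (h : (n : ZMod p) = (m : ZMod p)) : n • x = m • x := by
  rw [h70_nsmul_mod p x hx n, h70_nsmul_mod p x hx m]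
  have h1 : n % p = m % p := (ZMod.natCast_eq_natCast_iff' n m p).1 h
  rw [h1]

variable (S : Finset Nat.Primes) {A : Type*} [AddCommGroup A] [DistribMulAction GQ A]

theorem h70_isCobS₂_zero : h72_IsCobS₂ S (fun _ : GQ × GQ => (0 : A)) :=
  ⟨fun _ => 0, isLevelConstantS₁_const S (0 : A), fun g h => by simp⟩

theorem h70_isCobS₂_add {z z' : GQ × GQ → A} (hz : h72_IsCobS₂ S z) (hz' : h72_IsCobS₂ S z') :
    h72_IsCobS₂ S (fun x => z x + z' x) := by
  obtain ⟨x, hxl, hx⟩ := hz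
  obtain ⟨x', hxl', hx'⟩ := hz'
  refine ⟨x + x', hxl.add hxl', fun g h => ?_⟩
  simp only [Pi.add_apply, smul_add]
  rw [← hx g h, ← hx' g h]
  abel

theorem h70_isCobS₂_neg {z : GQ × GQ → A} (hz : h72_IsCobS₂ S z) :
    h72_IsCobS₂ S (fun x => - z x) := by
  obtain ⟨x, hxl, hx⟩ := hz
  refine ⟨fun g => - x g, hxl.comp (fun a => - a), fun g h => ?_⟩
  show g • (- x h) - (- x (g * h)) + (- x g) = - z (g, h)
  rw [← hx g h, smul_neg]
  abel

theorem h70_isCobS₂_nsmul (k : ℕ) {z : GQ × GQ → A} (hz : h72_IsCobS₂ S z) :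
    h72_IsCobS₂ S (fun x => k • z x) := by
  obtain ⟨x, hxl, hx⟩ := hz
  refine ⟨fun g => k • x g, hxl.comp (fun a => k • a), fun g h => ?_⟩
  show g • (k • x h) - k • x (g * h) + k • x g = k • z (g, h)
  rw [← hx g h, smul_add, smul_sub, smul_comm g k]

theorem h70_isCobS₂_sum {ι : Type*} (s : Finset ι) (z : ι → GQ × GQ → A)
    (hz : ∀ i ∈ s, h72_IsCobS₂ S (z i)) : h72_IsCobS₂ S (fun x => ∑ i ∈ s, z i x) := by
  classical
  induction s using Finset.induction_on with
  | empty => simpa using h70_isCobS₂_zero S (A := A)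
  | insert i s hi ih =>
    have h1 := h70_isCobS₂_add S (hz i (Finset.mem_insert_self i s))
      (ih (fun j hj => hz j (Finset.mem_insert_of_mem hj)))
    refine (congrArg (h72_IsCobS₂ S) (funext fun x => ?_)).mp h1
    rw [Finset.sum_insert hi]

end Aux

section Recip

variable {p : ℕ} [Fact p.Prime] (S : Finset Nat.Primes)
  {CC : Type} [AddCommGroup CC] [DistribMulAction GQ CC]
  {JJ : ↥S → Type} [∀ q, AddCommGroup (JJ q)] [∀ q, DistribMulAction GQ (JJ q)]
  {XX : ↥S → Type} [∀ q, AddCommGroup (XX q)]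
  [∀ q : ↥S, DistribMulAction (primeLocalGaloisGroup q.1) (XX q)]
  {κ : ∀ q, JJ q →+ CC} {ev : ∀ q, JJ q →+ XX q} {zz : ∀ q, XX q}

/-- The diagonal `p`-th root of unity in `JJ q`. -/
theorem h70_exists_diag (hA : h72_PTAmbient p S CC JJ XX κ ev zz)
    (L₀ : h72_Lev S) (hχ : ∀ s ∈ L₀.U, cycloChar p s = 1) (q : ↥S) :
    ∃ d : JJ q, (∀ g : GQ, ev q (g • d) = (cycloChar p g : ZMod p).val • zz q) ∧
      p • d = 0 ∧ ∀ g : GQ, g • d = (cycloChar p g : ZMod p).val • d := by
  have hzz := hA.zz_tors q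
  have hmul : ∀ a b : GQ, (cycloChar p (a * b) : ZMod p).val • zz q =
      ((cycloChar p a : ZMod p).val * (cycloChar p b : ZMod p).val) • zz q := by
    intro a b
    refine h70_nsmul_congr p (zz q) hzz ?_
    rw [map_mul, Units.val_mul, Nat.cast_mul, ZMod.natCast_zmod_val, ZMod.natCast_zmod_val,
      ZMod.natCast_zmod_val]
  obtain ⟨d, hd, -⟩ := hA.ev_bij q (fun g => (cycloChar p g : ZMod p).val • zz q)
    (fun τ g => by
      show (cycloChar p (primeLocalToGlobal q.1 τ * g) : ZMod p).val • zz q =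
        τ • ((cycloChar p g : ZMod p).val • zz q)
      rw [smul_comm τ, hA.zz_smul, hmul, mul_comm, mul_smul])
    ⟨L₀, fun g s hs => by
      show (cycloChar p (g * s) : ZMod p).val • zz q = (cycloChar p g : ZMod p).val • zz q
      rw [map_mul, hχ s hs, mul_one]⟩
  have hd' : ∀ g : GQ, ev q (g • d) = (cycloChar p g : ZMod p).val • zz q := hd
  refine ⟨d, hd', ?_, fun g => ?_⟩
  · refine h82_ev_unique S hA q _ _ (fun k => ?_)
    rw [smul_zero, map_zero, smul_comm k p, map_nsmul, hd', smul_comm, hzz, smul_zero]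
  · refine h82_ev_unique S hA q _ _ (fun k => ?_)
    rw [← mul_smul, hd', smul_comm k, map_nsmul, hd', hmul, mul_comm, mul_smul]

/-- **Reciprocity in the ambient**: a twisted 2-cocycle with values in `𝔽_p(1)` which is locally
a coboundary at every `q ≠ q₀` of `S` is locally a coboundary at `q₀`. -/
theorem h70_recip_amb (hA : h72_PTAmbient p S CC JJ XX κ ev zz)
    (L₀ : h72_Lev S) (hχ : ∀ s ∈ L₀.U, cycloChar p s = 1)
    (z : GQ × GQ → ZMod p) (hz : h12_IsCocycle₂ p z) (hlev : IsLevelConstantS₂ S z)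
    (q₀ : ↥S) (hloc : ∀ q : ↥S, q ≠ q₀ → h12_LocCob₂ p q.1 z) : h12_LocCob₂ p q₀.1 z := by
  classical
  have hp : p.Prime := Fact.out
  have : NeZero p := ⟨hp.ne_zero⟩
  -- the cocycle in `M = 𝔽_p(1)`
  let c : GQ × GQ → h70_mu p := z
  have hc : c ∈ cocycles₂ (h70_mu p) := by
    have key : ∀ g h j : GQ,
        z (g * h, j) + z (g, h) = (cycloChar p g : ZMod p) * z (h, j) + z (g, h * j) := by
      intro g h j
      have := hz g h j
      linear_combination - this
    rw [mem_cocycles₂_iff]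
    intro g h j
    exact key g h j
  have hL₀ : ∀ s ∈ L₀.U, (h70_mu p).ρ s = 1 := by
    intro s hs
    have key : ∀ m : ZMod p, (cycloChar p s : ZMod p) * m = m := fun m => by
      rw [hχ s hs, Units.val_one, one_mul]
    exact LinearMap.ext fun m => key m
  -- the diagonal elements
  choose d hd hpd hgd using h70_exists_diag S hA L₀ hχ
  -- the diagonal maps `ft q : M → JJ q`
  have hadd : ∀ (q : ↥S) (a b : ZMod p), (a + b).val • d q = a.val • d q + b.val • d q := by
    intro q a b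
    rw [← add_smul]
    refine h70_nsmul_congr p (d q) (hpd q) ?_
    rw [Nat.cast_add, ZMod.natCast_zmod_val, ZMod.natCast_zmod_val, ZMod.natCast_zmod_val]
  let ft₀ : ∀ q : ↥S, ZMod p →+ JJ q := fun q =>
    AddMonoidHom.mk' (fun n : ZMod p => n.val • d q) (hadd q)
  let ft : ∀ q : ↥S, h70_mu p →+ JJ q := ft₀
  have hft_apply : ∀ (q : ↥S) (n : ZMod p), ft₀ q n = n.val • d q := fun q n => rfl
  have hft₀ : ∀ (q : ↥S) (g : GQ) (m : ZMod p),
      ft₀ q ((cycloChar p g : ZMod p) * m) = g • ft₀ q m := by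
    intro q g m
    rw [hft_apply, hft_apply, smul_comm g, hgd q g, ← mul_smul]
    refine h70_nsmul_congr p (d q) (hpd q) ?_
    rw [Nat.cast_mul, ZMod.natCast_zmod_val, ZMod.natCast_zmod_val, ZMod.natCast_zmod_val,
      mul_comm]
  have hft : ∀ q : ↥S, h82_IsEqv (h70_mu p) (ft q) := fun q g m => hft₀ q g m
  -- `κ q ∘ ft q ∘ c` is an `S`-level coboundary for `q ≠ q₀`
  have hcob : ∀ q : ↥S, q ≠ q₀ → h72_IsCobS₂ S (fun x => κ q (ft q (c x))) := by
    intro q hq
    obtain ⟨w, hwl, hw⟩ := hloc q hq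
    exact h82_sha2_mpr_of S (h70_mu p) hA q
      (fun z hz L hzl ξ hξl hξ => h78_shapiro₂_amb S hA q z hz L hzl ξ hξl hξ)
      c hc hlev w hwl hw (ft q) (hft q)
  -- the sum over all `q` vanishes
  have hsum : ∀ x : GQ × GQ, ∑ q : ↥S, κ q (ft q (c x)) = 0 := by
    intro x
    have h1 : ∑ q : ↥S, κ q (d q) = 0 := hA.kum_diag d hd
    have h2 : ∀ q : ↥S, κ q (ft q (c x)) = (z x).val • κ q (d q) := fun q => by
      show κ q (ft₀ q (z x)) = (z x).val • κ q (d q)
      rw [hft_apply, map_nsmul]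
    rw [Finset.sum_congr rfl (fun q _ => h2 q), ← Finset.smul_sum, h1, smul_zero]
  have hcob₀ : h72_IsCobS₂ S (fun x => κ q₀ (ft q₀ (c x))) := by
    have h1 := h70_isCobS₂_neg S (h70_isCobS₂_sum S (Finset.univ.erase q₀)
      (fun q x => κ q (ft q (c x))) (fun q hq => hcob q (Finset.ne_of_mem_erase hq)))
    refine (congrArg (h72_IsCobS₂ S) (funext fun x => ?_)).mp h1
    have h2 := hsum x
    rw [← Finset.add_sum_erase Finset.univ _ (Finset.mem_univ q₀)] at h2
    exact (eq_neg_of_add_eq_zero_left h2).symm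
  -- every equivariant map `M → JJ q₀` is a multiple of `ft q₀`
  have hall : ∀ ft' : h70_mu p →+ JJ q₀, h82_IsEqv (h70_mu p) ft' →
      h72_IsCobS₂ S (fun x => κ q₀ (ft' (c x))) := by
    intro ft' hft'
    let gt : ZMod p →+ JJ q₀ := ft'
    have hgt : ∀ (g : GQ) (m : ZMod p), gt ((cycloChar p g : ZMod p) * m) = g • gt m :=
      fun g m => hft' g m
    have hm : ∀ m : ZMod p, gt m = m.val • gt 1 := by
      intro m
      rw [← map_nsmul]
      congr 1
      rw [nsmul_eq_mul, mul_one, ZMod.natCast_zmod_val]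
    have hp1 : p • ev q₀ (gt 1) = 0 := by
      rw [← map_nsmul, ← map_nsmul, nsmul_eq_mul, mul_one, ZMod.natCast_self, map_zero, map_zero]
    obtain ⟨k, hk⟩ := hA.xx_tors q₀ _ hp1
    have hy : gt 1 = k • d q₀ := by
      refine h82_ev_unique S hA q₀ _ _ (fun g => ?_)
      have h3 : g • gt 1 = (cycloChar p g : ZMod p).val • gt 1 := by
        rw [← hgt g 1, mul_one, hm]
      rw [h3, map_nsmul, hk, smul_comm g k, map_nsmul, hd q₀ g, smul_comm]
    have h1 := h70_isCobS₂_nsmul S k hcob₀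
    refine (congrArg (h72_IsCobS₂ S) (funext fun x => ?_)).mp h1
    show k • κ q₀ (ft₀ q₀ (z x)) = κ q₀ (gt (z x))
    rw [hm (z x), hy, hft_apply, map_nsmul, map_nsmul, map_nsmul, smul_comm]
  exact h82_sha2_mp S (h70_mu p) hA L₀ hL₀ c hc hlev q₀ hall

end Recip

/-- **MID-RECIP** (`h12_recip` of the MID skeleton, verbatim): a class of `H²(G_Sg, μ_p)` that is
locally trivial at all primes of `Sg` but one is locally trivial at that one. -/
theorem h70_recip (p : ℕ) [Fact p.Prime] (hp2 : p ≠ 2) (Sg : Finset Nat.Primes)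
    (hpS : pPrime p ∈ Sg)
    (z : GQ × GQ → ZMod p) (hz : h12_IsCocycle₂ p z) (hlev : IsLevelConstantS₂ Sg z)
    (q₀ : Nat.Primes) (hq₀ : q₀ ∈ Sg)
    (hloc : ∀ q ∈ Sg, q ≠ q₀ → h12_LocCob₂ p q z) : h12_LocCob₂ p q₀ z := by
  obtain ⟨CC, _, _, JJ, _, _, XX, _, _, κ, ev, zz, hA⟩ := h70_exists_ambient p hp2 Sg hpS
  obtain ⟨L₀, hχ⟩ := h70_exists_cyclo_level p Sg hpS
  exact h70_recip_amb Sg hA L₀ hχ z hz hlev ⟨q₀, hq₀⟩
    (fun q hq => hloc q.1 q.2 (fun h => hq (Subtype.ext h)))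

end Fermat.Agent.S56
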