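import Fermat.Agent.S56.h12_MidDefs
import Fermat.Agent.S13.h24_Unram

/-!
# S56 / MID-UNRLEVEL (row 596): Galois theory of levels for tangent cocycles

`k` a field, `rb : GQ →* M₂(k)`, `a ∈ h40_TanZ rb` a tangent cocycle.  The set
`{σ | rb σ = 1 ∧ a σ = 0}` is the kernel of the lift `rb + ε a`, a subgroup `H` of `GQ`.
As soon as `H` contains the fixing subgroup of a number field it is open, hence closed, hence
the fixing subgroup of its own fixed field `F` (a number field).  Therefore
`h12_UnrOutside rb a S` holds iff `H` contains all inertia groups at the primes outside `S`.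

* `h83_unrOutside_core` : the criterion;
* `h12_unr_level` : drop the primes of `Sg \ S₀` at which the lift is trivial on inertia;
* `h12_unrOutside_of_inertiaTriv` : from finite level + inertia-triviality outside `S`.
-/

set_option autoImplicit false
set_option linter.unusedSectionVars false
set_option linter.unusedVariables false

namespace Fermat.Agent.S56

open Fermat.Agent.S53 Fermat.Agent.S53.Dict ExtCitation groupCohomology

local notation "M₂[" k "]" => Matrix (Fin 2) (Fin 2) k

section Core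

variable {k : Type} [Field k] (rb : GQ →* M₂[k])

/-- membership in the kernel of the lift `rb + ε a`. -/
theorem h83_mem_ker_tanHom (a : GQ → M₂[k]) (ha : a ∈ h40_TanZ rb) (σ : GQ) :
    σ ∈ (h40_tanHom rb a ha).ker ↔ rb σ = 1 ∧ a σ = 0 := by
  rw [MonoidHom.mem_ker, h40_tanHom_apply]
  show h40_dmat (rb σ) (a σ) = 1 ↔ _
  rw [← h40_dmat_one, h40_dmat_eq_iff]

/-- **Criterion**: if the kernel of the lift `rb + ε a` contains the fixing subgroup of a number
field and all inertia groups at the primes outside `S`, the lift is unramified outside `S`. -/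
theorem h83_unrOutside_core (S : Finset Nat.Primes) (a : GQ → M₂[k]) (ha : a ∈ h40_TanZ rb)
    (E : IntermediateField ℚ (AlgebraicClosure ℚ)) (hE : FiniteDimensional ℚ E)
    (hEker : ∀ s ∈ E.fixingSubgroup, rb s = 1 ∧ a s = 0)
    (hin : ∀ q : Nat.Primes, q ∉ S → ∀ A : ValuationSubring (AlgebraicClosure ℚ),
      A.LiesOverPrime (q : ℕ) → ∀ σ ∈ A.inertiaSubgroupIn ℚ, rb σ = 1 ∧ a σ = 0) :
    h12_UnrOutside rb a S := by
  have hgal : IsGalois ℚ (AlgebraicClosure ℚ) := Fermat.Agent.S13.h24_isGalois_Qbar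
  set H : Subgroup GQ := (h40_tanHom rb a ha).ker with hH
  have hmem : ∀ σ : GQ, σ ∈ H ↔ rb σ = 1 ∧ a σ = 0 := h83_mem_ker_tanHom rb a ha
  have hEH : E.fixingSubgroup ≤ H := fun σ hσ => (hmem σ).2 (hEker σ hσ)
  have hopen : IsOpen (H : Set GQ) := Subgroup.isOpen_mono hEH E.fixingSubgroup_isOpen
  have hclosed : IsClosed (H : Set GQ) := Subgroup.isClosed_of_isOpen H hopen
  set F : IntermediateField ℚ (AlgebraicClosure ℚ) := IntermediateField.fixedField H with hF
  have hFfix : F.fixingSubgroup = H :=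
    InfiniteGalois.fixingSubgroup_fixedField (⟨H, hclosed⟩ : ClosedSubgroup GQ)
  have hFE : F ≤ E := by
    have h1 : IntermediateField.fixedField H ≤ IntermediateField.fixedField E.fixingSubgroup :=
      IntermediateField.fixedField_antitone hEH
    rwa [InfiniteGalois.fixedField_fixingSubgroup E] at h1
  have hFfin : FiniteDimensional ℚ F :=
    FiniteDimensional.of_injective (IntermediateField.inclusion hFE).toLinearMap
      (IntermediateField.inclusion_injective hFE)
  refine ⟨F, ⟨hFfin, fun q hq A hA σ hσ => ?_⟩, fun s hs => ?_⟩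
  · rw [hFfix]
    exact (hmem σ).2 (hin q hq A hA σ hσ)
  · rw [hFfix] at hs
    exact (hmem s).1 hs

end Core

section Rows

variable {k : Type} [Field k] [Finite k] (p : ℕ) [Fact p.Prime] [Algebra (ZMod p) k]
variable (rb : GQ →* M₂[k])

/-! ## ROW MID-UNRLEVEL (Galois theory of levels) -/

theorem h12_unr_level (S₀ Sg : Finset Nat.Primes) (hS : S₀ ⊆ Sg)
    (a : GQ → M₂[k]) (ha : a ∈ h40_TanZ rb) (h : h12_UnrOutside rb a Sg)
    (hq : ∀ q ∈ Sg, q ∉ S₀ → h12_InertiaTriv rb a (q : ℕ)) : h12_UnrOutside rb a S₀ := by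
  obtain ⟨F, ⟨hFfin, hFur⟩, hFker⟩ := h
  refine h83_unrOutside_core rb S₀ a ha F hFfin hFker (fun q hqS₀ A hA σ hσ => ?_)
  by_cases hqg : q ∈ Sg
  · exact hq q hqg hqS₀ A hA σ hσ
  · exact hFker σ (hFur q hqg A hA hσ)

/-- from the frozen-type conditions: unramified outside `S` + finite level. -/
theorem h12_unrOutside_of_inertiaTriv (S : Finset Nat.Primes)
    (hrb : GaloisFactorsThroughFiniteLevel rb)
    (a : GQ → M₂[k]) (ha : a ∈ h40_TanZ rb)
    (hq : ∀ q : Nat.Primes, q ∉ S → h12_InertiaTriv rb a (q : ℕ)) : h12_UnrOutside rb a S := by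
  obtain ⟨L₁, hL₁, h1⟩ := hrb
  obtain ⟨L₂, hL₂, h2⟩ := ha.2
  refine h83_unrOutside_core rb S a ha (L₁ ⊔ L₂) (IntermediateField.finiteDimensional_sup L₁ L₂)
    (fun s hs => ?_) (fun q hqS A hA σ hσ => hq q hqS A hA σ hσ)
  have hs' : ∀ x ∈ L₁ ⊔ L₂, s x = x := (IntermediateField.mem_fixingSubgroup_iff _ s).mp hs
  exact ⟨h1 s fun x hx => hs' x ((le_sup_left : L₁ ≤ L₁ ⊔ L₂) hx),
    h2 s fun x hx => hs' x ((le_sup_right : L₂ ≤ L₁ ⊔ L₂) hx)⟩

end Rows

end Fermat.Agent.S56
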