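import Fermat.Agent.S56.h12_MidCount
import Fermat.Agent.S56.h70_Recip
import Fermat.Agent.S56.h56_TameFinal
import Fermat.Agent.S56.h83_UnrLevel

/-!
# S56 / MID-COUNT (row 597), closed form

`h12_count` = the skeleton (v3) statement verbatim: `h12_count_of` fed with the rows
MID-RECIP (`h70_recip`), MID-TAME (`h12_tame`) and MID-UNRLEVEL (`h12_unr_level`).
-/

set_option autoImplicit false
set_option linter.unusedVariables false

namespace Fermat.Agent.S56

open Fermat.Agent.S53 Fermat.Agent.S53.Dict ExtCitation groupCohomology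

local notation "M₂[" k "]" => Matrix (Fin 2) (Fin 2) k

section Rows

variable {k : Type} [Field k] [Finite k] (p : ℕ) [Fact p.Prime] [Algebra (ZMod p) k]
variable (rb : GQ →* M₂[k])

/-- **ROW MID-COUNT.**  The Selmer count: a space `W` of trace-free tangent cocycles,
unramified outside `S₀ ∪ Q` (`Q` a set of `r = h12_rN rb S₀` Taylor-Wiles primes with dual
`N`-cocycles `ψs`), injecting into `H¹` and satisfying the local bounds at `S₀`, has
rank `≤ r`, provided the everywhere locally trivial classes at `S₀` obey the bound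
`h12_ShaBound`. -/
theorem h12_count (hp2 : p ≠ 2) (hdet : h12_DetCyc p rb)
    (hrb : GaloisFactorsThroughFiniteLevel rb)
    (S₀ : Finset Nat.Primes) (hpS₀ : pPrime p ∈ S₀)
    (hrbS₀ : ∀ q : Nat.Primes, q ∉ S₀ → ∀ P : ValuationSubring (AlgebraicClosure ℚ),
      P.LiesOverPrime (q : ℕ) → ∀ σ ∈ P.inertiaSubgroupIn ℚ, rb σ = 1)
    (qv : Fin (h12_rN rb S₀) → Nat.Primes) (hqv : Function.Injective qv)
    (hqS₀ : ∀ i, qv i ∉ S₀) (hTW : ∀ i, h12_IsTWPrime p 0 rb (qv i : ℕ))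
    (ψs : Fin (h12_rN rb S₀) → GQ → M₂[k])
    (hψs : ∀ i, ψs i ∈ h12_ZN rb S₀ ∧ h12_FrobNonCob rb (ψs i) (qv i : ℕ) ∧
      ∀ j, j ≠ i → h12_LocCobN rb (qv j) (ψs i))
    (W : Submodule k (GQ → M₂[k])) (hW : W ≤ h40_TanZ rb)
    (hW0 : ∀ a ∈ W, h40_IsCob rb a → a = 0)
    (hunr : ∀ a ∈ W, h12_UnrOutside rb a (S₀ ∪ Finset.univ.image qv))
    (htr : ∀ a ∈ W, ∀ σ, (a σ * (rb σ).adjugate).trace = 0)
    (hloc : ∀ v ∈ S₀, h12_LocBound rb v W
      (Module.finrank k (h12_H0M rb v) + (if v = pPrime p then 1 else 0)))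
    (hR1 : h12_ShaBound rb S₀) :
    Module.rank k W ≤ (h12_rN rb S₀ : Cardinal) :=
  h12_count_of p rb hdet hrb S₀ hpS₀ qv ψs (fun i => ⟨(hψs i).1, (hψs i).2.2⟩)
    (fun z hz hlev q₀ hq₀ hloc' =>
      h70_recip p hp2 (S₀ ∪ Finset.univ.image qv) (Finset.mem_union_left _ hpS₀) z hz hlev
        q₀ hq₀ hloc')
    (fun i a ha htr' h =>
      h12_tame p rb hp2 hdet hrb S₀ (qv i) (hqS₀ i) (hTW i) (hrbS₀ (qv i) (hqS₀ i)) a ha htr'
        (ψs i) (hψs i).1 (hψs i).2.1 h)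
    (fun a ha h hq =>
      h12_unr_level rb S₀ (S₀ ∪ Finset.univ.image qv) Finset.subset_union_left a ha h hq)
    W hW hW0 hunr htr hloc hR1

end Rows

end Fermat.Agent.S56
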