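import Fermat.Agent.S53.Dict
import Fermat.Prelude.Def_GaloisRep_StrictOrdinary
import Fermat.Prelude.Def_GaloisRep_Flat

/-!
# S56 top level: the frozen local conditions pass to the entrywise image of a matrix
representation under a local ring map (helper40)

For `IsFlatAt` the ring map is assumed surjective: then `V'/I'V' = V/φ⁻¹(I')V` and the Hopf
algebra of the source level is reused verbatim.
-/

set_option autoImplicit false
set_option linter.style.haveILetI false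
set_option linter.unusedSectionVars false

namespace Fermat.Agent.S56

open IsLocalRing Fermat.Agent.S53.Dict

section BC

variable {A B : Type} [CommRing A] [IsLocalRing A] [CommRing B] [IsLocalRing B]

theorem h40_natCast_mem_maximalIdeal (φ : A →+* B) (hφ : IsLocalHom φ) {p : ℕ}
    (h : (p : A) ∈ maximalIdeal A) : (p : B) ∈ maximalIdeal B := by
  rw [← map_natCast φ p]
  exact (IsLocalRing.mem_maximalIdeal _).mpr fun hu =>
    (IsLocalRing.mem_maximalIdeal _).mp h (hφ.map_nonunit _ hu)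

theorem h40_det_ofMat (M : GQ →* Matrix (Fin 2) (Fin 2) A) (hM : MatCont M) (σ : GQ) :
    LinearMap.det ((ofMat M hM).ρ σ) = (M σ).det :=
  LinearMap.det_toLin' (M σ)

theorem h40_detIsCyclotomic_mapMat (φ : A →+* B) (hφ : IsLocalHom φ)
    (M : GQ →* Matrix (Fin 2) (Fin 2) A) (hM : MatCont M) {p : ℕ}
    (h : (ofMat M hM).DetIsCyclotomic p) :
    (ofMat (mapMat φ M) (matCont_mapMat φ hφ hM)).DetIsCyclotomic p := by
  refine ⟨h40_natCast_mem_maximalIdeal φ hφ h.1, fun n σ a ha => ?_⟩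
  have h1 := h.2 n σ a ha
  rw [h40_det_ofMat] at h1 ⊢
  have h2 : (mapMat φ M σ).det - (a : B) = φ ((M σ).det - (a : A)) := by
    rw [map_sub, map_natCast, RingHom.map_det]
    rfl
  rw [h2]
  rw [Ideal.mem_span_singleton] at h1 ⊢
  obtain ⟨c, hc⟩ := h1
  exact ⟨φ c, by rw [hc, map_mul, map_natCast]⟩

theorem h40_ofMat_ρ_eq_one_iff (M : GQ →* Matrix (Fin 2) (Fin 2) A) (hM : MatCont M) (σ : GQ) :
    (ofMat M hM).ρ σ = 1 ↔ M σ = 1 := by
  constructor
  · intro h
    apply Matrix.toLin'.injective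
    rw [Matrix.toLin'_one]
    exact h
  · intro h
    show Matrix.toLin' (M σ) = 1
    rw [h, Matrix.toLin'_one]
    rfl

theorem h40_isUnramifiedAt_mapMat (φ : A →+* B) (hφ : IsLocalHom φ)
    (M : GQ →* Matrix (Fin 2) (Fin 2) A) (hM : MatCont M) {q : ℕ}
    (h : (ofMat M hM).IsUnramifiedAt q) :
    (ofMat (mapMat φ M) (matCont_mapMat φ hφ hM)).IsUnramifiedAt q := by
  intro P hP σ hσ
  have h1 := (h40_ofMat_ρ_eq_one_iff M hM σ).mp (h P hP σ hσ)
  rw [h40_ofMat_ρ_eq_one_iff, mapMat_apply, h1]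
  exact Matrix.map_one φ (map_zero φ) (map_one φ)

theorem h40_charpoly_ofMat (M : GQ →* Matrix (Fin 2) (Fin 2) A) (hM : MatCont M) (σ : GQ) :
    LinearMap.charpoly ((ofMat M hM).ρ σ) = (M σ).charpoly :=
  Matrix.charpoly_toLin' (M σ)

theorem h40_isUnipotentOnInertiaAt_mapMat (φ : A →+* B) (hφ : IsLocalHom φ)
    (M : GQ →* Matrix (Fin 2) (Fin 2) A) (hM : MatCont M) {q : ℕ}
    (h : (ofMat M hM).IsUnipotentOnInertiaAt q) :
    (ofMat (mapMat φ M) (matCont_mapMat φ hφ hM)).IsUnipotentOnInertiaAt q := by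
  intro P hP σ hσ
  have h1 := h P hP σ hσ
  rw [h40_charpoly_ofMat] at h1 ⊢
  rw [mapMat_apply, Matrix.charpoly_map, h1]
  simp

/-- The entrywise map `(Fin 2 → A) → (Fin 2 → B)`, semilinear over `φ`. -/
def h40_Phi (φ : A →+* B) : (Fin 2 → A) →ₛₗ[φ] (Fin 2 → B) where
  toFun v := φ ∘ v
  map_add' u v := by
    ext i
    simp
  map_smul' c v := by
    ext i
    simp

@[simp] theorem h40_Phi_apply (φ : A →+* B) (v : Fin 2 → A) (i : Fin 2) :
    h40_Phi φ v i = φ (v i) := rfl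

theorem h40_Phi_mulVec (φ : A →+* B) (N : Matrix (Fin 2) (Fin 2) A) (v : Fin 2 → A) :
    h40_Phi φ (N.mulVec v) = (N.map φ).mulVec (h40_Phi φ v) := by
  ext i
  exact RingHom.map_mulVec φ N v i

theorem h40_Phi_single (φ : A →+* B) (j : Fin 2) :
    h40_Phi φ (Pi.single j 1) = Pi.single j 1 := by
  ext i
  rw [h40_Phi_apply]
  by_cases h : i = j
  · subst h
    simp
  · simp [h]

theorem h40_exists_basis_map (φ : A →+* B) (b : Module.Basis (Fin 2) A (Fin 2 → A)) :
    ∃ b' : Module.Basis (Fin 2) B (Fin 2 → B), ∀ j, b' j = h40_Phi φ (b j) := by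
  let T : Matrix (Fin 2) (Fin 2) A := (Pi.basisFun A (Fin 2)).toMatrix b
  let S : Matrix (Fin 2) (Fin 2) A := b.toMatrix (Pi.basisFun A (Fin 2))
  have hTS : T * S = 1 := Module.Basis.toMatrix_mul_toMatrix_flip _ _
  have hST : S * T = 1 := Module.Basis.toMatrix_mul_toMatrix_flip _ _
  have hTS' : T.map φ * S.map φ = 1 := by
    rw [← Matrix.map_mul, hTS]
    exact Matrix.map_one φ (map_zero φ) (map_one φ)
  have hST' : S.map φ * T.map φ = 1 := by
    rw [← Matrix.map_mul, hST]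
    exact Matrix.map_one φ (map_zero φ) (map_one φ)
  let E : (Fin 2 → B) ≃ₗ[B] (Fin 2 → B) :=
    LinearEquiv.ofLinearMap (Matrix.toLin' (T.map φ)) (Matrix.toLin' (S.map φ))
      (by rw [← Matrix.toLin'_mul, hTS', Matrix.toLin'_one])
      (by rw [← Matrix.toLin'_mul, hST', Matrix.toLin'_one])
  refine ⟨(Pi.basisFun B (Fin 2)).map E, fun j => ?_⟩
  rw [Module.Basis.map_apply, Pi.basisFun_apply]
  show Matrix.toLin' (T.map φ) (Pi.single j 1) = _
  rw [Matrix.toLin'_apply, Matrix.mulVec_single_one]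
  ext i
  show φ (T i j) = φ (b j i)
  congr 1

/-- (S1) an eigenvector stays an eigenvector. -/
theorem h40_Phi_eigen (φ : A →+* B) (N : Matrix (Fin 2) (Fin 2) A) (w : Fin 2 → A) (x : A)
    (h : N.mulVec w = x • w) : (N.map φ).mulVec (h40_Phi φ w) = φ x • h40_Phi φ w := by
  rw [← h40_Phi_mulVec, h, map_smulₛₗ]

/-- (S2) `N - z` has image in the line of `w` ⟹ the same after applying `φ`. -/
theorem h40_Phi_line (φ : A →+* B) (N : Matrix (Fin 2) (Fin 2) A) (w : Fin 2 → A) (z : A)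
    (h : ∀ v, N.mulVec v - z • v ∈ Submodule.span A {w}) (v' : Fin 2 → B) :
    (N.map φ).mulVec v' - φ z • v' ∈ Submodule.span B {h40_Phi φ w} := by
  let f' : (Fin 2 → B) →ₗ[B] (Fin 2 → B) := Matrix.toLin' (N.map φ) - φ z • LinearMap.id
  have hf' : ∀ u, f' u = (N.map φ).mulVec u - φ z • u := fun u => rfl
  rw [← hf', LinearMap.pi_apply_eq_sum_univ f' v']
  refine Submodule.sum_mem _ fun i _ => Submodule.smul_mem _ _ ?_
  have h1 : (fun j => if i = j then (1 : B) else 0) = h40_Phi φ (Pi.single i 1) := by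
    rw [h40_Phi_single]
    ext j
    simp [Pi.single_apply, eq_comm]
  rw [h1, hf', ← h40_Phi_mulVec]
  obtain ⟨t, ht⟩ := Submodule.mem_span_singleton.mp (h (Pi.single i 1))
  have h2 : (h40_Phi φ) (N.mulVec (Pi.single i 1)) - φ z • (h40_Phi φ) (Pi.single i 1) =
      h40_Phi φ (N.mulVec (Pi.single i 1) - z • Pi.single i 1) := by
    rw [map_sub, map_smulₛₗ]
  rw [h2, ← ht, map_smulₛₗ]
  exact Submodule.smul_mem _ _ (Submodule.mem_span_singleton_self _)

theorem h40_isStrictOrdinaryAt_mapMat (φ : A →+* B) (hφ : IsLocalHom φ)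
    (M : GQ →* Matrix (Fin 2) (Fin 2) A) (hM : MatCont M) {p : ℕ}
    (h : (ofMat M hM).IsStrictOrdinaryAt p) :
    (ofMat (mapMat φ M) (matCont_mapMat φ hφ hM)).IsStrictOrdinaryAt p := by
  refine ⟨h40_natCast_mem_maximalIdeal φ hφ h.1, fun P hP => ?_⟩
  obtain ⟨L, ⟨b, hL⟩, hD, hI, h4⟩ := h.2 P hP
  obtain ⟨b', hb'⟩ := h40_exists_basis_map φ b
  have hw0 : b 0 ∈ L := by
    rw [hL]
    exact Submodule.mem_span_singleton_self _
  refine ⟨Submodule.span B {h40_Phi φ (b 0)}, ⟨b', by rw [hb' 0]⟩, ?_, ?_, ?_⟩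
  · intro σ hσ v hv
    obtain ⟨x, z, hx, -, -⟩ := h4 σ hσ
    obtain ⟨c, rfl⟩ := Submodule.mem_span_singleton.mp hv
    have hw : (M σ).mulVec (b 0) = x • b 0 := hx (b 0) hw0
    have h1 := h40_Phi_eigen φ (M σ) (b 0) x hw
    show (mapMat φ M σ).mulVec (c • h40_Phi φ (b 0)) ∈ _
    rw [Matrix.mulVec_smul, mapMat_apply, h1]
    exact Submodule.smul_mem _ _ (Submodule.smul_mem _ _ (Submodule.mem_span_singleton_self _))
  · intro σ hσ v
    have h1 : ∀ u, (M σ).mulVec u - (1 : A) • u ∈ Submodule.span A {b 0} := by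
      intro u
      rw [one_smul, ← hL]
      exact hI σ hσ u
    have h2 := h40_Phi_line φ (M σ) (b 0) 1 h1 v
    rw [map_one, one_smul] at h2
    exact h2
  · intro σ hσ
    obtain ⟨x, z, hx, hz, hxz⟩ := h4 σ hσ
    refine ⟨φ x, φ z, fun w hw => ?_, fun v => ?_, fun n a ha => ?_⟩
    · obtain ⟨c, rfl⟩ := Submodule.mem_span_singleton.mp hw
      have h1 := h40_Phi_eigen φ (M σ) (b 0) x (hx (b 0) hw0)
      show (mapMat φ M σ).mulVec (c • h40_Phi φ (b 0)) = φ x • c • h40_Phi φ (b 0)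
      rw [Matrix.mulVec_smul, mapMat_apply, h1, smul_comm]
    · have h1 : ∀ u, (M σ).mulVec u - z • u ∈ Submodule.span A {b 0} := by
        intro u
        rw [← hL]
        exact hz u
      exact h40_Phi_line φ (M σ) (b 0) z h1 v
    · have h1 := hxz n a ha
      rw [Ideal.mem_span_singleton] at h1 ⊢
      obtain ⟨c, hc⟩ := h1
      refine ⟨φ c, ?_⟩
      have h2 : φ x - (a : B) * φ z = φ (x - (a : A) * z) := by
        rw [map_sub, map_mul, map_natCast]
      rw [h2, hc, map_mul, map_natCast]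

theorem h40_mem_smul_top_iff {C : Type} [CommRing C] (I : Ideal C) (v : Fin 2 → C) :
    v ∈ I • (⊤ : Submodule C (Fin 2 → C)) ↔ ∀ i, v i ∈ I := by
  constructor
  · intro h i
    have := dict_repr_mem_of_mem_smul_top (Pi.basisFun C (Fin 2)) I h i
    simpa using this
  · exact dict_mem_smul_top_of_forall_mem I v

theorem h40_levelAction_mk (ρ : GaloisRepAdic A) (I : Ideal A) (σ : GQ) (v : ρ.V) :
    ρ.levelAction I σ (Submodule.Quotient.mk v) = Submodule.Quotient.mk (ρ.ρ σ v) := rfl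

theorem h40_isFlatAt_mapMat (φ : A →+* B) (hφ : IsLocalHom φ) (hsurj : Function.Surjective φ)
    (M : GQ →* Matrix (Fin 2) (Fin 2) A) (hM : MatCont M) {p : ℕ}
    (h : (ofMat M hM).IsFlatAt p) :
    (ofMat (mapMat φ M) (matCont_mapMat φ hφ hM)).IsFlatAt p := by
  have hfinB : Finite (ResidueField B) := by
    haveI := h.1
    haveI := hφ
    refine Finite.of_surjective (ResidueField.map φ) fun y => ?_
    obtain ⟨b, rfl⟩ := IsLocalRing.residue_surjective y
    obtain ⟨a, rfl⟩ := hsurj b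
    exact ⟨IsLocalRing.residue A a, ResidueField.map_residue φ a⟩
  refine ⟨hfinB, fun I' hI' => ?_⟩
  haveI : Finite (A ⧸ I'.comap φ) :=
    Finite.of_injective (Ideal.quotientMap I' φ le_rfl) Ideal.quotientMap_injective
  obtain ⟨H, iC, iH, hfin, hflat, hcocomm, e₀, hadd, hgal⟩ := h.2 (I'.comap φ) inferInstance
  have hle : (I'.comap φ • ⊤ : Submodule A (Fin 2 → A)) ≤
      Submodule.comap (h40_Phi φ) (I' • ⊤ : Submodule B (Fin 2 → B)) := by
    intro v hv
    rw [Submodule.mem_comap, h40_mem_smul_top_iff]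
    intro i
    exact (h40_mem_smul_top_iff _ v).mp hv i
  let θ₀ : ((Fin 2 → A) ⧸ (I'.comap φ • ⊤ : Submodule A (Fin 2 → A))) →ₛₗ[φ]
      ((Fin 2 → B) ⧸ (I' • ⊤ : Submodule B (Fin 2 → B))) :=
    Submodule.mapQ _ _ (h40_Phi φ) hle
  have hθmk : ∀ v : Fin 2 → A, θ₀ (Submodule.Quotient.mk v) = Submodule.Quotient.mk (h40_Phi φ v) :=
    fun v => Submodule.mapQ_apply _ _ _ v
  have hinj : Function.Injective θ₀ := by
    rw [injective_iff_map_eq_zero]
    intro x hx
    obtain ⟨v, rfl⟩ := Submodule.Quotient.mk_surjective _ x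
    rw [hθmk, Submodule.Quotient.mk_eq_zero, h40_mem_smul_top_iff] at hx
    rw [Submodule.Quotient.mk_eq_zero, h40_mem_smul_top_iff]
    exact hx
  have hsurjθ : Function.Surjective θ₀ := by
    intro y
    obtain ⟨v', rfl⟩ := Submodule.Quotient.mk_surjective _ y
    choose v hv using fun i => hsurj (v' i)
    refine ⟨Submodule.Quotient.mk v, ?_⟩
    rw [hθmk]
    congr 1
    ext i
    exact hv i
  have hθ : ∀ (σ : GQ) (x : (Fin 2 → A) ⧸ (I'.comap φ • ⊤ : Submodule A (Fin 2 → A))),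
      θ₀ ((ofMat M hM).levelAction (I'.comap φ) σ x) =
        (ofMat (mapMat φ M) (matCont_mapMat φ hφ hM)).levelAction I' σ (θ₀ x) := by
    intro σ x
    obtain ⟨v, rfl⟩ := Submodule.Quotient.mk_surjective _ x
    rw [h40_levelAction_mk, hθmk, hθmk, h40_levelAction_mk]
    congr 1
    show h40_Phi φ ((M σ).mulVec v) = (mapMat φ M σ).mulVec (h40_Phi φ v)
    rw [h40_Phi_mulVec, mapMat_apply]
  refine ⟨H, iC, iH, hfin, hflat, hcocomm, e₀.trans (Equiv.ofBijective θ₀ ⟨hinj, hsurjθ⟩),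
    fun f g => ?_, fun σ f g hfg => ?_⟩
  · show θ₀ (e₀ (f * g)) = θ₀ (e₀ f) + θ₀ (e₀ g)
    rw [hadd, map_add]
  · show θ₀ (e₀ g) = _
    rw [hgal σ f g hfg, hθ]
    rfl

end BC

end Fermat.Agent.S56
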