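import Fermat.Agent.S56.h40_TopTypeEq
import Fermat.Agent.S56.h40_TopTypeBC

/-!
# S56 top level: the two frozen deformation types (helper40)

`h40_SOType` / `h40_FLType` are the predicates `𝒟` of the frozen statement S56 (strict-ordinary
resp. flat at `p`, cyclotomic determinant, unramified outside `Σ`, unipotent at `Smin ∖ {p}`),
spelled out.  Both are invariant under `IsEquiv` and pass to base changes along local ring maps
(surjective ones in the flat case).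
-/

set_option autoImplicit false
set_option linter.style.haveILetI false
set_option linter.unusedSectionVars false

namespace Fermat.Agent.S56

open IsLocalRing Fermat.Agent.S53.Dict

section Types

variable {A B : Type} [CommRing A] [IsLocalRing A] [CommRing B] [IsLocalRing B]

/-- The strict-ordinary type of S56, spelled out. -/
def h40_SOType (p : ℕ) (Sig Smin : Finset ℕ) (ρ : GaloisRepAdic A) : Prop :=
  (ρ.DetIsCyclotomic p ∧ ρ.IsStrictOrdinaryAt p ∧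
    ∀ q : ℕ, q.Prime → q ∉ Sig → ρ.IsUnramifiedAt q) ∧
  ∀ q ∈ Smin, q.Prime → q ≠ p → ρ.IsUnipotentOnInertiaAt q

/-- The flat type of S56, spelled out. -/
def h40_FLType (p : ℕ) (Sig Smin : Finset ℕ) (ρ : GaloisRepAdic A) : Prop :=
  (ρ.DetIsCyclotomic p ∧ ρ.IsFlatAt p ∧
    ∀ q : ℕ, q.Prime → q ∉ Sig → ρ.IsUnramifiedAt q) ∧
  ∀ q ∈ Smin, q.Prime → q ≠ p → ρ.IsUnipotentOnInertiaAt q

theorem h40_SOType_of_isEquiv {p : ℕ} {Sig Smin : Finset ℕ} {ρ ρ' : GaloisRepAdic A}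
    (h : ρ.IsEquiv ρ') (hρ : h40_SOType p Sig Smin ρ) : h40_SOType p Sig Smin ρ' :=
  ⟨⟨h40_detIsCyclotomic_of_isEquiv h hρ.1.1, h40_isStrictOrdinaryAt_of_isEquiv h hρ.1.2.1,
    fun q hq hqS => h40_isUnramifiedAt_of_isEquiv h (hρ.1.2.2 q hq hqS)⟩,
    fun q hq hqp hne => h40_isUnipotentOnInertiaAt_of_isEquiv h (hρ.2 q hq hqp hne)⟩

theorem h40_FLType_of_isEquiv {p : ℕ} {Sig Smin : Finset ℕ} {ρ ρ' : GaloisRepAdic A}
    (h : ρ.IsEquiv ρ') (hρ : h40_FLType p Sig Smin ρ) : h40_FLType p Sig Smin ρ' :=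
  ⟨⟨h40_detIsCyclotomic_of_isEquiv h hρ.1.1, h40_isFlatAt_of_isEquiv h hρ.1.2.1,
    fun q hq hqS => h40_isUnramifiedAt_of_isEquiv h (hρ.1.2.2 q hq hqS)⟩,
    fun q hq hqp hne => h40_isUnipotentOnInertiaAt_of_isEquiv h (hρ.2 q hq hqp hne)⟩

theorem h40_isEquiv_symm {ρ ρ' : GaloisRepAdic A} (h : ρ.IsEquiv ρ') : ρ'.IsEquiv ρ := by
  obtain ⟨e⟩ := h
  exact ⟨e.symm⟩

theorem h40_SOType_baseChangeAlong {p : ℕ} {Sig Smin : Finset ℕ} (φ : A →+* B)
    (hφ : IsLocalHom φ) (ρ : GaloisRepAdic A) (hρ : h40_SOType p Sig Smin ρ) :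
    h40_SOType p Sig Smin (ρ.baseChangeAlong φ hφ) := by
  let b := someBasis ρ
  have h1 := h40_SOType_of_isEquiv (isEquiv_ofMat_toMat ρ b) hρ
  have hM := matCont_toMat ρ b
  have h2 : h40_SOType p Sig Smin (ofMat (mapMat φ (toMat ρ b)) (matCont_mapMat φ hφ hM)) :=
    ⟨⟨h40_detIsCyclotomic_mapMat φ hφ _ hM h1.1.1, h40_isStrictOrdinaryAt_mapMat φ hφ _ hM h1.1.2.1,
      fun q hq hqS => h40_isUnramifiedAt_mapMat φ hφ _ hM (h1.1.2.2 q hq hqS)⟩,
      fun q hq hqp hne => h40_isUnipotentOnInertiaAt_mapMat φ hφ _ hM (h1.2 q hq hqp hne)⟩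
  exact h40_SOType_of_isEquiv (h40_isEquiv_symm (baseChangeAlong_isEquiv_ofMat φ hφ ρ b)) h2

theorem h40_FLType_baseChangeAlong {p : ℕ} {Sig Smin : Finset ℕ} (φ : A →+* B)
    (hφ : IsLocalHom φ) (hsurj : Function.Surjective φ) (ρ : GaloisRepAdic A)
    (hρ : h40_FLType p Sig Smin ρ) :
    h40_FLType p Sig Smin (ρ.baseChangeAlong φ hφ) := by
  let b := someBasis ρ
  have h1 := h40_FLType_of_isEquiv (isEquiv_ofMat_toMat ρ b) hρ
  have hM := matCont_toMat ρ b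
  have h2 : h40_FLType p Sig Smin (ofMat (mapMat φ (toMat ρ b)) (matCont_mapMat φ hφ hM)) :=
    ⟨⟨h40_detIsCyclotomic_mapMat φ hφ _ hM h1.1.1,
      h40_isFlatAt_mapMat φ hφ hsurj _ hM h1.1.2.1,
      fun q hq hqS => h40_isUnramifiedAt_mapMat φ hφ _ hM (h1.1.2.2 q hq hqS)⟩,
      fun q hq hqp hne => h40_isUnipotentOnInertiaAt_mapMat φ hφ _ hM (h1.2 q hq hqp hne)⟩
  exact h40_FLType_of_isEquiv (h40_isEquiv_symm (baseChangeAlong_isEquiv_ofMat φ hφ ρ b)) h2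

end Types

end Fermat.Agent.S56
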