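import Fermat.Agent.S56.h40_TopDefs
import Fermat.Agent.S56.h40_TopType

/-!
# S56: the frozen local conditions on tangent lifts, unpacked (helper40)

For `rb : GQ →* M₂(k)` and a tangent cocycle `a ∈ h40_TanZ rb`, the frozen predicates
`DetIsCyclotomic`, `IsUnramifiedAt`, `IsUnipotentOnInertiaAt` of the lift
`h40_tanRep rb hrb a ha` over the dual numbers are rewritten as explicit conditions on the pair
`(rb, a)`, so that the local analysis never unfolds `GaloisRepAdic`.
-/

set_option autoImplicit false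
set_option linter.style.haveILetI false
set_option linter.unusedSectionVars false

namespace Fermat.Agent.S56

open Fermat.Agent.S53 Fermat.Agent.S53.Dict Polynomial

section Cyclo

/-- Every Galois automorphism acts on the `p ^ n`-th roots of unity through a natural exponent. -/
theorem h40_exists_cyclo_exp (p : ℕ) [Fact p.Prime] (σ : GQ) (n : ℕ) :
    ∃ e : ℕ, ∀ μ : AlgebraicClosure ℚ, μ ^ p ^ n = 1 → σ μ = μ ^ e :=
  ⟨_, fun μ hμ => cyclotomicCharacter.spec (L := AlgebraicClosure ℚ) p (n := n)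
    (σ : AlgebraicClosure ℚ ≃+* AlgebraicClosure ℚ) μ hμ⟩

end Cyclo

section Dmat

variable {k : Type} [Field k]

theorem h40_dmat_trace (A B : Matrix (Fin 2) (Fin 2) k) :
    (h40_dmat A B).trace = TrivSqZeroExt.inl A.trace + TrivSqZeroExt.inr B.trace := by
  ext
  · simp [Matrix.trace, Fin.sum_univ_two]
  · simp [Matrix.trace, Fin.sum_univ_two]

theorem h40_dmat_det (A B : Matrix (Fin 2) (Fin 2) k) :
    (h40_dmat A B).det =
      TrivSqZeroExt.inl A.det + TrivSqZeroExt.inr (B * A.adjugate).trace := by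
  ext
  · simp [Matrix.det_fin_two]
  · simp [Matrix.det_fin_two, Matrix.trace, Fin.sum_univ_two, Matrix.mul_apply,
      Matrix.adjugate_fin_two]
    ring

theorem h40_natCast_dual (n : ℕ) :
    ((n : ℕ) : DualNumber k) = TrivSqZeroExt.inl (n : k) := by
  ext <;> simp

theorem h40_two_dual : (2 : DualNumber k) = TrivSqZeroExt.inl (2 : k) := by
  have h := h40_natCast_dual (k := k) 2
  rwa [Nat.cast_ofNat, Nat.cast_ofNat] at h

/-- `p` lies in the maximal ideal of the dual numbers iff `p = 0` in `k`. -/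
theorem h40_natCast_mem_maximalIdeal_dual (n : ℕ) :
    ((n : ℕ) : DualNumber k) ∈ IsLocalRing.maximalIdeal (DualNumber k) ↔ (n : k) = 0 := by
  rw [IsLocalRing.mem_maximalIdeal, mem_nonunits_iff, TrivSqZeroExt.isUnit_iff_isUnit_fst,
    TrivSqZeroExt.fst_natCast, isUnit_iff_ne_zero, not_not]

end Dmat

section Unpack

variable {k : Type} [Field k] (rb : GQ →* Matrix (Fin 2) (Fin 2) k)
  (hrb : GaloisFactorsThroughFiniteLevel rb)
  (a : GQ → Matrix (Fin 2) (Fin 2) k) (ha : a ∈ h40_TanZ rb)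

theorem h40_tanRep_det (σ : GQ) :
    LinearMap.det ((h40_tanRep rb hrb a ha).ρ σ) =
      TrivSqZeroExt.inl (rb σ).det + TrivSqZeroExt.inr (a σ * (rb σ).adjugate).trace := by
  show LinearMap.det ((ofMat (h40_tanHom rb a ha) (h40_tanHom_matCont rb hrb a ha)).ρ σ) = _
  rw [h40_det_ofMat, h40_tanHom_apply, h40_tanMat, h40_dmat_det]

theorem h40_tanRep_charpoly (σ : GQ) :
    LinearMap.charpoly ((h40_tanRep rb hrb a ha).ρ σ) = (h40_dmat (rb σ) (a σ)).charpoly := by
  show LinearMap.charpoly ((ofMat (h40_tanHom rb a ha) (h40_tanHom_matCont rb hrb a ha)).ρ σ) = _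
  rw [h40_charpoly_ofMat, h40_tanHom_apply, h40_tanMat]

theorem h40_tanRep_eq_one_iff (σ : GQ) :
    (h40_tanRep rb hrb a ha).ρ σ = 1 ↔ rb σ = 1 ∧ a σ = 0 := by
  show (ofMat (h40_tanHom rb a ha) (h40_tanHom_matCont rb hrb a ha)).ρ σ = 1 ↔ _
  rw [h40_ofMat_ρ_eq_one_iff, h40_tanHom_apply, h40_tanMat, ← h40_dmat_one, h40_dmat_eq_iff]

/-- **(U-det)** A tangent lift with cyclotomic determinant: `p = 0` in `k`, the residual
determinant is the mod `p` cyclotomic character, and `a σ * (rb σ)⁻¹` has trace zero. -/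
theorem h40_unpack_det {p : ℕ} [Fact p.Prime]
    (h : (h40_tanRep rb hrb a ha).DetIsCyclotomic p) :
    (p : k) = 0 ∧
    (∀ (σ : GQ) (e : ℕ), (∀ μ : AlgebraicClosure ℚ, μ ^ p = 1 → σ μ = μ ^ e) →
      (rb σ).det = (e : k)) ∧
    ∀ σ : GQ, (a σ * (rb σ).adjugate).trace = 0 := by
  have hp0 : (p : k) = 0 := (h40_natCast_mem_maximalIdeal_dual p).mp h.1
  have key : ∀ (σ : GQ) (e : ℕ), (∀ μ : AlgebraicClosure ℚ, μ ^ p = 1 → σ μ = μ ^ e) →
      (rb σ).det = (e : k) ∧ (a σ * (rb σ).adjugate).trace = 0 := by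
    intro σ e he
    have h1 := h.2 1 σ e (by simpa using he)
    rw [h40_tanRep_det, pow_one, h40_natCast_dual, hp0, TrivSqZeroExt.inl_zero,
      Ideal.span_singleton_zero, Ideal.mem_bot, h40_natCast_dual, sub_eq_zero] at h1
    have h2 := congrArg TrivSqZeroExt.fst h1
    have h3 := congrArg TrivSqZeroExt.snd h1
    simp only [TrivSqZeroExt.fst_add, TrivSqZeroExt.fst_inl, TrivSqZeroExt.fst_inr, add_zero,
      TrivSqZeroExt.snd_add, TrivSqZeroExt.snd_inl, TrivSqZeroExt.snd_inr, zero_add] at h2 h3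
    exact ⟨h2, h3⟩
  refine ⟨hp0, fun σ e he => (key σ e he).1, fun σ => ?_⟩
  obtain ⟨e, he⟩ := h40_exists_cyclo_exp p σ 1
  exact (key σ e (by simpa using he)).2

/-- **(U-unr)** A tangent lift is unramified at `q` iff `rb` is and `a` vanishes on inertia. -/
theorem h40_unpack_unr (q : ℕ) :
    (h40_tanRep rb hrb a ha).IsUnramifiedAt q ↔
      ∀ P : ValuationSubring (AlgebraicClosure ℚ), P.LiesOverPrime q →
        ∀ σ ∈ P.inertiaSubgroupIn ℚ, rb σ = 1 ∧ a σ = 0 := by
  constructor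
  · intro h P hP σ hσ
    exact (h40_tanRep_eq_one_iff rb hrb a ha σ).mp (h P hP σ hσ)
  · intro h P hP σ hσ
    exact (h40_tanRep_eq_one_iff rb hrb a ha σ).mpr (h P hP σ hσ)

/-- A `2 × 2` matrix over a nontrivial commutative ring has characteristic polynomial
`(X - 1) ^ 2` iff its trace is `2` and its determinant is `1`. -/
theorem h40_charpoly_eq_iff {R : Type} [CommRing R] [Nontrivial R]
    (M : Matrix (Fin 2) (Fin 2) R) :
    M.charpoly = (X - 1) ^ 2 ↔ M.trace = 2 ∧ M.det = 1 := by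
  rw [Matrix.charpoly_fin_two]
  constructor
  · intro h
    have h0 := congrArg (fun f : R[X] => f.coeff 0) h
    have h1 := congrArg (fun f : R[X] => f.coeff 1) h
    have e : ((X : R[X]) - 1) ^ 2 = X ^ 2 - C 2 * X + C 1 := by
      rw [map_ofNat, map_one]
      ring
    rw [e] at h0 h1
    simp only [coeff_add, coeff_sub, coeff_X_pow, coeff_C_mul, coeff_X_zero,
      coeff_X_one, coeff_C] at h0 h1
    norm_num at h0 h1
    exact ⟨h1, h0⟩
  · rintro ⟨h1, h2⟩
    rw [h1, h2, map_ofNat, map_one]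
    ring

/-- **(U-unip)** A tangent lift is unipotent on inertia at `q` iff `rb` is, and on inertia
`a σ` and `a σ * (rb σ)⁻¹` have trace zero. -/
theorem h40_unpack_unip (q : ℕ) :
    (h40_tanRep rb hrb a ha).IsUnipotentOnInertiaAt q ↔
      ∀ P : ValuationSubring (AlgebraicClosure ℚ), P.LiesOverPrime q →
        ∀ σ ∈ P.inertiaSubgroupIn ℚ, ((rb σ).trace = 2 ∧ (rb σ).det = 1) ∧
          (a σ).trace = 0 ∧ (a σ * (rb σ).adjugate).trace = 0 := by
  have key : ∀ σ : GQ, LinearMap.charpoly ((h40_tanRep rb hrb a ha).ρ σ) = (X - 1) ^ 2 ↔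
      ((rb σ).trace = 2 ∧ (rb σ).det = 1) ∧
          (a σ).trace = 0 ∧ (a σ * (rb σ).adjugate).trace = 0 := by
    intro σ
    rw [h40_tanRep_charpoly, h40_charpoly_eq_iff, h40_dmat_trace, h40_dmat_det, h40_two_dual]
    constructor
    · rintro ⟨h1, h2⟩
      have h1a := congrArg TrivSqZeroExt.fst h1
      have h1b := congrArg TrivSqZeroExt.snd h1
      have h2a := congrArg TrivSqZeroExt.fst h2
      have h2b := congrArg TrivSqZeroExt.snd h2
      simp only [TrivSqZeroExt.fst_add, TrivSqZeroExt.fst_inl, TrivSqZeroExt.fst_inr, add_zero,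
        TrivSqZeroExt.snd_add, TrivSqZeroExt.snd_inl, TrivSqZeroExt.snd_inr, zero_add,
        TrivSqZeroExt.fst_one, TrivSqZeroExt.snd_one] at h1a h1b h2a h2b
      exact ⟨⟨h1a, h2a⟩, h1b, h2b⟩
    · rintro ⟨⟨h1a, h2a⟩, h1b, h2b⟩
      rw [h1a, h2a, h1b, h2b]
      constructor
      · ext <;> simp
      · ext <;> simp
  constructor
  · intro h P hP σ hσ
    exact (key σ).mp (h P hP σ hσ)
  · intro h P hP σ hσ
    exact (key σ).mpr (h P hP σ hσ)

theorem h40_charpoly_rb_of_unip (σ : GQ) (h : (rb σ).trace = 2 ∧ (rb σ).det = 1) :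
    (rb σ).charpoly = (X - 1) ^ 2 :=
  (h40_charpoly_eq_iff (rb σ)).mpr h

end Unpack

end Fermat.Agent.S56
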