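import Fermat.Agent.S56.h12_MidDefs
import Fermat.Agent.S56.h78_W3Defs
import Fermat.Agent.S56.h40_Unpack
import Fermat.Agent.S55.h6_LocalLevels

/-!
# S56 / W3-ADAPT (helper12): the global flat bound from the local flat bound

* `h12_ptMap_injective` / `h12_ptMap_surjective` : for a finite `ℤ_(p)`-algebra `H`, the points
  of `H` in `ℚ̄` and in `ℚ̄_p` correspond (composition with `padicEmbedding p`);
* `h12_locFlat_of_isFlatAt` : the frozen `IsFlatAt p` of a tangent lift `h40_tanRep rb a`
  gives the local form `h78_LocFlat` of the W3 skeleton for the restrictions of `rb`, `a` to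
  the local Galois group;
* `h12_R3_flat_of` : the statement `h12_R3_flat` of the MID skeleton (rank bound
  `≤ h⁰(G_p, ad⁰) + 1` for flat tangent subspaces meeting the local coboundaries trivially)
  from the statement of `sk_flat_local_bound` (W3 FINAL), taken as a hypothesis.
-/

set_option autoImplicit false
set_option linter.style.haveILetI false

namespace Fermat.Agent.S56
open Fermat.Agent.S53 Fermat.Agent.S53.Dict ExtCitation WithConv

local notation "M₂[" k "]" => Matrix (Fin 2) (Fin 2) k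

section Points

variable (p : ℕ) [Fact p.Prime]

/-- `padicEmbedding` as a `ℤ_(p)`-algebra hom. -/
noncomputable def h12_iota : AlgebraicClosure ℚ →ₐ[h78_Zp p] PadicAlgCl p :=
  { (padicEmbedding p).toRingHom with
    commutes' := fun z => (padicEmbedding p).commutes (z : ℚ) }

theorem h12_iota_apply (x : AlgebraicClosure ℚ) : h12_iota p x = padicEmbedding p x := rfl

theorem h12_iota_injective : Function.Injective (h12_iota p) :=
  (padicEmbedding p).toRingHom.injective

variable {H : Type} [CommRing H] [Algebra (h78_Zp p) H]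

/-- every point of a finite `ℤ_(p)`-algebra with values in `ℚ̄_p` has algebraic values. -/
theorem h12_point_mem_range [Module.Finite (h78_Zp p) H] (g : H →ₐ[h78_Zp p] PadicAlgCl p)
    (h : H) : ∃ y : AlgebraicClosure ℚ, h12_iota p y = g h := by
  have h1 : IsIntegral (h78_Zp p) h := Algebra.IsIntegral.isIntegral h
  have h2 : IsIntegral (h78_Zp p) (g h) := h1.map g
  have h3 : IsIntegral ℚ (g h) := by
    obtain ⟨P, hP, hPe⟩ := h2
    refine ⟨P.map (algebraMap (h78_Zp p) ℚ), hP.map _, ?_⟩
    rw [Polynomial.eval₂_map]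
    exact hPe
  exact (Fermat.Agent.S55.h6_mem_range_padicEmbedding_iff p (g h)).mpr h3.isAlgebraic

/-- transport of points `ℚ̄ → ℚ̄_p`. -/
noncomputable def h12_ptMap (f : H →ₐ[h78_Zp p] AlgebraicClosure ℚ) : H →ₐ[h78_Zp p] PadicAlgCl p :=
  (h12_iota p).comp f

theorem h12_ptMap_injective : Function.Injective (h12_ptMap p (H := H)) := by
  intro f g hfg
  ext h
  exact h12_iota_injective p (by simpa [h12_ptMap] using congrArg (fun φ => φ h) hfg)

theorem h12_ptMap_surjective [Module.Finite (h78_Zp p) H] :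
    Function.Surjective (h12_ptMap p (H := H)) := by
  intro g
  choose y hy using h12_point_mem_range p g
  have hinj := h12_iota_injective p
  refine ⟨{ toFun := y
            map_one' := hinj (by rw [hy, map_one, map_one])
            map_mul' := fun a b => hinj (by rw [hy, map_mul, map_mul, hy, hy])
            map_zero' := hinj (by rw [hy, map_zero, map_zero])
            map_add' := fun a b => hinj (by rw [hy, map_add, map_add, hy, hy])
            commutes' := fun z => hinj (by rw [hy, AlgHom.commutes, AlgHom.commutes]) }, ?_⟩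
  ext h
  exact hy h

end Points

section Theta

variable {k : Type} [Field k]

/-- `k[ε]² ≃ k² × k²`, `v + ε w ↦ (v, w)`. -/
def h12_theta : (Fin 2 → DualNumber k) ≃ (Fin 2 → k) × (Fin 2 → k) where
  toFun v := (fun i => TrivSqZeroExt.fst (v i), fun i => TrivSqZeroExt.snd (v i))
  invFun w := fun i => TrivSqZeroExt.inl (w.1 i) + TrivSqZeroExt.inr (w.2 i)
  left_inv v := by
    funext i
    exact TrivSqZeroExt.inl_fst_add_inr_snd_eq (v i)
  right_inv w := by
    ext i <;> simp

theorem h12_theta_add (v w : Fin 2 → DualNumber k) :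
    h12_theta (v + w) = h12_theta v + h12_theta w := by
  ext i <;> simp [h12_theta]

theorem h12_theta_mulVec (A B : M₂[k]) (v : Fin 2 → DualNumber k) :
    h12_theta ((h40_dmat A B).mulVec v) =
      (A.mulVec (h12_theta v).1, B.mulVec (h12_theta v).1 + A.mulVec (h12_theta v).2) := by
  ext i
  · show TrivSqZeroExt.fst (∑ j, h40_dmat A B i j * v j) =
      ∑ j, A i j * TrivSqZeroExt.fst (v j)
    simp [Fin.sum_univ_two]
  · show TrivSqZeroExt.snd (∑ j, h40_dmat A B i j * v j) =
      (∑ j, B i j * TrivSqZeroExt.fst (v j)) + ∑ j, A i j * TrivSqZeroExt.snd (v j)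
    simp [Fin.sum_univ_two]
    ring

end Theta

section LocFlat

variable (p : ℕ) [Fact p.Prime] {k : Type} [Field k]

variable (rb : GQ →* M₂[k]) (hrb : GaloisFactorsThroughFiniteLevel rb)
  (a : GQ → M₂[k]) (ha : a ∈ h40_TanZ rb)

/-- `V / (⊥ • ⊤) ≃ k² × k²` for the tangent lift. -/
noncomputable def h12_psi :
    ((h40_tanRep rb hrb a ha).V ⧸ ((⊥ : Ideal (DualNumber k)) •
      (⊤ : Submodule (DualNumber k) (h40_tanRep rb hrb a ha).V))) ≃
      (Fin 2 → k) × (Fin 2 → k) :=
  (Submodule.quotEquivOfEqBot _ (Submodule.bot_smul ⊤)).toEquiv.trans (h12_theta (k := k))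

theorem h12_psi_mk (v : Fin 2 → DualNumber k) :
    h12_psi rb hrb a ha (Submodule.Quotient.mk v) = h12_theta v := rfl

theorem h12_psi_add (x y : (h40_tanRep rb hrb a ha).V ⧸ ((⊥ : Ideal (DualNumber k)) •
      (⊤ : Submodule (DualNumber k) (h40_tanRep rb hrb a ha).V))) :
    h12_psi rb hrb a ha (x + y) = h12_psi rb hrb a ha x + h12_psi rb hrb a ha y := by
  induction x using Submodule.Quotient.induction_on with
  | _ v =>
    induction y using Submodule.Quotient.induction_on with
    | _ w =>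
      rw [← Submodule.Quotient.mk_add]
      exact h12_theta_add v w

theorem h12_psi_levelAction (σ : GQ)
    (x : (h40_tanRep rb hrb a ha).V ⧸ ((⊥ : Ideal (DualNumber k)) •
      (⊤ : Submodule (DualNumber k) (h40_tanRep rb hrb a ha).V))) :
    h12_psi rb hrb a ha ((h40_tanRep rb hrb a ha).levelAction ⊥ σ x) =
      ((rb σ).mulVec (h12_psi rb hrb a ha x).1,
        (a σ).mulVec (h12_psi rb hrb a ha x).1 + (rb σ).mulVec (h12_psi rb hrb a ha x).2) := by
  induction x using Submodule.Quotient.induction_on with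
  | _ v =>
    have h1 : (h40_tanRep rb hrb a ha).levelAction ⊥ σ (Submodule.Quotient.mk v) =
        Submodule.Quotient.mk ((h40_dmat (rb σ) (a σ)).mulVec v) := rfl
    rw [h1]
    exact h12_theta_mulVec (rb σ) (a σ) v

theorem h12_locFlat_of_isFlatAt [Finite k] (hfl : (h40_tanRep rb hrb a ha).IsFlatAt p) :
    h78_LocFlat p (fun s => rb (localGaloisToGlobal p s))
      (fun s => a (localGaloisToGlobal p s)) := by
  haveI : Finite (DualNumber k) := inferInstanceAs (Finite (k × k))
  have hfinq : Finite (DualNumber k ⧸ (⊥ : Ideal (DualNumber k))) :=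
    Finite.of_surjective _ Ideal.Quotient.mk_surjective
  obtain ⟨H, _, _, hHfin, hHflat, hHcc, e, hadd, hgal⟩ := hfl.2 ⊥ hfinq
  let Φ : WithConv (H →ₐ[h78_Zp p] AlgebraicClosure ℚ) ≃
      WithConv (H →ₐ[h78_Zp p] PadicAlgCl p) :=
    Equiv.ofBijective (fun f => toConv (h12_ptMap p f.ofConv))
      ⟨fun f g hfg => by
        have := h12_ptMap_injective p (congrArg ofConv hfg)
        exact ofConv_injective this,
       fun g => by
        obtain ⟨f, hf⟩ := h12_ptMap_surjective p g.ofConv
        exact ⟨toConv f, by simp [hf]⟩⟩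
  have hΦ : ∀ f, (Φ f).ofConv = (h12_iota p).comp f.ofConv := fun f => rfl
  have hΦmul : ∀ f g, Φ (f * g) = Φ f * Φ g := by
    intro f g
    apply ofConv_injective
    rw [hΦ, AlgHom.comp_convMul_distrib]
    rfl
  refine ⟨H, inferInstance, inferInstance, hHfin, hHflat, hHcc,
    Φ.symm.trans (e.trans (h12_psi rb hrb a ha)), ?_, ?_⟩
  · intro F G
    obtain ⟨f, rfl⟩ := Φ.surjective F
    obtain ⟨g, rfl⟩ := Φ.surjective G
    rw [← hΦmul]
    simp only [Equiv.trans_apply, Equiv.symm_apply_apply]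
    rw [hadd, h12_psi_add]
  · intro σ F G hFG
    obtain ⟨f, rfl⟩ := Φ.surjective F
    obtain ⟨g, rfl⟩ := Φ.surjective G
    simp only [Equiv.trans_apply, Equiv.symm_apply_apply]
    have hfg : ∀ h : H, g h = localGaloisToGlobal p σ (f h) := by
      intro h
      apply h12_iota_injective p
      have h1 := hFG h
      have h2 : (Φ g) h = h12_iota p (g h) := rfl
      have h3 : (Φ f) h = h12_iota p (f h) := rfl
      rw [h2, h3] at h1
      rw [h1, h12_iota_apply, h12_iota_apply, padicEmbedding_localGaloisToGlobal]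
    rw [hgal (localGaloisToGlobal p σ) f g hfg, h12_psi_levelAction]
    rfl

end LocFlat

section Adapt

variable (p : ℕ) [Fact p.Prime] {k : Type} [Field k]

variable (rb : GQ →* M₂[k])

/-- the local determinant condition from the frozen `DetIsCyclotomic` of one tangent lift. -/
theorem h12_loc_det (hrb : GaloisFactorsThroughFiniteLevel rb)
    (a : GQ → M₂[k]) (ha : a ∈ h40_TanZ rb)
    (hdc : (h40_tanRep rb hrb a ha).DetIsCyclotomic p)
    (g : h78_G p) (ζ : PadicAlgCl p) (hζ : ζ ^ p = 1) :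
    ∃ n : ℕ, g ζ = ζ ^ n ∧ (rb (localGaloisToGlobal p g)).det = (n : k) := by
  obtain ⟨e, he⟩ := h40_exists_cyclo_exp p (localGaloisToGlobal p g) 1
  have halg : IsAlgebraic ℚ ζ := by
    refine ⟨Polynomial.X ^ p - 1, ?_, by simp [hζ]⟩
    exact (Polynomial.monic_X_pow_sub_C (1 : ℚ) (Fact.out : p.Prime).ne_zero).ne_zero
  obtain ⟨μ, rfl⟩ := (Fermat.Agent.S55.h6_mem_range_padicEmbedding_iff p ζ).mpr halg
  have hμ : μ ^ p = 1 := by
    apply (padicEmbedding p).toRingHom.injective
    simpa using hζ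
  refine ⟨e, ?_, (h40_unpack_det rb hrb a ha hdc).2.1 _ e fun ν hν => he ν (by simpa using hν)⟩
  rw [← padicEmbedding_localGaloisToGlobal, he μ (by simpa using hμ), map_pow]

/-- `tr (a σ * adj (rb σ)) = 0` gives `tr (a σ * rb σ⁻¹) = 0`. -/
theorem h12_trace_inv_of_adjugate (a : GQ → M₂[k]) (σ : GQ)
    (h : (a σ * (rb σ).adjugate).trace = 0) : (a σ * rb σ⁻¹).trace = 0 := by
  have h1 : rb σ * rb σ⁻¹ = 1 := by rw [← map_mul, mul_inv_cancel, map_one]
  have h2 : (rb σ).adjugate = (rb σ).det • rb σ⁻¹ := by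
    calc (rb σ).adjugate = (rb σ).adjugate * (rb σ * rb σ⁻¹) := by rw [h1, mul_one]
      _ = ((rb σ).adjugate * rb σ) * rb σ⁻¹ := by rw [mul_assoc]
      _ = (rb σ).det • rb σ⁻¹ := by rw [Matrix.adjugate_mul, Matrix.smul_mul, one_mul]
  have h3 : (rb σ).det ≠ 0 := by
    intro h0
    have := congrArg Matrix.det h1
    rw [Matrix.det_mul, h0, zero_mul, Matrix.det_one] at this
    exact zero_ne_one this
  rw [h2, Matrix.mul_smul, Matrix.trace_smul, smul_eq_mul] at h
  exact (mul_eq_zero.mp h).resolve_left h3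

/-- **W3-ADAPT**: the global flat bound `h12_R3_flat` (skeleton shape) from the local flat bound
`sk_flat_local_bound` of the W3 skeleton, taken as the hypothesis `hloc`. -/
theorem h12_R3_flat_of [Finite k]
    (hloc : ∀ (rbl : h78_G p →* M₂[k]),
      (∀ (g : h78_G p) (ζ : PadicAlgCl p), ζ ^ p = 1 →
        ∃ n : ℕ, g ζ = ζ ^ n ∧ (rbl g).det = (n : k)) →
      ∀ W : Submodule k (h78_G p → M₂[k]),
      (∀ a ∈ W, ∀ s t, a (s * t) = a s * rbl t + rbl s * a t) →
      (∀ a ∈ W, ∀ s, (a s * rbl s⁻¹).trace = 0) →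
      (∀ a ∈ W, a ≠ 0 → h78_LocFlat p rbl a) →
      (∀ a ∈ W, (∃ X : M₂[k], ∀ s, a s = X * rbl s - rbl s * X) → a = 0) →
      Module.finrank k W ≤ Module.finrank k (h78_H0 p rbl) + 1)
    (hrb : GaloisFactorsThroughFiniteLevel rb)
    (W' : Submodule k (GQ → M₂[k])) (hW' : W' ≤ h40_TanZ rb)
    (hD : ∀ (a : GQ → M₂[k]) (ha : a ∈ W'), a ≠ 0 →
      (h40_tanRep rb hrb a (hW' ha)).DetIsCyclotomic p ∧
      (h40_tanRep rb hrb a (hW' ha)).IsFlatAt p)
    (h0 : ∀ a ∈ W', h12_LocCobM rb (pPrime p) a → a = 0) :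
    Module.rank k W' ≤ ((Module.finrank k (h12_H0M rb (pPrime p)) + 1 : ℕ) : Cardinal) := by
  classical
  let rbl : h78_G p →* M₂[k] := rb.comp (localGaloisToGlobal p)
  let res : (GQ → M₂[k]) →ₗ[k] (h78_G p → M₂[k]) :=
    LinearMap.funLeft k M₂[k] (localGaloisToGlobal p)
  have hres : ∀ a s, res a s = a (localGaloisToGlobal p s) := fun _ _ => rfl
  have hH0 : h78_H0 p rbl = h12_H0M rb (pPrime p) := by
    ext X
    constructor
    · rintro ⟨h1, h2⟩
      exact ⟨h1, fun τ => (h2 τ).symm⟩
    · rintro ⟨h1, h2⟩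
      exact ⟨h1, fun s => (h2 s).symm⟩
  -- the bound for finite-dimensional subspaces
  have key : ∀ W'' : Submodule k (GQ → M₂[k]), W'' ≤ W' → Module.Finite k W'' →
      Module.finrank k W'' ≤ Module.finrank k (h12_H0M rb (pPrime p)) + 1 := by
    intro W'' hW'' hfin
    by_cases hbot : W'' = ⊥
    · subst hbot
      simp
    obtain ⟨a₀, ha₀, ha₀0⟩ := (Submodule.ne_bot_iff W'').mp hbot
    have hdc := (hD a₀ (hW'' ha₀) ha₀0).1
    have hinj : ∀ a ∈ W'', res a = 0 → a = 0 := by
      intro a ha h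
      refine h0 a (hW'' ha) ⟨0, fun τ => ?_⟩
      have := congrFun h τ
      rw [zero_mul, mul_zero, sub_zero]
      exact this
    have hfr : Module.finrank k ↥(W''.map res) = Module.finrank k W'' := by
      rw [← LinearMap.range_domRestrict]
      apply LinearMap.finrank_range_of_inj
      intro x y hxy
      have h1 : res ((x : GQ → M₂[k]) - (y : GQ → M₂[k])) = 0 := by
        rw [map_sub]
        exact sub_eq_zero.mpr hxy
      have h2 := hinj _ (W''.sub_mem x.2 y.2) h1
      exact Subtype.ext (sub_eq_zero.mp h2)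
    have hb := hloc rbl (fun g ζ hζ => h12_loc_det p rb hrb a₀ (hW' (hW'' ha₀)) hdc g ζ hζ)
      (W''.map res) ?_ ?_ ?_ ?_
    · rw [hfr, hH0] at hb
      exact hb
    · rintro _ ⟨a, ha, rfl⟩ s t
      show a (localGaloisToGlobal p (s * t)) = _
      rw [map_mul, (hW' (hW'' ha)).1]
      rfl
    · rintro _ ⟨a, ha, rfl⟩ s
      show (a (localGaloisToGlobal p s) * rb (localGaloisToGlobal p s⁻¹)).trace = 0
      by_cases hne : a = 0
      · rw [hne, Pi.zero_apply, zero_mul, Matrix.trace_zero]
      · rw [map_inv]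
        exact h12_trace_inv_of_adjugate rb a _
          ((h40_unpack_det rb hrb a (hW' (hW'' ha)) (hD a (hW'' ha) hne).1).2.2 _)
    · rintro _ ⟨a, ha, rfl⟩ hne
      have hne' : a ≠ 0 := fun h => hne (by rw [h, map_zero])
      exact h12_locFlat_of_isFlatAt p rb hrb a (hW' (hW'' ha)) (hD a (hW'' ha) hne').2
    · rintro _ ⟨a, ha, rfl⟩ ⟨X, hX⟩
      have : a = 0 := h0 a (hW'' ha) ⟨X, fun τ => hX τ⟩
      rw [this, map_zero]
  -- from finite-dimensional subspaces to the rank
  apply rank_le
  intro s hs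
  have hli : LinearIndependent k (fun i : s => (((i : ↥W') : GQ → M₂[k]))) :=
    hs.map' W'.subtype (Submodule.ker_subtype W')
  have hcard := finrank_span_eq_card hli
  rw [Fintype.card_coe] at hcard
  rw [← hcard]
  refine key _ ?_ ?_
  · rw [Submodule.span_le]
    rintro _ ⟨i, rfl⟩
    exact (i : ↥W').2
  · exact Module.Finite.span_of_finite k (Set.finite_range _)

end Adapt

end Fermat.Agent.S56
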