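import Fermat.Agent.S56.h12_MidCup

/-!
# S56 / MID-COUNT (helper12): the Selmer count

`h12_count_of`: `rank_k W ≤ r = dim_k H¹(G_{S₀}, ad⁰(1))` for every subspace `W` of tangent
cocycles of the given type, from

* the local bounds at the primes of `S₀` (`h12_LocBound`, rows W2 / W3),
* the bound for the everywhere locally trivial classes at `S₀` (`h12_ShaBound`, row MID-R1),
* reciprocity (row MID-RECIP), the tame lemma (row MID-TAME) and the level lemma
  (row MID-UNRLEVEL), taken here as hypotheses in the exact shape of the skeleton rows.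
-/

set_option autoImplicit false

namespace Fermat.Agent.S56

open Fermat.Agent.S53 Fermat.Agent.S53.Dict ExtCitation groupCohomology

local notation "M₂[" k "]" => Matrix (Fin 2) (Fin 2) k

section LinAlg

variable {k : Type} [Field k] {V : Type} [AddCommGroup V] [Module k V]

/-- If every subspace of `W` meeting `T` trivially has rank `≤ c`, then
`rank W ≤ rank (W ⊓ T) + c`. -/
theorem h12_rank_le_inf_add (W T : Submodule k V) (c : ℕ)
    (h : ∀ W' : Submodule k V, W' ≤ W → (∀ a ∈ W', a ∈ T → a = 0) →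
      Module.rank k W' ≤ (c : Cardinal)) :
    Module.rank k W ≤ Module.rank k ↥(W ⊓ T) + (c : Cardinal) := by
  obtain ⟨Q, hQ⟩ := Submodule.exists_isCompl (W ⊓ T)
  have h1 : Module.rank k ↥(W ⊓ Q) ≤ (c : Cardinal) := by
    refine h (W ⊓ Q) inf_le_left fun a ha haT => ?_
    have : a ∈ (W ⊓ T) ⊓ Q := ⟨⟨ha.1, haT⟩, ha.2⟩
    rw [hQ.inf_eq_bot] at this
    exact (Submodule.mem_bot k).mp this
  have h2 : W = (W ⊓ T) ⊔ (W ⊓ Q) := by
    rw [sup_comm, inf_sup_assoc_of_le Q (inf_le_left : W ⊓ T ≤ W), sup_comm, hQ.sup_eq_top,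
      inf_top_eq]
  have h3 := Submodule.rank_sup_add_rank_inf_eq (W ⊓ T) (W ⊓ Q)
  calc Module.rank k W = Module.rank k ↥((W ⊓ T) ⊔ (W ⊓ Q)) := by rw [← h2]
    _ ≤ Module.rank k ↥((W ⊓ T) ⊔ (W ⊓ Q)) + Module.rank k ↥((W ⊓ T) ⊓ (W ⊓ Q)) :=
        le_self_add
    _ = Module.rank k ↥(W ⊓ T) + Module.rank k ↥(W ⊓ Q) := h3
    _ ≤ Module.rank k ↥(W ⊓ T) + (c : Cardinal) := by gcongr

/-- Iterated form over a finite family of conditions. -/
theorem h12_rank_le_finsetInf_add {ι : Type} [DecidableEq ι] (W : Submodule k V)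
    (T : ι → Submodule k V) (c : ι → ℕ) (s : Finset ι)
    (h : ∀ v ∈ s, ∀ W' : Submodule k V, W' ≤ W → (∀ a ∈ W', a ∈ T v → a = 0) →
      Module.rank k W' ≤ (c v : Cardinal)) :
    Module.rank k W ≤ Module.rank k ↥(W ⊓ s.inf T) + ((∑ v ∈ s, c v : ℕ) : Cardinal) := by
  induction s using Finset.induction_on with
  | empty =>
    rw [Finset.inf_empty, inf_top_eq, Finset.sum_empty, Nat.cast_zero, add_zero]
  | insert v s hv ih =>
    have ih' := ih fun w hw => h w (Finset.mem_insert_of_mem hw)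
    have hstep := h12_rank_le_inf_add (W ⊓ s.inf T) (T v) (c v)
      (fun W' hW' h0 => h v (Finset.mem_insert_self v s) W' (hW'.trans inf_le_left) h0)
    have e : W ⊓ s.inf T ⊓ T v = W ⊓ (insert v s).inf T := by
      rw [Finset.inf_insert, inf_assoc, inf_comm (s.inf T) (T v)]
    rw [e] at hstep
    rw [Finset.sum_insert hv, Nat.cast_add]
    calc Module.rank k W ≤ Module.rank k ↥(W ⊓ s.inf T) + ((∑ v ∈ s, c v : ℕ) : Cardinal) := ih'
      _ ≤ (Module.rank k ↥(W ⊓ (insert v s).inf T) + (c v : Cardinal)) +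
          ((∑ v ∈ s, c v : ℕ) : Cardinal) := by gcongr
      _ = Module.rank k ↥(W ⊓ (insert v s).inf T) +
          ((c v : Cardinal) + ((∑ v ∈ s, c v : ℕ) : Cardinal)) := by rw [add_assoc]

end LinAlg

section Count

variable {k : Type} [Field k] (p : ℕ) [Fact p.Prime] [Algebra (ZMod p) k]
variable (rb : GQ →* M₂[k])

/-- The tangent cocycles which are coboundaries on the decomposition group at `v`. -/
def h12_TM (v : Nat.Primes) : Submodule k (GQ → M₂[k]) where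
  carrier := {a | h12_LocCobM rb v a}
  add_mem' := by
    rintro a b ⟨X, hX⟩ ⟨X', hX'⟩
    refine ⟨X + X', fun τ => ?_⟩
    rw [Pi.add_apply, hX, hX', Matrix.add_mul, Matrix.mul_add]
    abel
  zero_mem' := ⟨0, fun τ => by simp⟩
  smul_mem' := by
    rintro c a ⟨X, hX⟩
    refine ⟨c • X, fun τ => ?_⟩
    rw [Pi.smul_apply, hX, smul_sub, Matrix.smul_mul, Matrix.mul_smul]

theorem h12_mem_TM (v : Nat.Primes) (a : GQ → M₂[k]) : a ∈ h12_TM rb v ↔ h12_LocCobM rb v a :=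
  Iff.rfl

theorem h12_ZN_mono {S S' : Finset Nat.Primes} (h : S ⊆ S') : h12_ZN rb S ≤ h12_ZN rb S' := by
  rintro ψ ⟨h1, h2, F, hF, h3⟩
  exact ⟨h1, h2, F, hF.mono h, h3⟩

theorem h12_LocCobN_smul (q : Nat.Primes) (c : k) (ψ : GQ → M₂[k]) (h : h12_LocCobN rb q ψ) :
    h12_LocCobN rb q (c • ψ) := by
  obtain ⟨Y, hY, h⟩ := h
  refine ⟨c • Y, by rw [Matrix.trace_smul, hY, smul_zero], fun τ => ?_⟩
  rw [Pi.smul_apply, h, h12_act_smul, smul_sub]

/-- **The Selmer count** (row MID-COUNT), with the rows RECIP, TAME, UNRLEVEL as hypotheses. -/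
theorem h12_count_of (hdet : h12_DetCyc p rb) (hrb : GaloisFactorsThroughFiniteLevel rb)
    (S₀ : Finset Nat.Primes) (hpS₀ : pPrime p ∈ S₀)
    (qv : Fin (h12_rN rb S₀) → Nat.Primes)
    (ψs : Fin (h12_rN rb S₀) → GQ → M₂[k])
    (hψs : ∀ i, ψs i ∈ h12_ZN rb S₀ ∧ ∀ j, j ≠ i → h12_LocCobN rb (qv j) (ψs i))
    (hRECIP : ∀ z : GQ × GQ → ZMod p, h12_IsCocycle₂ p z →
      IsLevelConstantS₂ (S₀ ∪ Finset.univ.image qv) z →
      ∀ q₀ ∈ S₀ ∪ Finset.univ.image qv,
        (∀ q ∈ S₀ ∪ Finset.univ.image qv, q ≠ q₀ → h12_LocCob₂ p q z) → h12_LocCob₂ p q₀ z)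
    (hTAME : ∀ (i : Fin (h12_rN rb S₀)) (a : GQ → M₂[k]), a ∈ h40_TanZ rb →
      (∀ σ, (a σ * (rb σ).adjugate).trace = 0) →
      (∀ c : k, h12_LocCob₂ p (qv i) (h12_cup p rb a (c • ψs i))) →
      h12_InertiaTriv rb a (qv i : ℕ))
    (hUNRL : ∀ a ∈ h40_TanZ rb, h12_UnrOutside rb a (S₀ ∪ Finset.univ.image qv) →
      (∀ q ∈ S₀ ∪ Finset.univ.image qv, q ∉ S₀ → h12_InertiaTriv rb a (q : ℕ)) →
      h12_UnrOutside rb a S₀)
    (W : Submodule k (GQ → M₂[k])) (hW : W ≤ h40_TanZ rb)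
    (hW0 : ∀ a ∈ W, h40_IsCob rb a → a = 0)
    (hunr : ∀ a ∈ W, h12_UnrOutside rb a (S₀ ∪ Finset.univ.image qv))
    (htr : ∀ a ∈ W, ∀ σ, (a σ * (rb σ).adjugate).trace = 0)
    (hloc : ∀ v ∈ S₀, h12_LocBound rb v W
      (Module.finrank k (h12_H0M rb v) + (if v = pPrime p then 1 else 0)))
    (hR1 : h12_ShaBound rb S₀) :
    Module.rank k W ≤ (h12_rN rb S₀ : Cardinal) := by
  classical
  -- step A: peel off the local conditions
  have hA := h12_rank_le_finsetInf_add W (h12_TM rb)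
    (fun v => Module.finrank k (h12_H0M rb v) + (if v = pPrime p then 1 else 0)) S₀
    (fun v hv W' hW' h0 => hloc v hv W' hW' h0)
  have hsum : (∑ v ∈ S₀, (Module.finrank k (h12_H0M rb v) + (if v = pPrime p then 1 else 0))) =
      ∑ v ∈ S₀, Module.finrank k (h12_H0M rb v) + 1 := by
    rw [Finset.sum_add_distrib, Finset.sum_ite_eq' S₀ (pPrime p) (fun _ => 1), if_pos hpS₀]
  rw [hsum] at hA
  -- step B: the everywhere locally trivial part
  have hB : Module.rank k ↥(W ⊓ S₀.inf (h12_TM rb)) +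
      ((∑ v ∈ S₀, Module.finrank k (h12_H0M rb v) + 1 : ℕ) : Cardinal) ≤
      (h12_rN rb S₀ : Cardinal) := by
    refine hR1 (W ⊓ S₀.inf (h12_TM rb)) (inf_le_left.trans hW) (fun a ha => ?_)
      (fun a ha => hW0 a ha.1)
    have haW : a ∈ W := ha.1
    have haT : ∀ v ∈ S₀, h12_LocCobM rb v a := fun v hv => Submodule.mem_finsetInf.mp ha.2 v hv
    refine ⟨?_, htr a haW, haT⟩
    refine hUNRL a (hW haW) (hunr a haW) fun q hq hqS₀ => ?_
    obtain ⟨i, rfl⟩ : ∃ i, qv i = q := by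
      rcases Finset.mem_union.mp hq with h | h
      · exact absurd h hqS₀
      · obtain ⟨i, -, hi⟩ := Finset.mem_image.mp h
        exact ⟨i, hi⟩
    refine hTAME i a (hW haW) (htr a haW) fun c => ?_
    have hcψ : c • ψs i ∈ h12_ZN rb (S₀ ∪ Finset.univ.image qv) :=
      h12_ZN_mono rb Finset.subset_union_left ((h12_ZN rb S₀).smul_mem c (hψs i).1)
    refine hRECIP _ (h12_cup_cocycle p rb hdet a (hW haW) _ hcψ.2.1)
      (h12_cup_level p rb _ a (hW haW) (hunr a haW) _ hcψ) (qv i) hq fun q' hq' hne => ?_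
    rcases Finset.mem_union.mp hq' with h | h
    · exact h12_cup_locCobM p rb hdet _ q' a (hW haW) _ hcψ (haT q' h)
    · obtain ⟨j, -, rfl⟩ := Finset.mem_image.mp h
      have hji : j ≠ i := fun hji => hne (by rw [hji])
      exact h12_cup_locCobN p rb hdet hrb _ (qv j) a (hW haW) _ hcψ
        (h12_LocCobN_smul rb (qv j) c (ψs i) ((hψs i).2 j hji))
  exact hA.trans hB

end Count

end Fermat.Agent.S56
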