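import Fermat.Agent.S56.h12_MidDefs

/-!
# S56 / MID-CUP (helper12): the cup product `a ∪ ψ` of a tangent cocycle and an `ad⁰(1)`-cocycle

* `h12_cup_cocycle` : `a ∪ ψ` is a (twisted) 2-cocycle with values in `𝔽_p(1)`;
* `h12_cup_level`   : it is `S`-level constant;
* `h12_cup_locCobM` : it is a local coboundary at `q` if `a` is;
* `h12_cup_locCobN` : it is a local coboundary at `q` if `ψ` is.
-/

set_option autoImplicit false

namespace Fermat.Agent.S56

open Fermat.Agent.S53 Fermat.Agent.S53.Dict ExtCitation groupCohomology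

local notation "M₂[" k "]" => Matrix (Fin 2) (Fin 2) k

section Cup

variable {k : Type} [Field k] (p : ℕ) [Fact p.Prime] [Algebra (ZMod p) k]
variable (rb : GQ →* M₂[k])

/-- The `𝔽_p`-valued trace form `T(M) = Tr_{k/𝔽_p} (tr M)`. -/
noncomputable def h12_T (A : M₂[k]) : ZMod p := Algebra.trace (ZMod p) k (Matrix.trace A)

theorem h12_T_add (A B : M₂[k]) : h12_T p (A + B) = h12_T p A + h12_T p B := by
  simp only [h12_T, Matrix.trace_add, map_add]

theorem h12_T_sub (A B : M₂[k]) : h12_T p (A - B) = h12_T p A - h12_T p B := by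
  simp only [h12_T, Matrix.trace_sub, map_sub]

theorem h12_T_neg (A : M₂[k]) : h12_T p (-A) = -h12_T p A := by
  simp only [h12_T, Matrix.trace_neg, map_neg]

theorem h12_T_zero : h12_T p (0 : M₂[k]) = 0 := by
  simp only [h12_T, Matrix.trace_zero, map_zero]

theorem h12_T_smul (c : ZMod p) (A : M₂[k]) :
    h12_T p (algebraMap (ZMod p) k c • A) = c * h12_T p A := by
  simp only [h12_T, Matrix.trace_smul]
  rw [smul_eq_mul, ← Algebra.smul_def, map_smul, smul_eq_mul]

theorem h12_T_mul_comm (A B : M₂[k]) : h12_T p (A * B) = h12_T p (B * A) := by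
  simp only [h12_T, Matrix.trace_mul_comm A B]

theorem h12_cup_apply (a ψ : GQ → M₂[k]) (σ τ : GQ) :
    h12_cup p rb a ψ (σ, τ) = h12_T p (a σ * ψ τ * (rb σ).adjugate) := rfl

/-- `T (rb σ * A * adjugate (rb σ)) = χ(σ) T(A)`. -/
theorem h12_T_conj (hdet : h12_DetCyc p rb) (σ : GQ) (A : M₂[k]) :
    h12_T p (rb σ * A * (rb σ).adjugate) = (cycloChar p σ : ZMod p) * h12_T p A := by
  rw [h12_T_mul_comm, ← mul_assoc, Matrix.adjugate_mul, hdet σ, Matrix.smul_mul, one_mul,
    h12_T_smul]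

theorem h12_cup_cocycle (hdet : h12_DetCyc p rb) (a : GQ → M₂[k]) (ha : a ∈ h40_TanZ rb)
    (ψ : GQ → M₂[k]) (hψ : ∀ σ τ, ψ (σ * τ) = ψ σ + h12_act (rb σ) (ψ τ)) :
    h12_IsCocycle₂ p (h12_cup p rb a ψ) := by
  intro σ τ υ
  simp only [h12_cup_apply]
  have e1 : a (σ * τ) * ψ υ * (rb (σ * τ)).adjugate =
      a σ * (rb τ * ψ υ * (rb τ).adjugate) * (rb σ).adjugate +
        rb σ * (a τ * ψ υ * (rb τ).adjugate) * (rb σ).adjugate := by
    rw [ha.1 σ τ, map_mul, Matrix.adjugate_mul_distrib]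
    simp only [Matrix.add_mul, Matrix.mul_assoc]
  have e2 : a σ * ψ (τ * υ) * (rb σ).adjugate =
      a σ * ψ τ * (rb σ).adjugate +
        a σ * (rb τ * ψ υ * (rb τ).adjugate) * (rb σ).adjugate := by
    rw [hψ τ υ, h12_act]
    simp only [Matrix.mul_add, Matrix.add_mul]
  rw [e1, e2, h12_T_add, h12_T_add, h12_T_conj p rb hdet σ]
  ring

theorem h12_cup_level (S : Finset Nat.Primes) (a : GQ → M₂[k]) (ha : a ∈ h40_TanZ rb)
    (hunr : h12_UnrOutside rb a S) (ψ : GQ → M₂[k]) (hψ : ψ ∈ h12_ZN rb S) :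
    IsLevelConstantS₂ S (h12_cup p rb a ψ) := by
  obtain ⟨F, hF, hFa⟩ := hunr
  obtain ⟨F', hF', hFψ⟩ := hψ.2.2
  refine ⟨F ⊔ F', hF.sup hF', fun g g' s s' hs hs' => ?_⟩
  rw [IntermediateField.fixingSubgroup_sup] at hs hs'
  simp only [h12_cup_apply]
  rw [ha.1 g s, map_mul, (hFa s hs.1).1, (hFa s hs.1).2, hFψ g' s' hs'.2, mul_one, mul_zero,
    add_zero, mul_one]

theorem h12_cup_locCobM (hdet : h12_DetCyc p rb) (S : Finset Nat.Primes) (q : Nat.Primes)
    (a : GQ → M₂[k]) (ha : a ∈ h40_TanZ rb) (ψ : GQ → M₂[k]) (hψ : ψ ∈ h12_ZN rb S)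
    (h : h12_LocCobM rb q a) : h12_LocCob₂ p q (h12_cup p rb a ψ) := by
  obtain ⟨X, hX⟩ := h
  obtain ⟨F', hF', hFψ⟩ := hψ.2.2
  refine ⟨fun τ => -h12_T p (X * ψ (primeLocalToGlobal q τ)), ⟨F', hF'.1, fun g s hs => ?_⟩,
    fun τ τ' => ?_⟩
  · show -h12_T p (X * ψ (primeLocalToGlobal q (g * s))) = -h12_T p (X * ψ (primeLocalToGlobal q g))
    rw [map_mul, hFψ _ _ hs]
  · simp only [h12_cup_apply]
    rw [map_mul, hψ.2.1, hX τ, h12_act]
    have e1 : (X * rb (primeLocalToGlobal q τ) - rb (primeLocalToGlobal q τ) * X) *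
        ψ (primeLocalToGlobal q τ') * (rb (primeLocalToGlobal q τ)).adjugate =
        X * (rb (primeLocalToGlobal q τ) * ψ (primeLocalToGlobal q τ') *
          (rb (primeLocalToGlobal q τ)).adjugate) -
        rb (primeLocalToGlobal q τ) * (X * ψ (primeLocalToGlobal q τ')) *
          (rb (primeLocalToGlobal q τ)).adjugate := by
      simp only [Matrix.sub_mul, Matrix.mul_assoc]
    rw [e1, h12_T_sub, h12_T_conj p rb hdet, Matrix.mul_add, h12_T_add]
    ring

theorem h12_cup_locCobN (hdet : h12_DetCyc p rb) (hrb : GaloisFactorsThroughFiniteLevel rb)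
    (S : Finset Nat.Primes) (q : Nat.Primes)
    (a : GQ → M₂[k]) (ha : a ∈ h40_TanZ rb) (ψ : GQ → M₂[k]) (hψ : ψ ∈ h12_ZN rb S)
    (h : h12_LocCobN rb q ψ) : h12_LocCob₂ p q (h12_cup p rb a ψ) := by
  obtain ⟨Y, -, hY⟩ := h
  obtain ⟨L₁, hL₁, h1⟩ := hrb
  obtain ⟨L₂, hL₂, h2⟩ := ha.2
  refine ⟨fun τ => -h12_T p (a (primeLocalToGlobal q τ) * Y *
      (rb (primeLocalToGlobal q τ)).adjugate),
    ⟨L₁ ⊔ L₂, IntermediateField.finiteDimensional_sup L₁ L₂, fun g s hs => ?_⟩, fun τ τ' => ?_⟩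
  · rw [IntermediateField.fixingSubgroup_sup] at hs
    have e1 : rb (primeLocalToGlobal q s) = 1 :=
      h1 _ fun x hx => (IntermediateField.mem_fixingSubgroup_iff L₁ _).mp hs.1 x hx
    have e2 : a (primeLocalToGlobal q s) = 0 :=
      h2 _ fun x hx => (IntermediateField.mem_fixingSubgroup_iff L₂ _).mp hs.2 x hx
    show -h12_T p (a (primeLocalToGlobal q (g * s)) * Y *
        (rb (primeLocalToGlobal q (g * s))).adjugate) = _
    rw [map_mul, ha.1, map_mul, e1, e2, mul_one, mul_zero, add_zero, mul_one]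
  · simp only [h12_cup_apply]
    rw [map_mul, ha.1, map_mul, hY τ', h12_act, Matrix.adjugate_mul_distrib]
    have e1 : (a (primeLocalToGlobal q τ) * rb (primeLocalToGlobal q τ') +
        rb (primeLocalToGlobal q τ) * a (primeLocalToGlobal q τ')) * Y *
        ((rb (primeLocalToGlobal q τ')).adjugate * (rb (primeLocalToGlobal q τ)).adjugate) =
        a (primeLocalToGlobal q τ) * (rb (primeLocalToGlobal q τ') * Y *
          (rb (primeLocalToGlobal q τ')).adjugate) * (rb (primeLocalToGlobal q τ)).adjugate +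
        rb (primeLocalToGlobal q τ) * (a (primeLocalToGlobal q τ') * Y *
          (rb (primeLocalToGlobal q τ')).adjugate) * (rb (primeLocalToGlobal q τ)).adjugate := by
      simp only [Matrix.add_mul, Matrix.mul_assoc]
    have e2 : a (primeLocalToGlobal q τ) * (rb (primeLocalToGlobal q τ') * Y *
        (rb (primeLocalToGlobal q τ')).adjugate - Y) * (rb (primeLocalToGlobal q τ)).adjugate =
        a (primeLocalToGlobal q τ) * (rb (primeLocalToGlobal q τ') * Y *
          (rb (primeLocalToGlobal q τ')).adjugate) * (rb (primeLocalToGlobal q τ)).adjugate -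
        a (primeLocalToGlobal q τ) * Y * (rb (primeLocalToGlobal q τ)).adjugate := by
      simp only [Matrix.mul_sub, Matrix.sub_mul]
    rw [e1, e2, h12_T_add, h12_T_sub, h12_T_conj p rb hdet]
    ring

end Cup

end Fermat.Agent.S56
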