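import Fermat.Agent.S56.h40_TopDefs
import Fermat.Prelude.Def_GroupCohomology_ContinuousUnramified

/-!
# S56 / MID (helper12): definitions for the Selmer count in matrix-cocycle language

`k` a field of characteristic `p`, `rb : GQ →* M₂(k)` the residual matrix representation.

* `M`-side (`ad⁰ ρ̄`): tangent cocycles `a ∈ h40_TanZ rb` in Leibniz form (helper40);
  `h12_UnrOutside rb a S`, `h12_LocCobM rb q a`, `h12_InertiaTriv rb a q`, `h12_H0M rb q`.
* `N`-side (`ad⁰ ρ̄ (1)`): `h12_act A Y = A * Y * adjugate A` (`= det A • A Y A⁻¹`),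
  `h12_ZN rb S` (trace-zero twisted cocycles, `S`-level constant), `h12_BN rb` (coboundaries),
  `h12_rN rb S = dim_k H¹(G_S, N)`, `h12_LocCobN rb q ψ`, `h12_FrobNonCob rb ψ q`.
* the cup product `h12_cup p rb a ψ : GQ × GQ → ZMod p` (with values in `𝔽_p(1)`) and
  `h12_LocCob₂ p q z` (local triviality of a twisted 2-cocycle at `q`).
-/

set_option autoImplicit false

namespace Fermat.Agent.S56

open Fermat.Agent.S53 Fermat.Agent.S53.Dict ExtCitation groupCohomology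

section Defs

variable {k : Type} [Field k]

/-- The twisted adjoint action `A • Y = A * Y * adjugate A` (`= det A • (A Y A⁻¹)`). -/
def h12_act (A Y : Matrix (Fin 2) (Fin 2) k) : Matrix (Fin 2) (Fin 2) k := A * Y * A.adjugate

theorem h12_act_add (A Y Z : Matrix (Fin 2) (Fin 2) k) :
    h12_act A (Y + Z) = h12_act A Y + h12_act A Z := by
  simp only [h12_act, Matrix.mul_add, Matrix.add_mul]

theorem h12_act_smul (A : Matrix (Fin 2) (Fin 2) k) (c : k) (Y : Matrix (Fin 2) (Fin 2) k) :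
    h12_act A (c • Y) = c • h12_act A Y := by
  simp only [h12_act, Matrix.mul_smul, Matrix.smul_mul]

theorem h12_act_zero (A : Matrix (Fin 2) (Fin 2) k) : h12_act A 0 = 0 := by
  simp [h12_act]

/-- `N`-side cocycles: trace-zero, twisted-adjoint cocycles `ψ : GQ → M₂(k)`, constant on the
cosets of `Gal(ℚbar/F)` for some `F` unramified outside `S`. -/
def h12_ZN (rb : GQ →* Matrix (Fin 2) (Fin 2) k) (S : Finset Nat.Primes) :
    Submodule k (GQ → Matrix (Fin 2) (Fin 2) k) where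
  carrier := {ψ | (∀ σ, (ψ σ).trace = 0) ∧ (∀ σ τ, ψ (σ * τ) = ψ σ + h12_act (rb σ) (ψ τ)) ∧
    IsLevelConstantS₁ S ψ}
  add_mem' := by
    rintro ψ ψ' ⟨h1, h2, h3⟩ ⟨h1', h2', h3'⟩
    refine ⟨fun σ => ?_, fun σ τ => ?_, h3.add h3'⟩
    · rw [Pi.add_apply, Matrix.trace_add, h1, h1', add_zero]
    · simp only [Pi.add_apply, h2, h2', h12_act_add]
      abel
  zero_mem' := ⟨fun σ => by simp, fun σ τ => by simp [h12_act_zero],
    isLevelConstantS₁_const S (0 : Matrix (Fin 2) (Fin 2) k)⟩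
  smul_mem' := by
    rintro c ψ ⟨h1, h2, h3⟩
    refine ⟨fun σ => ?_, fun σ τ => ?_, h3.comp (c • ·)⟩
    · rw [Pi.smul_apply, Matrix.trace_smul, h1, smul_zero]
    · simp only [Pi.smul_apply, h2, smul_add, h12_act_smul]

/-- `N`-side coboundaries `σ ↦ rb σ • Y - Y`, `tr Y = 0`. -/
def h12_BN (rb : GQ →* Matrix (Fin 2) (Fin 2) k) :
    Submodule k (GQ → Matrix (Fin 2) (Fin 2) k) where
  carrier := {ψ | ∃ Y : Matrix (Fin 2) (Fin 2) k, Y.trace = 0 ∧ ∀ σ, ψ σ = h12_act (rb σ) Y - Y}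
  add_mem' := by
    rintro ψ ψ' ⟨Y, hY, h⟩ ⟨Y', hY', h'⟩
    refine ⟨Y + Y', by rw [Matrix.trace_add, hY, hY', add_zero], fun σ => ?_⟩
    rw [Pi.add_apply, h, h', h12_act_add]
    abel
  zero_mem' := ⟨0, by simp, fun σ => by simp [h12_act_zero]⟩
  smul_mem' := by
    rintro c ψ ⟨Y, hY, h⟩
    refine ⟨c • Y, by rw [Matrix.trace_smul, hY, smul_zero], fun σ => ?_⟩
    rw [Pi.smul_apply, h, h12_act_smul, smul_sub]

/-- `r = dim_k H¹(G_S, ad⁰ ρ̄ (1))`, as cocycles modulo coboundaries. -/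
noncomputable def h12_rN (rb : GQ →* Matrix (Fin 2) (Fin 2) k) (S : Finset Nat.Primes) : ℕ :=
  Module.finrank k (↥(h12_ZN rb S) ⧸ (h12_BN rb).comap (h12_ZN rb S).subtype)

/-- `ψ` is a coboundary on the decomposition group at `q` (image of the local Galois group). -/
def h12_LocCobN (rb : GQ →* Matrix (Fin 2) (Fin 2) k) (q : Nat.Primes)
    (ψ : GQ → Matrix (Fin 2) (Fin 2) k) : Prop :=
  ∃ Y : Matrix (Fin 2) (Fin 2) k, Y.trace = 0 ∧ ∀ τ : primeLocalGaloisGroup q,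
    ψ (primeLocalToGlobal q τ) = h12_act (rb (primeLocalToGlobal q τ)) Y - Y

/-- The tangent cocycle `a` (Leibniz form) is a coboundary on the decomposition group at `q`. -/
def h12_LocCobM (rb : GQ →* Matrix (Fin 2) (Fin 2) k) (q : Nat.Primes)
    (a : GQ → Matrix (Fin 2) (Fin 2) k) : Prop :=
  ∃ X : Matrix (Fin 2) (Fin 2) k, ∀ τ : primeLocalGaloisGroup q,
    a (primeLocalToGlobal q τ) =
      X * rb (primeLocalToGlobal q τ) - rb (primeLocalToGlobal q τ) * X

/-- The lift `rb + ε a` is trivial on `Gal(ℚbar/F)` for some `F` unramified outside `S`. -/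
def h12_UnrOutside (rb : GQ →* Matrix (Fin 2) (Fin 2) k) (a : GQ → Matrix (Fin 2) (Fin 2) k)
    (S : Finset Nat.Primes) : Prop :=
  ∃ F : IntermediateField ℚ (AlgebraicClosure ℚ), F.IsUnramifiedOutside S ∧
    ∀ s ∈ F.fixingSubgroup, rb s = 1 ∧ a s = 0

/-- The lift `rb + ε a` is trivial on all inertia groups at `q`. -/
def h12_InertiaTriv (rb : GQ →* Matrix (Fin 2) (Fin 2) k) (a : GQ → Matrix (Fin 2) (Fin 2) k)
    (q : ℕ) : Prop :=
  ∀ P : ValuationSubring (AlgebraicClosure ℚ), P.LiesOverPrime q →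
    ∀ σ ∈ P.inertiaSubgroupIn ℚ, rb σ = 1 ∧ a σ = 0

/-- `H⁰(G_q, ad⁰ ρ̄)`: trace-zero matrices commuting with the decomposition group at `q`. -/
def h12_H0M (rb : GQ →* Matrix (Fin 2) (Fin 2) k) (q : Nat.Primes) :
    Submodule k (Matrix (Fin 2) (Fin 2) k) where
  carrier := {X | X.trace = 0 ∧ ∀ τ : primeLocalGaloisGroup q,
    rb (primeLocalToGlobal q τ) * X = X * rb (primeLocalToGlobal q τ)}
  add_mem' := by
    rintro X X' ⟨h1, h2⟩ ⟨h1', h2'⟩
    exact ⟨by rw [Matrix.trace_add, h1, h1', add_zero],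
      fun τ => by rw [Matrix.mul_add, Matrix.add_mul, h2, h2']⟩
  zero_mem' := ⟨by simp, fun τ => by simp⟩
  smul_mem' := by
    rintro c X ⟨h1, h2⟩
    exact ⟨by rw [Matrix.trace_smul, h1, smul_zero],
      fun τ => by rw [Matrix.mul_smul, Matrix.smul_mul, h2]⟩

/-- The class of `ψ` at `q` is nonzero: `ψ(φ) ∉ (φ - 1) N` for every Frobenius `φ` at `q`. -/
def h12_FrobNonCob (rb : GQ →* Matrix (Fin 2) (Fin 2) k) (ψ : GQ → Matrix (Fin 2) (Fin 2) k)
    (q : ℕ) : Prop :=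
  ∀ P : ValuationSubring (AlgebraicClosure ℚ), P.LiesOverPrime q →
    ∀ φ : GQ, P.IsFrobeniusAt φ q →
      ∀ Y : Matrix (Fin 2) (Fin 2) k, Y.trace = 0 → ψ φ ≠ h12_act (rb φ) Y - Y

/-- Taylor-Wiles prime of level `n`: `q ≡ 1 mod p^(n+1)` and every Frobenius at `q` has two
distinct eigenvalues in `k`. -/
def h12_IsTWPrime (p n : ℕ) (rb : GQ →* Matrix (Fin 2) (Fin 2) k) (q : ℕ) : Prop :=
  q.Prime ∧ p ^ (n + 1) ∣ q - 1 ∧
    ∀ P : ValuationSubring (AlgebraicClosure ℚ), P.LiesOverPrime q →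
      ∀ φ : GQ, P.IsFrobeniusAt φ q →
        ∃ α β : k, α ≠ β ∧ (rb φ).charpoly = (Polynomial.X - Polynomial.C α) *
          (Polynomial.X - Polynomial.C β)

end Defs

section Cup

variable {k : Type} [Field k] (p : ℕ) [Fact p.Prime] [Algebra (ZMod p) k]

/-- `det rb = ` the mod `p` cyclotomic character. -/
def h12_DetCyc (rb : GQ →* Matrix (Fin 2) (Fin 2) k) : Prop :=
  ∀ σ : GQ, (rb σ).det = algebraMap (ZMod p) k (cycloChar p σ : ZMod p)

/-- The cup product `a ∪ ψ` of a tangent cocycle (Leibniz form) and an `N`-cocycle, with values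
in `𝔽_p(1)`:  `(σ, τ) ↦ Tr_{k/𝔽_p} tr (a σ * ψ τ * adjugate (rb σ))`
(`= ⟨a σ (rb σ)⁻¹, σ • ψ τ⟩`). -/
noncomputable def h12_cup (rb : GQ →* Matrix (Fin 2) (Fin 2) k)
    (a ψ : GQ → Matrix (Fin 2) (Fin 2) k) : GQ × GQ → ZMod p :=
  fun x => Algebra.trace (ZMod p) k (Matrix.trace (a x.1 * ψ x.2 * (rb x.1).adjugate))

/-- A 2-cochain with values in `𝔽_p(1)` is, on the local Galois group at `q`, the coboundary
of a level-constant 1-cochain (twisted action through the cyclotomic character). -/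
def h12_LocCob₂ (q : Nat.Primes) (z : GQ × GQ → ZMod p) : Prop :=
  ∃ w : primeLocalGaloisGroup q → ZMod p, IsLevelConstant₁ (primeLocalToGlobal q) w ∧
    ∀ τ τ' : primeLocalGaloisGroup q,
      (cycloChar p (primeLocalToGlobal q τ) : ZMod p) * w τ' - w (τ * τ') + w τ =
        z (primeLocalToGlobal q τ, primeLocalToGlobal q τ')

/-- Twisted 2-cocycles with values in `𝔽_p(1)`. -/
def h12_IsCocycle₂ (z : GQ × GQ → ZMod p) : Prop :=
  ∀ σ τ υ : GQ, (cycloChar p σ : ZMod p) * z (τ, υ) - z (σ * τ, υ) + z (σ, τ * υ) - z (σ, τ) = 0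

end Cup

section Sha

variable {k : Type} [Field k]

/-- **(R1) at the base set `S₀`** (consumer form of the global Euler characteristic + the
`d²`-formula): every `k`-subspace of tangent cocycles which are trace-free, unramified outside
`S₀` and locally coboundaries at every prime of `S₀`, and which contains no nonzero coboundary,
has rank `≤ r - ∑_{v ∈ S₀} h⁰(G_v, ad⁰) - 1`, `r = dim_k H¹(G_{S₀}, ad⁰(1))`. -/
def h12_ShaBound (rb : GQ →* Matrix (Fin 2) (Fin 2) k) (S₀ : Finset Nat.Primes) : Prop :=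
  ∀ W : Submodule k (GQ → Matrix (Fin 2) (Fin 2) k), W ≤ h40_TanZ rb →
    (∀ a ∈ W, h12_UnrOutside rb a S₀ ∧ (∀ σ, (a σ * (rb σ).adjugate).trace = 0) ∧
      ∀ v ∈ S₀, h12_LocCobM rb v a) →
    (∀ a ∈ W, h40_IsCob rb a → a = 0) →
    Module.rank k W + ((∑ v ∈ S₀, Module.finrank k (h12_H0M rb v) + 1 : ℕ) : Cardinal)
      ≤ (h12_rN rb S₀ : Cardinal)

/-- The local bound at `v` (consumer form of the rows W2 / W3): a subspace `W'` of `W` meeting
the locally trivial classes at `v` trivially has rank `≤ c`. -/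
def h12_LocBound (rb : GQ →* Matrix (Fin 2) (Fin 2) k) (v : Nat.Primes)
    (W : Submodule k (GQ → Matrix (Fin 2) (Fin 2) k)) (c : ℕ) : Prop :=
  ∀ W' : Submodule k (GQ → Matrix (Fin 2) (Fin 2) k), W' ≤ W →
    (∀ a ∈ W', h12_LocCobM rb v a → a = 0) → Module.rank k W' ≤ (c : Cardinal)

end Sha

end Fermat.Agent.S56
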