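import Fermat.Agent.S56.h73_CoindApi

/-!
# S56 / W1 / row B3 (COIND-API), part 2: additive invariants

`h73_Additive k G δ`: the integer invariant `δ` of `k`-linear `G`-representations is additive on
short exact sequences with finite-dimensional middle term.  Consequences: invariance under
equivariant isomorphisms, `δ(V ⊗ -)` and `δ(coind -)` are additive, the `p`-group lemma (P),
and vanishing on `coind` from ALL cyclic subgroups once it vanishes on `coind` from cyclic
subgroups of order prime to `p`.
-/

set_option autoImplicit false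

namespace Fermat.Agent.S56

open Representation TensorProduct

/-- additivity of an integer invariant of representations on short exact sequences whose middle
term is finite-dimensional -/
def h73_Additive (k : Type) [Field k] (G : Type) [Group G]
    (δ : ∀ (V : Type) [AddCommGroup V] [Module k V], Representation k G V → ℤ) : Prop :=
  ∀ (V' V V'' : Type) [AddCommGroup V'] [Module k V'] [AddCommGroup V] [Module k V]
    [AddCommGroup V''] [Module k V''] [Module.Finite k V]
    (ρ' : Representation k G V') (ρ : Representation k G V) (ρ'' : Representation k G V'')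
    (i : V' →ₗ[k] V) (q : V →ₗ[k] V''),
    (∀ g v, i (ρ' g v) = ρ g (i v)) → (∀ g v, q (ρ g v) = ρ'' g (q v)) →
    Function.Injective i → Function.Exact i q → Function.Surjective q →
    δ V ρ = δ V' ρ' + δ V'' ρ''

section consequences

variable {k : Type} [Field k] {G : Type} [Group G]
  {δ : ∀ (V : Type) [AddCommGroup V] [Module k V], Representation k G V → ℤ}

theorem h73_Additive.zero (hδ : h73_Additive k G δ) (V : Type) [AddCommGroup V] [Module k V]
    [Subsingleton V] (ρ : Representation k G V) : δ V ρ = 0 := by
  have h := hδ V V V ρ ρ ρ 0 0 (fun g v => Subsingleton.elim _ _)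
    (fun g v => Subsingleton.elim _ _) (fun a b _ => Subsingleton.elim _ _)
    (fun y => ⟨fun _ => ⟨0, Subsingleton.elim _ _⟩, fun _ => Subsingleton.elim _ _⟩)
    (fun y => ⟨0, Subsingleton.elim _ _⟩)
  omega

theorem h73_Additive.congr (hδ : h73_Additive k G δ) {V V' : Type} [AddCommGroup V]
    [Module k V] [AddCommGroup V'] [Module k V'] [Module.Finite k V]
    (ρ : Representation k G V) (ρ' : Representation k G V') (e : V ≃ₗ[k] V')
    (he : ∀ g v, e (ρ g v) = ρ' g (e v)) : δ V ρ = δ V' ρ' := by
  have h := hδ PUnit V V' (Representation.trivial k G PUnit) ρ ρ' 0 e.toLinearMap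
    (fun g v => by simp) he (fun a b _ => Subsingleton.elim _ _)
    (fun y => ⟨fun hy => ⟨0, by
      have : y = 0 := e.injective (by simpa using hy)
      simp [this]⟩, fun ⟨x, hx⟩ => by
      have : y = 0 := by simpa using hx.symm
      simp [this]⟩)
    e.surjective
  rw [h, hδ.zero PUnit (Representation.trivial k G PUnit), zero_add]

/-- `δ(V ⊗ -)` is additive. -/
theorem h73_Additive.tensor (hδ : h73_Additive k G δ) {V : Type} [AddCommGroup V] [Module k V]
    [Module.Finite k V] (ρ : Representation k G V) :
    h73_Additive k G (fun Y _ _ ρY => δ (V ⊗[k] Y) (ρ.tprod ρY)) := by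
  intro Y' Y Y'' _ _ _ _ _ _ _ ρ' ρY ρ'' i q hi hq hinj hex hsurj
  refine hδ (V ⊗[k] Y') (V ⊗[k] Y) (V ⊗[k] Y'') (ρ.tprod ρ') (ρ.tprod ρY) (ρ.tprod ρ'')
    (LinearMap.lTensor V i) (LinearMap.lTensor V q) ?_ ?_ ?_ ?_ ?_
  · intro g t
    induction t using TensorProduct.induction_on with
    | zero => simp
    | tmul v y => simp [hi]
    | add t₁ t₂ h₁ h₂ => simp only [map_add, h₁, h₂]
  · intro g t
    induction t using TensorProduct.induction_on with
    | zero => simp
    | tmul v y => simp [hq]
    | add t₁ t₂ h₁ h₂ => simp only [map_add, h₁, h₂]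
  · exact Module.Flat.lTensor_preserves_injective_linearMap i hinj
  · exact lTensor_exact V hex hsurj
  · exact LinearMap.lTensor_surjective V hsurj

/-- `δ(coind_C^G -)` is additive on representations of a subgroup `C`. -/
theorem h73_Additive.coind [Finite G] (hδ : h73_Additive k G δ) (C : Subgroup G) :
    h73_Additive k C (fun W _ _ σ => δ (coindV C.subtype σ) (Representation.coind C.subtype σ)) := by
  intro W' _ W'' _ _ _ _ _ _ _ σ' σ σ'' i q hi hq hinj hex hsurj
  have : Module.Finite k (coindV C.subtype σ) := h73_coindV_finite C.subtype σ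
  exact hδ _ _ _ _ _ _ (h73_coindMap C i hi) (h73_coindMap C q hq)
    (h73_coindMap_equivariant C i hi) (h73_coindMap_equivariant C q hq)
    (h73_coindMap_injective C i hi hinj) (h73_coindMap_exact C i q hi hq hex)
    (h73_coindMap_surjective C q hq hsurj)

end consequences

section pgroup

variable (p : ℕ) [Fact p.Prime] {k : Type} [Field k] [Finite k] [CharP k p] {G : Type} [Group G]

/-- A nonzero finite-dimensional representation over a finite field of characteristic `p` on
which every group element acts with `p`-power order has a nonzero fixed vector. -/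
theorem h73_exists_fixed {Y : Type} [AddCommGroup Y] [Module k Y] [Module.Finite k Y]
    [Nontrivial Y] (ρY : Representation k G Y) (hY : ∀ g : G, ∃ n : ℕ, ρY (g ^ p ^ n) = 1) :
    ∃ y : Y, y ≠ 0 ∧ ∀ g, ρY g y = y := by
  classical
  let H : Subgroup (Units (Y →ₗ[k] Y)) := ρY.asGroupHom.range
  have hH : IsPGroup p H := by
    rintro ⟨u, g, rfl⟩
    obtain ⟨n, hn⟩ := hY g
    refine ⟨n, ?_⟩
    apply Subtype.ext
    simp only [SubgroupClass.coe_pow, Subgroup.coe_one]
    rw [← map_pow]
    apply Units.ext
    rw [asGroupHom_apply, hn]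
    rfl
  have : Finite Y := Module.finite_of_finite k
  have hp : p ∣ Nat.card Y := by
    let _ : Fintype k := Fintype.ofFinite k
    let _ : Fintype Y := Fintype.ofFinite Y
    rw [Nat.card_eq_fintype_card, Module.card_eq_pow_finrank (K := k) (V := Y)]
    have h1 : p ∣ Fintype.card k := by
      rw [← CharP.cast_eq_zero_iff k p]
      exact FiniteField.cast_card_eq_zero k
    exact dvd_pow h1 (Module.finrank_pos (R := k) (M := Y)).ne'
  obtain ⟨b, hb, hne⟩ := hH.exists_fixed_point_of_prime_dvd_card_of_fixed_point Y hp
    (a := (0 : Y)) (by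
      intro h
      change ((h : Units (Y →ₗ[k] Y)) : Y →ₗ[k] Y) 0 = 0
      simp)
  refine ⟨b, fun h => hne h.symm, fun g => ?_⟩
  have h2 := hb ⟨ρY.asGroupHom g, g, rfl⟩
  change ((ρY.asGroupHom g : Units (Y →ₗ[k] Y)) : Y →ₗ[k] Y) b = b at h2
  rwa [asGroupHom_apply] at h2

/-- (P), induction form. -/
theorem h73_tensor_pgroup_aux
    {δ : ∀ (V : Type) [AddCommGroup V] [Module k V], Representation k G V → ℤ}
    (hδ : h73_Additive k G δ) {W : Type} [AddCommGroup W] [Module k W] [Module.Finite k W]
    (ρW : Representation k G W) :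
    ∀ (n : ℕ) (Y : Type) [AddCommGroup Y] [Module k Y] [Module.Finite k Y]
      (ρY : Representation k G Y), Module.finrank k Y = n →
      (∀ g : G, ∃ m : ℕ, ρY (g ^ p ^ m) = 1) →
      δ (W ⊗[k] Y) (ρW.tprod ρY) = (n : ℤ) * δ W ρW := by
  intro n
  induction n with
  | zero =>
    intro Y _ _ _ ρY hn hY
    have hsub : Subsingleton Y := Module.finrank_zero_iff.1 hn
    have : Subsingleton (W ⊗[k] Y) := by
      refine ⟨fun a b => ?_⟩
      have h0 : ∀ t : W ⊗[k] Y, t = 0 := fun t => by
        induction t using TensorProduct.induction_on with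
        | zero => rfl
        | tmul w y => rw [Subsingleton.elim y 0, TensorProduct.tmul_zero]
        | add t₁ t₂ h₁ h₂ => rw [h₁, h₂, add_zero]
      rw [h0 a, h0 b]
    rw [hδ.zero]
    simp
  | succ n ih =>
    intro Y _ _ _ ρY hn hY
    have hnt : Nontrivial Y := Module.nontrivial_of_finrank_pos (R := k) (by omega)
    obtain ⟨y₀, hy₀, hfix⟩ := h73_exists_fixed p ρY hY
    let L : Submodule k Y := Submodule.span k {y₀}
    have hL : ∀ g, L ≤ L.comap (ρY g) := by
      intro g y hy
      obtain ⟨a, rfl⟩ := Submodule.mem_span_singleton.1 hy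
      rw [Submodule.mem_comap, map_smul, hfix]
      exact Submodule.smul_mem _ _ (Submodule.mem_span_singleton_self y₀)
    have hQ : ∀ g : G, ∃ m : ℕ, (ρY.quotient L hL) (g ^ p ^ m) = 1 := by
      intro g
      obtain ⟨m, hm⟩ := hY g
      refine ⟨m, ?_⟩
      apply LinearMap.ext
      intro y
      obtain ⟨y, rfl⟩ := Submodule.mkQ_surjective L y
      simp [hm]
    have hfr : Module.finrank k (Y ⧸ L) = n := by
      have h1 := Submodule.finrank_quotient_add_finrank L
      have h2 : Module.finrank k L = 1 := finrank_span_singleton hy₀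
      omega
    have h1 := ih (Y ⧸ L) (ρY.quotient L hL) hfr hQ
    obtain ⟨φ, hφ⟩ := Module.Projective.exists_dual_eq_one k hy₀
    have h2 := hδ W (W ⊗[k] Y) (W ⊗[k] (Y ⧸ L)) ρW (ρW.tprod ρY)
      (ρW.tprod (ρY.quotient L hL)) ((TensorProduct.mk k W Y).flip y₀)
      (LinearMap.lTensor W L.mkQ) ?_ ?_ ?_ ?_ ?_
    · rw [h2, h1]
      push_cast
      ring
    · intro g w
      simp [hfix]
    · intro g t
      induction t using TensorProduct.induction_on with
      | zero => simp
      | tmul w y => simp
      | add t₁ t₂ h₁ h₂ => simp only [map_add, h₁, h₂]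
    · intro w₁ w₂ h
      have h3 := congrArg ((TensorProduct.rid k W).toLinearMap ∘ₗ LinearMap.lTensor W φ) h
      simpa [hφ] using h3
    · intro t
      constructor
      · intro ht
        have hex := lTensor_exact W (LinearMap.exact_subtype_mkQ L) (Submodule.mkQ_surjective L)
        obtain ⟨s, rfl⟩ := (hex t).1 ht
        induction s using TensorProduct.induction_on with
        | zero => exact ⟨0, by simp⟩
        | tmul w y =>
          obtain ⟨a, ha⟩ := Submodule.mem_span_singleton.1 y.2
          refine ⟨a • w, ?_⟩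
          simp only [LinearMap.flip_apply, TensorProduct.mk_apply, LinearMap.lTensor_tmul,
            Submodule.subtype_apply]
          rw [← ha, TensorProduct.smul_tmul]
        | add s₁ s₂ h₁ h₂ =>
          obtain ⟨w₁, hw₁⟩ := h₁ (by
            have := (hex (LinearMap.lTensor W L.subtype s₁)).2 ⟨s₁, rfl⟩
            exact this)
          obtain ⟨w₂, hw₂⟩ := h₂ (by
            have := (hex (LinearMap.lTensor W L.subtype s₂)).2 ⟨s₂, rfl⟩
            exact this)
          exact ⟨w₁ + w₂, by rw [map_add, map_add, hw₁, hw₂]⟩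
      · rintro ⟨w, rfl⟩
        simp only [LinearMap.flip_apply, TensorProduct.mk_apply, LinearMap.lTensor_tmul]
        have : L.mkQ y₀ = 0 := by
          rw [Submodule.mkQ_apply, Submodule.Quotient.mk_eq_zero]
          exact Submodule.mem_span_singleton_self y₀
        rw [this, TensorProduct.tmul_zero]
    · exact LinearMap.lTensor_surjective W (Submodule.mkQ_surjective L)

/-- (P): if `G` acts on `Y` through elements of `p`-power order (e.g. through a `p`-group
quotient), then `δ(W ⊗ Y) = dim Y * δ(W)` for every additive invariant `δ`. -/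
theorem h73_tensor_pgroup
    {δ : ∀ (V : Type) [AddCommGroup V] [Module k V], Representation k G V → ℤ}
    (hδ : h73_Additive k G δ) {W : Type} [AddCommGroup W] [Module k W] [Module.Finite k W]
    (ρW : Representation k G W) {Y : Type} [AddCommGroup Y] [Module k Y] [Module.Finite k Y]
    (ρY : Representation k G Y) (hY : ∀ g : G, ∃ m : ℕ, ρY (g ^ p ^ m) = 1) :
    δ (W ⊗[k] Y) (ρW.tprod ρY) = (Module.finrank k Y : ℤ) * δ W ρW :=
  h73_tensor_pgroup_aux p hδ ρW _ Y ρY rfl hY

end pgroup

section cyclic

variable (p : ℕ) [Fact p.Prime] {k : Type} [Field k] [Finite k] [CharP k p] {G : Type} [Group G]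
  [Finite G]

/-- From cyclic subgroups of order prime to `p` to ALL cyclic subgroups: an additive invariant
that vanishes on every `coind_D^G σ` with `D` cyclic of order prime to `p` vanishes on every
`coind_C^G σ` with `C` cyclic. -/
theorem h73_coind_cyclic_vanish
    {δ : ∀ (V : Type) [AddCommGroup V] [Module k V], Representation k G V → ℤ}
    (hδ : h73_Additive k G δ)
    (hcyc : ∀ (D : Subgroup G), IsCyclic D → (Nat.card D).Coprime p →
      ∀ (W : Type) [AddCommGroup W] [Module k W] [Module.Finite k W]
        (σ : Representation k D W), δ (coindV D.subtype σ) (Representation.coind D.subtype σ) = 0)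
    (C : Subgroup G) (hC : IsCyclic C) (W : Type) [AddCommGroup W] [Module k W]
    [Module.Finite k W] (σ : Representation k C W) :
    δ (coindV C.subtype σ) (Representation.coind C.subtype σ) = 0 := by
  classical
  obtain ⟨g₀, hg₀⟩ := hC.exists_generator
  set a := (Nat.card C).factorization p with ha
  let C' : Subgroup C := Subgroup.zpowers (g₀ ^ (p ^ a))
  have hpow : ∀ c : C, c ^ (p ^ a) ∈ C' := by
    intro c
    obtain ⟨j, rfl⟩ := Subgroup.mem_zpowers_iff.1 (hg₀ c)
    refine Subgroup.mem_zpowers_iff.2 ⟨j, ?_⟩
    rw [← zpow_natCast, ← zpow_natCast, ← zpow_mul, ← zpow_mul, mul_comm]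
  have hcomm : ∀ x y : C, x * y = y * x := by
    intro x y
    obtain ⟨i, rfl⟩ := Subgroup.mem_zpowers_iff.1 (hg₀ x)
    obtain ⟨j, rfl⟩ := Subgroup.mem_zpowers_iff.1 (hg₀ y)
    exact (Commute.refl g₀).zpow_zpow i j
  have hcard : (Nat.card C').Coprime p := by
    have h1 : Nat.card C' = orderOf (g₀ ^ (p ^ a)) := Nat.card_zpowers _
    have h2 : orderOf g₀ = Nat.card C := orderOf_eq_card_of_forall_mem_zpowers hg₀
    have h3 : Nat.card C ≠ 0 := Nat.card_pos.ne'
    rw [h1, orderOf_pow, h2, Nat.gcd_eq_right (Nat.ordProj_dvd _ _)]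
    exact (Nat.coprime_ordCompl (Fact.out : p.Prime) h3).symm
  -- the `C`-representation `Y = k[C'\\C]`
  have hY : ∀ c : C, ∃ m : ℕ, (h73_perm (k := k) C') (c ^ p ^ m) = 1 := by
    intro c
    refine ⟨a, ?_⟩
    apply LinearMap.ext
    intro f
    apply Subtype.ext
    funext x
    rw [h73_coind_apply_apply, hcomm x]
    have := f.2 ⟨c ^ p ^ a, hpow c⟩ x
    simpa using this
  have hfinY : Module.Finite k (h73_permV (k := k) C') :=
    h73_coindV_finite C'.subtype (Representation.trivial k C' k)
  have hntY : Nontrivial (h73_permV (k := k) C') := by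
    refine ⟨⟨h73_ind C' (Quotient.mk'' 1), 0, fun h => ?_⟩⟩
    have h1 := congrArg (fun f : h73_permV (k := k) C' => (f : C → k) 1) h
    simp [h73_ind_apply] at h1
  have hδC := hδ.coind C
  have hP := h73_tensor_pgroup p hδC σ (h73_perm (k := k) C') hY
  have hτfin : Module.Finite k (coindV C'.subtype (σ.comp C'.subtype)) :=
    h73_coindV_finite C'.subtype (σ.comp C'.subtype)
  have h1 := hδC.congr (V := W ⊗[k] ↥(h73_permV (k := k) C'))
    (V' := ↥(coindV C'.subtype (σ.comp C'.subtype))) (σ.tprod (h73_perm (k := k) C'))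
    (Representation.coind C'.subtype (σ.comp C'.subtype)) (h73_tensorCoind C' σ)
    (h73_tensorCoind_equivariant C' σ)
  have hfin2 : Module.Finite k
      (coindV C.subtype (Representation.coind C'.subtype (σ.comp C'.subtype))) :=
    h73_coindV_finite C.subtype _
  have h2 := hδ.congr
    (V := ↥(coindV C.subtype (Representation.coind C'.subtype (σ.comp C'.subtype))))
    (V' := ↥(coindV (C.subtype.comp C'.subtype) (σ.comp C'.subtype)))
    (Representation.coind C.subtype
      (Representation.coind C'.subtype (σ.comp C'.subtype)))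
    (Representation.coind (C.subtype.comp C'.subtype) (σ.comp C'.subtype))
    (h73_coindTrans C C' (σ.comp C'.subtype))
    (h73_coindTrans_equivariant C C' (σ.comp C'.subtype))
  -- transport to the image subgroup `D` of `G`
  let D : Subgroup G := C'.map C.subtype
  let e : C' ≃* D := C'.equivMapOfInjective C.subtype (Subgroup.subtype_injective C)
  let τD : Representation k D W := (σ.comp C'.subtype).comp e.symm.toMonoidHom
  have hfin3 : Module.Finite k (coindV (C.subtype.comp C'.subtype) (σ.comp C'.subtype)) :=
    h73_coindV_finite _ _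
  have h3 := hδ.congr
    (V := ↥(coindV (C.subtype.comp C'.subtype) (σ.comp C'.subtype)))
    (V' := ↥(coindV D.subtype τD))
    (Representation.coind (C.subtype.comp C'.subtype) (σ.comp C'.subtype))
    (Representation.coind D.subtype τD)
    (h73_coindCongr (C.subtype.comp C'.subtype) D.subtype e (fun h => rfl)
      (σ.comp C'.subtype) τD (fun h w => by simp [τD]))
    (h73_coindCongr_equivariant (C.subtype.comp C'.subtype) D.subtype e (fun h => rfl)
      (σ.comp C'.subtype) τD (fun h w => by simp [τD]))
  have hDcyc : IsCyclic D := isCyclic_of_surjective e.toMonoidHom e.surjective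
  have hDcard : (Nat.card D).Coprime p := by
    rw [← Nat.card_congr e.toEquiv]
    exact hcard
  have h4 := hcyc D hDcyc hDcard W τD
  have h5 : (Module.finrank k (h73_permV (k := k) C') : ℤ) ≠ 0 := by
    have := Module.finrank_pos (R := k) (M := h73_permV (k := k) C')
    exact_mod_cast this.ne'
  have h6 : (Module.finrank k (h73_permV (k := k) C') : ℤ) *
      δ (coindV C.subtype σ) (Representation.coind C.subtype σ) = 0 := by
    rw [← hP, h1, h2, h3, h4]
  exact (mul_eq_zero.1 h6).resolve_left h5

/-- Consequence in the form used by the Artin-induction step: for `C` cyclic and `V` any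
finite-dimensional representation of `G`, the invariant vanishes on `V ⊗ k[C\\G]`. -/
theorem h73_tensor_perm_vanish
    {δ : ∀ (V : Type) [AddCommGroup V] [Module k V], Representation k G V → ℤ}
    (hδ : h73_Additive k G δ)
    (hcyc : ∀ (D : Subgroup G), IsCyclic D → (Nat.card D).Coprime p →
      ∀ (W : Type) [AddCommGroup W] [Module k W] [Module.Finite k W]
        (σ : Representation k D W), δ (coindV D.subtype σ) (Representation.coind D.subtype σ) = 0)
    (C : Subgroup G) (hC : IsCyclic C) (V : Type) [AddCommGroup V] [Module k V]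
    [Module.Finite k V] (ρ : Representation k G V) :
    δ (V ⊗[k] h73_permV (k := k) C) (ρ.tprod (h73_perm (k := k) C)) = 0 := by
  have hfinY : Module.Finite k (h73_permV (k := k) C) :=
    h73_coindV_finite C.subtype (Representation.trivial k C k)
  rw [hδ.congr (V := V ⊗[k] ↥(h73_permV (k := k) C))
    (V' := ↥(coindV C.subtype (ρ.comp C.subtype))) (ρ.tprod (h73_perm (k := k) C))
    (Representation.coind C.subtype (ρ.comp C.subtype)) (h73_tensorCoind C ρ)
    (h73_tensorCoind_equivariant C ρ)]
  exact h73_coind_cyclic_vanish p hδ hcyc C hC V (ρ.comp C.subtype)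

end cyclic

end Fermat.Agent.S56
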