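import Fermat.Agent.S56.h25_RepHerbFin
import Fermat.Agent.S56.h73_CoindP

/-!
# S56 / W1 / row B3 (COIND-API), part 3: bridge to the `h25_IsAdditive` / `h25_perm` language

* `h73_additive_of_h25`, `h73_h25_of_additive` : `h25_IsAdditive p G ψ ↔ h73_Additive (ZMod p) G ψ`;
* `h73_permEquiv` : the permutation module `(G ⧸ C) → k` of `h25_perm` is the coinduced model
  `h73_permV C` (left-`C`-invariant functions on `G`), equivariantly;
* the results of `h73_CoindP` restated for `h25_IsAdditive` and `h25_perm`.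
-/

set_option autoImplicit false

namespace Fermat.Agent.S56

open Representation TensorProduct

section adapter

variable {p : ℕ} [Fact p.Prime] {G : Type} [Group G]
  {ψ : ∀ (V : Type) [AddCommGroup V] [Module (ZMod p) V], Representation (ZMod p) G V → ℤ}

theorem h73_additive_of_h25 (hψ : h25_IsAdditive p G ψ) : h73_Additive (ZMod p) G ψ := by
  intro V' V V'' _ _ _ _ _ _ _ ρ' ρ ρ'' i q hi hq hinj hex hsurj
  have : Finite V := Module.finite_of_finite (ZMod p)
  exact hψ.exact V' V V'' ρ' ρ ρ'' i q hi hq hinj hsurj (fun v => hex v)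

theorem h73_h25_of_additive (h : h73_Additive (ZMod p) G ψ) : h25_IsAdditive p G ψ :=
  ⟨fun V' V V'' _ _ _ _ _ _ _ ρ' ρ ρ'' i q hi hq hinj hsurj hex =>
    h V' V V'' ρ' ρ ρ'' i q hi hq hinj (fun v => hex v) hsurj⟩

end adapter

section model

variable (k : Type) [CommRing k] {G : Type} [Group G] (C : Subgroup G)

/-- The function model `(G ⧸ C) → k` of the permutation module is the coinduced model. -/
noncomputable def h73_permEquiv : ((G ⧸ C) → k) ≃ₗ[k] h73_permV (k := k) C where
  toFun φ := ⟨fun h => φ (QuotientGroup.mk h⁻¹), fun c h => by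
    have : (QuotientGroup.mk ((c : G) * h)⁻¹ : G ⧸ C) = QuotientGroup.mk h⁻¹ := by
      rw [QuotientGroup.eq]
      simp
    show φ (QuotientGroup.mk ((c : G) * h)⁻¹) = φ (QuotientGroup.mk h⁻¹)
    rw [this]⟩
  map_add' φ₁ φ₂ := rfl
  map_smul' a φ := rfl
  invFun f := fun x => Quotient.liftOn' x (fun g => (f : G → k) g⁻¹) (fun a b hab => by
    have h1 : a⁻¹ * b ∈ C := QuotientGroup.leftRel_apply.1 hab
    have h2 := f.2 ⟨a⁻¹ * b, h1⟩ b⁻¹
    simp only [Subgroup.coe_subtype, mul_inv_cancel_right, trivial_apply] at h2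
    exact h2)
  left_inv φ := by
    funext x
    induction x using Quotient.inductionOn' with
    | h g =>
      show φ (QuotientGroup.mk (g⁻¹)⁻¹) = φ (Quotient.mk'' g)
      rw [inv_inv]
  right_inv f := by
    apply Subtype.ext
    funext h
    show (f : G → k) (h⁻¹)⁻¹ = (f : G → k) h
    rw [inv_inv]

theorem h73_permEquiv_apply (φ : (G ⧸ C) → k) (h : G) :
    ((h73_permEquiv k C φ : h73_permV (k := k) C) : G → k) h = φ (QuotientGroup.mk h⁻¹) := rfl

theorem h73_permEquiv_equivariant (g : G) (φ : (G ⧸ C) → k) :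
    h73_permEquiv k C (h25_perm k G (G ⧸ C) g φ) = h73_perm (k := k) C g (h73_permEquiv k C φ) := by
  apply Subtype.ext
  funext h
  rw [h73_coind_apply_apply, h73_permEquiv_apply, h73_permEquiv_apply, h25_perm_apply,
    mul_inv_rev]
  rfl

end model

section corollaries

variable {p : ℕ} [Fact p.Prime] {G : Type} [Group G] [Finite G]
  {ψ : ∀ (V : Type) [AddCommGroup V] [Module (ZMod p) V], Representation (ZMod p) G V → ℤ}

omit [Finite G] in
/-- `ψ(N ⊗ -)` is additive (in the `h25` language). -/
theorem h73_h25_tensor (hψ : h25_IsAdditive p G ψ) {N : Type} [AddCommGroup N]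
    [Module (ZMod p) N] [Finite N] (σ : Representation (ZMod p) G N) :
    h25_IsAdditive p G (fun Y _ _ ρY => ψ (N ⊗[ZMod p] Y) (σ.tprod ρY)) :=
  h73_h25_of_additive ((h73_additive_of_h25 hψ).tensor σ)

/-- `ψ(coind_C^G -)` is additive on representations of `C` (in the `h25` language). -/
theorem h73_h25_coind (hψ : h25_IsAdditive p G ψ) (C : Subgroup G) :
    h25_IsAdditive p C
      (fun W _ _ σ => ψ (coindV C.subtype σ) (Representation.coind C.subtype σ)) :=
  h73_h25_of_additive ((h73_additive_of_h25 hψ).coind C)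

/-- (d4) in the `h25` language: vanishing on `coind` from cyclic `p'`-subgroups implies
vanishing on `coind` from all cyclic subgroups. -/
theorem h73_h25_coind_cyclic_vanish (hψ : h25_IsAdditive p G ψ)
    (hcyc : ∀ C : Subgroup G, IsCyclic C → (Nat.card C).Coprime p →
      ∀ (W : Type) [AddCommGroup W] [Module (ZMod p) W] [Finite W]
        (σ : Representation (ZMod p) C W),
        ψ (coindV C.subtype σ) (Representation.coind C.subtype σ) = 0)
    (C : Subgroup G) (hC : IsCyclic C) (W : Type) [AddCommGroup W] [Module (ZMod p) W]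
    [Finite W] (σ : Representation (ZMod p) C W) :
    ψ (coindV C.subtype σ) (Representation.coind C.subtype σ) = 0 :=
  h73_coind_cyclic_vanish p (h73_additive_of_h25 hψ)
    (fun D hD hDp W _ _ _ τ => by
      have : Finite W := Module.finite_of_finite (ZMod p)
      exact hcyc D hD hDp W τ) C hC W σ

/-- The projection formula as a `ψ`-identity, function model:
`ψ(N ⊗ 𝔽_p^{G/C}) = ψ(coind_C^G Res_C N)`. -/
theorem h73_h25_tensor_perm_eq (hψ : h25_IsAdditive p G ψ) (C : Subgroup G) (N : Type)
    [AddCommGroup N] [Module (ZMod p) N] [Finite N] (σ : Representation (ZMod p) G N) :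
    ψ (N ⊗[ZMod p] ((G ⧸ C) → ZMod p)) (σ.tprod (h25_perm (ZMod p) G (G ⧸ C))) =
      ψ (coindV C.subtype (σ.comp C.subtype))
        (Representation.coind C.subtype (σ.comp C.subtype)) := by
  have hδ := h73_additive_of_h25 hψ
  have hfinY : Module.Finite (ZMod p) (h73_permV (k := ZMod p) C) :=
    h73_coindV_finite C.subtype (Representation.trivial (ZMod p) C (ZMod p))
  have h1 := hδ.congr (V := N ⊗[ZMod p] ((G ⧸ C) → ZMod p))
    (V' := N ⊗[ZMod p] ↥(h73_permV (k := ZMod p) C))
    (σ.tprod (h25_perm (ZMod p) G (G ⧸ C))) (σ.tprod (h73_perm (k := ZMod p) C))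
    (TensorProduct.congr (LinearEquiv.refl (ZMod p) N) (h73_permEquiv (ZMod p) C))
    (fun g t => by
      induction t using TensorProduct.induction_on with
      | zero => simp
      | tmul n φ =>
        rw [Representation.tprod_apply, TensorProduct.map_tmul, TensorProduct.congr_tmul,
          TensorProduct.congr_tmul, Representation.tprod_apply, TensorProduct.map_tmul,
          h73_permEquiv_equivariant]
        rfl
      | add t₁ t₂ h₁ h₂ => simp only [map_add, h₁, h₂])
  have h2 := hδ.congr (V := N ⊗[ZMod p] ↥(h73_permV (k := ZMod p) C))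
    (V' := ↥(coindV C.subtype (σ.comp C.subtype))) (σ.tprod (h73_perm (k := ZMod p) C))
    (Representation.coind C.subtype (σ.comp C.subtype)) (h73_tensorCoind C σ)
    (h73_tensorCoind_equivariant C σ)
  rw [h1, h2]

/-- The form used by the Artin-induction step, in the `h25` language: for `C` cyclic,
`ψ(N ⊗ 𝔽_p^{G/C}) = 0`. -/
theorem h73_h25_tensor_perm_vanish (hψ : h25_IsAdditive p G ψ)
    (hcyc : ∀ C : Subgroup G, IsCyclic C → (Nat.card C).Coprime p →
      ∀ (W : Type) [AddCommGroup W] [Module (ZMod p) W] [Finite W]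
        (σ : Representation (ZMod p) C W),
        ψ (coindV C.subtype σ) (Representation.coind C.subtype σ) = 0)
    (C : Subgroup G) (hC : IsCyclic C) (N : Type) [AddCommGroup N] [Module (ZMod p) N]
    [Finite N] (σ : Representation (ZMod p) G N) :
    ψ (N ⊗[ZMod p] ((G ⧸ C) → ZMod p)) (σ.tprod (h25_perm (ZMod p) G (G ⧸ C))) = 0 := by
  rw [h73_h25_tensor_perm_eq hψ C N σ]
  exact h73_h25_coind_cyclic_vanish hψ hcyc C hC N (σ.comp C.subtype)

end corollaries

end Fermat.Agent.S56
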