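import Mathlib

/-!
# S56 / W1 / B2 : Artin's identity (permutation-character form)

For a finite group `G` there are integers `n C`, supported on the cyclic subgroups `C` of `G`,
such that for every `g : G`

  `∑_C n C * #Fix_g(G ⧸ C) = |G|`.

Proof: `Θ_A(g) := #{y | ⟨y⁻¹ g y⟩ = A}` satisfies `∑_A Θ_A = |G|`, and
`|C| * #Fix_g(G ⧸ C) = #{y | y⁻¹ g y ∈ C} = ∑_{A ≤ C} Θ_A(g)`; invert by induction on `|A|`.
Mathlib only.
-/

set_option autoImplicit false

namespace Fermat.Agent.S56

open scoped Classical in
/-- `#{y | y⁻¹ g y ∈ C}`. -/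
noncomputable def h81_P {G : Type*} [Group G] [Fintype G] (C : Subgroup G) (g : G) : ℕ :=
  (Finset.univ.filter (fun y : G => y⁻¹ * g * y ∈ C)).card

open scoped Classical in
/-- `#{y | ⟨y⁻¹ g y⟩ = A}`. -/
noncomputable def h81_Theta {G : Type*} [Group G] [Fintype G] (A : Subgroup G) (g : G) : ℕ :=
  (Finset.univ.filter (fun y : G => Subgroup.zpowers (y⁻¹ * g * y) = A)).card

theorem h81_Theta_eq_zero {G : Type*} [Group G] [Fintype G] (A : Subgroup G) (hA : ¬ IsCyclic A)
    (g : G) : h81_Theta A g = 0 := by
  classical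
  unfold h81_Theta
  rw [Finset.card_eq_zero, Finset.filter_eq_empty_iff]
  intro y _ h
  apply hA
  rw [← h]
  infer_instance

theorem h81_sum_Theta {G : Type*} [Group G] [Fintype G] [Fintype (Subgroup G)] (g : G) :
    ∑ A : Subgroup G, h81_Theta A g = Fintype.card G := by
  classical
  have h := Finset.card_eq_sum_card_fiberwise (f := fun y : G => Subgroup.zpowers (y⁻¹ * g * y))
    (s := Finset.univ) (t := Finset.univ) (fun x _ => Finset.mem_univ _)
  rw [Finset.card_univ] at h
  rw [h]
  rfl

open scoped Classical in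
theorem h81_P_eq_sum {G : Type*} [Group G] [Fintype G] [Fintype (Subgroup G)]
    (C : Subgroup G) (g : G) :
    h81_P C g = ∑ A : Subgroup G, if A ≤ C then h81_Theta A g else 0 := by
  classical
  have h := Finset.card_eq_sum_card_fiberwise (f := fun y : G => Subgroup.zpowers (y⁻¹ * g * y))
    (s := Finset.univ.filter (fun y : G => y⁻¹ * g * y ∈ C))
    (t := Finset.univ.filter (fun A : Subgroup G => A ≤ C))
    (by
      intro x hx
      simp only [Finset.coe_filter, Finset.mem_univ, true_and, Set.mem_ofPred_eq] at hx ⊢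
      exact (Subgroup.zpowers_le).2 hx)
  unfold h81_P
  rw [h, Finset.sum_filter]
  apply Finset.sum_congr rfl
  intro A _
  split_ifs with hA
  · unfold h81_Theta
    congr 1
    ext y
    simp only [Finset.mem_filter, Finset.mem_univ, true_and, and_iff_right_iff_imp]
    intro hy
    rw [← Subgroup.zpowers_le, hy]
    exact hA
  · rfl

theorem h81_fix_mul_card {G : Type*} [Group G] [Fintype G] (C : Subgroup G) (g : G) :
    Nat.card {x : G ⧸ C // g • x = x} * Nat.card C = h81_P C g := by
  classical
  have e := QuotientGroup.preimageMkEquivSubgroupProdSet C {x : G ⧸ C | g • x = x}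
  have h1 : Nat.card (QuotientGroup.mk ⁻¹' {x : G ⧸ C | g • x = x} : Set G) =
      Nat.card C * Nat.card {x : G ⧸ C // g • x = x} := by
    rw [Nat.card_congr e, Nat.card_prod]
    rfl
  have h2 : h81_P C g = Nat.card (QuotientGroup.mk ⁻¹' {x : G ⧸ C | g • x = x} : Set G) := by
    unfold h81_P
    rw [← Fintype.card_subtype, ← Nat.card_eq_fintype_card]
    apply Nat.card_congr
    apply Equiv.subtypeEquivRight
    intro y
    simp only [Set.mem_preimage, Set.mem_ofPred_eq]
    rw [MulAction.Quotient.smul_mk, QuotientGroup.eq, smul_eq_mul, ← inv_mem_iff (x := y⁻¹ * g * y)]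
    have : (g * y)⁻¹ * y = (y⁻¹ * g * y)⁻¹ := by group
    rw [this]
  rw [h2, h1, mul_comm]

theorem h81_card_lt {G : Type*} [Group G] [Finite G] {B A : Subgroup G} (h : B < A) :
    Nat.card B < Nat.card A := by
  by_contra hle
  push Not at hle
  exact h.ne (Subgroup.eq_of_le_of_card_ge h.le hle)

/-- `Θ_A` is an integral combination of the fixed-point counts on `G ⧸ B`, `B ≤ A`. -/
theorem h81_Theta_comb {G : Type*} [Group G] [Fintype G] [Fintype (Subgroup G)] (A : Subgroup G) :
    ∃ c : Subgroup G → ℤ, (∀ B, c B ≠ 0 → B ≤ A) ∧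
      ∀ g : G, (h81_Theta A g : ℤ) =
        ∑ B : Subgroup G, c B * (Nat.card {x : G ⧸ B // g • x = x} : ℤ) := by
  classical
  induction' hn : Nat.card A using Nat.strong_induction_on with n ih generalizing A
  have ih' : ∀ B : Subgroup G, B < A → ∃ c : Subgroup G → ℤ, (∀ B', c B' ≠ 0 → B' ≤ B) ∧
      ∀ g : G, (h81_Theta B g : ℤ) =
        ∑ B' : Subgroup G, c B' * (Nat.card {x : G ⧸ B' // g • x = x} : ℤ) := by
    intro B hB
    exact ih (Nat.card B) (by rw [← hn]; exact h81_card_lt hB) B rfl
  choose c hc1 hc2 using ih'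
  refine ⟨fun B' => (if B' = A then (Nat.card A : ℤ) else 0) -
    ∑ B : Subgroup G, if h : B < A then c B h B' else 0, ?_, ?_⟩
  · intro B' hB'
    by_contra hle
    apply hB'
    have h1 : B' ≠ A := fun h => hle (h ▸ le_rfl)
    simp only [h1, if_false, zero_sub, neg_eq_zero]
    apply Finset.sum_eq_zero
    intro B _
    split_ifs with h
    · by_contra h2
      exact hle ((hc1 B h B' h2).trans h.le)
    · rfl
  · intro g
    have hP := h81_P_eq_sum A g
    have hF := h81_fix_mul_card A g
    -- split the sum over `B ≤ A`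
    have hsplit : (∑ B : Subgroup G, if B ≤ A then h81_Theta B g else 0) =
        h81_Theta A g + ∑ B : Subgroup G, if B < A then h81_Theta B g else 0 := by
      have : ∀ B : Subgroup G, (if B ≤ A then h81_Theta B g else 0) =
          (if B = A then h81_Theta A g else 0) + (if B < A then h81_Theta B g else 0) := by
        intro B
        by_cases h1 : B = A
        · subst h1
          simp
        · by_cases h2 : B < A
          · simp [h1, h2, h2.le]
          · have : ¬ B ≤ A := fun h => h2 (lt_of_le_of_ne h h1)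
            simp [h1, h2, this]
      rw [Finset.sum_congr rfl (fun B _ => this B), Finset.sum_add_distrib,
        Finset.sum_ite_eq' Finset.univ A]
      simp
    have hlt : (∑ B : Subgroup G, if B < A then (h81_Theta B g : ℤ) else 0) =
        ∑ B' : Subgroup G, (∑ B : Subgroup G, if h : B < A then c B h B' else 0) *
          (Nat.card {x : G ⧸ B' // g • x = x} : ℤ) := by
      have : ∀ B' : Subgroup G, (∑ B : Subgroup G, if h : B < A then c B h B' else 0) *
          (Nat.card {x : G ⧸ B' // g • x = x} : ℤ) =
          ∑ B : Subgroup G, if h : B < A then c B h B' *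
            (Nat.card {x : G ⧸ B' // g • x = x} : ℤ) else 0 := by
        intro B'
        rw [Finset.sum_mul]
        apply Finset.sum_congr rfl
        intro B _
        split_ifs <;> simp
      rw [Finset.sum_congr rfl (fun B' _ => this B'), Finset.sum_comm]
      apply Finset.sum_congr rfl
      intro B _
      split_ifs with h
      · rw [hc2 B h g]
      · simp
    have hA : (h81_Theta A g : ℤ) = (Nat.card {x : G ⧸ A // g • x = x} : ℤ) * (Nat.card A : ℤ) -
        ∑ B : Subgroup G, if B < A then (h81_Theta B g : ℤ) else 0 := by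
      have h3 : ((h81_P A g : ℕ) : ℤ) = (h81_Theta A g : ℤ) +
          ∑ B : Subgroup G, if B < A then (h81_Theta B g : ℤ) else 0 := by
        rw [hP, hsplit]
        push_cast
        rfl
      rw [← hF] at h3
      push_cast at h3
      linarith
    rw [hA, hlt]
    simp only [sub_mul, Finset.sum_sub_distrib]
    congr 1
    rw [Finset.sum_eq_single A]
    · simp [mul_comm]
    · intro B _ hB
      simp [hB]
    · intro h
      exact absurd (Finset.mem_univ A) h

/-- **Artin's identity**, `Finset.sum` form. -/
theorem h81_artin_id_sum (G : Type*) [Group G] [Fintype G] [Fintype (Subgroup G)] :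
    ∃ n : Subgroup G → ℤ, (∀ C, n C ≠ 0 → IsCyclic C) ∧
      ∀ g : G, ∑ C : Subgroup G, n C * (Nat.card {x : G ⧸ C // g • x = x} : ℤ) = Nat.card G := by
  classical
  choose c hc1 hc2 using fun A : Subgroup G => h81_Theta_comb A
  refine ⟨fun B => ∑ A : Subgroup G, if IsCyclic A then c A B else 0, ?_, ?_⟩
  · intro B hB
    by_contra hcyc
    apply hB
    apply Finset.sum_eq_zero
    intro A _
    split_ifs with hA
    · by_contra h2
      exact hcyc (Subgroup.isCyclic_of_le (hc1 A B h2))
    · rfl
  · intro g
    have h1 : ∀ B : Subgroup G, (∑ A : Subgroup G, if IsCyclic A then c A B else 0) *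
        (Nat.card {x : G ⧸ B // g • x = x} : ℤ) =
        ∑ A : Subgroup G, if IsCyclic A then c A B * (Nat.card {x : G ⧸ B // g • x = x} : ℤ)
          else 0 := by
      intro B
      rw [Finset.sum_mul]
      apply Finset.sum_congr rfl
      intro A _
      split_ifs <;> simp
    rw [Finset.sum_congr rfl (fun B _ => h1 B), Finset.sum_comm]
    have h2 : ∀ A : Subgroup G, (∑ B : Subgroup G, if IsCyclic A then
        c A B * (Nat.card {x : G ⧸ B // g • x = x} : ℤ) else 0) = (h81_Theta A g : ℤ) := by
      intro A
      by_cases hA : IsCyclic A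
      · simp only [hA, if_true]
        rw [hc2 A g]
      · simp only [hA, if_false, Finset.sum_const_zero]
        rw [h81_Theta_eq_zero A hA g]
        simp
    rw [Finset.sum_congr rfl (fun A _ => h2 A), ← Nat.cast_sum, h81_sum_Theta g,
      Nat.card_eq_fintype_card]

/-- **Artin's identity**: for a finite group `G` there are integers `n C`, supported on the cyclic
subgroups, with `∑_C n C * #Fix_g(G ⧸ C) = |G|` for every `g`. -/
theorem h81_artin_id (G : Type*) [Group G] [Finite G] :
    ∃ n : Subgroup G → ℤ, (∀ C, n C ≠ 0 → IsCyclic C) ∧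
      ∀ g : G, ∑ᶠ C : Subgroup G, n C * (Nat.card {x : G ⧸ C // g • x = x} : ℤ) = Nat.card G := by
  classical
  have : Fintype G := Fintype.ofFinite G
  have : Fintype (Subgroup G) := Fintype.ofFinite _
  obtain ⟨n, hn1, hn2⟩ := h81_artin_id_sum G
  refine ⟨n, hn1, fun g => ?_⟩
  rw [finsum_eq_sum_of_fintype]
  exact hn2 g

end Fermat.Agent.S56
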