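import Fermat.Agent.S56.h25_RepHerb

/-!
# S56 / W1 (3d), representation theory, part 3: values of the Herbrand function

* `h25_herbrand_finite` : the Herbrand function of an additive invariant vanishes on finite
  modules;
* `h25_modP_real`, `h25_torP_real` : recognising `A/pA` and `A[p]`;
* `h25_perm` : the permutation representation on functions `X → k`, and
  `h25_herbrand_perm` : `h25_herb (ℤ^X) = ψ (𝔽_p^X)`.
-/

set_option autoImplicit false

namespace Fermat.Agent.S56

open Function

section tools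

variable {p : ℕ} {G : Type} [Group G]
  {ψ : ∀ (V : Type) [AddCommGroup V] [Module (ZMod p) V], Representation (ZMod p) G V → ℤ}

theorem h25_Pair.subsingleton_carrier {A : Type} [AddCommGroup A] {ρ : Representation ℤ G A}
    (P : h25_Pair p ρ) (h : P.W ≤ P.U) : Subsingleton P.carrier := by
  refine ⟨fun x y => ?_⟩
  obtain ⟨w, rfl⟩ := P.pr_surjective x
  obtain ⟨w', rfl⟩ := P.pr_surjective y
  rw [← sub_eq_zero, ← map_sub, P.pr_eq_zero_iff]
  exact h (w - w').2

theorem h25_pair_eq_zero (hψ : h25_IsAdditive p G ψ) {A : Type} [AddCommGroup A]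
    {ρ : Representation ℤ G A} (P : h25_Pair p ρ) (h : P.W ≤ P.U) :
    ψ P.carrier P.rep = 0 := by
  have := P.subsingleton_carrier h
  exact h25_additive_subsingleton hψ P.carrier P.rep

/-- Recognising `A/pA`. -/
theorem h25_modP_real [NeZero p] (hψ : h25_IsAdditive p G ψ) {A : Type} [AddCommGroup A]
    [Module.Finite ℤ A] (ρ : Representation ℤ G A) (V : Type) [AddCommGroup V]
    [Module (ZMod p) V] (ρV : Representation (ZMod p) G V) (π : A →+ V)
    (hπ : ∀ g a, π (ρ g a) = ρV g (π a)) (hsurj : Surjective π)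
    (hker : ∀ a, π a = 0 ↔ ∃ b, p • b = a) :
    ψ (h25_modP p ρ).carrier (h25_modP p ρ).rep = ψ V ρV := by
  refine h25_pair_real hψ (h25_modP p ρ) V ρV (π.comp (⊤ : Submodule ℤ A).subtype.toAddMonoidHom)
    ?_ ?_ ?_
  · intro g w
    exact hπ g w
  · intro v
    obtain ⟨a, rfl⟩ := hsurj v
    exact ⟨⟨a, Submodule.mem_top⟩, rfl⟩
  · intro w
    show π w = 0 ↔ (w : A) ∈ h25_mulOf p ⊤
    rw [hker]
    constructor
    · rintro ⟨b, hb⟩
      exact ⟨b, Submodule.mem_top, hb⟩
    · rintro ⟨b, -, hb⟩
      exact ⟨b, hb⟩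

/-- Recognising `A[p]`. -/
theorem h25_torP_real (hψ : h25_IsAdditive p G ψ) {A : Type} [AddCommGroup A]
    (ρ : Representation ℤ G A) (V : Type) [AddCommGroup V]
    [Module (ZMod p) V] [Finite V] (ρV : Representation (ZMod p) G V) (ι : V →+ A)
    (hι : ∀ g v, ι (ρV g v) = ρ g (ι v)) (hinj : Injective ι)
    (hrange : ∀ a, p • a = 0 ↔ ∃ v, ι v = a) :
    ψ (h25_torP p ρ).carrier (h25_torP p ρ).rep = ψ V ρV := by
  have hmem : ∀ v, ι v ∈ (h25_torP p ρ).W := by
    intro v
    show p • ι v ∈ (⊥ : Submodule ℤ A)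
    rw [Submodule.mem_bot, hrange]
    exact ⟨v, rfl⟩
  let ιW : V →+ ↥(h25_torP p ρ).W :=
    { toFun := fun v => ⟨ι v, hmem v⟩
      map_zero' := Subtype.ext (map_zero ι)
      map_add' := fun a b => Subtype.ext (map_add ι a b) }
  symm
  refine h25_additive_iso hψ V (h25_torP p ρ).carrier ρV (h25_torP p ρ).rep
    ((h25_torP p ρ).pr.comp ιW) ?_ ⟨?_, ?_⟩
  · intro g v
    show (h25_torP p ρ).pr (ιW (ρV g v)) = (h25_torP p ρ).rep g ((h25_torP p ρ).pr (ιW v))
    rw [(h25_torP p ρ).rep_pr]
    congr 1
    apply Subtype.ext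
    exact hι g v
  · rw [injective_iff_map_eq_zero]
    intro v hv
    have h1 : (h25_torP p ρ).pr (ιW v) = 0 := hv
    rw [(h25_torP p ρ).pr_eq_zero_iff] at h1
    have h2 : ι v = 0 := by
      have : ι v ∈ (⊥ : Submodule ℤ A) := h1
      rwa [Submodule.mem_bot] at this
    apply hinj
    rw [h2, map_zero]
  · intro x
    obtain ⟨w, rfl⟩ := (h25_torP p ρ).pr_surjective x
    have hw : p • (w : A) = 0 := by
      have : p • (w : A) ∈ (⊥ : Submodule ℤ A) := w.2
      rwa [Submodule.mem_bot] at this
    obtain ⟨v, hv⟩ := (hrange _).1 hw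
    refine ⟨v, ?_⟩
    show (h25_torP p ρ).pr (ιW v) = (h25_torP p ρ).pr w
    congr 1
    apply Subtype.ext
    exact hv

/-- For a torsion-free module, `ψ (A[p]) = 0`. -/
theorem h25_torP_eq_zero (hψ : h25_IsAdditive p G ψ) {A : Type} [AddCommGroup A]
    (ρ : Representation ℤ G A) (htf : ∀ a : A, p • a = 0 → a = 0) :
    ψ (h25_torP p ρ).carrier (h25_torP p ρ).rep = 0 := by
  apply h25_pair_eq_zero hψ
  intro w hw
  have : p • w ∈ (⊥ : Submodule ℤ A) := hw
  rw [Submodule.mem_bot] at this
  show w ∈ (⊥ : Submodule ℤ A)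
  rw [Submodule.mem_bot]
  exact htf w this

end tools

section finite

variable {p : ℕ} [NeZero p] {G : Type} [Group G]
  {ψ : ∀ (V : Type) [AddCommGroup V] [Module (ZMod p) V], Representation (ZMod p) G V → ℤ}

theorem h25_herbrand_finite_aux (hψ : h25_IsAdditive p G ψ) : ∀ n : ℕ, ∀ (A : Type)
    [AddCommGroup A] [Finite A] (ρ : Representation ℤ G A), Nat.card A = n →
    h25_herb p ρ ψ = 0 := by
  intro n
  induction n using Nat.strong_induction_on with
  | _ n ih =>
    intro A _ _ ρ hn
    let M : Submodule ℤ A := h25_mulOf p ⊤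
    have sM : ∀ g, M ≤ M.comap (ρ g) := fun g u hu =>
      h25_stable_mulOf ρ (h25_stable_top ρ) g u hu
    by_cases hM : M = ⊤
    · -- multiplication by `p` is bijective
      have hsurj : Surjective (fun a : A => p • a) := by
        intro a
        have : a ∈ M := by rw [hM]; exact Submodule.mem_top
        obtain ⟨b, -, hb⟩ := this
        exact ⟨b, hb⟩
      have hinj : Injective (fun a : A => p • a) := Finite.injective_iff_surjective.2 hsurj
      have h1 : ψ (h25_modP p ρ).carrier (h25_modP p ρ).rep = 0 := by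
        apply h25_pair_eq_zero hψ
        show (⊤ : Submodule ℤ A) ≤ M
        rw [hM]
      have h2 : ψ (h25_torP p ρ).carrier (h25_torP p ρ).rep = 0 := by
        apply h25_torP_eq_zero hψ
        intro a ha
        apply hinj
        show p • a = p • (0 : A)
        rw [ha, nsmul_zero]
      unfold h25_herb
      rw [h1, h2, sub_zero]
    · -- `pA` is a proper subgroup
      obtain ⟨x, hx⟩ : ∃ x : A, x ∉ M := by
        by_contra hcon
        exact hM (eq_top_iff.2 fun a _ => by_contra fun ha => hcon ⟨a, ha⟩)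
      have hcard : Nat.card ↥M < n := by
        rw [← hn]
        exact Finite.card_subtype_lt hx
      have hadd := h25_herbrand_additive hψ (ρ.subrepresentation M sM) ρ (ρ.quotient M sM)
        M.subtype.toAddMonoidHom M.mkQ.toAddMonoidHom (fun _ _ => rfl) (fun _ _ => rfl)
        M.subtype_injective M.mkQ_surjective (fun a => by
          show M.mkQ a = 0 ↔ ∃ a' : ↥M, (a' : A) = a
          rw [Submodule.mkQ_apply, Submodule.Quotient.mk_eq_zero]
          exact ⟨fun h => ⟨⟨a, h⟩, rfl⟩, fun ⟨a', h⟩ => h ▸ a'.2⟩)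
      have h1 : h25_herb p (ρ.subrepresentation M sM) ψ = 0 :=
        ih _ hcard ↥M (ρ.subrepresentation M sM) rfl
      have h2 : h25_herb p (ρ.quotient M sM) ψ = 0 := by
        unfold h25_herb
        rw [sub_eq_zero]
        refine h25_pair_congr hψ (h25_modP p (ρ.quotient M sM)) (h25_torP p (ρ.quotient M sM))
          ?_ ?_
        · show h25_mulOf p (⊤ : Submodule ℤ (A ⧸ M)) = ⊥
          rw [eq_bot_iff]
          rintro _ ⟨b, -, rfl⟩
          obtain ⟨a, rfl⟩ := M.mkQ_surjective b
          rw [Submodule.mem_bot, ← map_nsmul, Submodule.mkQ_apply,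
            Submodule.Quotient.mk_eq_zero]
          exact h25_nsmul_mem_mulOf Submodule.mem_top
        · show (⊤ : Submodule ℤ (A ⧸ M)) = h25_divOf p ⊥
          symm
          rw [eq_top_iff]
          intro b _
          obtain ⟨a, rfl⟩ := M.mkQ_surjective b
          show p • M.mkQ a ∈ (⊥ : Submodule ℤ (A ⧸ M))
          rw [Submodule.mem_bot, ← map_nsmul, Submodule.mkQ_apply,
            Submodule.Quotient.mk_eq_zero]
          exact h25_nsmul_mem_mulOf Submodule.mem_top
      rw [hadd, h1, h2, add_zero]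

/-- **The Herbrand function vanishes on finite modules.** -/
theorem h25_herbrand_finite (hψ : h25_IsAdditive p G ψ) {A : Type} [AddCommGroup A] [Finite A]
    (ρ : Representation ℤ G A) : h25_herb p ρ ψ = 0 :=
  h25_herbrand_finite_aux hψ _ A ρ rfl

/-- LATTICE LEMMA: an injective equivariant map with finite cokernel does not change the
Herbrand function. -/
theorem h25_herbrand_eq_of_finite_coker (hψ : h25_IsAdditive p G ψ) {A' A : Type}
    [AddCommGroup A'] [AddCommGroup A] [Module.Finite ℤ A] (ρ' : Representation ℤ G A')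
    (ρ : Representation ℤ G A) (i : A' →+ A) (hi : ∀ g a, i (ρ' g a) = ρ g (i a))
    (hinj : Injective i) (hfin : Finite (A ⧸ LinearMap.range i.toIntLinearMap)) :
    h25_herb p ρ ψ = h25_herb p ρ' ψ := by
  let M : Submodule ℤ A := LinearMap.range i.toIntLinearMap
  have sM : ∀ g, M ≤ M.comap (ρ g) := by
    rintro g _ ⟨a', rfl⟩
    exact ⟨ρ' g a', hi g a'⟩
  have hadd := h25_herbrand_additive hψ ρ' ρ (ρ.quotient M sM) i M.mkQ.toAddMonoidHom hi
    (fun _ _ => rfl) hinj M.mkQ_surjective (fun a => by
      show M.mkQ a = 0 ↔ ∃ a', i a' = a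
      rw [Submodule.mkQ_apply, Submodule.Quotient.mk_eq_zero]
      rfl)
  rw [hadd, h25_herbrand_finite hψ (ρ.quotient M sM), add_zero]

end finite

section perm

/-- The permutation representation of `G` on the functions `X → k`:
`(g • φ) x = φ (g⁻¹ • x)`. -/
def h25_perm (k : Type) [CommRing k] (G X : Type) [Group G] [MulAction G X] :
    Representation k G (X → k) where
  toFun g := LinearMap.funLeft k k (fun x => g⁻¹ • x)
  map_one' := by
    apply LinearMap.ext
    intro φ
    funext x
    simp [LinearMap.funLeft]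
  map_mul' g h := by
    apply LinearMap.ext
    intro φ
    funext x
    simp [LinearMap.funLeft, mul_smul]

@[simp] theorem h25_perm_apply (k : Type) [CommRing k] (G X : Type) [Group G] [MulAction G X]
    (g : G) (φ : X → k) (x : X) : h25_perm k G X g φ x = φ (g⁻¹ • x) := rfl

variable {p : ℕ} [Fact p.Prime] {G : Type} [Group G]
  {ψ : ∀ (V : Type) [AddCommGroup V] [Module (ZMod p) V], Representation (ZMod p) G V → ℤ}

/-- **The Herbrand function of a permutation lattice** is the value of `ψ` on the permutation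
module over `𝔽_p`. -/
theorem h25_herbrand_perm (hψ : h25_IsAdditive p G ψ) (X : Type) [Finite X] [MulAction G X] :
    h25_herb p (h25_perm ℤ G X) ψ = ψ (X → ZMod p) (h25_perm (ZMod p) G X) := by
  have hp : p ≠ 0 := (Fact.out : p.Prime).ne_zero
  have h1 : ψ (h25_torP p (h25_perm ℤ G X)).carrier (h25_torP p (h25_perm ℤ G X)).rep = 0 := by
    apply h25_torP_eq_zero hψ
    intro φ hφ
    funext x
    have := congrFun hφ x
    simpa [hp] using this
  have h2 : ψ (h25_modP p (h25_perm ℤ G X)).carrier (h25_modP p (h25_perm ℤ G X)).rep =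
      ψ (X → ZMod p) (h25_perm (ZMod p) G X) := by
    let π : (X → ℤ) →+ (X → ZMod p) :=
      { toFun := fun φ x => (φ x : ZMod p)
        map_zero' := by funext x; simp
        map_add' := fun a b => by funext x; simp }
    refine h25_modP_real hψ (h25_perm ℤ G X) (X → ZMod p) (h25_perm (ZMod p) G X) π ?_ ?_ ?_
    · intro g φ
      rfl
    · intro φ
      refine ⟨fun x => (φ x).val, ?_⟩
      funext x
      show (((φ x).val : ℤ) : ZMod p) = φ x
      simp
    · intro φ
      constructor
      · intro h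
        have h' : ∀ x, (p : ℤ) ∣ φ x := fun x => by
          have := congrFun h x
          exact (ZMod.intCast_zmod_eq_zero_iff_dvd _ _).1 this
        refine ⟨fun x => φ x / (p : ℤ), ?_⟩
        funext x
        show p • (φ x / (p : ℤ)) = φ x
        rw [nsmul_eq_mul]
        exact Int.mul_ediv_cancel' (h' x)
      · rintro ⟨b, rfl⟩
        funext x
        show ((p • b x : ℤ) : ZMod p) = 0
        simp
  unfold h25_herb
  rw [h1, h2, sub_zero]

end perm

end Fermat.Agent.S56
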