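import Mathlib
import Fermat.Agent.S56.h25_RepHerbFin

/-!
# W1-B1 (first half): equal characters ⟹ isomorphic; equal marks ⟹ lattice embedding

* `h88_equiv_of_char_eq`: finite group `G`, field `k` of characteristic zero, two finite
  dimensional representations with the same character are isomorphic (Maschke + Mathlib's
  `Representation.card_inv_mul_sum_char_mul_char_eq_finrank`; induction on the dimension, splitting
  off the image of a nonzero intertwiner).
* `h88_perm_embed`: two finite `G`-sets with the same marks (`#Fix_X(g) = #Fix_Y(g)` for all `g`)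
  have an injective equivariant additive map `(X → ℤ) → (Y → ℤ)` between the permutation lattices
  (`h25_perm`), with finite cokernel.
* `h88_perm_eq_of_marks`: hence every additive invariant takes the same value on `𝔽_p^X`, `𝔽_p^Y`.
-/

set_option linter.style.haveILetI false

namespace Fermat.Agent.S56

open Module Representation

section core

variable {k G : Type} [Field k] [Group G]

theorem h88_char_prod {V W : Type} [AddCommGroup V] [Module k V] [FiniteDimensional k V]
    [AddCommGroup W] [Module k W] [FiniteDimensional k W]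
    (ρ : Representation k G V) (σ : Representation k G W) (g : G) :
    (ρ.prod σ).character g = ρ.character g + σ.character g := by
  show LinearMap.trace k (V × W) ((ρ g).prodMap (σ g)) = _
  exact LinearMap.trace_prodMap' _ _

theorem h88_isCompl_toSubmodule {V : Type} [AddCommGroup V] [Module k V]
    {ρ : Representation k G V} {K S : Subrepresentation ρ} (h : IsCompl K S) :
    IsCompl K.toSubmodule S.toSubmodule := by
  constructor
  · rw [disjoint_iff]
    exact congrArg Subrepresentation.toSubmodule h.inf_eq_bot
  · rw [codisjoint_iff]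
    exact congrArg Subrepresentation.toSubmodule h.sup_eq_top

/-- Complementary subrepresentations give a product decomposition. -/
noncomputable def h88_prodEquiv {V : Type} [AddCommGroup V] [Module k V]
    (ρ : Representation k G V) (K S : Subrepresentation ρ)
    (h : IsCompl K.toSubmodule S.toSubmodule) :
    (K.toRepresentation.prod S.toRepresentation).Equiv ρ :=
  Representation.Equiv.mk (Submodule.prodEquivOfIsCompl _ _ h) (by
    intro g
    apply LinearMap.ext
    rintro ⟨a, b⟩
    simp [Subrepresentation.toRepresentation])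

theorem h88_prodEquiv_apply {V : Type} [AddCommGroup V] [Module k V]
    (ρ : Representation k G V) (K S : Subrepresentation ρ)
    (h : IsCompl K.toSubmodule S.toSubmodule)
    (x : K.toSubmodule × S.toSubmodule) :
    h88_prodEquiv ρ K S h x = (x.1 : V) + (x.2 : V) := by
  simp [h88_prodEquiv]

/-- The inclusion of a subrepresentation as an intertwining map. -/
def h88_subIncl {V : Type} [AddCommGroup V] [Module k V]
    {ρ : Representation k G V} (K : Subrepresentation ρ) :
    IntertwiningMap K.toRepresentation ρ :=
  ⟨K.toSubmodule.subtype, fun g => by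
    apply LinearMap.ext
    intro x
    rfl⟩

theorem h88_subIncl_apply {V : Type} [AddCommGroup V] [Module k V]
    {ρ : Representation k G V} (K : Subrepresentation ρ) (x : K.toSubmodule) :
    h88_subIncl K x = (x : V) := rfl

/-- **Equal characters ⟹ isomorphic** (finite group, characteristic zero), auxiliary form for
the induction on the dimension. -/
theorem h88_equiv_of_char_eq_aux [CharZero k] [Fintype G] (n : ℕ) :
    ∀ (V W : Type) [AddCommGroup V] [Module k V] [FiniteDimensional k V]
      [AddCommGroup W] [Module k W] [FiniteDimensional k W]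
      (ρ : Representation k G V) (σ : Representation k G W),
      Module.finrank k V = n → (∀ g, ρ.character g = σ.character g) →
      ∃ F : IntertwiningMap ρ σ, Function.Bijective F := by
  induction n using Nat.strong_induction_on with
  | _ n ih =>
  intro V W _ _ _ _ _ _ ρ σ hn hchar
  have hG : (Nat.card G : k) ≠ 0 := Nat.cast_ne_zero.mpr Nat.card_pos.ne'
  haveI : Invertible (Nat.card G : k) := invertibleOfNonzero hG
  haveI : NeZero (Nat.card G : k) := ⟨hG⟩
  have hdim : Module.finrank k V = Module.finrank k W := by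
    have h1 := hchar 1
    rw [char_one, char_one] at h1
    exact_mod_cast h1
  rcases subsingleton_or_nontrivial V with hV | hV
  · have hW : Subsingleton W := by
      have h0 : Module.finrank k V = 0 := Module.finrank_zero_of_subsingleton
      rw [hdim] at h0
      exact Module.finrank_zero_iff.mp h0
    exact ⟨0, fun a b _ => Subsingleton.elim _ _, fun w => ⟨0, Subsingleton.elim _ _⟩⟩
  · have hfr : Module.finrank k (IntertwiningMap ρ σ) = Module.finrank k (IntertwiningMap ρ ρ) := by
      have h1 := card_inv_mul_sum_char_mul_char_eq_finrank ρ σ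
      have h2 := card_inv_mul_sum_char_mul_char_eq_finrank ρ ρ
      have h3 : (Module.finrank k (IntertwiningMap ρ σ) : k) =
          Module.finrank k (IntertwiningMap ρ ρ) := by
        rw [← h1, ← h2]
        congr 1
        refine Finset.sum_congr rfl fun g _ => ?_
        rw [hchar g]
      exact_mod_cast h3
    have hpos : 0 < Module.finrank k (IntertwiningMap ρ σ) := by
      rw [hfr]
      refine Module.finrank_pos_iff_exists_ne_zero.mpr ⟨IntertwiningMap.id ρ, ?_⟩
      intro h0
      obtain ⟨v, hv⟩ := exists_ne (0 : V)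
      apply hv
      have h1 := congrArg (fun F : IntertwiningMap ρ ρ => F v) h0
      simpa using h1
    obtain ⟨f, hf⟩ := Module.finrank_pos_iff_exists_ne_zero.mp hpos
    obtain ⟨S, hS0⟩ := exists_isCompl f.ker
    obtain ⟨W', hW0⟩ := exists_isCompl f.range
    have hS := h88_isCompl_toSubmodule hS0
    have hW' := h88_isCompl_toSubmodule hW0
    have hker : ∀ v : V, v ∈ f.ker.toSubmodule ↔ f v = 0 := fun v => Iff.rfl
    have hran : ∀ w : W, w ∈ f.range.toSubmodule ↔ ∃ v, f v = w := fun w => Iff.rfl
    -- characters
    have c1 : ∀ g, ρ.character g =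
        f.ker.toRepresentation.character g + S.toRepresentation.character g := fun g => by
      rw [← h88_char_prod, char_iso (h88_prodEquiv ρ f.ker S hS)]
    have c2 : ∀ g, σ.character g =
        f.range.toRepresentation.character g + W'.toRepresentation.character g := fun g => by
      rw [← h88_char_prod, char_iso (h88_prodEquiv σ f.range W' hW')]
    -- `S ≅ range f`
    let fS : IntertwiningMap S.toRepresentation f.range.toRepresentation :=
      ⟨(f.toLinearMap.comp S.toSubmodule.subtype).codRestrict f.range.toSubmodule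
          (fun x => ⟨_, rfl⟩), fun g => by
        apply LinearMap.ext
        intro x
        apply Subtype.ext
        exact IntertwiningMap.isIntertwining ρ σ f g (x : V)⟩
    have hfS_apply : ∀ x : S.toSubmodule, ((fS x : f.range.toSubmodule) : W) = f x := fun x => rfl
    have hfS : Function.Bijective fS := by
      constructor
      · rw [injective_iff_map_eq_zero]
        intro x hx
        have h1 : f (x : V) = 0 := by rw [← hfS_apply, hx]; rfl
        have h2 : (x : V) ∈ f.ker.toSubmodule ⊓ S.toSubmodule := ⟨(hker _).2 h1, x.2⟩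
        rw [hS.inf_eq_bot] at h2
        exact Subtype.ext ((Submodule.mem_bot k).mp h2)
      · rintro ⟨w, hw⟩
        obtain ⟨v, rfl⟩ := (hran w).1 hw
        obtain ⟨a, ha, b, hb, rfl⟩ : ∃ a ∈ f.ker.toSubmodule, ∃ b ∈ S.toSubmodule, a + b = v := by
          have h1 : v ∈ f.ker.toSubmodule ⊔ S.toSubmodule := by
            rw [hS.sup_eq_top]; exact Submodule.mem_top
          exact Submodule.mem_sup.mp h1
        refine ⟨⟨b, hb⟩, Subtype.ext ?_⟩
        show f b = f (a + b)
        rw [map_add, (hker a).1 ha, zero_add]
    have c3 : ∀ g, S.toRepresentation.character g = f.range.toRepresentation.character g :=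
      fun g => by rw [char_iso (IntertwiningMap.ofBijective fS hfS)]
    have c4 : ∀ g, f.ker.toRepresentation.character g = W'.toRepresentation.character g :=
      fun g => by
        have e1 := c1 g
        have e2 := c2 g
        have e3 := c3 g
        have e4 := hchar g
        linear_combination e4 - e1 + e2 - e3
    have hlt : Module.finrank k f.ker.toSubmodule < n := by
      rw [← hn]
      apply Submodule.finrank_lt
      intro htop
      apply hf
      apply IntertwiningMap.ext
      apply LinearMap.ext
      intro v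
      have h1 : v ∈ f.ker.toSubmodule := by rw [htop]; exact Submodule.mem_top
      exact (hker v).1 h1
    obtain ⟨e, he⟩ := ih _ hlt f.ker.toSubmodule W'.toSubmodule f.ker.toRepresentation
      W'.toRepresentation rfl c4
    -- the projection onto the kernel
    let E := h88_prodEquiv ρ f.ker S hS
    let π : IntertwiningMap ρ f.ker.toRepresentation :=
      (IntertwiningMap.fst k _ _).comp E.symm.toIntertwiningMap
    have hπ : ∀ (v : V) (hv : f v = 0), π v = ⟨v, (hker v).2 hv⟩ := by
      intro v hv
      have key : E (⟨v, (hker v).2 hv⟩, 0) = v := by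
        rw [h88_prodEquiv_apply]
        simp
      show (E.symm v).1 = _
      conv_lhs => rw [← key]
      rw [Representation.Equiv.symm_apply_apply]
    let F : IntertwiningMap ρ σ := f + (h88_subIncl W').comp (e.comp π)
    have hF_apply : ∀ v, F v = f v + ((e (π v) : W'.toSubmodule) : W) := fun v => rfl
    have hinj : Function.Injective F := by
      rw [injective_iff_map_eq_zero]
      intro v hv
      rw [hF_apply] at hv
      have h1 : f v ∈ f.range.toSubmodule ⊓ W'.toSubmodule := by
        refine ⟨(hran _).2 ⟨v, rfl⟩, ?_⟩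
        rw [eq_neg_of_add_eq_zero_left hv]
        exact W'.toSubmodule.neg_mem (e (π v)).2
      rw [hW'.inf_eq_bot] at h1
      have h2 : f v = 0 := (Submodule.mem_bot k).mp h1
      have h3 : e (π v) = 0 := by
        apply Subtype.ext
        rw [h2, zero_add] at hv
        exact hv
      have h4 : π v = 0 := he.1 (by rw [h3, map_zero])
      rw [hπ v h2] at h4
      exact congrArg Subtype.val h4
    refine ⟨F, hinj, ?_⟩
    exact (LinearMap.injective_iff_surjective_of_finrank_eq_finrank (f := F.toLinearMap) hdim).mp
      hinj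

/-- **Equal characters ⟹ isomorphic**: two finite dimensional representations of a finite group
over a field of characteristic zero with the same character are isomorphic. -/
theorem h88_equiv_of_char_eq [CharZero k] [Finite G] {V W : Type} [AddCommGroup V] [Module k V]
    [FiniteDimensional k V] [AddCommGroup W] [Module k W] [FiniteDimensional k W]
    (ρ : Representation k G V) (σ : Representation k G W)
    (h : ∀ g, ρ.character g = σ.character g) :
    ∃ e : V ≃ₗ[k] W, ∀ g v, e (ρ g v) = σ g (e v) := by
  haveI : Fintype G := Fintype.ofFinite G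
  obtain ⟨F, hF⟩ := h88_equiv_of_char_eq_aux (k := k) (G := G) _ V W ρ σ rfl h
  refine ⟨LinearEquiv.ofBijective F.toLinearMap hF, fun g v => ?_⟩
  exact IntertwiningMap.isIntertwining ρ σ F g v

end core

section perm

variable {G : Type} [Group G]

/-- The character of the permutation representation on `X → ℚ` counts fixed points. -/
theorem h88_perm_char (X : Type) [Finite X] [MulAction G X] (g : G) :
    (h25_perm ℚ G X).character g = (Nat.card {x : X // g • x = x} : ℚ) := by
  classical
  haveI : Fintype X := Fintype.ofFinite X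
  unfold Representation.character
  rw [LinearMap.trace_eq_matrix_trace ℚ (Pi.basisFun ℚ X), Matrix.trace]
  simp only [Matrix.diag_apply, LinearMap.toMatrix_apply, Pi.basisFun_repr, Pi.basisFun_apply,
    h25_perm_apply, Pi.single_apply]
  rw [Finset.sum_boole, Nat.card_eq_fintype_card, Fintype.card_subtype]
  congr 2
  ext x
  simp only [Finset.mem_filter, Finset.mem_univ, true_and]
  rw [inv_smul_eq_iff, eq_comm]

/-- Equal marks ⟹ the rational permutation representations are isomorphic. -/
theorem h88_perm_equivQ [Finite G] (X Y : Type) [Finite X] [Finite Y] [MulAction G X]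
    [MulAction G Y]
    (h : ∀ g : G, Nat.card {x : X // g • x = x} = Nat.card {y : Y // g • y = y}) :
    ∃ e : (X → ℚ) ≃ₗ[ℚ] (Y → ℚ), ∀ g φ, e (h25_perm ℚ G X g φ) = h25_perm ℚ G Y g (e φ) := by
  apply h88_equiv_of_char_eq
  intro g
  rw [h88_perm_char, h88_perm_char, h g]

/-- Clearing denominators: a `ℚ`-linear map `ℚ^X → ℚ^Y` times a positive integer preserves the
integral lattices. -/
theorem h88_exists_int_model (X Y : Type) [Finite X] [Finite Y] (e : (X → ℚ) →ₗ[ℚ] (Y → ℚ)) :
    ∃ (D : ℕ) (f : (X → ℤ) →+ (Y → ℤ)), 0 < D ∧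
      ∀ φ y, ((f φ y : ℤ) : ℚ) = D * e (fun x => (φ x : ℚ)) y := by
  classical
  haveI : Fintype X := Fintype.ofFinite X
  haveI : Fintype Y := Fintype.ofFinite Y
  let q : X → Y → ℚ := fun x y => e (fun j => if x = j then 1 else 0) y
  let D : ℕ := ∏ x, ∏ y, (q x y).den
  have hD : 0 < D := Finset.prod_pos fun x _ => Finset.prod_pos fun y _ => (q x y).den_pos
  have hdvd : ∀ x y, (q x y).den ∣ D := fun x y =>
    dvd_trans (Finset.dvd_prod_of_mem (fun y => (q x y).den) (Finset.mem_univ y))
      (Finset.dvd_prod_of_mem (fun x => ∏ y, (q x y).den) (Finset.mem_univ x))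
  let m : X → Y → ℤ := fun x y => ((D / (q x y).den : ℕ) : ℤ) * (q x y).num
  have hm : ∀ x y, ((m x y : ℤ) : ℚ) = D * q x y := by
    intro x y
    have h1 : (D : ℚ) = ((D / (q x y).den : ℕ) : ℚ) * ((q x y).den : ℚ) := by
      rw [← Nat.cast_mul, Nat.div_mul_cancel (hdvd x y)]
    show ((((D / (q x y).den : ℕ) : ℤ) * (q x y).num : ℤ) : ℚ) = D * q x y
    rw [Int.cast_mul, Int.cast_natCast, ← Rat.mul_den_eq_num (q x y), h1]
    ring
  refine ⟨D, { toFun := fun φ y => ∑ x, φ x * m x y
               map_zero' := by funext y; simp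
               map_add' := fun a b => by
                 funext y
                 simp [add_mul, Finset.sum_add_distrib] }, hD, ?_⟩
  intro φ y
  show (((∑ x, φ x * m x y : ℤ)) : ℚ) = D * e (fun x => (φ x : ℚ)) y
  rw [LinearMap.pi_apply_eq_sum_univ e (fun x => (φ x : ℚ)), Finset.sum_apply, Int.cast_sum,
    Finset.mul_sum]
  refine Finset.sum_congr rfl fun x _ => ?_
  rw [Int.cast_mul, hm, Pi.smul_apply, smul_eq_mul]
  ring

/-- **MARKS ⟹ EMBEDDING** (`B1`, first half): two finite `G`-sets with the same number of fixed
points for every `g` have an injective equivariant additive map between their permutation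
lattices, whose image contains a multiple of the target lattice. -/
theorem h88_perm_embed_strong [Finite G] (X Y : Type) [Finite X] [Finite Y] [MulAction G X]
    [MulAction G Y]
    (h : ∀ g : G, Nat.card {x : X // g • x = x} = Nat.card {y : Y // g • y = y}) :
    ∃ f : (X → ℤ) →+ (Y → ℤ), Function.Injective f ∧
      (∀ g φ, f (h25_perm ℤ G X g φ) = h25_perm ℤ G Y g (f φ)) ∧
      ∃ N : ℕ, 0 < N ∧ ∀ ψ : Y → ℤ, ∃ φ, f φ = N • ψ := by
  obtain ⟨e, he⟩ := h88_perm_equivQ X Y h
  obtain ⟨D, f, hD, hf⟩ := h88_exists_int_model X Y e.toLinearMap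
  obtain ⟨D', f', hD', hf'⟩ := h88_exists_int_model Y X e.symm.toLinearMap
  have hDq : (D : ℚ) ≠ 0 := Nat.cast_ne_zero.mpr hD.ne'
  refine ⟨f, ?_, ?_, D * D', Nat.mul_pos hD hD', ?_⟩
  · rw [injective_iff_map_eq_zero]
    intro φ hφ
    have h0 : e (fun x => (φ x : ℚ)) = 0 := by
      funext y
      have h1 := hf φ y
      rw [hφ] at h1
      have h2 : (D : ℚ) * e (fun x => (φ x : ℚ)) y = 0 := by
        have h1' : (D : ℚ) * e (fun x => (φ x : ℚ)) y = (((0 : Y → ℤ) y : ℤ) : ℚ) := h1.symm
        rw [h1']
        simp
      exact (mul_eq_zero.mp h2).resolve_left hDq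
    have h1 : (fun x => (φ x : ℚ)) = 0 := e.injective (by rw [h0, map_zero])
    funext x
    have h2 : ((φ x : ℤ) : ℚ) = 0 := congrFun h1 x
    show φ x = 0
    exact_mod_cast h2
  · intro g φ
    funext y
    have h1 := hf (h25_perm ℤ G X g φ) y
    have h2 := hf φ (g⁻¹ • y)
    have h3 : (fun x => ((h25_perm ℤ G X g φ x : ℤ) : ℚ)) =
        h25_perm ℚ G X g (fun x => (φ x : ℚ)) := rfl
    rw [h3] at h1
    have h4 : e.toLinearMap (h25_perm ℚ G X g (fun x => (φ x : ℚ))) y =
        e.toLinearMap (fun x => (φ x : ℚ)) (g⁻¹ • y) := by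
      show e (h25_perm ℚ G X g (fun x => (φ x : ℚ))) y = _
      rw [he]
      rfl
    rw [h4, ← h2] at h1
    show f (h25_perm ℤ G X g φ) y = f φ (g⁻¹ • y)
    exact_mod_cast h1
  · intro ψ
    refine ⟨f' ψ, ?_⟩
    funext y
    have h1 := hf (f' ψ) y
    have h2 : (fun x => ((f' ψ x : ℤ) : ℚ)) = (D' : ℚ) • e.symm (fun y => (ψ y : ℚ)) := by
      funext x
      rw [hf' ψ x]
      rfl
    rw [h2] at h1
    have h3 : e.toLinearMap ((D' : ℚ) • e.symm (fun y => (ψ y : ℚ))) =
        (D' : ℚ) • (fun y => (ψ y : ℚ)) := by
      show e ((D' : ℚ) • e.symm (fun y => (ψ y : ℚ))) = _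
      rw [map_smul, LinearEquiv.apply_symm_apply]
    rw [h3] at h1
    have h4 : ((f (f' ψ) y : ℤ) : ℚ) = (((D * D' : ℕ) • ψ) y : ℤ) := by
      rw [h1]
      simp [mul_assoc]
    exact_mod_cast h4

/-- **MARKS ⟹ EMBEDDING**, in the shape asked for on the board. -/
theorem h88_perm_embed [Finite G] (X Y : Type) [Finite X] [Finite Y] [MulAction G X]
    [MulAction G Y]
    (h : ∀ g : G, Nat.card {x : X // g • x = x} = Nat.card {y : Y // g • y = y}) :
    ∃ f : (X → ℤ) →+ (Y → ℤ), Function.Injective f ∧
      ∀ g φ, f (h25_perm ℤ G X g φ) = h25_perm ℤ G Y g (f φ) := by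
  obtain ⟨f, h1, h2, -⟩ := h88_perm_embed_strong X Y h
  exact ⟨f, h1, h2⟩

end perm

section invariant

variable {p : ℕ} [Fact p.Prime] {G : Type} [Group G] [Finite G]
  {ψ : ∀ (V : Type) [AddCommGroup V] [Module (ZMod p) V], Representation (ZMod p) G V → ℤ}

/-- The cokernel of the embedding of `h88_perm_embed_strong` is finite. -/
theorem h88_finite_coker_of_smul {X Y : Type} [Finite Y] (f : (X → ℤ) →+ (Y → ℤ)) (N : ℕ)
    (hN : 0 < N) (hf : ∀ ψ : Y → ℤ, ∃ φ, f φ = N • ψ) :
    Finite ((Y → ℤ) ⧸ LinearMap.range f.toIntLinearMap) := by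
  haveI : NeZero N := ⟨hN.ne'⟩
  let c : (Y → Fin N) → ((Y → ℤ) ⧸ LinearMap.range f.toIntLinearMap) :=
    fun a => Submodule.Quotient.mk (fun y => ((a y : ℕ) : ℤ))
  refine Finite.of_surjective c ?_
  intro z
  obtain ⟨χ, rfl⟩ := Submodule.Quotient.mk_surjective _ z
  refine ⟨fun y => ⟨(χ y % (N : ℤ)).toNat, ?_⟩, ?_⟩
  · have h1 : 0 ≤ χ y % (N : ℤ) := Int.emod_nonneg _ (by exact_mod_cast hN.ne')
    have h2 : χ y % (N : ℤ) < N := Int.emod_lt_of_pos _ (by exact_mod_cast hN)
    omega
  · show Submodule.Quotient.mk _ = Submodule.Quotient.mk χ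
    rw [Submodule.Quotient.eq]
    obtain ⟨φ, hφ⟩ := hf (fun y => -(χ y / (N : ℤ)))
    refine ⟨φ, ?_⟩
    show f φ = _
    rw [hφ]
    funext y
    have h1 : 0 ≤ χ y % (N : ℤ) := Int.emod_nonneg _ (by exact_mod_cast hN.ne')
    have h2 := Int.emod_add_mul_ediv (χ y) (N : ℤ)
    show N • (-(χ y / (N : ℤ))) = (((χ y % (N : ℤ)).toNat : ℕ) : ℤ) - χ y
    rw [Int.toNat_of_nonneg h1, nsmul_eq_mul]
    linarith

/-- **Equal marks ⟹ same class** (`B1` for permutation modules): an additive invariant takes the
same value on the permutation modules `𝔽_p^X` and `𝔽_p^Y` of two finite `G`-sets with the same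
number of fixed points for every `g`. -/
theorem h88_perm_eq_of_marks (hψ : h25_IsAdditive p G ψ) (X Y : Type) [Finite X] [Finite Y]
    [MulAction G X] [MulAction G Y]
    (h : ∀ g : G, Nat.card {x : X // g • x = x} = Nat.card {y : Y // g • y = y}) :
    ψ (X → ZMod p) (h25_perm (ZMod p) G X) = ψ (Y → ZMod p) (h25_perm (ZMod p) G Y) := by
  obtain ⟨f, hinj, hf, N, hN, hsmul⟩ := h88_perm_embed_strong X Y h
  rw [← h25_herbrand_perm hψ X, ← h25_herbrand_perm hψ Y]
  exact (h25_herbrand_eq_of_finite_coker hψ (h25_perm ℤ G X) (h25_perm ℤ G Y) f hf hinj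
    (h88_finite_coker_of_smul f N hN hsmul)).symm

end invariant

end Fermat.Agent.S56
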