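import Fermat.Agent.S56.h25_RepOrb
import Fermat.Agent.S56.h73_CoindH25
import Fermat.Agent.S56.h81_ArtinId
import Fermat.Agent.S56.h88_PermIso

/-!
# S56 / W1 / row B4 (ASSEMBLY of the abstract devissage)

`h25_additive_eq_zero`: an additive invariant `ψ` of finite `𝔽_p[G]`-modules (`G` finite) which
vanishes on the modules coinduced from the cyclic subgroups of order prime to `p` vanishes
identically.

Ingredients (all on main):
* helper81's Artin identity `h81_artin_id`;
* helper88's "equal marks ⟹ same class" `h88_perm_eq_of_marks`;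
* helper73's `p`-part reduction `h73_h25_coind_cyclic_vanish`;
* the tensor trick `h25_tens_additive`, `h25_tens_perm`, the projection formula
  `h25_fun_quot_eq_coind` and the orbit formula `h25_orbit_formula` of this seat.
-/

set_option autoImplicit false

namespace Fermat.Agent.S56

section sig

variable {G : Type} [Group G]

/-- The `G`-set `⊔_B (a B copies of G ⧸ B)`. -/
abbrev h25_Sig (a : Subgroup G → ℕ) : Type := Σ B : Subgroup G, Σ _ : Fin (a B), G ⧸ B

theorem h25_sig_smul (a : Subgroup G → ℕ) (g : G) (B : Subgroup G) (i : Fin (a B))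
    (q : G ⧸ B) : g • (⟨B, ⟨i, q⟩⟩ : h25_Sig a) = ⟨B, ⟨i, g • q⟩⟩ := rfl

theorem h25_sig_smul_eq_iff (a : Subgroup G → ℕ) (g : G) (B : Subgroup G) (i : Fin (a B))
    (q : G ⧸ B) : g • (⟨B, ⟨i, q⟩⟩ : h25_Sig a) = ⟨B, ⟨i, q⟩⟩ ↔ g • q = q := by
  rw [h25_sig_smul]
  constructor
  · intro h
    have h1 := eq_of_heq (Sigma.mk.inj h).2
    exact eq_of_heq (Sigma.mk.inj h1).2
  · intro h
    rw [h]

theorem h25_sig_stabilizer (a : Subgroup G → ℕ) (B : Subgroup G) (i : Fin (a B))
    (q : G ⧸ B) :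
    MulAction.stabilizer G (⟨B, ⟨i, q⟩⟩ : h25_Sig a) = MulAction.stabilizer G q := by
  ext g
  rw [MulAction.mem_stabilizer_iff, MulAction.mem_stabilizer_iff, h25_sig_smul_eq_iff]

/-- Point stabilizers of `G ⧸ B` are conjugates of `B`, hence cyclic when `B` is. -/
theorem h25_stabilizer_quot_cyclic (B : Subgroup G) (hB : IsCyclic B) (q : G ⧸ B) :
    IsCyclic (MulAction.stabilizer G q) := by
  induction q using QuotientGroup.induction_on with
  | H g =>
    have h1 : (QuotientGroup.mk g : G ⧸ B) = g • (QuotientGroup.mk 1 : G ⧸ B) := by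
      rw [MulAction.Quotient.smul_mk, smul_eq_mul, mul_one]
    rw [h1, MulAction.stabilizer_smul_eq_stabilizer_map_conj, MulAction.stabilizer_quotient]
    exact isCyclic_of_surjective ((MulAut.conj g).toMonoidHom.subgroupMap B)
      (MonoidHom.subgroupMap_surjective _ _)

/-- Fixed points of the `G`-set `h25_Sig a`. -/
theorem h25_sig_fix [Finite G] (a : Subgroup G → ℕ) (g : G) :
    Nat.card {x : h25_Sig a // g • x = x} =
      ∑ᶠ B : Subgroup G, a B * Nat.card {q : G ⧸ B // g • q = q} := by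
  classical
  have : Fintype (Subgroup G) := Fintype.ofFinite _
  let e : {x : h25_Sig a // g • x = x} ≃
      Σ B : Subgroup G, (Fin (a B) × {q : G ⧸ B // g • q = q}) :=
    { toFun := fun x => ⟨x.1.1, (x.1.2.1, ⟨x.1.2.2,
        (h25_sig_smul_eq_iff a g x.1.1 x.1.2.1 x.1.2.2).1 x.2⟩)⟩
      invFun := fun y => ⟨⟨y.1, ⟨y.2.1, y.2.2.1⟩⟩,
        (h25_sig_smul_eq_iff a g y.1 y.2.1 y.2.2.1).2 y.2.2.2⟩
      left_inv := fun x => rfl
      right_inv := fun y => rfl }
  rw [Nat.card_congr e, Nat.card_sigma, finsum_eq_sum_of_fintype]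
  apply Finset.sum_congr rfl
  intro B _
  rw [Nat.card_prod, Nat.card_fin]

end sig

section dev

variable {p : ℕ} [Fact p.Prime] {G : Type} [Group G] [Finite G]
  {ψ : ∀ (V : Type) [AddCommGroup V] [Module (ZMod p) V], Representation (ZMod p) G V → ℤ}

/-- Two sigma `G`-sets with the same marks have the same `ψ (- → N)`. -/
theorem h25_sig_eq_of_marks (hψ : h25_IsAdditive p G ψ) (N : Type) [AddCommGroup N]
    [Module (ZMod p) N] [Finite N] (σ : Representation (ZMod p) G N) (a b : Subgroup G → ℕ)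
    (h : ∀ g : G, ∑ᶠ B : Subgroup G, a B * Nat.card {q : G ⧸ B // g • q = q} =
      ∑ᶠ B : Subgroup G, b B * Nat.card {q : G ⧸ B // g • q = q}) :
    ψ (h25_Sig a → N) (h25_funRep σ (h25_Sig a)) =
      ψ (h25_Sig b → N) (h25_funRep σ (h25_Sig b)) := by
  rw [← h25_tens_perm hψ N σ (h25_Sig a), ← h25_tens_perm hψ N σ (h25_Sig b)]
  exact h88_perm_eq_of_marks (h25_tens_additive hψ N σ) (h25_Sig a) (h25_Sig b)
    (fun g => by rw [h25_sig_fix, h25_sig_fix, h g])

/-- If all the `B` occurring in `a` are cyclic and `G` is not, `ψ (h25_Sig a → N) = 0`. -/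
theorem h25_sig_cyclic_zero (hψ : h25_IsAdditive p G ψ) (N : Type) [AddCommGroup N]
    [Module (ZMod p) N] [Finite N] (σ : Representation (ZMod p) G N)
    (hq : ∀ H : Subgroup G, IsCyclic H → ψ ((G ⧸ H) → N) (h25_funRep σ (G ⧸ H)) = 0)
    (hG : ¬ IsCyclic G) (a : Subgroup G → ℕ) (ha : ∀ B, a B ≠ 0 → IsCyclic B) :
    ψ (h25_Sig a → N) (h25_funRep σ (h25_Sig a)) = 0 := by
  have hst : ∀ x : h25_Sig a, IsCyclic (MulAction.stabilizer G x) := by
    rintro ⟨B, i, q⟩
    rw [h25_sig_stabilizer]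
    exact h25_stabilizer_quot_cyclic B (ha B i.pos.ne') q
  rw [h25_orbit_formula σ hψ (fun x _ => hq _ (hst x))]
  apply finsum_eq_zero_of_forall_eq_zero
  intro x
  rw [if_neg]
  intro htop
  apply hG
  have h1 := hst x
  rw [htop] at h1
  exact isCyclic_of_surjective (⊤ : Subgroup G).subtype
    (fun g => ⟨⟨g, Subgroup.mem_top g⟩, rfl⟩)

/-- If the `B ≠ ⊤` occurring in `b` are cyclic and `⊤` occurs, then `ψ (h25_Sig b → N)` is a
nonzero multiple of `ψ N`. -/
theorem h25_sig_top_count (hψ : h25_IsAdditive p G ψ) (N : Type) [AddCommGroup N]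
    [Module (ZMod p) N] [Finite N] (σ : Representation (ZMod p) G N)
    (hq : ∀ H : Subgroup G, IsCyclic H → ψ ((G ⧸ H) → N) (h25_funRep σ (G ⧸ H)) = 0)
    (b : Subgroup G → ℕ) (hb : ∀ B, B ≠ ⊤ → b B ≠ 0 → IsCyclic B) (hbtop : b ⊤ ≠ 0) :
    ∃ k : ℕ, k ≠ 0 ∧ ψ (h25_Sig b → N) (h25_funRep σ (h25_Sig b)) = k * ψ N σ := by
  classical
  have : Fintype (h25_Sig b) := Fintype.ofFinite _
  have htopst : ∀ (i : Fin (b ⊤)) (q : G ⧸ (⊤ : Subgroup G)),
      MulAction.stabilizer G (⟨⊤, ⟨i, q⟩⟩ : h25_Sig b) = ⊤ := by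
    intro i q
    have hss : Subsingleton (G ⧸ (⊤ : Subgroup G)) := QuotientGroup.subsingleton_quotient_top
    rw [h25_sig_stabilizer]
    ext g
    rw [MulAction.mem_stabilizer_iff]
    exact ⟨fun _ => Subgroup.mem_top g, fun _ => Subsingleton.elim _ _⟩
  have h0 : ∀ x : h25_Sig b, MulAction.stabilizer G x ≠ ⊤ →
      ψ ((G ⧸ MulAction.stabilizer G x) → N)
        (h25_funRep σ (G ⧸ MulAction.stabilizer G x)) = 0 := by
    rintro ⟨B, i, q⟩ hne
    apply hq
    by_cases hB : B = ⊤
    · subst hB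
      exact absurd (htopst i q) hne
    · rw [h25_sig_stabilizer]
      exact h25_stabilizer_quot_cyclic B (hb B hB i.pos.ne') q
  rw [h25_orbit_formula σ hψ h0, finsum_eq_sum_of_fintype]
  refine ⟨(Finset.univ.filter (fun x : h25_Sig b => MulAction.stabilizer G x = ⊤)).card, ?_, ?_⟩
  · rw [Finset.card_ne_zero]
    refine ⟨⟨⊤, ⟨⟨0, Nat.pos_of_ne_zero hbtop⟩, QuotientGroup.mk 1⟩⟩, ?_⟩
    rw [Finset.mem_filter]
    exact ⟨Finset.mem_univ _, htopst _ _⟩
  · rw [Finset.sum_ite, Finset.sum_const, Finset.sum_const_zero, add_zero, nsmul_eq_mul]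

/-- **B4 (abstract devissage)**: an additive invariant of finite `𝔽_p[G]`-modules which vanishes
on the modules coinduced from cyclic subgroups of order prime to `p` vanishes identically. -/
theorem h25_additive_eq_zero
    (ψ : ∀ (V : Type) [AddCommGroup V] [Module (ZMod p) V], Representation (ZMod p) G V → ℤ)
    (hψ : h25_IsAdditive p G ψ)
    (hcyc : ∀ C : Subgroup G, IsCyclic C → (Nat.card C).Coprime p →
      ∀ (W : Type) [AddCommGroup W] [Module (ZMod p) W] [Finite W]
        (σ : Representation (ZMod p) C W),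
        ψ (Representation.coindV C.subtype σ) (Representation.coind C.subtype σ) = 0)
    (V : Type) [AddCommGroup V] [Module (ZMod p) V] [Finite V]
    (ρ : Representation (ZMod p) G V) : ψ V ρ = 0 := by
  classical
  have hq : ∀ H : Subgroup G, IsCyclic H → ψ ((G ⧸ H) → V) (h25_funRep ρ (G ⧸ H)) = 0 := by
    intro H hH
    rw [h25_fun_quot_eq_coind hψ H V ρ]
    exact h73_h25_coind_cyclic_vanish hψ hcyc H hH V (ρ.comp H.subtype)
  by_cases hG : IsCyclic G
  · rw [← h25_fun_top ρ hψ]
    exact hq ⊤ inferInstance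
  · obtain ⟨n, hn1, hn2⟩ := h81_artin_id G
    have hntop : n ⊤ = 0 := by
      by_contra h
      have h1 := hn1 ⊤ h
      exact hG (isCyclic_of_surjective (⊤ : Subgroup G).subtype
        (fun g => ⟨⟨g, Subgroup.mem_top g⟩, rfl⟩))
    let a : Subgroup G → ℕ := fun B => (n B).toNat
    let b : Subgroup G → ℕ := fun B => (-n B).toNat + (if B = ⊤ then Nat.card G else 0)
    have ha : ∀ B, a B ≠ 0 → IsCyclic B := by
      intro B h
      apply hn1 B
      intro h0
      apply h
      show (n B).toNat = 0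
      rw [h0]
      rfl
    have hb : ∀ B, B ≠ ⊤ → b B ≠ 0 → IsCyclic B := by
      intro B hB h
      apply hn1 B
      intro h0
      apply h
      show (-n B).toNat + (if B = ⊤ then Nat.card G else 0) = 0
      rw [h0, if_neg hB]
      rfl
    have hbtop : b ⊤ ≠ 0 := by
      show (-n ⊤).toNat + (if (⊤ : Subgroup G) = ⊤ then Nat.card G else 0) ≠ 0
      rw [if_pos rfl, hntop]
      have := Nat.card_pos (α := G)
      simp
      omega
    have hmarks : ∀ g : G, ∑ᶠ B : Subgroup G, a B * Nat.card {q : G ⧸ B // g • q = q} =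
        ∑ᶠ B : Subgroup G, b B * Nat.card {q : G ⧸ B // g • q = q} := by
      intro g
      have : Fintype (Subgroup G) := Fintype.ofFinite _
      have h2 := hn2 g
      rw [finsum_eq_sum_of_fintype] at h2
      rw [finsum_eq_sum_of_fintype, finsum_eq_sum_of_fintype]
      have hone : Nat.card {q : G ⧸ (⊤ : Subgroup G) // g • q = q} = 1 := by
        have hss : Subsingleton (G ⧸ (⊤ : Subgroup G)) := QuotientGroup.subsingleton_quotient_top
        exact Nat.card_eq_one_iff_unique.2 ⟨⟨fun x y => Subtype.ext (Subsingleton.elim _ _)⟩,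
          ⟨⟨QuotientGroup.mk 1, Subsingleton.elim _ _⟩⟩⟩
      have h4 : ∀ B : Subgroup G,
          ((a B : ℤ) - (b B : ℤ)) * (Nat.card {q : G ⧸ B // g • q = q} : ℤ) =
            n B * (Nat.card {q : G ⧸ B // g • q = q} : ℤ) -
              (if B = ⊤ then (Nat.card G : ℤ) * (Nat.card {q : G ⧸ B // g • q = q} : ℤ)
                else 0) := by
        intro B
        have h5 : (a B : ℤ) - (b B : ℤ) = n B - (if B = ⊤ then (Nat.card G : ℤ) else 0) := by
          show (((n B).toNat : ℕ) : ℤ) -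
            (((-n B).toNat + (if B = ⊤ then Nat.card G else 0) : ℕ) : ℤ) = _
          have h6 := Int.toNat_sub_toNat_neg (n B)
          push_cast
          split_ifs <;> linarith
        rw [h5]
        split_ifs <;> ring
      have h3 : (∑ B : Subgroup G,
          ((a B : ℤ) - (b B : ℤ)) * (Nat.card {q : G ⧸ B // g • q = q} : ℤ)) = 0 := by
        rw [Finset.sum_congr rfl (fun B _ => h4 B), Finset.sum_sub_distrib, h2,
          Finset.sum_ite_eq' Finset.univ (⊤ : Subgroup G)
            (fun B => (Nat.card G : ℤ) * (Nat.card {q : G ⧸ B // g • q = q} : ℤ)),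
          if_pos (Finset.mem_univ _), hone]
        simp
      have h7 : ((∑ B : Subgroup G, a B * Nat.card {q : G ⧸ B // g • q = q} : ℕ) : ℤ) =
          ((∑ B : Subgroup G, b B * Nat.card {q : G ⧸ B // g • q = q} : ℕ) : ℤ) := by
        push_cast
        rw [← sub_eq_zero, ← Finset.sum_sub_distrib, ← h3]
        apply Finset.sum_congr rfl
        intro B _
        ring
      exact_mod_cast h7
    have e1 := h25_sig_eq_of_marks hψ V ρ a b hmarks
    have e2 := h25_sig_cyclic_zero hψ V ρ hq hG a ha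
    obtain ⟨k, hk, e3⟩ := h25_sig_top_count hψ V ρ hq b hb hbtop
    rw [e2, e3] at e1
    rcases mul_eq_zero.1 e1.symm with h | h
    · exact absurd (by exact_mod_cast h) hk
    · exact h

/-- `h25_additive_eq_zero` in the binder shape of the W1 skeleton (`h37_devissage`). -/
theorem h25_devissage (p : ℕ) [Fact p.Prime] {G : Type} [Group G] [Finite G]
    {ψ : ∀ (V : Type) [AddCommGroup V] [Module (ZMod p) V], Representation (ZMod p) G V → ℤ}
    (hψ : h25_IsAdditive p G ψ)
    (hcyc : ∀ C : Subgroup G, IsCyclic C → (Nat.card C).Coprime p →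
      ∀ (W : Type) [AddCommGroup W] [Module (ZMod p) W] [Finite W]
        (σ : Representation (ZMod p) C W),
        ψ (Representation.coindV C.subtype σ) (Representation.coind C.subtype σ) = 0) :
    ∀ (V : Type) [AddCommGroup V] [Module (ZMod p) V] [Finite V]
      (ρ : Representation (ZMod p) G V), ψ V ρ = 0 :=
  fun V _ _ _ ρ => h25_additive_eq_zero ψ hψ hcyc V ρ

end dev

end Fermat.Agent.S56
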