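import Fermat.Agent.S56.h72_Glue
import Fermat.Agent.S56.h25_RepDev

/-!
# S56, front W1: (E) Tate's Euler characteristic formula from the base case

`h72_EC_of_base` : if the invariant `h72_delta S L₀` vanishes on the modules coinduced from the
cyclic subgroups of order prime to `p` of `G = G_ℚ ⧸ L₀.U` (the BASE case), then for every finite
`𝔽_p[G_ℚ]`-module `M` on which `L₀.U` acts trivially

  `χ_S(M) = h⁰ - h¹ + h² = - dim ker (M.ρ c + 1)`      (`c` = complex conjugation).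

Proof: `h72_delta_isAdditive` (GLUE) + helper25's dévissage `h25_devissage`.
-/

set_option autoImplicit false

open CategoryTheory Module groupCohomology ExtCitation

noncomputable section

namespace Fermat.Agent.S56

open Fermat.Agent.S55

local notation "GQ" => (AlgebraicClosure ℚ ≃ₐ[ℚ] AlgebraicClosure ℚ)

variable {p : ℕ} [Fact p.Prime] {S : Finset Nat.Primes}
  {CC : Type} [AddCommGroup CC] [DistribMulAction GQ CC]
  {JJ : ↥S → Type} [∀ q, AddCommGroup (JJ q)] [∀ q, DistribMulAction GQ (JJ q)]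
  {XX : ↥S → Type} [∀ q, AddCommGroup (XX q)]
  [∀ q : ↥S, DistribMulAction (primeLocalGaloisGroup q.1) (XX q)]
  {κ : ∀ q, JJ q →+ CC} {ev : ∀ q, JJ q →+ XX q} {zz : ∀ q, XX q}

/-- The descent of a representation of `G_ℚ` which is trivial on `L₀.U` to `G_ℚ ⧸ L₀.U`. -/
def h72_descent (L₀ : h72_Lev S) (M : Rep.{0, 0, 0} (ZMod p) GQ) (hM : ∀ s ∈ L₀.U, M.ρ s = 1) :
    Representation (ZMod p) (GQ ⧸ L₀.U) M :=
  QuotientGroup.lift L₀.U M.ρ (fun s hs => hM s hs)

theorem h72_descent_mk (L₀ : h72_Lev S) (M : Rep.{0, 0, 0} (ZMod p) GQ)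
    (hM : ∀ s ∈ L₀.U, M.ρ s = 1) (g : GQ) :
    h72_descent L₀ M hM (QuotientGroup.mk g) = M.ρ g := rfl

theorem h72_infl_descent (L₀ : h72_Lev S) (M : Rep.{0, 0, 0} (ZMod p) GQ)
    (hM : ∀ s ∈ L₀.U, M.ρ s = 1) : h72_infl L₀ (h72_descent L₀ M hM) = M := by
  have h : (h72_descent L₀ M hM).comp (QuotientGroup.mk' L₀.U) = M.ρ := by
    ext g : 1
    rfl
  unfold h72_infl
  rw [h]

/-- **(E) W1-EC from the base case.** -/
theorem h72_EC_of_base (hp2 : p ≠ 2) (hpS : pPrime p ∈ S)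
    (hA : h72_PTAmbient p S CC JJ XX κ ev zz) (L₀ : h72_Lev S)
    (hbase : ∀ C : Subgroup (GQ ⧸ L₀.U), IsCyclic C → (Nat.card C).Coprime p →
      ∀ (W : Type) [AddCommGroup W] [Module (ZMod p) W] [Finite W]
        (σ : Representation (ZMod p) C W),
        h72_delta S L₀ (Representation.coindV C.subtype σ) (Representation.coind C.subtype σ) = 0)
    (M : Rep.{0, 0, 0} (ZMod p) GQ) [Finite M] (hM : ∀ s ∈ L₀.U, M.ρ s = 1) :
    h72_chi S M = -(Module.finrank (ZMod p) ↥(LinearMap.ker (M.ρ complexConjugation + 1)) : ℤ) := by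
  have h := h25_devissage p (h72_delta_isAdditive hp2 hpS hA L₀) hbase M (h72_descent L₀ M hM)
  unfold h72_delta at h
  rw [h72_infl_descent, h72_descent_mk] at h
  linarith

end Fermat.Agent.S56
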