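import Fermat.Agent.S55.h92_SUnits
import Fermat.Agent.S55.h46_UnramVal

/-!
# S56 W1, row C6a CLASS-KILL (helper92)

`F` a number field.  After inverting finitely many primes the class group dies:

* `h92_ck_exists_uniformizers` : there is a finite set `T0` of primes of `F` such that every
  prime `w ∉ T0` has a "uniformizer away from `T0`": `y ∈ Fˣ` with `v_w(y) = 1` and
  `v_{w'}(y) = 0` for all `w' ∉ T0`, `w' ≠ w`;
* `h92_ck_decomp` : for every set of primes `S ⊇ T0`, every `x ∈ Fˣ` whose valuations outside `S`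
  are divisible by `p` is `u * y ^ p` with `u` an `S`-unit;
* `h92_ck_selmer` : the same with `S` a finite set of rational primes: for `S ⊇ T0` the `S`-units
  surject onto Mathlib's Selmer group `F(S, p)`.
-/

set_option autoImplicit false

noncomputable section

open IsDedekindDomain NumberField

open scoped nonZeroDivisors

namespace Fermat.Agent.S56

open Fermat.Agent.S55

variable (F : Type*) [Field F] [NumberField F]

/-- the valuation of a nonzero integer as a `valuationOfNeZero` -/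
theorem h92_ck_val_mk0 (v : HeightOneSpectrum (𝓞 F)) (b : 𝓞 F)
    (hb : algebraMap (𝓞 F) F b ≠ 0) :
    ((v.valuationOfNeZero (Units.mk0 _ hb) : Multiplicative ℤ) : WithZero (Multiplicative ℤ)) =
      v.intValuation b := by
  rw [HeightOneSpectrum.valuationOfNeZero_eq, Units.val_mk0,
    HeightOneSpectrum.valuation_of_algebraMap]

/-- **Uniformizers away from a finite set.** -/
theorem h92_ck_exists_uniformizers :
    ∃ T0 : Finset (HeightOneSpectrum (𝓞 F)), ∀ w : HeightOneSpectrum (𝓞 F), w ∉ T0 →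
      ∃ y : Fˣ, w.valuationOfNeZero y = Multiplicative.ofAdd (-1 : ℤ) ∧
        ∀ w' : HeightOneSpectrum (𝓞 F), w' ∉ T0 → w' ≠ w → w'.valuationOfNeZero y = 1 := by
  classical
  have hsurj : ∀ c : ClassGroup (𝓞 F), ∃ I : (Ideal (𝓞 F))⁰, ClassGroup.mk0 I = c :=
    ClassGroup.mk0_surjective
  choose I hI using hsurj
  have hI0 : ∀ c, (I c : Ideal (𝓞 F)) ≠ 0 := fun c => nonZeroDivisors.coe_ne_zero (I c)
  have hfin : (⋃ c : ClassGroup (𝓞 F),
      {v : HeightOneSpectrum (𝓞 F) | v.asIdeal ∣ (I c : Ideal (𝓞 F))}).Finite :=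
    Set.finite_iUnion fun c => Ideal.finite_factors (hI0 c)
  refine ⟨hfin.toFinset, fun w hw => ?_⟩
  have hw' : ∀ c, ¬ w.asIdeal ∣ (I c : Ideal (𝓞 F)) := fun c hc =>
    hw (hfin.mem_toFinset.mpr (Set.mem_iUnion.mpr ⟨c, hc⟩))
  let I0 : (Ideal (𝓞 F))⁰ := ⟨w.asIdeal, mem_nonZeroDivisors_of_ne_zero w.ne_bot⟩
  set c := (ClassGroup.mk0 I0)⁻¹ with hc
  have h1 : ClassGroup.mk0 (I0 * I c) = 1 := by
    rw [map_mul, hI, hc, mul_inv_cancel]
  rw [ClassGroup.mk0_eq_one_iff] at h1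
  obtain ⟨b, hb⟩ := h1.principal
  have hb' : w.asIdeal * (I c : Ideal (𝓞 F)) = Ideal.span {b} := by
    rw [← Ideal.submodule_span_eq, ← hb]
    simp [I0]
  have hbne : b ≠ 0 := by
    rintro rfl
    rw [Ideal.span_singleton_eq_bot.mpr rfl] at hb'
    rcases mul_eq_zero.mp hb' with h | h
    · exact w.ne_bot h
    · exact hI0 c h
  have hbF : algebraMap (𝓞 F) F b ≠ 0 := by simpa using hbne
  refine ⟨Units.mk0 _ hbF, ?_, fun w' hw'T hw'w => ?_⟩
  · rw [← WithZero.coe_inj, h92_ck_val_mk0]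
    show w.intValuation b = WithZero.exp (-((1 : ℕ) : ℤ))
    refine le_antisymm ?_ ?_
    · refine (w.intValuation_le_pow_iff_dvd b 1).mpr ?_
      rw [pow_one, ← hb']
      exact Dvd.intro _ rfl
    · refine (w.exp_le_intValuation_iff_emultiplicity_le (r := b) (n := 1)).mpr ?_
      rw [← ENat.lt_natCast_add_one_iff, ← ENat.natCast_one, ← ENat.natCast_add,
        emultiplicity_lt_iff_not_dvd, ← hb']
      intro hdvd
      rw [show (1 + 1 : ℕ) = 2 from rfl, pow_two] at hdvd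
      exact hw' c ((mul_dvd_mul_iff_left w.ne_bot).mp hdvd)
  · rw [← WithZero.coe_inj, h92_ck_val_mk0, WithZero.coe_one]
    refine le_antisymm (w'.intValuation_le_one b) (not_lt.mp ?_)
    rw [HeightOneSpectrum.intValuation_lt_one_iff_dvd, ← hb']
    intro hdvd
    rcases w'.prime.dvd_or_dvd hdvd with h | h
    · have h5 : w.asIdeal ≤ w'.asIdeal := Ideal.dvd_iff_le.mp h
      have h6 : w.asIdeal = w'.asIdeal := w.isMaximal.eq_of_le w'.isPrime.ne_top h5
      exact hw'w (HeightOneSpectrum.ext h6.symm)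
    · exact hw'T (hfin.mem_toFinset.mpr (Set.mem_iUnion.mpr ⟨c, h⟩))

/-- the support of a nonzero element is finite -/
theorem h92_ck_finite_support (x : Fˣ) :
    {w : HeightOneSpectrum (𝓞 F) | w.valuationOfNeZero x ≠ 1}.Finite := by
  refine Set.Finite.subset ((HeightOneSpectrum.Support.finite (𝓞 F) (x : F)).union
    (HeightOneSpectrum.Support.finite (𝓞 F) ((x⁻¹ : Fˣ) : F))) ?_
  intro w hw
  have h1 : ((w.valuationOfNeZero x : Multiplicative ℤ) : WithZero (Multiplicative ℤ)) =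
      w.valuation F (x : F) := HeightOneSpectrum.valuationOfNeZero_eq w x
  have h2 : w.valuation F (x : F) ≠ 1 := by
    rw [← h1]
    intro h
    exact hw (WithZero.coe_inj.mp h)
  rcases lt_or_gt_of_ne h2 with h | h
  · right
    show 1 < w.valuation F ((x⁻¹ : Fˣ) : F)
    rw [Units.val_inv_eq_inv_val, map_inv₀]
    exact (one_lt_inv₀ (by
      rw [Valuation.pos_iff]
      exact x.ne_zero)).mpr h
  · left
    exact h

/-- **Decomposition.** For `S ⊇ T0`, an element whose valuations outside `S` are divisible by `p`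
is an `S`-unit times a `p`-th power. -/
theorem h92_ck_decomp :
    ∃ T0 : Finset (HeightOneSpectrum (𝓞 F)), ∀ S : Set (HeightOneSpectrum (𝓞 F)),
      (T0 : Set (HeightOneSpectrum (𝓞 F))) ⊆ S → ∀ (p : ℕ) (x : Fˣ),
        (∀ w : HeightOneSpectrum (𝓞 F), w ∉ S →
          ∃ j : ℤ, w.valuationOfNeZero x = Multiplicative.ofAdd ((p : ℤ) * j)) →
        ∃ u ∈ S.unit F, ∃ y : Fˣ, x = u * y ^ p := by
  classical
  obtain ⟨T0, hT0⟩ := h92_ck_exists_uniformizers F
  refine ⟨T0, fun S hS p x hx => ?_⟩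
  -- uniformizers
  have hπ : ∀ w : HeightOneSpectrum (𝓞 F), ∃ y : Fˣ, w ∉ T0 →
      (w.valuationOfNeZero y = Multiplicative.ofAdd (-1 : ℤ) ∧
        ∀ w' : HeightOneSpectrum (𝓞 F), w' ∉ T0 → w' ≠ w → w'.valuationOfNeZero y = 1) := by
    intro w
    by_cases hw : w ∈ T0
    · exact ⟨1, fun h => absurd hw h⟩
    · obtain ⟨y, hy⟩ := hT0 w hw
      exact ⟨y, fun _ => hy⟩
  choose π hπ using hπ
  -- exponents
  have hj : ∀ w : HeightOneSpectrum (𝓞 F), ∃ j : ℤ, (w.valuationOfNeZero x = 1 → j = 0) ∧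
      (w ∉ S → w.valuationOfNeZero x = Multiplicative.ofAdd ((p : ℤ) * j)) := by
    intro w
    by_cases h1 : w.valuationOfNeZero x = 1
    · exact ⟨0, fun _ => rfl, fun _ => by rw [h1, mul_zero, ofAdd_zero]⟩
    · by_cases hw : w ∈ S
      · exact ⟨0, fun h => absurd h h1, fun h => absurd hw h⟩
      · obtain ⟨j, hj⟩ := hx w hw
        exact ⟨j, fun h => absurd h h1, fun _ => hj⟩
  choose j hj0 hj using hj
  set fs : Finset (HeightOneSpectrum (𝓞 F)) :=
    (h92_ck_finite_support F x).toFinset.filter (fun w => w ∉ S) with hfs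
  set y : Fˣ := ∏ w ∈ fs, π w ^ (-(j w)) with hy
  have hvaly : ∀ v : HeightOneSpectrum (𝓞 F), v ∉ S →
      v.valuationOfNeZero y = Multiplicative.ofAdd (j v) := by
    intro v hv
    have hvT : v ∉ T0 := fun h => hv (hS h)
    rw [hy, map_prod]
    rw [Finset.prod_eq_single v]
    · rw [map_zpow, (hπ v hvT).1, ← ofAdd_zsmul]
      congr 1
      simp
    · intro w hw hwv
      have hwS : w ∉ S := (Finset.mem_filter.mp hw).2
      have hwT : w ∉ T0 := fun h => hwS (hS h)
      rw [map_zpow, (hπ w hwT).2 v hvT (Ne.symm hwv), one_zpow]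
    · intro hvfs
      have h1 : v.valuationOfNeZero x = 1 := by
        by_contra h
        exact hvfs (Finset.mem_filter.mpr ⟨(h92_ck_finite_support F x).mem_toFinset.mpr h, hv⟩)
      rw [hj0 v h1, neg_zero, zpow_zero, map_one]
  refine ⟨x * (y ^ p)⁻¹, ?_, y, by rw [inv_mul_cancel_right]⟩
  rw [h92_mem_unit_iff]
  intro v hv
  rw [map_mul, map_inv, map_pow, hvaly v hv, hj v hv, ← ofAdd_nsmul, ← ofAdd_neg, ← ofAdd_add]
  rw [ofAdd_eq_one]
  simp

/-- a prime ideal containing a nonzero natural number contains a prime number -/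
theorem h92_ck_exists_prime_mem {R : Type*} [CommRing R] (P : Ideal R) (hP : P.IsPrime) :
    ∀ n : ℕ, n ≠ 0 → ((n : ℕ) : R) ∈ P → ∃ q : Nat.Primes, ((q : ℕ) : R) ∈ P := by
  intro n
  induction n using Nat.strong_induction_on with
  | _ n ih =>
    intro hn0 hn
    by_cases h1 : n = 1
    · subst h1
      rw [Nat.cast_one] at hn
      exact absurd ((Ideal.eq_top_iff_one P).mpr hn) hP.ne_top
    · have hq := Nat.minFac_prime h1
      obtain ⟨m, hm⟩ := Nat.minFac_dvd n
      have hm0 : m ≠ 0 := by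
        rintro rfl
        rw [mul_zero] at hm
        exact hn0 hm
      have hlt : m < n := by
        conv_rhs => rw [hm]
        exact lt_mul_of_one_lt_left (Nat.pos_of_ne_zero hm0) hq.one_lt
      have hn' : ((n.minFac : ℕ) : R) * ((m : ℕ) : R) ∈ P := by
        rw [← Nat.cast_mul, ← hm]
        exact hn
      rcases hP.mem_or_mem hn' with h | h
      · exact ⟨⟨_, hq⟩, h⟩
      · exact ih m hlt hm0 h

/-- the rational prime below a prime of `F` -/
theorem h92_ck_exists_prime_below (w : HeightOneSpectrum (𝓞 F)) :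
    ∃ q : Nat.Primes, ((q : ℕ) : 𝓞 F) ∈ w.asIdeal := by
  refine h92_ck_exists_prime_mem w.asIdeal w.isPrime (Ideal.absNorm w.asIdeal) ?_
    (Ideal.absNorm_mem w.asIdeal)
  rw [Ne, Ideal.absNorm_eq_zero_iff]
  exact w.ne_bot

/-- the primes of `F` over a set of rational primes (for `F = ↥K₀`, `K₀` an intermediate field
of `ℚ̄/ℚ`, this is `h46_primesOver S K₀` by `rfl`) -/
def h92_ck_primesOver (S : Finset Nat.Primes) : Set (HeightOneSpectrum (𝓞 F)) :=
  {v | ∃ q ∈ S, ((q : ℕ) : 𝓞 F) ∈ v.asIdeal}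

theorem h92_ck_primesOver_eq (S : Finset Nat.Primes)
    (K₀ : IntermediateField ℚ (AlgebraicClosure ℚ)) [NumberField K₀] :
    h92_ck_primesOver (↥K₀) S = h46_primesOver S K₀ := rfl

/-- membership in the Selmer group gives divisibility of the valuations -/
theorem h92_ck_val_of_selmer (S : Set (HeightOneSpectrum (𝓞 F))) (p : ℕ) (x : Fˣ)
    (hx : (QuotientGroup.mk x : Fˣ ⧸ (powMonoidHom p : Fˣ →* Fˣ).range) ∈
      selmerGroup (R := 𝓞 F) (K := F) (S := S) (n := p))
    (w : HeightOneSpectrum (𝓞 F)) (hw : w ∉ S) :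
    ∃ j : ℤ, w.valuationOfNeZero x = Multiplicative.ofAdd ((p : ℤ) * j) := by
  have h0 := hx w hw
  have h1 : w.valuationOfNeZeroMod p
      (QuotientGroup.mk x : Fˣ ⧸ (powMonoidHom p : Fˣ →* Fˣ).range) =
      (Int.quotientZMultiplesNatEquivZMod p).toMultiplicative
        (Multiplicative.ofAdd (QuotientAddGroup.mk
          (Multiplicative.toAdd (w.valuationOfNeZero x)))) := rfl
  rw [h1, map_eq_one_iff _ (MulEquiv.injective _), ofAdd_eq_one, QuotientAddGroup.eq_zero_iff,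
    Int.mem_zmultiples_iff] at h0
  obtain ⟨j, hj⟩ := h0
  exact ⟨j, by rw [← hj]; rfl⟩

/-- **Selmer form, primes of `F`.** For `S ⊇ T0` the `S`-units surject onto `F(S, p)`. -/
theorem h92_ck_selmer_set :
    ∃ T0 : Finset (HeightOneSpectrum (𝓞 F)), ∀ S : Set (HeightOneSpectrum (𝓞 F)),
      (T0 : Set (HeightOneSpectrum (𝓞 F))) ⊆ S → ∀ (p : ℕ)
      (c : Fˣ ⧸ (powMonoidHom p : Fˣ →* Fˣ).range),
      c ∈ selmerGroup (R := 𝓞 F) (K := F) (S := S) (n := p) →
        ∃ u ∈ S.unit F, (QuotientGroup.mk u : Fˣ ⧸ (powMonoidHom p : Fˣ →* Fˣ).range) = c := by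
  obtain ⟨T0, hT0⟩ := h92_ck_decomp F
  refine ⟨T0, fun S hS p c hc => ?_⟩
  obtain ⟨x, rfl⟩ := QuotientGroup.mk_surjective c
  obtain ⟨u, hu, y, hxy⟩ := hT0 S hS p x (h92_ck_val_of_selmer F S p x hc)
  refine ⟨u, hu, ?_⟩
  rw [QuotientGroup.eq]
  refine ⟨y, ?_⟩
  rw [powMonoidHom_apply, hxy, inv_mul_cancel_left]

/-- **Selmer form, rational primes.** For finite sets `S ⊇ T0` of rational primes, the `S`-units
of `F` surject onto Mathlib's Selmer group `F(S, p)`. -/
theorem h92_ck_selmer :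
    ∃ T0 : Finset Nat.Primes, ∀ S : Finset Nat.Primes, T0 ⊆ S → ∀ (p : ℕ)
      (c : Fˣ ⧸ (powMonoidHom p : Fˣ →* Fˣ).range),
      c ∈ selmerGroup (R := 𝓞 F) (K := F) (S := h92_ck_primesOver F S) (n := p) →
        ∃ u ∈ (h92_ck_primesOver F S).unit F,
          (QuotientGroup.mk u : Fˣ ⧸ (powMonoidHom p : Fˣ →* Fˣ).range) = c := by
  classical
  obtain ⟨T0, hT0⟩ := h92_ck_selmer_set F
  choose q hq using h92_ck_exists_prime_below F
  refine ⟨T0.image q, fun S hS p c hc => hT0 (h92_ck_primesOver F S) ?_ p c hc⟩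
  intro w hw
  exact ⟨q w, hS (Finset.mem_image_of_mem q hw), hq w⟩

/-- the same for a level `K₀ ≤ ℚ̄`, in the language of `h46_primesOver` -/
theorem h92_ck_selmer_level (K₀ : IntermediateField ℚ (AlgebraicClosure ℚ)) [NumberField K₀] :
    ∃ T0 : Finset Nat.Primes, ∀ S : Finset Nat.Primes, T0 ⊆ S → ∀ (p : ℕ)
      (c : (↥K₀)ˣ ⧸ (powMonoidHom p : (↥K₀)ˣ →* (↥K₀)ˣ).range),
      c ∈ selmerGroup (R := 𝓞 K₀) (K := K₀) (S := h46_primesOver S K₀) (n := p) →
        ∃ u ∈ (h46_primesOver S K₀).unit K₀,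
          (QuotientGroup.mk u : (↥K₀)ˣ ⧸ (powMonoidHom p : (↥K₀)ˣ →* (↥K₀)ˣ).range) = c :=
  h92_ck_selmer (↥K₀)

end Fermat.Agent.S56

end
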