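import Mathlib
import Fermat.Agent.GAL.WCheb
import Fermat.Agent.S55.h85_Unram
import Fermat.Agent.S54.Frob
import Fermat.Agent.S13.h24_Unram

/-!
# S56 / W4 / G8 (generic half): weak Chebotarev for ALL places and ALL Frobenius lifts

`gal_weak_chebotarev` produces, for a finite Galois level `L` and `g : G_ℚ`, ONE place `A₀` above a
prime `ℓ` and ONE Frobenius lift `σ₀` at `A₀` with `σ₀ ≡ g ^ a`, `σ₀ ^ b ≡ g` on `L`.
The frozen S56 quantifies over all places above `ℓ` and all Frobenius lifts.  Here: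

* `h81_exists_conj` : two places of `ℚ̄` above the same prime are conjugate;
* `h81_frob_conj` : conjugates of Frobenius lifts are Frobenius lifts at the conjugate place;
* `h81_frob_unique` : two Frobenius lifts at the same place differ by inertia;
* `h81_exists_unram` : a finite level is unramified outside the primes dividing some `D ≠ 0`;
* `h81_cheb_all` : for a finite Galois level `L`, `g : G_ℚ` and a finite set `B` of primes there
  is a prime `q ∉ B` such that EVERY Frobenius lift `φ` at EVERY place above `q` satisfies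
  `φ ≡ τ g ^ a τ⁻¹` and `φ ^ b ≡ τ g τ⁻¹` on `L` for suitable `τ, a, b`;
* `h81_cheb_prop` : the resulting transfer principle for properties of Galois elements.
-/

set_option autoImplicit false

namespace Fermat.Agent.S56

open scoped Pointwise
open Fermat.Agent.S54 Fermat.Agent.S13 Fermat.Agent.S05 Fermat.Agent.S55 Fermat.Agent.GAL

local notation "Qb" => AlgebraicClosure ℚ

attribute [local instance] isAlgebraicQbar isAlgClosureQbar normalQbar isGaloisQbar algIntAction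
  algIntTopology algInt_discreteTopology algInt_smulCommClass algInt_isInvariant
  algInt_continuousSMul

/-! ### A. Places above the same prime are conjugate -/

theorem h81_centre_under (A : ValuationSubring Qb) (q : ℕ) (hq : q.Prime)
    (hA : A.LiesOverPrime q) : (centre A).under ℤ = Ideal.span {(q : ℤ)} := by
  have hmax : (Ideal.span {(q : ℤ)}).IsMaximal :=
    PrincipalIdealRing.isMaximal_of_irreducible (Nat.prime_iff_prime_int.mp hq).irreducible
  have hle : Ideal.span {(q : ℤ)} ≤ (centre A).under ℤ := by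
    rw [Ideal.span_singleton_le_iff_mem, Ideal.mem_comap]
    have := natCast_mem_centre A q hA
    simpa using this
  have hprime : (centre A).IsPrime := centre_isPrime A
  have hne : (centre A).under ℤ ≠ ⊤ := (Ideal.comap_isPrime _ _).ne_top
  exact (hmax.eq_of_le hne hle).symm

theorem h81_map_mem (A A' : ValuationSubring Qb) (q : ℕ) (hq : q.Prime)
    (hA : A.LiesOverPrime q) (τ : Qb ≃ₐ[ℚ] Qb) (hτ : centre A' = τ • centre A)
    (x : Qb) (hx : x ∈ A) : τ x ∈ A' := by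
  obtain ⟨s, hs, hsx⟩ := exists_unit_mul_isIntegral A q hq hA x hx
  have hs' : τ • s ∉ centre A' := by
    intro hmem
    apply hs
    rw [hτ] at hmem
    exact Ideal.smul_mem_pointwise_smul_iff.mp hmem
  have hunit : IsUnit (toVal A' (τ • s)) := by
    rw [mem_centre_iff] at hs'
    exact IsLocalRing.notMem_maximalIdeal.mp hs'
  obtain ⟨u, hu⟩ := hunit
  have hb : τ ((s : Qb) * x) ∈ A' :=
    mem_valuationSubring_of_isIntegral A' (map_isIntegral_int τ hsx)
  have hu' : ((u : A') : Qb) = τ (s : Qb) := by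
    rw [hu]; rfl
  have key : τ x = (((u⁻¹ : (A')ˣ) : A') : Qb) * τ ((s : Qb) * x) := by
    have hinv : (((u⁻¹ : (A')ˣ) : A') : Qb) * τ (s : Qb) = 1 := by
      rw [← hu']
      have h1 : (((u⁻¹ : (A')ˣ) : A') * (u : A') : A') = 1 := Units.inv_mul u
      exact congrArg Subtype.val h1
    rw [map_mul, ← mul_assoc, hinv, one_mul]
  rw [key]
  exact A'.mul_mem _ _ (SetLike.coe_mem _) hb

/-- Two places of `ℚ̄` above the same prime are conjugate under `G_ℚ`. -/
theorem h81_exists_conj (A A' : ValuationSubring Qb) (q : ℕ) (hq : q.Prime)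
    (hA : A.LiesOverPrime q) (hA' : A'.LiesOverPrime q) :
    ∃ τ : Qb ≃ₐ[ℚ] Qb, τ • A = A' := by
  have h1 : (centre A).IsPrime := centre_isPrime A
  have h2 : (centre A').IsPrime := centre_isPrime A'
  obtain ⟨τ, hτ⟩ := Algebra.IsInvariant.exists_smul_of_under_eq_of_profinite (A := ℤ)
    (G := Qb ≃ₐ[ℚ] Qb) (centre A) (centre A')
    (by rw [h81_centre_under A q hq hA, h81_centre_under A' q hq hA'])
  refine ⟨τ, ?_⟩
  have hτ' : centre A = τ⁻¹ • centre A' := by rw [hτ, inv_smul_smul]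
  apply SetLike.ext
  intro x
  rw [ValuationSubring.mem_pointwise_smul_iff_inv_smul_mem]
  constructor
  · intro hx
    have := h81_map_mem A A' q hq hA τ hτ _ hx
    simpa using this
  · intro hx
    exact h81_map_mem A' A q hq hA' τ⁻¹ hτ' x hx

/-! ### B. Conjugates of Frobenius lifts -/

theorem h81_frob_conj (A : ValuationSubring Qb) (σ τ : Qb ≃ₐ[ℚ] Qb) (q : ℕ)
    (h : A.IsFrobeniusAt σ q) : (τ • A).IsFrobeniusAt (τ * σ * τ⁻¹) q := by
  rw [h31_isFrobeniusAt_iff] at h ⊢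
  obtain ⟨hσ, hfr⟩ := h
  refine ⟨?_, ?_⟩
  · have hσ' : σ • A = A := MulAction.mem_stabilizer_iff.mp hσ
    apply MulAction.mem_stabilizer_iff.mpr
    rw [mul_smul, mul_smul, inv_smul_smul, hσ']
  · intro a ha
    have ha' : τ⁻¹ a ∈ A := by
      rw [ValuationSubring.mem_pointwise_smul_iff_inv_smul_mem] at ha
      exact ha
    have h1 := hfr _ ha'
    have h2 : (τ * σ * τ⁻¹) a - a ^ q = τ (σ (τ⁻¹ a) - (τ⁻¹ a) ^ q) := by
      have h3 : τ (τ⁻¹ a) = a := by
        rw [AlgEquiv.aut_inv, AlgEquiv.apply_symm_apply]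
      rw [map_sub, map_pow, h3]
      rfl
    rw [h2]
    exact (h85_mem_nonunits_smul A τ _).mpr h1

/-! ### C. Two Frobenius lifts at the same place differ by inertia -/

theorem h81_frob_unique (A : ValuationSubring Qb) (φ φ' : Qb ≃ₐ[ℚ] Qb) (q : ℕ)
    (h : A.IsFrobeniusAt φ q) (h' : A.IsFrobeniusAt φ' q) :
    φ⁻¹ * φ' ∈ A.inertiaSubgroupIn ℚ := by
  rw [h31_isFrobeniusAt_iff] at h h'
  apply h24_mem_inertiaSubgroupIn_Qbar
  intro b hb
  have hbA : b ∈ A := h24_integral_mem A hb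
  have h1 : φ' b - φ b ∈ A.nonunits := by
    have := h24_sub_mem_nonunits A (h'.2 b hbA) (h.2 b hbA)
    simpa using this
  have hdec : φ⁻¹ ∈ A.decompositionSubgroup ℚ := inv_mem h.1
  have hdec' : φ⁻¹ • A = A := MulAction.mem_stabilizer_iff.mp hdec
  have h2 : φ⁻¹ (φ' b - φ b) ∈ A.nonunits := by
    have := (h85_mem_nonunits_smul A φ⁻¹ (φ' b - φ b)).mpr h1
    rwa [hdec'] at this
  have h3 : (φ⁻¹ * φ') b - b = φ⁻¹ (φ' b - φ b) := by
    have h4 : φ⁻¹ (φ b) = b := by
      rw [AlgEquiv.aut_inv, AlgEquiv.symm_apply_apply]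
    rw [map_sub, h4]
    rfl
  rw [h3]
  exact h2

/-! ### D. A finite level is unramified outside finitely many primes -/

/-- Inertia fixes an integral root `θ` of `f ∈ ℤ[X]` whose derivative at `θ` divides (in the
algebraic integers) an integer `d` prime to the residue characteristic. -/
theorem h81_inertia_fix_sep (A : ValuationSubring Qb) (q : ℕ) (hq : q.Prime)
    (hA : A.LiesOverPrime q) (σ : Qb ≃ₐ[ℚ] Qb) (hσ : σ ∈ A.inertiaSubgroupIn ℚ)
    (f : Polynomial ℤ) (θ : Qb) (hθ : IsIntegral ℤ θ) (hroot : Polynomial.aeval θ f = 0)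
    (w : Qb) (hw : IsIntegral ℤ w) (d : ℕ) (hd : ¬ q ∣ d)
    (hwd : w * Polynomial.aeval θ (Polynomial.derivative f) = (d : Qb)) : σ θ = θ := by
  have hθA : θ ∈ A := h24_integral_mem A hθ
  have hwA : w ∈ A := h24_integral_mem A hw
  set x : A := ⟨θ, hθA⟩ with hx
  set fA : Polynomial A := f.map (algebraMap ℤ A) with hfA
  have hcoe : ∀ g : Polynomial ℤ, (((g.map (algebraMap ℤ A)).eval x : A) : Qb) =
      Polynomial.aeval θ g := by
    intro g
    rw [Polynomial.eval_map, ← Polynomial.aeval_def]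
    have h1 : (A.subtype.toIntAlgHom) (Polynomial.aeval x g) =
        Polynomial.aeval (A.subtype.toIntAlgHom x) g :=
      (Polynomial.aeval_algHom_apply _ _ _).symm
    exact h1
  refine h85_inertia_fix_root A hσ fA ?_ x ?_ ?_
  · intro i
    rw [hfA, Polynomial.coeff_map]
    have : ((algebraMap ℤ A (f.coeff i) : A) : Qb) = ((f.coeff i : ℤ) : Qb) := by
      simp
    rw [this, map_intCast]
  · apply Subtype.ext
    rw [hfA, hcoe f, hroot]
    rfl
  · rw [hfA, Polynomial.derivative_map, hcoe]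
    intro hmem
    have h1 : w * Polynomial.aeval θ (Polynomial.derivative f) ∈ A.nonunits :=
      h24_mul_mem_nonunits A hwA hmem
    rw [hwd] at h1
    exact hd ((h26_natCast_mem_nonunits_iff A hq hA d).mp h1)

/-- A finite level `L` is unramified at all primes not dividing some `D ≠ 0`. -/
theorem h81_exists_unram (L : IntermediateField ℚ Qb) [FiniteDimensional ℚ L] :
    ∃ D : ℕ, D ≠ 0 ∧ ∀ q : ℕ, q.Prime → ¬ q ∣ D → ∀ A : ValuationSubring Qb,
      A.LiesOverPrime q → ∀ σ ∈ A.inertiaSubgroupIn ℚ, ∀ x ∈ L, σ x = x := by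
  obtain ⟨α, hα⟩ := Field.exists_primitive_element ℚ L
  let ι : ↥L →ₐ[ℚ] Qb := RingHom.toRatAlgHom (algebraMap ↥L Qb)
  have hι : ∀ y : ↥L, ι y = (y : Qb) := fun y => rfl
  -- an integral multiple `θ = m α`
  have halg : IsAlgebraic ℤ (α : Qb) := h24_isAlgebraic_int_Qbar.isAlgebraic _
  obtain ⟨m, hm0, hmint⟩ := halg.exists_integral_multiple
  set θ : Qb := m • (α : Qb) with hθdef
  have hθ : IsIntegral ℤ θ := hmint
  set f : Polynomial ℤ := minpoly ℤ θ with hf
  have hroot : Polynomial.aeval θ f = 0 := minpoly.aeval ℤ θ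
  have hfQ : f.map (algebraMap ℤ ℚ) = minpoly ℚ θ :=
    (minpoly.isIntegrallyClosed_eq_field_fractions' ℚ hθ).symm
  have hsep : (f.map (algebraMap ℤ ℚ)).Separable := by
    rw [hfQ]
    exact (minpoly.irreducible (Algebra.IsIntegral.isIntegral θ)).separable
  obtain ⟨u, v, huv⟩ := hsep
  -- evaluate at `θ`
  have hev : Polynomial.aeval θ v * Polynomial.aeval θ (Polynomial.derivative f) = 1 := by
    have h1 := congrArg (Polynomial.aeval θ) huv
    rw [map_add, map_mul, map_mul, Polynomial.aeval_map_algebraMap, hroot, mul_zero, zero_add,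
      map_one, Polynomial.derivative_map, Polynomial.aeval_map_algebraMap] at h1
    exact h1
  have halg2 : IsAlgebraic ℤ (Polynomial.aeval θ v) := h24_isAlgebraic_int_Qbar.isAlgebraic _
  obtain ⟨d, hd0, hdint⟩ := halg2.exists_integral_multiple
  refine ⟨d.natAbs, Int.natAbs_ne_zero.mpr hd0, fun q hq hqd A hA σ hσ x hx => ?_⟩
  -- `w := |d| v(θ)` is integral
  have hwint : IsIntegral ℤ ((d.natAbs : Qb) * Polynomial.aeval θ v) := by
    rcases Int.natAbs_eq d with h | h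
    · have : (d.natAbs : Qb) * Polynomial.aeval θ v = d • Polynomial.aeval θ v := by
        rw [zsmul_eq_mul]
        congr 1
        conv_rhs => rw [h]
        simp
      rw [this]
      exact hdint
    · have : (d.natAbs : Qb) * Polynomial.aeval θ v = -(d • Polynomial.aeval θ v) := by
        rw [zsmul_eq_mul, ← neg_mul]
        congr 1
        conv_rhs => rw [h]
        simp
      rw [this]
      exact hdint.neg
  have hσθ : σ θ = θ := by
    refine h81_inertia_fix_sep A q hq hA σ hσ f θ hθ hroot _ hwint d.natAbs hqd ?_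
    rw [mul_assoc, hev, mul_one]
  have hσα : σ (α : Qb) = α := by
    have h1 : θ = (m : Qb) * (α : Qb) := by rw [hθdef, zsmul_eq_mul]
    rw [h1, map_mul, map_intCast] at hσθ
    have hm' : (m : Qb) ≠ 0 := by exact_mod_cast hm0
    exact mul_left_cancel₀ hm' hσθ
  have hle : (⊤ : IntermediateField ℚ ↥L) ≤ (h85_fix σ).comap ι := by
    rw [← hα, IntermediateField.adjoin_le_iff]
    rintro y hy
    rw [Set.mem_singleton_iff] at hy
    subst hy
    show ι y ∈ h85_fix σ
    rw [h85_mem_fix, hι]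
    exact hσα
  have h3 : ι ⟨x, hx⟩ ∈ h85_fix σ := hle (IntermediateField.mem_top (x := (⟨x, hx⟩ : ↥L)))
  rw [h85_mem_fix, hι] at h3
  exact h3

/-! ### E. Weak Chebotarev for all places and all Frobenius lifts -/

/-- A Galois level is stable under `G_ℚ`. -/
theorem h81_mem_of_normal (L : IntermediateField ℚ Qb) [Normal ℚ L] (τ : Qb ≃ₐ[ℚ] Qb)
    {x : Qb} (hx : x ∈ L) : τ x ∈ L := by
  have h := AlgEquiv.restrictNormal_commutes τ L ⟨x, hx⟩
  have h' : τ x = ((τ.restrictNormal L ⟨x, hx⟩ : L) : Qb) := h.symm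
  rw [h']
  exact SetLike.coe_mem _

/-- **Weak Chebotarev, all places and all Frobenius lifts.** -/
theorem h81_cheb_all (L : IntermediateField ℚ Qb) [FiniteDimensional ℚ L] [IsGalois ℚ L]
    (g : Qb ≃ₐ[ℚ] Qb) (B : Finset ℕ) :
    ∃ q : ℕ, q.Prime ∧ q ∉ B ∧ ∀ A : ValuationSubring Qb, A.LiesOverPrime q →
      ∀ φ : Qb ≃ₐ[ℚ] Qb, A.IsFrobeniusAt φ q →
        ∃ (τ : Qb ≃ₐ[ℚ] Qb) (a b : ℕ), (∀ x ∈ L, φ x = (τ * g ^ a * τ⁻¹) x) ∧
          (∀ x ∈ L, (φ ^ b) x = (τ * g * τ⁻¹) x) := by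
  obtain ⟨D, hD0, hD⟩ := h81_exists_unram L
  obtain ⟨ℓ, A₀, σ₀, a, b, hℓ, hℓS, hA₀, hF₀, h1, h2⟩ :=
    gal_weak_chebotarev L g (B ∪ D.primeFactors)
  have hℓB : ℓ ∉ B := fun h => hℓS (Finset.mem_union_left _ h)
  have hℓD : ¬ ℓ ∣ D := fun h =>
    hℓS (Finset.mem_union_right _ (Nat.mem_primeFactors.mpr ⟨hℓ, h, hD0⟩))
  refine ⟨ℓ, hℓ, hℓB, fun A hA φ hφ => ?_⟩
  obtain ⟨τ, hτ⟩ := h81_exists_conj A₀ A ℓ hℓ hA₀ hA
  have hF : A.IsFrobeniusAt (τ * σ₀ * τ⁻¹) ℓ := by
    have := h81_frob_conj A₀ σ₀ τ ℓ hF₀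
    rwa [hτ] at this
  have hι := h81_frob_unique A (τ * σ₀ * τ⁻¹) φ ℓ hF hφ
  -- `φ = (τ σ₀ τ⁻¹) ι` with `ι` trivial on `L`
  have hφL : ∀ x ∈ L, φ x = (τ * σ₀ * τ⁻¹) x := by
    intro x hx
    have h3 := hD ℓ hℓ hℓD A hA _ hι x hx
    have h4 : φ x = (τ * σ₀ * τ⁻¹) (((τ * σ₀ * τ⁻¹)⁻¹ * φ) x) := by
      rw [← AlgEquiv.mul_apply, mul_inv_cancel_left]
    rw [h4, h3]
  have hconj : ∀ (γ : Qb ≃ₐ[ℚ] Qb) (x : Qb), (τ * γ * τ⁻¹) x = τ (γ (τ⁻¹ x)) := fun γ x => rfl
  refine ⟨τ, a, b, fun x hx => ?_, fun x hx => ?_⟩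
  · rw [hφL x hx, hconj, hconj, h1 _ (h81_mem_of_normal L τ⁻¹ hx)]
  · have hpow : ∀ n : ℕ, ∀ y ∈ L, (φ ^ n) y = ((τ * σ₀ * τ⁻¹) ^ n) y := by
      intro n
      induction n with
      | zero => intro y _; rfl
      | succ n ih =>
        intro y hy
        rw [pow_succ, pow_succ, AlgEquiv.mul_apply, AlgEquiv.mul_apply, hφL y hy]
        exact ih _ (h81_mem_of_normal L _ hy)
    rw [hpow b x hx, conj_pow, hconj, hconj, h2 _ (h81_mem_of_normal L τ⁻¹ hx)]

/-- **Transfer principle.** A property `Φ` of Galois elements that passes from `g` to every `φ`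
with `φ ≡ τ g ^ a τ⁻¹` and `φ ^ b ≡ τ g τ⁻¹` on a finite Galois level `L` holds, as soon as it
holds for one `g`, for all Frobenius lifts at all places above some prime `q ∉ B`. -/
theorem h81_cheb_prop (L : IntermediateField ℚ Qb) [FiniteDimensional ℚ L] [IsGalois ℚ L]
    (Φ : (Qb ≃ₐ[ℚ] Qb) → Prop)
    (hΦ : ∀ (g φ τ : Qb ≃ₐ[ℚ] Qb) (a b : ℕ), Φ g → (∀ x ∈ L, φ x = (τ * g ^ a * τ⁻¹) x) →
      (∀ x ∈ L, (φ ^ b) x = (τ * g * τ⁻¹) x) → Φ φ)
    (g : Qb ≃ₐ[ℚ] Qb) (hg : Φ g) (B : Finset ℕ) :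
    ∃ q : ℕ, q.Prime ∧ q ∉ B ∧ ∀ A : ValuationSubring Qb, A.LiesOverPrime q →
      ∀ φ : Qb ≃ₐ[ℚ] Qb, A.IsFrobeniusAt φ q → Φ φ := by
  obtain ⟨q, hq, hqB, h⟩ := h81_cheb_all L g B
  refine ⟨q, hq, hqB, fun A hA φ hφ => ?_⟩
  obtain ⟨τ, a, b, h1, h2⟩ := h A hA φ hφ
  exact hΦ g φ τ a b hg h1 h2

end Fermat.Agent.S56
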