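import Fermat.Agent.S56.h97_Split0
import Fermat.Agent.S56.h81_TWCheb

/-!
# S56, front W1, row C6b in the quantifier shape of (EC)  (helper97)

`h97_exists_unramifiedOutside` : a finite extension of `ℚ` inside `ℚ̄` is unramified outside a
finite set of primes (from helper81's `h81_exists_unram`).

`h97_exists_T0_split0_EC` : for a finite Galois `F ∋ ζ_p` there is a finite set `T0` of primes
such that `h95_Split0 p S L₀` holds for EVERY `S ⊇ T0` and every `S`-level `L₀` with field `F`
(no `S0` in the statement: `T0` contains `p`, the ramified primes of `F` and the Chebotarev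
primes of `h97_exists_T0_split0`).
-/

set_option autoImplicit false
set_option linter.unusedSectionVars false
set_option linter.unusedVariables false
set_option maxHeartbeats 400000
set_option synthInstance.maxHeartbeats 400000

open groupCohomology ExtCitation
open scoped Pointwise

noncomputable section

namespace Fermat.Agent.S56

open Fermat.Agent.S55 Fermat.Agent.GAL

local notation "Qb" => AlgebraicClosure ℚ
local notation "GQ" => (AlgebraicClosure ℚ ≃ₐ[ℚ] AlgebraicClosure ℚ)

/-- a finite extension of `ℚ` inside `ℚ̄` is unramified outside a finite set of primes -/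
theorem h97_exists_unramifiedOutside (F : IntermediateField ℚ Qb) [FiniteDimensional ℚ F] :
    ∃ S0 : Finset Nat.Primes, F.IsUnramifiedOutside S0 := by
  classical
  obtain ⟨D, hD0, hD⟩ := h81_exists_unram F
  have hfin : {q : Nat.Primes | (q : ℕ) ∣ D}.Finite := by
    have h1 : (Set.Icc 0 D).Finite := Set.finite_Icc 0 D
    refine Set.Finite.of_finite_image (f := fun q : Nat.Primes => (q : ℕ)) (h1.subset ?_)
      (fun a _ b _ h => Subtype.ext h)
    rintro _ ⟨q, hq, rfl⟩
    exact ⟨Nat.zero_le _, Nat.le_of_dvd (Nat.pos_of_ne_zero hD0) hq⟩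
  refine ⟨hfin.toFinset, inferInstance, fun q hq A hA σ hσ => ?_⟩
  rw [IntermediateField.mem_fixingSubgroup_iff]
  intro x hx
  refine hD (q : ℕ) q.2 (fun hdvd => hq ?_) A hA σ hσ x hx
  rw [Set.Finite.mem_toFinset]
  exact hdvd

/-- **C6b in the shape of (EC).**  `F` finite Galois over `ℚ` containing a primitive `p`-th root
of unity: there is a finite set `T0` of primes such that (SPLIT0) holds for every `S ⊇ T0` and
every `S`-level with field `F`. -/
theorem h97_exists_T0_split0_EC (p : ℕ) [Fact p.Prime] (F : IntermediateField ℚ Qb)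
    [FiniteDimensional ℚ F] (hgal : IsGalois ℚ F) {ζ : ↥F} (hζ : IsPrimitiveRoot ζ p) :
    ∃ T0 : Finset Nat.Primes, ∀ S : Finset Nat.Primes, T0 ⊆ S →
      ∀ L₀ : h72_Lev S, L₀.F = F → h95_Split0 p S L₀ := by
  classical
  obtain ⟨S1, hS1⟩ := h97_exists_unramifiedOutside F
  have hS0 : F.IsUnramifiedOutside (insert (pPrime p) S1) :=
    hS1.mono (Finset.subset_insert _ _)
  obtain ⟨T0, hT0⟩ := h97_exists_T0_split0 p (insert (pPrime p) S1)
    (Finset.mem_insert_self _ _) ⟨F, hS0, hgal⟩ hζ
  exact ⟨insert (pPrime p) S1 ∪ T0, fun S hS L₀ hL => hT0 S hS L₀ hL⟩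

/-- **C6b in the shape of (EC), with the two side facts**: `p ∈ T0` and `F` is unramified
outside `T0` (hence `F` is an `S`-level for every `S ⊇ T0`). -/
theorem h97_exists_T0_split0_EC' (p : ℕ) [Fact p.Prime] (F : IntermediateField ℚ Qb)
    [FiniteDimensional ℚ F] (hgal : IsGalois ℚ F) {ζ : ↥F} (hζ : IsPrimitiveRoot ζ p) :
    ∃ T0 : Finset Nat.Primes, pPrime p ∈ T0 ∧ F.IsUnramifiedOutside T0 ∧
      ∀ S : Finset Nat.Primes, T0 ⊆ S → ∀ L₀ : h72_Lev S, L₀.F = F → h95_Split0 p S L₀ := by
  classical
  obtain ⟨S1, hS1⟩ := h97_exists_unramifiedOutside F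
  have hS0 : F.IsUnramifiedOutside (insert (pPrime p) S1) :=
    hS1.mono (Finset.subset_insert _ _)
  obtain ⟨T0, hT0⟩ := h97_exists_T0_split0 p (insert (pPrime p) S1)
    (Finset.mem_insert_self _ _) ⟨F, hS0, hgal⟩ hζ
  exact ⟨insert (pPrime p) S1 ∪ T0,
    Finset.mem_union_left _ (Finset.mem_insert_self _ _),
    hS0.mono Finset.subset_union_left, fun S hS L₀ hL => hT0 S hS L₀ hL⟩

end Fermat.Agent.S56

end
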