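import Fermat.Agent.S56.h95_HBase
import Fermat.Agent.S56.h97_Split0EC
import Fermat.Agent.S56.h92_ClassKill
import Fermat.Agent.S56.h70_Recip
import Fermat.Agent.S56.h72_ECofBase

/-!
# S56, front W1: the base case and the Euler characteristic formula, `T0`-quantified

* `h95_hbase_T0` : for every finite Galois `F0 ∋ ζ_p` there is a finite set `T0` of primes such
  that for every `S ⊇ T0` with `p ∈ S` and every `S`-level `L₀` with field `F0` the base case
  `h72_delta S L₀ (coind_C^G σ) = 0` holds for all cyclic `C` of order prime to `p`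
  (= the hypothesis `hbase` of helper69's `h69_R1_of_base` / `h69_hEC_of_base`, verbatim);
* `h95_EC` : **Tate's global Euler characteristic formula** in the form used by MID-R1: for
  `S ⊇ T0`, `p ∈ S`, and every finite `𝔽_p[G_ℚ]`-module `M` trivial on `Gal(ℚ̄/F0)`:
  `χ_S(M) = h⁰ - h¹ + h² = - dim M^{c = -1}`.
-/

set_option autoImplicit false
set_option linter.unusedSectionVars false
set_option linter.unusedVariables false
set_option maxHeartbeats 800000
set_option synthInstance.maxHeartbeats 400000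

open CategoryTheory Module groupCohomology ExtCitation NumberField IsDedekindDomain

noncomputable section

namespace Fermat.Agent.S56

open Fermat.Agent.S55

local notation "Qb" => AlgebraicClosure ℚ
local notation "GQ" => (AlgebraicClosure ℚ ≃ₐ[ℚ] AlgebraicClosure ℚ)

/-- **W1-BASE, `T0`-quantified** (`hbase` of `h69_R1_of_base`, verbatim). -/
theorem h95_hbase_T0 (p : ℕ) [Fact p.Prime] (hp2 : p ≠ 2) :
    ∀ F0 : IntermediateField ℚ (AlgebraicClosure ℚ), FiniteDimensional ℚ F0 →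
      IsGalois ℚ F0 → (∃ ζ ∈ F0, IsPrimitiveRoot ζ p) →
      ∃ T0 : Finset Nat.Primes, ∀ S : Finset Nat.Primes, T0 ⊆ S → pPrime p ∈ S →
        ∀ L₀ : h72_Lev S, L₀.F = F0 →
        ∀ C : Subgroup (GQ ⧸ L₀.U), IsCyclic C → (Nat.card C).Coprime p →
        ∀ (W : Type) [AddCommGroup W] [Module (ZMod p) W] [Finite W]
          (σ : Representation (ZMod p) C W),
          h72_delta S L₀ (Representation.coindV C.subtype σ)
            (Representation.coind C.subtype σ) = 0 := by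
  classical
  intro F0 hfd hgal hζ0
  obtain ⟨ζ, hζF, hζ⟩ := hζ0
  haveI : NumberField ↥F0 := { }
  have hζ' : IsPrimitiveRoot (⟨ζ, hζF⟩ : ↥F0) p :=
    IsPrimitiveRoot.of_map_of_injective (f := F0.val) (M := ↥F0) (N := Qb)
      (ζ := (⟨ζ, hζF⟩ : ↥F0)) (k := p) hζ Subtype.val_injective
  obtain ⟨T1, hT1⟩ := h97_exists_T0_split0_EC p F0 hgal hζ'
  obtain ⟨T2, hT2⟩ := h92_ck_selmer_level F0
  refine ⟨T1 ∪ T2, fun S hS hpS L₀ hL => ?_⟩
  have hS1 : T1 ⊆ S := Finset.union_subset_left hS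
  have hS2 : T2 ⊆ S := Finset.union_subset_right hS
  have hsplit : h95_Split0 p S L₀ := hT1 S hS1 L₀ hL
  subst hL
  obtain ⟨CC, i1, i2, JJ, i3, i4, XX, i5, i6, κ, ev, zz, hA⟩ := h70_exists_ambient p hp2 S hpS
  exact h95_hbase hp2 hpS hA L₀ hζ' hsplit (hT2 S hS2 p)

/-- **Tate's global Euler characteristic formula** for finite modules trivial on
`Gal(ℚ̄/F0)`, `F0 ∋ ζ_p` finite Galois, at every `S ⊇ T0 ∪ {p}`, `F0` unramified outside `S`. -/
theorem h95_EC (p : ℕ) [Fact p.Prime] (hp2 : p ≠ 2)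
    (F0 : IntermediateField ℚ (AlgebraicClosure ℚ)) [FiniteDimensional ℚ F0]
    (hgal : IsGalois ℚ F0) (hζ0 : ∃ ζ ∈ F0, IsPrimitiveRoot ζ p) :
    ∃ T0 : Finset Nat.Primes, ∀ S : Finset Nat.Primes, T0 ⊆ S → pPrime p ∈ S →
      F0.IsUnramifiedOutside S →
      ∀ (M : Rep.{0, 0, 0} (ZMod p) GQ) [Finite M], (∀ s ∈ F0.fixingSubgroup, M.ρ s = 1) →
        h72_chi S M =
          -(Module.finrank (ZMod p) ↥(LinearMap.ker (M.ρ complexConjugation + 1)) : ℤ) := by
  obtain ⟨T0, hT0⟩ := h95_hbase_T0 p hp2 F0 inferInstance hgal hζ0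
  refine ⟨T0, fun S hS hpS hunr M _ hM => ?_⟩
  obtain ⟨CC, i1, i2, JJ, i3, i4, XX, i5, i6, κ, ev, zz, hA⟩ := h70_exists_ambient p hp2 S hpS
  exact h72_EC_of_base hp2 hpS hA ⟨F0, hunr, hgal⟩ (hT0 S hS hpS ⟨F0, hunr, hgal⟩ rfl) M hM

end Fermat.Agent.S56
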