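import Fermat.Agent.S56.h12_S56Two
import Fermat.Agent.S56.h95_EC

/-!
# S56 from the one statement that is still missing (helper12)

W1 is closed (`h95_hbase_T0`, helper95).  What remains is exactly one statement:

* `hflatloc` : the local flat bound (W3 FINAL, `sk_flat_local_bound` of the W3 skeleton).

`h12_midRows` : the MID rows (closed);
`h12_S56_of_flat` : the frozen statement S56 from `hflatloc`.
-/

set_option autoImplicit false
set_option linter.unusedSectionVars false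
set_option linter.unusedVariables false

namespace Fermat.Agent.S56

open Fermat.Agent.S53 Fermat.Agent.S53.Dict ExtCitation groupCohomology Fermat.Agent.S55

local notation "M₂[" k "]" => Matrix (Fin 2) (Fin 2) k

/-- The MID rows, closed. -/
theorem h12_midRows (p : ℕ) [Fact p.Prime] : h4_MidRows p :=
  h12_midRows_of_base p (fun hp2 => h95_hbase_T0 p hp2)

section Top

open Polynomial IsLocalRing ResidualGaloisRep

variable {𝒪 : Type} [CommRing 𝒪] [IsDomain 𝒪] [IsDiscreteValuationRing 𝒪]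
  [IsAdicComplete (maximalIdeal 𝒪) 𝒪] [Finite (ResidueField 𝒪)]

/-- **The frozen statement S56 from the one missing statement** `hflatloc` (W3 FINAL). -/
theorem h12_S56_of_flat (p : ℕ) [Fact p.Prime] (hp2 : p ≠ 2) (hp𝒪 : (p : 𝒪) ∈ maximalIdeal 𝒪)
    (ρbar : ResidualGaloisRep (ResidueField 𝒪))
    (habs : ρbar.IsAbsolutelyIrreducible)
    (hdet : (GaloisRepAdic.ofResidualGaloisRep ρbar).DetIsCyclotomic p)
    (hsplit : ∀ σ : AlgebraicClosure ℚ ≃ₐ[ℚ] AlgebraicClosure ℚ,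
      ∃ α β : ResidueField 𝒪, LinearMap.charpoly (ρbar.ρ σ) = (X - C α) * (X - C β))
    (hTW : ∀ (K : Type) [Field K] [Algebra (ResidueField 𝒪) K]
      (G : Subgroup (AlgebraicClosure ℚ ≃ₐ[ℚ] AlgebraicClosure ℚ)), G.index = 2 →
      ∀ V : Submodule K (ρbar.baseChange K).V,
        (∀ σ ∈ G, ∀ x ∈ V, (ρbar.baseChange K).ρ σ x ∈ V) → V = ⊥ ∨ V = ⊤)
    (S Smin : Finset ℕ) (hpSmin : p ∈ Smin) (hSmin : Smin ⊆ S) (hS : ∀ q ∈ S, q.Prime)
    (hmin : ∀ q : ℕ, q.Prime → q ≠ p → (q ∈ Smin ↔ ¬ ρbar.IsUnramifiedAt q))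
    (hflatloc : ∀ {k : Type} [Field k] [Finite k] [CharP k p] (rbl : h78_G p →* M₂[k]),
      (∀ (g : h78_G p) (ζ : PadicAlgCl p), ζ ^ p = 1 →
        ∃ n : ℕ, g ζ = ζ ^ n ∧ (rbl g).det = (n : k)) →
      ∀ W : Submodule k (h78_G p → M₂[k]),
      (∀ a ∈ W, ∀ s t, a (s * t) = a s * rbl t + rbl s * a t) →
      (∀ a ∈ W, ∀ s, (a s * rbl s⁻¹).trace = 0) →
      (∀ a ∈ W, a ≠ 0 → h78_LocFlat p rbl a) →
      (∀ a ∈ W, (∃ X : M₂[k], ∀ s, a s = X * rbl s - rbl s * X) → a = 0) →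
      Module.finrank k W ≤ Module.finrank k (h78_H0 p rbl) + 1) :
    (∃ r : ℕ, ∀ n : ℕ, ∃ qv : Fin r → ℕ, Function.Injective qv ∧
      (∀ i, (qv i).Prime ∧ qv i ∉ S ∧ p ^ (n + 1) ∣ qv i - 1) ∧
      (∀ i, ∀ P : ValuationSubring (AlgebraicClosure ℚ), P.LiesOverPrime (qv i) →
        ∀ φ : AlgebraicClosure ℚ ≃ₐ[ℚ] AlgebraicClosure ℚ, P.IsFrobeniusAt φ (qv i) →
          ∃ α β : ResidueField 𝒪, α ≠ β ∧ LinearMap.charpoly (ρbar.ρ φ) = (X - C α) * (X - C β)) ∧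
      ∀ DQ : GaloisRep.DeformationRingData 𝒪 ρbar (fun _A _ _ _ ρ =>
          GaloisRep.strictOrdinaryCondition 𝒪 p (Smin ∪ Finset.univ.image qv) ρ ∧
            ∀ q ∈ Smin, q.Prime → q ≠ p → ρ.IsUnipotentOnInertiaAt q),
        ∃ γ : MvPowerSeries (Fin r) 𝒪 →ₐ[𝒪] DQ.R, Function.Surjective γ) ∧
    (∃ r : ℕ, ∀ n : ℕ, ∃ qv : Fin r → ℕ, Function.Injective qv ∧
      (∀ i, (qv i).Prime ∧ qv i ∉ S ∧ p ^ (n + 1) ∣ qv i - 1) ∧
      (∀ i, ∀ P : ValuationSubring (AlgebraicClosure ℚ), P.LiesOverPrime (qv i) →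
        ∀ φ : AlgebraicClosure ℚ ≃ₐ[ℚ] AlgebraicClosure ℚ, P.IsFrobeniusAt φ (qv i) →
          ∃ α β : ResidueField 𝒪, α ≠ β ∧ LinearMap.charpoly (ρbar.ρ φ) = (X - C α) * (X - C β)) ∧
      ∀ DQ : GaloisRep.DeformationRingData 𝒪 ρbar (fun _A _ _ _ ρ =>
          GaloisRep.flatCondition 𝒪 p (Smin ∪ Finset.univ.image qv) ρ ∧
            ∀ q ∈ Smin, q.Prime → q ≠ p → ρ.IsUnipotentOnInertiaAt q),
        ∃ γ : MvPowerSeries (Fin r) 𝒪 →ₐ[𝒪] DQ.R, Function.Surjective γ) :=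
  h12_S56_of_two p hp2 hp𝒪 ρbar habs hdet hsplit hTW S Smin hpSmin hSmin hS hmin
    (h95_hbase_T0 p hp2) (fun rbl => hflatloc rbl)

end Top

end Fermat.Agent.S56
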