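/-
S56 / W3 / E-IRR row IRR-6 (ARITH), helper62.  Mathlib only.

`θ` is an element of exact order `e` in a domain, `(p - 1) ∣ e`, `w = θ ^ (e / (p - 1))`.
The exponents `i` in the window `e ≤ i ≤ e + e / (p - 1)` at which `θ ^ i` can equal
`w * ϑ` or `w * ϑ⁻¹` (`ϑ ^ 2 ≠ 1`): there is at most one, and it is not the top one (A);
there is none for `ϑ = -1`, `p ≠ 3` (B); and `θ ^ i ≠ w` below the top (C).
-/
import Mathlib

set_option autoImplicit false

namespace Fermat.Agent.S56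

section IrrArith

variable {R : Type*} [CommRing R] [IsDomain R]

/-- congruent numbers at distance `< e` are equal. -/
theorem h62_modEq_eq (e a b : ℕ) (h : a ≡ b [MOD e]) (h1 : a < b + e) (h2 : b < a + e) :
    a = b := by
  rcases le_total a b with hab | hab
  · have hd : e ∣ b - a := (Nat.modEq_iff_dvd' hab).1 h
    by_contra hne
    have hpos : 0 < b - a := by omega
    have := Nat.le_of_dvd hpos hd
    omega
  · have hd : e ∣ a - b := (Nat.modEq_iff_dvd' hab).1 h.symm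
    by_contra hne
    have hpos : 0 < a - b := by omega
    have := Nat.le_of_dvd hpos hd
    omega

omit [IsDomain R] in
/-- powers of an element of order `e > 0` agree iff the exponents agree mod `e`. -/
theorem h62_pow_eq_pow_iff (θ : R) (e : ℕ) (he0 : 0 < e) (hθ : orderOf θ = e) (n m : ℕ) :
    θ ^ n = θ ^ m ↔ n ≡ m [MOD e] := by
  have h1 : θ ^ e = 1 := hθ ▸ pow_orderOf_eq_one θ
  have hu : IsUnit θ := IsUnit.of_pow_eq_one h1 he0.ne'
  obtain ⟨u, rfl⟩ := hu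
  rw [← hθ, orderOf_units, ← Units.val_pow_eq_pow_val, ← Units.val_pow_eq_pow_val, Units.val_inj]
  exact pow_eq_pow_iff_modEq

/-- the numerology of `e = (p - 1) f`. -/
theorem h62_irr6_num (p e : ℕ) (hp : p.Prime) (hp2 : p ≠ 2) (he : (p - 1) ∣ e) (he0 : 0 < e) :
    (p - 1) * (e / (p - 1)) = e ∧ 2 ≤ p - 1 ∧ 1 ≤ e / (p - 1) ∧ 2 * (e / (p - 1)) ≤ e := by
  have h1 : (p - 1) * (e / (p - 1)) = e := Nat.mul_div_cancel' he
  have h2 : 2 ≤ p - 1 := by
    have := hp.two_le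
    omega
  have h3 : 1 ≤ e / (p - 1) := by
    rcases Nat.eq_zero_or_pos (e / (p - 1)) with h | h
    · rw [h, mul_zero] at h1; omega
    · exact h
  refine ⟨h1, h2, h3, ?_⟩
  calc 2 * (e / (p - 1)) ≤ (p - 1) * (e / (p - 1)) := Nat.mul_le_mul_right _ h2
    _ = e := h1

omit [IsDomain R] in
/-- each of the two relations expresses `ϑ` as a power of `θ`. -/
theorem h62_irr6_exp (p : ℕ) (θ ϑ w : R) (e : ℕ) (hp : p.Prime) (hp2 : p ≠ 2)
    (he : (p - 1) ∣ e) (he0 : 0 < e) (hθ : orderOf θ = e) (hw : w = θ ^ (e / (p - 1)))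
    (i : ℕ) (hi : e ≤ i) (hi' : i ≤ e + e / (p - 1))
    (h : θ ^ i = w * ϑ ∨ θ ^ i * ϑ = w) :
    ϑ = θ ^ (i + e - e / (p - 1)) ∨ ϑ = θ ^ (2 * e + e / (p - 1) - i) := by
  obtain ⟨hf, hp1, hf1, h2f⟩ := h62_irr6_num p e hp hp2 he he0
  have h1 : θ ^ e = 1 := hθ ▸ pow_orderOf_eq_one θ
  set f := e / (p - 1) with hfdef
  rcases h with h | h
  · left
    calc ϑ = θ ^ e * ϑ := by rw [h1, one_mul]
      _ = θ ^ (e - f) * (θ ^ f * ϑ) := by
          rw [← mul_assoc, ← pow_add, Nat.sub_add_cancel (by omega)]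
      _ = θ ^ (e - f) * θ ^ i := by rw [h, hw]
      _ = θ ^ (i + e - f) := by
          rw [← pow_add]; congr 1; omega
  · right
    calc ϑ = (θ ^ e) ^ 2 * ϑ := by rw [h1, one_pow, one_mul]
      _ = θ ^ (2 * e - i) * (θ ^ i * ϑ) := by
          rw [← mul_assoc, ← pow_add, ← pow_mul]
          congr 2; omega
      _ = θ ^ (2 * e - i) * θ ^ f := by rw [h, hw]
      _ = θ ^ (2 * e + f - i) := by
          rw [← pow_add]; congr 1; omega

/-- **IRR-6 (A)**: at most one exponent in the window, and it is not the top one. -/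
theorem h62_irr6_A (p : ℕ) (θ ϑ w : R) (e : ℕ) (hp : p.Prime) (hp2 : p ≠ 2)
    (he : (p - 1) ∣ e) (he0 : 0 < e) (hθ : orderOf θ = e) (hw : w = θ ^ (e / (p - 1)))
    (hϑ : ϑ * ϑ ≠ 1) (hϑ' : ϑ ≠ 0) :
    ∀ i i' : ℕ, e ≤ i → i ≤ e + e / (p - 1) → e ≤ i' → i' ≤ e + e / (p - 1) →
      (θ ^ i = w * ϑ ∨ θ ^ i * ϑ = w) → (θ ^ i' = w * ϑ ∨ θ ^ i' * ϑ = w) →
      i = i' ∧ i ≠ e + e / (p - 1) := by
  intro i i' hi hiu hi' hiu' h h'
  obtain ⟨hf, hp1, hf1, h2f⟩ := h62_irr6_num p e hp hp2 he he0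
  have h1 : θ ^ e = 1 := hθ ▸ pow_orderOf_eq_one θ
  have key := h62_pow_eq_pow_iff θ e he0 hθ
  have hE := h62_irr6_exp p θ ϑ w e hp hp2 he he0 hθ hw i hi hiu h
  have hE' := h62_irr6_exp p θ ϑ w e hp hp2 he he0 hθ hw i' hi' hiu' h'
  set f := e / (p - 1) with hfdef
  -- the mixed case is contradictory
  have mixed : ∀ j j' : ℕ, e ≤ j → j ≤ e + f → e ≤ j' → j' ≤ e + f →
      ϑ = θ ^ (j + e - f) → ϑ = θ ^ (2 * e + f - j') → False := by
    intro j j' hj hju hj' hju' hA hB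
    have hmod : (2 * e + f - j') ≡ (j + e - f) [MOD e] := (key _ _).1 (hB.symm.trans hA)
    have hle : 2 * e + f - j' ≤ j + e - f := by omega
    have hdvd : e ∣ (j + e - f) - (2 * e + f - j') := (Nat.modEq_iff_dvd' hle).1 hmod
    have hub : (j + e - f) - (2 * e + f - j') ≤ e := by omega
    obtain ⟨c, hc⟩ := hdvd
    have hc01 : c = 0 ∨ c = 1 := by
      rcases c with _ | _ | c
      · left; rfl
      · right; rfl
      · exfalso
        have : e * (c + 1 + 1) ≥ 2 * e := by nlinarith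
        omega
    apply hϑ
    rcases hc01 with rfl | rfl
    · -- equal exponents: `e = 2 f`, `j = j' = e`, `ϑ ^ 2 = θ ^ (3 e) = 1`
      have hj1 : j = e := by omega
      have hef : e = 2 * f := by omega
      rw [hA, ← pow_add]
      have : j + e - f + (j + e - f) = e * 3 := by omega
      rw [this, pow_mul, h1, one_pow]
    · -- exponents differ by `e`: `j = j' = e + f`, `ϑ = θ ^ (2 e) = 1`
      have hj1 : j = e + f := by omega
      rw [hA]
      have : j + e - f = e * 2 := by omega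
      rw [this, pow_mul, h1, one_pow, one_mul]
  constructor
  · rcases hE with hA | hB <;> rcases hE' with hA' | hB'
    · have hmod : (i + e - f) ≡ (i' + e - f) [MOD e] := (key _ _).1 (hA.symm.trans hA')
      have := h62_modEq_eq e _ _ hmod (by omega) (by omega)
      omega
    · exact (mixed i i' hi hiu hi' hiu' hA hB').elim
    · exact (mixed i' i hi' hiu' hi hiu hA' hB).elim
    · have hmod : (2 * e + f - i) ≡ (2 * e + f - i') [MOD e] := (key _ _).1 (hB.symm.trans hB')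
      have := h62_modEq_eq e _ _ hmod (by omega) (by omega)
      omega
  · intro htop
    have htop' : i = e + f := htop
    apply hϑ
    have h2e : ϑ = 1 := by
      rcases hE with hA | hB
      · have : i + e - f = e * 2 := by omega
        rw [hA, this, pow_mul, h1, one_pow]
      · have : 2 * e + f - i = e := by omega
        rw [hB, this, h1]
    rw [h2e, one_mul]

/-- `-1 ≠ 1` in a domain containing an element of even order. -/
theorem h62_irr6_two_ne (p : ℕ) (θ : R) (e : ℕ) (hp : p.Prime) (hp2 : p ≠ 2)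
    (he : (p - 1) ∣ e) (he0 : 0 < e) (hθ : orderOf θ = e) : (2 : R) ≠ 0 := by
  obtain ⟨hf, hp1, hf1, h2f⟩ := h62_irr6_num p e hp hp2 he he0
  have h1 : θ ^ e = 1 := hθ ▸ pow_orderOf_eq_one θ
  -- `e` is even
  have hodd : ¬ 2 ∣ p := fun h => hp2 ((Nat.prime_dvd_prime_iff_eq Nat.prime_two hp).1 h).symm
  have h2e : 2 ∣ e := by
    rw [← hf]
    exact Dvd.dvd.mul_right (by omega) _
  obtain ⟨m, hm⟩ := h2e
  have hx : θ ^ m * θ ^ m = 1 := by rw [← pow_add, ← two_mul, ← hm, h1]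
  have hx1 : θ ^ m ≠ 1 := by
    apply pow_ne_one_of_lt_orderOf (by omega)
    rw [hθ]; omega
  intro h2
  have hx2 : θ ^ m = 1 ∨ θ ^ m = -1 := mul_self_eq_one_iff.1 hx
  rcases hx2 with h | h
  · exact hx1 h
  · apply hx1
    rw [h]
    have : (-1 : R) = 1 - 2 := by ring
    rw [this, h2, sub_zero]

/-- **IRR-6 (B)**: for `ϑ = -1` and `p ≠ 3` there is no exponent in the window. -/
theorem h62_irr6_B (p : ℕ) (θ ϑ w : R) (e : ℕ) (hp : p.Prime) (hp2 : p ≠ 2)
    (he : (p - 1) ∣ e) (he0 : 0 < e) (hθ : orderOf θ = e) (hw : w = θ ^ (e / (p - 1)))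
    (hϑ : ϑ = -1) (hp3 : p ≠ 3) :
    ∀ i : ℕ, e ≤ i → i ≤ e + e / (p - 1) → θ ^ i ≠ w * ϑ := by
  intro i hi hiu h
  obtain ⟨hf, hp1, hf1, h2f⟩ := h62_irr6_num p e hp hp2 he he0
  have h1 : θ ^ e = 1 := hθ ▸ pow_orderOf_eq_one θ
  have key := h62_pow_eq_pow_iff θ e he0 hθ
  have h2 := h62_irr6_two_ne p θ e hp hp2 he he0 hθ
  set f := e / (p - 1) with hfdef
  -- `p ≥ 5`, so `4 f ≤ e`
  have hp5 : 4 ≤ p - 1 := by
    have := hp.two_le
    have h4 : p ≠ 4 := by
      rintro rfl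
      exact absurd hp (by decide)
    omega
  have h4f : 4 * f ≤ e := by
    calc 4 * f ≤ (p - 1) * f := Nat.mul_le_mul_right _ hp5
      _ = e := hf
  have hsq : θ ^ (2 * i) = θ ^ (2 * f) := by
    rw [two_mul, pow_add, h, hw, hϑ, two_mul, pow_add]; ring
  have hmod : (2 * f) ≡ (2 * i) [MOD e] := (key _ _).1 hsq.symm
  have hdvd : e ∣ 2 * i - 2 * f := (Nat.modEq_iff_dvd' (by omega)).1 hmod
  obtain ⟨c, hc⟩ := hdvd
  have hc2 : c = 2 := by
    rcases c with _ | _ | _ | c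
    · omega
    · omega
    · rfl
    · exfalso
      have : e * (c + 1 + 1 + 1) ≥ 3 * e := by nlinarith
      omega
  subst hc2
  have hitop : i = e + f := by omega
  have h3 : θ ^ f = - θ ^ f := by
    have : θ ^ i = θ ^ f := by rw [hitop, pow_add, h1, one_mul]
    rw [this, hw, hϑ] at h
    rw [mul_neg_one] at h
    exact h
  have h4 : (2 : R) * θ ^ f = 0 := by
    have : θ ^ f + θ ^ f = 0 := by
      nth_rewrite 1 [h3]; ring
    rw [two_mul]; exact this
  rcases mul_eq_zero.1 h4 with h5 | h5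
  · exact h2 h5
  · have : θ ^ e = 0 := by
      have : e = f + (e - f) := by omega
      rw [this, pow_add, h5, zero_mul]
    rw [h1] at this
    exact one_ne_zero this

omit [IsDomain R] in
/-- **IRR-6 (C)**: `θ ^ i ≠ w` below the top of the window. -/
theorem h62_irr6_C (p : ℕ) (θ w : R) (e : ℕ) (hp : p.Prime) (hp2 : p ≠ 2)
    (he : (p - 1) ∣ e) (he0 : 0 < e) (hθ : orderOf θ = e) (hw : w = θ ^ (e / (p - 1))) :
    ∀ i : ℕ, e ≤ i → i < e + e / (p - 1) → θ ^ i ≠ w := by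
  intro i hi hiu h
  obtain ⟨hf, hp1, hf1, h2f⟩ := h62_irr6_num p e hp hp2 he he0
  have key := h62_pow_eq_pow_iff θ e he0 hθ
  set f := e / (p - 1) with hfdef
  rw [hw] at h
  have hmod : f ≡ i [MOD e] := (key _ _).1 h.symm
  have hdvd : e ∣ i - f := (Nat.modEq_iff_dvd' (by omega)).1 hmod
  have hlt : i - f < e := by omega
  have hpos : 0 < i - f := by omega
  exact absurd (Nat.le_of_dvd hpos hdvd) (by omega)

end IrrArith

/-! ### The row statements, verbatim from the W3 skeleton (`sk_irr_arith_*`) -/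

section Verbatim

variable (p : ℕ) [Fact p.Prime]

/-- IRR-6 (A): at most one level matches, and it is not the top level. -/
theorem h62_irr_arith_A {R : Type} [CommRing R] [IsDomain R] (hp2 : p ≠ 2) (θ ϑ w : R) (e : ℕ)
    (he : (p - 1) ∣ e) (he0 : 0 < e) (hθ : orderOf θ = e) (hw : w = θ ^ (e / (p - 1)))
    (hϑ : ϑ * ϑ ≠ 1) (hϑ0 : ϑ ≠ 0) (i i' : ℕ) (hi : e ≤ i) (hi2 : i ≤ e + e / (p - 1))
    (hi' : e ≤ i') (hi2' : i' ≤ e + e / (p - 1))
    (h : θ ^ i = w * ϑ ∨ θ ^ i * ϑ = w) (h' : θ ^ i' = w * ϑ ∨ θ ^ i' * ϑ = w) :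
    i = i' ∧ i ≠ e + e / (p - 1) :=
  h62_irr6_A p θ ϑ w e Fact.out hp2 he he0 hθ hw hϑ hϑ0 i i' hi hi2 hi' hi2' h h'

/-- IRR-6 (B): `ϑ = -1`, `p > 3`: no level matches. -/
theorem h62_irr_arith_B {R : Type} [CommRing R] [IsDomain R] (hp2 : p ≠ 2) (hp3 : p ≠ 3)
    (θ w : R) (e : ℕ) (he : (p - 1) ∣ e) (he0 : 0 < e) (hθ : orderOf θ = e)
    (hw : w = θ ^ (e / (p - 1))) (i : ℕ) (hi : e ≤ i) (hi2 : i ≤ e + e / (p - 1)) :
    θ ^ i ≠ -w := fun h =>
  h62_irr6_B p θ (-1) w e Fact.out hp2 he he0 hθ hw rfl hp3 i hi hi2 (by rw [h, mul_neg_one])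

/-- IRR-6 (C): below the top no level has `θ^i = w`. -/
theorem h62_irr_arith_C {R : Type} [CommRing R] [IsDomain R] (hp2 : p ≠ 2)
    (θ w : R) (e : ℕ) (he : (p - 1) ∣ e) (he0 : 0 < e) (hθ : orderOf θ = e)
    (hw : w = θ ^ (e / (p - 1))) (i : ℕ) (hi : e ≤ i) (hi2 : i < e + e / (p - 1)) :
    θ ^ i ≠ w :=
  h62_irr6_C p θ w e Fact.out hp2 he he0 hθ hw i hi hi2

end Verbatim

end Fermat.Agent.S56
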