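/-
S56 / W3 / E-IRR : the structure produced by row IRR-2 (STRUCT) and consumed by IRR-5 / IRR-8.
Definitions only.
-/
import Fermat.Agent.S56.h78_W3Defs

set_option autoImplicit false

namespace Fermat.Agent.S56

variable (p : ℕ) [Fact p.Prime]

local notation "Ω" => PadicAlgCl p
local notation "Fld" => IntermediateField ℚ_[p] (PadicAlgCl p)

/-- the data produced by IRR-2 (structure of `rb` and the tame field `F₁`). -/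
structure h78_IrrData {k : Type} [Field k] (rb : h78_G p →* Matrix (Fin 2) (Fin 2) k)
    (W : Submodule k (h78_G p → Matrix (Fin 2) (Fin 2) k)) (L : Fld) where
  τ : h78_G p
  φ : h78_G p
  F₁ : Fld
  fin : FiniteDimensional ℚ_[p] F₁
  stable : h78_Stable p F₁
  tame : h78_IsTame p F₁
  le : F₁ ≤ L
  triv : ∀ g ∈ L.fixingSubgroup, rb g = 1 ∧ ∀ a ∈ W, a g = 0
  scalar : ∀ g ∈ F₁.fixingSubgroup, ∃ c : k, rb g = c • (1 : Matrix (Fin 2) (Fin 2) k)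
  index : ((F₁.fixingSubgroup.index : ℕ) : k) ≠ 0
  swap : rb φ * rb τ = rb τ ^ p * rb φ
  conj : rb τ ^ p = (rb τ).trace • (1 : Matrix (Fin 2) (Fin 2) k) - rb τ
  sep : (rb τ).trace ^ 2 ≠ 4 * (rb τ).det
  τJ : τ ∈ h78_J p L
  ζ : Ω
  ζF : ζ ∈ F₁
  ζp : ζ ^ p = 1
  ζ1 : ζ ≠ 1
  nw : ℕ
  τζ : τ ζ = ζ ^ nw
  π₁ : Ω
  unif : h78_IsUnif p F₁ π₁
  θ : Ω
  θF : θ ∈ F₁
  θπ : ‖τ π₁ - θ * π₁‖ < ‖π₁‖
  e : ℕ
  eπ : ‖π₁‖ ^ e = (p : ℝ)⁻¹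
  θe : θ ^ e = 1
  θe' : ∀ j : ℕ, 0 < j → j < e → θ ^ j ≠ 1
  pe : (p - 1) ∣ e
  wθ : ‖θ ^ (e / (p - 1)) - (nw : Ω)‖ < 1
  res : ∀ z ∈ F₁, (∃ n : ℕ, 0 < n ∧ ¬ p ∣ n ∧ z ^ n = 1) → z ^ (p ^ 2 - 1) = 1

end Fermat.Agent.S56
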