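import Mathlib
import Fermat.Agent.S56.h78_W3Defs
import Fermat.Agent.S56.h5_KumBasic

/-!
# S56 / W3, E-IRR sub-row IRR-4 (LEVEL): leading coefficients

Everything in `Ω = PadicAlgCl p`, norm language.  `F` a subfield with uniformizer `π`
(`h78_IsUnif p F π`), `τ` a Galois element stabilising `F`, acting trivially on the residue
field of `F`, with `τ π ≡ θ π` to first order.

* `h84_lev_tau` : `‖τ a - θ^i a‖ < ‖a‖` for `a ∈ F` of norm `‖π‖^i`;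
* `h84_lev_pth` : a `p`-th power `z^p ≡ 1` (`z ∈ F`) is at a `p`-divisible level or at/above the
  top level (`p^p ‖z^p - 1‖^(p-1) ≤ 1`);
* `h84_lev_lc` : modulo `p`-th powers the leading coefficient at a level `i` prime to `p` and
  below top is well defined and additive;
* `h84_lev_lc_tau1`, `h84_lev_lc_tau2` : the consequences for a relation
  `τ u = u^n z^p`, resp. `τ (τ u) = (τ u)^n₁ u^n₀ z^p`.
-/

set_option autoImplicit false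

namespace Fermat.Agent.S56

variable (p : ℕ) [Fact p.Prime]

local notation "Ω" => PadicAlgCl p
local notation "Fld" => IntermediateField ℚ_[p] (PadicAlgCl p)

/-! ## ultrametric preliminaries -/

theorem h84_norm_eq_of_sub_lt {x y : Ω} (h : ‖x - y‖ < ‖x‖) : ‖y‖ = ‖x‖ := by
  have h1 : ‖y‖ ≤ max ‖x‖ ‖x - y‖ := by
    have := h5_norm_sub_le_max p x (x - y)
    rwa [sub_sub_cancel] at this
  have h2 : ‖x‖ ≤ max ‖y‖ ‖x - y‖ := by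
    have := IsUltrametricDist.norm_add_le_max y (x - y)
    rwa [add_sub_cancel] at this
  rcases le_max_iff.1 h2 with h3 | h3
  · exact le_antisymm (le_trans h1 (max_le le_rfl h.le)) h3
  · exact absurd h3 (not_le.2 h)

theorem h84_pow_sub_pow_lt {x y : Ω} {r : ℝ} (hr : 0 < r) (hx : ‖x‖ ≤ r) (hy : ‖y‖ ≤ r)
    (hxy : ‖x - y‖ < r) (i : ℕ) : ‖x ^ i - y ^ i‖ < r ^ i := by
  induction i with
  | zero => simp
  | succ i ih =>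
    have e : x ^ (i + 1) - y ^ (i + 1) = x ^ i * (x - y) + (x ^ i - y ^ i) * y := by ring
    rw [e]
    refine lt_of_le_of_lt (IsUltrametricDist.norm_add_le_max _ _) (max_lt ?_ ?_)
    · rw [norm_mul, norm_pow, pow_succ]
      have h1 : ‖x‖ ^ i ≤ r ^ i := pow_le_pow_left₀ (norm_nonneg _) hx i
      calc ‖x‖ ^ i * ‖x - y‖ ≤ r ^ i * ‖x - y‖ :=
            mul_le_mul_of_nonneg_right h1 (norm_nonneg _)
        _ < r ^ i * r := mul_lt_mul_of_pos_left hxy (pow_pos hr i)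
    · rw [norm_mul, pow_succ]
      calc ‖x ^ i - y ^ i‖ * ‖y‖ ≤ ‖x ^ i - y ^ i‖ * r :=
            mul_le_mul_of_nonneg_left hy (norm_nonneg _)
        _ < r ^ i * r := mul_lt_mul_of_pos_right ih hr

/-- `x^n = 1 + n (x - 1) + O(r²)` for `‖x - 1‖ ≤ r ≤ 1`. -/
theorem h84_pow_sub_one {x : Ω} {r : ℝ} (hr1 : r ≤ 1) (hx : ‖x - 1‖ ≤ r) (n : ℕ) :
    ‖x ^ n - 1 - (n : Ω) * (x - 1)‖ ≤ r ^ 2 ∧ ‖x ^ n - 1‖ ≤ r := by
  have hr0 : 0 ≤ r := le_trans (norm_nonneg _) hx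
  induction n with
  | zero => simp [hr0]
  | succ n ih =>
    obtain ⟨ih1, ih2⟩ := ih
    have hrr : r ^ 2 ≤ r := by rw [sq]; exact mul_le_of_le_one_left hr0 hr1
    have hprod : ‖(x ^ n - 1) * (x - 1)‖ ≤ r ^ 2 := by
      rw [norm_mul, sq]; exact mul_le_mul ih2 hx (norm_nonneg _) hr0
    constructor
    · have e : x ^ (n + 1) - 1 - ((n + 1 : ℕ) : Ω) * (x - 1)
          = (x ^ n - 1 - (n : Ω) * (x - 1)) + (x ^ n - 1) * (x - 1) := by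
        push_cast; ring
      rw [e]
      exact le_trans (IsUltrametricDist.norm_add_le_max _ _) (max_le ih1 hprod)
    · have e : x ^ (n + 1) - 1 = ((x ^ n - 1) + (x ^ n - 1) * (x - 1)) + (x - 1) := by ring
      rw [e]
      refine le_trans (IsUltrametricDist.norm_add_le_max _ _) (max_le ?_ hx)
      exact le_trans (IsUltrametricDist.norm_add_le_max _ _) (max_le ih2 (le_trans hprod hrr))

/-- `∏ u_j^(n_j) = 1 + ∑ n_j (u_j - 1) + O(r²)` for `‖u_j - 1‖ ≤ r ≤ 1`. -/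
theorem h84_prod_sub_one {ι : Type} {r : ℝ} (hr1 : r ≤ 1) (hr0 : 0 ≤ r) (s : Finset ι)
    (u : ι → Ω) (n : ι → ℕ) (hu : ∀ j ∈ s, ‖u j - 1‖ ≤ r) :
    ‖(∏ j ∈ s, u j ^ n j) - 1 - ∑ j ∈ s, (n j : Ω) * (u j - 1)‖ ≤ r ^ 2 ∧
      ‖(∏ j ∈ s, u j ^ n j) - 1‖ ≤ r := by
  classical
  induction s using Finset.induction_on with
  | empty => simp [hr0]
  | insert a s has ih =>
    obtain ⟨ih1, ih2⟩ := ih (fun j hj => hu j (Finset.mem_insert_of_mem hj))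
    obtain ⟨ha1, ha2⟩ := h84_pow_sub_one p hr1 (hu a (Finset.mem_insert_self a s)) (n a)
    have hrr : r ^ 2 ≤ r := by rw [sq]; exact mul_le_of_le_one_left hr0 hr1
    rw [Finset.prod_insert has, Finset.sum_insert has]
    have hprod : ‖(u a ^ n a - 1) * ((∏ j ∈ s, u j ^ n j) - 1)‖ ≤ r ^ 2 := by
      rw [norm_mul, sq]; exact mul_le_mul ha2 ih2 (norm_nonneg _) hr0
    constructor
    · have e : u a ^ n a * (∏ j ∈ s, u j ^ n j) - 1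
            - ((n a : Ω) * (u a - 1) + ∑ j ∈ s, (n j : Ω) * (u j - 1))
          = ((u a ^ n a - 1 - (n a : Ω) * (u a - 1))
              + ((∏ j ∈ s, u j ^ n j) - 1 - ∑ j ∈ s, (n j : Ω) * (u j - 1)))
            + (u a ^ n a - 1) * ((∏ j ∈ s, u j ^ n j) - 1) := by ring
      rw [e]
      refine le_trans (IsUltrametricDist.norm_add_le_max _ _) (max_le ?_ hprod)
      exact le_trans (IsUltrametricDist.norm_add_le_max _ _) (max_le ha1 ih1)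
    · have e : u a ^ n a * (∏ j ∈ s, u j ^ n j) - 1
          = ((u a ^ n a - 1) + ((∏ j ∈ s, u j ^ n j) - 1))
            + (u a ^ n a - 1) * ((∏ j ∈ s, u j ^ n j) - 1) := by ring
      rw [e]
      refine le_trans (IsUltrametricDist.norm_add_le_max _ _) (max_le ?_ (le_trans hprod hrr))
      exact le_trans (IsUltrametricDist.norm_add_le_max _ _) (max_le ha2 ih2)

/-! ## (T) : the action of `τ` on leading terms -/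

/-- `θ` is a unit. -/
theorem h84_lev_theta_norm (π : Ω) (hπ0 : π ≠ 0) (τ : h78_G p) (θ : Ω)
    (hθ : ‖τ π - θ * π‖ < ‖π‖) : ‖θ‖ = 1 := by
  have h := h84_norm_eq_of_sub_lt p (x := τ π) (y := θ * π) (by rw [h78_norm_aut]; exact hθ)
  rw [h78_norm_aut, norm_mul] at h
  have hπpos : 0 < ‖π‖ := norm_pos_iff.2 hπ0
  exact (mul_eq_right₀ hπpos.ne').1 h

/-- (T) `τ a ≡ θ^i a` for `a ∈ F` of norm `‖π‖^i`. -/
theorem h84_lev_tau (F : Fld) (π : Ω) (hπ : h78_IsUnif p F π) (τ : h78_G p)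
    (hτres : ∀ x ∈ F, ‖x‖ ≤ 1 → ‖τ x - x‖ < 1) (θ : Ω)
    (hθ : ‖τ π - θ * π‖ < ‖π‖) (a : Ω) (ha : a ∈ F) (i : ℕ) (hi : ‖a‖ = ‖π‖ ^ i) :
    ‖τ a - θ ^ i * a‖ < ‖a‖ := by
  obtain ⟨hπF, hπ0, hπ1, -⟩ := hπ
  have hπpos : 0 < ‖π‖ := norm_pos_iff.2 hπ0
  obtain ⟨ε, hεF, hεn, haε⟩ : ∃ ε ∈ F, ‖ε‖ = 1 ∧ a = ε * π ^ i := by
    refine ⟨a / π ^ i, div_mem ha (pow_mem hπF i), ?_, ?_⟩
    · rw [norm_div, norm_pow, hi, div_self (pow_ne_zero i hπpos.ne')]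
    · rw [div_mul_cancel₀ _ (pow_ne_zero i hπ0)]
  have h1 : ‖τ ε - ε‖ < 1 := hτres ε hεF hεn.le
  have hθπ : ‖θ * π‖ = ‖π‖ := by
    have := h84_norm_eq_of_sub_lt p (x := τ π) (y := θ * π) (by rw [h78_norm_aut]; exact hθ)
    rw [this, h78_norm_aut]
  have h2 : ‖(τ π) ^ i - (θ * π) ^ i‖ < ‖π‖ ^ i :=
    h84_pow_sub_pow_lt p hπpos (by rw [h78_norm_aut]) hθπ.le hθ i
  have e : τ a - θ ^ i * a = (τ ε - ε) * (τ π) ^ i + ε * ((τ π) ^ i - (θ * π) ^ i) := by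
    rw [haε, map_mul, map_pow]; ring
  rw [e, hi]
  refine lt_of_le_of_lt (IsUltrametricDist.norm_add_le_max _ _) (max_lt ?_ ?_)
  · rw [norm_mul, norm_pow, h78_norm_aut]
    calc ‖τ ε - ε‖ * ‖π‖ ^ i < 1 * ‖π‖ ^ i := mul_lt_mul_of_pos_right h1 (pow_pos hπpos i)
      _ = ‖π‖ ^ i := one_mul _
  · rw [norm_mul, hεn, one_mul]; exact h2

/-- (T) in the form for `u = 1 + a`. -/
theorem h84_lev_tau_one (F : Fld) (π : Ω) (hπ : h78_IsUnif p F π) (τ : h78_G p)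
    (hτres : ∀ x ∈ F, ‖x‖ ≤ 1 → ‖τ x - x‖ < 1) (θ : Ω)
    (hθ : ‖τ π - θ * π‖ < ‖π‖) (u : Ω) (hu : u ∈ F) (i : ℕ) (hi : ‖u - 1‖ = ‖π‖ ^ i) :
    ‖τ u - 1 - θ ^ i * (u - 1)‖ < ‖u - 1‖ := by
  have h := h84_lev_tau p F π hπ τ hτres θ hθ (u - 1) (sub_mem hu (one_mem F)) i hi
  rwa [map_sub, map_one] at h

/-- (T) applied twice. -/
theorem h84_lev_tau_tau (F : Fld) (π : Ω) (hπ : h78_IsUnif p F π) (τ : h78_G p)
    (hτF : ∀ z ∈ F, τ z ∈ F) (hτres : ∀ x ∈ F, ‖x‖ ≤ 1 → ‖τ x - x‖ < 1) (θ : Ω)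
    (hθ : ‖τ π - θ * π‖ < ‖π‖) (a : Ω) (ha : a ∈ F) (i : ℕ) (hi : ‖a‖ = ‖π‖ ^ i) :
    ‖τ (τ a) - θ ^ i * θ ^ i * a‖ < ‖a‖ := by
  have hθ1 : ‖θ‖ = 1 := h84_lev_theta_norm p π hπ.2.1 τ θ hθ
  have h1 := h84_lev_tau p F π hπ τ hτres θ hθ a ha i hi
  have h2 := h84_lev_tau p F π hπ τ hτres θ hθ (τ a) (hτF a ha) i (by rw [h78_norm_aut, hi])
  rw [h78_norm_aut] at h2
  have e : τ (τ a) - θ ^ i * θ ^ i * a = (τ (τ a) - θ ^ i * τ a) + θ ^ i * (τ a - θ ^ i * a) := by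
    ring
  rw [e]
  refine lt_of_le_of_lt (IsUltrametricDist.norm_add_le_max _ _) (max_lt h2 ?_)
  rw [norm_mul, norm_pow, hθ1, one_pow, one_mul]
  exact h1

/-! ## (PW) : `p`-th powers -/

/-- (PW) a `p`-th power `z^p ≡ 1`, `z ∈ F`, is at a `p`-divisible level or at/above top. -/
theorem h84_lev_pth (F : Fld) (π : Ω) (hπ : h78_IsUnif p F π) (z : Ω) (hz : z ∈ F)
    (h1 : ‖z ^ p - 1‖ < 1) :
    (∃ j : ℕ, ‖z ^ p - 1‖ = ‖π‖ ^ (p * j)) ∨ (p : ℝ) ^ p * ‖z ^ p - 1‖ ^ (p - 1) ≤ 1 := by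
  have hp : p.Prime := Fact.out
  obtain ⟨hπF, hπ0, hπ1, hπv⟩ := hπ
  have hπpos : 0 < ‖π‖ := norm_pos_iff.2 hπ0
  have hppos : (0 : ℝ) < p := h5_p_pos p
  have hzp : ‖z ^ p‖ = 1 := by
    have := h84_norm_eq_of_sub_lt p (x := (1 : Ω)) (y := z ^ p)
      (by rw [norm_sub_rev, norm_one]; exact h1)
    rw [this, norm_one]
  have hz1 : ‖z‖ = 1 := by
    rw [norm_pow] at hzp
    exact (pow_eq_one_iff_of_nonneg (norm_nonneg z) hp.ne_zero).1 hzp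
  obtain ⟨b, hbF, hzb⟩ : ∃ b ∈ F, z = 1 + b := ⟨z - 1, sub_mem hz (one_mem F), by ring⟩
  have hb1 : ‖b‖ ≤ 1 := by
    have hb : b = z - 1 := by rw [hzb]; ring
    rw [hb]
    refine le_trans (h5_norm_sub_le_max p z 1) ?_
    rw [hz1, norm_one, max_self]
  have hbin : ‖z ^ p - 1 - b ^ p‖ ≤ (p : ℝ)⁻¹ * ‖b‖ := by
    have := h5_binom_one p b hb1
    rwa [← hzb] at this
  by_cases hb0 : b = 0
  · right
    have h0 : z ^ p - 1 = 0 := by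
      rw [hzb, hb0]; simp
    rw [h0, norm_zero, zero_pow (by have := hp.two_le; omega), mul_zero]
    exact zero_le_one
  have hbpos : 0 < ‖b‖ := norm_pos_iff.2 hb0
  by_cases hcmp : (p : ℝ)⁻¹ * ‖b‖ < ‖b‖ ^ p
  · left
    have h2 : ‖z ^ p - 1‖ = ‖b‖ ^ p := by
      have := h84_norm_eq_of_sub_lt p (x := b ^ p) (y := z ^ p - 1) (by
        rw [norm_sub_rev, norm_pow]; exact lt_of_le_of_lt hbin hcmp)
      rw [this, norm_pow]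
    have hblt : ‖b‖ < 1 := by
      by_contra hge
      have hbe : ‖b‖ = 1 := le_antisymm hb1 (not_lt.1 hge)
      rw [h2, hbe, one_pow] at h1
      exact lt_irrefl _ h1
    obtain ⟨n, hn⟩ := hπv b hbF hb0
    have hnpos : 0 < n := by
      by_contra hle
      have hle' : n ≤ 0 := not_lt.1 hle
      have h3 : 1 ≤ ‖π‖ ^ n := one_le_zpow_of_nonpos₀ hπpos hπ1.le hle'
      rw [← hn] at h3
      exact absurd h3 (not_le.2 hblt)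
    obtain ⟨j, rfl⟩ := Int.eq_ofNat_of_zero_le hnpos.le
    rw [zpow_natCast] at hn
    exact ⟨j, by rw [h2, hn, ← pow_mul, mul_comm]⟩
  · right
    have hcmp' : ‖b‖ ^ p ≤ (p : ℝ)⁻¹ * ‖b‖ := not_lt.1 hcmp
    have h3 : ‖z ^ p - 1‖ ≤ (p : ℝ)⁻¹ * ‖b‖ := by
      have e : z ^ p - 1 = (z ^ p - 1 - b ^ p) + b ^ p := by ring
      rw [e]
      refine le_trans (IsUltrametricDist.norm_add_le_max _ _) (max_le hbin ?_)
      rw [norm_pow]; exact hcmp'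
    have h4 : ‖b‖ ^ (p - 1) ≤ (p : ℝ)⁻¹ := by
      have e : ‖b‖ ^ p = ‖b‖ ^ (p - 1) * ‖b‖ := by
        rw [← pow_succ, Nat.sub_add_cancel hp.one_le]
      rw [e] at hcmp'
      exact le_of_mul_le_mul_right hcmp' hbpos
    have hpi : (0 : ℝ) ≤ (p : ℝ)⁻¹ := inv_nonneg.2 hppos.le
    calc (p : ℝ) ^ p * ‖z ^ p - 1‖ ^ (p - 1)
        ≤ (p : ℝ) ^ p * ((p : ℝ)⁻¹ * ‖b‖) ^ (p - 1) :=
          mul_le_mul_of_nonneg_left (pow_le_pow_left₀ (norm_nonneg _) h3 _) (by positivity)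
      _ = (p : ℝ) ^ p * ((p : ℝ)⁻¹) ^ (p - 1) * ‖b‖ ^ (p - 1) := by rw [mul_pow]; ring
      _ ≤ (p : ℝ) ^ p * ((p : ℝ)⁻¹) ^ (p - 1) * (p : ℝ)⁻¹ :=
          mul_le_mul_of_nonneg_left h4 (by positivity)
      _ = 1 := by
          rw [mul_assoc, ← pow_succ, Nat.sub_add_cancel hp.one_le, ← mul_pow,
            mul_inv_cancel₀ hppos.ne', one_pow]

/-! ## (LC) : leading coefficients modulo `p`-th powers -/

/-- (LC) modulo `p`-th powers of `F`, the leading coefficient at a level `i` prime to `p` and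
below top is well defined and additive. -/
theorem h84_lev_lc (F : Fld) (π : Ω) (hπ : h78_IsUnif p F π) (i : ℕ) (hi : ¬ p ∣ i)
    (htop : 1 < (p : ℝ) ^ p * (‖π‖ ^ i) ^ (p - 1)) {ι : Type} (s : Finset ι) (u : ι → Ω)
    (n : ι → ℕ) (hu : ∀ j ∈ s, ‖u j - 1‖ ≤ ‖π‖ ^ i) (v z : Ω)
    (hv1 : ‖v - 1‖ ≤ ‖π‖ ^ i) (hz : z ∈ F) (hrel : v = (∏ j ∈ s, u j ^ n j) * z ^ p) :
    ‖(v - 1) - ∑ j ∈ s, (n j : Ω) * (u j - 1)‖ < ‖π‖ ^ i := by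
  have hp : p.Prime := Fact.out
  obtain ⟨hπF, hπ0, hπ1, hπv⟩ := id hπ
  have hπpos : 0 < ‖π‖ := norm_pos_iff.2 hπ0
  have hi0 : i ≠ 0 := by rintro rfl; exact hi (dvd_zero p)
  have hrpos : 0 < ‖π‖ ^ i := pow_pos hπpos i
  have hrlt : ‖π‖ ^ i < 1 := pow_lt_one₀ (norm_nonneg _) hπ1 hi0
  obtain ⟨hP1, hP2⟩ := h84_prod_sub_one p hrlt.le hrpos.le s u n hu
  have hPn : ‖∏ j ∈ s, u j ^ n j‖ = 1 := by
    have := h84_norm_eq_of_sub_lt p (x := (1 : Ω)) (y := ∏ j ∈ s, u j ^ n j)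
      (by rw [norm_sub_rev, norm_one]; exact lt_of_le_of_lt hP2 hrlt)
    rw [this, norm_one]
  have hvP : ‖v - ∏ j ∈ s, u j ^ n j‖ = ‖z ^ p - 1‖ := by
    have e : v - ∏ j ∈ s, u j ^ n j = (∏ j ∈ s, u j ^ n j) * (z ^ p - 1) := by rw [hrel]; ring
    rw [e, norm_mul, hPn, one_mul]
  have hvP' : ‖v - ∏ j ∈ s, u j ^ n j‖ ≤ ‖π‖ ^ i := by
    have e : v - ∏ j ∈ s, u j ^ n j = (v - 1) - ((∏ j ∈ s, u j ^ n j) - 1) := by ring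
    rw [e]
    exact le_trans (h5_norm_sub_le_max p _ _) (max_le hv1 hP2)
  have hz1 : ‖z ^ p - 1‖ < 1 := by rw [← hvP]; exact lt_of_le_of_lt hvP' hrlt
  have hlt : ‖v - ∏ j ∈ s, u j ^ n j‖ < ‖π‖ ^ i := by
    rcases h84_lev_pth p F π hπ z hz hz1 with ⟨j, hj⟩ | htop'
    · have hne : ‖v - ∏ j ∈ s, u j ^ n j‖ ≠ ‖π‖ ^ i := by
        rw [hvP, hj]
        intro h
        have h' : p * j = i := pow_right_injective₀ hπpos hπ1.ne h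
        exact hi ⟨j, h'.symm⟩
      exact lt_of_le_of_ne hvP' hne
    · by_contra hge
      have hge' : ‖π‖ ^ i ≤ ‖z ^ p - 1‖ := by rw [← hvP]; exact not_lt.1 hge
      have h1 : (‖π‖ ^ i) ^ (p - 1) ≤ ‖z ^ p - 1‖ ^ (p - 1) :=
        pow_le_pow_left₀ hrpos.le hge' _
      have h2 : (p : ℝ) ^ p * (‖π‖ ^ i) ^ (p - 1) ≤ (p : ℝ) ^ p * ‖z ^ p - 1‖ ^ (p - 1) :=
        mul_le_mul_of_nonneg_left h1 (by positivity)
      linarith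
  have e : (v - 1) - ∑ j ∈ s, (n j : Ω) * (u j - 1)
      = (v - ∏ j ∈ s, u j ^ n j)
        + ((∏ j ∈ s, u j ^ n j) - 1 - ∑ j ∈ s, (n j : Ω) * (u j - 1)) := by ring
  rw [e]
  refine lt_of_le_of_lt (IsUltrametricDist.norm_add_le_max _ _) (max_lt hlt ?_)
  refine lt_of_le_of_lt hP1 ?_
  rw [sq]; exact mul_lt_of_lt_one_left hrpos hrlt

/-- (LC) with one factor. -/
theorem h84_lev_lc_one (F : Fld) (π : Ω) (hπ : h78_IsUnif p F π) (i : ℕ) (hi : ¬ p ∣ i)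
    (htop : 1 < (p : ℝ) ^ p * (‖π‖ ^ i) ^ (p - 1)) (u : Ω) (n : ℕ)
    (hu : ‖u - 1‖ ≤ ‖π‖ ^ i) (v z : Ω) (hv1 : ‖v - 1‖ ≤ ‖π‖ ^ i) (hz : z ∈ F)
    (hrel : v = u ^ n * z ^ p) :
    ‖(v - 1) - (n : Ω) * (u - 1)‖ < ‖π‖ ^ i := by
  have h := h84_lev_lc p F π hπ i hi htop (Finset.univ : Finset Unit) (fun _ => u) (fun _ => n)
    (fun _ _ => hu) v z hv1 hz (by simpa using hrel)
  simpa using h

/-- (INJ) two representatives of one class, both `≡ 1` to the level `i` (prime to `p`, below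
top), have the same leading coefficient. -/
theorem h84_lev_inj (F : Fld) (π : Ω) (hπ : h78_IsUnif p F π) (i : ℕ) (hi : ¬ p ∣ i)
    (htop : 1 < (p : ℝ) ^ p * (‖π‖ ^ i) ^ (p - 1)) (u u' z : Ω)
    (hu : ‖u - 1‖ ≤ ‖π‖ ^ i) (hu' : ‖u' - 1‖ ≤ ‖π‖ ^ i) (hz : z ∈ F)
    (hrel : u' = u * z ^ p) : ‖u' - u‖ < ‖π‖ ^ i := by
  have h := h84_lev_lc_one p F π hπ i hi htop u 1 hu u' z hu' hz (by rw [pow_one]; exact hrel)
  have e : (u' - 1) - ((1 : ℕ) : Ω) * (u - 1) = u' - u := by push_cast; ring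
  rwa [e] at h

/-- (LC-τ1) a relation `τ u = u^n z^p` at a level `i` prime to `p` below top forces
`θ^i ≡ n`. -/
theorem h84_lev_lc_tau1 (F : Fld) (π : Ω) (hπ : h78_IsUnif p F π) (τ : h78_G p)
    (hτres : ∀ x ∈ F, ‖x‖ ≤ 1 → ‖τ x - x‖ < 1) (θ : Ω)
    (hθ : ‖τ π - θ * π‖ < ‖π‖) (u : Ω) (hu : u ∈ F) (i : ℕ) (hui : ‖u - 1‖ = ‖π‖ ^ i)
    (hi : ¬ p ∣ i) (htop : 1 < (p : ℝ) ^ p * (‖π‖ ^ i) ^ (p - 1)) (n : ℕ) (z : Ω) (hz : z ∈ F)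
    (hrel : τ u = u ^ n * z ^ p) : ‖θ ^ i - (n : Ω)‖ < 1 := by
  have hπpos : 0 < ‖π‖ := norm_pos_iff.2 hπ.2.1
  have hrpos : 0 < ‖π‖ ^ i := pow_pos hπpos i
  have hτu1 : ‖τ u - 1‖ = ‖π‖ ^ i := by
    have : τ u - 1 = τ (u - 1) := by rw [map_sub, map_one]
    rw [this, h78_norm_aut, hui]
  have h1 := h84_lev_lc_one p F π hπ i hi htop u n hui.le (τ u) z hτu1.le hz hrel
  have h2 := h84_lev_tau_one p F π hπ τ hτres θ hθ u hu i hui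
  rw [hui] at h2
  have e : (θ ^ i - (n : Ω)) * (u - 1)
      = ((τ u - 1) - (n : Ω) * (u - 1)) - (τ u - 1 - θ ^ i * (u - 1)) := by ring
  have h3 : ‖(θ ^ i - (n : Ω)) * (u - 1)‖ < ‖π‖ ^ i := by
    rw [e]
    exact lt_of_le_of_lt (h5_norm_sub_le_max p _ _) (max_lt h1 h2)
  rw [norm_mul, hui] at h3
  by_contra hge
  have hge' : 1 ≤ ‖θ ^ i - (n : Ω)‖ := not_lt.1 hge
  have : ‖π‖ ^ i ≤ ‖θ ^ i - (n : Ω)‖ * ‖π‖ ^ i := le_mul_of_one_le_left hrpos.le hge'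
  exact absurd this (not_le.2 h3)

/-- (LC-τ2) a relation `τ (τ u) = (τ u)^n₁ u^n₀ z^p` at a level `i` prime to `p` below top
forces `θ^(2i) ≡ n₁ θ^i + n₀`. -/
theorem h84_lev_lc_tau2 (F : Fld) (π : Ω) (hπ : h78_IsUnif p F π) (τ : h78_G p)
    (hτF : ∀ z ∈ F, τ z ∈ F) (hτres : ∀ x ∈ F, ‖x‖ ≤ 1 → ‖τ x - x‖ < 1) (θ : Ω)
    (hθ : ‖τ π - θ * π‖ < ‖π‖) (u : Ω) (hu : u ∈ F) (i : ℕ) (hui : ‖u - 1‖ = ‖π‖ ^ i)
    (hi : ¬ p ∣ i) (htop : 1 < (p : ℝ) ^ p * (‖π‖ ^ i) ^ (p - 1)) (n₁ n₀ : ℕ) (z : Ω)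
    (hz : z ∈ F) (hrel : τ (τ u) = (τ u) ^ n₁ * u ^ n₀ * z ^ p) :
    ‖θ ^ i * θ ^ i - (n₁ : Ω) * θ ^ i - (n₀ : Ω)‖ < 1 := by
  have hπpos : 0 < ‖π‖ := norm_pos_iff.2 hπ.2.1
  have hrpos : 0 < ‖π‖ ^ i := pow_pos hπpos i
  have haF : u - 1 ∈ F := sub_mem hu (one_mem F)
  have hτa : τ (u - 1) = τ u - 1 := by rw [map_sub, map_one]
  have hττa : τ (τ (u - 1)) = τ (τ u) - 1 := by rw [hτa, map_sub, map_one]
  have hτu1 : ‖τ u - 1‖ = ‖π‖ ^ i := by rw [← hτa, h78_norm_aut, hui]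
  have hττu1 : ‖τ (τ u) - 1‖ = ‖π‖ ^ i := by rw [← hττa, h78_norm_aut, h78_norm_aut, hui]
  have h1 := h84_lev_lc p F π hπ i hi htop (Finset.univ : Finset Bool)
    (fun b => if b then τ u else u) (fun b => if b then n₁ else n₀)
    (fun b _ => by cases b <;> simp [hui.le, hτu1.le]) (τ (τ u)) z hττu1.le hz
    (by simpa [Fintype.prod_bool] using hrel)
  rw [Fintype.sum_bool] at h1
  simp only [if_true, Bool.false_eq_true, if_false] at h1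
  have h2 := h84_lev_tau_tau p F π hπ τ hτF hτres θ hθ (u - 1) haF i hui
  rw [hττa, hui] at h2
  have h3 := h84_lev_tau p F π hπ τ hτres θ hθ (u - 1) haF i hui
  rw [hτa, hui] at h3
  have h3' : ‖(n₁ : Ω) * (τ u - 1 - θ ^ i * (u - 1))‖ < ‖π‖ ^ i := by
    rw [norm_mul]
    exact lt_of_le_of_lt (mul_le_of_le_one_left (norm_nonneg _) (h5_norm_natCast_le p n₁)) h3
  have e : (θ ^ i * θ ^ i - (n₁ : Ω) * θ ^ i - (n₀ : Ω)) * (u - 1)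
      = ((τ (τ u) - 1 - ((n₁ : Ω) * (τ u - 1) + (n₀ : Ω) * (u - 1)))
          - (τ (τ u) - 1 - θ ^ i * θ ^ i * (u - 1)))
        + (n₁ : Ω) * (τ u - 1 - θ ^ i * (u - 1)) := by ring
  have h4 : ‖(θ ^ i * θ ^ i - (n₁ : Ω) * θ ^ i - (n₀ : Ω)) * (u - 1)‖ < ‖π‖ ^ i := by
    rw [e]
    refine lt_of_le_of_lt (IsUltrametricDist.norm_add_le_max _ _) (max_lt ?_ h3')
    exact lt_of_le_of_lt (h5_norm_sub_le_max p _ _) (max_lt h1 h2)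
  rw [norm_mul, hui] at h4
  by_contra hge
  have hge' : 1 ≤ ‖θ ^ i * θ ^ i - (n₁ : Ω) * θ ^ i - (n₀ : Ω)‖ := not_lt.1 hge
  have : ‖π‖ ^ i ≤ ‖θ ^ i * θ ^ i - (n₁ : Ω) * θ ^ i - (n₀ : Ω)‖ * ‖π‖ ^ i :=
    le_mul_of_one_le_left hrpos.le hge'
  exact absurd this (not_le.2 h4)

/-! ## bridge to the normal-form language -/

/-- the level of `u ≠ 1`, `‖u - 1‖ < 1`, and its primality to `p` from the normal-form
condition `‖u - 1‖ ∉ |F^×|^p`. -/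
theorem h84_lev_exists (F : Fld) (π : Ω) (hπ : h78_IsUnif p F π) (u : Ω) (hu : u ∈ F)
    (hne : u ≠ 1) (h1 : ‖u - 1‖ < 1) (h3 : ∀ z ∈ F, z ≠ 0 → ‖u - 1‖ ≠ ‖z‖ ^ p) :
    ∃ i : ℕ, ‖u - 1‖ = ‖π‖ ^ i ∧ ¬ p ∣ i := by
  obtain ⟨hπF, hπ0, hπ1, hπv⟩ := hπ
  have hπpos : 0 < ‖π‖ := norm_pos_iff.2 hπ0
  obtain ⟨n, hn⟩ := hπv (u - 1) (sub_mem hu (one_mem F)) (sub_ne_zero.2 hne)
  have hnpos : 0 ≤ n := by
    by_contra hle
    have hle' : n ≤ 0 := (not_le.1 hle).le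
    have h4 : 1 ≤ ‖π‖ ^ n := one_le_zpow_of_nonpos₀ hπpos hπ1.le hle'
    rw [← hn] at h4
    exact absurd h4 (not_le.2 h1)
  obtain ⟨i, rfl⟩ := Int.eq_ofNat_of_zero_le hnpos
  rw [zpow_natCast] at hn
  refine ⟨i, hn, ?_⟩
  rintro ⟨j, rfl⟩
  refine h3 (π ^ j) (pow_mem hπF j) (pow_ne_zero j hπ0) ?_
  rw [hn, norm_pow, ← pow_mul, mul_comm]

/-- normal-form language: `‖u - 1‖ < 1`, not top, `‖u - 1‖ ∉ |F^×|^p` gives a level `i` prime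
to `p` and below top. -/
theorem h84_lev_nf (F : Fld) (π : Ω) (hπ : h78_IsUnif p F π) (u : Ω) (hu : u ∈ F)
    (h1 : ‖u - 1‖ < 1) (h2 : 1 < (p : ℝ) ^ p * ‖u - 1‖ ^ (p - 1))
    (h3 : ∀ z ∈ F, z ≠ 0 → ‖u - 1‖ ≠ ‖z‖ ^ p) :
    ∃ i : ℕ, ‖u - 1‖ = ‖π‖ ^ i ∧ ¬ p ∣ i ∧ 1 < (p : ℝ) ^ p * (‖π‖ ^ i) ^ (p - 1) := by
  have hp : p.Prime := Fact.out
  have hne : u ≠ 1 := by
    rintro rfl
    rw [sub_self, norm_zero, zero_pow (by have := hp.two_le; omega), mul_zero] at h2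
    exact absurd h2 (by norm_num)
  obtain ⟨i, hi, hpi⟩ := h84_lev_exists p F π hπ u hu hne h1 h3
  exact ⟨i, hi, hpi, by rw [← hi]; exact h2⟩

/-- (LC-τ1) in normal-form language. -/
theorem h84_lev_nf_tau1 (F : Fld) (π : Ω) (hπ : h78_IsUnif p F π) (τ : h78_G p)
    (hτres : ∀ x ∈ F, ‖x‖ ≤ 1 → ‖τ x - x‖ < 1) (θ : Ω)
    (hθ : ‖τ π - θ * π‖ < ‖π‖) (u : Ω) (hu : u ∈ F)
    (h1 : ‖u - 1‖ < 1) (h2 : 1 < (p : ℝ) ^ p * ‖u - 1‖ ^ (p - 1))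
    (h3 : ∀ z ∈ F, z ≠ 0 → ‖u - 1‖ ≠ ‖z‖ ^ p) (n : ℕ) (z : Ω) (hz : z ∈ F)
    (hrel : τ u = u ^ n * z ^ p) :
    ∃ i : ℕ, ‖u - 1‖ = ‖π‖ ^ i ∧ ¬ p ∣ i ∧ 1 < (p : ℝ) ^ p * (‖π‖ ^ i) ^ (p - 1) ∧
      ‖θ ^ i - (n : Ω)‖ < 1 := by
  obtain ⟨i, hi, hpi, htop⟩ := h84_lev_nf p F π hπ u hu h1 h2 h3
  exact ⟨i, hi, hpi, htop,
    h84_lev_lc_tau1 p F π hπ τ hτres θ hθ u hu i hi hpi htop n z hz hrel⟩

/-- (LC-τ2) in normal-form language. -/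
theorem h84_lev_nf_tau2 (F : Fld) (π : Ω) (hπ : h78_IsUnif p F π) (τ : h78_G p)
    (hτF : ∀ z ∈ F, τ z ∈ F) (hτres : ∀ x ∈ F, ‖x‖ ≤ 1 → ‖τ x - x‖ < 1) (θ : Ω)
    (hθ : ‖τ π - θ * π‖ < ‖π‖) (u : Ω) (hu : u ∈ F)
    (h1 : ‖u - 1‖ < 1) (h2 : 1 < (p : ℝ) ^ p * ‖u - 1‖ ^ (p - 1))
    (h3 : ∀ z ∈ F, z ≠ 0 → ‖u - 1‖ ≠ ‖z‖ ^ p) (n₁ n₀ : ℕ) (z : Ω) (hz : z ∈ F)
    (hrel : τ (τ u) = (τ u) ^ n₁ * u ^ n₀ * z ^ p) :
    ∃ i : ℕ, ‖u - 1‖ = ‖π‖ ^ i ∧ ¬ p ∣ i ∧ 1 < (p : ℝ) ^ p * (‖π‖ ^ i) ^ (p - 1) ∧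
      ‖θ ^ i * θ ^ i - (n₁ : Ω) * θ ^ i - (n₀ : Ω)‖ < 1 := by
  obtain ⟨i, hi, hpi, htop⟩ := h84_lev_nf p F π hπ u hu h1 h2 h3
  exact ⟨i, hi, hpi, htop,
    h84_lev_lc_tau2 p F π hπ τ hτF hτres θ hθ u hu i hi hpi htop n₁ n₀ z hz hrel⟩

/-- (QUOT) equal leading coefficients: the quotient class `u₁ / u₂ = u₁ u₂^(p-1) (u₂⁻¹)^p` has a
representative of strictly higher level. -/
theorem h84_lev_quot {r : ℝ} (hr1 : r < 1) (u₁ u₂ : Ω) (h₁ : ‖u₁ - 1‖ ≤ r) (h₂ : ‖u₂ - 1‖ ≤ r)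
    (h12 : ‖u₁ - u₂‖ < r) : ‖u₁ * u₂ ^ (p - 1) - 1‖ < r := by
  have hp : p.Prime := Fact.out
  have hr0 : 0 < r := lt_of_le_of_lt (norm_nonneg _) h12
  obtain ⟨ha1, ha2⟩ := h84_pow_sub_one p hr1.le h₂ (p - 1)
  have hrr : r ^ 2 < r := by rw [sq]; exact mul_lt_of_lt_one_left hr0 hr1
  have hcast : ((p - 1 : ℕ) : Ω) = (p : Ω) - 1 := by
    rw [Nat.cast_sub hp.one_le, Nat.cast_one]
  have e : u₁ * u₂ ^ (p - 1) - 1
      = (((u₁ - u₂) + (p : Ω) * (u₂ - 1))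
          + (u₂ ^ (p - 1) - 1 - ((p - 1 : ℕ) : Ω) * (u₂ - 1)))
        + (u₁ - 1) * (u₂ ^ (p - 1) - 1) := by
    rw [hcast]; ring
  have hpu : ‖(p : Ω) * (u₂ - 1)‖ < r := by
    rw [norm_mul, h5_norm_p]
    calc (p : ℝ)⁻¹ * ‖u₂ - 1‖ ≤ (p : ℝ)⁻¹ * r :=
          mul_le_mul_of_nonneg_left h₂ (inv_nonneg.2 (h5_p_pos p).le)
      _ < 1 * r := mul_lt_mul_of_pos_right (h5_inv_p_lt_one p) hr0
      _ = r := one_mul _
  rw [e]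
  refine lt_of_le_of_lt (IsUltrametricDist.norm_add_le_max _ _) (max_lt ?_ ?_)
  · refine lt_of_le_of_lt (IsUltrametricDist.norm_add_le_max _ _) (max_lt ?_ ?_)
    · exact lt_of_le_of_lt (IsUltrametricDist.norm_add_le_max _ _) (max_lt h12 hpu)
    · exact lt_of_le_of_lt ha1 hrr
  · rw [norm_mul]
    calc ‖u₁ - 1‖ * ‖u₂ ^ (p - 1) - 1‖ ≤ r * r :=
          mul_le_mul h₁ ha2 (norm_nonneg _) hr0.le
      _ = r ^ 2 := (sq r).symm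
      _ < r := hrr

/-- (QUOT) as an identity of classes: `u₁ = u₂ * (u₁ u₂^(p-1)) * (u₂⁻¹)^p`. -/
theorem h84_lev_quot_rel (u₁ u₂ : Ω) (h0 : u₂ ≠ 0) :
    u₁ = u₂ * (u₁ * u₂ ^ (p - 1)) * (u₂⁻¹) ^ p := by
  have hp : p.Prime := Fact.out
  have e : u₂ * u₂ ^ (p - 1) = u₂ ^ p := by
    rw [← pow_succ', Nat.sub_add_cancel hp.one_le]
  calc u₁ = u₁ * (u₂ ^ p * (u₂⁻¹) ^ p) := by
        rw [← mul_pow, mul_inv_cancel₀ h0, one_pow, mul_one]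
    _ = u₂ * (u₁ * u₂ ^ (p - 1)) * (u₂⁻¹) ^ p := by rw [← e]; ring

end Fermat.Agent.S56
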