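/-
S56 / W3 E-IRR sub-row IRR-3 (KUMMER), helper92.

Local Kummer theory in the language of the W3 skeleton (`Ω = PadicAlgCl p`, fields are
`IntermediateField ℚ_[p] Ω`, Galois elements are absolute, `h78_G p`):

* `h92_irr3_resolvent` : Lagrange resolvents (Hilbert 90) for a pair `K₀ ≤ N` of intermediate
  fields of an arbitrary field extension, `N` finite and stable under `Gal(Ω/K₀)`.
* `h92_irr3_kummer` : (K) every level-constant `𝔽_p`-character `χ` of `Gal(Ω/F)` (`ζ_p ∈ F`) has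
  a Kummer generator `α ∈ L`, `α ^ p = u ∈ F^×`, `s α = ζ^(χ s) α`.
* `h92_irr3_twist` : (T) the twist rule: `τ α` is a Kummer generator of `n • χ ∘ conj_(τ⁻¹)`
  when `τ ζ = ζ ^ n`.
* `h92_irr3_unique`, `h92_irr3_mul`, `h92_irr3_pow`, `h92_irr3_inv`, `h92_irr3_trivial`,
  `h92_irr3_char`, `h92_irr3_mem_of_char_zero` : the dictionary characters <-> Kummer classes.
-/
import Fermat.Agent.S56.h78_W3Defs

set_option autoImplicit false

namespace Fermat.Agent.S56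

/-- **Lagrange resolvent / Hilbert 90, generic form.** `K₀ ≤ N` intermediate fields of `Ω/k`,
`N` finite over `k` and stable under `Gal(Ω/K₀)`; `ψ` a function on `Gal(Ω/k)` which on
`Gal(Ω/K₀)` is multiplicative with nonzero values in `K₀` and invariant under `Gal(Ω/N)`.
Then there is `y ∈ N`, `y ≠ 0`, with `s y = ψ s * y` for all `s ∈ Gal(Ω/K₀)`. -/
theorem h92_irr3_resolvent {k Ω : Type*} [Field k] [Field Ω] [Algebra k Ω]
    (K₀ N : IntermediateField k Ω) [FiniteDimensional k N] (hle : K₀ ≤ N)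
    (hst : ∀ s ∈ K₀.fixingSubgroup, ∀ z ∈ N, s z ∈ N)
    (ψ : (Ω ≃ₐ[k] Ω) → Ω)
    (h0 : ∀ s ∈ K₀.fixingSubgroup, ψ s ≠ 0)
    (hK : ∀ s ∈ K₀.fixingSubgroup, ψ s ∈ K₀)
    (hmul : ∀ s ∈ K₀.fixingSubgroup, ∀ t ∈ K₀.fixingSubgroup, ψ (s * t) = ψ s * ψ t)
    (hN : ∀ s ∈ K₀.fixingSubgroup, ∀ t ∈ N.fixingSubgroup, ψ (s * t) = ψ s) :
    ∃ y ∈ N, y ≠ 0 ∧ ∀ s ∈ K₀.fixingSubgroup, s y = ψ s * y := by
  classical
  let r : (Ω ≃ₐ[k] Ω) → (N →ₐ[k] Ω) := fun s => (s : Ω →ₐ[k] Ω).comp N.val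
  have hr : ∀ (s : Ω ≃ₐ[k] Ω) (x : N), r s x = s x := fun s x => rfl
  let R : Finset (N →ₐ[k] Ω) :=
    Finset.univ.filter (fun ρ => ∃ s ∈ K₀.fixingSubgroup, r s = ρ)
  have hR : ∀ ρ, ρ ∈ R ↔ ∃ s ∈ K₀.fixingSubgroup, r s = ρ := by
    intro ρ
    simp [R]
  let sec : (N →ₐ[k] Ω) → (Ω ≃ₐ[k] Ω) := fun ρ =>
    if h : ∃ s ∈ K₀.fixingSubgroup, r s = ρ then h.choose else 1
  have hsec : ∀ ρ ∈ R, sec ρ ∈ K₀.fixingSubgroup ∧ r (sec ρ) = ρ := by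
    intro ρ hρ
    have h := (hR ρ).mp hρ
    simp only [sec, dif_pos h]
    exact h.choose_spec
  let a : (N →ₐ[k] Ω) → Ω := fun ρ => (ψ (sec ρ))⁻¹
  let c : (Ω ≃ₐ[k] Ω) → (N →ₐ[k] Ω) → (N →ₐ[k] Ω) :=
    fun s ρ => (s : Ω →ₐ[k] Ω).comp ρ
  have hc : ∀ (s : Ω ≃ₐ[k] Ω) (ρ : N →ₐ[k] Ω) (x : N), c s ρ x = s (ρ x) :=
    fun s ρ x => rfl
  have key : ∀ s ∈ K₀.fixingSubgroup, ∀ ρ ∈ R, c s ρ ∈ R ∧ a (c s ρ) = (ψ s)⁻¹ * a ρ := by
    intro s hs ρ hρ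
    obtain ⟨h1, h2⟩ := hsec ρ hρ
    have hρx : ∀ x : N, ρ x = sec ρ (x : Ω) := fun x => by rw [← hr (sec ρ) x, h2]
    have hmem : c s ρ ∈ R := by
      rw [hR]
      refine ⟨s * sec ρ, mul_mem hs h1, ?_⟩
      ext x
      rw [hr, hc, hρx]
      rfl
    refine ⟨hmem, ?_⟩
    obtain ⟨h3, h4⟩ := hsec _ hmem
    have ht : (s * sec ρ)⁻¹ * sec (c s ρ) ∈ N.fixingSubgroup := by
      rw [IntermediateField.mem_fixingSubgroup_iff]
      intro x hx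
      have e1 : sec (c s ρ) x = (s * sec ρ) x := by
        have h5 := DFunLike.congr_fun h4 ⟨x, hx⟩
        rw [hr, hc, hρx] at h5
        exact h5
      rw [AlgEquiv.mul_apply, e1]
      exact (s * sec ρ).symm_apply_apply x
    have e2 : ψ (sec (c s ρ)) = ψ s * ψ (sec ρ) := by
      have : sec (c s ρ) = (s * sec ρ) * ((s * sec ρ)⁻¹ * sec (c s ρ)) := by group
      rw [this, hN _ (mul_mem hs h1) _ ht, hmul s hs _ h1]
    show (ψ (sec (c s ρ)))⁻¹ = (ψ s)⁻¹ * (ψ (sec ρ))⁻¹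
    rw [e2, mul_inv]
  have hli := linearIndependent_toLinearMap k N Ω
  have hone : r 1 ∈ R := (hR _).mpr ⟨1, one_mem _, rfl⟩
  have ha0 : ∀ ρ ∈ R, a ρ ≠ 0 := fun ρ hρ => inv_ne_zero (h0 _ (hsec ρ hρ).1)
  have hΛ : ∑ ρ ∈ R, a ρ • (ρ.toLinearMap : N →ₗ[k] Ω) ≠ 0 := by
    intro h
    exact ha0 _ hone (linearIndependent_iff'.mp hli R a h _ hone)
  obtain ⟨θ, hθ⟩ : ∃ θ : N, (∑ ρ ∈ R, a ρ • (ρ.toLinearMap : N →ₗ[k] Ω)) θ ≠ 0 := by
    by_contra hcon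
    push Not at hcon
    exact hΛ (LinearMap.ext hcon)
  have hy : (∑ ρ ∈ R, a ρ • (ρ.toLinearMap : N →ₗ[k] Ω)) θ = ∑ ρ ∈ R, a ρ * ρ θ := by
    simp [LinearMap.sum_apply]
  rw [hy] at hθ
  refine ⟨∑ ρ ∈ R, a ρ * ρ θ, ?_, hθ, ?_⟩
  · refine sum_mem fun ρ hρ => mul_mem ?_ ?_
    · exact hle (inv_mem (hK _ (hsec ρ hρ).1))
    · obtain ⟨h1, h2⟩ := hsec ρ hρ
      have h6 : ρ θ = sec ρ (θ : Ω) := by rw [← hr (sec ρ) θ, h2]
      rw [h6]
      exact hst _ h1 _ θ.2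
  · intro s hs
    rw [map_sum, Finset.mul_sum]
    have hterm : ∀ ρ ∈ R, s (a ρ * ρ θ) = ψ s * (a (c s ρ) * c s ρ θ) := by
      intro ρ hρ
      obtain ⟨h1, h2⟩ := key s hs ρ hρ
      have hfix : s (a ρ) = a ρ :=
        (IntermediateField.mem_fixingSubgroup_iff _ _).mp hs _ (inv_mem (hK _ (hsec ρ hρ).1))
      rw [map_mul, hfix, h2, hc, ← mul_assoc, ← mul_assoc, mul_inv_cancel₀ (h0 s hs), one_mul]
    rw [Finset.sum_congr rfl hterm]
    refine Finset.sum_nbij' (c s) (c s⁻¹) (fun ρ hρ => (key s hs ρ hρ).1)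
      (fun ρ hρ => (key s⁻¹ (inv_mem hs) ρ hρ).1) ?_ ?_ (fun ρ _ => rfl)
    · intro ρ _
      ext x
      rw [hc, hc]
      exact s.symm_apply_apply (ρ x)
    · intro ρ _
      ext x
      rw [hc, hc]
      exact s.apply_symm_apply (ρ x)

variable (p : ℕ) [Fact p.Prime]

local notation "Ω" => PadicAlgCl p
local notation "Fld" => IntermediateField ℚ_[p] (PadicAlgCl p)

/-- Galois correspondence without finiteness: an element fixed by `Gal(Ω/E)` lies in `E`. -/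
theorem h92_irr3_mem_of_fixed (E : Fld) (x : Ω)
    (hx : ∀ g : h78_G p, (∀ z ∈ E, g z = z) → g x = x) : x ∈ E := by
  have h := InfiniteGalois.fixedField_fixingSubgroup (k := ℚ_[p]) (K := Ω) E
  rw [← h, IntermediateField.mem_fixedField_iff]
  intro g hg
  exact hx g fun z hz => (IntermediateField.mem_fixingSubgroup_iff E g).1 hg z hz

/-- exponents of a `p`-th root of unity only matter modulo `p`. -/
theorem h92_irr3_zeta_pow (ζ : Ω) (hζp : ζ ^ p = 1) (a b : ZMod p) :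
    ζ ^ (a + b).val = ζ ^ a.val * ζ ^ b.val := by
  have hp : p.Prime := Fact.out
  have : NeZero p := ⟨hp.ne_zero⟩
  rw [← pow_add, ZMod.val_add, ← Nat.mod_add_div (a.val + b.val) p, pow_add, pow_mul, hζp,
    one_pow, mul_one, Nat.add_mul_mod_self_left, Nat.mod_mod]

theorem h92_irr3_zeta_pow_natCast (ζ : Ω) (hζp : ζ ^ p = 1) (n : ℕ) :
    ζ ^ ((n : ZMod p)).val = ζ ^ n := by
  rw [ZMod.val_natCast]
  conv_rhs => rw [← Nat.mod_add_div n p, pow_add, pow_mul, hζp, one_pow, mul_one]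

theorem h92_irr3_zeta_pow_mul (ζ : Ω) (hζp : ζ ^ p = 1) (n : ℕ) (a : ZMod p) :
    ζ ^ ((n : ZMod p) * a).val = (ζ ^ n) ^ a.val := by
  have hp : p.Prime := Fact.out
  have : NeZero p := ⟨hp.ne_zero⟩
  have h1 : ((n : ZMod p) * a) = ((n * a.val : ℕ) : ZMod p) := by
    rw [Nat.cast_mul, ZMod.natCast_zmod_val]
  rw [h1, h92_irr3_zeta_pow_natCast p ζ hζp, pow_mul]

/-- **IRR-3 (K): Kummer generators.** `F ≤ L` local fields, `L` finite and stable under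
`Gal(Ω/F)`, `ζ ∈ F` with `ζ ^ p = 1`; `χ` a function on `Gal(Ω/ℚ_p)` which is additive on
`Gal(Ω/F)` and vanishes on `Gal(Ω/L)`.  Then there are `u ∈ F^×` and `α ∈ L` with `α ^ p = u`
and `s α = ζ ^ (χ s) * α` for every `s` fixing `F`. -/
theorem h92_irr3_kummer (F L : Fld) [FiniteDimensional ℚ_[p] L] (hFL : F ≤ L)
    (hst : ∀ s : h78_G p, (∀ z ∈ F, s z = z) → ∀ z ∈ L, s z ∈ L)
    (ζ : Ω) (hζF : ζ ∈ F) (hζp : ζ ^ p = 1)
    (χ : h78_G p → ZMod p)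
    (hadd : ∀ s t : h78_G p, (∀ z ∈ F, s z = z) → (∀ z ∈ F, t z = z) → χ (s * t) = χ s + χ t)
    (hlev : ∀ t : h78_G p, (∀ z ∈ L, t z = z) → χ t = 0) :
    ∃ u α : Ω, u ∈ F ∧ u ≠ 0 ∧ α ∈ L ∧ α ^ p = u ∧
      ∀ s : h78_G p, (∀ z ∈ F, s z = z) → s α = ζ ^ (χ s).val * α := by
  have hp : p.Prime := Fact.out
  have hζ0 : ζ ≠ 0 := by
    rintro rfl
    rw [zero_pow hp.ne_zero] at hζp
    exact zero_ne_one hζp
  have hfix : ∀ s : h78_G p, s ∈ F.fixingSubgroup ↔ ∀ z ∈ F, s z = z :=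
    fun s => IntermediateField.mem_fixingSubgroup_iff F s
  have hfixL : ∀ s : h78_G p, s ∈ L.fixingSubgroup ↔ ∀ z ∈ L, s z = z :=
    fun s => IntermediateField.mem_fixingSubgroup_iff L s
  obtain ⟨y, hyL, hy0, hy⟩ := h92_irr3_resolvent F L hFL
    (fun s hs z hz => hst s ((hfix s).1 hs) z hz)
    (fun s => ζ ^ (χ s).val)
    (fun s _ => pow_ne_zero _ hζ0)
    (fun s _ => pow_mem hζF _)
    (fun s hs t ht => by
      show ζ ^ (χ (s * t)).val = ζ ^ (χ s).val * ζ ^ (χ t).val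
      rw [hadd s t ((hfix s).1 hs) ((hfix t).1 ht), h92_irr3_zeta_pow p ζ hζp])
    (fun s hs t ht => by
      show ζ ^ (χ (s * t)).val = ζ ^ (χ s).val
      have htF : ∀ z ∈ F, t z = z := fun z hz => (hfixL t).1 ht z (hFL hz)
      rw [hadd s t ((hfix s).1 hs) htF, hlev t ((hfixL t).1 ht), add_zero])
  have hyp : ∀ s : h78_G p, (∀ z ∈ F, s z = z) → s y = ζ ^ (χ s).val * y :=
    fun s hs => hy s ((hfix s).2 hs)
  refine ⟨y ^ p, y, ?_, pow_ne_zero _ hy0, hyL, rfl, hyp⟩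
  apply h92_irr3_mem_of_fixed
  intro g hg
  rw [map_pow, hyp g hg, mul_pow, ← pow_mul, mul_comm (χ g).val p, pow_mul, hζp, one_pow, one_mul]

/-- **IRR-3 (T): the twist rule.** If `α` is a Kummer generator of `χ` over `F`, `τ` maps `F`
into itself and `τ ζ = ζ ^ n`, then `τ α` is a Kummer generator of `s ↦ n * χ (τ⁻¹ s τ)`
(and `(τ α) ^ p = τ (α ^ p)`). -/
theorem h92_irr3_twist (F : Fld) (ζ : Ω) (hζp : ζ ^ p = 1) (χ : h78_G p → ZMod p) (α : Ω)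
    (hα : ∀ s : h78_G p, (∀ z ∈ F, s z = z) → s α = ζ ^ (χ s).val * α)
    (τ : h78_G p) (hτF : ∀ z ∈ F, τ z ∈ F) (n : ℕ) (hτζ : τ ζ = ζ ^ n) :
    ∀ s : h78_G p, (∀ z ∈ F, s z = z) →
      s (τ α) = ζ ^ ((n : ZMod p) * χ (τ⁻¹ * s * τ)).val * τ α := by
  intro s hs
  have h1 : ∀ z ∈ F, (τ⁻¹ * s * τ) z = z := by
    intro z hz
    show τ⁻¹ (s (τ z)) = z
    rw [hs _ (hτF z hz)]
    exact τ.symm_apply_apply z
  have h2 : s (τ α) = τ ((τ⁻¹ * s * τ) α) := by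
    show s (τ α) = τ (τ⁻¹ (s (τ α)))
    exact (τ.apply_symm_apply _).symm
  rw [h2, hα _ h1, map_mul, map_pow, hτζ, h92_irr3_zeta_pow_mul p ζ hζp]

/-- Kummer generators multiply. -/
theorem h92_irr3_mul (F : Fld) (ζ : Ω) (hζp : ζ ^ p = 1) (χ₁ χ₂ : h78_G p → ZMod p)
    (α₁ α₂ : Ω)
    (h₁ : ∀ s : h78_G p, (∀ z ∈ F, s z = z) → s α₁ = ζ ^ (χ₁ s).val * α₁)
    (h₂ : ∀ s : h78_G p, (∀ z ∈ F, s z = z) → s α₂ = ζ ^ (χ₂ s).val * α₂) :
    ∀ s : h78_G p, (∀ z ∈ F, s z = z) → s (α₁ * α₂) = ζ ^ (χ₁ s + χ₂ s).val * (α₁ * α₂) := by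
  intro s hs
  rw [map_mul, h₁ s hs, h₂ s hs, h92_irr3_zeta_pow p ζ hζp]
  ring

/-- Kummer generators: powers. -/
theorem h92_irr3_pow (F : Fld) (ζ : Ω) (hζp : ζ ^ p = 1) (χ : h78_G p → ZMod p) (α : Ω)
    (h : ∀ s : h78_G p, (∀ z ∈ F, s z = z) → s α = ζ ^ (χ s).val * α) (n : ℕ) :
    ∀ s : h78_G p, (∀ z ∈ F, s z = z) → s (α ^ n) = ζ ^ ((n : ZMod p) * χ s).val * α ^ n := by
  intro s hs
  rw [map_pow, h s hs, mul_pow, h92_irr3_zeta_pow_mul p ζ hζp, ← pow_mul, ← pow_mul,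
    mul_comm (χ s).val n]

/-- Kummer generators: multiplying by an element of `F` does not change the character. -/
theorem h92_irr3_mul_base (F : Fld) (ζ : Ω) (χ : h78_G p → ZMod p) (α w : Ω) (hw : w ∈ F)
    (h : ∀ s : h78_G p, (∀ z ∈ F, s z = z) → s α = ζ ^ (χ s).val * α) :
    ∀ s : h78_G p, (∀ z ∈ F, s z = z) → s (α * w) = ζ ^ (χ s).val * (α * w) := by
  intro s hs
  rw [map_mul, h s hs, hs w hw, mul_assoc]

/-- **Uniqueness**: two Kummer generators of the same character differ by an element of `F`. -/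
theorem h92_irr3_unique (F : Fld) (ζ : Ω) (χ : h78_G p → ZMod p) (α α' : Ω) (hα0 : α ≠ 0)
    (h : ∀ s : h78_G p, (∀ z ∈ F, s z = z) → s α = ζ ^ (χ s).val * α)
    (h' : ∀ s : h78_G p, (∀ z ∈ F, s z = z) → s α' = ζ ^ (χ s).val * α') :
    ∃ w ∈ F, α' = α * w := by
  refine ⟨α' / α, ?_, by field_simp⟩
  apply h92_irr3_mem_of_fixed
  intro g hg
  by_cases hz : ζ ^ (χ g).val = 0
  · have h1 : g α = 0 := by rw [h g hg, hz, zero_mul]
    exact absurd ((map_eq_zero_iff g g.injective).1 h1) hα0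
  · rw [map_div₀, h g hg, h' g hg]
    field_simp

/-- **Triviality**: a Kummer generator lying in `F` has trivial character (`ζ` primitive). -/
theorem h92_irr3_trivial (F : Fld) (ζ : Ω) (hζp : ζ ^ p = 1) (hζ1 : ζ ≠ 1)
    (χ : h78_G p → ZMod p) (α : Ω) (hα0 : α ≠ 0) (hαF : α ∈ F)
    (h : ∀ s : h78_G p, (∀ z ∈ F, s z = z) → s α = ζ ^ (χ s).val * α) :
    ∀ s : h78_G p, (∀ z ∈ F, s z = z) → χ s = 0 := by
  intro s hs
  have hp : p.Prime := Fact.out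
  have : NeZero p := ⟨hp.ne_zero⟩
  have h1 : ζ ^ (χ s).val = 1 := by
    have h2 := h s hs
    rw [hs α hαF] at h2
    exact (mul_right_cancel₀ hα0 (by rw [one_mul]; exact h2)).symm
  have hprim : IsPrimitiveRoot ζ p := by
    have h5 := IsPrimitiveRoot.orderOf ζ
    rwa [orderOf_eq_prime hζp hζ1] at h5
  have h3 : p ∣ (χ s).val := (hprim.pow_eq_one_iff_dvd _).1 h1
  have h4 : (χ s).val = 0 := Nat.eq_zero_of_dvd_of_lt h3 (ZMod.val_lt _)
  exact (ZMod.val_eq_zero _).1 h4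

/-- **The character of a radical**: if `α ≠ 0` and `α ^ p ∈ F` (`ζ ∈ F` primitive), then `α` is a
Kummer generator of a function `χ` which is additive on `Gal(Ω/F)` and vanishes on every `t`
fixing `α`. -/
theorem h92_irr3_char (F : Fld) (ζ : Ω) (hζF : ζ ∈ F) (hζp : ζ ^ p = 1) (hζ1 : ζ ≠ 1)
    (α : Ω) (hα0 : α ≠ 0) (hαp : α ^ p ∈ F) :
    ∃ χ : h78_G p → ZMod p,
      (∀ s : h78_G p, (∀ z ∈ F, s z = z) → s α = ζ ^ (χ s).val * α) ∧
      (∀ s t : h78_G p, (∀ z ∈ F, s z = z) → (∀ z ∈ F, t z = z) → χ (s * t) = χ s + χ t) ∧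
      (∀ t : h78_G p, (∀ z ∈ F, t z = z) → t α = α → χ t = 0) := by
  classical
  have hp : p.Prime := Fact.out
  have : NeZero p := ⟨hp.ne_zero⟩
  have hprim : IsPrimitiveRoot ζ p := by
    have h5 := IsPrimitiveRoot.orderOf ζ
    rwa [orderOf_eq_prime hζp hζ1] at h5
  have hex : ∀ s : h78_G p, (∀ z ∈ F, s z = z) → ∃ j : ZMod p, s α = ζ ^ j.val * α := by
    intro s hs
    have h1 : (s α / α) ^ p = 1 := by
      rw [div_pow, ← map_pow, hs _ hαp]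
      exact div_self (pow_ne_zero _ hα0)
    obtain ⟨i, hi, hi'⟩ := hprim.eq_pow_of_pow_eq_one h1
    refine ⟨(i : ZMod p), ?_⟩
    rw [ZMod.val_natCast, Nat.mod_eq_of_lt hi, hi']
    field_simp
  have hinj : ∀ a b : ZMod p, ζ ^ a.val = ζ ^ b.val → a = b := by
    intro a b hab
    have h1 := hprim.pow_inj (ZMod.val_lt a) (ZMod.val_lt b) hab
    exact ZMod.val_injective p h1
  let χ : h78_G p → ZMod p := fun s =>
    if h : ∀ z ∈ F, s z = z then (hex s h).choose else 0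
  have hχ : ∀ s : h78_G p, (∀ z ∈ F, s z = z) → s α = ζ ^ (χ s).val * α := by
    intro s hs
    simp only [χ, dif_pos hs]
    exact (hex s hs).choose_spec
  refine ⟨χ, hχ, ?_, ?_⟩
  · intro s t hs ht
    have hst : ∀ z ∈ F, (s * t) z = z := fun z hz => by
      show s (t z) = z
      rw [ht z hz, hs z hz]
    apply hinj
    have h1 : (s * t) α = ζ ^ (χ (s * t)).val * α := hχ _ hst
    have h2 : (s * t) α = ζ ^ (χ s + χ t).val * α := by
      show s (t α) = _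
      rw [hχ t ht, map_mul, map_pow, hs ζ hζF, hχ s hs, h92_irr3_zeta_pow p ζ hζp]
      ring
    exact mul_right_cancel₀ hα0 (h1.symm.trans h2)
  · intro t ht htα
    apply hinj
    have h1 := hχ t ht
    rw [htα] at h1
    rw [ZMod.val_zero, pow_zero]
    exact (mul_right_cancel₀ hα0 (by rw [one_mul]; exact h1)).symm

/-- a Kummer generator of a character vanishing on `Gal(Ω/E)` (`F ≤ E`) lies in `E`. -/
theorem h92_irr3_mem_of_char_zero (F E : Fld) (hFE : F ≤ E) (ζ : Ω) (χ : h78_G p → ZMod p)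
    (α : Ω) (h : ∀ s : h78_G p, (∀ z ∈ F, s z = z) → s α = ζ ^ (χ s).val * α)
    (hχ : ∀ t : h78_G p, (∀ z ∈ E, t z = z) → χ t = 0) : α ∈ E := by
  apply h92_irr3_mem_of_fixed
  intro g hg
  rw [h g (fun z hz => hg z (hFE hz)), hχ g hg, ZMod.val_zero, pow_zero, one_mul]

end Fermat.Agent.S56
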