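/-
S56 / W3 / E-IRR, row IRR-5 (a)  (helper28): the torus part of every flat class vanishes on
`G_{F₁}` (`sk_irr_h_zero` of the W3 skeleton), in HYPOTHESIS FORM over the common front end
`sk_irr_front` (IRR-5 FRONT).

Proof.  `T = rb τ`, `T₀ = T - (tr T / 2)`, `c_a(s) = a s * rb s⁻¹`, `h_a(s) = tr (c_a(s) T₀)`.
For an additive `l₀ : k →+ ZMod p` the character `χ = l₀ ∘ h_a` of `G_{F₁}` is invariant under
conjugation by `τ` (`T₀` commutes with `T`), so for a Kummer generator `α`, `α ^ p = u`, the twist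
rule gives `τ u = u ^ nw * z ^ p`.  If `u` were in normal form at a level `i` prime to `p` below
the top, the leading coefficient rule would give `θ ^ i ≡ nw ≡ θ ^ (e / (p - 1))`, which IRR-6 (C)
excludes.  Hence `u` is at the top level, `α ∈ F₁ K₀(L)`, and `χ` vanishes on `G_{F₁} ∩ J_L`.
So `h_a = 0` on `G_{F₁} ∩ J_L`; finally `h_a (φ s φ⁻¹ s⁻¹) = -2 h_a(s)` (`Φ T₀ Φ⁻¹ = -T₀`) and
`φ s φ⁻¹ s⁻¹ ∈ J_L` (`G / J_L` is abelian).
-/
import Mathlib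
import Fermat.Agent.S56.h78_IrrDefs
import Fermat.Agent.S56.h84_IrrLevel
import Fermat.Agent.S56.h92_IrrKummer
import Fermat.Agent.S56.h62_IrrArith
import Fermat.Agent.S56.h49_KumUnram
import Fermat.Agent.S56.h49_K0Res
import Fermat.Agent.S56.h49_K0Basic
import Fermat.Agent.S56.h28_K0Unram

set_option autoImplicit false

namespace Fermat.Agent.S56

/-! ### cocycle algebra -/

section Alg

variable {Γ : Type} [Group Γ] {k : Type} [Field k]

theorem h28_coc_one (rb : Γ →* Matrix (Fin 2) (Fin 2) k) (a : Γ → Matrix (Fin 2) (Fin 2) k)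
    (hcoc : ∀ s t, a (s * t) = a s * rb t + rb s * a t) : a 1 = 0 := by
  have h := hcoc 1 1
  rw [mul_one, map_one, mul_one, one_mul] at h
  exact left_eq_add.mp h

theorem h28_c_mul (rb : Γ →* Matrix (Fin 2) (Fin 2) k) (a : Γ → Matrix (Fin 2) (Fin 2) k)
    (hcoc : ∀ s t, a (s * t) = a s * rb t + rb s * a t) (x y : Γ) :
    a (x * y) * rb (x * y)⁻¹ = a x * rb x⁻¹ + rb x * (a y * rb y⁻¹) * rb x⁻¹ := by
  have h1 : rb y * rb (x * y)⁻¹ = rb x⁻¹ := by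
    rw [← map_mul, mul_inv_rev, mul_inv_cancel_left]
  have h2 : rb (x * y)⁻¹ = rb y⁻¹ * rb x⁻¹ := by rw [mul_inv_rev, map_mul]
  rw [hcoc, add_mul, mul_assoc, h1, h2]
  simp only [mul_assoc]

theorem h28_scalar_conj (rb : Γ →* Matrix (Fin 2) (Fin 2) k) (x : Γ) (c : k)
    (hx : rb x = c • (1 : Matrix (Fin 2) (Fin 2) k)) (M : Matrix (Fin 2) (Fin 2) k) :
    rb x * M * rb x⁻¹ = M := by
  have h1 : rb x * M = M * rb x := by rw [hx]; simp
  rw [h1, mul_assoc, ← map_mul, mul_inv_cancel, map_one, mul_one]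

theorem h28_c_mul_scalar (rb : Γ →* Matrix (Fin 2) (Fin 2) k)
    (a : Γ → Matrix (Fin 2) (Fin 2) k)
    (hcoc : ∀ s t, a (s * t) = a s * rb t + rb s * a t) (x y : Γ) (c : k)
    (hx : rb x = c • (1 : Matrix (Fin 2) (Fin 2) k)) :
    a (x * y) * rb (x * y)⁻¹ = a x * rb x⁻¹ + a y * rb y⁻¹ := by
  rw [h28_c_mul rb a hcoc, h28_scalar_conj rb x c hx]

theorem h28_c_inv (rb : Γ →* Matrix (Fin 2) (Fin 2) k) (a : Γ → Matrix (Fin 2) (Fin 2) k)
    (hcoc : ∀ s t, a (s * t) = a s * rb t + rb s * a t) (x : Γ) :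
    a x * rb x⁻¹ + rb x * (a x⁻¹ * rb x⁻¹⁻¹) * rb x⁻¹ = 0 := by
  have h := h28_c_mul rb a hcoc x x⁻¹
  rw [mul_inv_cancel, h28_coc_one rb a hcoc, zero_mul] at h
  exact h.symm

theorem h28_c_conj (rb : Γ →* Matrix (Fin 2) (Fin 2) k) (a : Γ → Matrix (Fin 2) (Fin 2) k)
    (hcoc : ∀ s t, a (s * t) = a s * rb t + rb s * a t) (g s : Γ) (c : k)
    (hs : rb s = c • (1 : Matrix (Fin 2) (Fin 2) k)) :
    a (g * s * g⁻¹) * rb (g * s * g⁻¹)⁻¹ = rb g * (a s * rb s⁻¹) * rb g⁻¹ := by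
  rw [mul_assoc g s g⁻¹, h28_c_mul rb a hcoc g (s * g⁻¹), h28_c_mul_scalar rb a hcoc s g⁻¹ c hs]
  have h := h28_c_inv rb a hcoc g
  rw [mul_add, add_mul, ← add_assoc, add_right_comm, h, zero_add]

theorem h28_c_conj' (rb : Γ →* Matrix (Fin 2) (Fin 2) k) (a : Γ → Matrix (Fin 2) (Fin 2) k)
    (hcoc : ∀ s t, a (s * t) = a s * rb t + rb s * a t) (g s : Γ) (c : k)
    (hs : rb s = c • (1 : Matrix (Fin 2) (Fin 2) k)) :
    a (g⁻¹ * s * g) * rb (g⁻¹ * s * g)⁻¹ = rb g⁻¹ * (a s * rb s⁻¹) * rb g := by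
  have h := h28_c_conj rb a hcoc g⁻¹ s c hs
  rwa [inv_inv] at h

theorem h28_tr_conj_comm (rb : Γ →* Matrix (Fin 2) (Fin 2) k) (g : Γ)
    (c M : Matrix (Fin 2) (Fin 2) k) (hM : rb g * M = M * rb g) :
    (rb g⁻¹ * c * rb g * M).trace = (c * M).trace := by
  rw [mul_assoc, hM, ← mul_assoc, Matrix.trace_mul_comm, ← mul_assoc, ← mul_assoc, ← map_mul,
    mul_inv_cancel, map_one, one_mul]

theorem h28_tr_conj_anti (rb : Γ →* Matrix (Fin 2) (Fin 2) k) (g : Γ)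
    (c M : Matrix (Fin 2) (Fin 2) k) (hM : M * rb g = -(rb g * M)) :
    (rb g * c * rb g⁻¹ * M).trace = -(c * M).trace := by
  have h1 : rb g⁻¹ * M * rb g = -M := by
    rw [mul_assoc, hM, mul_neg, ← mul_assoc, ← map_mul, inv_mul_cancel, map_one, one_mul]
  have h2 : rb g * c * rb g⁻¹ * M = rb g * (c * rb g⁻¹ * M) := by simp only [mul_assoc]
  rw [h2, Matrix.trace_mul_comm]
  have h3 : c * rb g⁻¹ * M * rb g = c * (rb g⁻¹ * M * rb g) := by simp only [mul_assoc]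
  rw [h3, h1, mul_neg, Matrix.trace_neg]

theorem h28_T0_comm (T : Matrix (Fin 2) (Fin 2) k) (x : k) :
    T * (T - x • (1 : Matrix (Fin 2) (Fin 2) k)) = (T - x • 1) * T := by
  rw [sub_mul, mul_sub]; simp

theorem h28_T0_anti (Φ T M : Matrix (Fin 2) (Fin 2) k) (t x : k) (htx : t = x + x)
    (hswap : Φ * T = M * Φ) (hconj : M = t • (1 : Matrix (Fin 2) (Fin 2) k) - T) :
    (T - x • (1 : Matrix (Fin 2) (Fin 2) k)) * Φ = -(Φ * (T - x • 1)) := by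
  subst htx hconj
  have h1 : Φ * (T - x • (1 : Matrix (Fin 2) (Fin 2) k)) = Φ * T - x • Φ := by
    rw [mul_sub, Matrix.mul_smul, mul_one]
  have h2 : (T - x • (1 : Matrix (Fin 2) (Fin 2) k)) * Φ = T * Φ - x • Φ := by
    rw [sub_mul, Matrix.smul_mul, one_mul]
  have h3 : ((x + x) • (1 : Matrix (Fin 2) (Fin 2) k) - T) * Φ = (x + x) • Φ - T * Φ := by
    rw [sub_mul, Matrix.smul_mul, one_mul]
  rw [h1, h2, hswap, h3, add_smul]
  abel

end Alg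

variable (p : ℕ) [Fact p.Prime]

local notation "Ω" => PadicAlgCl p
local notation "Fld" => IntermediateField ℚ_[p] (PadicAlgCl p)

/-! ### `G / J_L` is abelian -/

/-- An automorphism fixing the generators fixes the generated field. -/
theorem h28_fix_adjoin (g : h78_G p) (T : Set Ω) (hT : ∀ x ∈ T, g x = x) :
    ∀ z ∈ IntermediateField.adjoin ℚ_[p] T, g z = z := by
  have hle : IntermediateField.adjoin ℚ_[p] T ≤
      IntermediateField.fixedField (Subgroup.zpowers g) := by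
    rw [IntermediateField.adjoin_le_iff]
    intro x hx
    rw [SetLike.mem_coe, IntermediateField.mem_fixedField_iff]
    have h1 : Subgroup.zpowers g ≤ MulAction.stabilizer (h78_G p) x := by
      rw [Subgroup.zpowers_le, MulAction.mem_stabilizer_iff]
      exact hT x hx
    intro f hf
    exact MulAction.mem_stabilizer_iff.mp (h1 hf)
  intro z hz
  exact (IntermediateField.mem_fixedField_iff _ z).mp (hle hz) g (Subgroup.mem_zpowers g)

/-- automorphisms commute on roots of unity. -/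
theorem h28_aut_comm_root (x y : h78_G p) (ζ : Ω) (n : ℕ) (hn : 0 < n) (hζ : ζ ^ n = 1) :
    x (y ζ) = y (x ζ) := by
  have hm : 0 < orderOf ζ := orderOf_pos_iff.2 (isOfFinOrder_iff_pow_eq_one.2 ⟨n, hn, hζ⟩)
  have hprim : IsPrimitiveRoot ζ (orderOf ζ) := IsPrimitiveRoot.orderOf ζ
  have : NeZero (orderOf ζ) := ⟨hm.ne'⟩
  have hx : (x ζ) ^ orderOf ζ = 1 := by rw [← map_pow, pow_orderOf_eq_one, map_one]
  have hy : (y ζ) ^ orderOf ζ = 1 := by rw [← map_pow, pow_orderOf_eq_one, map_one]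
  obtain ⟨a, -, ha⟩ := hprim.eq_pow_of_pow_eq_one hx
  obtain ⟨b, -, hb⟩ := hprim.eq_pow_of_pow_eq_one hy
  rw [← ha, ← hb, map_pow, map_pow, ← ha, ← hb, ← pow_mul, ← pow_mul, mul_comm]

/-- IRR-1 (c'): `G / J_L` is abelian (no hypothesis on `L` is needed). -/
theorem h28_comm_mem_J (L : Fld) (g h : h78_G p) : g * h * g⁻¹ * h⁻¹ ∈ h78_J p L := by
  have hcancel : ∀ (f : h78_G p) (x : Ω), f (f⁻¹ x) = x := fun f x => by
    show (f * f⁻¹) x = x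
    rw [mul_inv_cancel]; rfl
  rw [h78_J, IntermediateField.mem_fixingSubgroup_iff]
  refine h28_fix_adjoin p _ _ ?_
  rintro ζ ⟨-, n, hn, -, hζn⟩
  show g (h (g⁻¹ (h⁻¹ ζ))) = ζ
  rw [h28_aut_comm_root p g⁻¹ h⁻¹ ζ n hn hζn, hcancel, hcancel]

/-! ### levels -/

theorem h28_level_bounds (π : Ω) (hπ0 : 0 < ‖π‖) (hπ1 : ‖π‖ < 1) (e : ℕ)
    (heπ : ‖π‖ ^ e = (p : ℝ)⁻¹) (q : ℕ) (hq : (p - 1) * q = e) (i : ℕ)
    (hi1 : ‖π‖ ^ i ≤ (p : ℝ)⁻¹) (hi2 : 1 < (p : ℝ) ^ p * (‖π‖ ^ i) ^ (p - 1)) :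
    e ≤ i ∧ i < e + q := by
  have hp : p.Prime := Fact.out
  have hppos : (0 : ℝ) < p := by exact_mod_cast hp.pos
  refine ⟨?_, ?_⟩
  · rw [← heπ] at hi1
    exact (pow_le_pow_iff_right_of_lt_one₀ hπ0 hπ1).1 hi1
  · have hpp : (‖π‖ ^ e) ^ p * (p : ℝ) ^ p = 1 := by
      rw [heπ, ← mul_pow, inv_mul_cancel₀ hppos.ne', one_pow]
    have h1 : ‖π‖ ^ (e * p) < ‖π‖ ^ (i * (p - 1)) := by
      have h2 : (‖π‖ ^ e) ^ p * 1 < (‖π‖ ^ e) ^ p * ((p : ℝ) ^ p * (‖π‖ ^ i) ^ (p - 1)) :=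
        mul_lt_mul_of_pos_left hi2 (pow_pos (pow_pos hπ0 e) p)
      rw [mul_one, ← mul_assoc, hpp, one_mul, ← pow_mul, ← pow_mul] at h2
      exact h2
    have h3 : i * (p - 1) < e * p := (pow_lt_pow_iff_right_of_lt_one₀ hπ0 hπ1).1 h1
    have h4 : e * p = (e + q) * (p - 1) := by
      have h5 : p = (p - 1) + 1 := by have := hp.one_le; omega
      calc e * p = e * ((p - 1) + 1) := by rw [← h5]
        _ = e * (p - 1) + (p - 1) * q := by rw [hq]; ring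
        _ = (e + q) * (p - 1) := by ring
    rw [h4] at h3
    exact Nat.lt_of_mul_lt_mul_right h3

theorem h28_tame_not_dvd (F : Fld) (htame : h78_IsTame p F) (π : Ω) (hπF : π ∈ F) (hπ0 : π ≠ 0)
    (e : ℕ) (heπ : ‖π‖ ^ e = (p : ℝ)⁻¹) : ¬ p ∣ e := by
  have hp : p.Prime := Fact.out
  have hppos : (0 : ℝ) < p := by exact_mod_cast hp.pos
  obtain ⟨m, hm, h⟩ := htame
  obtain ⟨n, hn⟩ := h π hπF hπ0
  have h1 : (p : ℝ) ^ (n * (e : ℤ)) = (p : ℝ) ^ (-(m : ℤ)) := by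
    rw [zpow_mul, ← hn, zpow_natCast, ← pow_mul, mul_comm, pow_mul, heπ, zpow_neg, zpow_natCast,
      inv_pow]
  have h2 : n * (e : ℤ) = -(m : ℤ) :=
    zpow_right_injective₀ hppos (by exact_mod_cast hp.one_lt.ne') h1
  intro hpe
  apply hm
  have h3 : (p : ℤ) ∣ n * (e : ℤ) := Dvd.dvd.mul_left (Int.natCast_dvd_natCast.2 hpe) n
  rw [h2, dvd_neg] at h3
  exact Int.natCast_dvd_natCast.1 h3

/-- additive maps `k →+ ZMod p` separate the points of a field of characteristic `p`. -/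
theorem h28_addfun_sep {k : Type} [Field k] [CharP k p] (x : k)
    (h : ∀ l : k →+ ZMod p, l x = 0) : x = 0 := by
  let _ : Algebra (ZMod p) k := ZMod.algebra k p
  exact (Module.forall_dual_apply_eq_zero_iff (ZMod p) x).1 (fun f => h f.toAddMonoidHom)

/-! ### the torus part -/

set_option linter.unusedVariables false in
/-- **IRR-5 (a)** in hypothesis form: `hfront` is the conclusion of `sk_irr_front` for the
class `a` (the common front end of IRR-5). -/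
theorem h28_irr_h_zero_of (hp2 : p ≠ 2) {k : Type} [Field k] [Finite k] [CharP k p]
    (rb : h78_G p →* Matrix (Fin 2) (Fin 2) k)
    (W : Submodule k (h78_G p → Matrix (Fin 2) (Fin 2) k))
    (hcoc : ∀ a ∈ W, ∀ s t, a (s * t) = a s * rb t + rb s * a t)
    (L : Fld) [FiniteDimensional ℚ_[p] L] (hL : h78_Stable p L) (D : h78_IrrData p rb W L)
    (a : h78_G p → Matrix (Fin 2) (Fin 2) k) (ha : a ∈ W)
    (hfront : ∀ ℓ : Matrix (Fin 2) (Fin 2) k →+ ZMod p,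
      ∃ u α : Ω, u ∈ D.F₁ ∧ u ≠ 0 ∧ α ^ p = u ∧ α ∈ L ∧
        (∀ s ∈ D.F₁.fixingSubgroup, s α = D.ζ ^ (ℓ (a s * rb s⁻¹)).val * α) ∧
        ‖u - 1‖ ≤ (p : ℝ)⁻¹ ∧
        ((p : ℝ) ^ p * ‖u - 1‖ ^ (p - 1) ≤ 1 ∨ ∀ z ∈ D.F₁, z ≠ 0 → ‖u - 1‖ ≠ ‖z‖ ^ p))
    (s : h78_G p) (hs : s ∈ D.F₁.fixingSubgroup) :
    (a s * rb s⁻¹ *
      (rb D.τ - ((rb D.τ).trace / 2) • (1 : Matrix (Fin 2) (Fin 2) k))).trace = 0 := by
  classical
  have hp : p.Prime := Fact.out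
  have hppos : (0 : ℝ) < p := by exact_mod_cast hp.pos
  have hca := hcoc a ha
  set T0 : Matrix (Fin 2) (Fin 2) k :=
    rb D.τ - ((rb D.τ).trace / 2) • (1 : Matrix (Fin 2) (Fin 2) k) with hT0
  have hG1 : ∀ g : h78_G p, g ∈ D.F₁.fixingSubgroup ↔ ∀ z ∈ D.F₁, g z = z :=
    fun g => IntermediateField.mem_fixingSubgroup_iff D.F₁ g
  have hcancel' : ∀ (f : h78_G p) (x : Ω), f (f⁻¹ x) = x := fun f x => by
    show (f * f⁻¹) x = x
    rw [mul_inv_cancel]; rfl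
  have hnormal : ∀ (g x : h78_G p), x ∈ D.F₁.fixingSubgroup →
      g * x * g⁻¹ ∈ D.F₁.fixingSubgroup := by
    intro g x hx
    rw [hG1] at hx ⊢
    intro z hz
    show g (x (g⁻¹ z)) = z
    rw [hx _ (D.stable g⁻¹ z hz), hcancel']
  obtain ⟨hπF, hπ0, hπ1, hπv⟩ := id D.unif
  have hπpos : 0 < ‖D.π₁‖ := norm_pos_iff.2 hπ0
  have he0 : 0 < D.e := by
    rcases Nat.eq_zero_or_pos D.e with h | h
    · have h1 := D.eπ
      rw [h, pow_zero] at h1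
      have h2 : (p : ℝ) = 1 := inv_eq_one.1 h1.symm
      exact absurd h2 (by exact_mod_cast hp.one_lt.ne')
    · exact h
  have hpe : ¬ p ∣ D.e := h28_tame_not_dvd p D.F₁ D.tame D.π₁ hπF hπ0 D.e D.eπ
  have hord : orderOf D.θ = D.e :=
    (orderOf_eq_iff he0).2 ⟨D.θe, fun m hm hm0 => D.θe' m hm0 hm⟩
  obtain ⟨q, hq⟩ := D.pe
  have hqdiv : D.e / (p - 1) = q := by
    rw [hq]; exact Nat.mul_div_cancel_left q (by have := hp.two_le; omega)
  have hτres : ∀ x ∈ D.F₁, ‖x‖ ≤ 1 → ‖D.τ x - x‖ < 1 :=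
    fun x hx hx1 => h49_J_res p L D.τ D.τJ x (D.le hx) hx1
  have hτF : ∀ z ∈ D.F₁, D.τ z ∈ D.F₁ := fun z hz => D.stable D.τ z hz
  -- step 1: every character `l₀ ∘ h_a` vanishes on `G_{F₁} ∩ J_L`
  have key : ∀ (l₀ : k →+ ZMod p) (x : h78_G p), x ∈ D.F₁.fixingSubgroup → x ∈ h78_J p L →
      l₀ ((a x * rb x⁻¹ * T0).trace) = 0 := by
    intro l₀ x hx hxJ
    let ℓ : Matrix (Fin 2) (Fin 2) k →+ ZMod p :=
      l₀.comp ((Matrix.traceAddMonoidHom (Fin 2) k).comp (AddMonoidHom.mulRight T0))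
    have hℓ : ∀ M, ℓ M = l₀ ((M * T0).trace) := fun M => rfl
    obtain ⟨u, α, huF, hu0, hαp, hαL, hα, hu1, hdich⟩ := hfront ℓ
    set χ : h78_G p → ZMod p := fun s => ℓ (a s * rb s⁻¹) with hχ
    have hα' : ∀ s : h78_G p, (∀ z ∈ D.F₁, s z = z) → s α = D.ζ ^ (χ s).val * α :=
      fun s hs => hα s ((hG1 s).2 hs)
    have hα0 : α ≠ 0 := by
      rintro rfl
      rw [zero_pow hp.ne_zero] at hαp
      exact hu0 hαp.symm
    -- the class is at the TOP level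
    have htop : (p : ℝ) ^ p * ‖u - 1‖ ^ (p - 1) ≤ 1 := by
      by_contra hnot
      have h2 : 1 < (p : ℝ) ^ p * ‖u - 1‖ ^ (p - 1) := not_le.1 hnot
      have h3 : ∀ z ∈ D.F₁, z ≠ 0 → ‖u - 1‖ ≠ ‖z‖ ^ p := by
        rcases hdich with h | h
        · exact absurd h hnot
        · exact h
      have hinv : ∀ s : h78_G p, (∀ z ∈ D.F₁, s z = z) → χ (D.τ⁻¹ * s * D.τ) = χ s := by
        intro s hs
        obtain ⟨c, hc⟩ := D.scalar s ((hG1 s).2 hs)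
        show ℓ _ = ℓ _
        rw [hℓ, hℓ, h28_c_conj' rb a hca D.τ s c hc,
          h28_tr_conj_comm rb D.τ _ T0 (h28_T0_comm (rb D.τ) _)]
      have htw := h92_irr3_twist p D.F₁ D.ζ D.ζp χ α hα' D.τ hτF D.nw D.τζ
      have hpw := h92_irr3_pow p D.F₁ D.ζ D.ζp χ α hα' D.nw
      have htw' : ∀ s : h78_G p, (∀ z ∈ D.F₁, s z = z) →
          s (D.τ α) = D.ζ ^ ((D.nw : ZMod p) * χ s).val * D.τ α := by
        intro s hs
        rw [htw s hs, hinv s hs]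
      obtain ⟨w, hwF, hw⟩ := h92_irr3_unique p D.F₁ D.ζ (fun s => (D.nw : ZMod p) * χ s)
        (α ^ D.nw) (D.τ α) (pow_ne_zero _ hα0) hpw htw'
      have hrel : D.τ u = u ^ D.nw * w ^ p := by
        rw [← hαp, map_pow, hw, mul_pow, ← pow_mul, ← pow_mul, mul_comm p D.nw]
      have hu1' : ‖u - 1‖ < 1 :=
        lt_of_le_of_lt hu1 (inv_lt_one_of_one_lt₀ (by exact_mod_cast hp.one_lt))
      obtain ⟨i, hi, hpi, hitop, hcong⟩ := h84_lev_nf_tau1 p D.F₁ D.π₁ D.unif D.τ hτres D.θ D.θπ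
        u huF hu1' h2 h3 D.nw w hwF hrel
      obtain ⟨hei, hiq⟩ := h28_level_bounds p D.π₁ hπpos hπ1 D.e D.eπ q hq.symm i
        (hi ▸ hu1) hitop
      have hclose : ‖D.θ ^ i - D.θ ^ q‖ < 1 := by
        have h5 := D.wθ
        rw [hqdiv] at h5
        have h6 : D.θ ^ i - D.θ ^ q = (D.θ ^ i - (D.nw : Ω)) - (D.θ ^ q - (D.nw : Ω)) := by ring
        rw [h6]
        exact h28_norm_sub_lt p _ _ 1 hcong h5
      have heq : D.θ ^ i = D.θ ^ q :=
        h28_root_eq_of_close p D.e he0 hpe (D.θ ^ q) (D.θ ^ i)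
          (by rw [← pow_mul, mul_comm, pow_mul, D.θe, one_pow])
          (by rw [← pow_mul, mul_comm, pow_mul, D.θe, one_pow]) hclose
      exact h62_irr_arith_C p hp2 D.θ (D.θ ^ q) D.e D.pe he0 hord (by rw [hqdiv]) i hei
        (by rw [hqdiv]; exact hiq) heq
    have hfinF : FiniteDimensional ℚ_[p] D.F₁ := D.fin
    have hmem := h49_kummer_unram p D.F₁ L D.le D.ζ D.ζF D.ζp D.ζ1 u huF htop α hαp hαL
    have hxα : x α = α := by
      refine h28_fix_adjoin p x _ ?_ α hmem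
      rintro z (hz | hz)
      · exact (hG1 x).1 hx z hz
      · exact h49_J_fix p L x hxJ z hz
    have h1 : D.ζ ^ (χ x).val = 1 := by
      have h2 := hα x hx
      rw [hxα] at h2
      exact (mul_right_cancel₀ hα0 (by rw [one_mul]; exact h2)).symm
    have hprim : IsPrimitiveRoot D.ζ p := by
      have h5 := IsPrimitiveRoot.orderOf D.ζ
      rwa [orderOf_eq_prime D.ζp D.ζ1] at h5
    have : NeZero p := ⟨hp.ne_zero⟩
    have h3 : p ∣ (χ x).val := (hprim.pow_eq_one_iff_dvd _).1 h1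
    have h4 : (χ x).val = 0 := Nat.eq_zero_of_dvd_of_lt h3 (ZMod.val_lt _)
    exact (ZMod.val_eq_zero _).1 h4
  -- step 2: `h_a = 0` on `G_{F₁} ∩ J_L`
  have hI1 : ∀ x : h78_G p, x ∈ D.F₁.fixingSubgroup → x ∈ h78_J p L →
      (a x * rb x⁻¹ * T0).trace = 0 :=
    fun x hx hxJ => h28_addfun_sep p _ (fun l₀ => key l₀ x hx hxJ)
  -- step 3: from `G_{F₁} ∩ J_L` to `G_{F₁}` through the Frobenius element
  have hk2 : (2 : k) ≠ 0 := by
    intro h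
    have h2 : ((2 : ℕ) : k) = 0 := by exact_mod_cast h
    rw [CharP.cast_eq_zero_iff k p] at h2
    exact hp2 ((Nat.prime_dvd_prime_iff_eq hp Nat.prime_two).1 h2)
  have h1 : D.φ * s * D.φ⁻¹ ∈ D.F₁.fixingSubgroup := hnormal D.φ s hs
  have h2 : D.φ * s * D.φ⁻¹ * s⁻¹ ∈ D.F₁.fixingSubgroup :=
    Subgroup.mul_mem _ h1 (Subgroup.inv_mem _ hs)
  have h3 : D.φ * s * D.φ⁻¹ * s⁻¹ ∈ h78_J p L := h28_comm_mem_J p L D.φ s
  have h4 := hI1 _ h2 h3
  obtain ⟨c, hc⟩ := D.scalar s hs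
  obtain ⟨c1, hc1⟩ := D.scalar _ h1
  have h5 : a (D.φ * s * D.φ⁻¹ * s⁻¹) * rb (D.φ * s * D.φ⁻¹ * s⁻¹)⁻¹
      = rb D.φ * (a s * rb s⁻¹) * rb D.φ⁻¹ + a s⁻¹ * rb s⁻¹⁻¹ := by
    rw [h28_c_mul_scalar rb a hca _ s⁻¹ c1 hc1, h28_c_conj rb a hca D.φ s c hc]
  have h6 : a s * rb s⁻¹ + a s⁻¹ * rb s⁻¹⁻¹ = 0 := by
    have h := h28_c_inv rb a hca s
    rwa [h28_scalar_conj rb s c hc] at h
  have h7 : a s⁻¹ * rb s⁻¹⁻¹ = -(a s * rb s⁻¹) := eq_neg_of_add_eq_zero_right h6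
  have hanti : T0 * rb D.φ = -(rb D.φ * T0) :=
    h28_T0_anti (rb D.φ) (rb D.τ) (rb D.τ ^ p) (rb D.τ).trace ((rb D.τ).trace / 2)
      (by rw [← add_div, ← two_mul, mul_div_cancel_left₀ _ hk2]) D.swap D.conj
  rw [h5, add_mul, Matrix.trace_add, h28_tr_conj_anti rb D.φ _ T0 hanti, h7, neg_mul,
    Matrix.trace_neg] at h4
  have h8 : (2 : k) * (a s * rb s⁻¹ * T0).trace = 0 := by linear_combination -h4
  exact (mul_eq_zero.1 h8).resolve_left hk2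

end Fermat.Agent.S56
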