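/-
S56 / W3 row LEV (helper36): level rigidity.  `h36_level_rigid` = `sk_level_rigid` of the W3
table verbatim: a `p`-th power cannot raise a level that is prime to `p` and below the top.
Also the basic binomial estimate in `Ω = PadicAlgCl p` used by the Kummer rows.
-/
import Mathlib
import Fermat.Agent.S56.h78_W3Defs

set_option autoImplicit false
set_option linter.unusedVariables false

namespace Fermat.Agent.S56

variable (p : ℕ) [Fact p.Prime]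

local notation "Ω" => PadicAlgCl p
local notation "Fld" => IntermediateField ℚ_[p] (PadicAlgCl p)

/-- the closed unit ball of `Ω` as a subring. -/
def h36_ball : Subring Ω where
  carrier := {x | ‖x‖ ≤ 1}
  mul_mem' := fun {x y} hx hy => by
    change ‖x * y‖ ≤ 1
    rw [norm_mul]
    exact mul_le_one₀ hx (norm_nonneg _) hy
  one_mem' := by
    change ‖(1 : Ω)‖ ≤ 1
    rw [norm_one]
  add_mem' := fun {x y} hx hy =>
    (IsUltrametricDist.norm_add_le_max x y).trans (max_le hx hy)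
  zero_mem' := by
    change ‖(0 : Ω)‖ ≤ 1
    rw [norm_zero]
    exact zero_le_one
  neg_mem' := fun {x} hx => by
    change ‖-x‖ ≤ 1
    rw [norm_neg]
    exact hx

theorem h36_mem_ball (x : Ω) : x ∈ h36_ball p ↔ ‖x‖ ≤ 1 := Iff.rfl

theorem h36_norm_p : ‖(p : Ω)‖ = (p : ℝ)⁻¹ := by
  rw [← map_natCast (algebraMap ℚ_[p] (PadicAlgCl p)), PadicAlgCl.norm_extends, Padic.norm_p]

theorem h36_one_lt_p : (1 : ℝ) < p := by
  exact_mod_cast (Fact.out : p.Prime).one_lt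

/-- binomial estimate: `(x + y)^p = x^p + y^p + p x y r` with `r` integral. -/
theorem h36_add_pow (x y : Ω) (hx : ‖x‖ ≤ 1) (hy : ‖y‖ ≤ 1) :
    ∃ r : Ω, ‖r‖ ≤ 1 ∧ (x + y) ^ p = x ^ p + y ^ p + p * x * y * r := by
  obtain ⟨r, hr⟩ := exists_add_pow_prime_eq (Fact.out : p.Prime)
    (⟨x, hx⟩ : h36_ball p) (⟨y, hy⟩ : h36_ball p)
  refine ⟨(r : Ω), r.2, ?_⟩
  have h2 := congrArg (Subtype.val) hr
  simpa using h2

/-- the norm of `(1 + y)^p - 1`, upper bound and the large case. -/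
theorem h36_norm_one_add_pow_sub_one_le (y : Ω) (hy : ‖y‖ ≤ 1) :
    ‖(1 + y) ^ p - 1‖ ≤ max (‖y‖ ^ p) ((p : ℝ)⁻¹ * ‖y‖) := by
  obtain ⟨r, hr1, hr⟩ := h36_add_pow p 1 y (by rw [norm_one]) hy
  have h : (1 + y) ^ p - 1 = y ^ p + p * y * r := by rw [hr]; ring
  rw [h]
  refine (IsUltrametricDist.norm_add_le_max _ _).trans (max_le_max ?_ ?_)
  · rw [norm_pow]
  · rw [norm_mul, norm_mul, h36_norm_p]
    calc (p : ℝ)⁻¹ * ‖y‖ * ‖r‖ ≤ (p : ℝ)⁻¹ * ‖y‖ * 1 :=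
          mul_le_mul_of_nonneg_left hr1 (mul_nonneg (by positivity) (norm_nonneg _))
      _ = (p : ℝ)⁻¹ * ‖y‖ := mul_one _

theorem h36_norm_one_add_pow_sub_one_eq (y : Ω) (hy : ‖y‖ ≤ 1)
    (hbig : (p : ℝ)⁻¹ * ‖y‖ < ‖y‖ ^ p) : ‖(1 + y) ^ p - 1‖ = ‖y‖ ^ p := by
  obtain ⟨r, hr1, hr⟩ := h36_add_pow p 1 y (by rw [norm_one]) hy
  have h : (1 + y) ^ p - 1 = y ^ p + p * y * r := by rw [hr]; ring
  have h2 : ‖(p : Ω) * y * r‖ < ‖y ^ p‖ := by
    rw [norm_mul, norm_mul, h36_norm_p, norm_pow]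
    refine lt_of_le_of_lt ?_ hbig
    calc (p : ℝ)⁻¹ * ‖y‖ * ‖r‖ ≤ (p : ℝ)⁻¹ * ‖y‖ * 1 :=
          mul_le_mul_of_nonneg_left hr1 (mul_nonneg (by positivity) (norm_nonneg _))
      _ = (p : ℝ)⁻¹ * ‖y‖ := mul_one _
  rw [h, IsUltrametricDist.norm_add_eq_max_of_norm_ne_norm (ne_of_gt h2), max_eq_left h2.le, norm_pow]

/-- **LEV** (`sk_level_rigid`): a `p`-th power cannot raise a level that is prime to `p` and
below the top. -/
theorem h36_level_rigid (F : Fld) (πF : Ω) (hπF : h78_IsUnif p F πF) (u w : Ω) (hu : u ∈ F)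
    (hw : w ∈ F) (hw0 : w ≠ 0) (h1 : ‖u - 1‖ ≤ (p : ℝ)⁻¹)
    (h2 : 1 < (p : ℝ) ^ p * ‖u - 1‖ ^ (p - 1))
    (h3 : ∀ z ∈ F, z ≠ 0 → ‖u - 1‖ ≠ ‖z‖ ^ p) : ‖u - 1‖ ≤ ‖u * w ^ p - 1‖ := by
  have hp : p.Prime := Fact.out
  have hp1 : (1 : ℝ) < p := h36_one_lt_p p
  have hp0 : (0 : ℝ) < p := by linarith
  by_contra hcon
  rw [not_le] at hcon
  set r : ℝ := ‖u - 1‖ with hr
  have hr1 : r < 1 := lt_of_le_of_lt h1 (inv_lt_one_of_one_lt₀ hp1)
  -- `‖u‖ = 1`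
  have hu1 : ‖u‖ = 1 := by
    have : u = 1 + (u - 1) := by ring
    rw [this, IsUltrametricDist.norm_add_eq_max_of_norm_ne_norm, norm_one, max_eq_left hr1.le]
    rw [norm_one]; exact (ne_of_lt hr1).symm
  -- `‖u w^p‖ = 1`
  have huw1 : ‖u * w ^ p‖ = 1 := by
    have hlt : ‖u * w ^ p - 1‖ < 1 := hcon.trans hr1
    have : u * w ^ p = 1 + (u * w ^ p - 1) := by ring
    rw [this, IsUltrametricDist.norm_add_eq_max_of_norm_ne_norm, norm_one, max_eq_left hlt.le]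
    rw [norm_one]; exact (ne_of_lt hlt).symm
  have hw1 : ‖w‖ = 1 := by
    rw [norm_mul, hu1, one_mul, norm_pow] at huw1
    exact (pow_eq_one_iff_of_nonneg (norm_nonneg _) hp.ne_zero).1 huw1
  -- `‖w^p - 1‖ = r`
  have hwp : ‖w ^ p - 1‖ = r := by
    have e : w ^ p - 1 = (u * w ^ p - 1) + -((u - 1) * w ^ p) := by ring
    have hn : ‖-((u - 1) * w ^ p)‖ = r := by
      rw [norm_neg, norm_mul, norm_pow, hw1, one_pow, mul_one]
    rw [e, IsUltrametricDist.norm_add_eq_max_of_norm_ne_norm (by rw [hn]; exact ne_of_lt hcon), hn,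
      max_eq_right hcon.le]
  -- `y := w - 1`
  set y : Ω := w - 1 with hy
  have hwy : w = 1 + y := by rw [hy]; ring
  have hy1 : ‖y‖ ≤ 1 := by
    have e : y = w + -1 := by rw [hy]; ring
    rw [e]
    exact (IsUltrametricDist.norm_add_le_max _ _).trans
      (max_le hw1.le (by rw [norm_neg, norm_one]))
  rw [hwy] at hwp
  by_cases hbig : (p : ℝ)⁻¹ * ‖y‖ < ‖y‖ ^ p
  · -- then `r = ‖y‖^p`, contradicting `h3`
    have hy0 : y ≠ 0 := by
      rintro h0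
      rw [h0, norm_zero, mul_zero, zero_pow hp.ne_zero] at hbig
      exact lt_irrefl _ hbig
    have := h36_norm_one_add_pow_sub_one_eq p y hy1 hbig
    rw [hwp] at this
    exact h3 y (by rw [hy]; exact sub_mem hw (one_mem _)) hy0 this
  · -- then `r ≤ ‖y‖/p` and `‖y‖^(p-1) ≤ 1/p`, contradicting `h2`
    rw [not_lt] at hbig
    have hle := h36_norm_one_add_pow_sub_one_le p y hy1
    rw [hwp, max_eq_right hbig] at hle
    have hyn : 0 ≤ ‖y‖ := norm_nonneg _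
    have hpm : p - 1 + 1 = p := Nat.sub_add_cancel hp.one_le
    -- `‖y‖^(p-1) ≤ 1/p`
    have hy2 : (p : ℝ) * ‖y‖ ^ (p - 1) ≤ 1 := by
      rcases eq_or_lt_of_le hyn with h0 | hpos
      · rw [← h0, zero_pow (by have := hp.two_le; omega), mul_zero]; exact zero_le_one
      · have h5 : ‖y‖ ^ (p - 1) * ‖y‖ ≤ (p : ℝ)⁻¹ * ‖y‖ := by
          rw [← pow_succ, hpm]; exact hbig
        have h6 : ‖y‖ ^ (p - 1) ≤ (p : ℝ)⁻¹ := le_of_mul_le_mul_right h5 hpos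
        calc (p : ℝ) * ‖y‖ ^ (p - 1) ≤ (p : ℝ) * (p : ℝ)⁻¹ :=
              mul_le_mul_of_nonneg_left h6 hp0.le
          _ = 1 := mul_inv_cancel₀ (ne_of_gt hp0)
    have h7 : r ^ (p - 1) ≤ ((p : ℝ)⁻¹ * ‖y‖) ^ (p - 1) :=
      pow_le_pow_left₀ (norm_nonneg _) hle _
    have h8 : (p : ℝ) ^ p * r ^ (p - 1) ≤ 1 := by
      calc (p : ℝ) ^ p * r ^ (p - 1) ≤ (p : ℝ) ^ p * ((p : ℝ)⁻¹ * ‖y‖) ^ (p - 1) :=
            mul_le_mul_of_nonneg_left h7 (by positivity)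
        _ = (p : ℝ) * ‖y‖ ^ (p - 1) := by
            rw [mul_pow, ← mul_assoc]
            congr 1
            have e1 : (p : ℝ) ^ p = (p : ℝ) ^ (p - 1) * p := by rw [← pow_succ, hpm]
            rw [e1, mul_assoc, mul_comm (p : ℝ), ← mul_assoc, ← mul_pow,
              mul_inv_cancel₀ (ne_of_gt hp0), one_pow, one_mul]
        _ ≤ 1 := hy2
    exact absurd h2 (not_lt.2 h8)

end Fermat.Agent.S56
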