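/-
S56 / W3 row D2 (helper36): the Kummer break table.  `h36_kummer_break` = `sk_kummer_break`
of the W3 skeleton verbatim: in Kummer normal form the break is too big.

Route: `M(α) = ∑_{i<p} M γ^i` (`γ = α` in case (a), `γ = α - 1` in case (b)); the terms of such
an expansion have pairwise distinct norms (the norm of `γ` has order exactly `p` modulo the
value group of `M`), so every term of an integral element is integral, and the `p`-th power of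
the norm of a term of positive degree is `≤ ‖π_M‖`; finally `s γ^i - γ^i` is small.
-/
import Mathlib
import Fermat.Agent.S56.h78_W3Defs
import Fermat.Agent.S56.h5_KumBasic
import Fermat.Agent.S56.h62_W3Basics
import Fermat.Agent.S56.h36_LevelRigid

set_option autoImplicit false
set_option linter.unusedVariables false

open Polynomial

namespace Fermat.Agent.S56

variable (p : ℕ) [Fact p.Prime]

local notation "Ω" => PadicAlgCl p
local notation "Fld" => IntermediateField ℚ_[p] (PadicAlgCl p)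

/-! ## representation of the elements of `M(γ)` -/

/-- if `γ` is a root of a monic polynomial of degree `n` over `M`, every element of `M(γ)` is an
`M`-combination of `1, γ, …, γ^(n-1)`. -/
theorem h36_adjoin_repr (M : Fld) (γ : Ω) (n : ℕ) (f : Polynomial M) (hf : f.Monic)
    (hn : f.natDegree = n) (hn0 : 0 < n) (hroot : Polynomial.aeval γ f = 0) (c : Ω)
    (hc : c ∈ IntermediateField.adjoin ℚ_[p] ((M : Set Ω) ∪ {γ})) :
    ∃ m : Fin n → Ω, (∀ i, m i ∈ M) ∧ c = ∑ i, m i * γ ^ (i : ℕ) := by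
  have hint : IsIntegral M γ := ⟨f, hf, hroot⟩
  have hc2 : c ∈ IntermediateField.adjoin M {γ} := by
    have h1 : c ∈ IntermediateField.restrictScalars ℚ_[p] (IntermediateField.adjoin M {γ}) := by
      rw [IntermediateField.restrictScalars_adjoin]; exact hc
    exact h1
  have hc3 : c ∈ (IntermediateField.adjoin M {γ}).toSubalgebra := hc2
  rw [IntermediateField.adjoin_simple_toSubalgebra_of_isAlgebraic hint.isAlgebraic,
    Algebra.adjoin_singleton_eq_range_aeval] at hc3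
  obtain ⟨q, hq⟩ := hc3
  have hq' : Polynomial.aeval γ q = c := hq
  have hf1 : f ≠ 1 := by
    rintro rfl
    rw [Polynomial.natDegree_one] at hn
    omega
  have hdeg : (q %ₘ f).natDegree < n := by
    rw [← hn]; exact Polynomial.natDegree_modByMonic_lt q hf hf1
  have hmod : Polynomial.aeval γ (q %ₘ f) = c := by
    have h1 := Polynomial.modByMonic_add_div q f
    have h2 := congrArg (Polynomial.aeval γ) h1
    rw [map_add, map_mul, hroot, zero_mul, add_zero] at h2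
    rw [h2, hq']
  rw [Polynomial.aeval_eq_sum_range' hdeg] at hmod
  refine ⟨fun i => (((q %ₘ f).coeff (i : ℕ) : M) : Ω), fun i => SetLike.coe_mem _, ?_⟩
  rw [← hmod, Finset.sum_range]
  refine Finset.sum_congr rfl (fun i _ => ?_)
  rw [Algebra.smul_def]
  rfl

/-! ## the value group -/

/-- elements of `M` of norm `< 1` have norm `≤ ‖π_M‖`. -/
theorem h36_norm_le_unif (M : Fld) (πM : Ω) (hπM : h78_IsUnif p M πM) (x : Ω) (hx : x ∈ M)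
    (hx0 : x ≠ 0) (hx1 : ‖x‖ < 1) : ‖x‖ ≤ ‖πM‖ := by
  obtain ⟨hπmem, hπ0, hπ1, hval⟩ := hπM
  have hr0 : 0 < ‖πM‖ := norm_pos_iff.2 hπ0
  obtain ⟨n, hn⟩ := hval x hx hx0
  rw [hn] at hx1 ⊢
  have h1 : (0 : ℤ) < n := by
    have : ‖πM‖ ^ n < ‖πM‖ ^ (0 : ℤ) := by rw [zpow_zero]; exact hx1
    exact (zpow_lt_zpow_iff_right_of_lt_one₀ hr0 hπ1).1 this
  calc ‖πM‖ ^ n ≤ ‖πM‖ ^ (1 : ℤ) := zpow_le_zpow_right_of_le_one₀ hr0 hπ1.le (by omega)
    _ = ‖πM‖ := zpow_one _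

/-- the order of `ρ` modulo the value group of `M` is exactly `p`. -/
theorem h36_norm_pow_ne_aux (M : Fld) (ρ : ℝ) (hρ : 0 < ρ) (v : Ω) (hv : v ∈ M) (hv0 : v ≠ 0)
    (hρv : ρ ^ p = ‖v‖) (hNF : ∀ z ∈ M, z ≠ 0 → ‖v‖ ≠ ‖z‖ ^ p)
    (a b : Ω) (ha : a ∈ M) (hb : b ∈ M) (ha0 : a ≠ 0) (hb0 : b ≠ 0) (i j : ℕ) (hi : i < p)
    (hji : j < i) : ‖a‖ * ρ ^ i ≠ ‖b‖ * ρ ^ j := by
  have hp : p.Prime := Fact.out
  intro heq
  -- `ρ^d = ‖z‖`, `d = i - j`, `z = b / a`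
  obtain ⟨d, hd⟩ : ∃ d, i = j + d := ⟨i - j, by omega⟩
  have hd0 : 0 < d := by omega
  have hdp : d < p := by omega
  have hna : 0 < ‖a‖ := norm_pos_iff.2 ha0
  have hρj : 0 < ρ ^ j := pow_pos hρ j
  have h1 : ρ ^ d = ‖b * a⁻¹‖ := by
    rw [norm_mul, norm_inv]
    rw [hd, pow_add] at heq
    field_simp
    nlinarith [heq]
  set z : Ω := b * a⁻¹ with hz
  have hzM : z ∈ M := M.mul_mem hb (M.inv_mem ha)
  have hz0 : z ≠ 0 := mul_ne_zero hb0 (inv_ne_zero ha0)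
  -- Bezout
  have hcop : IsCoprime (d : ℤ) (p : ℤ) := by
    rw [Int.isCoprime_iff_gcd_eq_one, Int.gcd_natCast_natCast]
    exact (Nat.Coprime.symm ((Nat.Prime.coprime_iff_not_dvd hp).2
      (fun h => by have := Nat.le_of_dvd hd0 h; omega)))
  obtain ⟨x, y, hxy⟩ := hcop
  have h2 : ρ = ‖z ^ x * v ^ y‖ := by
    rw [norm_mul, norm_zpow, norm_zpow, ← h1, ← hρv]
    have : ρ = ρ ^ (x * (d : ℤ) + y * (p : ℤ)) := by rw [hxy, zpow_one]
    conv_lhs => rw [this]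
    rw [zpow_add₀ (ne_of_gt hρ), mul_comm x, mul_comm y, zpow_mul, zpow_mul, zpow_natCast,
      zpow_natCast]
  refine hNF (z ^ x * v ^ y) (M.mul_mem (zpow_mem hzM x) (zpow_mem hv y))
    (mul_ne_zero (zpow_ne_zero x hz0) (zpow_ne_zero y hv0)) ?_
  rw [← h2, hρv]

theorem h36_norm_pow_ne (M : Fld) (ρ : ℝ) (hρ : 0 < ρ) (v : Ω) (hv : v ∈ M) (hv0 : v ≠ 0)
    (hρv : ρ ^ p = ‖v‖) (hNF : ∀ z ∈ M, z ≠ 0 → ‖v‖ ≠ ‖z‖ ^ p)
    (a b : Ω) (ha : a ∈ M) (hb : b ∈ M) (ha0 : a ≠ 0) (hb0 : b ≠ 0) (i j : ℕ) (hi : i < p)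
    (hj : j < p) (hij : i ≠ j) : ‖a‖ * ρ ^ i ≠ ‖b‖ * ρ ^ j := by
  rcases lt_or_gt_of_ne hij with h | h
  · exact (h36_norm_pow_ne_aux p M ρ hρ v hv hv0 hρv hNF b a hb ha hb0 ha0 j i hj h).symm
  · exact h36_norm_pow_ne_aux p M ρ hρ v hv hv0 hρv hNF a b ha hb ha0 hb0 i j hi h

/-- **core**: in an expansion `∑_{i<p} m_i γ^i` of an integral element, the `p`-th power of the
norm of every term of positive degree is `≤ ‖π_M‖`. -/
theorem h36_kum_terms (M : Fld) (πM : Ω) (hπM : h78_IsUnif p M πM) (γ : Ω) (hγ0 : γ ≠ 0)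
    (v : Ω) (hv : v ∈ M) (hγv : ‖γ‖ ^ p = ‖v‖) (hNF : ∀ z ∈ M, z ≠ 0 → ‖v‖ ≠ ‖z‖ ^ p)
    (m : Fin p → Ω) (hm : ∀ i, m i ∈ M) (hc1 : ‖∑ i, m i * γ ^ (i : ℕ)‖ ≤ 1) (i : Fin p)
    (hi : (i : ℕ) ≠ 0) : ‖m i * γ ^ (i : ℕ)‖ ^ p ≤ ‖πM‖ := by
  have hp : p.Prime := Fact.out
  have hρ : 0 < ‖γ‖ := norm_pos_iff.2 hγ0
  have hv0 : v ≠ 0 := by
    rw [← norm_pos_iff, ← hγv]; exact pow_pos hρ p
  by_cases hmi : m i = 0
  · rw [hmi, zero_mul, norm_zero, zero_pow hp.ne_zero]; exact norm_nonneg _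
  -- distinct norms
  have hd : ∀ j ∈ (Finset.univ : Finset (Fin p)), ∀ k ∈ (Finset.univ : Finset (Fin p)), j ≠ k →
      m j * γ ^ (j : ℕ) ≠ 0 → ‖m j * γ ^ (j : ℕ)‖ ≠ ‖m k * γ ^ (k : ℕ)‖ := by
    intro j _ k _ hjk hj0
    have hmj : m j ≠ 0 := fun h => hj0 (by rw [h, zero_mul])
    by_cases hmk : m k = 0
    · rw [hmk, zero_mul, norm_zero]; exact fun h => hj0 (norm_eq_zero.1 h)
    · rw [norm_mul, norm_mul, norm_pow, norm_pow]
      exact h36_norm_pow_ne p M ‖γ‖ hρ v hv hv0 hγv hNF (m j) (m k) (hm j) (hm k) hmj hmk j k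
        j.2 k.2 (fun h => hjk (Fin.ext h))
  have h1 : ‖m i * γ ^ (i : ℕ)‖ ≤ 1 :=
    (h62_norm_sum_of_distinct p Finset.univ (fun j => m j * γ ^ (j : ℕ)) hd i
      (Finset.mem_univ i)).trans hc1
  have h2 : ‖m i * γ ^ (i : ℕ)‖ ≠ 1 := by
    have := h36_norm_pow_ne p M ‖γ‖ hρ v hv hv0 hγv hNF (m i) 1 (hm i) M.one_mem hmi one_ne_zero
      i 0 i.2 hp.pos hi
    rw [norm_one, pow_zero, mul_one] at this
    rwa [norm_mul, norm_pow]
  have h3 : ‖m i * γ ^ (i : ℕ)‖ < 1 := lt_of_le_of_ne h1 h2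
  -- the `p`-th power of the norm is the norm of an element of `M`
  have h4 : ‖m i * γ ^ (i : ℕ)‖ ^ p = ‖m i ^ p * v ^ (i : ℕ)‖ := by
    rw [norm_mul, norm_pow, norm_mul, norm_pow, norm_pow, mul_pow, ← hγv, ← pow_mul, ← pow_mul,
      mul_comm (i : ℕ) p]
  rw [h4]
  refine h36_norm_le_unif p M πM hπM _ (M.mul_mem (pow_mem (hm i) p) (pow_mem hv _))
    (mul_ne_zero (pow_ne_zero _ hmi) (pow_ne_zero _ hv0)) ?_
  rw [← h4]
  exact pow_lt_one₀ (norm_nonneg _) h3 hp.ne_zero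

/-! ## two real inequalities -/

omit [Fact p.Prime] in
theorem h36_term_ineq (τ t ν x π' : ℝ) (hτ : 0 ≤ τ) (ht : 0 < t) (hν : 0 ≤ ν) (hx0 : 0 ≤ x)
    (h1 : τ * t ≤ ν * x) (h2 : ν ^ p ≤ π') (h3 : x ^ (p - 1) ≤ (p : ℝ)⁻¹) :
    τ ^ (p * (p - 1)) * (t ^ p) ^ (p - 1) ≤ π' ^ (p - 1) * ((p : ℝ)⁻¹) ^ p := by
  have e1 : τ ^ (p * (p - 1)) * (t ^ p) ^ (p - 1) = (τ * t) ^ (p * (p - 1)) := by
    rw [mul_pow, ← pow_mul]
  have e2 : (ν * x) ^ (p * (p - 1)) = (ν ^ p) ^ (p - 1) * (x ^ (p - 1)) ^ p := by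
    rw [mul_pow, ← pow_mul, ← pow_mul, mul_comm (p - 1) p]
  rw [e1]
  calc (τ * t) ^ (p * (p - 1)) ≤ (ν * x) ^ (p * (p - 1)) :=
        pow_le_pow_left₀ (mul_nonneg hτ ht.le) h1 _
    _ = (ν ^ p) ^ (p - 1) * (x ^ (p - 1)) ^ p := e2
    _ ≤ π' ^ (p - 1) * ((p : ℝ)⁻¹) ^ p :=
        mul_le_mul (pow_le_pow_left₀ (pow_nonneg hν p) h2 _)
          (pow_le_pow_left₀ (pow_nonneg hx0 _) h3 _) (pow_nonneg (pow_nonneg hx0 _) _)
          (pow_nonneg ((pow_nonneg hν p).trans h2) _)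

theorem h36_final_ineq (X P r : ℝ) (hX : 0 ≤ X) (hP : 0 < P) (hr : (p : ℝ)⁻¹ < r)
    (h : X * r ^ (p - 1) ≤ P * ((p : ℝ)⁻¹) ^ p) : (p : ℝ) * X < P := by
  have hp : p.Prime := Fact.out
  have hp0 : (0 : ℝ) < p := h5_p_pos p
  have hq0 : (0 : ℝ) < (p : ℝ)⁻¹ := inv_pos.2 hp0
  have hp1 : p - 1 ≠ 0 := by have := hp.two_le; omega
  have hpm : p - 1 + 1 = p := Nat.sub_add_cancel hp.one_le
  rcases eq_or_lt_of_le hX with h0 | hpos
  · rw [← h0, mul_zero]; exact hP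
  · have h1 : ((p : ℝ)⁻¹) ^ (p - 1) < r ^ (p - 1) := pow_lt_pow_left₀ hr hq0.le hp1
    have hq1 : 0 < ((p : ℝ)⁻¹) ^ (p - 1) := pow_pos hq0 _
    have h2 : X * ((p : ℝ)⁻¹) ^ (p - 1) < P * (p : ℝ)⁻¹ * ((p : ℝ)⁻¹) ^ (p - 1) := by
      calc X * ((p : ℝ)⁻¹) ^ (p - 1) < X * r ^ (p - 1) := mul_lt_mul_of_pos_left h1 hpos
        _ ≤ P * ((p : ℝ)⁻¹) ^ p := h
        _ = P * (p : ℝ)⁻¹ * ((p : ℝ)⁻¹) ^ (p - 1) := by
            have e : ((p : ℝ)⁻¹) ^ p = ((p : ℝ)⁻¹) ^ (p - 1) * (p : ℝ)⁻¹ := by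
              rw [← pow_succ, hpm]
            rw [e]; ring
    have h3 : X < P * (p : ℝ)⁻¹ := lt_of_mul_lt_mul_right h2 hq1.le
    calc (p : ℝ) * X < (p : ℝ) * (P * (p : ℝ)⁻¹) := mul_lt_mul_of_pos_left h3 hp0
      _ = P := by field_simp

/-! ## the engine -/

theorem h36_kum_engine (M : Fld) (πM : Ω) (hπM : h78_IsUnif p M πM) (γ : Ω) (hγ0 : γ ≠ 0)
    (v : Ω) (hv : v ∈ M) (hγv : ‖γ‖ ^ p = ‖v‖) (hNF : ∀ z ∈ M, z ≠ 0 → ‖v‖ ≠ ‖z‖ ^ p)
    (s : h78_G p) (hsM : ∀ z ∈ M, s z = z) (t x : ℝ) (ht : 0 < t) (htp : (p : ℝ)⁻¹ < t ^ p)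
    (hx0 : 0 ≤ x) (hx : x ^ (p - 1) ≤ (p : ℝ)⁻¹)
    (hterm : ∀ i : ℕ, ‖s (γ ^ i) - γ ^ i‖ * t ≤ ‖γ‖ ^ i * x)
    (m : Fin p → Ω) (hm : ∀ i, m i ∈ M) (hc1 : ‖∑ i, m i * γ ^ (i : ℕ)‖ ≤ 1) :
    (p : ℝ) * ‖s (∑ i, m i * γ ^ (i : ℕ)) - ∑ i, m i * γ ^ (i : ℕ)‖ ^ (p * (p - 1))
      < ‖πM‖ ^ (p - 1) := by
  have hp : p.Prime := Fact.out
  have hpp : p * (p - 1) ≠ 0 := by
    have := hp.two_le
    exact Nat.mul_ne_zero (by omega) (by omega)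
  have hπ0 : 0 < ‖πM‖ := norm_pos_iff.2 hπM.2.1
  have hsum : s (∑ i, m i * γ ^ (i : ℕ)) - ∑ i, m i * γ ^ (i : ℕ)
      = ∑ i, m i * (s (γ ^ (i : ℕ)) - γ ^ (i : ℕ)) := by
    rw [map_sum, ← Finset.sum_sub_distrib]
    refine Finset.sum_congr rfl (fun i _ => ?_)
    rw [map_mul, hsM _ (hm i), mul_sub]
  have : Nonempty (Fin p) := ⟨⟨0, hp.pos⟩⟩
  obtain ⟨i0, -, hi0⟩ := IsUltrametricDist.exists_norm_finsetSum_le (Finset.univ)
    (fun i : Fin p => m i * (s (γ ^ (i : ℕ)) - γ ^ (i : ℕ)))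
  rw [hsum]
  -- the bound for the dominant term
  have hK : ‖m i0 * (s (γ ^ (i0 : ℕ)) - γ ^ (i0 : ℕ))‖ ^ (p * (p - 1)) * (t ^ p) ^ (p - 1)
      ≤ ‖πM‖ ^ (p - 1) * ((p : ℝ)⁻¹) ^ p := by
    by_cases h0 : (i0 : ℕ) = 0
    · rw [h0, pow_zero, map_one, sub_self, mul_zero, norm_zero, zero_pow hpp, zero_mul]
      exact mul_nonneg (pow_nonneg hπ0.le _) (pow_nonneg (inv_nonneg.2 (h5_p_pos p).le) _)
    · refine h36_term_ineq p _ t ‖m i0 * γ ^ (i0 : ℕ)‖ x ‖πM‖ (norm_nonneg _) ht (norm_nonneg _)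
        hx0 ?_ (h36_kum_terms p M πM hπM γ hγ0 v hv hγv hNF m hm hc1 i0 h0) hx
      rw [norm_mul, norm_mul, norm_pow, mul_assoc, mul_assoc]
      exact mul_le_mul_of_nonneg_left (hterm i0) (norm_nonneg _)
  refine h36_final_ineq p _ (‖πM‖ ^ (p - 1)) (t ^ p) (pow_nonneg (norm_nonneg _) _)
    (pow_pos hπ0 _) htp (le_trans ?_ hK)
  exact mul_le_mul_of_nonneg_right (pow_le_pow_left₀ (norm_nonneg _) hi0 _)
    (pow_nonneg (pow_nonneg ht.le _) _)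

/-! ## the Kummer twist -/

/-- `s α = ξ α` with `ξ^p = 1` when `α^p` is fixed by `s`. -/
theorem h36_exists_xi (α : Ω) (hα0 : α ≠ 0) (s : h78_G p) (hs : s (α ^ p) = α ^ p) :
    ∃ ξ : Ω, ξ ^ p = 1 ∧ s α = ξ * α := by
  refine ⟨s α * α⁻¹, ?_, ?_⟩
  · rw [mul_pow, ← map_pow, hs, inv_pow, mul_inv_cancel₀ (pow_ne_zero _ hα0)]
  · rw [mul_assoc, inv_mul_cancel₀ hα0, mul_one]

theorem h36_norm_pow_sub_one_le (ξ : Ω) (hξ : ‖ξ‖ = 1) (i : ℕ) : ‖ξ ^ i - 1‖ ≤ ‖ξ - 1‖ := by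
  rw [← mul_geom_sum, norm_mul]
  refine mul_le_of_le_one_right (norm_nonneg _) ?_
  refine IsUltrametricDist.norm_sum_le_of_forall_le_of_nonneg zero_le_one (fun k _ => ?_)
  rw [norm_pow, hξ, one_pow]

/-! ## case (a) -/

theorem h36_kummer_break_a (M : Fld) (πM : Ω) (hπM : h78_IsUnif p M πM)
    (u' : Ω) (hu' : u' ∈ M) (hNF : ∀ z ∈ M, z ≠ 0 → ‖u'‖ ≠ ‖z‖ ^ p) (α : Ω) (hα : α ^ p = u')
    (s : h78_G p) (hsM : ∀ z ∈ M, s z = z)
    (c : Ω) (hc : c ∈ IntermediateField.adjoin ℚ_[p] ((M : Set Ω) ∪ {α})) (hc1 : ‖c‖ ≤ 1) :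
    (p : ℝ) * ‖s c - c‖ ^ (p * (p - 1)) < ‖πM‖ ^ (p - 1) := by
  have hp : p.Prime := Fact.out
  have hpp : p * (p - 1) ≠ 0 := by
    have := hp.two_le
    exact Nat.mul_ne_zero (by omega) (by omega)
  have hπ0 : 0 < ‖πM‖ := norm_pos_iff.2 hπM.2.1
  by_cases hu0 : u' = 0
  · -- then `α = 0` and `c ∈ M`
    have hα0 : α = 0 := by
      rw [hu0] at hα; exact pow_eq_zero_iff hp.ne_zero |>.1 hα
    have hcM : c ∈ M := by
      have hle : IntermediateField.adjoin ℚ_[p] ((M : Set Ω) ∪ {α}) ≤ M := by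
        rw [IntermediateField.adjoin_le_iff]
        rintro y (hy | hy)
        · exact hy
        · rw [Set.mem_singleton_iff] at hy
          rw [hy, hα0]; exact M.zero_mem
      exact hle hc
    rw [hsM c hcM, sub_self, norm_zero, zero_pow hpp, mul_zero]
    exact pow_pos hπ0 _
  · have hα0 : α ≠ 0 := by
      rintro rfl
      rw [zero_pow hp.ne_zero] at hα
      exact hu0 hα.symm
    -- the expansion
    have hmonic : (X ^ p - C (⟨u', hu'⟩ : M) : Polynomial M).Monic :=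
      Polynomial.monic_X_pow_sub_C _ hp.ne_zero
    have hdeg : (X ^ p - C (⟨u', hu'⟩ : M) : Polynomial M).natDegree = p :=
      Polynomial.natDegree_X_pow_sub_C
    have hroot : Polynomial.aeval α (X ^ p - C (⟨u', hu'⟩ : M) : Polynomial M) = 0 := by
      rw [map_sub, map_pow, Polynomial.aeval_X, Polynomial.aeval_C, hα]
      exact sub_self _
    obtain ⟨m, hm, rfl⟩ := h36_adjoin_repr p M α p _ hmonic hdeg hp.pos hroot c hc
    -- the twist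
    obtain ⟨ξ, hξp, hξ⟩ := h36_exists_xi p α hα0 s (by rw [hα]; exact hsM _ hu')
    have hξn : ‖ξ‖ = 1 := by
      have h2 : ‖ξ‖ ^ p = 1 := by rw [← norm_pow, hξp, norm_one]
      exact (pow_eq_one_iff_of_nonneg (norm_nonneg ξ) hp.ne_zero).1 h2
    refine h36_kum_engine p M πM hπM α hα0 u' hu' (by rw [← norm_pow, hα]) hNF s hsM 1 ‖ξ - 1‖
      zero_lt_one (by rw [one_pow]; exact h5_inv_p_lt_one p) (norm_nonneg _)
      (h5_root_unity_le p ξ hξp) (fun i => ?_) m hm hc1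
    rw [mul_one, map_pow, hξ, mul_pow]
    have e : ξ ^ i * α ^ i - α ^ i = (ξ ^ i - 1) * α ^ i := by ring
    rw [e, norm_mul, norm_pow, mul_comm]
    exact mul_le_mul_of_nonneg_left (h36_norm_pow_sub_one_le p ξ hξn i)
      (pow_nonneg (norm_nonneg _) _)

/-! ## case (b) -/

theorem h36_kummer_break_b (M : Fld) (πM : Ω) (hπM : h78_IsUnif p M πM)
    (u' : Ω) (hu' : u' ∈ M) (hb1 : (p : ℝ)⁻¹ < ‖u' - 1‖) (hb2 : ‖u' - 1‖ < 1)
    (hNF : ∀ z ∈ M, z ≠ 0 → ‖u' - 1‖ ≠ ‖z‖ ^ p) (α : Ω) (hα : α ^ p = u')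
    (s : h78_G p) (hsM : ∀ z ∈ M, s z = z)
    (c : Ω) (hc : c ∈ IntermediateField.adjoin ℚ_[p] ((M : Set Ω) ∪ {α})) (hc1 : ‖c‖ ≤ 1) :
    (p : ℝ) * ‖s c - c‖ ^ (p * (p - 1)) < ‖πM‖ ^ (p - 1) := by
  have hp : p.Prime := Fact.out
  have hp0 : (0 : ℝ) < p := h5_p_pos p
  -- `‖u'‖ = 1`, `‖α‖ = 1`
  have hu1 : ‖u'‖ = 1 := by
    have : u' = 1 + (u' - 1) := by ring
    rw [this, IsUltrametricDist.norm_add_eq_max_of_norm_ne_norm, norm_one, max_eq_left hb2.le]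
    rw [norm_one]; exact (ne_of_lt hb2).symm
  have hαn : ‖α‖ = 1 := by
    have h2 : ‖α‖ ^ p = 1 := by rw [← norm_pow, hα, hu1]
    exact (pow_eq_one_iff_of_nonneg (norm_nonneg α) hp.ne_zero).1 h2
  have hα0 : α ≠ 0 := by
    rw [← norm_pos_iff, hαn]; exact zero_lt_one
  -- `β := α - 1`
  set β : Ω := α - 1 with hβ
  have hαβ : α = 1 + β := by rw [hβ]; ring
  have hβ1 : ‖β‖ ≤ 1 := by
    rw [hβ]
    exact (h5_norm_sub_le_max p _ _).trans (max_le hαn.le (by rw [norm_one]))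
  have hu'β : u' - 1 = (1 + β) ^ p - 1 := by rw [← hαβ, hα]
  have hβp : ‖β‖ ^ p = ‖u' - 1‖ := by
    by_cases hbig : (p : ℝ)⁻¹ * ‖β‖ < ‖β‖ ^ p
    · rw [hu'β, h36_norm_one_add_pow_sub_one_eq p β hβ1 hbig]
    · exfalso
      rw [not_lt] at hbig
      have hle := h36_norm_one_add_pow_sub_one_le p β hβ1
      rw [← hu'β, max_eq_right hbig] at hle
      have : (p : ℝ)⁻¹ * ‖β‖ ≤ (p : ℝ)⁻¹ :=
        mul_le_of_le_one_right (inv_nonneg.2 hp0.le) hβ1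
      linarith
  have hβn : 0 < ‖β‖ := by
    by_contra h
    have h0 : ‖β‖ = 0 := le_antisymm (not_lt.1 h) (norm_nonneg _)
    rw [h0, zero_pow hp.ne_zero] at hβp
    have : (0 : ℝ) < (p : ℝ)⁻¹ := inv_pos.2 hp0
    linarith
  have hβ0 : β ≠ 0 := norm_pos_iff.1 hβn
  -- the expansion in powers of `β`
  have hq : ((X + C (1 : M)) ^ p : Polynomial M).Monic := (Polynomial.monic_X_add_C 1).pow p
  have hqd : ((X + C (1 : M)) ^ p : Polynomial M).natDegree = p := by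
    rw [Polynomial.natDegree_pow, Polynomial.natDegree_X_add_C, mul_one]
  have hCd : (C (⟨u', hu'⟩ : M) : Polynomial M).degree < ((X + C (1 : M)) ^ p : Polynomial M).degree := by
    rw [Polynomial.degree_eq_natDegree hq.ne_zero, hqd]
    exact lt_of_le_of_lt Polynomial.degree_C_le (by exact_mod_cast hp.pos)
  have hmonic : ((X + C (1 : M)) ^ p - C (⟨u', hu'⟩ : M) : Polynomial M).Monic :=
    hq.sub_of_left hCd
  have hdeg : ((X + C (1 : M)) ^ p - C (⟨u', hu'⟩ : M) : Polynomial M).natDegree = p := by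
    rw [Polynomial.natDegree_sub_eq_left_of_natDegree_lt, hqd]
    rw [Polynomial.natDegree_C, hqd]; exact hp.pos
  have hroot : Polynomial.aeval β ((X + C (1 : M)) ^ p - C (⟨u', hu'⟩ : M) : Polynomial M) = 0 := by
    rw [map_sub, map_pow, map_add, Polynomial.aeval_X, Polynomial.aeval_C, Polynomial.aeval_C,
      map_one, add_comm, ← hαβ, hα]
    exact sub_self _
  have hc' : c ∈ IntermediateField.adjoin ℚ_[p] ((M : Set Ω) ∪ {β}) := by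
    have hle : IntermediateField.adjoin ℚ_[p] ((M : Set Ω) ∪ {α})
        ≤ IntermediateField.adjoin ℚ_[p] ((M : Set Ω) ∪ {β}) := by
      rw [IntermediateField.adjoin_le_iff]
      rintro y (hy | hy)
      · exact IntermediateField.subset_adjoin _ _ (Or.inl hy)
      · rw [Set.mem_singleton_iff] at hy
        rw [hy, hαβ]
        exact add_mem (one_mem _) (IntermediateField.subset_adjoin _ _ (Or.inr rfl))
    exact hle hc
  obtain ⟨m, hm, rfl⟩ := h36_adjoin_repr p M β p _ hmonic hdeg hp.pos hroot c hc'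
  -- the twist
  obtain ⟨ξ, hξp, hξ⟩ := h36_exists_xi p α hα0 s (by rw [hα]; exact hsM _ hu')
  have hsβ : s β - β = (ξ - 1) * α := by
    rw [hβ, map_sub, map_one, hξ]; ring
  have hsβn : ‖s β - β‖ = ‖ξ - 1‖ := by rw [hsβ, norm_mul, hαn, mul_one]
  refine h36_kum_engine p M πM hπM β hβ0 (u' - 1) (M.sub_mem hu' M.one_mem) hβp hNF s hsM ‖β‖
    ‖ξ - 1‖ hβn (by rw [hβp]; exact hb1) (norm_nonneg _) (h5_root_unity_le p ξ hξp)
    (fun i => ?_) m hm hc1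
  rcases Nat.eq_zero_or_pos i with rfl | hi
  · rw [pow_zero, map_one, sub_self, norm_zero, zero_mul, pow_zero, one_mul]
    exact norm_nonneg _
  · obtain ⟨k, rfl⟩ : ∃ k, i = k + 1 := ⟨i - 1, by omega⟩
    rw [map_pow, ← geom_sum₂_mul, norm_mul, hsβn]
    have hS : ‖∑ j ∈ Finset.range (k + 1), s β ^ j * β ^ (k + 1 - 1 - j)‖ ≤ ‖β‖ ^ k := by
      refine IsUltrametricDist.norm_sum_le_of_forall_le_of_nonneg (pow_nonneg (norm_nonneg _) _)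
        (fun j hj => ?_)
      rw [Finset.mem_range] at hj
      rw [norm_mul, norm_pow, norm_pow, h78_norm_aut, ← pow_add]
      have : j + (k + 1 - 1 - j) = k := by omega
      rw [this]
    calc ‖∑ j ∈ Finset.range (k + 1), s β ^ j * β ^ (k + 1 - 1 - j)‖ * ‖ξ - 1‖ * ‖β‖
        ≤ ‖β‖ ^ k * ‖ξ - 1‖ * ‖β‖ :=
          mul_le_mul_of_nonneg_right (mul_le_mul_of_nonneg_right hS (norm_nonneg _))
            (norm_nonneg _)
      _ = ‖β‖ ^ (k + 1) * ‖ξ - 1‖ := by ring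

/-! ## D2 -/

/-- **D2** (`sk_kummer_break`): in Kummer normal form the break is too big. -/
theorem h36_kummer_break (M : Fld) (πM : Ω) (hπM : h78_IsUnif p M πM)
    (u' : Ω) (hu' : u' ∈ M) (hNF : h78_NF p M u') (α : Ω) (hα : α ^ p = u')
    (s : h78_G p) (hsM : ∀ z ∈ M, s z = z)
    (c : Ω) (hc : c ∈ IntermediateField.adjoin ℚ_[p] ((M : Set Ω) ∪ {α})) (hc1 : ‖c‖ ≤ 1) :
    p * ‖s c - c‖ ^ (p * (p - 1)) < ‖πM‖ ^ (p - 1) := by
  rcases hNF with ha | ⟨hb1, hb2, hb3⟩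
  · exact h36_kummer_break_a p M πM hπM u' hu' ha α hα s hsM c hc hc1
  · exact h36_kummer_break_b p M πM hπM u' hu' hb1 hb2 hb3 α hα s hsM c hc hc1

end Fermat.Agent.S56
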