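/-
S56 / W3-B6c (helper14): tame subfields.
* `h14_tame_le_M_of` : a tame subfield `F ≤ L` lies in `M = L^P` (skeleton statement
  `sk_tame_le_M`, with the Teichmüller input `sk_K0_res` for `L` and `F` as explicit hypotheses;
  the stability hypotheses of the skeleton are not needed).
* `h14_NF_mono` : Kummer normal forms relative to `F` stay normal forms relative to a tame
  `M ≥ F` (skeleton statement `sk_NF_mono` verbatim).
-/
import Mathlib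
import Fermat.Agent.S56.h78_W3Defs
import Fermat.Agent.S56.h62_W3Basics
import Fermat.Agent.S56.h94_Unif
import Fermat.Agent.S56.h8_Expansion
import Fermat.Agent.S56.h49_K0Basic
import Fermat.Agent.S56.h6_WildCore

set_option autoImplicit false

namespace Fermat.Agent.S56

variable (p : ℕ) [Fact p.Prime]

local notation "Ω" => PadicAlgCl p
local notation "Fld" => IntermediateField ℚ_[p] (PadicAlgCl p)

/-! ### powers of an element close to `1` -/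

theorem h14_norm_le_one_of_sub_one (t : Ω) (ht : ‖t - 1‖ ≤ 1) : ‖t‖ ≤ 1 := by
  have h : t = (t - 1) + 1 := by ring
  rw [h]
  refine le_trans (IsUltrametricDist.norm_add_le_max _ _) (max_le ht ?_)
  rw [norm_one]

theorem h14_norm_geom_le_one (t : Ω) (ht : ‖t‖ ≤ 1) (n : ℕ) :
    ‖∑ i ∈ Finset.range n, t ^ i‖ ≤ 1 := by
  refine IsUltrametricDist.norm_sum_le_of_forall_le_of_nonneg zero_le_one (fun i _ => ?_)
  rw [norm_pow]
  exact pow_le_one₀ (norm_nonneg _) ht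

theorem h14_norm_pow_sub_one_le (t : Ω) (ht : ‖t‖ ≤ 1) (n : ℕ) : ‖t ^ n - 1‖ ≤ ‖t - 1‖ := by
  rw [← mul_geom_sum, norm_mul]
  exact mul_le_of_le_one_right (norm_nonneg _) (h14_norm_geom_le_one p t ht n)

theorem h14_norm_pow_sub_one_eq (t : Ω) (ht : ‖t - 1‖ < 1) (m : ℕ) (hm : ¬ p ∣ m) :
    ‖t ^ m - 1‖ = ‖t - 1‖ := by
  have ht1 : ‖t‖ ≤ 1 := h14_norm_le_one_of_sub_one p t ht.le
  have hS : ‖(∑ i ∈ Finset.range m, t ^ i) - (m : Ω)‖ < ‖(m : Ω)‖ := by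
    rw [h6_norm_natCast_of_not_dvd p m hm]
    have h1 : (∑ i ∈ Finset.range m, t ^ i) - (m : Ω) = ∑ i ∈ Finset.range m, (t ^ i - 1) := by
      rw [Finset.sum_sub_distrib, Finset.sum_const, Finset.card_range, nsmul_eq_mul, mul_one]
    rw [h1]
    refine lt_of_le_of_lt (IsUltrametricDist.norm_sum_le_of_forall_le_of_nonneg (norm_nonneg _)
      (fun i _ => h14_norm_pow_sub_one_le p t ht1 i)) ht
  have hS1 : ‖∑ i ∈ Finset.range m, t ^ i‖ = 1 := by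
    rw [h6_norm_eq_of_sub_lt p hS, h6_norm_natCast_of_not_dvd p m hm]
  rw [← mul_geom_sum, norm_mul, hS1, mul_one]

/-! ### `K₀` is monotone -/

theorem h14_K0_mono {F L : Fld} (hFL : F ≤ L) : h78_K0 p F ≤ h78_K0 p L :=
  IntermediateField.adjoin.mono _ _ _ (fun _ hζ => ⟨hFL hζ.1, hζ.2⟩)

/-! ### Claim A: an automorphism fixing `K₀(F)` moves `z ∈ F` at most as much as a uniformizer -/

theorem h14_move_le (F : Fld) [FiniteDimensional ℚ_[p] F]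
    (hresF : ∀ x ∈ F, ‖x‖ ≤ 1 → ∃ c ∈ h78_K0 p F, ‖x - c‖ < 1)
    (πF : Ω) (hπF : h78_IsUnif p F πF) (g : h78_G p) (hg : ∀ c ∈ h78_K0 p F, g c = c)
    (z : Ω) (hz : z ∈ F) : ‖g z - z‖ ≤ ‖g πF * πF⁻¹ - 1‖ * ‖z‖ := by
  obtain ⟨hπFm, hπF0, hπF1, hπFv⟩ := id hπF
  have hK0F : h78_K0 p F ≤ F := h49_K0_le p F
  haveI : FiniteDimensional ℚ_[p] (h78_K0 p F) :=
    FiniteDimensional.of_injective (IntermediateField.inclusion hK0F).toLinearMap
      (IntermediateField.inclusion hK0F).injective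
  obtain ⟨π₀, hπ₀⟩ := h94_exists_unif p (h78_K0 p F)
  obtain ⟨hπ₀m, hπ₀0, hπ₀1, -⟩ := id hπ₀
  have hq0 : 0 < ‖πF‖ := norm_pos_iff.2 hπF0
  obtain ⟨n, hn⟩ := hπFv π₀ (hK0F hπ₀m) hπ₀0
  have hnpos : 0 < n := by
    by_contra hneg
    have h1 : 1 ≤ ‖πF‖ ^ n := one_le_zpow_of_nonpos₀ hq0 hπF1.le (not_lt.1 hneg)
    rw [← hn] at h1
    exact absurd hπ₀1 (not_lt.2 h1)
  have hj : ‖π₀‖ = ‖πF‖ ^ n.toNat := by
    rw [hn, ← zpow_natCast, Int.toNat_of_nonneg hnpos.le]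
  obtain ⟨c, hc, hzc, hcz⟩ :=
    h8_expansion p F (h78_K0 p F) hK0F hresF πF π₀ hπF hπ₀ n.toNat hj z hz
  set t : Ω := g πF * πF⁻¹ with ht
  have hgπ : g πF = t * πF := by
    rw [ht, mul_assoc, inv_mul_cancel₀ hπF0, mul_one]
  have htn : ‖t‖ = 1 := by
    rw [ht, norm_mul, norm_inv, h78_norm_aut, mul_inv_cancel₀ hq0.ne']
  have hterm : ∀ i : Fin n.toNat,
      g (c i * πF ^ (i : ℕ)) - c i * πF ^ (i : ℕ) = c i * πF ^ (i : ℕ) * (t ^ (i : ℕ) - 1) := by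
    intro i
    rw [map_mul, map_pow, hg (c i) (hc i), hgπ, mul_pow]
    ring
  have hsum : g z - z = ∑ i, c i * πF ^ (i : ℕ) * (t ^ (i : ℕ) - 1) := by
    conv_lhs => rw [hzc]
    rw [map_sum, ← Finset.sum_sub_distrib]
    exact Finset.sum_congr rfl (fun i _ => hterm i)
  rw [hsum]
  refine IsUltrametricDist.norm_sum_le_of_forall_le_of_nonneg
    (mul_nonneg (norm_nonneg _) (norm_nonneg _)) (fun i _ => ?_)
  rw [norm_mul, mul_comm]
  exact mul_le_mul (h14_norm_pow_sub_one_le p t htn.le _) (hcz i) (norm_nonneg _) (norm_nonneg _)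

/-! ### B6.6 : a tame subfield lies in `M = L^P` -/

/-- `sk_tame_le_M` with the Teichmüller input (`sk_K0_res` for `L` and for `F`) as explicit
hypotheses. -/
theorem h14_tame_le_M_of (L F : Fld) [FiniteDimensional ℚ_[p] L]
    (hresL : ∀ x ∈ L, ‖x‖ ≤ 1 → ∃ c ∈ h78_K0 p L, ‖x - c‖ < 1)
    (hresF : ∀ x ∈ F, ‖x‖ ≤ 1 → ∃ c ∈ h78_K0 p F, ‖x - c‖ < 1)
    (hFL : F ≤ L) (hFt : h78_IsTame p F)
    (π : Ω) (hπ : h78_IsUnif p L π) : F ≤ h78_M p L π := by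
  haveI : FiniteDimensional ℚ_[p] F :=
    FiniteDimensional.of_injective (IntermediateField.inclusion hFL).toLinearMap
      (IntermediateField.inclusion hFL).injective
  obtain ⟨πF, hπF⟩ := h94_exists_unif p F
  obtain ⟨hπFm, hπF0, hπF1, hπFv⟩ := id hπF
  have hq0 : 0 < ‖πF‖ := norm_pos_iff.2 hπF0
  have hp0 : (0 : ℝ) < p := by exact_mod_cast (Fact.out : p.Prime).pos
  refine le_inf hFL (fun z hz => ?_)
  rw [IntermediateField.mem_fixedField_iff]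
  intro g hgP
  have hgJ : g ∈ h78_J p L := hgP.1
  have hfix : ∀ c ∈ h78_K0 p F, g c = c := fun c hc =>
    h49_J_fix p L g hgJ c (h14_K0_mono p hFL hc)
  have hJres : ∀ g ∈ h78_J p L, ∀ x ∈ L, ‖x‖ ≤ 1 → ‖g x - x‖ < 1 := fun g hg x hx hx1 =>
    h49_J_res_of p L hresL g hg x hx hx1
  have hsmall : ‖g πF - πF‖ < ‖πF‖ :=
    h6_P_small_of p L hJres π hπ g hgP πF (hFL hπFm) hπF0
  set t : Ω := g πF * πF⁻¹ with ht
  have hgπ : g πF = t * πF := by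
    rw [ht, mul_assoc, inv_mul_cancel₀ hπF0, mul_one]
  have ht1 : ‖t - 1‖ < 1 := by
    have h1 : t - 1 = (g πF - πF) * πF⁻¹ := by
      rw [ht, sub_mul, mul_inv_cancel₀ hπF0]
    rw [h1, norm_mul, norm_inv, ← div_eq_mul_inv, div_lt_one hq0]
    exact hsmall
  have hA : ∀ z ∈ F, ‖g z - z‖ ≤ ‖t - 1‖ * ‖z‖ := fun z hz =>
    h14_move_le p F hresF πF hπF g hfix z hz
  -- the key step: `t = 1`
  have ht0 : ‖t - 1‖ = 0 := by
    obtain ⟨m, hpm, hm⟩ := hFt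
    obtain ⟨n, hn⟩ := hm πF hπFm hπF0
    set u : Ω := πF ^ m * (p : Ω) ^ n with hu
    have huF : u ∈ F := F.mul_mem (pow_mem hπFm m) (zpow_mem (natCast_mem F p) n)
    have hu1 : ‖u‖ = 1 := by
      rw [hu, norm_mul, norm_pow, hn, norm_zpow, h62_norm_p, inv_zpow,
        mul_inv_cancel₀ (zpow_ne_zero n hp0.ne')]
    have hgu : g u - u = (t ^ m - 1) * u := by
      rw [hu, map_mul, map_pow, map_zpow₀, map_natCast, hgπ, mul_pow]
      ring
    obtain ⟨c, hc, hcu⟩ := hresF u huF hu1.le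
    have hw : ‖g (u - c) - (u - c)‖ = ‖t - 1‖ := by
      have h1 : g (u - c) - (u - c) = g u - u := by
        rw [map_sub, hfix c hc]; ring
      rw [h1, hgu, norm_mul, hu1, mul_one, h14_norm_pow_sub_one_eq p t ht1 m hpm]
    have h2 := hA (u - c) (F.sub_mem huF (h49_K0_le p F hc))
    rw [hw] at h2
    by_contra hne
    have hpos : 0 < ‖t - 1‖ := lt_of_le_of_ne (norm_nonneg _) (Ne.symm hne)
    have h3 : ‖t - 1‖ * ‖u - c‖ < ‖t - 1‖ * 1 := mul_lt_mul_of_pos_left hcu hpos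
    rw [mul_one] at h3
    exact absurd h2 (not_le.2 h3)
  have h4 := hA z hz
  rw [ht0, zero_mul] at h4
  exact sub_eq_zero.1 (norm_le_zero_iff.1 h4)

/-! ### normal forms are inherited by tame overfields -/

/-- a `p`-th power norm in a tame overfield is already a `p`-th power norm. -/
theorem h14_pth_descend (F M : Fld) (hFM : F ≤ M) (πF πM : Ω) (hπF : h78_IsUnif p F πF)
    (hπM : h78_IsUnif p M πM) (hM : h78_IsTame p M) (v : Ω) (hv : v ∈ F)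
    (z : Ω) (hz : z ∈ M) (hz0 : z ≠ 0) (heq : ‖v‖ = ‖z‖ ^ p) :
    ∃ z' ∈ F, z' ≠ 0 ∧ ‖v‖ = ‖z'‖ ^ p := by
  obtain ⟨hπFm, hπF0, hπF1, hπFv⟩ := hπF
  obtain ⟨hπMm, hπM0, hπM1, hπMv⟩ := hπM
  have hpP : p.Prime := Fact.out
  have hp0 : (0 : ℝ) < p := by exact_mod_cast hpP.pos
  have hr0 : 0 < ‖πM‖ := norm_pos_iff.2 hπM0
  have hinj := zpow_right_injective₀ hr0 hπM1.ne
  have hv0 : v ≠ 0 := by
    intro h
    rw [h, norm_zero] at heq
    exact (pow_ne_zero p (norm_ne_zero_iff.2 hz0)) heq.symm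
  obtain ⟨a, ha⟩ := hπFv v hv hv0
  obtain ⟨b, hb⟩ := hπMv z hz hz0
  obtain ⟨e, he⟩ := hπMv πF (hFM hπFm) hπF0
  have hpΩ0 : (p : Ω) ≠ 0 := by
    rw [← norm_ne_zero_iff, h62_norm_p]
    exact inv_ne_zero hp0.ne'
  obtain ⟨c, hc⟩ := hπFv (p : Ω) (natCast_mem F p) hpΩ0
  obtain ⟨m, hpm, hm⟩ := hM
  obtain ⟨n, hn⟩ := hm πM hπMm hπM0
  -- `e * a = b * p`
  have h1 : e * a = b * (p : ℤ) := by
    apply hinj
    show ‖πM‖ ^ (e * a) = ‖πM‖ ^ (b * (p : ℤ))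
    rw [zpow_mul, ← he, ← ha, heq, hb, zpow_mul, zpow_natCast]
  -- `m = e * (c * -n)`
  have h2 : (m : ℤ) = e * (c * -n) := by
    apply hinj
    show ‖πM‖ ^ (m : ℤ) = ‖πM‖ ^ (e * (c * -n))
    rw [zpow_natCast, hn, zpow_mul, ← he, zpow_mul, ← hc, h62_norm_p, zpow_neg, inv_zpow, inv_inv]
  have hpe : ¬ (p : ℤ) ∣ e := by
    intro hdvd
    have h3 : (p : ℤ) ∣ (m : ℤ) := by
      rw [h2]; exact Dvd.dvd.mul_right hdvd _
    exact hpm (Int.natCast_dvd_natCast.1 h3)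
  have hpa : (p : ℤ) ∣ a := by
    have h3 : (p : ℤ) ∣ e * a := by rw [h1]; exact dvd_mul_left _ _
    exact ((Nat.prime_iff_prime_int.1 hpP).dvd_or_dvd h3).resolve_left hpe
  obtain ⟨a', rfl⟩ := hpa
  refine ⟨πF ^ a', zpow_mem hπFm a', zpow_ne_zero a' hπF0, ?_⟩
  rw [ha, norm_zpow, mul_comm, zpow_mul, zpow_natCast]

/-- `sk_NF_mono` (skeleton statement verbatim). -/
theorem h14_NF_mono (F M : Fld) (hFM : F ≤ M) (πF πM : Ω) (hπF : h78_IsUnif p F πF)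
    (hπM : h78_IsUnif p M πM) (hM : h78_IsTame p M) (u : Ω) (hu : u ∈ F)
    (hNF : h78_NF p F u) : h78_NF p M u := by
  rcases hNF with h | ⟨h1, h2, h3⟩
  · left
    intro z hz hz0 heq
    obtain ⟨z', hz', hz'0, h'⟩ := h14_pth_descend p F M hFM πF πM hπF hπM hM u hu z hz hz0 heq
    exact h z' hz' hz'0 h'
  · right
    refine ⟨h1, h2, fun z hz hz0 heq => ?_⟩
    obtain ⟨z', hz', hz'0, h'⟩ :=
      h14_pth_descend p F M hFM πF πM hπF hπM hM (u - 1) (F.sub_mem hu F.one_mem) z hz hz0 heq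
    exact h3 z' hz' hz'0 h'

end Fermat.Agent.S56
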