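/-
S56 / W3-B6c (helper14), closed form: `h14_tame_le_M` = skeleton statement `sk_tame_le_M` verbatim
(`h14_tame_le_M_of` + the Teichmüller input `h49_K0_res`).
-/
import Fermat.Agent.S56.h14_TameSub
import Fermat.Agent.S56.h49_K0Res

set_option autoImplicit false

namespace Fermat.Agent.S56

variable (p : ℕ) [Fact p.Prime]

local notation "Ω" => PadicAlgCl p
local notation "Fld" => IntermediateField ℚ_[p] (PadicAlgCl p)

/-- B6.6 a tame Galois subfield lies in `M`. -/
theorem h14_tame_le_M (L F : Fld) [FiniteDimensional ℚ_[p] L] (hL : h78_Stable p L)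
    (hF : h78_Stable p F) (hFL : F ≤ L) (hFt : h78_IsTame p F)
    (π : Ω) (hπ : h78_IsUnif p L π) : F ≤ h78_M p L π := by
  have hfin : FiniteDimensional ℚ_[p] F :=
    FiniteDimensional.of_injective (IntermediateField.inclusion hFL).toLinearMap
      (IntermediateField.inclusion hFL).injective
  exact h14_tame_le_M_of p L F (fun x hx hx1 => h49_K0_res p L x hx hx1)
    (fun x hx hx1 => h49_K0_res p F x hx hx1) hFL hFt π hπ

end Fermat.Agent.S56
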