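/-
S56 / W3-C2 (Herbrand-lite), core: the statement with the local-field inputs
(TW, B4b, B6a, B6b, and "π generates L over K₀(L)") as explicit hypotheses.
-/
import Mathlib
import Fermat.Agent.S56.h78_W3Defs

set_option autoImplicit false

namespace Fermat.Agent.S56

variable (p : ℕ) [Fact p.Prime]

local notation "Ω" => PadicAlgCl p
local notation "Fld" => IntermediateField ℚ_[p] (PadicAlgCl p)

/-- membership in the conjugate set. -/
theorem h47_mem_conj (S : Subgroup (h78_G p)) (x y : Ω) :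
    y ∈ h78_conj p S x ↔ ∃ g ∈ S, g x = y := by
  classical
  unfold h78_conj
  rw [Finset.mem_filter]
  refine ⟨fun h => h.2, ?_⟩
  rintro ⟨g, hg, rfl⟩
  refine ⟨?_, g, hg, rfl⟩
  have halg : IsIntegral ℚ_[p] x := Algebra.IsIntegral.isIntegral x
  rw [Set.mem_toFinset, Polynomial.mem_rootSet]
  refine ⟨minpoly.ne_zero halg, ?_⟩
  have h1 := Polynomial.aeval_algHom_apply (g : Ω →ₐ[ℚ_[p]] Ω) x (minpoly ℚ_[p] x)
  rw [minpoly.aeval, map_zero] at h1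
  exact h1

/-- ultrametric triangle inequality for differences. -/
theorem h47_norm_sub_le_max (x y z : Ω) : ‖x - z‖ ≤ max ‖x - y‖ ‖y - z‖ := by
  have h : x - z = (x - y) + (y - z) := by ring
  rw [h]
  exact IsUltrametricDist.norm_add_le_max _ _

/-- powers of `g` move `x` at most as far as `g` does. -/
theorem h47_norm_pow_sub_le (g : h78_G p) (x : Ω) (k : ℕ) : ‖(g ^ k) x - x‖ ≤ ‖g x - x‖ := by
  induction k with
  | zero => simp
  | succ k ih =>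
    have h1 : (g ^ (k + 1)) x - x = (g ^ k) (g x - x) + ((g ^ k) x - x) := by
      rw [pow_succ, AlgEquiv.mul_apply, map_sub]; ring
    rw [h1]
    refine le_trans (IsUltrametricDist.norm_add_le_max _ _) (max_le ?_ ih)
    rw [h78_norm_aut]

/-- the integers of `L` as a subring of `Ω`. -/
def h47_OL (L : Fld) : Subring Ω where
  carrier := {x | x ∈ L ∧ ‖x‖ ≤ 1}
  mul_mem' := by
    rintro a b ⟨ha, ha1⟩ ⟨hb, hb1⟩
    refine ⟨L.mul_mem ha hb, ?_⟩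
    rw [norm_mul]
    exact mul_le_one₀ ha1 (norm_nonneg _) hb1
  one_mem' := ⟨L.one_mem, by simp⟩
  add_mem' := by
    rintro a b ⟨ha, ha1⟩ ⟨hb, hb1⟩
    exact ⟨L.add_mem ha hb, le_trans (IsUltrametricDist.norm_add_le_max _ _) (max_le ha1 hb1)⟩
  zero_mem' := ⟨L.zero_mem, by simp⟩
  neg_mem' := by
    rintro a ⟨ha, ha1⟩
    exact ⟨L.neg_mem ha, by rwa [norm_neg]⟩

theorem h47_mem_OL (L : Fld) (x : Ω) : x ∈ h47_OL p L ↔ x ∈ L ∧ ‖x‖ ≤ 1 := Iff.rfl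

/-- coefficients of `∏ (X - a)` stay in a subring containing the roots. -/
theorem h47_coeff_prod_mem (R : Subring Ω) (A : Finset Ω) (hA : ∀ a ∈ A, a ∈ R) (n : ℕ) :
    (∏ a ∈ A, (Polynomial.X - Polynomial.C a)).coeff n ∈ R := by
  have h1 : (∏ a ∈ A, (Polynomial.X - Polynomial.C a)) ∈ Polynomial.liftsRing R.subtype := by
    refine Subring.prod_mem _ (fun a ha => ?_)
    refine Subring.sub_mem _ ?_ ?_
    · rw [← Polynomial.lifts_iff_liftsRing]; exact Polynomial.X_mem_lifts _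
    · rw [← Polynomial.lifts_iff_liftsRing]
      exact Polynomial.C_mem_lifts R.subtype ⟨a, hA a ha⟩
  rw [← Polynomial.lifts_iff_liftsRing, Polynomial.lifts_iff_coeff_lifts] at h1
  obtain ⟨r, hr⟩ := h1 n
  rw [← hr]
  exact r.2

theorem h47_inv_apply_apply (g : h78_G p) (x : Ω) : g⁻¹ (g x) = x := by
  show (g⁻¹ * g) x = x
  rw [inv_mul_cancel]; rfl

theorem h47_apply_inv_apply (g : h78_G p) (x : Ω) : g (g⁻¹ x) = x := by
  show (g * g⁻¹) x = x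
  rw [mul_inv_cancel]; rfl

/-- the stabiliser of `α` inside `S`. -/
def h47_stab (S : Subgroup (h78_G p)) (α : Ω) : Subgroup (h78_G p) where
  carrier := {g | g ∈ S ∧ g α = α}
  mul_mem' := by
    rintro a b ⟨ha, ha'⟩ ⟨hb, hb'⟩
    exact ⟨S.mul_mem ha hb, by rw [AlgEquiv.mul_apply, hb', ha']⟩
  one_mem' := ⟨S.one_mem, rfl⟩
  inv_mem' := by
    rintro a ⟨ha, ha'⟩
    refine ⟨S.inv_mem ha, ?_⟩
    have h1 := h47_inv_apply_apply p a α
    rwa [ha'] at h1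

theorem h47_mem_stab (S : Subgroup (h78_G p)) (α : Ω) (g : h78_G p) :
    g ∈ h47_stab p S α ↔ g ∈ S ∧ g α = α := Iff.rfl

open Classical in
/-- elements of `S` permute the `S`-conjugates. -/
theorem h47_conj_image (S : Subgroup (h78_G p)) (x : Ω) (g : h78_G p) (hg : g ∈ S) :
    (h78_conj p S x).image g = h78_conj p S x := by
  ext y
  rw [Finset.mem_image, h47_mem_conj]
  constructor
  · rintro ⟨a, ha, rfl⟩
    obtain ⟨h, hh, rfl⟩ := (h47_mem_conj p S x a).1 ha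
    exact ⟨g * h, S.mul_mem hg hh, rfl⟩
  · rintro ⟨h, hh, rfl⟩
    refine ⟨(g⁻¹ * h) x, (h47_mem_conj p S x _).2 ⟨g⁻¹ * h, S.mul_mem (S.inv_mem hg) hh, rfl⟩, ?_⟩
    rw [AlgEquiv.mul_apply]; exact h47_apply_inv_apply p g _

/-- an automorphism of `p`-power order on a `p`-th root of unity fixes it. -/
theorem h47_fix_root_of_unity (g : h78_G p) (ζ : Ω) (hζ : ζ ^ p = 1) (n : ℕ)
    (hn : (g ^ (p ^ n)) ζ = ζ) : g ζ = ζ := by
  have hp : p.Prime := Fact.out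
  by_cases h1 : ζ = 1
  · rw [h1, map_one]
  have hord : orderOf ζ = p := orderOf_eq_prime hζ h1
  have hg : (g ζ) ^ p = 1 := by rw [← map_pow, hζ, map_one]
  have hprim : IsPrimitiveRoot ζ p := by
    have := IsPrimitiveRoot.orderOf ζ
    rwa [hord] at this
  have : NeZero p := ⟨hp.ne_zero⟩
  obtain ⟨k, _, hk'⟩ := hprim.eq_pow_of_pow_eq_one hg
  have hpow : ∀ m : ℕ, (g ^ m) ζ = ζ ^ (k ^ m) := by
    intro m
    induction m with
    | zero => simp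
    | succ m ih =>
      rw [pow_succ, AlgEquiv.mul_apply, ← hk', map_pow, ih, ← pow_mul, ← pow_succ]
  rw [hpow] at hn
  have h2 : k ^ (p ^ n) ≡ 1 [MOD p] := by
    have h3 : ζ ^ (k ^ (p ^ n) % p) = ζ ^ (1 % p) := by
      have e1 := pow_mod_orderOf ζ (k ^ (p ^ n))
      have e2 := pow_mod_orderOf ζ 1
      rw [hord] at e1 e2
      rw [e1, e2, hn, pow_one]
    exact hprim.pow_inj (Nat.mod_lt _ hp.pos) (Nat.mod_lt _ hp.pos) h3
  have h4 : ((k : ℕ) : ZMod p) = 1 := by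
    have h5 := (ZMod.natCast_eq_natCast_iff _ _ _).2 h2
    rw [Nat.cast_pow, ZMod.pow_card_pow, Nat.cast_one] at h5
    exact h5
  have h6 : k ≡ 1 [MOD p] := by
    rw [← ZMod.natCast_eq_natCast_iff, h4, Nat.cast_one]
  rw [← hk']
  have h7 : ζ ^ k = ζ ^ 1 := by
    have e1 := pow_mod_orderOf ζ k
    have e2 := pow_mod_orderOf ζ 1
    rw [hord] at e1 e2
    rw [← e1, ← e2]
    exact congrArg (fun m => ζ ^ m) h6
  rw [h7, pow_one]

/-- `g` fixes the coefficients of `∏_{a ∈ A} (X - a)` when it maps `A` to itself. -/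
theorem h47_coeff_fixed (A : Finset Ω) (g : h78_G p) (hg : ∀ a ∈ A, g a ∈ A) (n : ℕ) :
    g ((∏ a ∈ A, (Polynomial.X - Polynomial.C a)).coeff n) =
      (∏ a ∈ A, (Polynomial.X - Polynomial.C a)).coeff n := by
  classical
  have himg : A.image g = A := by
    refine Finset.eq_of_subset_of_card_le ?_ ?_
    · intro y hy
      obtain ⟨a, ha, rfl⟩ := Finset.mem_image.1 hy
      exact hg a ha
    · rw [Finset.card_image_of_injective _ g.injective]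
  have h1 : (∏ a ∈ A, (Polynomial.X - Polynomial.C a)).map (g : Ω →+* Ω) =
      ∏ a ∈ A, (Polynomial.X - Polynomial.C a) := by
    rw [Polynomial.map_prod]
    conv_rhs => rw [← himg]
    rw [Finset.prod_image (fun a _ b _ h => g.injective h)]
    refine Finset.prod_congr rfl (fun a _ => ?_)
    rw [Polynomial.map_sub, Polynomial.map_X, Polynomial.map_C]
    rfl
  conv_rhs => rw [← h1]
  rw [Polynomial.coeff_map]
  rfl

/-- the polynomial bound: `∏_{a ∈ A} ‖π - s a‖ ≤ ‖s c - c‖` for some coefficient `c` of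
`f = ∏_{a ∈ A} (X - a)`, when `π ∈ A`. -/
theorem h47_poly_bound (A : Finset Ω) (π : Ω) (hπA : π ∈ A) (hπ1 : ‖π‖ ≤ 1) (s : h78_G p) :
    ∃ n : ℕ, ∏ a ∈ A, ‖π - s a‖ ≤
      ‖s ((∏ a ∈ A, (Polynomial.X - Polynomial.C a)).coeff n) -
        (∏ a ∈ A, (Polynomial.X - Polynomial.C a)).coeff n‖ := by
  classical
  set f : Polynomial Ω := ∏ a ∈ A, (Polynomial.X - Polynomial.C a) with hf
  set d := f.natDegree with hd
  have hroot : f.eval π = 0 := by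
    rw [hf, Polynomial.eval_prod]
    exact Finset.prod_eq_zero hπA (by simp)
  have hmap : (f.map (s : Ω →+* Ω)).eval π = ∏ a ∈ A, (π - s a) := by
    rw [hf, Polynomial.map_prod, Polynomial.eval_prod]
    refine Finset.prod_congr rfl (fun a _ => ?_)
    rw [Polynomial.map_sub, Polynomial.map_X, Polynomial.map_C, Polynomial.eval_sub,
      Polynomial.eval_X, Polynomial.eval_C]
    rfl
  have hsum1 : f.eval π = ∑ i ∈ Finset.range (d + 1), f.coeff i * π ^ i :=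
    Polynomial.eval_eq_sum_range' (Nat.lt_succ_self _) π
  have hsum2 : (f.map (s : Ω →+* Ω)).eval π = ∑ i ∈ Finset.range (d + 1), s (f.coeff i) * π ^ i := by
    rw [Polynomial.eval_eq_sum_range' (n := d + 1)
      (lt_of_le_of_lt (Polynomial.natDegree_map_le) (Nat.lt_succ_self _)) π]
    refine Finset.sum_congr rfl (fun i _ => ?_)
    rw [Polynomial.coeff_map]; rfl
  obtain ⟨n, _, hn⟩ := Finset.exists_max_image (Finset.range (d + 1))
    (fun i => ‖s (f.coeff i) - f.coeff i‖) ⟨0, by simp⟩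
  refine ⟨n, ?_⟩
  have h1 : ∏ a ∈ A, ‖π - s a‖ = ‖∑ i ∈ Finset.range (d + 1), (s (f.coeff i) - f.coeff i) * π ^ i‖ := by
    rw [← norm_prod, ← hmap, ← sub_zero ((f.map (s : Ω →+* Ω)).eval π), ← hroot, hsum1, hsum2,
      ← Finset.sum_sub_distrib]
    congr 1
    refine Finset.sum_congr rfl (fun i _ => ?_)
    ring
  rw [h1]
  refine IsUltrametricDist.norm_sum_le_of_forall_le_of_nonneg (norm_nonneg _) (fun i hi => ?_)
  rw [norm_mul, norm_pow]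
  calc ‖s (f.coeff i) - f.coeff i‖ * ‖π‖ ^ i ≤ ‖s (f.coeff i) - f.coeff i‖ * 1 :=
        mul_le_mul_of_nonneg_left (pow_le_one₀ (norm_nonneg _) hπ1) (norm_nonneg _)
    _ = ‖s (f.coeff i) - f.coeff i‖ := mul_one _
    _ ≤ _ := hn i hi

/-- **Herbrand-lite, core form**: the local-field inputs are explicit hypotheses. -/
theorem h47_herbrand_core (L : Fld) (hL : h78_Stable p L) (π πM : Ω) (hπ : h78_IsUnif p L π)
    (hcardJ : ‖π‖ ^ (h78_conj p (h78_J p L) π).card = (p : ℝ)⁻¹)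
    (hcardP : ‖π‖ ^ (h78_conj p (h78_P p L π) π).card = ‖πM‖)
    (hpgrp : ∀ g ∈ h78_P p L π, ∃ n : ℕ, ∀ z ∈ L, (g ^ (p ^ n)) z = z)
    (α : Ω) (hαL : α ∈ L) (hαp : α ^ p ∈ h78_M p L π)
    (hstab : ∀ g ∈ h78_P p L π, g π = π → g α = α)
    (hTW : ∀ t ∈ h78_P p L π, (∀ z ∈ L, (t ^ p) z = z) → (∃ z ∈ L, t z ≠ z) →
      1 ≤ (p : ℝ) ^ p * h78_sOf p L π t ^ (p - 1))
    (s : h78_G p) (hs : s ∈ h78_P p L π) (hsα : s α ≠ α) :
    ∃ c ∈ L, ‖c‖ ≤ 1 ∧ (∀ g ∈ h78_P p L π, g α = α → g c = c) ∧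
      ‖πM‖ ^ (p - 1) ≤ p * ‖s c - c‖ ^ (p * (p - 1)) := by
  classical
  have hp : p.Prime := Fact.out
  obtain ⟨hπL, hπ0, hπlt, -⟩ := hπ
  have hπpos : 0 < ‖π‖ := norm_pos_iff.2 hπ0
  have hα0 : α ≠ 0 := by
    rintro rfl; exact hsα (map_zero s)
  obtain ⟨P, hP⟩ : ∃ P, P = h78_P p L π := ⟨_, rfl⟩
  rw [← hP] at hcardP hpgrp hstab hTW hs ⊢
  have memP : ∀ g : h78_G p, g ∈ P ↔ g ∈ h78_J p L ∧ (π = 0 ∨ ‖g π - π‖ < ‖π‖) := by
    intro g; rw [hP]; exact Iff.rfl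
  have hPlt : ∀ g ∈ P, ‖g π - π‖ < ‖π‖ := fun g hg =>
    ((memP g).1 hg).2.resolve_left hπ0
  -- `P` fixes `α ^ p`
  have hPαp : ∀ g ∈ P, (g α) ^ p = α ^ p := by
    intro g hg
    have h1 : α ^ p ∈ IntermediateField.fixedField (h78_P p L π) :=
      (IntermediateField.mem_inf.1 hαp).2
    rw [IntermediateField.mem_fixedField_iff] at h1
    rw [← map_pow]; exact h1 g (hP ▸ hg)
  obtain ⟨H₀, hH₀⟩ : ∃ H₀, H₀ = h47_stab p P α := ⟨_, rfl⟩
  have memH : ∀ g : h78_G p, g ∈ H₀ ↔ g ∈ P ∧ g α = α := by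
    intro g; rw [hH₀]; exact Iff.rfl
  obtain ⟨A, hA⟩ : ∃ A, A = h78_conj p H₀ π := ⟨_, rfl⟩
  have hAmem : ∀ a, a ∈ A ↔ ∃ h ∈ H₀, h π = a := by
    intro a; rw [hA]; exact h47_mem_conj p H₀ π a
  have hAimg : ∀ g ∈ H₀, A.image g = A := by
    intro g hg; rw [hA]; exact h47_conj_image p H₀ π g hg
  have hπA : π ∈ A := (hAmem π).2 ⟨1, H₀.one_mem, rfl⟩
  have hAL : ∀ a ∈ A, a ∈ L := by
    intro a ha; obtain ⟨h, -, rfl⟩ := (hAmem a).1 ha; exact hL h π hπL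
  have hA1 : ∀ a ∈ A, ‖a‖ ≤ 1 := by
    intro a ha; obtain ⟨h, -, rfl⟩ := (hAmem a).1 ha
    rw [h78_norm_aut]; exact hπlt.le
  -- the coefficient
  obtain ⟨n, hn⟩ := h47_poly_bound p A π hπA hπlt.le s
  obtain ⟨c, hc⟩ : ∃ c, c = (∏ a ∈ A, (Polynomial.X - Polynomial.C a)).coeff n := ⟨_, rfl⟩
  rw [← hc] at hn
  have hcOL : c ∈ h47_OL p L := by
    rw [hc]
    exact h47_coeff_prod_mem p (h47_OL p L) A (fun a ha => ⟨hAL a ha, hA1 a ha⟩) n
  have hcfix : ∀ g ∈ H₀, g c = c := by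
    intro g hg
    rw [hc]
    refine h47_coeff_fixed p A g (fun a ha => ?_) n
    rw [← hAimg g hg]
    exact Finset.mem_image_of_mem _ ha
  refine ⟨c, hcOL.1, hcOL.2, fun g hg hgα => hcfix g ((memH g).2 ⟨hg, hgα⟩), ?_⟩
  obtain ⟨δ, hδ⟩ : ∃ δ, δ = ‖s c - c‖ := ⟨_, rfl⟩
  rw [← hδ] at hn ⊢
  have hδ0 : 0 ≤ δ := by rw [hδ]; exact norm_nonneg _
  -- choose `t = s*` in the coset `s H₀` moving `π` the least
  obtain ⟨b, hbB, hbmin⟩ := Finset.exists_min_image (A.image s) (fun b => ‖b - π‖)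
    ⟨s π, Finset.mem_image_of_mem _ hπA⟩
  obtain ⟨a₀, ha₀, rfl⟩ := Finset.mem_image.1 hbB
  obtain ⟨h₀, hh₀, rfl⟩ := (hAmem a₀).1 ha₀
  obtain ⟨t, ht⟩ : ∃ t, t = s * h₀ := ⟨_, rfl⟩
  have htP : t ∈ P := by rw [ht]; exact P.mul_mem hs ((memH h₀).1 hh₀).1
  have htα : t α ≠ α := by
    rw [ht, AlgEquiv.mul_apply, ((memH h₀).1 hh₀).2]; exact hsα
  have htmin : ∀ h ∈ H₀, ‖t π - π‖ ≤ ‖t (h π) - π‖ := by
    intro h hh
    have h1 : t (h π) ∈ A.image s := by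
      rw [ht, AlgEquiv.mul_apply]
      exact Finset.mem_image_of_mem _ ((hAmem _).2 ⟨h₀ * h, H₀.mul_mem hh₀ hh, rfl⟩)
    have h2 := hbmin _ h1
    have e : t π = s (h₀ π) := by rw [ht, AlgEquiv.mul_apply]
    rw [e]
    exact h2
  -- key equality
  have hkey : ∀ a ∈ A, ‖π - t a‖ = max ‖t π - π‖ ‖a - π‖ := by
    intro a ha
    obtain ⟨h, hh, rfl⟩ := (hAmem a).1 ha
    rw [norm_sub_rev]
    have e1 : t (h π) - π = t (h π - π) + (t π - π) := by rw [map_sub]; ring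
    have e2 : ‖t (h π - π)‖ = ‖h π - π‖ := h78_norm_aut p t _
    rcases le_or_gt ‖h π - π‖ ‖t π - π‖ with hle | hgt
    · rw [max_eq_left hle]
      refine le_antisymm ?_ (htmin h hh)
      rw [e1]
      exact le_trans (IsUltrametricDist.norm_add_le_max _ _)
        (max_le (by rw [e2]; exact hle) le_rfl)
    · rw [max_eq_right hgt.le, e1,
        IsUltrametricDist.norm_add_eq_max_of_norm_ne_norm (by rw [e2]; exact hgt.ne'), e2,
        max_eq_left hgt.le]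
  have hstar : ∏ a ∈ A, max ‖t π - π‖ ‖a - π‖ ≤ δ := by
    have e1 : ∏ a ∈ A, max ‖t π - π‖ ‖a - π‖ = ∏ a ∈ A, ‖π - t a‖ :=
      Finset.prod_congr rfl (fun a ha => (hkey a ha).symm)
    have e2 : ∏ a ∈ A, ‖π - t a‖ = ∏ a ∈ A, ‖π - s a‖ := by
      conv_rhs => rw [← hAimg h₀ hh₀]
      rw [Finset.prod_image (fun a _ b _ h => h₀.injective h)]
      refine Finset.prod_congr rfl (fun a _ => ?_)
      rw [ht, AlgEquiv.mul_apply]
    rw [e1, e2]; exact hn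
  -- the root of unity `ζ = t α / α`
  obtain ⟨ζ, hζ⟩ : ∃ ζ, ζ = t α / α := ⟨_, rfl⟩
  have hζp : ζ ^ p = 1 := by
    rw [hζ, div_pow, hPαp t htP, div_self (pow_ne_zero _ hα0)]
  have hζ1 : ζ ≠ 1 := by
    intro h; apply htα; rw [hζ, div_eq_one_iff_eq hα0] at h; exact h
  have htαeq : t α = ζ * α := by rw [hζ, div_mul_cancel₀ _ hα0]
  have hζL : ζ ∈ L := by rw [hζ]; exact L.div_mem (hL t α hαL) hαL
  have htζ : t ζ = ζ := by
    obtain ⟨m, hm⟩ := hpgrp t htP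
    exact h47_fix_root_of_unity p t ζ hζp m (hm ζ hζL)
  have hpowα : ∀ j : ℕ, (t ^ j) α = ζ ^ j * α := by
    intro j
    induction j with
    | zero => simp
    | succ j ih =>
      rw [pow_succ', AlgEquiv.mul_apply, ih, map_mul, map_pow, htζ, htαeq]; ring
  have hord : orderOf ζ = p := orderOf_eq_prime hζp hζ1
  have hprim : IsPrimitiveRoot ζ p := by
    have := IsPrimitiveRoot.orderOf ζ; rwa [hord] at this
  have : NeZero p := ⟨hp.ne_zero⟩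
  -- decomposition of the `P`-conjugates
  obtain ⟨CP, hCP⟩ : ∃ CP, CP = h78_conj p P π := ⟨_, rfl⟩
  rw [← hCP] at hcardP
  have hCPmem : ∀ x, x ∈ CP ↔ ∃ g ∈ P, g π = x := by
    intro x; rw [hCP]; exact h47_mem_conj p P π x
  have hCPimg : CP = (Finset.range p ×ˢ A).image (fun ja : ℕ × Ω => (t ^ ja.1) ja.2) := by
    ext x
    rw [hCPmem, Finset.mem_image]
    constructor
    · rintro ⟨g, hg, rfl⟩
      have h1 : (g α / α) ^ p = 1 := by
        rw [div_pow, hPαp g hg, div_self (pow_ne_zero _ hα0)]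
      obtain ⟨j, hj, hj'⟩ := hprim.eq_pow_of_pow_eq_one h1
      have hgα : g α = ζ ^ j * α := by rw [hj', div_mul_cancel₀ _ hα0]
      have h2 : ((t ^ j)⁻¹ * g) ∈ H₀ := by
        refine (memH _).2 ⟨P.mul_mem (P.inv_mem (P.pow_mem htP j)) hg, ?_⟩
        rw [AlgEquiv.mul_apply, hgα, ← hpowα j]
        exact h47_inv_apply_apply p _ _
      refine ⟨(j, ((t ^ j)⁻¹ * g) π),
        Finset.mem_product.2 ⟨Finset.mem_range.2 hj, (hAmem _).2 ⟨_, h2, rfl⟩⟩, ?_⟩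
      show (t ^ j) (((t ^ j)⁻¹ * g) π) = g π
      rw [AlgEquiv.mul_apply]; exact h47_apply_inv_apply p _ _
    · rintro ⟨⟨j, a⟩, hja, rfl⟩
      obtain ⟨-, ha⟩ := Finset.mem_product.1 hja
      obtain ⟨h, hh, rfl⟩ := (hAmem a).1 ha
      exact ⟨t ^ j * h, P.mul_mem (P.pow_mem htP j) ((memH h).1 hh).1, rfl⟩
  have hΦinj : Set.InjOn (fun ja : ℕ × Ω => (t ^ ja.1) ja.2)
      (Finset.range p ×ˢ A : Finset (ℕ × Ω)) := by
    rintro ⟨j, a⟩ hja ⟨j', a'⟩ hja' heq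
    rw [Finset.mem_coe, Finset.mem_product] at hja hja'
    obtain ⟨hj, ha⟩ := hja
    obtain ⟨hj', ha'⟩ := hja'
    obtain ⟨h, hh, rfl⟩ := (hAmem a).1 ha
    obtain ⟨h', hh', rfl⟩ := (hAmem a').1 ha'
    have heq' : (t ^ j) (h π) = (t ^ j') (h' π) := heq
    have hg : ((t ^ j' * h')⁻¹ * (t ^ j * h)) ∈ P :=
      P.mul_mem (P.inv_mem (P.mul_mem (P.pow_mem htP j') ((memH h').1 hh').1))
        (P.mul_mem (P.pow_mem htP j) ((memH h).1 hh).1)
    have hgπ : ((t ^ j' * h')⁻¹ * (t ^ j * h)) π = π := by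
      rw [AlgEquiv.mul_apply, AlgEquiv.mul_apply, heq']
      have h1 := h47_inv_apply_apply p (t ^ j' * h') π
      rwa [AlgEquiv.mul_apply] at h1
    have hgα := hstab _ hg hgπ
    have h3 : (t ^ j) α = (t ^ j') α := by
      have h4 : (t ^ j' * h') (((t ^ j' * h')⁻¹ * (t ^ j * h)) α) = (t ^ j' * h') α := by
        rw [hgα]
      rw [AlgEquiv.mul_apply ((t ^ j' * h')⁻¹), h47_apply_inv_apply, AlgEquiv.mul_apply,
        AlgEquiv.mul_apply, ((memH h).1 hh).2, ((memH h').1 hh').2] at h4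
      exact h4
    rw [hpowα, hpowα] at h3
    have h5 : ζ ^ j = ζ ^ j' := mul_right_cancel₀ hα0 h3
    have hjj : j = j' := hprim.pow_inj (Finset.mem_range.1 hj) (Finset.mem_range.1 hj') h5
    subst hjj
    have h6 : h π = h' π := (t ^ j).injective heq'
    rw [h6]
  -- the element `t' = t ^ (p ^ m)` of order `p` on `L`
  have hex := hpgrp t htP
  have hNspec : ∀ z ∈ L, (t ^ (p ^ Nat.find hex)) z = z := Nat.find_spec hex
  have hN0 : Nat.find hex ≠ 0 := by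
    intro h0
    rw [h0] at hNspec
    apply htα
    have h1 := hNspec α hαL
    simpa using h1
  obtain ⟨m, hm⟩ := Nat.exists_eq_succ_of_ne_zero hN0
  obtain ⟨t', ht'⟩ : ∃ t', t' = t ^ (p ^ m) := ⟨_, rfl⟩
  have ht'P : t' ∈ P := by rw [ht']; exact P.pow_mem htP _
  have ht'p : ∀ z ∈ L, (t' ^ p) z = z := by
    intro z hz
    have h1 := hNspec z hz
    rw [hm, Nat.succ_eq_add_one, pow_succ, pow_mul] at h1
    rw [ht']; exact h1
  have ht'ne : ∃ z ∈ L, t' z ≠ z := by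
    have h1 := Nat.find_min hex (m := m) (by rw [hm]; exact Nat.lt_succ_self m)
    push Not at h1
    rw [ht']; exact h1
  have hTW' := hTW t' ht'P ht'p ht'ne
  have ht'π : ‖t' π - π‖ ≤ ‖t π - π‖ := by rw [ht']; exact h47_norm_pow_sub_le p t π _
  -- the product over the `P`-conjugates
  have hF0 : ∀ x : Ω, 0 ≤ max ‖t' π - π‖ ‖x - π‖ := fun x => le_max_of_le_left (norm_nonneg _)
  have hprodP : ∏ x ∈ CP, max ‖t' π - π‖ ‖x - π‖ ≤ δ ^ p := by
    rw [hCPimg, Finset.prod_image hΦinj, Finset.prod_product]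
    calc ∏ j ∈ Finset.range p, ∏ a ∈ A, max ‖t' π - π‖ ‖(t ^ j) a - π‖
        ≤ ∏ j ∈ Finset.range p, δ := by
          refine Finset.prod_le_prod (fun j _ => Finset.prod_nonneg (fun a _ => hF0 _))
            (fun j _ => ?_)
          refine le_trans (Finset.prod_le_prod (fun a _ => hF0 _) (fun a ha => ?_)) hstar
          refine max_le (le_max_of_le_left ht'π) ?_
          have e1 : (t ^ j) a - π = (t ^ j) (a - π) + ((t ^ j) π - π) := by rw [map_sub]; ring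
          rw [e1]
          refine le_trans (IsUltrametricDist.norm_add_le_max _ _) (max_le ?_ ?_)
          · rw [h78_norm_aut]; exact le_max_right _ _
          · exact le_max_of_le_left (h47_norm_pow_sub_le p t π j)
      _ = δ ^ p := by rw [Finset.prod_const, Finset.card_range]
  -- the `J`-conjugates outside `P`
  obtain ⟨CJ, hCJ⟩ : ∃ CJ, CJ = h78_conj p (h78_J p L) π := ⟨_, rfl⟩
  rw [← hCJ] at hcardJ
  have hCJmem : ∀ x, x ∈ CJ ↔ ∃ g ∈ h78_J p L, g π = x := by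
    intro x; rw [hCJ]; exact h47_mem_conj p _ π x
  have hsub : CP ⊆ CJ := by
    intro x hx
    obtain ⟨g, hg, rfl⟩ := (hCPmem x).1 hx
    exact (hCJmem _).2 ⟨g, ((memP g).1 hg).1, rfl⟩
  have hsOf : h78_sOf p L π t' =
      ‖π‖ ^ (CJ.card - CP.card) * ∏ x ∈ CP, max ‖t' π - π‖ ‖x - π‖ := by
    unfold h78_sOf
    rw [← hCJ, ← Finset.prod_sdiff hsub]
    congr 1
    rw [← Finset.card_sdiff_of_subset hsub, ← Finset.prod_const]
    refine Finset.prod_congr rfl (fun x hx => ?_)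
    obtain ⟨hxJ, hxP⟩ := Finset.mem_sdiff.1 hx
    obtain ⟨g, hg, rfl⟩ := (hCJmem x).1 hxJ
    have h1 : ¬ ‖g π - π‖ < ‖π‖ := fun hlt =>
      hxP ((hCPmem _).2 ⟨g, (memP g).2 ⟨hg, Or.inr hlt⟩, rfl⟩)
    have h2 : ‖g π - π‖ ≤ ‖π‖ := by
      rw [sub_eq_add_neg]
      refine le_trans (IsUltrametricDist.norm_add_le_max _ _) (max_le ?_ ?_)
      · rw [h78_norm_aut]
      · rw [norm_neg]
    have h3 : ‖g π - π‖ = ‖π‖ := le_antisymm h2 (not_lt.1 h1)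
    rw [h3]
    exact max_eq_right (hPlt t' ht'P).le
  -- final arithmetic
  have hcardle : CP.card ≤ CJ.card := Finset.card_le_card hsub
  obtain ⟨y, hy⟩ : ∃ y, y = ‖π‖ ^ (CJ.card - CP.card) := ⟨_, rfl⟩
  have hypos : 0 < y := by rw [hy]; exact pow_pos hπpos _
  have hyM : y * ‖πM‖ = (p : ℝ)⁻¹ := by
    rw [hy, ← hcardP, ← pow_add, Nat.sub_add_cancel hcardle, hcardJ]
  have hQ0 : 0 ≤ ∏ x ∈ CP, max ‖t' π - π‖ ‖x - π‖ := Finset.prod_nonneg (fun x _ => hF0 x)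
  have hppos : (0 : ℝ) < p := Nat.cast_pos.2 hp.pos
  rw [hsOf, ← hy] at hTW'
  have h1 : (1 : ℝ) ≤ (p : ℝ) ^ p * (y * δ ^ p) ^ (p - 1) :=
    le_trans hTW' (mul_le_mul_of_nonneg_left
      (pow_le_pow_left₀ (mul_nonneg hypos.le hQ0) (mul_le_mul_of_nonneg_left hprodP hypos.le) _)
      (pow_nonneg hppos.le _))
  have hπM0 : 0 ≤ ‖πM‖ := norm_nonneg _
  calc ‖πM‖ ^ (p - 1) = ‖πM‖ ^ (p - 1) * 1 := (mul_one _).symm
    _ ≤ ‖πM‖ ^ (p - 1) * ((p : ℝ) ^ p * (y * δ ^ p) ^ (p - 1)) :=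
        mul_le_mul_of_nonneg_left h1 (pow_nonneg hπM0 _)
    _ = (p : ℝ) ^ p * (y * ‖πM‖) ^ (p - 1) * δ ^ (p * (p - 1)) := by
        rw [mul_pow, mul_pow, pow_mul]; ring
    _ = p * δ ^ (p * (p - 1)) := by
        rw [hyM, inv_pow]
        congr 1
        have h2 : (p : ℝ) ^ p = p * (p : ℝ) ^ (p - 1) := by
          rw [← pow_succ', Nat.sub_add_cancel hp.one_le]
        rw [h2, mul_assoc, mul_inv_cancel₀ (pow_ne_zero _ hppos.ne'), mul_one]

/-- `π` generates `L` over `K₀(L)`: an element of `J_L` fixing `π` fixes `L` pointwise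
(from the expansion row B4a and the unramifiedness of `K₀(L)`, B3b, taken as hypotheses). -/
theorem h47_fix_of_fix_unif (L : Fld) (π : Ω)
    (hnormp : ‖(p : Ω)‖ = (p : ℝ)⁻¹)
    (hunram : ∀ c ∈ h78_K0 p L, c ≠ 0 → ∃ n : ℤ, ‖c‖ = (p : ℝ) ^ n)
    (hcardJ : ‖π‖ ^ (h78_conj p (h78_J p L) π).card = (p : ℝ)⁻¹)
    (hexp : ∀ π₀ : Ω, h78_IsUnif p (h78_K0 p L) π₀ → ∀ j : ℕ, ‖π₀‖ = ‖π‖ ^ j → ∀ z ∈ L,
      ∃ c : Fin j → Ω, (∀ i, c i ∈ h78_K0 p L) ∧ z = ∑ i, c i * π ^ (i : ℕ) ∧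
        ∀ i, ‖c i * π ^ (i : ℕ)‖ ≤ ‖z‖)
    (g : h78_G p) (hg : g ∈ h78_J p L) (hgπ : g π = π) (z : Ω) (hz : z ∈ L) : g z = z := by
  have hp : p.Prime := Fact.out
  have hunif : h78_IsUnif p (h78_K0 p L) (p : Ω) := by
    refine ⟨natCast_mem _ p, ?_, ?_, ?_⟩
    · exact Nat.cast_ne_zero.2 hp.ne_zero
    · rw [hnormp]
      exact inv_lt_one_of_one_lt₀ (by exact_mod_cast hp.one_lt)
    · intro x hx hx0
      obtain ⟨n, hn⟩ := hunram x hx hx0
      refine ⟨-n, ?_⟩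
      rw [hn, hnormp, inv_zpow, ← zpow_neg, neg_neg]
  obtain ⟨c, hc, hzc, -⟩ := hexp (p : Ω) hunif _ (by rw [hnormp, hcardJ]) z hz
  have hgc : ∀ i, g (c i) = c i := fun i =>
    (IntermediateField.mem_fixingSubgroup_iff _ g).1 hg (c i) (hc i)
  rw [hzc, map_sum]
  refine Finset.sum_congr rfl (fun i _ => ?_)
  rw [map_mul, map_pow, hgc, hgπ]

/-- **Herbrand-lite** with the rows TW, B0.1, B3b, B4a, B4b, B6a, B6b as hypotheses
(in the shapes of the W3 row statements). -/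
theorem h47_herbrand_lite_of {H : Type} [CommRing H] [Algebra (h78_Zp p) H]
    (L : Fld) (hL : h78_Stable p L) (π πM : Ω) (hπ : h78_IsUnif p L π)
    (hfaith : ∀ g ∈ h78_P p L π, (∀ (γ : H →ₐ[h78_Zp p] Ω) (h : H), g (γ h) = γ h) →
      ∀ z ∈ L, g z = z)
    (hnormp : ‖(p : Ω)‖ = (p : ℝ)⁻¹)
    (hunram : ∀ c ∈ h78_K0 p L, c ≠ 0 → ∃ n : ℤ, ‖c‖ = (p : ℝ) ^ n)
    (hexp : ∀ π₀ : Ω, h78_IsUnif p (h78_K0 p L) π₀ → ∀ j : ℕ, ‖π₀‖ = ‖π‖ ^ j → ∀ z ∈ L,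
      ∃ c : Fin j → Ω, (∀ i, c i ∈ h78_K0 p L) ∧ z = ∑ i, c i * π ^ (i : ℕ) ∧
        ∀ i, ‖c i * π ^ (i : ℕ)‖ ≤ ‖z‖)
    (hcardJ : ‖π‖ ^ (h78_conj p (h78_J p L) π).card = (p : ℝ)⁻¹)
    (hcardP : ‖π‖ ^ (h78_conj p (h78_P p L π) π).card = ‖πM‖)
    (hpgrp : ∀ g ∈ h78_P p L π, ∃ n : ℕ, ∀ z ∈ L, (g ^ (p ^ n)) z = z)
    (hTW : ∀ t ∈ h78_P p L π, (∀ z ∈ L, (t ^ p) z = z) →
      ∀ (γ : H →ₐ[h78_Zp p] Ω) (h₀ : H), t (γ h₀) ≠ γ h₀ →
        1 ≤ (p : ℝ) ^ p * h78_sOf p L π t ^ (p - 1))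
    (α : Ω) (hαL : α ∈ L) (hαp : α ^ p ∈ h78_M p L π)
    (s : h78_G p) (hs : s ∈ h78_P p L π) (hsα : s α ≠ α) :
    ∃ c ∈ L, ‖c‖ ≤ 1 ∧ (∀ g ∈ h78_P p L π, g α = α → g c = c) ∧
      ‖πM‖ ^ (p - 1) ≤ p * ‖s c - c‖ ^ (p * (p - 1)) := by
  refine h47_herbrand_core p L hL π πM hπ hcardJ hcardP hpgrp α hαL hαp ?_ ?_ s hs hsα
  · intro g hg hgπ
    have hgJ : g ∈ h78_J p L := hg.1
    exact h47_fix_of_fix_unif p L π hnormp hunram hcardJ hexp g hgJ hgπ α hαL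
  · rintro t ht htp ⟨z, hz, hne⟩
    by_contra hcon
    apply hne
    refine hfaith t ht (fun γ h => ?_) z hz
    by_contra hne'
    exact hcon (hTW t ht htp γ h hne')

end Fermat.Agent.S56
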