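import Mathlib
import Fermat.Agent.S56.h5_KumBasic

/-!
# S56 / W3-D1 : the Kummer normal form

`F` a subfield of `Ω = PadicAlgCl p` with a uniformizer and perfect residue field (in norm form).
Every `u ∈ F^×` is, up to `p`-th powers of `F`, either `≡ 1 mod p` (`u ∈ 𝒰(F)`) or in Kummer
normal form `h78_NF` (`h5_normal_form` = `sk_normal_form` of the W3 skeleton, verbatim).
-/

set_option autoImplicit false

namespace Fermat.Agent.S56

variable (p : ℕ) [Fact p.Prime]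

local notation "Ω" => PadicAlgCl p
local notation "Fld" => IntermediateField ℚ_[p] (PadicAlgCl p)

/-- the conclusion of the normal form, in a shape stable under `p`-th powers. -/
def h5_NFc (F : Fld) (v : Ω) : Prop :=
  (∃ w ∈ F, w ≠ 0 ∧ ‖v * w ^ p - 1‖ ≤ (p : ℝ)⁻¹) ∨ ∃ w ∈ F, w ≠ 0 ∧ h78_NF p F (v * w ^ p)

theorem h5_NFc_of_mul (F : Fld) (v t : Ω) (ht : t ∈ F) (ht0 : t ≠ 0)
    (h : h5_NFc p F (v * t ^ p)) : h5_NFc p F v := by
  rcases h with ⟨w, hw, hw0, h⟩ | ⟨w, hw, hw0, h⟩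
  · exact Or.inl ⟨t * w, F.mul_mem ht hw, mul_ne_zero ht0 hw0, by rwa [mul_pow, ← mul_assoc]⟩
  · exact Or.inr ⟨t * w, F.mul_mem ht hw, mul_ne_zero ht0 hw0, by rwa [mul_pow, ← mul_assoc]⟩

/-- the improvement loop: `‖v - 1‖ < 1` and `‖v - 1‖ ‖π‖^d ≤ p⁻¹`. -/
theorem h5_nf_loop (F : Fld) (πF : Ω) (hπF : h78_IsUnif p F πF)
    (hres : ∀ x ∈ F, ‖x‖ ≤ 1 → ∃ w ∈ F, ‖w‖ ≤ 1 ∧ ‖x - w ^ p‖ < 1) (d : ℕ) :
    ∀ v ∈ F, ‖v - 1‖ < 1 → ‖v - 1‖ * ‖πF‖ ^ d ≤ (p : ℝ)⁻¹ → h5_NFc p F v := by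
  obtain ⟨hπmem, hπ0, hπ1, hval⟩ := hπF
  have hp : p.Prime := Fact.out
  have hr0 : 0 < ‖πF‖ := norm_pos_iff.2 hπ0
  have hpi : 0 ≤ (p : ℝ)⁻¹ := inv_nonneg.2 (h5_p_pos p).le
  induction d with
  | zero =>
    intro v hv hv1 hd
    rw [pow_zero, mul_one] at hd
    exact Or.inl ⟨1, F.one_mem, one_ne_zero, by simpa using hd⟩
  | succ d ih =>
    intro v hv hv1 hd
    by_cases hsmall : ‖v - 1‖ ≤ (p : ℝ)⁻¹
    · exact Or.inl ⟨1, F.one_mem, one_ne_zero, by simpa using hsmall⟩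
    rw [not_le] at hsmall
    have hxF : v - 1 ∈ F := F.sub_mem hv F.one_mem
    have hx0 : v - 1 ≠ 0 := by
      intro h0
      rw [h0, norm_zero] at hsmall
      exact absurd hsmall (not_lt.2 hpi)
    obtain ⟨j, hj⟩ := hval (v - 1) hxF hx0
    have hjpos : 0 < j := by
      have h1 : ‖πF‖ ^ j < ‖πF‖ ^ (0 : ℤ) := by
        rw [← hj, zpow_zero]
        exact hv1
      exact h5_zpow_lt hr0 hπ1 h1
    by_cases hpj : (p : ℤ) ∣ j
    · -- `p ∣ j` : improve `v` by a `p`-th power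
      obtain ⟨i, hi⟩ := hpj
      have hipos : 0 < i := by
        have hp0 : (0 : ℤ) < p := by exact_mod_cast hp.pos
        by_contra hneg
        rw [not_lt] at hneg
        have h1 : j ≤ 0 := by
          rw [hi]
          exact mul_nonpos_of_nonneg_of_nonpos hp0.le hneg
        omega
      have hri1 : ‖πF‖ ^ i < 1 := by
        have h1 : ‖πF‖ ^ i < ‖πF‖ ^ (0 : ℤ) :=
          (zpow_lt_zpow_iff_right_of_lt_one₀ hr0 hπ1).2 hipos
        rwa [zpow_zero] at h1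
      have hri0 : 0 < ‖πF‖ ^ i := zpow_pos hr0 i
      have hπF' : ∀ n : ℤ, πF ^ n ∈ F := fun n => zpow_mem hπmem n
      -- the unit part of `x = v - 1`
      have hyF : (v - 1) * πF ^ (-j) ∈ F := F.mul_mem hxF (hπF' _)
      have hyn : ‖(v - 1) * πF ^ (-j)‖ = 1 := by
        rw [norm_mul, norm_zpow, hj, ← zpow_add₀ hr0.ne', add_neg_cancel, zpow_zero]
      obtain ⟨w0, hw0F, hw0n, hw0⟩ := hres (-((v - 1) * πF ^ (-j))) (F.neg_mem hyF)
        (by rw [norm_neg, hyn])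
      have hbF : w0 * πF ^ i ∈ F := F.mul_mem hw0F (hπF' _)
      have hbn : ‖w0 * πF ^ i‖ ≤ ‖πF‖ ^ i := by
        rw [norm_mul, norm_zpow]
        exact mul_le_of_le_one_left hri0.le hw0n
      have hbn1 : ‖w0 * πF ^ i‖ ≤ 1 := hbn.trans hri1.le
      have hbp : (w0 * πF ^ i) ^ p = w0 ^ p * πF ^ j := by
        rw [mul_pow, hi, mul_comm (p : ℤ) i, zpow_mul, zpow_natCast]
      -- (1) `x + b^p` is smaller than `x`
      have h1 : ‖(v - 1) + (w0 * πF ^ i) ^ p‖ < ‖πF‖ ^ j := by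
        have e : (v - 1) + (w0 * πF ^ i) ^ p
            = -((-((v - 1) * πF ^ (-j)) - w0 ^ p) * πF ^ j) := by
          rw [hbp]
          have : πF ^ (-j) * πF ^ j = 1 := by
            rw [← zpow_add₀ hπ0, neg_add_cancel, zpow_zero]
          linear_combination (-(v - 1)) * this
        rw [e, norm_neg, norm_mul, norm_zpow]
        calc ‖-((v - 1) * πF ^ (-j)) - w0 ^ p‖ * ‖πF‖ ^ j < 1 * ‖πF‖ ^ j :=
              mul_lt_mul_of_pos_right hw0 (zpow_pos hr0 j)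
          _ = ‖πF‖ ^ j := one_mul _
      -- (2) the binomial error
      have h2 := h5_binom_one p (w0 * πF ^ i) hbn1
      have h2' : ‖(1 + w0 * πF ^ i) ^ p - 1 - (w0 * πF ^ i) ^ p‖ < ‖πF‖ ^ j := by
        refine lt_of_le_of_lt h2 ?_
        calc (p : ℝ)⁻¹ * ‖w0 * πF ^ i‖ ≤ (p : ℝ)⁻¹ * ‖πF‖ ^ i :=
              mul_le_mul_of_nonneg_left hbn hpi
          _ < ‖πF‖ ^ j * ‖πF‖ ^ i := by
              rw [← hj]
              exact mul_lt_mul_of_pos_right hsmall hri0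
          _ ≤ ‖πF‖ ^ j * 1 := mul_le_mul_of_nonneg_left hri1.le (zpow_pos hr0 j).le
          _ = ‖πF‖ ^ j := mul_one _
      have hrj1 : ‖πF‖ ^ j < 1 := by rw [← hj]; exact hv1
      -- (3) the cross term
      have h3 : ‖(w0 * πF ^ i) ^ p + ((1 + w0 * πF ^ i) ^ p - 1 - (w0 * πF ^ i) ^ p)‖ < 1 := by
        refine lt_of_le_of_lt (IsUltrametricDist.norm_add_le_max _ _) (max_lt ?_ (h2'.trans hrj1))
        rw [norm_pow]
        calc ‖w0 * πF ^ i‖ ^ p ≤ ‖w0 * πF ^ i‖ ^ 1 :=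
              pow_le_pow_of_le_one (norm_nonneg _) hbn1 hp.one_le
          _ = ‖w0 * πF ^ i‖ := pow_one _
          _ < 1 := lt_of_le_of_lt hbn hri1
      -- the new element
      have htF : 1 + w0 * πF ^ i ∈ F := F.add_mem F.one_mem hbF
      have ht0 : 1 + w0 * πF ^ i ≠ 0 := by
        intro h0
        have h4 : w0 * πF ^ i = -1 := by linear_combination h0
        have h5 : ‖w0 * πF ^ i‖ = 1 := by rw [h4, norm_neg, norm_one]
        have := lt_of_le_of_lt hbn hri1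
        linarith
      have hv'F : v * (1 + w0 * πF ^ i) ^ p ∈ F := F.mul_mem hv (pow_mem htF p)
      have hnew : ‖v * (1 + w0 * πF ^ i) ^ p - 1‖ < ‖πF‖ ^ j := by
        have e : v * (1 + w0 * πF ^ i) ^ p - 1
            = ((v - 1) + (w0 * πF ^ i) ^ p)
              + (((1 + w0 * πF ^ i) ^ p - 1 - (w0 * πF ^ i) ^ p)
              + (v - 1) * ((w0 * πF ^ i) ^ p
                  + ((1 + w0 * πF ^ i) ^ p - 1 - (w0 * πF ^ i) ^ p))) := by ring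
        rw [e]
        refine lt_of_le_of_lt (IsUltrametricDist.norm_add_le_max _ _) (max_lt h1 ?_)
        refine lt_of_le_of_lt (IsUltrametricDist.norm_add_le_max _ _) (max_lt h2' ?_)
        rw [norm_mul, hj]
        calc ‖πF‖ ^ j * ‖(w0 * πF ^ i) ^ p + ((1 + w0 * πF ^ i) ^ p - 1 - (w0 * πF ^ i) ^ p)‖
            < ‖πF‖ ^ j * 1 := mul_lt_mul_of_pos_left h3 (zpow_pos hr0 j)
          _ = ‖πF‖ ^ j := mul_one _
      have hnew1 : ‖v * (1 + w0 * πF ^ i) ^ p - 1‖ < 1 := hnew.trans hrj1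
      have hnewd : ‖v * (1 + w0 * πF ^ i) ^ p - 1‖ * ‖πF‖ ^ d ≤ (p : ℝ)⁻¹ := by
        have hstep : ‖v * (1 + w0 * πF ^ i) ^ p - 1‖ ≤ ‖πF‖ ^ j * ‖πF‖ := by
          by_cases h0 : v * (1 + w0 * πF ^ i) ^ p - 1 = 0
          · rw [h0, norm_zero]
            exact (mul_pos (zpow_pos hr0 j) hr0).le
          · obtain ⟨j', hj'⟩ := hval _ (F.sub_mem hv'F F.one_mem) h0
            rw [hj'] at hnew ⊢
            have hlt : j < j' := h5_zpow_lt hr0 hπ1 hnew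
            have h6 : ‖πF‖ ^ j' ≤ ‖πF‖ ^ (j + 1) :=
              (zpow_le_zpow_iff_right_of_lt_one₀ hr0 hπ1).2 (by omega)
            rwa [zpow_add_one₀ hr0.ne'] at h6
        calc ‖v * (1 + w0 * πF ^ i) ^ p - 1‖ * ‖πF‖ ^ d
            ≤ ‖πF‖ ^ j * ‖πF‖ * ‖πF‖ ^ d :=
              mul_le_mul_of_nonneg_right hstep (pow_nonneg hr0.le d)
          _ = ‖v - 1‖ * ‖πF‖ ^ (d + 1) := by rw [hj, pow_succ]; ring
          _ ≤ (p : ℝ)⁻¹ := hd
      exact h5_NFc_of_mul p F v _ htF ht0 (ih _ hv'F hnew1 hnewd)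
    · -- `p ∤ j` : normal form (b)
      refine Or.inr ⟨1, F.one_mem, one_ne_zero, Or.inr ⟨by simpa using hsmall, by simpa using hv1,
        fun z hz hz0 h => hpj ?_⟩⟩
      obtain ⟨a, ha⟩ := hval z hz hz0
      have h1 : ‖πF‖ ^ j = ‖πF‖ ^ (a * (p : ℤ)) := by
        rw [← hj, zpow_mul, zpow_natCast, ← ha]
        simpa using h
      exact ⟨a, by rw [h5_zpow_inj hr0 hπ1 h1, mul_comm]⟩

/-- **W3-D1, normal form** (`sk_normal_form` verbatim). -/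
theorem h5_normal_form (F : Fld) (πF : Ω) (hπF : h78_IsUnif p F πF)
    (hres : ∀ x ∈ F, ‖x‖ ≤ 1 → ∃ w ∈ F, ‖w‖ ≤ 1 ∧ ‖x - w ^ p‖ < 1)
    (u : Ω) (hu : u ∈ F) (hu0 : u ≠ 0) :
    u ∈ h78_U p F ∨ ∃ w ∈ F, w ≠ 0 ∧ h78_NF p F (u * w ^ p) := by
  have hp : p.Prime := Fact.out
  have hloop := h5_nf_loop p F πF hπF hres
  obtain ⟨hπmem, hπ0, hπ1, hval⟩ := hπF
  have hr0 : 0 < ‖πF‖ := norm_pos_iff.2 hπ0
  obtain ⟨n, hn⟩ := hval u hu hu0
  by_cases hpn : (p : ℤ) ∣ n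
  · obtain ⟨a, ha⟩ := hpn
    have hw1F : πF ^ (-a) ∈ F := zpow_mem hπmem _
    have hw10 : πF ^ (-a) ≠ 0 := zpow_ne_zero _ hπ0
    have hu1F : u * (πF ^ (-a)) ^ p ∈ F := F.mul_mem hu (pow_mem hw1F p)
    have hu1n : ‖u * (πF ^ (-a)) ^ p‖ = 1 := by
      rw [norm_mul, norm_pow, norm_zpow, hn, ← zpow_natCast, ← zpow_mul, ← zpow_add₀ hr0.ne', ha]
      have : (p : ℤ) * a + -a * (p : ℤ) = 0 := by ring
      rw [this, zpow_zero]
    obtain ⟨w2, hw2F, hw2n, hw2⟩ := hres _ hu1F hu1n.le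
    have hw2p : ‖w2‖ ^ p = 1 := by
      refine le_antisymm (pow_le_one₀ (norm_nonneg _) hw2n) ?_
      by_contra hlt
      rw [not_le] at hlt
      have h1 : ‖u * (πF ^ (-a)) ^ p‖ < 1 := by
        have e : u * (πF ^ (-a)) ^ p = (u * (πF ^ (-a)) ^ p - w2 ^ p) + w2 ^ p := by ring
        rw [e]
        refine lt_of_le_of_lt (IsUltrametricDist.norm_add_le_max _ _) (max_lt hw2 ?_)
        rwa [norm_pow]
      rw [hu1n] at h1
      exact lt_irrefl _ h1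
    have hw20 : w2 ≠ 0 := by
      intro h0
      rw [h0, norm_zero, zero_pow hp.ne_zero] at hw2p
      exact zero_ne_one hw2p
    have hw2iF : w2⁻¹ ∈ F := F.inv_mem hw2F
    have hu2F : u * (πF ^ (-a)) ^ p * (w2⁻¹) ^ p ∈ F := F.mul_mem hu1F (pow_mem hw2iF p)
    have hu2n : ‖u * (πF ^ (-a)) ^ p * (w2⁻¹) ^ p - 1‖ < 1 := by
      have e : u * (πF ^ (-a)) ^ p * (w2⁻¹) ^ p - 1
          = (u * (πF ^ (-a)) ^ p - w2 ^ p) * (w2⁻¹) ^ p := by
        have h1 : w2 ^ p * (w2⁻¹) ^ p = 1 := by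
          rw [← mul_pow, mul_inv_cancel₀ hw20, one_pow]
        linear_combination h1
      rw [e, norm_mul, norm_pow, norm_inv, inv_pow, hw2p, inv_one, mul_one]
      exact hw2
    obtain ⟨d, hd⟩ := exists_pow_lt_of_lt_one (inv_pos.2 (h5_p_pos p)) hπ1
    have hd' : ‖u * (πF ^ (-a)) ^ p * (w2⁻¹) ^ p - 1‖ * ‖πF‖ ^ d ≤ (p : ℝ)⁻¹ := by
      calc ‖u * (πF ^ (-a)) ^ p * (w2⁻¹) ^ p - 1‖ * ‖πF‖ ^ d ≤ 1 * ‖πF‖ ^ d :=
            mul_le_mul_of_nonneg_right hu2n.le (pow_nonneg hr0.le d)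
        _ = ‖πF‖ ^ d := one_mul _
        _ ≤ (p : ℝ)⁻¹ := hd.le
    have h2 := hloop d _ hu2F hu2n hd'
    have h1 := h5_NFc_of_mul p F _ _ hw2iF (inv_ne_zero hw20) h2
    have h0 := h5_NFc_of_mul p F _ _ hw1F hw10 h1
    rcases h0 with ⟨w, hw, hw0, h⟩ | ⟨w, hw, hw0, h⟩
    · exact Or.inl ⟨hu, hu0, w, hw, hw0, h⟩
    · exact Or.inr ⟨w, hw, hw0, h⟩
  · -- normal form (a)
    refine Or.inr ⟨1, F.one_mem, one_ne_zero, Or.inl fun z hz hz0 h => hpn ?_⟩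
    obtain ⟨a, ha⟩ := hval z hz hz0
    have h1 : ‖πF‖ ^ n = ‖πF‖ ^ (a * (p : ℤ)) := by
      rw [← hn, zpow_mul, zpow_natCast, ← ha]
      simpa using h
    exact ⟨a, by rw [h5_zpow_inj hr0 hπ1 h1, mul_comm]⟩

end Fermat.Agent.S56
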