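import Mathlib
import Fermat.Agent.S56.h94_Unif

/-!
# S56 / W3-B2 : the residue field of a finite extension of `ℚ_p` inside `Ω = PadicAlgCl p`

For `E : IntermediateField ℚ_[p] Ω` finite over `ℚ_p`:

* `h94_O p E : Subring Ω` (the valuation ring), `h94_m p E : Ideal (h94_O p E)` (the maximal
  ideal), `h94_k p E` (the residue field): a finite field of characteristic `p`;
* `h94_isCompact_ball` : the closed unit ball of `E` is compact; `h94_isClosed` (= B0.4);
* `h94_exists_pth_root_mod`, `h94_exists_frob_fix`, `h94_exists_not_AS` (= row statements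
  `sk_exists_pth_root_mod`, `sk_exists_frob_fix`, `sk_exists_not_AS`).
-/

set_option autoImplicit false

namespace Fermat.Agent.S56

variable (p : ℕ) [Fact p.Prime]

local notation "Ω" => PadicAlgCl p
local notation "Fld" => IntermediateField ℚ_[p] (PadicAlgCl p)

/-- the valuation ring of `E` -/
def h94_O (E : Fld) : Subring Ω where
  carrier := {x | x ∈ E ∧ ‖x‖ ≤ 1}
  mul_mem' := by
    rintro a b ⟨ha, ha'⟩ ⟨hb, hb'⟩
    exact ⟨E.mul_mem ha hb, by rw [norm_mul]; exact mul_le_one₀ ha' (norm_nonneg _) hb'⟩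
  one_mem' := ⟨E.one_mem, by rw [norm_one]⟩
  add_mem' := by
    rintro a b ⟨ha, ha'⟩ ⟨hb, hb'⟩
    exact ⟨E.add_mem ha hb, (IsUltrametricDist.norm_add_le_max _ _).trans (max_le ha' hb')⟩
  zero_mem' := ⟨E.zero_mem, by rw [norm_zero]; exact zero_le_one⟩
  neg_mem' := by
    rintro a ⟨ha, ha'⟩
    exact ⟨E.neg_mem ha, by rw [norm_neg]; exact ha'⟩

theorem h94_mem_O {E : Fld} {x : Ω} : x ∈ h94_O p E ↔ x ∈ E ∧ ‖x‖ ≤ 1 := Iff.rfl

/-- the maximal ideal of the valuation ring of `E` -/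
def h94_m (E : Fld) : Ideal (h94_O p E) where
  carrier := {x | ‖(x : Ω)‖ < 1}
  add_mem' := by
    intro a b ha hb
    exact lt_of_le_of_lt (IsUltrametricDist.norm_add_le_max _ _) (max_lt ha hb)
  zero_mem' := by
    show ‖((0 : h94_O p E) : Ω)‖ < 1
    simp
  smul_mem' := by
    intro c x hx
    show ‖((c * x : h94_O p E) : Ω)‖ < 1
    rw [Subring.coe_mul, norm_mul]
    exact mul_lt_one_of_nonneg_of_lt_one_right c.2.2 (norm_nonneg _) hx

theorem h94_mem_m {E : Fld} {x : h94_O p E} : x ∈ h94_m p E ↔ ‖(x : Ω)‖ < 1 := Iff.rfl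

instance h94_m_isMaximal (E : Fld) : (h94_m p E).IsMaximal := by
  rw [Ideal.isMaximal_iff]
  refine ⟨?_, ?_⟩
  · show ¬ ‖((1 : h94_O p E) : Ω)‖ < 1
    simp
  · intro J x _ hxI hxJ
    have hx1 : ‖(x : Ω)‖ = 1 := le_antisymm x.2.2 (not_lt.mp hxI)
    have hx0 : (x : Ω) ≠ 0 := by
      intro h
      rw [h, norm_zero] at hx1
      exact zero_ne_one hx1
    have hinv : (x : Ω)⁻¹ ∈ h94_O p E := ⟨E.inv_mem x.2.1, by rw [norm_inv, hx1, inv_one]⟩
    have h1 : (1 : h94_O p E) = x * ⟨(x : Ω)⁻¹, hinv⟩ := by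
      apply Subtype.ext
      rw [Subring.coe_mul, Subring.coe_one]
      exact (mul_inv_cancel₀ hx0).symm
    rw [h1]
    exact J.mul_mem_right _ hxJ

/-- the residue field of `E` -/
abbrev h94_k (E : Fld) : Type := h94_O p E ⧸ h94_m p E

noncomputable instance h94_k_field (E : Fld) : Field (h94_k p E) := Ideal.Quotient.field _

theorem h94_mk_eq_iff {E : Fld} (a b : h94_O p E) :
    Ideal.Quotient.mk (h94_m p E) a = Ideal.Quotient.mk (h94_m p E) b ↔ ‖(a : Ω) - b‖ < 1 := by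
  rw [Ideal.Quotient.eq]
  rfl

/-- the closed unit ball of a finite extension of `ℚ_p` is compact -/
theorem h94_isCompact_ball (E : Fld) [FiniteDimensional ℚ_[p] E] :
    IsCompact {x : Ω | x ∈ E ∧ ‖x‖ ≤ 1} := by
  haveI : ProperSpace E := FiniteDimensional.proper ℚ_[p] E
  have h1 : IsCompact (Metric.closedBall (0 : E) 1) := isCompact_closedBall 0 1
  have h2 := h1.image (continuous_subtype_val (p := fun x : Ω => x ∈ E))
  convert h2 using 1
  ext x
  constructor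
  · rintro ⟨hx, hr⟩
    exact ⟨⟨x, hx⟩, by simpa [Metric.mem_closedBall, dist_zero_right] using hr, rfl⟩
  · rintro ⟨⟨y, hy⟩, hr, rfl⟩
    exact ⟨hy, by simpa [Metric.mem_closedBall, dist_zero_right] using hr⟩

/-- (= B0.4) a finite extension of `ℚ_p` is closed in `Ω` -/
theorem h94_isClosed (E : Fld) [FiniteDimensional ℚ_[p] E] : IsClosed (E : Set Ω) :=
  Submodule.closed_of_finiteDimensional (E.toSubalgebra.toSubmodule)

instance h94_k_finite (E : Fld) [FiniteDimensional ℚ_[p] E] : Finite (h94_k p E) := by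
  obtain ⟨t, htK, htfin, hcov⟩ :=
    (h94_isCompact_ball p E).finite_cover_balls (e := 1) zero_lt_one
  let φ : t → h94_k p E := fun x => Ideal.Quotient.mk _ ⟨x.1, htK x.2⟩
  haveI : Finite t := htfin
  refine Finite.of_surjective φ ?_
  intro y
  obtain ⟨u, rfl⟩ := Ideal.Quotient.mk_surjective y
  have hu : (u : Ω) ∈ {x : Ω | x ∈ E ∧ ‖x‖ ≤ 1} := u.2
  have h3 := hcov hu
  simp only [Set.mem_iUnion, Metric.mem_ball, exists_prop] at h3
  obtain ⟨x, hxt, hdist⟩ := h3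
  refine ⟨⟨x, hxt⟩, ?_⟩
  show Ideal.Quotient.mk _ (⟨x, htK hxt⟩ : h94_O p E) = Ideal.Quotient.mk _ u
  rw [h94_mk_eq_iff, ← dist_eq_norm, dist_comm]
  exact hdist

instance h94_k_charP (E : Fld) : CharP (h94_k p E) p := by
  rw [CharP.charP_iff_prime_eq_zero (Fact.out : p.Prime)]
  rw [← map_natCast (Ideal.Quotient.mk (h94_m p E)) p, Ideal.Quotient.eq_zero_iff_mem]
  show ‖((p : h94_O p E) : Ω)‖ < 1
  rw [Subring.coe_natCast, h94_norm_p]
  exact inv_lt_one_of_one_lt₀ (h94_one_lt_p p)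

/-- **W3-B2.1** the residue field is perfect. -/
theorem h94_exists_pth_root_mod (E : Fld) [FiniteDimensional ℚ_[p] E] (u : Ω) (hu : u ∈ E)
    (hu1 : ‖u‖ ≤ 1) : ∃ w ∈ E, ‖w‖ ≤ 1 ∧ ‖u - w ^ p‖ < 1 := by
  have hsurj : Function.Surjective (frobenius (h94_k p E) p) :=
    surjective_frobenius (h94_k p E) p
  obtain ⟨w', hw'⟩ := hsurj (Ideal.Quotient.mk _ ⟨u, hu, hu1⟩)
  obtain ⟨w, rfl⟩ := Ideal.Quotient.mk_surjective w'
  refine ⟨w, w.2.1, w.2.2, ?_⟩
  rw [frobenius_def, ← map_pow, h94_mk_eq_iff] at hw'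
  rw [← norm_neg, neg_sub]
  simpa using hw'

/-- **W3-B2.2** some power of Frobenius is the identity on the residue field. -/
theorem h94_exists_frob_fix (E : Fld) [FiniteDimensional ℚ_[p] E] :
    ∃ f : ℕ, 0 < f ∧ ∀ u ∈ E, ‖u‖ ≤ 1 → ‖u ^ (p ^ f) - u‖ < 1 := by
  haveI : Fintype (h94_k p E) := Fintype.ofFinite _
  obtain ⟨n, -, hn⟩ := FiniteField.card (h94_k p E) p
  refine ⟨n, n.pos, fun u hu hu1 => ?_⟩
  have h := FiniteField.pow_card (Ideal.Quotient.mk (h94_m p E) ⟨u, hu, hu1⟩)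
  rw [hn, ← map_pow, h94_mk_eq_iff] at h
  simpa using h

/-- **W3-B2.3** Artin–Schreier is not surjective on the residue field. -/
theorem h94_exists_not_AS (E : Fld) [FiniteDimensional ℚ_[p] E] :
    ∃ c ∈ E, ‖c‖ ≤ 1 ∧ ∀ x ∈ E, ‖x‖ ≤ 1 → ¬ ‖x ^ p - x - c‖ < 1 := by
  let ψ : h94_k p E → h94_k p E := fun x => x ^ p - x
  have hninj : ¬ Function.Injective ψ := by
    intro hinj
    have h01 : ψ 0 = ψ 1 := by
      simp [ψ, (Fact.out : p.Prime).ne_zero]
    exact zero_ne_one (hinj h01)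
  have hnsurj : ¬ Function.Surjective ψ := fun hs =>
    hninj (Finite.injective_iff_surjective.mpr hs)
  simp only [Function.Surjective, not_forall, not_exists] at hnsurj
  obtain ⟨c', hc'⟩ := hnsurj
  obtain ⟨c, rfl⟩ := Ideal.Quotient.mk_surjective c'
  refine ⟨c, c.2.1, c.2.2, fun x hx hx1 hlt => hc' (Ideal.Quotient.mk _ ⟨x, hx, hx1⟩) ?_⟩
  show (Ideal.Quotient.mk (h94_m p E) ⟨x, hx, hx1⟩) ^ p - Ideal.Quotient.mk (h94_m p E) ⟨x, hx, hx1⟩
    = Ideal.Quotient.mk (h94_m p E) c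
  rw [← map_pow, ← map_sub, h94_mk_eq_iff]
  simpa using hlt

end Fermat.Agent.S56
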