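import Mathlib
import Fermat.Agent.S56.h94_ResFin
import Fermat.Agent.S56.h35_Expansion
import Fermat.Agent.S56.h19_ConjJ
import Fermat.Agent.S56.h49_K0Basic

/-!
# S56 / W3-B6b : the maximal tame subfield `M = L^P`

Hypothesis forms (the inputs B3.1 `hres` and B4.3 `hcard` are taken as hypotheses at the field
`L`):

* `h94_M_unif_of` : `‖π‖ ^ #(P-conjugates of π) = ‖π_M‖` (`L/M` is totally ramified of that
  degree);
* `h94_M_tame_of` : `M` is tamely ramified.
-/

set_option autoImplicit false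

namespace Fermat.Agent.S56

variable (p : ℕ) [Fact p.Prime]

local notation "Ω" => PadicAlgCl p
local notation "Fld" => IntermediateField ℚ_[p] (PadicAlgCl p)

theorem h94_M_le (L : Fld) (π : Ω) : h78_M p L π ≤ L := inf_le_left

theorem h94_mem_M {L : Fld} {π x : Ω} :
    x ∈ h78_M p L π ↔ x ∈ L ∧ ∀ g ∈ h78_P p L π, g x = x := by
  unfold h78_M
  rw [IntermediateField.mem_inf, IntermediateField.mem_fixedField_iff]

theorem h94_K0_le_M (L : Fld) (π : Ω) : h78_K0 p L ≤ h78_M p L π := by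
  intro x hx
  rw [h94_mem_M]
  exact ⟨h19_K0_le p L hx, fun g hg => h49_J_fix p L g hg.1 x hx⟩

theorem h94_M_finite (L : Fld) [FiniteDimensional ℚ_[p] L] (π : Ω) :
    FiniteDimensional ℚ_[p] (h78_M p L π) :=
  Module.Finite.of_injective (IntermediateField.inclusion (h94_M_le p L π)).toLinearMap
    (IntermediateField.inclusion (h94_M_le p L π)).injective

theorem h94_norm_conj (S : Subgroup (h78_G p)) (x y : Ω) (hy : y ∈ h78_conj p S x) :
    ‖y‖ = ‖x‖ := by
  obtain ⟨g, -, rfl⟩ := (h19_mem_conj p S x y).1 hy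
  exact h78_norm_aut p g x

theorem h94_self_mem_conj (S : Subgroup (h78_G p)) (x : Ω) : x ∈ h78_conj p S x :=
  (h19_mem_conj p S x x).2 ⟨1, S.one_mem, rfl⟩

/-- the product of the conjugates is fixed -/
theorem h94_prod_conj_fixed (S : Subgroup (h78_G p)) (x : Ω) (g : h78_G p) (hg : g ∈ S) :
    g (∏ y ∈ h78_conj p S x, y) = ∏ y ∈ h78_conj p S x, y := by
  rw [map_prod]
  conv_rhs => rw [← h19_map_conj p S x g hg]
  rw [Finset.prod_map]
  rfl

/-- **W3-B6.5, first half (hypothesis form).** -/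
theorem h94_M_unif_of (L : Fld) [FiniteDimensional ℚ_[p] L] (hL : h78_Stable p L)
    (hres : ∀ x ∈ L, ‖x‖ ≤ 1 → ∃ c ∈ h78_K0 p L, ‖x - c‖ < 1)
    (π πM : Ω) (hπ : h78_IsUnif p L π) (hπM : h78_IsUnif p (h78_M p L π) πM) :
    ‖π‖ ^ (h78_conj p (h78_P p L π) π).card = ‖πM‖ := by
  classical
  obtain ⟨hπL, hπ0, hπ1, hπv⟩ := hπ
  obtain ⟨hπMM, hπM0, hπM1, hπMv⟩ := hπM
  have hπpos : 0 < ‖π‖ := norm_pos_iff.mpr hπ0
  have hML : h78_M p L π ≤ L := h94_M_le p L π
  have hresM : ∀ x ∈ L, ‖x‖ ≤ 1 → ∃ c ∈ h78_M p L π, ‖x - c‖ < 1 := fun x hx hx1 => by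
    obtain ⟨c, hc, h⟩ := hres x hx hx1
    exact ⟨c, h94_K0_le_M p L π hc, h⟩
  -- `‖πM‖ = ‖π‖ ^ e`
  obtain ⟨n, hn⟩ := hπv πM (hML hπMM) hπM0
  have hn1 : 1 ≤ n := by
    by_contra hcon
    push Not at hcon
    have h1 : 1 ≤ ‖π‖ ^ n := one_le_zpow_of_nonpos₀ hπpos hπ1.le (by omega)
    rw [← hn] at h1
    linarith
  obtain ⟨e, rfl⟩ : ∃ e : ℕ, n = e := ⟨n.toNat, (Int.toNat_of_nonneg (by omega)).symm⟩
  rw [zpow_natCast] at hn
  have he1 : 1 ≤ e := by exact_mod_cast hn1
  -- (1) at most `e` conjugates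
  obtain ⟨c, hcM, hexp, -⟩ := h35_expansion p L (h78_M p L π) hML hresM π πM
    ⟨hπL, hπ0, hπ1, hπv⟩ ⟨hπMM, hπM0, hπM1, hπMv⟩ e hn (π ^ e) (pow_mem hπL e)
  have hqdeg : (∑ i : Fin e, Polynomial.C (c i) * Polynomial.X ^ (i : ℕ)).degree <
      ((e : ℕ) : WithBot ℕ) :=
    Polynomial.degree_sum_fin_lt c
  have hmonic : (Polynomial.X ^ e -
      ∑ i : Fin e, Polynomial.C (c i) * Polynomial.X ^ (i : ℕ)).Monic :=
    Polynomial.monic_X_pow_sub hqdeg
  have hnatdeg : (Polynomial.X ^ e -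
      ∑ i : Fin e, Polynomial.C (c i) * Polynomial.X ^ (i : ℕ)).natDegree ≤ e := by
    refine (Polynomial.natDegree_sub_le _ _).trans (max_le ?_ ?_)
    · rw [Polynomial.natDegree_X_pow]
    · exact Polynomial.natDegree_le_of_degree_le hqdeg.le
  have hroot : ∀ y ∈ h78_conj p (h78_P p L π) π, y ∈ (Polynomial.X ^ e -
      ∑ i : Fin e, Polynomial.C (c i) * Polynomial.X ^ (i : ℕ)).roots.toFinset := by
    intro y hy
    obtain ⟨g, hg, rfl⟩ := (h19_mem_conj p _ π y).1 hy
    rw [Multiset.mem_toFinset, Polynomial.mem_roots hmonic.ne_zero, Polynomial.IsRoot.def]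
    have hgc : ∀ i, g (c i) = c i := fun i => ((h94_mem_M p).1 (hcM i)).2 g hg
    have h1 : g (π ^ e) = ∑ i : Fin e, c i * (g π) ^ (i : ℕ) := by
      conv_lhs => rw [hexp]
      rw [map_sum]
      exact Finset.sum_congr rfl fun i _ => by rw [map_mul, map_pow, hgc]
    rw [Polynomial.eval_sub, Polynomial.eval_pow, Polynomial.eval_X, Polynomial.eval_finset_sum]
    simp only [Polynomial.eval_mul, Polynomial.eval_C, Polynomial.eval_pow, Polynomial.eval_X]
    rw [← h1, map_pow, sub_self]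
  have hcard_le : (h78_conj p (h78_P p L π) π).card ≤ e := by
    calc (h78_conj p (h78_P p L π) π).card
        ≤ (Polynomial.X ^ e -
            ∑ i : Fin e, Polynomial.C (c i) * Polynomial.X ^ (i : ℕ)).roots.toFinset.card :=
          Finset.card_le_card hroot
      _ ≤ Multiset.card (Polynomial.X ^ e -
            ∑ i : Fin e, Polynomial.C (c i) * Polynomial.X ^ (i : ℕ)).roots :=
          Multiset.toFinset_card_le _
      _ ≤ (Polynomial.X ^ e -
            ∑ i : Fin e, Polynomial.C (c i) * Polynomial.X ^ (i : ℕ)).natDegree :=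
          Polynomial.card_roots' _
      _ ≤ e := hnatdeg
  -- (2) the norm element
  have hπC : π ∈ h78_conj p (h78_P p L π) π := h94_self_mem_conj p _ π
  have hCpos : 0 < (h78_conj p (h78_P p L π) π).card := Finset.card_pos.mpr ⟨π, hπC⟩
  have hNnorm : ‖∏ y ∈ h78_conj p (h78_P p L π) π, y‖ =
      ‖π‖ ^ (h78_conj p (h78_P p L π) π).card := by
    rw [norm_prod, Finset.prod_congr rfl (fun y hy => h94_norm_conj p _ π y hy),
      Finset.prod_const]
  have hN0 : (∏ y ∈ h78_conj p (h78_P p L π) π, y) ≠ 0 := by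
    rw [← norm_pos_iff, hNnorm]
    exact pow_pos hπpos _
  have hNM : (∏ y ∈ h78_conj p (h78_P p L π) π, y) ∈ h78_M p L π := by
    rw [h94_mem_M]
    refine ⟨prod_mem fun y hy => ?_, fun g hg => h94_prod_conj_fixed p _ π g hg⟩
    obtain ⟨g, -, rfl⟩ := (h19_mem_conj p _ π y).1 hy
    exact hL g π hπL
  obtain ⟨a, ha⟩ := hπMv _ hNM hN0
  rw [hNnorm, hn, ← zpow_natCast, ← zpow_natCast (‖π‖) e, ← zpow_mul] at ha
  have hinj : ((h78_conj p (h78_P p L π) π).card : ℤ) = (e : ℤ) * a :=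
    zpow_right_injective₀ hπpos hπ1.ne ha
  have ha1 : 1 ≤ a := by
    by_contra hcon
    push Not at hcon
    have h2 : (e : ℤ) * a ≤ 0 := mul_nonpos_of_nonneg_of_nonpos (by positivity) (by omega)
    omega
  have hge : (e : ℤ) ≤ (h78_conj p (h78_P p L π) π).card := by
    rw [hinj]
    nlinarith
  have heq : (h78_conj p (h78_P p L π) π).card = e := by omega
  rw [heq, hn]

/-- **W3-B6.5, second half (hypothesis form).** `M = L^P` is tamely ramified. -/
theorem h94_M_tame_of (L : Fld) [FiniteDimensional ℚ_[p] L] (hL : h78_Stable p L)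
    (hres : ∀ x ∈ L, ‖x‖ ≤ 1 → ∃ c ∈ h78_K0 p L, ‖x - c‖ < 1)
    (π : Ω) (hπ : h78_IsUnif p L π)
    (hcard : ‖π‖ ^ (h78_conj p (h78_J p L) π).card = (p : ℝ)⁻¹) :
    h78_IsTame p (h78_M p L π) := by
  classical
  haveI := h94_M_finite p L π
  obtain ⟨πM, hπM⟩ := h94_exists_unif p (h78_M p L π)
  have hunif := h94_M_unif_of p L hL hres π πM hπ hπM
  obtain ⟨hπL, hπ0, hπ1, hπv⟩ := hπ
  have hπpos : 0 < ‖π‖ := norm_pos_iff.mpr hπ0
  have hinvL : ∀ (h : h78_G p) (x : Ω), h⁻¹ (h x) = x := fun h x => by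
    show (h⁻¹ * h) x = x
    rw [inv_mul_cancel]
    rfl
  have hinvR : ∀ (h : h78_G p) (x : Ω), h (h⁻¹ x) = x := fun h x => by
    show (h * h⁻¹) x = x
    rw [mul_inv_cancel]
    rfl
  -- the conjugates of `π` under `J`, divided by `π`, are units of `L`
  have hOmem : ∀ y ∈ h78_conj p (h78_J p L) π, y / π ∈ h94_O p L := by
    intro y hy
    obtain ⟨g, -, rfl⟩ := (h19_mem_conj p _ π y).1 hy
    exact ⟨L.div_mem (hL g π hπL) hπL, by rw [norm_div, h78_norm_aut, div_self hπpos.ne']⟩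
  -- the residue class of `y / π`
  let Θ : Ω → h94_k p L := fun y =>
    if h : y / π ∈ h94_O p L then Ideal.Quotient.mk (h94_m p L) ⟨y / π, h⟩ else 0
  have hΘ : ∀ y (h : y / π ∈ h94_O p L), Θ y = Ideal.Quotient.mk (h94_m p L) ⟨y / π, h⟩ :=
    fun y h => dif_pos h
  have hΘeq : ∀ y ∈ h78_conj p (h78_J p L) π, ∀ y' ∈ h78_conj p (h78_J p L) π,
      (Θ y = Θ y' ↔ ‖y - y'‖ < ‖π‖) := by
    intro y hy y' hy'
    rw [hΘ y (hOmem y hy), hΘ y' (hOmem y' hy'), h94_mk_eq_iff]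
    show ‖y / π - y' / π‖ < 1 ↔ _
    rw [← sub_div, norm_div, div_lt_one hπpos]
  -- the fibres of `Θ` are translates of the `P`-orbit
  have hfib : ∀ y₀ ∈ h78_conj p (h78_J p L) π,
      ((h78_conj p (h78_J p L) π).filter fun y => Θ y = Θ y₀).card =
        (h78_conj p (h78_P p L π) π).card := by
    intro y₀ hy₀
    obtain ⟨h, hh, rfl⟩ := (h19_mem_conj p _ π y₀).1 hy₀
    have hset : (h78_conj p (h78_J p L) π).filter (fun y => Θ y = Θ (h π)) =
        (h78_conj p (h78_P p L π) π).map h.toEquiv.toEmbedding := by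
      ext y
      rw [Finset.mem_filter, Finset.mem_map]
      constructor
      · rintro ⟨hy, hΘy⟩
        obtain ⟨g, hg, rfl⟩ := (h19_mem_conj p _ π y).1 hy
        rw [hΘeq _ hy _ hy₀] at hΘy
        have hsmall : ‖(h⁻¹ * g) π - π‖ < ‖π‖ := by
          have h1 : (h⁻¹ * g) π - π = h⁻¹ (g π - h π) := by
            rw [AlgEquiv.mul_apply, map_sub, hinvL]
          rw [h1, h78_norm_aut]
          exact hΘy
        refine ⟨(h⁻¹ * g) π, (h19_mem_conj p _ π _).2 ⟨h⁻¹ * g,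
          ⟨Subgroup.mul_mem _ (Subgroup.inv_mem _ hh) hg, Or.inr hsmall⟩, rfl⟩, ?_⟩
        show h ((h⁻¹ * g) π) = g π
        rw [AlgEquiv.mul_apply, hinvR]
      · rintro ⟨z, hz, rfl⟩
        obtain ⟨s, hs, rfl⟩ := (h19_mem_conj p _ π z).1 hz
        have hmem : h (s π) ∈ h78_conj p (h78_J p L) π :=
          (h19_mem_conj p _ π _).2 ⟨h * s, Subgroup.mul_mem _ hh hs.1, rfl⟩
        refine ⟨hmem, ?_⟩
        show Θ (h (s π)) = Θ (h π)
        rw [hΘeq _ hmem _ hy₀, ← map_sub, h78_norm_aut]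
        exact hs.2.resolve_left hπ0
    rw [hset, Finset.card_map]
  -- counting
  have hcount : (h78_conj p (h78_J p L) π).card =
      ((h78_conj p (h78_J p L) π).image Θ).card * (h78_conj p (h78_P p L π) π).card := by
    have hconst : ∀ b ∈ (h78_conj p (h78_J p L) π).image Θ,
        ((h78_conj p (h78_J p L) π).filter fun a => Θ a = b).card =
          (h78_conj p (h78_P p L π) π).card := by
      intro b hb
      obtain ⟨y₀, hy₀, rfl⟩ := Finset.mem_image.1 hb
      exact hfib y₀ hy₀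
    rw [Finset.card_eq_sum_card_fiberwise (f := Θ) (s := h78_conj p (h78_J p L) π)
      (t := (h78_conj p (h78_J p L) π).image Θ) (fun y hy => Finset.mem_image_of_mem Θ hy),
      Finset.sum_congr rfl hconst, Finset.sum_const, smul_eq_mul]
  -- the image of `Θ` is closed under multiplication and does not contain `0`
  have hJres : ∀ g ∈ h78_J p L, ∀ x ∈ L, ‖x‖ ≤ 1 → ‖g x - x‖ < 1 := fun g hg x hx hx1 =>
    h49_J_res_of p L hres g hg x hx hx1
  have hSmul : ∀ a ∈ (h78_conj p (h78_J p L) π).image Θ,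
      ∀ b ∈ (h78_conj p (h78_J p L) π).image Θ, a * b ∈ (h78_conj p (h78_J p L) π).image Θ := by
    intro a ha b hb
    obtain ⟨y, hy, rfl⟩ := Finset.mem_image.1 ha
    obtain ⟨y', hy', rfl⟩ := Finset.mem_image.1 hb
    obtain ⟨g, hg, rfl⟩ := (h19_mem_conj p _ π y).1 hy
    obtain ⟨h, hh, rfl⟩ := (h19_mem_conj p _ π y').1 hy'
    have hgh : g (h π) ∈ h78_conj p (h78_J p L) π :=
      (h19_mem_conj p _ π _).2 ⟨g * h, Subgroup.mul_mem _ hg hh, rfl⟩
    refine Finset.mem_image.2 ⟨g (h π), hgh, ?_⟩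
    rw [hΘ _ (hOmem _ hgh), hΘ _ (hOmem _ hy), hΘ _ (hOmem _ hy'), ← map_mul, h94_mk_eq_iff]
    show ‖g (h π) / π - g π / π * (h π / π)‖ < 1
    have hu : h π / π ∈ L := L.div_mem (hL h π hπL) hπL
    have hu1 : ‖h π / π‖ ≤ 1 := by rw [norm_div, h78_norm_aut, div_self hπpos.ne']
    have hgπ0 : g π ≠ 0 := by
      rw [← norm_pos_iff, h78_norm_aut]
      exact hπpos
    have key : g (h π) / π - g π / π * (h π / π) = g π / π * (g (h π / π) - h π / π) := by
      rw [map_div₀]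
      field_simp
    rw [key, norm_mul, norm_div, h78_norm_aut, div_self hπpos.ne', one_mul]
    exact hJres g hg _ hu hu1
  have hS0 : (0 : h94_k p L) ∉ (h78_conj p (h78_J p L) π).image Θ := by
    intro h0
    obtain ⟨y, hy, hy0⟩ := Finset.mem_image.1 h0
    rw [hΘ _ (hOmem _ hy), Ideal.Quotient.eq_zero_iff_mem] at hy0
    have h1 : ‖y / π‖ < 1 := hy0
    obtain ⟨g, -, rfl⟩ := (h19_mem_conj p _ π y).1 hy
    rw [norm_div, h78_norm_aut, div_self hπpos.ne'] at h1
    exact lt_irrefl _ h1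
  -- every element of the image is a root of unity of order dividing the cardinality
  have hpow : ∀ ζ ∈ (h78_conj p (h78_J p L) π).image Θ,
      ζ ^ ((h78_conj p (h78_J p L) π).image Θ).card = 1 := by
    intro ζ hζ
    have hζ0 : ζ ≠ 0 := fun h => hS0 (h ▸ hζ)
    have himg : ((h78_conj p (h78_J p L) π).image Θ).image (fun s => ζ * s) =
        (h78_conj p (h78_J p L) π).image Θ := by
      refine Finset.eq_of_subset_of_card_le (fun x hx => ?_) ?_
      · obtain ⟨s, hs, rfl⟩ := Finset.mem_image.1 hx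
        exact hSmul ζ hζ s hs
      · rw [Finset.card_image_of_injective _ (mul_right_injective₀ hζ0)]
    have hprod : ∏ s ∈ (h78_conj p (h78_J p L) π).image Θ, s =
        ζ ^ ((h78_conj p (h78_J p L) π).image Θ).card *
          ∏ s ∈ (h78_conj p (h78_J p L) π).image Θ, s := by
      conv_lhs => rw [← himg]
      rw [Finset.prod_image (fun a _ b _ hab => mul_right_injective₀ hζ0 hab),
        Finset.prod_mul_distrib, Finset.prod_const]
    have hP0 : ∏ s ∈ (h78_conj p (h78_J p L) π).image Θ, s ≠ 0 :=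
      Finset.prod_ne_zero_iff.2 fun s hs h => hS0 (h ▸ hs)
    have h3 : (ζ ^ ((h78_conj p (h78_J p L) π).image Θ).card - 1) *
        ∏ s ∈ (h78_conj p (h78_J p L) π).image Θ, s = 0 := by
      rw [sub_mul, one_mul, ← hprod, sub_self]
    rcases mul_eq_zero.1 h3 with h | h
    · exact sub_eq_zero.1 h
    · exact absurd h hP0
  have hSpos : 0 < ((h78_conj p (h78_J p L) π).image Θ).card :=
    Finset.card_pos.2 ⟨Θ π, Finset.mem_image_of_mem Θ (h94_self_mem_conj p _ π)⟩
  -- the cardinality is prime to `p`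
  have hpm : ¬ p ∣ ((h78_conj p (h78_J p L) π).image Θ).card := by
    rintro ⟨m₁, hm₁⟩
    have hm₁pos : 0 < m₁ := by
      rcases Nat.eq_zero_or_pos m₁ with h | h
      · rw [h, mul_zero] at hm₁
        omega
      · exact h
    have hroot : ∀ ζ ∈ (h78_conj p (h78_J p L) π).image Θ, ζ ^ m₁ = 1 := by
      intro ζ hζ
      have h1 := hpow ζ hζ
      rw [hm₁, mul_comm, pow_mul] at h1
      have h2 : (ζ ^ m₁ - 1) ^ p = 0 := by rw [sub_pow_char, h1, one_pow, sub_self]
      exact sub_eq_zero.1 ((pow_eq_zero_iff (Fact.out : p.Prime).ne_zero).1 h2)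
    have hsub : (h78_conj p (h78_J p L) π).image Θ ⊆
        Polynomial.nthRootsFinset m₁ (1 : h94_k p L) := fun ζ hζ =>
      (Polynomial.mem_nthRootsFinset hm₁pos 1).2 (hroot ζ hζ)
    have hle : ((h78_conj p (h78_J p L) π).image Θ).card ≤ m₁ :=
      (Finset.card_le_card hsub).trans (by
        unfold Polynomial.nthRootsFinset
        exact (Multiset.toFinset_card_le _).trans (Polynomial.card_nthRoots m₁ 1))
    have hp2 : 2 ≤ p := (Fact.out : p.Prime).two_le
    nlinarith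
  refine ⟨((h78_conj p (h78_J p L) π).image Θ).card, hpm, fun x hx hx0 => ?_⟩
  obtain ⟨n, hn⟩ := hπM.2.2.2 x hx hx0
  refine ⟨-n, ?_⟩
  rw [hn, ← hunif, ← zpow_natCast, ← zpow_natCast, ← zpow_mul, ← zpow_mul]
  have h4 : ((h78_conj p (h78_P p L π) π).card : ℤ) * (n *
      (((h78_conj p (h78_J p L) π).image Θ).card : ℤ)) =
      ((h78_conj p (h78_J p L) π).card : ℤ) * n := by
    rw [hcount]
    push_cast
    ring
  rw [h4, zpow_mul, zpow_natCast, hcard, inv_zpow, zpow_neg]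

end Fermat.Agent.S56
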