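import Mathlib
import Fermat.Agent.S56.h94_MTame
import Fermat.Agent.S56.h49_K0Res
import Fermat.Agent.S56.h28_K0Unram
import Fermat.Agent.S56.h62_W3Basics

/-!
# S56 / W3-B6b : `sk_M_unif` and `sk_M_tame`, closed forms

`h94_M_unif`, `h94_M_tame` are the row statements verbatim; `h94_card_conjJ` closes B4.3
(`‖π‖ ^ #(J-conjugates of π) = p⁻¹`) from helper19's hypothesis form.
-/

set_option autoImplicit false

namespace Fermat.Agent.S56

variable (p : ℕ) [Fact p.Prime]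

local notation "Ω" => PadicAlgCl p
local notation "Fld" => IntermediateField ℚ_[p] (PadicAlgCl p)

/-- B4.3 (first half), closed: `‖π‖ ^ #(J_L-conjugates of π) = p⁻¹`. -/
theorem h94_card_conjJ (L : Fld) [FiniteDimensional ℚ_[p] L] (π : Ω) (hπ : h78_IsUnif p L π) :
    ‖π‖ ^ (h78_conj p (h78_J p L) π).card = (p : ℝ)⁻¹ :=
  h19_card_conjJ_of p (fun E _ x hx => h62_mem_of_fixed p E x hx)
    (fun L _ x hx hx1 => h49_K0_res p L x hx hx1)
    (fun L _ c hc hc0 => h28_K0_unram p L c hc hc0)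
    (fun L M₀ _ hML hres π π₀ hπ hπ₀ j hj z hz =>
      h35_expansion p L M₀ hML hres π π₀ hπ hπ₀ j hj z hz) L π hπ

/-- **W3-B6.5** `L/M` is totally ramified of degree `#(P-conjugates of π)`. -/
theorem h94_M_unif (L : Fld) [FiniteDimensional ℚ_[p] L] (hL : h78_Stable p L)
    (π πM : Ω) (hπ : h78_IsUnif p L π) (hπM : h78_IsUnif p (h78_M p L π) πM) :
    ‖π‖ ^ (h78_conj p (h78_P p L π) π).card = ‖πM‖ :=
  h94_M_unif_of p L hL (fun x hx hx1 => h49_K0_res p L x hx hx1) π πM hπ hπM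

/-- **W3-B6.5** `M = L^P` is tamely ramified. -/
theorem h94_M_tame (L : Fld) [FiniteDimensional ℚ_[p] L] (hL : h78_Stable p L)
    (π : Ω) (hπ : h78_IsUnif p L π) : h78_IsTame p (h78_M p L π) :=
  h94_M_tame_of p L hL (fun x hx hx1 => h49_K0_res p L x hx hx1) π hπ (h94_card_conjJ p L π hπ)

end Fermat.Agent.S56
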