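/-
S56 / W3 : glue rows.
* `h78_twist_bound`   (TW  = C1 + A2)      : `sk_twist_bound` verbatim.
* `h78_herbrand_lite` (C2 closed)          : `sk_herbrand_lite` verbatim.
* `h78_exists_P_res`  (Galois glue)        : `Gal(L/L^P)` is the image of `P`.
* `h78_FK_of`         (FK, D2 as hypothesis): the Kummer form of the flat ramification bound.
-/
import Fermat.Agent.S56.h78_W3Defs
import Fermat.Agent.S56.h62_W3Basics
import Fermat.Agent.S56.h94_Unif
import Fermat.Agent.S56.h94_ResFin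
import Fermat.Agent.S56.h94_MTameFinal
import Fermat.Agent.S56.h49_K0Res
import Fermat.Agent.S56.h28_K0Unram
import Fermat.Agent.S56.h35_Expansion
import Fermat.Agent.S56.h6_WildCore
import Fermat.Agent.S56.h14_TameLeM
import Fermat.Agent.S56.h11_TwistFinal
import Fermat.Agent.S56.h71_Ps
import Fermat.Agent.S56.h47_HerbrandCore
import Fermat.Agent.S56.h5_KumNF

set_option autoImplicit false

open Coalgebra WithConv
open scoped Pointwise

namespace Fermat.Agent.S56

variable (p : ℕ) [Fact p.Prime]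

local notation "Ω" => PadicAlgCl p
local notation "Fld" => IntermediateField ℚ_[p] (PadicAlgCl p)

theorem h78_sOf_nonneg (L : Fld) (π : Ω) (t : h78_G p) : 0 ≤ h78_sOf p L π t := by
  unfold h78_sOf
  exact Finset.prod_nonneg fun x _ => le_trans (norm_nonneg _) (le_max_left _ _)

/-- TW = C1 + A2 : the twist bound (sharp form of Fontaine's ramification bound). -/
theorem h78_twist_bound {H : Type} [CommRing H] [Bialgebra (h78_Zp p) H]
    [Coalgebra.IsCocomm (h78_Zp p) H] [Module.Free (h78_Zp p) H] [Module.Finite (h78_Zp p) H]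
    (hkill : ∀ γ : WithConv (H →ₐ[h78_Zp p] Ω), γ ^ p = 1)
    (L : Fld) [FiniteDimensional ℚ_[p] L] (hL : h78_Stable p L)
    (hLpts : ∀ (γ : H →ₐ[h78_Zp p] Ω) (h : H), γ h ∈ L)
    (π : Ω) (hπ : h78_IsUnif p L π) (t : h78_G p) (ht : t ∈ h78_P p L π)
    (htp : ∀ z ∈ L, (t ^ p) z = z)
    (γ : H →ₐ[h78_Zp p] Ω) (h₀ : H) (hne : t (γ h₀) ≠ γ h₀) :
    1 ≤ (p : ℝ) ^ p * h78_sOf p L π t ^ (p - 1) := by
  by_contra hlt
  rw [not_le] at hlt
  obtain ⟨E, hEfin, φ, g, hφE, hφ1, hφn, hφm, hgt, hgE⟩ := h11_twist_datum p L hL π hπ t ht htp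
  obtain ⟨ϖ, hϖ⟩ := h94_exists_unif p E
  have hmem : γ h₀ ∈ E :=
    h71_Ps p hkill (fun γ h => h62_point_norm_le_one p γ h) L hLpts E ϖ hϖ
      (h71_isComplete_of_finiteDimensional p E) (h78_sOf p L π t) (h78_sOf_nonneg p L π t) hlt
      φ hφE hφ1 hφn hφm γ h₀
  exact hne (by rw [← hgt _ (hLpts γ h₀)]; exact hgE _ hmem)

/-- C2 : Herbrand-lite (verbatim row statement). -/
theorem h78_herbrand_lite {H : Type} [CommRing H] [Bialgebra (h78_Zp p) H]
    [Coalgebra.IsCocomm (h78_Zp p) H] [Module.Free (h78_Zp p) H] [Module.Finite (h78_Zp p) H]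
    (hkill : ∀ γ : WithConv (H →ₐ[h78_Zp p] Ω), γ ^ p = 1)
    (L : Fld) [FiniteDimensional ℚ_[p] L] (hL : h78_Stable p L)
    (hLpts : ∀ (γ : H →ₐ[h78_Zp p] Ω) (h : H), γ h ∈ L)
    (π πM : Ω) (hπ : h78_IsUnif p L π) (hπM : h78_IsUnif p (h78_M p L π) πM)
    (hfaith : ∀ g ∈ h78_P p L π, (∀ (γ : H →ₐ[h78_Zp p] Ω) (h : H), g (γ h) = γ h) →
      ∀ z ∈ L, g z = z)
    (α : Ω) (hαL : α ∈ L) (hαp : α ^ p ∈ h78_M p L π)
    (s : h78_G p) (hs : s ∈ h78_P p L π) (hsα : s α ≠ α) :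
    ∃ c ∈ L, ‖c‖ ≤ 1 ∧ (∀ g ∈ h78_P p L π, g α = α → g c = c) ∧
      ‖πM‖ ^ (p - 1) ≤ p * ‖s c - c‖ ^ (p * (p - 1)) :=
  h47_herbrand_lite_of p L hL π πM hπ hfaith (h62_norm_p p) (h28_K0_unram p L)
    (fun π₀ hπ₀ j hj z hz =>
      h35_expansion p L (h78_K0 p L) (h49_K0_le p L) (h49_K0_res p L) π π₀ hπ hπ₀ j hj z hz)
    (h94_card_conjJ p L π hπ) (h94_M_unif p L hL π πM hπ hπM)
    (fun g hg => h6_P_pgroup_of p L hL (fun g hg x hx hx1 => h49_J_res p L g hg x hx hx1) π hπ g hg)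
    (fun t ht htp γ h₀ hne => h78_twist_bound p hkill L hL hLpts π hπ t ht htp γ h₀ hne)
    α hαL hαp s hs hsα

/-- Galois glue: an automorphism fixing `M = L^P` agrees on `L` with an element of `P`. -/
theorem h78_exists_P_res (L : Fld) [FiniteDimensional ℚ_[p] L] (hL : h78_Stable p L) (π : Ω)
    (g : h78_G p) (hg : ∀ z ∈ h78_M p L π, g z = z) :
    ∃ h ∈ h78_P p L π, ∀ z ∈ L, h z = g z := by
  classical
  have hN : (L.fixingSubgroup : Subgroup (h78_G p)).Normal := by
    refine ⟨fun n hn x => ?_⟩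
    rw [IntermediateField.mem_fixingSubgroup_iff] at hn ⊢
    intro z hz
    have h1 : x⁻¹ z ∈ L := hL x⁻¹ z hz
    have h2 := hn _ h1
    change x (n (x⁻¹ z)) = z
    rw [h2]
    exact AlgEquiv.apply_symm_apply x z
  have hopen : IsOpen ((h78_P p L π ⊔ L.fixingSubgroup : Subgroup (h78_G p)) : Set (h78_G p)) :=
    Subgroup.isOpen_mono (le_sup_right) (IntermediateField.fixingSubgroup_isOpen L)
  have hclosed : IsClosed ((h78_P p L π ⊔ L.fixingSubgroup : Subgroup (h78_G p)) : Set (h78_G p)) :=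
    Subgroup.isClosed_of_isOpen _ hopen
  have key := InfiniteGalois.fixingSubgroup_fixedField (k := ℚ_[p]) (K := Ω)
    (⟨h78_P p L π ⊔ L.fixingSubgroup, hclosed⟩ : ClosedSubgroup (h78_G p))
  have hgmem : g ∈ (h78_P p L π ⊔ L.fixingSubgroup : Subgroup (h78_G p)) := by
    have : g ∈ (IntermediateField.fixedField
        (h78_P p L π ⊔ L.fixingSubgroup : Subgroup (h78_G p))).fixingSubgroup := by
      rw [IntermediateField.mem_fixingSubgroup_iff]
      intro x hx
      rw [IntermediateField.mem_fixedField_iff] at hx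
      apply hg
      refine ⟨?_, ?_⟩
      · apply h62_mem_of_fixed p L x
        intro n hn
        exact hx n (Subgroup.mem_sup_right ((IntermediateField.mem_fixingSubgroup_iff L n).2 hn))
      · change x ∈ IntermediateField.fixedField (h78_P p L π)
        rw [IntermediateField.mem_fixedField_iff]
        intro n hn
        exact hx n (Subgroup.mem_sup_left hn)
    rw [key] at this
    exact this
  have hmul : (((h78_P p L π ⊔ L.fixingSubgroup : Subgroup (h78_G p))) : Set (h78_G p)) =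
      (h78_P p L π : Set (h78_G p)) * (L.fixingSubgroup : Set (h78_G p)) :=
    Subgroup.mul_normal (h78_P p L π) L.fixingSubgroup
  have hg2 : g ∈ (h78_P p L π : Set (h78_G p)) * (L.fixingSubgroup : Set (h78_G p)) := by
    rw [← hmul]; exact hgmem
  obtain ⟨h, hh, n, hn, rfl⟩ := Set.mem_mul.1 hg2
  refine ⟨h, hh, fun z hz => ?_⟩
  have : n z = z := (IntermediateField.mem_fixingSubgroup_iff L n).1 hn z hz
  change h z = h (n z)
  rw [this]

/-- elements of `P` fix `M = L^P` pointwise. -/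
theorem h78_P_fix_M (L : Fld) (π : Ω) (s : h78_G p) (hs : s ∈ h78_P p L π) (z : Ω)
    (hz : z ∈ h78_M p L π) : s z = z := by
  have h2 : z ∈ IntermediateField.fixedField (h78_P p L π) := hz.2
  rw [IntermediateField.mem_fixedField_iff] at h2
  exact h2 s hs

/-- a `p`-th root in `M` contradicts the normal form over `M`. -/
theorem h78_NF_no_root (M : Fld) (u' α' : Ω) (hα' : α' ^ p = u') (hα'M : α' ∈ M)
    (hα'0 : α' ≠ 0) (hNF : h78_NF p M u') : False := by
  have hp : p.Prime := Fact.out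
  rcases hNF with h1 | ⟨h1, h2, h3⟩
  · exact h1 α' hα'M hα'0 (by rw [← hα', norm_pow])
  · have hu1 : ‖u'‖ = 1 := by
      have h4 : u' = (u' - 1) + 1 := by ring
      rw [h4, IsUltrametricDist.norm_add_eq_max_of_norm_ne_norm (by rw [norm_one]; exact ne_of_lt h2),
        norm_one]
      exact max_eq_right h2.le
    have hα1 : ‖α'‖ = 1 := by
      have h4 : ‖α'‖ ^ p = 1 := by rw [← norm_pow, hα', hu1]
      exact (pow_eq_one_iff_of_nonneg (norm_nonneg _) hp.ne_zero).1 h4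
    set b : Ω := α' - 1 with hb
    have hb1 : ‖b‖ ≤ 1 := by
      refine le_trans (h5_norm_sub_le_max p α' 1) ?_
      rw [hα1, norm_one, max_self]
    have h5 := h5_binom_one p b hb1
    have h6 : (1 + b) ^ p = u' := by rw [hb, add_sub_cancel, hα']
    rw [h6] at h5
    have hpinv : (0 : ℝ) ≤ (p : ℝ)⁻¹ := inv_nonneg.2 (Nat.cast_nonneg p)
    have h7 : ‖u' - 1 - b ^ p‖ < ‖u' - 1‖ :=
      lt_of_le_of_lt (le_trans h5 (by nlinarith [norm_nonneg b])) h1
    have h8 : ‖b ^ p‖ = ‖u' - 1‖ := by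
      have h9 : b ^ p = (u' - 1) - (u' - 1 - b ^ p) := by ring
      rw [h9, sub_eq_add_neg,
        IsUltrametricDist.norm_add_eq_max_of_norm_ne_norm (by rw [norm_neg]; exact ne_of_gt h7),
        norm_neg]
      exact max_eq_left h7.le
    have hb0 : b ≠ 0 := by
      intro h0
      rw [h0, zero_pow hp.ne_zero, norm_zero] at h8
      have : (0 : ℝ) < ‖u' - 1‖ := lt_of_le_of_lt hpinv h1
      linarith
    have hbM : b ∈ M := sub_mem hα'M (one_mem M)
    exact h3 b hbM hb0 (by rw [← h8, norm_pow])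

/-- **FK** (the Kummer form of the flat ramification bound), with the Kummer break table D2
as a hypothesis (its row statement, verbatim). -/
theorem h78_FK_of {H : Type} [CommRing H] [Bialgebra (h78_Zp p) H]
    [Coalgebra.IsCocomm (h78_Zp p) H] [Module.Free (h78_Zp p) H] [Module.Finite (h78_Zp p) H]
    (hD2 : ∀ (M : Fld) (πM : Ω), h78_IsUnif p M πM → ∀ u' : Ω, u' ∈ M → h78_NF p M u' →
      ∀ α : Ω, α ^ p = u' → ∀ s : h78_G p, (∀ z ∈ M, s z = z) →
      ∀ c : Ω, c ∈ IntermediateField.adjoin ℚ_[p] ((M : Set Ω) ∪ {α}) → ‖c‖ ≤ 1 →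
      p * ‖s c - c‖ ^ (p * (p - 1)) < ‖πM‖ ^ (p - 1))
    (hkill : ∀ γ : WithConv (H →ₐ[h78_Zp p] Ω), γ ^ p = 1)
    (F L : Fld) [FiniteDimensional ℚ_[p] F] [FiniteDimensional ℚ_[p] L]
    (hF : h78_Stable p F) (hL : h78_Stable p L) (hFL : F ≤ L) (hFt : h78_IsTame p F)
    (hLpts : ∀ (γ : H →ₐ[h78_Zp p] Ω) (h : H), γ h ∈ L)
    (hfaith : ∀ g : h78_G p, (∀ z ∈ F, g z = z) →
      (∀ (γ : H →ₐ[h78_Zp p] Ω) (h : H), g (γ h) = γ h) → ∀ z ∈ L, g z = z)
    (u α : Ω) (hu : u ∈ F) (hu0 : u ≠ 0) (hα : α ^ p = u) (hαL : α ∈ L) :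
    u ∈ h78_U p F := by
  have hp : p.Prime := Fact.out
  obtain ⟨πF, hπF⟩ := h94_exists_unif p F
  obtain ⟨π, hπ⟩ := h94_exists_unif p L
  have hML : h78_M p L π ≤ L := inf_le_left
  have hMfin : FiniteDimensional ℚ_[p] (h78_M p L π) :=
    FiniteDimensional.of_injective (IntermediateField.inclusion hML).toLinearMap
      (IntermediateField.inclusion hML).injective
  obtain ⟨πM, hπM⟩ := h94_exists_unif p (h78_M p L π)
  rcases h5_normal_form p F πF hπF (fun x hx hx1 => h94_exists_pth_root_mod p F x hx hx1)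
    u hu hu0 with h | ⟨w, hwF, hw0, hNF⟩
  · exact h
  exfalso
  have hFM : F ≤ h78_M p L π := h14_tame_le_M p L F hL hF hFL hFt π hπ
  have hMt : h78_IsTame p (h78_M p L π) := h94_M_tame p L hL π hπ
  have hu'F : u * w ^ p ∈ F := mul_mem hu (pow_mem hwF p)
  have hNFM : h78_NF p (h78_M p L π) (u * w ^ p) :=
    h14_NF_mono p F (h78_M p L π) hFM πF πM hπF hπM hMt (u * w ^ p) hu'F hNF
  have hu'M : u * w ^ p ∈ h78_M p L π := hFM hu'F
  have hα' : (α * w) ^ p = u * w ^ p := by rw [mul_pow, hα]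
  have hα'L : α * w ∈ L := mul_mem hαL (hFL hwF)
  have hα0 : α ≠ 0 := by
    intro h0
    rw [h0, zero_pow hp.ne_zero] at hα
    exact hu0 hα.symm
  have hα'0 : α * w ≠ 0 := mul_ne_zero hα0 hw0
  by_cases hfix : ∀ s ∈ h78_P p L π, s (α * w) = α * w
  · have hα'M : α * w ∈ h78_M p L π := by
      refine ⟨hα'L, ?_⟩
      change α * w ∈ IntermediateField.fixedField (h78_P p L π)
      rw [IntermediateField.mem_fixedField_iff]
      exact hfix
    exact h78_NF_no_root p (h78_M p L π) (u * w ^ p) (α * w) hα' hα'M hα'0 hNFM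
  · push_neg at hfix
    obtain ⟨s, hs, hsα⟩ := hfix
    have hfaith' : ∀ g ∈ h78_P p L π, (∀ (γ : H →ₐ[h78_Zp p] Ω) (h : H), g (γ h) = γ h) →
        ∀ z ∈ L, g z = z := fun g hg hpts =>
      hfaith g (fun z hz => h78_P_fix_M p L π g hg z (hFM hz)) hpts
    obtain ⟨c, hcL, hc1, hcfix, hbound⟩ :=
      h78_herbrand_lite p hkill L hL hLpts π πM hπ hπM hfaith' (α * w) hα'L
        (by rw [hα']; exact hu'M) s hs hsα
    have hsM : ∀ z ∈ h78_M p L π, s z = z := fun z hz => h78_P_fix_M p L π s hs z hz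
    have hadjL : IntermediateField.adjoin ℚ_[p] (((h78_M p L π : Fld) : Set Ω) ∪ {α * w}) ≤ L := by
      rw [IntermediateField.adjoin_le_iff]
      rintro x (hx | hx)
      · exact hML hx
      · rw [Set.mem_singleton_iff] at hx
        rw [hx]; exact hα'L
    have : FiniteDimensional ℚ_[p]
        (IntermediateField.adjoin ℚ_[p] (((h78_M p L π : Fld) : Set Ω) ∪ {α * w})) :=
      FiniteDimensional.of_injective (IntermediateField.inclusion hadjL).toLinearMap
        (IntermediateField.inclusion hadjL).injective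
    have hcadj : c ∈ IntermediateField.adjoin ℚ_[p] (((h78_M p L π : Fld) : Set Ω) ∪ {α * w}) := by
      apply h62_mem_of_fixed p _ c
      intro g hg
      obtain ⟨h, hh, hres⟩ := h78_exists_P_res p L hL π g
        (fun z hz => hg z (IntermediateField.subset_adjoin _ _ (Or.inl hz)))
      have h1 : h (α * w) = α * w := by
        rw [hres _ hα'L]
        exact hg _ (IntermediateField.subset_adjoin _ _ (Or.inr rfl))
      rw [← hres c hcL]
      exact hcfix h hh h1
    have hlt := hD2 (h78_M p L π) πM hπM (u * w ^ p) hu'M hNFM (α * w) hα' s hsM c hcadj hc1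
    exact absurd hbound (not_le.2 hlt)

end Fermat.Agent.S56
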