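/-
S56 / W3 : FK (the Kummer form of the flat ramification bound), row statement `sk_FK` verbatim.
-/
import Fermat.Agent.S56.h78_FK
import Fermat.Agent.S56.h36_KumBreak

set_option autoImplicit false

open Coalgebra WithConv

namespace Fermat.Agent.S56

variable (p : ℕ) [Fact p.Prime]

local notation "Ω" => PadicAlgCl p
local notation "Fld" => IntermediateField ℚ_[p] (PadicAlgCl p)

/-- **FK**: if `F` is tame and Galois, `L ⊇ F` is generated over `F` by the points of a finite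
flat group scheme killed by `p`, and `α ∈ L` has `α^p = u ∈ F^×`, then `u ∈ 𝒰(F)`
(`u ≡ 1 mod p` up to `p`-th powers). -/
theorem h78_FK {H : Type} [CommRing H] [Bialgebra (h78_Zp p) H]
    [Coalgebra.IsCocomm (h78_Zp p) H] [Module.Free (h78_Zp p) H] [Module.Finite (h78_Zp p) H]
    (hkill : ∀ γ : WithConv (H →ₐ[h78_Zp p] Ω), γ ^ p = 1)
    (F L : Fld) [FiniteDimensional ℚ_[p] F] [FiniteDimensional ℚ_[p] L]
    (hF : h78_Stable p F) (hL : h78_Stable p L) (hFL : F ≤ L) (hFt : h78_IsTame p F)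
    (hLpts : ∀ (γ : H →ₐ[h78_Zp p] Ω) (h : H), γ h ∈ L)
    (hfaith : ∀ g : h78_G p, (∀ z ∈ F, g z = z) →
      (∀ (γ : H →ₐ[h78_Zp p] Ω) (h : H), g (γ h) = γ h) → ∀ z ∈ L, g z = z)
    (u α : Ω) (hu : u ∈ F) (hu0 : u ≠ 0) (hα : α ^ p = u) (hαL : α ∈ L) :
    u ∈ h78_U p F :=
  h78_FK_of p
    (fun M πM hπM u' hu' hNF α hα s hsM c hc hc1 =>
      h36_kummer_break p M πM hπM u' hu' hNF α hα s hsM c hc hc1)
    hkill F L hF hL hFL hFt hLpts hfaith u α hu hu0 hα hαL

end Fermat.Agent.S56
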