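/-
S56 / W3 E-IRR, row IRR-5 FRONT (`sk_irr_front`), hypothesis form over D1b
(`sk_normal_form_deep` for `F₁`): every `𝔽_p`-character `ℓ ∘ c_a` of `G_{F₁}` has a Kummer
generator `α ∈ L` over `F₁` whose class `u = α ^ p` is in deep normal form.
IRR-3 (`h92_irr3_kummer`) + E0 (`h81_flat_datum`) + FK (`h78_FK`) for `F₁ ≤ F₁ ⊔ L_a`.
-/
import Fermat.Agent.S56.h78_IrrDefs
import Fermat.Agent.S56.h78_FKFinal
import Fermat.Agent.S56.h81_FlatDatum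
import Fermat.Agent.S56.h92_IrrKummer
import Fermat.Agent.S56.h28_IrrHZero

set_option autoImplicit false

open Coalgebra WithConv

namespace Fermat.Agent.S56

variable (p : ℕ) [Fact p.Prime]

local notation "Ω" => PadicAlgCl p
local notation "Fld" => IntermediateField ℚ_[p] (PadicAlgCl p)

/-- the compositum of two stable fields is stable. -/
theorem h47_stable_sup (E₁ E₂ : Fld) (h₁ : h78_Stable p E₁) (h₂ : h78_Stable p E₂) :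
    h78_Stable p (E₁ ⊔ E₂) := by
  intro g z hz
  have h3 : g z ∈ (E₁ ⊔ E₂).map (g : Ω →ₐ[ℚ_[p]] Ω) := ⟨z, hz, rfl⟩
  rw [IntermediateField.map_sup] at h3
  have h4 : E₁.map (g : Ω →ₐ[ℚ_[p]] Ω) ⊔ E₂.map (g : Ω →ₐ[ℚ_[p]] Ω) ≤ E₁ ⊔ E₂ := by
    refine sup_le ?_ ?_
    · rintro x ⟨y, hy, rfl⟩
      exact (le_sup_left : E₁ ≤ E₁ ⊔ E₂) (h₁ g y hy)
    · rintro x ⟨y, hy, rfl⟩
      exact (le_sup_right : E₂ ≤ E₁ ⊔ E₂) (h₂ g y hy)
  exact h4 h3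

/-- an automorphism fixing two fields pointwise fixes their compositum. -/
theorem h47_fix_sup (E₁ E₂ : Fld) (g : h78_G p) (h₁ : ∀ z ∈ E₁, g z = z)
    (h₂ : ∀ z ∈ E₂, g z = z) : ∀ z ∈ E₁ ⊔ E₂, g z = z := by
  have key : ∀ x : Ω, g x = x → x ∈ IntermediateField.fixedField (Subgroup.zpowers g) := by
    intro x hx
    rw [IntermediateField.mem_fixedField_iff]
    have h1 : Subgroup.zpowers g ≤ MulAction.stabilizer (h78_G p) x := by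
      rw [Subgroup.zpowers_le, MulAction.mem_stabilizer_iff]
      exact hx
    intro f hf
    exact MulAction.mem_stabilizer_iff.mp (h1 hf)
  have hle : E₁ ⊔ E₂ ≤ IntermediateField.fixedField (Subgroup.zpowers g) :=
    sup_le (fun x hx => key x (h₁ x hx)) (fun x hx => key x (h₂ x hx))
  intro z hz
  exact (IntermediateField.mem_fixedField_iff _ z).mp (hle hz) g (Subgroup.mem_zpowers g)

/-- **IRR-5 FRONT** (`sk_irr_front`), with D1b for `F₁` as a hypothesis (`hNFD`, the shape of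
`sk_normal_form_deep p D.F₁ D.π₁ D.unif hres`). -/
theorem h47_irr_front_of {k : Type} [Field k] [Finite k] [CharP k p]
    (rb : h78_G p →* Matrix (Fin 2) (Fin 2) k)
    (W : Submodule k (h78_G p → Matrix (Fin 2) (Fin 2) k))
    (hcoc : ∀ a ∈ W, ∀ s t, a (s * t) = a s * rb t + rb s * a t)
    (hflat : ∀ a ∈ W, a ≠ 0 → h78_LocFlat p rb a)
    (L : Fld) (D : h78_IrrData p rb W L)
    (hNFD : ∀ u : Ω, u ∈ D.F₁ → ‖u - 1‖ ≤ (p : ℝ)⁻¹ →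
      ∃ w ∈ D.F₁, w ≠ 0 ∧ ‖u * w ^ p - 1‖ ≤ (p : ℝ)⁻¹ ∧
        ((p : ℝ) ^ p * ‖u * w ^ p - 1‖ ^ (p - 1) ≤ 1 ∨
          ∀ z ∈ D.F₁, z ≠ 0 → ‖u * w ^ p - 1‖ ≠ ‖z‖ ^ p))
    (a : h78_G p → Matrix (Fin 2) (Fin 2) k) (ha : a ∈ W)
    (ℓ : Matrix (Fin 2) (Fin 2) k →+ ZMod p) :
    ∃ u α : Ω, u ∈ D.F₁ ∧ u ≠ 0 ∧ α ^ p = u ∧ α ∈ L ∧
      (∀ s ∈ D.F₁.fixingSubgroup, s α = D.ζ ^ (ℓ (a s * rb s⁻¹)).val * α) ∧
      ‖u - 1‖ ≤ (p : ℝ)⁻¹ ∧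
      ((p : ℝ) ^ p * ‖u - 1‖ ^ (p - 1) ≤ 1 ∨ ∀ z ∈ D.F₁, z ≠ 0 → ‖u - 1‖ ≠ ‖z‖ ^ p) := by
  classical
  have hp : p.Prime := Fact.out
  have hfixF : ∀ s : h78_G p, s ∈ D.F₁.fixingSubgroup ↔ ∀ z ∈ D.F₁, s z = z :=
    fun s => IntermediateField.mem_fixingSubgroup_iff D.F₁ s
  by_cases ha0 : a = 0
  · refine ⟨1, 1, D.F₁.one_mem, one_ne_zero, one_pow _, L.one_mem, ?_, ?_, Or.inl ?_⟩
    · intro s _
      rw [ha0, Pi.zero_apply, zero_mul, map_zero, ZMod.val_zero, pow_zero, one_mul, map_one]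
    · rw [sub_self, norm_zero]; positivity
    · rw [sub_self, norm_zero, zero_pow (by have := hp.two_le; omega), mul_zero]
      exact zero_le_one
  obtain ⟨H, iR, iB, iC, iF, iM, La, iLa, hkill, hLaS, hpts, hLa, hLapts, -⟩ :=
    h81_flat_datum p rb a (hcoc a ha) (hflat a ha ha0)
  have := D.fin
  -- the character
  obtain ⟨χ, hχ⟩ : ∃ χ : h78_G p → ZMod p, χ = fun s => ℓ (a s * rb s⁻¹) := ⟨_, rfl⟩
  have hadd : ∀ s t : h78_G p, (∀ z ∈ D.F₁, s z = z) → (∀ z ∈ D.F₁, t z = z) →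
      χ (s * t) = χ s + χ t := by
    intro s t hs _
    obtain ⟨c, hc⟩ := D.scalar s ((hfixF s).2 hs)
    rw [hχ]
    show ℓ (a (s * t) * rb (s * t)⁻¹) = ℓ (a s * rb s⁻¹) + ℓ (a t * rb t⁻¹)
    rw [h28_c_mul_scalar rb a (hcoc a ha) s t c hc, map_add]
  -- the field `L' = F₁ ⊔ L_a`
  have hL'S : h78_Stable p (D.F₁ ⊔ La) := h47_stable_sup p D.F₁ La D.stable hLaS
  have hlev : ∀ t : h78_G p, (∀ z ∈ D.F₁ ⊔ La, t z = z) → χ t = 0 := by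
    intro t ht
    obtain ⟨h1, h2⟩ := (hLa t).1 (fun z hz => ht z ((le_sup_right : La ≤ D.F₁ ⊔ La) hz))
    rw [hχ]
    show ℓ (a t * rb t⁻¹) = 0
    rw [h2, zero_mul, map_zero]
  obtain ⟨u, α, huF, hu0, hαL', hαp, hα⟩ := h92_irr3_kummer p D.F₁ (D.F₁ ⊔ La) le_sup_left
    (fun s _ z hz => hL'S s z hz) D.ζ D.ζF D.ζp χ hadd hlev
  -- FK
  have hU : u ∈ h78_U p D.F₁ := h78_FK p hkill D.F₁ (D.F₁ ⊔ La) D.stable hL'S le_sup_left D.tame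
    (fun γ h => (le_sup_right : La ≤ D.F₁ ⊔ La) (hpts γ h))
    (fun g hgF hgpts => h47_fix_sup p D.F₁ La g hgF ((hLapts g).2 hgpts))
    u α huF hu0 hαp hαL'
  obtain ⟨-, -, w, hwF, hw0, hw⟩ := hU
  obtain ⟨w', hw'F, hw'0, hw'1, hw'2⟩ := hNFD (u * w ^ p) (D.F₁.mul_mem huF (pow_mem hwF p)) hw
  -- `L_a ≤ L`
  have hLaL : La ≤ L := by
    intro z hz
    apply h92_irr3_mem_of_fixed
    intro g hg
    have hgL : g ∈ L.fixingSubgroup := (IntermediateField.mem_fixingSubgroup_iff L g).2 hg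
    obtain ⟨h1, h2⟩ := D.triv g hgL
    exact (hLa g).2 ⟨h1, h2 a ha⟩ z hz
  have hL'L : D.F₁ ⊔ La ≤ L := sup_le D.le hLaL
  refine ⟨u * w ^ p * w' ^ p, α * w * w', ?_, ?_, ?_, ?_, ?_, hw'1, hw'2⟩
  · exact D.F₁.mul_mem (D.F₁.mul_mem huF (pow_mem hwF p)) (pow_mem hw'F p)
  · exact mul_ne_zero (mul_ne_zero hu0 (pow_ne_zero _ hw0)) (pow_ne_zero _ hw'0)
  · rw [mul_pow, mul_pow, hαp]
  · exact L.mul_mem (L.mul_mem (hL'L hαL') (D.le hwF)) (D.le hw'F)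
  · intro s hs
    have hsF := (hfixF s).1 hs
    have h1 := h92_irr3_mul_base p D.F₁ D.ζ χ α w hwF hα
    have h2 := h92_irr3_mul_base p D.F₁ D.ζ χ (α * w) w' hw'F h1
    have h3 := h2 s hsF
    rw [hχ] at h3
    exact h3

end Fermat.Agent.S56
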