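/-
S56 / W3-D1b (insurance copy): deep normal form below `p` (`sk_normal_form_deep`): a class
`u ≡ 1 mod p` of `F` has a representative which is either at the top level or at a level which
is not the norm of a `p`-th power.
-/
import Mathlib
import Fermat.Agent.S56.h5_KumBasic

set_option autoImplicit false

namespace Fermat.Agent.S56

variable (p : ℕ) [Fact p.Prime]

local notation "Ω" => PadicAlgCl p
local notation "Fld" => IntermediateField ℚ_[p] (PadicAlgCl p)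

/-- one improvement step: a `p`-th power norm below the top can be raised. -/
theorem h47_nfd_step (F : Fld)
    (hres : ∀ x ∈ F, ‖x‖ ≤ 1 → ∃ w ∈ F, ‖w‖ ≤ 1 ∧ ‖x - w ^ p‖ < 1)
    (u : Ω) (hu : u ∈ F) (hu1 : ‖u - 1‖ ≤ (p : ℝ)⁻¹)
    (h2 : 1 < (p : ℝ) ^ p * ‖u - 1‖ ^ (p - 1)) (z : Ω) (hz : z ∈ F) (hz0 : z ≠ 0)
    (hzu : ‖u - 1‖ = ‖z‖ ^ p) : ∃ w ∈ F, w ≠ 0 ∧ ‖u * w ^ p - 1‖ < ‖u - 1‖ := by
  have hp : p.Prime := Fact.out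
  have hppos : (0 : ℝ) < p := h5_p_pos p
  have hpinv : (p : ℝ)⁻¹ < 1 := h5_inv_p_lt_one p
  have hzpos : 0 < ‖z‖ := norm_pos_iff.2 hz0
  have hxpos : 0 < ‖u - 1‖ := by rw [hzu]; exact pow_pos hzpos p
  have hz1 : ‖z‖ < 1 := by
    by_contra hcon
    rw [not_lt] at hcon
    have h3 : 1 ≤ ‖z‖ ^ p := one_le_pow₀ hcon
    rw [← hzu] at h3
    linarith
  -- `p⁻¹ < ‖z‖ ^ (p - 1)`
  have hkey : (p : ℝ)⁻¹ < ‖z‖ ^ (p - 1) := by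
    by_contra hcon
    rw [not_lt] at hcon
    have h3 : (‖z‖ ^ (p - 1)) ^ p ≤ ((p : ℝ)⁻¹) ^ p :=
      pow_le_pow_left₀ (pow_nonneg hzpos.le _) hcon p
    have h4 : ‖u - 1‖ ^ (p - 1) = (‖z‖ ^ (p - 1)) ^ p := by
      rw [hzu, ← pow_mul, ← pow_mul, mul_comm]
    rw [h4] at h2
    have h5 : (p : ℝ) ^ p * (‖z‖ ^ (p - 1)) ^ p ≤ (p : ℝ) ^ p * ((p : ℝ)⁻¹) ^ p :=
      mul_le_mul_of_nonneg_left h3 (pow_nonneg hppos.le _)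
    have h6 : (p : ℝ) ^ p * ((p : ℝ)⁻¹) ^ p = 1 := by
      rw [← mul_pow, mul_inv_cancel₀ hppos.ne', one_pow]
    linarith
  -- the unit `c = -(u - 1) / z ^ p`
  obtain ⟨c, hc⟩ : ∃ c, c = -(u - 1) / z ^ p := ⟨_, rfl⟩
  have hcF : c ∈ F := by
    rw [hc]; exact F.div_mem (F.neg_mem (F.sub_mem hu F.one_mem)) (pow_mem hz p)
  have hc1 : ‖c‖ = 1 := by
    rw [hc, norm_div, norm_neg, norm_pow, hzu, div_self (pow_pos hzpos p).ne']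
  have hxc : u - 1 = -(c * z ^ p) := by
    rw [hc]; field_simp
  obtain ⟨b, hbF, hb1, hb⟩ := hres c hcF hc1.le
  obtain ⟨y, hy⟩ : ∃ y, y = b * z := ⟨_, rfl⟩
  have hyF : y ∈ F := by rw [hy]; exact F.mul_mem hbF hz
  have hyz : ‖y‖ ≤ ‖z‖ := by
    rw [hy, norm_mul]
    calc ‖b‖ * ‖z‖ ≤ 1 * ‖z‖ := mul_le_mul_of_nonneg_right hb1 hzpos.le
      _ = ‖z‖ := one_mul _
  have hy1 : ‖y‖ < 1 := lt_of_le_of_lt hyz hz1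
  have hw1 : ‖1 + y‖ = 1 := by
    rw [IsUltrametricDist.norm_add_eq_max_of_norm_ne_norm (by rw [norm_one]; exact hy1.ne'),
      norm_one, max_eq_left hy1.le]
  refine ⟨1 + y, F.add_mem F.one_mem hyF, ?_, ?_⟩
  · intro h0; rw [h0, norm_zero] at hw1; exact zero_ne_one hw1
  -- the remainder
  obtain ⟨R, hR⟩ : ∃ R, R = (1 + y) ^ p - 1 - y ^ p := ⟨_, rfl⟩
  have hRn : ‖R‖ ≤ (p : ℝ)⁻¹ * ‖y‖ := by rw [hR]; exact h5_binom_one p y hy1.le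
  have hRlt : ‖R‖ < ‖z‖ ^ p := by
    have h3 : (p : ℝ)⁻¹ * ‖y‖ ≤ (p : ℝ)⁻¹ * ‖z‖ :=
      mul_le_mul_of_nonneg_left hyz (inv_nonneg.2 hppos.le)
    have h4 : (p : ℝ)⁻¹ * ‖z‖ < ‖z‖ ^ (p - 1) * ‖z‖ := mul_lt_mul_of_pos_right hkey hzpos
    have h5 : ‖z‖ ^ (p - 1) * ‖z‖ = ‖z‖ ^ p := by
      rw [← pow_succ, Nat.sub_add_cancel hp.one_le]
    linarith
  have hyp : ‖y ^ p‖ ≤ ‖z‖ ^ p := by
    rw [norm_pow]; exact pow_le_pow_left₀ (norm_nonneg _) hyz p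
  have hlead : ‖(u - 1) + y ^ p‖ < ‖z‖ ^ p := by
    have e : (u - 1) + y ^ p = -(z ^ p * (c - b ^ p)) := by
      rw [hxc, hy, mul_pow]; ring
    rw [e, norm_neg, norm_mul, norm_pow]
    calc ‖z‖ ^ p * ‖c - b ^ p‖ < ‖z‖ ^ p * 1 := mul_lt_mul_of_pos_left hb (pow_pos hzpos p)
      _ = ‖z‖ ^ p := mul_one _
  have hsmall : ‖y ^ p + R‖ < 1 := by
    refine lt_of_le_of_lt (IsUltrametricDist.norm_add_le_max _ _) (max_lt ?_ ?_)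
    · exact lt_of_le_of_lt hyp (by rw [← hzu]; linarith)
    · exact lt_trans hRlt (by rw [← hzu]; linarith)
  have e : u * (1 + y) ^ p - 1 = (((u - 1) + y ^ p) + R) + (u - 1) * (y ^ p + R) := by
    rw [hR]; ring
  rw [e, hzu]
  refine lt_of_le_of_lt (IsUltrametricDist.norm_add_le_max _ _) (max_lt ?_ ?_)
  · exact lt_of_le_of_lt (IsUltrametricDist.norm_add_le_max _ _) (max_lt hlead hRlt)
  · rw [norm_mul, hzu]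
    calc ‖z‖ ^ p * ‖y ^ p + R‖ < ‖z‖ ^ p * 1 :=
          mul_lt_mul_of_pos_left hsmall (pow_pos hzpos p)
      _ = ‖z‖ ^ p := mul_one _

/-- the improvement loop, by downward induction on the level. -/
theorem h47_nfd_loop (F : Fld) (πF : Ω) (hπF : h78_IsUnif p F πF)
    (hres : ∀ x ∈ F, ‖x‖ ≤ 1 → ∃ w ∈ F, ‖w‖ ≤ 1 ∧ ‖x - w ^ p‖ < 1)
    (N : ℕ) (hN : (p : ℝ) ^ p * ‖πF‖ ^ N ≤ 1) (d : ℕ) :
    ∀ n : ℕ, N ≤ n + d → ∀ u : Ω, u ∈ F → ‖u - 1‖ ≤ (p : ℝ)⁻¹ → ‖u - 1‖ ≤ ‖πF‖ ^ n →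
      ∃ w ∈ F, w ≠ 0 ∧ ‖u * w ^ p - 1‖ ≤ (p : ℝ)⁻¹ ∧
        ((p : ℝ) ^ p * ‖u * w ^ p - 1‖ ^ (p - 1) ≤ 1 ∨
          ∀ z ∈ F, z ≠ 0 → ‖u * w ^ p - 1‖ ≠ ‖z‖ ^ p) := by
  have hp : p.Prime := Fact.out
  have hppos : (0 : ℝ) < p := h5_p_pos p
  have hpinv : (p : ℝ)⁻¹ < 1 := h5_inv_p_lt_one p
  obtain ⟨hπmem, hπ0, hπ1, hπv⟩ := hπF
  have hπpos : 0 < ‖πF‖ := norm_pos_iff.2 hπ0
  induction d with
  | zero =>
    intro n hn u hu hu1 hun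
    refine ⟨1, F.one_mem, one_ne_zero, by rw [one_pow, mul_one]; exact hu1, Or.inl ?_⟩
    rw [one_pow, mul_one]
    have h1 : ‖u - 1‖ ≤ ‖πF‖ ^ N :=
      le_trans hun (pow_le_pow_of_le_one hπpos.le hπ1.le (by omega))
    have h2 : ‖u - 1‖ ≤ 1 := le_trans hu1 hpinv.le
    have h3 : ‖u - 1‖ ^ (p - 1) ≤ ‖u - 1‖ := by
      have h4 : ‖u - 1‖ ^ (p - 1) ≤ ‖u - 1‖ ^ 1 :=
        pow_le_pow_of_le_one (norm_nonneg _) h2 (by have := hp.two_le; omega)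
      rwa [pow_one] at h4
    calc (p : ℝ) ^ p * ‖u - 1‖ ^ (p - 1) ≤ (p : ℝ) ^ p * ‖πF‖ ^ N :=
          mul_le_mul_of_nonneg_left (le_trans h3 h1) (pow_nonneg hppos.le _)
      _ ≤ 1 := hN
  | succ d ih =>
    intro n hn u hu hu1 hun
    by_cases htop : (p : ℝ) ^ p * ‖u - 1‖ ^ (p - 1) ≤ 1
    · exact ⟨1, F.one_mem, one_ne_zero, by rw [one_pow, mul_one]; exact hu1,
        Or.inl (by rw [one_pow, mul_one]; exact htop)⟩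
    by_cases hpw : ∀ z ∈ F, z ≠ 0 → ‖u - 1‖ ≠ ‖z‖ ^ p
    · exact ⟨1, F.one_mem, one_ne_zero, by rw [one_pow, mul_one]; exact hu1,
        Or.inr (by rw [one_pow, mul_one]; exact hpw)⟩
    rw [not_le] at htop
    push Not at hpw
    obtain ⟨z, hz, hz0, hzu⟩ := hpw
    obtain ⟨w₁, hw₁, hw₁0, hlt⟩ := h47_nfd_step p F hres u hu hu1 htop z hz hz0 hzu
    have hu'F : u * w₁ ^ p ∈ F := F.mul_mem hu (pow_mem hw₁ p)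
    have hu'1 : ‖u * w₁ ^ p - 1‖ ≤ (p : ℝ)⁻¹ := le_trans hlt.le hu1
    have hu'n : ‖u * w₁ ^ p - 1‖ ≤ ‖πF‖ ^ (n + 1) := by
      by_cases h0 : u * w₁ ^ p - 1 = 0
      · rw [h0, norm_zero]; exact pow_nonneg hπpos.le _
      obtain ⟨m, hm⟩ := hπv _ (F.sub_mem hu'F F.one_mem) h0
      have h1 : ‖πF‖ ^ m < ‖πF‖ ^ (n : ℤ) := by
        rw [← hm, zpow_natCast]; exact lt_of_lt_of_le hlt hun
      have h2 : (n : ℤ) < m := h5_zpow_lt hπpos hπ1 h1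
      obtain ⟨k, hk⟩ : ∃ k : ℕ, m = (n + 1 : ℕ) + (k : ℤ) :=
        ⟨(m - (n + 1 : ℕ)).toNat, by push_cast; omega⟩
      rw [hm, hk, zpow_add₀ hπpos.ne', zpow_natCast, zpow_natCast]
      calc ‖πF‖ ^ (n + 1) * ‖πF‖ ^ k ≤ ‖πF‖ ^ (n + 1) * 1 :=
            mul_le_mul_of_nonneg_left (pow_le_one₀ hπpos.le hπ1.le) (pow_nonneg hπpos.le _)
        _ = ‖πF‖ ^ (n + 1) := mul_one _
    obtain ⟨w₂, hw₂, hw₂0, hle, hor⟩ := ih (n + 1) (by omega) (u * w₁ ^ p) hu'F hu'1 hu'n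
    have e : u * (w₁ * w₂) ^ p = u * w₁ ^ p * w₂ ^ p := by rw [mul_pow, mul_assoc]
    refine ⟨w₁ * w₂, F.mul_mem hw₁ hw₂, mul_ne_zero hw₁0 hw₂0, ?_, ?_⟩
    · rw [e]; exact hle
    · rw [e]; exact hor

/-- **W3-D1b** (`sk_normal_form_deep`): the deep normal form below `p`. -/
theorem h47_normal_form_deep (F : Fld) (πF : Ω) (hπF : h78_IsUnif p F πF)
    (hres : ∀ x ∈ F, ‖x‖ ≤ 1 → ∃ w ∈ F, ‖w‖ ≤ 1 ∧ ‖x - w ^ p‖ < 1)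
    (u : Ω) (hu : u ∈ F) (hu1 : ‖u - 1‖ ≤ (p : ℝ)⁻¹) :
    ∃ w ∈ F, w ≠ 0 ∧ ‖u * w ^ p - 1‖ ≤ (p : ℝ)⁻¹ ∧
      ((p : ℝ) ^ p * ‖u * w ^ p - 1‖ ^ (p - 1) ≤ 1 ∨
        ∀ z ∈ F, z ≠ 0 → ‖u * w ^ p - 1‖ ≠ ‖z‖ ^ p) := by
  have hppos : (0 : ℝ) < p := h5_p_pos p
  have hpinv : (p : ℝ)⁻¹ < 1 := h5_inv_p_lt_one p
  have hπ1 : ‖πF‖ < 1 := hπF.2.2.1
  have hpp : (0 : ℝ) < (p : ℝ) ^ p := pow_pos hppos p
  obtain ⟨N, hN⟩ := exists_pow_lt_of_lt_one (inv_pos.2 hpp) hπ1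
  have hN' : (p : ℝ) ^ p * ‖πF‖ ^ N ≤ 1 := by
    have h1 : (p : ℝ) ^ p * ‖πF‖ ^ N ≤ (p : ℝ) ^ p * ((p : ℝ) ^ p)⁻¹ :=
      mul_le_mul_of_nonneg_left hN.le hpp.le
    rwa [mul_inv_cancel₀ hpp.ne'] at h1
  refine h47_nfd_loop p F πF hπF hres N hN' N 0 (by omega) u hu hu1 ?_
  rw [pow_zero]; exact le_trans hu1 hpinv.le

end Fermat.Agent.S56
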