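/-
S56 / W3 IRR-5 FRONT, closed form (`sk_irr_front` verbatim): every `𝔽_p`-character `ℓ ∘ c_a` of
`G_{F₁}` has a Kummer generator `α ∈ L` over `F₁` whose class `u = α ^ p` is in deep normal form.
-/
import Fermat.Agent.S56.h47_IrrFront
import Fermat.Agent.S56.h47_KumNFDeep
import Fermat.Agent.S56.h94_ResFin

set_option autoImplicit false

open Coalgebra WithConv

namespace Fermat.Agent.S56

variable (p : ℕ) [Fact p.Prime]

local notation "Ω" => PadicAlgCl p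
local notation "Fld" => IntermediateField ℚ_[p] (PadicAlgCl p)

/-- **IRR-5 FRONT** (`sk_irr_front`, verbatim). -/
theorem h47_irr_front {k : Type} [Field k] [Finite k] [CharP k p]
    (rb : h78_G p →* Matrix (Fin 2) (Fin 2) k)
    (W : Submodule k (h78_G p → Matrix (Fin 2) (Fin 2) k))
    (hcoc : ∀ a ∈ W, ∀ s t, a (s * t) = a s * rb t + rb s * a t)
    (hflat : ∀ a ∈ W, a ≠ 0 → h78_LocFlat p rb a)
    (L : Fld) [FiniteDimensional ℚ_[p] L] (hL : h78_Stable p L) (D : h78_IrrData p rb W L)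
    (a : h78_G p → Matrix (Fin 2) (Fin 2) k) (ha : a ∈ W)
    (ℓ : Matrix (Fin 2) (Fin 2) k →+ ZMod p) :
    ∃ u α : Ω, u ∈ D.F₁ ∧ u ≠ 0 ∧ α ^ p = u ∧ α ∈ L ∧
      (∀ s ∈ D.F₁.fixingSubgroup, s α = D.ζ ^ (ℓ (a s * rb s⁻¹)).val * α) ∧
      ‖u - 1‖ ≤ (p : ℝ)⁻¹ ∧
      ((p : ℝ) ^ p * ‖u - 1‖ ^ (p - 1) ≤ 1 ∨ ∀ z ∈ D.F₁, z ≠ 0 → ‖u - 1‖ ≠ ‖z‖ ^ p) :=
  have := D.fin
  h47_irr_front_of p rb W hcoc hflat L D
    (fun u hu hu1 => h47_normal_form_deep p D.F₁ D.π₁ D.unif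
      (fun x hx hx1 => h94_exists_pth_root_mod p D.F₁ x hx hx1) u hu hu1) a ha ℓ

end Fermat.Agent.S56
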