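/-
S56 / W3 / E-IRR row IRR-5 : the character-level local core.

For a finite subfield `F ≤ L` of `Ω` with `ζ_p ∈ F`, characters are functions `χ : h78_G p → ZMod p`
(only their values on `Gal(Ω/F)` matter); `h58_KumNF p F L ζ χ` says that `χ` has a Kummer
generator in `L` whose class is in deep normal form (the conclusion of the row FRONT).

* `h58_irr5_top`   : a TOP class is trivial on `Gal(Ω/F) ⊓ J_L`;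
* `h58_irr5_level` : a class whose character satisfies the quadratic `τ`-recurrence is TOP or sits
  at a level `i` with `θ^(2i) ≡ n₁ θ^i + n₀`;
* `h58_irr5_none`  : no such level  ⟹  trivial on `Gal(Ω/F) ⊓ J_L`;
* `h58_irr5_rel`   : at most one such level and a residue field with `≤ p²` elements  ⟹  any three
  characters are linearly dependent on `Gal(Ω/F) ⊓ J_L`;
* `h58_irr5_index` : (pure group theory) the common kernel then has index `≤ p²`.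
-/
import Fermat.Agent.S56.h58_Twisting
import Fermat.Agent.S56.h84_IrrLevel
import Fermat.Agent.S56.h92_IrrKummer
import Fermat.Agent.S56.h49_KumUnram

set_option autoImplicit false

namespace Fermat.Agent.S56

variable (p : ℕ) [Fact p.Prime]

local notation "Ω" => PadicAlgCl p
local notation "Fld" => IntermediateField ℚ_[p] (PadicAlgCl p)

/-- `χ` has a Kummer generator `α ∈ L` over `F` whose class `u = α^p` is in deep normal form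
(`u ≡ 1 mod p`, and TOP or at a level prime to `p`). -/
def h58_KumNF (F L : Fld) (ζ : Ω) (χ : h78_G p → ZMod p) : Prop :=
  ∃ u α : Ω, u ∈ F ∧ u ≠ 0 ∧ α ^ p = u ∧ α ∈ L ∧
    (∀ s ∈ F.fixingSubgroup, s α = ζ ^ (χ s).val * α) ∧
    ‖u - 1‖ ≤ (p : ℝ)⁻¹ ∧
    ((p : ℝ) ^ p * ‖u - 1‖ ^ (p - 1) ≤ 1 ∨ ∀ z ∈ F, z ≠ 0 → ‖u - 1‖ ≠ ‖z‖ ^ p)

/-! ## TOP classes are unramified -/

theorem h58_irr5_top (F L : Fld) [FiniteDimensional ℚ_[p] F] [FiniteDimensional ℚ_[p] L]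
    (hFL : F ≤ L) (ζ : Ω) (hζF : ζ ∈ F) (hζp : ζ ^ p = 1) (hζ1 : ζ ≠ 1)
    (χ : h78_G p → ZMod p) (u α : Ω) (hu : u ∈ F) (hu0 : u ≠ 0) (hα : α ^ p = u) (hαL : α ∈ L)
    (hgen : ∀ s : h78_G p, (∀ z ∈ F, s z = z) → s α = ζ ^ (χ s).val * α)
    (htop : (p : ℝ) ^ p * ‖u - 1‖ ^ (p - 1) ≤ 1) :
    ∀ s ∈ F.fixingSubgroup ⊓ h78_J p L, χ s = 0 := by
  intro s hs
  obtain ⟨hsF, hsJ⟩ := Subgroup.mem_inf.1 hs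
  have hp : p.Prime := Fact.out
  have : NeZero p := ⟨hp.ne_zero⟩
  have hmem := h49_kummer_unram p F L hFL ζ hζF hζp hζ1 u hu htop α hα hαL
  rw [IntermediateField.adjoin_union, IntermediateField.adjoin_self,
    IntermediateField.adjoin_self] at hmem
  have hs2 : s ∈ (F ⊔ h78_K0 p L).fixingSubgroup := by
    rw [IntermediateField.fixingSubgroup_sup]
    exact Subgroup.mem_inf.2 ⟨hsF, hsJ⟩
  have hsα : s α = α := (IntermediateField.mem_fixingSubgroup_iff _ s).1 hs2 α hmem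
  have hα0 : α ≠ 0 := by
    rintro rfl
    rw [zero_pow hp.ne_zero] at hα
    exact hu0 hα.symm
  have hsF' : ∀ z ∈ F, s z = z := (IntermediateField.mem_fixingSubgroup_iff F s).1 hsF
  have h1 : ζ ^ (χ s).val = 1 := by
    have h2 := hgen s hsF'
    rw [hsα] at h2
    exact (mul_right_cancel₀ hα0 (by rw [one_mul]; exact h2)).symm
  have hprim : IsPrimitiveRoot ζ p := by
    have h5 := IsPrimitiveRoot.orderOf ζ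
    rwa [orderOf_eq_prime hζp hζ1] at h5
  have h3 : p ∣ (χ s).val := (hprim.pow_eq_one_iff_dvd _).1 h1
  have h4 : (χ s).val = 0 := Nat.eq_zero_of_dvd_of_lt h3 (ZMod.val_lt _)
  exact (ZMod.val_eq_zero _).1 h4

/-! ## The quadratic recurrence -/

/-- from the recurrence `nw² χ(τ⁻² s τ²) = n₁ nw χ(τ⁻¹ s τ) + n₀ χ(s)` of a character to the
relation `τ²u = (τu)^n₁ u^n₀ z^p` of its Kummer class. -/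
theorem h58_irr5_rec2 (F : Fld) (ζ : Ω) (hζp : ζ ^ p = 1)
    (τ : h78_G p) (hτF : ∀ z ∈ F, τ z ∈ F) (nw : ℕ) (hτζ : τ ζ = ζ ^ nw) (n₁ n₀ : ℕ)
    (χ : h78_G p → ZMod p) (α : Ω) (hα0 : α ≠ 0)
    (hgen : ∀ s : h78_G p, (∀ z ∈ F, s z = z) → s α = ζ ^ (χ s).val * α)
    (hrec : ∀ s : h78_G p, (∀ z ∈ F, s z = z) →
      (nw : ZMod p) * ((nw : ZMod p) * χ (τ⁻¹ * (τ⁻¹ * s * τ) * τ))
        = (n₁ : ZMod p) * ((nw : ZMod p) * χ (τ⁻¹ * s * τ)) + (n₀ : ZMod p) * χ s) :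
    ∃ z ∈ F, τ (τ (α ^ p)) = (τ (α ^ p)) ^ n₁ * (α ^ p) ^ n₀ * z ^ p := by
  have g1 := h92_irr3_twist p F ζ hζp χ α hgen τ hτF nw hτζ
  have g2 := h92_irr3_twist p F ζ hζp (fun s => (nw : ZMod p) * χ (τ⁻¹ * s * τ)) (τ α) g1 τ hτF
    nw hτζ
  have g3 := h92_irr3_mul p F ζ hζp _ _ ((τ α) ^ n₁) (α ^ n₀)
    (h92_irr3_pow p F ζ hζp _ (τ α) g1 n₁) (h92_irr3_pow p F ζ hζp χ α hgen n₀)
  have g2' : ∀ s : h78_G p, (∀ z ∈ F, s z = z) → s (τ (τ α))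
      = ζ ^ ((n₁ : ZMod p) * ((nw : ZMod p) * χ (τ⁻¹ * s * τ)) + (n₀ : ZMod p) * χ s).val
        * τ (τ α) := by
    intro s hs
    have h := g2 s hs
    beta_reduce at h
    rw [hrec s hs] at h
    exact h
  have hne : (τ α) ^ n₁ * α ^ n₀ ≠ 0 :=
    mul_ne_zero (pow_ne_zero _ ((map_ne_zero_iff τ τ.injective).2 hα0)) (pow_ne_zero _ hα0)
  obtain ⟨w, hwF, hw⟩ := h92_irr3_unique p F ζ _ ((τ α) ^ n₁ * α ^ n₀) (τ (τ α)) hne g3 g2'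
  refine ⟨w, hwF, ?_⟩
  rw [map_pow, map_pow, hw, mul_pow, mul_pow, ← pow_mul, ← pow_mul, ← pow_mul, ← pow_mul,
    mul_comm n₁ p, mul_comm n₀ p]

/-- the level dichotomy of a class whose character satisfies the quadratic recurrence. -/
theorem h58_irr5_level (F : Fld) (ζ : Ω) (hζp : ζ ^ p = 1)
    (π : Ω) (hπ : h78_IsUnif p F π)
    (τ : h78_G p) (hτF : ∀ z ∈ F, τ z ∈ F) (hτres : ∀ x ∈ F, ‖x‖ ≤ 1 → ‖τ x - x‖ < 1)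
    (θ : Ω) (hθ : ‖τ π - θ * π‖ < ‖π‖) (nw : ℕ) (hτζ : τ ζ = ζ ^ nw) (n₁ n₀ : ℕ)
    (χ : h78_G p → ZMod p) (u α : Ω) (hu : u ∈ F) (hu0 : u ≠ 0) (hα : α ^ p = u)
    (hgen : ∀ s : h78_G p, (∀ z ∈ F, s z = z) → s α = ζ ^ (χ s).val * α)
    (hu1 : ‖u - 1‖ ≤ (p : ℝ)⁻¹)
    (hdich : (p : ℝ) ^ p * ‖u - 1‖ ^ (p - 1) ≤ 1 ∨ ∀ z ∈ F, z ≠ 0 → ‖u - 1‖ ≠ ‖z‖ ^ p)
    (hrec : ∀ s : h78_G p, (∀ z ∈ F, s z = z) →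
      (nw : ZMod p) * ((nw : ZMod p) * χ (τ⁻¹ * (τ⁻¹ * s * τ) * τ))
        = (n₁ : ZMod p) * ((nw : ZMod p) * χ (τ⁻¹ * s * τ)) + (n₀ : ZMod p) * χ s) :
    (p : ℝ) ^ p * ‖u - 1‖ ^ (p - 1) ≤ 1 ∨
      ∃ i : ℕ, ‖u - 1‖ = ‖π‖ ^ i ∧ ¬ p ∣ i ∧ ‖π‖ ^ i ≤ (p : ℝ)⁻¹ ∧
        1 < (p : ℝ) ^ p * (‖π‖ ^ i) ^ (p - 1) ∧
        ‖θ ^ i * θ ^ i - (n₁ : Ω) * θ ^ i - (n₀ : Ω)‖ < 1 := by
  have hp : p.Prime := Fact.out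
  by_cases htop : (p : ℝ) ^ p * ‖u - 1‖ ^ (p - 1) ≤ 1
  · exact Or.inl htop
  right
  have h2 : 1 < (p : ℝ) ^ p * ‖u - 1‖ ^ (p - 1) := not_le.1 htop
  have h3 : ∀ z ∈ F, z ≠ 0 → ‖u - 1‖ ≠ ‖z‖ ^ p := hdich.resolve_left htop
  have h1 : ‖u - 1‖ < 1 := lt_of_le_of_lt hu1 (h5_inv_p_lt_one p)
  have hα0 : α ≠ 0 := by
    rintro rfl
    rw [zero_pow hp.ne_zero] at hα
    exact hu0 hα.symm
  obtain ⟨z, hz, hrel⟩ := h58_irr5_rec2 p F ζ hζp τ hτF nw hτζ n₁ n₀ χ α hα0 hgen hrec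
  rw [hα] at hrel
  obtain ⟨i, hi, hpi, htopi, hlev⟩ :=
    h84_lev_nf_tau2 p F π hπ τ hτF hτres θ hθ u hu h1 h2 h3 n₁ n₀ z hz hrel
  exact ⟨i, hi, hpi, by rw [← hi]; exact hu1, htopi, hlev⟩

/-- if no level satisfies the constraint, the character is trivial on `Gal(Ω/F) ⊓ J_L`. -/
theorem h58_irr5_none (F L : Fld) [FiniteDimensional ℚ_[p] F] [FiniteDimensional ℚ_[p] L]
    (hFL : F ≤ L) (ζ : Ω) (hζF : ζ ∈ F) (hζp : ζ ^ p = 1) (hζ1 : ζ ≠ 1)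
    (π : Ω) (hπ : h78_IsUnif p F π)
    (τ : h78_G p) (hτF : ∀ z ∈ F, τ z ∈ F) (hτres : ∀ x ∈ F, ‖x‖ ≤ 1 → ‖τ x - x‖ < 1)
    (θ : Ω) (hθ : ‖τ π - θ * π‖ < ‖π‖) (nw : ℕ) (hτζ : τ ζ = ζ ^ nw) (n₁ n₀ : ℕ)
    (hnone : ∀ i : ℕ, ¬ p ∣ i → ‖π‖ ^ i ≤ (p : ℝ)⁻¹ → 1 < (p : ℝ) ^ p * (‖π‖ ^ i) ^ (p - 1) →
      ¬ ‖θ ^ i * θ ^ i - (n₁ : Ω) * θ ^ i - (n₀ : Ω)‖ < 1)
    (χ : h78_G p → ZMod p) (hK : h58_KumNF p F L ζ χ)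
    (hrec : ∀ s ∈ F.fixingSubgroup,
      (nw : ZMod p) * ((nw : ZMod p) * χ (τ⁻¹ * (τ⁻¹ * s * τ) * τ))
        = (n₁ : ZMod p) * ((nw : ZMod p) * χ (τ⁻¹ * s * τ)) + (n₀ : ZMod p) * χ s) :
    ∀ s ∈ F.fixingSubgroup ⊓ h78_J p L, χ s = 0 := by
  obtain ⟨u, α, hu, hu0, hα, hαL, hgen, hu1, hdich⟩ := hK
  have hgen' : ∀ s : h78_G p, (∀ z ∈ F, s z = z) → s α = ζ ^ (χ s).val * α :=
    fun s hs => hgen s ((IntermediateField.mem_fixingSubgroup_iff F s).2 hs)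
  have hrec' : ∀ s : h78_G p, (∀ z ∈ F, s z = z) →
      (nw : ZMod p) * ((nw : ZMod p) * χ (τ⁻¹ * (τ⁻¹ * s * τ) * τ))
        = (n₁ : ZMod p) * ((nw : ZMod p) * χ (τ⁻¹ * s * τ)) + (n₀ : ZMod p) * χ s :=
    fun s hs => hrec s ((IntermediateField.mem_fixingSubgroup_iff F s).2 hs)
  rcases h58_irr5_level p F ζ hζp π hπ τ hτF hτres θ hθ nw hτζ n₁ n₀ χ u α hu hu0 hα hgen' hu1
    hdich hrec' with htop | ⟨i, -, hpi, hi1, htopi, hlev⟩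
  · exact h58_irr5_top p F L hFL ζ hζF hζp hζ1 χ u α hu hu0 hα hαL hgen' htop
  · exact absurd hlev (hnone i hpi hi1 htopi)

/-! ## The pigeonhole in the residue field -/

/-- three elements of the subfield `{y : y^(p²) = y}` of a field of characteristic `p` are linearly
dependent over the prime field. -/
theorem h58_irr5_pigeon_field {K : Type} [Field K] [CharP K p] (y₁ y₂ y₃ : K)
    (h₁ : y₁ ^ (p ^ 2) = y₁) (h₂ : y₂ ^ (p ^ 2) = y₂) (h₃ : y₃ ^ (p ^ 2) = y₃) :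
    ∃ m₁ m₂ m₃ : ZMod p, (m₁ ≠ 0 ∨ m₂ ≠ 0 ∨ m₃ ≠ 0) ∧
      ZMod.castHom (dvd_refl p) K m₁ * y₁ + ZMod.castHom (dvd_refl p) K m₂ * y₂
        + ZMod.castHom (dvd_refl p) K m₃ * y₃ = 0 := by
  classical
  have hp : p.Prime := Fact.out
  have hp2 : 1 < p ^ 2 := by nlinarith [hp.two_le]
  set c : ZMod p →+* K := ZMod.castHom (dvd_refl p) K with hc
  have hcpow : ∀ a : ZMod p, c a ^ (p ^ 2) = c a := by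
    intro a
    rw [← map_pow, sq, pow_mul, ZMod.pow_card, ZMod.pow_card]
  let f : ZMod p × ZMod p × ZMod p → K := fun m => c m.1 * y₁ + c m.2.1 * y₂ + c m.2.2 * y₃
  let R : Finset K := (Polynomial.X ^ (p ^ 2) - Polynomial.X : Polynomial K).roots.toFinset
  have hne : (Polynomial.X ^ (p ^ 2) - Polynomial.X : Polynomial K) ≠ 0 :=
    FiniteField.X_pow_card_sub_X_ne_zero K hp2
  have hf : ∀ m ∈ (Finset.univ : Finset (ZMod p × ZMod p × ZMod p)), f m ∈ R := by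
    intro m _
    rw [Multiset.mem_toFinset, Polynomial.mem_roots hne, Polynomial.IsRoot.def,
      Polynomial.eval_sub, Polynomial.eval_pow, Polynomial.eval_X, sub_eq_zero]
    show (c m.1 * y₁ + c m.2.1 * y₂ + c m.2.2 * y₃) ^ (p ^ 2)
      = c m.1 * y₁ + c m.2.1 * y₂ + c m.2.2 * y₃
    rw [add_pow_char_pow, add_pow_char_pow, mul_pow, mul_pow, mul_pow, hcpow, hcpow, hcpow,
      h₁, h₂, h₃]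
  have hcard : R.card < (Finset.univ : Finset (ZMod p × ZMod p × ZMod p)).card := by
    have h1 : R.card ≤ p ^ 2 := by
      refine le_trans (Multiset.toFinset_card_le _) (le_trans (Polynomial.card_roots' _) ?_)
      rw [FiniteField.X_pow_card_sub_X_natDegree_eq K hp2]
    have h2 : (Finset.univ : Finset (ZMod p × ZMod p × ZMod p)).card = p * (p * p) := by
      rw [Finset.card_univ, Fintype.card_prod, Fintype.card_prod, ZMod.card]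
    rw [h2]
    have : p ^ 2 < p * (p * p) := by nlinarith [hp.two_le, sq_nonneg p]
    omega
  obtain ⟨m, -, m', -, hmm, hfm⟩ := Finset.exists_ne_map_eq_of_card_lt_of_maps_to hcard hf
  refine ⟨m.1 - m'.1, m.2.1 - m'.2.1, m.2.2 - m'.2.2, ?_, ?_⟩
  · by_contra hcon
    push Not at hcon
    obtain ⟨e1, e2, e3⟩ := hcon
    apply hmm
    exact Prod.ext (sub_eq_zero.1 e1) (Prod.ext (sub_eq_zero.1 e2) (sub_eq_zero.1 e3))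
  · have hfm' : c m.1 * y₁ + c m.2.1 * y₂ + c m.2.2 * y₃
        = c m'.1 * y₁ + c m'.2.1 * y₂ + c m'.2.2 * y₃ := hfm
    rw [map_sub, map_sub, map_sub]
    linear_combination hfm'

/-- the pigeonhole for three integral elements whose residues lie in `𝔽_{p²}`. -/
theorem h58_irr5_pigeon (b₁ b₂ b₃ : Ω) (h₁ : ‖b₁‖ ≤ 1) (h₂ : ‖b₂‖ ≤ 1) (h₃ : ‖b₃‖ ≤ 1)
    (hκ₁ : ‖b₁ ^ (p ^ 2) - b₁‖ < 1) (hκ₂ : ‖b₂ ^ (p ^ 2) - b₂‖ < 1)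
    (hκ₃ : ‖b₃ ^ (p ^ 2) - b₃‖ < 1) :
    ∃ M₁ M₂ M₃ : ℕ, ((M₁ : ZMod p) ≠ 0 ∨ (M₂ : ZMod p) ≠ 0 ∨ (M₃ : ZMod p) ≠ 0) ∧
      ‖(M₁ : Ω) * b₁ + (M₂ : Ω) * b₂ + (M₃ : Ω) * b₃‖ < 1 := by
  have hp : p.Prime := Fact.out
  have : NeZero p := ⟨hp.ne_zero⟩
  have hy : ∀ b : Ω, ‖b‖ ≤ 1 → ‖b ^ (p ^ 2) - b‖ < 1 → h58_rd p b ^ (p ^ 2) = h58_rd p b := by
    intro b hb hκ
    rw [← h58_rd_pow p hb]
    exact (h58_rd_eq_iff p (h58_norm_pow_le p hb _) hb).2 hκ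
  obtain ⟨m₁, m₂, m₃, hm, hrel⟩ := h58_irr5_pigeon_field p (h58_rd p b₁) (h58_rd p b₂)
    (h58_rd p b₃) (hy b₁ h₁ hκ₁) (hy b₂ h₂ hκ₂) (hy b₃ h₃ hκ₃)
  refine ⟨m₁.val, m₂.val, m₃.val, ?_, ?_⟩
  · rw [ZMod.natCast_zmod_val, ZMod.natCast_zmod_val, ZMod.natCast_zmod_val]
    exact hm
  · have hc : ∀ m : ZMod p, ZMod.castHom (dvd_refl p) (h58_k p) m = ((m.val : ℕ) : h58_k p) := by
      intro m
      conv_lhs => rw [← ZMod.natCast_zmod_val m]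
      rw [map_natCast]
    have hn : ∀ (m : ℕ) (b : Ω), ‖b‖ ≤ 1 → ‖(m : Ω) * b‖ ≤ 1 :=
      fun m b hb => h58_norm_mul_le p (h58_norm_natCast_le p m) hb
    have hm1 : ∀ (m : ℕ) (b : Ω), ‖b‖ ≤ 1 → h58_rd p ((m : Ω) * b) = (m : h58_k p) * h58_rd p b :=
      fun m b hb => by rw [h58_rd_mul p (h58_norm_natCast_le p m) hb, h58_rd_natCast]
    have hint : ‖(m₁.val : Ω) * b₁ + (m₂.val : Ω) * b₂ + (m₃.val : Ω) * b₃‖ ≤ 1 :=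
      h58_norm_add_le p (h58_norm_add_le p (hn _ _ h₁) (hn _ _ h₂)) (hn _ _ h₃)
    rw [← h58_rd_eq_zero_iff p hint, h58_rd_add p (h58_norm_add_le p (hn _ _ h₁) (hn _ _ h₂))
      (hn _ _ h₃), h58_rd_add p (hn _ _ h₁) (hn _ _ h₂), hm1 _ _ h₁, hm1 _ _ h₂, hm1 _ _ h₃,
      ← hc, ← hc, ← hc]
    exact hrel

/-! ## The relation among three characters -/

/-- a class in deep normal form whose character satisfies the recurrence is `≡ 1` to the level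
`i₀`, if `i₀` is the only level satisfying the constraint. -/
theorem h58_irr5_bound (F : Fld) (ζ : Ω) (hζp : ζ ^ p = 1)
    (π : Ω) (hπ : h78_IsUnif p F π)
    (τ : h78_G p) (hτF : ∀ z ∈ F, τ z ∈ F) (hτres : ∀ x ∈ F, ‖x‖ ≤ 1 → ‖τ x - x‖ < 1)
    (θ : Ω) (hθ : ‖τ π - θ * π‖ < ‖π‖) (nw : ℕ) (hτζ : τ ζ = ζ ^ nw) (n₁ n₀ : ℕ)
    (huniq : ∀ i i' : ℕ, ¬ p ∣ i → ‖π‖ ^ i ≤ (p : ℝ)⁻¹ →
      1 < (p : ℝ) ^ p * (‖π‖ ^ i) ^ (p - 1) →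
      ‖θ ^ i * θ ^ i - (n₁ : Ω) * θ ^ i - (n₀ : Ω)‖ < 1 →
      ¬ p ∣ i' → ‖π‖ ^ i' ≤ (p : ℝ)⁻¹ → 1 < (p : ℝ) ^ p * (‖π‖ ^ i') ^ (p - 1) →
      ‖θ ^ i' * θ ^ i' - (n₁ : Ω) * θ ^ i' - (n₀ : Ω)‖ < 1 → i = i')
    (i₀ : ℕ) (hi₀ : ¬ p ∣ i₀) (hi₀1 : ‖π‖ ^ i₀ ≤ (p : ℝ)⁻¹)
    (hi₀t : 1 < (p : ℝ) ^ p * (‖π‖ ^ i₀) ^ (p - 1))
    (hi₀l : ‖θ ^ i₀ * θ ^ i₀ - (n₁ : Ω) * θ ^ i₀ - (n₀ : Ω)‖ < 1)
    (χ : h78_G p → ZMod p) (u α : Ω) (hu : u ∈ F) (hu0 : u ≠ 0) (hα : α ^ p = u)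
    (hgen : ∀ s : h78_G p, (∀ z ∈ F, s z = z) → s α = ζ ^ (χ s).val * α)
    (hu1 : ‖u - 1‖ ≤ (p : ℝ)⁻¹)
    (hdich : (p : ℝ) ^ p * ‖u - 1‖ ^ (p - 1) ≤ 1 ∨ ∀ z ∈ F, z ≠ 0 → ‖u - 1‖ ≠ ‖z‖ ^ p)
    (hrec : ∀ s : h78_G p, (∀ z ∈ F, s z = z) →
      (nw : ZMod p) * ((nw : ZMod p) * χ (τ⁻¹ * (τ⁻¹ * s * τ) * τ))
        = (n₁ : ZMod p) * ((nw : ZMod p) * χ (τ⁻¹ * s * τ)) + (n₀ : ZMod p) * χ s) :
    ‖u - 1‖ ≤ ‖π‖ ^ i₀ := by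
  rcases h58_irr5_level p F ζ hζp π hπ τ hτF hτres θ hθ nw hτζ n₁ n₀ χ u α hu hu0 hα hgen hu1
    hdich hrec with htop | ⟨i, hi, hpi, hi1, htopi, hlev⟩
  · by_contra hlt
    have hlt' : ‖π‖ ^ i₀ < ‖u - 1‖ := not_le.1 hlt
    have h1 : (‖π‖ ^ i₀) ^ (p - 1) ≤ ‖u - 1‖ ^ (p - 1) :=
      pow_le_pow_left₀ (pow_nonneg (norm_nonneg _) _) hlt'.le _
    have h2 : (p : ℝ) ^ p * (‖π‖ ^ i₀) ^ (p - 1) ≤ (p : ℝ) ^ p * ‖u - 1‖ ^ (p - 1) :=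
      mul_le_mul_of_nonneg_left h1 (pow_nonneg (h5_p_pos p).le _)
    linarith
  · have e : i = i₀ := huniq i i₀ hpi hi1 htopi hlev hi₀ hi₀1 hi₀t hi₀l
    rw [hi, e]

theorem h58_irr5_mul2 {r : ℝ} (hr1 : r ≤ 1) (hr0 : 0 ≤ r) (x y a b : Ω)
    (hx : ‖x - 1 - a‖ ≤ r ^ 2) (hx' : ‖x - 1‖ ≤ r) (hy : ‖y - 1 - b‖ ≤ r ^ 2)
    (hy' : ‖y - 1‖ ≤ r) : ‖x * y - 1 - (a + b)‖ ≤ r ^ 2 ∧ ‖x * y - 1‖ ≤ r := by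
  have hrr : r ^ 2 ≤ r := by rw [sq]; exact mul_le_of_le_one_left hr0 hr1
  have hprod : ‖(x - 1) * (y - 1)‖ ≤ r ^ 2 := by
    rw [norm_mul, sq]; exact mul_le_mul hx' hy' (norm_nonneg _) hr0
  constructor
  · have e : x * y - 1 - (a + b) = ((x - 1 - a) + (y - 1 - b)) + (x - 1) * (y - 1) := by ring
    rw [e]
    refine le_trans (IsUltrametricDist.norm_add_le_max _ _) (max_le ?_ hprod)
    exact le_trans (IsUltrametricDist.norm_add_le_max _ _) (max_le hx hy)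
  · have e : x * y - 1 = ((x - 1) + (y - 1)) + (x - 1) * (y - 1) := by ring
    rw [e]
    refine le_trans (IsUltrametricDist.norm_add_le_max _ _) (max_le ?_ (le_trans hprod hrr))
    exact le_trans (IsUltrametricDist.norm_add_le_max _ _) (max_le hx' hy')

/-- **(REL)** if at most one level satisfies the constraint and the residue field of `F` has at
most `p²` elements, any three characters with Kummer generators in deep normal form and the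
quadratic recurrence are linearly dependent on `Gal(Ω/F) ⊓ J_L`.  (`hD1b` = the row D1b for `F`.) -/
theorem h58_irr5_rel (F L : Fld) [FiniteDimensional ℚ_[p] F] [FiniteDimensional ℚ_[p] L]
    (hFL : F ≤ L) (ζ : Ω) (hζF : ζ ∈ F) (hζp : ζ ^ p = 1) (hζ1 : ζ ≠ 1)
    (π : Ω) (hπ : h78_IsUnif p F π)
    (τ : h78_G p) (hτF : ∀ z ∈ F, τ z ∈ F) (hτres : ∀ x ∈ F, ‖x‖ ≤ 1 → ‖τ x - x‖ < 1)
    (θ : Ω) (hθ : ‖τ π - θ * π‖ < ‖π‖) (nw : ℕ) (hτζ : τ ζ = ζ ^ nw) (n₁ n₀ : ℕ)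
    (hD1b : ∀ u ∈ F, ‖u - 1‖ ≤ (p : ℝ)⁻¹ → ∃ w ∈ F, w ≠ 0 ∧ ‖u * w ^ p - 1‖ ≤ (p : ℝ)⁻¹ ∧
      ((p : ℝ) ^ p * ‖u * w ^ p - 1‖ ^ (p - 1) ≤ 1 ∨
        ∀ z ∈ F, z ≠ 0 → ‖u * w ^ p - 1‖ ≠ ‖z‖ ^ p))
    (hκ : ∀ x ∈ F, ‖x‖ ≤ 1 → ‖x ^ (p ^ 2) - x‖ < 1)
    (huniq : ∀ i i' : ℕ, ¬ p ∣ i → ‖π‖ ^ i ≤ (p : ℝ)⁻¹ →
      1 < (p : ℝ) ^ p * (‖π‖ ^ i) ^ (p - 1) →
      ‖θ ^ i * θ ^ i - (n₁ : Ω) * θ ^ i - (n₀ : Ω)‖ < 1 →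
      ¬ p ∣ i' → ‖π‖ ^ i' ≤ (p : ℝ)⁻¹ → 1 < (p : ℝ) ^ p * (‖π‖ ^ i') ^ (p - 1) →
      ‖θ ^ i' * θ ^ i' - (n₁ : Ω) * θ ^ i' - (n₀ : Ω)‖ < 1 → i = i')
    (χ₁ χ₂ χ₃ : h78_G p → ZMod p)
    (hK₁ : h58_KumNF p F L ζ χ₁) (hK₂ : h58_KumNF p F L ζ χ₂) (hK₃ : h58_KumNF p F L ζ χ₃)
    (hrec₁ : ∀ s ∈ F.fixingSubgroup,
      (nw : ZMod p) * ((nw : ZMod p) * χ₁ (τ⁻¹ * (τ⁻¹ * s * τ) * τ))
        = (n₁ : ZMod p) * ((nw : ZMod p) * χ₁ (τ⁻¹ * s * τ)) + (n₀ : ZMod p) * χ₁ s)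
    (hrec₂ : ∀ s ∈ F.fixingSubgroup,
      (nw : ZMod p) * ((nw : ZMod p) * χ₂ (τ⁻¹ * (τ⁻¹ * s * τ) * τ))
        = (n₁ : ZMod p) * ((nw : ZMod p) * χ₂ (τ⁻¹ * s * τ)) + (n₀ : ZMod p) * χ₂ s)
    (hrec₃ : ∀ s ∈ F.fixingSubgroup,
      (nw : ZMod p) * ((nw : ZMod p) * χ₃ (τ⁻¹ * (τ⁻¹ * s * τ) * τ))
        = (n₁ : ZMod p) * ((nw : ZMod p) * χ₃ (τ⁻¹ * s * τ)) + (n₀ : ZMod p) * χ₃ s) :
    ∃ m₁ m₂ m₃ : ZMod p, (m₁ ≠ 0 ∨ m₂ ≠ 0 ∨ m₃ ≠ 0) ∧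
      ∀ s ∈ F.fixingSubgroup ⊓ h78_J p L, m₁ * χ₁ s + m₂ * χ₂ s + m₃ * χ₃ s = 0 := by
  by_cases hex : ∃ i₀ : ℕ, ¬ p ∣ i₀ ∧ ‖π‖ ^ i₀ ≤ (p : ℝ)⁻¹ ∧
      1 < (p : ℝ) ^ p * (‖π‖ ^ i₀) ^ (p - 1) ∧
      ‖θ ^ i₀ * θ ^ i₀ - (n₁ : Ω) * θ ^ i₀ - (n₀ : Ω)‖ < 1
  swap
  · have hnone : ∀ i : ℕ, ¬ p ∣ i → ‖π‖ ^ i ≤ (p : ℝ)⁻¹ →
        1 < (p : ℝ) ^ p * (‖π‖ ^ i) ^ (p - 1) →
        ¬ ‖θ ^ i * θ ^ i - (n₁ : Ω) * θ ^ i - (n₀ : Ω)‖ < 1 :=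
      fun i h1 h2 h3 h4 => hex ⟨i, h1, h2, h3, h4⟩
    refine ⟨1, 0, 0, Or.inl one_ne_zero, fun s hs => ?_⟩
    rw [h58_irr5_none p F L hFL ζ hζF hζp hζ1 π hπ τ hτF hτres θ hθ nw hτζ n₁ n₀ hnone χ₁ hK₁
      hrec₁ s hs]
    ring
  obtain ⟨i₀, hi₀, hi₀1, hi₀t, hi₀l⟩ := hex
  obtain ⟨u₁, α₁, hu₁, hu₁0, hα₁, hα₁L, hgen₁, hu₁1, hdich₁⟩ := hK₁
  obtain ⟨u₂, α₂, hu₂, hu₂0, hα₂, hα₂L, hgen₂, hu₂1, hdich₂⟩ := hK₂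
  obtain ⟨u₃, α₃, hu₃, hu₃0, hα₃, hα₃L, hgen₃, hu₃1, hdich₃⟩ := hK₃
  have hp : p.Prime := Fact.out
  have hfix : ∀ s : h78_G p, (∀ z ∈ F, s z = z) → s ∈ F.fixingSubgroup :=
    fun s hs => (IntermediateField.mem_fixingSubgroup_iff F s).2 hs
  have hg₁ : ∀ s : h78_G p, (∀ z ∈ F, s z = z) → s α₁ = ζ ^ (χ₁ s).val * α₁ :=
    fun s hs => hgen₁ s (hfix s hs)
  have hg₂ : ∀ s : h78_G p, (∀ z ∈ F, s z = z) → s α₂ = ζ ^ (χ₂ s).val * α₂ :=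
    fun s hs => hgen₂ s (hfix s hs)
  have hg₃ : ∀ s : h78_G p, (∀ z ∈ F, s z = z) → s α₃ = ζ ^ (χ₃ s).val * α₃ :=
    fun s hs => hgen₃ s (hfix s hs)
  have hb₁ : ‖u₁ - 1‖ ≤ ‖π‖ ^ i₀ :=
    h58_irr5_bound p F ζ hζp π hπ τ hτF hτres θ hθ nw hτζ n₁ n₀ huniq i₀ hi₀ hi₀1 hi₀t hi₀l χ₁
      u₁ α₁ hu₁ hu₁0 hα₁ hg₁ hu₁1 hdich₁ (fun s hs => hrec₁ s (hfix s hs))
  have hb₂ : ‖u₂ - 1‖ ≤ ‖π‖ ^ i₀ :=
    h58_irr5_bound p F ζ hζp π hπ τ hτF hτres θ hθ nw hτζ n₁ n₀ huniq i₀ hi₀ hi₀1 hi₀t hi₀l χ₂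
      u₂ α₂ hu₂ hu₂0 hα₂ hg₂ hu₂1 hdich₂ (fun s hs => hrec₂ s (hfix s hs))
  have hb₃ : ‖u₃ - 1‖ ≤ ‖π‖ ^ i₀ :=
    h58_irr5_bound p F ζ hζp π hπ τ hτF hτres θ hθ nw hτζ n₁ n₀ huniq i₀ hi₀ hi₀1 hi₀t hi₀l χ₃
      u₃ α₃ hu₃ hu₃0 hα₃ hg₃ hu₃1 hdich₃ (fun s hs => hrec₃ s (hfix s hs))
  have hπF : π ∈ F := hπ.1
  have hπ0 : π ≠ 0 := hπ.2.1
  have hr0 : 0 < ‖π‖ ^ i₀ := pow_pos (norm_pos_iff.2 hπ0) _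
  have hr1 : ‖π‖ ^ i₀ < 1 := lt_of_le_of_lt hi₀1 (h5_inv_p_lt_one p)
  have hrr : (‖π‖ ^ i₀) ^ 2 < ‖π‖ ^ i₀ := by
    rw [sq]
    calc ‖π‖ ^ i₀ * ‖π‖ ^ i₀ < 1 * ‖π‖ ^ i₀ := mul_lt_mul_of_pos_right hr1 hr0
      _ = ‖π‖ ^ i₀ := one_mul _
  -- leading coefficients
  have hlead : ∀ u : Ω, u ∈ F → ‖u - 1‖ ≤ ‖π‖ ^ i₀ →
      (u - 1) / π ^ i₀ ∈ F ∧ ‖(u - 1) / π ^ i₀‖ ≤ 1 ∧ u - 1 = (u - 1) / π ^ i₀ * π ^ i₀ := by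
    intro u hu hb
    refine ⟨div_mem (sub_mem hu (one_mem F)) (pow_mem hπF _), ?_,
      (div_mul_cancel₀ _ (pow_ne_zero _ hπ0)).symm⟩
    rw [norm_div, norm_pow]
    exact div_le_one_of_le₀ hb hr0.le
  obtain ⟨hbF₁, hbn₁, hbe₁⟩ := hlead u₁ hu₁ hb₁
  obtain ⟨hbF₂, hbn₂, hbe₂⟩ := hlead u₂ hu₂ hb₂
  obtain ⟨hbF₃, hbn₃, hbe₃⟩ := hlead u₃ hu₃ hb₃
  obtain ⟨M₁, M₂, M₃, hM, hMn⟩ := h58_irr5_pigeon p _ _ _ hbn₁ hbn₂ hbn₃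
    (hκ _ hbF₁ hbn₁) (hκ _ hbF₂ hbn₂) (hκ _ hbF₃ hbn₃)
  -- the combined class
  have hsw : ∀ (a : Ω) (M : ℕ), (a ^ M) ^ p = (a ^ p) ^ M := fun a M => pow_right_comm a M p
  have hβp : (α₁ ^ M₁ * (α₂ ^ M₂ * α₃ ^ M₃)) ^ p = u₁ ^ M₁ * (u₂ ^ M₂ * u₃ ^ M₃) := by
    rw [mul_pow, mul_pow, hsw, hsw, hsw, hα₁, hα₂, hα₃]
  have hvF : u₁ ^ M₁ * (u₂ ^ M₂ * u₃ ^ M₃) ∈ F :=
    mul_mem (pow_mem hu₁ _) (mul_mem (pow_mem hu₂ _) (pow_mem hu₃ _))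
  have hv0 : u₁ ^ M₁ * (u₂ ^ M₂ * u₃ ^ M₃) ≠ 0 :=
    mul_ne_zero (pow_ne_zero _ hu₁0) (mul_ne_zero (pow_ne_zero _ hu₂0) (pow_ne_zero _ hu₃0))
  have hβL : α₁ ^ M₁ * (α₂ ^ M₂ * α₃ ^ M₃) ∈ L :=
    mul_mem (pow_mem hα₁L _) (mul_mem (pow_mem hα₂L _) (pow_mem hα₃L _))
  have hgβ : ∀ s : h78_G p, (∀ z ∈ F, s z = z) → s (α₁ ^ M₁ * (α₂ ^ M₂ * α₃ ^ M₃))
      = ζ ^ ((M₁ : ZMod p) * χ₁ s + ((M₂ : ZMod p) * χ₂ s + (M₃ : ZMod p) * χ₃ s)).val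
        * (α₁ ^ M₁ * (α₂ ^ M₂ * α₃ ^ M₃)) :=
    h92_irr3_mul p F ζ hζp _ _ (α₁ ^ M₁) (α₂ ^ M₂ * α₃ ^ M₃)
      (h92_irr3_pow p F ζ hζp χ₁ α₁ hg₁ M₁)
      (h92_irr3_mul p F ζ hζp _ _ (α₂ ^ M₂) (α₃ ^ M₃) (h92_irr3_pow p F ζ hζp χ₂ α₂ hg₂ M₂)
        (h92_irr3_pow p F ζ hζp χ₃ α₃ hg₃ M₃))
  have hrecχ : ∀ s : h78_G p, (∀ z ∈ F, s z = z) →
      (nw : ZMod p) * ((nw : ZMod p) * ((M₁ : ZMod p) * χ₁ (τ⁻¹ * (τ⁻¹ * s * τ) * τ)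
          + ((M₂ : ZMod p) * χ₂ (τ⁻¹ * (τ⁻¹ * s * τ) * τ)
            + (M₃ : ZMod p) * χ₃ (τ⁻¹ * (τ⁻¹ * s * τ) * τ))))
        = (n₁ : ZMod p) * ((nw : ZMod p) * ((M₁ : ZMod p) * χ₁ (τ⁻¹ * s * τ)
          + ((M₂ : ZMod p) * χ₂ (τ⁻¹ * s * τ) + (M₃ : ZMod p) * χ₃ (τ⁻¹ * s * τ))))
          + (n₀ : ZMod p) * ((M₁ : ZMod p) * χ₁ s
            + ((M₂ : ZMod p) * χ₂ s + (M₃ : ZMod p) * χ₃ s)) := by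
    intro s hs
    linear_combination (M₁ : ZMod p) * hrec₁ s (hfix s hs) + (M₂ : ZMod p) * hrec₂ s (hfix s hs)
      + (M₃ : ZMod p) * hrec₃ s (hfix s hs)
  -- the norm of the combined class
  obtain ⟨hp₁, hp₁'⟩ := h84_pow_sub_one p hr1.le hb₁ M₁
  obtain ⟨hp₂, hp₂'⟩ := h84_pow_sub_one p hr1.le hb₂ M₂
  obtain ⟨hp₃, hp₃'⟩ := h84_pow_sub_one p hr1.le hb₃ M₃
  obtain ⟨hq, hq'⟩ := h58_irr5_mul2 p hr1.le hr0.le _ _ _ _ hp₂ hp₂' hp₃ hp₃'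
  obtain ⟨hv, -⟩ := h58_irr5_mul2 p hr1.le hr0.le _ _ _ _ hp₁ hp₁' hq hq'
  have hS : ‖(M₁ : Ω) * (u₁ - 1) + ((M₂ : Ω) * (u₂ - 1) + (M₃ : Ω) * (u₃ - 1))‖
      < ‖π‖ ^ i₀ := by
    have e : (M₁ : Ω) * (u₁ - 1) + ((M₂ : Ω) * (u₂ - 1) + (M₃ : Ω) * (u₃ - 1))
        = ((M₁ : Ω) * ((u₁ - 1) / π ^ i₀) + (M₂ : Ω) * ((u₂ - 1) / π ^ i₀)
          + (M₃ : Ω) * ((u₃ - 1) / π ^ i₀)) * π ^ i₀ := by
      field_simp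
      ring
    rw [e, norm_mul, norm_pow]
    calc _ < 1 * ‖π‖ ^ i₀ := mul_lt_mul_of_pos_right hMn hr0
      _ = ‖π‖ ^ i₀ := one_mul _
  have hvlt : ‖u₁ ^ M₁ * (u₂ ^ M₂ * u₃ ^ M₃) - 1‖ < ‖π‖ ^ i₀ := by
    have e : u₁ ^ M₁ * (u₂ ^ M₂ * u₃ ^ M₃) - 1
        = (u₁ ^ M₁ * (u₂ ^ M₂ * u₃ ^ M₃) - 1
            - ((M₁ : Ω) * (u₁ - 1) + ((M₂ : Ω) * (u₂ - 1) + (M₃ : Ω) * (u₃ - 1))))
          + ((M₁ : Ω) * (u₁ - 1) + ((M₂ : Ω) * (u₂ - 1) + (M₃ : Ω) * (u₃ - 1))) := by ring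
    rw [e]
    exact lt_of_le_of_lt (IsUltrametricDist.norm_add_le_max _ _)
      (max_lt (lt_of_le_of_lt hv hrr) hS)
  -- normal form of the combined class
  obtain ⟨w, hwF, hw0, hv'1, hdich'⟩ := hD1b _ hvF (le_trans hvlt.le hi₀1)
  have hgβw := h92_irr3_mul_base p F ζ _ (α₁ ^ M₁ * (α₂ ^ M₂ * α₃ ^ M₃)) w hwF hgβ
  have hβwp : (α₁ ^ M₁ * (α₂ ^ M₂ * α₃ ^ M₃) * w) ^ p
      = u₁ ^ M₁ * (u₂ ^ M₂ * u₃ ^ M₃) * w ^ p := by rw [mul_pow, hβp]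
  have hχ0 : ∀ s ∈ F.fixingSubgroup ⊓ h78_J p L,
      (M₁ : ZMod p) * χ₁ s + ((M₂ : ZMod p) * χ₂ s + (M₃ : ZMod p) * χ₃ s) = 0 := by
    rcases h58_irr5_level p F ζ hζp π hπ τ hτF hτres θ hθ nw hτζ n₁ n₀
      (fun s => (M₁ : ZMod p) * χ₁ s + ((M₂ : ZMod p) * χ₂ s + (M₃ : ZMod p) * χ₃ s))
      (u₁ ^ M₁ * (u₂ ^ M₂ * u₃ ^ M₃) * w ^ p) (α₁ ^ M₁ * (α₂ ^ M₂ * α₃ ^ M₃) * w)
      (mul_mem hvF (pow_mem hwF _)) (mul_ne_zero hv0 (pow_ne_zero _ hw0)) hβwp hgβw hv'1 hdich'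
      hrecχ with htop | ⟨i, hi, hpi, hi1, htopi, hlev⟩
    · exact h58_irr5_top p F L hFL ζ hζF hζp hζ1
        (fun s => (M₁ : ZMod p) * χ₁ s + ((M₂ : ZMod p) * χ₂ s + (M₃ : ZMod p) * χ₃ s))
        (u₁ ^ M₁ * (u₂ ^ M₂ * u₃ ^ M₃) * w ^ p) (α₁ ^ M₁ * (α₂ ^ M₂ * α₃ ^ M₃) * w)
        (mul_mem hvF (pow_mem hwF _)) (mul_ne_zero hv0 (pow_ne_zero _ hw0)) hβwp
        (mul_mem hβL (hFL hwF)) hgβw htop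
    · exfalso
      have e : i = i₀ := huniq i i₀ hpi hi1 htopi hlev hi₀ hi₀1 hi₀t hi₀l
      rw [e] at hi
      have hinj := h84_lev_inj p F π hπ i₀ hi₀ hi₀t (u₁ ^ M₁ * (u₂ ^ M₂ * u₃ ^ M₃))
        (u₁ ^ M₁ * (u₂ ^ M₂ * u₃ ^ M₃) * w ^ p) w hvlt.le hi.le hwF rfl
      have e2 : u₁ ^ M₁ * (u₂ ^ M₂ * u₃ ^ M₃) * w ^ p - 1
          = (u₁ ^ M₁ * (u₂ ^ M₂ * u₃ ^ M₃) * w ^ p - u₁ ^ M₁ * (u₂ ^ M₂ * u₃ ^ M₃))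
            + (u₁ ^ M₁ * (u₂ ^ M₂ * u₃ ^ M₃) - 1) := by ring
      have hlt : ‖u₁ ^ M₁ * (u₂ ^ M₂ * u₃ ^ M₃) * w ^ p - 1‖ < ‖π‖ ^ i₀ := by
        rw [e2]
        exact lt_of_le_of_lt (IsUltrametricDist.norm_add_le_max _ _) (max_lt hinj hvlt)
      rw [hi] at hlt
      exact lt_irrefl _ hlt
  refine ⟨(M₁ : ZMod p), (M₂ : ZMod p), (M₃ : ZMod p), hM, fun s hs => ?_⟩
  rw [add_assoc]
  exact hχ0 s hs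

/-! ## The index bound (pure group theory) -/

theorem h58_irr5_ker2 {Γ : Type} [Group Γ] (I : Subgroup Γ) (f₁ f₂ : Γ → ZMod p)
    (h₁ : ∀ s ∈ I, ∀ t ∈ I, f₁ (s * t) = f₁ s + f₁ t)
    (h₂ : ∀ s ∈ I, ∀ t ∈ I, f₂ (s * t) = f₂ s + f₂ t) :
    ∃ K : Subgroup Γ, K ≤ I ∧ K.relIndex I ≠ 0 ∧ K.relIndex I ≤ p ^ 2 ∧
      ∀ s ∈ K, f₁ s = 0 ∧ f₂ s = 0 := by
  classical
  have hp : p.Prime := Fact.out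
  have : NeZero p := ⟨hp.ne_zero⟩
  let φ : I →* Multiplicative (ZMod p × ZMod p) :=
    MonoidHom.mk' (fun x => Multiplicative.ofAdd (f₁ x.1, f₂ x.1)) (by
      intro a b
      show Multiplicative.ofAdd (f₁ (a.1 * b.1), f₂ (a.1 * b.1))
        = Multiplicative.ofAdd (f₁ a.1, f₂ a.1) * Multiplicative.ofAdd (f₁ b.1, f₂ b.1)
      rw [h₁ a.1 a.2 b.1 b.2, h₂ a.1 a.2 b.1 b.2]
      rfl)
  have hrel : (φ.ker.map I.subtype).relIndex I = Nat.card φ.range := by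
    rw [Subgroup.relIndex, Subgroup.subgroupOf,
      Subgroup.comap_map_eq_self_of_injective (Subgroup.subtype_injective I), Subgroup.index_ker]
  have hcard : Nat.card (Multiplicative (ZMod p × ZMod p)) = p ^ 2 := by
    rw [Nat.card_congr Multiplicative.toAdd, Nat.card_prod, Nat.card_zmod, sq]
  refine ⟨φ.ker.map I.subtype, Subgroup.map_subtype_le _, ?_, ?_, ?_⟩
  · rw [hrel]
    exact Nat.card_pos.ne'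
  · rw [hrel, ← hcard]
    exact Nat.card_le_card_of_injective _ Subtype.val_injective
  · intro s hs
    obtain ⟨x, hx, rfl⟩ := Subgroup.mem_map.1 hs
    have h1 : Multiplicative.ofAdd (f₁ x.1, f₂ x.1) = 1 := MonoidHom.mem_ker.1 hx
    have h2 : (f₁ x.1, f₂ x.1) = 0 := ofAdd_eq_one.1 h1
    exact Prod.mk_eq_zero.1 h2

/-- **(IDX)** if any three characters of a family are linearly dependent on `I`, the common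
kernel of the family in `I` has index `≤ p²`. -/
theorem h58_irr5_index {Γ : Type} [Group Γ] (I : Subgroup Γ) (X : Set (Γ → ZMod p))
    (hadd : ∀ χ ∈ X, ∀ s ∈ I, ∀ t ∈ I, χ (s * t) = χ s + χ t)
    (hrel : ∀ χ₁ ∈ X, ∀ χ₂ ∈ X, ∀ χ₃ ∈ X, ∃ m₁ m₂ m₃ : ZMod p,
      (m₁ ≠ 0 ∨ m₂ ≠ 0 ∨ m₃ ≠ 0) ∧ ∀ s ∈ I, m₁ * χ₁ s + m₂ * χ₂ s + m₃ * χ₃ s = 0) :
    ∃ K : Subgroup Γ, K ≤ I ∧ K.relIndex I ≠ 0 ∧ K.relIndex I ≤ p ^ 2 ∧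
      ∀ s ∈ K, ∀ χ ∈ X, χ s = 0 := by
  have key : ∃ f₁ f₂ : Γ → ZMod p, (∀ s ∈ I, ∀ t ∈ I, f₁ (s * t) = f₁ s + f₁ t) ∧
      (∀ s ∈ I, ∀ t ∈ I, f₂ (s * t) = f₂ s + f₂ t) ∧
      ∀ χ ∈ X, ∀ s ∈ I, f₁ s = 0 → f₂ s = 0 → χ s = 0 := by
    by_cases h0 : ∀ χ ∈ X, ∀ s ∈ I, χ s = 0
    · exact ⟨fun _ => 0, fun _ => 0, by simp, by simp, fun χ hχ s hs _ _ => h0 χ hχ s hs⟩
    push Not at h0
    obtain ⟨χ₁, hχ₁, s₁, hs₁, hne₁⟩ := h0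
    by_cases h1 : ∀ χ ∈ X, ∃ c : ZMod p, ∀ s ∈ I, χ s = c * χ₁ s
    · refine ⟨χ₁, χ₁, hadd χ₁ hχ₁, hadd χ₁ hχ₁, fun χ hχ s hs e1 _ => ?_⟩
      obtain ⟨c, hc⟩ := h1 χ hχ
      rw [hc s hs, e1, mul_zero]
    push Not at h1
    obtain ⟨χ₂, hχ₂, hχ₂n⟩ := h1
    refine ⟨χ₁, χ₂, hadd χ₁ hχ₁, hadd χ₂ hχ₂, fun χ hχ s hs e1 e2 => ?_⟩
    obtain ⟨m₁, m₂, m₃, hm, hr⟩ := hrel χ₁ hχ₁ χ₂ hχ₂ χ hχ
    have hm₃ : m₃ ≠ 0 := by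
      intro h3
      by_cases h2 : m₂ = 0
      · have h1' : m₁ ≠ 0 := by
          rcases hm with h | h | h
          · exact h
          · exact absurd h2 h
          · exact absurd h3 h
        have := hr s₁ hs₁
        rw [h2, h3, zero_mul, zero_mul, add_zero, add_zero] at this
        exact hne₁ ((mul_eq_zero.1 this).resolve_left h1')
      · obtain ⟨t, ht, hne⟩ := hχ₂n (-(m₁ / m₂))
        apply hne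
        have := hr t ht
        rw [h3, zero_mul, add_zero] at this
        field_simp
        linear_combination this
    have := hr s hs
    rw [e1, e2, mul_zero, mul_zero, zero_add, zero_add] at this
    exact (mul_eq_zero.1 this).resolve_left hm₃
  obtain ⟨f₁, f₂, h₁, h₂, hk⟩ := key
  obtain ⟨K, hKI, hK0, hK2, hKf⟩ := h58_irr5_ker2 p I f₁ f₂ h₁ h₂
  exact ⟨K, hKI, hK0, hK2, fun s hs χ hχ => hk χ hχ s (hKI hs) (hKf s hs).1 (hKf s hs).2⟩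

end Fermat.Agent.S56
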