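/-
S56 / W3 / E-IRR, row IRR-8 (ASSEMBLY), hypothesis form.

`h86_bound_irr_of` proves the statement of the skeleton row `sk_bound_irr`
(no stable line ⟹ `finrank W ≤ 1`) from the statements of the rows
IRR-2a (`sk_irr_field`), IRR-2b (`sk_irr_struct`), IRR-5 (`sk_irr_h_zero`, `sk_irr_index`,
`sk_irr_no_level`), IRR-7 (`sk_irr_count`, `sk_irr_count_zero`) and B3.3 (`sk_K0_stable`),
taken as hypotheses at the given `rb`, `W`.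
-/
import Fermat.Agent.S56.h78_IrrDefs

set_option autoImplicit false

namespace Fermat.Agent.S56

variable (p : ℕ) [Fact p.Prime]

local notation "Ω" => PadicAlgCl p
local notation "Fld" => IntermediateField ℚ_[p] (PadicAlgCl p)

/-- the fixing subgroup of a Galois-stable subfield is normal. -/
theorem h86_fixingSubgroup_normal (F : Fld) (hF : h78_Stable p F) :
    (F.fixingSubgroup).Normal := by
  refine ⟨fun s hs g => ?_⟩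
  rw [IntermediateField.mem_fixingSubgroup_iff] at hs ⊢
  intro x hx
  have h1 : g⁻¹ x ∈ F := hF g⁻¹ x hx
  have h2 : s (g⁻¹ x) = g⁻¹ x := hs _ h1
  show g (s (g⁻¹ x)) = x
  rw [h2]
  show (g * g⁻¹) x = x
  rw [mul_inv_cancel]; rfl

/-- `J_L` is normal as soon as `K₀(L)` is stable. -/
theorem h86_J_normal (L : Fld) (hK : h78_Stable p (h78_K0 p L)) : (h78_J p L).Normal :=
  h86_fixingSubgroup_normal p (h78_K0 p L) hK

/-- **IRR-8 (ASSEMBLY), hypothesis form**: the bound `finrank W ≤ 1` in the case without a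
stable line, from the row statements. -/
theorem h86_bound_irr_of {k : Type} [Field k]
    (rb : h78_G p →* Matrix (Fin 2) (Fin 2) k)
    (W : Submodule k (h78_G p → Matrix (Fin 2) (Fin 2) k))
    -- IRR-2a
    (hfield : Module.Finite k W → W ≠ ⊥ →
      ∃ (L : Fld) (_ : FiniteDimensional ℚ_[p] L), h78_Stable p L ∧
        (∀ ζ : Ω, ζ ^ p = 1 → ζ ∈ L) ∧
        ∀ g ∈ L.fixingSubgroup, rb g = 1 ∧ ∀ a ∈ W, a g = 0)
    -- IRR-2b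
    (hstruct : ∀ (L : Fld) [FiniteDimensional ℚ_[p] L], h78_Stable p L →
      (∀ ζ : Ω, ζ ^ p = 1 → ζ ∈ L) →
      (∀ g ∈ L.fixingSubgroup, rb g = 1 ∧ ∀ a ∈ W, a g = 0) →
      Nonempty (h78_IrrData p rb W L))
    -- B3.3
    (hK0 : ∀ L : Fld, h78_Stable p L → h78_Stable p (h78_K0 p L))
    -- IRR-5 (h6)
    (hh0 : ∀ (L : Fld) [FiniteDimensional ℚ_[p] L], h78_Stable p L →
      ∀ (D : h78_IrrData p rb W L) (a : h78_G p → Matrix (Fin 2) (Fin 2) k), a ∈ W →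
      ∀ s : h78_G p, s ∈ D.F₁.fixingSubgroup →
        (a s * rb s⁻¹ *
          (rb D.τ - ((rb D.τ).trace / 2) • (1 : Matrix (Fin 2) (Fin 2) k))).trace = 0)
    -- IRR-5 (h5), generic case
    (hidx : ∀ (L : Fld) [FiniteDimensional ℚ_[p] L], h78_Stable p L →
      ∀ (D : h78_IrrData p rb W L),
      (∀ c : k, rb D.τ * rb D.τ ≠ c • (1 : Matrix (Fin 2) (Fin 2) k)) →
      ∃ K1 : Subgroup (h78_G p), K1 ≤ D.F₁.fixingSubgroup ⊓ h78_J p L ∧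
        K1.relIndex (D.F₁.fixingSubgroup ⊓ h78_J p L) ≠ 0 ∧
        K1.relIndex (D.F₁.fixingSubgroup ⊓ h78_J p L) ≤ p ^ 2 ∧
        ∀ a ∈ W, ∀ s ∈ K1, ∃ c : k, a s * rb s⁻¹ =
          c • (rb D.τ - ((rb D.τ).trace / 2) • (1 : Matrix (Fin 2) (Fin 2) k)))
    -- IRR-5 (h5), degenerate case
    (hnl : ∀ (L : Fld) [FiniteDimensional ℚ_[p] L], h78_Stable p L →
      ∀ (D : h78_IrrData p rb W L),
      (∃ c : k, rb D.τ * rb D.τ = c • (1 : Matrix (Fin 2) (Fin 2) k)) →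
      ∀ (a : h78_G p → Matrix (Fin 2) (Fin 2) k), a ∈ W →
      ∀ s : h78_G p, s ∈ D.F₁.fixingSubgroup ⊓ h78_J p L →
        ∃ c : k, a s * rb s⁻¹ =
          c • (rb D.τ - ((rb D.τ).trace / 2) • (1 : Matrix (Fin 2) (Fin 2) k)))
    -- IRR-7a
    (hcount : ∀ (Γ1 I1 K1 : Subgroup (h78_G p)) [Γ1.Normal], I1 ≤ Γ1 → K1 ≤ I1 →
      ∀ (τ φ : h78_G p),
      (∀ g ∈ Γ1, ∃ c : k, rb g = c • (1 : Matrix (Fin 2) (Fin 2) k)) →
      rb φ * rb τ = rb τ ^ p * rb φ →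
      rb τ ^ p = (rb τ).trace • (1 : Matrix (Fin 2) (Fin 2) k) - rb τ →
      (∀ c : k, rb τ * rb τ ≠ c • (1 : Matrix (Fin 2) (Fin 2) k)) →
      (∀ s ∈ Γ1, τ * s * τ⁻¹ * s⁻¹ ∈ I1) →
      (∀ s ∈ I1, τ * s * τ⁻¹ ∈ I1 ∧ φ * s * φ⁻¹ ∈ I1) →
      ((Γ1.index : ℕ) : k) ≠ 0 →
      (K1.relIndex I1 ≠ 0 ∧ K1.relIndex I1 ≤ p ^ 2) →
      (∀ a ∈ W, ∀ s ∈ K1, ∃ c : k,
        a s * rb s⁻¹ = c • (rb τ - ((rb τ).trace / 2) • (1 : Matrix (Fin 2) (Fin 2) k))) →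
      (∀ a ∈ W, ∀ s ∈ Γ1,
        (a s * rb s⁻¹ *
          (rb τ - ((rb τ).trace / 2) • (1 : Matrix (Fin 2) (Fin 2) k))).trace = 0) →
      Module.finrank k W ≤ 1)
    -- IRR-7b
    (hcount0 : ∀ (Γ1 I1 : Subgroup (h78_G p)) [Γ1.Normal], I1 ≤ Γ1 →
      ∀ (τ : h78_G p),
      (∀ g ∈ Γ1, ∃ c : k, rb g = c • (1 : Matrix (Fin 2) (Fin 2) k)) →
      (rb τ).trace ^ 2 ≠ 4 * (rb τ).det →
      (∀ s ∈ Γ1, τ * s * τ⁻¹ * s⁻¹ ∈ I1) →
      ((Γ1.index : ℕ) : k) ≠ 0 →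
      (∀ a ∈ W, ∀ s ∈ I1, ∃ c : k,
        a s * rb s⁻¹ = c • (rb τ - ((rb τ).trace / 2) • (1 : Matrix (Fin 2) (Fin 2) k))) →
      (∀ a ∈ W, ∀ s ∈ Γ1,
        (a s * rb s⁻¹ *
          (rb τ - ((rb τ).trace / 2) • (1 : Matrix (Fin 2) (Fin 2) k))).trace = 0) →
      W = ⊥) :
    Module.finrank k W ≤ 1 := by
  by_cases hfin : Module.Finite k W
  swap
  · rw [Module.finrank_of_not_finite hfin]; exact Nat.zero_le 1
  by_cases hW : W = ⊥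
  · rw [hW, finrank_bot]; exact Nat.zero_le 1
  obtain ⟨L, hLfin, hL, hζ, htriv⟩ := hfield hfin hW
  obtain ⟨D⟩ := hstruct L hL hζ htriv
  have hΓ1 : (D.F₁.fixingSubgroup).Normal := h86_fixingSubgroup_normal p D.F₁ D.stable
  have hJ : (h78_J p L).Normal := h86_J_normal p L (hK0 L hL)
  -- the commutator condition
  have h3 : ∀ s ∈ D.F₁.fixingSubgroup,
      D.τ * s * D.τ⁻¹ * s⁻¹ ∈ D.F₁.fixingSubgroup ⊓ h78_J p L := by
    intro s hs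
    refine Subgroup.mem_inf.2 ⟨?_, ?_⟩
    · exact Subgroup.mul_mem _ (hΓ1.conj_mem s hs D.τ) (Subgroup.inv_mem _ hs)
    · have h1 : s * D.τ⁻¹ * s⁻¹ ∈ h78_J p L := hJ.conj_mem _ (Subgroup.inv_mem _ D.τJ) s
      have h2 : D.τ * s * D.τ⁻¹ * s⁻¹ = D.τ * (s * D.τ⁻¹ * s⁻¹) := by group
      rw [h2]
      exact Subgroup.mul_mem _ D.τJ h1
  by_cases h7 : ∃ c : k, rb D.τ * rb D.τ = c • (1 : Matrix (Fin 2) (Fin 2) k)
  · have hbot : W = ⊥ :=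
      hcount0 D.F₁.fixingSubgroup (D.F₁.fixingSubgroup ⊓ h78_J p L) inf_le_left D.τ
        D.scalar D.sep h3 D.index (hnl L hL D h7) (hh0 L hL D)
    exact absurd hbot hW
  · have h7' : ∀ c : k, rb D.τ * rb D.τ ≠ c • (1 : Matrix (Fin 2) (Fin 2) k) :=
      fun c hc => h7 ⟨c, hc⟩
    obtain ⟨K1, hK1le, hK1ne, hK1le2, hK1⟩ := hidx L hL D h7'
    have h3' : ∀ s ∈ D.F₁.fixingSubgroup ⊓ h78_J p L,
        D.τ * s * D.τ⁻¹ ∈ D.F₁.fixingSubgroup ⊓ h78_J p L ∧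
          D.φ * s * D.φ⁻¹ ∈ D.F₁.fixingSubgroup ⊓ h78_J p L := by
      intro s hs
      obtain ⟨hs1, hs2⟩ := Subgroup.mem_inf.1 hs
      exact ⟨Subgroup.mem_inf.2 ⟨hΓ1.conj_mem s hs1 D.τ, hJ.conj_mem s hs2 D.τ⟩,
        Subgroup.mem_inf.2 ⟨hΓ1.conj_mem s hs1 D.φ, hJ.conj_mem s hs2 D.φ⟩⟩
    exact hcount D.F₁.fixingSubgroup (D.F₁.fixingSubgroup ⊓ h78_J p L) K1 inf_le_left hK1le
      D.τ D.φ D.scalar D.swap D.conj h7' h3 h3' D.index ⟨hK1ne, hK1le2⟩ hK1 (hh0 L hL D)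

end Fermat.Agent.S56
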