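/-
S56 / W3 / E-IRR row IRR-5 (b), (c): wiring of the character-level core `h58_IrrCore` to the
matrix statements `sk_irr_index` / `sk_irr_no_level`, in hypothesis form
(FRONT = `sk_irr_front`, (h6) = `sk_irr_h_zero`, D1b = `sk_normal_form_deep` as hypotheses).
-/
import Fermat.Agent.S56.h58_IrrCore
import Fermat.Agent.S56.h78_IrrDefs
import Fermat.Agent.S56.h62_IrrArith
import Fermat.Agent.S56.h49_K0Res
import Fermat.Agent.S56.h28_IrrHZero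
import Fermat.Agent.S56.h88_TameLoc
import Fermat.Agent.S56.h93_ResFin
import Fermat.Agent.S56.h86_IrrAsm

set_option autoImplicit false

namespace Fermat.Agent.S56

variable (p : ℕ) [Fact p.Prime]

local notation "Ω" => PadicAlgCl p
local notation "Fld" => IntermediateField ℚ_[p] (PadicAlgCl p)

/-! ## 2 × 2 matrix algebra -/

section Mat

variable {k : Type} [Field k]

local notation "M2" => Matrix (Fin 2) (Fin 2) k

/-- Cayley-Hamilton for `2 × 2` matrices. -/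
theorem h58_mat_ch (T : M2) : T * T = T.trace • T - T.det • (1 : M2) := by
  ext i j
  fin_cases i <;> fin_cases j <;>
    simp [Matrix.mul_apply, Fin.sum_univ_two, Matrix.trace_fin_two, Matrix.det_fin_two] <;> ring

/-- polarised Cayley-Hamilton on the trace-zero matrices orthogonal to `T`. -/
theorem h58_mat_anti (T X : M2) (hX : X.trace = 0) (hXT : (X * T).trace = 0) :
    X * T + T * X = T.trace • X := by
  rw [Matrix.trace_fin_two] at hX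
  rw [Matrix.trace_fin_two] at hXT
  simp only [Matrix.mul_apply, Fin.sum_univ_two] at hXT
  ext i j
  fin_cases i <;> fin_cases j <;>
    simp [Matrix.mul_apply, Fin.sum_univ_two, Matrix.trace_fin_two]
  · linear_combination hXT - (T 1 1) * hX
  · linear_combination (T 0 1) * hX
  · linear_combination (T 1 0) * hX
  · linear_combination hXT - (T 0 0) * hX

/-- `T X T = det(T) X` on that space. -/
theorem h58_mat_TXT (T X : M2) (hX : X.trace = 0) (hXT : (X * T).trace = 0) :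
    T * X * T = T.det • X := by
  have h1 : X * T = T.trace • X - T * X := eq_sub_of_add_eq (h58_mat_anti T X hX hXT)
  have h2 : T * T * X = T.trace • (T * X) - T.det • X := by
    rw [h58_mat_ch T, sub_mul, Matrix.smul_mul, Matrix.smul_mul, one_mul]
  rw [mul_assoc, h1, mul_sub, Matrix.mul_smul, ← mul_assoc, h2]
  abel

/-- the quadratic relation satisfied by conjugation by `T` on that space. -/
theorem h58_mat_quad (T Ti X : M2) (hTi : Ti * T = 1) (hX : X.trace = 0)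
    (hXT : (X * T).trace = 0) :
    T.det • (Ti * (Ti * X * T) * T) + T.det • X = (T.trace ^ 2 - 2 * T.det) • (Ti * X * T) := by
  have h1 : X * T = T.trace • X - T * X := eq_sub_of_add_eq (h58_mat_anti T X hX hXT)
  have h2 : T * T * X = T.trace • (T * X) - T.det • X := by
    rw [h58_mat_ch T, sub_mul, Matrix.smul_mul, Matrix.smul_mul, one_mul]
  have h3 := h58_mat_TXT T X hX hXT
  have e1 : X * T * T = T.trace • (X * T) - T.det • X := by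
    rw [mul_assoc, h58_mat_ch T, mul_sub, Matrix.mul_smul, Matrix.mul_smul, mul_one]
  -- multiply by `T * T` on the left
  have hTTi : T * Ti = 1 := mul_eq_one_comm.1 hTi
  have hc : ∀ M : M2, T * (Ti * M) = M := fun M => by rw [← mul_assoc, hTTi, one_mul]
  have hc' : ∀ M : M2, Ti * (T * M) = M := fun M => by rw [← mul_assoc, hTi, one_mul]
  have a1 : T * T * (Ti * (Ti * X * T) * T) = X * T * T := by simp only [mul_assoc, hc]
  have a2 : T * T * (Ti * X * T) = T * X * T := by simp only [mul_assoc, hc]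
  have key : T * T * (T.det • (Ti * (Ti * X * T) * T) + T.det • X)
      = T * T * ((T.trace ^ 2 - 2 * T.det) • (Ti * X * T)) := by
    rw [mul_add, Matrix.mul_smul, Matrix.mul_smul, Matrix.mul_smul, a1, a2, e1, h2, h3, h1]
    module
  have hA : ∀ M : M2, Ti * (Ti * (T * T * M)) = M := fun M => by simp only [mul_assoc, hc']
  rw [← hA (T.det • (Ti * (Ti * X * T) * T) + T.det • X), key, hA]

/-- if `T^p = tr(T) - T` and `det T` is a nonzero element of the prime field, then `tr T` lies in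
the prime field. -/
theorem h58_mat_trace_frob [CharP k p] (T : M2) (hconj : T ^ p = T.trace • (1 : M2) - T)
    (hd : T.det ^ p = T.det) (hd0 : T.det ≠ 0) : T.trace ^ p = T.trace := by
  have h1 : T ^ p * T = T.det • (1 : M2) := by
    rw [hconj, sub_mul, Matrix.smul_mul, one_mul, h58_mat_ch T]; abel
  have h2 : (T ^ p * T) ^ p = T.det • (1 : M2) := by rw [h1, smul_pow, one_pow, hd]
  have h3 : (T ^ p * T) ^ p = T ^ (p * p) * T ^ p := by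
    rw [← pow_succ, ← pow_mul, add_mul, one_mul, pow_add]
  have hcomm : T ^ p * T = T * T ^ p := (pow_succ T p).symm.trans (pow_succ' T p)
  have h4 : T ^ (p * p) * T ^ p = T * T ^ p := by rw [← h3, h2, ← h1, hcomm]
  have h5 : T ^ (p * p) = T := by
    have h := congrArg (fun M => M * T) h4
    simp only [mul_assoc] at h
    rw [h1, Matrix.mul_smul, Matrix.mul_smul, mul_one, mul_one] at h
    exact smul_right_injective M2 hd0 h
  have h6 : T ^ (p * p) = (T.trace ^ p) • (1 : M2) - (T.trace • (1 : M2) - T) := by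
    rw [pow_mul, hconj, sub_pow_char_of_commute p ((Commute.one_left T).smul_left T.trace),
      smul_pow, one_pow, hconj]
  have h7 := congrFun (congrFun (h5.symm.trans h6) 0) 0
  simp at h7
  linear_combination -h7

end Mat


/-! ## The level arithmetic in the residue field -/

section Arith

/-- generic case: at most one exponent of the window solves the quadratic constraint. -/
theorem h58_wire_arith_gen {K : Type} [Field K] (hp2 : p ≠ 2) (θ w t : K) (e : ℕ)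
    (he : (p - 1) ∣ e) (he0 : 0 < e) (hθ : orderOf θ = e) (hw : w = θ ^ (e / (p - 1)))
    (ht : t ≠ 0) (hsep : t ^ 2 ≠ 4 * w) (i i' : ℕ) (hi : e ≤ i) (hi2 : i < e + e / (p - 1))
    (hi' : e ≤ i') (hi2' : i' < e + e / (p - 1))
    (h : θ ^ i * θ ^ i - (t ^ 2 - 2 * w) * θ ^ i - (-(w ^ 2)) = 0)
    (h' : θ ^ i' * θ ^ i' - (t ^ 2 - 2 * w) * θ ^ i' - (-(w ^ 2)) = 0) : i = i' := by
  have hθ0 : θ ≠ 0 := by
    intro h0
    have h1 : θ ^ e = 1 := hθ ▸ pow_orderOf_eq_one θ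
    rw [h0, zero_pow he0.ne'] at h1
    exact zero_ne_one h1
  have hw0 : w ≠ 0 := by rw [hw]; exact pow_ne_zero _ hθ0
  obtain ⟨x, hx⟩ : ∃ x, x = θ ^ i := ⟨_, rfl⟩
  obtain ⟨x', hx'⟩ : ∃ x', x' = θ ^ i' := ⟨_, rfl⟩
  rw [← hx] at h
  rw [← hx'] at h'
  have hx0 : x ≠ 0 := by rw [hx]; exact pow_ne_zero _ hθ0
  have hϑ0 : x / w ≠ 0 := div_ne_zero hx0 hw0
  have hϑ : (x / w) * (x / w) ≠ 1 := by
    intro h1
    have h2 : x * x = w * w := by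
      field_simp at h1
      linear_combination h1
    have h3 : (t ^ 2 - 2 * w) * x = 2 * w ^ 2 := by linear_combination -h + h2
    have h4 : t ^ 2 * (t ^ 2 - 4 * w) * w ^ 2 = 0 := by
      have h5 : ((t ^ 2 - 2 * w) * x) ^ 2 = (2 * w ^ 2) ^ 2 := by rw [h3]
      linear_combination h5 - (t ^ 2 - 2 * w) ^ 2 * h2
    rcases mul_eq_zero.1 h4 with h6 | h6
    · rcases mul_eq_zero.1 h6 with h7 | h7
      · exact ht (pow_eq_zero_iff (two_ne_zero)|>.1 h7)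
      · exact hsep (sub_eq_zero.1 h7)
    · exact hw0 (pow_eq_zero_iff (two_ne_zero)|>.1 h6)
  have hcase : x' = x ∨ x' * x = w * w := by
    have h5 : (x' - x) * (x' + x - (t ^ 2 - 2 * w)) = 0 := by linear_combination h' - h
    rcases mul_eq_zero.1 h5 with h6 | h6
    · left; exact sub_eq_zero.1 h6
    · right; linear_combination x * h6 - h
  have hA := h62_irr_arith_A p hp2 θ (x / w) w e he he0 hθ hw hϑ hϑ0 i i' hi hi2.le hi' hi2'.le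
    (Or.inl (by rw [← hx]; field_simp)) (by
      rcases hcase with h6 | h6
      · left; rw [← hx', h6]; field_simp
      · right
        rw [← hx']
        field_simp
        linear_combination h6)
  exact hA.1

/-- degenerate case `t = 0`: no exponent of the window solves the constraint. -/
theorem h58_wire_arith_deg {K : Type} [Field K] (hp2 : p ≠ 2) (θ w : K) (e : ℕ)
    (he : (p - 1) ∣ e) (he0 : 0 < e) (hθ : orderOf θ = e) (hw : w = θ ^ (e / (p - 1)))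
    (h3 : p = 3 → w = 1) (i : ℕ) (hi : e ≤ i) (hi2 : i < e + e / (p - 1))
    (h : θ ^ i * θ ^ i - ((0 : K) ^ 2 - 2 * w) * θ ^ i - (-(w ^ 2)) = 0) : False := by
  by_cases hp3 : p = 3
  · have hw1 := h3 hp3
    obtain ⟨hf, hp1, hf1, h2f⟩ := h62_irr6_num p e Fact.out hp2 he he0
    have hne : θ ^ (e / (p - 1)) ≠ 1 :=
      pow_ne_one_of_lt_orderOf (by omega) (by rw [hθ]; omega)
    exact hne (hw ▸ hw1)
  · have h1 : (θ ^ i + w) * (θ ^ i + w) = 0 := by linear_combination h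
    have h2 : θ ^ i = -w := by
      have h4 := mul_self_eq_zero.1 h1
      linear_combination h4
    exact h62_irr_arith_B p hp2 hp3 θ w e he he0 hθ hw i hi hi2.le h2

end Arith

/-! ## Transfer between `Ω` and its residue field -/

/-- the reduction of an element of exact order `e` (prime to `p`) has exact order `e`. -/
theorem h58_wire_order (e : ℕ) (he0 : 0 < e) (hpe' : ¬ p ∣ e) (θ : Ω) (hθe : θ ^ e = 1)
    (hθe' : ∀ j : ℕ, 0 < j → j < e → θ ^ j ≠ 1) : orderOf (h58_rd p θ) = e := by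
  have hθ1 : ‖θ‖ ≤ 1 := (h28_norm_root p e he0 θ hθe).le
  rw [orderOf_eq_iff he0]
  refine ⟨?_, fun m hm hm0 h => ?_⟩
  · rw [← h58_rd_pow p hθ1, hθe, h58_rd_one]
  · rw [← h58_rd_pow p hθ1, ← h58_rd_one p,
      h58_rd_eq_iff p (h58_norm_pow_le p hθ1 m) (by rw [norm_one])] at h
    exact hθe' m hm0 hm (h28_root_eq_of_close p e he0 hpe' 1 (θ ^ m) (one_pow e)
      (by rw [← pow_mul, mul_comm, pow_mul, hθe, one_pow]) h)

/-- the level constraint, read in the residue field. -/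
theorem h58_wire_lev_iff (θ : Ω) (hθ1 : ‖θ‖ ≤ 1) (n₁ n₀ i : ℕ) :
    ‖θ ^ i * θ ^ i - (n₁ : Ω) * θ ^ i - (n₀ : Ω)‖ < 1 ↔
      h58_rd p θ ^ i * h58_rd p θ ^ i - (n₁ : h58_k p) * h58_rd p θ ^ i - (n₀ : h58_k p) = 0 := by
  have h1 := h58_norm_pow_le p hθ1 i
  have h2 := h58_norm_mul_le p h1 h1
  have h3 := h58_norm_mul_le p (h58_norm_natCast_le p n₁) h1
  have h4 := h58_norm_sub_le p h2 h3
  rw [← h58_rd_eq_zero_iff p (h58_norm_sub_le p h4 (h58_norm_natCast_le p n₀)),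
    h58_rd_sub p h4 (h58_norm_natCast_le p n₀), h58_rd_sub p h2 h3, h58_rd_mul p h1 h1,
    h58_rd_mul p (h58_norm_natCast_le p n₁) h1, h58_rd_pow p hθ1, h58_rd_natCast, h58_rd_natCast]

/-- the two coefficients of the recurrence, in a field of characteristic `p`. -/
theorem h58_wire_cast {K : Type} [Field K] [CharP K p] (nt nw : ℕ) :
    ((nt ^ 2 + (p - 2) * nw : ℕ) : K) = (nt : K) ^ 2 - 2 * (nw : K) ∧
      (((p - 1) * nw ^ 2 : ℕ) : K) = -((nw : K) ^ 2) := by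
  have hp : p.Prime := Fact.out
  have h2 : ((p - 2 : ℕ) : K) = -2 := by
    rw [Nat.cast_sub hp.two_le, CharP.cast_eq_zero K p]; simp
  have h1 : ((p - 1 : ℕ) : K) = -1 := by
    rw [Nat.cast_sub hp.one_le, CharP.cast_eq_zero K p]; simp
  constructor
  · rw [Nat.cast_add, Nat.cast_mul, Nat.cast_pow, h2]; ring
  · rw [Nat.cast_mul, Nat.cast_pow, h1]; ring

section Levels

variable (hp2 : p ≠ 2) (π : PadicAlgCl p) (hπ0 : 0 < ‖π‖) (hπ1 : ‖π‖ < 1) (e : ℕ)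
  (heπ : ‖π‖ ^ e = (p : ℝ)⁻¹) (hpe : (p - 1) ∣ e) (hpe' : ¬ p ∣ e) (θ : PadicAlgCl p)
  (hθe : θ ^ e = 1)
  (hθe' : ∀ j : ℕ, 0 < j → j < e → θ ^ j ≠ 1) (nw nt : ℕ)
  (hwθ : ‖θ ^ (e / (p - 1)) - (nw : PadicAlgCl p)‖ < 1)

include hp2 hπ0 hπ1 heπ hpe hpe' hθe hθe' hwθ

/-- generic case: at most one level solves the constraint. -/
theorem h58_wire_uniq (hnt : ¬ p ∣ nt) (hsep : ¬ nt ^ 2 ≡ 4 * nw [MOD p]) (n₁ n₀ : ℕ)
    (hn₁ : n₁ = nt ^ 2 + (p - 2) * nw) (hn₀ : n₀ = (p - 1) * nw ^ 2) :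
    ∀ i i' : ℕ, ¬ p ∣ i → ‖π‖ ^ i ≤ (p : ℝ)⁻¹ →
      1 < (p : ℝ) ^ p * (‖π‖ ^ i) ^ (p - 1) →
      ‖θ ^ i * θ ^ i - (n₁ : Ω) * θ ^ i - (n₀ : Ω)‖ < 1 →
      ¬ p ∣ i' → ‖π‖ ^ i' ≤ (p : ℝ)⁻¹ → 1 < (p : ℝ) ^ p * (‖π‖ ^ i') ^ (p - 1) →
      ‖θ ^ i' * θ ^ i' - (n₁ : Ω) * θ ^ i' - (n₀ : Ω)‖ < 1 → i = i' := by
  intro i i' _ hi1 hi2 hlev _ hi1' hi2' hlev'
  subst hn₁ hn₀
  have hp : p.Prime := Fact.out
  have he0 : 0 < e := by
    rcases Nat.eq_zero_or_pos e with h | h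
    · exfalso
      rw [h, pow_zero] at heπ
      have h1 : (p : ℝ) = 1 := by
        have := inv_eq_one.1 heπ.symm
        exact this
      have h2 : p = 1 := by exact_mod_cast h1
      exact hp.one_lt.ne' h2
    · exact h
  have hq : (p - 1) * (e / (p - 1)) = e := Nat.mul_div_cancel' hpe
  obtain ⟨hb1, hb2⟩ := h28_level_bounds p π hπ0 hπ1 e heπ (e / (p - 1)) hq i hi1 hi2
  obtain ⟨hb1', hb2'⟩ := h28_level_bounds p π hπ0 hπ1 e heπ (e / (p - 1)) hq i' hi1' hi2'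
  have hθ1 : ‖θ‖ ≤ 1 := (h28_norm_root p e he0 θ hθe).le
  have hord := h58_wire_order p e he0 hpe' θ hθe hθe'
  have hw : (nw : h58_k p) = h58_rd p θ ^ (e / (p - 1)) := by
    have hw1 : h58_rd p (θ ^ (e / (p - 1))) = h58_rd p (nw : PadicAlgCl p) :=
      (h58_rd_eq_iff p (h58_norm_pow_le p hθ1 (e / (p - 1))) (h58_norm_natCast_le p nw)).2 hwθ
    rw [h58_rd_pow p hθ1, h58_rd_natCast] at hw1
    exact hw1.symm
  obtain ⟨hc1, hc0⟩ := h58_wire_cast p (K := h58_k p) nt nw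
  rw [h58_wire_lev_iff p θ hθ1, hc1, hc0] at hlev hlev'
  have ht : (nt : h58_k p) ≠ 0 := fun h => hnt ((CharP.cast_eq_zero_iff (h58_k p) p nt).1 h)
  have hsep' : (nt : h58_k p) ^ 2 ≠ 4 * (nw : h58_k p) := by
    intro h
    apply hsep
    rw [← CharP.natCast_eq_natCast (h58_k p) p]
    push_cast
    exact h
  exact h58_wire_arith_gen p hp2 (h58_rd p θ) (nw : h58_k p) (nt : h58_k p) e hpe he0 hord hw ht
    hsep' i i' hb1 hb2 hb1' hb2' hlev hlev'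

/-- degenerate case: no level solves the constraint. -/
theorem h58_wire_none (hnt : p ∣ nt) (h3 : p = 3 → nw ≡ 1 [MOD p]) (n₁ n₀ : ℕ)
    (hn₁ : n₁ = nt ^ 2 + (p - 2) * nw) (hn₀ : n₀ = (p - 1) * nw ^ 2) :
    ∀ i : ℕ, ¬ p ∣ i → ‖π‖ ^ i ≤ (p : ℝ)⁻¹ →
      1 < (p : ℝ) ^ p * (‖π‖ ^ i) ^ (p - 1) →
      ¬ ‖θ ^ i * θ ^ i - (n₁ : Ω) * θ ^ i - (n₀ : Ω)‖ < 1 := by
  intro i _ hi1 hi2 hlev
  subst hn₁ hn₀
  have hp : p.Prime := Fact.out
  have he0 : 0 < e := by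
    rcases Nat.eq_zero_or_pos e with h | h
    · exfalso
      rw [h, pow_zero] at heπ
      have h1 : (p : ℝ) = 1 := by
        have := inv_eq_one.1 heπ.symm
        exact this
      have h2 : p = 1 := by exact_mod_cast h1
      exact hp.one_lt.ne' h2
    · exact h
  have hq : (p - 1) * (e / (p - 1)) = e := Nat.mul_div_cancel' hpe
  obtain ⟨hb1, hb2⟩ := h28_level_bounds p π hπ0 hπ1 e heπ (e / (p - 1)) hq i hi1 hi2
  have hθ1 : ‖θ‖ ≤ 1 := (h28_norm_root p e he0 θ hθe).le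
  have hord := h58_wire_order p e he0 hpe' θ hθe hθe'
  have hw : (nw : h58_k p) = h58_rd p θ ^ (e / (p - 1)) := by
    have hw1 : h58_rd p (θ ^ (e / (p - 1))) = h58_rd p (nw : PadicAlgCl p) :=
      (h58_rd_eq_iff p (h58_norm_pow_le p hθ1 (e / (p - 1))) (h58_norm_natCast_le p nw)).2 hwθ
    rw [h58_rd_pow p hθ1, h58_rd_natCast] at hw1
    exact hw1.symm
  obtain ⟨hc1, hc0⟩ := h58_wire_cast p (K := h58_k p) nt nw
  rw [h58_wire_lev_iff p θ hθ1, hc1, hc0, (CharP.cast_eq_zero_iff (h58_k p) p nt).2 hnt] at hlev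
  refine h58_wire_arith_deg p hp2 (h58_rd p θ) (nw : h58_k p) e hpe he0 hord hw (fun h => ?_)
    i hb1 hb2 hlev
  have h4 := (CharP.natCast_eq_natCast (h58_k p) p).2 (h3 h)
  rw [h4, Nat.cast_one]

end Levels

/-- the residue field of `F` has at most `p²` elements, in norm form. -/
theorem h58_wire_res (F : Fld) [FiniteDimensional ℚ_[p] F]
    (hres : ∀ z ∈ F, (∃ n : ℕ, 0 < n ∧ ¬ p ∣ n ∧ z ^ n = 1) → z ^ (p ^ 2 - 1) = 1) :
    ∀ x ∈ F, ‖x‖ ≤ 1 → ‖x ^ (p ^ 2) - x‖ < 1 := by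
  intro x hx hx1
  have hp : p.Prime := Fact.out
  rcases lt_or_eq_of_le hx1 with hlt | hxe
  · refine lt_of_le_of_lt (h5_norm_sub_le_max p _ _) (max_lt ?_ hlt)
    rw [norm_pow]
    exact pow_lt_one₀ (norm_nonneg _) hlt (pow_ne_zero 2 hp.ne_zero)
  · obtain ⟨z, hzmu, hxz⟩ := h88_teich p F x hx hxe
    have hz1 := hres z hzmu.1 hzmu.2
    have hzp : z ^ (p ^ 2) = z := by
      have h2 : p ^ 2 = (p ^ 2 - 1) + 1 := by
        have := Nat.one_le_pow 2 p hp.pos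
        omega
      rw [h2, pow_succ, hz1, one_mul]
    have hzn : ‖z‖ ≤ 1 := (h88_isMu_norm p F z hzmu).le
    rw [← h58_rd_eq_iff p (h58_norm_pow_le p hx1 _) hx1, h58_rd_pow p hx1,
      (h58_rd_eq_iff p hx1 hzn).2 hxz, ← h58_rd_pow p hzn, hzp]



/-! ## The recurrence, from the matrix identity -/

section Rec

variable {k : Type} [Field k] [CharP k p]

omit [CharP k p] in
theorem h58_wire_map_cast {M : Type} [AddCommGroup M] [Module k M] (ℓ : M →+ ZMod p) (n : ℕ)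
    (x : M) : ℓ ((n : k) • x) = (n : ZMod p) * ℓ x := by
  rw [Nat.cast_smul_eq_nsmul k n x, map_nsmul, nsmul_eq_mul]

theorem h58_wire_rec {Γ : Type} [Group Γ] (rb : Γ →* Matrix (Fin 2) (Fin 2) k)
    (a : Γ → Matrix (Fin 2) (Fin 2) k)
    (hcoc : ∀ s t, a (s * t) = a s * rb t + rb s * a t) (τ : Γ) (nw nt : ℕ)
    (hdet : (rb τ).det = (nw : k)) (htr : (rb τ).trace = (nt : k))
    (ℓ : Matrix (Fin 2) (Fin 2) k →+ ZMod p) (s : Γ) (c : k)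
    (hs : rb s = c • (1 : Matrix (Fin 2) (Fin 2) k)) (c' : k)
    (hs' : rb (τ⁻¹ * s * τ) = c' • (1 : Matrix (Fin 2) (Fin 2) k))
    (hX : (a s * rb s⁻¹).trace = 0) (hXT : (a s * rb s⁻¹ * rb τ).trace = 0) :
    (nw : ZMod p) * ((nw : ZMod p) *
        ℓ (a (τ⁻¹ * (τ⁻¹ * s * τ) * τ) * rb (τ⁻¹ * (τ⁻¹ * s * τ) * τ)⁻¹))
      = ((nt ^ 2 + (p - 2) * nw : ℕ) : ZMod p) *
          ((nw : ZMod p) * ℓ (a (τ⁻¹ * s * τ) * rb (τ⁻¹ * s * τ)⁻¹))
        + (((p - 1) * nw ^ 2 : ℕ) : ZMod p) * ℓ (a s * rb s⁻¹) := by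
  have hTi : rb τ⁻¹ * rb τ = 1 := by rw [← map_mul, inv_mul_cancel, map_one]
  have h1 := h28_c_conj' rb a hcoc τ s c hs
  have h2 := h28_c_conj' rb a hcoc τ (τ⁻¹ * s * τ) c' hs'
  rw [h1] at h2
  have hq := h58_mat_quad (rb τ) (rb τ⁻¹) (a s * rb s⁻¹) hTi hX hXT
  rw [hdet, htr] at hq
  obtain ⟨hc1, hc0⟩ := h58_wire_cast p (K := k) nt nw
  have hq' : (nw : k) • (rb τ⁻¹ * (rb τ⁻¹ * (a s * rb s⁻¹) * rb τ) * rb τ)
      = ((nt : k) ^ 2 - 2 * (nw : k)) • (rb τ⁻¹ * (a s * rb s⁻¹) * rb τ)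
        - (nw : k) • (a s * rb s⁻¹) := eq_sub_of_add_eq hq
  have key : (nw : k) • ((nw : k) • (rb τ⁻¹ * (rb τ⁻¹ * (a s * rb s⁻¹) * rb τ) * rb τ))
      = ((nt ^ 2 + (p - 2) * nw : ℕ) : k) • ((nw : k) • (rb τ⁻¹ * (a s * rb s⁻¹) * rb τ))
        + (((p - 1) * nw ^ 2 : ℕ) : k) • (a s * rb s⁻¹) := by
    rw [hc1, hc0, hq']
    module
  have h3 := congrArg ℓ key
  rw [map_add, h58_wire_map_cast, h58_wire_map_cast, h58_wire_map_cast, h58_wire_map_cast,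
    h58_wire_map_cast] at h3
  rw [h2, h1]
  exact h3

end Rec

/-! ## IRR-5 (b), (c) in hypothesis form over FRONT and D1b -/

section Final

variable {k : Type} [Field k] [CharP k p]

/-- the matrix-side setup: `det (rb τ) = nw ≠ 0` and `tr (rb τ)` lies in the prime field. -/
theorem h58_wire_setup (rb : h78_G p →* Matrix (Fin 2) (Fin 2) k)
    (hdet : ∀ (g : h78_G p) (ζ : Ω), ζ ^ p = 1 → ∃ n : ℕ, g ζ = ζ ^ n ∧ (rb g).det = (n : k))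
    (W : Submodule k (h78_G p → Matrix (Fin 2) (Fin 2) k)) (L : Fld)
    (D : h78_IrrData p rb W L) :
    ¬ p ∣ D.nw ∧ (rb D.τ).det = (D.nw : k) ∧ (rb D.τ).det ≠ 0 ∧
      ∃ nt : ℕ, (rb D.τ).trace = (nt : k) := by
  have hp : p.Prime := Fact.out
  obtain ⟨n, hn, hdn⟩ := hdet D.τ D.ζ D.ζp
  have hord : orderOf D.ζ = p := orderOf_eq_prime D.ζp D.ζ1
  have hnw : ¬ p ∣ D.nw := by
    rintro ⟨m, hm⟩
    have h1 : D.τ D.ζ = 1 := by rw [D.τζ, hm, pow_mul, D.ζp, one_pow]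
    exact D.ζ1 ((EmbeddingLike.map_eq_one_iff (f := D.τ)).1 h1)
  have hmod : n ≡ D.nw [MOD p] :=
    (h62_pow_eq_pow_iff D.ζ p hp.pos hord n D.nw).1 (hn.symm.trans D.τζ)
  have hd : (rb D.τ).det = (D.nw : k) := by
    rw [hdn]; exact (CharP.natCast_eq_natCast k p).2 hmod
  have hd0 : (rb D.τ).det ≠ 0 := by
    rw [hd]; exact fun h => hnw ((CharP.cast_eq_zero_iff k p D.nw).1 h)
  have hdp : (rb D.τ).det ^ p = (rb D.τ).det := by
    rw [hd, ← frobenius_def, map_natCast]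
  obtain ⟨nt, -, hnt⟩ := h58_char_frob_fix p (rb D.τ).trace
    (h58_mat_trace_frob p (rb D.τ) D.conj hdp hd0)
  exact ⟨hnw, hd, hd0, nt, hnt⟩

/-- the quadratic recurrence of the characters `ℓ ∘ c_a` on `Gal(Ω/F₁)`. -/
theorem h58_wire_hrec [Finite k] (hp2 : p ≠ 2) (rb : h78_G p →* Matrix (Fin 2) (Fin 2) k)
    (W : Submodule k (h78_G p → Matrix (Fin 2) (Fin 2) k))
    (hcoc : ∀ a ∈ W, ∀ s t, a (s * t) = a s * rb t + rb s * a t)
    (htr : ∀ a ∈ W, ∀ s, (a s * rb s⁻¹).trace = 0)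
    (L : Fld) [FiniteDimensional ℚ_[p] L] (hL : h78_Stable p L) (D : h78_IrrData p rb W L)
    (hfront : ∀ a ∈ W, ∀ ℓ : Matrix (Fin 2) (Fin 2) k →+ ZMod p,
      ∃ u α : Ω, u ∈ D.F₁ ∧ u ≠ 0 ∧ α ^ p = u ∧ α ∈ L ∧
        (∀ s ∈ D.F₁.fixingSubgroup, s α = D.ζ ^ (ℓ (a s * rb s⁻¹)).val * α) ∧
        ‖u - 1‖ ≤ (p : ℝ)⁻¹ ∧
        ((p : ℝ) ^ p * ‖u - 1‖ ^ (p - 1) ≤ 1 ∨ ∀ z ∈ D.F₁, z ≠ 0 → ‖u - 1‖ ≠ ‖z‖ ^ p))
    (nt : ℕ) (hd : (rb D.τ).det = (D.nw : k)) (ht : (rb D.τ).trace = (nt : k))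
    (a : h78_G p → Matrix (Fin 2) (Fin 2) k) (ha : a ∈ W)
    (ℓ : Matrix (Fin 2) (Fin 2) k →+ ZMod p) :
    ∀ s ∈ D.F₁.fixingSubgroup,
      (D.nw : ZMod p) * ((D.nw : ZMod p) *
          (fun s => ℓ (a s * rb s⁻¹)) (D.τ⁻¹ * (D.τ⁻¹ * s * D.τ) * D.τ))
        = ((nt ^ 2 + (p - 2) * D.nw : ℕ) : ZMod p) *
            ((D.nw : ZMod p) * (fun s => ℓ (a s * rb s⁻¹)) (D.τ⁻¹ * s * D.τ))
          + (((p - 1) * D.nw ^ 2 : ℕ) : ZMod p) * (fun s => ℓ (a s * rb s⁻¹)) s := by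
  intro s hs
  have hnorm := h86_fixingSubgroup_normal p D.F₁ D.stable
  have hs' : D.τ⁻¹ * s * D.τ ∈ D.F₁.fixingSubgroup := by
    have h := hnorm.conj_mem s hs D.τ⁻¹
    rwa [inv_inv] at h
  obtain ⟨c, hc⟩ := D.scalar s hs
  obtain ⟨c', hc'⟩ := D.scalar _ hs'
  have hX := htr a ha s
  have hz := h28_irr_h_zero_of p hp2 rb W hcoc L hL D a ha (hfront a ha) s hs
  have hXT : (a s * rb s⁻¹ * rb D.τ).trace = 0 := by
    rw [mul_sub, Matrix.trace_sub, Matrix.mul_smul, mul_one, Matrix.trace_smul, hX, smul_zero,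
      sub_zero] at hz
    exact hz
  exact h58_wire_rec p rb a (hcoc a ha) D.τ D.nw nt hd ht ℓ s c hc c' hc' hX hXT

/-- **IRR-5 (b)** (`sk_irr_index`) in hypothesis form: `hfront` = the conclusion of
`sk_irr_front`, `hD1b` = the conclusion of `sk_normal_form_deep` for `D.F₁`. -/
theorem h58_irr_index_of [Finite k] (hp2 : p ≠ 2) (rb : h78_G p →* Matrix (Fin 2) (Fin 2) k)
    (hdet : ∀ (g : h78_G p) (ζ : Ω), ζ ^ p = 1 → ∃ n : ℕ, g ζ = ζ ^ n ∧ (rb g).det = (n : k))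
    (W : Submodule k (h78_G p → Matrix (Fin 2) (Fin 2) k))
    (hcoc : ∀ a ∈ W, ∀ s t, a (s * t) = a s * rb t + rb s * a t)
    (htr : ∀ a ∈ W, ∀ s, (a s * rb s⁻¹).trace = 0)
    (L : Fld) [FiniteDimensional ℚ_[p] L] (hL : h78_Stable p L) (D : h78_IrrData p rb W L)
    (hfront : ∀ a ∈ W, ∀ ℓ : Matrix (Fin 2) (Fin 2) k →+ ZMod p,
      ∃ u α : Ω, u ∈ D.F₁ ∧ u ≠ 0 ∧ α ^ p = u ∧ α ∈ L ∧
        (∀ s ∈ D.F₁.fixingSubgroup, s α = D.ζ ^ (ℓ (a s * rb s⁻¹)).val * α) ∧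
        ‖u - 1‖ ≤ (p : ℝ)⁻¹ ∧
        ((p : ℝ) ^ p * ‖u - 1‖ ^ (p - 1) ≤ 1 ∨ ∀ z ∈ D.F₁, z ≠ 0 → ‖u - 1‖ ≠ ‖z‖ ^ p))
    (hD1b : ∀ u ∈ D.F₁, ‖u - 1‖ ≤ (p : ℝ)⁻¹ → ∃ w ∈ D.F₁, w ≠ 0 ∧
      ‖u * w ^ p - 1‖ ≤ (p : ℝ)⁻¹ ∧
      ((p : ℝ) ^ p * ‖u * w ^ p - 1‖ ^ (p - 1) ≤ 1 ∨
        ∀ z ∈ D.F₁, z ≠ 0 → ‖u * w ^ p - 1‖ ≠ ‖z‖ ^ p))
    (h7 : ∀ c : k, rb D.τ * rb D.τ ≠ c • (1 : Matrix (Fin 2) (Fin 2) k)) :
    ∃ K1 : Subgroup (h78_G p), K1 ≤ D.F₁.fixingSubgroup ⊓ h78_J p L ∧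
      K1.relIndex (D.F₁.fixingSubgroup ⊓ h78_J p L) ≠ 0 ∧
      K1.relIndex (D.F₁.fixingSubgroup ⊓ h78_J p L) ≤ p ^ 2 ∧
      ∀ a ∈ W, ∀ s ∈ K1, ∃ c : k, a s * rb s⁻¹ =
        c • (rb D.τ - ((rb D.τ).trace / 2) • (1 : Matrix (Fin 2) (Fin 2) k)) := by
  have hp : p.Prime := Fact.out
  have := D.fin
  obtain ⟨hnw, hd, hd0, nt, ht⟩ := h58_wire_setup p rb hdet W L D
  have hnt : ¬ p ∣ nt := by
    intro h
    have h0 : (rb D.τ).trace = 0 := by rw [ht]; exact (CharP.cast_eq_zero_iff k p nt).2 h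
    apply h7 (-(rb D.τ).det)
    rw [h58_mat_ch, h0, zero_smul, zero_sub, neg_smul]
  have hsep : ¬ nt ^ 2 ≡ 4 * D.nw [MOD p] := by
    intro h
    apply D.sep
    rw [ht, hd]
    have h1 := (CharP.natCast_eq_natCast k p).2 h
    push_cast at h1
    exact h1
  obtain ⟨hπF, hπ0, hπ1, -⟩ := D.unif
  have hpe' := h28_tame_not_dvd p D.F₁ D.tame D.π₁ hπF hπ0 D.e D.eπ
  have huniq := h58_wire_uniq p hp2 D.π₁ (norm_pos_iff.2 hπ0) hπ1 D.e D.eπ D.pe hpe' D.θ D.θe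
    D.θe' D.nw nt D.wθ hnt hsep _ _ rfl rfl
  have hκ := h58_wire_res p D.F₁ D.res
  have hτF : ∀ z ∈ D.F₁, D.τ z ∈ D.F₁ := fun z hz => D.stable D.τ z hz
  have hτres : ∀ x ∈ D.F₁, ‖x‖ ≤ 1 → ‖D.τ x - x‖ < 1 :=
    fun x hx hx1 => h49_J_res p L D.τ D.τJ x (D.le hx) hx1
  have hrec := fun a ha ℓ => h58_wire_hrec p hp2 rb W hcoc htr L hL D hfront nt hd ht a ha ℓ
  obtain ⟨X, hXdef⟩ : ∃ X : Set (h78_G p → ZMod p), X = {χ | ∃ a ∈ W,
      ∃ ℓ : Matrix (Fin 2) (Fin 2) k →+ ZMod p, χ = fun s => ℓ (a s * rb s⁻¹)} := ⟨_, rfl⟩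
  have hadd : ∀ χ ∈ X, ∀ s ∈ D.F₁.fixingSubgroup ⊓ h78_J p L,
      ∀ t ∈ D.F₁.fixingSubgroup ⊓ h78_J p L, χ (s * t) = χ s + χ t := by
    intro χ hχ s hs t _
    rw [hXdef] at hχ
    obtain ⟨a, ha, ℓ, rfl⟩ := hχ
    obtain ⟨c, hc⟩ := D.scalar s (Subgroup.mem_inf.1 hs).1
    show ℓ _ = ℓ _ + ℓ _
    rw [h28_c_mul_scalar rb a (hcoc a ha) s t c hc, map_add]
  have hrel : ∀ χ₁ ∈ X, ∀ χ₂ ∈ X, ∀ χ₃ ∈ X, ∃ m₁ m₂ m₃ : ZMod p,
      (m₁ ≠ 0 ∨ m₂ ≠ 0 ∨ m₃ ≠ 0) ∧ ∀ s ∈ D.F₁.fixingSubgroup ⊓ h78_J p L,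
        m₁ * χ₁ s + m₂ * χ₂ s + m₃ * χ₃ s = 0 := by
    intro χ₁ hχ₁ χ₂ hχ₂ χ₃ hχ₃
    rw [hXdef] at hχ₁ hχ₂ hχ₃
    obtain ⟨a₁, ha₁, ℓ₁, rfl⟩ := hχ₁
    obtain ⟨a₂, ha₂, ℓ₂, rfl⟩ := hχ₂
    obtain ⟨a₃, ha₃, ℓ₃, rfl⟩ := hχ₃
    exact h58_irr5_rel p D.F₁ L D.le D.ζ D.ζF D.ζp D.ζ1 D.π₁ D.unif D.τ hτF hτres D.θ D.θπ D.nw
      D.τζ _ _ hD1b hκ huniq (fun s => ℓ₁ (a₁ s * rb s⁻¹)) (fun s => ℓ₂ (a₂ s * rb s⁻¹))
      (fun s => ℓ₃ (a₃ s * rb s⁻¹)) (hfront a₁ ha₁ ℓ₁) (hfront a₂ ha₂ ℓ₂) (hfront a₃ ha₃ ℓ₃)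
      (hrec a₁ ha₁ ℓ₁) (hrec a₂ ha₂ ℓ₂) (hrec a₃ ha₃ ℓ₃)
  obtain ⟨K, hK, hK0, hK2, hKX⟩ :=
    h58_irr5_index p (D.F₁.fixingSubgroup ⊓ h78_J p L) X hadd hrel
  refine ⟨K, hK, hK0, hK2, fun a ha s hs => ⟨0, ?_⟩⟩
  rw [zero_smul]
  ext i j
  rw [Matrix.zero_apply]
  apply h28_addfun_sep p
  intro l
  have h1 := hKX s hs (fun s => (l.comp (Matrix.entryAddMonoidHom k i j)) (a s * rb s⁻¹))
    (by rw [hXdef]; exact ⟨a, ha, l.comp (Matrix.entryAddMonoidHom k i j), rfl⟩)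
  exact h1

/-- **IRR-5 (c)** (`sk_irr_no_level`) in hypothesis form: `hfront` = the conclusion of
`sk_irr_front`. -/
theorem h58_irr_no_level_of [Finite k] (hp2 : p ≠ 2)
    (rb : h78_G p →* Matrix (Fin 2) (Fin 2) k)
    (hdet : ∀ (g : h78_G p) (ζ : Ω), ζ ^ p = 1 → ∃ n : ℕ, g ζ = ζ ^ n ∧ (rb g).det = (n : k))
    (W : Submodule k (h78_G p → Matrix (Fin 2) (Fin 2) k))
    (hcoc : ∀ a ∈ W, ∀ s t, a (s * t) = a s * rb t + rb s * a t)
    (htr : ∀ a ∈ W, ∀ s, (a s * rb s⁻¹).trace = 0)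
    (L : Fld) [FiniteDimensional ℚ_[p] L] (hL : h78_Stable p L) (D : h78_IrrData p rb W L)
    (hfront : ∀ a ∈ W, ∀ ℓ : Matrix (Fin 2) (Fin 2) k →+ ZMod p,
      ∃ u α : Ω, u ∈ D.F₁ ∧ u ≠ 0 ∧ α ^ p = u ∧ α ∈ L ∧
        (∀ s ∈ D.F₁.fixingSubgroup, s α = D.ζ ^ (ℓ (a s * rb s⁻¹)).val * α) ∧
        ‖u - 1‖ ≤ (p : ℝ)⁻¹ ∧
        ((p : ℝ) ^ p * ‖u - 1‖ ^ (p - 1) ≤ 1 ∨ ∀ z ∈ D.F₁, z ≠ 0 → ‖u - 1‖ ≠ ‖z‖ ^ p))
    (h7 : ∃ c : k, rb D.τ * rb D.τ = c • (1 : Matrix (Fin 2) (Fin 2) k))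
    (a : h78_G p → Matrix (Fin 2) (Fin 2) k) (ha : a ∈ W) (s : h78_G p)
    (hs : s ∈ D.F₁.fixingSubgroup ⊓ h78_J p L) :
    ∃ c : k, a s * rb s⁻¹ =
      c • (rb D.τ - ((rb D.τ).trace / 2) • (1 : Matrix (Fin 2) (Fin 2) k)) := by
  have hp : p.Prime := Fact.out
  have := D.fin
  obtain ⟨hnw, hd, hd0, nt, ht⟩ := h58_wire_setup p rb hdet W L D
  obtain ⟨c, hc⟩ := h7
  have hch := h58_mat_ch (rb D.τ)
  -- `tr T = 0`
  have ht0 : (rb D.τ).trace = 0 := by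
    by_contra h0
    have h1 : (rb D.τ).trace • rb D.τ = (c + (rb D.τ).det) • (1 : Matrix (Fin 2) (Fin 2) k) := by
      rw [add_smul, ← hc, hch]; abel
    obtain ⟨lam, hT⟩ : ∃ lam : k, rb D.τ = lam • (1 : Matrix (Fin 2) (Fin 2) k) := by
      refine ⟨(rb D.τ).trace⁻¹ * (c + (rb D.τ).det), ?_⟩
      rw [mul_smul, ← h1, smul_smul, inv_mul_cancel₀ h0, one_smul]
    apply D.sep
    rw [hT]
    simp
    ring
  have hnt : p ∣ nt := (CharP.cast_eq_zero_iff k p nt).1 (ht ▸ ht0)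
  have h3 : p = 3 → D.nw ≡ 1 [MOD p] := by
    intro hp3
    have hcd : c = -(rb D.τ).det := by
      have h1 : c • (1 : Matrix (Fin 2) (Fin 2) k)
          = (-(rb D.τ).det) • (1 : Matrix (Fin 2) (Fin 2) k) := by
        rw [← hc, hch, ht0, zero_smul, zero_sub, neg_smul]
      have h2 := congrFun (congrFun h1 0) 0
      simpa using h2
    have hT3 : rb D.τ ^ p = c • rb D.τ := by
      have h : rb D.τ ^ p = rb D.τ ^ 3 := congrArg (fun n : ℕ => rb D.τ ^ n) hp3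
      rw [h, pow_succ, pow_two, hc, Matrix.smul_mul, one_mul]
    have h4 : c • rb D.τ = -rb D.τ := by rw [← hT3, D.conj, ht0, zero_smul, zero_sub]
    have h5 : (c + 1) • rb D.τ = 0 := by rw [add_smul, one_smul, h4]; abel
    have hT0 : rb D.τ ≠ 0 := by
      intro h0
      apply hd0
      rw [h0]
      simp
    have hc1 : c + 1 = 0 := (smul_eq_zero.1 h5).resolve_right hT0
    have hd1 : (D.nw : k) = ((1 : ℕ) : k) := by
      rw [← hd, Nat.cast_one]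
      linear_combination hcd - hc1
    exact (CharP.natCast_eq_natCast k p).1 hd1
  obtain ⟨hπF, hπ0, hπ1, -⟩ := D.unif
  have hpe' := h28_tame_not_dvd p D.F₁ D.tame D.π₁ hπF hπ0 D.e D.eπ
  have hnone := h58_wire_none p hp2 D.π₁ (norm_pos_iff.2 hπ0) hπ1 D.e D.eπ D.pe hpe' D.θ D.θe
    D.θe' D.nw nt D.wθ hnt h3 _ _ rfl rfl
  have hτF : ∀ z ∈ D.F₁, D.τ z ∈ D.F₁ := fun z hz => D.stable D.τ z hz
  have hτres : ∀ x ∈ D.F₁, ‖x‖ ≤ 1 → ‖D.τ x - x‖ < 1 :=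
    fun x hx hx1 => h49_J_res p L D.τ D.τJ x (D.le hx) hx1
  refine ⟨0, ?_⟩
  rw [zero_smul]
  ext i j
  rw [Matrix.zero_apply]
  apply h28_addfun_sep p
  intro l
  exact h58_irr5_none p D.F₁ L D.le D.ζ D.ζF D.ζp D.ζ1 D.π₁ D.unif D.τ hτF hτres D.θ D.θπ D.nw
    D.τζ _ _ hnone (fun s => (l.comp (Matrix.entryAddMonoidHom k i j)) (a s * rb s⁻¹))
    (hfront a ha _)
    (h58_wire_hrec p hp2 rb W hcoc htr L hL D hfront nt hd ht a ha _) s hs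

end Final

end Fermat.Agent.S56
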