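/-
S56 / W3 / E-IRR row IRR-5 (b), (c): `sk_irr_index` and `sk_irr_no_level`, verbatim.
(`h58_IrrWire` + FRONT `h47_irr_front` + D1b `h47_normal_form_deep`.)
-/
import Fermat.Agent.S56.h58_IrrWire
import Fermat.Agent.S56.h47_IrrFrontFinal

set_option autoImplicit false

namespace Fermat.Agent.S56

variable (p : ℕ) [Fact p.Prime]

local notation "Ω" => PadicAlgCl p
local notation "Fld" => IntermediateField ℚ_[p] (PadicAlgCl p)

/-- **IRR-5 (h5), generic case `T²` not scalar** (`sk_irr_index`, verbatim). -/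
theorem h58_irr_index (hp2 : p ≠ 2) {k : Type} [Field k] [Finite k] [CharP k p]
    (rb : h78_G p →* Matrix (Fin 2) (Fin 2) k)
    (hdet : ∀ (g : h78_G p) (ζ : Ω), ζ ^ p = 1 → ∃ n : ℕ, g ζ = ζ ^ n ∧ (rb g).det = (n : k))
    (W : Submodule k (h78_G p → Matrix (Fin 2) (Fin 2) k))
    (hcoc : ∀ a ∈ W, ∀ s t, a (s * t) = a s * rb t + rb s * a t)
    (htr : ∀ a ∈ W, ∀ s, (a s * rb s⁻¹).trace = 0)
    (hflat : ∀ a ∈ W, a ≠ 0 → h78_LocFlat p rb a)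
    (L : Fld) [FiniteDimensional ℚ_[p] L] (hL : h78_Stable p L) (D : h78_IrrData p rb W L)
    (h7 : ∀ c : k, rb D.τ * rb D.τ ≠ c • (1 : Matrix (Fin 2) (Fin 2) k)) :
    ∃ K1 : Subgroup (h78_G p), K1 ≤ D.F₁.fixingSubgroup ⊓ h78_J p L ∧
      K1.relIndex (D.F₁.fixingSubgroup ⊓ h78_J p L) ≠ 0 ∧
      K1.relIndex (D.F₁.fixingSubgroup ⊓ h78_J p L) ≤ p ^ 2 ∧
      ∀ a ∈ W, ∀ s ∈ K1, ∃ c : k, a s * rb s⁻¹ =
        c • (rb D.τ - ((rb D.τ).trace / 2) • (1 : Matrix (Fin 2) (Fin 2) k)) :=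
  have := D.fin
  h58_irr_index_of p hp2 rb hdet W hcoc htr L hL D
    (fun a ha ℓ => h47_irr_front p rb W hcoc hflat L hL D a ha ℓ)
    (fun u hu hu1 => h47_normal_form_deep p D.F₁ D.π₁ D.unif
      (fun x hx hx1 => h93_exists_pth_root_mod p D.F₁ x hx hx1) u hu hu1)
    h7

/-- **IRR-5 (h5), degenerate case `T²` scalar** (`sk_irr_no_level`, verbatim). -/
theorem h58_irr_no_level (hp2 : p ≠ 2) {k : Type} [Field k] [Finite k] [CharP k p]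
    (rb : h78_G p →* Matrix (Fin 2) (Fin 2) k)
    (hdet : ∀ (g : h78_G p) (ζ : Ω), ζ ^ p = 1 → ∃ n : ℕ, g ζ = ζ ^ n ∧ (rb g).det = (n : k))
    (W : Submodule k (h78_G p → Matrix (Fin 2) (Fin 2) k))
    (hcoc : ∀ a ∈ W, ∀ s t, a (s * t) = a s * rb t + rb s * a t)
    (htr : ∀ a ∈ W, ∀ s, (a s * rb s⁻¹).trace = 0)
    (hflat : ∀ a ∈ W, a ≠ 0 → h78_LocFlat p rb a)
    (L : Fld) [FiniteDimensional ℚ_[p] L] (hL : h78_Stable p L) (D : h78_IrrData p rb W L)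
    (h7 : ∃ c : k, rb D.τ * rb D.τ = c • (1 : Matrix (Fin 2) (Fin 2) k))
    (a : h78_G p → Matrix (Fin 2) (Fin 2) k) (ha : a ∈ W) (s : h78_G p)
    (hs : s ∈ D.F₁.fixingSubgroup ⊓ h78_J p L) :
    ∃ c : k, a s * rb s⁻¹ =
      c • (rb D.τ - ((rb D.τ).trace / 2) • (1 : Matrix (Fin 2) (Fin 2) k)) :=
  h58_irr_no_level_of p hp2 rb hdet W hcoc htr L hL D
    (fun a ha ℓ => h47_irr_front p rb W hcoc hflat L hL D a ha ℓ) h7 a ha s hs

end Fermat.Agent.S56
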