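import Mathlib

/-!
# S56 / W3 / E-IRR, row IRR-2b (STRUCT): the matrix algebra

Pure algebra of `2 × 2` matrices over a finite field `k` of odd characteristic `p`, used by the
structure theorem of an irreducible `rb : G_p → GL₂(k)` with cyclotomic determinant:

* `h59_irr_alg` : if `Φ T Φ⁻¹ = T ^ p`, `det T` is a non-square of `𝔽_p` (in the form
  `det T ^ ((p - 1) / 2) = -1`) and `T`, `Φ` have no common eigenvector over `k`, then
  `T ^ p = tr T - T`, `tr T ^ 2 ≠ 4 det T` and `Φ ^ 2` is scalar.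
* `h59_irr_scalar_pow` : then every `T ^ i * Φ ^ j` has a scalar `2 (p + 1)`-th power.
-/

set_option autoImplicit false

namespace Fermat.Agent.S56

section mat2

variable {k : Type} [Field k]

/-- a traceless `2 × 2` matrix squares to a scalar. -/
theorem h59_m2_sq_of_trace_zero (N : Matrix (Fin 2) (Fin 2) k) (hN : N.trace = 0) :
    N * N = (-N.det) • (1 : Matrix (Fin 2) (Fin 2) k) := by
  have h : N 0 0 = -N 1 1 := by
    rw [Matrix.trace_fin_two] at hN; linear_combination hN
  ext i j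
  fin_cases i <;> fin_cases j <;>
    simp [Matrix.mul_apply, Fin.sum_univ_two, Matrix.det_fin_two, h] <;> ring

/-- polarised form: traceless `2 × 2` matrices anticommute up to a scalar. -/
theorem h59_m2_anticomm (A B : Matrix (Fin 2) (Fin 2) k) (hA : A.trace = 0) (hB : B.trace = 0) :
    A * B + B * A = (A * B).trace • (1 : Matrix (Fin 2) (Fin 2) k) := by
  have h1 : A 0 0 = -A 1 1 := by
    rw [Matrix.trace_fin_two] at hA; linear_combination hA
  have h2 : B 0 0 = -B 1 1 := by
    rw [Matrix.trace_fin_two] at hB; linear_combination hB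
  ext i j
  fin_cases i <;> fin_cases j <;>
    simp [Matrix.mul_apply, Fin.sum_univ_two, Matrix.trace_fin_two, h1, h2] <;> ring

/-- Cayley-Hamilton for `2 × 2` matrices. -/
theorem h59_m2_cayley (T : Matrix (Fin 2) (Fin 2) k) :
    T * T = T.trace • T - T.det • (1 : Matrix (Fin 2) (Fin 2) k) := by
  ext i j
  fin_cases i <;> fin_cases j <;>
    simp [Matrix.mul_apply, Fin.sum_univ_two, Matrix.trace_fin_two, Matrix.det_fin_two] <;> ring

/-- a `2 × 2` matrix killing two independent vectors is zero. -/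
theorem h59_m2_eq_zero_of_mulVec (M : Matrix (Fin 2) (Fin 2) k) (v u : Fin 2 → k)
    (hd : v 0 * u 1 - v 1 * u 0 ≠ 0) (hv : M.mulVec v = 0) (hu : M.mulVec u = 0) : M = 0 := by
  have e : ∀ i, M i 0 * v 0 + M i 1 * v 1 = 0 := by
    intro i
    have := congrFun hv i
    simpa [Matrix.mulVec, dotProduct, Fin.sum_univ_two] using this
  have f : ∀ i, M i 0 * u 0 + M i 1 * u 1 = 0 := by
    intro i
    have := congrFun hu i
    simpa [Matrix.mulVec, dotProduct, Fin.sum_univ_two] using this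
  have hi0 : ∀ i, M i 0 = 0 := by
    intro i
    have h1 : M i 0 * (v 0 * u 1 - v 1 * u 0) = 0 := by
      linear_combination u 1 * e i - v 1 * f i
    exact (mul_eq_zero.1 h1).resolve_right hd
  have hi1 : ∀ i, M i 1 = 0 := by
    intro i
    have h1 : M i 1 * (v 0 * u 1 - v 1 * u 0) = 0 := by
      linear_combination v 0 * f i - u 0 * e i
    exact (mul_eq_zero.1 h1).resolve_right hd
  ext i j
  fin_cases j
  · exact hi0 i
  · exact hi1 i

/-- independence in determinant form. -/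
theorem h59_m2_det_ne_zero (v u : Fin 2 → k) (hv : v ≠ 0) (hu : ∀ c : k, u ≠ c • v) :
    v 0 * u 1 - v 1 * u 0 ≠ 0 := by
  intro hd
  by_cases h0 : v 0 = 0
  · have h1 : v 1 ≠ 0 := by
      intro h1
      apply hv
      ext i
      fin_cases i
      · exact h0
      · exact h1
    apply hu (u 1 / v 1)
    have h2 : u 0 = 0 := by
      have h3 : v 1 * u 0 = 0 := by rw [h0] at hd; linear_combination -hd
      exact (mul_eq_zero.1 h3).resolve_left h1
    ext i
    fin_cases i
    · show u 0 = u 1 / v 1 * v 0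
      rw [h2, h0, mul_zero]
    · show u 1 = u 1 / v 1 * v 1
      field_simp
  · apply hu (u 0 / v 0)
    ext i
    fin_cases i
    · show u 0 = u 0 / v 0 * v 0
      field_simp
    · show u 1 = u 0 / v 0 * v 1
      field_simp
      linear_combination hd

/-- the kernel of a nonzero `2 × 2` matrix is at most a line. -/
theorem h59_m2_ker_line (M : Matrix (Fin 2) (Fin 2) k) (hM : M ≠ 0) (v u : Fin 2 → k)
    (hv0 : v ≠ 0) (hv : M.mulVec v = 0) (hu : M.mulVec u = 0) : ∃ c : k, u = c • v := by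
  by_contra hcon
  have hcon' : ∀ c : k, u ≠ c • v := fun c hc => hcon ⟨c, hc⟩
  exact hM (h59_m2_eq_zero_of_mulVec M v u (h59_m2_det_ne_zero v u hv0 hcon') hv hu)

/-- a matrix fixing two independent vectors is the identity. -/
theorem h59_m2_eq_one_of_fix (A : Matrix (Fin 2) (Fin 2) k) (v u : Fin 2 → k) (hv0 : v ≠ 0)
    (hu : ∀ c : k, u ≠ c • v) (hAv : A.mulVec v = v) (hAu : A.mulVec u = u) : A = 1 := by
  have h := h59_m2_eq_zero_of_mulVec (A - 1) v u (h59_m2_det_ne_zero v u hv0 hu)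
    (by rw [Matrix.sub_mulVec, hAv, Matrix.one_mulVec, sub_self])
    (by rw [Matrix.sub_mulVec, hAu, Matrix.one_mulVec, sub_self])
  exact sub_eq_zero.1 h

end mat2

variable (p : ℕ) [Fact p.Prime]

theorem h59_two_ne_zero (hp2 : p ≠ 2) {k : Type} [Field k] [CharP k p] : (2 : k) ≠ 0 := by
  intro h
  have h' : ((2 : ℕ) : k) = 0 := by exact_mod_cast h
  rw [CharP.cast_eq_zero_iff k p] at h'
  exact hp2 ((Nat.prime_dvd_prime_iff_eq (Fact.out : p.Prime) Nat.prime_two).1 h')

/-- an element with `x ^ ((p - 1) / 2) = 1` is a square in a finite field of characteristic `p`. -/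
theorem h59_exists_sqrt (hp2 : p ≠ 2) {k : Type} [Field k] [Finite k] [CharP k p] (x : k)
    (hx : x ^ ((p - 1) / 2) = 1) : ∃ s : k, x = s * s := by
  classical
  have hp : p.Prime := Fact.out
  have : Fintype k := Fintype.ofFinite k
  have hodd : p % 2 = 1 := hp.eq_two_or_odd.resolve_left hp2
  have hx0 : x ≠ 0 := by
    rintro rfl
    have hh : (p - 1) / 2 ≠ 0 := by
      have := hp.two_le
      omega
    rw [zero_pow hh] at hx
    exact zero_ne_one hx
  have hchar : ringChar k ≠ 2 := by rw [ringChar.eq k p]; exact hp2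
  obtain ⟨n, -, hn⟩ := FiniteField.card k p
  have key : ∀ m : ℕ, ∃ S : ℕ, p ^ m = 2 * ((p - 1) / 2 * S) + 1 := by
    intro m
    induction m with
    | zero => exact ⟨0, by simp⟩
    | succ m ih =>
      obtain ⟨S, hS⟩ := ih
      refine ⟨S * p + 1, ?_⟩
      have hp' : p = 2 * ((p - 1) / 2) + 1 := by omega
      rw [pow_succ, hS]
      generalize (p - 1) / 2 = h at hp' ⊢
      have e1 : (2 * (h * S) + 1) * p = 2 * (h * S * p) + p := by ring
      have e2 : 2 * (h * (S * p + 1)) + 1 = 2 * (h * S * p) + (2 * h + 1) := by ring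
      rw [e1, e2, ← hp']
  obtain ⟨S, hS⟩ := key n
  have hsq : IsSquare x := by
    rw [FiniteField.isSquare_iff hchar hx0, hn, hS]
    have e : (2 * ((p - 1) / 2 * S) + 1) / 2 = (p - 1) / 2 * S := by omega
    rw [e, pow_mul, hx, one_pow]
  obtain ⟨s, hs⟩ := hsq
  exact ⟨s, hs⟩

/-- **IRR-2b, algebra core.** `Φ T Φ⁻¹ = T ^ p`, `det T` a non-square of `𝔽_p`, no common
eigenvector: then `T ^ p = tr T - T`, `tr T ^ 2 ≠ 4 det T` and `Φ ^ 2` is scalar. -/
theorem h59_irr_alg (hp2 : p ≠ 2) {k : Type} [Field k] [Finite k] [CharP k p]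
    (T Φ Ψ : Matrix (Fin 2) (Fin 2) k) (hΦΨ : Φ * Ψ = 1) (hΨΦ : Ψ * Φ = 1)
    (hswap : Φ * T = T ^ p * Φ)
    (hw : T.det ^ ((p - 1) / 2) = -1)
    (hne : ∀ v : Fin 2 → k, v ≠ 0 → ∀ a b : k, T.mulVec v = a • v → Φ.mulVec v = b • v → False) :
    T ^ p = T.trace • (1 : Matrix (Fin 2) (Fin 2) k) - T ∧ T.trace ^ 2 ≠ 4 * T.det ∧
    ∃ c : k, Φ * Φ = c • (1 : Matrix (Fin 2) (Fin 2) k) := by
  classical
  have hp : p.Prime := Fact.out
  have h2 : (2 : k) ≠ 0 := h59_two_ne_zero p hp2
  have h4 : (4 : k) ≠ 0 := by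
    have : (4 : k) = 2 * 2 := by norm_num
    rw [this]; exact mul_ne_zero h2 h2
  have hodd : p % 2 = 1 := hp.eq_two_or_odd.resolve_left hp2
  obtain ⟨h, hh⟩ : ∃ h : ℕ, (p - 1) / 2 = h := ⟨_, rfl⟩
  have hph : p = 2 * h + 1 := by omega
  have hh1 : h ≠ 0 := by have := hp.two_le; omega
  rw [hh] at hw
  obtain ⟨t, ht⟩ : ∃ t : k, T.trace = t := ⟨_, rfl⟩
  obtain ⟨N, hN⟩ : ∃ N : Matrix (Fin 2) (Fin 2) k,
      N = T - (t / 2) • (1 : Matrix (Fin 2) (Fin 2) k) := ⟨_, rfl⟩
  have hTN : T = N + (t / 2) • (1 : Matrix (Fin 2) (Fin 2) k) := by rw [hN, sub_add_cancel]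
  have hNtr : N.trace = 0 := by
    rw [hN, Matrix.trace_sub, Matrix.trace_smul, Matrix.trace_one, Fintype.card_fin, smul_eq_mul,
      ht]
    push_cast
    field_simp
    ring
  obtain ⟨δ, hδ⟩ : ∃ δ : k, δ = -N.det := ⟨_, rfl⟩
  have hNN : N * N = δ • (1 : Matrix (Fin 2) (Fin 2) k) := by
    rw [hδ]; exact h59_m2_sq_of_trace_zero N hNtr
  have hδ' : δ = t ^ 2 / 4 - T.det := by
    have e1 : t = T 0 0 + T 1 1 := by rw [← ht, Matrix.trace_fin_two]
    rw [hδ, hN, Matrix.det_fin_two, Matrix.det_fin_two]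
    simp only [Matrix.sub_apply, Matrix.smul_apply, Matrix.one_apply_eq, smul_eq_mul, mul_one,
      Matrix.one_apply_ne (show (0 : Fin 2) ≠ 1 by decide),
      Matrix.one_apply_ne (show (1 : Fin 2) ≠ 0 by decide), mul_zero, sub_zero]
    rw [e1]
    field_simp
    ring
  have hNp : N ^ p = δ ^ h • N := by
    rw [hph, pow_succ, pow_mul, pow_two, hNN, smul_pow, one_pow, Matrix.smul_mul, Matrix.one_mul]
  have hcomm : Commute N ((t / 2) • (1 : Matrix (Fin 2) (Fin 2) k)) :=
    (Commute.one_right N).smul_right (t / 2)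
  have hTp0 : T ^ p = δ ^ h • N + ((t / 2) ^ p) • (1 : Matrix (Fin 2) (Fin 2) k) := by
    conv_lhs => rw [hTN]
    rw [add_pow_char_of_commute p hcomm, hNp, smul_pow, one_pow]
  have htrTp : (T ^ p).trace = t := by
    have e1 : T ^ p = Φ * T * Ψ := by
      rw [hswap, Matrix.mul_assoc, hΦΨ, Matrix.mul_one]
    rw [e1, Matrix.trace_mul_comm, ← Matrix.mul_assoc, hΨΦ, Matrix.one_mul, ht]
  have htp : (t / 2) ^ p = t / 2 := by
    have e2 := htrTp
    rw [hTp0, Matrix.trace_add, Matrix.trace_smul, Matrix.trace_smul, hNtr, Matrix.trace_one,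
      Fintype.card_fin, smul_eq_mul, smul_eq_mul, mul_zero, zero_add] at e2
    push_cast at e2
    field_simp
    linear_combination e2
  have hTp : T ^ p = δ ^ h • N + (t / 2) • (1 : Matrix (Fin 2) (Fin 2) k) := by
    rw [hTp0, htp]
  have hΦN : Φ * N = δ ^ h • (N * Φ) := by
    have e1 : Φ * N = Φ * T - (t / 2) • Φ := by
      rw [hN, Matrix.mul_sub, Matrix.mul_smul, Matrix.mul_one]
    rw [e1, hswap, hTp, Matrix.add_mul, Matrix.smul_mul, Matrix.smul_mul, Matrix.one_mul,
      add_sub_cancel_right]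
  have hδeq : δ = δ ^ h * δ ^ h * δ := by
    have e3 : Φ * (N * N) = (δ ^ h * δ ^ h) • ((N * N) * Φ) := by
      rw [← Matrix.mul_assoc, hΦN, Matrix.smul_mul, Matrix.mul_assoc, hΦN, Matrix.mul_smul,
        smul_smul, Matrix.mul_assoc]
    rw [hNN, Matrix.mul_smul, Matrix.mul_one, Matrix.smul_mul, Matrix.one_mul, smul_smul] at e3
    have e4 := congrArg (fun X => X * Ψ) e3
    simp only [Matrix.smul_mul, hΦΨ] at e4
    have e5 := congrFun (congrFun e4 0) 0
    simpa using e5
  -- the three cases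
  have hcase : δ = 0 ∨ δ ^ h = 1 ∨ δ ^ h = -1 := by
    by_cases hδ0 : δ = 0
    · exact Or.inl hδ0
    · right
      have e6 : (δ ^ h * δ ^ h - 1) * δ = 0 := by linear_combination -hδeq
      have e7 : δ ^ h * δ ^ h = 1 := by
        have := (mul_eq_zero.1 e6).resolve_right hδ0
        linear_combination this
      exact mul_self_eq_one_iff.1 e7
  rcases hcase with hδ0 | hδ1 | hδ1
  · -- `δ = 0`: `T` is scalar, `det T` is a square of `𝔽_p`
    exfalso
    have hTpc : T ^ p = (t / 2) • (1 : Matrix (Fin 2) (Fin 2) k) := by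
      rw [hTp, hδ0, zero_pow hh1, zero_smul, zero_add]
    have hTc : T = (t / 2) • (1 : Matrix (Fin 2) (Fin 2) k) := by
      have e1 : T = Ψ * (Φ * T) := by rw [← Matrix.mul_assoc, hΨΦ, Matrix.one_mul]
      rw [e1, hswap, hTpc, Matrix.smul_mul, Matrix.one_mul, Matrix.mul_smul, hΨΦ]
    have hdet : T.det = (t / 2) * (t / 2) := by
      rw [hTc, Matrix.det_fin_two]
      simp
    have e8 : T.det ^ h = (t / 2) ^ (p - 1) := by
      rw [hdet, ← pow_two, ← pow_mul]
      congr 1
      omega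
    by_cases hc0 : t / 2 = 0
    · rw [hdet, hc0, mul_zero, zero_pow hh1] at hw
      exact h2 (by linear_combination (2 : k) * hw)
    · have e9 : (t / 2) ^ (p - 1) = 1 := by
        have e10 : (t / 2) ^ (p - 1) * (t / 2) = 1 * (t / 2) := by
          rw [← pow_succ, one_mul]
          have : p - 1 + 1 = p := by omega
          rw [this, htp]
        exact mul_right_cancel₀ hc0 e10
      rw [e8, e9] at hw
      exact h2 (by linear_combination hw)
  · -- `δ ^ h = 1`: `T ^ p = T`, a common eigenvector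
    exfalso
    have hδ0 : δ ≠ 0 := by
      rintro rfl
      rw [zero_pow hh1] at hδ1
      exact zero_ne_one hδ1
    obtain ⟨s, hs⟩ := h59_exists_sqrt p hp2 δ (by rw [hh]; exact hδ1)
    have hs0 : s ≠ 0 := by
      rintro rfl
      exact hδ0 (by rw [hs, mul_zero])
    have hΦN' : Φ * N = N * Φ := by rw [hΦN, hδ1, one_smul]
    -- `N ≠ ± s`
    have hNs : ∀ c : k, c ≠ 0 → N - c • (1 : Matrix (Fin 2) (Fin 2) k) ≠ 0 := by
      intro c hc hcon
      have e1 : N = c • (1 : Matrix (Fin 2) (Fin 2) k) := sub_eq_zero.1 hcon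
      have e2 := hNtr
      rw [e1, Matrix.trace_smul, Matrix.trace_one, Fintype.card_fin, smul_eq_mul] at e2
      push_cast at e2
      rcases mul_eq_zero.1 e2 with h' | h'
      · exact hc h'
      · exact h2 h'
    have hM1 := hNs s hs0
    have hM2 := hNs (-s) (neg_ne_zero.2 hs0)
    -- a nonzero column of `N - s`
    obtain ⟨i, j, hij⟩ : ∃ i j, (N - s • (1 : Matrix (Fin 2) (Fin 2) k)) i j ≠ 0 := by
      by_contra hcon
      apply hM1
      ext i j
      by_contra hne'
      exact hcon ⟨i, j, hne'⟩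
    obtain ⟨v, hv⟩ : ∃ v : Fin 2 → k,
        v = (N - s • (1 : Matrix (Fin 2) (Fin 2) k)).mulVec (Pi.single j 1) := ⟨_, rfl⟩
    have hv0 : v ≠ 0 := by
      intro hv0
      apply hij
      have := congrFun hv0 i
      rw [hv, Matrix.mulVec_single_one] at this
      exact this
    have hkill : (N - (-s) • (1 : Matrix (Fin 2) (Fin 2) k)).mulVec v = 0 := by
      rw [hv, Matrix.mulVec_mulVec]
      have e1 : (N - (-s) • (1 : Matrix (Fin 2) (Fin 2) k)) *
          (N - s • (1 : Matrix (Fin 2) (Fin 2) k)) = 0 := by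
        rw [Matrix.sub_mul, Matrix.mul_sub, Matrix.mul_sub, hNN, Matrix.mul_smul, Matrix.mul_one,
          Matrix.smul_mul, Matrix.one_mul, Matrix.smul_mul, Matrix.one_mul, smul_smul, hs]
        ext a b
        simp only [Matrix.sub_apply, Matrix.smul_apply, Matrix.zero_apply, smul_eq_mul]
        ring
      rw [e1, Matrix.zero_mulVec]
    have hNv : N.mulVec v = (-s) • v := by
      have := hkill
      rw [Matrix.sub_mulVec, Matrix.smul_mulVec, Matrix.one_mulVec, sub_eq_zero] at this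
      exact this
    have hTv : T.mulVec v = (t / 2 - s) • v := by
      rw [hTN, Matrix.add_mulVec, hNv, Matrix.smul_mulVec, Matrix.one_mulVec, sub_smul,
        neg_smul]
      abel
    have hkill' : (N - (-s) • (1 : Matrix (Fin 2) (Fin 2) k)).mulVec (Φ.mulVec v) = 0 := by
      rw [Matrix.sub_mulVec, Matrix.smul_mulVec, Matrix.one_mulVec, Matrix.mulVec_mulVec,
        ← hΦN', ← Matrix.mulVec_mulVec, hNv, Matrix.mulVec_smul, sub_self]
    obtain ⟨b, hb⟩ := h59_m2_ker_line _ hM2 v (Φ.mulVec v) hv0 hkill hkill'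
    exact hne v hv0 _ b hTv hb
  · -- `δ ^ h = -1`: the generic case
    have hδ0 : δ ≠ 0 := by
      rintro rfl
      rw [zero_pow hh1] at hδ1
      exact h2 (by linear_combination (2 : k) * hδ1)
    have hΦN' : Φ * N = -(N * Φ) := by rw [hΦN, hδ1, neg_one_smul]
    refine ⟨?_, ?_, ?_⟩
    · rw [hTp, hδ1, neg_one_smul, hN, ht]
      have e1 : t • (1 : Matrix (Fin 2) (Fin 2) k) =
          (t / 2) • (1 : Matrix (Fin 2) (Fin 2) k) + (t / 2) • (1 : Matrix (Fin 2) (Fin 2) k) := by
        rw [← add_smul]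
        congr 1
        field_simp
        ring
      rw [e1]
      abel
    · intro hcon
      apply hδ0
      rw [hδ', ← ht, hcon]
      field_simp
      ring
    · obtain ⟨X, hX⟩ : ∃ X : Matrix (Fin 2) (Fin 2) k, X = Φ * Φ := ⟨_, rfl⟩
      have hXN : X * N = N * X := by
        rw [hX, Matrix.mul_assoc, hΦN', Matrix.mul_neg, ← Matrix.mul_assoc, hΦN', Matrix.neg_mul,
          neg_neg, Matrix.mul_assoc]
      obtain ⟨Y, hY⟩ : ∃ Y : Matrix (Fin 2) (Fin 2) k,
          Y = X - (X.trace / 2) • (1 : Matrix (Fin 2) (Fin 2) k) := ⟨_, rfl⟩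
      have hYtr : Y.trace = 0 := by
        rw [hY, Matrix.trace_sub, Matrix.trace_smul, Matrix.trace_one, Fintype.card_fin,
          smul_eq_mul]
        push_cast
        field_simp
        ring
      have hYN : Y * N = N * Y := by
        rw [hY, Matrix.sub_mul, Matrix.mul_sub, hXN, Matrix.smul_mul, Matrix.one_mul,
          Matrix.mul_smul, Matrix.mul_one]
      have hYΦ : Φ * Y = Y * Φ := by
        rw [hY, Matrix.sub_mul, Matrix.mul_sub, hX, Matrix.smul_mul, Matrix.one_mul,
          Matrix.mul_smul, Matrix.mul_one, Matrix.mul_assoc]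
      obtain ⟨β, hβ⟩ : ∃ β : k, β = (Y * N).trace / 2 := ⟨_, rfl⟩
      have e1 : Y * N = β • (1 : Matrix (Fin 2) (Fin 2) k) := by
        have e2 := h59_m2_anticomm Y N hYtr hNtr
        rw [← hYN] at e2
        have e3 : (2 : k) • (Y * N) = (2 * β) • (1 : Matrix (Fin 2) (Fin 2) k) := by
          rw [two_smul, e2, hβ]
          congr 1
          field_simp
        have e4 := congrArg (fun Z => (2 : k)⁻¹ • Z) e3
        simp only [smul_smul] at e4
        rw [inv_mul_cancel₀ h2, one_smul, ← mul_assoc, inv_mul_cancel₀ h2, one_mul] at e4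
        exact e4
      have e5 : δ • Y = β • N := by
        have e6 : Y * N * N = β • N := by rw [e1, Matrix.smul_mul, Matrix.one_mul]
        rw [Matrix.mul_assoc, hNN, Matrix.mul_smul, Matrix.mul_one] at e6
        exact e6
      -- `Φ` commutes with `Y` and anticommutes with `N`: `β = 0`
      have e7 : β • (N * Φ) = 0 := by
        have e8 : Φ * (δ • Y) = (δ • Y) * Φ := by
          rw [Matrix.mul_smul, Matrix.smul_mul, hYΦ]
        rw [e5, Matrix.mul_smul, Matrix.smul_mul, hΦN', smul_neg] at e8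
        have e9 : (2 : k) • (β • (N * Φ)) = 0 := by
          rw [two_smul]
          nth_rewrite 1 [← e8]
          rw [neg_add_cancel]
        rcases smul_eq_zero.1 e9 with h' | h'
        · exact absurd h' h2
        · exact h'
      have hβ0 : β = 0 := by
        have e10 := congrArg (fun Z => N * (Z * Ψ)) e7
        simp only [Matrix.smul_mul, Matrix.mul_smul, Matrix.mul_assoc, hΦΨ, Matrix.mul_one,
          Matrix.zero_mul, Matrix.mul_zero, hNN, smul_smul] at e10
        have e11 := congrFun (congrFun e10 0) 0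
        simp only [Matrix.smul_apply, Matrix.one_apply_eq, smul_eq_mul, mul_one,
          Matrix.zero_apply] at e11
        rcases mul_eq_zero.1 e11 with h' | h'
        · exact h'
        · exact absurd h' hδ0
      have hY0 : Y = 0 := by
        rw [hβ0, zero_smul] at e5
        rcases smul_eq_zero.1 e5 with h' | h'
        · exact absurd h' hδ0
        · exact h'
      refine ⟨X.trace / 2, ?_⟩
      rw [← hX]
      rw [hY0] at hY
      exact (sub_eq_zero.1 hY.symm)

/-- `T ^ (n + 1) = det T` when `T ^ n = tr T - T`. -/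
theorem h59_irr_pow_succ {k : Type} [Field k] (T : Matrix (Fin 2) (Fin 2) k) (n : ℕ)
    (hconj : T ^ n = T.trace • (1 : Matrix (Fin 2) (Fin 2) k) - T) :
    T ^ (n + 1) = T.det • (1 : Matrix (Fin 2) (Fin 2) k) := by
  rw [pow_succ, hconj, Matrix.sub_mul, Matrix.smul_mul, Matrix.one_mul, h59_m2_cayley T]
  abel

/-- every `T ^ i * Φ ^ j` has a scalar `2 (n + 1)`-th power. -/
theorem h59_irr_scalar_pow {k : Type} [Field k] (T Φ : Matrix (Fin 2) (Fin 2) k) (n : ℕ)
    (w s : k) (hswap : Φ * T = T ^ n * Φ)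
    (hT : T ^ (n + 1) = w • (1 : Matrix (Fin 2) (Fin 2) k))
    (hΦ : Φ * Φ = s • (1 : Matrix (Fin 2) (Fin 2) k)) (i j : ℕ) :
    ∃ c : k, (T ^ i * Φ ^ j) ^ (2 * (n + 1)) = c • (1 : Matrix (Fin 2) (Fin 2) k) := by
  have hsw : ∀ i : ℕ, Φ * T ^ i = (T ^ n) ^ i * Φ := by
    intro i
    induction i with
    | zero => simp
    | succ i ih =>
      rw [pow_succ, ← Matrix.mul_assoc, ih, Matrix.mul_assoc, hswap, ← Matrix.mul_assoc,
        ← pow_succ]
  rcases Nat.even_or_odd' j with ⟨l, rfl | rfl⟩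
  · have e1 : Φ ^ (2 * l) = s ^ l • (1 : Matrix (Fin 2) (Fin 2) k) := by
      rw [pow_mul, pow_two, hΦ, smul_pow, one_pow]
    refine ⟨(s ^ l) ^ (2 * (n + 1)) * w ^ (i * 2), ?_⟩
    have e2 : (T ^ i) ^ (2 * (n + 1)) = w ^ (i * 2) • (1 : Matrix (Fin 2) (Fin 2) k) := by
      rw [← pow_mul, show i * (2 * (n + 1)) = (n + 1) * (i * 2) by ring, pow_mul, hT, smul_pow,
        one_pow]
    rw [e1, Matrix.mul_smul, Matrix.mul_one, smul_pow, e2, smul_smul]
  · have e1 : Φ ^ (2 * l + 1) = s ^ l • Φ := by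
      rw [pow_succ, pow_mul, pow_two, hΦ, smul_pow, one_pow, Matrix.smul_mul, Matrix.one_mul]
    have e2 : (T ^ i * Φ) * (T ^ i * Φ) = (s * w ^ i) • (1 : Matrix (Fin 2) (Fin 2) k) := by
      calc (T ^ i * Φ) * (T ^ i * Φ) = T ^ i * (Φ * T ^ i) * Φ := by
            simp only [Matrix.mul_assoc]
        _ = T ^ i * ((T ^ n) ^ i * Φ) * Φ := by rw [hsw]
        _ = (T ^ i * (T ^ n) ^ i) * (Φ * Φ) := by simp only [Matrix.mul_assoc]
        _ = (T ^ (n + 1)) ^ i * (Φ * Φ) := by
            rw [← pow_mul, ← pow_add, ← pow_mul]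
            congr 2
            ring
        _ = (s * w ^ i) • 1 := by
            rw [hT, hΦ, smul_pow, one_pow, Matrix.smul_mul, Matrix.one_mul, smul_smul, mul_comm]
    refine ⟨((s ^ l) ^ 2 * (s * w ^ i)) ^ (n + 1), ?_⟩
    rw [e1, Matrix.mul_smul, pow_mul, pow_two, Matrix.smul_mul, Matrix.mul_smul, smul_smul, e2,
      smul_smul, smul_pow, one_pow]
    congr 1
    ring

/-- a subgroup acting on `k²` through `p`-power order matrices fixes a nonzero vector. -/
theorem h59_pgroup_fixed_vector {G : Type*} [Group G] {k : Type} [Field k] [Finite k] [CharP k p]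
    (rb : G →* Matrix (Fin 2) (Fin 2) k) (H : Subgroup G)
    (hH : ∀ h ∈ H, ∃ n : ℕ, rb h ^ (p ^ n) = 1) :
    ∃ v : Fin 2 → k, v ≠ 0 ∧ ∀ h ∈ H, (rb h).mulVec v = v := by
  classical
  have hp : p.Prime := Fact.out
  -- the permutation representation on `k²`
  let ρ : G →* Equiv.Perm (Fin 2 → k) :=
    { toFun := fun g =>
        { toFun := fun v => (rb g).mulVec v
          invFun := fun v => (rb g⁻¹).mulVec v
          left_inv := fun v => by
            show (rb g⁻¹).mulVec ((rb g).mulVec v) = v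
            rw [Matrix.mulVec_mulVec, ← map_mul, inv_mul_cancel, map_one, Matrix.one_mulVec]
          right_inv := fun v => by
            show (rb g).mulVec ((rb g⁻¹).mulVec v) = v
            rw [Matrix.mulVec_mulVec, ← map_mul, mul_inv_cancel, map_one, Matrix.one_mulVec] }
      map_one' := by
        ext v : 1
        show (rb 1).mulVec v = v
        rw [map_one, Matrix.one_mulVec]
      map_mul' := fun g h => by
        ext v : 1
        show (rb (g * h)).mulVec v = (rb g).mulVec ((rb h).mulVec v)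
        rw [map_mul, Matrix.mulVec_mulVec] }
  have hρ : ∀ g v, ρ g v = (rb g).mulVec v := fun g v => rfl
  have hPG : IsPGroup p (H.map ρ) := by
    rintro ⟨x, hx⟩
    obtain ⟨h, hh, rfl⟩ := hx
    obtain ⟨n, hn⟩ := hH h hh
    refine ⟨n, ?_⟩
    apply Subtype.ext
    show (ρ h) ^ (p ^ n) = 1
    rw [← map_pow]
    ext v : 1
    rw [hρ, map_pow, hn, Matrix.one_mulVec]
    rfl
  have hcard : p ∣ Nat.card (Fin 2 → k) := by
    have : Fintype k := Fintype.ofFinite k
    obtain ⟨n, -, hn⟩ := FiniteField.card k p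
    rw [Nat.card_eq_fintype_card, Fintype.card_fun, Fintype.card_fin, hn, ← pow_mul]
    exact dvd_pow_self p (by positivity)
  have h0 : (0 : Fin 2 → k) ∈ MulAction.fixedPoints (H.map ρ) (Fin 2 → k) := by
    rintro ⟨x, hx⟩
    obtain ⟨h, hh, rfl⟩ := hx
    show ρ h 0 = 0
    rw [hρ, Matrix.mulVec_zero]
  obtain ⟨b, hb, hb0⟩ := hPG.exists_fixed_point_of_prime_dvd_card_of_fixed_point
    (Fin 2 → k) hcard h0
  refine ⟨b, fun h' => hb0 h'.symm, ?_⟩
  intro h hh
  have := hb ⟨ρ h, h, hh, rfl⟩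
  exact this

/-- a normal subgroup acting through `p`-power order matrices acts trivially when there is
no stable line. -/
theorem h59_pgroup_trivial {G : Type*} [Group G] {k : Type} [Field k] [Finite k] [CharP k p]
    (rb : G →* Matrix (Fin 2) (Fin 2) k) (H : Subgroup G)
    (hnorm : ∀ g h : G, h ∈ H → g⁻¹ * h * g ∈ H)
    (hH : ∀ h ∈ H, ∃ n : ℕ, rb h ^ (p ^ n) = 1)
    (hirr : ∀ v : Fin 2 → k, v ≠ 0 → ∃ g, ∀ c : k, (rb g).mulVec v ≠ c • v) :
    ∀ h ∈ H, rb h = 1 := by
  obtain ⟨v, hv0, hv⟩ := h59_pgroup_fixed_vector p rb H hH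
  obtain ⟨g, hg⟩ := hirr v hv0
  intro h hh
  refine h59_m2_eq_one_of_fix (rb h) v ((rb g).mulVec v) hv0 hg (hv h hh) ?_
  have e1 : h * g = g * (g⁻¹ * h * g) := by group
  rw [Matrix.mulVec_mulVec, ← map_mul, e1, map_mul, ← Matrix.mulVec_mulVec,
    hv _ (hnorm g h hh)]

/-- index prime to `p` from a prime-to-`p` exponent of the quotient. -/
theorem h59_index_not_dvd {G : Type*} [Group G] (G1 : Subgroup G) [G1.Normal]
    (hfin : G1.index ≠ 0) (N : ℕ) (hN : ¬ p ∣ N) (hpow : ∀ g : G, g ^ N ∈ G1) :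
    ¬ p ∣ G1.index := by
  intro hdvd
  have : G1.FiniteIndex := ⟨hfin⟩
  have : Finite (G ⧸ G1) := Subgroup.finite_quotient_of_finiteIndex
  rw [Subgroup.index_eq_card] at hdvd
  obtain ⟨x, hx⟩ := exists_prime_orderOf_dvd_card' p hdvd
  obtain ⟨g, rfl⟩ := QuotientGroup.mk_surjective x
  have e1 : (QuotientGroup.mk g : G ⧸ G1) ^ N = 1 := by
    rw [← QuotientGroup.mk_pow, QuotientGroup.eq_one_iff]
    exact hpow g
  have := orderOf_dvd_of_pow_eq_one e1
  rw [hx] at this
  exact hN this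

end Fermat.Agent.S56
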