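import Mathlib
import Fermat.Agent.S56.h78_IrrDefs
import Fermat.Agent.S56.h59_IrrStructAlg
import Fermat.Agent.S56.h62_W3Basics
import Fermat.Agent.S56.h94_Unif
import Fermat.Agent.S56.h49_K0Res
import Fermat.Agent.S56.h28_K0Unram
import Fermat.Agent.S56.h6_WildCore
import Fermat.Agent.S56.h94_MTameFinal
import Fermat.Agent.S56.h5_KumBasic
import Fermat.Agent.S56.h84_IrrLevel

/-!
# S56 / W3 / E-IRR, row IRR-2b (STRUCT)

Structure of an irreducible `rb : G_p → GL₂(k)` with cyclotomic determinant over a finite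
normal `L` trivialising it: wild inertia acts trivially, `rb(G) = ⟨T, Φ⟩` with
`Φ T Φ⁻¹ = T ^ p`, `T ^ p = tr T - T`, and the tame field `F₁ = Ω ^ G₁`,
`G₁ = {g : rb g scalar, g ζ = ζ}` with its tame character `θ` of exact order `e(F₁)`.

`h59_irr_struct_of` is the row statement with the IRR-1 inputs (tame inertia is cyclic,
Frobenius and the tame relation, `G = ⟨φ⟩ J`, `ω(J) = 𝔽_p^×`) as explicit hypotheses.
-/

set_option autoImplicit false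

namespace Fermat.Agent.S56

variable (p : ℕ) [Fact p.Prime]

local notation "Ω" => PadicAlgCl p
local notation "Fld" => IntermediateField ℚ_[p] (PadicAlgCl p)

/-! ## Teichmüller representatives -/

/-- a unit of a finite `E` is congruent to a root of unity of order prime to `p` in `E`. -/
theorem h59_teich (E : Fld) [FiniteDimensional ℚ_[p] E] (x : Ω) (hx : x ∈ E) (hxe : ‖x‖ = 1) :
    ∃ b ∈ E, ∃ n : ℕ, 0 < n ∧ ¬ p ∣ n ∧ b ^ n = 1 ∧ ‖x - b‖ < 1 := by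
  obtain ⟨m, hm, hxm⟩ := h49_exists_pow_near_one p E x hx hxe
  obtain ⟨a, n, hpn, rfl⟩ :=
    Nat.exists_eq_pow_mul_and_not_dvd hm.ne' p (Fact.out : p.Prime).ne_one
  have hn : 0 < n := by
    rcases Nat.eq_zero_or_pos n with h | h
    · subst h; simp at hm
    · exact h
  have hxn : ‖x ^ n - 1‖ < 1 := by
    apply h49_frob_inj p (x ^ n) (by rw [norm_pow, hxe, one_pow]) a
    rw [← pow_mul, mul_comm]; exact hxm
  have : CompleteSpace E := FiniteDimensional.complete ℚ_[p] E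
  have hna : ∀ u v : E, ‖u + v‖ ≤ max ‖u‖ ‖v‖ := fun u v =>
    IsUltrametricDist.norm_add_le_max (u : Ω) (v : Ω)
  have hF : ∀ i, ‖((Polynomial.X : Polynomial E) ^ n - 1).coeff i‖ ≤ 1 := by
    intro i
    rw [Polynomial.coeff_sub, Polynomial.coeff_X_pow, Polynomial.coeff_one]
    split_ifs <;> simp
  have h0 : ‖((Polynomial.X : Polynomial E) ^ n - 1).eval (⟨x, hx⟩ : E)‖ < 1 := by
    rw [Polynomial.eval_sub, Polynomial.eval_pow, Polynomial.eval_X, Polynomial.eval_one]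
    exact hxn
  have h1 : ¬ ‖(Polynomial.derivative ((Polynomial.X : Polynomial E) ^ n - 1)).eval
      (⟨x, hx⟩ : E)‖ < 1 := by
    rw [Polynomial.derivative_sub, Polynomial.derivative_X_pow, Polynomial.derivative_one,
      sub_zero, Polynomial.eval_mul, Polynomial.eval_C, Polynomial.eval_pow, Polynomial.eval_X]
    have h5 : ‖((n : E) * (⟨x, hx⟩ : E) ^ (n - 1) : E)‖ = ‖(n : ℚ_[p])‖ := by
      show ‖((n : Ω) * x ^ (n - 1) : Ω)‖ = ‖(n : ℚ_[p])‖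
      rw [norm_mul, norm_pow, hxe, one_pow, mul_one, h49_norm_natCast]
    rw [h5]
    exact fun hlt' => hpn (Padic.norm_natCast_lt_one_iff.1 hlt')
  obtain ⟨b, hb, hbx⟩ := Fermat.Agent.S55.h6_hensel_normed hna _ hF (⟨x, hx⟩ : E) hxe.le h0 h1
  refine ⟨(b : Ω), b.2, n, hn, hpn, ?_, ?_⟩
  · rw [Polynomial.eval_sub, Polynomial.eval_pow, Polynomial.eval_X, Polynomial.eval_one,
      sub_eq_zero] at hb
    have h6 := congrArg (Subtype.val) hb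
    simpa using h6
  · have h7 : ‖((b : Ω) - x)‖ < 1 := hbx
    rw [← norm_neg]; simpa using h7

/-! ## `p`-th roots of unity -/

theorem h59_exists_zeta : ∃ ζ : Ω, ζ ^ p = 1 ∧ ζ ≠ 1 := by
  have hp : p.Prime := Fact.out
  have hne : NeZero ((p : ℕ) : Ω) := ⟨by exact_mod_cast hp.ne_zero⟩
  obtain ⟨ζ, hζ⟩ := IsAlgClosed.exists_root (Polynomial.cyclotomic p Ω)
    (Polynomial.degree_cyclotomic_pos p Ω hp.pos).ne'
  rw [Polynomial.isRoot_cyclotomic_iff] at hζ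
  exact ⟨ζ, hζ.pow_eq_one, hζ.ne_one hp.one_lt⟩

theorem h59_zeta_pow_iff (ζ : Ω) (hζp : ζ ^ p = 1) (hζ1 : ζ ≠ 1) (a b : ℕ) :
    ζ ^ a = ζ ^ b ↔ a ≡ b [MOD p] := by
  have hp : p.Prime := Fact.out
  have hζ0 : ζ ≠ 0 := by
    rintro rfl
    rw [zero_pow hp.ne_zero] at hζp
    exact zero_ne_one hζp
  have h1 : (Units.mk0 ζ hζ0) ^ p = 1 := by
    apply Units.ext
    rw [Units.val_pow_eq_pow_val, Units.val_mk0, hζp, Units.val_one]
  have h2 : Units.mk0 ζ hζ0 ≠ 1 := by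
    intro h
    apply hζ1
    have := congrArg Units.val h
    rwa [Units.val_mk0, Units.val_one] at this
  have h3 := pow_eq_pow_iff_modEq (x := Units.mk0 ζ hζ0) (n := a) (m := b)
  rw [orderOf_eq_prime h1 h2] at h3
  rw [← h3, Units.ext_iff, Units.val_pow_eq_pow_val, Units.val_pow_eq_pow_val, Units.val_mk0]

/-- automorphisms act on `μ_p` by powers. -/
theorem h59_aut_zeta (ζ : Ω) (hζp : ζ ^ p = 1) (hζ1 : ζ ≠ 1) (g : h78_G p) :
    ∃ a : ℕ, g ζ = ζ ^ a := by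
  have hp : p.Prime := Fact.out
  have hprim : IsPrimitiveRoot ζ p := by
    have := IsPrimitiveRoot.orderOf ζ
    rwa [orderOf_eq_prime hζp hζ1] at this
  have h1 : (g ζ) ^ p = 1 := by rw [← map_pow, hζp, map_one]
  obtain ⟨i, -, hi⟩ := hprim.eq_pow_of_pow_eq_one h1
  exact ⟨i, hi.symm⟩

theorem h59_pow_zeta (g : h78_G p) (ζ : Ω) (a : ℕ) (hg : g ζ = ζ ^ a) (j : ℕ) :
    (g ^ j) ζ = ζ ^ (a ^ j) := by
  induction j with
  | zero => simp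
  | succ j ih =>
    rw [pow_succ, AlgEquiv.mul_apply, hg, map_pow, ih, ← pow_mul, pow_succ]

theorem h59_modEq_of_pow (a n : ℕ) (h : a ^ (p ^ n) ≡ 1 [MOD p]) : a ≡ 1 [MOD p] := by
  rw [← ZMod.natCast_eq_natCast_iff] at h ⊢
  push_cast at h ⊢
  rwa [ZMod.pow_card_pow] at h

/-- a quadratic non-residue. -/
theorem h59_exists_nonres (hp2 : p ≠ 2) :
    ∃ n : ℕ, ((n : ZMod p)) ^ ((p - 1) / 2) = -1 := by
  have hp : p.Prime := Fact.out
  have hodd : p % 2 = 1 := hp.eq_two_or_odd.resolve_left hp2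
  have hchar : ringChar (ZMod p) ≠ 2 := by rw [ZMod.ringChar_zmod_n]; exact hp2
  obtain ⟨a, ha⟩ := FiniteField.exists_nonsquare hchar
  have ha0 : a ≠ 0 := by
    rintro rfl
    exact ha IsSquare.zero
  have h1 := ZMod.pow_div_two_eq_neg_one_or_one p ha0
  have h2 := ZMod.euler_criterion p ha0
  have h3 : a ^ (p / 2) = -1 := by
    rcases h1 with h1 | h1
    · exact absurd (h2.2 h1) ha
    · exact h1
  refine ⟨a.val, ?_⟩
  rw [ZMod.natCast_zmod_val]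
  have e : (p - 1) / 2 = p / 2 := by omega
  rw [e]; exact h3

/-! ## wild inertia acts trivially -/

theorem h59_wild_trivial {k : Type} [Field k] [Finite k] [CharP k p]
    (rb : h78_G p →* Matrix (Fin 2) (Fin 2) k)
    (hirr : ∀ v : Fin 2 → k, v ≠ 0 → ∃ g, ∀ c : k, (rb g).mulVec v ≠ c • v)
    (L : Fld) [FiniteDimensional ℚ_[p] L] (hL : h78_Stable p L)
    (htriv : ∀ g ∈ L.fixingSubgroup, rb g = 1)
    (π : Ω) (hπ : h78_IsUnif p L π) : ∀ h ∈ h78_P p L π, rb h = 1 := by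
  have hJres : ∀ g ∈ h78_J p L, ∀ x ∈ L, ‖x‖ ≤ 1 → ‖g x - x‖ < 1 :=
    fun g hg x hx hx1 => h49_J_res p L g hg x hx hx1
  refine h59_pgroup_trivial p rb (h78_P p L π) ?_ ?_ hirr
  · intro g h hh
    have := h6_P_normal_of p L hL hJres (h49_K0_stable p L hL) π hπ g⁻¹ h hh
    rwa [inv_inv] at this
  · intro h hh
    obtain ⟨n, hn⟩ := h6_P_pgroup_of p L hL hJres π hπ h hh
    refine ⟨n, ?_⟩
    rw [← map_pow]
    apply htriv
    rw [IntermediateField.mem_fixingSubgroup_iff]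
    exact hn

theorem h59_wild_zeta (L : Fld) [FiniteDimensional ℚ_[p] L] (hL : h78_Stable p L)
    (π : Ω) (hπ : h78_IsUnif p L π) (ζ : Ω) (hζp : ζ ^ p = 1) (hζL : ζ ∈ L)
    (h : h78_G p) (hh : h ∈ h78_P p L π) : h ζ = ζ := by
  by_cases hζ1 : ζ = 1
  · rw [hζ1, map_one]
  have hJres : ∀ g ∈ h78_J p L, ∀ x ∈ L, ‖x‖ ≤ 1 → ‖g x - x‖ < 1 :=
    fun g hg x hx hx1 => h49_J_res p L g hg x hx hx1
  obtain ⟨n, hn⟩ := h6_P_pgroup_of p L hL hJres π hπ h hh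
  obtain ⟨a, ha⟩ := h59_aut_zeta p ζ hζp hζ1 h
  have h1 := hn ζ hζL
  rw [h59_pow_zeta p h ζ a ha] at h1
  have h2 : ζ ^ (a ^ (p ^ n)) = ζ ^ 1 := by rw [h1, pow_one]
  rw [h59_zeta_pow_iff p ζ hζp hζ1] at h2
  have h3 := h59_modEq_of_pow p a n h2
  have h4 := (h59_zeta_pow_iff p ζ hζp hζ1 a 1).2 h3
  rw [ha, h4, pow_one]

/-! ## the subgroup `G₁` and its fixed field -/

/-- `G₁`: scalar under `rb` and trivial on `ζ`. -/
def h59_G1 {k : Type} [Field k] (rb : h78_G p →* Matrix (Fin 2) (Fin 2) k) (ζ : Ω) :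
    Subgroup (h78_G p) where
  carrier := {g | (∃ c : k, rb g = c • (1 : Matrix (Fin 2) (Fin 2) k)) ∧ g ζ = ζ}
  one_mem' := ⟨⟨1, by rw [map_one, one_smul]⟩, rfl⟩
  mul_mem' := by
    rintro g h ⟨⟨c, hc⟩, hg⟩ ⟨⟨d, hd⟩, hh⟩
    refine ⟨⟨c * d, ?_⟩, ?_⟩
    · rw [map_mul, hc, hd, Matrix.smul_mul, Matrix.one_mul, smul_smul]
    · show g (h ζ) = ζ
      rw [hh, hg]
  inv_mem' := by
    rintro g ⟨⟨c, hc⟩, hg⟩
    refine ⟨⟨c⁻¹, ?_⟩, ?_⟩
    · have h1 : rb g * rb g⁻¹ = 1 := by rw [← map_mul, mul_inv_cancel, map_one]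
      rw [hc, Matrix.smul_mul, Matrix.one_mul] at h1
      have hc0 : c ≠ 0 := by
        rintro rfl
        rw [zero_smul] at h1
        exact zero_ne_one h1
      rw [← h1, smul_smul, inv_mul_cancel₀ hc0, one_smul]
    · have h2 : g⁻¹ (g ζ) = ζ := by
        show (g⁻¹ * g) ζ = ζ
        rw [inv_mul_cancel]; rfl
      rw [hg] at h2
      exact h2

theorem h59_mem_G1 {k : Type} [Field k] (rb : h78_G p →* Matrix (Fin 2) (Fin 2) k) (ζ : Ω)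
    (g : h78_G p) : g ∈ h59_G1 p rb ζ ↔
      (∃ c : k, rb g = c • (1 : Matrix (Fin 2) (Fin 2) k)) ∧ g ζ = ζ := Iff.rfl

theorem h59_G1_conj {k : Type} [Field k] (rb : h78_G p →* Matrix (Fin 2) (Fin 2) k) (ζ : Ω)
    (hζp : ζ ^ p = 1) (hζ1 : ζ ≠ 1) (g h : h78_G p) (hg : g ∈ h59_G1 p rb ζ) :
    h * g * h⁻¹ ∈ h59_G1 p rb ζ := by
  obtain ⟨⟨c, hc⟩, hgζ⟩ := hg
  refine ⟨⟨c, ?_⟩, ?_⟩
  · rw [map_mul, map_mul, hc, Matrix.mul_smul, Matrix.mul_one, Matrix.smul_mul, ← map_mul,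
      mul_inv_cancel, map_one]
  · obtain ⟨a, ha⟩ := h59_aut_zeta p ζ hζp hζ1 h⁻¹
    show h (g (h⁻¹ ζ)) = ζ
    rw [ha, map_pow, hgζ, ← ha]
    show (h * h⁻¹) ζ = ζ
    rw [mul_inv_cancel]; rfl

theorem h59_fixing_fixed (G1 : Subgroup (h78_G p)) (L : Fld) [FiniteDimensional ℚ_[p] L]
    (hle : L.fixingSubgroup ≤ G1) :
    (IntermediateField.fixedField G1).fixingSubgroup = G1 := by
  have hopen : IsOpen (G1 : Set (h78_G p)) :=
    Subgroup.isOpen_mono hle (IntermediateField.fixingSubgroup_isOpen L)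
  have hclosed : IsClosed (G1 : Set (h78_G p)) := Subgroup.isClosed_of_isOpen _ hopen
  exact InfiniteGalois.fixingSubgroup_fixedField ⟨G1, hclosed⟩

theorem h59_fixed_le (G1 : Subgroup (h78_G p)) (L : Fld) [FiniteDimensional ℚ_[p] L]
    (hle : L.fixingSubgroup ≤ G1) : IntermediateField.fixedField G1 ≤ L := by
  intro x hx
  rw [IntermediateField.mem_fixedField_iff] at hx
  apply h62_mem_of_fixed p L x
  intro g hg
  apply hx g
  apply hle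
  rw [IntermediateField.mem_fixingSubgroup_iff]
  exact hg

theorem h59_index_ne_zero (G1 : Subgroup (h78_G p)) (L : Fld) [FiniteDimensional ℚ_[p] L]
    (hle : L.fixingSubgroup ≤ G1) : G1.index ≠ 0 := by
  have h1 : L.fixingSubgroup.index ≠ 0 := by
    rw [← IntermediateField.finrank_eq_fixingSubgroup_index]
    exact Module.finrank_pos.ne'
  intro h0
  have := Subgroup.index_dvd_of_le hle
  rw [h0] at this
  exact h1 (Nat.eq_zero_of_zero_dvd this)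

theorem h59_finite_of_le (F L : Fld) [FiniteDimensional ℚ_[p] L] (h : F ≤ L) :
    FiniteDimensional ℚ_[p] F :=
  Module.Finite.of_injective (IntermediateField.inclusion h).toLinearMap
    (IntermediateField.inclusion h).injective

/-! ## the tame character -/

/-- the tame character `θ` of `τ ∈ J_L` on a stable subfield `F ≤ L`: a root of unity of `F`
with `τ π₁ ≡ θ π₁` and `θ ^ e = 1`, `e` the ramification index of `F`. -/
theorem h59_theta (L F : Fld) [FiniteDimensional ℚ_[p] L] [FiniteDimensional ℚ_[p] F]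
    (hFL : F ≤ L) (hF : h78_Stable p F) (τ : h78_G p) (hτ : τ ∈ h78_J p L)
    (π₁ : Ω) (hπ₁ : h78_IsUnif p F π₁) :
    ∃ θ ∈ F, ‖τ π₁ - θ * π₁‖ < ‖π₁‖ ∧ ∃ e : ℕ, 0 < e ∧ ‖π₁‖ ^ e = (p : ℝ)⁻¹ ∧ θ ^ e = 1 := by
  have hp : p.Prime := Fact.out
  obtain ⟨hπF, hπ0, hπ1, hπv⟩ := id hπ₁
  have hπpos : 0 < ‖π₁‖ := norm_pos_iff.2 hπ0
  have hx : τ π₁ / π₁ ∈ F := div_mem (hF τ π₁ hπF) hπF
  have hxe : ‖τ π₁ / π₁‖ = 1 := by rw [norm_div, h78_norm_aut, div_self hπpos.ne']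
  obtain ⟨θ, hθF, n, hn0, hpn, hθn, hxθ⟩ := h59_teich p F _ hx hxe
  have hθπ : ‖τ π₁ - θ * π₁‖ < ‖π₁‖ := by
    have e1 : τ π₁ - θ * π₁ = (τ π₁ / π₁ - θ) * π₁ := by rw [sub_mul, div_mul_cancel₀ _ hπ0]
    rw [e1, norm_mul]
    calc ‖τ π₁ / π₁ - θ‖ * ‖π₁‖ < 1 * ‖π₁‖ := mul_lt_mul_of_pos_right hxθ hπpos
      _ = ‖π₁‖ := one_mul _
  have hpF : (p : Ω) ∈ F := natCast_mem F p
  have hp0 : (p : Ω) ≠ 0 := by exact_mod_cast hp.ne_zero
  obtain ⟨n', hn'⟩ := hπv (p : Ω) hpF hp0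
  rw [h62_norm_p] at hn'
  have hn'pos : 0 < n' := by
    by_contra hle
    rw [not_lt] at hle
    have h1 : 1 ≤ ‖π₁‖ ^ n' := one_le_zpow_of_nonpos₀ hπpos hπ1.le hle
    rw [← hn'] at h1
    exact absurd h1 (not_le.2 (h5_inv_p_lt_one p))
  obtain ⟨e, rfl⟩ : ∃ e : ℕ, n' = e := ⟨n'.toNat, (Int.toNat_of_nonneg hn'pos.le).symm⟩
  rw [zpow_natCast] at hn'
  have he : 0 < e := by exact_mod_cast hn'pos
  refine ⟨θ, hθF, hθπ, e, he, hn'.symm, ?_⟩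
  have hτres : ∀ x ∈ F, ‖x‖ ≤ 1 → ‖τ x - x‖ < 1 :=
    fun x hx hx1 => h49_J_res p L τ hτ x (hFL hx) hx1
  have h1 := h84_lev_tau p F π₁ hπ₁ τ hτres θ hθπ (p : Ω) hpF e (by rw [h62_norm_p, hn'])
  rw [map_natCast] at h1
  have e2 : (p : Ω) - θ ^ e * p = (1 - θ ^ e) * p := by ring
  rw [e2, norm_mul] at h1
  have h2 : ‖1 - θ ^ e‖ < 1 := by
    by_contra hge
    rw [not_lt] at hge
    exact absurd h1 (not_lt.2 (le_mul_of_one_le_left (norm_nonneg _) hge))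
  exact h28_root_eq_of_close p n hn0 hpn 1 (θ ^ e) (one_pow n)
    (by rw [← pow_mul, mul_comm, pow_mul, hθn, one_pow]) (by rw [norm_sub_rev]; exact h2)

/-- `θ` has exact order `e`. -/
theorem h59_theta_order (L F : Fld) [FiniteDimensional ℚ_[p] L]
    (hFL : F ≤ L) (hF : h78_Stable p F)
    (τ : h78_G p) (hτ : τ ∈ h78_J p L)
    (m : ℕ) (hpm : ¬ p ∣ m) (hτm : ∀ z ∈ F, (τ ^ m) z = z)
    (hgen : ∀ g ∈ h78_J p L, ∃ j : ℕ, ∀ z ∈ F, g z = (τ ^ j) z)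
    (π₁ : Ω) (hπ₁ : h78_IsUnif p F π₁) (θ : Ω) (hθπ : ‖τ π₁ - θ * π₁‖ < ‖π₁‖)
    (e : ℕ) (heπ : ‖π₁‖ ^ e = (p : ℝ)⁻¹) (d : ℕ) (hd0 : 0 < d) (hde : d < e) : θ ^ d ≠ 1 := by
  intro hθd
  obtain ⟨hπF, hπ0, hπ1, hπv⟩ := id hπ₁
  have hπpos : 0 < ‖π₁‖ := norm_pos_iff.2 hπ0
  have hτres : ∀ x ∈ F, ‖x‖ ≤ 1 → ‖τ x - x‖ < 1 :=
    fun x hx hx1 => h49_J_res p L τ hτ x (hFL hx) hx1
  obtain ⟨y, hy⟩ : ∃ y : Ω, y = π₁ ^ d := ⟨_, rfl⟩
  have hyF : y ∈ F := by rw [hy]; exact pow_mem hπF d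
  have hy0 : y ≠ 0 := by rw [hy]; exact pow_ne_zero d hπ0
  have hypos : 0 < ‖y‖ := norm_pos_iff.2 hy0
  have h1 := h84_lev_tau p F π₁ hπ₁ τ hτres θ hθπ y hyF d (by rw [hy, norm_pow])
  rw [hθd, one_mul] at h1
  have hit : ∀ i : ℕ, ‖(τ ^ i) y - y‖ < ‖y‖ := by
    intro i
    induction i with
    | zero => simpa using hypos
    | succ i ih =>
      have e1 : (τ ^ (i + 1)) y - y = τ ((τ ^ i) y - y) + (τ y - y) := by
        rw [pow_succ', AlgEquiv.mul_apply, map_sub]; ring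
      rw [e1]
      exact h6_norm_add_lt p (by rw [h78_norm_aut]; exact ih) h1
  obtain ⟨z, hz⟩ : ∃ z : Ω, z = ∑ i ∈ Finset.range m, (τ ^ i) y := ⟨_, rfl⟩
  have hz1 : ‖z - (m : Ω) * y‖ < ‖y‖ := by
    have e2 : z - (m : Ω) * y = ∑ i ∈ Finset.range m, ((τ ^ i) y - y) := by
      rw [hz, Finset.sum_sub_distrib, Finset.sum_const, Finset.card_range, nsmul_eq_mul]
    rw [e2]
    exact h28_norm_sum_lt p _ _ _ hypos (fun i _ => hit i)
  have hmy : ‖(m : Ω) * y‖ = ‖y‖ := by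
    rw [norm_mul, h6_norm_natCast_of_not_dvd p m hpm, one_mul]
  have hzn : ‖z‖ = ‖y‖ := by
    have h2 := h6_norm_eq_of_sub_lt p (a := z) (b := (m : Ω) * y) (by rw [hmy]; exact hz1)
    rw [h2, hmy]
  have hz0 : z ≠ 0 := by rw [← norm_pos_iff, hzn]; exact hypos
  have hzF : z ∈ F := by
    rw [hz]
    exact sum_mem (fun i _ => hF (τ ^ i) y hyF)
  have hτz : τ z = z := by
    have e3 : τ z = ∑ i ∈ Finset.range m, (τ ^ (i + 1)) y := by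
      rw [hz, map_sum]
      refine Finset.sum_congr rfl (fun i _ => ?_)
      rw [pow_succ', AlgEquiv.mul_apply]
    have e4 := Finset.sum_range_succ (fun i => (τ ^ i) y) m
    have e5 := Finset.sum_range_succ' (fun i => (τ ^ i) y) m
    have e6 : (τ ^ m) y = y := hτm y hyF
    have e7 : (τ ^ 0) y = y := by simp
    rw [e4, e6, e7, ← hz, ← e3] at e5
    exact (add_right_cancel e5).symm
  have hτjz : ∀ j : ℕ, (τ ^ j) z = z := by
    intro j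
    induction j with
    | zero => simp
    | succ j ih => rw [pow_succ, AlgEquiv.mul_apply, hτz, ih]
  have hK0fin : FiniteDimensional ℚ_[p] (h78_K0 p L) := h59_finite_of_le p _ L (h49_K0_le p L)
  have hzK : z ∈ h78_K0 p L := by
    apply h62_mem_of_fixed p (h78_K0 p L) z
    intro g hg
    have hgJ : g ∈ h78_J p L := by
      show g ∈ (h78_K0 p L).fixingSubgroup
      rw [IntermediateField.mem_fixingSubgroup_iff]
      exact hg
    obtain ⟨j, hj⟩ := hgen g hgJ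
    rw [hj z hzF, hτjz]
  obtain ⟨n, hn⟩ := h28_K0_unram p L z hzK hz0
  rw [hzn, hy, norm_pow] at hn
  have hp_eq : (p : ℝ) = (‖π₁‖ ^ e)⁻¹ := by rw [heπ, inv_inv]
  have h3 : ‖π₁‖ ^ (d : ℤ) = ‖π₁‖ ^ (-(e : ℤ) * n) := by
    rw [zpow_natCast, hn, hp_eq, zpow_mul, zpow_neg, zpow_natCast]
  have h4 : (d : ℤ) = -(e : ℤ) * n := h5_zpow_inj hπpos hπ1 h3
  have h5 : (e : ℤ) ∣ (d : ℤ) := ⟨-n, by rw [h4]; ring⟩
  have h6 : e ∣ d := Int.natCast_dvd_natCast.1 h5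
  exact absurd (Nat.le_of_dvd hd0 h6) (not_le.2 hde)

/-- `p - 1 ∣ e` and `θ ^ (e / (p - 1))` is the cyclotomic character of `τ`. -/
theorem h59_theta_cyclo (L F : Fld) [FiniteDimensional ℚ_[p] L] (hFL : F ≤ L)
    (τ : h78_G p) (hτ : τ ∈ h78_J p L)
    (π₁ : Ω) (hπ₁ : h78_IsUnif p F π₁) (θ : Ω) (hθπ : ‖τ π₁ - θ * π₁‖ < ‖π₁‖)
    (e : ℕ) (he0 : 0 < e) (heπ : ‖π₁‖ ^ e = (p : ℝ)⁻¹)
    (ζ : Ω) (hζF : ζ ∈ F) (hζp : ζ ^ p = 1) (hζ1 : ζ ≠ 1) (nw : ℕ) (hτζ : τ ζ = ζ ^ nw) :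
    (p - 1) ∣ e ∧ ‖θ ^ (e / (p - 1)) - (nw : Ω)‖ < 1 := by
  have hp : p.Prime := Fact.out
  have hp1 : 0 < p - 1 := by have := hp.two_le; omega
  obtain ⟨hπF, hπ0, hπ1, hπv⟩ := id hπ₁
  have hπpos : 0 < ‖π₁‖ := norm_pos_iff.2 hπ0
  have hlamF : ζ - 1 ∈ F := sub_mem hζF (one_mem F)
  have hlam0 : ζ - 1 ≠ 0 := sub_ne_zero.2 hζ1
  have hlam := h5_root_unity_eq p ζ hζp hζ1
  obtain ⟨a, ha⟩ := hπv (ζ - 1) hlamF hlam0
  have h1 : ‖π₁‖ ^ (a * ((p - 1 : ℕ) : ℤ)) = ‖π₁‖ ^ ((e : ℕ) : ℤ) := by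
    rw [zpow_mul, ← ha, zpow_natCast, hlam, zpow_natCast, heπ]
  have h2 : a * ((p - 1 : ℕ) : ℤ) = (e : ℤ) := h5_zpow_inj hπpos hπ1 h1
  have ha0 : 0 ≤ a := by
    by_contra hneg
    rw [not_le] at hneg
    have h3 : a * ((p - 1 : ℕ) : ℤ) ≤ 0 :=
      mul_nonpos_of_nonpos_of_nonneg hneg.le (Int.natCast_nonneg _)
    rw [h2] at h3
    have : (0 : ℤ) < (e : ℤ) := by exact_mod_cast he0
    omega
  obtain ⟨a', rfl⟩ : ∃ a' : ℕ, a = a' := ⟨a.toNat, (Int.toNat_of_nonneg ha0).symm⟩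
  have h3 : a' * (p - 1) = e := by exact_mod_cast h2
  have hdvd : (p - 1) ∣ e := ⟨a', by rw [← h3, mul_comm]⟩
  have hdiv : e / (p - 1) = a' := by rw [← h3]; exact Nat.mul_div_cancel _ hp1
  refine ⟨hdvd, ?_⟩
  rw [hdiv]
  rw [zpow_natCast] at ha
  have hτres : ∀ x ∈ F, ‖x‖ ≤ 1 → ‖τ x - x‖ < 1 :=
    fun x hx hx1 => h49_J_res p L τ hτ x (hFL hx) hx1
  have h4 := h84_lev_tau p F π₁ hπ₁ τ hτres θ hθπ (ζ - 1) hlamF a' ha
  obtain ⟨S, hS⟩ : ∃ S : Ω, S = ∑ i ∈ Finset.range nw, ζ ^ i := ⟨_, rfl⟩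
  have hSl : τ (ζ - 1) = S * (ζ - 1) := by
    rw [map_sub, map_one, hτζ, hS]
    exact (geom_sum_mul ζ nw).symm
  rw [hSl, ← sub_mul, norm_mul] at h4
  have h5 : ‖S - θ ^ a'‖ < 1 := by
    by_contra hge
    rw [not_lt] at hge
    exact absurd h4 (not_lt.2 (le_mul_of_one_le_left (norm_nonneg _) hge))
  have h6 : ‖S - (nw : Ω)‖ < 1 := by
    have e1 : S - (nw : Ω) = ∑ i ∈ Finset.range nw, (ζ ^ i - 1) := by
      rw [hS, Finset.sum_sub_distrib, Finset.sum_const, Finset.card_range, nsmul_eq_mul, mul_one]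
    rw [e1]
    refine h28_norm_sum_lt p _ _ 1 one_pos (fun i _ => ?_)
    exact h5_root_unity_lt_one p (ζ ^ i) (by rw [← pow_mul, mul_comm, pow_mul, hζp, one_pow])
  have e2 : θ ^ a' - (nw : Ω) = (S - (nw : Ω)) - (S - θ ^ a') := by ring
  rw [e2]
  exact h6_norm_sub_lt p h6 h5

/-! ## the row statement, IRR-1 inputs as hypotheses -/

/-- **IRR-2b (STRUCT)** with the IRR-1 statements (for `L` and one uniformizer `π` of `L`)
as hypotheses. -/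
theorem h59_irr_struct_of (hp2 : p ≠ 2) {k : Type} [Field k] [Finite k] [CharP k p]
    (rb : h78_G p →* Matrix (Fin 2) (Fin 2) k)
    (hdet : ∀ (g : h78_G p) (ζ : Ω), ζ ^ p = 1 → ∃ n : ℕ, g ζ = ζ ^ n ∧ (rb g).det = (n : k))
    (hirr : ∀ v : Fin 2 → k, v ≠ 0 → ∃ g, ∀ c : k, (rb g).mulVec v ≠ c • v)
    (W : Submodule k (h78_G p → Matrix (Fin 2) (Fin 2) k))
    (L : Fld) [FiniteDimensional ℚ_[p] L] (hL : h78_Stable p L)
    (hζ : ∀ ζ : Ω, ζ ^ p = 1 → ζ ∈ L)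
    (htriv : ∀ g ∈ L.fixingSubgroup, rb g = 1 ∧ ∀ a ∈ W, a g = 0)
    (π : Ω) (hπ : h78_IsUnif p L π)
    (hcyc : ∃ τ₀ ∈ h78_J p L, ∀ g ∈ h78_J p L, ∃ j : ℕ, g * (τ₀ ^ j)⁻¹ ∈ h78_P p L π)
    (hfrob : ∃ φ : h78_G p, ∀ z ∈ L, (∃ n : ℕ, 0 < n ∧ ¬ p ∣ n ∧ z ^ n = 1) → φ z = z ^ p)
    (hft : ∀ φ : h78_G p,
      (∀ z ∈ L, (∃ n : ℕ, 0 < n ∧ ¬ p ∣ n ∧ z ^ n = 1) → φ z = z ^ p) →
      ∀ g ∈ h78_J p L, φ * g * φ⁻¹ * (g ^ p)⁻¹ ∈ h78_P p L π)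
    (hfg : ∀ φ : h78_G p,
      (∀ z ∈ L, (∃ n : ℕ, 0 < n ∧ ¬ p ∣ n ∧ z ^ n = 1) → φ z = z ^ p) →
      ∀ g : h78_G p, ∃ j : ℕ, g * (φ ^ j)⁻¹ ∈ h78_J p L)
    (hci : ∀ ζ : Ω, ζ ^ p = 1 → ζ ≠ 1 → ∀ n : ℕ, ¬ p ∣ n → ∃ g ∈ h78_J p L, g ζ = ζ ^ n) :
    Nonempty (h78_IrrData p rb W L) := by
  classical
  have hp : p.Prime := Fact.out
  have hodd : p % 2 = 1 := hp.eq_two_or_odd.resolve_left hp2
  have hh0 : (p - 1) / 2 ≠ 0 := by have := hp.two_le; omega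
  have h2Z : (2 : ZMod p) ≠ 0 := h59_two_ne_zero p hp2
  obtain ⟨ζ, hζp, hζ1⟩ := h59_exists_zeta p
  have hζL : ζ ∈ L := hζ ζ hζp
  have htriv1 : ∀ g ∈ L.fixingSubgroup, rb g = 1 := fun g hg => (htriv g hg).1
  -- wild inertia
  have hP1 : ∀ h ∈ h78_P p L π, rb h = 1 := h59_wild_trivial p rb hirr L hL htriv1 π hπ
  have hPζ : ∀ h ∈ h78_P p L π, h ζ = ζ :=
    fun h hh => h59_wild_zeta p L hL π hπ ζ hζp hζL h hh
  -- automorphisms do not kill `ζ`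
  have hnd : ∀ (g : h78_G p) (a : ℕ), g ζ = ζ ^ a → ¬ p ∣ a := by
    intro g a ha hdvd
    obtain ⟨c, rfl⟩ := hdvd
    rw [pow_mul, hζp, one_pow] at ha
    exact hζ1 (g.injective (ha.trans (map_one g).symm))
  -- the tame generator
  obtain ⟨τ, hτJ, hτgen⟩ := hcyc
  obtain ⟨nw, hτζ, hdetτ⟩ := hdet τ ζ hζp
  have hJrb : ∀ g ∈ h78_J p L, ∃ j : ℕ, rb g = rb τ ^ j ∧ g ζ = ζ ^ (nw ^ j) := by
    intro g hg
    obtain ⟨j, hj⟩ := hτgen g hg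
    refine ⟨j, ?_, ?_⟩
    · have e1 : rb g = rb (g * (τ ^ j)⁻¹) * rb (τ ^ j) := by
        rw [← map_mul]
        congr 1
        group
      rw [e1, hP1 _ hj, one_mul, map_pow]
    · have e1 : g ζ = (g * (τ ^ j)⁻¹) ((τ ^ j) ζ) := by
        rw [← AlgEquiv.mul_apply]
        congr 1
        group
      rw [e1, h59_pow_zeta p τ ζ nw hτζ, map_pow, hPζ _ hj]
  -- `det T` is a non-residue
  have hw : (rb τ).det ^ ((p - 1) / 2) = -1 := by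
    obtain ⟨n₀, hn₀⟩ := h59_exists_nonres p hp2
    have hpn₀ : ¬ p ∣ n₀ := by
      intro hdvd
      have h0 : (n₀ : ZMod p) = 0 := (ZMod.natCast_eq_zero_iff _ _).2 hdvd
      rw [h0, zero_pow hh0] at hn₀
      exact h2Z (by linear_combination (2 : ZMod p) * hn₀)
    obtain ⟨g, hgJ, hgζ⟩ := hci ζ hζp hζ1 n₀ hpn₀
    obtain ⟨j, -, hj⟩ := hJrb g hgJ
    rw [hgζ, h59_zeta_pow_iff p ζ hζp hζ1, ← ZMod.natCast_eq_natCast_iff] at hj
    push_cast at hj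
    have hx : ((nw : ZMod p)) ^ ((p - 1) / 2) = -1 := by
      rw [hj, ← pow_mul, mul_comm, pow_mul] at hn₀
      have e : (p - 1) / 2 = p / 2 := by omega
      by_cases hnw0 : (nw : ZMod p) = 0
      · exfalso
        rw [hnw0, zero_pow hh0] at hn₀
        rcases Nat.eq_zero_or_pos j with rfl | hj0
        · rw [pow_zero] at hn₀
          exact h2Z (by linear_combination hn₀)
        · rw [zero_pow hj0.ne'] at hn₀
          exact h2Z (by linear_combination (2 : ZMod p) * hn₀)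
      · rcases ZMod.pow_div_two_eq_neg_one_or_one p hnw0 with h1 | h1
        · exfalso
          rw [e, h1, one_pow] at hn₀
          exact h2Z (by linear_combination hn₀)
        · rw [e]; exact h1
    have h3 := congrArg (ZMod.castHom (dvd_refl p) k) hx
    rw [map_pow, map_natCast, map_neg, map_one] at h3
    rw [hdetτ]
    exact h3
  -- Frobenius, normalised to fix `ζ`
  obtain ⟨φ₀, hφ₀⟩ := hfrob
  obtain ⟨m₀, hm₀⟩ := h59_aut_zeta p ζ hζp hζ1 φ₀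
  have hpm₀ : ¬ p ∣ m₀ := hnd φ₀ m₀ hm₀
  obtain ⟨n₁, hn₁⟩ : ∃ n₁ : ℕ, n₁ * m₀ ≡ 1 [MOD p] := by
    have hm0 : (m₀ : ZMod p) ≠ 0 := fun h0 => hpm₀ ((ZMod.natCast_eq_zero_iff _ _).1 h0)
    refine ⟨((m₀ : ZMod p)⁻¹).val, ?_⟩
    rw [← ZMod.natCast_eq_natCast_iff]
    push_cast
    rw [ZMod.natCast_zmod_val, inv_mul_cancel₀ hm0]
  have hpn₁ : ¬ p ∣ n₁ := by
    intro hdvd
    have h0 : (n₁ : ZMod p) = 0 := (ZMod.natCast_eq_zero_iff _ _).2 hdvd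
    rw [← ZMod.natCast_eq_natCast_iff] at hn₁
    push_cast at hn₁
    rw [h0, zero_mul] at hn₁
    exact zero_ne_one hn₁
  obtain ⟨g₀, hg₀J, hg₀ζ⟩ := hci ζ hζp hζ1 n₁ hpn₁
  obtain ⟨φ, hφdef⟩ : ∃ φ : h78_G p, φ = g₀ * φ₀ := ⟨_, rfl⟩
  have hφ : ∀ z ∈ L, (∃ n : ℕ, 0 < n ∧ ¬ p ∣ n ∧ z ^ n = 1) → φ z = z ^ p := by
    intro z hz hzn
    obtain ⟨n, hn0, hpn, hzn'⟩ := hzn
    rw [hφdef, AlgEquiv.mul_apply, hφ₀ z hz ⟨n, hn0, hpn, hzn'⟩]
    apply h49_J_fix p L g₀ hg₀J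
    apply IntermediateField.subset_adjoin
    exact ⟨pow_mem hz p, n, hn0, hpn, by rw [← pow_mul, mul_comm, pow_mul, hzn', one_pow]⟩
  have hφζ : φ ζ = ζ := by
    rw [hφdef, AlgEquiv.mul_apply, hm₀, map_pow, hg₀ζ, ← pow_mul]
    have h1 := (h59_zeta_pow_iff p ζ hζp hζ1 (n₁ * m₀) 1).2 hn₁
    rw [h1, pow_one]
  -- the matrix relations
  have hΦΨ : rb φ * rb φ⁻¹ = 1 := by rw [← map_mul, mul_inv_cancel, map_one]
  have hΨΦ : rb φ⁻¹ * rb φ = 1 := by rw [← map_mul, inv_mul_cancel, map_one]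
  have hswap : rb φ * rb τ = rb τ ^ p * rb φ := by
    have h1 := hP1 _ (hft φ hφ τ hτJ)
    have e1 : rb φ * rb τ = rb (φ * τ * φ⁻¹ * (τ ^ p)⁻¹) * (rb (τ ^ p) * rb φ) := by
      rw [← map_mul, ← map_mul, ← map_mul]
      congr 1
      group
    rw [e1, h1, one_mul, map_pow]
  have hgen : ∀ g : h78_G p, ∃ i j : ℕ, rb g = rb τ ^ i * rb φ ^ j := by
    intro g
    obtain ⟨j, hj⟩ := hfg φ hφ g
    obtain ⟨i, hi, -⟩ := hJrb _ hj
    refine ⟨i, j, ?_⟩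
    have e1 : rb g = rb (g * (φ ^ j)⁻¹) * rb (φ ^ j) := by
      rw [← map_mul]
      congr 1
      group
    rw [e1, hi, map_pow]
  have hne : ∀ v : Fin 2 → k, v ≠ 0 → ∀ a b : k, (rb τ).mulVec v = a • v →
      (rb φ).mulVec v = b • v → False := by
    intro v hv a b hTv hΦv
    obtain ⟨g, hg⟩ := hirr v hv
    obtain ⟨i, j, hij⟩ := hgen g
    have h1 : ∀ n : ℕ, (rb τ ^ n).mulVec v = a ^ n • v := by
      intro n
      induction n with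
      | zero => simp
      | succ n ih =>
        rw [pow_succ, ← Matrix.mulVec_mulVec, hTv, Matrix.mulVec_smul, ih, smul_smul, pow_succ,
          mul_comm]
    have h2 : ∀ n : ℕ, (rb φ ^ n).mulVec v = b ^ n • v := by
      intro n
      induction n with
      | zero => simp
      | succ n ih =>
        rw [pow_succ, ← Matrix.mulVec_mulVec, hΦv, Matrix.mulVec_smul, ih, smul_smul, pow_succ,
          mul_comm]
    apply hg (a ^ i * b ^ j)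
    rw [hij, ← Matrix.mulVec_mulVec, h2, Matrix.mulVec_smul, h1, smul_smul, mul_comm]
  obtain ⟨hconj, hsep, c₂, hc₂⟩ :=
    h59_irr_alg p hp2 (rb τ) (rb φ) (rb φ⁻¹) hΦΨ hΨΦ hswap hw hne
  -- the group `G₁` and its fixed field
  have hLG1 : L.fixingSubgroup ≤ h59_G1 p rb ζ := by
    intro g hg
    refine ⟨⟨1, by rw [htriv1 g hg, one_smul]⟩, ?_⟩
    exact (IntermediateField.mem_fixingSubgroup_iff _ _).1 hg ζ hζL
  have hPG1 : ∀ h ∈ h78_P p L π, h ∈ h59_G1 p rb ζ :=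
    fun h hh => ⟨⟨1, by rw [hP1 h hh, one_smul]⟩, hPζ h hh⟩
  have hφ2 : φ * φ ∈ h59_G1 p rb ζ :=
    ⟨⟨c₂, by rw [map_mul, hc₂]⟩, by rw [AlgEquiv.mul_apply, hφζ, hφζ]⟩
  obtain ⟨F₁, hF₁⟩ : ∃ F : Fld, F = IntermediateField.fixedField (h59_G1 p rb ζ) := ⟨_, rfl⟩
  have hfixing : F₁.fixingSubgroup = h59_G1 p rb ζ := by
    rw [hF₁]; exact h59_fixing_fixed p _ L hLG1
  have hmemF : ∀ x : Ω, x ∈ F₁ ↔ ∀ g ∈ h59_G1 p rb ζ, g x = x := by
    intro x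
    rw [hF₁, IntermediateField.mem_fixedField_iff]
  have hle : F₁ ≤ L := by rw [hF₁]; exact h59_fixed_le p _ L hLG1
  have hfin : FiniteDimensional ℚ_[p] F₁ := h59_finite_of_le p F₁ L hle
  have hstable : h78_Stable p F₁ := by
    intro g z hz
    rw [hmemF] at hz ⊢
    intro h hh
    have h1 : g⁻¹ * h * g ∈ h59_G1 p rb ζ := by
      have := h59_G1_conj p rb ζ hζp hζ1 h g⁻¹ hh
      rwa [inv_inv] at this
    have h2 := hz _ h1
    have h3 : h (g z) = g ((g⁻¹ * h * g) z) := by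
      rw [← AlgEquiv.mul_apply, ← AlgEquiv.mul_apply]
      congr 1
      group
    rw [h3, h2]
  have hζF : ζ ∈ F₁ := (hmemF ζ).2 (fun g hg => hg.2)
  have htame : h78_IsTame p F₁ := by
    obtain ⟨m, hm, hmv⟩ := h94_M_tame p L hL π hπ
    refine ⟨m, hm, fun x hx hx0 => hmv x ?_ hx0⟩
    show x ∈ L ⊓ IntermediateField.fixedField (h78_P p L π)
    rw [IntermediateField.mem_inf]
    refine ⟨hle hx, ?_⟩
    rw [IntermediateField.mem_fixedField_iff]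
    intro g hg
    exact (hmemF x).1 hx g (hPG1 g hg)
  have hscalar : ∀ g ∈ F₁.fixingSubgroup,
      ∃ c : k, rb g = c • (1 : Matrix (Fin 2) (Fin 2) k) := by
    intro g hg
    rw [hfixing] at hg
    exact hg.1
  have hindex : ((F₁.fixingSubgroup.index : ℕ) : k) ≠ 0 := by
    rw [hfixing, Ne, CharP.cast_eq_zero_iff k p]
    have : (h59_G1 p rb ζ).Normal :=
      ⟨fun g hg h => h59_G1_conj p rb ζ hζp hζ1 g h hg⟩
    refine h59_index_not_dvd p (h59_G1 p rb ζ) (h59_index_ne_zero p _ L hLG1)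
      ((p - 1) * (2 * (p + 1))) ?_ ?_
    · intro hdvd
      rcases (Nat.Prime.dvd_mul hp).1 hdvd with h | h
      · have := Nat.le_of_dvd (by have := hp.two_le; omega) h
        omega
      · rcases (Nat.Prime.dvd_mul hp).1 h with h | h
        · exact hp2 ((Nat.prime_dvd_prime_iff_eq hp Nat.prime_two).1 h)
        · have h1 : p ∣ 1 := (Nat.dvd_add_right (dvd_refl p)).1 h
          exact hp.one_lt.ne' (Nat.dvd_one.1 h1)
    · intro g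
      obtain ⟨i, j, hij⟩ := hgen g
      obtain ⟨c, hc⟩ := h59_irr_scalar_pow (rb τ) (rb φ) p (rb τ).det c₂ hswap
        (h59_irr_pow_succ (rb τ) p hconj) hc₂ i j
      refine ⟨⟨c ^ (p - 1), ?_⟩, ?_⟩
      · rw [map_pow, hij, mul_comm (p - 1), pow_mul, hc, smul_pow, one_pow]
      · obtain ⟨a, ha⟩ := h59_aut_zeta p ζ hζp hζ1 g
        have hpa : ¬ p ∣ a := hnd g a ha
        have ha0 : (a : ZMod p) ≠ 0 := fun h0 => hpa ((ZMod.natCast_eq_zero_iff _ _).1 h0)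
        rw [h59_pow_zeta p g ζ a ha]
        have h1 : a ^ ((p - 1) * (2 * (p + 1))) ≡ 1 [MOD p] := by
          rw [← ZMod.natCast_eq_natCast_iff]
          push_cast
          rw [pow_mul, ZMod.pow_card_sub_one_eq_one ha0, one_pow]
        have h2 := (h59_zeta_pow_iff p ζ hζp hζ1 _ 1).2 h1
        rw [h2, pow_one]
  have hres : ∀ z ∈ F₁, (∃ n : ℕ, 0 < n ∧ ¬ p ∣ n ∧ z ^ n = 1) → z ^ (p ^ 2 - 1) = 1 := by
    intro z hz hzn
    have h1 : (φ * φ) z = z := (hmemF z).1 hz _ hφ2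
    have h2 : φ z = z ^ p := hφ z (hle hz) hzn
    rw [AlgEquiv.mul_apply, h2, map_pow, h2, ← pow_mul, ← pow_two] at h1
    have hz0 : z ≠ 0 := by
      obtain ⟨n, hn0, -, hzn'⟩ := hzn
      rintro rfl
      rw [zero_pow hn0.ne'] at hzn'
      exact zero_ne_one hzn'
    have e1 : p ^ 2 = (p ^ 2 - 1) + 1 := by
      have : 0 < p ^ 2 := pow_pos hp.pos 2
      omega
    rw [e1, pow_succ] at h1
    exact mul_right_cancel₀ hz0 (by rw [h1, one_mul])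
  -- the tame character
  obtain ⟨π₁, hπ₁⟩ := h94_exists_unif p F₁
  obtain ⟨θ, hθF, hθπ, e, he0, heπ, hθe⟩ := h59_theta p L F₁ hle hstable τ hτJ π₁ hπ₁
  have hJres : ∀ g ∈ h78_J p L, ∀ x ∈ L, ‖x‖ ≤ 1 → ‖g x - x‖ < 1 :=
    fun g hg x hx hx1 => h49_J_res p L g hg x hx hx1
  obtain ⟨m, -, hpm, hτm⟩ := h6_J_tame_of p L hL hJres π hπ τ hτJ
  have hτmF : ∀ z ∈ F₁, (τ ^ m) z = z := fun z hz => (hmemF z).1 hz _ (hPG1 _ hτm)
  have hgenF : ∀ g ∈ h78_J p L, ∃ j : ℕ, ∀ z ∈ F₁, g z = (τ ^ j) z := by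
    intro g hg
    obtain ⟨j, hj⟩ := hτgen g hg
    refine ⟨j, fun z hz => ?_⟩
    have h1 : (g * (τ ^ j)⁻¹) ((τ ^ j) z) = (τ ^ j) z :=
      (hmemF _).1 (hstable (τ ^ j) z hz) _ (hPG1 _ hj)
    have h2 : g z = (g * (τ ^ j)⁻¹) ((τ ^ j) z) := by
      rw [← AlgEquiv.mul_apply]
      congr 1
      group
    rw [h2, h1]
  have hθe' : ∀ j : ℕ, 0 < j → j < e → θ ^ j ≠ 1 := fun j hj0 hje =>
    h59_theta_order p L F₁ hle hstable τ hτJ m hpm hτmF hgenF π₁ hπ₁ θ hθπ e heπ j hj0 hje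
  obtain ⟨hpe, hwθ⟩ :=
    h59_theta_cyclo p L F₁ hle τ hτJ π₁ hπ₁ θ hθπ e he0 heπ ζ hζF hζp hζ1 nw hτζ
  exact ⟨{ τ := τ, φ := φ, F₁ := F₁, fin := hfin, stable := hstable, tame := htame, le := hle,
           triv := htriv, scalar := hscalar, index := hindex, swap := hswap, conj := hconj,
           sep := hsep, τJ := hτJ, ζ := ζ, ζF := hζF, ζp := hζp, ζ1 := hζ1, nw := nw,
           τζ := hτζ, π₁ := π₁, unif := hπ₁, θ := θ, θF := hθF, θπ := hθπ, e := e, eπ := heπ,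
           θe := hθe, θe' := hθe', pe := hpe, wθ := hwθ, res := hres }⟩

end Fermat.Agent.S56
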