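import Mathlib
import Fermat.Agent.S56.h59_IrrStruct
import Fermat.Agent.S56.h88_TameLocSk

/-!
# S56 / W3 / E-IRR, row IRR-2b (STRUCT): closed form

`h59_irr_struct` is `sk_irr_struct` of the W3 skeleton (v5) verbatim: `h59_irr_struct_of` with
the IRR-1 inputs of `h88_TameLocSk`.
-/

set_option autoImplicit false

namespace Fermat.Agent.S56

variable (p : ℕ) [Fact p.Prime]

local notation "Ω" => PadicAlgCl p
local notation "Fld" => IntermediateField ℚ_[p] (PadicAlgCl p)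

/-- IRR-2b STRUCT: pure structure theory of `rb` over a trivialising field `L` (no flatness). -/
theorem h59_irr_struct (hp2 : p ≠ 2) {k : Type} [Field k] [Finite k] [CharP k p]
    (rb : h78_G p →* Matrix (Fin 2) (Fin 2) k)
    (hdet : ∀ (g : h78_G p) (ζ : Ω), ζ ^ p = 1 → ∃ n : ℕ, g ζ = ζ ^ n ∧ (rb g).det = (n : k))
    (hirr : ∀ v : Fin 2 → k, v ≠ 0 → ∃ g, ∀ c : k, (rb g).mulVec v ≠ c • v)
    (W : Submodule k (h78_G p → Matrix (Fin 2) (Fin 2) k))
    (L : Fld) [FiniteDimensional ℚ_[p] L] (hL : h78_Stable p L)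
    (hζ : ∀ ζ : Ω, ζ ^ p = 1 → ζ ∈ L)
    (htriv : ∀ g ∈ L.fixingSubgroup, rb g = 1 ∧ ∀ a ∈ W, a g = 0) :
    Nonempty (h78_IrrData p rb W L) := by
  obtain ⟨π, hπ⟩ := h94_exists_unif p L
  exact h59_irr_struct_of p hp2 rb hdet hirr W L hL hζ htriv π hπ
    (h88_sk_tame_cyclic p L hL π hπ) (h88_sk_exists_frob p L hL)
    (fun φ hφ g hg => h88_sk_frob_tame p L hL π hπ φ hφ g hg)
    (fun φ hφ g => h88_sk_frob_gen p L hL φ hφ g)
    (fun ζ h h1 n hn => h88_sk_cyclo_inertia p L hL ζ h h1 n hn)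

end Fermat.Agent.S56
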