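import Fermat.Agent.S56.h30_IrrAlg

set_option autoImplicit false

/-!
# S56 / W3 E-IRR, row IRR-7 (COUNT), part 2: the counting argument

`c_a(s) := a(s) rb(s)⁻¹`.  On a normal subgroup `Γ1` on which `rb` is scalar, `c_a` is a
homomorphism, equivariant for conjugation.  If its `N`-part is killed by a subgroup of index
`≤ p²` of `I1`, the space of classes is at most one-dimensional.
-/

namespace Fermat.Agent.S56

open Matrix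

section cocycle

variable {Γ : Type*} [Group Γ] {k : Type*} [Field k]

theorem h30_rb_mul_inv (rb : Γ →* Matrix (Fin 2) (Fin 2) k) (s : Γ) : rb s * rb s⁻¹ = 1 := by
  rw [← map_mul, mul_inv_cancel, map_one]

theorem h30_rb_inv_mul (rb : Γ →* Matrix (Fin 2) (Fin 2) k) (s : Γ) : rb s⁻¹ * rb s = 1 := by
  rw [← map_mul, inv_mul_cancel, map_one]

/-- `c_a(s) = a(s) rb(s)⁻¹`. -/
def h30_cc (rb : Γ →* Matrix (Fin 2) (Fin 2) k) (a : Γ → Matrix (Fin 2) (Fin 2) k) (s : Γ) :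
    Matrix (Fin 2) (Fin 2) k := a s * rb s⁻¹

theorem h30_a_eq (rb : Γ →* Matrix (Fin 2) (Fin 2) k) (a : Γ → Matrix (Fin 2) (Fin 2) k) (s : Γ) :
    a s = h30_cc rb a s * rb s := by
  unfold h30_cc; rw [Matrix.mul_assoc, h30_rb_inv_mul, Matrix.mul_one]

theorem h30_scalar_conj (rb : Γ →* Matrix (Fin 2) (Fin 2) k) (s : Γ)
    (hs : ∃ c : k, rb s = c • (1 : Matrix (Fin 2) (Fin 2) k)) (X : Matrix (Fin 2) (Fin 2) k) :
    rb s * X * rb s⁻¹ = X := by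
  obtain ⟨c, hc⟩ := hs
  have : rb s * X = X * rb s := by rw [hc]; simp
  rw [this, Matrix.mul_assoc, h30_rb_mul_inv, Matrix.mul_one]

variable {rb : Γ →* Matrix (Fin 2) (Fin 2) k} {a : Γ → Matrix (Fin 2) (Fin 2) k}

theorem h30_cc_mul (hcoc : ∀ s t, a (s * t) = a s * rb t + rb s * a t) (s t : Γ) :
    h30_cc rb a (s * t) = h30_cc rb a s + rb s * h30_cc rb a t * rb s⁻¹ := by
  unfold h30_cc
  rw [hcoc, _root_.mul_inv_rev, map_mul, Matrix.add_mul]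
  congr 1
  · rw [Matrix.mul_assoc, ← Matrix.mul_assoc (rb t), h30_rb_mul_inv, Matrix.one_mul]
  · simp only [Matrix.mul_assoc]

theorem h30_cc_one (hcoc : ∀ s t, a (s * t) = a s * rb t + rb s * a t) : h30_cc rb a 1 = 0 := by
  have h := h30_cc_mul hcoc 1 1
  simpa using h

theorem h30_cc_mul_left (hcoc : ∀ s t, a (s * t) = a s * rb t + rb s * a t) (Γ1 : Subgroup Γ)
    (h1 : ∀ g ∈ Γ1, ∃ c : k, rb g = c • (1 : Matrix (Fin 2) (Fin 2) k)) {s : Γ} (hs : s ∈ Γ1)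
    (t : Γ) : h30_cc rb a (s * t) = h30_cc rb a s + h30_cc rb a t := by
  rw [h30_cc_mul hcoc, h30_scalar_conj rb s (h1 s hs)]

theorem h30_cc_inv (hcoc : ∀ s t, a (s * t) = a s * rb t + rb s * a t) (Γ1 : Subgroup Γ)
    (h1 : ∀ g ∈ Γ1, ∃ c : k, rb g = c • (1 : Matrix (Fin 2) (Fin 2) k)) {s : Γ} (hs : s ∈ Γ1) :
    h30_cc rb a s⁻¹ = -h30_cc rb a s := by
  have h := h30_cc_mul_left hcoc Γ1 h1 hs s⁻¹
  rw [mul_inv_cancel, h30_cc_one hcoc] at h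
  exact (neg_eq_of_add_eq_zero_right h.symm).symm

theorem h30_cc_conj (hcoc : ∀ s t, a (s * t) = a s * rb t + rb s * a t) (Γ1 : Subgroup Γ)
    (h1 : ∀ g ∈ Γ1, ∃ c : k, rb g = c • (1 : Matrix (Fin 2) (Fin 2) k)) {s : Γ} (hs : s ∈ Γ1)
    (g : Γ) : h30_cc rb a (g * s * g⁻¹) = rb g * h30_cc rb a s * rb g⁻¹ := by
  have e0 := h30_cc_mul hcoc g g⁻¹
  rw [mul_inv_cancel, h30_cc_one hcoc] at e0
  rw [mul_assoc, h30_cc_mul hcoc, h30_cc_mul_left hcoc Γ1 h1 hs, Matrix.mul_add, Matrix.add_mul,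
    ← add_assoc, add_right_comm, ← e0, zero_add]

theorem h30_cc_pow (hcoc : ∀ s t, a (s * t) = a s * rb t + rb s * a t) (Γ1 : Subgroup Γ)
    (h1 : ∀ g ∈ Γ1, ∃ c : k, rb g = c • (1 : Matrix (Fin 2) (Fin 2) k)) {s : Γ} (hs : s ∈ Γ1)
    (n : ℕ) : h30_cc rb a (s ^ n) = (n : k) • h30_cc rb a s := by
  induction n with
  | zero => simp [h30_cc_one hcoc]
  | succ n ih =>
    rw [pow_succ', h30_cc_mul_left hcoc Γ1 h1 hs, ih, Nat.cast_succ, add_smul, one_smul, add_comm]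

/-- Averaging: a cocycle whose `c` vanishes on a subgroup of index prime to the characteristic is
a coboundary. -/
theorem h30_cobdry_of_vanish (hcoc : ∀ s t, a (s * t) = a s * rb t + rb s * a t)
    (Γ1 : Subgroup Γ) (hidx : ((Γ1.index : ℕ) : k) ≠ 0)
    (hv : ∀ s ∈ Γ1, h30_cc rb a s = 0) :
    ∃ X : Matrix (Fin 2) (Fin 2) k, ∀ s, a s = X * rb s - rb s * X := by
  classical
  have hne : Γ1.index ≠ 0 := fun h => hidx (by rw [h, Nat.cast_zero])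
  have hfin : Finite (Γ ⧸ Γ1) := Nat.finite_of_card_ne_zero hne
  have : Fintype (Γ ⧸ Γ1) := Fintype.ofFinite _
  set m : ℕ := Γ1.index with hm_def
  have hcard : Fintype.card (Γ ⧸ Γ1) = m := by
    rw [hm_def, Subgroup.index, Nat.card_eq_fintype_card]
  set S : Matrix (Fin 2) (Fin 2) k := ∑ q : Γ ⧸ Γ1, h30_cc rb a (Quotient.out q) with hS
  have hinv : ∀ x : Γ, ∀ u ∈ Γ1, h30_cc rb a (x * u) = h30_cc rb a x := by
    intro x u hu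
    rw [h30_cc_mul hcoc, hv u hu, Matrix.mul_zero, Matrix.zero_mul, add_zero]
  have hkey : ∀ h : Γ, ∑ q : Γ ⧸ Γ1, h30_cc rb a (h * Quotient.out q) = S := by
    intro h
    have h1 : ∀ q : Γ ⧸ Γ1, h30_cc rb a (h * Quotient.out q) =
        h30_cc rb a (Quotient.out (h • q)) := by
      intro q
      have hq : h • q = ((h * Quotient.out q : Γ) : Γ ⧸ Γ1) := by
        conv_lhs => rw [← QuotientGroup.out_eq' q]
        rfl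
      obtain ⟨u, hu⟩ := QuotientGroup.mk_out_eq_mul Γ1 (h * Quotient.out q)
      rw [hq, hu]
      exact (hinv _ _ u.2).symm
    rw [Finset.sum_congr rfl (fun q _ => h1 q), hS]
    exact Fintype.sum_equiv (MulAction.toPerm h) _ _ (fun q => rfl)
  have hsum : ∀ h : Γ, S = (m : k) • h30_cc rb a h + rb h * S * rb h⁻¹ := by
    intro h
    calc S = ∑ q : Γ ⧸ Γ1, h30_cc rb a (h * Quotient.out q) := (hkey h).symm
      _ = ∑ q : Γ ⧸ Γ1, (h30_cc rb a h + rb h * h30_cc rb a (Quotient.out q) * rb h⁻¹) :=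
          Finset.sum_congr rfl (fun q _ => h30_cc_mul hcoc h _)
      _ = (m : k) • h30_cc rb a h + rb h * S * rb h⁻¹ := by
          rw [Finset.sum_add_distrib, Finset.sum_const, Finset.card_univ, hcard, hS,
            Finset.mul_sum, Finset.sum_mul, Nat.cast_smul_eq_nsmul]
  refine ⟨(m : k)⁻¹ • S, fun h => ?_⟩
  have h3 := hsum h
  have h4 : (m : k) • h30_cc rb a h = S - rb h * S * rb h⁻¹ := by
    rw [eq_sub_iff_add_eq]; exact h3.symm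
  have h5 : h30_cc rb a h = (m : k)⁻¹ • (S - rb h * S * rb h⁻¹) := by
    rw [← h4, smul_smul, inv_mul_cancel₀ hidx, one_smul]
  rw [h30_a_eq rb a h, h5, Matrix.smul_mul, Matrix.sub_mul, Matrix.mul_assoc (rb h * S),
    h30_rb_inv_mul, Matrix.mul_one, Matrix.smul_mul, Matrix.mul_smul, smul_sub]

/-- If `c_a` vanishes on `I1 ⊇ [τ, Γ1]` and takes values in `N` on `Γ1`, it vanishes on `Γ1`. -/
theorem h30_vanish_of_I1 (hcoc : ∀ s t, a (s * t) = a s * rb t + rb s * a t) (Γ1 : Subgroup Γ)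
    [Γ1.Normal] (h1 : ∀ g ∈ Γ1, ∃ c : k, rb g = c • (1 : Matrix (Fin 2) (Fin 2) k))
    (I1 : Subgroup Γ) (τ : Γ) (h2 : (2 : k) ≠ 0) (hδ : h30_delta (rb τ) ≠ 0)
    (h3 : ∀ s ∈ Γ1, τ * s * τ⁻¹ * s⁻¹ ∈ I1)
    (hN : ∀ s ∈ Γ1, h30_cc rb a s ∈ h30_N (rb τ)) (hv : ∀ s ∈ I1, h30_cc rb a s = 0) :
    ∀ s ∈ Γ1, h30_cc rb a s = 0 := by
  intro s hs
  have hconj : τ * s * τ⁻¹ ∈ Γ1 := Subgroup.Normal.conj_mem inferInstance s hs τ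
  have e := hv _ (h3 s hs)
  rw [h30_cc_mul_left hcoc Γ1 h1 hconj, h30_cc_inv hcoc Γ1 h1 hs, h30_cc_conj hcoc Γ1 h1 hs] at e
  have e1 : rb τ * h30_cc rb a s * rb τ⁻¹ = h30_cc rb a s := by
    rw [← sub_eq_zero, sub_eq_add_neg]; exact e
  have e' : h30_cc rb a s * rb τ = rb τ * h30_cc rb a s := by
    conv_lhs => rw [← e1]
    rw [Matrix.mul_assoc, h30_rb_inv_mul, Matrix.mul_one]
  exact h30_N_comm_zero h2 (rb τ) _ hδ (hN s hs) e'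

end cocycle

section main

theorem h30_irr_two_ne_zero {p : ℕ} [Fact p.Prime] {k : Type*} [Field k] [CharP k p] (hp2 : p ≠ 2) :
    (2 : k) ≠ 0 := by
  intro h
  have h' : ((2 : ℕ) : k) = 0 := by exact_mod_cast h
  rw [CharP.cast_eq_zero_iff k p 2] at h'
  exact hp2 ((Nat.prime_dvd_prime_iff_eq (Fact.out : p.Prime) Nat.prime_two).mp h')

/-- IRR-7b, general universes: if the `N`-parts vanish on all of `I1`, then `W = ⊥`. -/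
theorem h30_irr_count_zero_gen {p : ℕ} [Fact p.Prime] {Γ : Type*} [Group Γ] {k : Type*} [Field k]
    [CharP k p] (hp2 : p ≠ 2) (rb : Γ →* Matrix (Fin 2) (Fin 2) k) (Γ1 I1 : Subgroup Γ)
    [Γ1.Normal] (hI1 : I1 ≤ Γ1) (τ : Γ)
    (h1 : ∀ g ∈ Γ1, ∃ c : k, rb g = c • (1 : Matrix (Fin 2) (Fin 2) k))
    (hsep : (rb τ).trace ^ 2 ≠ 4 * (rb τ).det)
    (h3 : ∀ s ∈ Γ1, τ * s * τ⁻¹ * s⁻¹ ∈ I1)
    (h4 : ((Γ1.index : ℕ) : k) ≠ 0)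
    (W : Submodule k (Γ → Matrix (Fin 2) (Fin 2) k))
    (hcoc : ∀ a ∈ W, ∀ s t, a (s * t) = a s * rb t + rb s * a t)
    (htr : ∀ a ∈ W, ∀ s, (a s * rb s⁻¹).trace = 0)
    (hcob : ∀ a ∈ W, (∃ X : Matrix (Fin 2) (Fin 2) k, ∀ s, a s = X * rb s - rb s * X) → a = 0)
    (h5' : ∀ a ∈ W, ∀ s ∈ I1, ∃ c : k,
      a s * rb s⁻¹ = c • (rb τ - ((rb τ).trace / 2) • (1 : Matrix (Fin 2) (Fin 2) k)))
    (h6 : ∀ a ∈ W, ∀ s ∈ Γ1,
      (a s * rb s⁻¹ * (rb τ - ((rb τ).trace / 2) • (1 : Matrix (Fin 2) (Fin 2) k))).trace = 0) :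
    W = ⊥ := by
  have h2k : (2 : k) ≠ 0 := h30_irr_two_ne_zero (p := p) hp2
  have hδ : h30_delta (rb τ) ≠ 0 := h30_delta_ne_zero_of_sep h2k (rb τ) hsep
  refine (Submodule.eq_bot_iff W).mpr (fun a ha => ?_)
  have hN : ∀ s ∈ Γ1, h30_cc rb a s ∈ h30_N (rb τ) := fun s hs => ⟨htr a ha s, h6 a ha s hs⟩
  have hv : ∀ s ∈ I1, h30_cc rb a s = 0 := by
    intro s hs
    obtain ⟨c, hc⟩ := h5' a ha s hs
    exact h30_zero_of_smul_T0 h2k (rb τ) _ hδ c hc (hN s (hI1 hs)).2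
  exact hcob a ha (h30_cobdry_of_vanish (hcoc a ha) Γ1 h4
    (h30_vanish_of_I1 (hcoc a ha) Γ1 h1 I1 τ h2k hδ h3 hN hv))

/-- IRR-7a, general universes: the counting argument. -/
theorem h30_irr_count_gen {p : ℕ} [Fact p.Prime] {Γ : Type*} [Group Γ] {k : Type*} [Field k]
    [CharP k p] (hp2 : p ≠ 2) (rb : Γ →* Matrix (Fin 2) (Fin 2) k) (Γ1 I1 K1 : Subgroup Γ)
    [Γ1.Normal] (hI1 : I1 ≤ Γ1) (hK1 : K1 ≤ I1) (τ φ : Γ)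
    (h1 : ∀ g ∈ Γ1, ∃ c : k, rb g = c • (1 : Matrix (Fin 2) (Fin 2) k))
    (h2 : rb φ * rb τ = rb τ ^ p * rb φ)
    (h2' : rb τ ^ p = (rb τ).trace • (1 : Matrix (Fin 2) (Fin 2) k) - rb τ)
    (h7 : ∀ c : k, rb τ * rb τ ≠ c • (1 : Matrix (Fin 2) (Fin 2) k))
    (h3 : ∀ s ∈ Γ1, τ * s * τ⁻¹ * s⁻¹ ∈ I1)
    (h3' : ∀ s ∈ I1, τ * s * τ⁻¹ ∈ I1 ∧ φ * s * φ⁻¹ ∈ I1)
    (h4 : ((Γ1.index : ℕ) : k) ≠ 0)
    (W : Submodule k (Γ → Matrix (Fin 2) (Fin 2) k))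
    (hcoc : ∀ a ∈ W, ∀ s t, a (s * t) = a s * rb t + rb s * a t)
    (htr : ∀ a ∈ W, ∀ s, (a s * rb s⁻¹).trace = 0)
    (hcob : ∀ a ∈ W, (∃ X : Matrix (Fin 2) (Fin 2) k, ∀ s, a s = X * rb s - rb s * X) → a = 0)
    (h5 : K1.relIndex I1 ≠ 0 ∧ K1.relIndex I1 ≤ p ^ 2)
    (h5' : ∀ a ∈ W, ∀ s ∈ K1, ∃ c : k,
      a s * rb s⁻¹ = c • (rb τ - ((rb τ).trace / 2) • (1 : Matrix (Fin 2) (Fin 2) k)))
    (h6 : ∀ a ∈ W, ∀ s ∈ Γ1,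
      (a s * rb s⁻¹ * (rb τ - ((rb τ).trace / 2) • (1 : Matrix (Fin 2) (Fin 2) k))).trace = 0) :
    Module.finrank k W ≤ 1 := by
  classical
  have hp : p.Prime := Fact.out
  have h2k : (2 : k) ≠ 0 := h30_irr_two_ne_zero (p := p) hp2
  have hTTi : rb τ * rb τ⁻¹ = 1 := h30_rb_mul_inv rb τ
  have hTiT : rb τ⁻¹ * rb τ = 1 := h30_rb_inv_mul rb τ
  have ht : (rb τ).trace ≠ 0 := h30_trace_ne_zero (rb τ) h7
  have hδ : h30_delta (rb τ) ≠ 0 := h30_delta_ne_zero h2k (rb τ) h2' h7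
  have hΦT : rb φ * rb τ = ((rb τ).trace • (1 : Matrix (Fin 2) (Fin 2) k) - rb τ) * rb φ := by
    rw [h2, h2']
  have hN : ∀ a ∈ W, ∀ s ∈ Γ1, h30_cc rb a s ∈ h30_N (rb τ) :=
    fun a ha s hs => ⟨htr a ha s, h6 a ha s hs⟩
  have hK : ∀ a ∈ W, ∀ s ∈ K1, h30_cc rb a s = 0 := by
    intro a ha s hs
    obtain ⟨c, hc⟩ := h5' a ha s hs
    exact h30_zero_of_smul_T0 h2k (rb τ) _ hδ c hc (hN a ha s (hI1 (hK1 hs))).2
  have hzero : ∀ a ∈ W, (∀ s ∈ I1, h30_cc rb a s = 0) → a = 0 := by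
    intro a ha hv
    exact hcob a ha (h30_cobdry_of_vanish (hcoc a ha) Γ1 h4
      (h30_vanish_of_I1 (hcoc a ha) Γ1 h1 I1 τ h2k hδ h3 (hN a ha) hv))
  by_cases hall : ∀ b ∈ W, ∀ s ∈ I1, h30_cc rb b s = 0
  · have hW : W = ⊥ := (Submodule.eq_bot_iff W).mpr (fun a ha => hzero a ha (hall a ha))
    rw [hW]; simp
  push Not at hall
  obtain ⟨b, hb, s₀, hs₀, hn₀⟩ := hall
  have hs₀Γ : s₀ ∈ Γ1 := hI1 hs₀
  have hu : τ * s₀ * τ⁻¹ ∈ I1 := (h3' s₀ hs₀).1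
  have huΓ : τ * s₀ * τ⁻¹ ∈ Γ1 := hI1 hu
  have hmemΓ : ∀ i j : ℕ, s₀ ^ i * (τ * s₀ * τ⁻¹) ^ j ∈ Γ1 :=
    fun i j => Γ1.mul_mem (Γ1.pow_mem hs₀Γ i) (Γ1.pow_mem huΓ j)
  -- the formula on products
  have hform : ∀ a ∈ W, ∀ i j : ℕ, h30_cc rb a (s₀ ^ i * (τ * s₀ * τ⁻¹) ^ j) =
      (i : k) • h30_cc rb a s₀ + (j : k) • (rb τ * h30_cc rb a s₀ * rb τ⁻¹) := by
    intro a ha i j
    rw [h30_cc_mul_left (hcoc a ha) Γ1 h1 (Γ1.pow_mem hs₀Γ i),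
      h30_cc_pow (hcoc a ha) Γ1 h1 hs₀Γ, h30_cc_pow (hcoc a ha) Γ1 h1 huΓ,
      h30_cc_conj (hcoc a ha) Γ1 h1 hs₀Γ]
  have hfix : ∀ n m : ℕ, ((n : k) - (m : k)) ^ p = (n : k) - (m : k) := by
    intro n m
    have h := map_sub (frobenius k p) (n : k) (m : k)
    rw [map_natCast, map_natCast] at h
    exact h
  -- the counting
  have hsurj : ∀ s ∈ I1, ∃ i j : ℕ, (s₀ ^ i * (τ * s₀ * τ⁻¹) ^ j)⁻¹ * s ∈ K1 := by
    have hfin : Finite (↥I1 ⧸ K1.subgroupOf I1) := Nat.finite_of_card_ne_zero h5.1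
    let f : Fin p × Fin p → ↥I1 ⧸ K1.subgroupOf I1 := fun x =>
      QuotientGroup.mk ((⟨s₀, hs₀⟩ : ↥I1) ^ (x.1 : ℕ) * (⟨τ * s₀ * τ⁻¹, hu⟩ : ↥I1) ^ (x.2 : ℕ))
    have hf : Function.Injective f := by
      rintro ⟨i, j⟩ ⟨i', j'⟩ hij
      have hmem := QuotientGroup.eq.mp hij
      rw [Subgroup.mem_subgroupOf] at hmem
      have hmem' : (s₀ ^ (i : ℕ) * (τ * s₀ * τ⁻¹) ^ (j : ℕ))⁻¹ *
          (s₀ ^ (i' : ℕ) * (τ * s₀ * τ⁻¹) ^ (j' : ℕ)) ∈ K1 := by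
        simpa using hmem
      have e := hK b hb _ hmem'
      rw [h30_cc_mul_left (hcoc b hb) Γ1 h1 (Γ1.inv_mem (hmemΓ _ _)),
        h30_cc_inv (hcoc b hb) Γ1 h1 (hmemΓ _ _), hform b hb, hform b hb] at e
      have e' : (((i' : ℕ) : k) - ((i : ℕ) : k)) • h30_cc rb b s₀ +
          (((j' : ℕ) : k) - ((j : ℕ) : k)) • (rb τ * h30_cc rb b s₀ * rb τ⁻¹) = 0 := by
        rw [sub_smul, sub_smul, ← e]; abel
      have h0 := h30_indep (hp.odd_of_ne_two hp2) h2k (rb τ) (rb τ⁻¹) (h30_cc rb b s₀) hTiT h2' ht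
        hδ (hN b hb s₀ hs₀Γ) hn₀ _ _ (hfix _ _) (hfix _ _) e'
      have hi : (i : ℕ) = (i' : ℕ) :=
        ((CharP.natCast_eq_natCast k p).mp (sub_eq_zero.mp h0.1).symm).eq_of_lt_of_lt i.2 i'.2
      have hj : (j : ℕ) = (j' : ℕ) :=
        ((CharP.natCast_eq_natCast k p).mp (sub_eq_zero.mp h0.2).symm).eq_of_lt_of_lt j.2 j'.2
      exact Prod.ext (Fin.ext hi) (Fin.ext hj)
    have hcard : Nat.card (↥I1 ⧸ K1.subgroupOf I1) ≤ Nat.card (Fin p × Fin p) := by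
      calc Nat.card (↥I1 ⧸ K1.subgroupOf I1) = K1.relIndex I1 := rfl
        _ ≤ p ^ 2 := h5.2
        _ = Nat.card (Fin p × Fin p) := by simp [pow_two]
    have hbij := hf.bijective_of_nat_card_le hcard
    intro s hs
    obtain ⟨⟨i, j⟩, hij⟩ := hbij.2 (QuotientGroup.mk ⟨s, hs⟩)
    refine ⟨i, j, ?_⟩
    have hmem := QuotientGroup.eq.mp hij
    rw [Subgroup.mem_subgroupOf] at hmem
    simpa using hmem
  have hrep : ∀ s ∈ I1, ∃ i j : ℕ, ∀ a ∈ W, h30_cc rb a s =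
      (i : k) • h30_cc rb a s₀ + (j : k) • (rb τ * h30_cc rb a s₀ * rb τ⁻¹) := by
    intro s hs
    obtain ⟨i, j, hij⟩ := hsurj s hs
    refine ⟨i, j, fun a ha => ?_⟩
    have hs' : s = (s₀ ^ i * (τ * s₀ * τ⁻¹) ^ j) * ((s₀ ^ i * (τ * s₀ * τ⁻¹) ^ j)⁻¹ * s) := by
      group
    calc h30_cc rb a s
        = h30_cc rb a ((s₀ ^ i * (τ * s₀ * τ⁻¹) ^ j) * ((s₀ ^ i * (τ * s₀ * τ⁻¹) ^ j)⁻¹ * s)) :=
          congrArg (h30_cc rb a) hs'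
      _ = (i : k) • h30_cc rb a s₀ + (j : k) • (rb τ * h30_cc rb a s₀ * rb τ⁻¹) := by
          rw [h30_cc_mul_left (hcoc a ha) Γ1 h1 (hmemΓ i j), hK a ha _ hij, add_zero,
            hform a ha]
  -- the Frobenius relation
  obtain ⟨i₁, j₁, h11⟩ := hrep (φ * s₀ * φ⁻¹) (h3' s₀ hs₀).2
  -- evaluation at `s₀`
  let ev0 : W →ₗ[k] Matrix (Fin 2) (Fin 2) k :=
    (LinearMap.mulRight k (rb s₀⁻¹)) ∘ₗ (LinearMap.proj s₀) ∘ₗ W.subtype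
  have hev0 : ∀ a : W, ev0 a = h30_cc rb a.1 s₀ := fun a => rfl
  let ev : W →ₗ[k] ↥(h30_N (rb τ)) :=
    ev0.codRestrict (h30_N (rb τ)) (fun a => hN a.1 a.2 s₀ hs₀Γ)
  have hevinj : Function.Injective ev := by
    rw [← LinearMap.ker_eq_bot, LinearMap.ker_eq_bot']
    intro a ha
    have h0 : h30_cc rb a.1 s₀ = 0 := congrArg Subtype.val ha
    have ha0 : a.1 = 0 := hzero a.1 a.2 (fun s hs => by
      obtain ⟨i, j, hij⟩ := hrep s hs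
      rw [hij a.1 a.2, h0]; simp)
    exact Subtype.ext ha0
  let D0 : Matrix (Fin 2) (Fin 2) k →ₗ[k] Matrix (Fin 2) (Fin 2) k :=
    LinearMap.mulLeft k (rb φ) ∘ₗ LinearMap.mulRight k (rb φ⁻¹) - (i₁ : k) • LinearMap.id -
      (j₁ : k) • (LinearMap.mulLeft k (rb τ) ∘ₗ LinearMap.mulRight k (rb τ⁻¹))
  have hD0 : ∀ X, D0 X = rb φ * X * rb φ⁻¹ - (i₁ : k) • X - (j₁ : k) • (rb τ * X * rb τ⁻¹) :=
    fun X => by simp [D0, Matrix.mul_assoc]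
  let D : ↥(h30_N (rb τ)) →ₗ[k] Matrix (Fin 2) (Fin 2) k := D0 ∘ₗ (h30_N (rb τ)).subtype
  have hDev : ∀ a : W, D (ev a) = 0 := by
    intro a
    show D0 (h30_cc rb a.1 s₀) = 0
    rw [hD0, ← h30_cc_conj (hcoc a.1 a.2) Γ1 h1 hs₀Γ, h11 a.1 a.2]; abel
  have hDne : ∃ X : ↥(h30_N (rb τ)), D X ≠ 0 := by
    by_contra hcon
    push Not at hcon
    refine h30_D_ne h2k (rb τ) (rb τ⁻¹) (rb φ) (rb φ⁻¹) (h30_cc rb b s₀) hTTi hTiT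
      (h30_rb_mul_inv rb φ) (h30_rb_inv_mul rb φ) hΦT ht hδ (hN b hb s₀ hs₀Γ) hn₀ (i₁ : k) (j₁ : k)
      (fun X hX => ?_)
    have h' : D0 X = 0 := hcon ⟨X, hX⟩
    rw [hD0, sub_sub, sub_eq_zero] at h'
    exact h'
  obtain ⟨X, hX⟩ := hDne
  exact h30_finrank_le_one ev D hevinj hDev (h30_finrank_N h2k (rb τ) hδ) X hX

end main

section verbatim

variable (p : ℕ) [Fact p.Prime]

/-- IRR-7a COUNT (Mathlib only): the statement `sk_irr_count` of the W3 skeleton, verbatim. -/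
theorem h30_irr_count {Γ : Type} [Group Γ] {k : Type} [Field k] [Finite k] [CharP k p]
    (hp2 : p ≠ 2) (rb : Γ →* Matrix (Fin 2) (Fin 2) k) (Γ1 I1 K1 : Subgroup Γ) [Γ1.Normal]
    (hI1 : I1 ≤ Γ1) (hK1 : K1 ≤ I1) (τ φ : Γ)
    (h1 : ∀ g ∈ Γ1, ∃ c : k, rb g = c • (1 : Matrix (Fin 2) (Fin 2) k))
    (h2 : rb φ * rb τ = rb τ ^ p * rb φ)
    (h2' : rb τ ^ p = (rb τ).trace • (1 : Matrix (Fin 2) (Fin 2) k) - rb τ)
    (h7 : ∀ c : k, rb τ * rb τ ≠ c • (1 : Matrix (Fin 2) (Fin 2) k))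
    (h3 : ∀ s ∈ Γ1, τ * s * τ⁻¹ * s⁻¹ ∈ I1)
    (h3' : ∀ s ∈ I1, τ * s * τ⁻¹ ∈ I1 ∧ φ * s * φ⁻¹ ∈ I1)
    (h4 : ((Γ1.index : ℕ) : k) ≠ 0)
    (W : Submodule k (Γ → Matrix (Fin 2) (Fin 2) k))
    (hcoc : ∀ a ∈ W, ∀ s t, a (s * t) = a s * rb t + rb s * a t)
    (htr : ∀ a ∈ W, ∀ s, (a s * rb s⁻¹).trace = 0)
    (hcob : ∀ a ∈ W, (∃ X : Matrix (Fin 2) (Fin 2) k, ∀ s, a s = X * rb s - rb s * X) → a = 0)
    (h5 : K1.relIndex I1 ≠ 0 ∧ K1.relIndex I1 ≤ p ^ 2)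
    (h5' : ∀ a ∈ W, ∀ s ∈ K1, ∃ c : k,
      a s * rb s⁻¹ = c • (rb τ - ((rb τ).trace / 2) • (1 : Matrix (Fin 2) (Fin 2) k)))
    (h6 : ∀ a ∈ W, ∀ s ∈ Γ1,
      (a s * rb s⁻¹ * (rb τ - ((rb τ).trace / 2) • (1 : Matrix (Fin 2) (Fin 2) k))).trace = 0) :
    Module.finrank k W ≤ 1 :=
  h30_irr_count_gen hp2 rb Γ1 I1 K1 hI1 hK1 τ φ h1 h2 h2' h7 h3 h3' h4 W hcoc htr hcob h5 h5' h6

/-- IRR-7b : the statement `sk_irr_count_zero` of the W3 skeleton, verbatim: if the `N`-parts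
vanish on all of `I1`, then `W = ⊥`. -/
theorem h30_irr_count_zero {Γ : Type} [Group Γ] {k : Type} [Field k] [Finite k] [CharP k p]
    (hp2 : p ≠ 2) (rb : Γ →* Matrix (Fin 2) (Fin 2) k) (Γ1 I1 : Subgroup Γ) [Γ1.Normal]
    (hI1 : I1 ≤ Γ1) (τ : Γ)
    (h1 : ∀ g ∈ Γ1, ∃ c : k, rb g = c • (1 : Matrix (Fin 2) (Fin 2) k))
    (hsep : (rb τ).trace ^ 2 ≠ 4 * (rb τ).det)
    (h3 : ∀ s ∈ Γ1, τ * s * τ⁻¹ * s⁻¹ ∈ I1)
    (h4 : ((Γ1.index : ℕ) : k) ≠ 0)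
    (W : Submodule k (Γ → Matrix (Fin 2) (Fin 2) k))
    (hcoc : ∀ a ∈ W, ∀ s t, a (s * t) = a s * rb t + rb s * a t)
    (htr : ∀ a ∈ W, ∀ s, (a s * rb s⁻¹).trace = 0)
    (hcob : ∀ a ∈ W, (∃ X : Matrix (Fin 2) (Fin 2) k, ∀ s, a s = X * rb s - rb s * X) → a = 0)
    (h5' : ∀ a ∈ W, ∀ s ∈ I1, ∃ c : k,
      a s * rb s⁻¹ = c • (rb τ - ((rb τ).trace / 2) • (1 : Matrix (Fin 2) (Fin 2) k)))
    (h6 : ∀ a ∈ W, ∀ s ∈ Γ1,
      (a s * rb s⁻¹ * (rb τ - ((rb τ).trace / 2) • (1 : Matrix (Fin 2) (Fin 2) k))).trace = 0) :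
    W = ⊥ :=
  h30_irr_count_zero_gen (p := p) hp2 rb Γ1 I1 hI1 τ h1 hsep h3 h4 W hcoc htr hcob h5' h6

end verbatim

end Fermat.Agent.S56
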