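/-
S56 / W3 / E-IRR, row IRR-8 (ASSEMBLY), intermediate form.

`h86_bound_irr_of_front` : the statement of the skeleton row `sk_bound_irr` from the rows that
are not yet closed, taken as hypotheses in skeleton shape: IRR-2a (`sk_irr_field`),
IRR-2b (`sk_irr_struct`), the IRR-5 front end (`sk_irr_front`) and IRR-5 (h5)
(`sk_irr_index`, `sk_irr_no_level`).  The rows IRR-7 (`h30_irr_count`, `h30_irr_count_zero`),
B3.3 (`h49_K0_stable`) and IRR-5 (h6) (`h28_irr_h_zero_of`) are plugged in.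
-/
import Fermat.Agent.S56.h86_IrrAsm
import Fermat.Agent.S56.h30_IrrCount
import Fermat.Agent.S56.h49_K0Basic
import Fermat.Agent.S56.h28_IrrHZero

set_option autoImplicit false

namespace Fermat.Agent.S56

variable (p : ℕ) [Fact p.Prime]

local notation "Ω" => PadicAlgCl p
local notation "Fld" => IntermediateField ℚ_[p] (PadicAlgCl p)

/-- **IRR-8 (ASSEMBLY), intermediate form**: `finrank W ≤ 1` in the case without a stable
line, from IRR-2a, IRR-2b, the IRR-5 front end and IRR-5 (h5) as hypotheses. -/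
theorem h86_bound_irr_of_front (hp2 : p ≠ 2) {k : Type} [Field k] [Finite k] [CharP k p]
    (rb : h78_G p →* Matrix (Fin 2) (Fin 2) k)
    (W : Submodule k (h78_G p → Matrix (Fin 2) (Fin 2) k))
    (hcoc : ∀ a ∈ W, ∀ s t, a (s * t) = a s * rb t + rb s * a t)
    (htr : ∀ a ∈ W, ∀ s, (a s * rb s⁻¹).trace = 0)
    (hcob : ∀ a ∈ W, (∃ X : Matrix (Fin 2) (Fin 2) k, ∀ s, a s = X * rb s - rb s * X) → a = 0)
    -- IRR-2a
    (hfield : Module.Finite k W → W ≠ ⊥ →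
      ∃ (L : Fld) (_ : FiniteDimensional ℚ_[p] L), h78_Stable p L ∧
        (∀ ζ : Ω, ζ ^ p = 1 → ζ ∈ L) ∧
        ∀ g ∈ L.fixingSubgroup, rb g = 1 ∧ ∀ a ∈ W, a g = 0)
    -- IRR-2b
    (hstruct : ∀ (L : Fld) [FiniteDimensional ℚ_[p] L], h78_Stable p L →
      (∀ ζ : Ω, ζ ^ p = 1 → ζ ∈ L) →
      (∀ g ∈ L.fixingSubgroup, rb g = 1 ∧ ∀ a ∈ W, a g = 0) →
      Nonempty (h78_IrrData p rb W L))
    -- IRR-5 FRONT
    (hfront : ∀ (L : Fld) [FiniteDimensional ℚ_[p] L], h78_Stable p L →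
      ∀ (D : h78_IrrData p rb W L) (a : h78_G p → Matrix (Fin 2) (Fin 2) k), a ∈ W →
      ∀ ℓ : Matrix (Fin 2) (Fin 2) k →+ ZMod p,
      ∃ u α : Ω, u ∈ D.F₁ ∧ u ≠ 0 ∧ α ^ p = u ∧ α ∈ L ∧
        (∀ s ∈ D.F₁.fixingSubgroup, s α = D.ζ ^ (ℓ (a s * rb s⁻¹)).val * α) ∧
        ‖u - 1‖ ≤ (p : ℝ)⁻¹ ∧
        ((p : ℝ) ^ p * ‖u - 1‖ ^ (p - 1) ≤ 1 ∨ ∀ z ∈ D.F₁, z ≠ 0 → ‖u - 1‖ ≠ ‖z‖ ^ p))
    -- IRR-5 (h5), generic case
    (hidx : ∀ (L : Fld) [FiniteDimensional ℚ_[p] L], h78_Stable p L →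
      ∀ D : h78_IrrData p rb W L,
      (∀ c : k, rb D.τ * rb D.τ ≠ c • (1 : Matrix (Fin 2) (Fin 2) k)) →
      ∃ K1 : Subgroup (h78_G p), K1 ≤ D.F₁.fixingSubgroup ⊓ h78_J p L ∧
        K1.relIndex (D.F₁.fixingSubgroup ⊓ h78_J p L) ≠ 0 ∧
        K1.relIndex (D.F₁.fixingSubgroup ⊓ h78_J p L) ≤ p ^ 2 ∧
        ∀ a ∈ W, ∀ s ∈ K1, ∃ c : k, a s * rb s⁻¹ =
          c • (rb D.τ - ((rb D.τ).trace / 2) • (1 : Matrix (Fin 2) (Fin 2) k)))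
    -- IRR-5 (h5), degenerate case
    (hnl : ∀ (L : Fld) [FiniteDimensional ℚ_[p] L], h78_Stable p L →
      ∀ D : h78_IrrData p rb W L,
      (∃ c : k, rb D.τ * rb D.τ = c • (1 : Matrix (Fin 2) (Fin 2) k)) →
      ∀ a : h78_G p → Matrix (Fin 2) (Fin 2) k, a ∈ W →
      ∀ s : h78_G p, s ∈ D.F₁.fixingSubgroup ⊓ h78_J p L →
        ∃ c : k, a s * rb s⁻¹ =
          c • (rb D.τ - ((rb D.τ).trace / 2) • (1 : Matrix (Fin 2) (Fin 2) k))) :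
    Module.finrank k W ≤ 1 :=
  h86_bound_irr_of p rb W hfield hstruct
    (fun L hL => h49_K0_stable p L hL)
    (fun L _ hL D a ha s hs =>
      h28_irr_h_zero_of p hp2 rb W hcoc L hL D a ha (hfront L hL D a ha) s hs)
    hidx hnl
    (fun Γ1 I1 K1 _ hI1 hK1 τ φ h1 h2 h2' h7 h3 h3' h4 h5 h5' h6 =>
      h30_irr_count p hp2 rb Γ1 I1 K1 hI1 hK1 τ φ h1 h2 h2' h7 h3 h3' h4 W hcoc htr hcob
        h5 h5' h6)
    (fun Γ1 I1 _ hI1 τ h1 hsep h3 h4 h5' h6 =>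
      h30_irr_count_zero p hp2 rb Γ1 I1 hI1 τ h1 hsep h3 h4 W hcoc htr hcob h5' h6)

end Fermat.Agent.S56
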