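/-
S56 / W3 / E-IRR, row IRR-8 (ASSEMBLY).

`h86_bound_irr_of_rows` : the statement of the skeleton row `sk_bound_irr` from the rows that
are not yet closed, taken as hypotheses in skeleton shape: D1b (`sk_normal_form_deep`) and
IRR-5 (h5) (`sk_irr_index`, `sk_irr_no_level`).  Plugged in: IRR-2a (`h73_irr_field`),
IRR-2b (`h59_irr_struct`), the IRR-5 front end (`h47_irr_front_of`), IRR-5 (h6)
(`h28_irr_h_zero_of`), IRR-7 (`h30_irr_count`, `h30_irr_count_zero`), B3.3 (`h49_K0_stable`),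
B2.1 (`h94_exists_pth_root_mod`).

`h86_bound_irr_of_idx` : the same with D1b closed (`h47_irr_front`): the only hypotheses left
are the statements of `sk_irr_index` and `sk_irr_no_level`.
-/
import Fermat.Agent.S56.h86_IrrFront
import Fermat.Agent.S56.h73_IrrField
import Fermat.Agent.S56.h59_IrrStructFinal
import Fermat.Agent.S56.h47_IrrFront
import Fermat.Agent.S56.h94_ResFin
import Fermat.Agent.S56.h47_IrrFrontFinal

set_option autoImplicit false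

namespace Fermat.Agent.S56

variable (p : ℕ) [Fact p.Prime]

local notation "Ω" => PadicAlgCl p
local notation "Fld" => IntermediateField ℚ_[p] (PadicAlgCl p)

/-- **IRR-8 (ASSEMBLY), rows form**: `finrank W ≤ 1` in the case without a stable line, from
D1b (`hNFD` = the statement of `sk_normal_form_deep`) and IRR-5 (h5) as hypotheses. -/
theorem h86_bound_irr_of_rows (hp2 : p ≠ 2) {k : Type} [Field k] [Finite k] [CharP k p]
    (rb : h78_G p →* Matrix (Fin 2) (Fin 2) k)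
    (hdet : ∀ (g : h78_G p) (ζ : Ω), ζ ^ p = 1 → ∃ n : ℕ, g ζ = ζ ^ n ∧ (rb g).det = (n : k))
    (hirr : ∀ v : Fin 2 → k, v ≠ 0 → ∃ g, ∀ c : k, (rb g).mulVec v ≠ c • v)
    (W : Submodule k (h78_G p → Matrix (Fin 2) (Fin 2) k))
    (hcoc : ∀ a ∈ W, ∀ s t, a (s * t) = a s * rb t + rb s * a t)
    (htr : ∀ a ∈ W, ∀ s, (a s * rb s⁻¹).trace = 0)
    (hflat : ∀ a ∈ W, a ≠ 0 → h78_LocFlat p rb a)
    (hcob : ∀ a ∈ W, (∃ X : Matrix (Fin 2) (Fin 2) k, ∀ s, a s = X * rb s - rb s * X) → a = 0)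
    -- D1b
    (hNFD : ∀ (F : Fld) (πF : Ω), h78_IsUnif p F πF →
      (∀ x ∈ F, ‖x‖ ≤ 1 → ∃ w ∈ F, ‖w‖ ≤ 1 ∧ ‖x - w ^ p‖ < 1) →
      ∀ u : Ω, u ∈ F → ‖u - 1‖ ≤ (p : ℝ)⁻¹ →
      ∃ w ∈ F, w ≠ 0 ∧ ‖u * w ^ p - 1‖ ≤ (p : ℝ)⁻¹ ∧
        ((p : ℝ) ^ p * ‖u * w ^ p - 1‖ ^ (p - 1) ≤ 1 ∨
          ∀ z ∈ F, z ≠ 0 → ‖u * w ^ p - 1‖ ≠ ‖z‖ ^ p))
    -- IRR-5 (h5), generic case
    (hidx : ∀ (L : Fld) [FiniteDimensional ℚ_[p] L], h78_Stable p L →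
      ∀ D : h78_IrrData p rb W L,
      (∀ c : k, rb D.τ * rb D.τ ≠ c • (1 : Matrix (Fin 2) (Fin 2) k)) →
      ∃ K1 : Subgroup (h78_G p), K1 ≤ D.F₁.fixingSubgroup ⊓ h78_J p L ∧
        K1.relIndex (D.F₁.fixingSubgroup ⊓ h78_J p L) ≠ 0 ∧
        K1.relIndex (D.F₁.fixingSubgroup ⊓ h78_J p L) ≤ p ^ 2 ∧
        ∀ a ∈ W, ∀ s ∈ K1, ∃ c : k, a s * rb s⁻¹ =
          c • (rb D.τ - ((rb D.τ).trace / 2) • (1 : Matrix (Fin 2) (Fin 2) k)))
    -- IRR-5 (h5), degenerate case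
    (hnl : ∀ (L : Fld) [FiniteDimensional ℚ_[p] L], h78_Stable p L →
      ∀ D : h78_IrrData p rb W L,
      (∃ c : k, rb D.τ * rb D.τ = c • (1 : Matrix (Fin 2) (Fin 2) k)) →
      ∀ a : h78_G p → Matrix (Fin 2) (Fin 2) k, a ∈ W →
      ∀ s : h78_G p, s ∈ D.F₁.fixingSubgroup ⊓ h78_J p L →
        ∃ c : k, a s * rb s⁻¹ =
          c • (rb D.τ - ((rb D.τ).trace / 2) • (1 : Matrix (Fin 2) (Fin 2) k))) :
    Module.finrank k W ≤ 1 :=
  h86_bound_irr_of_front p hp2 rb W hcoc htr hcob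
    (fun _ hW => h73_irr_field p rb W hcoc hflat hW)
    (fun L _ hL hζ htriv => h59_irr_struct p hp2 rb hdet hirr W L hL hζ htriv)
    (fun L _ _ D a ha ℓ =>
      haveI := D.fin
      h47_irr_front_of p rb W hcoc hflat L D
        (fun u hu hu1 => hNFD D.F₁ D.π₁ D.unif
          (fun x hx hx1 => h94_exists_pth_root_mod p D.F₁ x hx hx1) u hu hu1)
        a ha ℓ)
    hidx hnl

/-- **IRR-8 (ASSEMBLY), index form**: `finrank W ≤ 1` in the case without a stable line, from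
IRR-5 (h5) (`sk_irr_index`, `sk_irr_no_level`) as hypotheses. -/
theorem h86_bound_irr_of_idx (hp2 : p ≠ 2) {k : Type} [Field k] [Finite k] [CharP k p]
    (rb : h78_G p →* Matrix (Fin 2) (Fin 2) k)
    (hdet : ∀ (g : h78_G p) (ζ : Ω), ζ ^ p = 1 → ∃ n : ℕ, g ζ = ζ ^ n ∧ (rb g).det = (n : k))
    (hirr : ∀ v : Fin 2 → k, v ≠ 0 → ∃ g, ∀ c : k, (rb g).mulVec v ≠ c • v)
    (W : Submodule k (h78_G p → Matrix (Fin 2) (Fin 2) k))
    (hcoc : ∀ a ∈ W, ∀ s t, a (s * t) = a s * rb t + rb s * a t)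
    (htr : ∀ a ∈ W, ∀ s, (a s * rb s⁻¹).trace = 0)
    (hflat : ∀ a ∈ W, a ≠ 0 → h78_LocFlat p rb a)
    (hcob : ∀ a ∈ W, (∃ X : Matrix (Fin 2) (Fin 2) k, ∀ s, a s = X * rb s - rb s * X) → a = 0)
    -- IRR-5 (h5), generic case
    (hidx : ∀ (L : Fld) [FiniteDimensional ℚ_[p] L], h78_Stable p L →
      ∀ D : h78_IrrData p rb W L,
      (∀ c : k, rb D.τ * rb D.τ ≠ c • (1 : Matrix (Fin 2) (Fin 2) k)) →
      ∃ K1 : Subgroup (h78_G p), K1 ≤ D.F₁.fixingSubgroup ⊓ h78_J p L ∧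
        K1.relIndex (D.F₁.fixingSubgroup ⊓ h78_J p L) ≠ 0 ∧
        K1.relIndex (D.F₁.fixingSubgroup ⊓ h78_J p L) ≤ p ^ 2 ∧
        ∀ a ∈ W, ∀ s ∈ K1, ∃ c : k, a s * rb s⁻¹ =
          c • (rb D.τ - ((rb D.τ).trace / 2) • (1 : Matrix (Fin 2) (Fin 2) k)))
    -- IRR-5 (h5), degenerate case
    (hnl : ∀ (L : Fld) [FiniteDimensional ℚ_[p] L], h78_Stable p L →
      ∀ D : h78_IrrData p rb W L,
      (∃ c : k, rb D.τ * rb D.τ = c • (1 : Matrix (Fin 2) (Fin 2) k)) →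
      ∀ a : h78_G p → Matrix (Fin 2) (Fin 2) k, a ∈ W →
      ∀ s : h78_G p, s ∈ D.F₁.fixingSubgroup ⊓ h78_J p L →
        ∃ c : k, a s * rb s⁻¹ =
          c • (rb D.τ - ((rb D.τ).trace / 2) • (1 : Matrix (Fin 2) (Fin 2) k))) :
    Module.finrank k W ≤ 1 :=
  h86_bound_irr_of_front p hp2 rb W hcoc htr hcob
    (fun _ hW => h73_irr_field p rb W hcoc hflat hW)
    (fun L _ hL hζ htriv => h59_irr_struct p hp2 rb hdet hirr W L hL hζ htriv)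
    (fun L _ hL D a ha ℓ => h47_irr_front p rb W hcoc hflat L hL D a ha ℓ)
    hidx hnl

end Fermat.Agent.S56
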