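import Fermat.Agent.S56.h12_S56IrrRed
import Fermat.Agent.S56.h86_IrrFinal
import Fermat.Agent.S56.h58_IrrFinal

/-!
# S56 from E-RED alone (helper12)

E-IRR is closed: `h86_bound_irr_of_idx` (helper86) with `h58_irr_index`, `h58_irr_no_level`
(helper58) plugged in.  What remains is exactly one statement:

* `hred` : `sk_bound_red` (E-RED: a stable line, `finrank W ≤ finrank H⁰ + 1`).

`h12_S56_of_red` : the frozen statement S56 from `hred`.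
-/

set_option autoImplicit false
set_option linter.unusedSectionVars false
set_option linter.unusedVariables false

namespace Fermat.Agent.S56

open Fermat.Agent.S53 Fermat.Agent.S53.Dict ExtCitation groupCohomology Fermat.Agent.S55

local notation "M₂[" k "]" => Matrix (Fin 2) (Fin 2) k

section Top

open Polynomial IsLocalRing ResidualGaloisRep

variable {𝒪 : Type} [CommRing 𝒪] [IsDomain 𝒪] [IsDiscreteValuationRing 𝒪]
  [IsAdicComplete (maximalIdeal 𝒪) 𝒪] [Finite (ResidueField 𝒪)]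

/-- **The frozen statement S56 from E-RED (`sk_bound_red`) alone.** -/
theorem h12_S56_of_red (p : ℕ) [Fact p.Prime] (hp2 : p ≠ 2) (hp𝒪 : (p : 𝒪) ∈ maximalIdeal 𝒪)
    (ρbar : ResidualGaloisRep (ResidueField 𝒪))
    (habs : ρbar.IsAbsolutelyIrreducible)
    (hdet : (GaloisRepAdic.ofResidualGaloisRep ρbar).DetIsCyclotomic p)
    (hsplit : ∀ σ : AlgebraicClosure ℚ ≃ₐ[ℚ] AlgebraicClosure ℚ,
      ∃ α β : ResidueField 𝒪, LinearMap.charpoly (ρbar.ρ σ) = (X - C α) * (X - C β))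
    (hTW : ∀ (K : Type) [Field K] [Algebra (ResidueField 𝒪) K]
      (G : Subgroup (AlgebraicClosure ℚ ≃ₐ[ℚ] AlgebraicClosure ℚ)), G.index = 2 →
      ∀ V : Submodule K (ρbar.baseChange K).V,
        (∀ σ ∈ G, ∀ x ∈ V, (ρbar.baseChange K).ρ σ x ∈ V) → V = ⊥ ∨ V = ⊤)
    (S Smin : Finset ℕ) (hpSmin : p ∈ Smin) (hSmin : Smin ⊆ S) (hS : ∀ q ∈ S, q.Prime)
    (hmin : ∀ q : ℕ, q.Prime → q ≠ p → (q ∈ Smin ↔ ¬ ρbar.IsUnramifiedAt q))
    (hred : ∀ {k : Type} [Field k] [Finite k] [CharP k p] (rb : h78_G p →* M₂[k]),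
      (∀ (g : h78_G p) (ζ : PadicAlgCl p), ζ ^ p = 1 →
        ∃ n : ℕ, g ζ = ζ ^ n ∧ (rb g).det = (n : k)) →
      (∃ v : Fin 2 → k, v ≠ 0 ∧ ∀ g, ∃ c : k, (rb g).mulVec v = c • v) →
      ∀ W : Submodule k (h78_G p → M₂[k]),
      (∀ a ∈ W, ∀ s t, a (s * t) = a s * rb t + rb s * a t) →
      (∀ a ∈ W, ∀ s, (a s * rb s⁻¹).trace = 0) →
      (∀ a ∈ W, a ≠ 0 → h78_LocFlat p rb a) →
      (∀ a ∈ W, (∃ X : M₂[k], ∀ s, a s = X * rb s - rb s * X) → a = 0) →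
      Module.finrank k W ≤ Module.finrank k (h78_H0 p rb) + 1) :
    (∃ r : ℕ, ∀ n : ℕ, ∃ qv : Fin r → ℕ, Function.Injective qv ∧
      (∀ i, (qv i).Prime ∧ qv i ∉ S ∧ p ^ (n + 1) ∣ qv i - 1) ∧
      (∀ i, ∀ P : ValuationSubring (AlgebraicClosure ℚ), P.LiesOverPrime (qv i) →
        ∀ φ : AlgebraicClosure ℚ ≃ₐ[ℚ] AlgebraicClosure ℚ, P.IsFrobeniusAt φ (qv i) →
          ∃ α β : ResidueField 𝒪, α ≠ β ∧ LinearMap.charpoly (ρbar.ρ φ) = (X - C α) * (X - C β)) ∧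
      ∀ DQ : GaloisRep.DeformationRingData 𝒪 ρbar (fun _A _ _ _ ρ =>
          GaloisRep.strictOrdinaryCondition 𝒪 p (Smin ∪ Finset.univ.image qv) ρ ∧
            ∀ q ∈ Smin, q.Prime → q ≠ p → ρ.IsUnipotentOnInertiaAt q),
        ∃ γ : MvPowerSeries (Fin r) 𝒪 →ₐ[𝒪] DQ.R, Function.Surjective γ) ∧
    (∃ r : ℕ, ∀ n : ℕ, ∃ qv : Fin r → ℕ, Function.Injective qv ∧
      (∀ i, (qv i).Prime ∧ qv i ∉ S ∧ p ^ (n + 1) ∣ qv i - 1) ∧
      (∀ i, ∀ P : ValuationSubring (AlgebraicClosure ℚ), P.LiesOverPrime (qv i) →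
        ∀ φ : AlgebraicClosure ℚ ≃ₐ[ℚ] AlgebraicClosure ℚ, P.IsFrobeniusAt φ (qv i) →
          ∃ α β : ResidueField 𝒪, α ≠ β ∧ LinearMap.charpoly (ρbar.ρ φ) = (X - C α) * (X - C β)) ∧
      ∀ DQ : GaloisRep.DeformationRingData 𝒪 ρbar (fun _A _ _ _ ρ =>
          GaloisRep.flatCondition 𝒪 p (Smin ∪ Finset.univ.image qv) ρ ∧
            ∀ q ∈ Smin, q.Prime → q ≠ p → ρ.IsUnipotentOnInertiaAt q),
        ∃ γ : MvPowerSeries (Fin r) 𝒪 →ₐ[𝒪] DQ.R, Function.Surjective γ) :=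
  h12_S56_of_irr_red p hp2 hp𝒪 ρbar habs hdet hsplit hTW S Smin hpSmin hSmin hS hmin
    (fun rb hd hi W hcoc htr hflat hcob =>
      h86_bound_irr_of_idx p hp2 rb hd hi W hcoc htr hflat hcob
        (fun L _ hL D h7 => h58_irr_index p hp2 rb hd W hcoc htr hflat L hL D h7)
        (fun L _ hL D h7 a ha s hs =>
          h58_irr_no_level p hp2 rb hd W hcoc htr hflat L hL D h7 a ha s hs))
    (fun rb => hred rb)

end Top

end Fermat.Agent.S56
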