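import Mathlib
import Fermat.Prelude.Def_FLTPrelim_Ramification
import Fermat.Prelude.Def_EllipticCurve_FrobeniusTrace
import Fermat.Prelude.Def_GaloisRep_Residual
import Fermat.Agent.S05.h26_Inertia
import Fermat.Agent.S13.h24_Unram

/-!
# S56 local layer: the decomposition group is generated by Frobenius and inertia (helper40)

`P` a valuation subring of `ℚ̄` over the prime `q`, `φ` a Frobenius element at `P`.

* `h40_dec_residue_pow` : for a finite normal `F/ℚ`, every `σ` in the decomposition group acts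
  on the residues of the integers of `F` as `x ↦ x ^ q ^ j` for some `j` (finite fields).
* `h40_dec_gen_level` : `σ = φ ^ j * τ` on `F` with `τ` in the inertia group.
* `h40_dec_gen` : for a homomorphism `f` of finite level, `f σ = f φ ^ j * f τ`.
-/

set_option autoImplicit false
set_option linter.style.haveILetI false
set_option linter.unusedSectionVars false

namespace Fermat.Agent.S56

open scoped Pointwise NumberField
open Fermat.Agent.S05 Fermat.Agent.S13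

local notation "Qb" => AlgebraicClosure ℚ

section Dec

variable (P : ValuationSubring Qb)

theorem h40_dec_mem_nonunits_iff {σ : Qb ≃ₐ[ℚ] Qb} (hσ : σ ∈ P.decompositionSubgroup ℚ)
    (x : Qb) : σ x ∈ P.nonunits ↔ x ∈ P.nonunits := by
  have h : σ • P = P := hσ
  rw [ValuationSubring.mem_nonunits_iff_or, ValuationSubring.mem_nonunits_iff_or]
  have h1 : σ x = 0 ↔ x = 0 := EmbeddingLike.map_eq_zero_iff
  have h2 : (σ x)⁻¹ ∈ P ↔ x⁻¹ ∈ P := by
    rw [← map_inv₀]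
    conv_lhs => rw [← h]
    exact ValuationSubring.smul_mem_pointwise_smul_iff (g := σ) (S := P) (x := x⁻¹)
  rw [h1, h2]

theorem h40_dec_mem_iff {σ : Qb ≃ₐ[ℚ] Qb} (hσ : σ ∈ P.decompositionSubgroup ℚ)
    (x : Qb) : σ x ∈ P ↔ x ∈ P := by
  have h : σ • P = P := hσ
  conv_lhs => rw [← h]
  exact ValuationSubring.smul_mem_pointwise_smul_iff (g := σ) (S := P) (x := x)

/-- The Frobenius congruence. -/
theorem h40_frob_sub_pow_mem {q : ℕ} {φ : Qb ≃ₐ[ℚ] Qb} (hφ : P.IsFrobeniusAt φ q) {x : Qb}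
    (hx : x ∈ P) : φ x - x ^ q ∈ P.nonunits := by
  obtain ⟨hmem, h⟩ := hφ
  have h1 := h (IsLocalRing.residue P ⟨x, hx⟩)
  have hφx : φ x ∈ P := (h40_dec_mem_iff P hmem x).mpr hx
  have h2 : (⟨φ, hmem⟩ : P.decompositionSubgroup ℚ) • (IsLocalRing.residue P ⟨x, hx⟩) =
      IsLocalRing.residue P ⟨φ x, hφx⟩ := rfl
  rw [h2, ← map_pow, ← sub_eq_zero, ← map_sub, IsLocalRing.residue_eq_zero_iff,
    ← ValuationSubring.coe_mem_nonunits_iff] at h1
  exact h1

theorem h40_frob_pow_sub_pow_mem {q : ℕ} {φ : Qb ≃ₐ[ℚ] Qb} (hφ : P.IsFrobeniusAt φ q) {x : Qb}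
    (hx : x ∈ P) (j : ℕ) : (φ ^ j) x - x ^ q ^ j ∈ P.nonunits := by
  induction j with
  | zero =>
    rw [pow_zero, pow_zero, pow_one, AlgEquiv.one_apply, sub_self]
    exact h24_zero_mem_nonunits P
  | succ j ih =>
    have h1 : (φ ^ (j + 1)) x - x ^ q ^ (j + 1) =
        φ ((φ ^ j) x - x ^ q ^ j) + (φ (x ^ q ^ j) - (x ^ q ^ j) ^ q) := by
      rw [pow_succ', AlgEquiv.mul_apply, map_sub, pow_succ, pow_mul]
      ring
    rw [h1]
    exact h24_add_mem_nonunits P ((h40_dec_mem_nonunits_iff P hφ.mem_decompositionSubgroup _).mpr ih)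
      (h40_frob_sub_pow_mem P hφ (P.pow_mem hx _))

end Dec

section Res

variable (P : ValuationSubring Qb) (F : IntermediateField ℚ Qb)

/-- The residue map on the integers of `F`. -/
noncomputable def h40_resF : 𝓞 F →+* IsLocalRing.ResidueField P :=
  (IsLocalRing.residue P).comp
    { toFun := fun x => ⟨algebraMap F Qb (x : F),
        h24_integral_mem P (map_isIntegral_int (algebraMap F Qb) x.2)⟩
      map_one' := by
        apply Subtype.ext
        simp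
      map_mul' := fun x y => by
        apply Subtype.ext
        simp
      map_zero' := by
        apply Subtype.ext
        simp
      map_add' := fun x y => by
        apply Subtype.ext
        simp }

theorem h40_resF_eq_zero_iff (x : 𝓞 F) :
    h40_resF P F x = 0 ↔ algebraMap F Qb (x : F) ∈ P.nonunits := by
  unfold h40_resF
  rw [RingHom.comp_apply, IsLocalRing.residue_eq_zero_iff,
    ← ValuationSubring.coe_mem_nonunits_iff]
  rfl

/-- For a finite normal `F/ℚ`, every element of the decomposition group acts on the residues of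
the integers of `F` by a power of the `q`-Frobenius. -/
theorem h40_dec_residue_pow [FiniteDimensional ℚ F] [Normal ℚ F] {q : ℕ} (hq : q.Prime)
    (hP : P.LiesOverPrime q) {σ : Qb ≃ₐ[ℚ] Qb} (hσ : σ ∈ P.decompositionSubgroup ℚ) :
    ∃ j : ℕ, ∀ y ∈ F, IsIntegral ℤ y → σ y - y ^ q ^ j ∈ P.nonunits := by
  classical
  haveI : Fact q.Prime := ⟨hq⟩
  haveI : NumberField F := NumberField.mk
  set ψ := h40_resF P F with hψ
  set 𝔭 := RingHom.ker ψ with h𝔭
  have hqmem : ((q : ℕ) : 𝓞 F) ∈ 𝔭 := by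
    rw [RingHom.mem_ker, h40_resF_eq_zero_iff]
    have h0 : ((q : ℕ) : Qb) ∈ P.nonunits := hP
    simpa using h0
  have hne : 𝔭 ≠ ⊥ := by
    intro h
    rw [h, Ideal.mem_bot] at hqmem
    exact hq.ne_zero (by exact_mod_cast hqmem)
  have hprime : 𝔭.IsPrime := RingHom.ker_isPrime ψ
  haveI hmax : 𝔭.IsMaximal := hprime.isMaximal hne
  letI : Field (𝓞 F ⧸ 𝔭) := Ideal.Quotient.field 𝔭
  haveI : Finite (𝓞 F ⧸ 𝔭) := Ideal.finiteQuotientOfFreeOfNeBot 𝔭 hne
  haveI : CharP (𝓞 F ⧸ 𝔭) q := (CharP.charP_iff_prime_eq_zero hq).mpr (by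
    rw [← map_natCast (Ideal.Quotient.mk 𝔭)]
    exact Ideal.Quotient.eq_zero_iff_mem.mpr hqmem)
  letI : Algebra (ZMod q) (𝓞 F ⧸ 𝔭) := ZMod.algebra _ q
  -- the action of `σ` on the integers of `F`
  let sF : F ≃ₐ[ℚ] F := σ.restrictNormal F
  let s : 𝓞 F →+* 𝓞 F := NumberField.RingOfIntegers.mapRingHom (sF : F →+* F)
  have hs : ∀ x : 𝓞 F, algebraMap F Qb ((s x : 𝓞 F) : F) = σ (algebraMap F Qb (x : F)) :=
    fun x => AlgEquiv.restrictNormal_commutes σ F (x : F)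
  have hle : 𝔭 ≤ 𝔭.comap s := fun x hx => by
    rw [Ideal.mem_comap, RingHom.mem_ker, h40_resF_eq_zero_iff, hs]
    exact (h40_dec_mem_nonunits_iff P hσ _).mpr ((h40_resF_eq_zero_iff P F x).mp hx)
  let sbar : 𝓞 F ⧸ 𝔭 →+* 𝓞 F ⧸ 𝔭 := Ideal.quotientMap 𝔭 s hle
  let sAlg : (𝓞 F ⧸ 𝔭) →ₐ[ZMod q] (𝓞 F ⧸ 𝔭) :=
    { sbar with
      commutes' := fun r =>
        RingHom.congr_fun (Subsingleton.elim (sbar.comp (algebraMap (ZMod q) (𝓞 F ⧸ 𝔭)))
          (algebraMap (ZMod q) (𝓞 F ⧸ 𝔭))) r }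
  obtain ⟨n', hn'⟩ := (FiniteField.bijective_frobeniusAlgHom_pow (ZMod q) (𝓞 F ⧸ 𝔭)).2 sAlg
  obtain ⟨n, hn⟩ : ∃ n : ℕ, FiniteField.frobeniusAlgHom (ZMod q) (𝓞 F ⧸ 𝔭) ^ n = sAlg :=
    ⟨n'.1, hn'⟩
  refine ⟨n, fun y hy hyint => ?_⟩
  let x : 𝓞 F := ⟨⟨y, hy⟩, (isIntegral_algebraMap_iff (algebraMap F Qb).injective).mp hyint⟩
  have h1 : sAlg (Ideal.Quotient.mk 𝔭 x) = (Ideal.Quotient.mk 𝔭 x) ^ q ^ n := by
    rw [← hn]
    simp [AlgHom.coe_pow, FiniteField.coe_frobeniusAlgHom, pow_iterate, ZMod.card]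
  have h2 : Ideal.Quotient.mk 𝔭 (s x - x ^ q ^ n) = 0 := by
    rw [map_sub, map_pow, ← h1]
    exact sub_self _
  rw [Ideal.Quotient.eq_zero_iff_mem, RingHom.mem_ker, h40_resF_eq_zero_iff] at h2
  have h3 : algebraMap F Qb ((s x - x ^ q ^ n : 𝓞 F) : F) = σ y - y ^ q ^ n := by
    have e1 : algebraMap F Qb ((s x : 𝓞 F) : F) = σ y := hs x
    have e2 : algebraMap F Qb ((x : 𝓞 F) : F) = y := rfl
    show algebraMap F Qb (algebraMap (𝓞 F) F (s x - x ^ q ^ n)) = _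
    rw [map_sub, map_pow, map_sub, map_pow]
    exact congrArg₂ (fun a b => a - b ^ q ^ n) e1 e2
  rwa [h3] at h2

/-- **The decomposition group is generated by Frobenius and inertia, at every finite level.** -/
theorem h40_dec_gen_level [FiniteDimensional ℚ F] [Normal ℚ F] {q : ℕ} (hq : q.Prime)
    (hP : P.LiesOverPrime q) {φ : Qb ≃ₐ[ℚ] Qb} (hφ : P.IsFrobeniusAt φ q)
    {σ : Qb ≃ₐ[ℚ] Qb} (hσ : σ ∈ P.decompositionSubgroup ℚ) :
    ∃ j : ℕ, ∃ τ ∈ P.inertiaSubgroupIn ℚ, ∀ x ∈ F, σ x = (φ ^ j * τ) x := by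
  obtain ⟨j, hj⟩ := h40_dec_residue_pow P F hq hP hσ
  have hφD := hφ.mem_decompositionSubgroup
  have hφjD : (φ ^ j)⁻¹ ∈ P.decompositionSubgroup ℚ := inv_mem (pow_mem hφD j)
  have hinv : ∀ y : Qb, (φ ^ j)⁻¹ ((φ ^ j) y) = y := fun y => by
    rw [← AlgEquiv.mul_apply, inv_mul_cancel, AlgEquiv.one_apply]
  have hinv' : ∀ y : Qb, (φ ^ j) ((φ ^ j)⁻¹ y) = y := fun y => by
    rw [← AlgEquiv.mul_apply, mul_inv_cancel, AlgEquiv.one_apply]
  obtain ⟨τ, hτ, hτF⟩ := h24_exists_inertia_lift_Qbar F P ((φ ^ j)⁻¹ * σ) (fun x hx hxi => by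
    have hxP : x ∈ P := h24_integral_mem P hxi
    have h1 : ((φ ^ j)⁻¹ * σ) x - x = (φ ^ j)⁻¹ (σ x - (φ ^ j) x) := by
      rw [AlgEquiv.mul_apply, map_sub, hinv]
    rw [h1]
    refine (h40_dec_mem_nonunits_iff P hφjD _).mpr ?_
    have h2 : σ x - (φ ^ j) x = (σ x - x ^ q ^ j) - ((φ ^ j) x - x ^ q ^ j) := by ring
    rw [h2]
    exact h24_sub_mem_nonunits P (hj x hx hxi) (h40_frob_pow_sub_pow_mem P hφ hxP j))
  refine ⟨j, τ, hτ, fun x hx => ?_⟩
  rw [AlgEquiv.mul_apply, hτF x hx, AlgEquiv.mul_apply, hinv']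

end Res

section Level

/-- A homomorphism of finite level takes equal values on automorphisms that agree on the
level. -/
theorem h40_level_congr {H : Type} [Monoid H] (f : (Qb ≃ₐ[ℚ] Qb) →* H)
    (L : IntermediateField ℚ Qb) (hL : ∀ σ : Qb ≃ₐ[ℚ] Qb, (∀ x ∈ L, σ x = x) → f σ = 1)
    {σ σ' : Qb ≃ₐ[ℚ] Qb} (h : ∀ x ∈ L, σ x = σ' x) : f σ = f σ' := by
  have h1 : f (σ'⁻¹ * σ) = 1 := hL _ fun x hx => by
    rw [AlgEquiv.mul_apply, h x hx, ← AlgEquiv.mul_apply, inv_mul_cancel, AlgEquiv.one_apply]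
  have h2 : σ = σ' * (σ'⁻¹ * σ) := by group
  rw [h2, map_mul, h1, mul_one]

/-- Every finite level is contained in a finite normal level. -/
theorem h40_exists_normal_level (L : IntermediateField ℚ Qb) [FiniteDimensional ℚ L] :
    ∃ F : IntermediateField ℚ Qb, FiniteDimensional ℚ F ∧ Normal ℚ F ∧ L ≤ F := by
  have halg : Algebra.IsAlgebraic ℚ Qb := AlgebraicClosure.isAlgebraic ℚ
  have hclo : IsAlgClosure ℚ Qb := ⟨inferInstance, inferInstance⟩
  have hnor : Normal ℚ Qb := IsAlgClosure.normal ℚ Qb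
  exact ⟨IntermediateField.normalClosure ℚ L Qb, inferInstance, normalClosure.normal ℚ L Qb,
    IntermediateField.le_normalClosure L⟩

/-- **DEC-GEN**: for a homomorphism `f` of finite level, the image of the decomposition group is
generated by `f φ` and the image of inertia. -/
theorem h40_dec_gen {H : Type} [Monoid H] (f : (Qb ≃ₐ[ℚ] Qb) →* H)
    (hf : GaloisFactorsThroughFiniteLevel f) (P : ValuationSubring Qb) {q : ℕ} (hq : q.Prime)
    (hP : P.LiesOverPrime q) {φ : Qb ≃ₐ[ℚ] Qb} (hφ : P.IsFrobeniusAt φ q)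
    {σ : Qb ≃ₐ[ℚ] Qb} (hσ : σ ∈ P.decompositionSubgroup ℚ) :
    ∃ j : ℕ, ∃ τ ∈ P.inertiaSubgroupIn ℚ, f σ = f φ ^ j * f τ := by
  obtain ⟨L, hLfin, hL⟩ := hf
  obtain ⟨F, hFfin, hFnorm, hLF⟩ := h40_exists_normal_level L
  obtain ⟨j, τ, hτ, h⟩ := h40_dec_gen_level P F hq hP hφ hσ
  refine ⟨j, τ, hτ, ?_⟩
  rw [h40_level_congr f L hL fun x hx => h x (hLF hx), map_mul, map_pow]

end Level

end Fermat.Agent.S56
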