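import Fermat.Agent.S56.h40_TameDisc
import Fermat.Agent.S56.h40_DecGen

/-!
# S56 local layer: tame inertia at `q` is cyclic (helper40)

`P` a place of `ℚ̄` over `q`, `F/ℚ` finite normal, `π` a uniformizer of `P` on `F`.

* `h40_dec_val_eq` : the decomposition group preserves the valuation on `F`;
* `h40_wild_pow_fix` : an inertia element `ω` with `ω π / π ≡ 1` has `q`-power order on `F`;
* `h40_tame_cyc_level` : there is `τ₀` in inertia such that every inertia element is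
  `τ₀ ^ j * ω` on `F` with `ω` of `q`-power order on `F`;
* `h40_tame_cyc` : for a homomorphism `f` of finite level whose values on inertia have orders
  prime to `q`, the image of inertia is cyclic.
-/

set_option autoImplicit false
set_option linter.style.haveILetI false
set_option linter.unusedSectionVars false

namespace Fermat.Agent.S56

open Fermat.Agent.S05 Fermat.Agent.S13

local notation "Qb" => AlgebraicClosure ℚ

section Level

/-- A uniform exponent killing the action on a finite normal level. -/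
theorem h40_exists_pow_fix_level (F : IntermediateField ℚ Qb) [FiniteDimensional ℚ F]
    [Normal ℚ F] : ∃ N : ℕ, 0 < N ∧ ∀ τ : Qb ≃ₐ[ℚ] Qb, ∀ x ∈ F, (τ ^ N) x = x := by
  refine ⟨Nat.card (F ≃ₐ[ℚ] F), Nat.card_pos, fun τ x hx => ?_⟩
  have h1 : (AlgEquiv.restrictNormalHom F τ) ^ Nat.card (F ≃ₐ[ℚ] F) = 1 := pow_card_eq_one'
  rw [← map_pow] at h1
  have h2 := AlgEquiv.restrictNormal_commutes (τ ^ Nat.card (F ≃ₐ[ℚ] F)) F ⟨x, hx⟩
  have h3 : (τ ^ Nat.card (F ≃ₐ[ℚ] F)).restrictNormal F =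
      AlgEquiv.restrictNormalHom F (τ ^ Nat.card (F ≃ₐ[ℚ] F)) := rfl
  rw [h3, h1] at h2
  exact h2.symm

/-- A normal intermediate field is stable under all automorphisms. -/
theorem h40_map_mem_of_normal (F : IntermediateField ℚ Qb) [Normal ℚ F] (τ : Qb ≃ₐ[ℚ] Qb)
    {x : Qb} (hx : x ∈ F) : τ x ∈ F := by
  have h2 := AlgEquiv.restrictNormal_commutes τ F ⟨x, hx⟩
  have h3 : τ x = algebraMap F Qb ((τ.restrictNormal F) ⟨x, hx⟩) := h2.symm
  rw [h3]
  exact ((τ.restrictNormal F) ⟨x, hx⟩).2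

end Level

section ValInv

variable (P : ValuationSubring Qb)

theorem h40_inertia_le_dec' {τ : Qb ≃ₐ[ℚ] Qb} (hτ : τ ∈ P.inertiaSubgroupIn ℚ) :
    τ ∈ P.decompositionSubgroup ℚ := by
  obtain ⟨t, -, rfl⟩ := hτ
  exact t.2

theorem h40_pow_mem_dec {τ : Qb ≃ₐ[ℚ] Qb} (hτ : τ ∈ P.decompositionSubgroup ℚ) (i : ℕ) :
    τ ^ i ∈ P.decompositionSubgroup ℚ := pow_mem hτ i

/-- Telescoping product. -/
theorem h40_prod_telescope (τ : Qb ≃ₐ[ℚ] Qb) {x : Qb} (hx : x ≠ 0) (N : ℕ) :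
    ∏ i ∈ Finset.range N, (τ ^ i) (τ x / x) = (τ ^ N) x / x := by
  induction N with
  | zero => simp [div_self hx]
  | succ N ih =>
    have h0 : (τ ^ N) x ≠ 0 := (map_ne_zero _).mpr hx
    rw [Finset.prod_range_succ, ih, map_div₀, ← AlgEquiv.mul_apply, ← pow_succ]
    field_simp

/-- A nonempty product of elements of the maximal ideal lies in the maximal ideal. -/
theorem h40_prod_mem_nonunits (f : ℕ → Qb) (hf : ∀ i, f i ∈ P.nonunits) (N : ℕ) :
    ∏ i ∈ Finset.range (N + 1), f i ∈ P.nonunits := by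
  induction N with
  | zero => simpa using hf 0
  | succ N ih =>
    rw [Finset.prod_range_succ]
    exact h26_mul_mem_nonunits_left P (h24_nonunits_subset P ih) (hf _)

/-- The decomposition group preserves the valuation (on elements of finite orbit). -/
theorem h40_dec_val_eq {τ : Qb ≃ₐ[ℚ] Qb} (hτ : τ ∈ P.decompositionSubgroup ℚ) {x : Qb}
    {N : ℕ} (hN : 0 < N) (hfix : (τ ^ N) x = x) : P.valuation (τ x) = P.valuation x := by
  by_cases hx : x = 0
  · rw [hx, map_zero]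
  have hτx : τ x ≠ 0 := (map_ne_zero _).mpr hx
  obtain ⟨N, rfl⟩ : ∃ N', N = N' + 1 := ⟨N - 1, by omega⟩
  rcases lt_trichotomy (P.valuation (τ x)) (P.valuation x) with h | h | h
  · exfalso
    have hu : τ x / x ∈ P.nonunits := by
      rw [ValuationSubring.mem_nonunits_iff, map_div₀]
      exact (div_lt_one₀ (zero_lt_iff.mpr ((map_ne_zero _).mpr hx))).mpr h
    have h1 := h40_prod_mem_nonunits P (fun i => (τ ^ i) (τ x / x))
      (fun i => (h40_dec_mem_nonunits_iff P (pow_mem hτ i) _).mpr hu) N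
    rw [h40_prod_telescope τ hx, hfix, div_self hx] at h1
    exact h24_one_not_mem_nonunits P h1
  · exact h
  · exfalso
    have hu : x / τ x ∈ P.nonunits := by
      rw [ValuationSubring.mem_nonunits_iff, map_div₀]
      exact (div_lt_one₀ (zero_lt_iff.mpr ((map_ne_zero _).mpr hτx))).mpr h
    have h1 := h40_prod_mem_nonunits P (fun i => (τ ^ i) (x / τ x))
      (fun i => (h40_dec_mem_nonunits_iff P (pow_mem hτ i) _).mpr hu) N
    have h2 : ∏ i ∈ Finset.range (N + 1), (τ ^ i) (x / τ x) = 1 := by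
      have h3 : ∀ i : ℕ, (τ ^ i) (x / τ x) = ((τ ^ i) (τ x / x))⁻¹ := fun i => by
        rw [← map_inv₀, inv_div]
      rw [Finset.prod_congr rfl fun i _ => h3 i, Finset.prod_inv_distrib,
        h40_prod_telescope τ hx, hfix, div_self hx, inv_one]
    rw [h2] at h1
    exact h24_one_not_mem_nonunits P h1

end ValInv

section OneUnit

variable (P : ValuationSubring Qb)

/-- `y ≡ 1` modulo the maximal ideal of `P`. -/
def h40_IsOneUnit (y : Qb) : Prop := y - 1 ∈ P.nonunits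

theorem h40_isOneUnit_one : h40_IsOneUnit P 1 := by
  unfold h40_IsOneUnit
  rw [sub_self]
  exact h24_zero_mem_nonunits P

variable {P}

theorem h40_IsOneUnit.mem {y : Qb} (h : h40_IsOneUnit P y) : y ∈ P := by
  have : y = (y - 1) + 1 := by ring
  rw [this]
  exact P.add_mem _ _ (h24_nonunits_subset P h) P.one_mem

theorem h40_IsOneUnit.val {y : Qb} (h : h40_IsOneUnit P y) : P.valuation y = 1 := by
  refine le_antisymm ((P.valuation_le_one_iff y).mpr h.mem) (not_lt.mp fun hlt => ?_)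
  have h1 : y ∈ P.nonunits := (ValuationSubring.mem_nonunits_iff P).mpr hlt
  have h2 : (1 : Qb) = y - (y - 1) := by ring
  exact h24_one_not_mem_nonunits P (h2 ▸ h24_sub_mem_nonunits P h1 h)

theorem h40_IsOneUnit.ne_zero {y : Qb} (h : h40_IsOneUnit P y) : y ≠ 0 := by
  intro h0
  have := h.val
  rw [h0, map_zero] at this
  exact zero_ne_one this

theorem h40_IsOneUnit.mul {y z : Qb} (hy : h40_IsOneUnit P y) (hz : h40_IsOneUnit P z) :
    h40_IsOneUnit P (y * z) := by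
  unfold h40_IsOneUnit
  have : y * z - 1 = (y - 1) * z + (z - 1) := by ring
  rw [this]
  exact h24_add_mem_nonunits P (h26_mul_mem_nonunits_right P hy hz.mem) hz

theorem h40_IsOneUnit.inv {y : Qb} (hy : h40_IsOneUnit P y) : h40_IsOneUnit P y⁻¹ := by
  unfold h40_IsOneUnit
  have h0 := hy.ne_zero
  have hinv : y⁻¹ ∈ P := by
    rw [← P.valuation_le_one_iff, map_inv₀, hy.val, inv_one]
  have : y⁻¹ - 1 = -((y - 1) * y⁻¹) := by
    field_simp
    ring
  rw [this]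
  exact h24_neg_mem_nonunits P (h26_mul_mem_nonunits_right P hy hinv)

theorem h40_IsOneUnit.pow {y : Qb} (hy : h40_IsOneUnit P y) (n : ℕ) :
    h40_IsOneUnit P (y ^ n) := by
  induction n with
  | zero => rw [pow_zero]; exact h40_isOneUnit_one P
  | succ n ih => rw [pow_succ]; exact ih.mul hy

theorem h40_IsOneUnit.zpow {y : Qb} (hy : h40_IsOneUnit P y) (n : ℤ) :
    h40_IsOneUnit P (y ^ n) := by
  rcases n with n | n
  · rw [Int.ofNat_eq_natCast, zpow_natCast]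
    exact hy.pow n
  · rw [zpow_negSucc]
    exact (hy.pow (n + 1)).inv

end OneUnit

section Wild

variable (P : ValuationSubring Qb) (F : IntermediateField ℚ Qb)

/-- The wild inertia relative to `F`: inertia elements `ω` with `ω x / x ≡ 1` for all
`x ∈ F^×`. -/
def h40_wildF : Set (Qb ≃ₐ[ℚ] Qb) :=
  {ω | ω ∈ P.inertiaSubgroupIn ℚ ∧ ∀ x ∈ F, x ≠ 0 → h40_IsOneUnit P (ω x / x)}

theorem h40_one_mem_wildF : (1 : Qb ≃ₐ[ℚ] Qb) ∈ h40_wildF P F := by
  refine ⟨one_mem _, fun x _ hx => ?_⟩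
  rw [AlgEquiv.one_apply, div_self hx]
  exact h40_isOneUnit_one P

variable {P F}

theorem h40_mul_mem_wildF [Normal ℚ F] {ω ω' : Qb ≃ₐ[ℚ] Qb} (h : ω ∈ h40_wildF P F)
    (h' : ω' ∈ h40_wildF P F) : ω * ω' ∈ h40_wildF P F := by
  refine ⟨mul_mem h.1 h'.1, fun x hx hx0 => ?_⟩
  have h1 : ω' x ∈ F := h40_map_mem_of_normal F ω' hx
  have h2 : ω' x ≠ 0 := (map_ne_zero _).mpr hx0
  have h3 : (ω * ω') x / x = (ω (ω' x) / ω' x) * (ω' x / x) := by
    rw [AlgEquiv.mul_apply]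
    field_simp
  rw [h3]
  exact (h.2 _ h1 h2).mul (h'.2 x hx hx0)

theorem h40_pow_mem_wildF [Normal ℚ F] {ω : Qb ≃ₐ[ℚ] Qb} (h : ω ∈ h40_wildF P F) (n : ℕ) :
    ω ^ n ∈ h40_wildF P F := by
  induction n with
  | zero => rw [pow_zero]; exact h40_one_mem_wildF P F
  | succ n ih => rw [pow_succ]; exact h40_mul_mem_wildF ih h

/-- Criterion: an inertia element which is `≡ 1` on a uniformizer is wild on `F`. -/
theorem h40_mem_wildF_of_unif {ω : Qb ≃ₐ[ℚ] Qb} (hω : ω ∈ P.inertiaSubgroupIn ℚ) {π : Qb}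
    (hπ0 : π ≠ 0)
    (hπ : ∀ x ∈ F, x ≠ 0 → ∃ j : ℤ, P.valuation x = P.valuation π ^ j)
    (h1 : h40_IsOneUnit P (ω π / π)) : ω ∈ h40_wildF P F := by
  refine ⟨hω, fun x hx hx0 => ?_⟩
  obtain ⟨j, hj⟩ := hπ x hx hx0
  set u := x / π ^ j with hu
  have hπj : π ^ j ≠ 0 := zpow_ne_zero _ hπ0
  have hu0 : u ≠ 0 := div_ne_zero hx0 hπj
  have hvu : P.valuation u = 1 := by
    rw [hu, map_div₀, map_zpow₀, hj]
    exact div_self (zpow_ne_zero _ ((map_ne_zero _).mpr hπ0))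
  have huP : u ∈ P := (P.valuation_le_one_iff u).mp hvu.le
  have huinv : u⁻¹ ∈ P := by
    rw [← P.valuation_le_one_iff, map_inv₀, hvu, inv_one]
  have h2 : h40_IsOneUnit P (ω u / u) := by
    unfold h40_IsOneUnit
    have : ω u / u - 1 = (ω u - u) * u⁻¹ := by
      field_simp
    rw [this]
    exact h26_mul_mem_nonunits_right P (h26_sub_mem_nonunits_of_mem_inertia P hω huP) huinv
  have hx' : x = π ^ j * u := by
    rw [hu]
    field_simp
  have hωπ : ω π ≠ 0 := (map_ne_zero _).mpr hπ0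
  have h3 : ω x / x = (ω π / π) ^ j * (ω u / u) := by
    rw [hx', map_mul, map_zpow₀, div_zpow]
    field_simp
  rw [h3]
  exact (h1.zpow j).mul h2

/-- Key computation: for `ω` wild on `F` and `z ∈ F^×` in the maximal ideal,
`∏_{i<N} (1 + ω^i z) = 1 + N z + z t` with `t` in the maximal ideal. -/
theorem h40_wild_prod [Normal ℚ F] {ω : Qb ≃ₐ[ℚ] Qb} (h : ω ∈ h40_wildF P F) {z : Qb}
    (hzF : z ∈ F) (hz0 : z ≠ 0) (hz : z ∈ P.nonunits) (N : ℕ) :
    ∃ t ∈ P.nonunits, ∏ i ∈ Finset.range N, (1 + (ω ^ i) z) = 1 + (N : Qb) * z + z * t := by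
  induction N with
  | zero => exact ⟨0, h24_zero_mem_nonunits P, by simp⟩
  | succ N ih =>
    obtain ⟨t, ht, hprod⟩ := ih
    have hm : (ω ^ N) z / z - 1 ∈ P.nonunits := (h40_pow_mem_wildF h N).2 z hzF hz0
    set m := (ω ^ N) z / z - 1 with hmdef
    have hωz : (ω ^ N) z = z * (1 + m) := by
      rw [hmdef]
      field_simp
      ring
    have hzP : z ∈ P := h24_nonunits_subset P hz
    have htP : t ∈ P := h24_nonunits_subset P ht
    have hmP : m ∈ P := h24_nonunits_subset P hm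
    refine ⟨t + m + (1 + m) * ((N : Qb) * z + z * t), ?_, ?_⟩
    · refine h24_add_mem_nonunits P (h24_add_mem_nonunits P ht hm) ?_
      refine h26_mul_mem_nonunits_left P (P.add_mem _ _ P.one_mem hmP) ?_
      exact h24_add_mem_nonunits P (h26_mul_mem_nonunits_left P (natCast_mem P N) hz)
        (h26_mul_mem_nonunits_right P hz htP)
    · rw [Finset.prod_range_succ, hprod, hωz]
      push_cast
      ring

variable (P) in
/-- **(A), core.** If `ω` is wild on `F` and `ω ^ n` fixes `x ∈ F` with `n` prime to `q`, then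
`ω` fixes `x`. -/
theorem h40_wild_fix_of_pow_fix [Normal ℚ F] {q : ℕ} (hq : q.Prime) (hP : P.LiesOverPrime q)
    {ω : Qb ≃ₐ[ℚ] Qb} (h : ω ∈ h40_wildF P F) {n : ℕ} (hn : ¬ q ∣ n) {x : Qb} (hx : x ∈ F)
    (hfix : (ω ^ n) x = x) : ω x = x := by
  by_contra hne
  have hx0 : x ≠ 0 := by
    rintro rfl
    exact hne (map_zero ω)
  have hωx : ω x ∈ F := h40_map_mem_of_normal F ω hx
  set z := ω x / x - 1 with hzdef
  have hz : z ∈ P.nonunits := h.2 x hx hx0
  have hzF : z ∈ F := F.sub_mem (F.div_mem hωx hx) F.one_mem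
  have hz0 : z ≠ 0 := by
    intro h0
    apply hne
    have : ω x / x = 1 := by linear_combination h0
    rwa [div_eq_one_iff_eq hx0] at this
  obtain ⟨t, ht, hprod⟩ := h40_wild_prod h hzF hz0 hz n
  have hy : ∀ i : ℕ, (1 + (ω ^ i) z) = (ω ^ i) (ω x / x) := fun i => by
    rw [hzdef, map_sub, map_one]
    ring
  rw [Finset.prod_congr rfl fun i _ => hy i, h40_prod_telescope ω hx0, hfix, div_self hx0]
    at hprod
  have h1 : z * ((n : Qb) + t) = 0 := by linear_combination -hprod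
  have h2 : (n : Qb) = -t := by
    have := (mul_eq_zero.mp h1).resolve_left hz0
    linear_combination this
  have h3 : (n : Qb) ∈ P.nonunits := by
    rw [h2]
    exact h24_neg_mem_nonunits P ht
  exact hn ((h26_natCast_mem_nonunits_iff P hq hP n).mp h3)

variable (P F) in
/-- **(A)** A wild element has `q`-power order on `F`. -/
theorem h40_wild_pow_fix [FiniteDimensional ℚ F] [Normal ℚ F] {q : ℕ} (hq : q.Prime)
    (hP : P.LiesOverPrime q) {ω : Qb ≃ₐ[ℚ] Qb} (h : ω ∈ h40_wildF P F) :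
    ∃ a : ℕ, ∀ x ∈ F, (ω ^ q ^ a) x = x := by
  obtain ⟨N, hN, hfix⟩ := h40_exists_pow_fix_level F
  obtain ⟨a, n, hn, rfl⟩ := Nat.exists_eq_pow_mul_and_not_dvd hN.ne' q hq.ne_one
  refine ⟨a, fun x hx => ?_⟩
  refine h40_wild_fix_of_pow_fix P hq hP (h40_pow_mem_wildF h (q ^ a)) hn hx ?_
  rw [← pow_mul]
  exact hfix ω x hx

end Wild

section Cyc

/-- A homomorphism to the units of a field with values of bounded order has cyclic image,
generated (as a monoid) by one value. -/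
theorem h40_exists_gen {G : Type*} [Group G] {κ : Type*} [Field κ] (θ : G →* κˣ) (N : ℕ)
    (hN : 0 < N) (h : ∀ g, θ g ^ N = 1) : ∃ g₀ : G, ∀ g : G, ∃ j : ℕ, θ g = θ g₀ ^ j := by
  haveI : NeZero N := ⟨hN.ne'⟩
  have hle : θ.range ≤ rootsOfUnity N κ := by
    rintro _ ⟨g, rfl⟩
    exact (mem_rootsOfUnity N _).mpr (h g)
  haveI : Finite ↥(rootsOfUnity N κ) := inferInstance
  haveI : Finite ↥θ.range :=
    Finite.of_injective (Subgroup.inclusion hle) (Subgroup.inclusion_injective hle)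
  haveI : IsCyclic ↥θ.range :=
    isCyclic_of_injective_ringHom ((Units.coeHom κ).comp θ.range.subtype)
      (Units.val_injective.comp Subtype.val_injective)
  obtain ⟨⟨y, g₀, rfl⟩, hy⟩ := IsCyclic.exists_monoid_generator (α := ↥θ.range)
  refine ⟨g₀, fun g => ?_⟩
  obtain ⟨j, hj⟩ := hy ⟨θ g, g, rfl⟩
  refine ⟨j, ?_⟩
  have := congrArg Subtype.val hj
  simpa using this.symm

variable (P : ValuationSubring Qb)

/-- The tame character attached to `π`: `τ ↦ τ π / π` modulo the maximal ideal. -/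
noncomputable def h40_theta {π : Qb} (hπ0 : π ≠ 0) {N : ℕ} (hN : 0 < N)
    (hfix : ∀ τ : Qb ≃ₐ[ℚ] Qb, (τ ^ N) π = π) :
    ↥(P.inertiaSubgroupIn ℚ) →* (IsLocalRing.ResidueField P)ˣ where
  toFun τ := Units.mk0 (IsLocalRing.residue P ⟨τ.1 π / π, by
      rw [← P.valuation_le_one_iff, map_div₀,
        h40_dec_val_eq P (h40_inertia_le_dec' P τ.2) hN (hfix τ.1),
        div_self ((map_ne_zero _).mpr hπ0)]⟩) (by
      rw [Ne, IsLocalRing.residue_eq_zero_iff, ← ValuationSubring.coe_mem_nonunits_iff,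
        ValuationSubring.mem_nonunits_iff]
      show ¬ P.valuation (τ.1 π / π) < 1
      rw [map_div₀, h40_dec_val_eq P (h40_inertia_le_dec' P τ.2) hN (hfix τ.1),
        div_self ((map_ne_zero _).mpr hπ0)]
      exact lt_irrefl _)
  map_one' := by
    apply Units.ext
    show IsLocalRing.residue P ⟨(1 : Qb ≃ₐ[ℚ] Qb) π / π, _⟩ = 1
    rw [← map_one (IsLocalRing.residue P)]
    congr 1
    apply Subtype.ext
    show (1 : Qb ≃ₐ[ℚ] Qb) π / π = 1
    rw [AlgEquiv.one_apply, div_self hπ0]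
  map_mul' τ τ' := by
    apply Units.ext
    show IsLocalRing.residue P ⟨(τ.1 * τ'.1) π / π, _⟩ =
      IsLocalRing.residue P ⟨τ.1 π / π, _⟩ * IsLocalRing.residue P ⟨τ'.1 π / π, _⟩
    rw [← map_mul, ← sub_eq_zero, ← map_sub, IsLocalRing.residue_eq_zero_iff,
      ← ValuationSubring.coe_mem_nonunits_iff]
    show (τ.1 * τ'.1) π / π - τ.1 π / π * (τ'.1 π / π) ∈ P.nonunits
    have hu : τ'.1 π / π ∈ P := by
      rw [← P.valuation_le_one_iff, map_div₀,
        h40_dec_val_eq P (h40_inertia_le_dec' P τ'.2) hN (hfix τ'.1),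
        div_self ((map_ne_zero _).mpr hπ0)]
    have hv : τ.1 π / π ∈ P := by
      rw [← P.valuation_le_one_iff, map_div₀,
        h40_dec_val_eq P (h40_inertia_le_dec' P τ.2) hN (hfix τ.1),
        div_self ((map_ne_zero _).mpr hπ0)]
    have h1 := h26_sub_mem_nonunits_of_mem_inertia P τ.2 hu
    have hτπ : τ.1 π ≠ 0 := (map_ne_zero _).mpr hπ0
    have h2 : (τ.1 * τ'.1) π / π - τ.1 π / π * (τ'.1 π / π) =
        (τ.1 (τ'.1 π / π) - τ'.1 π / π) * (τ.1 π / π) := by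
      rw [AlgEquiv.mul_apply, map_div₀]
      field_simp
    rw [h2]
    exact h26_mul_mem_nonunits_right P h1 hv

theorem h40_theta_apply {π : Qb} (hπ0 : π ≠ 0) {N : ℕ} (hN : 0 < N)
    (hfix : ∀ τ : Qb ≃ₐ[ℚ] Qb, (τ ^ N) π = π) (τ : ↥(P.inertiaSubgroupIn ℚ))
    (hmem : τ.1 π / π ∈ P) :
    ((h40_theta P hπ0 hN hfix τ : (IsLocalRing.ResidueField P)ˣ) : IsLocalRing.ResidueField P) =
      IsLocalRing.residue P ⟨τ.1 π / π, hmem⟩ := rfl

theorem h40_theta_eq_one_iff {π : Qb} (hπ0 : π ≠ 0) {N : ℕ} (hN : 0 < N)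
    (hfix : ∀ τ : Qb ≃ₐ[ℚ] Qb, (τ ^ N) π = π) (τ : ↥(P.inertiaSubgroupIn ℚ)) :
    h40_theta P hπ0 hN hfix τ = 1 ↔ h40_IsOneUnit P (τ.1 π / π) := by
  have hmem : τ.1 π / π ∈ P := by
    rw [← P.valuation_le_one_iff, map_div₀,
      h40_dec_val_eq P (h40_inertia_le_dec' P τ.2) hN (hfix τ.1),
      div_self ((map_ne_zero _).mpr hπ0)]
  rw [← Units.val_inj, h40_theta_apply P hπ0 hN hfix τ hmem, Units.val_one,
    ← map_one (IsLocalRing.residue P), ← sub_eq_zero, ← map_sub,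
    IsLocalRing.residue_eq_zero_iff, ← ValuationSubring.coe_mem_nonunits_iff]
  rfl

/-- **(B), level form.** The tame quotient of inertia is cyclic: there is `τ₀` in the inertia
group such that every inertia element is `ω * τ₀ ^ j` with `ω` wild on `F`. -/
theorem h40_tame_cyc_level (F : IntermediateField ℚ Qb) [FiniteDimensional ℚ F] [Normal ℚ F]
    {q : ℕ} (hq : q.Prime) (hP : P.LiesOverPrime q) :
    ∃ τ₀ ∈ P.inertiaSubgroupIn ℚ, ∀ τ ∈ P.inertiaSubgroupIn ℚ, ∃ j : ℕ,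
      τ * (τ₀ ^ j)⁻¹ ∈ h40_wildF P F := by
  obtain ⟨π, hπF, hπ0, -, hπ⟩ := h40_exists_uniformizer P hq hP F
  obtain ⟨N, hN, hfixF⟩ := h40_exists_pow_fix_level F
  have hfix : ∀ τ : Qb ≃ₐ[ℚ] Qb, (τ ^ N) π = π := fun τ => hfixF τ π hπF
  set θ := h40_theta P hπ0 hN hfix with hθ
  have hθN : ∀ τ, θ τ ^ N = 1 := fun τ => by
    rw [← map_pow, h40_theta_eq_one_iff]
    show h40_IsOneUnit P ((τ.1 ^ N) π / π)
    rw [hfix, div_self hπ0]
    exact h40_isOneUnit_one P
  obtain ⟨τ₀, hgen⟩ := h40_exists_gen θ N hN hθN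
  refine ⟨τ₀.1, τ₀.2, fun τ hτ => ?_⟩
  obtain ⟨j, hj⟩ := hgen ⟨τ, hτ⟩
  refine ⟨j, ?_⟩
  have h1 : θ (⟨τ, hτ⟩ * (τ₀ ^ j)⁻¹) = 1 := by
    rw [map_mul, map_inv, map_pow, hj, mul_inv_cancel]
  rw [h40_theta_eq_one_iff] at h1
  exact h40_mem_wildF_of_unif (mul_mem hτ (inv_mem (pow_mem τ₀.2 j))) hπ0 hπ h1

/-- **TAME-CYC.** For a homomorphism `f` of finite level whose values on the inertia group at
`P ∣ q` have `p`-power order, `p ≠ q`, the image of inertia is cyclic. -/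
theorem h40_tame_cyc {H : Type} [Monoid H] (f : (Qb ≃ₐ[ℚ] Qb) →* H)
    (hf : GaloisFactorsThroughFiniteLevel f) {q : ℕ} (hq : q.Prime) (hP : P.LiesOverPrime q)
    {p : ℕ} (hp : p.Prime) (hpq : p ≠ q)
    (hord : ∀ τ ∈ P.inertiaSubgroupIn ℚ, ∃ n : ℕ, f τ ^ p ^ n = 1) :
    ∃ τ₀ ∈ P.inertiaSubgroupIn ℚ, ∀ τ ∈ P.inertiaSubgroupIn ℚ, ∃ j : ℕ, f τ = f τ₀ ^ j := by
  obtain ⟨L, hLfin, hL⟩ := hf
  obtain ⟨F, hFfin, hFnorm, hLF⟩ := h40_exists_normal_level L
  obtain ⟨τ₀, hτ₀, hgen⟩ := h40_tame_cyc_level P F hq hP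
  refine ⟨τ₀, hτ₀, fun τ hτ => ?_⟩
  obtain ⟨j, hj⟩ := hgen τ hτ
  refine ⟨j, ?_⟩
  set ω := τ * (τ₀ ^ j)⁻¹ with hω
  obtain ⟨a, ha⟩ := h40_wild_pow_fix P F hq hP hj
  have h1 : f ω ^ q ^ a = 1 := by
    rw [← map_pow]
    exact hL _ fun x hx => ha x (hLF hx)
  obtain ⟨n, hn⟩ := hord ω hj.1
  have h2 : f ω = 1 := by
    have hcop : Nat.Coprime (q ^ a) (p ^ n) :=
      Nat.Coprime.pow _ _ ((Nat.coprime_primes hq hp).mpr (Ne.symm hpq))
    have hd1 := orderOf_dvd_of_pow_eq_one h1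
    have hd2 := orderOf_dvd_of_pow_eq_one hn
    exact orderOf_eq_one_iff.mp (Nat.eq_one_of_dvd_coprimes hcop hd1 hd2)
  have h3 : τ = ω * τ₀ ^ j := by
    rw [hω]
    group
  rw [h3, map_mul, h2, one_mul, map_pow]

end Cyc

end Fermat.Agent.S56
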