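import Fermat.Agent.S56.h40_W2Unr
import Fermat.Agent.S56.h40_Tame

/-!
# S56 / W2 row UNIP (helper40): the skeleton statement `h12_R3_unip`

Unipotent-on-inertia lifts at a prime `v ≠ p` where `rb` is ramified: the classes on the local
group at `v` of a space `W'` of such tangent cocycles have rank at most `dim H⁰(G_v, ad⁰)`.
Inputs: `h40_unip_rank` (cocycle algebra + unramified classes) and `h40_tame_cyc` (the image of
inertia under a lift is a `p`-group, hence cyclic since the tame quotient is pro-cyclic).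
-/

set_option autoImplicit false
set_option linter.style.haveILetI false
set_option linter.unusedSectionVars false
set_option linter.unusedVariables false

namespace Fermat.Agent.S56

open Fermat.Agent.S53 Fermat.Agent.S53.Dict ExtCitation groupCohomology Polynomial

local notation "M₂[" k "]" => Matrix (Fin 2) (Fin 2) k

section Unipotent

variable {k : Type} [Field k]

theorem h40_one_add_pow {R : Type*} [Ring R] (N : R) (hN : N * N = 0) (j : ℕ) :
    (1 + N) ^ j = 1 + j • N := by
  induction j with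
  | zero => simp
  | succ j ih =>
    rw [pow_succ, ih, add_mul, mul_add, mul_add, one_mul, mul_one, smul_mul_assoc, hN,
      smul_zero, add_zero, succ_nsmul, one_mul]
    abel

/-- A `2 × 2` matrix over the dual numbers with characteristic polynomial `(X - 1) ^ 2` has
order dividing `p` when `p = 0` in `k`. -/
theorem h40_pow_eq_one_of_charpoly (M : Matrix (Fin 2) (Fin 2) (DualNumber k))
    (hM : M.charpoly = (X - 1) ^ 2) {p : ℕ} (hp : (p : k) = 0) : M ^ p = 1 := by
  have h1 : (M - 1) * (M - 1) = 0 := by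
    have := Matrix.aeval_self_charpoly M
    rw [hM] at this
    rw [← sq]
    simpa using this
  have h3 : M = 1 + (M - 1) := by abel
  have h5 : (p : ℕ) • (M - 1) = 0 := by
    rw [← Nat.cast_smul_eq_nsmul (DualNumber k), h40_natCast_dual, hp, TrivSqZeroExt.inl_zero,
      zero_smul]
  rw [h3, h40_one_add_pow _ h1, h5, add_zero]

end Unipotent

section Rows

variable {k : Type} [Field k] [Finite k] (p : ℕ) [Fact p.Prime] [Algebra (ZMod p) k]
variable (rb : GQ →* M₂[k])

/-- (W2-UNIP) unipotent-on-inertia lifts at `v ≠ p`. -/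
theorem h12_R3_unip (hp2 : p ≠ 2) (hrb : GaloisFactorsThroughFiniteLevel rb)
    (v : Nat.Primes) (hv : (v : ℕ) ≠ p)
    (hram : ¬ ∀ P : ValuationSubring (AlgebraicClosure ℚ), P.LiesOverPrime (v : ℕ) →
      ∀ σ ∈ P.inertiaSubgroupIn ℚ, rb σ = 1)
    (W' : Submodule k (GQ → M₂[k])) (hW' : W' ≤ h40_TanZ rb)
    (htr : ∀ a ∈ W', ∀ σ, (a σ * (rb σ).adjugate).trace = 0)
    (hD : ∀ (a : GQ → M₂[k]) (ha : a ∈ W'), a ≠ 0 →
      (h40_tanRep rb hrb a (hW' ha)).IsUnipotentOnInertiaAt (v : ℕ))
    (h0 : ∀ a ∈ W', h12_LocCobM rb v a → a = 0) :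
    Module.rank k W' ≤ (Module.finrank k (h12_H0M rb v) : Cardinal) := by
  have hP := h66_primeLocalPlace_lies v
  have hpk : (p : k) = 0 := by
    have h1 := map_natCast (algebraMap (ZMod p) k) p
    rw [ZMod.natCast_self, map_zero] at h1
    exact h1.symm
  -- `rb` is ramified at the distinguished place
  have hram' : ∃ τ ∈ (primeLocalPlace v).inertiaSubgroupIn ℚ, rb τ ≠ 1 := by
    by_contra hcon
    apply hram
    intro P hP' σ hσ
    obtain ⟨g, hg, -⟩ := h12_places_conj v P hP'
    have h1 : rb (g⁻¹ * σ * g) = 1 := by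
      by_contra hne
      exact hcon ⟨_, (hg σ).mp hσ, hne⟩
    have h2 : σ = g * (g⁻¹ * σ * g) * g⁻¹ := by group
    rw [h2, map_mul, map_mul, h1, mul_one, ← map_mul, mul_inv_cancel, map_one]
  refine h40_rank_le_of_quot rb v W' ?_ h0
  refine le_trans (h40_unip_rank rb hrb (primeLocalPlace v) v.2 hP hram' W' hW'
    (fun a ha σ _ => htr a ha σ) ?_ ?_) ?_
  · intro a ha ha0 τ hτ
    have h1 := (h40_unpack_unip rb hrb a (hW' ha) (v : ℕ)).mp (hD a ha ha0) (primeLocalPlace v) hP
      τ hτ
    exact ⟨h1.1, h1.2.1⟩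
  · intro a ha ha0
    refine h40_tame_cyc (primeLocalPlace v) (h40_tanHom rb a (hW' ha))
      (h40_tanHom_finiteLevel rb hrb a (hW' ha)) v.2 hP (Fact.out : p.Prime) (Ne.symm hv) ?_
    intro τ hτ
    refine ⟨1, ?_⟩
    rw [pow_one, h40_tanHom_apply, h40_tanMat]
    refine h40_pow_eq_one_of_charpoly _ ?_ hpk
    have h1 := hD a ha ha0 (primeLocalPlace v) hP τ hτ
    rwa [h40_tanRep_charpoly] at h1
  · exact_mod_cast h40_finrank_H0_le rb v

end Rows

end Fermat.Agent.S56
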