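import Fermat.Agent.S56.h72_H2Exact
import Fermat.Agent.S55.h4_LevelLES

/-!
# S56, front W1: the `S`-level system and the comparison with helper4's level cohomology

* `h72_levels S : h4_Levels G_ℚ` : the subgroups `L.U` for the `S`-levels `L`;
* `h72_isLevel_two`, `h72_isLevel_one`, `h72_isLevel_zero` : level-constancy in helper4's sense
  versus the Prelude predicates `IsLevelConstantS₂`, `IsLevelConstantS₁`;
* low-degree dictionary for the inhomogeneous differential (`h72_d2_eq_zero_iff`, ...);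
* `h72_toZ2`, `h72_Psi2` : `levelCocyclesS₂ S M → h4_H (h72_levels S) M 2`, surjective with
  kernel the `S`-level coboundaries; `h72_H2equiv : continuousH2S S M ≃ₗ h4_H (h72_levels S) M 2`.
-/

set_option autoImplicit false
set_option linter.unusedSectionVars false
set_option linter.unusedVariables false
set_option maxHeartbeats 400000

open CategoryTheory Module groupCohomology ExtCitation

namespace Fermat.Agent.S56

open Fermat.Agent.S55

local notation "GQ" => (AlgebraicClosure ℚ ≃ₐ[ℚ] AlgebraicClosure ℚ)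

/-! ### Vectors of length two -/

theorem h72_vec2_eta {α : Type*} (v : Fin 2 → α) : ![v 0, v 1] = v := by
  funext i
  fin_cases i <;> rfl

theorem h72_vec2_mul {α : Type*} [Mul α] (a b c d : α) : (![a, b] * ![c, d] : Fin 2 → α) =
    ![a * c, b * d] := by
  funext i
  fin_cases i <;> rfl

/-! ### The low-degree dictionary for the inhomogeneous differential -/

section Dict

universe u

variable {k G : Type u} [CommRing k] [Group G] (A : Rep.{u} k G)

theorem h72_iso₃_d (F : (Fin 2 → G) → A) :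
    (cochainsIso₃ A).hom.hom ((_root_.inhomogeneousCochains.d A 2).hom F) =
      (d₂₃ A).hom (fun x : G × G => F ![x.1, x.2]) := by
  have h := congrArg (fun φ => φ.hom F) (comp_d₂₃_eq A)
  rw [inhomogeneousCochains.d_def] at h
  exact h.symm

theorem h72_iso₂_d (y : (Fin 1 → G) → A) :
    (fun x : G × G => (_root_.inhomogeneousCochains.d A 1).hom y ![x.1, x.2]) =
      (d₁₂ A).hom (fun g : G => y (fun _ => g)) := by
  have h := congrArg (fun φ => φ.hom y) (comp_d₁₂_eq A)
  rw [inhomogeneousCochains.d_def] at h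
  exact h.symm

theorem h72_iso₁_d (m : (Fin 0 → G) → A) :
    (fun g : G => (_root_.inhomogeneousCochains.d A 0).hom m (fun _ => g)) =
      (d₀₁ A).hom (m default) := by
  have h := congrArg (fun φ => φ.hom m) (comp_d₀₁_eq A)
  rw [inhomogeneousCochains.d_def] at h
  exact h.symm

/-- a 2-cochain in `Fin 2 → G` variables is closed iff its pair form is a 2-cocycle. -/
theorem h72_d2_eq_zero_iff (F : (Fin 2 → G) → A) :
    (_root_.inhomogeneousCochains.d A 2).hom F = 0 ↔
      (fun x : G × G => F ![x.1, x.2]) ∈ cocycles₂ A := by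
  have h := h72_iso₃_d A F
  constructor
  · intro h0
    rw [h0] at h
    show (d₂₃ A).hom _ = 0
    rw [← h]
    rfl
  · intro h0
    have h1 : (d₂₃ A).hom (fun x : G × G => F ![x.1, x.2]) = 0 := h0
    rw [h1] at h
    have h2 := congrArg (cochainsIso₃ A).inv.hom h
    simpa using h2

/-- `d y = F` in `Fin` variables iff `d₁₂` of the pair forms agree. -/
theorem h72_d1_eq_iff (y : (Fin 1 → G) → A) (F : (Fin 2 → G) → A) :
    (_root_.inhomogeneousCochains.d A 1).hom y = F ↔
      (d₁₂ A).hom (fun g : G => y (fun _ => g)) = fun x : G × G => F ![x.1, x.2] := by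
  rw [← h72_iso₂_d]
  constructor
  · intro h
    rw [h]
  · intro h
    funext v
    have := congrFun h (v 0, v 1)
    simpa [h72_vec2_eta] using this

theorem h72_fin1_eta (v : Fin 1 → G) : (fun _ : Fin 1 => v 0) = v := by
  funext i
  fin_cases i
  rfl

/-- a 1-cochain in `Fin 1 → G` variables is closed iff its plain form is a 1-cocycle. -/
theorem h72_d1_eq_zero_iff (y : (Fin 1 → G) → A) :
    (_root_.inhomogeneousCochains.d A 1).hom y = 0 ↔ (fun g : G => y (fun _ => g)) ∈ cocycles₁ A := by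
  rw [h72_d1_eq_iff]
  exact Iff.rfl

/-- `d m = y` in `Fin` variables iff `d₀₁ (m default)` is the plain form of `y`. -/
theorem h72_d0_eq_iff (m : (Fin 0 → G) → A) (y : (Fin 1 → G) → A) :
    (_root_.inhomogeneousCochains.d A 0).hom m = y ↔
      (d₀₁ A).hom (m default) = fun g : G => y (fun _ => g) := by
  rw [← h72_iso₁_d]
  constructor
  · intro h
    rw [h]
  · intro h
    funext v
    have := congrFun h (v 0)
    simpa [h72_fin1_eta] using this

end Dict

/-! ### The `S`-level system -/

section Levels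

variable (S : Finset Nat.Primes)

/-- The `S`-levels as a level system on `G_ℚ`. -/
def h72_levels : h4_Levels GQ where
  sets := {U | ∃ L : h72_Lev S, L.U = U}
  nonempty := ⟨_, ⟨h72_Lev.of56 (Classical.arbitrary (h56_Level S)), rfl⟩⟩
  directed := by
    rintro U ⟨L, rfl⟩ V ⟨L', rfl⟩
    obtain ⟨L'', h1, h2⟩ := L.to56.exists_ge L'.F L'.unr
    exact ⟨L''.U, ⟨h72_Lev.of56 L'', rfl⟩, le_inf (h56_Level.U_anti h1)
      (IntermediateField.fixingSubgroup_antitone h2)⟩
  normal := by
    rintro U ⟨L, rfl⟩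
    exact ⟨L.U, ⟨L, rfl⟩, le_rfl, inferInstance⟩
  finite := by
    rintro U ⟨L, rfl⟩
    exact Subgroup.finiteIndex_of_finite_quotient

theorem h72_isLevel_two {X : Type*} (F : (Fin 2 → GQ) → X) :
    h4_IsLevel (h72_levels S) F ↔ IsLevelConstantS₂ S (fun x : GQ × GQ => F ![x.1, x.2]) := by
  constructor
  · rintro ⟨U, ⟨L, rfl⟩, h⟩
    refine ⟨L.F, L.unr, fun g g' s s' hs hs' => ?_⟩
    have h1 := h ![g, g'] ![s, s'] (fun i => by fin_cases i <;> assumption)
    rw [h72_vec2_mul] at h1
    exact h1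
  · intro h
    obtain ⟨L, -, hL⟩ := (h56_isLevelConstantS₂_iff (Classical.arbitrary (h56_Level S)) _).1 h
    refine ⟨L.U, ⟨h72_Lev.of56 L, rfl⟩, fun g s hs => ?_⟩
    have h1 := hL (g 0) (g 1) (s 0) (s 1) (hs 0) (hs 1)
    have h2 : (![g 0 * s 0, g 1 * s 1] : Fin 2 → GQ) = g * s := by
      rw [← h72_vec2_mul, h72_vec2_eta, h72_vec2_eta]
    simp only [h2, h72_vec2_eta] at h1
    exact h1

theorem h72_isLevel_one {X : Type*} (y : (Fin 1 → GQ) → X) :
    h4_IsLevel (h72_levels S) y ↔ IsLevelConstantS₁ S (fun g : GQ => y (fun _ => g)) := by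
  constructor
  · rintro ⟨U, ⟨L, rfl⟩, h⟩
    refine ⟨L.F, L.unr, fun g s hs => ?_⟩
    exact h (fun _ => g) (fun _ => s) (fun _ => hs)
  · intro h
    obtain ⟨L, -, hL⟩ := (h56_isLevelConstantS₁_iff (Classical.arbitrary (h56_Level S)) _).1 h
    refine ⟨L.U, ⟨h72_Lev.of56 L, rfl⟩, fun g s hs => ?_⟩
    have h1 := hL (g 0) (s 0) (hs 0)
    have h2 : (fun _ : Fin 1 => g 0 * s 0) = g * s := by
      funext i
      fin_cases i
      rfl
    simp only [h2, h72_fin1_eta] at h1
    exact h1

theorem h72_isLevel_zero {X : Type*} (m : (Fin 0 → GQ) → X) : h4_IsLevel (h72_levels S) m := by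
  obtain ⟨U, hU⟩ := (h72_levels S).nonempty
  exact ⟨U, hU, fun g s _ => congrArg m (Subsingleton.elim _ _)⟩

/-- a module on which a level acts trivially is smooth for the `S`-level system. -/
theorem h72_smooth {p : ℕ} (M : Rep.{0, 0, 0} (ZMod p) GQ) (L₀ : h72_Lev S)
    (hL₀ : ∀ s ∈ L₀.U, M.ρ s = 1) : h4_IsSmooth (h72_levels S) M :=
  fun m => ⟨L₀.U, ⟨L₀, rfl⟩, fun s hs => by rw [hL₀ s hs]; rfl⟩

end Levels

end Fermat.Agent.S56
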