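import Fermat.Agent.S56.h69_Ad0Rep
import Fermat.Agent.S56.h72_ChiLevels

/-!
# S56 / MID-R1, `N`-side: level cohomology of `N = ad⁰ ρ̄ (1)` in degrees `0`, `1`

`N := h69_N p rb` (helper69), `𝒰 := h72_levels S` (helper72), level cohomology `h4_H` (helper4).

* `h3_ZNequivZ` : `h12_ZN rb S ≃ₗ[ZMod p] h4_Z (h72_levels S) N 1` (matrix cocycles `ψ` ↔ level
  cocycles in `Fin 1 → GQ` variables).
* `h3_π_ZN_eq_zero_iff` : the class of `ψ` in `h4_H .. 1` vanishes iff `ψ ∈ h12_BN rb`.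
* `h3_H1equiv` : `(h12_ZN rb S ⧸ h12_BN ∩ h12_ZN) ≃ₗ[ZMod p] h4_H (h72_levels S) N 1`.
* **(N2)** `h3_finrank_H1_N` : `finrank_{𝔽_p} H¹ = [k : 𝔽_p] * h12_rN rb S`.
* **(N3)** `h3_finrank_H0_N` : `finrank_{𝔽_p} H⁰ = 0` if `N` has no nonzero invariant.
-/

set_option autoImplicit false
set_option linter.unusedSectionVars false

open ExtCitation groupCohomology

noncomputable section

namespace Fermat.Agent.S56

open Fermat.Agent.S55

local notation "Γℚ" => (AlgebraicClosure ℚ ≃ₐ[ℚ] AlgebraicClosure ℚ)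
local notation "M₂[" k "]" => Matrix (Fin 2) (Fin 2) k

section Dict

variable {k : Type} [Field k] (p : ℕ) [Algebra (ZMod p) k]
variable (rb : Γℚ →* M₂[k]) (S : Finset Nat.Primes)

/-- The `N`-valued level `1`-cocycle (in `Fin 1 → GQ` variables) attached to `ψ ∈ h12_ZN rb S`. -/
def h3_ZNtoZ_fun (ψ : h12_ZN rb S) : (Fin 1 → Γℚ) → h69_N p rb :=
  fun v => (⟨ψ.1 (v 0), h69_mem_sl2.2 (ψ.2.1 (v 0))⟩ : ↥(h69_sl2 k))

theorem h3_ZNtoZ_mem (ψ : h12_ZN rb S) :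
    h3_ZNtoZ_fun p rb S ψ ∈ h4_Z (h72_levels S) (h69_N p rb) 1 := by
  rw [h4_mem_Z_iff, h72_isLevel_one, h72_d1_eq_zero_iff]
  constructor
  · obtain ⟨F, hF, hc⟩ := ψ.2.2.2
    exact ⟨F, hF, fun g s hs => Subtype.ext (hc g s hs)⟩
  · rw [mem_cocycles₁_iff]
    intro g h
    apply Subtype.ext
    show ψ.1 (g * h) = h12_act (rb g) (ψ.1 h) + ψ.1 g
    rw [ψ.2.2.1 g h, add_comm]

/-- The matrix cocycle attached to a level `1`-cocycle of `N`. -/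
def h3_ZtoZN_fun (z : h4_Z (h72_levels S) (h69_N p rb) 1) : Γℚ → M₂[k] :=
  fun g => ((z.1 (fun _ => g) : ↥(h69_sl2 k)) : M₂[k])

theorem h3_ZtoZN_mem (z : h4_Z (h72_levels S) (h69_N p rb) 1) :
    h3_ZtoZN_fun p rb S z ∈ h12_ZN rb S := by
  have hz := z.2
  rw [h4_mem_Z_iff, h72_isLevel_one, h72_d1_eq_zero_iff, mem_cocycles₁_iff] at hz
  refine ⟨fun σ => h69_sl2_trace _, fun σ τ => ?_, ?_⟩
  · have h := congrArg (fun Y : ↥(h69_sl2 k) => (Y : M₂[k])) (hz.2 σ τ)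
    show ((z.1 (fun _ => σ * τ) : ↥(h69_sl2 k)) : M₂[k]) =
      ((z.1 (fun _ => σ) : ↥(h69_sl2 k)) : M₂[k]) +
        h12_act (rb σ) ((z.1 (fun _ => τ) : ↥(h69_sl2 k)) : M₂[k])
    rw [add_comm]
    exact h
  · obtain ⟨F, hF, hc⟩ := hz.1
    exact ⟨F, hF, fun g s hs => congrArg (fun Y : ↥(h69_sl2 k) => (Y : M₂[k])) (hc g s hs)⟩

/-- **Dictionary in degree 1**: matrix cocycles `ψ ∈ h12_ZN rb S` are the level `1`-cocycles of
`N = h69_N p rb` for the `S`-level system. -/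
def h3_ZNequivZ :
    ↥(h12_ZN rb S) ≃ₗ[ZMod p] ↥(h4_Z (h72_levels S) (h69_N p rb) 1) where
  toFun ψ := ⟨h3_ZNtoZ_fun p rb S ψ, h3_ZNtoZ_mem p rb S ψ⟩
  map_add' ψ ψ' := rfl
  map_smul' c ψ := rfl
  invFun z := ⟨h3_ZtoZN_fun p rb S z, h3_ZtoZN_mem p rb S z⟩
  left_inv ψ := rfl
  right_inv z := by
    apply Subtype.ext
    funext v
    apply Subtype.ext
    show ((z.1 (fun _ => v 0) : ↥(h69_sl2 k)) : M₂[k]) = ((z.1 v : ↥(h69_sl2 k)) : M₂[k])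
    rw [h72_fin1_eta]

@[simp] theorem h3_ZNequivZ_apply_coe (ψ : h12_ZN rb S) (v : Fin 1 → Γℚ) :
    (((h3_ZNequivZ p rb S ψ).1 v : ↥(h69_sl2 k)) : M₂[k]) = ψ.1 (v 0) := rfl

/-- The class of `ψ ∈ h12_ZN rb S` in level cohomology vanishes iff `ψ` is a coboundary
(`ψ ∈ h12_BN rb`). -/
theorem h3_π_ZN_eq_zero_iff (ψ : h12_ZN rb S) :
    h4_π (h72_levels S) (h69_N p rb) 1 (h3_ZNequivZ p rb S ψ) = 0 ↔ ψ.1 ∈ h12_BN rb := by
  rw [h4_π_eq_zero_iff_succ]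
  constructor
  · rintro ⟨y, -, hy⟩
    rw [h72_d0_eq_iff] at hy
    obtain ⟨m, hm⟩ : ∃ m : h69_N p rb, (d₀₁ (h69_N p rb)).hom m =
        fun g : Γℚ => (h3_ZNequivZ p rb S ψ).1 (fun _ => g) := ⟨_, hy⟩
    refine ⟨((m : ↥(h69_sl2 k)) : M₂[k]), h69_sl2_trace _, fun σ => ?_⟩
    have h0 := congrFun hm σ
    rw [d₀₁_hom_apply] at h0
    have h := congrArg (fun Y : ↥(h69_sl2 k) => (Y : M₂[k])) h0
    exact h.symm
  · rintro ⟨Y, hY, h⟩
    refine ⟨fun _ => (⟨Y, h69_mem_sl2.2 hY⟩ : ↥(h69_sl2 k)), h72_isLevel_zero S _, ?_⟩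
    rw [h72_d0_eq_iff]
    funext σ
    rw [d₀₁_hom_apply]
    apply Subtype.ext
    exact (h σ).symm

end Dict

section H1

variable {k : Type} [Field k] (p : ℕ) [Algebra (ZMod p) k]
variable (rb : Γℚ →* M₂[k]) (S : Finset Nat.Primes)

/-- `ψ ↦` its class in level cohomology, `h12_ZN rb S →ₗ[ZMod p] h4_H (h72_levels S) N 1`. -/
def h3_ZNtoH1 : ↥(h12_ZN rb S) →ₗ[ZMod p] ↥(h4_H (h72_levels S) (h69_N p rb) 1) :=
  (h4_π (h72_levels S) (h69_N p rb) 1).comp (h3_ZNequivZ p rb S).toLinearMap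

theorem h3_ZNtoH1_surjective : Function.Surjective (h3_ZNtoH1 p rb S) :=
  (h4_π_surjective (h72_levels S) (h69_N p rb) 1).comp (h3_ZNequivZ p rb S).surjective

theorem h3_ZNtoH1_ker : LinearMap.ker (h3_ZNtoH1 p rb S) =
    ((h12_BN rb).comap (h12_ZN rb S).subtype).restrictScalars (ZMod p) := by
  ext ψ
  rw [LinearMap.mem_ker, Submodule.restrictScalars_mem, Submodule.mem_comap]
  exact h3_π_ZN_eq_zero_iff p rb S ψ

/-- **`H¹` dictionary**: cocycles modulo coboundaries in matrix language = level cohomology of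
`N` in degree `1` (an `𝔽_p`-linear equivalence). -/
def h3_H1equiv :
    (↥(h12_ZN rb S) ⧸ (h12_BN rb).comap (h12_ZN rb S).subtype) ≃ₗ[ZMod p]
      ↥(h4_H (h72_levels S) (h69_N p rb) 1) :=
  ((Submodule.Quotient.restrictScalarsEquiv (ZMod p)
      ((h12_BN rb).comap (h12_ZN rb S).subtype)).symm.trans
    (Submodule.quotEquivOfEq _ _ (h3_ZNtoH1_ker p rb S).symm)).trans
    ((h3_ZNtoH1 p rb S).quotKerEquivOfSurjective (h3_ZNtoH1_surjective p rb S))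

end H1

section Final

variable {k : Type} [Field k] [Finite k] (p : ℕ) [Fact p.Prime] [Algebra (ZMod p) k]
variable (rb : Γℚ →* M₂[k]) (S : Finset Nat.Primes)

/-- **(N2)** `dim_{𝔽_p} H¹(G_S, N) = [k : 𝔽_p] * h12_rN rb S`. -/
theorem h3_finrank_H1_N :
    Module.finrank (ZMod p) ↥(h4_H (h72_levels S) (h69_N p rb) 1) =
      Module.finrank (ZMod p) k * h12_rN rb S := by
  rw [← (h3_H1equiv p rb S).finrank_eq, h12_rN]
  exact (Module.finrank_mul_finrank (ZMod p) k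
    (↥(h12_ZN rb S) ⧸ (h12_BN rb).comap (h12_ZN rb S).subtype)).symm

/-- **(N3)** `H⁰(G_S, N) = 0` when `N` has no nonzero invariant. -/
theorem h3_finrank_H0_N
    (hH0N : ∀ Y : M₂[k], Y.trace = 0 → (∀ σ, h12_act (rb σ) Y = Y) → Y = 0) :
    Module.finrank (ZMod p) ↥(h4_H (h72_levels S) (h69_N p rb) 0) = 0 := by
  have hZ : ∀ z : h4_Z (h72_levels S) (h69_N p rb) 0, z = 0 := by
    intro z
    have hz := z.2.2
    rw [h72_d0_eq_iff] at hz
    obtain ⟨m, hmz, hm⟩ : ∃ m : h69_N p rb, (∀ v, z.1 v = m) ∧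
        (d₀₁ (h69_N p rb)).hom m = fun g : Γℚ => (0 : (Fin 1 → Γℚ) → h69_N p rb) (fun _ => g) :=
      ⟨_, fun v => congrArg z.1 (Subsingleton.elim _ _), hz⟩
    have hm0 : m = 0 := by
      apply Subtype.ext
      refine hH0N ((m : ↥(h69_sl2 k)) : M₂[k]) (h69_sl2_trace _) (fun σ => ?_)
      have h0 := congrFun hm σ
      rw [d₀₁_hom_apply] at h0
      have h := congrArg (fun Y : ↥(h69_sl2 k) => (Y : M₂[k])) h0
      exact sub_eq_zero.mp h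
    apply Subtype.ext
    funext v
    rw [hmz v, hm0]
    rfl
  have hsub : Subsingleton ↥(h4_H (h72_levels S) (h69_N p rb) 0) := by
    refine ⟨fun a b => ?_⟩
    obtain ⟨za, rfl⟩ := h4_π_surjective (h72_levels S) (h69_N p rb) 0 a
    obtain ⟨zb, rfl⟩ := h4_π_surjective (h72_levels S) (h69_N p rb) 0 b
    rw [hZ za, hZ zb]
  exact Module.finrank_zero_of_subsingleton

end Final

end Fermat.Agent.S56
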