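import Fermat.Agent.S56.h12_MidDefs

/-!
# S56 / MID-R1 (row 600): the `𝔽_p[G_ℚ]`-module `N = ad⁰ ρ̄ (1)`

`h69_sl2 k` : trace-zero `2 × 2` matrices, as a `k`-subspace of `M₂(k)`.
`h69_N p rb : Rep (ZMod p) GQ` : the trace-zero matrices with the twisted adjoint action
`σ • Y = rb σ * Y * adjugate (rb σ)` (`= det (rb σ) • rb σ Y (rb σ)⁻¹`), as an `𝔽_p`-linear
representation of `G_ℚ` (`h12_act` of `h12_MidDefs`).
-/

set_option autoImplicit false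

open ExtCitation groupCohomology

noncomputable section

namespace Fermat.Agent.S56

local notation "Γℚ" => (AlgebraicClosure ℚ ≃ₐ[ℚ] AlgebraicClosure ℚ)
local notation "M₂[" k "]" => Matrix (Fin 2) (Fin 2) k

section Defs

variable {k : Type} [Field k]

/-- Trace-zero `2 × 2` matrices. -/
def h69_sl2 (k : Type) [Field k] : Submodule k M₂[k] :=
  LinearMap.ker (Matrix.traceLinearMap (Fin 2) k k)

theorem h69_mem_sl2 {Y : M₂[k]} : Y ∈ h69_sl2 k ↔ Y.trace = 0 := by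
  rw [h69_sl2, LinearMap.mem_ker, Matrix.traceLinearMap_apply]

theorem h69_sl2_trace (Y : ↥(h69_sl2 k)) : (Y : M₂[k]).trace = 0 := h69_mem_sl2.1 Y.2

/-- `tr (A Y adj A) = det A * tr Y`. -/
theorem h69_act_trace (A Y : M₂[k]) : (h12_act A Y).trace = A.det * Y.trace := by
  rw [h12_act, Matrix.trace_mul_comm, ← Matrix.mul_assoc, Matrix.adjugate_mul, Matrix.smul_mul,
    Matrix.one_mul, Matrix.trace_smul, smul_eq_mul]

theorem h69_act_mem_sl2 (A : M₂[k]) {Y : M₂[k]} (hY : Y ∈ h69_sl2 k) :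
    h12_act A Y ∈ h69_sl2 k := by
  rw [h69_mem_sl2] at hY ⊢
  rw [h69_act_trace, hY, mul_zero]

theorem h69_act_one (Y : M₂[k]) : h12_act (1 : M₂[k]) Y = Y := by
  simp [h12_act]

theorem h69_act_mul (A B Y : M₂[k]) : h12_act (A * B) Y = h12_act A (h12_act B Y) := by
  simp only [h12_act, Matrix.adjugate_mul_distrib, Matrix.mul_assoc]

variable (p : ℕ) [Algebra (ZMod p) k]

/-- The twisted adjoint action of `A` on trace-zero matrices, `𝔽_p`-linear. -/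
def h69_NEnd (A : M₂[k]) : Module.End (ZMod p) ↥(h69_sl2 k) where
  toFun Y := ⟨h12_act A Y.1, h69_act_mem_sl2 A Y.2⟩
  map_add' Y Z := Subtype.ext (h12_act_add A Y.1 Z.1)
  map_smul' c Y := Subtype.ext (by
    show h12_act A (c • (Y : M₂[k])) = c • h12_act A (Y : M₂[k])
    simp only [h12_act, Matrix.mul_smul, Matrix.smul_mul])

@[simp] theorem h69_NEnd_coe (A : M₂[k]) (Y : ↥(h69_sl2 k)) :
    ((h69_NEnd p A Y : ↥(h69_sl2 k)) : M₂[k]) = h12_act A Y.1 := rfl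

/-- `σ ↦ (Y ↦ rb σ * Y * adjugate (rb σ))` on trace-zero matrices, over `ZMod p`. -/
def h69_NRho (rb : Γℚ →* M₂[k]) : Γℚ →* Module.End (ZMod p) ↥(h69_sl2 k) where
  toFun σ := h69_NEnd p (rb σ)
  map_one' := by
    ext Y : 2
    rw [h69_NEnd_coe, map_one, h69_act_one]
    rfl
  map_mul' σ τ := by
    ext Y : 2
    rw [h69_NEnd_coe, map_mul, h69_act_mul]
    rfl

@[simp] theorem h69_NRho_coe (rb : Γℚ →* M₂[k]) (σ : Γℚ) (Y : ↥(h69_sl2 k)) :
    ((h69_NRho p rb σ Y : ↥(h69_sl2 k)) : M₂[k]) = h12_act (rb σ) Y.1 := rfl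

/-- **`N = ad⁰ ρ̄ (1)`** as an object of `Rep (ZMod p) GQ`: carrier `↥(h69_sl2 k)`,
`(h69_N p rb).ρ σ Y = ⟨rb σ * Y * adjugate (rb σ), _⟩`. -/
abbrev h69_N (rb : Γℚ →* M₂[k]) : Rep.{0, 0, 0} (ZMod p) Γℚ := Rep.of (h69_NRho p rb)

theorem h69_N_ρ_coe (rb : Γℚ →* M₂[k]) (σ : Γℚ) (Y : ↥(h69_sl2 k)) :
    (((h69_N p rb).ρ σ Y : ↥(h69_sl2 k)) : M₂[k]) = h12_act (rb σ) Y.1 := rfl

/-- `N` is trivial where `rb` is. -/
theorem h69_N_ρ_eq_one (rb : Γℚ →* M₂[k]) {s : Γℚ} (hs : rb s = 1) : (h69_N p rb).ρ s = 1 := by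
  ext Y : 2
  show h12_act (rb s) Y.1 = Y.1
  rw [hs, h69_act_one]

instance h69_N_finite [Finite k] (rb : Γℚ →* M₂[k]) : Module.Finite (ZMod p) (h69_N p rb) :=
  Module.Finite.of_finite (R := ZMod p) (M := ↥(h69_sl2 k))

end Defs

end Fermat.Agent.S56
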