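import Mathlib
import Fermat.Agent.S56.h69_Ad0Rep
import Fermat.Agent.S41.h61_NotEis

/-!
# S56 / MID-R1 helper (N4): the `(-1)`-eigenspace of complex conjugation on `N = ad⁰ ρ̄ (1)`

For an odd `ρ̄ : G_ℚ → GL₂(k)` with `det ρ̄ = ω` (`p ≠ 2`), complex conjugation `c` acts on
`N = ad⁰ ρ̄ (1)` (`h69_N`, action `Y ↦ ρ̄(c) Y adj(ρ̄(c))`) with a `(-1)`-eigenspace of
`k`-dimension `1`: it is the line spanned by `ρ̄(c)` itself.  Hence its `𝔽_p`-dimension is
`[k : 𝔽_p]`.

* `h72_anticomm` : `A Y + Y A = tr(A Y) • 1` for trace-zero `2 × 2` matrices;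
* `h72_finrank_negEig_N_gen` : the statement for any involution `c` with `ω(c) = -1`;
* `h72_finrank_negEig_N` : the statement for `complexConjugation`.
-/

set_option autoImplicit false

open ExtCitation

noncomputable section

namespace Fermat.Agent.S56

local notation "Γℚ" => (AlgebraicClosure ℚ ≃ₐ[ℚ] AlgebraicClosure ℚ)
local notation "M₂[" k "]" => Matrix (Fin 2) (Fin 2) k

/-- For trace-zero `2 × 2` matrices, `A Y + Y A = tr(A Y) • 1`. -/
theorem h72_anticomm {k : Type} [Field k] (A Y : M₂[k]) (hA : A.trace = 0) (hY : Y.trace = 0) :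
    A * Y + Y * A = (A * Y).trace • (1 : M₂[k]) := by
  have hA' : A 1 1 = - A 0 0 := by
    rw [Matrix.trace_fin_two] at hA; linear_combination hA
  have hY' : Y 1 1 = - Y 0 0 := by
    rw [Matrix.trace_fin_two] at hY; linear_combination hY
  ext i j
  fin_cases i <;> fin_cases j <;>
    simp [Matrix.mul_apply, Fin.sum_univ_two, Matrix.trace_fin_two, hA', hY'] <;> ring

/-- The `(-1)`-eigenspace on `N = ad⁰ ρ̄ (1)` of an involution `c` with `ω(c) = -1` has the
`𝔽_p`-dimension of `k` (it is the `k`-line through `ρ̄(c)`). -/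
theorem h72_finrank_negEig_N_gen {k : Type} [Field k] [Finite k] (p : ℕ) [Fact p.Prime]
    [Algebra (ZMod p) k] (rb : Γℚ →* M₂[k]) (hp2 : p ≠ 2) (hdet : h12_DetCyc p rb)
    (c : Γℚ) (hc : c * c = 1) (hcyc : cycloChar p c = -1) :
    Module.finrank (ZMod p) ↥(LinearMap.ker ((h69_N p rb).ρ c + 1)) =
      Module.finrank (ZMod p) k := by
  have hp : p.Prime := Fact.out
  set A : M₂[k] := rb c with hAdef
  have hAA : A * A = 1 := by rw [hAdef, ← map_mul, hc, map_one]
  have hdetA : A.det = -1 := by
    rw [hAdef, hdet c, hcyc]; simp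
  have hadj : A.adjugate = -A := by
    have h1 : A * A.adjugate = A.det • (1 : M₂[k]) := Matrix.mul_adjugate A
    calc A.adjugate = (A * A) * A.adjugate := by rw [hAA, one_mul]
      _ = A * (A * A.adjugate) := by rw [mul_assoc]
      _ = A * (A.det • (1 : M₂[k])) := by rw [h1]
      _ = -A := by rw [hdetA]; simp
  have htr : A.trace = 0 := by
    have h00 := congrFun (congrFun hadj 0) 0
    rw [Matrix.adjugate_fin_two] at h00
    simp at h00
    rw [Matrix.trace_fin_two]; linear_combination h00
  have h2 : (2 : k) ≠ 0 := by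
    have h2p : ((2 : ℕ) : ZMod p) ≠ 0 := by
      intro h
      rw [ZMod.natCast_eq_zero_iff] at h
      exact hp2 ((Nat.prime_dvd_prime_iff_eq hp Nat.prime_two).mp h)
    have h := (map_ne_zero (algebraMap (ZMod p) k)).mpr h2p
    rw [map_natCast] at h
    exact_mod_cast h
  -- the `𝔽_p`-linear map `t ↦ t • A`
  let f : k →ₗ[ZMod p] ↥(h69_sl2 k) :=
    { toFun := fun t => ⟨t • A, by rw [h69_mem_sl2, Matrix.trace_smul, htr, smul_zero]⟩
      map_add' := fun s t => Subtype.ext (add_smul s t A)
      map_smul' := fun a t => Subtype.ext (smul_assoc a t A) }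
  have hf : ∀ t : k, ((f t : ↥(h69_sl2 k)) : M₂[k]) = t • A := fun _ => rfl
  have hinj : Function.Injective f := by
    intro s t hst
    have h1 : s • A = t • A := by rw [← hf s, ← hf t, hst]
    have h2 : s • (A * A) = t • (A * A) := by
      rw [← Matrix.smul_mul, ← Matrix.smul_mul, h1]
    rw [hAA] at h2
    have h3 := congrFun (congrFun h2 0) 0
    simpa using h3
  have hrange : LinearMap.range f = LinearMap.ker ((h69_N p rb).ρ c + 1) := by
    ext Y
    rw [LinearMap.mem_range, LinearMap.mem_ker]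
    have key : (((h69_N p rb).ρ c + 1) Y = 0) ↔ h12_act A Y.1 + Y.1 = 0 := by
      constructor
      · intro h
        have := congrArg (Subtype.val : ↥(h69_sl2 k) → M₂[k]) h
        exact this
      · intro h
        exact Subtype.ext h
    rw [key, h12_act, hadj]
    constructor
    · rintro ⟨t, rfl⟩
      rw [hf, Matrix.mul_smul, Matrix.smul_mul, Matrix.mul_neg, hAA, one_mul,
        smul_neg, neg_add_cancel]
    · intro hY
      have h1 : A * Y.1 * A = Y.1 := by
        have : A * Y.1 * -A + Y.1 = 0 := hY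
        rw [Matrix.mul_neg] at this
        exact (neg_add_eq_zero.mp this)
      have hcomm : A * Y.1 = Y.1 * A := by
        calc A * Y.1 = A * Y.1 * (A * A) := by rw [hAA, mul_one]
          _ = A * Y.1 * A * A := by rw [mul_assoc (A * Y.1) A A]
          _ = Y.1 * A := by rw [h1]
      have h3 := h72_anticomm A Y.1 htr (h69_sl2_trace Y)
      rw [← hcomm] at h3
      have h4 : Y.1 + Y.1 = (A * Y.1).trace • A := by
        have := congrArg (fun Z => A * Z) h3
        simp only [Matrix.mul_add, ← mul_assoc, hAA, one_mul, Matrix.mul_smul, mul_one] at this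
        exact this
      refine ⟨(A * Y.1).trace / 2, Subtype.ext ?_⟩
      rw [hf, div_eq_inv_mul, mul_smul, ← h4, ← two_smul k Y.1, smul_smul, inv_mul_cancel₀ h2,
        one_smul]
  rw [← hrange, LinearMap.finrank_range_of_inj hinj]

/-- **(N4)** The `(-1)`-eigenspace of complex conjugation on `N = ad⁰ ρ̄ (1)` has
`𝔽_p`-dimension `[k : 𝔽_p]`. -/
theorem h72_finrank_negEig_N {k : Type} [Field k] [Finite k] (p : ℕ) [Fact p.Prime]
    [Algebra (ZMod p) k] (rb : Γℚ →* M₂[k]) (hp2 : p ≠ 2) (hdet : h12_DetCyc p rb) :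
    Module.finrank (ZMod p) ↥(LinearMap.ker ((h69_N p rb).ρ complexConjugation + 1)) =
      Module.finrank (ZMod p) k :=
  h72_finrank_negEig_N_gen p rb hp2 hdet complexConjugation complexConjugation_mul_self
    (Fermat.Agent.S41.h61_cycloChar_complexConj p)

end Fermat.Agent.S56
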