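import Fermat.Agent.S56.h69_MidR1EC
import Fermat.Agent.S56.h3_Ad0H1
import Fermat.Agent.S56.h72_NegEigN

/-!
# S56 / MID-R1 (row 600): the skeleton row `h12_R1` from W1-BASE alone

`h69_R1_of_base` : the statement `h12_R1` of the MID skeleton (binders verbatim), from the single
remaining hypothesis `hbase` (the base case of the dévissage for the global Euler characteristic,
W1-BASE).  Inputs plugged in: helper3's `h3_finrank_H1_N`, `h3_finrank_H0_N`, helper72's
`h72_finrank_negEig_N` and `h72_EC_of_base` (through `h69_hEC_of_base`).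
-/

set_option autoImplicit false
set_option linter.unusedSectionVars false

open ExtCitation groupCohomology

noncomputable section

namespace Fermat.Agent.S56

open Fermat.Agent.S55

local notation "Γℚ" => (AlgebraicClosure ℚ ≃ₐ[ℚ] AlgebraicClosure ℚ)
local notation "M₂[" k "]" => Matrix (Fin 2) (Fin 2) k

variable {k : Type} [Field k] [Finite k] (p : ℕ) [Fact p.Prime] [Algebra (ZMod p) k]
variable (rb : Γℚ →* M₂[k])

/-- **MID-R1 from W1-BASE.** -/
theorem h69_R1_of_base
    (hbase : ∀ F0 : IntermediateField ℚ (AlgebraicClosure ℚ), FiniteDimensional ℚ F0 →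
      IsGalois ℚ F0 → (∃ ζ ∈ F0, IsPrimitiveRoot ζ p) →
      ∃ T0 : Finset Nat.Primes, ∀ S : Finset Nat.Primes, T0 ⊆ S → pPrime p ∈ S →
        ∀ L₀ : h72_Lev S, L₀.F = F0 →
        ∀ C : Subgroup (Γℚ ⧸ L₀.U), IsCyclic C → (Nat.card C).Coprime p →
        ∀ (W : Type) [AddCommGroup W] [Module (ZMod p) W] [Finite W]
          (σ : Representation (ZMod p) C W),
          h72_delta S L₀ (Representation.coindV C.subtype σ)
            (Representation.coind C.subtype σ) = 0)
    (hp2 : p ≠ 2) (hdet : h12_DetCyc p rb) (hrb : GaloisFactorsThroughFiniteLevel rb)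
    (hH0M : ∀ X : M₂[k], X.trace = 0 → (∀ σ, rb σ * X = X * rb σ) → X = 0)
    (hH0N : ∀ Y : M₂[k], Y.trace = 0 → (∀ σ, h12_act (rb σ) Y = Y) → Y = 0)
    (Smin' : Finset Nat.Primes) (hpS : pPrime p ∈ Smin')
    (hrbS : ∀ q : Nat.Primes, q ∉ Smin' → ∀ P : ValuationSubring (AlgebraicClosure ℚ),
      P.LiesOverPrime (q : ℕ) → ∀ σ ∈ P.inertiaSubgroupIn ℚ, rb σ = 1) :
    ∃ T0 : Finset Nat.Primes, ∀ S₀ : Finset Nat.Primes, Smin' ∪ T0 ⊆ S₀ →
      h12_ShaBound rb S₀ :=
  h69_R1_of p rb (h69_hEC_of_base p hp2 hbase) (fun S => h3_finrank_H1_N p rb S)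
    (fun h S => h3_finrank_H0_N p rb S h) (h72_finrank_negEig_N p rb hp2 hdet)
    hp2 hdet hrb hH0M hH0N Smin' hpS hrbS

end Fermat.Agent.S56
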