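import Mathlib
import Fermat.Prelude.Def_GaloisRep_CompletionBridge
import Fermat.Agent.S55.h6_LocalBridge
import Fermat.Agent.S55.h37_LocalPow

/-!
# S56 / W2 (R3-ord), block (K) KUM-p : the local Kummer bound at `p` (helper7)

`D` = decomposition group of `padicPlace p` in `Gal(ℚ̄/ℚ)`, `p` odd, `k` a finite field of
characteristic `p`, `χ` the mod `p` cyclotomic character (any function with the frozen cyclotomic
property on `D`).  A *level-constant crossed homomorphism* is `u : Gal(ℚ̄/ℚ) → k` with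
`u (s t) = u s + χ s * u t` on `D` and `u s = 0` for `s ∈ D` fixing a finite extension.

* `h7_kum_p` : there are `γ₁ γ₂` such that every such `u` equals `a₁ γ₁ + a₂ γ₂ + x (χ - 1)` on `D`
  (i.e. `dim_k H¹(G_p, k(ω)) ≤ 2`).
* `h7_kum_p_rank` : rank form (`≤ 3`, coboundary direction included).

Proof: transport to `Gal(ℚ̄_p/ℚ_p)` (`h6_exists_local_lift`, `h6_exists_local_level`), Hilbert 90
at a finite normal level (`h7_h90_finite`), `y ^ p ∈ ℚ_pˣ`, and `[ℚ_pˣ : ℚ_pˣ^p] = p ^ 2`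
(`h7_padic_pow_index`, from `h37_local_pow_index` and `μ_p(ℚ_p) = 1`): three classes are dependent
(`h7_lk_three`, `h7_kum_three`); then linear algebra (`h7_two_gen`) and an `𝔽_p`-basis of `k`.
-/

set_option autoImplicit false
set_option linter.style.haveILetI false

universe u v

namespace Fermat.Agent.S56

open Fermat.Agent.S55

/-- For an odd prime `p`, the only `p`-th root of unity in `ℚ_p` is `1`. -/
theorem h7_padic_pow_eq_one (p : ℕ) [Fact p.Prime] (hp2 : p ≠ 2) (x : ℚ_[p]) (hx : x ^ p = 1) :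
    x = 1 := by
  have hp : p.Prime := Fact.out
  by_contra hne
  have hprim : IsPrimitiveRoot x p := by
    have h := IsPrimitiveRoot.orderOf x
    rwa [orderOf_eq_prime hx hne] at h
  have hnx : ‖x‖ = 1 := by
    have h1 : ‖x‖ ^ p = 1 := by rw [← norm_pow, hx, norm_one]
    exact (pow_eq_one_iff_of_nonneg (norm_nonneg x) hp.ne_zero).mp h1
  -- pass to `ℤ_p`
  let x' : ℤ_[p] := ⟨x, hnx.le⟩
  have hx' : x' ^ p = 1 := by
    apply Subtype.ext
    rw [PadicInt.coe_pow, PadicInt.coe_one]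
    exact hx
  -- `‖1 - x‖ < 1`
  have hlt : ‖(1 - x' : ℤ_[p])‖ < 1 := by
    obtain ⟨r, hr⟩ := exists_add_pow_prime_eq hp (1 : ℤ_[p]) (-x')
    have hodd : Odd p := hp.odd_of_ne_two hp2
    have h2 : (1 - x') ^ p = (p : ℤ_[p]) * (-x' * r) := by
      have : (1 + -x') ^ p = (1 - x') ^ p := by ring
      rw [← this, hr, one_pow, hodd.neg_pow, hx']
      ring
    have h3 : ‖(1 - x' : ℤ_[p])‖ ^ p ≤ (p : ℝ)⁻¹ := by
      rw [← norm_pow, h2, norm_mul, PadicInt.norm_p]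
      exact mul_le_of_le_one_right (by positivity) (PadicInt.norm_le_one _)
    by_contra hge
    push Not at hge
    have h4 : (1 : ℝ) ≤ ‖(1 - x' : ℤ_[p])‖ ^ p := one_le_pow₀ hge
    have h5 : (p : ℝ)⁻¹ < 1 := inv_lt_one_of_one_lt₀ (by exact_mod_cast hp.one_lt)
    linarith
  have hle : ‖(1 - x' : ℤ_[p])‖ ≤ (p : ℝ)⁻¹ := by
    have := (PadicInt.norm_le_pow_iff_norm_lt_pow_add_one (1 - x') (-1)).mpr (by simpa using hlt)
    simpa using this
  -- the product formula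
  obtain ⟨n, rfl⟩ : ∃ n, p = n + 1 := ⟨p - 1, (Nat.succ_pred_eq_of_pos hp.pos).symm⟩
  have hprod := hprim.prod_one_sub_pow_eq_order
  have hn2 : 2 ≤ n := by
    have := hp.two_le
    omega
  have hterm : ∀ k ∈ Finset.range n, ‖1 - x ^ (k + 1)‖ ≤ ((n + 1 : ℕ) : ℝ)⁻¹ := by
    intro k _
    have h1 : (1 - x ^ (k + 1) : ℚ_[n + 1]) = ((1 - x' : ℤ_[n + 1]) : ℚ_[n + 1]) *
        ((∑ i ∈ Finset.range (k + 1), x' ^ i : ℤ_[n + 1]) : ℚ_[n + 1]) := by
      have : (1 - x' ^ (k + 1) : ℤ_[n + 1]) = (1 - x') * ∑ i ∈ Finset.range (k + 1), x' ^ i := by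
        rw [mul_comm]; exact (geom_sum_mul_neg x' (k + 1)).symm
      have h2 := congrArg (fun z : ℤ_[n + 1] => (z : ℚ_[n + 1])) this
      have h3 : ((1 - x' ^ (k + 1) : ℤ_[n + 1]) : ℚ_[n + 1]) = 1 - x ^ (k + 1) := by
        push_cast
        rfl
      rw [← h3]
      simpa using h2
    rw [h1, norm_mul]
    calc ‖((1 - x' : ℤ_[n + 1]) : ℚ_[n + 1])‖ * ‖((∑ i ∈ Finset.range (k + 1), x' ^ i : ℤ_[n + 1]) : ℚ_[n + 1])‖
        ≤ ((n + 1 : ℕ) : ℝ)⁻¹ * 1 := by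
          apply mul_le_mul
          · rw [← PadicInt.norm_def]
            exact hle
          · exact PadicInt.norm_le_one _
          · exact norm_nonneg _
          · positivity
      _ = _ := mul_one _
  have hnorm : ‖∏ k ∈ Finset.range n, (1 - x ^ (k + 1))‖ ≤ (((n + 1 : ℕ) : ℝ)⁻¹) ^ n := by
    rw [norm_prod]
    calc ∏ k ∈ Finset.range n, ‖1 - x ^ (k + 1)‖ ≤ ∏ _k ∈ Finset.range n, ((n + 1 : ℕ) : ℝ)⁻¹ :=
          Finset.prod_le_prod (fun _ _ => norm_nonneg _) hterm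
      _ = _ := by simp
  rw [hprod] at hnorm
  have hpn : ‖((n + 1 : ℕ) : ℚ_[n + 1])‖ = ((n + 1 : ℕ) : ℝ)⁻¹ := Padic.norm_p
  have hcast : ((n : ℚ_[n + 1]) + 1) = ((n + 1 : ℕ) : ℚ_[n + 1]) := by push_cast; ring
  rw [hcast, hpn] at hnorm
  have h0 : (0 : ℝ) < ((n + 1 : ℕ) : ℝ)⁻¹ := by positivity
  have h1 : ((n + 1 : ℕ) : ℝ)⁻¹ < 1 := inv_lt_one_of_one_lt₀ (by exact_mod_cast hp.one_lt)
  have h6 : (((n + 1 : ℕ) : ℝ)⁻¹) ^ n ≤ (((n + 1 : ℕ) : ℝ)⁻¹) ^ 2 :=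
    pow_le_pow_of_le_one h0.le h1.le hn2
  have h7 : (((n + 1 : ℕ) : ℝ)⁻¹) ^ 2 < ((n + 1 : ℕ) : ℝ)⁻¹ := by
    rw [pow_two]
    exact mul_lt_of_lt_one_right h0 h1
  linarith

/-- `[ℚ_pˣ : (ℚ_pˣ)^p] = p ^ 2` for odd `p`. -/
theorem h7_padic_pow_index (p : ℕ) [Fact p.Prime] (hp2 : p ≠ 2) :
    (powMonoidHom p : ℚ_[p]ˣ →* ℚ_[p]ˣ).range.index = p ^ 2 := by
  have h := h37_local_pow_index p p ℚ_[p]
  have hcard : Nat.card (rootsOfUnity p ℚ_[p]) = 1 := by
    rw [Subgroup.card_eq_one]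
    rw [eq_bot_iff]
    intro u hu
    rw [Subgroup.mem_bot]
    apply Units.ext
    have hu' : (u : ℚ_[p]) ^ p = 1 := by
      have := (mem_rootsOfUnity p u).mp hu
      have h2 := congrArg (fun z : ℚ_[p]ˣ => (z : ℚ_[p])) this
      simpa using h2
    simpa using h7_padic_pow_eq_one p hp2 _ hu'
  rw [h, hcard]
  simp [pow_two]


section exps

variable (p : ℕ) [Fact p.Prime]

theorem h7_pow_val_add {M : Type*} [Monoid M] {ζ : M} (hζ : ζ ^ p = 1) (a b : ZMod p) :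
    ζ ^ (a + b).val = ζ ^ a.val * ζ ^ b.val := by
  rw [← pow_add, ZMod.val_add, ← pow_eq_pow_mod _ hζ]

theorem h7_pow_val_mul {M : Type*} [Monoid M] {ζ : M} (hζ : ζ ^ p = 1) (a b : ZMod p) :
    ζ ^ (a * b).val = (ζ ^ a.val) ^ b.val := by
  rw [← pow_mul, ZMod.val_mul, ← pow_eq_pow_mod _ hζ]

theorem h7_pow_val_natCast {M : Type*} [Monoid M] {ζ : M} (hζ : ζ ^ p = 1) (n : ℕ) :
    ζ ^ ((n : ZMod p)).val = ζ ^ n := by
  rw [ZMod.val_natCast, ← pow_eq_pow_mod _ hζ]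

theorem h7_zpow_eq_pow_val {F : Type*} [Field F] {ζ : F} (hζ : ζ ^ p = 1) (m : ℤ) :
    ζ ^ m = ζ ^ ((m : ZMod p)).val := by
  have hp : p.Prime := Fact.out
  have hζ0 : ζ ≠ 0 := by
    rintro rfl
    rw [zero_pow hp.ne_zero] at hζ
    exact zero_ne_one hζ
  have h := ZMod.val_intCast (n := p) m
  rw [← zpow_natCast, h]
  conv_lhs => rw [← Int.emod_add_mul_ediv m p]
  rw [zpow_add₀ hζ0, zpow_mul, zpow_natCast, hζ, one_zpow, mul_one]

end exps

theorem h7_h90_finite {K L : Type*} [Field K] [Field L] [Algebra K L] [FiniteDimensional K L]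
    (ζ : L) (hζ0 : ζ ≠ 0) (b : (L ≃ₐ[K] L) → ℕ)
    (hb : ∀ g h : L ≃ₐ[K] L, ζ ^ b (g * h) = ζ ^ b g * g (ζ ^ b h)) :
    ∃ y : L, y ≠ 0 ∧ ∀ g : L ≃ₐ[K] L, g y = y * ζ ^ b g := by
  let f : (L ≃ₐ[K] L) → Lˣ := fun g => Units.mk0 (ζ ^ b g) (pow_ne_zero _ hζ0)
  have hf : groupCohomology.IsMulCocycle₁ f := by
    intro g h
    apply Units.ext
    simp only [f, Units.val_mk0, Units.val_mul, AlgEquiv.smul_units_def, Units.coe_map,
      MonoidHom.coe_coe]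
    rw [hb g h, mul_comm]
  obtain ⟨y, hy⟩ := groupCohomology.isMulCoboundary₁_of_isMulCocycle₁_of_aut_to_units f hf
  refine ⟨(y : L), y.ne_zero, fun g => ?_⟩
  have h1 := hy g
  rw [div_eq_iff_eq_mul] at h1
  have h2 := congrArg (fun u : Lˣ => (u : L)) h1
  simp only [f, Units.val_mk0, Units.val_mul, AlgEquiv.smul_units_def, Units.coe_map,
    MonoidHom.coe_coe] at h2
  rw [mul_comm]
  exact h2

section LK

variable (p : ℕ) [Fact p.Prime]

theorem h7_lk_three (hp2 : p ≠ 2) (ζ : PadicAlgCl p) (hζ : IsPrimitiveRoot ζ p)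
    (β : Fin 3 → (PadicAlgCl p ≃ₐ[ℚ_[p]] PadicAlgCl p) → ZMod p)
    (hcoc : ∀ i (τ τ' : PadicAlgCl p ≃ₐ[ℚ_[p]] PadicAlgCl p),
      ζ ^ (β i (τ * τ')).val = ζ ^ (β i τ).val * τ (ζ ^ (β i τ').val))
    (hlev : ∀ i, ∃ E : IntermediateField ℚ_[p] (PadicAlgCl p), FiniteDimensional ℚ_[p] E ∧
      ∀ τ ∈ E.fixingSubgroup, β i τ = 0) :
    ∃ c : Fin 3 → ZMod p, c ≠ 0 ∧ ∃ j : ℕ, ∀ τ : PadicAlgCl p ≃ₐ[ℚ_[p]] PadicAlgCl p,
      ζ ^ (∑ i, c i * β i τ).val * ζ ^ j = τ (ζ ^ j) := by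
  classical
  have hp : p.Prime := Fact.out
  have hζp : ζ ^ p = 1 := hζ.pow_eq_one
  have hζ0 : ζ ≠ 0 := hζ.ne_zero hp.ne_zero
  choose E hE hEβ using hlev
  haveI := hE
  let E₀ : IntermediateField ℚ_[p] (PadicAlgCl p) := (⨆ i, E i) ⊔ IntermediateField.adjoin ℚ_[p] {ζ}
  haveI : FiniteDimensional ℚ_[p] (IntermediateField.adjoin ℚ_[p] {ζ}) :=
    IntermediateField.adjoin.finiteDimensional (Algebra.IsIntegral.isIntegral ζ)
  haveI : FiniteDimensional ℚ_[p] E₀ := IntermediateField.finiteDimensional_sup _ _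
  let N : IntermediateField ℚ_[p] (PadicAlgCl p) :=
    IntermediateField.normalClosure ℚ_[p] E₀ (PadicAlgCl p)
  haveI : Normal ℚ_[p] (PadicAlgCl p) := IsAlgClosure.normal ℚ_[p] (PadicAlgCl p)
  haveI : Normal ℚ_[p] N := normalClosure.normal ℚ_[p] E₀ (PadicAlgCl p)
  haveI : FiniteDimensional ℚ_[p] N :=
    normalClosure.is_finiteDimensional ℚ_[p] E₀ (PadicAlgCl p)
  have hE₀N : E₀ ≤ N := IntermediateField.le_normalClosure E₀
  have hζN : ζ ∈ N :=
    hE₀N ((le_sup_right : IntermediateField.adjoin ℚ_[p] {ζ} ≤ E₀)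
      (IntermediateField.mem_adjoin_simple_self ℚ_[p] ζ))
  have hβN : ∀ i, ∀ τ ∈ N.fixingSubgroup, β i τ = 0 := by
    intro i τ hτ
    apply hEβ i τ
    have h1 : E i ≤ N := le_trans (le_trans (le_iSup E i) le_sup_left) hE₀N
    exact IntermediateField.fixingSubgroup_le h1 hτ
  have hinv : ∀ i (τ u : PadicAlgCl p ≃ₐ[ℚ_[p]] PadicAlgCl p), u ∈ N.fixingSubgroup →
      β i (τ * u) = β i τ := by
    intro i τ u hu
    have h := hcoc i τ u
    rw [hβN i u hu, ZMod.val_zero, pow_zero, map_one, mul_one] at h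
    exact ZMod.val_injective p (hζ.pow_inj (ZMod.val_lt _) (ZMod.val_lt _) h)
  let r : (PadicAlgCl p ≃ₐ[ℚ_[p]] PadicAlgCl p) →* (N ≃ₐ[ℚ_[p]] N) :=
    AlgEquiv.restrictNormalHom N
  have hr : ∀ (τ : PadicAlgCl p ≃ₐ[ℚ_[p]] PadicAlgCl p) (x : N),
      ((r τ x : N) : PadicAlgCl p) = τ (x : PadicAlgCl p) :=
    fun τ x => AlgEquiv.restrictNormal_commutes τ N x
  have hker : ∀ τ τ' : PadicAlgCl p ≃ₐ[ℚ_[p]] PadicAlgCl p, r τ = r τ' → ∀ i, β i τ' = β i τ := by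
    intro τ τ' h i
    have hu : τ⁻¹ * τ' ∈ N.fixingSubgroup := by
      rw [← IntermediateField.restrictNormalHom_ker N, MonoidHom.mem_ker]
      show r (τ⁻¹ * τ') = 1
      rw [map_mul, map_inv, h, inv_mul_cancel]
    have := hinv i τ (τ⁻¹ * τ') hu
    rwa [mul_inv_cancel_left] at this
  have hsurj : Function.Surjective r := AlgEquiv.restrictNormalHom_surjective (PadicAlgCl p)
  let s : (N ≃ₐ[ℚ_[p]] N) → (PadicAlgCl p ≃ₐ[ℚ_[p]] PadicAlgCl p) := Function.surjInv hsurj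
  have hs : ∀ g, r (s g) = g := Function.surjInv_eq hsurj
  let ζN : N := ⟨ζ, hζN⟩
  have hζN0 : ζN ≠ 0 := fun h => hζ0 (congrArg Subtype.val h)
  have h90 : ∀ i, ∃ y : N, y ≠ 0 ∧ ∀ g : N ≃ₐ[ℚ_[p]] N, g y = y * ζN ^ (β i (s g)).val := by
    intro i
    apply h7_h90_finite ζN hζN0 (fun g => (β i (s g)).val)
    intro g h
    apply Subtype.ext
    have h1 : β i (s (g * h)) = β i (s g * s h) :=
      hker (s g * s h) (s (g * h)) (by rw [hs, map_mul, hs, hs]) i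
    have h2 := hr (s g) (ζN ^ (β i (s h)).val)
    rw [hs] at h2
    simp only [IntermediateField.coe_mul, IntermediateField.coe_pow]
    rw [h1, hcoc i (s g) (s h), h2]
    rfl
  choose y hy0 hy using h90
  let Y : Fin 3 → PadicAlgCl p := fun i => ((y i : N) : PadicAlgCl p)
  have hY0 : ∀ i, Y i ≠ 0 := fun i h => hy0 i (Subtype.ext h)
  have hτY : ∀ i (τ : PadicAlgCl p ≃ₐ[ℚ_[p]] PadicAlgCl p),
      τ (Y i) = Y i * ζ ^ (β i τ).val := by
    intro i τ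
    have h1 := hy i (r τ)
    have h2 : β i (s (r τ)) = β i τ := hker τ (s (r τ)) (hs (r τ)).symm i
    have h3 := congrArg (fun z : N => (z : PadicAlgCl p)) h1
    simp only [IntermediateField.coe_mul, IntermediateField.coe_pow] at h3
    rw [hr, h2] at h3
    exact h3
  have hfix : ∀ i, ∃ v : ℚ_[p], algebraMap ℚ_[p] (PadicAlgCl p) v = Y i ^ p := by
    intro i
    have : Y i ^ p ∈ Set.range (algebraMap ℚ_[p] (PadicAlgCl p)) := by
      rw [InfiniteGalois.mem_range_algebraMap_iff_fixed]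
      intro τ
      rw [map_pow, hτY, mul_pow, ← pow_mul, mul_comm _ p, pow_mul, hζp, one_pow, mul_one]
    exact this
  choose v hv using hfix
  have hv0 : ∀ i, v i ≠ 0 := by
    intro i h
    have := hv i
    rw [h, map_zero] at this
    exact pow_ne_zero p (hY0 i) this.symm
  let V : Fin 3 → ℚ_[p]ˣ := fun i => Units.mk0 (v i) (hv0 i)
  let H : Subgroup ℚ_[p]ˣ := (powMonoidHom p : ℚ_[p]ˣ →* ℚ_[p]ˣ).range
  have hidx : H.index = p ^ 2 := h7_padic_pow_index p hp2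
  let Φ : (Fin 3 → Fin p) → ℚ_[p]ˣ ⧸ H := fun a => QuotientGroup.mk (∏ i, V i ^ (a i : ℕ))
  have hcardQ : Nat.card (ℚ_[p]ˣ ⧸ H) = p ^ 2 := hidx
  have hfin : Finite (ℚ_[p]ˣ ⧸ H) := by
    apply Nat.finite_of_card_ne_zero
    rw [hcardQ]
    exact pow_ne_zero _ hp.ne_zero
  haveI : Fintype (ℚ_[p]ˣ ⧸ H) := Fintype.ofFinite _
  have hcard : Fintype.card (ℚ_[p]ˣ ⧸ H) < Fintype.card (Fin 3 → Fin p) := by
    rw [← Nat.card_eq_fintype_card, hcardQ, Fintype.card_fun, Fintype.card_fin, Fintype.card_fin]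
    exact Nat.pow_lt_pow_right hp.one_lt (by norm_num)
  obtain ⟨a, a', hne, heq⟩ := Fintype.exists_ne_map_eq_of_card_lt Φ hcard
  have hmem : (∏ i, V i ^ (a i : ℕ))⁻¹ * ∏ i, V i ^ (a' i : ℕ) ∈ H := QuotientGroup.eq.mp heq
  obtain ⟨w, hw⟩ := hmem
  let e : Fin 3 → ℤ := fun i => (a' i : ℤ) - (a i : ℤ)
  have hVe : ∏ i, V i ^ e i = w ^ p := by
    have hw' : w ^ p = (∏ i, V i ^ (a i : ℕ))⁻¹ * ∏ i, V i ^ (a' i : ℕ) := hw
    rw [hw']
    simp only [e, zpow_sub, zpow_natCast]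
    rw [Finset.prod_mul_distrib, Finset.prod_inv_distrib, mul_comm]
  refine ⟨fun i => (e i : ZMod p), ?_, ?_⟩
  · intro hc
    apply hne
    funext i
    have h1 := congrFun hc i
    simp only [e, Pi.zero_apply, Int.cast_sub, Int.cast_natCast, sub_eq_zero] at h1
    have h2 := (ZMod.natCast_eq_natCast_iff' _ _ _).mp h1
    rw [Nat.mod_eq_of_lt (a' i).2, Nat.mod_eq_of_lt (a i).2] at h2
    exact Fin.ext h2.symm
  · let Yt : PadicAlgCl p := ∏ i, Y i ^ e i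
    let W : PadicAlgCl p := algebraMap ℚ_[p] (PadicAlgCl p) (w : ℚ_[p])
    have hW0 : W ≠ 0 := (map_ne_zero _).mpr w.ne_zero
    have hYt : Yt ^ p = W ^ p := by
      have h1 := congrArg (fun u : ℚ_[p]ˣ => algebraMap ℚ_[p] (PadicAlgCl p) (u : ℚ_[p])) hVe
      simp only [Units.coe_prod, Units.val_zpow_eq_zpow_val, Units.val_pow_eq_pow_val, map_prod,
        map_zpow₀, map_pow, V, Units.val_mk0, hv] at h1
      rw [← h1, ← Finset.prod_pow]
      refine Finset.prod_congr rfl fun i _ => ?_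
      rw [← zpow_natCast, ← zpow_natCast, ← zpow_mul, ← zpow_mul, mul_comm]
    have hone : (Yt / W) ^ p = 1 := by rw [div_pow, hYt, div_self (pow_ne_zero _ hW0)]
    haveI : NeZero p := ⟨hp.ne_zero⟩
    obtain ⟨j, -, hj⟩ := hζ.eq_pow_of_pow_eq_one hone
    refine ⟨j, fun τ => ?_⟩
    have hYtW : Yt = W * ζ ^ j := by rw [hj, mul_div_cancel₀ _ hW0]
    have h1 : τ Yt = Yt * ∏ i, (ζ ^ (β i τ).val) ^ e i := by
      simp only [Yt, map_prod, map_zpow₀, hτY, mul_zpow, Finset.prod_mul_distrib]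
    have h2 : τ Yt = W * τ (ζ ^ j) := by
      rw [hYtW, map_mul]
      congr 1
      exact τ.commutes _
    have h3 : ∏ i, (ζ ^ (β i τ).val) ^ e i = ζ ^ (∑ i, (e i : ZMod p) * β i τ).val := by
      have : ∀ i, (ζ ^ (β i τ).val) ^ e i = ζ ^ (((β i τ).val : ℤ) * e i) := fun i => by
        rw [zpow_mul, zpow_natCast]
      simp only [this]
      rw [Fin.prod_univ_three, ← zpow_add₀ hζ0, ← zpow_add₀ hζ0, h7_zpow_eq_pow_val p hζp]
      congr 2
      rw [Fin.sum_univ_three]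
      push_cast
      simp only [ZMod.natCast_zmod_val]
      ring
    rw [← h3]
    have h4 : W * (ζ ^ j * ∏ i, (ζ ^ (β i τ).val) ^ e i) = W * τ (ζ ^ j) := by
      rw [← h2, h1, hYtW, mul_assoc]
    have h5 := mul_left_cancel₀ hW0 h4
    rw [mul_comm]
    exact h5

end LK


theorem h7_rank_le_three {k : Type u} [Field k] {M : Type v} [AddCommGroup M] [Module k M]
    (S : Submodule k M) (w : Fin 3 → M)
    (h : ∀ x ∈ S, ∃ a b c : k, x = a • w 0 + b • w 1 + c • w 2) : Module.rank k S ≤ 3 := by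
  classical
  have hmem : ∀ i : Fin 3, w i ∈ Submodule.span k ((Finset.univ.image w : Finset M) : Set M) :=
    fun i => Submodule.subset_span
      (Finset.mem_coe.mpr (Finset.mem_image_of_mem w (Finset.mem_univ i)))
  have hle : S ≤ Submodule.span k ((Finset.univ.image w : Finset M) : Set M) := by
    intro x hx
    obtain ⟨a, b, c, rfl⟩ := h x hx
    exact Submodule.add_mem _ (Submodule.add_mem _
      (Submodule.smul_mem _ _ (hmem 0)) (Submodule.smul_mem _ _ (hmem 1)))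
      (Submodule.smul_mem _ _ (hmem 2))
  have hcard : ((Finset.univ.image w).card : Cardinal.{v}) ≤ 3 := by
    have h1 : (Finset.univ.image w).card ≤ 3 :=
      le_trans Finset.card_image_le (by rw [Finset.card_univ, Fintype.card_fin])
    exact_mod_cast h1
  exact (Submodule.rank_mono hle).trans ((rank_span_finset_le (R := k) (Finset.univ.image w)).trans hcard)


section Glob

variable (p : ℕ) [Fact p.Prime]

local notation "Qb" => AlgebraicClosure ℚ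
local notation "GQ" => (AlgebraicClosure ℚ ≃ₐ[ℚ] AlgebraicClosure ℚ)

/-- Three `𝔽_p(ω)`-valued level-constant crossed homomorphisms on the decomposition group at `p`
are linearly dependent modulo coboundaries. -/
theorem h7_kum_three (hp2 : p ≠ 2) (ζ₀ : Qb) (hζ₀ : IsPrimitiveRoot ζ₀ p)
    (ω : GQ → ZMod p)
    (hω : ∀ s ∈ (padicPlace p).decompositionSubgroup ℚ, s ζ₀ = ζ₀ ^ (ω s).val)
    (u : Fin 3 → GQ → ZMod p)
    (hcoc : ∀ i, ∀ s ∈ (padicPlace p).decompositionSubgroup ℚ,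
      ∀ t ∈ (padicPlace p).decompositionSubgroup ℚ, u i (s * t) = u i s + ω s * u i t)
    (hlev : ∀ i, ∃ L : IntermediateField ℚ Qb, FiniteDimensional ℚ L ∧
      ∀ s ∈ (padicPlace p).decompositionSubgroup ℚ, (∀ x ∈ L, s x = x) → u i s = 0) :
    ∃ c : Fin 3 → ZMod p, c ≠ 0 ∧ ∃ j : ZMod p,
      ∀ s ∈ (padicPlace p).decompositionSubgroup ℚ, ∑ i, c i * u i s = j * (ω s - 1) := by
  have hp : p.Prime := Fact.out
  set ζ : PadicAlgCl p := padicEmbedding p ζ₀ with hζdef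
  have hζ : IsPrimitiveRoot ζ p := hζ₀.map_of_injective (padicEmbedding p).injective
  have hζp : ζ ^ p = 1 := hζ.pow_eq_one
  have hD : ∀ τ : PadicAlgCl p ≃ₐ[ℚ_[p]] PadicAlgCl p,
      localGaloisToGlobal p τ ∈ (padicPlace p).decompositionSubgroup ℚ :=
    localGaloisToGlobal_mem_decompositionSubgroup p
  have hτζ : ∀ τ : PadicAlgCl p ≃ₐ[ℚ_[p]] PadicAlgCl p,
      τ ζ = ζ ^ (ω (localGaloisToGlobal p τ)).val := by
    intro τ
    rw [hζdef, ← padicEmbedding_localGaloisToGlobal, hω _ (hD τ), map_pow]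
  obtain ⟨c, hc, j, hj⟩ := h7_lk_three p hp2 ζ hζ (fun i τ => u i (localGaloisToGlobal p τ))
    (by
      intro i τ τ'
      show ζ ^ (u i (localGaloisToGlobal p (τ * τ'))).val = _
      rw [map_mul, hcoc i _ (hD τ) _ (hD τ'), h7_pow_val_add p hζp, h7_pow_val_mul p hζp,
        map_pow, hτζ])
    (by
      intro i
      obtain ⟨L, hL, hLu⟩ := hlev i
      haveI := hL
      obtain ⟨E, hE, hEL⟩ := h6_exists_local_level p L
      refine ⟨E, hE, fun τ hτ => ?_⟩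
      apply hLu _ (hD τ)
      have h1 := (hEL τ).mp hτ
      intro x hx
      exact (IntermediateField.mem_fixingSubgroup_iff _ _).mp h1 x hx)
  refine ⟨c, hc, (j : ZMod p), fun s hs => ?_⟩
  obtain ⟨τ, rfl⟩ := h6_exists_local_lift p hs
  have h1 := hj τ
  rw [map_pow, hτζ, ← pow_add, ← pow_mul, ← h7_pow_val_natCast p hζp ((_ : ℕ) + j),
    ← h7_pow_val_natCast p hζp ((_ : ℕ) * j)] at h1
  have h2 := ZMod.val_injective p (hζ.pow_inj (ZMod.val_lt _) (ZMod.val_lt _) h1)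
  push_cast at h2
  rw [ZMod.natCast_zmod_val, ZMod.natCast_zmod_val] at h2
  linear_combination h2

/-- Abstract linear algebra: if any three elements of `Z` are dependent modulo `B`, two elements
of `Z` generate `Z` modulo `B`. -/
theorem h7_two_gen {F V : Type*} [Field F] [AddCommGroup V] [Module F V] (Z B : Set V)
    (hZ0 : (0 : V) ∈ Z) (hB : ∀ (a : F) (v : V), v ∈ B → a • v ∈ B)
    (h3 : ∀ v : Fin 3 → V, (∀ i, v i ∈ Z) → ∃ c : Fin 3 → F, c ≠ 0 ∧ ∑ i, c i • v i ∈ B) :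
    ∃ g₁ ∈ Z, ∃ g₂ ∈ Z, ∀ u ∈ Z, ∃ a b : F, u - a • g₁ - b • g₂ ∈ B := by
  by_cases hA : ∀ u ∈ Z, u ∈ B
  · exact ⟨0, hZ0, 0, hZ0, fun u hu => ⟨0, 0, by simpa using hA u hu⟩⟩
  push Not at hA
  obtain ⟨g₁, hg₁Z, hg₁B⟩ := hA
  by_cases hB1 : ∀ u ∈ Z, ∃ a : F, u - a • g₁ ∈ B
  · refine ⟨g₁, hg₁Z, 0, hZ0, fun u hu => ?_⟩
    obtain ⟨a, ha⟩ := hB1 u hu
    exact ⟨a, 0, by simpa using ha⟩
  push Not at hB1
  obtain ⟨g₂, hg₂Z, hg₂B⟩ := hB1
  refine ⟨g₁, hg₁Z, g₂, hg₂Z, fun u hu => ?_⟩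
  obtain ⟨c, hc, hcB⟩ := h3 ![g₁, g₂, u] (by
    intro i
    fin_cases i
    · exact hg₁Z
    · exact hg₂Z
    · exact hu)
  rw [Fin.sum_univ_three] at hcB
  simp only [Matrix.cons_val_zero, Matrix.cons_val_one, Matrix.cons_val_two,
    Matrix.head_cons, Matrix.tail_cons] at hcB
  by_cases h2 : c 2 = 0
  · exfalso
    by_cases h1 : c 1 = 0
    · have h0 : c 0 ≠ 0 := by
        intro h0
        apply hc
        funext i
        fin_cases i
        · exact h0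
        · exact h1
        · exact h2
      apply hg₁B
      have := hB (c 0)⁻¹ _ hcB
      rw [h1, h2, zero_smul, zero_smul, add_zero, add_zero, smul_smul, inv_mul_cancel₀ h0,
        one_smul] at this
      exact this
    · apply hg₂B (-(c 1)⁻¹ * c 0)
      have := hB (c 1)⁻¹ _ hcB
      rw [h2, zero_smul, add_zero, smul_add, smul_smul, smul_smul, inv_mul_cancel₀ h1,
        one_smul] at this
      have e : g₂ - (-(c 1)⁻¹ * c 0) • g₁ = ((c 1)⁻¹ * c 0) • g₁ + g₂ := by module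
      rw [e]
      exact this
  · refine ⟨-(c 2)⁻¹ * c 0, -(c 2)⁻¹ * c 1, ?_⟩
    have := hB (c 2)⁻¹ _ hcB
    rw [smul_add, smul_add, smul_smul, smul_smul, smul_smul, inv_mul_cancel₀ h2, one_smul] at this
    have e : u - (-(c 2)⁻¹ * c 0) • g₁ - (-(c 2)⁻¹ * c 1) • g₂ =
        ((c 2)⁻¹ * c 0) • g₁ + ((c 2)⁻¹ * c 1) • g₂ + u := by module
    rw [e]
    exact this

/-- `𝔽_p`-form: two level-constant crossed homomorphisms `D → 𝔽_p(ω)` generate all of them modulo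
coboundaries (`D` = decomposition group of `padicPlace p`). -/
theorem h7_kum_gen_Fp (hp2 : p ≠ 2) (ζ₀ : Qb) (hζ₀ : IsPrimitiveRoot ζ₀ p)
    (ω : GQ → ZMod p)
    (hω : ∀ s ∈ (padicPlace p).decompositionSubgroup ℚ, s ζ₀ = ζ₀ ^ (ω s).val) :
    ∃ γ₁ γ₂ : GQ → ZMod p, ∀ u : GQ → ZMod p,
      (∀ s ∈ (padicPlace p).decompositionSubgroup ℚ,
        ∀ t ∈ (padicPlace p).decompositionSubgroup ℚ, u (s * t) = u s + ω s * u t) →
      (∃ L : IntermediateField ℚ Qb, FiniteDimensional ℚ L ∧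
        ∀ s ∈ (padicPlace p).decompositionSubgroup ℚ, (∀ x ∈ L, s x = x) → u s = 0) →
      ∃ a b x : ZMod p, ∀ s ∈ (padicPlace p).decompositionSubgroup ℚ,
        u s = a * γ₁ s + b * γ₂ s + x * (ω s - 1) := by
  let Z : Set (GQ → ZMod p) := {u | (∀ s ∈ (padicPlace p).decompositionSubgroup ℚ,
        ∀ t ∈ (padicPlace p).decompositionSubgroup ℚ, u (s * t) = u s + ω s * u t) ∧
      (∃ L : IntermediateField ℚ Qb, FiniteDimensional ℚ L ∧
        ∀ s ∈ (padicPlace p).decompositionSubgroup ℚ, (∀ x ∈ L, s x = x) → u s = 0)}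
  let B : Set (GQ → ZMod p) := {u | ∃ x : ZMod p,
      ∀ s ∈ (padicPlace p).decompositionSubgroup ℚ, u s = x * (ω s - 1)}
  have hZ0 : (0 : GQ → ZMod p) ∈ Z :=
    ⟨fun s _ t _ => by simp, ⊥, inferInstance, fun s _ _ => rfl⟩
  have hB : ∀ (a : ZMod p) (v : GQ → ZMod p), v ∈ B → a • v ∈ B := by
    rintro a v ⟨x, hx⟩
    refine ⟨a * x, fun s hs => ?_⟩
    rw [Pi.smul_apply, hx s hs, smul_eq_mul, mul_assoc]
  have h3 : ∀ v : Fin 3 → (GQ → ZMod p), (∀ i, v i ∈ Z) →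
      ∃ c : Fin 3 → ZMod p, c ≠ 0 ∧ ∑ i, c i • v i ∈ B := by
    intro v hv
    obtain ⟨c, hc, j, hj⟩ := h7_kum_three p hp2 ζ₀ hζ₀ ω hω v (fun i => (hv i).1)
      (fun i => (hv i).2)
    refine ⟨c, hc, j, fun s hs => ?_⟩
    rw [← hj s hs, Finset.sum_apply]
    rfl
  obtain ⟨g₁, -, g₂, -, hg⟩ := h7_two_gen Z B hZ0 hB h3
  refine ⟨g₁, g₂, fun u hu1 hu2 => ?_⟩
  obtain ⟨a, b, x, hx⟩ := hg u ⟨hu1, hu2⟩
  refine ⟨a, b, x, fun s hs => ?_⟩
  have := hx s hs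
  simp only [Pi.sub_apply, Pi.smul_apply, smul_eq_mul] at this
  linear_combination this

/-- **Local Kummer bound at `p` (KUM-p).** `k` a finite field of odd characteristic `p`,
`D` the decomposition group of `padicPlace p`, `χ` any function which on `D` is the mod `p`
cyclotomic character.  There are two functions `γ₁, γ₂` such that every level-constant crossed
homomorphism `u : D → k(χ)` is, on `D`, a `k`-combination of `γ₁`, `γ₂` and the coboundary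
`χ - 1`.  (So `dim H¹(G_p, k(ω)) ≤ 2`.) -/
theorem h7_kum_p (hp2 : p ≠ 2) (k : Type*) [Field k] [Finite k] [CharP k p] (χ : GQ → k)
    (hχ : ∀ s ∈ (padicPlace p).decompositionSubgroup ℚ, ∀ a : ℕ,
      (∀ μ : Qb, μ ^ p = 1 → s μ = μ ^ a) → χ s = (a : k)) :
    ∃ γ₁ γ₂ : GQ → k, ∀ u : GQ → k,
      (∀ s ∈ (padicPlace p).decompositionSubgroup ℚ,
        ∀ t ∈ (padicPlace p).decompositionSubgroup ℚ, u (s * t) = u s + χ s * u t) →
      (∃ L : IntermediateField ℚ Qb, FiniteDimensional ℚ L ∧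
        ∀ s ∈ (padicPlace p).decompositionSubgroup ℚ, (∀ x ∈ L, s x = x) → u s = 0) →
      ∃ a₁ a₂ x : k, ∀ s ∈ (padicPlace p).decompositionSubgroup ℚ,
        u s = a₁ * γ₁ s + a₂ * γ₂ s + x * (χ s - 1) := by
  classical
  have hp : p.Prime := Fact.out
  haveI : NeZero p := ⟨hp.ne_zero⟩
  obtain ⟨ζ₀, hζ₀⟩ := HasEnoughRootsOfUnity.exists_primitiveRoot Qb p
  have hζp : ζ₀ ^ p = 1 := hζ₀.pow_eq_one
  have hex : ∀ s : GQ, ∃ i : ℕ, i < p ∧ ζ₀ ^ i = s ζ₀ := fun s =>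
    hζ₀.eq_pow_of_pow_eq_one (by rw [← map_pow, hζp, map_one])
  choose ι hιlt hι using hex
  let ω : GQ → ZMod p := fun s => (ι s : ZMod p)
  have hωval : ∀ s, (ω s).val = ι s := fun s => ZMod.val_natCast_of_lt (hιlt s)
  have hω : ∀ s : GQ, s ζ₀ = ζ₀ ^ (ω s).val := fun s => by rw [hωval, hι]
  have hχω : ∀ s ∈ (padicPlace p).decompositionSubgroup ℚ, χ s = ((ω s).val : k) := by
    intro s hs
    apply hχ s hs
    intro μ hμ
    obtain ⟨m, -, rfl⟩ := hζ₀.eq_pow_of_pow_eq_one hμ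
    rw [map_pow, hω s, ← pow_mul, ← pow_mul, mul_comm]
  letI alg : Algebra (ZMod p) k := ZMod.algebra k p
  have hcast : ∀ z : ZMod p, algebraMap (ZMod p) k z = (z.val : k) := by
    intro z
    conv_lhs => rw [← ZMod.natCast_zmod_val z]
    rw [map_natCast]
  obtain ⟨γ₁, γ₂, hγ⟩ := h7_kum_gen_Fp p hp2 ζ₀ hζ₀ ω (fun s _ => hω s)
  refine ⟨fun s => algebraMap (ZMod p) k (γ₁ s), fun s => algebraMap (ZMod p) k (γ₂ s),
    fun u hu hL => ?_⟩
  let b := Module.finBasis (ZMod p) k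
  have hZ : ∀ i, ∃ a₁ a₂ x : ZMod p, ∀ s ∈ (padicPlace p).decompositionSubgroup ℚ,
      b.repr (u s) i = a₁ * γ₁ s + a₂ * γ₂ s + x * (ω s - 1) := by
    intro i
    apply hγ (fun s => b.repr (u s) i)
    · intro s hs t ht
      show b.repr (u (s * t)) i = b.repr (u s) i + ω s * b.repr (u t) i
      have h1 : χ s * u t = ω s • u t := by
        rw [Algebra.smul_def, hcast, hχω s hs]
      rw [hu s hs t ht, h1, map_add, map_smul, Finsupp.add_apply, Finsupp.smul_apply, smul_eq_mul]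
    · obtain ⟨L, hL1, hL2⟩ := hL
      refine ⟨L, hL1, fun s hs hx => ?_⟩
      show b.repr (u s) i = 0
      rw [hL2 s hs hx, map_zero, Finsupp.zero_apply]
  choose a₁ a₂ x hax using hZ
  refine ⟨∑ i, a₁ i • b i, ∑ i, a₂ i • b i, ∑ i, x i • b i, fun s hs => ?_⟩
  have h1 : χ s - 1 = algebraMap (ZMod p) k (ω s - 1) := by
    rw [map_sub, map_one, hcast, hχω s hs]
  rw [h1]
  conv_lhs => rw [← b.sum_repr (u s)]
  rw [Finset.sum_mul, Finset.sum_mul, Finset.sum_mul, ← Finset.sum_add_distrib,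
    ← Finset.sum_add_distrib]
  refine Finset.sum_congr rfl fun i _ => ?_
  rw [hax i s hs, Algebra.smul_def, Algebra.smul_def, Algebra.smul_def, Algebra.smul_def]
  simp only [map_add, map_mul]
  ring

/-- Rank form of `h7_kum_p`: the restrictions to `D` of a `k`-space of level-constant crossed
homomorphisms span a space of rank at most `3` (coboundaries included). -/
theorem h7_kum_p_rank (hp2 : p ≠ 2) (k : Type u) [Field k] [Finite k] [CharP k p] (χ : GQ → k)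
    (hχ : ∀ s ∈ (padicPlace p).decompositionSubgroup ℚ, ∀ a : ℕ,
      (∀ μ : Qb, μ ^ p = 1 → s μ = μ ^ a) → χ s = (a : k))
    (Z : Submodule k (GQ → k))
    (hZ : ∀ u ∈ Z, (∀ s ∈ (padicPlace p).decompositionSubgroup ℚ,
        ∀ t ∈ (padicPlace p).decompositionSubgroup ℚ, u (s * t) = u s + χ s * u t) ∧
      (∃ L : IntermediateField ℚ Qb, FiniteDimensional ℚ L ∧
        ∀ s ∈ (padicPlace p).decompositionSubgroup ℚ, (∀ x ∈ L, s x = x) → u s = 0)) :
    Module.rank k (Z.map (LinearMap.funLeft k k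
      (Subtype.val : ↥((padicPlace p).decompositionSubgroup ℚ) → GQ))) ≤ 3 := by
  obtain ⟨γ₁, γ₂, hγ⟩ := h7_kum_p p hp2 k χ hχ
  let R := LinearMap.funLeft k k (Subtype.val : ↥((padicPlace p).decompositionSubgroup ℚ) → GQ)
  refine h7_rank_le_three (Z.map R) ![R γ₁, R γ₂, R (fun s => χ s - 1)] ?_
  rintro _ ⟨u, hu, rfl⟩
  obtain ⟨a₁, a₂, x, h⟩ := hγ u (hZ u hu).1 (hZ u hu).2
  refine ⟨a₁, a₂, x, ?_⟩
  funext s
  have h0 := h s.1 s.2
  show u s.1 = a₁ * γ₁ s.1 + a₂ * γ₂ s.1 + x * (χ s.1 - 1)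
  exact h0

end Glob

end Fermat.Agent.S56
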