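import Fermat.Agent.S56.h79_OrdKum
import Fermat.Agent.S56.h7_KumP

/-!
# S56, W2 row R3-ord: CLOSED (helper79)

`h12_R3_ord` : the statement of the row W2-ORD of helper12's MID skeleton, verbatim and without
any extra hypothesis: a space `W'` of tangent cocycles whose nonzero members give lifts over the
dual numbers with cyclotomic determinant and strictly ordinary at `p` (`p` odd), and which
contains no nonzero local coboundary at `p`, has rank at most `dim H⁰(G_p, ad⁰) + 1`.

Inputs: `h79_R3_ord_of_kum` (strict-ordinary unpacking, the ordinary core, ramification of the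
mod `p` cyclotomic character at `p`, the comparison with `h12_LocCobM` / `h12_H0M`) and
helper7's local Kummer theory at `p` (`h7_kum_p`: `dim_k Z¹(G_p, k(ω)) ≤ 3`).
-/

set_option autoImplicit false

namespace Fermat.Agent.S56

open Fermat.Agent.S53 Fermat.Agent.S53.Dict ExtCitation

local notation "M₂[" k "]" => Matrix (Fin 2) (Fin 2) k

section Rows

variable {k : Type} [Field k] [Finite k] (p : ℕ) [Fact p.Prime] [Algebra (ZMod p) k]
variable (rb : GQ →* M₂[k])

/-- (W2-ORD) strict-ordinary lifts at `p`. -/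
theorem h12_R3_ord (hp2 : p ≠ 2) (hdet : h12_DetCyc p rb)
    (hrb : GaloisFactorsThroughFiniteLevel rb)
    (W' : Submodule k (GQ → M₂[k])) (hW' : W' ≤ h40_TanZ rb)
    (hD : ∀ (a : GQ → M₂[k]) (ha : a ∈ W'), a ≠ 0 →
      (h40_tanRep rb hrb a (hW' ha)).DetIsCyclotomic p ∧
      (h40_tanRep rb hrb a (hW' ha)).IsStrictOrdinaryAt p)
    (h0 : ∀ a ∈ W', h12_LocCobM rb (pPrime p) a → a = 0) :
    Module.rank k W' ≤ ((Module.finrank k (h12_H0M rb (pPrime p)) + 1 : ℕ) : Cardinal) := by
  have hchar : CharP k p := charP_of_injective_algebraMap (algebraMap (ZMod p) k).injective p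
  exact h79_R3_ord_of_kum p rb hp2 (fun χ hχ => h7_kum_p p hp2 k χ hχ) hdet hrb W' hW' hD h0

end Rows

end Fermat.Agent.S56
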