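import Fermat.Agent.S56.h4_S56Of
import Fermat.Agent.S56.h70_Recip
import Fermat.Agent.S56.h52_TameRel
import Fermat.Agent.S56.h69_R1Final
import Fermat.Agent.S56.h40_W2Unip
import Fermat.Agent.S56.h79_OrdClosed
import Fermat.Agent.S56.h12_FlatAdapt

/-!
# S56 from the two statements that are still missing (helper12)

Every MID / W2 / W4 row is plugged in.  What remains are exactly two statements:

* `hbase` : the base case of the dévissage of the global Euler characteristic formula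
  (W1-BASE), in the quantifier shape of `h69_hEC_of_base`;
* `hflatloc` : the local flat bound (W3 FINAL, `sk_flat_local_bound` of the W3 skeleton).

`h12_midRows_of_base` : the MID rows from `hbase`;
`h12_R3_flat_of_loc` : the flat local bound in the MID shape from `hflatloc`;
`h12_S56_of_two` : the frozen statement S56 from `hbase` and `hflatloc`.
-/

set_option autoImplicit false
set_option linter.unusedSectionVars false
set_option linter.unusedVariables false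
set_option linter.style.haveILetI false

namespace Fermat.Agent.S56

open Fermat.Agent.S53 Fermat.Agent.S53.Dict ExtCitation groupCohomology Fermat.Agent.S55

local notation "M₂[" k "]" => Matrix (Fin 2) (Fin 2) k

/-- The MID rows, from the base case of W1 (`hbase`). -/
theorem h12_midRows_of_base (p : ℕ) [Fact p.Prime]
    (hbase : p ≠ 2 → ∀ F0 : IntermediateField ℚ (AlgebraicClosure ℚ), FiniteDimensional ℚ F0 →
      IsGalois ℚ F0 → (∃ ζ ∈ F0, IsPrimitiveRoot ζ p) →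
      ∃ T0 : Finset Nat.Primes, ∀ S : Finset Nat.Primes, T0 ⊆ S → pPrime p ∈ S →
        ∀ L₀ : h72_Lev S, L₀.F = F0 →
        ∀ C : Subgroup (GQ ⧸ L₀.U), IsCyclic C → (Nat.card C).Coprime p →
        ∀ (W : Type) [AddCommGroup W] [Module (ZMod p) W] [Finite W]
          (σ : Representation (ZMod p) C W),
          h72_delta S L₀ (Representation.coindV C.subtype σ)
            (Representation.coind C.subtype σ) = 0) :
    h4_MidRows p :=
  h4_midRows_of p
    (fun hp2 Sg hpS z hz hlev q₀ hq₀ hloc => h70_recip p hp2 Sg hpS z hz hlev q₀ hq₀ hloc)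
    (fun q hq A _ hA w hlev hadd => h52_tame_inv p q hq hA w hlev hadd)
    (fun {k} _ _ _ rb hp2 hdet hrb hH0M hH0N Smin' hpS hrbS =>
      h69_R1_of_base p rb (hbase hp2) hp2 hdet hrb hH0M hH0N Smin' hpS hrbS)
    (fun {k} _ _ rb hrb v W' hW' htr hunr h0 => h12_R3_unr rb hrb v W' hW' htr hunr h0)
    (fun {k} _ _ _ rb hp2 hrb v hv hram W' hW' htr hD h0 =>
      h12_R3_unip p rb hp2 hrb v hv hram W' hW' htr hD h0)

section Rows

variable {k : Type} [Field k] [Finite k] (p : ℕ) [Fact p.Prime] [Algebra (ZMod p) k]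
variable (rb : GQ →* M₂[k])

/-- **ROW W3-EXPORT** (skeleton statement of `h12_R3_flat`) from the local flat bound
(`sk_flat_local_bound` of the W3 skeleton) for this `k`. -/
theorem h12_R3_flat_of_loc
    (hflatloc : ∀ (rbl : h78_G p →* M₂[k]),
      (∀ (g : h78_G p) (ζ : PadicAlgCl p), ζ ^ p = 1 →
        ∃ n : ℕ, g ζ = ζ ^ n ∧ (rbl g).det = (n : k)) →
      ∀ W : Submodule k (h78_G p → M₂[k]),
      (∀ a ∈ W, ∀ s t, a (s * t) = a s * rbl t + rbl s * a t) →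
      (∀ a ∈ W, ∀ s, (a s * rbl s⁻¹).trace = 0) →
      (∀ a ∈ W, a ≠ 0 → h78_LocFlat p rbl a) →
      (∀ a ∈ W, (∃ X : M₂[k], ∀ s, a s = X * rbl s - rbl s * X) → a = 0) →
      Module.finrank k W ≤ Module.finrank k (h78_H0 p rbl) + 1)
    (hp2 : p ≠ 2) (hdet : h12_DetCyc p rb)
    (hrb : GaloisFactorsThroughFiniteLevel rb)
    (W' : Submodule k (GQ → M₂[k])) (hW' : W' ≤ h40_TanZ rb)
    (hD : ∀ (a : GQ → M₂[k]) (ha : a ∈ W'), a ≠ 0 →
      (h40_tanRep rb hrb a (hW' ha)).DetIsCyclotomic p ∧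
      (h40_tanRep rb hrb a (hW' ha)).IsFlatAt p)
    (h0 : ∀ a ∈ W', h12_LocCobM rb (pPrime p) a → a = 0) :
    Module.rank k W' ≤ ((Module.finrank k (h12_H0M rb (pPrime p)) + 1 : ℕ) : Cardinal) :=
  haveI : CharP k p := charP_of_injective_algebraMap (algebraMap (ZMod p) k).injective p
  h12_R3_flat_of p rb hflatloc hrb W' hW' hD h0

end Rows

section Top

open Polynomial IsLocalRing ResidualGaloisRep

variable {𝒪 : Type} [CommRing 𝒪] [IsDomain 𝒪] [IsDiscreteValuationRing 𝒪]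
  [IsAdicComplete (maximalIdeal 𝒪) 𝒪] [Finite (ResidueField 𝒪)]

/-- **The frozen statement S56 from the two missing statements** `hbase` (W1-BASE) and
`hflatloc` (W3 FINAL). -/
theorem h12_S56_of_two (p : ℕ) [Fact p.Prime] (hp2 : p ≠ 2) (hp𝒪 : (p : 𝒪) ∈ maximalIdeal 𝒪)
    (ρbar : ResidualGaloisRep (ResidueField 𝒪))
    (habs : ρbar.IsAbsolutelyIrreducible)
    (hdet : (GaloisRepAdic.ofResidualGaloisRep ρbar).DetIsCyclotomic p)
    (hsplit : ∀ σ : AlgebraicClosure ℚ ≃ₐ[ℚ] AlgebraicClosure ℚ,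
      ∃ α β : ResidueField 𝒪, LinearMap.charpoly (ρbar.ρ σ) = (X - C α) * (X - C β))
    (hTW : ∀ (K : Type) [Field K] [Algebra (ResidueField 𝒪) K]
      (G : Subgroup (AlgebraicClosure ℚ ≃ₐ[ℚ] AlgebraicClosure ℚ)), G.index = 2 →
      ∀ V : Submodule K (ρbar.baseChange K).V,
        (∀ σ ∈ G, ∀ x ∈ V, (ρbar.baseChange K).ρ σ x ∈ V) → V = ⊥ ∨ V = ⊤)
    (S Smin : Finset ℕ) (hpSmin : p ∈ Smin) (hSmin : Smin ⊆ S) (hS : ∀ q ∈ S, q.Prime)
    (hmin : ∀ q : ℕ, q.Prime → q ≠ p → (q ∈ Smin ↔ ¬ ρbar.IsUnramifiedAt q))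
    (hbase : ∀ F0 : IntermediateField ℚ (AlgebraicClosure ℚ), FiniteDimensional ℚ F0 →
      IsGalois ℚ F0 → (∃ ζ ∈ F0, IsPrimitiveRoot ζ p) →
      ∃ T0 : Finset Nat.Primes, ∀ S : Finset Nat.Primes, T0 ⊆ S → pPrime p ∈ S →
        ∀ L₀ : h72_Lev S, L₀.F = F0 →
        ∀ C : Subgroup (GQ ⧸ L₀.U), IsCyclic C → (Nat.card C).Coprime p →
        ∀ (W : Type) [AddCommGroup W] [Module (ZMod p) W] [Finite W]
          (σ : Representation (ZMod p) C W),
          h72_delta S L₀ (Representation.coindV C.subtype σ)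
            (Representation.coind C.subtype σ) = 0)
    (hflatloc : ∀ {k : Type} [Field k] [Finite k] [CharP k p] (rbl : h78_G p →* M₂[k]),
      (∀ (g : h78_G p) (ζ : PadicAlgCl p), ζ ^ p = 1 →
        ∃ n : ℕ, g ζ = ζ ^ n ∧ (rbl g).det = (n : k)) →
      ∀ W : Submodule k (h78_G p → M₂[k]),
      (∀ a ∈ W, ∀ s t, a (s * t) = a s * rbl t + rbl s * a t) →
      (∀ a ∈ W, ∀ s, (a s * rbl s⁻¹).trace = 0) →
      (∀ a ∈ W, a ≠ 0 → h78_LocFlat p rbl a) →
      (∀ a ∈ W, (∃ X : M₂[k], ∀ s, a s = X * rbl s - rbl s * X) → a = 0) →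
      Module.finrank k W ≤ Module.finrank k (h78_H0 p rbl) + 1) :
    (∃ r : ℕ, ∀ n : ℕ, ∃ qv : Fin r → ℕ, Function.Injective qv ∧
      (∀ i, (qv i).Prime ∧ qv i ∉ S ∧ p ^ (n + 1) ∣ qv i - 1) ∧
      (∀ i, ∀ P : ValuationSubring (AlgebraicClosure ℚ), P.LiesOverPrime (qv i) →
        ∀ φ : AlgebraicClosure ℚ ≃ₐ[ℚ] AlgebraicClosure ℚ, P.IsFrobeniusAt φ (qv i) →
          ∃ α β : ResidueField 𝒪, α ≠ β ∧ LinearMap.charpoly (ρbar.ρ φ) = (X - C α) * (X - C β)) ∧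
      ∀ DQ : GaloisRep.DeformationRingData 𝒪 ρbar (fun _A _ _ _ ρ =>
          GaloisRep.strictOrdinaryCondition 𝒪 p (Smin ∪ Finset.univ.image qv) ρ ∧
            ∀ q ∈ Smin, q.Prime → q ≠ p → ρ.IsUnipotentOnInertiaAt q),
        ∃ γ : MvPowerSeries (Fin r) 𝒪 →ₐ[𝒪] DQ.R, Function.Surjective γ) ∧
    (∃ r : ℕ, ∀ n : ℕ, ∃ qv : Fin r → ℕ, Function.Injective qv ∧
      (∀ i, (qv i).Prime ∧ qv i ∉ S ∧ p ^ (n + 1) ∣ qv i - 1) ∧
      (∀ i, ∀ P : ValuationSubring (AlgebraicClosure ℚ), P.LiesOverPrime (qv i) →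
        ∀ φ : AlgebraicClosure ℚ ≃ₐ[ℚ] AlgebraicClosure ℚ, P.IsFrobeniusAt φ (qv i) →
          ∃ α β : ResidueField 𝒪, α ≠ β ∧ LinearMap.charpoly (ρbar.ρ φ) = (X - C α) * (X - C β)) ∧
      ∀ DQ : GaloisRep.DeformationRingData 𝒪 ρbar (fun _A _ _ _ ρ =>
          GaloisRep.flatCondition 𝒪 p (Smin ∪ Finset.univ.image qv) ρ ∧
            ∀ q ∈ Smin, q.Prime → q ≠ p → ρ.IsUnipotentOnInertiaAt q),
        ∃ γ : MvPowerSeries (Fin r) 𝒪 →ₐ[𝒪] DQ.R, Function.Surjective γ) :=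
  h4_S56_of p hp2 hp𝒪 ρbar habs hdet hsplit hTW S Smin hpSmin hSmin hS hmin
    (h12_midRows_of_base p (fun _ => hbase))
    (fun {k} _ _ _ rb hp2 hdet hrb W' hW' hD h0 => h12_R3_ord p rb hp2 hdet hrb W' hW' hD h0)
    (fun {k} _ _ _ rb hp2 hdet hrb W' hW' hD h0 =>
      haveI : CharP k p := charP_of_injective_algebraMap (algebraMap (ZMod p) k).injective p
      h12_R3_flat_of_loc p rb (fun rbl => hflatloc rbl) hp2 hdet hrb W' hW' hD h0)

end Top

end Fermat.Agent.S56
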