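import Mathlib

set_option autoImplicit false

/-!
# Characteristic polynomials: exact sequences, lattices, bases (S56 / W1, HERBRAND block)

Mathlib-only toolkit used to compute the characteristic polynomial of an automorphism on the
`S`-unit lattice of a number field.

* `h13_charpoly_of_exact` : for a short exact sequence `0 → N → M → Q → 0` of finite free modules
  with compatible endomorphisms, `charpoly f = charpoly f_N * charpoly f_Q`.
* `h13_charpoly_map_of_basis` : if a linear map `g : M → V` sends an `R`-basis of `M` to an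
  `A`-basis of `V` and intertwines `f` with `τ`, then `charpoly τ = map (charpoly f)`.
* `h13_charpoly_eq_of_injective` : an injective equivariant map between free `ℤ`-modules of the
  same finite rank preserves the characteristic polynomial.
-/

namespace Fermat.Agent.S56

open Module

section Exact

variable {R : Type*} [CommRing R]
variable {N M Q : Type*} [AddCommGroup N] [AddCommGroup M] [AddCommGroup Q]
  [Module R N] [Module R M] [Module R Q]

/-- The linear equivalence `N × Q ≃ M` attached to a short exact sequence with a section. -/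
noncomputable def h13_splitEquiv (i : N →ₗ[R] M) (q : M →ₗ[R] Q) (s : Q →ₗ[R] M)
    (hi : Function.Injective i) (hex : Function.Exact i q) (hs : ∀ x, q (s x) = x) :
    (N × Q) ≃ₗ[R] M :=
  LinearEquiv.ofBijective (i.coprod s) (by
    constructor
    · rw [← LinearMap.ker_eq_bot, LinearMap.ker_eq_bot']
      rintro ⟨n, x⟩ h
      rw [LinearMap.coprod_apply] at h
      have h1 : q (i n + s x) = 0 := by rw [h, map_zero]
      rw [map_add, hs, hex.apply_apply_eq_zero, zero_add] at h1
      subst h1
      rw [map_zero, add_zero] at h
      have h2 : n = 0 := hi (by rw [h, map_zero])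
      rw [h2]; rfl
    · intro m
      have h1 : q (m - s (q m)) = 0 := by rw [map_sub, hs, sub_self]
      obtain ⟨n, hn⟩ := (hex (m - s (q m))).1 h1
      refine ⟨(n, q m), ?_⟩
      rw [LinearMap.coprod_apply, hn]
      abel)

theorem h13_splitEquiv_apply (i : N →ₗ[R] M) (q : M →ₗ[R] Q) (s : Q →ₗ[R] M)
    (hi : Function.Injective i) (hex : Function.Exact i q) (hs : ∀ x, q (s x) = x) (y : N × Q) :
    h13_splitEquiv i q s hi hex hs y = i y.1 + s y.2 := rfl

theorem h13_splitEquiv_symm_snd (i : N →ₗ[R] M) (q : M →ₗ[R] Q) (s : Q →ₗ[R] M)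
    (hi : Function.Injective i) (hex : Function.Exact i q) (hs : ∀ x, q (s x) = x) (m : M) :
    ((h13_splitEquiv i q s hi hex hs).symm m).2 = q m := by
  have h := (h13_splitEquiv i q s hi hex hs).apply_symm_apply m
  rw [h13_splitEquiv_apply] at h
  have h1 := congrArg q h
  rw [map_add, hs, hex.apply_apply_eq_zero, zero_add] at h1
  exact h1

theorem h13_splitEquiv_symm_i (i : N →ₗ[R] M) (q : M →ₗ[R] Q) (s : Q →ₗ[R] M)
    (hi : Function.Injective i) (hex : Function.Exact i q) (hs : ∀ x, q (s x) = x) (n : N) :
    (h13_splitEquiv i q s hi hex hs).symm (i n) = (n, 0) := by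
  rw [LinearEquiv.symm_apply_eq, h13_splitEquiv_apply, map_zero, add_zero]

/-- A surjection onto a free module has a linear section. -/
theorem h13_exists_section [Module.Free R Q] (q : M →ₗ[R] Q) (hq : Function.Surjective q) :
    ∃ s : Q →ₗ[R] M, ∀ x, q (s x) = x := by
  obtain ⟨s, hs⟩ := Module.projective_lifting_property q (LinearMap.id : Q →ₗ[R] Q) hq
  exact ⟨s, fun x => by simpa using congrArg (fun f : Q →ₗ[R] Q => f x) hs⟩

/-- **Multiplicativity of the characteristic polynomial in short exact sequences** of finite free
modules. -/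
theorem h13_charpoly_of_exact [Module.Free R N] [Module.Finite R N] [Module.Free R M]
    [Module.Finite R M] [Module.Free R Q] [Module.Finite R Q]
    (i : N →ₗ[R] M) (q : M →ₗ[R] Q) (hi : Function.Injective i) (hq : Function.Surjective q)
    (hex : Function.Exact i q)
    (fN : N →ₗ[R] N) (f : M →ₗ[R] M) (fQ : Q →ₗ[R] Q)
    (h1 : ∀ n, f (i n) = i (fN n)) (h2 : ∀ m, q (f m) = fQ (q m)) :
    f.charpoly = fN.charpoly * fQ.charpoly := by
  classical
  obtain ⟨s, hs⟩ := h13_exists_section q hq
  let e := h13_splitEquiv i q s hi hex hs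
  let bN := Module.Free.chooseBasis R N
  let bQ := Module.Free.chooseBasis R Q
  let b : Basis (Module.Free.ChooseBasisIndex R N ⊕ Module.Free.ChooseBasisIndex R Q) R M := (bN.prod bQ).map e
  rw [← LinearMap.charpoly_toMatrix fN bN, ← LinearMap.charpoly_toMatrix fQ bQ,
    ← LinearMap.charpoly_toMatrix f b, ← Matrix.charpoly_fromBlocks_zero₂₁
      (LinearMap.toMatrix bN bN fN) (LinearMap.toMatrix b b f).toBlocks₁₂
      (LinearMap.toMatrix bQ bQ fQ)]
  congr 1
  ext a c
  rcases c with k | j
  · -- column in `N`
    have hb : b (Sum.inl k) = i (bN k) := by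
      simp only [b, Basis.map_apply, Basis.prod_apply, Sum.elim_inl]
      change e (bN k, 0) = _
      rw [show e (bN k, 0) = i (bN k) + s 0 from rfl, map_zero, add_zero]
    have hrepr : b.repr (f (b (Sum.inl k))) = (bN.prod bQ).repr (fN (bN k), 0) := by
      rw [hb, h1]
      simp only [b, Basis.map_repr, LinearEquiv.trans_apply]
      rw [show e.symm (i (fN (bN k))) = (fN (bN k), 0) from
        h13_splitEquiv_symm_i i q s hi hex hs _]
    rcases a with k' | j'
    · rw [LinearMap.toMatrix_apply, hrepr, Matrix.fromBlocks_apply₁₁, LinearMap.toMatrix_apply,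
        Basis.prod_repr_inl]
    · rw [LinearMap.toMatrix_apply, hrepr, Matrix.fromBlocks_apply₂₁, Basis.prod_repr_inr]
      simp
  · -- column in `Q`
    rcases a with k' | j'
    · rw [Matrix.fromBlocks_apply₁₂]
      rfl
    · have hb : b (Sum.inr j) = s (bQ j) := by
        simp only [b, Basis.map_apply, Basis.prod_apply, Sum.elim_inr]
        change e (0, bQ j) = _
        rw [show e (0, bQ j) = i 0 + s (bQ j) from rfl, map_zero, zero_add]
      rw [LinearMap.toMatrix_apply, Matrix.fromBlocks_apply₂₂, LinearMap.toMatrix_apply, hb]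
      simp only [b, Basis.map_repr, LinearEquiv.trans_apply]
      rw [Basis.prod_repr_inr, show (e.symm (f (s (bQ j)))).2 = q (f (s (bQ j))) from
        h13_splitEquiv_symm_snd i q s hi hex hs _, h2, hs]

end Exact

section BasisMap

variable {R A : Type*} [CommRing R] [CommRing A] [Algebra R A]
variable {M V : Type*} [AddCommGroup M] [AddCommGroup V] [Module R M] [Module A V] [Module R V]
  [IsScalarTower R A V]

/-- If `g : M → V` sends an `R`-basis of `M` to an `A`-basis of `V` and intertwines `f` and `τ`,
then `charpoly τ` is the image of `charpoly f`. -/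
theorem h13_charpoly_map_of_basis {ι : Type*} [Fintype ι] [DecidableEq ι]
    (b : Basis ι R M) (B : Basis ι A V) (g : M →ₗ[R] V) (hg : ∀ i, g (b i) = B i)
    (f : M →ₗ[R] M) (τ : V →ₗ[A] V) (h : ∀ m, τ (g m) = g (f m)) :
    haveI : Module.Free R M := Module.Free.of_basis b
    haveI : Module.Finite R M := Module.Finite.of_basis b
    haveI : Module.Free A V := Module.Free.of_basis B
    haveI : Module.Finite A V := Module.Finite.of_basis B
    τ.charpoly = f.charpoly.map (algebraMap R A) := by
  have : Module.Free R M := Module.Free.of_basis b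
  have : Module.Finite R M := Module.Finite.of_basis b
  have : Module.Free A V := Module.Free.of_basis B
  have : Module.Finite A V := Module.Finite.of_basis B
  change τ.charpoly = f.charpoly.map (algebraMap R A)
  rw [← LinearMap.charpoly_toMatrix τ B, ← LinearMap.charpoly_toMatrix f b,
    ← Matrix.charpoly_map]
  congr 1
  ext i j
  rw [LinearMap.toMatrix_apply, Matrix.map_apply, LinearMap.toMatrix_apply, ← hg j, h]
  have h3 : g (f (b j)) = ∑ k, (algebraMap R A (b.repr (f (b j)) k)) • B k := by
    conv_lhs => rw [← b.sum_repr (f (b j))]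
    rw [map_sum]
    refine Finset.sum_congr rfl fun k _ => ?_
    rw [map_smul, hg, algebraMap_smul]
  rw [h3, map_sum, Finset.sum_apply']
  simp only [map_smul, Basis.repr_self, Finsupp.smul_apply, smul_eq_mul]
  rw [Finset.sum_eq_single i]
  · simp
  · intro k _ hk
    simp [hk]
  · intro hi
    exact absurd (Finset.mem_univ i) hi

end BasisMap

section Lattice

variable {M M' : Type*} [AddCommGroup M] [AddCommGroup M']
  [Module.Free ℤ M] [Module.Finite ℤ M] [Module.Free ℤ M'] [Module.Finite ℤ M']

/-- An injective equivariant map between free `ℤ`-modules of the same finite rank preserves the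
characteristic polynomial ("commensurable lattices have the same characteristic polynomial"). -/
theorem h13_charpoly_eq_of_injective (g : M →ₗ[ℤ] M') (hg : Function.Injective g)
    (hr : Module.finrank ℤ M = Module.finrank ℤ M')
    (f : M →ₗ[ℤ] M) (f' : M' →ₗ[ℤ] M') (h : ∀ m, f' (g m) = g (f m)) :
    f.charpoly = f'.charpoly := by
  have hinj : Function.Injective (g.baseChange ℚ) :=
    Module.Flat.lTensor_preserves_injective_linearMap g hg
  have hfr : Module.finrank ℚ (TensorProduct ℤ ℚ M) = Module.finrank ℚ (TensorProduct ℤ ℚ M') := by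
    rw [Module.finrank_baseChange, Module.finrank_baseChange, hr]
  have hsurj : Function.Surjective (g.baseChange ℚ) :=
    (LinearMap.injective_iff_surjective_of_finrank_eq_finrank hfr).1 hinj
  let E : TensorProduct ℤ ℚ M ≃ₗ[ℚ] TensorProduct ℤ ℚ M' :=
    LinearEquiv.ofBijective (g.baseChange ℚ) ⟨hinj, hsurj⟩
  have hconj : E.conj (f.baseChange ℚ) = f'.baseChange ℚ := by
    apply LinearMap.ext
    intro y
    obtain ⟨x, rfl⟩ := E.surjective y
    rw [LinearEquiv.conj_apply_apply, LinearEquiv.symm_apply_apply]
    change (g.baseChange ℚ) ((f.baseChange ℚ) x) = (f'.baseChange ℚ) ((g.baseChange ℚ) x)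
    induction x using TensorProduct.induction_on with
    | zero => simp
    | tmul a m => simp [LinearMap.baseChange_tmul, h]
    | add x y hx hy => rw [map_add, map_add, map_add, map_add, hx, hy]
  have h3 := LinearEquiv.charpoly_conj E (f.baseChange ℚ)
  rw [hconj, LinearMap.charpoly_baseChange, LinearMap.charpoly_baseChange] at h3
  exact (Polynomial.map_injective _ (RingHom.injective_int (algebraMap ℤ ℚ)) h3).symm

end Lattice

section BaseChange

open scoped TensorProduct

variable {R : Type*} [CommRing R] (K : Type*) [Field K] [Algebra R K]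
variable {N M Q : Type*} [AddCommGroup N] [AddCommGroup M] [AddCommGroup Q]
  [Module R N] [Module R M] [Module R Q]

/-- In a short exact sequence with free quotient, base change preserves injectivity of the
first map (the sequence splits). -/
theorem h13_baseChange_injective [Module.Free R Q] (i : N →ₗ[R] M) (q : M →ₗ[R] Q)
    (hi : Function.Injective i) (hq : Function.Surjective q) (hex : Function.Exact i q) :
    Function.Injective (i.baseChange K) := by
  obtain ⟨s, hs⟩ := h13_exists_section q hq
  let e := h13_splitEquiv i q s hi hex hs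
  let r : M →ₗ[R] N := (LinearMap.fst R N Q) ∘ₗ e.symm.toLinearMap
  have hr : r ∘ₗ i = LinearMap.id := by
    apply LinearMap.ext
    intro n
    simp only [r, LinearMap.comp_apply, LinearEquiv.coe_coe, LinearMap.id_apply]
    rw [show e.symm (i n) = (n, 0) from h13_splitEquiv_symm_i i q s hi hex hs n]
    rfl
  have h2 : (r.baseChange K) ∘ₗ (i.baseChange K) = LinearMap.id := by
    rw [← LinearMap.baseChange_comp, hr, LinearMap.baseChange_id]
  intro x y hxy
  have h3 := congrArg (r.baseChange K) hxy
  rw [← LinearMap.comp_apply, ← LinearMap.comp_apply, h2] at h3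
  exact h3

/-- The characteristic polynomial of a base change to a field, along a short exact sequence with
finite free quotient: `charpoly (f ⊗ K) = charpoly (f_N ⊗ K) * (charpoly f_Q mod K)`. -/
theorem h13_charpoly_baseChange_of_exact [Module.Finite R N] [Module.Finite R M]
    [Module.Free R Q] [Module.Finite R Q]
    (i : N →ₗ[R] M) (q : M →ₗ[R] Q) (hi : Function.Injective i) (hq : Function.Surjective q)
    (hex : Function.Exact i q)
    (fN : N →ₗ[R] N) (f : M →ₗ[R] M) (fQ : Q →ₗ[R] Q)
    (h1 : ∀ n, f (i n) = i (fN n)) (h2 : ∀ m, q (f m) = fQ (q m)) :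
    (f.baseChange K).charpoly = (fN.baseChange K).charpoly * fQ.charpoly.map (algebraMap R K) := by
  rw [← LinearMap.charpoly_baseChange]
  refine h13_charpoly_of_exact (i.baseChange K) (q.baseChange K)
    (h13_baseChange_injective K i q hi hq hex) ?_ ?_ _ _ _ ?_ ?_
  · rw [LinearMap.baseChange_eq_ltensor]
    exact LinearMap.lTensor_surjective K hq
  · rw [LinearMap.baseChange_eq_ltensor, LinearMap.baseChange_eq_ltensor]
    exact lTensor_exact K hex hq
  · intro n
    have h3 : f ∘ₗ i = i ∘ₗ fN := LinearMap.ext h1
    rw [← LinearMap.comp_apply, ← LinearMap.baseChange_comp, h3, LinearMap.baseChange_comp]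
    rfl
  · intro m
    have h3 : q ∘ₗ f = fQ ∘ₗ q := LinearMap.ext h2
    rw [← LinearMap.comp_apply, ← LinearMap.baseChange_comp, h3, LinearMap.baseChange_comp]
    rfl

end BaseChange

end Fermat.Agent.S56
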