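import Mathlib
import Fermat.Agent.S56.h13_CharpolyExact

set_option autoImplicit false

/-!
# The characteristic polynomial of an automorphism on the unit lattice
(S56 / W1, HERBRAND block; Mathlib only)

`F` a number field, `σ : F ≃ₐ[k] F`.  On `L_O := (𝓞 F)ˣ / torsion` (a free `ℤ`-module of finite
rank) `σ` acts by `h13_unitsModTorsionEnd σ`, and

`charpoly (σ | L_O) * (X - 1) = charpoly (σ | ℤ^{InfinitePlace F})`

(`h13_units_charpoly`), where `σ` permutes the infinite places: `h13_permLin ℤ (σ • ·)`.
This is the characteristic-polynomial form of Herbrand's theorem on the Galois module structure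
of the units.
-/

namespace Fermat.Agent.S56

open NumberField NumberField.Units NumberField.InfinitePlace Polynomial
open NumberField.Units.dirichletUnitTheorem

section Perm

variable (R : Type*) [CommRing R] {X : Type*}

/-- The permutation representation: `(P y) x = y (π⁻¹ x)`. -/
noncomputable def h13_permLin (π : Equiv.Perm X) : (X → R) →ₗ[R] (X → R) :=
  LinearMap.funLeft R R π.symm

theorem h13_permLin_apply (π : Equiv.Perm X) (y : X → R) (x : X) :
    h13_permLin R π y x = y (π.symm x) := rfl

theorem h13_permLin_single [DecidableEq X] (π : Equiv.Perm X) (x : X) (r : R) :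
    h13_permLin R π (Pi.single x r) = Pi.single (π x) r := by
  funext y
  rw [h13_permLin_apply]
  by_cases h : y = π x
  · subst h
    simp
  · have h' : π.symm y ≠ x := fun e => h (by rw [← e]; simp)
    rw [Pi.single_eq_of_ne h', Pi.single_eq_of_ne h]

theorem h13_permLin_pow (π : Equiv.Perm X) (n : ℕ) :
    h13_permLin R π ^ n = h13_permLin R (π ^ n) := by
  induction n with
  | zero => rfl
  | succ n ih =>
    rw [pow_succ, ih]
    apply LinearMap.ext
    intro y
    funext x
    rw [Module.End.mul_apply, h13_permLin_apply, h13_permLin_apply, h13_permLin_apply, pow_succ]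
    rfl

/-- Base change of the characteristic polynomial of a permutation representation. -/
theorem h13_permLin_charpoly_map (A : Type*) [CommRing A] [Algebra R A] [Fintype X]
    (π : Equiv.Perm X) :
    (h13_permLin A π).charpoly = ((h13_permLin R π).charpoly).map (algebraMap R A) := by
  classical
  refine h13_charpoly_map_of_basis (Pi.basisFun R X) (Pi.basisFun A X)
    ((Algebra.linearMap R A).compLeft X) ?_ (h13_permLin R π) (h13_permLin A π) ?_
  · intro i
    funext x
    simp only [Pi.basisFun_apply, LinearMap.compLeft_apply, Function.comp_apply,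
      Algebra.linearMap_apply]
    by_cases h : x = i
    · subst h; simp
    · rw [Pi.single_eq_of_ne h, Pi.single_eq_of_ne h, map_zero]
  · intro m
    funext x
    rfl

end Perm

section Units

variable {k F : Type*} [Field k] [Field F] [Algebra k F]

/-- `σ` acting on the unit group of `𝓞 F`. -/
noncomputable def h13_unitsMap (σ : F ≃ₐ[k] F) : (𝓞 F)ˣ →* (𝓞 F)ˣ :=
  Units.map (MulDistribMulAction.toMonoidHom (𝓞 F) σ)

theorem h13_unitsMap_coe (σ : F ≃ₐ[k] F) (u : (𝓞 F)ˣ) :
    ((h13_unitsMap σ u : 𝓞 F) : F) = σ ((u : 𝓞 F) : F) := rfl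

theorem h13_unitsMap_mem_torsion (σ : F ≃ₐ[k] F) (u : (𝓞 F)ˣ) (hu : u ∈ torsion F) :
    h13_unitsMap σ u ∈ torsion F := by
  rw [torsion, CommGroup.mem_torsion] at hu ⊢
  exact (h13_unitsMap σ).isOfFinOrder hu

/-- Units modulo torsion, written additively (a type synonym, so that instance synthesis is
robust; same pattern as `h25_M` of S14). -/
def h13_UM (F : Type*) [Field F] : Type _ := Additive ((𝓞 F)ˣ ⧸ torsion F)

noncomputable instance h13_UM_addCommGroup (F : Type*) [Field F] : AddCommGroup (h13_UM F) :=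
  inferInstanceAs (AddCommGroup (Additive ((𝓞 F)ˣ ⧸ torsion F)))

instance h13_UM_free (F : Type*) [Field F] [NumberField F] : Module.Free ℤ (h13_UM F) :=
  NumberField.Units.instFreeIntAdditiveQuotientUnitsRingOfIntegersSubgroupTorsion F

instance h13_UM_finite (F : Type*) [Field F] [NumberField F] : Module.Finite ℤ (h13_UM F) :=
  NumberField.Units.instFiniteIntAdditiveQuotientUnitsRingOfIntegersSubgroupTorsion F

/-- The class of a unit modulo torsion. -/
def h13_cls (u : (𝓞 F)ˣ) : h13_UM F := Additive.ofMul (QuotientGroup.mk u)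

theorem h13_cls_surjective : Function.Surjective (h13_cls (F := F)) := by
  intro x
  obtain ⟨u, hu⟩ := QuotientGroup.mk_surjective (Additive.toMul x : (𝓞 F)ˣ ⧸ torsion F)
  exact ⟨u, by unfold h13_cls; rw [hu]; rfl⟩

theorem h13_cls_mul (u v : (𝓞 F)ˣ) : h13_cls (u * v) = h13_cls u + h13_cls v := rfl

theorem h13_cls_eq_zero_iff (u : (𝓞 F)ˣ) : h13_cls u = 0 ↔ u ∈ torsion F := by
  unfold h13_cls
  rw [← QuotientGroup.eq_one_iff]
  rfl

/-- `σ` acting on `(𝓞 F)ˣ / torsion`, as a `ℤ`-linear endomorphism of the additive group. -/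
noncomputable def h13_unitsModTorsionEnd (σ : F ≃ₐ[k] F) : h13_UM F →ₗ[ℤ] h13_UM F :=
  AddMonoidHom.toIntLinearMap (show h13_UM F →+ h13_UM F from
    MonoidHom.toAdditive (QuotientGroup.map (torsion F) (torsion F) (h13_unitsMap σ)
      (fun u hu => h13_unitsMap_mem_torsion σ u hu)))

theorem h13_unitsModTorsionEnd_cls (σ : F ≃ₐ[k] F) (u : (𝓞 F)ˣ) :
    h13_unitsModTorsionEnd σ (h13_cls u) = h13_cls (h13_unitsMap σ u) := rfl

/-- The logarithmic embedding on units modulo torsion, as a `ℤ`-linear map. -/
noncomputable def h13_logLin (F : Type*) [Field F] [NumberField F] : h13_UM F →ₗ[ℤ] logSpace F :=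
  AddMonoidHom.toIntLinearMap (show h13_UM F →+ logSpace F from logEmbeddingQuot F)

theorem h13_logLin_cls [NumberField F] (u : (𝓞 F)ˣ) :
    h13_logLin F (h13_cls u) = logEmbedding F (Additive.ofMul u) := rfl

/-- Mathlib's basis of the units modulo torsion, on the synonym. -/
noncomputable def h13_UM_basis (F : Type*) [Field F] [NumberField F] :
    Module.Basis (Fin (rank F)) ℤ (h13_UM F) :=
  basisModTorsion F

theorem h13_logLin_basis [NumberField F] (i : Fin (rank F)) :
    h13_logLin F (h13_UM_basis F i) = ((basisUnitLattice F i : unitLattice F) : logSpace F) := rfl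

variable [NumberField F]

open scoped Classical

/-- The full logarithmic vector of a unit. -/
noncomputable def h13_logVec (u : (𝓞 F)ˣ) : InfinitePlace F → ℝ :=
  fun w => mult w * Real.log (w (u : F))

theorem h13_logVec_sum (u : (𝓞 F)ˣ) : ∑ w, h13_logVec u w = 0 := sum_mult_mul_log u

/-- Equivariance of the logarithmic vector. -/
theorem h13_logVec_unitsMap (σ : F ≃ₐ[k] F) (u : (𝓞 F)ˣ) :
    h13_logVec (h13_unitsMap σ u) = h13_permLin ℝ (MulAction.toPerm σ) (h13_logVec u) := by
  funext w
  rw [h13_permLin_apply]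
  have h1 : (MulAction.toPerm σ : Equiv.Perm (InfinitePlace F)).symm w = σ⁻¹ • w := rfl
  rw [h1]
  unfold h13_logVec
  have h2 : mult (σ⁻¹ • w) = mult w := by
    unfold mult
    rw [isReal_smul_iff]
  rw [h2]
  rfl

/-- Restriction `ℝ^{places} → logSpace`. -/
noncomputable def h13_resLog : (InfinitePlace F → ℝ) →ₗ[ℝ] logSpace F :=
  LinearMap.funLeft ℝ ℝ (fun w : {w : InfinitePlace F // w ≠ w₀} => w.1)

theorem h13_resLog_apply (y : InfinitePlace F → ℝ) (w : {w : InfinitePlace F // w ≠ w₀}) :
    h13_resLog y w = y w.1 := rfl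

theorem h13_resLog_logVec (u : (𝓞 F)ˣ) :
    h13_resLog (h13_logVec u) = logEmbedding F (Additive.ofMul u) := rfl

/-- Extension `logSpace → ℝ^{places}` with total sum `0`. -/
noncomputable def h13_extLog : logSpace F →ₗ[ℝ] (InfinitePlace F → ℝ) where
  toFun y w := if h : w = w₀ then - ∑ w', y w' else y ⟨w, h⟩
  map_add' y z := by
    funext w
    by_cases h : w = w₀
    · simp only [h, dite_true, Pi.add_apply, Finset.sum_add_distrib, neg_add]
    · simp only [h, dite_false, Pi.add_apply]
  map_smul' c y := by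
    funext w
    by_cases h : w = w₀
    · simp only [h, dite_true, Pi.smul_apply, smul_eq_mul, RingHom.id_apply, Finset.mul_sum,
        mul_neg]
    · simp only [h, dite_false, Pi.smul_apply, RingHom.id_apply]

theorem h13_resLog_extLog (y : logSpace F) : h13_resLog (h13_extLog y) = y := by
  funext w
  rw [h13_resLog_apply]
  change (if h : w.1 = w₀ then - ∑ w', y w' else y ⟨w.1, h⟩) = y w
  rw [dif_neg w.2]

theorem h13_sum_extLog (y : logSpace F) : ∑ w, h13_extLog y w = 0 := by
  rw [Fintype.sum_eq_add_sum_subtype_ne _ w₀]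
  have h1 : h13_extLog y w₀ = - ∑ w', y w' := by
    change (if h : (w₀ : InfinitePlace F) = w₀ then - ∑ w', y w' else y ⟨w₀, h⟩) = _
    rw [dif_pos rfl]
  have h2 : ∀ w : {w : InfinitePlace F // w ≠ w₀}, h13_extLog y w.1 = y w := fun w =>
    congrFun (h13_resLog_extLog y) w
  rw [h1, Finset.sum_congr rfl (fun w _ => h2 w)]
  ring

theorem h13_extLog_resLog (x : InfinitePlace F → ℝ) (hx : ∑ w, x w = 0) :
    h13_extLog (h13_resLog x) = x := by
  funext w
  change (if h : w = w₀ then - ∑ w', h13_resLog x w' else h13_resLog x ⟨w, h⟩) = x w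
  by_cases h : w = w₀
  · rw [dif_pos h]
    rw [Fintype.sum_eq_add_sum_subtype_ne _ w₀] at hx
    rw [h]
    have h3 : ∑ w' : {w : InfinitePlace F // w ≠ w₀}, h13_resLog x w' =
        ∑ w' : {w : InfinitePlace F // w ≠ w₀}, x w'.1 := rfl
    rw [h3]
    linarith
  · rw [dif_neg h]
    rfl

/-- The sum map. -/
noncomputable def h13_sumLin : (InfinitePlace F → ℝ) →ₗ[ℝ] ℝ where
  toFun x := ∑ w, x w
  map_add' x y := by simp [Finset.sum_add_distrib]
  map_smul' c x := by simp [Finset.mul_sum]

theorem h13_sumLin_apply (x : InfinitePlace F → ℝ) : h13_sumLin x = ∑ w, x w := rfl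

theorem h13_sumLin_perm (π : Equiv.Perm (InfinitePlace F)) (x : InfinitePlace F → ℝ) :
    h13_sumLin (h13_permLin ℝ π x) = h13_sumLin x := by
  rw [h13_sumLin_apply, h13_sumLin_apply]
  exact Equiv.sum_comp π.symm x

/-- The endomorphism of `logSpace` induced by a permutation of the places. -/
noncomputable def h13_logEnd (π : Equiv.Perm (InfinitePlace F)) : logSpace F →ₗ[ℝ] logSpace F :=
  h13_resLog ∘ₗ h13_permLin ℝ π ∘ₗ h13_extLog

theorem h13_charpoly_perm_real (π : Equiv.Perm (InfinitePlace F)) :
    (h13_permLin ℝ π).charpoly = (h13_logEnd π).charpoly * (X - 1) := by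
  have hex : Function.Exact (h13_extLog (F := F)) (h13_sumLin (F := F)) := by
    intro x
    constructor
    · intro hx
      exact ⟨h13_resLog x, h13_extLog_resLog x hx⟩
    · rintro ⟨y, rfl⟩
      exact h13_sum_extLog y
  have hinj : Function.Injective (h13_extLog (F := F)) := by
    intro y z h
    rw [← h13_resLog_extLog y, ← h13_resLog_extLog z, h]
  have hsurj : Function.Surjective (h13_sumLin (F := F)) := by
    classical
    intro c
    refine ⟨Pi.single w₀ c, ?_⟩
    rw [h13_sumLin_apply, Finset.sum_pi_single']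
    simp
  have h := h13_charpoly_of_exact (h13_extLog (F := F)) (h13_sumLin (F := F)) hinj hsurj hex
    (h13_logEnd π) (h13_permLin ℝ π) LinearMap.id ?_ ?_
  · rw [h]
    congr 1
    have h1 : (LinearMap.id : ℝ →ₗ[ℝ] ℝ) = 1 := rfl
    rw [h1, LinearMap.charpoly_one, Module.finrank_self, pow_one]
  · intro y
    have h1 : ∑ w, h13_permLin ℝ π (h13_extLog y) w = 0 := by
      have := h13_sumLin_perm π (h13_extLog y)
      rw [h13_sumLin_apply, h13_sumLin_apply, h13_sum_extLog] at this
      exact this
    exact (h13_extLog_resLog _ h1).symm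
  · intro x
    exact h13_sumLin_perm π x

theorem h13_logEnd_logEmbedding (σ : F ≃ₐ[k] F) (u : (𝓞 F)ˣ) :
    h13_logEnd (MulAction.toPerm σ) (logEmbedding F (Additive.ofMul u)) =
      logEmbedding F (Additive.ofMul (h13_unitsMap σ u)) := by
  rw [← h13_resLog_logVec, ← h13_resLog_logVec, h13_logVec_unitsMap]
  change h13_resLog (h13_permLin ℝ _ (h13_extLog (h13_resLog (h13_logVec u)))) = _
  rw [h13_extLog_resLog _ (h13_logVec_sum u)]

/-- **Herbrand for units, characteristic polynomial form**:
`charpoly (σ | (𝓞 F)ˣ / torsion) * (X - 1) = charpoly (σ | ℤ^{InfinitePlace F})`. -/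
theorem h13_units_charpoly (σ : F ≃ₐ[k] F) :
    (h13_unitsModTorsionEnd σ).charpoly * (X - 1) =
      (h13_permLin ℤ (MulAction.toPerm σ : Equiv.Perm (InfinitePlace F))).charpoly := by
  have h1 : (h13_logEnd (MulAction.toPerm σ : Equiv.Perm (InfinitePlace F))).charpoly =
      (h13_unitsModTorsionEnd σ).charpoly.map (algebraMap ℤ ℝ) := by
    refine h13_charpoly_map_of_basis (h13_UM_basis F)
      ((basisUnitLattice F).ofZLatticeBasis ℝ (unitLattice F))
      (h13_logLin F) ?_
      (h13_unitsModTorsionEnd σ) (h13_logEnd (MulAction.toPerm σ)) ?_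
    · intro i
      rw [Module.Basis.ofZLatticeBasis_apply, h13_logLin_basis]
    · intro m
      obtain ⟨u, rfl⟩ := h13_cls_surjective m
      rw [h13_unitsModTorsionEnd_cls, h13_logLin_cls, h13_logLin_cls]
      exact h13_logEnd_logEmbedding σ u
  have h2 := h13_charpoly_perm_real (MulAction.toPerm σ : Equiv.Perm (InfinitePlace F))
  rw [h13_permLin_charpoly_map ℤ ℝ, h1] at h2
  have h3 : ((h13_permLin ℤ (MulAction.toPerm σ : Equiv.Perm (InfinitePlace F))).charpoly).map
      (algebraMap ℤ ℝ) = ((h13_unitsModTorsionEnd σ).charpoly * (X - 1)).map (algebraMap ℤ ℝ) := by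
    rw [h2, Polynomial.map_mul, Polynomial.map_sub, Polynomial.map_X, Polynomial.map_one]
  exact (Polynomial.map_injective _ (RingHom.injective_int (algebraMap ℤ ℝ)) h3).symm

end Units

end Fermat.Agent.S56
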