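import Mathlib
import Fermat.Agent.S55.h59_SUnits
import Fermat.Agent.S55.h92_SUnits
import Fermat.Agent.S56.h13_CharpolyExact
import Fermat.Agent.S56.h13_UnitCharpoly

set_option autoImplicit false

/-!
# The characteristic polynomial of an automorphism on the `S`-units modulo `p`
(S56 / W1, HERBRAND block)

`F` a number field, `σ : F ≃ₐ[k] F`, `T` a finite `σ`-stable set of primes of `F`,
`E_T = (T : Set _).unit F` (Mathlib's `S`-units).  With `μ` the torsion of `(𝓞 F)ˣ`: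

`charpoly (σ | E_T / p) * (X - 1)
    = charpoly (σ | μ / p) * charpoly (σ | F_p^{InfinitePlace F}) * charpoly (σ | F_p^T)`

(`h13_sunit_modp_charpoly_total`).  Inputs: `h13_units_charpoly` (units), the valuation sequence
`0 → 𝓞ˣ → E_T → ℤ^T` of helper59's `h59_SUnits` and the Galois action on primes of helper92's
`h92_SUnits`.
-/

namespace Fermat.Agent.S56

open NumberField NumberField.Units IsDedekindDomain Polynomial Fermat.Agent.S55
open scoped TensorProduct

variable {k F : Type*} [Field k] [Field F] [Algebra k F]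

section UnitsEnd

/-- `σ` on the additive group of units. -/
noncomputable def h13_unitsEnd (σ : F ≃ₐ[k] F) : Additive (𝓞 F)ˣ →ₗ[ℤ] Additive (𝓞 F)ˣ :=
  (MonoidHom.toAdditive (h13_unitsMap σ)).toIntLinearMap

theorem h13_unitsEnd_apply (σ : F ≃ₐ[k] F) (u : (𝓞 F)ˣ) :
    h13_unitsEnd σ (Additive.ofMul u) = Additive.ofMul (h13_unitsMap σ u) := rfl

/-- The class map `𝓞ˣ → 𝓞ˣ / torsion`, as a `ℤ`-linear map. -/
noncomputable def h13_clsLin (F : Type*) [Field F] : Additive (𝓞 F)ˣ →ₗ[ℤ] h13_UM F :=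
  AddMonoidHom.toIntLinearMap (show Additive (𝓞 F)ˣ →+ h13_UM F from
    MonoidHom.toAdditive (QuotientGroup.mk' (torsion F)))

theorem h13_clsLin_apply (u : (𝓞 F)ˣ) : h13_clsLin F (Additive.ofMul u) = h13_cls u := rfl

theorem h13_clsLin_surjective : Function.Surjective (h13_clsLin F) := by
  intro x
  obtain ⟨u, rfl⟩ := h13_cls_surjective x
  exact ⟨Additive.ofMul u, rfl⟩

theorem h13_clsLin_unitsEnd (σ : F ≃ₐ[k] F) (x : Additive (𝓞 F)ˣ) :
    h13_clsLin F (h13_unitsEnd σ x) = h13_unitsModTorsionEnd σ (h13_clsLin F x) := by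
  obtain ⟨u, rfl⟩ := Additive.ofMul.surjective x
  rfl

/-- The torsion of the units, as a `ℤ`-submodule of the additive group of units. -/
noncomputable def h13_torsionSub (F : Type*) [Field F] : Submodule ℤ (Additive (𝓞 F)ˣ) :=
  LinearMap.ker (h13_clsLin F)

theorem h13_mem_torsionSub (x : Additive (𝓞 F)ˣ) :
    x ∈ h13_torsionSub F ↔ Additive.toMul x ∈ torsion F := by
  obtain ⟨u, rfl⟩ := Additive.ofMul.surjective x
  rw [h13_torsionSub, LinearMap.mem_ker, h13_clsLin_apply, h13_cls_eq_zero_iff]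
  rfl

theorem h13_torsionSub_stable (σ : F ≃ₐ[k] F) (x : Additive (𝓞 F)ˣ) (hx : x ∈ h13_torsionSub F) :
    h13_unitsEnd σ x ∈ h13_torsionSub F := by
  rw [h13_torsionSub, LinearMap.mem_ker] at hx ⊢
  rw [h13_clsLin_unitsEnd, hx, map_zero]

/-- `σ` on the torsion of the units. -/
noncomputable def h13_torsionEnd (σ : F ≃ₐ[k] F) :
    ↥(h13_torsionSub F) →ₗ[ℤ] ↥(h13_torsionSub F) :=
  (h13_unitsEnd σ).restrict (h13_torsionSub_stable σ)

theorem h13_torsionEnd_coe (σ : F ≃ₐ[k] F) (x : ↥(h13_torsionSub F)) :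
    ((h13_torsionEnd σ x : ↥(h13_torsionSub F)) : Additive (𝓞 F)ˣ) = h13_unitsEnd σ x.1 := rfl

variable [NumberField F]

/-- Units modulo `p`: `charpoly (σ | 𝓞ˣ/p) = charpoly (σ | μ/p) * (charpoly (σ | 𝓞ˣ/tors) mod p)`. -/
theorem h13_units_modp_charpoly (p : ℕ) [Fact p.Prime] (σ : F ≃ₐ[k] F) :
    ((h13_unitsEnd σ).baseChange (ZMod p)).charpoly =
      ((h13_torsionEnd σ).baseChange (ZMod p)).charpoly *
        (h13_unitsModTorsionEnd σ).charpoly.map (algebraMap ℤ (ZMod p)) :=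
  h13_charpoly_baseChange_of_exact (ZMod p) (h13_torsionSub F).subtype (h13_clsLin F)
    Subtype.val_injective h13_clsLin_surjective (LinearMap.exact_subtype_ker_map _)
    (h13_torsionEnd σ) (h13_unitsEnd σ) (h13_unitsModTorsionEnd σ) (fun _ => rfl)
    (h13_clsLin_unitsEnd σ)

end UnitsEnd

section SUnit

variable [NumberField F] (T : Finset (HeightOneSpectrum (𝓞 F)))

theorem h13_stable_coe (σ : F ≃ₐ[k] F) (hT : ∀ w ∈ T, h92_galPrime σ w ∈ T) :
    ∀ w ∈ (T : Set (HeightOneSpectrum (𝓞 F))), h92_galPrime σ w ∈ (T : Set (HeightOneSpectrum (𝓞 F))) :=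
  fun w hw => Finset.mem_coe.2 (hT w (Finset.mem_coe.1 hw))

/-- `σ` acting on the `T`-units, for a `σ`-stable `T`. -/
noncomputable def h13_sunitMap (σ : F ≃ₐ[k] F) (hT : ∀ w ∈ T, h92_galPrime σ w ∈ T) :
    ↥((T : Set (HeightOneSpectrum (𝓞 F))).unit F) →*
      ↥((T : Set (HeightOneSpectrum (𝓞 F))).unit F) where
  toFun x := ⟨σ • (x : Fˣ), h92_unit_smul_mem σ _ (h13_stable_coe T σ hT) _ x.2⟩
  map_one' := Subtype.ext (smul_one σ)
  map_mul' x y := Subtype.ext (smul_mul' σ (x : Fˣ) (y : Fˣ))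

theorem h13_sunitMap_coe (σ : F ≃ₐ[k] F) (hT : ∀ w ∈ T, h92_galPrime σ w ∈ T)
    (x : ↥((T : Set (HeightOneSpectrum (𝓞 F))).unit F)) :
    ((h13_sunitMap T σ hT x : ↥((T : Set (HeightOneSpectrum (𝓞 F))).unit F)) : Fˣ) =
      σ • (x : Fˣ) := rfl

/-- `σ` on the additive group of `T`-units. -/
noncomputable def h13_sunitEnd (σ : F ≃ₐ[k] F) (hT : ∀ w ∈ T, h92_galPrime σ w ∈ T) :
    Additive ↥((T : Set (HeightOneSpectrum (𝓞 F))).unit F) →ₗ[ℤ]
      Additive ↥((T : Set (HeightOneSpectrum (𝓞 F))).unit F) :=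
  (MonoidHom.toAdditive (h13_sunitMap T σ hT)).toIntLinearMap

theorem h13_sunitEnd_apply (σ : F ≃ₐ[k] F) (hT : ∀ w ∈ T, h92_galPrime σ w ∈ T)
    (x : ↥((T : Set (HeightOneSpectrum (𝓞 F))).unit F)) :
    h13_sunitEnd T σ hT (Additive.ofMul x) = Additive.ofMul (h13_sunitMap T σ hT x) := rfl

/-- Compatibility of the inclusion `𝓞ˣ → E_T` with `σ`. -/
theorem h13_unitsToSUnit_equivariant (σ : F ≃ₐ[k] F) (hT : ∀ w ∈ T, h92_galPrime σ w ∈ T)
    (y : Additive (𝓞 F)ˣ) :
    h13_sunitEnd T σ hT (h59_unitsToSUnitLin F T y) = h59_unitsToSUnitLin F T (h13_unitsEnd σ y) := by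
  obtain ⟨u, rfl⟩ := Additive.ofMul.surjective y
  rw [h59_unitsToSUnitLin_apply, h13_sunitEnd_apply, h13_unitsEnd_apply, h59_unitsToSUnitLin_apply]
  exact congrArg Additive.ofMul (Subtype.ext (Units.ext rfl))

/-- The permutation of `T` induced by `σ`. -/
noncomputable def h13_permT (σ : F ≃ₐ[k] F) (hT : ∀ w ∈ T, h92_galPrime σ w ∈ T) :
    Equiv.Perm T :=
  Equiv.ofBijective (fun w => ⟨h92_galPrime σ w.1, hT w.1 w.2⟩)
    (Finite.injective_iff_bijective.1 (fun _ _ h =>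
      Subtype.ext (h92_galPrime_injective σ (congrArg Subtype.val h))))

theorem h13_permT_coe (σ : F ≃ₐ[k] F) (hT : ∀ w ∈ T, h92_galPrime σ w ∈ T) (w : T) :
    ((h13_permT T σ hT w : T) : HeightOneSpectrum (𝓞 F)) = h92_galPrime σ w.1 := rfl

theorem h13_ord_galPrime (σ : F ≃ₐ[k] F) (v : HeightOneSpectrum (𝓞 F)) (x : Fˣ) :
    h59_ord F (h92_galPrime σ v) (σ • x) = h59_ord F v x := by
  apply WithZero.coe_injective
  rw [h59_ord_coe, h59_ord_coe, h92_units_smul_coe, h92_valuation_galPrime]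

/-- Equivariance of the order map. -/
theorem h13_sunitOrd_sunitEnd (σ : F ≃ₐ[k] F) (hT : ∀ w ∈ T, h92_galPrime σ w ∈ T)
    (y : Additive ↥((T : Set (HeightOneSpectrum (𝓞 F))).unit F)) :
    h59_sunitOrd F T (h13_sunitEnd T σ hT y) =
      h13_permLin ℤ (h13_permT T σ hT) (h59_sunitOrd F T y) := by
  obtain ⟨x, rfl⟩ := Additive.ofMul.surjective y
  funext w
  rw [h13_permLin_apply, h13_sunitEnd_apply, h59_sunitOrd_apply, h59_sunitOrd_apply,
    h13_sunitMap_coe]
  have hw : w.1 = h92_galPrime σ ((h13_permT T σ hT).symm w).1 := by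
    rw [← h13_permT_coe T σ hT, Equiv.apply_symm_apply]
  conv_lhs => rw [hw]
  rw [h13_ord_galPrime]

theorem h13_range_ord_stable (σ : F ≃ₐ[k] F) (hT : ∀ w ∈ T, h92_galPrime σ w ∈ T) :
    ∀ y ∈ LinearMap.range (h59_sunitOrd F T),
      h13_permLin ℤ (h13_permT T σ hT) y ∈ LinearMap.range (h59_sunitOrd F T) := by
  rintro _ ⟨z, rfl⟩
  exact ⟨h13_sunitEnd T σ hT z, h13_sunitOrd_sunitEnd T σ hT z⟩

/-- `T`-units modulo `p`:
`charpoly (σ | E_T/p) = charpoly (σ | 𝓞ˣ/p) * (charpoly (σ | ℤ^T) mod p)`. -/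
theorem h13_sunit_modp_charpoly (p : ℕ) [Fact p.Prime] (σ : F ≃ₐ[k] F)
    (hT : ∀ w ∈ T, h92_galPrime σ w ∈ T) :
    ((h13_sunitEnd T σ hT).baseChange (ZMod p)).charpoly =
      ((h13_unitsEnd σ).baseChange (ZMod p)).charpoly *
        (h13_permLin ℤ (h13_permT T σ hT)).charpoly.map (algebraMap ℤ (ZMod p)) := by
  have hex : Function.Exact (h59_unitsToSUnitLin F T) (h59_sunitOrd F T).rangeRestrict := by
    intro y
    have h0 : y ∈ LinearMap.ker (h59_sunitOrd F T) ↔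
        y ∈ LinearMap.range (h59_unitsToSUnitLin F T) := by rw [h59_ker_sunitOrd]
    rw [LinearMap.mem_ker] at h0
    constructor
    · intro h
      exact LinearMap.mem_range.1 (h0.1 (congrArg Subtype.val h))
    · intro h
      exact Subtype.ext (h0.2 (LinearMap.mem_range.2 h))
  have h1 := h13_charpoly_baseChange_of_exact (ZMod p) (h59_unitsToSUnitLin F T)
    (h59_sunitOrd F T).rangeRestrict (h59_unitsToSUnitLin_injective F T)
    (LinearMap.surjective_rangeRestrict _) hex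
    (h13_unitsEnd σ) (h13_sunitEnd T σ hT)
    ((h13_permLin ℤ (h13_permT T σ hT)).restrict (h13_range_ord_stable T σ hT))
    (h13_unitsToSUnit_equivariant T σ hT)
    (fun m => Subtype.ext (h13_sunitOrd_sunitEnd T σ hT m))
  rw [h1]
  congr 2
  refine h13_charpoly_eq_of_injective (LinearMap.range (h59_sunitOrd F T)).subtype
    Subtype.val_injective ?_ _ _ (fun _ => rfl)
  rw [h59_finrank_range_sunitOrd, Module.finrank_fintype_fun_eq_card, Fintype.card_coe]

/-- **`T`-units modulo `p`, total form.** -/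
theorem h13_sunit_modp_charpoly_total (p : ℕ) [Fact p.Prime] (σ : F ≃ₐ[k] F)
    (hT : ∀ w ∈ T, h92_galPrime σ w ∈ T) :
    ((h13_sunitEnd T σ hT).baseChange (ZMod p)).charpoly * (X - 1) =
      ((h13_torsionEnd σ).baseChange (ZMod p)).charpoly *
        ((h13_permLin (ZMod p) (MulAction.toPerm σ : Equiv.Perm (InfinitePlace F))).charpoly *
          (h13_permLin (ZMod p) (h13_permT T σ hT)).charpoly) := by
  rw [h13_sunit_modp_charpoly, h13_units_modp_charpoly, h13_permLin_charpoly_map ℤ (ZMod p),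
    h13_permLin_charpoly_map ℤ (ZMod p), ← h13_units_charpoly σ, Polynomial.map_mul,
    Polynomial.map_sub, Polynomial.map_X, Polynomial.map_one]
  ring

end SUnit

end Fermat.Agent.S56
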