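import Mathlib

set_option autoImplicit false

/-!
# Semisimple endomorphisms with the same characteristic polynomial are conjugate
(S56 / W1, HERBRAND block; Mathlib only)

* `h13_semisimple_iso` : `K` a field, `f`, `f'` endomorphisms of finite-dimensional spaces, both
  killed by one squarefree polynomial, with `charpoly f = charpoly f'`.  Then there is a linear
  equivalence `e` with `e ∘ f = f' ∘ e`.
* `h13_finite_order_iso` : the same for `f ^ m = 1`, `f' ^ m = 1` with `m` invertible in `K`.
-/

namespace Fermat.Agent.S56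

open Polynomial Module

universe u v w

section Intertwine

variable {K : Type*} [Field K]
variable {M M' : Type*} [AddCommGroup M] [Module K M] [AddCommGroup M'] [Module K M']

theorem h13_pow_intertwine (g : M →ₗ[K] M') (f : Module.End K M) (f' : Module.End K M')
    (h : ∀ m, f' (g m) = g (f m)) (n : ℕ) (m : M) : (f' ^ n) (g m) = g ((f ^ n) m) := by
  induction n generalizing m with
  | zero => simp
  | succ n ih => rw [pow_succ, pow_succ, Module.End.mul_apply, Module.End.mul_apply, h, ih]

/-- If `g` intertwines `f` and `f'`, it intertwines `q(f)` and `q(f')` for every polynomial. -/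
theorem h13_aeval_intertwine (g : M →ₗ[K] M') (f : Module.End K M) (f' : Module.End K M')
    (h : ∀ m, f' (g m) = g (f m)) (q : K[X]) (m : M) :
    aeval f' q (g m) = g (aeval f q m) := by
  induction q using Polynomial.induction_on' with
  | add p q hp hq => simp [hp, hq]
  | monomial n a =>
    rw [aeval_monomial, aeval_monomial, Module.End.mul_apply, Module.End.mul_apply,
      Module.algebraMap_end_apply, Module.algebraMap_end_apply, h13_pow_intertwine g f f' h,
      map_smul]

end Intertwine

section Field

variable {K : Type u} [Field K]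

section Ker

variable {U : Type v} [AddCommGroup U] [Module K U] [FiniteDimensional K U]

/-- An irreducible factor of the characteristic polynomial of `f` has a nonzero kernel on `f`. -/
theorem h13_ker_aeval_ne_bot (f : Module.End K U) (g : K[X]) (hg : Irreducible g)
    (hdvd : g ∣ f.charpoly) : LinearMap.ker (aeval f g) ≠ ⊥ := by
  intro hker
  have hinj : Function.Injective (aeval f g) := LinearMap.ker_eq_bot.1 hker
  have hinjL : Function.Injective ((aeval f g).baseChange (AlgebraicClosure K)) :=
    Module.Flat.lTensor_preserves_injective_linearMap _ hinj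
  have hdeg : g.degree ≠ 0 := (Polynomial.degree_pos_of_irreducible hg).ne'
  obtain ⟨α, hα⟩ := IsAlgClosed.exists_aeval_eq_zero (AlgebraicClosure K) g hdeg
  have hroot : ((f.baseChange (AlgebraicClosure K)).charpoly).IsRoot α := by
    rw [LinearMap.charpoly_baseChange]
    obtain ⟨c, hc⟩ := hdvd
    rw [hc, Polynomial.map_mul, IsRoot, eval_mul, eval_map_algebraMap, hα, zero_mul]
  obtain ⟨x, hx⟩ :=
    ((Module.End.hasEigenvalue_iff_isRoot_charpoly _ α).2 hroot).exists_hasEigenvector
  have h1 : (aeval f g).baseChange (AlgebraicClosure K) =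
      aeval (f.baseChange (AlgebraicClosure K)) (g.map (algebraMap K (AlgebraicClosure K))) := by
    rw [aeval_map_algebraMap]
    exact (aeval_algHom_apply (Module.End.baseChangeHom K (AlgebraicClosure K) U) f g).symm
  have h2 : (aeval f g).baseChange (AlgebraicClosure K) x = 0 := by
    rw [h1, Module.End.aeval_apply_of_hasEigenvector hx, eval_map_algebraMap, hα, zero_smul]
  exact hx.2 (hinjL (by rw [h2, map_zero]))

end Ker

section Orbit

variable {U : Type v} [AddCommGroup U] [Module K U]

/-- The orbit map `q ↦ q(f) v`. -/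
noncomputable def h13_orbitMap (f : Module.End K U) (v : U) : K[X] →ₗ[K] U where
  toFun q := aeval f q v
  map_add' q r := by simp
  map_smul' c q := by simp

theorem h13_orbitMap_apply (f : Module.End K U) (v : U) (q : K[X]) :
    h13_orbitMap f v q = aeval f q v := rfl

theorem h13_orbitMap_X_mul (f : Module.End K U) (v : U) (q : K[X]) :
    h13_orbitMap f v (X * q) = f (h13_orbitMap f v q) := by
  rw [h13_orbitMap_apply, h13_orbitMap_apply, map_mul, aeval_X, Module.End.mul_apply]

theorem h13_orbitMap_one (f : Module.End K U) (v : U) : h13_orbitMap f v 1 = v := by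
  rw [h13_orbitMap_apply, map_one, Module.End.one_apply]

/-- The kernel of the orbit map of a nonzero vector killed by an irreducible `g(f)` is `(g)`. -/
theorem h13_orbitMap_eq_zero_iff (f : Module.End K U) (v : U) (g : K[X]) (hg : Irreducible g)
    (hv : aeval f g v = 0) (hv0 : v ≠ 0) (q : K[X]) :
    h13_orbitMap f v q = 0 ↔ g ∣ q := by
  rw [h13_orbitMap_apply]
  constructor
  · intro hq
    by_contra hnd
    have hcop : IsCoprime g q := (Irreducible.coprime_iff_not_dvd hg).2 hnd
    obtain ⟨a, b, hab⟩ := hcop
    have h1 : aeval f (a * g + b * q) v = v := by rw [hab, map_one, Module.End.one_apply]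
    rw [map_add, map_mul, map_mul, LinearMap.add_apply, Module.End.mul_apply,
      Module.End.mul_apply, hv, hq, map_zero, map_zero, add_zero] at h1
    exact hv0 h1.symm
  · rintro ⟨r, rfl⟩
    rw [mul_comm, map_mul, Module.End.mul_apply, hv, map_zero]

/-- The isomorphism between two cyclic modules with the same annihilator. -/
noncomputable def h13_cycEquiv {U' : Type w} [AddCommGroup U'] [Module K U']
    (f : Module.End K U) (v : U) (f' : Module.End K U') (v' : U')
    (h : ∀ q, h13_orbitMap f v q = 0 ↔ h13_orbitMap f' v' q = 0) :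
    LinearMap.range (h13_orbitMap f v) ≃ₗ[K] LinearMap.range (h13_orbitMap f' v') :=
  ((h13_orbitMap f v).quotKerEquivRange).symm ≪≫ₗ
    (Submodule.quotEquivOfEq _ _ (by ext q; exact h q)) ≪≫ₗ
    (h13_orbitMap f' v').quotKerEquivRange

theorem h13_cycEquiv_apply {U' : Type w} [AddCommGroup U'] [Module K U']
    (f : Module.End K U) (v : U) (f' : Module.End K U') (v' : U')
    (h : ∀ q, h13_orbitMap f v q = 0 ↔ h13_orbitMap f' v' q = 0) (q : K[X]) :
    h13_cycEquiv f v f' v' h ⟨h13_orbitMap f v q, LinearMap.mem_range_self _ q⟩ =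
      ⟨h13_orbitMap f' v' q, LinearMap.mem_range_self _ q⟩ := by
  apply Subtype.ext
  simp only [h13_cycEquiv, LinearEquiv.trans_apply]
  rw [LinearMap.quotKerEquivRange_symm_apply_image]
  rfl

end Orbit

section Compl

variable {U : Type v} [AddCommGroup U] [Module K U] [FiniteDimensional K U]

/-- The characteristic polynomial is multiplicative on invariant complementary subspaces. -/
theorem h13_charpoly_of_isCompl (f : Module.End K U) {Z W : Submodule K U}
    (hZ : ∀ x ∈ Z, f x ∈ Z) (hW : ∀ x ∈ W, f x ∈ W) (h : IsCompl Z W) :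
    f.charpoly = (f.restrict hZ).charpoly * (f.restrict hW).charpoly := by
  rw [← LinearMap.charpoly_prodMap, ← LinearEquiv.charpoly_conj (Submodule.prodEquivOfIsCompl Z W h)]
  congr 1
  apply LinearMap.ext
  intro y
  obtain ⟨⟨z, w⟩, rfl⟩ := (Submodule.prodEquivOfIsCompl Z W h).surjective y
  rw [LinearEquiv.conj_apply_apply, LinearEquiv.symm_apply_apply]
  simp only [Submodule.coe_prodEquivOfIsCompl', LinearMap.prodMap_apply, map_add,
    LinearMap.coe_restrict_apply]

/-- Glueing equivariant isomorphisms along invariant complementary decompositions. -/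
theorem h13_glue_isCompl {U' : Type w} [AddCommGroup U'] [Module K U']
    (f : Module.End K U) (f' : Module.End K U')
    {Z W : Submodule K U} {Z' W' : Submodule K U'} (hZW : IsCompl Z W) (hZW' : IsCompl Z' W')
    (hZ : ∀ x ∈ Z, f x ∈ Z) (hW : ∀ x ∈ W, f x ∈ W)
    (hZ' : ∀ x ∈ Z', f' x ∈ Z') (hW' : ∀ x ∈ W', f' x ∈ W')
    (eZ : Z ≃ₗ[K] Z') (eW : W ≃ₗ[K] W')
    (hez : ∀ z, eZ (f.restrict hZ z) = f'.restrict hZ' (eZ z))
    (hew : ∀ z, eW (f.restrict hW z) = f'.restrict hW' (eW z)) :
    ∃ e : U ≃ₗ[K] U', ∀ y, e (f y) = f' (e y) := by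
  refine ⟨(Submodule.prodEquivOfIsCompl Z W hZW).symm ≪≫ₗ (eZ.prodCongr eW) ≪≫ₗ
    Submodule.prodEquivOfIsCompl Z' W' hZW', ?_⟩
  intro y
  obtain ⟨⟨z, w⟩, rfl⟩ := (Submodule.prodEquivOfIsCompl Z W hZW).surjective y
  have h1 : f ((Submodule.prodEquivOfIsCompl Z W hZW) (z, w)) =
      (Submodule.prodEquivOfIsCompl Z W hZW) (f.restrict hZ z, f.restrict hW w) := by
    simp only [Submodule.coe_prodEquivOfIsCompl', map_add, LinearMap.coe_restrict_apply]
  rw [h1, LinearEquiv.trans_apply, LinearEquiv.trans_apply, LinearEquiv.symm_apply_apply,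
    LinearEquiv.trans_apply, LinearEquiv.trans_apply, LinearEquiv.symm_apply_apply]
  simp only [LinearEquiv.prodCongr_apply, Submodule.coe_prodEquivOfIsCompl', map_add, hez, hew,
    LinearMap.coe_restrict_apply]

end Compl

/-- Auxiliary form of `h13_semisimple_iso`, by strong induction on the dimension. -/
theorem h13_semisimple_iso_aux (P : K[X]) (hP : Squarefree P) :
    ∀ n : ℕ, ∀ (U : Type v) [AddCommGroup U] [Module K U] [FiniteDimensional K U]
      (U' : Type w) [AddCommGroup U'] [Module K U'] [FiniteDimensional K U']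
      (f : Module.End K U) (f' : Module.End K U'),
      Module.finrank K U = n → aeval f P = 0 → aeval f' P = 0 → f.charpoly = f'.charpoly →
      ∃ e : U ≃ₗ[K] U', ∀ y, e (f y) = f' (e y) := by
  intro n
  induction n using Nat.strong_induction_on with
  | _ n ih =>
  intro U _ _ _ U' _ _ _ f f' hn hf hf' hc
  rcases Nat.eq_zero_or_pos n with h0 | hpos
  · subst h0
    have hU : Subsingleton U := Module.finrank_zero_iff.1 hn
    have hn' : Module.finrank K U' = 0 := by
      rw [← LinearMap.charpoly_natDegree f', ← hc, LinearMap.charpoly_natDegree, hn]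
    have hU' : Subsingleton U' := Module.finrank_zero_iff.1 hn'
    exact ⟨LinearEquiv.ofSubsingleton U U', fun y => Subsingleton.elim _ _⟩
  · have hdeg : f.charpoly.natDegree = n := by rw [LinearMap.charpoly_natDegree, hn]
    have hnu : ¬ IsUnit f.charpoly := fun h => by
      have := natDegree_eq_zero_of_isUnit h
      omega
    obtain ⟨g, hg, hgd⟩ := WfDvdMonoid.exists_irreducible_factor hnu f.charpoly_monic.ne_zero
    have hk := h13_ker_aeval_ne_bot f g hg hgd
    have hk' := h13_ker_aeval_ne_bot f' g hg (hc ▸ hgd)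
    obtain ⟨v, hv, hv0⟩ := Submodule.exists_mem_ne_zero_of_ne_bot hk
    obtain ⟨v', hv', hv0'⟩ := Submodule.exists_mem_ne_zero_of_ne_bot hk'
    rw [LinearMap.mem_ker] at hv hv'
    have hiff : ∀ q, h13_orbitMap f v q = 0 ↔ h13_orbitMap f' v' q = 0 := fun q => by
      rw [h13_orbitMap_eq_zero_iff f v g hg hv hv0, h13_orbitMap_eq_zero_iff f' v' g hg hv' hv0']
    have hZ : ∀ x ∈ LinearMap.range (h13_orbitMap f v), f x ∈ LinearMap.range (h13_orbitMap f v) := by
      rintro _ ⟨q, rfl⟩
      exact ⟨X * q, h13_orbitMap_X_mul f v q⟩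
    have hZ' : ∀ x ∈ LinearMap.range (h13_orbitMap f' v'),
        f' x ∈ LinearMap.range (h13_orbitMap f' v') := by
      rintro _ ⟨q, rfl⟩
      exact ⟨X * q, h13_orbitMap_X_mul f' v' q⟩
    have hss : f.IsSemisimple := Module.End.isSemisimple_of_squarefree_aeval_eq_zero hP hf
    have hss' : f'.IsSemisimple := Module.End.isSemisimple_of_squarefree_aeval_eq_zero hP hf'
    obtain ⟨W, hW, hZW⟩ := Module.End.isSemisimple_iff.1 hss _ hZ
    obtain ⟨W', hW', hZW'⟩ := Module.End.isSemisimple_iff.1 hss' _ hZ'
    have hW1 : ∀ x ∈ W, f x ∈ W := hW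
    have hW1' : ∀ x ∈ W', f' x ∈ W' := hW'
    let eZ := h13_cycEquiv f v f' v' hiff
    have hez : ∀ z, eZ (f.restrict hZ z) = f'.restrict hZ' (eZ z) := by
      rintro ⟨_, ⟨q, rfl⟩⟩
      have e1 : f.restrict hZ ⟨h13_orbitMap f v q, LinearMap.mem_range_self _ q⟩ =
          ⟨h13_orbitMap f v (X * q), LinearMap.mem_range_self _ _⟩ :=
        Subtype.ext (h13_orbitMap_X_mul f v q).symm
      rw [e1]
      change h13_cycEquiv f v f' v' hiff _ = f'.restrict hZ' (h13_cycEquiv f v f' v' hiff _)
      rw [h13_cycEquiv_apply, h13_cycEquiv_apply]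
      exact Subtype.ext (h13_orbitMap_X_mul f' v' q)
    have hcZ : (f.restrict hZ).charpoly = (f'.restrict hZ').charpoly := by
      rw [← LinearEquiv.charpoly_conj eZ (f.restrict hZ)]
      congr 1
      apply LinearMap.ext
      intro y
      obtain ⟨z, rfl⟩ := eZ.surjective y
      rw [LinearEquiv.conj_apply_apply, LinearEquiv.symm_apply_apply, hez]
    have hcW : (f.restrict hW1).charpoly = (f'.restrict hW1').charpoly := by
      have e1 := h13_charpoly_of_isCompl f hZ hW1 hZW
      have e2 := h13_charpoly_of_isCompl f' hZ' hW1' hZW'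
      rw [hc, e2, hcZ] at e1
      exact (mul_left_cancel₀ (LinearMap.charpoly_monic _).ne_zero e1).symm
    have hfin : Module.finrank K W < n := by
      have e1 := Submodule.finrank_add_eq_of_isCompl hZW
      have e2 : 0 < Module.finrank K (LinearMap.range (h13_orbitMap f v)) := by
        rw [Module.finrank_pos_iff_exists_ne_zero]
        refine ⟨⟨h13_orbitMap f v 1, LinearMap.mem_range_self _ _⟩, ?_⟩
        intro h0
        have h00 : h13_orbitMap f v 1 = 0 := congrArg Subtype.val h0
        rw [h13_orbitMap_one] at h00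
        exact hv0 h00
      omega
    have hfW : aeval (f.restrict hW1) P = 0 := by
      apply LinearMap.ext
      intro y
      apply Subtype.ext
      have := h13_aeval_intertwine W.subtype (f.restrict hW1) f (fun m => rfl) P y
      simp only [Submodule.subtype_apply] at this
      rw [← this, hf]
      rfl
    have hfW' : aeval (f'.restrict hW1') P = 0 := by
      apply LinearMap.ext
      intro y
      apply Subtype.ext
      have := h13_aeval_intertwine W'.subtype (f'.restrict hW1') f' (fun m => rfl) P y
      simp only [Submodule.subtype_apply] at this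
      rw [← this, hf']
      rfl
    obtain ⟨eW, hew⟩ := ih _ hfin W W' (f.restrict hW1) (f'.restrict hW1') rfl hfW hfW' hcW
    exact h13_glue_isCompl f f' hZW hZW' hZ hW1 hZ' hW1' eZ eW hez hew

/-- **Semisimple endomorphisms with equal characteristic polynomials are conjugate.** -/
theorem h13_semisimple_iso {U : Type v} [AddCommGroup U] [Module K U] [FiniteDimensional K U]
    {U' : Type w} [AddCommGroup U'] [Module K U'] [FiniteDimensional K U']
    (P : K[X]) (hP : Squarefree P) (f : Module.End K U) (f' : Module.End K U')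
    (hf : aeval f P = 0) (hf' : aeval f' P = 0) (hc : f.charpoly = f'.charpoly) :
    ∃ e : U ≃ₗ[K] U', ∀ y, e (f y) = f' (e y) :=
  h13_semisimple_iso_aux P hP _ U U' f f' rfl hf hf' hc

/-- Endomorphisms of finite order prime to the characteristic with equal characteristic
polynomials are conjugate. -/
theorem h13_finite_order_iso {U : Type v} [AddCommGroup U] [Module K U] [FiniteDimensional K U]
    {U' : Type w} [AddCommGroup U'] [Module K U'] [FiniteDimensional K U']
    (m : ℕ) (hm : (m : K) ≠ 0) (f : Module.End K U) (f' : Module.End K U')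
    (hf : f ^ m = 1) (hf' : f' ^ m = 1) (hc : f.charpoly = f'.charpoly) :
    ∃ e : U ≃ₗ[K] U', ∀ y, e (f y) = f' (e y) := by
  have hsq : Squarefree (X ^ m - 1 : K[X]) := by
    have h1 : (X ^ m - C (1 : K)).Separable := separable_X_pow_sub_C (1 : K) hm one_ne_zero
    rw [map_one] at h1
    exact h1.squarefree
  refine h13_semisimple_iso (X ^ m - 1) hsq f f' ?_ ?_ hc
  · rw [map_sub, map_pow, aeval_X, map_one, hf, sub_self]
  · rw [map_sub, map_pow, aeval_X, map_one, hf', sub_self]

end Field

end Fermat.Agent.S56
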