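import Mathlib
import Fermat.Agent.S56.h13_SemisimpleIso
import Fermat.Agent.S56.h13_SUnitCharpoly

set_option autoImplicit false

/-!
# Herbrand's theorem modulo `p` for the `S`-units, cyclic prime-to-`p` case
(S56 / W1, base case, row C3 HERB)

`F` a number field, `σ : F ≃ₐ[k] F` with `σ ^ m = 1`, `p` a prime not dividing `m`, `T` a finite
`σ`-stable set of primes of `F`, `E_T = (T : Set _).unit F` Mathlib's `S`-units, `μ` the torsion of
`(𝓞 F)ˣ` (`h13_torsionSub F`).  Then, as `F_p`-vector spaces with an automorphism,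

`E_T/p × F_p  ≅  μ/p × (F_p^{InfinitePlace F} × F_p^T)`          (`h13_herbrand_modp`)

where `σ` acts on the left by `(σ ⊗ 1, id)` (`h13_herbL`) and on the right by
`(σ ⊗ 1, φ ↦ φ ∘ σ⁻¹, φ ↦ φ ∘ σ⁻¹)` (`h13_herbR`).
-/

namespace Fermat.Agent.S56

open NumberField NumberField.Units IsDedekindDomain Polynomial Fermat.Agent.S55
open scoped TensorProduct

section General

variable {R : Type*} [CommRing R] {M M₂ : Type*} [AddCommGroup M] [AddCommGroup M₂]
  [Module R M] [Module R M₂]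

theorem h13_prodMap_pow (f : Module.End R M) (g : Module.End R M₂) (n : ℕ) :
    (f.prodMap g) ^ n = (f ^ n).prodMap (g ^ n) := by
  induction n with
  | zero => rw [pow_zero, pow_zero, pow_zero, LinearMap.prodMap_one]
  | succ n ih => rw [pow_succ, ih, pow_succ, pow_succ, LinearMap.prodMap_mul]

theorem h13_permLin_one (X : Type*) : h13_permLin R (1 : Equiv.Perm X) = 1 := rfl

end General

variable {k F : Type*} [Field k] [Field F] [Algebra k F]

section Orders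

theorem h13_unitsEnd_pow_coe (σ : F ≃ₐ[k] F) (n : ℕ) (y : Additive (𝓞 F)ˣ) :
    (((Additive.toMul ((h13_unitsEnd σ ^ n) y) : (𝓞 F)ˣ) : 𝓞 F) : F) =
      (σ ^ n) (((Additive.toMul y : (𝓞 F)ˣ) : 𝓞 F) : F) := by
  induction n with
  | zero => rfl
  | succ n ih =>
    rw [pow_succ', Module.End.mul_apply, pow_succ', AlgEquiv.mul_apply, ← ih]
    rfl

theorem h13_unitsEnd_pow_eq_one (σ : F ≃ₐ[k] F) (m : ℕ) (hm : σ ^ m = 1) :
    h13_unitsEnd σ ^ m = 1 := by
  apply LinearMap.ext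
  intro y
  have h := h13_unitsEnd_pow_coe σ m y
  rw [hm] at h
  apply Additive.toMul.injective
  apply Units.ext
  apply RingOfIntegers.ext
  exact h

theorem h13_torsionEnd_pow_coe (σ : F ≃ₐ[k] F) (n : ℕ) (x : ↥(h13_torsionSub F)) :
    (((h13_torsionEnd σ ^ n) x : ↥(h13_torsionSub F)) : Additive (𝓞 F)ˣ) =
      (h13_unitsEnd σ ^ n) x.1 := by
  induction n with
  | zero => rfl
  | succ n ih =>
    rw [pow_succ', Module.End.mul_apply, pow_succ', Module.End.mul_apply, h13_torsionEnd_coe, ih]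

theorem h13_torsionEnd_pow_eq_one (σ : F ≃ₐ[k] F) (m : ℕ) (hm : σ ^ m = 1) :
    h13_torsionEnd σ ^ m = 1 := by
  apply LinearMap.ext
  intro x
  apply Subtype.ext
  rw [h13_torsionEnd_pow_coe, h13_unitsEnd_pow_eq_one σ m hm]
  rfl

variable [NumberField F] (T : Finset (HeightOneSpectrum (𝓞 F)))

theorem h13_sunitEnd_pow_coe (σ : F ≃ₐ[k] F) (hT : ∀ w ∈ T, h92_galPrime σ w ∈ T) (n : ℕ)
    (y : Additive ↥((T : Set (HeightOneSpectrum (𝓞 F))).unit F)) :
    ((Additive.toMul ((h13_sunitEnd T σ hT ^ n) y) :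
        ↥((T : Set (HeightOneSpectrum (𝓞 F))).unit F)) : Fˣ) =
      σ ^ n • ((Additive.toMul y : ↥((T : Set (HeightOneSpectrum (𝓞 F))).unit F)) : Fˣ) := by
  induction n with
  | zero => rw [pow_zero, pow_zero, one_smul]; rfl
  | succ n ih =>
    rw [pow_succ', Module.End.mul_apply, pow_succ', mul_smul, ← ih]
    rfl

theorem h13_sunitEnd_pow_eq_one (σ : F ≃ₐ[k] F) (hT : ∀ w ∈ T, h92_galPrime σ w ∈ T) (m : ℕ)
    (hm : σ ^ m = 1) : h13_sunitEnd T σ hT ^ m = 1 := by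
  apply LinearMap.ext
  intro y
  have h := h13_sunitEnd_pow_coe T σ hT m y
  rw [hm, one_smul] at h
  apply Additive.toMul.injective
  exact Subtype.ext h

theorem h13_permT_pow_coe (σ : F ≃ₐ[k] F) (hT : ∀ w ∈ T, h92_galPrime σ w ∈ T) (n : ℕ) (w : T) :
    (((h13_permT T σ hT ^ n) w : T) : HeightOneSpectrum (𝓞 F)) = h92_galPrime (σ ^ n) w.1 := by
  induction n with
  | zero => rw [pow_zero, pow_zero, h92_galPrime_one]; rfl
  | succ n ih =>
    rw [pow_succ', Equiv.Perm.mul_apply, h13_permT_coe, ih, pow_succ', h92_galPrime_mul]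

theorem h13_permT_pow_eq_one (σ : F ≃ₐ[k] F) (hT : ∀ w ∈ T, h92_galPrime σ w ∈ T) (m : ℕ)
    (hm : σ ^ m = 1) : h13_permT T σ hT ^ m = 1 := by
  apply Equiv.ext
  intro w
  apply Subtype.ext
  rw [h13_permT_pow_coe, hm, h92_galPrime_one]
  rfl

theorem h13_toPerm_pow_eq_one (σ : F ≃ₐ[k] F) (m : ℕ) (hm : σ ^ m = 1) :
    (MulAction.toPerm σ : Equiv.Perm (InfinitePlace F)) ^ m = 1 := by
  apply Equiv.ext
  intro w
  have h : ∀ n : ℕ, ((MulAction.toPerm σ : Equiv.Perm (InfinitePlace F)) ^ n) w = σ ^ n • w := by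
    intro n
    induction n with
    | zero => rw [pow_zero, pow_zero, one_smul]; rfl
    | succ n ih => rw [pow_succ', Equiv.Perm.mul_apply, ih, pow_succ', mul_smul]; rfl
  rw [h, hm, one_smul]
  rfl

end Orders

section Main

variable [NumberField F] (T : Finset (HeightOneSpectrum (𝓞 F)))

/-- The action of `σ` on `E_T/p × F_p`: `(σ ⊗ 1, id)`. -/
noncomputable def h13_herbL (p : ℕ) (σ : F ≃ₐ[k] F) (hT : ∀ w ∈ T, h92_galPrime σ w ∈ T) :
    Module.End (ZMod p)
      ((ZMod p ⊗[ℤ] Additive ↥((T : Set (HeightOneSpectrum (𝓞 F))).unit F)) × ZMod p) :=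
  ((h13_sunitEnd T σ hT).baseChange (ZMod p)).prodMap LinearMap.id

/-- The action of `σ` on `μ/p × (F_p^{InfinitePlace F} × F_p^T)`:
`(σ ⊗ 1, φ ↦ φ ∘ σ⁻¹, φ ↦ φ ∘ σ⁻¹)`. -/
noncomputable def h13_herbR (p : ℕ) (σ : F ≃ₐ[k] F) (hT : ∀ w ∈ T, h92_galPrime σ w ∈ T) :
    Module.End (ZMod p)
      ((ZMod p ⊗[ℤ] ↥(h13_torsionSub F)) × ((InfinitePlace F → ZMod p) × (T → ZMod p))) :=
  ((h13_torsionEnd σ).baseChange (ZMod p)).prodMap
    ((h13_permLin (ZMod p) (MulAction.toPerm σ : Equiv.Perm (InfinitePlace F))).prodMap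
      (h13_permLin (ZMod p) (h13_permT T σ hT)))

theorem h13_herbrand_charpoly (p : ℕ) [Fact p.Prime] (σ : F ≃ₐ[k] F)
    (hT : ∀ w ∈ T, h92_galPrime σ w ∈ T) :
    (h13_herbL T p σ hT).charpoly = (h13_herbR T p σ hT).charpoly := by
  unfold h13_herbL h13_herbR
  rw [LinearMap.charpoly_prodMap, LinearMap.charpoly_prodMap, LinearMap.charpoly_prodMap,
    ← h13_sunit_modp_charpoly_total]
  congr 1
  have h1 : (LinearMap.id : ZMod p →ₗ[ZMod p] ZMod p) = 1 := rfl
  rw [h1, LinearMap.charpoly_one, Module.finrank_self, pow_one]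

/-- **Herbrand's theorem modulo `p`** (cyclic group of order prime to `p`):
`E_T/p × F_p ≅ μ/p × (F_p^{InfinitePlace F} × F_p^T)` equivariantly for `σ`. -/
theorem h13_herbrand_modp (p : ℕ) [Fact p.Prime] (σ : F ≃ₐ[k] F) (m : ℕ) (hm : σ ^ m = 1)
    (hpm : ¬ p ∣ m) (hT : ∀ w ∈ T, h92_galPrime σ w ∈ T) :
    ∃ e : ((ZMod p ⊗[ℤ] Additive ↥((T : Set (HeightOneSpectrum (𝓞 F))).unit F)) × ZMod p) ≃ₗ[ZMod p]
        ((ZMod p ⊗[ℤ] ↥(h13_torsionSub F)) × ((InfinitePlace F → ZMod p) × (T → ZMod p))),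
      ∀ y, e (h13_herbL T p σ hT y) = h13_herbR T p σ hT (e y) := by
  have hm0 : ((m : ℕ) : ZMod p) ≠ 0 := by
    rw [Ne, ZMod.natCast_eq_zero_iff]
    exact hpm
  refine h13_finite_order_iso m hm0 (h13_herbL T p σ hT) (h13_herbR T p σ hT) ?_ ?_
    (h13_herbrand_charpoly T p σ hT)
  · unfold h13_herbL
    rw [h13_prodMap_pow, ← LinearMap.baseChange_pow, h13_sunitEnd_pow_eq_one T σ hT m hm,
      LinearMap.baseChange_one]
    have h1 : (LinearMap.id : ZMod p →ₗ[ZMod p] ZMod p) ^ m = 1 := one_pow m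
    rw [h1, LinearMap.prodMap_one]
  · unfold h13_herbR
    rw [h13_prodMap_pow, h13_prodMap_pow, ← LinearMap.baseChange_pow,
      h13_torsionEnd_pow_eq_one σ m hm, LinearMap.baseChange_one, h13_permLin_pow,
      h13_permLin_pow, h13_toPerm_pow_eq_one σ m hm, h13_permT_pow_eq_one T σ hT m hm,
      h13_permLin_one, h13_permLin_one, LinearMap.prodMap_one, LinearMap.prodMap_one]

end Main

end Fermat.Agent.S56
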