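import Mathlib
import Fermat.Agent.S56.h13_HerbrandModP

set_option autoImplicit false

/-!
# Herbrand's theorem modulo `p` for the `S`-units: the case `μ_p ⊆ F`
(S56 / W1, base case, row C3 HERB; the form consumed by C7)

If `F` contains a primitive `p`-th root of unity `ζ` and `σ ζ = ζ ^ a`, then `μ(F)/p` is a line on
which `σ` acts by `a`, so

`E_T/p × F_p  ≅  F_p(a) × (F_p^{InfinitePlace F} × F_p^T)`          (`h13_herbrand_modp_omega`).
-/

namespace Fermat.Agent.S56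

open NumberField NumberField.Units IsDedekindDomain Polynomial Fermat.Agent.S55
open scoped TensorProduct

section Scalar

variable {K : Type*} [Field K] {V : Type*} [AddCommGroup V] [Module K V] [FiniteDimensional K V]

/-- The characteristic polynomial of a scalar endomorphism. -/
theorem h13_charpoly_smul_one (c : K) :
    (c • (1 : Module.End K V)).charpoly = (X - C c) ^ Module.finrank K V := by
  have h := LinearMap.charpoly_sub_smul (c • (1 : Module.End K V)) c
  rw [sub_self, LinearMap.charpoly_zero] at h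
  have h2 := congrArg (fun q : K[X] => q.comp (X - C c)) h
  simp only [Polynomial.comp_assoc, pow_comp, X_comp, add_comp, C_comp, sub_add_cancel,
    comp_X] at h2
  exact h2.symm

end Scalar

section Cyclic

variable {M : Type*} [AddCommGroup M]

/-- In a cyclic group with an element `x₀ ≠ 0` killed by the prime `p`, an integer killing the
generator... is divisible by `p` as soon as it kills `x₀`. -/
theorem h13_dvd_of_zsmul_eq_zero (p : ℕ) (hp : p.Prime) (x₀ : M) (hx₀ : x₀ ≠ 0)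
    (hpx : (p : ℤ) • x₀ = 0) (n : ℤ) (hn : n • x₀ = 0) : (p : ℤ) ∣ n := by
  by_contra hnd
  have hcop : IsCoprime n (p : ℤ) := by
    rw [Int.isCoprime_iff_gcd_eq_one]
    have h1 : Int.gcd n p ∣ p := by
      have := Int.gcd_dvd_right n (p : ℤ)
      exact_mod_cast this
    rcases (Nat.dvd_prime hp).1 h1 with h | h
    · exact h
    · exfalso
      apply hnd
      have h2 := Int.gcd_dvd_left n (p : ℤ)
      rw [h] at h2
      exact h2
  obtain ⟨u, v, huv⟩ := hcop
  apply hx₀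
  have h3 : (u * n + v * (p : ℤ)) • x₀ = x₀ := by rw [huv, one_smul]
  rw [add_smul, mul_smul, mul_smul, hn, hpx, smul_zero, smul_zero, add_zero] at h3
  exact h3.symm

variable [Module.Finite ℤ M]

/-- **Cyclic group modulo `p`**: if `M` is cyclic, `x₀ ≠ 0` is killed by `p` and `f x₀ = a • x₀`,
then `M/p` is a line on which `f` acts by `a`. -/
theorem h13_cyclic_modp (p : ℕ) [Fact p.Prime] (g : M) (hg : ∀ x : M, ∃ n : ℤ, x = n • g)
    (x₀ : M) (hx₀ : x₀ ≠ 0) (hpx : (p : ℤ) • x₀ = 0) (f : M →ₗ[ℤ] M) (a : ℤ)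
    (ha : f x₀ = a • x₀) :
    f.baseChange (ZMod p) = ((a : ZMod p)) • (1 : Module.End (ZMod p) (ZMod p ⊗[ℤ] M)) ∧
      Module.finrank (ZMod p) (ZMod p ⊗[ℤ] M) = 1 := by
  have hp : p.Prime := Fact.out
  obtain ⟨j, hj⟩ := hg x₀
  obtain ⟨b, hb⟩ := hg (f g)
  -- integers killing `g` are divisible by `p`
  have hkill : ∀ n : ℤ, n • g = 0 → (p : ℤ) ∣ n := by
    intro n hn
    apply h13_dvd_of_zsmul_eq_zero p hp x₀ hx₀ hpx
    rw [hj, smul_comm, hn, smul_zero]
  have hcast : ∀ n : ℤ, n • g = 0 → ((n : ℤ) : ZMod p) = 0 := fun n hn =>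
    (ZMod.intCast_zmod_eq_zero_iff_dvd n p).2 (hkill n hn)
  -- `b ≡ a mod p`
  have hba : ((b : ℤ) : ZMod p) = ((a : ℤ) : ZMod p) := by
    have h1 : (b - a) • x₀ = 0 := by
      rw [sub_smul, ← ha, hj, map_smul, hb, smul_comm, sub_self]
    have h2 := h13_dvd_of_zsmul_eq_zero p hp x₀ hx₀ hpx (b - a) h1
    have h3 := (ZMod.intCast_zmod_eq_zero_iff_dvd (b - a) p).2 h2
    rw [Int.cast_sub, sub_eq_zero] at h3
    exact h3
  -- every element is a multiple of `1 ⊗ g`
  have hspan : ∀ z : ZMod p ⊗[ℤ] M, ∃ c : ZMod p, z = c • ((1 : ZMod p) ⊗ₜ[ℤ] g) := by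
    intro z
    induction z using TensorProduct.induction_on with
    | zero => exact ⟨0, by rw [zero_smul]⟩
    | tmul c x =>
      obtain ⟨n, rfl⟩ := hg x
      refine ⟨c * (n : ZMod p), ?_⟩
      rw [TensorProduct.tmul_smul, TensorProduct.smul_tmul', TensorProduct.smul_tmul',
        smul_eq_mul, mul_one, zsmul_eq_mul, mul_comm]
    | add x y hx hy =>
      obtain ⟨c, rfl⟩ := hx
      obtain ⟨d, rfl⟩ := hy
      exact ⟨c + d, by rw [add_smul]⟩
  -- the functional
  let ψ : M →ₗ[ℤ] ZMod p :=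
    AddMonoidHom.toIntLinearMap
      { toFun := fun x => ((Classical.choose (hg x) : ℤ) : ZMod p)
        map_zero' := by
          apply hcast
          exact (Classical.choose_spec (hg 0)).symm
        map_add' := by
          intro x y
          rw [← Int.cast_add, ← sub_eq_zero, ← Int.cast_sub]
          apply hcast
          rw [sub_smul, add_smul, ← Classical.choose_spec (hg (x + y)),
            ← Classical.choose_spec (hg x), ← Classical.choose_spec (hg y), sub_self] }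
  have hψ : ∀ n : ℤ, ψ (n • g) = (n : ZMod p) := by
    intro n
    change ((Classical.choose (hg (n • g)) : ℤ) : ZMod p) = (n : ZMod p)
    rw [← sub_eq_zero, ← Int.cast_sub]
    apply hcast
    rw [sub_smul, ← Classical.choose_spec (hg (n • g)), sub_self]
  let Ψ : ZMod p ⊗[ℤ] M →ₗ[ZMod p] ZMod p := LinearMap.liftBaseChange (ZMod p) ψ
  have hΨ : ∀ c : ZMod p, Ψ (c • ((1 : ZMod p) ⊗ₜ[ℤ] g)) = c := by
    intro c
    rw [map_smul, LinearMap.liftBaseChange_tmul]
    have h1 := hψ 1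
    rw [one_smul] at h1
    rw [h1]
    simp
  have hΨinj : Function.Injective Ψ := by
    rw [← LinearMap.ker_eq_bot, LinearMap.ker_eq_bot']
    intro z hz
    obtain ⟨c, rfl⟩ := hspan z
    rw [hΨ] at hz
    rw [hz, zero_smul]
  have hΨsurj : Function.Surjective Ψ := fun c => ⟨c • ((1 : ZMod p) ⊗ₜ[ℤ] g), hΨ c⟩
  constructor
  · apply LinearMap.ext
    intro z
    obtain ⟨c, rfl⟩ := hspan z
    rw [map_smul, LinearMap.baseChange_tmul, hb, LinearMap.smul_apply, Module.End.one_apply,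
      TensorProduct.tmul_smul, ← hba, smul_comm, Int.cast_smul_eq_zsmul]
  · rw [(LinearEquiv.ofBijective Ψ ⟨hΨinj, hΨsurj⟩).finrank_eq, Module.finrank_self]

end Cyclic

variable {k F : Type*} [Field k] [Field F] [Algebra k F]

section Torsion

variable [NumberField F]

/-- **`μ(F)/p` when `μ_p ⊆ F`**: a line on which `σ` acts through the cyclotomic character. -/
theorem h13_torsion_modp (p : ℕ) [Fact p.Prime] (σ : F ≃ₐ[k] F) (ζ : F)
    (hζ : IsPrimitiveRoot ζ p) (a : ℕ) (ha : σ ζ = ζ ^ a) :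
    (h13_torsionEnd σ).baseChange (ZMod p) =
        ((a : ZMod p)) • (1 : Module.End (ZMod p) (ZMod p ⊗[ℤ] ↥(h13_torsionSub F))) ∧
      Module.finrank (ZMod p) (ZMod p ⊗[ℤ] ↥(h13_torsionSub F)) = 1 := by
  have hp : p.Prime := Fact.out
  have : NeZero p := ⟨hp.ne_zero⟩
  -- the unit `ν` with `ν = ζ`
  have hν₀ : IsPrimitiveRoot hζ.toInteger p := hζ.toInteger_isPrimitiveRoot
  obtain ⟨ν, hν⟩ := hν₀.isUnit hp.ne_zero
  have hνF : (((ν : (𝓞 F)ˣ) : 𝓞 F) : F) = ζ := by rw [hν]; rfl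
  have hν1 : IsPrimitiveRoot ν p := IsPrimitiveRoot.coe_units_iff.1 (by rw [hν]; exact hν₀)
  have hνt : ν ∈ torsion F := by
    rw [torsion, CommGroup.mem_torsion]
    exact isOfFinOrder_iff_pow_eq_one.2 ⟨p, hp.pos, hν1.pow_eq_one⟩
  -- a generator of the torsion
  obtain ⟨g₀, hg₀⟩ := IsCyclic.exists_generator (α := torsion F)
  have hgmem : Additive.ofMul (g₀ : (𝓞 F)ˣ) ∈ h13_torsionSub F :=
    (h13_mem_torsionSub _).2 g₀.2
  have hg : ∀ x : ↥(h13_torsionSub F), ∃ n : ℤ,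
      x = n • (⟨Additive.ofMul (g₀ : (𝓞 F)ˣ), hgmem⟩ : ↥(h13_torsionSub F)) := by
    intro x
    have hx : Additive.toMul x.1 ∈ torsion F := (h13_mem_torsionSub x.1).1 x.2
    obtain ⟨n, hn⟩ := Subgroup.mem_zpowers_iff.1 (hg₀ ⟨Additive.toMul x.1, hx⟩)
    refine ⟨n, ?_⟩
    apply Subtype.ext
    have h1 : ((g₀ : (𝓞 F)ˣ)) ^ n = Additive.toMul x.1 := by
      have := congrArg (Subtype.val) hn
      simpa using this
    change x.1 = n • Additive.ofMul (g₀ : (𝓞 F)ˣ)
    rw [← ofMul_zpow, h1]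
    rfl
  have hx₀mem : Additive.ofMul ν ∈ h13_torsionSub F := (h13_mem_torsionSub _).2 hνt
  have e1 : (⟨Additive.ofMul ν, hx₀mem⟩ : ↥(h13_torsionSub F)) ≠ 0 := by
    intro h0
    have h1 : Additive.ofMul ν = 0 := congrArg Subtype.val h0
    have h2 : ν = 1 := Additive.ofMul.injective h1
    exact hν1.ne_one hp.one_lt h2
  have e2 : (p : ℤ) • (⟨Additive.ofMul ν, hx₀mem⟩ : ↥(h13_torsionSub F)) = 0 := by
    apply Subtype.ext
    change (p : ℤ) • Additive.ofMul ν = 0
    rw [natCast_zsmul, ← ofMul_pow, hν1.pow_eq_one]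
    rfl
  have e3 : h13_torsionEnd σ (⟨Additive.ofMul ν, hx₀mem⟩ : ↥(h13_torsionSub F)) =
      (a : ℤ) • (⟨Additive.ofMul ν, hx₀mem⟩ : ↥(h13_torsionSub F)) := by
    apply Subtype.ext
    change h13_unitsEnd σ (Additive.ofMul ν) = (a : ℤ) • Additive.ofMul ν
    rw [h13_unitsEnd_apply, natCast_zsmul, ← ofMul_pow]
    congr 1
    apply Units.ext
    apply RingOfIntegers.ext
    rw [h13_unitsMap_coe, hνF, ha]
    simp [hνF]
  have key := h13_cyclic_modp p _ hg ⟨Additive.ofMul ν, hx₀mem⟩ e1 e2 (h13_torsionEnd σ) (a : ℤ) e3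
  rwa [Int.cast_natCast] at key

end Torsion

section Main

variable [NumberField F] (T : Finset (HeightOneSpectrum (𝓞 F)))

/-- The action of `σ` on `F_p(a) × (F_p^{InfinitePlace F} × F_p^T)`:
`(a, φ ↦ φ ∘ σ⁻¹, φ ↦ φ ∘ σ⁻¹)`. -/
noncomputable def h13_herbOmega (p : ℕ) (σ : F ≃ₐ[k] F) (hT : ∀ w ∈ T, h92_galPrime σ w ∈ T)
    (a : ℕ) :
    Module.End (ZMod p) (ZMod p × ((InfinitePlace F → ZMod p) × (T → ZMod p))) :=
  (((a : ZMod p)) • (1 : Module.End (ZMod p) (ZMod p))).prodMap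
    ((h13_permLin (ZMod p) (MulAction.toPerm σ : Equiv.Perm (InfinitePlace F))).prodMap
      (h13_permLin (ZMod p) (h13_permT T σ hT)))

/-- **Herbrand's theorem modulo `p`, `μ_p ⊆ F`** (cyclic group of order prime to `p`):
`E_T/p × F_p ≅ F_p(ω) × (F_p^{InfinitePlace F} × F_p^T)` equivariantly for `σ`, where
`σ ζ = ζ ^ a` gives the action `a` on the line `F_p(ω)`. -/
theorem h13_herbrand_modp_omega (p : ℕ) [Fact p.Prime] (σ : F ≃ₐ[k] F) (m : ℕ) (hm : σ ^ m = 1)
    (hpm : ¬ p ∣ m) (hT : ∀ w ∈ T, h92_galPrime σ w ∈ T) (ζ : F) (hζ : IsPrimitiveRoot ζ p)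
    (a : ℕ) (ha : σ ζ = ζ ^ a) :
    ∃ e : ((ZMod p ⊗[ℤ] Additive ↥((T : Set (HeightOneSpectrum (𝓞 F))).unit F)) × ZMod p) ≃ₗ[ZMod p]
        (ZMod p × ((InfinitePlace F → ZMod p) × (T → ZMod p))),
      ∀ y, e (h13_herbL T p σ hT y) = h13_herbOmega T p σ hT a (e y) := by
  obtain ⟨hsc, hfr⟩ := h13_torsion_modp p σ ζ hζ a ha
  have hm0 : ((m : ℕ) : ZMod p) ≠ 0 := by
    rw [Ne, ZMod.natCast_eq_zero_iff]
    exact hpm
  -- `a ^ m = 1` in `ZMod p`
  have ham : ((a : ZMod p)) ^ m = 1 := by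
    have h1 : ((h13_torsionEnd σ).baseChange (ZMod p)) ^ m = 1 := by
      rw [← LinearMap.baseChange_pow, h13_torsionEnd_pow_eq_one σ m hm, LinearMap.baseChange_one]
    rw [hsc, _root_.smul_pow, one_pow] at h1
    have hnt : Nontrivial (ZMod p ⊗[ℤ] ↥(h13_torsionSub F)) :=
      Module.nontrivial_of_finrank_pos (R := ZMod p) (by rw [hfr]; exact Nat.one_pos)
    obtain ⟨v, hv⟩ := exists_ne (0 : ZMod p ⊗[ℤ] ↥(h13_torsionSub F))
    have h2 := congrArg (fun f : Module.End (ZMod p) (ZMod p ⊗[ℤ] ↥(h13_torsionSub F)) => f v) h1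
    simp only [LinearMap.smul_apply, Module.End.one_apply] at h2
    by_contra hne
    have h3 : ((a : ZMod p) ^ m - 1) • v = 0 := by rw [sub_smul, h2, one_smul, sub_self]
    rcases smul_eq_zero.1 h3 with h4 | h4
    · exact hne (sub_eq_zero.1 h4)
    · exact hv h4
  have hL : h13_herbL T p σ hT ^ m = 1 := by
    unfold h13_herbL
    rw [h13_prodMap_pow, ← LinearMap.baseChange_pow, h13_sunitEnd_pow_eq_one T σ hT m hm,
      LinearMap.baseChange_one]
    have h1 : (LinearMap.id : ZMod p →ₗ[ZMod p] ZMod p) ^ m = 1 := one_pow m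
    rw [h1, LinearMap.prodMap_one]
  have hR : h13_herbOmega T p σ hT a ^ m = 1 := by
    unfold h13_herbOmega
    rw [h13_prodMap_pow, h13_prodMap_pow, _root_.smul_pow, one_pow, ham, one_smul, h13_permLin_pow,
      h13_permLin_pow, h13_toPerm_pow_eq_one σ m hm, h13_permT_pow_eq_one T σ hT m hm,
      h13_permLin_one, h13_permLin_one, LinearMap.prodMap_one, LinearMap.prodMap_one]
  refine h13_finite_order_iso m hm0 (h13_herbL T p σ hT) (h13_herbOmega T p σ hT a) hL hR ?_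
  rw [h13_herbrand_charpoly T p σ hT]
  unfold h13_herbR h13_herbOmega
  rw [LinearMap.charpoly_prodMap, LinearMap.charpoly_prodMap (((a : ZMod p)) • (1 : Module.End (ZMod p) (ZMod p)))]
  congr 1
  rw [hsc, h13_charpoly_smul_one, h13_charpoly_smul_one, hfr, Module.finrank_self]

end Main

end Fermat.Agent.S56
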