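import Mathlib
import Fermat.Agent.S56.h13_HerbrandOmega
import Fermat.Agent.S56.h25_RepHerbFin

set_option autoImplicit false

/-!
# Herbrand's theorem modulo `p` in `K₀` form (S56 / W1, row C3 HERB, consumer form for C7)

`C` a finite cyclic group of order prime to `p` acting on the number field `F ⊇ μ_p` through
`act : C →* (F ≃ₐ[k] F)`, `S` a finite `C`-stable set of primes of `F`.  For every additive
invariant `ψ` of `F_p[C]`-modules (`h25_IsAdditive p C ψ`):

`ψ (E_S / p) + ψ (F_p) = ψ (F_p(χ)) + ψ (F_p^{Pl_∞}) + ψ (F_p^{Pl_f})`      (`h13_herbrand_K0`)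

where `E_S = S.unit F`, `χ` is the cyclotomic character of `C` modulo `p`, and `Pl_∞`, `Pl_f` are
any `C`-sets with equivariant bijections to `InfinitePlace F` and to `S`.
-/

namespace Fermat.Agent.S56

open NumberField NumberField.Units IsDedekindDomain Polynomial Fermat.Agent.S55
open scoped TensorProduct

section Defs

variable {k F : Type*} [Field k] [Field F] [Algebra k F] [NumberField F]

/-- `σ` acting on the `S`-units, for a `σ`-stable set `S` of primes. -/
noncomputable def h13_sunitMapS (S : Set (HeightOneSpectrum (𝓞 F))) (σ : F ≃ₐ[k] F)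
    (hS : ∀ w ∈ S, h92_galPrime σ w ∈ S) : ↥(S.unit F) →* ↥(S.unit F) where
  toFun x := ⟨σ • (x : Fˣ), h92_unit_smul_mem σ S hS _ x.2⟩
  map_one' := Subtype.ext (smul_one σ)
  map_mul' x y := Subtype.ext (smul_mul' σ (x : Fˣ) (y : Fˣ))

/-- `σ` on the additive group of `S`-units. -/
noncomputable def h13_sunitEndS (S : Set (HeightOneSpectrum (𝓞 F))) (σ : F ≃ₐ[k] F)
    (hS : ∀ w ∈ S, h92_galPrime σ w ∈ S) :
    Additive ↥(S.unit F) →ₗ[ℤ] Additive ↥(S.unit F) :=
  (MonoidHom.toAdditive (h13_sunitMapS S σ hS)).toIntLinearMap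

theorem h13_sunitEndS_coe (S : Set (HeightOneSpectrum (𝓞 F))) (σ : F ≃ₐ[k] F)
    (hS : ∀ w ∈ S, h92_galPrime σ w ∈ S) (y : Additive ↥(S.unit F)) :
    ((Additive.toMul (h13_sunitEndS S σ hS y) : ↥(S.unit F)) : Fˣ) =
      σ • ((Additive.toMul y : ↥(S.unit F)) : Fˣ) := rfl

theorem h13_sunitEndS_finset (T : Finset (HeightOneSpectrum (𝓞 F))) (σ : F ≃ₐ[k] F)
    (hT : ∀ w ∈ T, h92_galPrime σ w ∈ T) :
    h13_sunitEndS (T : Set (HeightOneSpectrum (𝓞 F))) σ (h13_stable_coe T σ hT) =
      h13_sunitEnd T σ hT := rfl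

variable {C : Type*} [Group C] (act : C →* (F ≃ₐ[k] F))

/-- `E_S / p` as a representation of `C` over `ZMod p`. -/
noncomputable def h13_sunitRep (S : Set (HeightOneSpectrum (𝓞 F)))
    (hS : ∀ c : C, ∀ w ∈ S, h92_galPrime (act c) w ∈ S) (p : ℕ) :
    Representation (ZMod p) C (ZMod p ⊗[ℤ] Additive ↥(S.unit F)) where
  toFun c := (h13_sunitEndS S (act c) (hS c)).baseChange (ZMod p)
  map_one' := by
    have h : h13_sunitEndS S (act 1) (hS 1) = LinearMap.id := by
      apply LinearMap.ext
      intro y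
      apply Additive.toMul.injective
      apply Subtype.ext
      rw [h13_sunitEndS_coe, map_one, one_smul]
      rfl
    rw [h, LinearMap.baseChange_id]
    rfl
  map_mul' c d := by
    have h : h13_sunitEndS S (act (c * d)) (hS (c * d)) =
        h13_sunitEndS S (act c) (hS c) ∘ₗ h13_sunitEndS S (act d) (hS d) := by
      apply LinearMap.ext
      intro y
      apply Additive.toMul.injective
      apply Subtype.ext
      rw [h13_sunitEndS_coe, map_mul, mul_smul]
      rfl
    rw [h, LinearMap.baseChange_comp]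
    rfl

theorem h13_sunitRep_apply (S : Set (HeightOneSpectrum (𝓞 F)))
    (hS : ∀ c : C, ∀ w ∈ S, h92_galPrime (act c) w ∈ S) (p : ℕ) (c : C) :
    h13_sunitRep act S hS p c = (h13_sunitEndS S (act c) (hS c)).baseChange (ZMod p) := rfl

/-- The one-dimensional representation attached to a character `χ : C →* (ZMod p)ˣ`. -/
noncomputable def h13_charRep (p : ℕ) (χ : C →* (ZMod p)ˣ) : Representation (ZMod p) C (ZMod p) where
  toFun c := ((χ c : (ZMod p)ˣ) : ZMod p) • (1 : Module.End (ZMod p) (ZMod p))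
  map_one' := by rw [map_one, Units.val_one, one_smul]
  map_mul' c d := by
    rw [map_mul, Units.val_mul, smul_mul_smul_comm, mul_one]

theorem h13_charRep_apply (p : ℕ) (χ : C →* (ZMod p)ˣ) (c : C) (x : ZMod p) :
    h13_charRep p χ c x = ((χ c : (ZMod p)ˣ) : ZMod p) * x := rfl

end Defs

section Additive

variable {p : ℕ} [Fact p.Prime] {G : Type} [Group G]
  {ψ : ∀ (V : Type) [AddCommGroup V] [Module (ZMod p) V], Representation (ZMod p) G V → ℤ}

/-- An additive invariant is additive on products. -/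
theorem h13_additive_prod (hψ : h25_IsAdditive p G ψ) (A B : Type) [AddCommGroup A]
    [Module (ZMod p) A] [AddCommGroup B] [Module (ZMod p) B] [Finite A] [Finite B]
    (ρA : Representation (ZMod p) G A) (ρB : Representation (ZMod p) G B) :
    ψ (A × B) (ρA.prod ρB) = ψ A ρA + ψ B ρB := by
  refine hψ.exact A (A × B) B ρA (ρA.prod ρB) ρB (LinearMap.inl (ZMod p) A B)
    (LinearMap.snd (ZMod p) A B) (fun g v => ?_) (fun g v => rfl) LinearMap.inl_injective
    LinearMap.snd_surjective (fun v => ?_)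
  · simp
  · constructor
    · intro hv
      exact ⟨v.1, Prod.ext rfl (by simpa using hv.symm)⟩
    · rintro ⟨a, rfl⟩
      rfl

/-- An additive invariant takes the same value on permutation modules of isomorphic `G`-sets;
concrete form with an explicit family of permutations on the target. -/
theorem h13_additive_perm (hψ : h25_IsAdditive p G ψ) (X Y : Type) [Finite X] [Finite Y]
    [MulAction G X] (π : G →* Equiv.Perm Y) (e : X ≃ Y) (he : ∀ g x, e (g • x) = π g (e x))
    (ρY : Representation (ZMod p) G (Y → ZMod p))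
    (hρY : ∀ g, ρY g = h13_permLin (ZMod p) (π g)) :
    ψ (Y → ZMod p) ρY = ψ (X → ZMod p) (h25_perm (ZMod p) G X) := by
  refine h25_additive_iso hψ (Y → ZMod p) (X → ZMod p) ρY (h25_perm (ZMod p) G X)
    { toFun := fun φ x => φ (e x), map_zero' := rfl, map_add' := fun _ _ => rfl } ?_ ?_
  · intro g φ
    funext x
    change ρY g φ (e x) = φ (e (g⁻¹ • x))
    rw [hρY, h13_permLin_apply, he, map_inv]
    rfl
  · constructor
    · intro φ φ' h
      funext y
      have := congrFun h (e.symm y)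
      simpa using this
    · intro φ
      refine ⟨fun y => φ (e.symm y), ?_⟩
      funext x
      change φ (e.symm (e x)) = φ x
      rw [Equiv.symm_apply_apply]

end Additive

section Main

variable {k : Type*} {F : Type} [Field k] [Field F] [Algebra k F] [NumberField F]
variable {C : Type} [Group C]

/-- The family of permutations of the infinite places. -/
noncomputable def h13_permInf (act : C →* (F ≃ₐ[k] F)) : C →* Equiv.Perm (InfinitePlace F) :=
  (MulAction.toPermHom (F ≃ₐ[k] F) (InfinitePlace F)).comp act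

theorem h13_permInf_apply (act : C →* (F ≃ₐ[k] F)) (c : C) :
    h13_permInf act c = MulAction.toPerm (act c) := rfl

/-- The family of permutations of a stable finite set of primes. -/
noncomputable def h13_permFin (act : C →* (F ≃ₐ[k] F)) (T : Finset (HeightOneSpectrum (𝓞 F)))
    (hT : ∀ c : C, ∀ w ∈ T, h92_galPrime (act c) w ∈ T) : C →* Equiv.Perm T where
  toFun c := h13_permT T (act c) (hT c)
  map_one' := by
    apply Equiv.ext
    intro w
    apply Subtype.ext
    rw [h13_permT_coe, map_one, h92_galPrime_one]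
    rfl
  map_mul' := by
    intro c d
    apply Equiv.ext
    intro w
    apply Subtype.ext
    rw [h13_permT_coe, map_mul, h92_galPrime_mul]
    rfl

theorem h13_permFin_apply (act : C →* (F ≃ₐ[k] F)) (T : Finset (HeightOneSpectrum (𝓞 F)))
    (hT : ∀ c : C, ∀ w ∈ T, h92_galPrime (act c) w ∈ T) (c : C) :
    h13_permFin act T hT c = h13_permT T (act c) (hT c) := rfl

/-- The permutation representation attached to a family of permutations. -/
noncomputable def h13_permRep (p : ℕ) {Y : Type} (π : C →* Equiv.Perm Y) :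
    Representation (ZMod p) C (Y → ZMod p) where
  toFun c := h13_permLin (ZMod p) (π c)
  map_one' := by rw [map_one]; rfl
  map_mul' := by
    intro c d
    rw [map_mul]
    rfl

theorem h13_permRep_apply (p : ℕ) {Y : Type} (π : C →* Equiv.Perm Y) (c : C) :
    h13_permRep p π c = h13_permLin (ZMod p) (π c) := rfl

/-- The left side `E_T/p × F_p` as a representation. -/
noncomputable def h13_repL (p : ℕ) (act : C →* (F ≃ₐ[k] F))
    (T : Finset (HeightOneSpectrum (𝓞 F)))
    (hS : ∀ c : C, ∀ w ∈ (T : Set (HeightOneSpectrum (𝓞 F))),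
      h92_galPrime (act c) w ∈ (T : Set (HeightOneSpectrum (𝓞 F)))) :
    Representation (ZMod p) C
      ((ZMod p ⊗[ℤ] Additive ↥((T : Set (HeightOneSpectrum (𝓞 F))).unit F)) × ZMod p) :=
  (h13_sunitRep act (T : Set (HeightOneSpectrum (𝓞 F))) hS p).prod
    (Representation.trivial (ZMod p) C (ZMod p))

/-- The right side `F_p(χ) × (F_p^{Pl_∞} × F_p^T)` as a representation. -/
noncomputable def h13_repR (p : ℕ) (act : C →* (F ≃ₐ[k] F))
    (T : Finset (HeightOneSpectrum (𝓞 F)))
    (hT : ∀ c : C, ∀ w ∈ T, h92_galPrime (act c) w ∈ T) (χ : C →* (ZMod p)ˣ) :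
    Representation (ZMod p) C (ZMod p × ((InfinitePlace F → ZMod p) × (T → ZMod p))) :=
  (h13_charRep p χ).prod ((h13_permRep p (h13_permInf act)).prod
    (h13_permRep p (h13_permFin act T hT)))

theorem h13_repL_apply (p : ℕ) (act : C →* (F ≃ₐ[k] F))
    (T : Finset (HeightOneSpectrum (𝓞 F)))
    (hS : ∀ c : C, ∀ w ∈ (T : Set (HeightOneSpectrum (𝓞 F))),
      h92_galPrime (act c) w ∈ (T : Set (HeightOneSpectrum (𝓞 F))))
    (hT : ∀ c : C, ∀ w ∈ T, h92_galPrime (act c) w ∈ T) (c : C) :
    h13_repL p act T hS c = h13_herbL T p (act c) (hT c) := by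
  unfold h13_repL h13_herbL
  change (h13_sunitRep act (T : Set (HeightOneSpectrum (𝓞 F))) hS p c).prodMap
    (Representation.trivial (ZMod p) C (ZMod p) c) = _
  rw [h13_sunitRep_apply, h13_sunitEndS_finset T (act c) (hT c)]
  rfl

theorem h13_repR_apply (p : ℕ) [NeZero p] (act : C →* (F ≃ₐ[k] F))
    (T : Finset (HeightOneSpectrum (𝓞 F)))
    (hT : ∀ c : C, ∀ w ∈ T, h92_galPrime (act c) w ∈ T) (χ : C →* (ZMod p)ˣ) (c : C) :
    h13_repR p act T hT χ c =
      h13_herbOmega T p (act c) (hT c) ((χ c : (ZMod p)ˣ) : ZMod p).val := by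
  unfold h13_repR h13_herbOmega
  change (h13_charRep p χ c).prodMap ((h13_permRep p (h13_permInf act) c).prodMap
    (h13_permRep p (h13_permFin act T hT) c)) = _
  rw [h13_permRep_apply, h13_permRep_apply, h13_permInf_apply, h13_permFin_apply,
    ZMod.natCast_zmod_val]
  rfl

/-- An equivariant isomorphism for a generator gives equality of additive invariants. -/
theorem h13_additive_of_generator {p : ℕ} [Fact p.Prime] {G : Type} [Group G] [Finite G]
    {ψ : ∀ (V : Type) [AddCommGroup V] [Module (ZMod p) V], Representation (ZMod p) G V → ℤ}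
    (hψ : h25_IsAdditive p G ψ) (g₀ : G) (hg₀ : ∀ g : G, g ∈ Subgroup.zpowers g₀)
    (V V' : Type) [AddCommGroup V] [Module (ZMod p) V] [AddCommGroup V'] [Module (ZMod p) V']
    [Finite V] (ρ : Representation (ZMod p) G V) (ρ' : Representation (ZMod p) G V')
    (e : V ≃ₗ[ZMod p] V') (he : ∀ y, e (ρ g₀ y) = ρ' g₀ (e y)) : ψ V ρ = ψ V' ρ' := by
  refine h25_additive_iso hψ V V' ρ ρ' e.toLinearMap.toAddMonoidHom ?_ e.bijective
  intro g y
  obtain ⟨n, rfl⟩ := (mem_powers_iff_mem_zpowers.2 (hg₀ g))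
  change e (ρ (g₀ ^ n) y) = ρ' (g₀ ^ n) (e y)
  rw [map_pow, map_pow]
  exact (h13_pow_intertwine e.toLinearMap (ρ g₀) (ρ' g₀) (fun m => (he m).symm) n y).symm

/-- **Herbrand's theorem modulo `p`, `K₀` form** (cyclic group of order prime to `p`,
`μ_p ⊆ F`). -/
theorem h13_herbrand_K0 (p : ℕ) [Fact p.Prime] [Finite C] [IsCyclic C] (hpC : ¬ p ∣ Nat.card C)
    (act : C →* (F ≃ₐ[k] F))
    (S : Set (HeightOneSpectrum (𝓞 F))) (hSfin : S.Finite)
    (hS : ∀ c : C, ∀ w ∈ S, h92_galPrime (act c) w ∈ S)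
    (ζ : F) (hζ : IsPrimitiveRoot ζ p) (χ : C →* (ZMod p)ˣ)
    (hχ : ∀ c, act c ζ = ζ ^ ((χ c : (ZMod p)ˣ) : ZMod p).val)
    (Pinf Pf : Type) [Finite Pinf] [Finite Pf] [MulAction C Pinf] [MulAction C Pf]
    (einf : Pinf ≃ InfinitePlace F) (heinf : ∀ c x, einf (c • x) = act c • einf x)
    (ef : Pf ≃ ↥S)
    (hef : ∀ c x, ((ef (c • x) : ↥S) : HeightOneSpectrum (𝓞 F)) = h92_galPrime (act c) (ef x).1)
    {ψ : ∀ (V : Type) [AddCommGroup V] [Module (ZMod p) V], Representation (ZMod p) C V → ℤ}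
    (hψ : h25_IsAdditive p C ψ) :
    ψ (ZMod p ⊗[ℤ] Additive ↥(S.unit F)) (h13_sunitRep act S hS p) +
        ψ (ZMod p) (Representation.trivial (ZMod p) C (ZMod p)) =
      ψ (ZMod p) (h13_charRep p χ) + ψ (Pinf → ZMod p) (h25_perm (ZMod p) C Pinf) +
        ψ (Pf → ZMod p) (h25_perm (ZMod p) C Pf) := by
  obtain ⟨T, rfl⟩ : ∃ T : Finset (HeightOneSpectrum (𝓞 F)), (T : Set _) = S :=
    ⟨hSfin.toFinset, hSfin.coe_toFinset⟩
  have hp : p.Prime := Fact.out
  have : NeZero p := ⟨hp.ne_zero⟩
  have hT : ∀ c : C, ∀ w ∈ T, h92_galPrime (act c) w ∈ T := fun c w hw =>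
    Finset.mem_coe.1 (hS c w (Finset.mem_coe.2 hw))
  obtain ⟨c₀, hc₀⟩ := IsCyclic.exists_generator (α := C)
  have hm : act c₀ ^ Nat.card C = 1 := by
    rw [← map_pow, pow_card_eq_one', map_one]
  have hfinA : Finite (ZMod p ⊗[ℤ] Additive ↥((T : Set (HeightOneSpectrum (𝓞 F))).unit F)) :=
    Module.finite_of_finite (ZMod p)
  obtain ⟨e, he⟩ := h13_herbrand_modp_omega T p (act c₀) (Nat.card C) hm hpC (hT c₀) ζ hζ
    ((χ c₀ : (ZMod p)ˣ) : ZMod p).val (hχ c₀)
  have h1 : ψ _ (h13_repL p act T hS) = ψ _ (h13_repR p act T hT χ) := by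
    refine h13_additive_of_generator hψ c₀ hc₀ _ _ _ _ e ?_
    intro y
    rw [h13_repL_apply p act T hS hT, h13_repR_apply]
    exact he y
  have h2 : ψ _ (h13_repL p act T hS) = _ := h13_additive_prod hψ _ _
    (h13_sunitRep act (T : Set (HeightOneSpectrum (𝓞 F))) hS p)
    (Representation.trivial (ZMod p) C (ZMod p))
  have h3 : ψ _ (h13_repR p act T hT χ) = _ := h13_additive_prod hψ _ _ (h13_charRep p χ)
    ((h13_permRep p (h13_permInf act)).prod (h13_permRep p (h13_permFin act T hT)))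
  have h4 := h13_additive_prod hψ _ _ (h13_permRep p (h13_permInf act))
    (h13_permRep p (h13_permFin act T hT))
  have h5 : ψ _ (h13_permRep p (h13_permInf act)) = ψ (Pinf → ZMod p) (h25_perm (ZMod p) C Pinf) :=
    h13_additive_perm hψ Pinf (InfinitePlace F) (h13_permInf act) einf heinf _ (fun _ => rfl)
  have h6 : ψ _ (h13_permRep p (h13_permFin act T hT)) =
      ψ (Pf → ZMod p) (h25_perm (ZMod p) C Pf) := by
    refine h13_additive_perm hψ Pf T (h13_permFin act T hT) ef ?_ _ (fun _ => rfl)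
    intro c x
    apply Subtype.ext
    exact hef c x
  linarith

end Main

end Fermat.Agent.S56
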