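import Mathlib
import Fermat.Agent.S56.h88_TameLoc
import Fermat.Agent.S56.h49_K0Basic

/-!
# S56 / W3 / E-RED row W3-ER-FROB (helper14)

`skR_exists_frob` of helper80's E-RED skeleton, verbatim (as `h14_exists_frob`): for a finite
Galois-stable `L` there is `φ ∈ Gal(Ω/ℚ_p)` which is the `p`-power map modulo the maximal ideal
on the integers of `L`, and every Galois element acts on `K₀(L)` as a power of `φ`.

Everything is assembled from helper88's `h88_TameLoc` (`h88_exists_frob`, `h88_teich`,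
`h88_frob_gen`) and helper49's `h49_K0_stable`.
-/

set_option autoImplicit false

namespace Fermat.Agent.S56

variable (p : ℕ) [Fact p.Prime]

local notation "Ω" => PadicAlgCl p
local notation "Fld" => IntermediateField ℚ_[p] (PadicAlgCl p)

/-- a Frobenius element on prime-to-`p` roots of unity of `L` is the `p`-power map modulo the
maximal ideal on all integers of `L`. -/
theorem h14_frob_mod (L : Fld) [FiniteDimensional ℚ_[p] L] (φ : h78_G p)
    (hφ : ∀ z, h88_IsMu p L z → φ z = z ^ p) (y : Ω) (hy : y ∈ L) (hy1 : ‖y‖ ≤ 1) :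
    ‖φ y - y ^ p‖ < 1 := by
  have hp0 : p ≠ 0 := (Fact.out : p.Prime).ne_zero
  by_cases hlt : ‖y‖ < 1
  · have h1 : ‖φ y‖ < 1 := by rw [h78_norm_aut]; exact hlt
    have h2 : ‖y ^ p‖ < 1 := by
      rw [norm_pow]
      exact pow_lt_one₀ (norm_nonneg _) hlt hp0
    rw [sub_eq_add_neg]
    exact lt_of_le_of_lt (IsUltrametricDist.norm_add_le_max _ _)
      (max_lt h1 (by rwa [norm_neg]))
  · have hye : ‖y‖ = 1 := le_antisymm hy1 (not_lt.1 hlt)
    obtain ⟨z, hz, hyz⟩ := h88_teich p L y hy hye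
    have hz1 : ‖z‖ = 1 := h88_isMu_norm p L z hz
    have h3 : φ y - y ^ p = φ (y - z) + (z ^ p - y ^ p) := by
      rw [map_sub, hφ z hz]; ring
    rw [h3]
    refine lt_of_le_of_lt (IsUltrametricDist.norm_add_le_max _ _) (max_lt ?_ ?_)
    · rw [h78_norm_aut]; exact hyz
    · have h4 : ‖z ^ p - y ^ p‖ ≤ ‖z - y‖ := by
        have hgeom := Commute.geom_sum₂_mul (Commute.all z y) p
        rw [← hgeom, norm_mul]
        refine mul_le_of_le_one_left (norm_nonneg _) ?_
        refine IsUltrametricDist.norm_sum_le_of_forall_le_of_nonneg zero_le_one fun i _ => ?_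
        rw [norm_mul, norm_pow, norm_pow, hz1, hye, one_pow, one_pow, one_mul]
      refine lt_of_le_of_lt h4 ?_
      rw [norm_sub_rev]; exact hyz

/-- **W3-ER-FROB** (`skR_exists_frob`): a Frobenius lift for `L`. -/
theorem h14_exists_frob (L : Fld) [FiniteDimensional ℚ_[p] L] (hL : h78_Stable p L) :
    ∃ φ : h78_G p, (∀ y ∈ L, ‖y‖ ≤ 1 → ‖φ y - y ^ p‖ < 1) ∧
      ∀ g : h78_G p, ∃ n : ℕ, ∀ z ∈ h78_K0 p L, g z = (φ ^ n) z := by
  obtain ⟨φ, hφ⟩ := h88_exists_frob p L
  refine ⟨φ, fun y hy hy1 => h14_frob_mod p L φ hφ y hy hy1, fun g => ?_⟩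
  obtain ⟨j, hj⟩ := h88_frob_gen p L hL φ hφ g
  refine ⟨j, fun z hz => ?_⟩
  have h1 := h49_J_fix p L _ hj ((φ ^ j) z) (h49_K0_stable p L hL (φ ^ j) z hz)
  have h2 : (g * φ⁻¹ ^ j) ((φ ^ j) z) = g z := by
    rw [AlgEquiv.mul_apply]
    congr 1
    rw [← AlgEquiv.mul_apply, inv_pow, inv_mul_cancel]
    rfl
  rw [← h1, h2]

end Fermat.Agent.S56
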