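import Fermat.Agent.S56.h19_ConjJ
import Fermat.Agent.S56.h62_W3Basics
import Fermat.Agent.S56.h49_K0Res
import Fermat.Agent.S56.h8_Expansion
import Fermat.Agent.S56.h28_K0Unram

/-!
# S56 / W3, row B4b (CONJ): closed forms

* `h19_prod_conjJ` : the skeleton statement `sk_prod_conjJ`, unconditional;
* `h19_card_conjJ` : the skeleton statement `sk_card_conjJ`, unconditional
  (B0.5 `h62_mem_of_fixed`, B3.1 `h49_K0_res`, B3.2 `h28_K0_unram`, B4.1 `h8_expansion`).
-/

set_option autoImplicit false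

namespace Fermat.Agent.S56

variable (p : ℕ) [Fact p.Prime]

local notation "Ω" => PadicAlgCl p
local notation "Fld" => IntermediateField ℚ_[p] (PadicAlgCl p)

/-- **B4.3, second half**: `∏ (X - π')` over the `J_L`-conjugates of `π` has coefficients in
`K₀(L)`. -/
theorem h19_prod_conjJ (L : Fld) [FiniteDimensional ℚ_[p] L] (_hL : h78_Stable p L)
    (π : Ω) (_hπ : h78_IsUnif p L π) (n : ℕ) :
    (∏ x ∈ h78_conj p (h78_J p L) π, (Polynomial.X - Polynomial.C x)).coeff n ∈ h78_K0 p L :=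
  h19_prod_conjJ_of p (h62_mem_of_fixed p) L π n

/-- **B4.3, first half**: `‖π‖ ^ #(J_L-conjugates of π) = p⁻¹`. -/
theorem h19_card_conjJ (L : Fld) [FiniteDimensional ℚ_[p] L] (_hL : h78_Stable p L)
    (π : Ω) (hπ : h78_IsUnif p L π) :
    ‖π‖ ^ (h78_conj p (h78_J p L) π).card = (p : ℝ)⁻¹ :=
  h19_card_conjJ_of p (h62_mem_of_fixed p) (h49_K0_res p) (h28_K0_unram p) (h8_expansion p) L π hπ

end Fermat.Agent.S56
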