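import Mathlib

/-!
# S56 / W3, row IRR-6 (ARITH): arithmetic of the levels

`θ` of exact order `e` in a domain, `(p - 1) ∣ e`, `w = θ ^ (e / (p - 1))`.  For a level
`e ≤ i ≤ e + e/(p-1)`:

* (A) `h19_irr_arith_A` : if `ϑ² ≠ 1`, there is at most one level `i` with
  `θ^i ∈ {w ϑ, w ϑ⁻¹}`, and it is not the top level `e + e/(p-1)`;
* (B) `h19_irr_arith_B` : if `ϑ = -1` and `p ≠ 3`, there is no level with `θ^i = w ϑ`;
* (C) `h19_irr_arith_C` : there is no level below the top with `θ^i = w`.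
-/

set_option autoImplicit false

namespace Fermat.Agent.S56

section

variable {R : Type*} [CommRing R] [IsDomain R]

/-- basic facts about `q = e / (p - 1)` -/
theorem h19_irr_q {p : ℕ} (hp : p.Prime) (hp2 : p ≠ 2) {e : ℕ} (he : (p - 1) ∣ e)
    (he0 : 0 < e) : 2 * (e / (p - 1)) ≤ e ∧ e / (p - 1) < e := by
  have hp3 : 3 ≤ p := by
    have := hp.two_le
    omega
  have hq : e / (p - 1) * (p - 1) = e := Nat.div_mul_cancel he
  have h2 : e / (p - 1) * 2 ≤ e / (p - 1) * (p - 1) := Nat.mul_le_mul_left _ (by omega)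
  constructor <;> omega

theorem h19_irr_theta_ne_zero {θ : R} {e : ℕ} (he0 : 0 < e) (hθ : orderOf θ = e) : θ ≠ 0 := by
  rintro rfl
  have h := pow_orderOf_eq_one (0 : R)
  rw [hθ, zero_pow he0.ne'] at h
  exact zero_ne_one h

/-- `θ ^ s = θ ^ s'` with `s, s' < e` forces `s = s'` -/
theorem h19_irr_inj {θ : R} {e : ℕ} (he0 : 0 < e) (hθ : orderOf θ = e) {s s' : ℕ}
    (hs : s < e) (hs' : s' < e) (h : θ ^ s = θ ^ s') : s = s' := by
  have hθ0 := h19_irr_theta_ne_zero he0 hθ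
  wlog hle : s ≤ s' generalizing s s'
  · exact (this hs' hs h.symm (by omega)).symm
  have h1 : θ ^ (s' - s) = 1 := by
    have h2 : θ ^ s * θ ^ (s' - s) = θ ^ s * 1 := by
      rw [← pow_add, mul_one, Nat.add_sub_cancel' hle, h]
    exact mul_left_cancel₀ (pow_ne_zero _ hθ0) h2
  have h3 : e ∣ s' - s := hθ ▸ orderOf_dvd_of_pow_eq_one h1
  have h4 : s' - s = 0 := Nat.eq_zero_of_dvd_of_lt h3 (by omega)
  omega

/-- the reduction of a level `i = e + q - s` -/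
theorem h19_irr_level {p : ℕ} (θ ϑ w : R) (e : ℕ) (he0 : 0 < e) (hθ : orderOf θ = e)
    (hw : w = θ ^ (e / (p - 1))) (i : ℕ) (hi : e ≤ i) (hi' : i ≤ e + e / (p - 1)) :
    ∃ s : ℕ, s ≤ e / (p - 1) ∧ i + s = e + e / (p - 1) ∧
      (θ ^ i = w * ϑ → θ ^ s * ϑ = 1) ∧ (θ ^ i * ϑ = w → ϑ = θ ^ s) := by
  have hθ0 := h19_irr_theta_ne_zero he0 hθ
  have hθe : θ ^ e = 1 := hθ ▸ pow_orderOf_eq_one θ
  refine ⟨e + e / (p - 1) - i, by omega, by omega, ?_, ?_⟩
  · intro h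
    have hi2 : θ ^ i = θ ^ (i - e) := by
      conv_lhs => rw [show i = e + (i - e) by omega, pow_add, hθe, one_mul]
    have hw2 : w = θ ^ (i - e) * θ ^ (e + e / (p - 1) - i) := by
      rw [hw, ← pow_add]
      congr 1
      omega
    rw [hi2, hw2, mul_assoc] at h
    have h2 : θ ^ (i - e) * 1 = θ ^ (i - e) * (θ ^ (e + e / (p - 1) - i) * ϑ) := by
      rw [mul_one]
      exact h
    exact (mul_left_cancel₀ (pow_ne_zero _ hθ0) h2).symm
  · intro h
    have hi2 : θ ^ i = θ ^ (i - e) := by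
      conv_lhs => rw [show i = e + (i - e) by omega, pow_add, hθe, one_mul]
    have hw2 : w = θ ^ (i - e) * θ ^ (e + e / (p - 1) - i) := by
      rw [hw, ← pow_add]
      congr 1
      omega
    rw [hi2, hw2] at h
    exact mul_left_cancel₀ (pow_ne_zero _ hθ0) h

/-- **IRR-6 (A)** -/
theorem h19_irr_arith_A {p : ℕ} (θ ϑ w : R) (e : ℕ) (hp : p.Prime) (hp2 : p ≠ 2)
    (he : (p - 1) ∣ e) (he0 : 0 < e) (hθ : orderOf θ = e) (hw : w = θ ^ (e / (p - 1)))
    (hϑ : ϑ * ϑ ≠ 1) (hϑ' : ϑ ≠ 0) :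
    ∀ i i' : ℕ, e ≤ i → i ≤ e + e / (p - 1) → e ≤ i' → i' ≤ e + e / (p - 1) →
      (θ ^ i = w * ϑ ∨ θ ^ i * ϑ = w) → (θ ^ i' = w * ϑ ∨ θ ^ i' * ϑ = w) →
      i = i' ∧ i ≠ e + e / (p - 1) := by
  intro i i' hi hi' hj hj' h h'
  obtain ⟨hq2, hqe⟩ := h19_irr_q hp hp2 he he0
  obtain ⟨s, hs, his, h1, h2⟩ := h19_irr_level (p := p) θ ϑ w e he0 hθ hw i hi hi'
  obtain ⟨s', hs', his', h1', h2'⟩ := h19_irr_level (p := p) θ ϑ w e he0 hθ hw i' hj hj'
  -- the top level is excluded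
  have htop : s ≠ 0 := by
    rintro rfl
    rcases h with h | h
    · have := h1 h
      rw [pow_zero, one_mul] at this
      exact hϑ (by rw [this, mul_one])
    · have := h2 h
      rw [pow_zero] at this
      exact hϑ (by rw [this, mul_one])
  -- opposite signs are impossible
  have hopp : ∀ t t' : ℕ, t ≤ e / (p - 1) → t' ≤ e / (p - 1) → θ ^ t * ϑ = 1 → ϑ = θ ^ t' →
      False := by
    intro t t' ht ht' ha hb
    have h3 : θ ^ (t + t') = 1 := by rw [pow_add, ← hb, ha]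
    have h4 : e ∣ t + t' := hθ ▸ orderOf_dvd_of_pow_eq_one h3
    rcases Nat.eq_zero_or_pos (t + t') with h0 | hpos
    · have ht0 : t' = 0 := by omega
      rw [ht0, pow_zero] at hb
      exact hϑ (by rw [hb, mul_one])
    · have h5 : e ≤ t + t' := Nat.le_of_dvd hpos h4
      have h6 : t = t' := by omega
      rw [h6, ← hb] at ha
      exact hϑ ha
  have hss : s = s' := by
    rcases h with h | h <;> rcases h' with h' | h'
    · have ha := h1 h
      have hb := h1' h'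
      have h3 : θ ^ s * ϑ = θ ^ s' * ϑ := by rw [ha, hb]
      exact h19_irr_inj he0 hθ (by omega) (by omega) (mul_right_cancel₀ hϑ' h3)
    · exact (hopp s s' hs hs' (h1 h) (h2' h')).elim
    · exact (hopp s' s hs' hs (h1' h') (h2 h)).elim
    · have ha := h2 h
      have hb := h2' h'
      exact h19_irr_inj he0 hθ (by omega) (by omega) (ha.symm.trans hb)
  constructor <;> omega

/-- `-1 ≠ 1` in a domain containing an element of even order -/
theorem h19_irr_neg_one_ne {θ : R} {e : ℕ} (he0 : 0 < e) (hθ : orderOf θ = e) (h2 : 2 ∣ e) :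
    (-1 : R) ≠ 1 := by
  intro h
  obtain ⟨m, rfl⟩ := h2
  have hθe : θ ^ (2 * m) = 1 := hθ ▸ pow_orderOf_eq_one θ
  have h3 : (θ ^ m - 1) * (θ ^ m + 1) = 0 := by
    have : (θ ^ m - 1) * (θ ^ m + 1) = θ ^ (2 * m) - 1 := by ring
    rw [this, hθe, sub_self]
  have h4 : θ ^ m = 1 := by
    rcases mul_eq_zero.1 h3 with h5 | h5
    · exact sub_eq_zero.1 h5
    · rw [eq_neg_of_add_eq_zero_left h5, h]
  have h6 : 2 * m ∣ m := hθ ▸ orderOf_dvd_of_pow_eq_one h4
  have h7 : 2 * m ≤ m := Nat.le_of_dvd (by omega) h6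
  omega

/-- **IRR-6 (B)** -/
theorem h19_irr_arith_B {p : ℕ} (θ ϑ w : R) (e : ℕ) (hp : p.Prime) (hp2 : p ≠ 2)
    (he : (p - 1) ∣ e) (he0 : 0 < e) (hθ : orderOf θ = e) (hw : w = θ ^ (e / (p - 1)))
    (hϑ : ϑ = -1) (hp3 : p ≠ 3) :
    ∀ i, e ≤ i → i ≤ e + e / (p - 1) → θ ^ i ≠ w * ϑ := by
  intro i hi hi' h
  have hp5 : 5 ≤ p := by
    have h2 := hp.two_le
    have h4 : p ≠ 4 := by
      rintro rfl
      exact absurd hp (by norm_num)
    omega
  have hq : e / (p - 1) * (p - 1) = e := Nat.div_mul_cancel he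
  have h4q : e / (p - 1) * 4 ≤ e / (p - 1) * (p - 1) := Nat.mul_le_mul_left _ (by omega)
  have heven : 2 ∣ e := by
    have h2 : 2 ∣ p - 1 := by
      rcases hp.eq_two_or_odd with h | h
      · exact absurd h hp2
      · omega
    exact h2.trans he
  obtain ⟨s, hs, his, h1, -⟩ := h19_irr_level (p := p) θ ϑ w e he0 hθ hw i hi hi'
  have ha := h1 h
  rw [hϑ, mul_neg, mul_one, neg_eq_iff_eq_neg] at ha
  have h3 : θ ^ (2 * s) = 1 := by
    rw [two_mul, pow_add, ha]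
    ring
  have h5 : e ∣ 2 * s := hθ ▸ orderOf_dvd_of_pow_eq_one h3
  have h6 : 2 * s = 0 := Nat.eq_zero_of_dvd_of_lt h5 (by omega)
  have hs0 : s = 0 := by omega
  rw [hs0, pow_zero] at ha
  exact h19_irr_neg_one_ne he0 hθ heven ha.symm

/-- **IRR-6 (C)** -/
theorem h19_irr_arith_C {p : ℕ} (θ w : R) (e : ℕ) (hp : p.Prime) (hp2 : p ≠ 2)
    (he : (p - 1) ∣ e) (he0 : 0 < e) (hθ : orderOf θ = e) (hw : w = θ ^ (e / (p - 1))) :
    ∀ i, e ≤ i → i < e + e / (p - 1) → θ ^ i ≠ w := by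
  intro i hi hi' h
  obtain ⟨-, hqe⟩ := h19_irr_q hp hp2 he he0
  obtain ⟨s, hs, his, -, h2⟩ := h19_irr_level (p := p) θ (1 : R) w e he0 hθ hw i hi hi'.le
  have ha := h2 (by rw [mul_one]; exact h)
  have h5 : e ∣ s := hθ ▸ orderOf_dvd_of_pow_eq_one ha.symm
  have h6 : s = 0 := Nat.eq_zero_of_dvd_of_lt h5 (by omega)
  omega

end

end Fermat.Agent.S56
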