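import Fermat.Agent.S56.h43_EIDefs
import Fermat.Agent.S56.h92_IrrKummer

/-!
# S56 / W3 / E-IRR, row EI-KUM2 (owner helper21): local Kummer existence

`h43_kum_exists` (verbatim from the skeleton of helper43): every additive character
`f : Gal(Ω/M) → ZMod p` of finite level (extended by zero outside `Gal(Ω/M)`) is the Kummer
character of some `u ∈ M^×`, when `ζ_p ∈ M`.

Proof: helper92's `h92_irr3_kummer` (Lagrange resolvent) applied over the normal closure `N` of
`M ⊔ L` (finite, stable under `Gal(Ω/ℚ_p)`, and `f` is trivial on `Gal(Ω/N)`).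
-/

set_option autoImplicit false
set_option linter.unusedVariables false

namespace Fermat.Agent.S56

variable (p : ℕ) [Fact p.Prime]

local notation "Ω" => PadicAlgCl p
local notation "Fld" => IntermediateField ℚ_[p] (PadicAlgCl p)

theorem h43_kum_exists (M : Fld) [FiniteDimensional ℚ_[p] M] (ζ : Ω) (hζM : ζ ∈ M)
    (hζp : ζ ^ p = 1) (hζ1 : ζ ≠ 1)
    (hfix : ∀ x : Ω, (∀ g : h78_G p, h43_Fix p M g → g x = x) → x ∈ M)
    (f : h78_G p → ZMod p)
    (hadd : ∀ g g' : h78_G p, h43_Fix p M g → h43_Fix p M g' → f (g * g') = f g + f g')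
    (hout : ∀ g : h78_G p, ¬ h43_Fix p M g → f g = 0)
    (L : Fld) [FiniteDimensional ℚ_[p] L] (hlev : ∀ g : h78_G p, h43_Fix p L g → f g = 0) :
    ∃ u : Ω, u ∈ M ∧ u ≠ 0 ∧ h43_IsKum p M ζ u f := by
  have hp : p.Prime := Fact.out
  let E₀ : Fld := M ⊔ L
  have : FiniteDimensional ℚ_[p] E₀ := IntermediateField.finiteDimensional_sup _ _
  let N : Fld := IntermediateField.normalClosure ℚ_[p] E₀ (PadicAlgCl p)
  have : Normal ℚ_[p] (PadicAlgCl p) := IsAlgClosure.normal ℚ_[p] (PadicAlgCl p)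
  have : Normal ℚ_[p] N := normalClosure.normal ℚ_[p] E₀ (PadicAlgCl p)
  have : FiniteDimensional ℚ_[p] N :=
    normalClosure.is_finiteDimensional ℚ_[p] E₀ (PadicAlgCl p)
  have hE₀N : E₀ ≤ N := IntermediateField.le_normalClosure E₀
  have hMN : M ≤ N := le_trans le_sup_left hE₀N
  have hLN : L ≤ N := le_trans le_sup_right hE₀N
  have hst : ∀ s : h78_G p, (∀ z ∈ M, s z = z) → ∀ z ∈ N, s z ∈ N := by
    intro s _ z hz
    have h1 := AlgEquiv.restrictNormal_commutes s N ⟨z, hz⟩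
    have h2 : s z = ((s.restrictNormal N ⟨z, hz⟩ : N) : PadicAlgCl p) := h1.symm
    rw [h2]
    exact (s.restrictNormal N ⟨z, hz⟩).2
  obtain ⟨u, α, huM, hu0, -, hαp, hα⟩ := h92_irr3_kummer p M N hMN hst ζ hζM hζp f
    (fun s t hs ht => hadd s t hs ht) (fun t ht => hlev t (fun z hz => ht z (hLN hz)))
  refine ⟨u, huM, hu0, α, hαp, ?_, fun h hh => hα h hh, hout⟩
  rintro rfl
  apply hu0
  rw [← hαp, zero_pow hp.ne_zero]

end Fermat.Agent.S56
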