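/-
S56 / W3 / E-IRR row EI-MAT (tasks row 636; statement of helper43's skeleton, verbatim).

Structure of `A = rb τ` for a two-dimensional representation over a finite field `k` of odd
characteristic `p` with no invariant line, where `τ` is a tame generator, `s` a Frobenius lift
(`s τ s⁻¹ = τ ^ p`) and `det A = n` has exact order `p - 1` in the sense of the hypotheses
`hθ`, `hθn`: the trace of `A` lies in the prime field, the characteristic polynomial of `A` is
separable and `A ^ p = tr A - A` (the "level two" case).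
-/
import Mathlib

set_option autoImplicit false

namespace Fermat.Agent.S56

open Matrix Polynomial

/-- Cayley–Hamilton for a `2 × 2` matrix. -/
private lemma h23_ch2 {k : Type} [Field k] (A : Matrix (Fin 2) (Fin 2) k) :
    A * A = A.trace • A - A.det • (1 : Matrix (Fin 2) (Fin 2) k) := by
  ext i j
  fin_cases i <;> fin_cases j <;>
    simp [Matrix.mul_apply, Fin.sum_univ_two, Matrix.trace_fin_two, Matrix.det_fin_two] <;> ring

/-- `A + adj A = tr A`. -/
private lemma h23_add_adj {k : Type} [Field k] (A : Matrix (Fin 2) (Fin 2) k) :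
    A + A.adjugate = A.trace • (1 : Matrix (Fin 2) (Fin 2) k) := by
  rw [Matrix.adjugate_fin_two]
  ext i j
  fin_cases i <;> fin_cases j <;> simp [Matrix.trace_fin_two, add_comm]

/-- The discriminant identity `(2A - tr A)² = (tr A)² - 4 det A`. -/
private lemma h23_disc {k : Type} [Field k] (A : Matrix (Fin 2) (Fin 2) k) :
    ((2 : k) • A - A.trace • (1 : Matrix (Fin 2) (Fin 2) k)) *
        ((2 : k) • A - A.trace • (1 : Matrix (Fin 2) (Fin 2) k)) =
      (A.trace ^ 2 - 4 * A.det) • (1 : Matrix (Fin 2) (Fin 2) k) := by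
  ext i j
  fin_cases i <;> fin_cases j <;>
    simp [Matrix.mul_apply, Fin.sum_univ_two, Matrix.trace_fin_two, Matrix.det_fin_two] <;> ring

private lemma h23_trace_lin {k : Type} [Field k] (A : Matrix (Fin 2) (Fin 2) k) (α β : k) :
    (α • A + β • (1 : Matrix (Fin 2) (Fin 2) k)).trace = α * A.trace + 2 * β := by
  simp [Matrix.trace_fin_two]
  ring

private lemma h23_det_lin {k : Type} [Field k] (A : Matrix (Fin 2) (Fin 2) k) (α β : k) :
    (α • A + β • (1 : Matrix (Fin 2) (Fin 2) k)).det =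
      α ^ 2 * A.det + α * β * A.trace + β ^ 2 := by
  simp [Matrix.det_fin_two, Matrix.trace_fin_two]
  ring

/-- In characteristic `p`, the trace of the `p`-th power of a `2 × 2` matrix is the `p`-th power
of the trace. -/
private lemma h23_trace_pow (p : ℕ) [Fact p.Prime] {k : Type} [Field k] [CharP k p]
    (A : Matrix (Fin 2) (Fin 2) k) : (A ^ p).trace = A.trace ^ p := by
  have hc : Commute A A.adjugate := by
    show A * A.adjugate = A.adjugate * A
    rw [Matrix.mul_adjugate, Matrix.adjugate_mul]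
  have h1 : (A + A.adjugate) ^ p = A ^ p + A.adjugate ^ p := add_pow_char_of_commute _ hc
  rw [← Matrix.adjugate_pow, h23_add_adj, h23_add_adj, _root_.smul_pow, one_pow] at h1
  have h2 := congrFun (congrFun h1 0) 0
  simpa using h2.symm

/-- The elements of the prime field are the roots of `X ^ p - X`. -/
private lemma h23_prod_X_sub (p : ℕ) [Fact p.Prime] {k : Type} [Field k] [CharP k p] :
    ∏ a : ZMod p, (X - C (ZMod.castHom (dvd_refl p) k a) : k[X]) = X ^ p - X := by
  have hp : p.Prime := Fact.out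
  have hmonic : (X ^ p - X : (ZMod p)[X]).Monic := by
    apply (monic_X_pow p).sub_of_left
    rw [degree_X_pow, degree_X]
    exact_mod_cast hp.one_lt
  have hroots : (X ^ p - X : (ZMod p)[X]).roots = Finset.univ.val := by
    have := FiniteField.roots_X_pow_card_sub_X (ZMod p)
    rwa [ZMod.card] at this
  have h0 : ∏ a : ZMod p, (X - C a : (ZMod p)[X]) = X ^ p - X := by
    have h := Polynomial.prod_multiset_X_sub_C_of_monic_of_roots_card_eq hmonic
      (by rw [hroots, FiniteField.X_pow_card_sub_X_natDegree_eq _ hp.one_lt]; simp [ZMod.card])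
    rw [hroots] at h
    exact h
  have h := congrArg (Polynomial.map (ZMod.castHom (dvd_refl p) k)) h0
  simpa [Polynomial.map_prod] using h

private lemma h23_prime_field (p : ℕ) [Fact p.Prime] {k : Type} [Field k] [CharP k p] (t : k)
    (ht : t ^ p = t) : ∃ z : ℤ, t = (z : k) := by
  obtain ⟨z, hz⟩ := (mem_bot_iff_intCast p k).mp ((Subfield.mem_bot_iff_pow_eq_self k p).mpr ht)
  exact ⟨z, hz.symm⟩

/-- A `2 × 2` matrix with `A ^ p = A` has an eigenvector with eigenvalue in `k`. -/
private lemma h23_eigen (p : ℕ) [Fact p.Prime] {k : Type} [Field k] [CharP k p]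
    (A : Matrix (Fin 2) (Fin 2) k) (hA : A ^ p = A) :
    ∃ c : k, ∃ v : Fin 2 → k, v ≠ 0 ∧ A.mulVec v = c • v := by
  have h1 : Polynomial.aeval A (∏ a : ZMod p, (X - C (ZMod.castHom (dvd_refl p) k a) : k[X]))
      = 0 := by
    rw [h23_prod_X_sub p (k := k)]
    simp [hA]
  have h2 := map_prod ((Matrix.detMonoidHom (n := Fin 2) (R := k)).comp
      ((Polynomial.aeval A : k[X] →ₐ[k] Matrix (Fin 2) (Fin 2) k) :
        k[X] →* Matrix (Fin 2) (Fin 2) k))
    (fun a : ZMod p => (X - C (ZMod.castHom (dvd_refl p) k a) : k[X])) Finset.univ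
  simp only [MonoidHom.comp_apply, Matrix.coe_detMonoidHom, MonoidHom.coe_coe] at h2
  rw [h1, Matrix.det_zero] at h2
  obtain ⟨a, -, ha⟩ := Finset.prod_eq_zero_iff.mp h2.symm
  obtain ⟨v, hv0, hv⟩ := Matrix.exists_mulVec_eq_zero_iff.mpr ha
  refine ⟨ZMod.castHom (dvd_refl p) k a, v, hv0, ?_⟩
  simp only [map_sub, aeval_X, aeval_C, Matrix.sub_mulVec] at hv
  rw [sub_eq_zero] at hv
  rw [hv, Algebra.algebraMap_eq_smul_one, Matrix.smul_mulVec, Matrix.one_mulVec]

/-- Two independent eigenvectors for the same eigenvalue force a scalar matrix. -/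
private lemma h23_two_eigen {k : Type} [Field k] (A : Matrix (Fin 2) (Fin 2) k) (c : k)
    (v w : Fin 2 → k) (hv : A.mulVec v = c • v) (hw : A.mulVec w = c • w)
    (hD : v 0 * w 1 - v 1 * w 0 ≠ 0) : A = c • (1 : Matrix (Fin 2) (Fin 2) k) := by
  have hv0 := congrFun hv 0
  have hv1 := congrFun hv 1
  have hw0 := congrFun hw 0
  have hw1 := congrFun hw 1
  simp only [Matrix.mulVec, dotProduct, Fin.sum_univ_two, Pi.smul_apply, smul_eq_mul]
    at hv0 hv1 hw0 hw1
  have e00 : (A 0 0 - c) * (v 0 * w 1 - v 1 * w 0) = 0 := by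
    linear_combination w 1 * hv0 - v 1 * hw0
  have e01 : A 0 1 * (v 0 * w 1 - v 1 * w 0) = 0 := by
    linear_combination v 0 * hw0 - w 0 * hv0
  have e10 : A 1 0 * (v 0 * w 1 - v 1 * w 0) = 0 := by
    linear_combination w 1 * hv1 - v 1 * hw1
  have e11 : (A 1 1 - c) * (v 0 * w 1 - v 1 * w 0) = 0 := by
    linear_combination v 0 * hw1 - w 0 * hv1
  have f00 := (mul_eq_zero.mp e00).resolve_right hD
  have f01 := (mul_eq_zero.mp e01).resolve_right hD
  have f10 := (mul_eq_zero.mp e10).resolve_right hD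
  have f11 := (mul_eq_zero.mp e11).resolve_right hD
  ext i j
  fin_cases i <;> fin_cases j
  · simpa using sub_eq_zero.mp f00
  · simpa using f01
  · simpa using f10
  · simpa using sub_eq_zero.mp f11

/-- A vector `w` with `v 0 * w 1 - v 1 * w 0 = 0`, `v ≠ 0`, is a multiple of `v`. -/
private lemma h23_dep {k : Type} [Field k] (v w : Fin 2 → k) (hv : v ≠ 0)
    (hD : v 0 * w 1 - v 1 * w 0 = 0) : ∃ c : k, w = c • v := by
  by_cases h0 : v 0 = 0
  · have h1 : v 1 ≠ 0 := by
      intro h1
      apply hv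
      funext i
      fin_cases i
      · exact h0
      · exact h1
    refine ⟨w 1 / v 1, ?_⟩
    funext i
    fin_cases i
    · simp only [Fin.zero_eta, Pi.smul_apply, smul_eq_mul]
      rw [h0, zero_mul, zero_sub, neg_eq_zero] at hD
      rw [h0, mul_zero]
      exact (mul_eq_zero.mp hD).resolve_left h1
    · simp only [Fin.mk_one, Pi.smul_apply, smul_eq_mul]
      field_simp
  · refine ⟨w 0 / v 0, ?_⟩
    funext i
    fin_cases i
    · simp only [Fin.zero_eta, Pi.smul_apply, smul_eq_mul]
      field_simp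
    · simp only [Fin.mk_one, Pi.smul_apply, smul_eq_mul]
      field_simp
      linear_combination hD

theorem h43_mat_struct (p : ℕ) [Fact p.Prime] (hp2 : p ≠ 2)
    {k : Type} [Field k] [Finite k] [CharP k p]
    {G : Type*} [Group G] (rb : G →* Matrix (Fin 2) (Fin 2) k)
    (hirr : ∀ v : Fin 2 → k, v ≠ 0 → ∃ g, ∀ c : k, (rb g).mulVec v ≠ c • v)
    (τ s : G)
    (hfrob : rb s * rb τ = rb τ ^ p * rb s)
    (hcent : rb τ ^ (p - 1) = 1 → ∀ g, rb g * rb τ = rb τ * rb g)
    (n : ℤ) (hn : (rb τ).det = (n : k))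
    {κ : Type*} [CommRing κ] [IsDomain κ] [CharP κ p] (θ : κ) (e l : ℕ)
    (he : e = (p - 1) * l) (hl : 0 < l)
    (hθ : ∀ m : ℕ, θ ^ m = 1 ↔ e ∣ m) (hθn : (n : κ) = θ ^ l) :
    (∃ t : ℤ, (rb τ).trace = (t : k)) ∧ (rb τ).trace ^ 2 ≠ 4 * (rb τ).det ∧
      rb τ ^ p = (rb τ).trace • (1 : Matrix (Fin 2) (Fin 2) k) - rb τ := by
  have hp : p.Prime := Fact.out
  obtain ⟨m, hm⟩ : ∃ m, p = 2 * m + 1 := by
    rcases hp.eq_two_or_odd' with h | h
    · exact absurd h hp2
    · exact h
  have hm0 : 0 < m := by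
    rcases Nat.eq_zero_or_pos m with h | h
    · subst h; exact absurd hm hp.ne_one
    · exact h
  have hBB' : rb s * rb s⁻¹ = 1 := by rw [← map_mul, mul_inv_cancel, map_one]
  have hB'B : rb s⁻¹ * rb s = 1 := by rw [← map_mul, inv_mul_cancel, map_one]
  have hAA' : rb τ * rb τ⁻¹ = 1 := by rw [← map_mul, mul_inv_cancel, map_one]
  generalize rb s⁻¹ = B' at hBB' hB'B
  generalize rb τ⁻¹ = A' at hAA'
  generalize rb s = B at hfrob hBB' hB'B
  set A := rb τ with hAdef
  have h2 : (2 : k) ≠ 0 := by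
    apply Ring.two_ne_zero
    rw [ringChar.eq k p]
    exact hp2
  have hconj : A ^ p = B * A * B' := by
    rw [hfrob, mul_assoc, hBB', mul_one]
  have htr : (A ^ p).trace = A.trace := by
    rw [hconj, Matrix.trace_mul_cycle, hB'B, one_mul]
  have hdet : (A ^ p).det = A.det := by
    rw [hconj, Matrix.det_mul, Matrix.det_mul, mul_right_comm, ← Matrix.det_mul, hBB',
      Matrix.det_one, one_mul]
  have hdA : A.det ≠ 0 := by
    intro h0
    have := congrArg Matrix.det hAA'
    rw [Matrix.det_mul, h0, zero_mul, Matrix.det_one] at this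
    exact zero_ne_one this
  -- scalar `A ^ p` forces scalar `A`
  have hsc : ∀ ν : k, A ^ p = ν • (1 : Matrix (Fin 2) (Fin 2) k) →
      A = ν • (1 : Matrix (Fin 2) (Fin 2) k) := by
    intro ν hν
    have h1 : B * A = ν • B := by rw [hfrob, hν, smul_mul_assoc, one_mul]
    calc A = B' * (B * A) := by rw [← mul_assoc, hB'B, one_mul]
      _ = ν • (1 : Matrix (Fin 2) (Fin 2) k) := by rw [h1, mul_smul_comm, hB'B]
  -- (a) `A` is not scalar
  have hns : ∀ μ : k, A ≠ μ • (1 : Matrix (Fin 2) (Fin 2) k) := by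
    intro μ hμ
    have h1 : μ ^ p • (1 : Matrix (Fin 2) (Fin 2) k) = μ • (1 : Matrix (Fin 2) (Fin 2) k) := by
      have h := hsc (μ ^ p) (by rw [hμ, _root_.smul_pow, one_pow])
      rw [← h, hμ]
    have h3 : μ ^ p = μ := by
      have := congrFun (congrFun h1 0) 0
      simpa using this
    have hd : μ ^ 2 = (n : k) := by
      rw [← hn, hμ, Matrix.det_smul, Matrix.det_one, mul_one, Fintype.card_fin]
    have hμ0 : μ ≠ 0 := by
      intro h0
      apply hdA
      rw [hn, ← hd, h0]
      simp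
    have h4 : μ ^ (2 * m) = 1 := by
      have : μ ^ (2 * m) * μ = 1 * μ := by rw [← pow_succ, ← hm, h3, one_mul]
      exact mul_right_cancel₀ hμ0 this
    have h5 : ((n ^ m - 1 : ℤ) : k) = 0 := by
      push_cast
      rw [← hd, ← pow_mul, h4, sub_self]
    have h6 : ((n ^ m - 1 : ℤ) : κ) = 0 := by
      rw [CharP.intCast_eq_zero_iff κ p]
      exact (CharP.intCast_eq_zero_iff k p _).mp h5
    have h7 : θ ^ (l * m) = 1 := by
      push_cast at h6
      rw [pow_mul, ← hθn]
      exact sub_eq_zero.mp h6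
    have h8 : e ∣ l * m := (hθ _).mp h7
    have h9 : e ≤ l * m := Nat.le_of_dvd (Nat.mul_pos hl hm0) h8
    have h10 : e = 2 * (l * m) := by
      rw [he, hm]
      simp only [Nat.add_sub_cancel]
      ring
    have := Nat.mul_pos hl hm0
    omega
  -- (b) the discriminant does not vanish
  have hdisc : A.trace ^ 2 ≠ 4 * A.det := by
    intro h4
    have hN : ((2 : k) • A - A.trace • (1 : Matrix (Fin 2) (Fin 2) k)) ^ p = 0 := by
      have hp2' : p = 2 + (p - 2) := by have := hp.two_le; omega
      rw [hp2', pow_add, pow_two, h23_disc, h4, sub_self, zero_smul, zero_mul]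
    have hcomm : Commute (A.trace • (1 : Matrix (Fin 2) (Fin 2) k))
        ((2 : k) • A - A.trace • (1 : Matrix (Fin 2) (Fin 2) k)) := by
      apply Commute.smul_left
      exact Commute.one_left _
    have h5 : ((2 : k) • A) ^ p = (A.trace • (1 : Matrix (Fin 2) (Fin 2) k)) ^ p +
        ((2 : k) • A - A.trace • (1 : Matrix (Fin 2) (Fin 2) k)) ^ p := by
      rw [← add_pow_char_of_commute _ hcomm]
      congr 1
      abel
    rw [hN, add_zero, _root_.smul_pow, _root_.smul_pow, one_pow] at h5
    have h6 : A ^ p = (((2 : k) ^ p)⁻¹ * A.trace ^ p) • (1 : Matrix (Fin 2) (Fin 2) k) := by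
      rw [mul_smul, ← h5, smul_smul, inv_mul_cancel₀ (pow_ne_zero p h2), one_smul]
    exact hns _ (hsc _ h6)
  -- (e) the trace lies in the prime field
  have htp : A.trace ^ p = A.trace := by rw [← h23_trace_pow p A, htr]
  refine ⟨?_, hdisc, ?_⟩
  · exact h23_prime_field p A.trace htp
  -- (c) `A ^ j` lies in the span of `A` and `1`
  have hspan : ∀ j : ℕ, ∃ α β : k, A ^ j = α • A + β • (1 : Matrix (Fin 2) (Fin 2) k) := by
    intro j
    induction j with
    | zero => exact ⟨0, 1, by simp⟩
    | succ j ih =>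
      obtain ⟨α, β, h⟩ := ih
      refine ⟨α * A.trace + β, -(α * A.det), ?_⟩
      rw [pow_succ, h, add_mul, smul_mul_assoc, smul_mul_assoc, one_mul, h23_ch2]
      module
  obtain ⟨α, β, hαβ⟩ := hspan p
  have h_tr : α * A.trace + 2 * β = A.trace := by
    rw [← h23_trace_lin, ← hαβ, htr]
  have h_det : α ^ 2 * A.det + α * β * A.trace + β ^ 2 = A.det := by
    rw [← h23_det_lin, ← hαβ, hdet]
  have hkey : (α ^ 2 - 1) * (4 * A.det - A.trace ^ 2) = 0 := by
    linear_combination 4 * h_det - (A.trace + α * A.trace + 2 * β) * h_tr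
  have hα : (α - 1) * (α + 1) = 0 := by
    rcases mul_eq_zero.mp hkey with h | h
    · linear_combination h
    · exact absurd (sub_eq_zero.mp h).symm hdisc
  rcases mul_eq_zero.mp hα with h | h
  · -- `α = 1`: impossible
    exfalso
    have hα1 : α = 1 := sub_eq_zero.mp h
    have hβ : β = 0 := by
      have : 2 * β = 0 := by rw [hα1] at h_tr; linear_combination h_tr
      exact (mul_eq_zero.mp this).resolve_left h2
    have hAp : A ^ p = A := by rw [hαβ, hα1, hβ, one_smul, zero_smul, add_zero]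
    have hA1 : A ^ (p - 1) = 1 := by
      have h1 : A ^ (p - 1) * A = A := by
        rw [← pow_succ, Nat.sub_add_cancel hp.one_le, hAp]
      calc A ^ (p - 1) = A ^ (p - 1) * A * A' := by rw [mul_assoc, hAA', mul_one]
        _ = 1 := by rw [h1, hAA']
    have hcomm := hcent hA1
    obtain ⟨c, v, hv0, hv⟩ := h23_eigen p A hAp
    obtain ⟨g, hg⟩ := hirr v hv0
    have hw : A.mulVec ((rb g).mulVec v) = c • (rb g).mulVec v := by
      rw [Matrix.mulVec_mulVec, ← hcomm g, ← Matrix.mulVec_mulVec, hv, Matrix.mulVec_smul]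
    by_cases hD : v 0 * ((rb g).mulVec v) 1 - v 1 * ((rb g).mulVec v) 0 = 0
    · obtain ⟨c', hc'⟩ := h23_dep v _ hv0 hD
      exact hg c' hc'
    · exact hns c (h23_two_eigen A c v _ hv hw hD)
  · -- `α = -1`
    have hα1 : α = -1 := by linear_combination h
    have hβ : β = A.trace := by
      have : 2 * β = 2 * A.trace := by rw [hα1] at h_tr; linear_combination h_tr
      exact mul_left_cancel₀ h2 this
    rw [hαβ, hα1, hβ]
    module

end Fermat.Agent.S56
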