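import Mathlib

/-!
# S56 / W1 (3d), representation theory, part 1: additive invariants and the subquotient calculus

`h25_IsAdditive p G ψ` : `ψ` is an integer-valued invariant of `𝔽_p[G]`-modules which is additive
on short exact sequences with finite middle term.

For a `ℤ`-linear representation `ρ` of `G` on an abelian group `A`, a *pair* `P : h25_Pair p ρ`
is a pair of `G`-stable subgroups `U ≤ W` of `A` with `p W ≤ U`; the subquotient `W/U` is an
`𝔽_p[G]`-module `(P.carrier, P.rep)`.  Everything about `ψ` on subquotients is reduced to three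
lemmas about subgroups:

* `h25_pair_real` : a surjective equivariant additive map `W → V` with kernel `U` identifies
  `ψ (W/U)` with `ψ V`;
* `h25_pair_add`  : `ψ (W/U) = ψ (V/U) + ψ (W/V)` for `U ≤ V ≤ W`;
* `h25_pair_iso`  : an equivariant additive map `A → B` inducing a bijection `W/U → W'/U'`
  identifies the values of `ψ`.
-/

set_option autoImplicit false

namespace Fermat.Agent.S56

open Function

/-- `ψ` is additive on short exact sequences of `𝔽_p[G]`-modules with finite middle term. -/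
structure h25_IsAdditive (p : ℕ) (G : Type) [Group G]
    (ψ : ∀ (V : Type) [AddCommGroup V] [Module (ZMod p) V], Representation (ZMod p) G V → ℤ) :
    Prop where
  exact : ∀ (V' V V'' : Type) [AddCommGroup V'] [Module (ZMod p) V'] [AddCommGroup V]
    [Module (ZMod p) V] [AddCommGroup V''] [Module (ZMod p) V''] [Finite V]
    (ρ' : Representation (ZMod p) G V') (ρ : Representation (ZMod p) G V)
    (ρ'' : Representation (ZMod p) G V'') (i : V' →ₗ[ZMod p] V) (q : V →ₗ[ZMod p] V''),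
    (∀ g v, i (ρ' g v) = ρ g (i v)) → (∀ g v, q (ρ g v) = ρ'' g (q v)) →
    Injective i → Surjective q → (∀ v, q v = 0 ↔ ∃ v', i v' = v) →
    ψ V ρ = ψ V' ρ' + ψ V'' ρ''

section basic

variable {p : ℕ} {G : Type} [Group G]
  {ψ : ∀ (V : Type) [AddCommGroup V] [Module (ZMod p) V], Representation (ZMod p) G V → ℤ}

/-- An additive invariant vanishes on trivial modules. -/
theorem h25_additive_subsingleton (hψ : h25_IsAdditive p G ψ) (V : Type) [AddCommGroup V]
    [Module (ZMod p) V] [Subsingleton V] (ρ : Representation (ZMod p) G V) : ψ V ρ = 0 := by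
  have h := hψ.exact V V V ρ ρ ρ LinearMap.id LinearMap.id (fun _ _ => rfl) (fun _ _ => rfl)
    injective_id surjective_id
    (fun v => ⟨fun _ => ⟨v, rfl⟩, fun _ => Subsingleton.elim _ _⟩)
  linarith

/-- An additive invariant is invariant under equivariant bijections. -/
theorem h25_additive_iso (hψ : h25_IsAdditive p G ψ) (V V'' : Type) [AddCommGroup V]
    [Module (ZMod p) V] [AddCommGroup V''] [Module (ZMod p) V''] [Finite V]
    (ρ : Representation (ZMod p) G V) (ρ'' : Representation (ZMod p) G V'')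
    (q : V →+ V'') (hq : ∀ g v, q (ρ g v) = ρ'' g (q v)) (hbij : Bijective q) :
    ψ V ρ = ψ V'' ρ'' := by
  have h := hψ.exact PUnit V V'' 1 ρ ρ'' 0 (q.toZModLinearMap p)
    (fun g v => by simp) hq (fun a b _ => Subsingleton.elim a b) hbij.2
    (fun v => by
      constructor
      · intro hv
        refine ⟨0, ?_⟩
        apply hbij.1
        rw [LinearMap.zero_apply, map_zero]
        exact hv.symm
      · rintro ⟨v', rfl⟩
        simp)
  rw [h, h25_additive_subsingleton hψ PUnit 1, zero_add]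

end basic

/-- A pair of `G`-stable subgroups `U ≤ W` of `A` with `p W ≤ U`. -/
structure h25_Pair (p : ℕ) {G A : Type} [Group G] [AddCommGroup A] (ρ : Representation ℤ G A) where
  U : Submodule ℤ A
  W : Submodule ℤ A
  le : U ≤ W
  hp : ∀ w ∈ W, p • w ∈ U
  stU : ∀ g, ∀ u ∈ U, ρ g u ∈ U
  stW : ∀ g, ∀ w ∈ W, ρ g w ∈ W

namespace h25_Pair

variable {p : ℕ} {G A : Type} [Group G] [AddCommGroup A] {ρ : Representation ℤ G A}
  (P : h25_Pair p ρ)

/-- The subquotient `W/U`. -/
def carrier : Type := ↥P.W ⧸ (P.U.comap P.W.subtype)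

instance : AddCommGroup P.carrier :=
  inferInstanceAs (AddCommGroup (↥P.W ⧸ (P.U.comap P.W.subtype)))

/-- The projection `W → W/U`. -/
def pr : ↥P.W →+ P.carrier := (Submodule.mkQ (P.U.comap P.W.subtype)).toAddMonoidHom

theorem pr_surjective : Surjective P.pr := Submodule.mkQ_surjective _

theorem pr_eq_zero_iff (w : ↥P.W) : P.pr w = 0 ↔ (w : A) ∈ P.U := by
  show Submodule.Quotient.mk w = 0 ↔ _
  rw [Submodule.Quotient.mk_eq_zero]
  rfl

theorem nsmul_eq_zero (x : P.carrier) : p • x = 0 := by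
  obtain ⟨w, rfl⟩ := P.pr_surjective x
  rw [← map_nsmul, pr_eq_zero_iff]
  exact P.hp w w.2

instance : Module (ZMod p) P.carrier := AddCommGroup.zmodModule P.nsmul_eq_zero

/-- The action of `g` on `W`. -/
def actW (g : G) : ↥P.W →+ ↥P.W := ((ρ g).restrict (P.stW g)).toAddMonoidHom

@[simp] theorem actW_coe (g : G) (w : ↥P.W) : ((P.actW g w : ↥P.W) : A) = ρ g w := rfl

/-- The action of `g` on `W/U` as an additive map. -/
def actQ (g : G) : P.carrier →+ P.carrier :=
  (Submodule.mapQ (P.U.comap P.W.subtype) (P.U.comap P.W.subtype)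
    ((ρ g).restrict (P.stW g)) (fun w hw => P.stU g w hw)).toAddMonoidHom

theorem actQ_pr (g : G) (w : ↥P.W) : P.actQ g (P.pr w) = P.pr (P.actW g w) := rfl

/-- The representation of `G` on the subquotient `W/U`. -/
def rep : Representation (ZMod p) G P.carrier where
  toFun g := (P.actQ g).toZModLinearMap p
  map_one' := by
    apply LinearMap.ext
    intro x
    obtain ⟨w, rfl⟩ := P.pr_surjective x
    show P.actQ 1 (P.pr w) = P.pr w
    rw [actQ_pr]
    congr 1
    apply Subtype.ext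
    simp
  map_mul' g h := by
    apply LinearMap.ext
    intro x
    obtain ⟨w, rfl⟩ := P.pr_surjective x
    show P.actQ (g * h) (P.pr w) = P.actQ g (P.actQ h (P.pr w))
    rw [actQ_pr, actQ_pr, actQ_pr]
    congr 1
    apply Subtype.ext
    simp

theorem rep_pr (g : G) (w : ↥P.W) : P.rep g (P.pr w) = P.pr (P.actW g w) := rfl

end h25_Pair

section calculus

variable {p : ℕ} {G : Type} [Group G]
  {ψ : ∀ (V : Type) [AddCommGroup V] [Module (ZMod p) V], Representation (ZMod p) G V → ℤ}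

/-- REALISATION: a surjective equivariant additive map `W → V` with kernel `U` identifies
`ψ (W/U)` with `ψ V`. -/
theorem h25_pair_real (hψ : h25_IsAdditive p G ψ) {A : Type} [AddCommGroup A]
    {ρ : Representation ℤ G A} (P : h25_Pair p ρ) [Finite P.carrier]
    (V : Type) [AddCommGroup V] [Module (ZMod p) V] (ρV : Representation (ZMod p) G V)
    (π : ↥P.W →+ V) (hπ : ∀ g (w : ↥P.W), π (P.actW g w) = ρV g (π w))
    (hsurj : Surjective π) (hker : ∀ w : ↥P.W, π w = 0 ↔ (w : A) ∈ P.U) :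
    ψ P.carrier P.rep = ψ V ρV := by
  let π' : P.carrier →+ V :=
    (Submodule.liftQ (P.U.comap P.W.subtype) π.toIntLinearMap
      (fun w hw => (hker w).2 hw)).toAddMonoidHom
  have hπ' : ∀ w, π' (P.pr w) = π w := fun w => rfl
  refine h25_additive_iso hψ P.carrier V P.rep ρV π' ?_ ⟨?_, ?_⟩
  · intro g x
    obtain ⟨w, rfl⟩ := P.pr_surjective x
    rw [P.rep_pr, hπ', hπ', hπ]
  · rw [injective_iff_map_eq_zero]
    intro x hx
    obtain ⟨w, rfl⟩ := P.pr_surjective x
    rw [hπ'] at hx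
    exact (P.pr_eq_zero_iff w).2 ((hker w).1 hx)
  · intro v
    obtain ⟨w, rfl⟩ := hsurj v
    exact ⟨P.pr w, hπ' w⟩

/-- ISOMORPHISM: an equivariant additive map `f : A → B` which induces a bijection
`W/U → W'/U'` identifies the values of `ψ`. -/
theorem h25_pair_iso (hψ : h25_IsAdditive p G ψ) {A B : Type} [AddCommGroup A] [AddCommGroup B]
    {ρA : Representation ℤ G A} {ρB : Representation ℤ G B} (f : A →+ B)
    (hf : ∀ g a, f (ρA g a) = ρB g (f a)) (P : h25_Pair p ρA) (Q : h25_Pair p ρB)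
    [Finite P.carrier]
    (hW : ∀ w ∈ P.W, f w ∈ Q.W) (hinj : ∀ w ∈ P.W, f w ∈ Q.U → w ∈ P.U)
    (hU : ∀ u ∈ P.U, f u ∈ Q.U) (hsurj : ∀ w' ∈ Q.W, ∃ w ∈ P.W, w' - f w ∈ Q.U) :
    ψ P.carrier P.rep = ψ Q.carrier Q.rep := by
  let fW : ↥P.W →+ ↥Q.W :=
    { toFun := fun w => ⟨f w.1, hW w.1 w.2⟩
      map_zero' := Subtype.ext (map_zero f)
      map_add' := fun a b => Subtype.ext (map_add f a.1 b.1) }
  refine h25_pair_real hψ P Q.carrier Q.rep (Q.pr.comp fW) ?_ ?_ ?_
  · intro g w
    show Q.pr (fW (P.actW g w)) = Q.rep g (Q.pr (fW w))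
    rw [Q.rep_pr]
    congr 1
    apply Subtype.ext
    exact hf g w
  · intro x
    obtain ⟨w', rfl⟩ := Q.pr_surjective x
    obtain ⟨w, hw, hd⟩ := hsurj w' w'.2
    refine ⟨⟨w, hw⟩, ?_⟩
    show Q.pr (fW ⟨w, hw⟩) = Q.pr w'
    rw [← sub_eq_zero, ← map_sub, Q.pr_eq_zero_iff]
    have : ((fW ⟨w, hw⟩ - w' : ↥Q.W) : B) = -(w' - f w) := by
      simp [fW]
    rw [this]
    exact Q.U.neg_mem hd
  · intro w
    show Q.pr (fW w) = 0 ↔ _
    rw [Q.pr_eq_zero_iff]
    exact ⟨fun h => hinj w w.2 h, fun h => hU w h⟩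

/-- The values of `ψ` on two pairs with the same subgroups agree. -/
theorem h25_pair_congr (hψ : h25_IsAdditive p G ψ) {A : Type} [AddCommGroup A]
    {ρ : Representation ℤ G A} (P Q : h25_Pair p ρ) [Finite P.carrier]
    (hU : P.U = Q.U) (hW : P.W = Q.W) : ψ P.carrier P.rep = ψ Q.carrier Q.rep := by
  refine h25_pair_iso hψ (AddMonoidHom.id A) (fun _ _ => rfl) P Q ?_ ?_ ?_ ?_
  · intro w hw
    rw [← hW]
    exact hw
  · intro w _ hw
    rw [hU]
    exact hw
  · intro u hu
    rw [← hU]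
    exact hu
  · intro w' hw'
    refine ⟨w', ?_, ?_⟩
    · rw [hW]
      exact hw'
    · simp

/-- ADDITIVITY: `ψ (W/U) = ψ (V/U) + ψ (W/V)` for `U ≤ V ≤ W`. -/
theorem h25_pair_add (hψ : h25_IsAdditive p G ψ) {A : Type} [AddCommGroup A]
    {ρ : Representation ℤ G A} (P₁ P₂ P : h25_Pair p ρ) [Finite P.carrier]
    (h1 : P₁.U = P.U) (h2 : P₁.W = P₂.U) (h3 : P₂.W = P.W) :
    ψ P.carrier P.rep = ψ P₁.carrier P₁.rep + ψ P₂.carrier P₂.rep := by
  have hle : P₁.W ≤ P.W := by
    rw [h2, ← h3]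
    exact P₂.le
  -- the inclusion `V/U → W/U`
  let iW : ↥P₁.W →+ ↥P.W :=
    { toFun := fun w => ⟨w, hle w.2⟩
      map_zero' := rfl
      map_add' := fun _ _ => rfl }
  let i : P₁.carrier →+ P.carrier :=
    (Submodule.liftQ (P₁.U.comap P₁.W.subtype) (P.pr.comp iW).toIntLinearMap
      (fun w hw => by
        show P.pr (iW w) = 0
        rw [P.pr_eq_zero_iff, ← h1]
        exact hw)).toAddMonoidHom
  have hi : ∀ w, i (P₁.pr w) = P.pr (iW w) := fun w => rfl
  -- the projection `W/U → W/V`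
  let qW : ↥P.W →+ ↥P₂.W :=
    { toFun := fun w => ⟨w.1, by rw [h3]; exact w.2⟩
      map_zero' := rfl
      map_add' := fun _ _ => rfl }
  let q : P.carrier →+ P₂.carrier :=
    (Submodule.liftQ (P.U.comap P.W.subtype) (P₂.pr.comp qW).toIntLinearMap
      (fun w hw => by
        show P₂.pr (qW w) = 0
        rw [P₂.pr_eq_zero_iff, ← h2]
        have hw' : (w : A) ∈ P.U := hw
        rw [← h1] at hw'
        exact P₁.le hw')).toAddMonoidHom
  have hq : ∀ w, q (P.pr w) = P₂.pr (qW w) := fun w => rfl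
  refine hψ.exact P₁.carrier P.carrier P₂.carrier P₁.rep P.rep P₂.rep
    (i.toZModLinearMap p) (q.toZModLinearMap p) ?_ ?_ ?_ ?_ ?_
  · intro g x
    obtain ⟨w, rfl⟩ := P₁.pr_surjective x
    show i (P₁.rep g (P₁.pr w)) = P.rep g (i (P₁.pr w))
    rw [P₁.rep_pr, hi, hi, P.rep_pr]
    rfl
  · intro g x
    obtain ⟨w, rfl⟩ := P.pr_surjective x
    show q (P.rep g (P.pr w)) = P₂.rep g (q (P.pr w))
    rw [P.rep_pr, hq, hq, P₂.rep_pr]
    rfl
  · show Injective i
    rw [injective_iff_map_eq_zero]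
    intro x hx
    obtain ⟨w, rfl⟩ := P₁.pr_surjective x
    rw [hi, P.pr_eq_zero_iff] at hx
    rw [P₁.pr_eq_zero_iff, h1]
    exact hx
  · show Surjective q
    intro x
    obtain ⟨w, rfl⟩ := P₂.pr_surjective x
    exact ⟨P.pr ⟨w.1, by rw [← h3]; exact w.2⟩, rfl⟩
  · intro x
    show q x = 0 ↔ ∃ v', i v' = x
    obtain ⟨w, rfl⟩ := P.pr_surjective x
    rw [hq, P₂.pr_eq_zero_iff]
    constructor
    · intro hw
      have hw' : (w : A) ∈ P₁.W := by
        rw [h2]
        exact hw
      exact ⟨P₁.pr ⟨w, hw'⟩, rfl⟩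
    · rintro ⟨v', hv'⟩
      obtain ⟨w', rfl⟩ := P₁.pr_surjective v'
      rw [hi, ← sub_eq_zero, ← map_sub, P.pr_eq_zero_iff] at hv'
      have h4 : ((iW w' - w : ↥P.W) : A) ∈ P₂.U := by
        rw [← h2]
        rw [← h1] at hv'
        exact P₁.le hv'
      have h5 : (w' : A) ∈ P₂.U := by
        rw [← h2]
        exact w'.2
      have h6 : (w : A) = (w' : A) - ((iW w' - w : ↥P.W) : A) := by
        simp [iW]
      show (w : A) ∈ P₂.U
      rw [h6]
      exact P₂.U.sub_mem h5 h4

end calculus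

end Fermat.Agent.S56
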