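import Fermat.Agent.S56.h25_RepHerbFin

/-!
# S56 / W1 (3d), representation theory, part 4: tensor products, function modules, coinduction

* `h25_tens ψ N σ` : the invariant `V ↦ ψ (N ⊗ V)`; it is additive if `ψ` is
  (`h25_tens_additive`);
* `h25_funRep σ X` : the representation on `X → N`, `(g • f) x = σ g (f (g⁻¹ • x))`
  (a model of `N ⊗ k[X]`), and `h25_tens_perm` : `ψ (N ⊗ 𝔽_p^X) = ψ (X → N)`;
* `h25_fun_quot_eq_coind` : PROJECTION FORMULA `ψ (G/H → N) = ψ (coind_H^G Res_H N)` in Mathlib's
  model `Representation.coind H.subtype`;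
* `h25_coind_additive` : `W ↦ ψ (coind_H^G W)` is additive;
* `h25_coind_trans` : transitivity of coinduction (as a `ψ`-identity);
* `h25_coind_range` : coinduction along an injective hom is coinduction from its range.
-/

set_option autoImplicit false

open TensorProduct Function

namespace Fermat.Agent.S56

section tens

variable {p : ℕ} [Fact p.Prime] {G : Type} [Group G]

/-- The invariant `V ↦ ψ (N ⊗ V)`. -/
noncomputable def h25_tens
    (ψ : ∀ (V : Type) [AddCommGroup V] [Module (ZMod p) V], Representation (ZMod p) G V → ℤ)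
    (N : Type) [AddCommGroup N] [Module (ZMod p) N] (σ : Representation (ZMod p) G N) :
    ∀ (V : Type) [AddCommGroup V] [Module (ZMod p) V], Representation (ZMod p) G V → ℤ :=
  fun V _ _ τ => ψ (N ⊗[ZMod p] V) (σ.tprod τ)

variable {ψ : ∀ (V : Type) [AddCommGroup V] [Module (ZMod p) V], Representation (ZMod p) G V → ℤ}

theorem h25_finite_tensor (N V : Type) [AddCommGroup N] [Module (ZMod p) N] [Finite N]
    [AddCommGroup V] [Module (ZMod p) V] [Finite V] : Finite (N ⊗[ZMod p] V) := by
  have : Module.Finite (ZMod p) N := Module.Finite.of_finite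
  have : Module.Finite (ZMod p) V := Module.Finite.of_finite
  exact Module.finite_of_finite (ZMod p)

/-- `V ↦ ψ (N ⊗ V)` is additive. -/
theorem h25_tens_additive (hψ : h25_IsAdditive p G ψ) (N : Type) [AddCommGroup N]
    [Module (ZMod p) N] [Finite N] (σ : Representation (ZMod p) G N) :
    h25_IsAdditive p G (h25_tens ψ N σ) := by
  refine ⟨fun V' V V'' _ _ _ _ _ _ _ ρ' ρ ρ'' i q hi hq hinj hsurj hex => ?_⟩
  have := h25_finite_tensor (p := p) N V
  refine hψ.exact (N ⊗[ZMod p] V') (N ⊗[ZMod p] V) (N ⊗[ZMod p] V'') (σ.tprod ρ') (σ.tprod ρ)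
    (σ.tprod ρ'') (LinearMap.lTensor N i) (LinearMap.lTensor N q) ?_ ?_ ?_ ?_ ?_
  · intro g x
    induction x using TensorProduct.induction_on with
    | zero => simp
    | tmul n v =>
      simp only [Representation.tprod_apply, TensorProduct.map_tmul, LinearMap.lTensor_tmul, hi]
    | add x y hx hy => simp only [map_add, hx, hy]
  · intro g x
    induction x using TensorProduct.induction_on with
    | zero => simp
    | tmul n v =>
      simp only [Representation.tprod_apply, TensorProduct.map_tmul, LinearMap.lTensor_tmul, hq]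
    | add x y hx hy => simp only [map_add, hx, hy]
  · exact Module.Flat.lTensor_preserves_injective_linearMap i hinj
  · exact LinearMap.lTensor_surjective N hsurj
  · have hex' : Function.Exact i q := fun v => hex v
    exact fun x => lTensor_exact N hex' hsurj x

end tens

section funRep

/-- The representation of `G` on functions `X → N`: `(g • f) x = σ g (f (g⁻¹ • x))`.
This is a model of `N ⊗ k[X]`. -/
def h25_funRep {k G N : Type} [CommRing k] [Group G] [AddCommGroup N] [Module k N]
    (σ : Representation k G N) (X : Type) [MulAction G X] : Representation k G (X → N) where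
  toFun g :=
    { toFun := fun f x => σ g (f (g⁻¹ • x))
      map_add' := fun f f' => by funext x; simp
      map_smul' := fun c f => by funext x; simp }
  map_one' := by
    apply LinearMap.ext
    intro f
    funext x
    simp
  map_mul' g h := by
    apply LinearMap.ext
    intro f
    funext x
    simp [mul_smul]

@[simp] theorem h25_funRep_apply {k G N : Type} [CommRing k] [Group G] [AddCommGroup N]
    [Module k N] (σ : Representation k G N) (X : Type) [MulAction G X] (g : G) (f : X → N)
    (x : X) : h25_funRep σ X g f x = σ g (f (g⁻¹ • x)) := rfl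

variable {p : ℕ} [Fact p.Prime] {G : Type} [Group G]
  {ψ : ∀ (V : Type) [AddCommGroup V] [Module (ZMod p) V], Representation (ZMod p) G V → ℤ}

/-- `ψ (N ⊗ 𝔽_p^X) = ψ (X → N)`. -/
theorem h25_tens_perm (hψ : h25_IsAdditive p G ψ) (N : Type) [AddCommGroup N]
    [Module (ZMod p) N] [Finite N] (σ : Representation (ZMod p) G N) (X : Type) [Finite X]
    [MulAction G X] :
    h25_tens ψ N σ (X → ZMod p) (h25_perm (ZMod p) G X) = ψ (X → N) (h25_funRep σ X) := by
  classical
  have := Fintype.ofFinite X
  have := h25_finite_tensor (p := p) N (X → ZMod p)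
  let e := TensorProduct.piScalarRight (ZMod p) (ZMod p) N X
  refine h25_additive_iso hψ (N ⊗[ZMod p] (X → ZMod p)) (X → N) _ _ e.toLinearMap.toAddMonoidHom
    ?_ e.bijective
  intro g x
  show e ((σ.tprod (h25_perm (ZMod p) G X)) g x) = h25_funRep σ X g (e x)
  induction x using TensorProduct.induction_on with
  | zero => simp
  | tmul n f =>
    funext y
    simp only [Representation.tprod_apply, TensorProduct.map_tmul, e,
      TensorProduct.piScalarRight_apply, TensorProduct.piScalarRightHom_tmul, h25_funRep_apply,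
      h25_perm_apply, map_smul]
  | add x y hx hy => simp only [map_add, hx, hy]

end funRep

section coind

variable {p : ℕ} {G : Type} [Group G]
  {ψ : ∀ (V : Type) [AddCommGroup V] [Module (ZMod p) V], Representation (ZMod p) G V → ℤ}

/-- PROJECTION FORMULA: `ψ (G/H → N) = ψ (coind_H^G Res_H N)`. -/
theorem h25_fun_quot_eq_coind (hψ : h25_IsAdditive p G ψ) (H : Subgroup G) (N : Type)
    [AddCommGroup N] [Module (ZMod p) N] [Finite N] [Finite G]
    (σ : Representation (ZMod p) G N) :
    ψ ((G ⧸ H) → N) (h25_funRep σ (G ⧸ H)) =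
      ψ (Representation.coindV H.subtype (σ.comp H.subtype))
        (Representation.coind H.subtype (σ.comp H.subtype)) := by
  have hmk : ∀ (h : H) (x : G), (QuotientGroup.mk ((h : G) * x)⁻¹ : G ⧸ H) =
      QuotientGroup.mk x⁻¹ := by
    intro h x
    rw [QuotientGroup.eq]
    simp
  let Φ : ((G ⧸ H) → N) →+ Representation.coindV H.subtype (σ.comp H.subtype) :=
    { toFun := fun φ => ⟨fun x => σ x (φ (QuotientGroup.mk x⁻¹)), by
        intro h x
        show σ ((h : G) * x) (φ (QuotientGroup.mk ((h : G) * x)⁻¹)) =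
          σ (h : G) (σ x (φ (QuotientGroup.mk x⁻¹)))
        rw [hmk, map_mul]
        rfl⟩
      map_zero' := by
        apply Subtype.ext
        funext x
        simp
      map_add' := fun a b => by
        apply Subtype.ext
        funext x
        simp }
  have hΦ : ∀ φ x, (Φ φ : G → N) x = σ x (φ (QuotientGroup.mk x⁻¹)) := fun _ _ => rfl
  refine h25_additive_iso hψ _ _ _ _ Φ ?_ ⟨?_, ?_⟩
  · intro g φ
    apply Subtype.ext
    funext x
    show σ x (σ g (φ (g⁻¹ • (QuotientGroup.mk x⁻¹ : G ⧸ H)))) =
      σ (x * g) (φ (QuotientGroup.mk (x * g)⁻¹))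
    rw [map_mul, Module.End.mul_apply, mul_inv_rev]
    rfl
  · rw [injective_iff_map_eq_zero]
    intro φ hφ
    funext q
    obtain ⟨y, rfl⟩ := QuotientGroup.mk_surjective q
    have h1 := congrFun (congrArg Subtype.val hφ) y⁻¹
    rw [hΦ, inv_inv] at h1
    have h2 : σ y (σ y⁻¹ (φ (QuotientGroup.mk y))) = σ y 0 := congrArg (σ y) h1
    rw [← Module.End.mul_apply, ← map_mul, mul_inv_cancel, map_one, Module.End.one_apply,
      map_zero] at h2
    exact h2
  · intro F
    refine ⟨fun q => σ q.out (F.1 q.out⁻¹), ?_⟩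
    apply Subtype.ext
    funext x
    rw [hΦ]
    obtain ⟨h, hh⟩ := QuotientGroup.mk_out_eq_mul H x⁻¹
    rw [hh]
    have h3 : (x⁻¹ * (h : G))⁻¹ = ((h⁻¹ : H) : G) * x := by
      rw [mul_inv_rev, inv_inv]
      rfl
    have h5 : F.1 (((h⁻¹ : H) : G) * x) = σ ((h⁻¹ : H) : G) (F.1 x) := F.2 h⁻¹ x
    rw [h3, h5]
    rw [← Module.End.mul_apply, ← Module.End.mul_apply, ← map_mul, ← map_mul]
    have h4 : x * (x⁻¹ * (h : G)) * ((h⁻¹ : H) : G) = 1 := by
      simp
    rw [h4, map_one, Module.End.one_apply]

end coind

end Fermat.Agent.S56
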