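import Fermat.Agent.S56.h25_RepAdd

/-!
# S56 / W1 (3d), representation theory, part 2: the Herbrand function of an additive invariant

For an additive invariant `ψ` of `𝔽_p[G]`-modules and a finitely generated abelian group `A`
with a `ℤ`-linear `G`-action `ρ`, put

  `h25_herb p ψ ρ = ψ (A / pA) - ψ (A[p])`.

* `h25_herbrand_additive` : `h25_herb` is additive on short exact sequences;
* `h25_herbrand_finite`   : `h25_herb` vanishes on finite modules.

This is the "lattice lemma": two `G`-lattices which are commensurable have the same reduction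
mod `p` in the Grothendieck group.
-/

set_option autoImplicit false

namespace Fermat.Agent.S56

open Function

section submodules

variable (p : ℕ) {G A : Type} [Group G] [AddCommGroup A]

/-- `p U`. -/
def h25_mulOf (U : Submodule ℤ A) : Submodule ℤ A where
  carrier := {a | ∃ b ∈ U, p • b = a}
  add_mem' := by
    rintro _ _ ⟨b, hb, rfl⟩ ⟨c, hc, rfl⟩
    exact ⟨b + c, U.add_mem hb hc, nsmul_add b c p⟩
  zero_mem' := ⟨0, U.zero_mem, nsmul_zero p⟩
  smul_mem' := by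
    rintro n _ ⟨b, hb, rfl⟩
    exact ⟨n • b, U.smul_mem n hb, by rw [smul_comm]⟩

/-- `{a | p a ∈ U}`. -/
def h25_divOf (U : Submodule ℤ A) : Submodule ℤ A where
  carrier := {a | p • a ∈ U}
  add_mem' := by
    intro a b ha hb
    show p • (a + b) ∈ U
    rw [nsmul_add]
    exact U.add_mem ha hb
  zero_mem' := by
    show p • (0 : A) ∈ U
    rw [nsmul_zero]
    exact U.zero_mem
  smul_mem' := by
    intro n a ha
    show p • (n • a) ∈ U
    rw [smul_comm]
    exact U.smul_mem n ha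

variable {p}

theorem h25_mem_mulOf {U : Submodule ℤ A} {a : A} : a ∈ h25_mulOf p U ↔ ∃ b ∈ U, p • b = a :=
  Iff.rfl

theorem h25_mem_divOf {U : Submodule ℤ A} {a : A} : a ∈ h25_divOf p U ↔ p • a ∈ U := Iff.rfl

theorem h25_nsmul_mem_mulOf {U : Submodule ℤ A} {a : A} (ha : a ∈ U) : p • a ∈ h25_mulOf p U :=
  ⟨a, ha, rfl⟩

theorem h25_mulOf_le (U : Submodule ℤ A) : h25_mulOf p U ≤ U := by
  rintro _ ⟨b, hb, rfl⟩
  exact U.nsmul_mem hb p

theorem h25_le_divOf (U : Submodule ℤ A) : U ≤ h25_divOf p U :=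
  fun _ ha => U.nsmul_mem ha p

variable (ρ : Representation ℤ G A)

theorem h25_stable_mulOf {U : Submodule ℤ A} (hU : ∀ g, ∀ u ∈ U, ρ g u ∈ U) :
    ∀ g, ∀ u ∈ h25_mulOf p U, ρ g u ∈ h25_mulOf p U := by
  rintro g _ ⟨b, hb, rfl⟩
  exact ⟨ρ g b, hU g b hb, (map_nsmul (ρ g) p b).symm⟩

theorem h25_stable_divOf {U : Submodule ℤ A} (hU : ∀ g, ∀ u ∈ U, ρ g u ∈ U) :
    ∀ g, ∀ u ∈ h25_divOf p U, ρ g u ∈ h25_divOf p U := by
  intro g u hu
  show p • ρ g u ∈ U
  rw [← map_nsmul]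
  exact hU g _ hu

theorem h25_stable_inf {U V : Submodule ℤ A} (hU : ∀ g, ∀ u ∈ U, ρ g u ∈ U)
    (hV : ∀ g, ∀ u ∈ V, ρ g u ∈ V) : ∀ g, ∀ u ∈ U ⊓ V, ρ g u ∈ U ⊓ V :=
  fun g u hu => ⟨hU g u hu.1, hV g u hu.2⟩

theorem h25_stable_sup {U V : Submodule ℤ A} (hU : ∀ g, ∀ u ∈ U, ρ g u ∈ U)
    (hV : ∀ g, ∀ u ∈ V, ρ g u ∈ V) : ∀ g, ∀ u ∈ U ⊔ V, ρ g u ∈ U ⊔ V := by
  intro g u hu
  obtain ⟨y, hy, z, hz, rfl⟩ := Submodule.mem_sup.1 hu
  rw [map_add]
  exact Submodule.add_mem _ (Submodule.mem_sup_left (hU g y hy))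
    (Submodule.mem_sup_right (hV g z hz))

theorem h25_stable_bot : ∀ g, ∀ u ∈ (⊥ : Submodule ℤ A), ρ g u ∈ (⊥ : Submodule ℤ A) := by
  intro g u hu
  rw [Submodule.mem_bot] at hu ⊢
  rw [hu, map_zero]

theorem h25_stable_top : ∀ g, ∀ u ∈ (⊤ : Submodule ℤ A), ρ g u ∈ (⊤ : Submodule ℤ A) :=
  fun _ _ _ => Submodule.mem_top

variable (p)

/-- The pair `(0, A[p])`. -/
def h25_torP : h25_Pair p ρ where
  U := ⊥
  W := h25_divOf p ⊥
  le := bot_le
  hp := fun _ hw => hw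
  stU := h25_stable_bot ρ
  stW := h25_stable_divOf ρ (h25_stable_bot ρ)

/-- The pair `(pA, A)`. -/
def h25_modP : h25_Pair p ρ where
  U := h25_mulOf p ⊤
  W := ⊤
  le := le_top
  hp := fun _ hw => h25_nsmul_mem_mulOf hw
  stU := h25_stable_mulOf ρ (h25_stable_top ρ)
  stW := h25_stable_top ρ

/-- The Herbrand function `ψ (A/pA) - ψ (A[p])` of an invariant `ψ`. -/
def h25_herb (ψ : ∀ (V : Type) [AddCommGroup V] [Module (ZMod p) V],
    Representation (ZMod p) G V → ℤ) : ℤ :=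
  ψ (h25_modP p ρ).carrier (h25_modP p ρ).rep - ψ (h25_torP p ρ).carrier (h25_torP p ρ).rep

end submodules

/-- Subquotients of a finitely generated abelian group which are killed by `p` are finite. -/
instance h25_Pair.finite_carrier {p : ℕ} [NeZero p] {G A : Type} [Group G] [AddCommGroup A]
    [Module.Finite ℤ A] {ρ : Representation ℤ G A} (P : h25_Pair p ρ) : Finite P.carrier := by
  have hT : Module.IsTorsion ℤ (↥P.W ⧸ (P.U.comap P.W.subtype)) := by
    intro x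
    refine ⟨⟨(p : ℤ), mem_nonZeroDivisors_of_ne_zero (by exact_mod_cast NeZero.ne p)⟩, ?_⟩
    have h := P.nsmul_eq_zero x
    show (p : ℤ) • x = 0
    rw [natCast_zsmul]
    exact h
  show Finite (↥P.W ⧸ (P.U.comap P.W.subtype))
  exact Module.finite_of_fg_torsion _ hT

section additive

variable {p : ℕ} [NeZero p] {G : Type} [Group G]
  {ψ : ∀ (V : Type) [AddCommGroup V] [Module (ZMod p) V], Representation (ZMod p) G V → ℤ}

/-- **The Herbrand function is additive on short exact sequences** of finitely generated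
abelian groups with `G`-action. -/
theorem h25_herbrand_additive (hψ : h25_IsAdditive p G ψ) {A' A A'' : Type} [AddCommGroup A']
    [AddCommGroup A] [AddCommGroup A''] [Module.Finite ℤ A]
    (ρ' : Representation ℤ G A') (ρ : Representation ℤ G A) (ρ'' : Representation ℤ G A'')
    (i : A' →+ A) (q : A →+ A'') (hi : ∀ g a, i (ρ' g a) = ρ g (i a))
    (hq : ∀ g a, q (ρ g a) = ρ'' g (q a)) (hinj : Injective i) (hsurj : Surjective q)
    (hex : ∀ a, q a = 0 ↔ ∃ a', i a' = a) :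
    h25_herb p ρ ψ = h25_herb p ρ' ψ + h25_herb p ρ'' ψ := by
  have : Module.Finite ℤ A' := Module.Finite.of_injective i.toIntLinearMap hinj
  have : Module.Finite ℤ A'' := Module.Finite.of_surjective q.toIntLinearMap hsurj
  -- the subgroups
  let A₁ : Submodule ℤ A := LinearMap.range i.toIntLinearMap
  have hA₁ : ∀ a, a ∈ A₁ ↔ ∃ a', i a' = a := fun a => Iff.rfl
  have sA₁ : ∀ g, ∀ u ∈ A₁, ρ g u ∈ A₁ := by
    rintro g _ ⟨a', rfl⟩
    exact ⟨ρ' g a', hi g a'⟩
  let T : Submodule ℤ A := h25_divOf p ⊥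
  have hT : ∀ a, a ∈ T ↔ p • a = 0 := fun a => by
    show p • a ∈ (⊥ : Submodule ℤ A) ↔ _
    rw [Submodule.mem_bot]
  have sT : ∀ g, ∀ u ∈ T, ρ g u ∈ T := h25_stable_divOf ρ (h25_stable_bot ρ)
  let M : Submodule ℤ A := h25_mulOf p ⊤
  have hM : ∀ a, p • a ∈ M := fun a => h25_nsmul_mem_mulOf Submodule.mem_top
  have sM : ∀ g, ∀ u ∈ M, ρ g u ∈ M := h25_stable_mulOf ρ (h25_stable_top ρ)
  let X : Submodule ℤ A := h25_divOf p A₁
  have sX : ∀ g, ∀ u ∈ X, ρ g u ∈ X := h25_stable_divOf ρ sA₁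
  let pA₁ : Submodule ℤ A := h25_mulOf p A₁
  have spA₁ : ∀ g, ∀ u ∈ pA₁, ρ g u ∈ pA₁ := h25_stable_mulOf ρ sA₁
  have sbot := h25_stable_bot ρ
  have stop := h25_stable_top ρ
  -- the pairs
  let P_a : h25_Pair p ρ := ⟨⊥, A₁ ⊓ T, bot_le, fun w hw => by
    rw [Submodule.mem_bot]; exact (hT w).1 hw.2, sbot, h25_stable_inf ρ sA₁ sT⟩
  let P_b : h25_Pair p ρ := ⟨A₁ ⊓ T, T, inf_le_right, fun w hw => by
    rw [(hT w).1 hw]; exact Submodule.zero_mem _, h25_stable_inf ρ sA₁ sT, sT⟩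
  let P_c : h25_Pair p ρ := ⟨A₁, A₁ ⊔ T, le_sup_left, fun w hw => by
    obtain ⟨y, hy, z, hz, rfl⟩ := Submodule.mem_sup.1 hw
    rw [nsmul_add, (hT z).1 hz, add_zero]
    exact A₁.nsmul_mem hy p, sA₁, h25_stable_sup ρ sA₁ sT⟩
  have hle_d : A₁ ⊔ T ≤ X := sup_le (h25_le_divOf A₁) (fun t ht => by
    show p • t ∈ A₁
    rw [(hT t).1 ht]
    exact A₁.zero_mem)
  let P_d : h25_Pair p ρ := ⟨A₁ ⊔ T, X, hle_d, fun w hw => Submodule.mem_sup_left hw,
    h25_stable_sup ρ sA₁ sT, sX⟩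
  let P_e : h25_Pair p ρ := ⟨A₁, X, h25_le_divOf A₁, fun w hw => hw, sA₁, sX⟩
  have hle_f : pA₁ ≤ M ⊓ A₁ := by
    rintro _ ⟨b, hb, rfl⟩
    exact ⟨hM b, A₁.nsmul_mem hb p⟩
  let P_f : h25_Pair p ρ := ⟨pA₁, M ⊓ A₁, hle_f, fun w hw => h25_nsmul_mem_mulOf hw.2,
    spA₁, h25_stable_inf ρ sM sA₁⟩
  let P_g : h25_Pair p ρ := ⟨M ⊓ A₁, A₁, inf_le_right, fun w hw => ⟨hM w, A₁.nsmul_mem hw p⟩,
    h25_stable_inf ρ sM sA₁, sA₁⟩
  let P_h : h25_Pair p ρ := ⟨pA₁, A₁, h25_mulOf_le A₁, fun w hw => h25_nsmul_mem_mulOf hw,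
    spA₁, sA₁⟩
  let P_i : h25_Pair p ρ := ⟨M, A₁ ⊔ M, le_sup_right, fun w _ => hM w, sM,
    h25_stable_sup ρ sA₁ sM⟩
  let P_j : h25_Pair p ρ := ⟨A₁ ⊔ M, ⊤, le_top, fun w _ => Submodule.mem_sup_right (hM w),
    h25_stable_sup ρ sA₁ sM, stop⟩
  -- the relations
  have e1 : ψ (h25_torP p ρ).carrier (h25_torP p ρ).rep =
      ψ P_a.carrier P_a.rep + ψ P_b.carrier P_b.rep :=
    h25_pair_add hψ P_a P_b (h25_torP p ρ) rfl rfl rfl
  have e2 : ψ P_b.carrier P_b.rep = ψ P_c.carrier P_c.rep := by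
    refine h25_pair_iso hψ (AddMonoidHom.id A) (fun _ _ => rfl) P_b P_c ?_ ?_ ?_ ?_
    · intro w hw
      exact Submodule.mem_sup_right hw
    · intro w hw hw'
      exact ⟨hw', hw⟩
    · intro u hu
      exact hu.1
    · intro w' hw'
      obtain ⟨y, hy, z, hz, rfl⟩ := Submodule.mem_sup.1 hw'
      refine ⟨z, hz, ?_⟩
      show y + z - z ∈ A₁
      rw [add_sub_cancel_right]
      exact hy
  have e3 : ψ P_e.carrier P_e.rep = ψ P_c.carrier P_c.rep + ψ P_d.carrier P_d.rep :=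
    h25_pair_add hψ P_c P_d P_e rfl rfl rfl
  have e4 : ψ P_d.carrier P_d.rep = ψ P_f.carrier P_f.rep := by
    refine h25_pair_iso hψ (nsmulAddMonoidHom p) (fun g a => (map_nsmul (ρ g) p a).symm)
      P_d P_f ?_ ?_ ?_ ?_
    · intro w hw
      exact ⟨hM w, hw⟩
    · intro w _ hw'
      obtain ⟨b, hb, hbw⟩ := hw'
      have h0 : p • (w - b) = 0 := by
        rw [nsmul_sub, sub_eq_zero]
        exact hbw.symm
      have : w = b + (w - b) := by abel
      rw [this]
      exact Submodule.add_mem _ (Submodule.mem_sup_left hb)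
        (Submodule.mem_sup_right ((hT _).2 h0))
    · intro u hu
      obtain ⟨y, hy, z, hz, rfl⟩ := Submodule.mem_sup.1 hu
      refine ⟨y, hy, ?_⟩
      show p • y = p • (y + z)
      rw [nsmul_add, (hT z).1 hz, add_zero]
    · intro w' hw'
      obtain ⟨b, -, rfl⟩ := hw'.1
      refine ⟨b, hw'.2, ?_⟩
      show p • b - p • b ∈ pA₁
      rw [sub_self]
      exact Submodule.zero_mem _
  have e5 : ψ P_h.carrier P_h.rep = ψ P_f.carrier P_f.rep + ψ P_g.carrier P_g.rep :=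
    h25_pair_add hψ P_f P_g P_h rfl rfl rfl
  have e6 : ψ P_g.carrier P_g.rep = ψ P_i.carrier P_i.rep := by
    refine h25_pair_iso hψ (AddMonoidHom.id A) (fun _ _ => rfl) P_g P_i ?_ ?_ ?_ ?_
    · intro w hw
      exact Submodule.mem_sup_left hw
    · intro w hw hw'
      exact ⟨hw', hw⟩
    · intro u hu
      exact hu.1
    · intro w' hw'
      obtain ⟨y, hy, z, hz, rfl⟩ := Submodule.mem_sup.1 hw'
      refine ⟨y, hy, ?_⟩
      show y + z - y ∈ M
      rw [add_sub_cancel_left]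
      exact hz
  have e7 : ψ (h25_modP p ρ).carrier (h25_modP p ρ).rep =
      ψ P_i.carrier P_i.rep + ψ P_j.carrier P_j.rep :=
    h25_pair_add hψ P_i P_j (h25_modP p ρ) rfl rfl rfl
  have e8 : ψ (h25_torP p ρ').carrier (h25_torP p ρ').rep = ψ P_a.carrier P_a.rep := by
    refine h25_pair_iso hψ i hi (h25_torP p ρ') P_a ?_ ?_ ?_ ?_
    · intro w hw
      have hw0 : p • w = 0 := by
        have : p • w ∈ (⊥ : Submodule ℤ A') := hw
        rwa [Submodule.mem_bot] at this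
      refine ⟨⟨w, rfl⟩, (hT _).2 ?_⟩
      rw [← map_nsmul, hw0, map_zero]
    · intro w _ hw'
      have h0 : i w = 0 := by
        have : i w ∈ (⊥ : Submodule ℤ A) := hw'
        rwa [Submodule.mem_bot] at this
      show w ∈ (⊥ : Submodule ℤ A')
      rw [Submodule.mem_bot]
      apply hinj
      rw [h0, map_zero]
    · intro u hu
      have h0 : u = 0 := by
        have : u ∈ (⊥ : Submodule ℤ A') := hu
        rwa [Submodule.mem_bot] at this
      show i u ∈ (⊥ : Submodule ℤ A)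
      rw [h0, map_zero]
      exact Submodule.zero_mem _
    · intro w' hw'
      obtain ⟨a', rfl⟩ := hw'.1
      have h0 : p • i a' = 0 := (hT _).1 hw'.2
      refine ⟨a', ?_, ?_⟩
      · show p • a' ∈ (⊥ : Submodule ℤ A')
        rw [Submodule.mem_bot]
        apply hinj
        rw [map_nsmul, h0, map_zero]
      · show i a' - i a' ∈ (⊥ : Submodule ℤ A)
        rw [sub_self]
        exact Submodule.zero_mem _
  have e9 : ψ (h25_modP p ρ').carrier (h25_modP p ρ').rep = ψ P_h.carrier P_h.rep := by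
    refine h25_pair_iso hψ i hi (h25_modP p ρ') P_h ?_ ?_ ?_ ?_
    · intro w _
      exact ⟨w, rfl⟩
    · intro w _ hw'
      obtain ⟨b, ⟨b', rfl⟩, hb⟩ := hw'
      refine ⟨b', Submodule.mem_top, ?_⟩
      apply hinj
      rw [map_nsmul]
      exact hb
    · rintro u ⟨b, -, rfl⟩
      refine ⟨i b, ⟨b, rfl⟩, ?_⟩
      show p • i b = i (p • b)
      rw [map_nsmul]
    · intro w' hw'
      obtain ⟨a', rfl⟩ := hw'
      refine ⟨a', Submodule.mem_top, ?_⟩
      show i a' - i a' ∈ pA₁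
      rw [sub_self]
      exact Submodule.zero_mem _
  have e10 : ψ P_e.carrier P_e.rep = ψ (h25_torP p ρ'').carrier (h25_torP p ρ'').rep := by
    refine h25_pair_iso hψ q hq P_e (h25_torP p ρ'') ?_ ?_ ?_ ?_
    · intro w hw
      show p • q w ∈ (⊥ : Submodule ℤ A'')
      rw [Submodule.mem_bot, ← map_nsmul]
      exact (hex _).2 ((hA₁ _).1 hw)
    · intro w _ hw'
      have h0 : q w = 0 := by
        have : q w ∈ (⊥ : Submodule ℤ A'') := hw'
        rwa [Submodule.mem_bot] at this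
      exact (hA₁ _).2 ((hex _).1 h0)
    · intro u hu
      show q u ∈ (⊥ : Submodule ℤ A'')
      rw [Submodule.mem_bot]
      exact (hex _).2 ((hA₁ _).1 hu)
    · intro w' hw'
      obtain ⟨a, rfl⟩ := hsurj w'
      have h0 : p • q a = 0 := by
        have : p • q a ∈ (⊥ : Submodule ℤ A'') := hw'
        rwa [Submodule.mem_bot] at this
      refine ⟨a, ?_, ?_⟩
      · show p • a ∈ A₁
        rw [hA₁, ← hex, map_nsmul]
        exact h0
      · show q a - q a ∈ (⊥ : Submodule ℤ A'')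
        rw [sub_self]
        exact Submodule.zero_mem _
  have e11 : ψ P_j.carrier P_j.rep = ψ (h25_modP p ρ'').carrier (h25_modP p ρ'').rep := by
    refine h25_pair_iso hψ q hq P_j (h25_modP p ρ'') ?_ ?_ ?_ ?_
    · intro w _
      exact Submodule.mem_top
    · intro w _ hw'
      obtain ⟨b'', -, hb⟩ := hw'
      obtain ⟨b, rfl⟩ := hsurj b''
      have h0 : q (w - p • b) = 0 := by
        rw [map_sub, map_nsmul, hb, sub_self]
      have : w = (w - p • b) + p • b := by abel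
      rw [this]
      exact Submodule.add_mem _ (Submodule.mem_sup_left ((hA₁ _).2 ((hex _).1 h0)))
        (Submodule.mem_sup_right (hM b))
    · intro u hu
      obtain ⟨y, hy, z, ⟨b, -, rfl⟩, rfl⟩ := Submodule.mem_sup.1 hu
      refine ⟨q b, Submodule.mem_top, ?_⟩
      show p • q b = q (y + p • b)
      rw [map_add, map_nsmul, (hex y).2 ((hA₁ y).1 hy), zero_add]
    · intro w' _
      obtain ⟨a, rfl⟩ := hsurj w'
      refine ⟨a, Submodule.mem_top, ?_⟩
      show q a - q a ∈ h25_mulOf p (⊤ : Submodule ℤ A'')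
      rw [sub_self]
      exact Submodule.zero_mem _
  unfold h25_herb
  linarith

end additive

end Fermat.Agent.S56
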