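import Fermat.Agent.S56.h25_RepCoind

/-!
# S56 / W1 (3d), representation theory, part 5: the orbit decomposition

For a finite `G`-set `X` and a finite `𝔽_p[G]`-module `N`, the module `X → N`
(`h25_funRep σ X`) is filtered by the functions supported on unions of orbits, and the layer of
the orbit of `x` is `(G ⧸ G_x) → N`.  Hence (`h25_orbit_formula`): if
`ψ ((G ⧸ G_x) → N) = 0` whenever `G_x ≠ ⊤`, then

  `ψ (X → N) = #{x | G_x = ⊤} * ψ N`.
-/

set_option autoImplicit false

open Function

namespace Fermat.Agent.S56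

section orbit

variable {p : ℕ} {G : Type} [Group G]
  {ψ : ∀ (V : Type) [AddCommGroup V] [Module (ZMod p) V], Representation (ZMod p) G V → ℤ}
  {N : Type} [AddCommGroup N] [Module (ZMod p) N] (σ : Representation (ZMod p) G N)
  {X : Type} [MulAction G X]

/-- The functions `X → N` supported in `S`. -/
def h25_supp (p : ℕ) (N : Type) [AddCommGroup N] [Module (ZMod p) N] {X : Type} (S : Set X) :
    Submodule (ZMod p) (X → N) where
  carrier := {f | ∀ x, x ∉ S → f x = 0}
  add_mem' := fun {f f'} hf hf' x hx => by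
    show f x + f' x = 0
    rw [hf x hx, hf' x hx, add_zero]
  zero_mem' := fun _ _ => rfl
  smul_mem' := fun c f hf x hx => by
    show c • f x = 0
    rw [hf x hx, smul_zero]

theorem h25_stable_inv {S : Set X} (hS : ∀ (g : G) x, x ∈ S → g • x ∈ S) (g : G) (x : X) :
    g • x ∈ S ↔ x ∈ S := by
  refine ⟨fun h => ?_, hS g x⟩
  have := hS g⁻¹ _ h
  rwa [inv_smul_smul] at this

/-- The representation on the functions supported in a stable set. -/
def h25_suppRep (S : Set X) (hS : ∀ (g : G) x, x ∈ S → g • x ∈ S) :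
    Representation (ZMod p) G ↥(h25_supp p N S) :=
  (h25_funRep σ X).subrepresentation (h25_supp p N S) (fun g f hf x hx => by
    show σ g (f (g⁻¹ • x)) = 0
    rw [hf _ (fun h => hx ((h25_stable_inv hS g⁻¹ x).1 h)), map_zero])

theorem h25_suppRep_apply (S : Set X) (hS : ∀ (g : G) x, x ∈ S → g • x ∈ S) (g : G)
    (f : ↥(h25_supp p N S)) (x : X) :
    (h25_suppRep σ S hS g f : X → N) x = σ g ((f : X → N) (g⁻¹ • x)) := rfl

instance h25_finite_supp [Finite X] [Finite N] (S : Set X) : Finite ↥(h25_supp p N S) :=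
  Finite.of_injective (fun f : ↥(h25_supp p N S) => (f : X → N)) Subtype.val_injective

/-- Additivity over disjoint stable sets. -/
theorem h25_supp_add [Finite X] [Finite N] (hψ : h25_IsAdditive p G ψ) (S S' T : Set X)
    (hS : ∀ (g : G) x, x ∈ S → g • x ∈ S) (hS' : ∀ (g : G) x, x ∈ S' → g • x ∈ S')
    (hT : ∀ (g : G) x, x ∈ T → g • x ∈ T) (hdisj : Disjoint S S') (hTeq : T = S ∪ S') :
    ψ ↥(h25_supp p N T) (h25_suppRep σ T hT) =
      ψ ↥(h25_supp p N S) (h25_suppRep σ S hS) + ψ ↥(h25_supp p N S') (h25_suppRep σ S' hS') := by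
  classical
  let i : ↥(h25_supp p N S) →ₗ[ZMod p] ↥(h25_supp p N T) :=
    { toFun := fun f => ⟨f.1, fun x hx => f.2 x (fun h => hx (by rw [hTeq]; exact Or.inl h))⟩
      map_add' := fun _ _ => rfl
      map_smul' := fun _ _ => rfl }
  let q : ↥(h25_supp p N T) →ₗ[ZMod p] ↥(h25_supp p N S') :=
    { toFun := fun f => ⟨fun x => if x ∈ S' then f.1 x else 0, fun x hx => if_neg hx⟩
      map_add' := fun f f' => by
        apply Subtype.ext
        funext x
        show (if x ∈ S' then f.1 x + f'.1 x else 0) =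
          (if x ∈ S' then f.1 x else 0) + (if x ∈ S' then f'.1 x else 0)
        split_ifs <;> simp
      map_smul' := fun c f => by
        apply Subtype.ext
        funext x
        show (if x ∈ S' then c • f.1 x else 0) = c • (if x ∈ S' then f.1 x else 0)
        split_ifs <;> simp }
  have hq : ∀ f x, (q f).1 x = if x ∈ S' then f.1 x else 0 := fun _ _ => rfl
  refine hψ.exact _ _ _ (h25_suppRep σ S hS) (h25_suppRep σ T hT) (h25_suppRep σ S' hS') i q
    ?_ ?_ ?_ ?_ ?_
  · intro g f
    rfl
  · intro g f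
    apply Subtype.ext
    funext x
    rw [hq, h25_suppRep_apply, h25_suppRep_apply, hq]
    by_cases hx : x ∈ S'
    · rw [if_pos hx, if_pos ((h25_stable_inv hS' g⁻¹ x).2 hx)]
    · rw [if_neg hx, if_neg (fun h => hx ((h25_stable_inv hS' g⁻¹ x).1 h)), map_zero]
  · intro f f' h
    apply Subtype.ext
    have h' : (i f).1 = (i f').1 := congrArg Subtype.val h
    exact h'
  · intro f'
    refine ⟨⟨f'.1, fun x hx => f'.2 x (fun h => hx (by rw [hTeq]; exact Or.inr h))⟩, ?_⟩
    apply Subtype.ext
    funext x
    rw [hq]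
    by_cases hx : x ∈ S'
    · rw [if_pos hx]
    · rw [if_neg hx, f'.2 x hx]
  · intro f
    constructor
    · intro hf
      refine ⟨⟨f.1, fun x hx => ?_⟩, rfl⟩
      by_cases hx' : x ∈ S'
      · have := congrFun (congrArg Subtype.val hf) x
        rw [hq, if_pos hx'] at this
        exact this
      · apply f.2 x
        rw [hTeq]
        rintro (h | h)
        · exact hx h
        · exact hx' h
    · rintro ⟨f₀, rfl⟩
      apply Subtype.ext
      funext x
      rw [hq]
      by_cases hx : x ∈ S'
      · rw [if_pos hx]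
        exact f₀.2 x (fun h => Set.disjoint_left.1 hdisj h hx)
      · rw [if_neg hx]
        rfl

/-- The layer of an orbit. -/
theorem h25_supp_orbit [Finite X] [Finite N] (hψ : h25_IsAdditive p G ψ) (x : X)
    (hO : ∀ (g : G) y, y ∈ MulAction.orbit G x → g • y ∈ MulAction.orbit G x) :
    ψ ↥(h25_supp p N (MulAction.orbit G x)) (h25_suppRep σ (MulAction.orbit G x) hO) =
      ψ ((G ⧸ MulAction.stabilizer G x) → N)
        (h25_funRep σ (G ⧸ MulAction.stabilizer G x)) := by
  let ι := MulAction.ofQuotientStabilizer G x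
  have hι : Injective ι := MulAction.injective_ofQuotientStabilizer G x
  have hmem : ∀ q, ι q ∈ MulAction.orbit G x := by
    intro q
    obtain ⟨g, rfl⟩ := QuotientGroup.mk_surjective q
    exact ⟨g, (MulAction.ofQuotientStabilizer_mk G x g).symm⟩
  have hsurj : ∀ y ∈ MulAction.orbit G x, ∃ q, ι q = y := by
    rintro y ⟨g, rfl⟩
    exact ⟨QuotientGroup.mk g, MulAction.ofQuotientStabilizer_mk G x g⟩
  let π : ↥(h25_supp p N (MulAction.orbit G x)) →+ ((G ⧸ MulAction.stabilizer G x) → N) :=
    { toFun := fun f q => f.1 (ι q)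
      map_zero' := rfl
      map_add' := fun _ _ => rfl }
  refine h25_additive_iso hψ _ _ _ _ π ?_ ⟨?_, ?_⟩
  · intro g f
    funext q
    show σ g (f.1 (g⁻¹ • ι q)) = σ g (f.1 (ι (g⁻¹ • q)))
    have h1 : ι (g⁻¹ • q) = g⁻¹ • ι q := MulAction.ofQuotientStabilizer_smul G x g⁻¹ q
    rw [h1]
  · rw [injective_iff_map_eq_zero]
    intro f hf
    apply Subtype.ext
    funext y
    by_cases hy : y ∈ MulAction.orbit G x
    · obtain ⟨q, rfl⟩ := hsurj y hy
      exact congrFun hf q
    · exact f.2 y hy
  · intro φ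
    refine ⟨⟨Function.extend ι φ 0, fun y hy => ?_⟩, ?_⟩
    · rw [Function.extend_apply']
      · rfl
      · rintro ⟨q, rfl⟩
        exact hy (hmem q)
    · funext q
      show Function.extend ι φ 0 (ι q) = φ q
      exact hι.extend_apply φ 0 q

/-- The module of functions on the one-point set `G ⧸ ⊤` is `N`. -/
theorem h25_fun_top [Finite N] (hψ : h25_IsAdditive p G ψ) :
    ψ ((G ⧸ (⊤ : Subgroup G)) → N) (h25_funRep σ (G ⧸ (⊤ : Subgroup G))) = ψ N σ := by
  have hss : Subsingleton (G ⧸ (⊤ : Subgroup G)) := QuotientGroup.subsingleton_quotient_top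
  symm
  let c : N →+ ((G ⧸ (⊤ : Subgroup G)) → N) :=
    { toFun := fun n _ => n
      map_zero' := rfl
      map_add' := fun _ _ => rfl }
  refine h25_additive_iso hψ _ _ _ _ c ?_ ⟨?_, ?_⟩
  · intro g n
    rfl
  · intro n n' h
    exact congrFun h (QuotientGroup.mk 1)
  · intro f
    refine ⟨f (QuotientGroup.mk 1), ?_⟩
    funext q
    show f (QuotientGroup.mk 1) = f q
    rw [Subsingleton.elim q (QuotientGroup.mk 1)]

/-- The value of `ψ` on `(G ⧸ H) → N`, as a function of the subgroup `H`. -/
def h25_quotVal (ψ : ∀ (V : Type) [AddCommGroup V] [Module (ZMod p) V],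
    Representation (ZMod p) G V → ℤ) (H : Subgroup G) : ℤ :=
  ψ ((G ⧸ H) → N) (h25_funRep σ (G ⧸ H))

open Classical in
/-- The orbit formula on stable subsets. -/
theorem h25_orbit_formula_aux [Finite X] [Finite N] (hψ : h25_IsAdditive p G ψ)
    (h0 : ∀ x : X, MulAction.stabilizer G x ≠ ⊤ →
      h25_quotVal σ ψ (MulAction.stabilizer G x) = 0) :
    ∀ n : ℕ, ∀ (S : Set X) (hS : ∀ (g : G) x, x ∈ S → g • x ∈ S), S.ncard = n →
      ψ ↥(h25_supp p N S) (h25_suppRep σ S hS) =
        ∑ᶠ x ∈ S, (if MulAction.stabilizer G x = ⊤ then ψ N σ else 0) := by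
  intro n
  induction n using Nat.strong_induction_on with
  | _ n ih =>
    intro S hS hn
    by_cases hne : S = ∅
    · subst hne
      rw [finsum_mem_empty]
      have : Subsingleton ↥(h25_supp p N (∅ : Set X)) := by
        refine ⟨fun f f' => ?_⟩
        apply Subtype.ext
        funext x
        rw [f.2 x (Set.notMem_empty x), f'.2 x (Set.notMem_empty x)]
      exact h25_additive_subsingleton hψ _ _
    · obtain ⟨x, hx⟩ := Set.nonempty_iff_ne_empty.2 hne
      let O : Set X := MulAction.orbit G x
      have hO : ∀ (g : G) y, y ∈ O → g • y ∈ O := by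
        rintro g _ ⟨g', rfl⟩
        exact ⟨g * g', (mul_smul g g' x)⟩
      have hOS : O ⊆ S := by
        rintro _ ⟨g, rfl⟩
        exact hS g x hx
      let S' : Set X := S \ O
      have hS' : ∀ (g : G) y, y ∈ S' → g • y ∈ S' := by
        intro g y hy
        exact ⟨hS g y hy.1, fun h => hy.2 ((h25_stable_inv hO g y).1 h)⟩
      have hdisj : Disjoint O S' := Set.disjoint_sdiff_right
      have hSeq : S = O ∪ S' := (Set.union_sdiff_cancel hOS).symm
      have hxO : x ∈ O := MulAction.mem_orbit_self x
      have hlt : S'.ncard < n := by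
        rw [← hn]
        apply Set.ncard_lt_ncard _ (Set.toFinite S)
        refine ⟨Set.sdiff_subset, fun h => ?_⟩
        exact (h hx).2 hxO
      have e1 := h25_supp_add σ hψ O S' S hO hS' hS hdisj hSeq
      have e2 := h25_supp_orbit σ hψ x hO
      have e3 := ih _ hlt S' hS' rfl
      have e4 : (∑ᶠ y ∈ S, (if MulAction.stabilizer G y = ⊤ then ψ N σ else 0)) =
          (∑ᶠ y ∈ O, (if MulAction.stabilizer G y = ⊤ then ψ N σ else 0)) +
          ∑ᶠ y ∈ S', (if MulAction.stabilizer G y = ⊤ then ψ N σ else 0) := by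
        rw [hSeq]
        exact finsum_mem_union hdisj (Set.toFinite O) (Set.toFinite S')
      have e5 : (∑ᶠ y ∈ O, (if MulAction.stabilizer G y = ⊤ then ψ N σ else 0)) =
          h25_quotVal σ ψ (MulAction.stabilizer G x) := by
        by_cases hst : MulAction.stabilizer G x = ⊤
        · have hOx : O = {x} := by
            ext y
            constructor
            · rintro ⟨g, rfl⟩
              have : g ∈ MulAction.stabilizer G x := by rw [hst]; exact Subgroup.mem_top g
              exact MulAction.mem_stabilizer_iff.1 this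
            · rintro rfl
              exact hxO
          rw [hOx, finsum_mem_singleton, if_pos hst, hst]
          exact (h25_fun_top σ hψ).symm
        · rw [h0 x hst]
          apply finsum_mem_of_eqOn_zero
          rintro _ ⟨g, rfl⟩
          have : MulAction.stabilizer G (g • x) ≠ ⊤ := by
            intro h
            apply hst
            rw [eq_top_iff]
            intro a _
            have h1 : g * a * g⁻¹ ∈ MulAction.stabilizer G (g • x) := by
              rw [h]; exact Subgroup.mem_top _
            rw [MulAction.mem_stabilizer_iff] at h1 ⊢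
            have h2 : (g * a * g⁻¹) • g • x = g • a • x := by
              simp [mul_smul]
            rw [h2] at h1
            exact smul_left_cancel g h1
          show (if MulAction.stabilizer G (g • x) = ⊤ then ψ N σ else 0) = 0
          rw [if_neg this]
      unfold h25_quotVal at e5
      rw [e1, e2, e3, e4, e5]

open Classical in
/-- **The orbit formula**: if `ψ ((G ⧸ G_x) → N) = 0` whenever `G_x ≠ ⊤`, then
`ψ (X → N) = ∑ᶠ x, (if G_x = ⊤ then ψ N else 0)`. -/
theorem h25_orbit_formula [Finite X] [Finite N] (hψ : h25_IsAdditive p G ψ)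
    (h0 : ∀ x : X, MulAction.stabilizer G x ≠ ⊤ →
      ψ ((G ⧸ MulAction.stabilizer G x) → N) (h25_funRep σ (G ⧸ MulAction.stabilizer G x)) = 0) :
    ψ (X → N) (h25_funRep σ X) =
      ∑ᶠ x : X, (if MulAction.stabilizer G x = ⊤ then ψ N σ else 0) := by
  have hU : ∀ (g : G) (x : X), x ∈ (Set.univ : Set X) → g • x ∈ (Set.univ : Set X) :=
    fun _ _ _ => Set.mem_univ _
  have h1 := h25_orbit_formula_aux σ hψ h0 _ Set.univ hU rfl
  rw [finsum_mem_univ] at h1
  rw [← h1]
  symm
  let π : ↥(h25_supp p N (Set.univ : Set X)) →+ (X → N) :=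
    { toFun := fun f => f.1
      map_zero' := rfl
      map_add' := fun _ _ => rfl }
  refine h25_additive_iso hψ _ _ _ _ π ?_ ⟨?_, ?_⟩
  · intro g f
    rfl
  · intro f f' h
    exact Subtype.ext h
  · intro f
    exact ⟨⟨f, fun x hx => absurd (Set.mem_univ x) hx⟩, rfl⟩

end orbit

end Fermat.Agent.S56
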