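import Mathlib

/-!
# S56 / W3 / E-RED : the finite-field count (helper64)

`k`, `kF` finite fields of characteristic `p`, `c : k`, `c ≠ 0`.  The additive maps
`Λ : k → kF` which are Frobenius-semilinear with respect to `c`, i.e. `Λ (c * y) = Λ y ^ p`,
number at most `|k|` (`h64_red_card`).  Consumer form `h64_red_finrank`: a `k`-vector space which
embeds additively into these maps has dimension `≤ 1`.

Proof: `Λ y` is a root of the linearised polynomial `∑ m_j X^(p^j)` of the minimal polynomial
`∑ m_j X^j` of `c` over `𝔽_p` (degree `p^d`), and `Λ` is determined by its values on a basis of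
`k` over `𝔽_p(c)`.
-/

set_option autoImplicit false
set_option linter.unusedSectionVars false

namespace Fermat.Agent.S56

open Polynomial

section RedCount

variable (p : ℕ) [Fact p.Prime] {k kF : Type*} [Field k] [Field kF]
  [Algebra (ZMod p) k] [Algebra (ZMod p) kF]

/-- iterating the semilinearity. -/
theorem h64_semi_pow {c : k} {Λ : k →+ kF} (h : ∀ y, Λ (c * y) = Λ y ^ p) (j : ℕ) (y : k) :
    Λ (c ^ j * y) = Λ y ^ p ^ j := by
  induction j with
  | zero => simp
  | succ j ih => rw [pow_succ', mul_assoc, h, ih, ← pow_mul, ← pow_succ]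

/-- the linearised polynomial of `f = ∑ f_j X^j`: `∑ f_j X^(p^j)`. -/
noncomputable def h64_lin (kF : Type*) [Field kF] [Algebra (ZMod p) kF] (f : (ZMod p)[X]) :
    kF[X] :=
  ∑ j ∈ Finset.range (f.natDegree + 1),
    C (algebraMap (ZMod p) kF (f.coeff j)) * X ^ p ^ j

theorem h64_lin_natDegree_le (f : (ZMod p)[X]) :
    (h64_lin p kF f).natDegree ≤ p ^ f.natDegree := by
  refine natDegree_sum_le_of_forall_le _ _ fun j hj => ?_
  refine (natDegree_C_mul_X_pow_le _ _).trans ?_
  exact Nat.pow_le_pow_right (Fact.out : p.Prime).pos (Nat.lt_succ_iff.1 (Finset.mem_range.1 hj))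

theorem h64_lin_ne_zero {f : (ZMod p)[X]} (hf : f.Monic) : h64_lin p kF f ≠ 0 := by
  intro h0
  have h1 : (h64_lin p kF f).coeff (p ^ f.natDegree) = 1 := by
    rw [h64_lin, finsetSum_coeff]
    rw [Finset.sum_eq_single f.natDegree]
    · rw [coeff_C_mul_X_pow, if_pos rfl, hf.coeff_natDegree, map_one]
    · intro j _ hj
      rw [coeff_C_mul_X_pow, if_neg]
      intro h
      exact hj (Nat.pow_right_injective (Fact.out : p.Prime).two_le h).symm
    · intro h
      exact absurd (Finset.mem_range.2 (Nat.lt_succ_self _)) h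
  rw [h0, coeff_zero] at h1
  exact zero_ne_one h1

/-- `Λ (f(c) y) = (lin f)(Λ y)`. -/
theorem h64_lin_eval {c : k} {Λ : k →+ kF} (h : ∀ y, Λ (c * y) = Λ y ^ p) (f : (ZMod p)[X])
    (y : k) : Λ (aeval c f * y) = (h64_lin p kF f).eval (Λ y) := by
  rw [h64_lin, eval_finsetSum, aeval_eq_sum_range, Finset.sum_mul, map_sum]
  refine Finset.sum_congr rfl fun j _ => ?_
  rw [eval_mul, eval_C, eval_pow, eval_X, smul_mul_assoc, ← h64_semi_pow p h j y]
  rw [← Algebra.smul_def]
  exact ZMod.map_smul Λ _ _

/-- the values of a semilinear map lie in the (finite) root set of the linearised minimal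
polynomial of `c`. -/
theorem h64_value_mem [Finite k] [DecidableEq kF] {c : k} {Λ : k →+ kF} (h : ∀ y, Λ (c * y) = Λ y ^ p) (y : k) :
    Λ y ∈ (h64_lin p kF (minpoly (ZMod p) c)).roots.toFinset := by
  have hc : IsIntegral (ZMod p) c := IsIntegral.of_finite (ZMod p) c
  rw [Multiset.mem_toFinset, mem_roots (h64_lin_ne_zero p (minpoly.monic hc)), IsRoot.def,
    ← h64_lin_eval p h, minpoly.aeval, zero_mul, map_zero]

theorem h64_red_card_aux [Finite k] [Finite kF] (c : k) :
    Set.ncard {Λ : k →+ kF | ∀ y, Λ (c * y) = Λ y ^ p} ≤ Nat.card k := by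
  classical
  have hc : IsIntegral (ZMod p) c := IsIntegral.of_finite (ZMod p) c
  set m := minpoly (ZMod p) c with hm
  set R : Finset kF := (h64_lin p kF m).roots.toFinset with hR
  have hRcard : R.card ≤ p ^ m.natDegree :=
    (Multiset.toFinset_card_le _).trans ((card_roots' _).trans (h64_lin_natDegree_le p m))
  let k₀ : IntermediateField (ZMod p) k := IntermediateField.adjoin (ZMod p) {c}
  let pb : PowerBasis (ZMod p) k₀ := IntermediateField.adjoin.powerBasis hc
  let b₁ := Module.Free.chooseBasis k₀ k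
  let B := pb.basis.smulTower b₁
  let f : {Λ : k →+ kF | ∀ y, Λ (c * y) = Λ y ^ p} →
      (Module.Free.ChooseBasisIndex k₀ k → R) :=
    fun Λ i => ⟨Λ.1 (b₁ i), h64_value_mem p Λ.2 (b₁ i)⟩
  have hf : Function.Injective f := by
    rintro ⟨Λ, hΛ⟩ ⟨Λ', hΛ'⟩ hff
    apply Subtype.ext
    apply AddMonoidHom.toZModLinearMap_injective p
    apply B.ext
    rintro ⟨j, i⟩
    have h1 : B (j, i) = c ^ (j : ℕ) * b₁ i := by
      rw [Module.Basis.smulTower_apply, PowerBasis.basis_eq_pow]
      rfl
    have h2 : Λ (b₁ i) = Λ' (b₁ i) := congrArg Subtype.val (congrFun hff i)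
    show Λ (B (j, i)) = Λ' (B (j, i))
    rw [h1, h64_semi_pow p hΛ, h64_semi_pow p hΛ', h2]
  rw [← Nat.card_coe_set_eq]
  calc Nat.card _ ≤ Nat.card (Module.Free.ChooseBasisIndex k₀ k → R) :=
        Nat.card_le_card_of_injective f hf
    _ = Nat.card R ^ Nat.card (Module.Free.ChooseBasisIndex k₀ k) := Nat.card_fun
    _ ≤ (p ^ m.natDegree) ^ Nat.card (Module.Free.ChooseBasisIndex k₀ k) := by
        rw [Nat.card_eq_finsetCard]
        exact Nat.pow_le_pow_left hRcard _
    _ = Nat.card k := by
        rw [Module.natCard_eq_pow_finrank (K := ZMod p) (V := k), Nat.card_zmod, ← pow_mul]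
        congr 1
        rw [← Module.finrank_mul_finrank (ZMod p) k₀ k, IntermediateField.adjoin.finrank hc,
          Module.finrank_eq_card_chooseBasisIndex, Nat.card_eq_fintype_card]

end RedCount

section RedCountFinal

variable (p : ℕ) [Fact p.Prime] {k kF : Type*} [Field k] [Finite k] [CharP k p]
  [Field kF] [Finite kF] [CharP kF p]

/-- **RED-COUNT.** At most `|k|` additive maps `Λ : k → kF` satisfy `Λ (c * y) = Λ y ^ p`. -/
theorem h64_red_card (c : k) :
    Set.ncard {Λ : k →+ kF | ∀ y, Λ (c * y) = Λ y ^ p} ≤ Nat.card k := by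
  let _ := ZMod.algebra k p
  let _ := ZMod.algebra kF p
  exact h64_red_card_aux p c

/-- a finite vector space with at most `|k|` elements has dimension `≤ 1`. -/
theorem h64_finrank_le_one_of_card_le {V : Type*} [AddCommGroup V] [Module k V] [Finite V]
    (h : Nat.card V ≤ Nat.card k) : Module.finrank k V ≤ 1 := by
  rw [Module.natCard_eq_pow_finrank (K := k) (V := V)] at h
  by_contra hlt
  replace hlt : 2 ≤ Module.finrank k V := by omega
  have h2 : 1 < Nat.card k := Finite.one_lt_card
  have h3 : Nat.card k ^ 2 ≤ Nat.card k ^ Module.finrank k V :=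
    Nat.pow_le_pow_right (by omega) hlt
  nlinarith

/-- **RED-COUNT, consumer form.** A `k`-vector space `V` with an injective additive map `T` into
the additive maps `k → kF`, all of whose values are `c`-semilinear (`T v (c * y) = T v y ^ p`),
has dimension `≤ 1`. -/
theorem h64_red_finrank (c : k) {V : Type*} [AddCommGroup V] [Module k V]
    (T : V →+ (k →+ kF)) (hT : Function.Injective T)
    (hsemi : ∀ v y, T v (c * y) = T v y ^ p) : Module.finrank k V ≤ 1 := by
  have : Finite (k →+ kF) := DFunLike.finite _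
  have : Finite V := Finite.of_injective T hT
  refine h64_finrank_le_one_of_card_le ?_
  calc Nat.card V ≤ Set.ncard {Λ : k →+ kF | ∀ y, Λ (c * y) = Λ y ^ p} := by
        rw [← Nat.card_coe_set_eq]
        exact Nat.card_le_card_of_injective
          (fun v => (⟨T v, hsemi v⟩ : {Λ : k →+ kF | ∀ y, Λ (c * y) = Λ y ^ p}))
          (fun a b h => hT (congrArg Subtype.val h))
    _ ≤ Nat.card k := h64_red_card p c

/-- a functional `l₀ : k →+ 𝔽_p` such that every additive functional is `x ↦ l₀ (y * x)`. -/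
theorem h64_exists_dual_gen :
    ∃ l₀ : k →+ ZMod p, Function.Surjective
      (fun y : k => l₀.comp (AddMonoidHom.mulLeft y)) := by
  let _ := ZMod.algebra k p
  let b := Module.Free.chooseBasis (ZMod p) k
  have hne : Nonempty (Module.Free.ChooseBasisIndex (ZMod p) k) := by
    by_contra h
    rw [not_nonempty_iff] at h
    have : Subsingleton k := b.repr.toEquiv.subsingleton
    exact one_ne_zero (Subsingleton.elim (1 : k) 0)
  obtain ⟨i⟩ := hne
  let l₀ : k →+ ZMod p := (b.coord i).toAddMonoidHom
  have hl₀ : l₀ (b i) = 1 := by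
    show b.coord i (b i) = 1
    rw [Module.Basis.coord_apply, Module.Basis.repr_self, Finsupp.single_eq_same]
  refine ⟨l₀, ?_⟩
  have hinj : Function.Injective (fun y : k => l₀.comp (AddMonoidHom.mulLeft y)) := by
    intro y y' h
    by_contra hne
    have hsub : y - y' ≠ 0 := sub_ne_zero.2 hne
    have h1 := DFunLike.congr_fun h ((y - y')⁻¹ * b i)
    simp only [AddMonoidHom.comp_apply, AddMonoidHom.coe_mulLeft] at h1
    have h2 : l₀ ((y - y') * ((y - y')⁻¹ * b i)) = 0 := by
      rw [sub_mul, map_sub, h1, sub_self]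
    rw [← mul_assoc, mul_inv_cancel₀ hsub, one_mul, hl₀] at h2
    exact one_ne_zero h2
  have hcard : Nat.card (k →+ ZMod p) ≤ Nat.card k := by
    rw [Nat.card_congr (AddMonoidHom.toZModLinearMapEquiv p (M := k) (M₁ := ZMod p)).toEquiv]
    change Nat.card (Module.Dual (ZMod p) k) ≤ Nat.card k
    rw [Module.natCard_eq_pow_finrank (K := ZMod p) (V := Module.Dual (ZMod p) k),
      Module.natCard_eq_pow_finrank (K := ZMod p) (V := k), Subspace.dual_finrank_eq]
  have : Finite (k →+ ZMod p) := DFunLike.finite _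
  exact (hinj.bijective_of_nat_card_le hcard).2

/-- **RED-COUNT, dual consumer form**: the same with functionals `l : k →+ 𝔽_p` in place of
`y : k`; semilinearity reads `T v (l ∘ (c * ·)) = T v l ^ p`. -/
theorem h64_red_finrank_dual (c : k) {V : Type*} [AddCommGroup V] [Module k V]
    (T : V →+ ((k →+ ZMod p) →+ kF)) (hT : Function.Injective T)
    (hsemi : ∀ v (l : k →+ ZMod p), T v (l.comp (AddMonoidHom.mulLeft c)) = T v l ^ p) :
    Module.finrank k V ≤ 1 := by
  obtain ⟨l₀, hl₀⟩ := h64_exists_dual_gen (k := k) p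
  let Ψ : k →+ (k →+ ZMod p) := (AddMonoidHom.compHom l₀).comp AddMonoidHom.mul
  have hΨ : ∀ y, Ψ y = l₀.comp (AddMonoidHom.mulLeft y) := fun y => rfl
  have hΨc : ∀ y, Ψ (c * y) = (Ψ y).comp (AddMonoidHom.mulLeft c) := by
    intro y
    ext x
    simp only [hΨ, AddMonoidHom.comp_apply, AddMonoidHom.coe_mulLeft]
    rw [mul_left_comm, mul_assoc]
  let T' : V →+ (k →+ kF) := (AddMonoidHom.compHom' Ψ).comp T
  have hT' : ∀ v y, T' v y = T v (Ψ y) := fun v y => rfl
  refine h64_red_finrank p c T' ?_ ?_
  · intro v v' h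
    apply hT
    ext l
    obtain ⟨y, rfl⟩ := hl₀ l
    have := DFunLike.congr_fun h y
    rw [hT', hT'] at this
    exact this
  · intro v y
    rw [hT', hT', hΨc, hsemi]

end RedCountFinal

end Fermat.Agent.S56
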