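/-
S56 / W3 / E-RED, row W3-ER-EIG (helper26): the finite-field count `skR_eig` of helper80's
skeleton, derived from helper64's `h64_red_card`.
-/
import Fermat.Agent.S56.h64_RedCount

set_option autoImplicit false

namespace Fermat.Agent.S56

/-- **R-EIG.** A subgroup of additive maps `Λ : k → k'` (`k` a finite field, `k'` a finite
domain, both of characteristic `p`) which are Frobenius-semilinear with respect to `s`, i.e.
`Λ (s * t) = Λ t ^ p`, has at most `|k|` elements. -/
theorem h26_eig (p : ℕ) [Fact p.Prime] (k k' : Type) [Field k] [Finite k] [CharP k p]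
    [CommRing k'] [IsDomain k']
    [Finite k'] [CharP k' p] (s : k) (hs : s ≠ 0) (S : AddSubgroup (k →+ k'))
    (hS : ∀ Λ ∈ S, ∀ t : k, Λ (s * t) = Λ t ^ p) : Nat.card S ≤ Nat.card k := by
  classical
  have _hs := hs
  cases nonempty_fintype k'
  let _ : Field k' := Fintype.fieldOfDomain k'
  have : Finite (k →+ k') := DFunLike.finite _
  calc Nat.card S = Set.ncard (S : Set (k →+ k')) := (Nat.card_coe_set_eq _)
    _ ≤ Set.ncard {Λ : k →+ k' | ∀ y, Λ (s * y) = Λ y ^ p} :=
        Set.ncard_le_ncard (fun Λ hΛ => hS Λ hΛ) (Set.toFinite _)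
    _ ≤ Nat.card k := h64_red_card p s

end Fermat.Agent.S56
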