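/-
S56 / W3 / E-IRR, row IRR-5 (a), closed form (helper28): `sk_irr_h_zero` of the W3 skeleton,
verbatim — the torus part of every flat class vanishes on `G_{F₁}`.
`h28_irr_h_zero_of` (hypothesis form) + `h47_irr_front` (IRR-5 FRONT).
-/
import Fermat.Agent.S56.h28_IrrHZero
import Fermat.Agent.S56.h47_IrrFrontFinal

set_option autoImplicit false

namespace Fermat.Agent.S56

variable (p : ℕ) [Fact p.Prime]

local notation "Ω" => PadicAlgCl p
local notation "Fld" => IntermediateField ℚ_[p] (PadicAlgCl p)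

set_option linter.unusedVariables false in
/-- **IRR-5 (h6)**: the torus part of every class vanishes on `G_{F₁}`. -/
theorem h28_irr_h_zero (hp2 : p ≠ 2) {k : Type} [Field k] [Finite k] [CharP k p]
    (rb : h78_G p →* Matrix (Fin 2) (Fin 2) k)
    (hdet : ∀ (g : h78_G p) (ζ : Ω), ζ ^ p = 1 → ∃ n : ℕ, g ζ = ζ ^ n ∧ (rb g).det = (n : k))
    (W : Submodule k (h78_G p → Matrix (Fin 2) (Fin 2) k))
    (hcoc : ∀ a ∈ W, ∀ s t, a (s * t) = a s * rb t + rb s * a t)
    (htr : ∀ a ∈ W, ∀ s, (a s * rb s⁻¹).trace = 0)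
    (hflat : ∀ a ∈ W, a ≠ 0 → h78_LocFlat p rb a)
    (L : Fld) [FiniteDimensional ℚ_[p] L] (hL : h78_Stable p L) (D : h78_IrrData p rb W L)
    (a : h78_G p → Matrix (Fin 2) (Fin 2) k) (ha : a ∈ W) (s : h78_G p)
    (hs : s ∈ D.F₁.fixingSubgroup) :
    (a s * rb s⁻¹ *
      (rb D.τ - ((rb D.τ).trace / 2) • (1 : Matrix (Fin 2) (Fin 2) k))).trace = 0 :=
  h28_irr_h_zero_of p hp2 rb W hcoc L hL D a ha
    (fun ℓ => h47_irr_front p rb W hcoc hflat L hL D a ha ℓ) s hs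

end Fermat.Agent.S56
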