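/-
S56 / W3 / E-IRR, row IRR-5 (b)(c), matrix side (helper28).  Mathlib only.

`T ∈ GL₂(k)` with `T ^ p = tr T - T` (the tame generator of `h78_IrrData`).  For a trace-zero
matrix `c` with `tr (c T₀) = 0`, `T₀ = T - tr T / 2` (the "`n`-part"), conjugation
`A(c) = T⁻¹ c T` satisfies
  `d² A² (c) = (t² - 2 d) · d A(c) - d² c`,   `t = tr T`, `d = det T`,
and `t`, `d` lie in the prime field, so the coefficients are natural numbers.  This is the
recurrence behind the level constraint `θ^(2i) - n₁ θ^i - n₀ ≡ 0` of IRR-5.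
-/
import Mathlib

set_option autoImplicit false

namespace Fermat.Agent.S56

section Mat

variable {k : Type} [Field k]

/-- Cayley–Hamilton for `2 × 2` matrices. -/
theorem h28_m2_ch (T : Matrix (Fin 2) (Fin 2) k) :
    T * T = T.trace • T - T.det • (1 : Matrix (Fin 2) (Fin 2) k) := by
  ext i j
  fin_cases i <;> fin_cases j <;>
    simp [Matrix.mul_apply, Fin.sum_univ_two, Matrix.trace, Matrix.det_fin_two] <;> ring

/-- polarised Cayley–Hamilton for `2 × 2` matrices. -/
theorem h28_m2_pch (c T : Matrix (Fin 2) (Fin 2) k) :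
    c * T + T * c = c.trace • T + T.trace • c
      + ((c * T).trace - c.trace * T.trace) • (1 : Matrix (Fin 2) (Fin 2) k) := by
  ext i j
  fin_cases i <;> fin_cases j <;>
    simp [Matrix.mul_apply, Fin.sum_univ_two, Matrix.trace] <;> ring

/-- the adjugate of a `2 × 2` matrix. -/
theorem h28_m2_adj (X : Matrix (Fin 2) (Fin 2) k) :
    X.adjugate = X.trace • (1 : Matrix (Fin 2) (Fin 2) k) - X := by
  rw [Matrix.adjugate_fin_two]
  ext i j
  fin_cases i <;> fin_cases j <;> simp [Matrix.trace, Fin.sum_univ_two]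

/-- `T * T` is scalar iff `tr T = 0` (for `T` with distinct eigenvalues). -/
theorem h28_irr_mat_scalar_iff (T : Matrix (Fin 2) (Fin 2) k)
    (hsep : T.trace ^ 2 ≠ 4 * T.det) :
    (∃ c : k, T * T = c • (1 : Matrix (Fin 2) (Fin 2) k)) ↔ T.trace = 0 := by
  constructor
  · rintro ⟨c, hc⟩
    by_contra ht
    rw [h28_m2_ch] at hc
    have h2 : T.trace • T = (c + T.det) • (1 : Matrix (Fin 2) (Fin 2) k) := by
      rw [add_smul, ← hc]; abel
    have h1 : T = ((c + T.det) / T.trace) • (1 : Matrix (Fin 2) (Fin 2) k) := by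
      rw [div_eq_inv_mul, mul_smul, ← h2, smul_smul, inv_mul_cancel₀ ht, one_smul]
    apply hsep
    generalize (c + T.det) / T.trace = x at h1
    subst h1
    simp [Matrix.trace_smul]
    ring
  · intro ht
    exact ⟨-T.det, by rw [h28_m2_ch, ht, zero_smul, zero_sub, neg_smul]⟩

/-- the core identity (coefficients in `k`). -/
theorem h28_irr_mat_core (T Ti c : Matrix (Fin 2) (Fin 2) k) (hTi : Ti * T = 1)
    (htr : c.trace = 0) (htr' : (c * T).trace = 0) :
    T.det • (T.det • (Ti * (Ti * c * T) * T))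
      = (T.trace ^ 2 - 2 * T.det) • (T.det • (Ti * c * T)) + (-(T.det ^ 2)) • c := by
  have hTi' : T * Ti = 1 := mul_eq_one_comm.1 hTi
  have hch := h28_m2_ch T
  have h2 : T.det • Ti = T.trace • (1 : Matrix (Fin 2) (Fin 2) k) - T := by
    have h3 : T * T * Ti = (T.trace • T - T.det • (1 : Matrix (Fin 2) (Fin 2) k)) * Ti := by
      rw [hch]
    rw [mul_assoc, hTi', mul_one, sub_mul, Matrix.smul_mul, hTi', Matrix.smul_mul, one_mul,
      eq_sub_iff_add_eq] at h3
    rw [eq_sub_iff_add_eq, add_comm]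
    exact h3
  have hB : ∀ c : Matrix (Fin 2) (Fin 2) k, c.trace = 0 → (c * T).trace = 0 →
      T.det • (Ti * c * T) = (T.trace ^ 2 - T.det) • c - T.trace • (T * c) := by
    intro c htr htr'
    have h4 := h28_m2_pch c T
    rw [htr, htr', zero_smul, zero_add, zero_mul, sub_zero, zero_smul, add_zero] at h4
    have h5 : c * T = T.trace • c - T * c := by rw [← h4]; abel
    have h6 : Ti * c * T = T.trace • (Ti * c) - c := by
      rw [mul_assoc, h5, mul_sub, Matrix.mul_smul, ← mul_assoc Ti T c, hTi, one_mul]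
    have h7 : T.det • (Ti * c) = T.trace • c - T * c := by
      rw [← Matrix.smul_mul, h2, sub_mul, Matrix.smul_mul, one_mul]
    rw [h6, smul_sub, smul_comm T.det T.trace (Ti * c), h7]
    module
  have hN1 : (Ti * c * T).trace = 0 := by
    rw [Matrix.trace_mul_comm, ← mul_assoc, hTi', one_mul, htr]
  have hN2 : (Ti * c * T * T).trace = 0 := by
    rw [Matrix.trace_mul_comm, ← mul_assoc, ← mul_assoc, hTi', one_mul, htr']
  have e1 := hB c htr htr'
  have e2 := hB (Ti * c * T) hN1 hN2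
  have e4 : T * (T * c) = T.trace • (T * c) - T.det • c := by
    rw [← mul_assoc, hch, sub_mul, Matrix.smul_mul, Matrix.smul_mul, one_mul]
  have e5 : T.det • ((T.trace ^ 2 - T.det) • (Ti * c * T) - T.trace • (T * (Ti * c * T)))
      = (T.trace ^ 2 - T.det) • (T.det • (Ti * c * T))
        - T.trace • (T * (T.det • (Ti * c * T))) := by
    rw [Matrix.mul_smul]; module
  rw [e2, e5, e1, mul_sub, Matrix.mul_smul, Matrix.mul_smul, e4]
  module

end Mat

section CharP

/-- elements of the prime field are natural numbers. -/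
theorem h28_bot_nat (p : ℕ) [Fact p.Prime] {k : Type} [Field k] [CharP k p] (x : k) (hx : x ∈ (⊥ : Subfield k)) : ∃ n : ℕ, (n : k) = x := by
  obtain ⟨n, hn⟩ := (mem_bot_iff_intCast p k).1 hx
  have hp0 : (p : ℤ) ≠ 0 := by exact_mod_cast (Fact.out : p.Prime).ne_zero
  have hnn : 0 ≤ n % (p : ℤ) := Int.emod_nonneg n hp0
  refine ⟨(n % (p : ℤ)).toNat, ?_⟩
  rw [← hn, ← Int.cast_natCast (R := k), Int.toNat_of_nonneg hnn]
  exact (CharP.intCast_eq_intCast k p).2 (Int.mod_modEq n p)

/-- fixed points of Frobenius are natural numbers. -/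
theorem h28_irr_mat_lift (p : ℕ) [Fact p.Prime] {k : Type} [Field k] [CharP k p] (x : k) (hx : x ^ p = x) : ∃ n : ℕ, x = (n : k) := by
  obtain ⟨n, hn⟩ := h28_bot_nat p x ((Subfield.mem_bot_iff_pow_eq_self k p).2 hx)
  exact ⟨n, hn.symm⟩

/-- `tr T` lies in the prime field. -/
theorem h28_irr_mat_trace_pow (p : ℕ) [Fact p.Prime] {k : Type} [Field k] [CharP k p]
    (T : Matrix (Fin 2) (Fin 2) k)
    (hconj : T ^ p = T.trace • (1 : Matrix (Fin 2) (Fin 2) k) - T) : T.trace ^ p = T.trace := by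
  have h1 : (T ^ p).adjugate = T.adjugate ^ p := Matrix.adjugate_pow T p
  have h2 : (T.trace • (1 : Matrix (Fin 2) (Fin 2) k) - T) ^ p
      = (T.trace • (1 : Matrix (Fin 2) (Fin 2) k)) ^ p - T ^ p :=
    sub_pow_char_of_commute p ((Commute.one_left T).smul_left _)
  have h3 : (T.trace • (1 : Matrix (Fin 2) (Fin 2) k) - T).trace = T.trace := by
    rw [Matrix.trace_sub, Matrix.trace_smul, Matrix.trace_one]
    simp
    ring
  rw [h28_m2_adj, h28_m2_adj T, hconj, h3, h2, hconj, smul_pow, one_pow] at h1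
  have h4 : T.trace • (1 : Matrix (Fin 2) (Fin 2) k)
      = (T.trace ^ p) • (1 : Matrix (Fin 2) (Fin 2) k) := sub_left_injective h1
  have h5 := congrFun (congrFun h4 0) 0
  simpa using h5.symm

/-- **the recurrence of the `n`-part**, with natural-number coefficients. -/
theorem h28_irr_mat_rec (p : ℕ) [Fact p.Prime] (_hp2 : p ≠ 2) {k : Type} [Field k] [CharP k p]
    (T Ti : Matrix (Fin 2) (Fin 2) k) (hTi : Ti * T = 1)
    (hconj : T ^ p = T.trace • (1 : Matrix (Fin 2) (Fin 2) k) - T) (nw : ℕ)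
    (hd : T.det = (nw : k)) :
    ∃ n₁ n₀ : ℕ, (n₁ : k) = T.trace ^ 2 - 2 * T.det ∧ (n₀ : k) = -(T.det ^ 2) ∧
      ∀ c : Matrix (Fin 2) (Fin 2) k, c.trace = 0 →
        (c * (T - (T.trace / 2) • (1 : Matrix (Fin 2) (Fin 2) k))).trace = 0 →
        nw • (nw • (Ti * (Ti * c * T) * T)) = n₁ • (nw • (Ti * c * T)) + n₀ • c := by
  have ht : T.trace ∈ (⊥ : Subfield k) :=
    (Subfield.mem_bot_iff_pow_eq_self k p).2 (h28_irr_mat_trace_pow p T hconj)
  have hdm : T.det ∈ (⊥ : Subfield k) := by rw [hd]; exact natCast_mem _ nw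
  have h2m : (2 : k) ∈ (⊥ : Subfield k) := by
    have h : ((2 : ℕ) : k) ∈ (⊥ : Subfield k) := natCast_mem _ 2
    rwa [Nat.cast_ofNat] at h
  obtain ⟨n₁, hn₁⟩ := h28_bot_nat p (T.trace ^ 2 - 2 * T.det)
    (sub_mem (pow_mem ht 2) (mul_mem h2m hdm))
  obtain ⟨n₀, hn₀⟩ := h28_bot_nat p (-(T.det ^ 2)) (neg_mem (pow_mem hdm 2))
  refine ⟨n₁, n₀, hn₁, hn₀, fun c htr hh => ?_⟩
  have htr' : (c * T).trace = 0 := by
    rw [mul_sub, Matrix.trace_sub, Matrix.mul_smul, mul_one, Matrix.trace_smul, htr, smul_zero,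
      sub_zero] at hh
    exact hh
  have hcore := h28_irr_mat_core T Ti c hTi htr htr'
  rw [← hn₁, ← hn₀, hd] at hcore
  simpa only [Nat.cast_smul_eq_nsmul] using hcore

end CharP

end Fermat.Agent.S56
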