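import Mathlib

set_option autoImplicit false

/-!
# S56 / W3 E-IRR, row IRR-7 (COUNT), part 1: `2 × 2` algebra around a matrix `T`

`T0 := T - (tr T / 2) • 1`, `N := {X | tr X = 0 ∧ tr (X T0) = 0}` (the matrices anticommuting with
`T0`), and the consequences of `T ^ p = tr T • 1 - T` with `T²` non-scalar.
-/

namespace Fermat.Agent.S56

open Matrix

variable {k : Type*} [Field k]

/-- The trace-zero part of `T`. -/
def h30_T0 (T : Matrix (Fin 2) (Fin 2) k) : Matrix (Fin 2) (Fin 2) k :=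
  T - (T.trace / 2) • (1 : Matrix (Fin 2) (Fin 2) k)

/-- `δ = (tr T)² / 4 - det T`, so that `T0² = δ`. -/
def h30_delta (T : Matrix (Fin 2) (Fin 2) k) : k := T.trace ^ 2 / 4 - T.det

theorem h30_T0_commute (T : Matrix (Fin 2) (Fin 2) k) : T * h30_T0 T = h30_T0 T * T := by
  simp only [h30_T0, Matrix.mul_sub, Matrix.sub_mul, Matrix.mul_smul, Matrix.smul_mul,
    Matrix.mul_one, Matrix.one_mul]

theorem h30_T0_trace (h2 : (2 : k) ≠ 0) (T : Matrix (Fin 2) (Fin 2) k) : (h30_T0 T).trace = 0 := by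
  simp only [h30_T0, Matrix.trace_sub, Matrix.trace_smul, Matrix.trace_one, Fintype.card_fin,
    smul_eq_mul]
  push_cast
  field_simp
  ring

theorem h30_T0_sq (h2 : (2 : k) ≠ 0) (T : Matrix (Fin 2) (Fin 2) k) :
    h30_T0 T * h30_T0 T = h30_delta T • (1 : Matrix (Fin 2) (Fin 2) k) := by
  have h4 : (4 : k) ≠ 0 := by
    have : (4 : k) = 2 * 2 := by norm_num
    rw [this]; exact mul_ne_zero h2 h2
  ext i j
  fin_cases i <;> fin_cases j <;>
    simp [h30_T0, h30_delta, Matrix.mul_apply, Fin.sum_univ_two, Matrix.trace_fin_two,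
      Matrix.det_fin_two] <;> field_simp <;> ring

theorem h30_delta_ne_zero_of_sep (h2 : (2 : k) ≠ 0) (T : Matrix (Fin 2) (Fin 2) k)
    (hsep : T.trace ^ 2 ≠ 4 * T.det) : h30_delta T ≠ 0 := by
  have h4 : (4 : k) ≠ 0 := by
    have : (4 : k) = 2 * 2 := by norm_num
    rw [this]; exact mul_ne_zero h2 h2
  intro h
  apply hsep
  unfold h30_delta at h
  field_simp at h
  linear_combination h

/-- Cayley-Hamilton for `2 × 2` matrices. -/
theorem h30_cayley (T : Matrix (Fin 2) (Fin 2) k) :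
    T * T = T.trace • T - T.det • (1 : Matrix (Fin 2) (Fin 2) k) := by
  ext i j
  fin_cases i <;> fin_cases j <;>
    simp [Matrix.mul_apply, Fin.sum_univ_two, Matrix.trace_fin_two, Matrix.det_fin_two] <;> ring

theorem h30_trace_ne_zero (T : Matrix (Fin 2) (Fin 2) k)
    (h7 : ∀ c : k, T * T ≠ c • (1 : Matrix (Fin 2) (Fin 2) k)) : T.trace ≠ 0 := by
  intro h
  apply h7 (-T.det)
  rw [h30_cayley, h, zero_smul, zero_sub, neg_smul]

/-- `T ^ p = tr T - T` with `T²` not scalar forces distinct eigenvalues. -/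
theorem h30_delta_ne_zero {p : ℕ} [Fact p.Prime] [CharP k p] (h2 : (2 : k) ≠ 0)
    (T : Matrix (Fin 2) (Fin 2) k)
    (hTp : T ^ p = T.trace • (1 : Matrix (Fin 2) (Fin 2) k) - T)
    (h7 : ∀ c : k, T * T ≠ c • (1 : Matrix (Fin 2) (Fin 2) k)) : h30_delta T ≠ 0 := by
  intro hδ
  have hsq : h30_T0 T * h30_T0 T = 0 := by rw [h30_T0_sq h2, hδ, zero_smul]
  have hpow : h30_T0 T ^ p = 0 := by
    have hp : 2 ≤ p := (Fact.out : p.Prime).two_le
    obtain ⟨m, rfl⟩ := Nat.exists_eq_add_of_le hp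
    rw [pow_add, pow_two, hsq, zero_mul]
  have hT : T = h30_T0 T + (T.trace / 2) • (1 : Matrix (Fin 2) (Fin 2) k) := by simp [h30_T0]
  have hcomm : Commute (h30_T0 T) ((T.trace / 2) • (1 : Matrix (Fin 2) (Fin 2) k)) :=
    (Commute.one_right _).smul_right _
  have e : T ^ p = ((T.trace / 2) ^ p) • (1 : Matrix (Fin 2) (Fin 2) k) := by
    conv_lhs => rw [hT]
    rw [add_pow_char_of_commute p hcomm, hpow, zero_add, smul_pow, one_pow]
  rw [e] at hTp
  have hT' : T = (T.trace - (T.trace / 2) ^ p) • (1 : Matrix (Fin 2) (Fin 2) k) := by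
    rw [sub_smul, hTp]; abel
  apply h7 ((T.trace - (T.trace / 2) ^ p) * (T.trace - (T.trace / 2) ^ p))
  conv_lhs => rw [hT']
  rw [smul_mul_smul_comm, mul_one]

/-- Trace-zero matrices orthogonal to `T0` anticommute with `T0`. -/
theorem h30_anticomm (h2 : (2 : k) ≠ 0) (T X : Matrix (Fin 2) (Fin 2) k) (hX : X.trace = 0)
    (hXT : (X * h30_T0 T).trace = 0) : X * h30_T0 T + h30_T0 T * X = 0 := by
  rw [Matrix.trace_fin_two] at hX
  have h11 : X 1 1 = -X 0 0 := by linear_combination hX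
  simp only [h30_T0, Matrix.trace_fin_two, Matrix.mul_apply, Fin.sum_univ_two, Matrix.sub_apply,
    Matrix.smul_apply, Matrix.one_apply_eq, Matrix.one_apply_ne, ne_eq, Fin.zero_eq_one_iff,
    Fin.one_eq_zero_iff, OfNat.ofNat_ne_one, not_false_eq_true, smul_eq_mul, mul_one, mul_zero,
    sub_zero, h11] at hXT
  ext i j
  fin_cases i <;> fin_cases j <;>
    simp [h30_T0, Matrix.mul_apply, Fin.sum_univ_two, Matrix.trace_fin_two, h11] <;>
    field_simp <;> first | ring1 | linear_combination (2 : k) * hXT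

/-- `N`: the trace-zero matrices orthogonal to `T0`. -/
def h30_N (T : Matrix (Fin 2) (Fin 2) k) : Submodule k (Matrix (Fin 2) (Fin 2) k) where
  carrier := {X | X.trace = 0 ∧ (X * h30_T0 T).trace = 0}
  add_mem' := by
    rintro X Y ⟨h1, h2⟩ ⟨h3, h4⟩
    exact ⟨by rw [Matrix.trace_add, h1, h3, add_zero],
      by rw [Matrix.add_mul, Matrix.trace_add, h2, h4, add_zero]⟩
  zero_mem' := ⟨Matrix.trace_zero _ _, by rw [Matrix.zero_mul, Matrix.trace_zero]⟩
  smul_mem' := by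
    rintro c X ⟨h1, h2⟩
    exact ⟨by rw [Matrix.trace_smul, h1, smul_zero],
      by rw [Matrix.smul_mul, Matrix.trace_smul, h2, smul_zero]⟩

theorem h30_mem_N (T X : Matrix (Fin 2) (Fin 2) k) :
    X ∈ h30_N T ↔ X.trace = 0 ∧ (X * h30_T0 T).trace = 0 := Iff.rfl

/-- An element of `N` commuting with `T` vanishes. -/
theorem h30_N_comm_zero (h2 : (2 : k) ≠ 0) (T X : Matrix (Fin 2) (Fin 2) k)
    (hδ : h30_delta T ≠ 0) (hX : X ∈ h30_N T) (hc : X * T = T * X) : X = 0 := by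
  have ha := h30_anticomm h2 T X hX.1 hX.2
  have hc0 : X * h30_T0 T = h30_T0 T * X := by
    simp only [h30_T0, Matrix.mul_sub, Matrix.sub_mul, Matrix.mul_smul, Matrix.smul_mul,
      Matrix.mul_one, Matrix.one_mul, hc]
  rw [← hc0] at ha
  have h3 : X * h30_T0 T = 0 := by
    have : (2 : k) • (X * h30_T0 T) = 0 := by rw [two_smul]; exact ha
    exact (smul_eq_zero.mp this).resolve_left h2
  have h4 : X * (h30_T0 T * h30_T0 T) = 0 := by rw [← Matrix.mul_assoc, h3, Matrix.zero_mul]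
  rw [h30_T0_sq h2, Matrix.mul_smul, Matrix.mul_one] at h4
  exact (smul_eq_zero.mp h4).resolve_left hδ

/-- `N` is stable under conjugation by `T`. -/
theorem h30_N_conj_T (T Ti X : Matrix (Fin 2) (Fin 2) k) (hT : T * Ti = 1) (hT' : Ti * T = 1)
    (hX : X ∈ h30_N T) : T * X * Ti ∈ h30_N T := by
  have hc : Ti * h30_T0 T = h30_T0 T * Ti := by
    calc Ti * h30_T0 T = Ti * h30_T0 T * (T * Ti) := by rw [hT, Matrix.mul_one]
      _ = Ti * (h30_T0 T * T) * Ti := by simp only [Matrix.mul_assoc]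
      _ = Ti * (T * h30_T0 T) * Ti := by rw [h30_T0_commute]
      _ = (Ti * T) * h30_T0 T * Ti := by simp only [Matrix.mul_assoc]
      _ = h30_T0 T * Ti := by rw [hT', Matrix.one_mul]
  refine ⟨?_, ?_⟩
  · rw [Matrix.trace_mul_comm, ← Matrix.mul_assoc, hT', Matrix.one_mul]; exact hX.1
  · rw [Matrix.mul_assoc, hc, ← Matrix.mul_assoc, Matrix.trace_mul_comm, ← Matrix.mul_assoc,
      ← Matrix.mul_assoc, hT', Matrix.one_mul]
    exact hX.2

/-- `Φ T = (tr T - T) Φ` gives `Φ T0 = - T0 Φ`. -/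
theorem h30_Phi_T0 (h2 : (2 : k) ≠ 0) (T Φ : Matrix (Fin 2) (Fin 2) k)
    (hΦT : Φ * T = (T.trace • (1 : Matrix (Fin 2) (Fin 2) k) - T) * Φ) :
    Φ * h30_T0 T = -(h30_T0 T * Φ) := by
  simp only [h30_T0, Matrix.mul_sub, Matrix.sub_mul, Matrix.mul_smul, Matrix.smul_mul,
    Matrix.mul_one, Matrix.one_mul, hΦT]
  have : T.trace • Φ = (T.trace / 2) • Φ + (T.trace / 2) • Φ := by
    rw [← add_smul]; congr 1; field_simp; ring
  rw [this]; abel

/-- `N` is stable under conjugation by `Φ⁻¹`. -/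
theorem h30_N_conj_Phi_inv (h2 : (2 : k) ≠ 0) (T Φ Φi X : Matrix (Fin 2) (Fin 2) k)
    (hΦ : Φ * Φi = 1)
    (hΦT : Φ * T = (T.trace • (1 : Matrix (Fin 2) (Fin 2) k) - T) * Φ)
    (hX : X ∈ h30_N T) : Φi * X * Φ ∈ h30_N T := by
  refine ⟨?_, ?_⟩
  · rw [Matrix.mul_assoc, Matrix.trace_mul_comm, Matrix.mul_assoc, hΦ, Matrix.mul_one]; exact hX.1
  · rw [Matrix.mul_assoc, Matrix.mul_assoc, h30_Phi_T0 h2 T Φ hΦT, Matrix.trace_mul_comm,
      Matrix.mul_neg, Matrix.neg_mul, Matrix.trace_neg, Matrix.mul_assoc, Matrix.mul_assoc, hΦ,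
      Matrix.mul_one, hX.2, neg_zero]

/-- A multiple of `T0` orthogonal to `T0` vanishes. -/
theorem h30_zero_of_smul_T0 (h2 : (2 : k) ≠ 0) (T X : Matrix (Fin 2) (Fin 2) k)
    (hδ : h30_delta T ≠ 0) (c : k) (hX : X = c • h30_T0 T)
    (htr : (X * h30_T0 T).trace = 0) : X = 0 := by
  rw [hX, Matrix.smul_mul, Matrix.trace_smul, h30_T0_sq h2, Matrix.trace_smul,
    Matrix.trace_one] at htr
  have hc0 : c = 0 := by
    simp only [smul_eq_mul, Fintype.card_fin, Nat.cast_ofNat, mul_eq_zero] at htr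
    rcases htr with e | e | e
    · exact e
    · exact absurd e hδ
    · exact absurd e h2
  rw [hX, hc0, zero_smul]

/-- `𝔽_p`-independence of `n₀` and `T n₀ T⁻¹` for `0 ≠ n₀ ∈ N`. -/
theorem h30_indep {p : ℕ} (hodd : Odd p) (h2 : (2 : k) ≠ 0)
    (T Ti n₀ : Matrix (Fin 2) (Fin 2) k) (hT' : Ti * T = 1)
    (hTp : T ^ p = T.trace • (1 : Matrix (Fin 2) (Fin 2) k) - T)
    (ht : T.trace ≠ 0) (hδ : h30_delta T ≠ 0) (hn : n₀ ∈ h30_N T) (hn0 : n₀ ≠ 0)
    (α β : k) (hα : α ^ p = α) (hβ : β ^ p = β)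
    (h : α • n₀ + β • (T * n₀ * Ti) = 0) : α = 0 ∧ β = 0 := by
  -- multiply by `T` on the right
  have e : α • (n₀ * T) + β • (T * n₀) = 0 := by
    have := congrArg (· * T) h
    simp only [Matrix.add_mul, Matrix.smul_mul, Matrix.zero_mul, Matrix.mul_assoc, hT',
      Matrix.mul_one] at this
    exact this
  have e' : α • (n₀ * T) = (-β) • (T * n₀) := by
    rw [neg_smul]; exact eq_neg_of_add_eq_zero_left e
  have key : ∀ m : ℕ, α ^ m • (n₀ * T ^ m) = (-β) ^ m • (T ^ m * n₀) := by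
    intro m
    induction m with
    | zero => simp
    | succ m ih =>
      calc α ^ (m + 1) • (n₀ * T ^ (m + 1)) = α • ((α ^ m • (n₀ * T ^ m)) * T) := by
            rw [pow_succ, pow_succ, Matrix.smul_mul, smul_smul, Matrix.mul_assoc, mul_comm]
        _ = α • (((-β) ^ m • (T ^ m * n₀)) * T) := by rw [ih]
        _ = (-β) ^ m • (T ^ m * (α • (n₀ * T))) := by
            rw [Matrix.smul_mul, Matrix.mul_smul, smul_comm, Matrix.mul_assoc]
        _ = (-β) ^ m • (T ^ m * ((-β) • (T * n₀))) := by rw [e']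
        _ = (-β) ^ (m + 1) • (T ^ (m + 1) * n₀) := by
            rw [Matrix.mul_smul, smul_smul, pow_succ, pow_succ, Matrix.mul_assoc]
  have kp := key p
  rw [hα, hodd.neg_pow, hβ, hTp] at kp
  -- `(α + β) t n₀ = α n₀ T + β T n₀ = 0`
  have h3 : ((α + β) * T.trace) • n₀ = 0 := by
    simp only [Matrix.mul_sub, Matrix.sub_mul, Matrix.mul_smul, Matrix.smul_mul, Matrix.mul_one,
      Matrix.one_mul, smul_sub, neg_smul] at kp
    have h4 : (α + β) • T.trace • n₀ = α • (n₀ * T) + β • (T * n₀) := by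
      rw [add_smul]
      have := kp
      rw [sub_eq_iff_eq_add] at this
      rw [this]; abel
    rw [mul_smul, h4, e]
  have h5 : α + β = 0 := by
    rcases smul_eq_zero.mp h3 with h6 | h6
    · exact (mul_eq_zero.mp h6).resolve_right ht
    · exact absurd h6 hn0
  have hαβ : α = -β := eq_neg_of_add_eq_zero_left h5
  have hβ0 : β = 0 := by
    by_contra hb
    have h6 : β • (T * n₀ - n₀ * T) = 0 := by
      rw [smul_sub, ← e, hαβ, neg_smul]; abel
    have h7 : T * n₀ - n₀ * T = 0 := (smul_eq_zero.mp h6).resolve_left hb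
    exact hn0 (h30_N_comm_zero h2 T n₀ hδ hn (sub_eq_zero.mp h7).symm)
  exact ⟨by rw [hαβ, hβ0, neg_zero], hβ0⟩

/-- `Ad Φ` is not of the form `α + β Ad T` on `N` (when `N` contains a nonzero element). -/
theorem h30_D_ne (h2 : (2 : k) ≠ 0)
    (T Ti Φ Φi n₀ : Matrix (Fin 2) (Fin 2) k) (hT : T * Ti = 1) (hT' : Ti * T = 1)
    (hΦ : Φ * Φi = 1) (hΦ' : Φi * Φ = 1)
    (hΦT : Φ * T = (T.trace • (1 : Matrix (Fin 2) (Fin 2) k) - T) * Φ)
    (ht : T.trace ≠ 0) (hδ : h30_delta T ≠ 0) (hn : n₀ ∈ h30_N T) (hn0 : n₀ ≠ 0)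
    (α β : k) : ¬ ∀ X ∈ h30_N T, Φ * X * Φi = α • X + β • (T * X * Ti) := by
  intro hD
  set X' : Matrix (Fin 2) (Fin 2) k := Φi * n₀ * Φ with hX'
  have hX'N : X' ∈ h30_N T := h30_N_conj_Phi_inv h2 T Φ Φi n₀ hΦ hΦT hn
  have hX''N : T * X' * Ti ∈ h30_N T := h30_N_conj_T T Ti X' hT hT' hX'N
  -- (1) `P X' = n₀`
  have e1 : n₀ = α • X' + β • (T * X' * Ti) := by
    rw [← hD X' hX'N, hX']
    simp only [Matrix.mul_assoc, hΦ, Matrix.mul_one]
    rw [← Matrix.mul_assoc, hΦ, Matrix.one_mul]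
  -- (2) `Φ (T X' T⁻¹) Φ⁻¹ = T n₀ T⁻¹`
  have e2 : Φ * (T * X' * Ti) * Φi = T * n₀ * Ti := by
    rw [hD _ hX''N]
    conv_rhs => rw [e1]
    simp only [Matrix.mul_add, Matrix.add_mul, Matrix.mul_smul, Matrix.smul_mul, Matrix.mul_assoc]
  -- (3) multiply by `Φ T` on the right
  have e3 : (T.trace • (1 : Matrix (Fin 2) (Fin 2) k) - T) * n₀ =
      T * n₀ * Ti * (T.trace • (1 : Matrix (Fin 2) (Fin 2) k) - T) := by
    have h3 : Φ * (T * X' * Ti) * Φi * (Φ * T) = T * n₀ * Ti * (Φ * T) := by rw [e2]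
    have hl : Φ * (T * X' * Ti) * Φi * (Φ * T) =
        (T.trace • (1 : Matrix (Fin 2) (Fin 2) k) - T) * n₀ * Φ := by
      calc Φ * (T * X' * Ti) * Φi * (Φ * T) = Φ * T * X' * (Ti * ((Φi * Φ) * T)) := by
            simp only [Matrix.mul_assoc]
        _ = Φ * T * X' := by rw [hΦ', Matrix.one_mul, hT', Matrix.mul_one]
        _ = (T.trace • (1 : Matrix (Fin 2) (Fin 2) k) - T) * ((Φ * Φi) * n₀ * Φ) := by
            rw [hΦT, hX']; simp only [Matrix.mul_assoc]
        _ = (T.trace • (1 : Matrix (Fin 2) (Fin 2) k) - T) * n₀ * Φ := by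
            rw [hΦ, Matrix.one_mul, Matrix.mul_assoc]
    rw [hl, hΦT, ← Matrix.mul_assoc] at h3
    have h4 : (T.trace • (1 : Matrix (Fin 2) (Fin 2) k) - T) * n₀ * Φ * Φi =
        T * n₀ * Ti * (T.trace • (1 : Matrix (Fin 2) (Fin 2) k) - T) * Φ * Φi := by rw [h3]
    simpa only [Matrix.mul_assoc, hΦ, Matrix.mul_one] using h4
  -- (4) `n₀ = T n₀ T⁻¹`
  have e4 : T.trace • n₀ = T.trace • (T * n₀ * Ti) := by
    simp only [Matrix.mul_sub, Matrix.sub_mul, Matrix.mul_smul, Matrix.smul_mul, Matrix.mul_one,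
      Matrix.one_mul, Matrix.mul_assoc, hT'] at e3
    simp only [Matrix.mul_assoc]
    exact sub_left_injective e3
  have e5 : n₀ = T * n₀ * Ti := smul_right_injective _ ht e4
  have e6 : n₀ * T = T * n₀ := by
    conv_lhs => rw [e5]
    rw [Matrix.mul_assoc, hT', Matrix.mul_one]
  exact hn0 (h30_N_comm_zero h2 T n₀ hδ hn e6)

/-- The linear map cutting out `N`. -/
def h30_ell (T : Matrix (Fin 2) (Fin 2) k) : Matrix (Fin 2) (Fin 2) k →ₗ[k] k × k :=
  (Matrix.traceLinearMap (Fin 2) k k).prod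
    ((Matrix.traceLinearMap (Fin 2) k k).comp (LinearMap.mulRight k (h30_T0 T)))

theorem h30_ker_ell (T : Matrix (Fin 2) (Fin 2) k) : LinearMap.ker (h30_ell T) = h30_N T := by
  ext X
  simp [h30_ell, h30_mem_N]

theorem h30_finrank_N (h2 : (2 : k) ≠ 0) (T : Matrix (Fin 2) (Fin 2) k)
    (hδ : h30_delta T ≠ 0) : Module.finrank k (h30_N T) = 2 := by
  have hsurj : Function.Surjective (h30_ell T) := by
    rintro ⟨x, y⟩
    refine ⟨(x / 2) • (1 : Matrix (Fin 2) (Fin 2) k) + (y / (2 * h30_delta T)) • h30_T0 T, ?_⟩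
    have e1 : ((x / 2) • (1 : Matrix (Fin 2) (Fin 2) k) +
        (y / (2 * h30_delta T)) • h30_T0 T).trace = x := by
      rw [Matrix.trace_add, Matrix.trace_smul, Matrix.trace_smul, h30_T0_trace h2,
        Matrix.trace_one]
      simp
      field_simp
    have e2 : (((x / 2) • (1 : Matrix (Fin 2) (Fin 2) k) +
        (y / (2 * h30_delta T)) • h30_T0 T) * h30_T0 T).trace = y := by
      rw [Matrix.add_mul, Matrix.smul_mul, Matrix.smul_mul, Matrix.one_mul, h30_T0_sq h2,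
        Matrix.trace_add, Matrix.trace_smul, Matrix.trace_smul, Matrix.trace_smul,
        h30_T0_trace h2, Matrix.trace_one]
      simp
      field_simp
    exact Prod.ext e1 e2
  have h := LinearMap.finrank_range_add_finrank_ker (h30_ell T)
  rw [LinearMap.range_eq_top.mpr hsurj, finrank_top, h30_ker_ell, Module.finrank_prod,
    Module.finrank_self, Module.finrank_matrix] at h
  simp at h
  omega

/-- Abstract dimension count: a space injecting into the kernel of a nonzero map on a plane has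
dimension at most one. -/
theorem h30_finrank_le_one {V V' W : Type*} [AddCommGroup V] [Module k V] [AddCommGroup V']
    [Module k V'] [AddCommGroup W] [Module k W] (ev : W →ₗ[k] V) (D : V →ₗ[k] V')
    (hinj : Function.Injective ev) (hD : ∀ w, D (ev w) = 0) (hV : Module.finrank k V = 2)
    (v : V) (hv : D v ≠ 0) : Module.finrank k W ≤ 1 := by
  have : FiniteDimensional k V := Module.finite_of_finrank_pos (by rw [hV]; norm_num)
  have h1 := LinearMap.finrank_range_add_finrank_ker D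
  have h2 : 0 < Module.finrank k (LinearMap.range D) :=
    Module.finrank_pos_iff_exists_ne_zero.mpr
      ⟨⟨D v, LinearMap.mem_range_self D v⟩, fun h => hv (congrArg Subtype.val h)⟩
  have h3 : Module.finrank k W ≤ Module.finrank k (LinearMap.ker D) :=
    LinearMap.finrank_le_finrank_of_injective
      (f := ev.codRestrict (LinearMap.ker D) (fun w => LinearMap.mem_ker.mpr (hD w)))
      ((LinearMap.injective_codRestrict_iff _).mpr hinj)
  omega

end Fermat.Agent.S56
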