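import Fermat.Agent.S56.h30_RedAsm

set_option autoImplicit false

/-!
# S56 / W3 E-RED, row RED-S6 : the abstract final count in the shapes of the R77 skeleton

`h30_red_asm_sk`: the hypotheses are `hut`, `hne`, the two entry facts (conclusions of
`sk_red_lower_left` / `sk_red_diag`) and the pairwise dependence of the normalised classes
(conclusion of `sk_red_kum_count`, for `χ = χ₁/χ₂` and the cocycles `c = β/χ₂`).
-/

namespace Fermat.Agent.S56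

open Matrix

section

variable {Γ : Type*} [Group Γ] {k : Type*} [Field k]

/-- the diagonal entries of an upper triangular representation do not vanish. -/
theorem h30_upper_diag_ne_zero (rb : Γ →* Matrix (Fin 2) (Fin 2) k) (hut : ∀ g, rb g 1 0 = 0)
    (g : Γ) : rb g 1 1 ≠ 0 := by
  have hinv : rb g * rb g⁻¹ = 1 := by rw [← map_mul, mul_inv_cancel, map_one]
  have h1 := congrFun (congrFun hinv 1) 1
  rw [h30_mul_apply2, hut g] at h1
  intro h0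
  rw [h0] at h1
  simp at h1

/-- **RED-S6, abstract form, skeleton shapes.** -/
theorem h30_red_asm_sk (rb : Γ →* Matrix (Fin 2) (Fin 2) k) (hut : ∀ g, rb g 1 0 = 0)
    (hne : ∃ s, rb s 0 0 ≠ rb s 1 1)
    (J : Subgroup Γ) (φ : Γ) (hgen : ∀ g, ∃ j : ℕ, g * (φ ^ j)⁻¹ ∈ J)
    (W : Submodule k (Γ → Matrix (Fin 2) (Fin 2) k))
    (hcoc : ∀ a ∈ W, ∀ s t, a (s * t) = a s * rb t + rb s * a t)
    (htr : ∀ a ∈ W, ∀ s, (a s * rb s⁻¹).trace = 0)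
    (hcob : ∀ a ∈ W, (∃ X : Matrix (Fin 2) (Fin 2) k, ∀ s, a s = X * rb s - rb s * X) → a = 0)
    (hll : ∀ a ∈ W, a ≠ 0 → ∃ β : k, ∀ g, a g 1 0 = β * (rb g 0 0 - rb g 1 1))
    (hdiag : ∀ a ∈ W, a ≠ 0 → ∀ X : Matrix (Fin 2) (Fin 2) k,
      (∀ g, (a g - (X * rb g - rb g * X)) 1 0 = 0) →
        ∀ s ∈ J, (a s - (X * rb s - rb s * X)) 1 1 = 0)
    (χ : Γ →* kˣ) (hχ : ∀ g, ((χ g : kˣ) : k) * rb g 1 1 = rb g 0 0)
    (C : Set (Γ → k))
    (hCW : ∀ a ∈ W, a ≠ 0 → ∀ X : Matrix (Fin 2) (Fin 2) k,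
      (∀ s, (a s - (X * rb s - rb s * X)) 1 0 = 0) →
      (∀ s, (a s - (X * rb s - rb s * X)) 1 1 = 0) →
        (fun s => (a s - (X * rb s - rb s * X)) 0 1 / rb s 1 1) ∈ C)
    (hCb : W ≠ ⊥ → (fun s => rb s 0 1 / rb s 1 1) ∈ C)
    (hdep : ∀ c₁ ∈ C, ∀ c₂ ∈ C, ∃ x₁ x₂ y : k, (x₁ ≠ 0 ∨ x₂ ≠ 0) ∧
      ∀ g, x₁ * c₁ g + x₂ * c₂ g = y * (((χ g : kˣ) : k) - 1))
    (H0 : Submodule k (Matrix (Fin 2) (Fin 2) k))
    (hH0 : ∀ X, X ∈ H0 ↔ X.trace = 0 ∧ ∀ s, X * rb s = rb s * X) :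
    Module.finrank k W ≤ Module.finrank k H0 + 1 := by
  classical
  have hd : ∀ g, rb g 1 1 ≠ 0 := h30_upper_diag_ne_zero rb hut
  refine h30_red_asm rb hut hne J φ hgen W hcoc htr hcob ?_
    {β | (fun s => β s / rb s 1 1) ∈ C} ?_ ?_ ?_ H0 hH0
  · -- SHAPE from the two entry facts
    intro a ha
    by_cases ha0 : a = 0
    · refine ⟨0, fun s => ?_, fun s _ => ?_⟩ <;> simp [ha0]
    · obtain ⟨β, hβ⟩ := hll a ha ha0
      obtain ⟨X, h00, h01, h10, h11⟩ : ∃ X : Matrix (Fin 2) (Fin 2) k,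
          X 0 0 = 0 ∧ X 0 1 = 0 ∧ X 1 0 = β ∧ X 1 1 = 0 :=
        ⟨!![0, 0; β, 0], rfl, rfl, rfl, rfl⟩
      have hX : ∀ g, (a g - (X * rb g - rb g * X)) 1 0 = 0 := by
        intro g
        rw [Matrix.sub_apply, Matrix.sub_apply, h30_mul_apply2, h30_mul_apply2, hβ g, hut g, h10,
          h11, h00]
        ring
      exact ⟨X, hX, hdiag a ha ha0 X hX⟩
  · intro a ha ha0 X h1 h2
    exact hCW a ha ha0 X h1 h2
  · intro hW
    exact hCb hW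
  · intro β₁ hβ₁ β₂ hβ₂
    obtain ⟨x₁, x₂, y, hxy, e⟩ := hdep _ hβ₁ _ hβ₂
    refine ⟨x₁, x₂, y, hxy, fun s => ?_⟩
    have e1 := e s
    have h2 := hχ s
    have h3 := hd s
    field_simp at e1
    rw [← h2]
    linear_combination e1

end

end Fermat.Agent.S56
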