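import Fermat.Agent.S56.h30_RedConj

set_option autoImplicit false

/-!
# S56 / W3 E-RED : conjugation transport with a prescribed stable line

`h30_bound_red_transport`: the bound of `sk_bound_red` for `(rb, W)` follows from the bound for the
conjugate `(P⁻¹ rb P, P⁻¹ W P)`.  `h30_bound_red_of_line`: WLOG the given stable line (with its
character `χ`) is spanned by the first basis vector: `rb g 1 0 = 0` and `rb g 0 0 = χ g`.
-/

namespace Fermat.Agent.S56

open Matrix

/-- a stable line with character `χ` can be moved to the first basis vector. -/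
theorem h30_exists_upper_line {Γ : Type*} [Group Γ] {k : Type*} [Field k]
    (rb : Γ →* Matrix (Fin 2) (Fin 2) k) (v : Fin 2 → k) (hv : v ≠ 0) (χ : Γ → k)
    (hχ : ∀ g, (rb g).mulVec v = χ g • v) :
    ∃ P Pi : Matrix (Fin 2) (Fin 2) k, P * Pi = 1 ∧ Pi * P = 1 ∧
      ∀ g, (Pi * rb g * P) 1 0 = 0 ∧ (Pi * rb g * P) 0 0 = χ g := by
  classical
  obtain ⟨P, hPcol, hPdet⟩ : ∃ P : Matrix (Fin 2) (Fin 2) k,
      (∀ i, P i 0 = v i) ∧ P.det ≠ 0 := by
    by_cases h0 : v 0 = 0
    · have h1 : v 1 ≠ 0 := by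
        intro h1
        apply hv
        funext i
        fin_cases i
        · exact h0
        · exact h1
      refine ⟨!![v 0, 1; v 1, 0], fun i => by fin_cases i <;> rfl, ?_⟩
      rw [Matrix.det_fin_two_of]
      simpa using h1
    · refine ⟨!![v 0, 0; v 1, 1], fun i => by fin_cases i <;> rfl, ?_⟩
      rw [Matrix.det_fin_two_of]
      simpa using h0
  have hunit : IsUnit P.det := isUnit_iff_ne_zero.mpr hPdet
  refine ⟨P, P⁻¹, Matrix.mul_nonsing_inv P hunit, Matrix.nonsing_inv_mul P hunit, fun g => ?_⟩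
  have hPe : P.mulVec (Pi.single 0 1) = v := by
    funext i
    rw [Matrix.mulVec_single_one]
    exact hPcol i
  have e1 : (P⁻¹ * rb g * P).mulVec (Pi.single 0 1) = χ g • Pi.single 0 1 := by
    rw [← Matrix.mulVec_mulVec, hPe, ← Matrix.mulVec_mulVec, hχ g, Matrix.mulVec_smul, ← hPe,
      Matrix.mulVec_mulVec, Matrix.nonsing_inv_mul P hunit, Matrix.one_mulVec]
  have e2 := congrFun e1 1
  have e3 := congrFun e1 0
  rw [Matrix.mulVec_single_one] at e2 e3
  exact ⟨by simpa using e2, by simpa using e3⟩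

variable (p : ℕ) [Fact p.Prime]

/-- the bound of `sk_bound_red` is invariant under conjugation. -/
theorem h30_bound_red_transport {k : Type} [Field k] (P Pi : Matrix (Fin 2) (Fin 2) k)
    (hP : P * Pi = 1) (hPi : Pi * P = 1)
    (rb : h78_G p →* Matrix (Fin 2) (Fin 2) k)
    (hdet : ∀ (g : h78_G p) (ζ : PadicAlgCl p), ζ ^ p = 1 →
      ∃ n : ℕ, g ζ = ζ ^ n ∧ (rb g).det = (n : k))
    (W : Submodule k (h78_G p → Matrix (Fin 2) (Fin 2) k))
    (hcoc : ∀ a ∈ W, ∀ s t, a (s * t) = a s * rb t + rb s * a t)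
    (htr : ∀ a ∈ W, ∀ s, (a s * rb s⁻¹).trace = 0)
    (hflat : ∀ a ∈ W, a ≠ 0 → h78_LocFlat p rb a)
    (hcob : ∀ a ∈ W, (∃ X : Matrix (Fin 2) (Fin 2) k, ∀ s, a s = X * rb s - rb s * X) → a = 0)
    (H' : ∀ W' : Submodule k (h78_G p → Matrix (Fin 2) (Fin 2) k),
      (∀ (g : h78_G p) (ζ : PadicAlgCl p), ζ ^ p = 1 →
        ∃ n : ℕ, g ζ = ζ ^ n ∧ (h30_conjHom P Pi hP hPi rb g).det = (n : k)) →
      (∀ a ∈ W', ∀ s t, a (s * t) =
        a s * h30_conjHom P Pi hP hPi rb t + h30_conjHom P Pi hP hPi rb s * a t) →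
      (∀ a ∈ W', ∀ s, (a s * h30_conjHom P Pi hP hPi rb s⁻¹).trace = 0) →
      (∀ a ∈ W', a ≠ 0 → h78_LocFlat p (h30_conjHom P Pi hP hPi rb) a) →
      (∀ a ∈ W', (∃ X : Matrix (Fin 2) (Fin 2) k, ∀ s,
        a s = X * h30_conjHom P Pi hP hPi rb s - h30_conjHom P Pi hP hPi rb s * X) → a = 0) →
      Module.finrank k W' ≤ Module.finrank k (h78_H0 p (h30_conjHom P Pi hP hPi rb)) + 1) :
    Module.finrank k W ≤ Module.finrank k (h78_H0 p rb) + 1 := by
  set rb' : h78_G p →* Matrix (Fin 2) (Fin 2) k := h30_conjHom P Pi hP hPi rb with hrb'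
  have hrb'_apply : ∀ g, rb' g = Pi * rb g * P := fun g => rfl
  set F := h30_conjFun (h78_G p) P Pi hP hPi with hF
  set W' : Submodule k (h78_G p → Matrix (Fin 2) (Fin 2) k) := W.map F.toLinearMap with hW'
  have hmem : ∀ a' ∈ W', ∃ a ∈ W, ∀ s, a' s = Pi * a s * P := by
    intro a' ha'
    obtain ⟨a, ha, rfl⟩ := Submodule.mem_map.mp ha'
    exact ⟨a, ha, fun s => rfl⟩
  have hback : ∀ a : h78_G p → Matrix (Fin 2) (Fin 2) k, ∀ s,
      P * (Pi * a s * P) * Pi = a s := by
    intro a s
    calc P * (Pi * a s * P) * Pi = (P * Pi) * a s * (P * Pi) := by simp only [Matrix.mul_assoc]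
      _ = a s := by rw [hP, Matrix.one_mul, Matrix.mul_one]
  have key := H' W'
    (fun g ζ hζ => by
      obtain ⟨n, h1, h2⟩ := hdet g ζ hζ
      refine ⟨n, h1, ?_⟩
      rw [hrb'_apply, Matrix.det_mul, Matrix.det_mul, mul_right_comm, ← Matrix.det_mul, hPi,
        Matrix.det_one, one_mul, h2])
    (fun a' ha' s t => by
      obtain ⟨a, ha, h⟩ := hmem a' ha'
      rw [h, h, h, hcoc a ha, hrb'_apply, hrb'_apply, Matrix.mul_add, Matrix.add_mul]
      congr 1
      · calc Pi * (a s * rb t) * P = Pi * a s * (1 * (rb t * P)) := by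
              rw [Matrix.one_mul]; simp only [Matrix.mul_assoc]
          _ = Pi * a s * P * (Pi * rb t * P) := by rw [← hP]; simp only [Matrix.mul_assoc]
      · calc Pi * (rb s * a t) * P = Pi * rb s * (1 * (a t * P)) := by
              rw [Matrix.one_mul]; simp only [Matrix.mul_assoc]
          _ = Pi * rb s * P * (Pi * a t * P) := by rw [← hP]; simp only [Matrix.mul_assoc])
    (fun a' ha' s => by
      obtain ⟨a, ha, h⟩ := hmem a' ha'
      rw [h, hrb'_apply]
      have e : Pi * a s * P * (Pi * rb s⁻¹ * P) = Pi * (a s * rb s⁻¹ * P) := by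
        calc Pi * a s * P * (Pi * rb s⁻¹ * P) = Pi * a s * ((P * Pi) * (rb s⁻¹ * P)) := by
              simp only [Matrix.mul_assoc]
          _ = Pi * (a s * rb s⁻¹ * P) := by rw [hP, Matrix.one_mul]; simp only [Matrix.mul_assoc]
      rw [e, Matrix.trace_mul_comm, Matrix.mul_assoc, hP, Matrix.mul_one]
      exact htr a ha s)
    (fun a' ha' hne => by
      obtain ⟨a, ha, h⟩ := hmem a' ha'
      have hane : a ≠ 0 := by
        rintro rfl
        apply hne
        funext s
        rw [h]; simp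
      have := h30_locFlat_conj p P Pi hP hPi rb a (hflat a ha hane)
      have e1 : (fun s => Pi * rb s * P) = (rb' : h78_G p → Matrix (Fin 2) (Fin 2) k) := rfl
      have e2 : (fun s => Pi * a s * P) = a' := by funext s; rw [h]
      rw [e1, e2] at this
      exact this)
    (fun a' ha' hX => by
      obtain ⟨a, ha, h⟩ := hmem a' ha'
      obtain ⟨X, hX⟩ := hX
      have ha0 : a = 0 := by
        refine hcob a ha ⟨P * X * Pi, fun s => ?_⟩
        have h1 := hX s
        rw [h, hrb'_apply] at h1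
        have h2 : a s = P * (Pi * a s * P) * Pi := (hback a s).symm
        rw [h2, h1, Matrix.mul_sub, Matrix.sub_mul]
        congr 1
        · calc P * (X * (Pi * rb s * P)) * Pi = P * X * Pi * (rb s * (P * Pi)) := by
                simp only [Matrix.mul_assoc]
            _ = P * X * Pi * rb s := by rw [hP, Matrix.mul_one]
        · calc P * (Pi * rb s * P * X) * Pi = (P * Pi) * rb s * (P * X * Pi) := by
                simp only [Matrix.mul_assoc]
            _ = rb s * (P * X * Pi) := by rw [hP, Matrix.one_mul]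
      funext s
      rw [h, ha0]; simp)
  -- the two ranks
  have hWrank : Module.finrank k W' = Module.finrank k W := LinearEquiv.finrank_map_eq F W
  have hHrank : Module.finrank k (h78_H0 p rb') = Module.finrank k (h78_H0 p rb) := by
    have hmap : h78_H0 p rb' = (h78_H0 p rb).map (h30_conjMat P Pi hP hPi).toLinearMap := by
      ext X
      constructor
      · rintro ⟨h1, h2⟩
        refine Submodule.mem_map.mpr ⟨P * X * Pi, ⟨?_, fun s => ?_⟩, ?_⟩
        · rw [Matrix.trace_mul_comm, ← Matrix.mul_assoc, hPi, Matrix.one_mul]; exact h1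
        · have h3 := h2 s
          rw [hrb'_apply] at h3
          calc P * X * Pi * rb s = P * (X * (Pi * rb s * P)) * Pi := by
                have : P * (X * (Pi * rb s * P)) * Pi = P * X * Pi * (rb s * (P * Pi)) := by
                  simp only [Matrix.mul_assoc]
                rw [this, hP, Matrix.mul_one]
            _ = P * (Pi * rb s * P * X) * Pi := by rw [h3]
            _ = rb s * (P * X * Pi) := by
                have : P * (Pi * rb s * P * X) * Pi = (P * Pi) * rb s * (P * X * Pi) := by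
                  simp only [Matrix.mul_assoc]
                rw [this, hP, Matrix.one_mul]
        · show Pi * (P * X * Pi) * P = X
          calc Pi * (P * X * Pi) * P = (Pi * P) * X * (Pi * P) := by simp only [Matrix.mul_assoc]
            _ = X := by rw [hPi, Matrix.one_mul, Matrix.mul_one]
      · intro hX
        obtain ⟨Y, ⟨h1, h2⟩, rfl⟩ := Submodule.mem_map.mp hX
        refine ⟨?_, fun s => ?_⟩
        · show (Pi * Y * P).trace = 0
          rw [Matrix.trace_mul_comm, ← Matrix.mul_assoc, hP, Matrix.one_mul]; exact h1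
        · show Pi * Y * P * rb' s = rb' s * (Pi * Y * P)
          rw [hrb'_apply]
          calc Pi * Y * P * (Pi * rb s * P) = Pi * (Y * ((P * Pi) * rb s)) * P := by
                simp only [Matrix.mul_assoc]
            _ = Pi * (Y * rb s) * P := by rw [hP, Matrix.one_mul]
            _ = Pi * (rb s * Y) * P := by rw [h2 s]
            _ = Pi * rb s * ((P * Pi) * Y) * P := by
                rw [hP, Matrix.one_mul]; simp only [Matrix.mul_assoc]
            _ = Pi * rb s * P * (Pi * Y * P) := by simp only [Matrix.mul_assoc]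
    rw [hmap]
    exact LinearEquiv.finrank_map_eq (h30_conjMat P Pi hP hPi) (h78_H0 p rb)
  rw [← hWrank, ← hHrank]
  exact key

/-- **WLOG for E-RED with a prescribed line**: the stable line `k v` with character `χ` becomes
the first basis vector. -/
theorem h30_bound_red_of_line {k : Type} [Field k]
    (rb : h78_G p →* Matrix (Fin 2) (Fin 2) k) (v : Fin 2 → k) (hv : v ≠ 0) (χ : h78_G p → k)
    (hχ : ∀ g, (rb g).mulVec v = χ g • v)
    (Hupper : ∀ (rb' : h78_G p →* Matrix (Fin 2) (Fin 2) k),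
      (∀ g, rb' g 1 0 = 0) → (∀ g, rb' g 0 0 = χ g) →
      (∀ (g : h78_G p) (ζ : PadicAlgCl p), ζ ^ p = 1 →
        ∃ n : ℕ, g ζ = ζ ^ n ∧ (rb' g).det = (n : k)) →
      ∀ W' : Submodule k (h78_G p → Matrix (Fin 2) (Fin 2) k),
      (∀ a ∈ W', ∀ s t, a (s * t) = a s * rb' t + rb' s * a t) →
      (∀ a ∈ W', ∀ s, (a s * rb' s⁻¹).trace = 0) →
      (∀ a ∈ W', a ≠ 0 → h78_LocFlat p rb' a) →
      (∀ a ∈ W', (∃ X : Matrix (Fin 2) (Fin 2) k, ∀ s, a s = X * rb' s - rb' s * X) → a = 0) →
      Module.finrank k W' ≤ Module.finrank k (h78_H0 p rb') + 1)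
    (hdet : ∀ (g : h78_G p) (ζ : PadicAlgCl p), ζ ^ p = 1 →
      ∃ n : ℕ, g ζ = ζ ^ n ∧ (rb g).det = (n : k))
    (W : Submodule k (h78_G p → Matrix (Fin 2) (Fin 2) k))
    (hcoc : ∀ a ∈ W, ∀ s t, a (s * t) = a s * rb t + rb s * a t)
    (htr : ∀ a ∈ W, ∀ s, (a s * rb s⁻¹).trace = 0)
    (hflat : ∀ a ∈ W, a ≠ 0 → h78_LocFlat p rb a)
    (hcob : ∀ a ∈ W, (∃ X : Matrix (Fin 2) (Fin 2) k, ∀ s, a s = X * rb s - rb s * X) → a = 0) :
    Module.finrank k W ≤ Module.finrank k (h78_H0 p rb) + 1 := by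
  obtain ⟨P, Pi, hP, hPi, hup⟩ := h30_exists_upper_line rb v hv χ hχ
  exact h30_bound_red_transport p P Pi hP hPi rb hdet W hcoc htr hflat hcob
    (fun W' h1 h2 h3 h4 h5 =>
      Hupper (h30_conjHom P Pi hP hPi rb) (fun g => (hup g).1) (fun g => (hup g).2) h1 W' h2 h3 h4 h5)

end Fermat.Agent.S56
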