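import Fermat.Agent.S56.h66_Mat2

/-!
# S56 / W4: Burnside and Clifford for `2 × 2` matrices (Mathlib only)

* `h66_burnside`: a multiplicatively closed set of `2 × 2` matrices over an algebraically closed
  field on which the trace form is degenerate has a common eigenvector.
* `h66_clifford`: if no subgroup of index two of `Γ` (and `Γ` has such subgroups) has a common
  eigenvector, then no normal subgroup with abelian quotient has one.
-/

set_option autoImplicit false

namespace Fermat.Agent.S56

open Matrix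

variable {K : Type*} [Field K]

/-- the determinant of two vectors of `K²`. -/
def h66_D (u v : Fin 2 → K) : K := u 0 * v 1 - u 1 * v 0

theorem h66_D_mulVec (A : Matrix (Fin 2) (Fin 2) K) (u v : Fin 2 → K) :
    h66_D (A *ᵥ u) (A *ᵥ v) = A.det * h66_D u v := by
  simp only [h66_D, Matrix.mulVec, dotProduct, Fin.sum_univ_two, Matrix.det_fin_two]
  ring

theorem h66_D_smul_left (a : K) (u v : Fin 2 → K) : h66_D (a • u) v = a * h66_D u v := by
  simp only [h66_D, Pi.smul_apply, smul_eq_mul]; ring

theorem h66_D_smul_right (a : K) (u v : Fin 2 → K) : h66_D u (a • v) = a * h66_D u v := by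
  simp only [h66_D, Pi.smul_apply, smul_eq_mul]; ring

theorem h66_D_self (u : Fin 2 → K) : h66_D u u = 0 := by
  simp only [h66_D]; ring

theorem h66_D_swap (u v : Fin 2 → K) : h66_D u v = - h66_D v u := by
  simp only [h66_D]; ring

/-- proportionality to a nonzero vector. -/
theorem h66_prop_iff {u v : Fin 2 → K} (hv : v ≠ 0) : (∃ c : K, u = c • v) ↔ h66_D u v = 0 := by
  constructor
  · rintro ⟨c, rfl⟩
    rw [h66_D_smul_left, h66_D_self, mul_zero]
  · intro h
    simp only [h66_D] at h
    by_cases h0 : v 0 = 0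
    · have h1 : v 1 ≠ 0 := by
        intro h1; apply hv; ext i; fin_cases i <;> simp [h0, h1]
      refine ⟨u 1 / v 1, ?_⟩
      ext i
      fin_cases i
      · simp only [Fin.zero_eta, Pi.smul_apply, smul_eq_mul, h0, mul_zero]
        rw [h0, mul_zero, sub_eq_zero] at h
        rcases mul_eq_zero.mp h with h | h
        · exact h
        · exact absurd h h1
      · simp only [Fin.mk_one, Pi.smul_apply, smul_eq_mul]
        field_simp
    · refine ⟨u 0 / v 0, ?_⟩
      ext i
      fin_cases i
      · simp only [Fin.zero_eta, Pi.smul_apply, smul_eq_mul]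
        field_simp
      · simp only [Fin.mk_one, Pi.smul_apply, smul_eq_mul]
        field_simp
        linear_combination -h

/-- Cramer's rule in `K²`. -/
theorem h66_cramer (u v w : Fin 2 → K) :
    h66_D v w • u = h66_D u w • v + h66_D v u • w := by
  ext i
  fin_cases i <;> simp [h66_D] <;> ring

/-- the kernel of a nonzero `2 × 2` matrix is at most a line. -/
theorem h66_ker_line (Z : Matrix (Fin 2) (Fin 2) K) (hZ : Z ≠ 0) (u v : Fin 2 → K)
    (hu : Z *ᵥ u = 0) (hv : Z *ᵥ v = 0) : h66_D u v = 0 := by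
  by_contra hD
  apply hZ
  have key : ∀ i, Z i 0 * h66_D u v = 0 ∧ Z i 1 * h66_D u v = 0 := by
    intro i
    have e1 := congrFun hu i
    have e2 := congrFun hv i
    simp only [Matrix.mulVec, dotProduct, Fin.sum_univ_two, Pi.zero_apply] at e1 e2
    simp only [h66_D]
    constructor
    · linear_combination v 1 * e1 - u 1 * e2
    · linear_combination u 0 * e2 - v 0 * e1
  ext i j
  fin_cases j
  · rcases mul_eq_zero.mp (key i).1 with h | h
    · simpa using h
    · exact absurd h hD
  · rcases mul_eq_zero.mp (key i).2 with h | h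
    · simpa using h
    · exact absurd h hD

/-- existence of an eigenvector over an algebraically closed field. -/
theorem h66_exists_eigen [IsAlgClosed K] (A : Matrix (Fin 2) (Fin 2) K) :
    ∃ (μ : K) (v : Fin 2 → K), v ≠ 0 ∧ A *ᵥ v = μ • v := by
  obtain ⟨μ, hμ⟩ := Module.End.exists_eigenvalue (Matrix.toLin' A)
  obtain ⟨v, hv⟩ := hμ.exists_hasEigenvector
  refine ⟨μ, v, hv.2, ?_⟩
  have := hv.apply_eq_smul
  rwa [Matrix.toLin'_apply] at this

/-- a non-scalar matrix over an algebraically closed field has an eigenvector which is an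
eigenvector of every matrix commuting with it. -/
theorem h66_centralizer [IsAlgClosed K] (A : Matrix (Fin 2) (Fin 2) K)
    (hA : ∀ c : K, A ≠ c • (1 : Matrix (Fin 2) (Fin 2) K)) :
    ∃ v : Fin 2 → K, v ≠ 0 ∧ ∀ B : Matrix (Fin 2) (Fin 2) K, B * A = A * B →
      ∃ c : K, B *ᵥ v = c • v := by
  obtain ⟨μ, v, hv0, hv⟩ := h66_exists_eigen A
  refine ⟨v, hv0, fun B hB => ?_⟩
  set Z : Matrix (Fin 2) (Fin 2) K := A - μ • (1 : Matrix (Fin 2) (Fin 2) K) with hZ
  have hZ0 : Z ≠ 0 := fun h => hA μ (sub_eq_zero.mp h)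
  have hZv : Z *ᵥ v = 0 := by
    rw [hZ, Matrix.sub_mulVec, hv, Matrix.smul_mulVec, Matrix.one_mulVec, sub_self]
  have hZB : Z *ᵥ (B *ᵥ v) = 0 := by
    have hc : Z * B = B * Z := by
      rw [hZ, Matrix.sub_mul, Matrix.mul_sub, hB, Matrix.smul_mul, Matrix.mul_smul, Matrix.one_mul,
        Matrix.mul_one]
    rw [Matrix.mulVec_mulVec, hc, ← Matrix.mulVec_mulVec, hZv, Matrix.mulVec_zero]
  exact (h66_prop_iff hv0).mpr (h66_ker_line Z hZ0 _ _ hZB hZv)

/-- a matrix with three pairwise non-proportional eigenvectors is scalar. -/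
theorem h66_three_eigen (A : Matrix (Fin 2) (Fin 2) K) (u v w : Fin 2 → K) (a b c : K)
    (hv : A *ᵥ v = a • v) (hw : A *ᵥ w = b • w) (hu : A *ᵥ u = c • u)
    (hvw : h66_D v w ≠ 0) (huw : h66_D u w ≠ 0) (hvu : h66_D v u ≠ 0) :
    A = a • (1 : Matrix (Fin 2) (Fin 2) K) := by
  have hcr := h66_cramer u v w
  have h1 : h66_D v w • (c • u) = h66_D u w • (a • v) + h66_D v u • (b • w) := by
    have := congrArg (fun x => A *ᵥ x) hcr
    simp only [Matrix.mulVec_add, Matrix.mulVec_smul, hv, hw, hu] at this
    exact this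
  have h2 : h66_D v w • (c • u) = h66_D u w • (c • v) + h66_D v u • (c • w) := by
    rw [smul_comm, hcr, smul_add, smul_comm c, smul_comm c]
  have h3 : (h66_D u w * (a - c)) • v + (h66_D v u * (b - c)) • w = 0 := by
    have : h66_D u w • (a • v) + h66_D v u • (b • w)
        = h66_D u w • (c • v) + h66_D v u • (c • w) := by rw [← h1, h2]
    rw [← sub_eq_zero] at this
    rw [← this]
    simp only [smul_smul, mul_sub, sub_smul]
    abel
  have hac : a = c := by
    have := congrArg (fun x => h66_D x w) h3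
    simp only [h66_D] at this hvw huw
    simp only [Pi.add_apply, Pi.smul_apply, smul_eq_mul, Pi.zero_apply, zero_mul, sub_zero] at this
    have h' : h66_D u w * (a - c) * h66_D v w = 0 := by
      simp only [h66_D]; linear_combination this
    rcases mul_eq_zero.mp h' with h | h
    · rcases mul_eq_zero.mp h with h | h
      · exact absurd h huw
      · exact sub_eq_zero.mp h
    · exact absurd h hvw
  have hbc : b = c := by
    have := congrArg (fun x => h66_D v x) h3
    simp only [h66_D] at this
    simp only [Pi.add_apply, Pi.smul_apply, smul_eq_mul, Pi.zero_apply, mul_zero, sub_zero] at this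
    have h' : h66_D v u * (b - c) * h66_D v w = 0 := by
      simp only [h66_D]; linear_combination this
    rcases mul_eq_zero.mp h' with h | h
    · rcases mul_eq_zero.mp h with h | h
      · exact absurd h hvu
      · exact sub_eq_zero.mp h
    · exact absurd h hvw
  have hall : ∀ x : Fin 2 → K, A *ᵥ x = a • x := by
    intro x
    have hx := h66_cramer x v w
    have e : h66_D v w • (A *ᵥ x) = h66_D v w • (a • x) := by
      have := congrArg (fun y => A *ᵥ y) hx
      simp only [Matrix.mulVec_add, Matrix.mulVec_smul, hv, hw] at this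
      rw [this, hbc, ← hac, smul_comm _ a, smul_comm _ a, ← smul_add, ← hx, smul_comm]
    exact smul_right_injective _ hvw e
  ext i j
  have := congrFun (hall (Pi.single j 1)) i
  rw [Matrix.mulVec_single_one] at this
  simp only [Matrix.col_apply, Pi.smul_apply, smul_eq_mul] at this
  rw [this, Matrix.smul_apply, Matrix.one_apply, Pi.single_apply, smul_eq_mul]

/-- **Burnside for `2 × 2` matrices** (contrapositive form, trace form): a multiplicatively closed
set `S ∋ 1` of matrices over an algebraically closed field which is orthogonal to a nonzero matrix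
for the trace form has a common eigenvector. -/
theorem h66_burnside [IsAlgClosed K] (S : Set (Matrix (Fin 2) (Fin 2) K))
    (h1 : (1 : Matrix (Fin 2) (Fin 2) K) ∈ S) (hmul : ∀ a ∈ S, ∀ b ∈ S, a * b ∈ S)
    (X : Matrix (Fin 2) (Fin 2) K) (hX0 : X ≠ 0) (hX : ∀ a ∈ S, (X * a).trace = 0) :
    ∃ v : Fin 2 → K, v ≠ 0 ∧ ∀ a ∈ S, ∃ c : K, a *ᵥ v = c • v := by
  by_cases hsc : ∀ a ∈ S, ∃ c : K, a = c • (1 : Matrix (Fin 2) (Fin 2) K)
  · refine ⟨Pi.single 0 1, ?_, fun a ha => ?_⟩
    · intro h
      have := congrFun h 0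
      simp at this
    · obtain ⟨c, rfl⟩ := hsc a ha
      exact ⟨c, by rw [Matrix.smul_mulVec, Matrix.one_mulVec]⟩
  · push Not at hsc
    obtain ⟨a0, ha0, hns⟩ := hsc
    -- a nonzero singular matrix orthogonal to `S`
    have hZ : ∃ Z : Matrix (Fin 2) (Fin 2) K, Z ≠ 0 ∧ Z.det = 0 ∧ ∀ a ∈ S, (Z * a).trace = 0 := by
      by_cases hd : X.det = 0
      · exact ⟨X, hX0, hd, hX⟩
      · obtain ⟨μ, v, hv0, hv⟩ := h66_exists_eigen a0
        set B : Matrix (Fin 2) (Fin 2) K := a0 - μ • (1 : Matrix (Fin 2) (Fin 2) K) with hB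
        have hB0 : B ≠ 0 := fun h => hns μ (sub_eq_zero.mp h)
        have hBd : B.det = 0 := by
          rw [← Matrix.exists_mulVec_eq_zero_iff]
          exact ⟨v, hv0, by rw [hB, Matrix.sub_mulVec, hv, Matrix.smul_mulVec, Matrix.one_mulVec,
            sub_self]⟩
        refine ⟨B * X, ?_, ?_, ?_⟩
        · intro h
          apply hB0
          have : B * X * X.adjugate = 0 := by rw [h, Matrix.zero_mul]
          rw [Matrix.mul_assoc, Matrix.mul_adjugate, Matrix.mul_smul, Matrix.mul_one] at this
          rcases smul_eq_zero.mp this with h | h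
          · exact absurd h hd
          · exact h
        · rw [Matrix.det_mul, hBd, zero_mul]
        · intro a ha
          rw [hB, Matrix.sub_mul, Matrix.sub_mul, Matrix.trace_sub, Matrix.smul_mul, Matrix.one_mul,
            Matrix.smul_mul, Matrix.trace_smul, hX a ha, smul_zero, sub_zero,
            Matrix.mul_assoc, Matrix.trace_mul_comm, Matrix.mul_assoc]
          exact hX _ (hmul a ha a0 ha0)
    obtain ⟨Z, hZ0, hZd, hZS⟩ := hZ
    have hZtr : Z.trace = 0 := by simpa using hZS 1 h1
    have ZZ : Z * Z = 0 := by rw [h66_cayley, hZtr, hZd]; simp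
    have ZaZ : ∀ a ∈ S, Z * a * Z = 0 := fun a ha => by
      rw [h66_rank_one Z a hZd, hZS a ha, zero_smul]
    obtain ⟨j, hj⟩ : ∃ j, Z *ᵥ Pi.single j 1 ≠ 0 := by
      by_contra hno
      push Not at hno
      apply hZ0
      ext i j
      have := congrFun (hno j) i
      rw [Matrix.mulVec_single_one] at this
      simpa using this
    refine ⟨Z *ᵥ Pi.single j 1, hj, fun a ha => ?_⟩
    apply (h66_prop_iff hj).mpr
    apply h66_ker_line Z hZ0
    · rw [Matrix.mulVec_mulVec, Matrix.mulVec_mulVec, ZaZ a ha, Matrix.zero_mulVec]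
    · rw [Matrix.mulVec_mulVec, ZZ, Matrix.zero_mulVec]

/-- **Clifford by hand.**  Let `R : Γ → M₂(K)` be multiplicative, `K` algebraically closed of
characteristic `≠ 2`.  Assume no subgroup of index two has a common eigenvector and that `Γ` has a
subgroup of index two.  Then no normal subgroup `N` with abelian quotient has a common
eigenvector. -/
theorem h66_clifford [IsAlgClosed K] (h2 : (2 : K) ≠ 0) {Γ : Type*} [Group Γ]
    (R : Γ →* Matrix (Fin 2) (Fin 2) K)
    (hTW : ∀ H : Subgroup Γ, H.index = 2 → ∀ v : Fin 2 → K, v ≠ 0 →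
      ¬ ∀ σ ∈ H, ∃ a : K, R σ *ᵥ v = a • v)
    (hidx : ∃ H : Subgroup Γ, H.index = 2)
    (N : Subgroup Γ) [hNn : N.Normal] (hab : ∀ a b : Γ, a * b * a⁻¹ * b⁻¹ ∈ N) :
    ∀ v : Fin 2 → K, v ≠ 0 → ¬ ∀ σ ∈ N, ∃ a : K, R σ *ᵥ v = a • v := by
  -- no `Γ`-stable line
  have hGam : ∀ v : Fin 2 → K, v ≠ 0 → ¬ ∀ γ : Γ, ∃ a : K, R γ *ᵥ v = a • v := by
    intro v hv h
    obtain ⟨H, hH⟩ := hidx
    exact hTW H hH v hv (fun σ _ => h σ)
  have hinv : ∀ γ : Γ, R γ * R γ⁻¹ = 1 := fun γ => by rw [← map_mul, mul_inv_cancel, map_one]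
  have hinv' : ∀ γ : Γ, R γ⁻¹ * R γ = 1 := fun γ => by rw [← map_mul, inv_mul_cancel, map_one]
  have hdet : ∀ γ : Γ, (R γ).det ≠ 0 := by
    intro γ h
    have := congrArg Matrix.det (hinv γ)
    rw [Matrix.det_mul, h, zero_mul, Matrix.det_one] at this
    exact zero_ne_one this
  intro v hv hN
  obtain ⟨γ0, hγ0⟩ : ∃ γ0 : Γ, ¬ ∃ a : K, R γ0 *ᵥ v = a • v := by
    by_contra h
    push Not at h
    exact hGam v hv h
  set w := R γ0 *ᵥ v with hw
  have hwv : h66_D w v ≠ 0 := fun h => hγ0 ((h66_prop_iff hv).mpr h)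
  have hvw : h66_D v w ≠ 0 := by rw [h66_D_swap]; exact neg_ne_zero.mpr hwv
  have hw0 : w ≠ 0 := by
    intro h
    rw [h] at hwv
    exact hwv (by simp [h66_D])
  -- every translate of `v` is a common eigenvector of `R(N)`
  have hNst : ∀ γ : Γ, ∀ σ ∈ N, ∃ a : K, R σ *ᵥ (R γ *ᵥ v) = a • (R γ *ᵥ v) := by
    intro γ σ hσ
    have hconj : γ⁻¹ * σ * γ ∈ N := by
      have := hNn.conj_mem σ hσ γ⁻¹
      simpa using this
    obtain ⟨a, ha⟩ := hN _ hconj
    refine ⟨a, ?_⟩
    have e : σ * γ = γ * (γ⁻¹ * σ * γ) := by group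
    rw [Matrix.mulVec_mulVec, ← map_mul, e, map_mul, ← Matrix.mulVec_mulVec, ha,
      Matrix.mulVec_smul]
  by_cases hB : ∀ γ : Γ, h66_D (R γ *ᵥ v) v = 0 ∨ h66_D (R γ *ᵥ v) w = 0
  · -- the stabiliser of the line `K v` has index two
    let H : Subgroup Γ :=
      { carrier := {γ | ∃ a : K, R γ *ᵥ v = a • v}
        one_mem' := ⟨1, by rw [map_one, Matrix.one_mulVec, one_smul]⟩
        mul_mem' := by
          rintro a b ⟨x, hx⟩ ⟨y, hy⟩
          exact ⟨y * x, by
            rw [map_mul, ← Matrix.mulVec_mulVec, hy, Matrix.mulVec_smul, hx, smul_smul]⟩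
        inv_mem' := by
          rintro a ⟨x, hx⟩
          have e : v = x • (R a⁻¹ *ᵥ v) := by
            have := congrArg (fun u => R a⁻¹ *ᵥ u) hx
            simp only [Matrix.mulVec_mulVec, hinv', Matrix.one_mulVec, Matrix.mulVec_smul] at this
            exact this
          have hx0 : x ≠ 0 := by
            rintro rfl
            rw [zero_smul] at e
            exact hv e
          refine ⟨x⁻¹, ?_⟩
          calc R a⁻¹ *ᵥ v = x⁻¹ • (x • (R a⁻¹ *ᵥ v)) := by
                rw [smul_smul, inv_mul_cancel₀ hx0, one_smul]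
            _ = x⁻¹ • v := by rw [← e] }
    have hHmem : ∀ γ : Γ, γ ∈ H ↔ h66_D (R γ *ᵥ v) v = 0 := fun γ => h66_prop_iff hv
    have hH2 : H.index = 2 := by
      rw [Subgroup.index_eq_two_iff]
      refine ⟨γ0, fun b => ?_⟩
      have hDb : h66_D (R b *ᵥ v) (R b *ᵥ w) ≠ 0 := by
        rw [h66_D_mulVec]; exact mul_ne_zero (hdet b) hvw
      have hbw : R (b * γ0) *ᵥ v = R b *ᵥ w := by
        rw [map_mul, ← Matrix.mulVec_mulVec]
      by_cases hb : b ∈ H
      · refine Or.inr ⟨hb, fun hbg => ?_⟩
        obtain ⟨x, hx⟩ := hb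
        obtain ⟨y, hy⟩ := hbg
        rw [hbw] at hy
        apply hDb
        rw [hx, hy, h66_D_smul_left, h66_D_smul_right, h66_D_self, mul_zero, mul_zero]
      · refine Or.inl ⟨?_, hb⟩
        have h1 : h66_D (R b *ᵥ v) w = 0 := by
          rcases hB b with h | h
          · exact absurd ((hHmem b).mpr h) hb
          · exact h
        rw [hHmem, hbw]
        rcases hB (b * γ0) with h | h
        · rwa [hbw] at h
        · rw [hbw] at h
          exfalso
          apply hDb
          obtain ⟨x, hx⟩ := (h66_prop_iff hw0).mpr h1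
          obtain ⟨y, hy⟩ := (h66_prop_iff hw0).mpr h
          rw [hx, hy, h66_D_smul_left, h66_D_smul_right, h66_D_self, mul_zero, mul_zero]
    exact hTW H hH2 v hv (fun σ hσ => hσ)
  · -- a third line: `R(N)` consists of scalar matrices
    push Not at hB
    obtain ⟨γ1, hu1, hu2⟩ := hB
    set u := R γ1 *ᵥ v with hu
    have hsc : ∀ σ ∈ N, ∃ a : K, R σ = a • (1 : Matrix (Fin 2) (Fin 2) K) := by
      intro σ hσ
      obtain ⟨a, ha⟩ := hN σ hσ
      obtain ⟨b, hb⟩ := hNst γ0 σ hσ
      obtain ⟨c, hc⟩ := hNst γ1 σ hσ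
      exact ⟨a, h66_three_eigen (R σ) u v w a b c ha hb hc hvw hu2
        (by rw [h66_D_swap]; exact neg_ne_zero.mpr hu1)⟩
    -- commutators are `± 1`
    have hcomm : ∀ a b : Γ, R a * R b = R b * R a ∨ R a * R b = -(R b * R a) := by
      intro a b
      obtain ⟨c, hc⟩ := hsc _ (hab a b)
      have e : R a * R b = c • (R b * R a) := by
        have : a * b = (a * b * a⁻¹ * b⁻¹) * (b * a) := by group
        rw [← map_mul, this, map_mul, hc, Matrix.smul_mul, Matrix.one_mul, map_mul]
      have hc2 : c * c = 1 := by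
        have := congrArg Matrix.det e
        rw [Matrix.det_smul, Matrix.det_mul, Matrix.det_mul, Fintype.card_fin] at this
        have hne : (R b).det * (R a).det ≠ 0 := mul_ne_zero (hdet b) (hdet a)
        have : (c ^ 2 - 1) * ((R b).det * (R a).det) = 0 := by linear_combination -this
        rcases mul_eq_zero.mp this with h | h
        · linear_combination h
        · exact absurd h hne
      have : (c - 1) * (c + 1) = 0 := by linear_combination hc2
      rcases mul_eq_zero.mp this with h | h
      · left; rw [e, sub_eq_zero.mp h, one_smul]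
      · right; rw [e, eq_neg_of_add_eq_zero_left h, neg_smul, one_smul]
    by_cases hall : ∀ a b : Γ, R a * R b = R b * R a
    · -- commutative image: a `Γ`-stable line
      by_cases hs : ∀ γ : Γ, ∃ c : K, R γ = c • (1 : Matrix (Fin 2) (Fin 2) K)
      · apply hGam v hv
        intro γ
        obtain ⟨c, hc⟩ := hs γ
        exact ⟨c, by rw [hc, Matrix.smul_mulVec, Matrix.one_mulVec]⟩
      · push Not at hs
        obtain ⟨a0, ha0⟩ := hs
        obtain ⟨v0, hv0, hcen⟩ := h66_centralizer (R a0) ha0
        exact hGam v0 hv0 (fun γ => hcen (R γ) (hall γ a0))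
    · push Not at hall
      obtain ⟨a0, b0, hne⟩ := hall
      have hanti : R a0 * R b0 = -(R b0 * R a0) := by
        rcases hcomm a0 b0 with h | h
        · exact absurd h hne
        · exact h
      have hanti' : R b0 * R a0 = -(R a0 * R b0) := by rw [hanti, neg_neg]
      -- the centraliser of `R a0`
      let H : Subgroup Γ :=
        { carrier := {γ | R γ * R a0 = R a0 * R γ}
          one_mem' := by
            show R 1 * R a0 = R a0 * R 1
            rw [map_one, Matrix.one_mul, Matrix.mul_one]
          mul_mem' := by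
            intro a b ha hb
            show R (a * b) * R a0 = R a0 * R (a * b)
            have ha' : R a * R a0 = R a0 * R a := ha
            have hb' : R b * R a0 = R a0 * R b := hb
            rw [map_mul, Matrix.mul_assoc, hb', ← Matrix.mul_assoc, ha', Matrix.mul_assoc]
          inv_mem' := by
            intro a ha
            show R a⁻¹ * R a0 = R a0 * R a⁻¹
            have ha' : R a * R a0 = R a0 * R a := ha
            calc R a⁻¹ * R a0 = R a⁻¹ * R a0 * (R a * R a⁻¹) := by rw [hinv, Matrix.mul_one]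
              _ = R a⁻¹ * (R a0 * R a) * R a⁻¹ := by simp only [Matrix.mul_assoc]
              _ = R a⁻¹ * (R a * R a0) * R a⁻¹ := by rw [ha']
              _ = (R a⁻¹ * R a) * R a0 * R a⁻¹ := by simp only [Matrix.mul_assoc]
              _ = R a0 * R a⁻¹ := by rw [hinv', Matrix.one_mul] }
      have hHmem : ∀ γ : Γ, γ ∈ H ↔ R γ * R a0 = R a0 * R γ := fun γ => Iff.rfl
      have hH2 : H.index = 2 := by
        rw [Subgroup.index_eq_two_iff]
        refine ⟨b0, fun b => ?_⟩
        by_cases hb : b ∈ H
        · refine Or.inr ⟨hb, fun hbb => ?_⟩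
          rw [hHmem] at hb hbb
          have e1 : R (b * b0) * R a0 = -(R a0 * R (b * b0)) := by
            rw [map_mul, Matrix.mul_assoc, hanti', Matrix.mul_neg, ← Matrix.mul_assoc, hb,
              Matrix.mul_assoc]
          rw [hbb] at e1
          have e2 : (2 : K) • (R a0 * R (b * b0)) = 0 := by
            rw [two_smul]
            nth_rewrite 1 [e1]
            exact neg_add_cancel _
          rcases smul_eq_zero.mp e2 with h | h
          · exact h2 h
          · have := congrArg Matrix.det h
            rw [Matrix.det_mul, Matrix.det_zero] at this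
            exact mul_ne_zero (hdet a0) (hdet (b * b0)) this
        · refine Or.inl ⟨?_, hb⟩
          rw [hHmem] at hb ⊢
          have hb' : R b * R a0 = -(R a0 * R b) := by
            rcases hcomm b a0 with h | h
            · exact absurd h hb
            · exact h
          rw [map_mul, Matrix.mul_assoc, hanti', Matrix.mul_neg, ← Matrix.mul_assoc, hb',
            neg_mul, neg_neg, Matrix.mul_assoc]
      have hns : ∀ c : K, R a0 ≠ c • (1 : Matrix (Fin 2) (Fin 2) K) := by
        intro c hc
        apply hne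
        rw [hc, Matrix.smul_mul, Matrix.mul_smul, Matrix.one_mul, Matrix.mul_one]
      obtain ⟨v0, hv0, hcen⟩ := h66_centralizer (R a0) hns
      exact hTW H hH2 v0 hv0 (fun σ hσ => hcen (R σ) hσ)

end Fermat.Agent.S56
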