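import Fermat.Agent.S56.h66_Choice
import Fermat.Agent.S56.h66_Clifford

/-!
# S56 / W4 (G7): the abstract Taylor–Wiles lemma (Mathlib only)

Matrix language: `ρ : Γ →* GL (Fin 2) k`, `W` = trace-zero `2 × 2` matrices with the twisted
adjoint action `h66_act g X = det g • g X g⁻¹` (`= ad⁰ ρ̄ (1)` when `det ρ̄` is cyclotomic).

* `h66_act`, `h66_IsCocycle`, `h66_IsCobdry`, `h66_NoLine`, `h66_matK`: definitions.
* `h66_trace_act_sub`, `h66_exists_act_sub`: for regular `g` of determinant one,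
  `(g - 1) W = {Y ∈ W | tr(Y g) = 0}`.
* `h66_noLine_top`, `h66_noLine_base`, `h66_noLine_range`: no `Γ`-stable line (from `hTW`).
* `h66_nondeg`: the trace form is nondegenerate on `ρ(N)` (`N ⊴ Γ` with abelian quotient), i.e.
  `ρ(N)` spans `M₂(k)` (Clifford + Burnside).
* `h66_inv_zero`: `W^Γ = 0`.
* `h66_tw_sigma_trace`, `h66_tw_sigma`, `h66_tw_sigma_of_range`: **(G7)** for a cocycle `c` which
  is not a coboundary there is `σ ∈ N` with `ρ σ` regular and `tr(c σ · ρ σ) ≠ 0`, equivalently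
  `c σ ∉ (σ - 1) W`.
* `h66_hG5_of_range`: the adapter from `(G5)` for the image group `ρ.range`.
-/

set_option autoImplicit false

namespace Fermat.Agent.S56

open Matrix

variable {k : Type*} [Field k]

/-- Twisted adjoint action of `GL₂(k)` on `2 × 2` matrices: `g • X = det g • g X g⁻¹`
(the module `ad⁰ ρ̄ (1)` when `det ρ̄` is the cyclotomic character). -/
def h66_act (g : GL (Fin 2) k) (X : Matrix (Fin 2) (Fin 2) k) : Matrix (Fin 2) (Fin 2) k :=
  ((Matrix.GeneralLinearGroup.det g : kˣ) : k) •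
    ((g : Matrix (Fin 2) (Fin 2) k) * X * ((g⁻¹ : GL (Fin 2) k) : Matrix (Fin 2) (Fin 2) k))

theorem h66_act_one (X : Matrix (Fin 2) (Fin 2) k) : h66_act 1 X = X := by
  simp [h66_act]

theorem h66_act_mul (g h : GL (Fin 2) k) (X : Matrix (Fin 2) (Fin 2) k) :
    h66_act (g * h) X = h66_act g (h66_act h X) := by
  simp only [h66_act, map_mul, Units.val_mul, _root_.mul_inv_rev, Matrix.mul_smul, Matrix.smul_mul,
    smul_smul, Matrix.mul_assoc]

theorem h66_act_zero (g : GL (Fin 2) k) : h66_act g 0 = 0 := by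
  simp [h66_act]

theorem h66_act_add (g : GL (Fin 2) k) (X Y : Matrix (Fin 2) (Fin 2) k) :
    h66_act g (X + Y) = h66_act g X + h66_act g Y := by
  simp only [h66_act, Matrix.mul_add, Matrix.add_mul, smul_add]

theorem h66_act_sub (g : GL (Fin 2) k) (X Y : Matrix (Fin 2) (Fin 2) k) :
    h66_act g (X - Y) = h66_act g X - h66_act g Y := by
  simp only [h66_act, Matrix.mul_sub, Matrix.sub_mul, smul_sub]

theorem h66_act_smul (g : GL (Fin 2) k) (a : k) (X : Matrix (Fin 2) (Fin 2) k) :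
    h66_act g (a • X) = a • h66_act g X := by
  simp only [h66_act, Matrix.mul_smul, Matrix.smul_mul, smul_comm a]

theorem h66_act_trace (g : GL (Fin 2) k) (X : Matrix (Fin 2) (Fin 2) k) :
    (h66_act g X).trace = ((Matrix.GeneralLinearGroup.det g : kˣ) : k) * X.trace := by
  have : (g : Matrix (Fin 2) (Fin 2) k) * X * ((g⁻¹ : GL (Fin 2) k) : Matrix (Fin 2) (Fin 2) k)
      = (g : Matrix (Fin 2) (Fin 2) k) * (X * ((g⁻¹ : GL (Fin 2) k) : Matrix (Fin 2) (Fin 2) k)) :=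
    Matrix.mul_assoc _ _ _
  rw [h66_act, Matrix.trace_smul, smul_eq_mul, this, Matrix.trace_mul_comm, Matrix.mul_assoc]
  have h1 : ((g⁻¹ : GL (Fin 2) k) : Matrix (Fin 2) (Fin 2) k) * (g : Matrix (Fin 2) (Fin 2) k) = 1 :=
    Units.inv_mul g
  rw [h1, Matrix.mul_one]

/-- the action of an element of determinant one is conjugation, written with the adjugate. -/
theorem h66_act_of_det_one (g : GL (Fin 2) k) (hg : Matrix.GeneralLinearGroup.det g = 1)
    (X : Matrix (Fin 2) (Fin 2) k) :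
    h66_act g X = (g : Matrix (Fin 2) (Fin 2) k) * X * (g : Matrix (Fin 2) (Fin 2) k).adjugate := by
  have hd : (g : Matrix (Fin 2) (Fin 2) k).det = 1 := by
    have := congrArg (fun u : kˣ => (u : k)) hg
    simpa using this
  have h1 : ((g⁻¹ : GL (Fin 2) k) : Matrix (Fin 2) (Fin 2) k) * (g : Matrix (Fin 2) (Fin 2) k) = 1 :=
    Units.inv_mul g
  have h2 : (g : Matrix (Fin 2) (Fin 2) k) * (g : Matrix (Fin 2) (Fin 2) k).adjugate = 1 := by
    rw [Matrix.mul_adjugate, hd, one_smul]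
  have h3 : ((g⁻¹ : GL (Fin 2) k) : Matrix (Fin 2) (Fin 2) k)
      = (g : Matrix (Fin 2) (Fin 2) k).adjugate := by
    calc ((g⁻¹ : GL (Fin 2) k) : Matrix (Fin 2) (Fin 2) k)
        = ((g⁻¹ : GL (Fin 2) k) : Matrix (Fin 2) (Fin 2) k)
            * ((g : Matrix (Fin 2) (Fin 2) k) * (g : Matrix (Fin 2) (Fin 2) k).adjugate) := by
          rw [h2, Matrix.mul_one]
      _ = (g : Matrix (Fin 2) (Fin 2) k).adjugate := by
          rw [← Matrix.mul_assoc, h1, Matrix.one_mul]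
  rw [h66_act, hg, Units.val_one, one_smul, h3]

/-- elements of `(g - 1) W` are orthogonal to `g` (for `det g = 1`). -/
theorem h66_trace_act_sub (g : GL (Fin 2) k) (hg : Matrix.GeneralLinearGroup.det g = 1)
    (Y : Matrix (Fin 2) (Fin 2) k) :
    ((h66_act g Y - Y) * (g : Matrix (Fin 2) (Fin 2) k)).trace = 0 := by
  have hd : (g : Matrix (Fin 2) (Fin 2) k).det = 1 := by
    have := congrArg (fun u : kˣ => (u : k)) hg
    simpa using this
  rw [h66_act_of_det_one g hg, Matrix.sub_mul, Matrix.trace_sub, Matrix.mul_assoc,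
    Matrix.adjugate_mul, hd, one_smul, Matrix.mul_one, Matrix.trace_mul_comm, sub_self]

/-- polarised Cayley–Hamilton for `2 × 2` matrices. -/
theorem h66_polar (A B : Matrix (Fin 2) (Fin 2) k) :
    A * B + B * A = A.trace • B + B.trace • A
      + ((A * B).trace - A.trace * B.trace) • (1 : Matrix (Fin 2) (Fin 2) k) := by
  ext i j
  fin_cases i <;> fin_cases j <;>
    simp [Matrix.mul_apply, Fin.sum_univ_two, Matrix.trace_fin_two] <;> ring

/-- for a regular `g` of determinant one, `(g - 1) W` is exactly the space of trace-zero matrices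
orthogonal to `g`. -/
theorem h66_exists_act_sub (g : GL (Fin 2) k) (hg : Matrix.GeneralLinearGroup.det g = 1)
    (hreg : ((g : Matrix (Fin 2) (Fin 2) k).trace) ^ 2 ≠ 4)
    (Y : Matrix (Fin 2) (Fin 2) k) (hY : Y.trace = 0)
    (hYg : (Y * (g : Matrix (Fin 2) (Fin 2) k)).trace = 0) :
    ∃ Z : Matrix (Fin 2) (Fin 2) k, Z.trace = 0 ∧ Y = h66_act g Z - Z := by
  set A : Matrix (Fin 2) (Fin 2) k := (g : Matrix (Fin 2) (Fin 2) k) with hA
  set t : k := A.trace with ht
  have hd : A.det = 1 := by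
    have := congrArg (fun u : kˣ => (u : k)) hg
    simpa using this
  have hne : t ^ 2 - 4 ≠ 0 := sub_ne_zero.mpr hreg
  have hAA : A * A = t • A - 1 := by rw [h66_cayley, hd, one_smul]
  have hadj : A.adjugate = t • (1 : Matrix (Fin 2) (Fin 2) k) - A := h66_adj_eq A
  -- for trace-zero `X` orthogonal to `A`: `X A = t X - A X`, hence `A X adj(A) = t A X - X`
  have hconj : ∀ X : Matrix (Fin 2) (Fin 2) k, X.trace = 0 → (X * A).trace = 0 →
      A * X * A.adjugate = t • (A * X) - X := by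
    intro X hX hXA
    have hp := h66_polar A X
    rw [hX, Matrix.trace_mul_comm, hXA] at hp
    simp only [zero_smul, add_zero, mul_zero, sub_zero] at hp
    have hXA' : X * A = t • X - A * X := by rw [← hp]; abel
    rw [hadj, Matrix.mul_sub, Matrix.mul_smul, Matrix.mul_one, Matrix.mul_assoc, hXA',
      Matrix.mul_sub, Matrix.mul_smul, ← Matrix.mul_assoc, hAA, Matrix.sub_mul, Matrix.smul_mul,
      Matrix.one_mul]
    abel
  refine ⟨(t ^ 2 - 4)⁻¹ • (t • (A * Y) - (t ^ 2 - 2) • Y), ?_, ?_⟩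
  · rw [Matrix.trace_smul, Matrix.trace_sub, Matrix.trace_smul, Matrix.trace_smul,
      Matrix.trace_mul_comm, hYg, hY]
    simp
  · have hAY : (A * Y).trace = 0 := by rw [Matrix.trace_mul_comm]; exact hYg
    have hAYA : ((A * Y) * A).trace = 0 := by
      rw [Matrix.mul_assoc, Matrix.trace_mul_comm, Matrix.mul_assoc, hAA, Matrix.mul_sub,
        Matrix.mul_smul, Matrix.mul_one, Matrix.trace_sub, Matrix.trace_smul, hYg, hY]
      simp
    have c1 : A * Y * A.adjugate = t • (A * Y) - Y := hconj Y hY hYg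
    have c2 : A * (A * Y) * A.adjugate = t • (A * (A * Y)) - A * Y := hconj (A * Y) hAY hAYA
    have hAAY : A * (A * Y) = t • (A * Y) - Y := by
      rw [← Matrix.mul_assoc, hAA, Matrix.sub_mul, Matrix.smul_mul, Matrix.one_mul]
    have hZ0 : A * (t • (A * Y) - (t ^ 2 - 2) • Y) * A.adjugate
        - (t • (A * Y) - (t ^ 2 - 2) • Y) = (t ^ 2 - 4) • Y := by
      rw [Matrix.mul_sub, Matrix.sub_mul, Matrix.mul_smul, Matrix.smul_mul, Matrix.mul_smul,
        Matrix.smul_mul, c2, c1, hAAY]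
      module
    rw [h66_act_of_det_one g hg, ← hA, Matrix.mul_smul, Matrix.smul_mul, ← smul_sub, hZ0,
      smul_smul, inv_mul_cancel₀ hne, one_smul]

/-- `1`-cocycles of `Γ` with values in the trace-zero matrices with the twisted adjoint action. -/
def h66_IsCocycle {Γ : Type*} [Group Γ] (ρ : Γ →* GL (Fin 2) k)
    (c : Γ → Matrix (Fin 2) (Fin 2) k) : Prop :=
  (∀ γ, (c γ).trace = 0) ∧ ∀ γ δ, c (γ * δ) = c γ + h66_act (ρ γ) (c δ)

/-- `1`-coboundaries. -/
def h66_IsCobdry {Γ : Type*} [Group Γ] (ρ : Γ →* GL (Fin 2) k)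
    (c : Γ → Matrix (Fin 2) (Fin 2) k) : Prop :=
  ∃ w : Matrix (Fin 2) (Fin 2) k, w.trace = 0 ∧ ∀ γ, c γ = h66_act (ρ γ) w - w

/-- the matrices of `ρ` over an extension field `K`. -/
def h66_matK {Γ : Type*} [Group Γ] (ρ : Γ →* GL (Fin 2) k) (K : Type*) [Field K] [Algebra k K] :
    Γ →* Matrix (Fin 2) (Fin 2) K :=
  ((algebraMap k K).mapMatrix : Matrix (Fin 2) (Fin 2) k →+* Matrix (Fin 2) (Fin 2) K).toMonoidHom.comp
    ((Units.coeHom (Matrix (Fin 2) (Fin 2) k)).comp ρ)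

theorem h66_matK_apply {Γ : Type*} [Group Γ] (ρ : Γ →* GL (Fin 2) k) (K : Type*) [Field K]
    [Algebra k K] (γ : Γ) :
    h66_matK ρ K γ = ((ρ γ : GL (Fin 2) k) : Matrix (Fin 2) (Fin 2) k).map (algebraMap k K) := rfl

/-- no common eigenvector over the extension `K` for the image of a subgroup. -/
def h66_NoLine {Γ : Type*} [Group Γ] (ρ : Γ →* GL (Fin 2) k) (K : Type*) [Field K] [Algebra k K]
    (H : Subgroup Γ) : Prop :=
  ∀ v : Fin 2 → K, v ≠ 0 →
    ¬ ∀ σ ∈ H, ∃ a : K, ((ρ σ : Matrix (Fin 2) (Fin 2) k).map (algebraMap k K)) *ᵥ v = a • v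

theorem h66_cocycle_one {Γ : Type*} [Group Γ] {ρ : Γ →* GL (Fin 2) k}
    {c : Γ → Matrix (Fin 2) (Fin 2) k} (hc : h66_IsCocycle ρ c) : c 1 = 0 := by
  have := hc.2 1 1
  rw [mul_one, map_one, h66_act_one] at this
  exact left_eq_add.mp this

theorem h66_cocycle_conj {Γ : Type*} [Group Γ] {ρ : Γ →* GL (Fin 2) k}
    {c : Γ → Matrix (Fin 2) (Fin 2) k} (hc : h66_IsCocycle ρ c) (γ h : Γ) (hh : ρ h = 1) :
    c (γ * h * γ⁻¹) = h66_act (ρ γ) (c h) := by
  have h1 : c (γ * γ⁻¹) = c γ + h66_act (ρ γ) (c γ⁻¹) := hc.2 γ γ⁻¹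
  rw [mul_inv_cancel, h66_cocycle_one hc] at h1
  rw [hc.2 (γ * h) γ⁻¹, hc.2 γ h, map_mul, hh, mul_one]
  rw [add_assoc, add_comm (h66_act (ρ γ) (c h)), ← add_assoc, ← h1, zero_add]

section consequences

variable {K : Type*} [Field K] [Algebra k K] {Γ : Type*} [Group Γ]

theorem h66_two_ne_zero_of (h2 : (2 : k) ≠ 0) (K : Type*) [Field K] [Algebra k K] :
    (2 : K) ≠ 0 := by
  intro h
  apply h2
  apply (algebraMap k K).injective
  rw [map_ofNat, map_zero, h]

/-- no `Γ`-stable line over `K`. -/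
theorem h66_noLine_top (ρ : Γ →* GL (Fin 2) k)
    (hTW : ∀ H : Subgroup Γ, H.index = 2 → h66_NoLine ρ K H)
    (hidx : ∃ H : Subgroup Γ, H.index = 2) (v : Fin 2 → K) (hv : v ≠ 0) :
    ¬ ∀ γ : Γ, ∃ a : K, h66_matK ρ K γ *ᵥ v = a • v := by
  intro h
  obtain ⟨H, hH⟩ := hidx
  exact hTW H hH v hv (fun σ _ => h σ)

/-- no `Γ`-stable line over `k`. -/
theorem h66_noLine_base (ρ : Γ →* GL (Fin 2) k)
    (hTW : ∀ H : Subgroup Γ, H.index = 2 → h66_NoLine ρ K H)
    (hidx : ∃ H : Subgroup Γ, H.index = 2) (v : Fin 2 → k) (hv : v ≠ 0) :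
    ¬ ∀ γ : Γ, ∃ a : k, (ρ γ : Matrix (Fin 2) (Fin 2) k) *ᵥ v = a • v := by
  intro h
  apply h66_noLine_top ρ hTW hidx (algebraMap k K ∘ v)
  · intro h0
    apply hv
    ext i
    have := congrFun h0 i
    simp only [Function.comp_apply, Pi.zero_apply] at this
    exact (map_eq_zero (algebraMap k K)).mp this
  · intro γ
    obtain ⟨a, ha⟩ := h γ
    refine ⟨algebraMap k K a, ?_⟩
    ext i
    rw [h66_matK_apply, ← RingHom.map_mulVec, ha]
    simp

/-- the trace form is nondegenerate on the image of a normal subgroup with abelian quotient. -/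
theorem h66_nondeg [IsAlgClosed K] (h2 : (2 : k) ≠ 0) (ρ : Γ →* GL (Fin 2) k)
    (hTW : ∀ H : Subgroup Γ, H.index = 2 → h66_NoLine ρ K H)
    (hidx : ∃ H : Subgroup Γ, H.index = 2)
    (N : Subgroup Γ) [N.Normal] (hab : ∀ a b : Γ, a * b * a⁻¹ * b⁻¹ ∈ N)
    (X : Matrix (Fin 2) (Fin 2) k)
    (hX : ∀ σ ∈ N, (X * (ρ σ : Matrix (Fin 2) (Fin 2) k)).trace = 0) : X = 0 := by
  by_contra hX0
  have hXK : X.map (algebraMap k K) ≠ 0 := by
    intro h
    apply hX0
    ext i j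
    have := congrFun (congrFun h i) j
    simp only [Matrix.map_apply, Matrix.zero_apply] at this
    exact (map_eq_zero (algebraMap k K)).mp this
  obtain ⟨v, hv, hvN⟩ := h66_burnside (K := K) (h66_matK ρ K '' (N : Set Γ))
    ⟨1, N.one_mem, map_one _⟩
    (by
      rintro _ ⟨a, ha, rfl⟩ _ ⟨b, hb, rfl⟩
      exact ⟨a * b, N.mul_mem ha hb, map_mul _ _ _⟩)
    (X.map (algebraMap k K)) hXK
    (by
      rintro _ ⟨σ, hσ, rfl⟩
      rw [h66_matK_apply, ← Matrix.map_mul]
      have := hX σ hσ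
      rw [Matrix.trace_fin_two] at this ⊢
      simp only [Matrix.map_apply]
      rw [← map_add, this, map_zero])
  exact h66_clifford (h66_two_ne_zero_of h2 K) (h66_matK ρ K) hTW hidx N hab v hv
    (fun σ hσ => hvN _ ⟨σ, hσ, rfl⟩)

/-- **`W^G = 0`**: no nonzero trace-zero matrix is fixed by the twisted adjoint action. -/
theorem h66_inv_zero [IsAlgClosed K] (h2 : (2 : k) ≠ 0) (ρ : Γ →* GL (Fin 2) k)
    (hTW : ∀ H : Subgroup Γ, H.index = 2 → h66_NoLine ρ K H)
    (hidx : ∃ H : Subgroup Γ, H.index = 2)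
    (w : Matrix (Fin 2) (Fin 2) k) (hw : w.trace = 0) (hinv : ∀ γ, h66_act (ρ γ) w = w) :
    w = 0 := by
  by_contra hw0
  -- `w * A γ = d γ • (A γ * w)`
  have hstar : ∀ γ : Γ, w * (ρ γ : Matrix (Fin 2) (Fin 2) k)
      = ((Matrix.GeneralLinearGroup.det (ρ γ) : kˣ) : k) • ((ρ γ : Matrix (Fin 2) (Fin 2) k) * w) := by
    intro γ
    have h1 : (((ρ γ)⁻¹ : GL (Fin 2) k) : Matrix (Fin 2) (Fin 2) k)
        * ((ρ γ : GL (Fin 2) k) : Matrix (Fin 2) (Fin 2) k) = 1 := Units.inv_mul (ρ γ)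
    have := congrArg (fun Y => Y * ((ρ γ : GL (Fin 2) k) : Matrix (Fin 2) (Fin 2) k)) (hinv γ)
    simp only [h66_act, Matrix.smul_mul, Matrix.mul_assoc, h1, Matrix.mul_one] at this
    exact this.symm
  by_cases hd : w.det = 0
  · -- `ker w` is a stable line
    have ww : w * w = 0 := by rw [h66_cayley, hw, hd]; simp
    obtain ⟨j, hj⟩ : ∃ j, w *ᵥ Pi.single j 1 ≠ 0 := by
      by_contra hno
      push Not at hno
      apply hw0
      ext i j
      have := congrFun (hno j) i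
      rw [Matrix.mulVec_single_one] at this
      simpa using this
    apply h66_noLine_base (K := K) ρ hTW hidx (w *ᵥ Pi.single j 1) hj
    intro γ
    apply (h66_prop_iff hj).mpr
    apply h66_ker_line w hw0
    · rw [Matrix.mulVec_mulVec, Matrix.mulVec_mulVec, hstar γ, Matrix.smul_mul,
        Matrix.mul_assoc, ww, Matrix.mul_zero, smul_zero, Matrix.zero_mulVec]
    · rw [Matrix.mulVec_mulVec, ww, Matrix.zero_mulVec]
  · -- `det (ρ γ) = ± 1` and the kernel of `det ∘ ρ` centralises `w`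
    have hdd : ∀ γ : Γ, ((Matrix.GeneralLinearGroup.det (ρ γ) : kˣ) : k) = 1 ∨
        ((Matrix.GeneralLinearGroup.det (ρ γ) : kˣ) : k) = -1 := by
      intro γ
      have h1 := congrArg Matrix.det (hstar γ)
      rw [Matrix.det_mul, Matrix.det_smul, Matrix.det_mul, Fintype.card_fin] at h1
      have hA : ((ρ γ : GL (Fin 2) k) : Matrix (Fin 2) (Fin 2) k).det ≠ 0 :=
        Matrix.GeneralLinearGroup.det_ne_zero (ρ γ)
      set d := ((Matrix.GeneralLinearGroup.det (ρ γ) : kˣ) : k) with hdef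
      have h3 : (d ^ 2 - 1) * (w.det * ((ρ γ : GL (Fin 2) k) : Matrix (Fin 2) (Fin 2) k).det) = 0 := by
        linear_combination -h1
      have h4 : (d - 1) * (d + 1) = 0 := by
        rcases mul_eq_zero.mp h3 with h | h
        · linear_combination h
        · exact absurd h (mul_ne_zero hd hA)
      rcases mul_eq_zero.mp h4 with h | h
      · left; exact sub_eq_zero.mp h
      · right; exact eq_neg_of_add_eq_zero_left h
    have hns : ∀ c : K, w.map (algebraMap k K) ≠ c • (1 : Matrix (Fin 2) (Fin 2) K) := by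
      intro c hc
      have h00 := congrFun (congrFun hc 0) 0
      have h11 := congrFun (congrFun hc 1) 1
      have h01 := congrFun (congrFun hc 0) 1
      have h10 := congrFun (congrFun hc 1) 0
      simp only [Matrix.map_apply, Matrix.smul_apply, Matrix.one_apply_eq, smul_eq_mul, mul_one,
        ne_eq, zero_ne_one, one_ne_zero, not_false_eq_true, Matrix.one_apply_ne, mul_zero]
        at h00 h11 h01 h10
      rw [Matrix.trace_fin_two] at hw
      have hc0 : c = 0 := by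
        have : (2 : K) * c = 0 := by
          have := congrArg (algebraMap k K) hw
          rw [map_add, map_zero, h00, h11] at this
          linear_combination this
        rcases mul_eq_zero.mp this with h | h
        · exact absurd h (h66_two_ne_zero_of h2 K)
        · exact h
      apply hw0
      ext i j
      have hinj : ∀ x : k, algebraMap k K x = 0 → x = 0 := fun x => (map_eq_zero (algebraMap k K)).mp
      fin_cases i <;> fin_cases j
      · exact hinj _ (h00.trans hc0)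
      · exact hinj _ h01
      · exact hinj _ h10
      · exact hinj _ (h11.trans hc0)
    obtain ⟨v0, hv0, hcen⟩ := h66_centralizer (w.map (algebraMap k K)) hns
    have hcomm : ∀ γ : Γ, ((Matrix.GeneralLinearGroup.det (ρ γ) : kˣ) : k) = 1 →
        h66_matK ρ K γ * w.map (algebraMap k K) = w.map (algebraMap k K) * h66_matK ρ K γ := by
      intro γ hγ
      have := hstar γ
      rw [hγ, one_smul] at this
      rw [h66_matK_apply, ← Matrix.map_mul, ← Matrix.map_mul, this]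
    by_cases hall : ∀ γ : Γ, ((Matrix.GeneralLinearGroup.det (ρ γ) : kˣ) : k) = 1
    · exact h66_noLine_top ρ hTW hidx v0 hv0 (fun γ => hcen _ (hcomm γ (hall γ)))
    · push Not at hall
      obtain ⟨γ1, hγ1⟩ := hall
      have hγ1' : ((Matrix.GeneralLinearGroup.det (ρ γ1) : kˣ) : k) = -1 := by
        rcases hdd γ1 with h | h
        · exact absurd h hγ1
        · exact h
      let H : Subgroup Γ := (Matrix.GeneralLinearGroup.det.comp ρ).ker
      have hHmem : ∀ γ : Γ, γ ∈ H ↔ ((Matrix.GeneralLinearGroup.det (ρ γ) : kˣ) : k) = 1 := by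
        intro γ
        rw [MonoidHom.mem_ker, MonoidHom.comp_apply]
        constructor
        · intro h; rw [h]; rfl
        · intro h; exact Units.ext h
      have hH2 : H.index = 2 := by
        rw [Subgroup.index_eq_two_iff]
        refine ⟨γ1, fun b => ?_⟩
        have hb1 : ((Matrix.GeneralLinearGroup.det (ρ (b * γ1)) : kˣ) : k)
            = -((Matrix.GeneralLinearGroup.det (ρ b) : kˣ) : k) := by
          rw [map_mul, map_mul, Units.val_mul, hγ1', mul_neg, mul_one]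
        have hne : (1 : k) ≠ -1 := by
          intro h
          apply h2
          linear_combination h
        by_cases hb : b ∈ H
        · refine Or.inr ⟨hb, fun hbb => ?_⟩
          rw [hHmem] at hb hbb
          rw [hb1, hb] at hbb
          exact hne hbb.symm
        · refine Or.inl ⟨?_, hb⟩
          rw [hHmem] at hb ⊢
          rcases hdd b with h | h
          · exact absurd h hb
          · rw [hb1, h, neg_neg]
      exact hTW H hH2 v0 hv0 (fun σ hσ => hcen _ (hcomm σ ((hHmem σ).mp hσ)))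

end consequences

section main

variable {Γ : Type*} [Group Γ]

/-- **(G7) the abstract Taylor–Wiles lemma.**  `ρ : Γ → GL₂(k)` (`char k ≠ 2`) such that no
subgroup of index two has a common eigenvector over the algebraically closed extension `K`
(the frozen `hTW`), `Γ` has a subgroup of index two, `N ⊴ Γ` with abelian quotient and
`det ρ = 1` on `N`.  If the cocycles of `Γ` in `ad⁰(1)` which vanish on `ker ρ` are coboundaries
(`hG5`), then for every cocycle `c` which is not a coboundary there is `σ ∈ N` with `ρ σ` regular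
semisimple (`tr² ≠ 4`, `det = 1`) such that `c σ ∉ (σ - 1) W`, i.e. the restriction of `c` to
the cyclic group generated by `σ` is not a coboundary. -/
theorem h66_tw_sigma_trace (h2 : (2 : k) ≠ 0) (K : Type*) [Field K] [Algebra k K] [IsAlgClosed K]
    (ρ : Γ →* GL (Fin 2) k)
    (hTW : ∀ H : Subgroup Γ, H.index = 2 → h66_NoLine ρ K H)
    (hidx : ∃ H : Subgroup Γ, H.index = 2)
    (N : Subgroup Γ) [hNn : N.Normal] (hab : ∀ a b : Γ, a * b * a⁻¹ * b⁻¹ ∈ N)
    (hdetN : ∀ σ ∈ N, Matrix.GeneralLinearGroup.det (ρ σ) = 1)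
    (hG5 : ∀ c, h66_IsCocycle ρ c → (∀ h, ρ h = 1 → c h = 0) → h66_IsCobdry ρ c)
    (c : Γ → Matrix (Fin 2) (Fin 2) k) (hc : h66_IsCocycle ρ c) (hnc : ¬ h66_IsCobdry ρ c) :
    ∃ σ ∈ N, ((ρ σ : Matrix (Fin 2) (Fin 2) k).trace) ^ 2 ≠ 4 ∧
      (c σ * (ρ σ : Matrix (Fin 2) (Fin 2) k)).trace ≠ 0 := by
  by_cases hker : ∀ h, ρ h = 1 → h ∈ N → c h = 0
  · -- then `c` vanishes on `ker ρ` and is a coboundary
    exfalso
    apply hnc
    apply hG5 c hc
    intro h hh
    apply h66_inv_zero (K := K) h2 ρ hTW hidx (c h) (hc.1 h)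
    intro γ
    have e1 : c (γ * h * γ⁻¹) = h66_act (ρ γ) (c h) := h66_cocycle_conj hc γ h hh
    have hk : ρ (γ * h * γ⁻¹ * h⁻¹) = 1 := by
      rw [map_mul, map_mul, map_mul, map_inv, map_inv, hh]
      simp
    have e2 : c (γ * h * γ⁻¹ * h⁻¹) = 0 := hker _ hk (hab γ h)
    have e3 : c (γ * h * γ⁻¹) = c h := by
      have : γ * h * γ⁻¹ = (γ * h * γ⁻¹ * h⁻¹) * h := by group
      rw [this, hc.2, e2, hk, h66_act_one, zero_add]
    rw [← e1, e3]
  · push Not at hker
    obtain ⟨τ0, hτ0, hτ0N, hcτ0⟩ := hker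
    -- the span of the values of `c` on `ker ρ ∩ N`
    let V : Submodule k (Matrix (Fin 2) (Fin 2) k) :=
      Submodule.span k {Y | ∃ h, ρ h = 1 ∧ h ∈ N ∧ Y = c h}
    have hV0 : V ≠ ⊥ := by
      intro h
      have : c τ0 ∈ V := Submodule.subset_span ⟨τ0, hτ0, hτ0N, rfl⟩
      rw [h, Submodule.mem_bot] at this
      exact hcτ0 this
    have hVtr : ∀ X ∈ V, X.trace = 0 := by
      intro X hX
      induction hX using Submodule.span_induction with
      | mem Y hY =>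
        obtain ⟨h, -, -, rfl⟩ := hY
        exact hc.1 h
      | zero => exact Matrix.trace_zero _ _
      | add Y Z _ _ hY hZ => rw [Matrix.trace_add, hY, hZ, add_zero]
      | smul a Y _ hY => rw [Matrix.trace_smul, hY, smul_zero]
    let S : Set (Matrix (Fin 2) (Fin 2) k) :=
      {B | ∃ σ ∈ N, B = (ρ σ : Matrix (Fin 2) (Fin 2) k)}
    have hSdet : ∀ a ∈ S, a.det = 1 := by
      rintro _ ⟨σ, hσ, rfl⟩
      have := congrArg (fun u : kˣ => (u : k)) (hdetN σ hσ)
      simpa using this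
    have hSmul : ∀ a ∈ S, ∀ b ∈ S, a * b ∈ S := by
      rintro _ ⟨σ, hσ, rfl⟩ _ ⟨τ, hτ, rfl⟩
      exact ⟨σ * τ, N.mul_mem hσ hτ, by rw [map_mul, Units.val_mul]⟩
    have hSadj : ∀ a ∈ S, a.adjugate ∈ S := by
      rintro _ ⟨σ, hσ, rfl⟩
      refine ⟨σ⁻¹, N.inv_mem hσ, ?_⟩
      have hd : ((ρ σ : GL (Fin 2) k) : Matrix (Fin 2) (Fin 2) k).det = 1 :=
        hSdet _ ⟨σ, hσ, rfl⟩
      have h1 : ((ρ σ⁻¹ : GL (Fin 2) k) : Matrix (Fin 2) (Fin 2) k)
          * ((ρ σ : GL (Fin 2) k) : Matrix (Fin 2) (Fin 2) k) = 1 := by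
        rw [← Units.val_mul, ← map_mul, inv_mul_cancel, map_one, Units.val_one]
      have h2' : ((ρ σ : GL (Fin 2) k) : Matrix (Fin 2) (Fin 2) k)
          * ((ρ σ : GL (Fin 2) k) : Matrix (Fin 2) (Fin 2) k).adjugate = 1 := by
        rw [Matrix.mul_adjugate, hd, one_smul]
      calc ((ρ σ : GL (Fin 2) k) : Matrix (Fin 2) (Fin 2) k).adjugate
          = ((ρ σ⁻¹ : GL (Fin 2) k) : Matrix (Fin 2) (Fin 2) k)
              * (((ρ σ : GL (Fin 2) k) : Matrix (Fin 2) (Fin 2) k)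
                * ((ρ σ : GL (Fin 2) k) : Matrix (Fin 2) (Fin 2) k).adjugate) := by
            rw [← Matrix.mul_assoc, h1, Matrix.one_mul]
        _ = ((ρ σ⁻¹ : GL (Fin 2) k) : Matrix (Fin 2) (Fin 2) k) := by rw [h2', Matrix.mul_one]
    have hSnd : ∀ X : Matrix (Fin 2) (Fin 2) k, (∀ Y ∈ S, (X * Y).trace = 0) → X = 0 := by
      intro X hX
      exact h66_nondeg (K := K) h2 ρ hTW hidx N hab X (fun σ hσ => hX _ ⟨σ, hσ, rfl⟩)
    have hVst : ∀ a ∈ S, ∀ X ∈ V, a * X * a.adjugate ∈ V := by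
      rintro _ ⟨σ, hσ, rfl⟩ X hX
      induction hX using Submodule.span_induction with
      | mem Y hY =>
        obtain ⟨h, hh, hhN, rfl⟩ := hY
        rw [← h66_act_of_det_one (ρ σ) (hdetN σ hσ), ← h66_cocycle_conj hc σ h hh]
        refine Submodule.subset_span ⟨σ * h * σ⁻¹, ?_, hNn.conj_mem h hhN σ, rfl⟩
        rw [map_mul, map_mul, hh, mul_one, ← map_mul, mul_inv_cancel, map_one]
      | zero => rw [Matrix.mul_zero, Matrix.zero_mul]; exact V.zero_mem
      | add Y Z _ _ hY hZ => rw [Matrix.mul_add, Matrix.add_mul]; exact V.add_mem hY hZ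
      | smul a Y _ hY => rw [Matrix.mul_smul, Matrix.smul_mul]; exact V.smul_mem a hY
    obtain ⟨g, ⟨σ0, hσ0, rfl⟩, hreg, X, hXV, hXg⟩ :=
      h66_choice h2 S hSmul hSadj hSdet hSnd V hV0 hVtr hVst
    -- an element `τ` of `ker ρ ∩ N` with `tr(c τ · ρ σ0) ≠ 0`
    obtain ⟨τ, hτ1, hτN, hτ⟩ : ∃ τ, ρ τ = 1 ∧ τ ∈ N ∧
        (c τ * (ρ σ0 : Matrix (Fin 2) (Fin 2) k)).trace ≠ 0 := by
      by_contra hno
      push Not at hno
      have hall : ∀ Z ∈ V, (Z * (ρ σ0 : Matrix (Fin 2) (Fin 2) k)).trace = 0 := by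
        intro Z hZ
        induction hZ using Submodule.span_induction with
        | mem Y hY =>
          obtain ⟨h, hh, hhN, rfl⟩ := hY
          exact hno h hh hhN
        | zero => rw [Matrix.zero_mul, Matrix.trace_zero]
        | add Y Z _ _ hY hZ => rw [Matrix.add_mul, Matrix.trace_add, hY, hZ, add_zero]
        | smul a Y _ hY => rw [Matrix.smul_mul, Matrix.trace_smul, hY, smul_zero]
      exact hXg (hall X hXV)
    by_cases h0 : (c σ0 * (ρ σ0 : Matrix (Fin 2) (Fin 2) k)).trace = 0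
    · have hρ : ρ (τ * σ0) = ρ σ0 := by rw [map_mul, hτ1, one_mul]
      refine ⟨τ * σ0, N.mul_mem hτN hσ0, by rw [hρ]; exact hreg, ?_⟩
      have e0 : c (τ * σ0) = c τ + c σ0 := by rw [hc.2, hτ1, h66_act_one]
      rw [hρ, e0, Matrix.add_mul, Matrix.trace_add, h0, add_zero]
      exact hτ
    · exact ⟨σ0, hσ0, hreg, h0⟩

/-- **(G7)**, conclusion in the form `c σ ∉ (σ - 1) W`: the restriction of `c` to the cyclic group
generated by `σ` is not a coboundary. -/
theorem h66_tw_sigma (h2 : (2 : k) ≠ 0) (K : Type*) [Field K] [Algebra k K] [IsAlgClosed K]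
    (ρ : Γ →* GL (Fin 2) k)
    (hTW : ∀ H : Subgroup Γ, H.index = 2 → h66_NoLine ρ K H)
    (hidx : ∃ H : Subgroup Γ, H.index = 2)
    (N : Subgroup Γ) [hNn : N.Normal] (hab : ∀ a b : Γ, a * b * a⁻¹ * b⁻¹ ∈ N)
    (hdetN : ∀ σ ∈ N, Matrix.GeneralLinearGroup.det (ρ σ) = 1)
    (hG5 : ∀ c, h66_IsCocycle ρ c → (∀ h, ρ h = 1 → c h = 0) → h66_IsCobdry ρ c)
    (c : Γ → Matrix (Fin 2) (Fin 2) k) (hc : h66_IsCocycle ρ c) (hnc : ¬ h66_IsCobdry ρ c) :
    ∃ σ ∈ N, ((ρ σ : Matrix (Fin 2) (Fin 2) k).trace) ^ 2 ≠ 4 ∧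
      ∀ Y : Matrix (Fin 2) (Fin 2) k, Y.trace = 0 → c σ ≠ h66_act (ρ σ) Y - Y := by
  obtain ⟨σ, hσ, hreg, htr⟩ := h66_tw_sigma_trace h2 K ρ hTW hidx N hab hdetN hG5 c hc hnc
  refine ⟨σ, hσ, hreg, fun Y _ hcY => htr ?_⟩
  rw [hcY]
  exact h66_trace_act_sub (ρ σ) (hdetN σ hσ) Y

/-- the adapter for `hG5`: a statement about cocycles on the image group `ρ.range`
(the shape of `(G5)`: functions on `GL₂(k)` satisfying the cocycle identity on the subgroup)
gives the hypothesis `hG5` of `h66_tw_sigma`. -/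
theorem h66_hG5_of_range (ρ : Γ →* GL (Fin 2) k)
    (hG5 : ∀ c' : GL (Fin 2) k → Matrix (Fin 2) (Fin 2) k,
      (∀ g ∈ ρ.range, (c' g).trace = 0) →
      (∀ g ∈ ρ.range, ∀ h ∈ ρ.range, c' (g * h) = c' g + h66_act g (c' h)) →
      ∃ w : Matrix (Fin 2) (Fin 2) k, w.trace = 0 ∧ ∀ g ∈ ρ.range, c' g = h66_act g w - w)
    (c : Γ → Matrix (Fin 2) (Fin 2) k) (hc : h66_IsCocycle ρ c)
    (hker : ∀ h, ρ h = 1 → c h = 0) : h66_IsCobdry ρ c := by
  classical
  -- `c` is constant on the fibres of `ρ`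
  have hfib : ∀ γ δ : Γ, ρ γ = ρ δ → c γ = c δ := by
    intro γ δ h
    have h1 : ρ (γ⁻¹ * δ) = 1 := by rw [map_mul, map_inv, h, inv_mul_cancel]
    have : δ = γ * (γ⁻¹ * δ) := by group
    rw [this, hc.2, hker _ h1, h66_act_zero, add_zero]
  let c' : GL (Fin 2) k → Matrix (Fin 2) (Fin 2) k :=
    fun g => if h : ∃ γ, ρ γ = g then c h.choose else 0
  have hc' : ∀ γ, c' (ρ γ) = c γ := by
    intro γ
    have h : ∃ δ, ρ δ = ρ γ := ⟨γ, rfl⟩
    show (if h : ∃ δ, ρ δ = ρ γ then c h.choose else 0) = c γ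
    rw [dif_pos h]
    exact hfib _ _ h.choose_spec
  obtain ⟨w, hw, hcw⟩ := hG5 c'
    (by rintro _ ⟨γ, rfl⟩; rw [hc']; exact hc.1 γ)
    (by
      rintro _ ⟨γ, rfl⟩ _ ⟨δ, rfl⟩
      rw [← map_mul, hc', hc', hc', hc.2])
  exact ⟨w, hw, fun γ => by rw [← hc' γ]; exact hcw _ ⟨γ, rfl⟩⟩

/-- no line of `k²` is stable under the image group `ρ.range` (the hypothesis `hline` of `(G5)`
for `G = ρ.range`). -/
theorem h66_noLine_range {K : Type*} [Field K] [Algebra k K] (ρ : Γ →* GL (Fin 2) k)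
    (hTW : ∀ H : Subgroup Γ, H.index = 2 → h66_NoLine ρ K H)
    (hidx : ∃ H : Subgroup Γ, H.index = 2) (v : Fin 2 → k) (hv : v ≠ 0) :
    ¬ ∀ g ∈ ρ.range, ∃ a : k, (g : Matrix (Fin 2) (Fin 2) k) *ᵥ v = a • v :=
  fun h => h66_noLine_base (K := K) ρ hTW hidx v hv (fun γ => h _ ⟨γ, rfl⟩)

/-- **(G7)** with `(G5)` for the image group `ρ.range` as hypothesis (function-on-`GL₂` shape). -/
theorem h66_tw_sigma_of_range (h2 : (2 : k) ≠ 0) (K : Type*) [Field K] [Algebra k K]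
    [IsAlgClosed K] (ρ : Γ →* GL (Fin 2) k)
    (hTW : ∀ H : Subgroup Γ, H.index = 2 → h66_NoLine ρ K H)
    (hidx : ∃ H : Subgroup Γ, H.index = 2)
    (N : Subgroup Γ) [hNn : N.Normal] (hab : ∀ a b : Γ, a * b * a⁻¹ * b⁻¹ ∈ N)
    (hdetN : ∀ σ ∈ N, Matrix.GeneralLinearGroup.det (ρ σ) = 1)
    (hG5 : ∀ c' : GL (Fin 2) k → Matrix (Fin 2) (Fin 2) k,
      (∀ g ∈ ρ.range, (c' g).trace = 0) →
      (∀ g ∈ ρ.range, ∀ h ∈ ρ.range, c' (g * h) = c' g + h66_act g (c' h)) →
      ∃ w : Matrix (Fin 2) (Fin 2) k, w.trace = 0 ∧ ∀ g ∈ ρ.range, c' g = h66_act g w - w)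
    (c : Γ → Matrix (Fin 2) (Fin 2) k) (hc : h66_IsCocycle ρ c) (hnc : ¬ h66_IsCobdry ρ c) :
    ∃ σ ∈ N, ((ρ σ : Matrix (Fin 2) (Fin 2) k).trace) ^ 2 ≠ 4 ∧
      (c σ * (ρ σ : Matrix (Fin 2) (Fin 2) k)).trace ≠ 0 ∧
      ∀ Y : Matrix (Fin 2) (Fin 2) k, Y.trace = 0 → c σ ≠ h66_act (ρ σ) Y - Y := by
  obtain ⟨σ, hσ, hreg, htr⟩ := h66_tw_sigma_trace h2 K ρ hTW hidx N hab hdetN
    (fun c hc hker => h66_hG5_of_range ρ hG5 c hc hker) c hc hnc
  refine ⟨σ, hσ, hreg, htr, fun Y _ hcY => htr ?_⟩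
  rw [hcY]
  exact h66_trace_act_sub (ρ σ) (hdetN σ hσ) Y

end main

end Fermat.Agent.S56
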