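import Mathlib
import Fermat.Agent.S53.Dict
import Fermat.Agent.S54.Frob
import Fermat.Agent.GAL.h11_CycFrob
import Fermat.Agent.S56.h66_TWLemma
import Fermat.Prelude.Def_GaloisRep_Residual
import Fermat.Prelude.Def_GaloisRep_LocalConditions

set_option autoImplicit false

/-!
# S56 / W4, row G8-HYP: the frozen hypotheses in matrix form

For `rb := Dict.resMat ρbar bbar` (a matrix form of the residual representation) we provide the
`GL₂`-valued homomorphism `h30_rbGL` and translate the hypotheses of the frozen statement S56 into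
the abstract hypotheses of the Taylor–Wiles group theory (`h66_tw_final`).
-/

namespace Fermat.Agent.S56

open Fermat.Agent.S53.Dict Polynomial

variable {k : Type} [Field k]

/-- The residual representation as a homomorphism to `GL₂(k)`. -/
noncomputable def h30_rbGL (ρbar : ResidualGaloisRep k) (bbar : Module.Basis (Fin 2) k ρbar.V) :
    GQ →* GL (Fin 2) k :=
  (resMat ρbar bbar).toHomUnits

theorem h30_rbGL_coe (ρbar : ResidualGaloisRep k) (bbar : Module.Basis (Fin 2) k ρbar.V)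
    (σ : GQ) :
    ((h30_rbGL ρbar bbar σ : GL (Fin 2) k) : Matrix (Fin 2) (Fin 2) k) = resMat ρbar bbar σ :=
  rfl

theorem h30_rbGL_level (ρbar : ResidualGaloisRep k) (bbar : Module.Basis (Fin 2) k ρbar.V) :
    ∃ L : IntermediateField ℚ (AlgebraicClosure ℚ), FiniteDimensional ℚ L ∧
      ∀ σ : GQ, (∀ x ∈ L, σ x = x) → h30_rbGL ρbar bbar σ = 1 := by
  obtain ⟨L, hL, h⟩ := ρbar.factorsThroughFiniteLevel
  refine ⟨L, hL, fun σ hσ => Units.ext ?_⟩
  rw [h30_rbGL_coe, resMat_apply, h σ hσ]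
  exact LinearMap.toMatrix_one bbar

theorem h30_rbGL_det (ρbar : ResidualGaloisRep k) (bbar : Module.Basis (Fin 2) k ρbar.V)
    (σ : GQ) :
    ((Matrix.GeneralLinearGroup.det (h30_rbGL ρbar bbar σ) : kˣ) : k) =
      LinearMap.det (ρbar.ρ σ) := by
  rw [Matrix.GeneralLinearGroup.val_det_apply, h30_rbGL_coe, resMat_apply, LinearMap.det_toMatrix]

theorem h30_resMat_charpoly (ρbar : ResidualGaloisRep k) (bbar : Module.Basis (Fin 2) k ρbar.V)
    (σ : GQ) : (resMat ρbar bbar σ).charpoly = LinearMap.charpoly (ρbar.ρ σ) := by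
  rw [resMat_apply, LinearMap.charpoly_toMatrix]

/-- `p = 0` in `k` from `DetIsCyclotomic`. -/
theorem h30_charP {p : ℕ} [Fact p.Prime] (ρbar : ResidualGaloisRep k)
    (hdet : (GaloisRepAdic.ofResidualGaloisRep ρbar).DetIsCyclotomic p) : CharP k p := by
  have hp0 : ((p : ℕ) : k) = 0 := by
    have := hdet.1
    rw [IsLocalRing.maximalIdeal_eq_bot] at this
    exact this
  exact (CharP.charP_iff_prime_eq_zero (Fact.out : p.Prime)).mpr hp0

/-- `det ρ̄ = ` mod `p` cyclotomic character, in matrix form. -/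
theorem h30_det_of_cyclo {p : ℕ} (ρbar : ResidualGaloisRep k)
    (bbar : Module.Basis (Fin 2) k ρbar.V)
    (hdet : (GaloisRepAdic.ofResidualGaloisRep ρbar).DetIsCyclotomic p) (σ : GQ) (a : ℕ)
    (ha : ∀ μ : AlgebraicClosure ℚ, μ ^ p = 1 → σ μ = μ ^ a) :
    ((Matrix.GeneralLinearGroup.det (h30_rbGL ρbar bbar σ) : kˣ) : k) = (a : k) := by
  obtain ⟨hp, h⟩ := hdet
  have hp0 : ((p : ℕ) : k) = 0 := by
    rw [IsLocalRing.maximalIdeal_eq_bot] at hp
    exact hp
  have h1 := h 1 σ a (by simpa using ha)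
  rw [pow_one, hp0, Ideal.span_singleton_eq_bot.mpr rfl, Ideal.mem_bot, sub_eq_zero] at h1
  rw [h30_rbGL_det]
  exact h1

/-- Surjectivity of the determinant onto `𝔽_p^×` (Dirichlet + Frobenius elements). -/
theorem h30_det_surj {p : ℕ} [Fact p.Prime] [CharP k p] (ρbar : ResidualGaloisRep k)
    (bbar : Module.Basis (Fin 2) k ρbar.V)
    (hdet : (GaloisRepAdic.ofResidualGaloisRep ρbar).DetIsCyclotomic p)
    (z : ZMod p) (hz : z ≠ 0) :
    ∃ γ : GQ, ((Matrix.GeneralLinearGroup.det (h30_rbGL ρbar bbar γ) : kˣ) : k) =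
      ZMod.castHom (dvd_refl p) k z := by
  have hp : p.Prime := Fact.out
  have : NeZero p := ⟨hp.ne_zero⟩
  obtain ⟨ℓ, hℓp, hℓ, hℓz⟩ := Nat.forall_exists_prime_gt_and_eq_mod (q := p) (a := z)
    (IsUnit.mk0 z hz) p
  obtain ⟨A, φ, hA, hφ⟩ := Fermat.Agent.S54.exists_isFrobeniusAt ℓ hℓ
  have hnd : ¬ ℓ ∣ p := Nat.not_dvd_of_pos_of_lt hp.pos hℓp
  refine ⟨φ, ?_⟩
  rw [h30_det_of_cyclo ρbar bbar hdet φ ℓ
    (fun μ hμ => Fermat.Agent.GAL.h11_frob_rootOfUnity A hℓ hA hφ hnd μ hμ), ← hℓz, map_natCast]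

/-- `Gal(ℚ̄/ℚ)` has a subgroup of index `2`. -/
theorem h30_exists_index_two : ∃ H : Subgroup GQ, H.index = 2 := by
  obtain ⟨x, hx⟩ := IsAlgClosed.exists_pow_nat_eq (-1 : AlgebraicClosure ℚ) (n := 2) (by norm_num)
  have hx0 : x ≠ 0 := by
    rintro rfl
    norm_num at hx
  have hxne : x ≠ -x := by
    intro h
    have h2 : (2 : AlgebraicClosure ℚ) * x = 0 := by linear_combination h
    rcases mul_eq_zero.mp h2 with h3 | h3
    · exact two_ne_zero h3
    · exact hx0 h3
  have hmov : ∃ σ : GQ, σ x = -x := by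
    by_contra hcon
    push Not at hcon
    have hfix : ∀ σ : GQ, σ x = x := by
      intro σ
      have h1 : (σ x) ^ 2 = x ^ 2 := by rw [← map_pow, hx, map_neg, map_one]
      rcases sq_eq_sq_iff_eq_or_eq_neg.mp h1 with h2 | h2
      · exact h2
      · exact absurd h2 (hcon σ)
    have := Fermat.Agent.S54.isGaloisQbar
    have h1 : x ∈ (⊥ : IntermediateField ℚ (AlgebraicClosure ℚ)) := by
      rw [InfiniteGalois.mem_bot_iff_fixed]
      exact hfix
    rw [IntermediateField.mem_bot] at h1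
    obtain ⟨r, hr⟩ := h1
    have h2 : algebraMap ℚ (AlgebraicClosure ℚ) (r ^ 2) = algebraMap ℚ (AlgebraicClosure ℚ) (-1) := by
      rw [map_pow, hr, hx, map_neg, map_one]
    have h3 : r ^ 2 = -1 := (algebraMap ℚ (AlgebraicClosure ℚ)).injective h2
    nlinarith [sq_nonneg r]
  obtain ⟨σ₀, hσ₀⟩ := hmov
  refine ⟨MulAction.stabilizer GQ x, ?_⟩
  rw [MulAction.index_stabilizer]
  have horb : MulAction.orbit GQ x = {x, -x} := by
    ext y
    constructor
    · rintro ⟨σ, rfl⟩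
      have h1 : (σ x) ^ 2 = x ^ 2 := by rw [← map_pow, hx, map_neg, map_one]
      rcases sq_eq_sq_iff_eq_or_eq_neg.mp h1 with h2 | h2
      · left; exact h2
      · right; exact h2
    · rintro (rfl | rfl)
      · exact MulAction.mem_orbit_self _
      · exact ⟨σ₀, hσ₀⟩
  rw [horb, Set.ncard_pair hxne]

open scoped TensorProduct in
/-- Irreducibility of the base change over `K` on a subgroup `H` gives `h66_NoLine`. -/
theorem h30_noLine_of_irr (ρbar : ResidualGaloisRep k) (bbar : Module.Basis (Fin 2) k ρbar.V)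
    (H : Subgroup GQ) (K : Type) [Field K] [Algebra k K]
    (hirr : ∀ V : Submodule K (ρbar.baseChange K).V,
      (∀ σ ∈ H, ∀ x ∈ V, (ρbar.baseChange K).ρ σ x ∈ V) → V = ⊥ ∨ V = ⊤) :
    h66_NoLine (h30_rbGL ρbar bbar) K H := by
  intro v hv hstab
  let B : Module.Basis (Fin 2) K (K ⊗[k] ρbar.V) := Algebra.TensorProduct.basis K bbar
  obtain ⟨x, hx⟩ : ∃ x : K ⊗[k] ρbar.V, x = B.equivFun.symm v := ⟨_, rfl⟩
  have hrepr : ⇑(B.repr x) = v := by
    rw [← Module.Basis.equivFun_apply, hx]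
    exact LinearEquiv.apply_symm_apply _ _
  have hx0 : x ≠ 0 := by
    intro h
    apply hv
    rw [← hrepr, h]
    simp
  have hact : ∀ σ ∈ H, ∃ a : K, ((ρbar.ρ σ).baseChange K) x = a • x := by
    intro σ hσ
    obtain ⟨a, ha⟩ := hstab σ hσ
    refine ⟨a, ?_⟩
    have h1 := LinearMap.toMatrix_mulVec_repr B B ((ρbar.ρ σ).baseChange K) x
    rw [LinearMap.toMatrix_baseChange, hrepr] at h1
    have h2 : ((h30_rbGL ρbar bbar σ : GL (Fin 2) k) : Matrix (Fin 2) (Fin 2) k) =
        LinearMap.toMatrix bbar bbar (ρbar.ρ σ) := rfl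
    rw [h2, h1] at ha
    apply B.repr.injective
    apply DFunLike.coe_injective
    rw [ha, map_smul, ← hrepr]
    rfl
  have hstab' : ∀ σ ∈ H, ∀ y ∈ (Submodule.span K {x} : Submodule K (K ⊗[k] ρbar.V)),
      ((ρbar.ρ σ).baseChange K) y ∈ (Submodule.span K {x} : Submodule K (K ⊗[k] ρbar.V)) := by
    intro σ hσ y hy
    obtain ⟨c, rfl⟩ := Submodule.mem_span_singleton.mp hy
    obtain ⟨a, ha⟩ := hact σ hσ
    rw [map_smul, ha]
    exact Submodule.smul_mem _ _ (Submodule.smul_mem _ _ (Submodule.mem_span_singleton_self x))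
  rcases hirr (Submodule.span K {x}) hstab' with h | h
  · exact hx0 (Submodule.span_singleton_eq_bot.mp h)
  · have h1 : Module.finrank K (Submodule.span K {x} : Submodule K (K ⊗[k] ρbar.V)) = 1 :=
      finrank_span_singleton hx0
    have h2 : Module.finrank K (K ⊗[k] ρbar.V) = 2 := (ρbar.baseChange K).finrank_eq
    have h3 : Module.finrank K (Submodule.span K {x} : Submodule K (K ⊗[k] ρbar.V)) = 2 := by
      have h4 : (Submodule.span K {x} : Submodule K (K ⊗[k] ρbar.V)) = ⊤ := h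
      rw [h4, finrank_top, h2]
    omega

/-- `ρ̄` is unramified outside `Smin` (matrix form). -/
theorem h30_rbGL_unram {p : ℕ} (ρbar : ResidualGaloisRep k)
    (bbar : Module.Basis (Fin 2) k ρbar.V) (Smin : Finset ℕ) (hpSmin : p ∈ Smin)
    (hmin : ∀ q : ℕ, q.Prime → q ≠ p → (q ∈ Smin ↔ ¬ ρbar.IsUnramifiedAt q))
    (q : ℕ) (hq : q.Prime) (hqS : q ∉ Smin) (A : ValuationSubring (AlgebraicClosure ℚ))
    (hA : A.LiesOverPrime q) (σ : GQ) (hσ : σ ∈ A.inertiaSubgroupIn ℚ) :
    h30_rbGL ρbar bbar σ = 1 := by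
  have hqp : q ≠ p := by
    rintro rfl
    exact hqS hpSmin
  have hunr : ρbar.IsUnramifiedAt q := by
    by_contra h
    exact hqS ((hmin q hq hqp).mpr h)
  apply Units.ext
  rw [h30_rbGL_coe, resMat_apply, hunr A hA σ hσ]
  exact LinearMap.toMatrix_one bbar

/-- Distinct eigenvalues in `k` from `tr² ≠ 4 det` and the splitting hypothesis. -/
theorem h30_distinct_eig (ρbar : ResidualGaloisRep k) (bbar : Module.Basis (Fin 2) k ρbar.V)
    (hsplit : ∀ σ : GQ, ∃ α β : k, LinearMap.charpoly (ρbar.ρ σ) = (X - C α) * (X - C β))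
    (σ : GQ)
    (hreg : (resMat ρbar bbar σ).trace ^ 2 ≠ 4 * (resMat ρbar bbar σ).det) :
    ∃ α β : k, α ≠ β ∧ LinearMap.charpoly (ρbar.ρ σ) = (X - C α) * (X - C β) := by
  obtain ⟨α, β, h⟩ := hsplit σ
  refine ⟨α, β, ?_, h⟩
  rintro rfl
  apply hreg
  have h1 : (resMat ρbar bbar σ).charpoly = (X - C α) * (X - C α) := by
    rw [h30_resMat_charpoly, h]
  rw [Matrix.charpoly_fin_two] at h1
  have c1 := congrArg (fun f : k[X] => f.coeff 1) h1
  have c0 := congrArg (fun f : k[X] => f.coeff 0) h1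
  have e : ((X : k[X]) - C α) * (X - C α) = X ^ 2 - C (α + α) * X + C (α * α) := by
    rw [C_add, C_mul]; ring
  rw [e] at c1 c0
  simp [Polynomial.coeff_X, Polynomial.coeff_C] at c1 c0
  rw [c0]
  have htr : (resMat ρbar bbar σ).trace = α + α := by linear_combination -c1
  rw [htr]; ring

end Fermat.Agent.S56
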