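import Fermat.Agent.S56.h30_TWH1
import Fermat.Agent.S56.h66_TWLemma

/-!
# S56 / W4: (G5) + (G6) + (G7) assembled — the group-theoretic Taylor–Wiles lemma

`h66_tw_final`: `k` a finite field of odd characteristic `p`, `ρ : Γ → GL₂(k)` such that no
subgroup of index two of `Γ` has a common eigenvector over an algebraically closed `K ⊇ k`
(the frozen `hTW` in matrix form), `Γ` has a subgroup of index two, `det ρ(Γ) ⊇ 𝔽_p^×`,
`N ⊴ Γ` with abelian quotient and `det ρ = 1` on `N`.  Then for every cocycle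
`c : Γ → ad⁰(1)` which is not a coboundary there is `σ ∈ N` with `ρ σ` regular semisimple
(`tr² ≠ 4`, `det = 1`) and `tr(c σ · ρ σ) ≠ 0`; in particular `c σ ∉ (σ - 1) W`, i.e. the
restriction of `c` to the cyclic group generated by `σ` is not a coboundary.

Inputs: `h30_H1_vanish` (helper30, (G5)) and `h66_tw_sigma_of_range` ((G6) + (G7)).
-/

set_option autoImplicit false

namespace Fermat.Agent.S56

open Matrix

variable {k : Type*} [Field k]

theorem h66_act_eq_h30 (g : GL (Fin 2) k) (X : Matrix (Fin 2) (Fin 2) k) :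
    h66_act g X = h30_act g X := rfl

/-- **W4, group theory**: (G5) + (G6) + (G7). -/
theorem h66_tw_final [Finite k] {p : ℕ} [Fact p.Prime] [CharP k p] (hp2 : p ≠ 2)
    (K : Type*) [Field K] [Algebra k K] [IsAlgClosed K]
    {Γ : Type*} [Group Γ] (ρ : Γ →* GL (Fin 2) k)
    (hTW : ∀ H : Subgroup Γ, H.index = 2 → h66_NoLine ρ K H)
    (hidx : ∃ H : Subgroup Γ, H.index = 2)
    (hdetρ : ∀ z : ZMod p, z ≠ 0 → ∃ γ : Γ,
      ((Matrix.GeneralLinearGroup.det (ρ γ) : kˣ) : k) = ZMod.castHom (dvd_refl p) k z)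
    (N : Subgroup Γ) [N.Normal] (hab : ∀ a b : Γ, a * b * a⁻¹ * b⁻¹ ∈ N)
    (hdetN : ∀ σ ∈ N, Matrix.GeneralLinearGroup.det (ρ σ) = 1)
    (c : Γ → Matrix (Fin 2) (Fin 2) k) (hc : h66_IsCocycle ρ c) (hnc : ¬ h66_IsCobdry ρ c) :
    ∃ σ ∈ N, ((ρ σ : Matrix (Fin 2) (Fin 2) k).trace) ^ 2 ≠ 4 ∧
      (c σ * (ρ σ : Matrix (Fin 2) (Fin 2) k)).trace ≠ 0 ∧
      ∀ Y : Matrix (Fin 2) (Fin 2) k, Y.trace = 0 → c σ ≠ h66_act (ρ σ) Y - Y := by
  have h2 : (2 : k) ≠ 0 := by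
    intro h
    have h' : ((2 : ℕ) : k) = 0 := by exact_mod_cast h
    rw [CharP.cast_eq_zero_iff k p] at h'
    exact hp2 ((Nat.prime_dvd_prime_iff_eq (Fact.out : p.Prime) Nat.prime_two).mp h')
  refine h66_tw_sigma_of_range h2 K ρ hTW hidx N hab hdetN ?_ c hc hnc
  intro c' htr hmul
  have hcob := h30_H1_vanish hp2 ρ.range
    (fun v hv => h66_noLine_range (K := K) ρ hTW hidx v hv)
    (fun z hz => by
      obtain ⟨γ, hγ⟩ := hdetρ z hz
      exact ⟨ρ γ, ⟨γ, rfl⟩, hγ⟩)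
    c' ⟨htr, hmul⟩
  exact hcob

end Fermat.Agent.S56
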