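import Fermat.Agent.S56.h30_FrobIndep
import Fermat.Agent.S56.h30_TWHyp
import Fermat.Agent.S56.h66_TWFinal

set_option autoImplicit false

/-!
# S56 / W4: from one Frobenius to all Frobenius lifts at all places over `q`

`h30_tw1_upgrade`: if `ρ̄` and the `ad⁰(1)`-cocycle `ψ` are unramified at `q` and ONE Frobenius
pair `(A, φ)` over `q` has `ρ̄(φ)` regular and `ψ(φ) ∉ (ρ̄(φ) - 1) W`, then every Frobenius pair over
`q` has distinct eigenvalues in `k` (frozen form) and `ψ(φ') ∉ (ρ̄(φ') - 1) W`.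
-/

namespace Fermat.Agent.S56

open Fermat.Agent.S53.Dict Polynomial

variable {k : Type} [Field k]

theorem h30_tw1_upgrade (ρbar : ResidualGaloisRep k) (bbar : Module.Basis (Fin 2) k ρbar.V)
    (hsplit : ∀ σ : GQ, ∃ α β : k, LinearMap.charpoly (ρbar.ρ σ) = (X - C α) * (X - C β))
    (ψ : GQ → Matrix (Fin 2) (Fin 2) k) (hψ : h66_IsCocycle (h30_rbGL ρbar bbar) ψ)
    (q : ℕ) (hq : q.Prime)
    (hunr : ∀ A : ValuationSubring (AlgebraicClosure ℚ), A.LiesOverPrime q →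
      ∀ σ ∈ A.inertiaSubgroupIn ℚ, h30_rbGL ρbar bbar σ = 1 ∧ ψ σ = 0)
    (A : ValuationSubring (AlgebraicClosure ℚ)) (φ : GQ) (hA : A.LiesOverPrime q)
    (hφ : A.IsFrobeniusAt φ q)
    (hreg : ((h30_rbGL ρbar bbar φ : GL (Fin 2) k) : Matrix (Fin 2) (Fin 2) k).trace ^ 2 ≠
      4 * ((h30_rbGL ρbar bbar φ : GL (Fin 2) k) : Matrix (Fin 2) (Fin 2) k).det)
    (hnc : ∀ w : Matrix (Fin 2) (Fin 2) k, w.trace = 0 →
      ψ φ ≠ h66_act (h30_rbGL ρbar bbar φ) w - w) :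
    ∀ P : ValuationSubring (AlgebraicClosure ℚ), P.LiesOverPrime q →
      ∀ φ' : GQ, P.IsFrobeniusAt φ' q →
        (∃ α β : k, α ≠ β ∧ LinearMap.charpoly (ρbar.ρ φ') = (X - C α) * (X - C β)) ∧
        ∀ w : Matrix (Fin 2) (Fin 2) k, w.trace = 0 →
          ψ φ' ≠ h66_act (h30_rbGL ρbar bbar φ') w - w := by
  intro P hP φ' hφ'
  obtain ⟨τ, hconj, hcob⟩ := h30_frob_indep (h30_rbGL ρbar bbar) ψ hψ.1
    (fun σ τ => by rw [hψ.2 σ τ, h66_act_eq_h30]) q hq hunr A φ hA hφ P φ' hP hφ'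
  constructor
  · apply h30_distinct_eig ρbar bbar hsplit φ'
    have e : (resMat ρbar bbar φ' : Matrix (Fin 2) (Fin 2) k) =
        ((h30_rbGL ρbar bbar φ' : GL (Fin 2) k) : Matrix (Fin 2) (Fin 2) k) := rfl
    rw [e, hconj]
    have htr : ((h30_rbGL ρbar bbar τ * h30_rbGL ρbar bbar φ * (h30_rbGL ρbar bbar τ)⁻¹ :
        GL (Fin 2) k) : Matrix (Fin 2) (Fin 2) k).trace =
        ((h30_rbGL ρbar bbar φ : GL (Fin 2) k) : Matrix (Fin 2) (Fin 2) k).trace := by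
      rw [Units.val_mul, Units.val_mul, Matrix.trace_mul_comm, ← Matrix.mul_assoc,
        ← Units.val_mul, inv_mul_cancel, Units.val_one, Matrix.one_mul]
    have hdet : ((h30_rbGL ρbar bbar τ * h30_rbGL ρbar bbar φ * (h30_rbGL ρbar bbar τ)⁻¹ :
        GL (Fin 2) k) : Matrix (Fin 2) (Fin 2) k).det =
        ((h30_rbGL ρbar bbar φ : GL (Fin 2) k) : Matrix (Fin 2) (Fin 2) k).det := by
      rw [Units.val_mul, Units.val_mul, Matrix.det_mul, Matrix.det_mul, mul_comm, ← mul_assoc,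
        ← Matrix.det_mul, ← Units.val_mul, inv_mul_cancel, Units.val_one, Matrix.det_one, one_mul]
    rw [htr, hdet]
    exact hreg
  · intro w' hw' h
    obtain ⟨w, hw, hw2⟩ := hcob w' hw' (by rw [h, h66_act_eq_h30])
    exact hnc w hw (by rw [hw2, h66_act_eq_h30])

end Fermat.Agent.S56
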