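import Fermat.Agent.S56.h30_TWDefs

set_option autoImplicit false

/-!
# S56 / W4, row C: the trace constraint

For a cocycle `c : G → W` and `g ∈ G` with `det g = 1` and `tr(g)² ≠ 4` (regular semisimple):
`tr (c g * g) = 0`.  Reason: the order of such a `g` is prime to `p`.
-/

namespace Fermat.Agent.S56

open Matrix

variable {k : Type*} [Field k]

/-- A nilpotent `2 × 2` matrix squares to zero. -/
theorem h30_sq_zero_of_pow_zero (N : Matrix (Fin 2) (Fin 2) k) (n : ℕ) (hN : N ^ n = 0) :
    N * N = 0 := by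
  have hn : n ≠ 0 := fun h => by rw [h, pow_zero] at hN; exact one_ne_zero hN
  have hdet : N.det = 0 := by
    have : N.det ^ n = 0 := by rw [← Matrix.det_pow, hN, Matrix.det_zero]
    exact (pow_eq_zero_iff hn).mp this
  -- Cayley–Hamilton : N² = tr N • N - det N • 1
  have hCH : N * N = N.trace • N := by
    rw [Matrix.det_fin_two] at hdet
    rw [Matrix.trace_fin_two]
    ext i j; fin_cases i <;> fin_cases j <;>
      simp [Matrix.mul_apply, Fin.sum_univ_two]
    all_goals first | ring1 | linear_combination (-1 : k) * hdet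
  have hpow : ∀ j : ℕ, N ^ (j + 1) = N.trace ^ j • N := by
    intro j
    induction j with
    | zero => simp
    | succ j ih => rw [pow_succ, ih, Matrix.smul_mul, hCH, smul_smul, pow_succ]
  by_cases hN0 : N = 0
  · rw [hN0, Matrix.mul_zero]
  obtain ⟨j, rfl⟩ := Nat.exists_eq_succ_of_ne_zero hn
  rw [Nat.succ_eq_add_one, hpow j] at hN
  have htr : N.trace ^ j = 0 := by
    rcases smul_eq_zero.mp hN with h | h
    · exact h
    · exact absurd h hN0
  by_cases hj : j = 0
  · rw [hj, pow_zero] at htr; exact absurd htr one_ne_zero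
  have htr0 : N.trace = 0 := (pow_eq_zero_iff hj).mp htr
  rw [hCH, htr0, zero_smul]

/-- If a nonzero square-zero matrix commutes with `g` of determinant one, then `tr(g)² = 4`. -/
theorem h30_trace_sq_of_commute_nilpotent (g N : Matrix (Fin 2) (Fin 2) k) (hg : g.det = 1)
    (hN : N ≠ 0) (hNN : N * N = 0) (hcomm : g * N = N * g) : g.trace ^ 2 = 4 := by
  -- coordinates
  have h00 := congrFun (congrFun hNN 0) 0
  have h01 := congrFun (congrFun hNN 0) 1
  have h10 := congrFun (congrFun hNN 1) 0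
  have h11 := congrFun (congrFun hNN 1) 1
  have c00 := congrFun (congrFun hcomm 0) 0
  have c01 := congrFun (congrFun hcomm 0) 1
  have c10 := congrFun (congrFun hcomm 1) 0
  have c11 := congrFun (congrFun hcomm 1) 1
  simp only [Matrix.mul_apply, Fin.sum_univ_two, Matrix.zero_apply] at h00 h01 h10 h11 c00 c01 c10 c11
  rw [Matrix.det_fin_two] at hg
  rw [Matrix.trace_fin_two]
  -- N has trace zero and det zero
  have htr : N 0 0 + N 1 1 = 0 := by
    by_contra hne
    have e1 : N 0 1 = 0 := by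
      have : N 0 1 * (N 0 0 + N 1 1) = 0 := by linear_combination h01
      exact (mul_eq_zero.mp this).resolve_right hne
    have e2 : N 1 0 = 0 := by
      have : N 1 0 * (N 0 0 + N 1 1) = 0 := by linear_combination h10
      exact (mul_eq_zero.mp this).resolve_right hne
    rw [e1, e2] at h00 h11
    have e3 : N 0 0 = 0 := by
      have : N 0 0 * N 0 0 = 0 := by linear_combination h00
      exact mul_self_eq_zero.mp this
    have e4 : N 1 1 = 0 := by
      have : N 1 1 * N 1 1 = 0 := by linear_combination h11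
      exact mul_self_eq_zero.mp this
    apply hN
    ext i j; fin_cases i <;> fin_cases j <;> simp [e1, e2, e3, e4]
  have hd : N 1 1 = -N 0 0 := by linear_combination htr
  rw [hd] at h01 h10 h11 c01 c10 c11
  -- a² + b c = 0 ; relations from commutation
  by_cases hb : N 0 1 = 0
  · by_cases hc : N 1 0 = 0
    · have e3 : N 0 0 = 0 := by
        rw [hb] at h00
        have : N 0 0 * N 0 0 = 0 := by linear_combination h00
        exact mul_self_eq_zero.mp this
      exfalso; apply hN
      ext i j; fin_cases i <;> fin_cases j <;> simp [hb, hc, e3, hd]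
    · -- c ≠ 0
      have e1 : (g 0 0 + g 1 1) ^ 2 - 4 = (g 0 0 - g 1 1) ^ 2 + 4 * (g 0 1 * g 1 0) := by
        linear_combination (4 : k) * hg
      have e2 : N 1 0 ^ 2 * ((g 0 0 - g 1 1) ^ 2 + 4 * (g 0 1 * g 1 0)) = 0 := by
        linear_combination -(N 1 0 * (g 0 0 - g 1 1) + 2 * N 0 0 * g 1 0) * c10
          + 4 * N 1 0 * g 1 0 * c00 + 4 * g 1 0 ^ 2 * h00
      have e3 := (mul_eq_zero.mp e2).resolve_left (pow_ne_zero 2 hc)
      linear_combination e1 + e3
  · have e1 : (g 0 0 + g 1 1) ^ 2 - 4 = (g 0 0 - g 1 1) ^ 2 + 4 * (g 0 1 * g 1 0) := by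
      linear_combination (4 : k) * hg
    have e2 : N 0 1 ^ 2 * ((g 0 0 - g 1 1) ^ 2 + 4 * (g 0 1 * g 1 0)) = 0 := by
      linear_combination (N 0 1 * (g 0 0 - g 1 1) + 2 * N 0 0 * g 0 1) * c01
        - 4 * N 0 1 * g 0 1 * c00 + 4 * g 0 1 ^ 2 * h00
    have e3 := (mul_eq_zero.mp e2).resolve_left (pow_ne_zero 2 hb)
    linear_combination e1 + e3

/-- An element of `GL₂(k)` (`k` finite of characteristic `p`) with `det = 1` and `tr² ≠ 4`
has order prime to `p`. -/
theorem h30_exists_pow_eq_one [Finite k] {p : ℕ} [Fact p.Prime] [CharP k p]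
    (g : GL (Fin 2) k) (hdet : Matrix.GeneralLinearGroup.det g = 1)
    (htr : (g : Matrix (Fin 2) (Fin 2) k).trace ^ 2 ≠ 4) :
    ∃ m : ℕ, ¬ p ∣ m ∧ g ^ m = 1 := by
  have hn : 0 < orderOf g := orderOf_pos g
  obtain ⟨a, m, hm, hnm⟩ :=
    Nat.exists_eq_pow_mul_and_not_dvd hn.ne' p (Fact.out : p.Prime).ne_one
  refine ⟨m, hm, ?_⟩
  have hh : (g ^ m) ^ (p ^ a) = 1 := by
    rw [← pow_mul, mul_comm, ← hnm, pow_orderOf_eq_one]
  set H : Matrix (Fin 2) (Fin 2) k := ((g ^ m : GL (Fin 2) k) : Matrix (Fin 2) (Fin 2) k) with hH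
  have hHp : H ^ (p ^ a) = 1 := by
    have := congrArg (fun x : GL (Fin 2) k => (x : Matrix (Fin 2) (Fin 2) k)) hh
    rw [hH, ← Units.val_pow_eq_pow_val]
    exact this
  have hN : (H - 1) ^ (p ^ a) = 0 := by
    rw [sub_pow_char_pow_of_commute p a (Commute.one_right H), hHp, one_pow, sub_self]
  have hNN := h30_sq_zero_of_pow_zero (H - 1) (p ^ a) hN
  by_contra hne
  have hN0 : H - 1 ≠ 0 := by
    intro h0
    apply hne
    apply Units.ext
    rw [sub_eq_zero] at h0
    rw [← hH, h0]; rfl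
  have hcomm : (g : Matrix (Fin 2) (Fin 2) k) * (H - 1) = (H - 1) * (g : Matrix (Fin 2) (Fin 2) k) := by
    have e : (g : Matrix (Fin 2) (Fin 2) k) * H = H * (g : Matrix (Fin 2) (Fin 2) k) := by
      rw [hH, ← Units.val_mul, ← Units.val_mul, ← pow_succ', ← pow_succ]
    rw [Matrix.mul_sub, Matrix.sub_mul, e, Matrix.mul_one, Matrix.one_mul]
  have hdet' : (g : Matrix (Fin 2) (Fin 2) k).det = 1 := by
    have := congrArg (fun x : kˣ => (x : k)) hdet
    simpa using this
  exact htr (h30_trace_sq_of_commute_nilpotent _ (H - 1) hdet' hN0 hNN hcomm)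

/-- **Trace constraint.** -/
theorem h30_trace_constraint [Finite k] {p : ℕ} [Fact p.Prime] [CharP k p]
    (G : Subgroup (GL (Fin 2) k)) (c : GL (Fin 2) k → Matrix (Fin 2) (Fin 2) k)
    (hc : h30_IsCocycle G c) (g : GL (Fin 2) k) (hg : g ∈ G)
    (hdet : Matrix.GeneralLinearGroup.det g = 1)
    (htr : (g : Matrix (Fin 2) (Fin 2) k).trace ^ 2 ≠ 4) :
    (c g * (g : Matrix (Fin 2) (Fin 2) k)).trace = 0 := by
  obtain ⟨m, hm, hgm⟩ := h30_exists_pow_eq_one g hdet htr
  have key : ∀ j : ℕ, (c (g ^ j) * (g : Matrix (Fin 2) (Fin 2) k)).trace =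
      j * (c g * (g : Matrix (Fin 2) (Fin 2) k)).trace := by
    intro j
    induction j with
    | zero => rw [pow_zero, hc.map_one]; simp
    | succ j ih =>
      rw [pow_succ', hc.map_mul g hg (g ^ j) (G.pow_mem hg j), Matrix.add_mul, Matrix.trace_add,
        h30_trace_act_mul_self, hdet, Units.val_one, one_mul, ih]
      push_cast; ring
  have h1 := key m
  rw [hgm, hc.map_one, Matrix.zero_mul, Matrix.trace_zero] at h1
  have hm0 : (m : k) ≠ 0 := fun h => hm ((CharP.cast_eq_zero_iff k p m).mp h)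
  exact (mul_eq_zero.mp h1.symm).resolve_left hm0

end Fermat.Agent.S56
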