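import Fermat.Agent.GAL.WCheb
import Fermat.Agent.GAL.h14_FrobCyc
import Fermat.Agent.GAL.h65_Cyclo
import Fermat.Agent.S56.h66_TWFinal
import Fermat.Agent.S56.h30_TWTrace
import Fermat.Agent.S56.h30_TWHyp

set_option autoImplicit false

/-!
# S56 / W4, row G8-CORE: one Taylor–Wiles prime for one cohomology class

For `ρ : G_ℚ → GL₂(k)` of finite level with cyclotomic determinant and satisfying the
Taylor–Wiles hypothesis, and an `ad⁰(1)`-cocycle `ψ` of finite level which is not a coboundary: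
there is a prime `q ∉ B`, `q ≡ 1 mod p^(n+1)`, and a Frobenius `φ` at a place over `q` with
`ρ(φ)` regular and `ψ(φ) ∉ (ρ(φ) - 1) W`.
-/

namespace Fermat.Agent.S56

open Fermat.Agent.S53.Dict

local notation "Qb" => AlgebraicClosure ℚ

theorem h30_apply_inv (g : GQ) (x : Qb) : g (g⁻¹ x) = x := by
  show (g * g⁻¹) x = x
  rw [mul_inv_cancel]; rfl

theorem h30_inv_apply (g : GQ) (x : Qb) : g⁻¹ (g x) = x := by
  show (g⁻¹ * g) x = x
  rw [inv_mul_cancel]; rfl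

/-- The subgroup of `G_ℚ` fixing the `m`-th roots of unity. -/
def h30_cycKer (m : ℕ) : Subgroup GQ where
  carrier := {σ | ∀ μ : Qb, μ ^ m = 1 → σ μ = μ}
  one_mem' := fun μ _ => rfl
  mul_mem' := fun {σ τ} hσ hτ μ hμ => by
    rw [AlgEquiv.mul_apply, hτ μ hμ, hσ μ hμ]
  inv_mem' := fun {σ} hσ μ hμ => by
    have h := hσ μ hμ
    have h2 : σ⁻¹ (σ μ) = μ := h30_inv_apply σ μ
    rw [h] at h2
    exact h2

theorem h30_mem_cycKer (m : ℕ) (σ : GQ) :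
    σ ∈ h30_cycKer m ↔ ∀ μ : Qb, μ ^ m = 1 → σ μ = μ := Iff.rfl

theorem h30_cycKer_normal (m : ℕ) : (h30_cycKer m).Normal := by
  refine ⟨fun σ hσ g μ hμ => ?_⟩
  have h1 : (g⁻¹ μ) ^ m = 1 := by rw [← map_pow, hμ, map_one]
  have h2 := hσ _ h1
  rw [AlgEquiv.mul_apply, AlgEquiv.mul_apply, h2, h30_apply_inv]

/-- Every automorphism acts on the `m`-th roots of unity by a power map. -/
theorem h30_exists_pow (m : ℕ) (hm : m ≠ 0) (σ : GQ) :
    ∃ e : ℕ, ∀ μ : Qb, μ ^ m = 1 → σ μ = μ ^ e := by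
  have : NeZero m := ⟨hm⟩
  have : NeZero ((m : ℕ) : Qb) := ⟨Nat.cast_ne_zero.mpr hm⟩
  obtain ⟨ζ, hζ⟩ := HasEnoughRootsOfUnity.exists_primitiveRoot Qb m
  have h1 : (σ ζ) ^ m = 1 := by rw [← map_pow, hζ.pow_eq_one, map_one]
  obtain ⟨e, -, he⟩ := hζ.eq_pow_of_pow_eq_one h1
  refine ⟨e, fun μ hμ => ?_⟩
  obtain ⟨j, -, hj⟩ := hζ.eq_pow_of_pow_eq_one hμ
  rw [← hj, map_pow, ← he, ← pow_mul, ← pow_mul, mul_comm]

theorem h30_cycKer_comm (m : ℕ) (hm : m ≠ 0) (a b : GQ) :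
    a * b * a⁻¹ * b⁻¹ ∈ h30_cycKer m := by
  intro μ hμ
  obtain ⟨ea, hea⟩ := h30_exists_pow m hm a
  obtain ⟨eb, heb⟩ := h30_exists_pow m hm b
  have hcomm : ∀ ν : Qb, ν ^ m = 1 → a (b ν) = b (a ν) := by
    intro ν hν
    have h1 : (ν ^ eb) ^ m = 1 := by rw [← pow_mul, mul_comm, pow_mul, hν, one_pow]
    have h2 : (ν ^ ea) ^ m = 1 := by rw [← pow_mul, mul_comm, pow_mul, hν, one_pow]
    rw [heb ν hν, hea _ h1, hea ν hν, heb _ h2, ← pow_mul, ← pow_mul, mul_comm]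
  have hν : (a⁻¹ (b⁻¹ μ)) ^ m = 1 := by rw [← map_pow, ← map_pow, hμ, map_one, map_one]
  have h3 := hcomm _ hν
  rw [AlgEquiv.mul_apply, AlgEquiv.mul_apply, AlgEquiv.mul_apply, h3, h30_apply_inv,
    h30_apply_inv]

variable {k : Type*} [Field k]

/-- Two automorphisms agreeing on a common level of `ρ` and `ψ` have the same `ρ` and `ψ`. -/
theorem h30_agree_on_level (ρ : GQ →* GL (Fin 2) k) (ψ : GQ → Matrix (Fin 2) (Fin 2) k)
    (hψ : h66_IsCocycle ρ ψ) (L : IntermediateField ℚ Qb)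
    (hρL : ∀ σ : GQ, (∀ x ∈ L, σ x = x) → ρ σ = 1)
    (hψL : ∀ σ : GQ, (∀ x ∈ L, σ x = x) → ψ σ = 0)
    (g h : GQ) (hgh : ∀ x ∈ L, g x = h x) : ρ g = ρ h ∧ ψ g = ψ h := by
  have hfix : ∀ x ∈ L, (h⁻¹ * g) x = x := fun x hx => by
    rw [AlgEquiv.mul_apply, hgh x hx, h30_inv_apply]
  have e : g = h * (h⁻¹ * g) := by group
  constructor
  · conv_lhs => rw [e]
    rw [map_mul, hρL _ hfix, mul_one]
  · conv_lhs => rw [e]
    rw [hψ.2, hψL _ hfix, h66_act_eq_h30, h30_act_zero, add_zero]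

/-- A cocycle which is a coboundary at `φ` is a coboundary on the powers of `φ`. -/
theorem h30_cobdry_pow (ρ : GQ →* GL (Fin 2) k) (ψ : GQ → Matrix (Fin 2) (Fin 2) k)
    (hψ : h66_IsCocycle ρ ψ) (φ : GQ) (w : Matrix (Fin 2) (Fin 2) k)
    (h : ψ φ = h66_act (ρ φ) w - w) (j : ℕ) : ψ (φ ^ j) = h66_act (ρ (φ ^ j)) w - w := by
  simp only [h66_act_eq_h30] at h ⊢
  induction j with
  | zero =>
    have h1 := hψ.2 1 1
    rw [mul_one, map_one, h66_act_eq_h30, h30_act_one] at h1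
    rw [pow_zero, map_one, h30_act_one, sub_self]
    exact left_eq_add.mp h1
  | succ j ih =>
    rw [pow_succ, hψ.2, ih, h, h66_act_eq_h30, map_mul, h30_act_sub, ← h30_act_mul]
    abel

/-- If a power of `g` is regular of determinant one, then `g` is regular. -/
theorem h30_regular_of_pow (h2 : (2 : k) ≠ 0) (g : Matrix (Fin 2) (Fin 2) k) (b : ℕ)
    (hdet : (g ^ b).det = 1) (hreg : (g ^ b).trace ^ 2 ≠ 4) : g.trace ^ 2 ≠ 4 * g.det := by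
  intro h
  obtain ⟨α, hα⟩ : ∃ α : k, α = g.trace / 2 := ⟨_, rfl⟩
  obtain ⟨N, hN⟩ : ∃ N : Matrix (Fin 2) (Fin 2) k, N = g - α • (1 : Matrix (Fin 2) (Fin 2) k) :=
    ⟨_, rfl⟩
  have hNN : N * N = 0 := by
    rw [Matrix.trace_fin_two, Matrix.det_fin_two] at h
    rw [Matrix.trace_fin_two] at hα
    have h00 : N 0 0 = (g 0 0 - g 1 1) / 2 := by rw [hN, hα]; simp; field_simp; ring
    have h01 : N 0 1 = g 0 1 := by rw [hN]; simp
    have h10 : N 1 0 = g 1 0 := by rw [hN]; simp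
    have h11 : N 1 1 = (g 1 1 - g 0 0) / 2 := by rw [hN, hα]; simp; field_simp; ring
    ext i j; fin_cases i <;> fin_cases j <;>
      simp [Matrix.mul_apply, Fin.sum_univ_two, h00, h01, h10, h11] <;> field_simp <;>
      first | ring1 | linear_combination h
  by_cases hN0 : N = 0
  · have hg : g = α • (1 : Matrix (Fin 2) (Fin 2) k) := by
      rw [hN0] at hN
      exact sub_eq_zero.mp hN.symm
    apply hreg
    rw [hg, smul_pow, one_pow] at hdet ⊢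
    rw [Matrix.det_smul, Matrix.det_one, mul_one, Fintype.card_fin] at hdet
    rw [Matrix.trace_smul, Matrix.trace_one, Fintype.card_fin, smul_eq_mul]
    push_cast
    linear_combination 4 * hdet
  · have hc : g ^ b * N = N * g ^ b := by
      have h1 : Commute g N := by
        rw [hN]
        exact (Commute.refl g).sub_right ((Commute.one_right g).smul_right α)
      exact (h1.pow_left b).eq
    exact hreg (h30_trace_sq_of_commute_nilpotent (g ^ b) N hdet hN0 hNN hc)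

/-- **G8-CORE**: one Taylor–Wiles prime (with one Frobenius) for one class. -/
theorem h30_tw_core [Finite k] {p : ℕ} [Fact p.Prime] [CharP k p] (hp2 : p ≠ 2)
    (K : Type*) [Field K] [Algebra k K] [IsAlgClosed K]
    (ρ : GQ →* GL (Fin 2) k)
    (hlev : ∃ L : IntermediateField ℚ Qb, FiniteDimensional ℚ L ∧
      ∀ σ : GQ, (∀ x ∈ L, σ x = x) → ρ σ = 1)
    (hcyc : ∀ (σ : GQ) (a : ℕ), (∀ μ : Qb, μ ^ p = 1 → σ μ = μ ^ a) →
      ((Matrix.GeneralLinearGroup.det (ρ σ) : kˣ) : k) = (a : k))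
    (hTW : ∀ H : Subgroup GQ, H.index = 2 → h66_NoLine ρ K H)
    (hdetρ : ∀ z : ZMod p, z ≠ 0 → ∃ γ : GQ,
      ((Matrix.GeneralLinearGroup.det (ρ γ) : kˣ) : k) = ZMod.castHom (dvd_refl p) k z)
    (n : ℕ) (B : Finset ℕ) (ψ : GQ → Matrix (Fin 2) (Fin 2) k) (hψ : h66_IsCocycle ρ ψ)
    (hψlev : ∃ L : IntermediateField ℚ Qb, FiniteDimensional ℚ L ∧
      ∀ σ : GQ, (∀ x ∈ L, σ x = x) → ψ σ = 0)
    (hnc : ¬ h66_IsCobdry ρ ψ) :
    ∃ (q : ℕ) (A : ValuationSubring Qb) (φ : GQ), q.Prime ∧ q ∉ B ∧ p ^ (n + 1) ∣ q - 1 ∧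
      A.LiesOverPrime q ∧ A.IsFrobeniusAt φ q ∧
      ((ρ φ : GL (Fin 2) k) : Matrix (Fin 2) (Fin 2) k).trace ^ 2 ≠
        4 * ((ρ φ : GL (Fin 2) k) : Matrix (Fin 2) (Fin 2) k).det ∧
      ∀ w : Matrix (Fin 2) (Fin 2) k, w.trace = 0 → ψ φ ≠ h66_act (ρ φ) w - w := by
  have hp : p.Prime := Fact.out
  have h2 : (2 : k) ≠ 0 := by
    intro h
    have h2' : ((2 : ℕ) : k) = 0 := by exact_mod_cast h
    have := (CharP.cast_eq_zero_iff k p 2).mp h2'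
    exact hp2 ((Nat.prime_dvd_prime_iff_eq hp Nat.prime_two).mp this)
  have hm : p ^ (n + 1) ≠ 0 := pow_ne_zero _ hp.ne_zero
  -- the subgroup `Γn`
  have hnormal : (h30_cycKer (p ^ (n + 1))).Normal := h30_cycKer_normal _
  have hdetN : ∀ σ ∈ h30_cycKer (p ^ (n + 1)), Matrix.GeneralLinearGroup.det (ρ σ) = 1 := by
    intro σ hσ
    apply Units.ext
    rw [hcyc σ 1 (fun μ hμ => by
      rw [pow_one]
      exact hσ μ (by rw [pow_succ, mul_comm, pow_mul, hμ, one_pow])), Nat.cast_one, Units.val_one]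
  obtain ⟨σ, hσN, hσreg, -, hσnc⟩ := h66_tw_final hp2 K ρ hTW h30_exists_index_two hdetρ
    (h30_cycKer (p ^ (n + 1))) (h30_cycKer_comm _ hm) hdetN ψ hψ hnc
  -- the level
  obtain ⟨L₀, hL₀, hρL₀⟩ := hlev
  obtain ⟨L₁, hL₁, hψL₁⟩ := hψlev
  have : NeZero (p ^ (n + 1)) := ⟨hm⟩
  have : NeZero ((p ^ (n + 1) : ℕ) : Qb) := ⟨Nat.cast_ne_zero.mpr hm⟩
  obtain ⟨ζ, hζ⟩ := HasEnoughRootsOfUnity.exists_primitiveRoot Qb (p ^ (n + 1))
  obtain ⟨L, hLfin, hLgal, hL₀L, hL₁L, hζL⟩ :=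
    Fermat.Agent.GAL.h65_exists_galois_level L₀ L₁ hL₀ hL₁ ζ
  have hρL : ∀ τ : GQ, (∀ x ∈ L, τ x = x) → ρ τ = 1 :=
    fun τ hτ => hρL₀ τ (fun x hx => hτ x (hL₀L hx))
  have hψL : ∀ τ : GQ, (∀ x ∈ L, τ x = x) → ψ τ = 0 :=
    fun τ hτ => hψL₁ τ (fun x hx => hτ x (hL₁L hx))
  -- Chebotarev
  obtain ⟨ℓ, A, φ, a, b, hℓ, hℓB, hA, hφ, hφa, hφb⟩ :=
    Fermat.Agent.GAL.gal_weak_chebotarev L σ (insert p B)
  have hℓp : ℓ ≠ p := fun h => hℓB (h ▸ Finset.mem_insert_self p B)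
  have hℓB' : ℓ ∉ B := fun h => hℓB (Finset.mem_insert_of_mem h)
  obtain ⟨hρa, -⟩ := h30_agree_on_level ρ ψ hψ L hρL hψL φ (σ ^ a) hφa
  obtain ⟨hρb, hψb⟩ := h30_agree_on_level ρ ψ hψ L hρL hψL (φ ^ b) σ hφb
  refine ⟨ℓ, A, φ, hℓ, hℓB', ?_, hA, hφ, ?_, ?_⟩
  · -- `p^(n+1) ∣ ℓ - 1`
    have hnd : ¬ ℓ ∣ p ^ (n + 1) := by
      intro h
      exact hℓp ((Nat.prime_dvd_prime_iff_eq hℓ hp).mp (hℓ.dvd_of_dvd_pow h))
    have hfix : φ ζ = ζ := by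
      rw [hφa ζ hζL]
      exact (Subgroup.pow_mem _ hσN a) ζ hζ.pow_eq_one
    exact Fermat.Agent.GAL.h14_dvd_sub_one_of_frob_fix A ℓ (p ^ (n + 1)) hℓ hA hnd φ hφ ζ hζ hfix
  · -- regularity
    have e : ((ρ φ : GL (Fin 2) k) : Matrix (Fin 2) (Fin 2) k) ^ b =
        ((ρ σ : GL (Fin 2) k) : Matrix (Fin 2) (Fin 2) k) := by
      rw [← Units.val_pow_eq_pow_val, ← map_pow, hρb]
    apply h30_regular_of_pow h2 _ b
    · rw [e]
      have := congrArg (fun u : kˣ => (u : k)) (hdetN σ hσN)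
      simpa using this
    · rw [e]; exact hσreg
  · intro w hw hcob
    have h1 := h30_cobdry_pow ρ ψ hψ φ w hcob b
    rw [hψb, hρb] at h1
    exact hσnc w hw h1

end Fermat.Agent.S56
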