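import Fermat.Agent.S56.h12_MidDefs
import Fermat.Agent.S56.h81_TWCheb
import Fermat.Agent.S56.h30_TWCore
import Fermat.Agent.S56.h30_TW1

set_option autoImplicit false

/-!
# S56 / W4, row TW1 (frozen hypotheses): one Taylor–Wiles prime for a nonzero class

`h12_TW1` is the row statement of helper12's MID skeleton, verbatim: for a cocycle
`ψ ∈ Z¹(G_{S₀}, ad⁰ρ̄(1))` which is not a coboundary, every `n` and every finite set `B`, there is
a Taylor–Wiles prime `q ∉ B` of level `n` at which `ψ` is non-trivial at every Frobenius lift.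
-/

namespace Fermat.Agent.S56

open Fermat.Agent.S53 Fermat.Agent.S53.Dict groupCohomology

local notation "M₂[" k "]" => Matrix (Fin 2) (Fin 2) k

/-- `det g • (g X g⁻¹) = g X adj(g)`. -/
theorem h30_act_eq_adjugate {k : Type*} [Field k] (g : GL (Fin 2) k) (X : M₂[k]) :
    h30_act g X = (g : M₂[k]) * X * (g : M₂[k]).adjugate := by
  have hdet : (g : M₂[k]).det ≠ 0 := by
    have := (Matrix.GeneralLinearGroup.det g).ne_zero
    rwa [Matrix.GeneralLinearGroup.val_det_apply] at this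
  rw [h30_act, Matrix.coe_units_inv, Matrix.inv_def, Ring.inverse_eq_inv',
    Matrix.GeneralLinearGroup.val_det_apply, Matrix.mul_smul, smul_smul, mul_inv_cancel₀ hdet,
    one_smul]

section Top

open Polynomial IsLocalRing ResidualGaloisRep

variable {𝒪 : Type} [CommRing 𝒪] [IsDomain 𝒪] [IsDiscreteValuationRing 𝒪]
  [IsAdicComplete (maximalIdeal 𝒪) 𝒪] [Finite (ResidueField 𝒪)]

/-- (TW1) one Taylor-Wiles prime for a nonzero class of `H¹(G_{S₀}, ad⁰(1))`. -/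
theorem h12_TW1 (p : ℕ) [Fact p.Prime] (hp2 : p ≠ 2) (hp𝒪 : (p : 𝒪) ∈ maximalIdeal 𝒪)
    (ρbar : ResidualGaloisRep (ResidueField 𝒪))
    (habs : ρbar.IsAbsolutelyIrreducible)
    (hdet : (GaloisRepAdic.ofResidualGaloisRep ρbar).DetIsCyclotomic p)
    (hsplit : ∀ σ : AlgebraicClosure ℚ ≃ₐ[ℚ] AlgebraicClosure ℚ,
      ∃ α β : ResidueField 𝒪, LinearMap.charpoly (ρbar.ρ σ) = (X - C α) * (X - C β))
    (hTW : ∀ (K : Type) [Field K] [Algebra (ResidueField 𝒪) K]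
      (G : Subgroup (AlgebraicClosure ℚ ≃ₐ[ℚ] AlgebraicClosure ℚ)), G.index = 2 →
      ∀ V : Submodule K (ρbar.baseChange K).V,
        (∀ σ ∈ G, ∀ x ∈ V, (ρbar.baseChange K).ρ σ x ∈ V) → V = ⊥ ∨ V = ⊤)
    (bbar : Module.Basis (Fin 2) (ResidueField 𝒪) ρbar.V)
    (S₀ : Finset Nat.Primes) (n : ℕ) (B : Finset ℕ)
    (ψ : GQ → M₂[ResidueField 𝒪]) (hψ : ψ ∈ h12_ZN (resMat ρbar bbar) S₀)
    (hψB : ψ ∉ h12_BN (resMat ρbar bbar)) :
    ∃ q : ℕ, q ∉ B ∧ h12_IsTWPrime p n (resMat ρbar bbar) q ∧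
      h12_FrobNonCob (resMat ρbar bbar) ψ q := by
  classical
  have hchar : CharP (ResidueField 𝒪) p := h30_charP ρbar hdet
  obtain ⟨htr, hcoc, hlevS⟩ := hψ
  -- dictionary to the `GL₂` language
  have hact : ∀ (σ : GQ) (Y : M₂[ResidueField 𝒪]),
      h12_act (resMat ρbar bbar σ) Y = h66_act (h30_rbGL ρbar bbar σ) Y := by
    intro σ Y
    rw [h66_act_eq_h30, h30_act_eq_adjugate]
    rfl
  have hψ66 : h66_IsCocycle (h30_rbGL ρbar bbar) ψ :=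
    ⟨htr, fun σ τ => by rw [hcoc σ τ, hact]⟩
  have hnc : ¬ h66_IsCobdry (h30_rbGL ρbar bbar) ψ := by
    rintro ⟨w, hw, h⟩
    exact hψB ⟨w, hw, fun σ => by rw [h σ, hact]⟩
  -- levels
  obtain ⟨L₀, hL₀, hρL₀⟩ := h30_rbGL_level ρbar bbar
  obtain ⟨F, hF, hFc⟩ := hlevS
  have hFfin : FiniteDimensional ℚ F := hF.1
  have h1 : ψ 1 = 0 := by
    have h := hcoc 1 1
    rw [mul_one, map_one] at h
    have e : h12_act (1 : M₂[ResidueField 𝒪]) (ψ 1) = ψ 1 := by simp [h12_act]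
    rw [e] at h
    exact left_eq_add.mp h
  have hψF : ∀ σ : GQ, (∀ x ∈ F, σ x = x) → ψ σ = 0 := by
    intro σ hσ
    have hmem : σ ∈ F.fixingSubgroup := by
      rw [IntermediateField.mem_fixingSubgroup_iff]
      exact hσ
    have := hFc 1 σ hmem
    rw [one_mul, h1] at this
    exact this
  obtain ⟨D₀, hD₀0, hD₀⟩ := h81_exists_unram L₀
  obtain ⟨D₁, hD₁0, hD₁⟩ := h81_exists_unram F
  obtain ⟨q, A, φ, hq, hqB, hqn, hA, hφ, hreg, hφnc⟩ :=
    h30_tw_core hp2 (AlgebraicClosure (ResidueField 𝒪)) (h30_rbGL ρbar bbar) ⟨L₀, hL₀, hρL₀⟩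
      (fun σ a ha => h30_det_of_cyclo ρbar bbar hdet σ a ha)
      (fun H hH => h30_noLine_of_irr ρbar bbar H _ (hTW _ H hH))
      (fun z hz => h30_det_surj ρbar bbar hdet z hz)
      n (B ∪ D₀.primeFactors ∪ D₁.primeFactors) ψ hψ66 ⟨F, hFfin, hψF⟩ hnc
  have hqB' : q ∉ B := fun h => hqB (Finset.mem_union_left _ (Finset.mem_union_left _ h))
  have hqD₀ : ¬ q ∣ D₀ := fun h =>
    hqB (Finset.mem_union_left _ (Finset.mem_union_right _
      (Nat.mem_primeFactors.mpr ⟨hq, h, hD₀0⟩)))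
  have hqD₁ : ¬ q ∣ D₁ := fun h =>
    hqB (Finset.mem_union_right _ (Nat.mem_primeFactors.mpr ⟨hq, h, hD₁0⟩))
  have hunr : ∀ A : ValuationSubring (AlgebraicClosure ℚ), A.LiesOverPrime q →
      ∀ σ ∈ A.inertiaSubgroupIn ℚ, h30_rbGL ρbar bbar σ = 1 ∧ ψ σ = 0 :=
    fun A hA σ hσ => ⟨hρL₀ σ (hD₀ q hq hqD₀ A hA σ hσ), hψF σ (hD₁ q hq hqD₁ A hA σ hσ)⟩
  have hup := h30_tw1_upgrade ρbar bbar hsplit ψ hψ66 q hq hunr A φ hA hφ hreg hφnc
  refine ⟨q, hqB', ⟨hq, hqn, fun P hP φ' hφ' => ?_⟩, fun P hP φ' hφ' Y hY => ?_⟩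
  · obtain ⟨α, β, hαβ, h⟩ := (hup P hP φ' hφ').1
    exact ⟨α, β, hαβ, by rw [h30_resMat_charpoly, h]⟩
  · rw [hact]
    exact (hup P hP φ' hφ').2 Y hY

end Top

end Fermat.Agent.S56
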