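import Fermat.Agent.S56.h30_TWDefs

set_option autoImplicit false

/-!
# S56 / W4, row A: averaging

A cocycle that vanishes on a subgroup `P` of index prime to `p = char k` is a coboundary.
-/

namespace Fermat.Agent.S56

open Matrix

variable {k : Type*} [Field k]

theorem h30_avg [Finite k] {p : ℕ} [Fact p.Prime] [CharP k p]
    (G P : Subgroup (GL (Fin 2) k)) (hPG : P ≤ G)
    (hidx : ¬ p ∣ (P.subgroupOf G).index)
    (c : GL (Fin 2) k → Matrix (Fin 2) (Fin 2) k) (hc : h30_IsCocycle G c)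
    (hP : ∀ g ∈ P, c g = 0) : h30_IsCobdry G c := by
  classical
  have : Fintype k := Fintype.ofFinite k
  have : Fintype (↥G ⧸ P.subgroupOf G) := Fintype.ofFinite _
  set m : ℕ := (P.subgroupOf G).index with hm_def
  have hm : (m : k) ≠ 0 := fun h => hidx ((CharP.cast_eq_zero_iff k p m).mp h)
  have hcard : Fintype.card (↥G ⧸ P.subgroupOf G) = m := by
    rw [hm_def, Subgroup.index, Nat.card_eq_fintype_card]
  set s : Matrix (Fin 2) (Fin 2) k :=
    ∑ q : ↥G ⧸ P.subgroupOf G, c ((Quotient.out q : ↥G) : GL (Fin 2) k) with hs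
  have hinv : ∀ x ∈ G, ∀ u ∈ P, c (x * u) = c x := by
    intro x hx u hu
    rw [hc.map_mul x hx u (hPG hu), hP u hu, h30_act_zero, add_zero]
  have hkey : ∀ h : ↥G, ∑ q : ↥G ⧸ P.subgroupOf G,
      c ((h : GL (Fin 2) k) * ((Quotient.out q : ↥G) : GL (Fin 2) k)) = s := by
    intro h
    have h1 : ∀ q : ↥G ⧸ P.subgroupOf G,
        c ((h : GL (Fin 2) k) * ((Quotient.out q : ↥G) : GL (Fin 2) k)) =
          c ((Quotient.out (h • q) : ↥G) : GL (Fin 2) k) := by
      intro q
      have hq : h • q = ((h * Quotient.out q : ↥G) : ↥G ⧸ P.subgroupOf G) := by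
        conv_lhs => rw [← QuotientGroup.out_eq' q]
        rfl
      obtain ⟨u, hu⟩ := QuotientGroup.mk_out_eq_mul (P.subgroupOf G) (h * Quotient.out q)
      rw [hq, hu]
      have hu' : ((u : ↥G) : GL (Fin 2) k) ∈ P := Subgroup.mem_subgroupOf.mp u.2
      have := hinv ((h : GL (Fin 2) k) * ((Quotient.out q : ↥G) : GL (Fin 2) k))
        (G.mul_mem h.2 (Quotient.out q).2) _ hu'
      simpa using this.symm
    rw [Finset.sum_congr rfl (fun q _ => h1 q), hs]
    exact Fintype.sum_equiv (MulAction.toPerm h) _ _ (fun q => rfl)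
  have hsum : ∀ h ∈ G, s = (m : k) • c h + h30_act h s := by
    intro h hh
    have e := hkey ⟨h, hh⟩
    have h2 : ∀ q : ↥G ⧸ P.subgroupOf G,
        c (h * ((Quotient.out q : ↥G) : GL (Fin 2) k)) =
          c h + h30_act h (c ((Quotient.out q : ↥G) : GL (Fin 2) k)) :=
      fun q => hc.map_mul h hh _ (Quotient.out q).2
    calc s = ∑ q : ↥G ⧸ P.subgroupOf G, c (h * ((Quotient.out q : ↥G) : GL (Fin 2) k)) := e.symm
      _ = ∑ q : ↥G ⧸ P.subgroupOf G,
            (c h + h30_act h (c ((Quotient.out q : ↥G) : GL (Fin 2) k))) :=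
          Finset.sum_congr rfl (fun q _ => h2 q)
      _ = (m : k) • c h + h30_act h s := by
          rw [Finset.sum_add_distrib, Finset.sum_const, Finset.card_univ, hcard, ← h30_act_sum,
            Nat.cast_smul_eq_nsmul]
  refine ⟨-((m : k)⁻¹ • s), ?_, fun h hh => ?_⟩
  · rw [Matrix.trace_neg, Matrix.trace_smul, hs, Matrix.trace_sum]
    rw [Finset.sum_eq_zero (fun q _ => hc.trace_zero _ (Quotient.out q).2)]
    simp
  · have h3 := hsum h hh
    rw [h30_act_neg, h30_act_smul]
    have h4 : (m : k) • c h = s - h30_act h s := by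
      rw [eq_sub_iff_add_eq]; exact h3.symm
    have h5 : c h = (m : k)⁻¹ • (s - h30_act h s) := by
      rw [← h4, smul_smul, inv_mul_cancel₀ hm, one_smul]
    rw [h5, smul_sub]; abel

end Fermat.Agent.S56
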