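import Fermat.Agent.S56.h30_TWNormal
import Fermat.Agent.S56.h30_TWTrace

set_option autoImplicit false

/-!
# S56 / W4, row D: the case `|A| ≥ p²`

With the cocycle in normal form on `U_A` and ONE lower unipotent `l = l_{y₀} ∈ G`, the trace
constraint for the elements `u_x l` forces `c₀ = 0` and `a₁ x = e x`.
-/

namespace Fermat.Agent.S56

open Matrix

variable {k : Type*} [Field k]

/-- The constraint (★') coming from `g = u_x l_{y₀}`. -/
theorem h30_star [Finite k] {p : ℕ} [Fact p.Prime] [CharP k p]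
    (G : Subgroup (GL (Fin 2) k))
    (c : GL (Fin 2) k → Matrix (Fin 2) (Fin 2) k) (hc : h30_IsCocycle G c) (c₀ : k) (a₁ : k → k)
    (y₀ : k) (hl : h30_l y₀ ∈ G) (x : k) (hx : h30_u x ∈ G)
    (hnf : c (h30_u x) = h30_nf c₀ a₁ x) (h0 : x * y₀ ≠ 0) (h4 : x * y₀ ≠ -4) :
    c₀ * x ^ 2 / 2 * (x * y₀) - c₀ * x ^ 3 / 3 * y₀ + c₀ * x ^ 2 + a₁ x * y₀
      + c (h30_l y₀) 0 1 * y₀ + x * (c (h30_l y₀) 1 0 - c (h30_l y₀) 0 0 * y₀) = 0 := by
  have hg : h30_u x * h30_l y₀ ∈ G := G.mul_mem hx hl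
  have hmat : ((h30_u x * h30_l y₀ : GL (Fin 2) k) : Matrix (Fin 2) (Fin 2) k) =
      !![1 + x * y₀, x; y₀, 1] := by
    rw [Units.val_mul, h30_u_coe, h30_l_coe, Matrix.mul_fin_two]
    ext i j; fin_cases i <;> fin_cases j <;> simp
  have hdet : Matrix.GeneralLinearGroup.det (h30_u x * h30_l y₀) = 1 := by
    rw [map_mul, h30_det_u, h30_det_l, one_mul]
  have htr : ((h30_u x * h30_l y₀ : GL (Fin 2) k) : Matrix (Fin 2) (Fin 2) k).trace ^ 2 ≠ 4 := by
    rw [hmat, Matrix.trace_fin_two]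
    simp only [Matrix.of_apply, Matrix.cons_val', Matrix.cons_val_zero, Matrix.cons_val_one,
      Matrix.cons_val_fin_one]
    intro h
    have : (x * y₀) * (x * y₀ + 4) = 0 := by linear_combination h
    rcases mul_eq_zero.mp this with h' | h'
    · exact h0 h'
    · exact h4 (by linear_combination h')
  have key := h30_trace_constraint G c hc _ hg hdet htr
  rw [hc.map_mul _ hx _ hl, hnf, h30_act_u, hmat] at key
  have ht := hc.trace_zero _ hl
  rw [Matrix.trace_fin_two] at ht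
  have h11 : c (h30_l y₀) 1 1 = -c (h30_l y₀) 0 0 := by linear_combination ht
  rw [h11] at key
  simp only [h30_nf, Matrix.trace_fin_two, Matrix.mul_apply, Fin.sum_univ_two, Matrix.add_apply,
    Matrix.of_apply, Matrix.cons_val', Matrix.cons_val_zero, Matrix.cons_val_one,
    Matrix.cons_val_fin_one] at key
  linear_combination key

/-- **Row D.** The case where `A` contains an element `x₁` with `x₁ y₀` outside the prime field. -/
theorem h30_big_case [Finite k] {p : ℕ} [Fact p.Prime] [CharP k p] (hp2 : p ≠ 2)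
    (G : Subgroup (GL (Fin 2) k)) (A : AddSubgroup k) (hA : ∀ x ∈ A, h30_u x ∈ G)
    (c : GL (Fin 2) k → Matrix (Fin 2) (Fin 2) k) (hc : h30_IsCocycle G c) (c₀ : k) (a₁ : k → k)
    (ha₁ : ∀ x ∈ A, ∀ y ∈ A, a₁ (x + y) = a₁ x + a₁ y) (hc₀3 : p = 3 → c₀ = 0)
    (hnf : ∀ x ∈ A, c (h30_u x) = h30_nf c₀ a₁ x)
    (y₀ : k) (hy₀ : y₀ ≠ 0) (hl : h30_l y₀ ∈ G)
    (x₁ : k) (hx₁ : x₁ ∈ A) (hx₁y : ∀ z : ZMod p, x₁ * y₀ ≠ ZMod.castHom (dvd_refl p) k z) :
    c₀ = 0 ∧ ∃ e : k, ∀ x ∈ A, a₁ x = e * x := by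
  have hgen : ∀ x : k, (∀ z : ZMod p, x * y₀ ≠ ZMod.castHom (dvd_refl p) k z) → ∀ j : ℕ,
      (j : k) ≠ 0 → ((j : k) * x) * y₀ ≠ 0 ∧ ((j : k) * x) * y₀ ≠ -4 := by
    intro x hx j hj
    constructor
    · intro h
      have hxy : x * y₀ = 0 := by
        rw [mul_assoc] at h
        exact (mul_eq_zero.mp h).resolve_left hj
      exact hx 0 (by rw [hxy, map_zero])
    · intro h
      apply hx ((-4 : ZMod p) / (j : ZMod p))
      rw [map_div₀, map_neg, map_natCast, map_ofNat, eq_div_iff hj]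
      linear_combination h
  have ha₁0 : a₁ 0 = 0 := by
    have := ha₁ 0 A.zero_mem 0 A.zero_mem
    rw [add_zero] at this
    exact left_eq_add.mp this
  have hmul : ∀ (j : ℕ) (x : k), x ∈ A → (j : k) * x ∈ A ∧ a₁ ((j : k) * x) = j * a₁ x := by
    intro j x hx
    induction j with
    | zero => simp [A.zero_mem, ha₁0]
    | succ j ih =>
      have e : ((j + 1 : ℕ) : k) * x = (j : k) * x + x := by push_cast; ring
      rw [e]
      refine ⟨A.add_mem ih.1 hx, ?_⟩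
      rw [ha₁ _ ih.1 _ hx, ih.2]; push_cast; ring
  have star : ∀ x ∈ A, (∀ z : ZMod p, x * y₀ ≠ ZMod.castHom (dvd_refl p) k z) → ∀ j : ℕ,
      (j : k) ≠ 0 →
      c₀ * ((j : k) * x) ^ 2 / 2 * (((j : k) * x) * y₀) - c₀ * ((j : k) * x) ^ 3 / 3 * y₀
        + c₀ * ((j : k) * x) ^ 2 + (j : k) * a₁ x * y₀
        + c (h30_l y₀) 0 1 * y₀
        + ((j : k) * x) * (c (h30_l y₀) 1 0 - c (h30_l y₀) 0 0 * y₀) = 0 := by
    intro x hx hxg j hj
    obtain ⟨h0, h4⟩ := hgen x hxg j hj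
    have hjx := hmul j x hx
    have := h30_star G c hc c₀ a₁ y₀ hl ((j : k) * x) (hA _ hjx.1) (hnf _ hjx.1) h0 h4
    rw [hjx.2] at this
    exact this
  have h2 : (2 : k) ≠ 0 := h30_two_ne_zero hp2
  have hc₀ : c₀ = 0 := by
    by_cases hp3 : p = 3
    · exact hc₀3 hp3
    have h3 : (3 : k) ≠ 0 := h30_three_ne_zero hp3
    have hx₁0 : x₁ ≠ 0 := fun h => hx₁y 0 (by rw [h, zero_mul, map_zero])
    have h4 : (4 : k) ≠ 0 := by
      have : (4 : k) = 2 * 2 := by norm_num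
      rw [this]; exact mul_ne_zero h2 h2
    have E1 := star x₁ hx₁ hx₁y 1 (by simp)
    have E2 := star x₁ hx₁ hx₁y 2 (by simpa using h2)
    have E3 := star x₁ hx₁ hx₁y 3 (by simpa using h3)
    have E4 := star x₁ hx₁ hx₁y 4 (by simpa using h4)
    push_cast at E1 E2 E3 E4
    have h2i : (2 : k) * 2⁻¹ = 1 := mul_inv_cancel₀ h2
    have h3i : (3 : k) * 3⁻¹ = 1 := mul_inv_cancel₀ h3
    have e5 : c₀ * x₁ ^ 3 * y₀ = 0 := by
      linear_combination E4 - 3 * E3 + 3 * E2 - E1 - 3 * c₀ * x₁ ^ 3 * y₀ * h2i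
        + 2 * c₀ * x₁ ^ 3 * y₀ * h3i
    rcases mul_eq_zero.mp e5 with h | h
    · exact (mul_eq_zero.mp h).resolve_right (pow_ne_zero 3 hx₁0)
    · exact absurd h hy₀
  refine ⟨hc₀, (c (h30_l y₀) 0 0 * y₀ - c (h30_l y₀) 1 0) / y₀, ?_⟩
  have hgenlin : ∀ x ∈ A, (∀ z : ZMod p, x * y₀ ≠ ZMod.castHom (dvd_refl p) k z) →
      a₁ x = (c (h30_l y₀) 0 0 * y₀ - c (h30_l y₀) 1 0) / y₀ * x := by
    intro x hx hxg
    have E1 := star x hx hxg 1 (by simp)
    have E2 := star x hx hxg 2 (by simpa using h2)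
    rw [hc₀] at E1 E2
    push_cast at E1 E2
    have e6 : a₁ x * y₀ = (c (h30_l y₀) 0 0 * y₀ - c (h30_l y₀) 1 0) * x := by
      linear_combination E2 - E1
    rw [div_mul_eq_mul_div, eq_div_iff hy₀]
    exact e6
  intro x hx
  by_cases hxg : ∀ z : ZMod p, x * y₀ ≠ ZMod.castHom (dvd_refl p) k z
  · exact hgenlin x hx hxg
  · push Not at hxg
    obtain ⟨z, hz⟩ := hxg
    have hx' : x - x₁ ∈ A := A.sub_mem hx hx₁
    have hg' : ∀ z' : ZMod p, (x - x₁) * y₀ ≠ ZMod.castHom (dvd_refl p) k z' := by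
      intro z' h
      apply hx₁y (z - z')
      rw [map_sub, ← hz, ← h]; ring
    have e7 := ha₁ (x - x₁) hx' x₁ hx₁
    rw [sub_add_cancel] at e7
    rw [e7, hgenlin _ hx' hg', hgenlin _ hx₁ hx₁y]; ring

end Fermat.Agent.S56
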