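import Fermat.Agent.S56.h30_TWNP

set_option autoImplicit false

/-!
# S56 / W4, row F2a: `H¹(G, ad⁰(1)) = 0` when a Sylow `p`-subgroup fixes `e₁`

`P ≤ G` a `p`-subgroup of index prime to `p` all of whose elements fix `e₁`, and `g₁ ∈ G` with
`g₁ e₁ = e₂`; the determinants of `G` cover `𝔽_p^×`.
-/

namespace Fermat.Agent.S56

open Matrix

variable {k : Type*} [Field k]

theorem h30_u_pow (x : k) (n : ℕ) : h30_u x ^ n = h30_u ((n : k) * x) := by
  induction n with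
  | zero => simp [h30_u_zero]
  | succ n ih =>
    rw [pow_succ, ih, ← h30_u_add]
    congr 1
    push_cast; ring

/-- An element of `p`-power order fixing `e₁` is upper unitriangular. -/
theorem h30_eq_u_of_pow {p : ℕ} [Fact p.Prime] [CharP k p] (g : GL (Fin 2) k) (n : ℕ)
    (hg : g ^ (p ^ n) = 1)
    (h00 : (g : Matrix (Fin 2) (Fin 2) k) 0 0 = 1) (h10 : (g : Matrix (Fin 2) (Fin 2) k) 1 0 = 0) :
    g = h30_u ((g : Matrix (Fin 2) (Fin 2) k) 0 1) := by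
  have hdet : ((Matrix.GeneralLinearGroup.det g : kˣ) : k) =
      (g : Matrix (Fin 2) (Fin 2) k) 1 1 := by
    rw [Matrix.GeneralLinearGroup.val_det_apply, Matrix.det_fin_two, h00, h10]; ring
  have h1 : ((Matrix.GeneralLinearGroup.det g : kˣ) : k) ^ (p ^ n) = 1 := by
    rw [← Units.val_pow_eq_pow_val, ← map_pow, hg, map_one, Units.val_one]
  have h11 : (g : Matrix (Fin 2) (Fin 2) k) 1 1 = 1 := by
    rw [hdet] at h1
    have h0 : ((g : Matrix (Fin 2) (Fin 2) k) 1 1 - 1) ^ (p ^ n) = 0 := by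
      rw [sub_pow_char_pow, h1, one_pow, sub_self]
    exact sub_eq_zero.mp (pow_eq_zero_iff (pow_ne_zero n (Fact.out : p.Prime).ne_zero) |>.mp h0)
  apply Units.ext
  rw [h30_u_coe]
  ext i j; fin_cases i <;> fin_cases j <;> simp [h00, h10, h11]

/-- Conjugating `u_x` by an element sending `e₁` to `e₂` gives a lower unitriangular element. -/
theorem h30_conj_u_eq_l (g₁ : GL (Fin 2) k)
    (h00 : (g₁ : Matrix (Fin 2) (Fin 2) k) 0 0 = 0) (h10 : (g₁ : Matrix (Fin 2) (Fin 2) k) 1 0 = 1)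
    (x : k) :
    (g₁ : Matrix (Fin 2) (Fin 2) k) 0 1 ≠ 0 ∧
      g₁ * h30_u x * g₁⁻¹ = h30_l (x / (g₁ : Matrix (Fin 2) (Fin 2) k) 0 1) := by
  have hdet : ((Matrix.GeneralLinearGroup.det g₁ : kˣ) : k) =
      -(g₁ : Matrix (Fin 2) (Fin 2) k) 0 1 := by
    rw [Matrix.GeneralLinearGroup.val_det_apply, Matrix.det_fin_two, h00, h10]; ring
  have hβ : (g₁ : Matrix (Fin 2) (Fin 2) k) 0 1 ≠ 0 := by
    intro h
    rw [h, neg_zero] at hdet
    exact (Matrix.GeneralLinearGroup.det g₁).ne_zero hdet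
  refine ⟨hβ, ?_⟩
  rw [mul_inv_eq_iff_eq_mul]
  apply Units.ext
  simp only [Units.val_mul, h30_u_coe, h30_l_coe]
  obtain ⟨N, hN⟩ : ∃ N : Matrix (Fin 2) (Fin 2) k, N = (g₁ : Matrix (Fin 2) (Fin 2) k) := ⟨_, rfl⟩
  rw [← hN] at h00 h10 hβ ⊢
  rw [Matrix.eta_fin_two N, h00, h10]
  ext i j; fin_cases i <;> fin_cases j <;> simp [Matrix.mul_apply, Fin.sum_univ_two]
  field_simp

/-- Frattini: upper triangular elements of `G` realise every determinant of `G`. -/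
theorem h30_frattini [Finite k] {p : ℕ} [Fact p.Prime] [CharP k p]
    (G P : Subgroup (GL (Fin 2) k)) (hP : IsPGroup p P)
    (hidx : ¬ p ∣ P.relIndex G)
    (hPU : ∀ g ∈ P, ∃ x : k, g = h30_u x)
    (x : k) (hx : x ≠ 0) (hxG : h30_u x ∈ G)
    (g : GL (Fin 2) k) (hg : g ∈ G) :
    ∃ n ∈ G, (n : Matrix (Fin 2) (Fin 2) k) 1 0 = 0 ∧
      Matrix.GeneralLinearGroup.det n = Matrix.GeneralLinearGroup.det g := by
  classical
  have : Finite ↥G := inferInstance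
  have hP₀ : IsPGroup p ↥(P.subgroupOf G) := hP.comap_subtype
  let P₀ : Sylow p ↥G := hP₀.toSylow hidx
  let N : Subgroup ↥G := (Matrix.GeneralLinearGroup.det.comp G.subtype).ker
  have hmemP₀ : ∀ h : ↥G, h ∈ P₀ ↔ (h : GL (Fin 2) k) ∈ P := fun h => by
    rw [IsPGroup.mem_toSylow, Subgroup.mem_subgroupOf]
  have hPN : (P₀ : Subgroup ↥G) ≤ N := by
    intro h hh
    obtain ⟨y, hy⟩ := hPU h ((hmemP₀ h).mp hh)
    rw [MonoidHom.mem_ker]
    show Matrix.GeneralLinearGroup.det (h : GL (Fin 2) k) = 1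
    rw [hy, h30_det_u]
  have hfr := Sylow.normalizer_sup_eq_top' P₀ hPN
  have hgtop : (⟨g, hg⟩ : ↥G) ∈ (⊤ : Subgroup ↥G) := Subgroup.mem_top _
  rw [← hfr] at hgtop
  obtain ⟨n, hn, s, hs, hns⟩ := Subgroup.mem_sup_of_normal_right.mp hgtop
  refine ⟨n, n.2, ?_, ?_⟩
  · have hdvd : p ∣ Nat.card ↥G := by
      have ho : orderOf (⟨h30_u x, hxG⟩ : ↥G) = p := by
        apply orderOf_eq_prime
        · apply Subtype.ext
          show h30_u x ^ p = 1
          rw [h30_u_pow, CharP.cast_eq_zero, zero_mul, h30_u_zero]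
        · intro h
          have h' : h30_u x = 1 := congrArg Subtype.val h
          rw [← h30_u_zero] at h'
          exact hx (h30_u_injective h')
      rw [← ho]; exact orderOf_dvd_natCard _
    have hne := P₀.ne_bot_of_dvd_card hdvd
    obtain ⟨h, hh, hh1⟩ := (Subgroup.bot_or_exists_ne_one _).resolve_left hne
    obtain ⟨y, hy⟩ := hPU h ((hmemP₀ h).mp hh)
    have hy0 : y ≠ 0 := by
      rintro rfl
      rw [h30_u_zero] at hy
      exact hh1 (Subtype.ext hy)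
    have hconj : n * h * n⁻¹ ∈ (P₀ : Subgroup ↥G) := (Subgroup.mem_normalizer_iff.mp hn h).mp hh
    obtain ⟨y', hy'⟩ := hPU _ ((hmemP₀ _).mp hconj)
    have e : (n : GL (Fin 2) k) * h30_u y = h30_u y' * (n : GL (Fin 2) k) := by
      rw [← hy', ← hy]
      simp [mul_assoc]
    have e' := congrArg (fun g : GL (Fin 2) k => (g : Matrix (Fin 2) (Fin 2) k) 1 1) e
    simp only [Units.val_mul, h30_u_coe, Matrix.mul_apply, Fin.sum_univ_two] at e'
    simp at e'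
    exact e'.resolve_right hy0
  · have : Matrix.GeneralLinearGroup.det ((n * s : ↥G) : GL (Fin 2) k) =
        Matrix.GeneralLinearGroup.det g := by rw [hns]
    rw [← this]
    have hs' : Matrix.GeneralLinearGroup.det (s : GL (Fin 2) k) = 1 := MonoidHom.mem_ker.mp hs
    rw [Subgroup.coe_mul, map_mul, hs', mul_one]

/-- `H¹(G, ad⁰(1)) = 0` when a `p`-subgroup `P` of index prime to `p` fixes `e₁`, some `g₁ ∈ G`
sends `e₁` to `e₂`, and `det G ⊇ 𝔽_p^×`. -/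
theorem h30_H1_vanish_e1 [Finite k] {p : ℕ} [Fact p.Prime] [CharP k p] (hp2 : p ≠ 2)
    (G P : Subgroup (GL (Fin 2) k)) (hPG : P ≤ G) (hP : IsPGroup p P)
    (hidx : ¬ p ∣ P.relIndex G)
    (hfix : ∀ g ∈ P, (g : Matrix (Fin 2) (Fin 2) k) 0 0 = 1 ∧
      (g : Matrix (Fin 2) (Fin 2) k) 1 0 = 0)
    (g₁ : GL (Fin 2) k) (hg₁ : g₁ ∈ G) (hg₁00 : (g₁ : Matrix (Fin 2) (Fin 2) k) 0 0 = 0)
    (hg₁10 : (g₁ : Matrix (Fin 2) (Fin 2) k) 1 0 = 1)
    (hdet : ∀ z : ZMod p, z ≠ 0 → ∃ g ∈ G,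
      ((Matrix.GeneralLinearGroup.det g : kˣ) : k) = ZMod.castHom (dvd_refl p) k z)
    (c : GL (Fin 2) k → Matrix (Fin 2) (Fin 2) k) (hc : h30_IsCocycle G c) :
    h30_IsCobdry G c := by
  have hPU : ∀ g ∈ P, ∃ x : k, g = h30_u x := by
    intro g hg
    obtain ⟨n, hn⟩ := hP ⟨g, hg⟩
    have hn' : g ^ (p ^ n) = 1 := congrArg Subtype.val hn
    exact ⟨_, h30_eq_u_of_pow g n hn' (hfix g hg).1 (hfix g hg).2⟩
  refine h30_H1_vanish_np hp2 G P hPG hPU hidx ?_ ?_ c hc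
  · rintro ⟨x, hx, hxG⟩
    obtain ⟨hβ, hconj⟩ := h30_conj_u_eq_l g₁ hg₁00 hg₁10 x
    refine ⟨x / (g₁ : Matrix (Fin 2) (Fin 2) k) 0 1, div_ne_zero hx hβ, ?_⟩
    rw [← hconj]
    exact G.mul_mem (G.mul_mem hg₁ hxG) (G.inv_mem hg₁)
  · rintro ⟨x, hx, hxG⟩ z hz
    obtain ⟨g, hg, hgdet⟩ := hdet z hz
    obtain ⟨n, hn, hn10, hndet⟩ := h30_frattini G P hP hidx hPU x hx hxG g hg
    exact ⟨n, hn, hn10, by rw [hndet, hgdet]⟩

end Fermat.Agent.S56
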