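import Fermat.Agent.S56.h30_TWE1

set_option autoImplicit false

/-!
# S56 / W4, row F2: `H¹(G, ad⁰ρ̄(1)) = 0`

`G ≤ GL₂(k)`, `k` a finite field of odd characteristic `p`, `G` without stable line over `k` and
`det G ⊇ 𝔽_p^×`.  No classification of subgroups of `GL₂` is used.
-/

namespace Fermat.Agent.S56

open Matrix

variable {k : Type*} [Field k]

/-- Transport of the vanishing of `H¹` under conjugation. -/
theorem h30_cobdry_of_conj (G : Subgroup (GL (Fin 2) k)) (m : GL (Fin 2) k)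
    (h : ∀ c' : GL (Fin 2) k → Matrix (Fin 2) (Fin 2) k,
      h30_IsCocycle (G.map (MulAut.conj m⁻¹).toMonoidHom) c' →
      h30_IsCobdry (G.map (MulAut.conj m⁻¹).toMonoidHom) c')
    (c : GL (Fin 2) k → Matrix (Fin 2) (Fin 2) k) (hc : h30_IsCocycle G c) :
    h30_IsCobdry G c := by
  have hmem : ∀ g', g' ∈ G.map (MulAut.conj m⁻¹).toMonoidHom ↔ m * g' * m⁻¹ ∈ G := by
    intro g'
    rw [Subgroup.mem_map]
    constructor
    · rintro ⟨g, hg, rfl⟩
      simpa [mul_assoc] using hg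
    · intro hg
      exact ⟨m * g' * m⁻¹, hg, by simp [mul_assoc]⟩
  have hc' : h30_IsCocycle (G.map (MulAut.conj m⁻¹).toMonoidHom)
      (fun g' => h30_act m⁻¹ (c (m * g' * m⁻¹))) := by
    refine ⟨fun g' hg' => ?_, fun g' hg' h' hh' => ?_⟩
    · rw [h30_trace_act, hc.trace_zero _ ((hmem g').mp hg'), mul_zero]
    · have e : m * (g' * h') * m⁻¹ = (m * g' * m⁻¹) * (m * h' * m⁻¹) := by group
      show h30_act m⁻¹ (c (m * (g' * h') * m⁻¹)) = _
      rw [e, hc.map_mul _ ((hmem g').mp hg') _ ((hmem h').mp hh'), h30_act_add, ← h30_act_mul,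
        ← h30_act_mul]
      congr 2
      group
  obtain ⟨w', hw', hcob⟩ := h _ hc'
  refine ⟨h30_act m w', by rw [h30_trace_act, hw', mul_zero], fun g hg => ?_⟩
  have hg' : m⁻¹ * g * m ∈ G.map (MulAut.conj m⁻¹).toMonoidHom := by
    rw [hmem]; simpa [mul_assoc] using hg
  have h1 := hcob _ hg'
  simp only at h1
  have e : m * (m⁻¹ * g * m) * m⁻¹ = g := by group
  rw [e] at h1
  have h2 := congrArg (h30_act m) h1
  rw [← h30_act_mul, mul_inv_cancel, h30_act_one, h30_act_sub, ← h30_act_mul] at h2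
  rw [h2, ← h30_act_mul]
  congr 2
  group

/-- A `p`-subgroup of `GL₂(k)` fixes a nonzero vector. -/
theorem h30_exists_fixed_vec [Finite k] {p : ℕ} [Fact p.Prime] [CharP k p]
    (P : Subgroup (GL (Fin 2) k)) (hP : IsPGroup p P) :
    ∃ v : Fin 2 → k, v ≠ 0 ∧ ∀ g ∈ P, (g : Matrix (Fin 2) (Fin 2) k).mulVec v = v := by
  classical
  let act : MulAction ↥P (Fin 2 → k) :=
    { smul := fun g v => ((g : GL (Fin 2) k) : Matrix (Fin 2) (Fin 2) k).mulVec v
      one_smul := fun v => by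
        show ((1 : GL (Fin 2) k) : Matrix (Fin 2) (Fin 2) k).mulVec v = v
        simp
      mul_smul := fun g h v => by
        show (((g : GL (Fin 2) k) * (h : GL (Fin 2) k) : GL (Fin 2) k) :
          Matrix (Fin 2) (Fin 2) k).mulVec v =
            ((g : GL (Fin 2) k) : Matrix (Fin 2) (Fin 2) k).mulVec
              (((h : GL (Fin 2) k) : Matrix (Fin 2) (Fin 2) k).mulVec v)
        rw [Matrix.mulVec_mulVec]; rfl }
  have hcard : p ∣ Nat.card (Fin 2 → k) := by
    have : Fintype k := Fintype.ofFinite k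
    rw [Nat.card_eq_fintype_card, Fintype.card_fun, Fintype.card_fin]
    have hk : p ∣ Fintype.card k := (CharP.cast_eq_zero_iff k p _).mp (Nat.cast_card_eq_zero k)
    exact dvd_pow hk two_ne_zero
  have h0 : (0 : Fin 2 → k) ∈ MulAction.fixedPoints ↥P (Fin 2 → k) := by
    intro g
    show ((g : GL (Fin 2) k) : Matrix (Fin 2) (Fin 2) k).mulVec 0 = 0
    simp
  obtain ⟨v, hv, hv0⟩ := hP.exists_fixed_point_of_prime_dvd_card_of_fixed_point (Fin 2 → k) hcard h0
  exact ⟨v, fun h => hv0 h.symm, fun g hg => hv ⟨g, hg⟩⟩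

/-- **(G5)** `H¹(G, ad⁰(1)) = 0`: `G ≤ GL₂(k)` (`k` finite of odd characteristic `p`) without a
stable line over `k` and with `det G ⊇ 𝔽_p^×`; every cocycle with values in the trace-zero
matrices (twisted adjoint action) is a coboundary. -/
theorem h30_H1_vanish [Finite k] {p : ℕ} [Fact p.Prime] [CharP k p] (hp2 : p ≠ 2)
    (G : Subgroup (GL (Fin 2) k))
    (hline : ∀ v : Fin 2 → k, v ≠ 0 →
      ¬ ∀ g ∈ G, ∃ a : k, (g : Matrix (Fin 2) (Fin 2) k).mulVec v = a • v)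
    (hdet : ∀ z : ZMod p, z ≠ 0 → ∃ g ∈ G,
      ((Matrix.GeneralLinearGroup.det g : kˣ) : k) = ZMod.castHom (dvd_refl p) k z)
    (c : GL (Fin 2) k → Matrix (Fin 2) (Fin 2) k) (hc : h30_IsCocycle G c) :
    h30_IsCobdry G c := by
  classical
  have : Finite ↥G := inferInstance
  obtain ⟨P₀⟩ : Nonempty (Sylow p ↥G) := inferInstance
  obtain ⟨P, hPdef⟩ : ∃ P : Subgroup (GL (Fin 2) k), P = (P₀ : Subgroup ↥G).map G.subtype :=
    ⟨_, rfl⟩
  have hPG : P ≤ G := by rw [hPdef]; exact Subgroup.map_subtype_le _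
  have hP : IsPGroup p P := by rw [hPdef]; exact P₀.isPGroup'.map _
  have hidx : ¬ p ∣ P.relIndex G := by
    have e : P.subgroupOf G = (P₀ : Subgroup ↥G) := by
      rw [hPdef]
      ext x
      simp [Subgroup.mem_subgroupOf]
    rw [Subgroup.relIndex, e]
    exact P₀.not_dvd_index
  obtain ⟨v, hv0, hv⟩ := h30_exists_fixed_vec P hP
  have hl := hline v hv0
  push Not at hl
  obtain ⟨g, hg, hgv⟩ := hl
  obtain ⟨w, hw⟩ : ∃ w : Fin 2 → k, w = (g : Matrix (Fin 2) (Fin 2) k).mulVec v := ⟨_, rfl⟩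
  rw [← hw] at hgv
  have hdetm : (!![v 0, w 0; v 1, w 1] : Matrix (Fin 2) (Fin 2) k).det ≠ 0 := by
    rw [Matrix.det_fin_two_of]
    intro h0
    by_cases hv00 : v 0 = 0
    · have hv1 : v 1 ≠ 0 := by
        intro hv1; apply hv0; ext i; fin_cases i <;> simp [hv00, hv1]
      have hw0 : w 0 = 0 := by
        rw [hv00, zero_mul, zero_sub, neg_eq_zero] at h0
        exact (mul_eq_zero.mp h0).resolve_right hv1
      apply hgv (w 1 / v 1)
      ext i; fin_cases i
      · simp [hw0, hv00]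
      · simp; field_simp
    · apply hgv (w 0 / v 0)
      ext i; fin_cases i
      · simp; field_simp
      · simp; field_simp; linear_combination h0
  obtain ⟨m, hm⟩ : ∃ m : GL (Fin 2) k,
      (m : Matrix (Fin 2) (Fin 2) k) = !![v 0, w 0; v 1, w 1] :=
    ⟨Matrix.GeneralLinearGroup.mkOfDetNeZero _ hdetm, rfl⟩
  have hm1 : (m : Matrix (Fin 2) (Fin 2) k).mulVec ![1, 0] = v := by
    rw [hm]; ext i; fin_cases i <;> simp [Matrix.mulVec, dotProduct, Fin.sum_univ_two]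
  have hm2 : (m : Matrix (Fin 2) (Fin 2) k).mulVec ![0, 1] = w := by
    rw [hm]; ext i; fin_cases i <;> simp [Matrix.mulVec, dotProduct, Fin.sum_univ_two]
  refine h30_cobdry_of_conj G m ?_ c hc
  intro c' hc'
  obtain ⟨φ, hφ⟩ : ∃ φ : GL (Fin 2) k →* GL (Fin 2) k, φ = (MulAut.conj m⁻¹).toMonoidHom :=
    ⟨_, rfl⟩
  rw [← hφ] at hc' ⊢
  have hφapp : ∀ h : GL (Fin 2) k, φ h = m⁻¹ * h * m := by
    intro h; rw [hφ]; simp
  have key : ∀ (h : GL (Fin 2) k) (e e' : Fin 2 → k),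
      (h : Matrix (Fin 2) (Fin 2) k).mulVec ((m : Matrix (Fin 2) (Fin 2) k).mulVec e) =
        (m : Matrix (Fin 2) (Fin 2) k).mulVec e' →
      ((φ h : GL (Fin 2) k) : Matrix (Fin 2) (Fin 2) k).mulVec e = e' := by
    intro h e e' hh
    rw [hφapp, Units.val_mul, Units.val_mul, ← Matrix.mulVec_mulVec, ← Matrix.mulVec_mulVec, hh,
      Matrix.mulVec_mulVec, ← Units.val_mul, inv_mul_cancel, Units.val_one, Matrix.one_mulVec]
  have col : ∀ (X : Matrix (Fin 2) (Fin 2) k) (e' : Fin 2 → k), X.mulVec ![1, 0] = e' →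
      X 0 0 = e' 0 ∧ X 1 0 = e' 1 := by
    intro X e' h
    rw [← h]
    simp [Matrix.mulVec, dotProduct, Fin.sum_univ_two]
  have hg1 := key g ![1, 0] ![0, 1] (by rw [hm1, hm2, hw])
  refine h30_H1_vanish_e1 hp2 (G.map φ) (P.map φ) (Subgroup.map_mono hPG) (hP.map φ) ?_ ?_ (φ g)
    (Subgroup.mem_map_of_mem φ hg) ?_ ?_ ?_ c' hc'
  · rw [Subgroup.relIndex_map_map_of_injective _ _ (by rw [hφ]; exact MulEquiv.injective _)]
    exact hidx
  · rintro _ ⟨h, hh, rfl⟩
    have h1 := key h ![1, 0] ![1, 0] (by rw [hm1, hv h hh])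
    have h2 := col _ _ h1
    exact ⟨by rw [h2.1]; simp, by rw [h2.2]; simp⟩
  · rw [(col _ _ hg1).1]; simp
  · rw [(col _ _ hg1).2]; simp
  · intro z hz
    obtain ⟨g₂, hg₂, hdet₂⟩ := hdet z hz
    refine ⟨φ g₂, Subgroup.mem_map_of_mem φ hg₂, ?_⟩
    rw [← hdet₂, hφapp]
    simp [mul_comm]

end Fermat.Agent.S56
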