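import Fermat.Agent.S56.h30_TWNormal

set_option autoImplicit false

/-!
# S56 / W4, row E: the case `|A| = p`

If `A = 𝔽_p a` and `G` contains an upper triangular element `n` whose determinant is a non-square
of `𝔽_p`, then the `F`-component of the invariance relation forces `c₀ = 0`.
-/

namespace Fermat.Agent.S56

open Matrix

variable {k : Type*} [Field k]

/-- The `(1,0)` entry of the twisted action of an upper triangular element. -/
theorem h30_act_upper_10 (n : GL (Fin 2) k) (hn : (n : Matrix (Fin 2) (Fin 2) k) 1 0 = 0)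
    (X : Matrix (Fin 2) (Fin 2) k) :
    h30_act n X 1 0 = (n : Matrix (Fin 2) (Fin 2) k) 1 1 ^ 2 * X 1 0 := by
  have hdet : ((Matrix.GeneralLinearGroup.det n : kˣ) : k) =
      (n : Matrix (Fin 2) (Fin 2) k) 0 0 * (n : Matrix (Fin 2) (Fin 2) k) 1 1 := by
    rw [Matrix.GeneralLinearGroup.val_det_apply, Matrix.det_fin_two, hn, mul_zero, sub_zero]
  have hact : h30_act n X 1 0 = ((Matrix.GeneralLinearGroup.det n : kˣ) : k) *
      ((n : Matrix (Fin 2) (Fin 2) k) * X *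
        ((n⁻¹ : GL (Fin 2) k) : Matrix (Fin 2) (Fin 2) k)) 1 0 := by
    rw [h30_act]; rfl
  obtain ⟨N, hN⟩ : ∃ N : Matrix (Fin 2) (Fin 2) k, N = (n : Matrix (Fin 2) (Fin 2) k) := ⟨_, rfl⟩
  rw [← hN] at hn hdet hact ⊢
  obtain ⟨Z, hZ⟩ : ∃ Z : Matrix (Fin 2) (Fin 2) k,
      Z = N * X * ((n⁻¹ : GL (Fin 2) k) : Matrix (Fin 2) (Fin 2) k) := ⟨_, rfl⟩
  rw [← hZ] at hact
  have hZN : Z * N = N * X := by
    rw [hZ, Matrix.mul_assoc, hN, ← Units.val_mul, inv_mul_cancel, Units.val_one, Matrix.mul_one]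
  have e := congrFun (congrFun hZN 1) 0
  simp only [Matrix.mul_apply, Fin.sum_univ_two, hn, mul_zero, add_zero, zero_mul, zero_add] at e
  have hs : N 0 0 ≠ 0 := by
    intro h
    have := (Matrix.GeneralLinearGroup.det n).ne_zero
    rw [hdet, h, zero_mul] at this
    exact this rfl
  rw [hact, hdet]
  linear_combination N 1 1 * e

theorem h30_small_case {p : ℕ} [Fact p.Prime] [CharP k p]
    (G : Subgroup (GL (Fin 2) k)) (A : AddSubgroup k) (hA : ∀ x : k, h30_u x ∈ G ↔ x ∈ A)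
    (c : GL (Fin 2) k → Matrix (Fin 2) (Fin 2) k) (hc : h30_IsCocycle G c) (c₀ : k) (a₁ : k → k)
    (hnf : ∀ x ∈ A, c (h30_u x) = h30_nf c₀ a₁ x)
    (a : k) (ha : a ∈ A) (ha0 : a ≠ 0)
    (hAa : ∀ x ∈ A, ∃ z : ZMod p, x = ZMod.castHom (dvd_refl p) k z * a)
    (n : GL (Fin 2) k) (hn : n ∈ G) (hn10 : (n : Matrix (Fin 2) (Fin 2) k) 1 0 = 0)
    (z₀ : ZMod p) (hz₀ : ¬ IsSquare z₀)
    (hdet : ((Matrix.GeneralLinearGroup.det n : kˣ) : k) = ZMod.castHom (dvd_refl p) k z₀) :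
    c₀ = 0 := by
  by_contra hc₀
  have hdet' : ((Matrix.GeneralLinearGroup.det n : kˣ) : k) =
      (n : Matrix (Fin 2) (Fin 2) k) 0 0 * (n : Matrix (Fin 2) (Fin 2) k) 1 1 := by
    rw [Matrix.GeneralLinearGroup.val_det_apply, Matrix.det_fin_two, hn10, mul_zero, sub_zero]
  have hup := fun X => h30_act_upper_10 n hn10 X
  obtain ⟨N, hN⟩ : ∃ N : Matrix (Fin 2) (Fin 2) k, N = (n : Matrix (Fin 2) (Fin 2) k) := ⟨_, rfl⟩
  rw [← hN] at hn10 hdet' hup
  have hst : N 0 0 * N 1 1 ≠ 0 := by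
    rw [← hdet']; exact (Matrix.GeneralLinearGroup.det n).ne_zero
  have hs : N 0 0 ≠ 0 := left_ne_zero_of_mul hst
  have ht : N 1 1 ≠ 0 := right_ne_zero_of_mul hst
  set x' : k := N 1 1 / N 0 0 * a with hx'
  -- `u_a * n = n * u_{x'}`
  have hcomm : h30_u a * n = n * h30_u x' := by
    apply Units.ext
    rw [Units.val_mul, Units.val_mul, h30_u_coe, h30_u_coe, ← hN]
    have e6 : N 0 0 * (N 1 1 / N 0 0 * a) = a * N 1 1 := by field_simp
    conv_lhs => rw [Matrix.eta_fin_two N]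
    conv_rhs => rw [Matrix.eta_fin_two N]
    rw [Matrix.mul_fin_two, Matrix.mul_fin_two, hn10]
    ext i j; fin_cases i <;> fin_cases j <;> simp [hx', e6]
    ring
  have hux' : h30_u x' ∈ G := by
    have : h30_u x' = n⁻¹ * (h30_u a * n) := by rw [hcomm, inv_mul_cancel_left]
    rw [this]
    exact G.mul_mem (G.inv_mem hn) (G.mul_mem ((hA a).mpr ha) hn)
  have hx'A : x' ∈ A := (hA x').mp hux'
  -- the two expansions of `c (u_a * n)`
  have e1 := hc.map_mul (h30_u a) ((hA a).mpr ha) n hn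
  have e2 := hc.map_mul n hn (h30_u x') hux'
  rw [← hcomm, e1, hnf a ha, hnf x' hx'A, h30_act_u] at e2
  have e3 := congrFun (congrFun e2 1) 0
  rw [Matrix.add_apply, Matrix.add_apply, hup] at e3
  simp only [h30_nf, Matrix.of_apply, Matrix.cons_val', Matrix.cons_val_zero, Matrix.cons_val_one,
    Matrix.cons_val_fin_one] at e3
  -- e3 : c₀ * a + c n 1 0 = c n 1 0 + t² * (c₀ * x')
  have e4 : N 0 0 = N 1 1 ^ 3 := by
    have : c₀ * a * (N 0 0 - N 1 1 ^ 3) = 0 := by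
      have e5 : c₀ * a = N 1 1 ^ 2 * (c₀ * (N 1 1 / N 0 0 * a)) := by linear_combination e3
      have e6 : N 1 1 / N 0 0 * N 0 0 = N 1 1 := div_mul_cancel₀ _ hs
      linear_combination N 0 0 * e5 + N 1 1 ^ 2 * c₀ * a * e6
    rcases mul_eq_zero.mp this with h | h
    · exact absurd h (mul_ne_zero hc₀ ha0)
    · linear_combination h
  obtain ⟨z, hz⟩ := hAa x' hx'A
  have hz' : N 1 1 / N 0 0 = ZMod.castHom (dvd_refl p) k z := by
    have := hz
    rw [hx'] at this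
    exact mul_right_cancel₀ ha0 this
  have hz0 : z ≠ 0 := by
    intro h
    rw [h, map_zero] at hz'
    exact (div_ne_zero ht hs) hz'
  apply hz₀
  refine ⟨z⁻¹, ?_⟩
  apply (ZMod.castHom (dvd_refl p) k).injective
  rw [← hdet, hdet', map_mul, map_inv₀, ← hz', e4]
  field_simp

end Fermat.Agent.S56
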