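import Fermat.Agent.S56.h30_TWAvg
import Fermat.Agent.S56.h30_TWBig
import Fermat.Agent.S56.h30_TWSmall

set_option autoImplicit false

/-!
# S56 / W4, row F1: `H¹(G, ad⁰(1)) = 0` for `G` in normal position

Normal position: a subgroup `P ≤ G` of upper unitriangular matrices of index prime to `p`; if `G`
contains a nontrivial upper unitriangular element, then it contains a nontrivial lower
unitriangular element and upper triangular elements of every determinant in `𝔽_p^×`.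
-/

namespace Fermat.Agent.S56

open Matrix

variable {k : Type*} [Field k]

theorem h30_H1_vanish_np [Finite k] {p : ℕ} [Fact p.Prime] [CharP k p] (hp2 : p ≠ 2)
    (G : Subgroup (GL (Fin 2) k))
    (P : Subgroup (GL (Fin 2) k)) (hPG : P ≤ G) (hPU : ∀ g ∈ P, ∃ x : k, g = h30_u x)
    (hidx : ¬ p ∣ P.relIndex G)
    (hlow : (∃ x : k, x ≠ 0 ∧ h30_u x ∈ G) → ∃ y₀ : k, y₀ ≠ 0 ∧ h30_l y₀ ∈ G)
    (hfrat : (∃ x : k, x ≠ 0 ∧ h30_u x ∈ G) → ∀ z : ZMod p, z ≠ 0 →
      ∃ n ∈ G, (n : Matrix (Fin 2) (Fin 2) k) 1 0 = 0 ∧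
        ((Matrix.GeneralLinearGroup.det n : kˣ) : k) = ZMod.castHom (dvd_refl p) k z)
    (c : GL (Fin 2) k → Matrix (Fin 2) (Fin 2) k) (hc : h30_IsCocycle G c) :
    h30_IsCobdry G c := by
  have h2 : (2 : k) ≠ 0 := h30_two_ne_zero hp2
  by_cases hA0 : ∀ x : k, h30_u x ∈ G → x = 0
  · -- `P` is trivial
    apply h30_avg G P hPG hidx c hc
    intro g hg
    obtain ⟨x, rfl⟩ := hPU g hg
    rw [hA0 x (hPG hg), h30_u_zero, hc.map_one]
  push Not at hA0
  obtain ⟨x₀, hx₀G, hx₀⟩ := hA0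
  obtain ⟨y₀, hy₀, hl⟩ := hlow ⟨x₀, hx₀, hx₀G⟩
  have hfr := hfrat ⟨x₀, hx₀, hx₀G⟩
  -- the additive group `A`
  let A : AddSubgroup k :=
    { carrier := {x | h30_u x ∈ G}
      zero_mem' := by
        show h30_u 0 ∈ G
        rw [h30_u_zero]; exact G.one_mem
      add_mem' := by
        intro x y hx hy
        show h30_u (x + y) ∈ G
        rw [h30_u_add]; exact G.mul_mem hx hy
      neg_mem' := by
        intro x hx
        show h30_u (-x) ∈ G
        rw [← h30_u_inv]; exact G.inv_mem hx }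
  have hA : ∀ x : k, h30_u x ∈ G ↔ x ∈ A := fun x => Iff.rfl
  have hx₀A : x₀ ∈ A := hx₀G
  obtain ⟨w, c₀, a₁, hw, ha₁, hc₀3, hnf⟩ :=
    h30_normal_form hp2 G A (fun x hx => (hA x).mpr hx) c hc
  apply h30_IsCobdry.of_sub_cobdry w hw
  have hc₁ := hc.sub_cobdry w hw
  obtain ⟨c₁, hc₁def⟩ : ∃ c₁ : GL (Fin 2) k → Matrix (Fin 2) (Fin 2) k,
      c₁ = fun g => c g - (h30_act g w - w) := ⟨_, rfl⟩
  rw [← hc₁def] at hc₁ ⊢
  have hnf₁ : ∀ x ∈ A, c₁ (h30_u x) = h30_nf c₀ a₁ x := by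
    intro x hx
    rw [hc₁def]
    show c (h30_u x) - (h30_act (h30_u x) w - w) = _
    rw [hnf x hx]; abel
  -- main claim : c₀ = 0 and a₁ linear
  have main : c₀ = 0 ∧ ∃ e : k, ∀ x ∈ A, a₁ x = e * x := by
    by_cases hbig : ∃ x₁ ∈ A, ∀ z : ZMod p, x₁ * y₀ ≠ ZMod.castHom (dvd_refl p) k z
    · obtain ⟨x₁, hx₁, hx₁y⟩ := hbig
      exact h30_big_case hp2 G A (fun x hx => (hA x).mpr hx) c₁ hc₁ c₀ a₁ ha₁ hc₀3 hnf₁ y₀ hy₀ hl
        x₁ hx₁ hx₁y
    · push Not at hbig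
      have hAa : ∀ x ∈ A, ∃ z : ZMod p, x = ZMod.castHom (dvd_refl p) k z * x₀ := by
        intro x hx
        obtain ⟨z, hz⟩ := hbig x hx
        obtain ⟨z0, hz0⟩ := hbig x₀ hx₀A
        have hz0ne : ZMod.castHom (dvd_refl p) k z0 ≠ 0 := by
          rw [← hz0]; exact mul_ne_zero hx₀ hy₀
        refine ⟨z * z0⁻¹, ?_⟩
        rw [map_mul, map_inv₀, ← hz, ← hz0]
        field_simp
      refine ⟨?_, ?_⟩
      · by_cases hp3 : p = 3
        · exact hc₀3 hp3
        · obtain ⟨z₀, hz₀⟩ := FiniteField.exists_nonsquare (F := ZMod p)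
            (by rw [ZMod.ringChar_zmod_n]; exact hp2)
          have hz₀0 : z₀ ≠ 0 := by
            rintro rfl
            exact hz₀ ⟨0, by simp⟩
          obtain ⟨n, hn, hn10, hdet⟩ := hfr z₀ hz₀0
          exact h30_small_case G A hA c₁ hc₁ c₀ a₁ hnf₁ x₀ hx₀A hx₀ hAa n hn hn10 z₀ hz₀ hdet
      · refine ⟨a₁ x₀ / x₀, fun x hx => ?_⟩
        obtain ⟨z, rfl⟩ := hAa x hx
        have hnat : ∀ j : ℕ, (j : k) * x₀ ∈ A ∧ a₁ ((j : k) * x₀) = (j : k) * a₁ x₀ := by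
          intro j
          induction j with
          | zero =>
            refine ⟨by simp, ?_⟩
            have := ha₁ 0 A.zero_mem 0 A.zero_mem
            rw [add_zero] at this
            simp only [Nat.cast_zero, zero_mul]
            exact left_eq_add.mp this
          | succ j ih =>
            have e : ((j + 1 : ℕ) : k) * x₀ = (j : k) * x₀ + x₀ := by push_cast; ring
            rw [e]
            refine ⟨A.add_mem ih.1 hx₀A, ?_⟩
            rw [ha₁ _ ih.1 _ hx₀A, ih.2]; push_cast; ring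
        have hz : ZMod.castHom (dvd_refl p) k z = ((z.val : ℕ) : k) := by
          conv_lhs => rw [← ZMod.natCast_zmod_val z, map_natCast]
        rw [hz, (hnat z.val).2]
        field_simp
  obtain ⟨hc₀, e, he⟩ := main
  -- second coboundary
  obtain ⟨w₂, hw₂def⟩ : ∃ w₂ : Matrix (Fin 2) (Fin 2) k, w₂ = !![-(e / 2), 0; 0, e / 2] :=
    ⟨_, rfl⟩
  have hw₂ : w₂.trace = 0 := by rw [hw₂def]; simp [Matrix.trace_fin_two]
  apply h30_IsCobdry.of_sub_cobdry w₂ hw₂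
  have hc₂ := hc₁.sub_cobdry w₂ hw₂
  apply h30_avg G P hPG hidx _ hc₂
  intro g hg
  obtain ⟨x, rfl⟩ := hPU g hg
  have hxA : x ∈ A := hPG hg
  show c₁ (h30_u x) - (h30_act (h30_u x) w₂ - w₂) = 0
  rw [hnf₁ x hxA, h30_act_u, h30_nf, he x hxA, hc₀, hw₂def]
  ext i j; fin_cases i <;> fin_cases j <;> simp <;> field_simp <;> ring

end Fermat.Agent.S56
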