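import Fermat.Agent.S56.h30_TWDefs

set_option autoImplicit false

/-!
# S56 / W4, row B: normal form of a cocycle on the unipotent group `U_A`

Modulo a coboundary, `c (u_x) = (-c₀ x³/3 + a₁ x) E + (c₀ x²/2) H + c₀ x F` with `a₁` additive;
for `p = 3` the cocycle identity forces `c₀ = 0`.
-/

namespace Fermat.Agent.S56

open Matrix

variable {k : Type*} [Field k]

/-- The normal form of a cocycle on `U_A`. -/
def h30_nf (c₀ : k) (a₁ : k → k) (x : k) : Matrix (Fin 2) (Fin 2) k :=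
  !![c₀ * x ^ 2 / 2, -(c₀ * x ^ 3 / 3) + a₁ x; c₀ * x, -(c₀ * x ^ 2 / 2)]

theorem h30_two_ne_zero {p : ℕ} [Fact p.Prime] [CharP k p] (hp2 : p ≠ 2) : (2 : k) ≠ 0 := by
  intro h
  have h2 : ((2 : ℕ) : k) = 0 := by exact_mod_cast h
  have := (CharP.cast_eq_zero_iff k p 2).mp h2
  exact hp2 ((Nat.prime_dvd_prime_iff_eq (Fact.out : p.Prime) Nat.prime_two).mp this)

theorem h30_three_ne_zero {p : ℕ} [Fact p.Prime] [CharP k p] (hp3 : p ≠ 3) : (3 : k) ≠ 0 := by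
  intro h
  have h2 : ((3 : ℕ) : k) = 0 := by exact_mod_cast h
  have := (CharP.cast_eq_zero_iff k p 3).mp h2
  exact hp3 ((Nat.prime_dvd_prime_iff_eq (Fact.out : p.Prime) Nat.prime_three).mp this)

/-- The cocycle identity on `U_A` in coordinates. -/
theorem h30_cocycle_u_entries (G : Subgroup (GL (Fin 2) k)) (A : AddSubgroup k)
    (hA : ∀ x ∈ A, h30_u x ∈ G)
    (c : GL (Fin 2) k → Matrix (Fin 2) (Fin 2) k) (hc : h30_IsCocycle G c)
    {x y : k} (hx : x ∈ A) (hy : y ∈ A) :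
    c (h30_u (x + y)) 1 0 = c (h30_u x) 1 0 + c (h30_u y) 1 0 ∧
    c (h30_u (x + y)) 0 0 = c (h30_u x) 0 0 + c (h30_u y) 0 0 + x * c (h30_u y) 1 0 ∧
    c (h30_u (x + y)) 0 1 = c (h30_u x) 0 1 + c (h30_u y) 0 1 - 2 * x * c (h30_u y) 0 0
      - x ^ 2 * c (h30_u y) 1 0 := by
  have h := hc.map_mul (h30_u x) (hA x hx) (h30_u y) (hA y hy)
  rw [← h30_u_add, h30_act_u] at h
  have ht := hc.trace_zero (h30_u y) (hA y hy)
  rw [Matrix.trace_fin_two] at ht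
  have h11 : c (h30_u y) 1 1 = -c (h30_u y) 0 0 := by linear_combination ht
  refine ⟨?_, ?_, ?_⟩
  · have := congrFun (congrFun h 1) 0
    simpa using this
  · have := congrFun (congrFun h 0) 0
    simpa [add_assoc] using this
  · have := congrFun (congrFun h 0) 1
    simp only [Matrix.add_apply, Matrix.of_apply, Matrix.cons_val', Matrix.cons_val_zero,
      Matrix.cons_val_one, Matrix.cons_val_fin_one] at this
    rw [this, h11]; ring

theorem h30_normal_form {p : ℕ} [Fact p.Prime] [CharP k p] (hp2 : p ≠ 2)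
    (G : Subgroup (GL (Fin 2) k)) (A : AddSubgroup k) (hA : ∀ x ∈ A, h30_u x ∈ G)
    (c : GL (Fin 2) k → Matrix (Fin 2) (Fin 2) k) (hc : h30_IsCocycle G c) :
    ∃ (w : Matrix (Fin 2) (Fin 2) k) (c₀ : k) (a₁ : k → k), w.trace = 0 ∧
      (∀ x ∈ A, ∀ y ∈ A, a₁ (x + y) = a₁ x + a₁ y) ∧ (p = 3 → c₀ = 0) ∧
      ∀ x ∈ A, c (h30_u x) = (h30_act (h30_u x) w - w) + h30_nf c₀ a₁ x := by
  have h2 : (2 : k) ≠ 0 := h30_two_ne_zero hp2
  by_cases hA0 : ∀ x ∈ A, x = 0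
  · refine ⟨0, 0, fun _ => 0, by simp, fun _ _ _ _ => by simp, fun _ => rfl, fun x hx => ?_⟩
    rw [hA0 x hx, h30_u_zero, hc.map_one, h30_act_zero, sub_zero, zero_add]
    ext i j; fin_cases i <;> fin_cases j <;> simp [h30_nf]
  push Not at hA0
  obtain ⟨x₀, hx₀, hx₀0⟩ := hA0
  have ent := fun {x y : k} (hx : x ∈ A) (hy : y ∈ A) => h30_cocycle_u_entries G A hA c hc hx hy
  set γ : k → k := fun x => c (h30_u x) 1 0 with hγ
  set β : k → k := fun x => c (h30_u x) 0 0 with hβ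
  set α : k → k := fun x => c (h30_u x) 0 1 with hα
  have hγadd : ∀ x ∈ A, ∀ y ∈ A, γ (x + y) = γ x + γ y := fun x hx y hy => (ent hx hy).1
  have hβadd : ∀ x ∈ A, ∀ y ∈ A, β (x + y) = β x + β y + x * γ y := fun x hx y hy => (ent hx hy).2.1
  have hαadd : ∀ x ∈ A, ∀ y ∈ A, α (x + y) = α x + α y - 2 * x * β y - x ^ 2 * γ y :=
    fun x hx y hy => (ent hx hy).2.2
  -- step 1 : γ is linear
  have hγsym : ∀ x ∈ A, ∀ y ∈ A, x * γ y = y * γ x := by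
    intro x hx y hy
    have e1 := hβadd x hx y hy
    have e2 := hβadd y hy x hx
    rw [add_comm y x] at e2
    linear_combination e2 - e1
  obtain ⟨c₀, hγlin⟩ : ∃ c₀ : k, ∀ x ∈ A, γ x = c₀ * x := by
    refine ⟨γ x₀ / x₀, fun x hx => ?_⟩
    have := hγsym x hx x₀ hx₀
    rw [div_mul_eq_mul_div, eq_div_iff hx₀0]; linear_combination -this
  -- step 2 : β₁ additive and linear
  have hβ₁sym : ∀ x ∈ A, ∀ y ∈ A,
      x * (β y - c₀ * y ^ 2 / 2) = y * (β x - c₀ * x ^ 2 / 2) := by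
    intro x hx y hy
    have e1 := hαadd x hx y hy
    have e2 := hαadd y hy x hx
    rw [add_comm y x] at e2
    rw [hγlin y hy] at e1
    rw [hγlin x hx] at e2
    have e3 : 2 * (x * β y - y * β x) = c₀ * (x * y ^ 2 - x ^ 2 * y) := by
      linear_combination e1 - e2
    have e4 : 2 * (x * (β y - c₀ * y ^ 2 / 2)) = 2 * (y * (β x - c₀ * x ^ 2 / 2)) := by
      have q1 : c₀ * y ^ 2 / 2 * 2 = c₀ * y ^ 2 := div_mul_cancel₀ _ h2
      have q2 : c₀ * x ^ 2 / 2 * 2 = c₀ * x ^ 2 := div_mul_cancel₀ _ h2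
      linear_combination e3 - x * q1 + y * q2
    exact mul_left_cancel₀ h2 e4
  obtain ⟨b₁, hβform⟩ : ∃ b₁ : k, ∀ x ∈ A, β x = c₀ * x ^ 2 / 2 + b₁ * x := by
    refine ⟨(β x₀ - c₀ * x₀ ^ 2 / 2) / x₀, fun x hx => ?_⟩
    have := hβ₁sym x hx x₀ hx₀
    have e : (β x₀ - c₀ * x₀ ^ 2 / 2) / x₀ * x = β x - c₀ * x ^ 2 / 2 := by
      rw [div_mul_eq_mul_div, div_eq_iff hx₀0]; linear_combination this
    rw [e]; ring
  -- step 3 : p = 3 forces c₀ = 0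
  have hc₀3 : p = 3 → c₀ = 0 := by
    intro hp3
    have h3 : (3 : k) = 0 := by
      have : ((3 : ℕ) : k) = 0 := by rw [← hp3]; exact CharP.cast_eq_zero k p
      exact_mod_cast this
    have hxx : x₀ + x₀ ∈ A := A.add_mem hx₀ hx₀
    have e1 := hαadd x₀ hx₀ x₀ hx₀
    have e2 := hαadd (x₀ + x₀) hxx x₀ hx₀
    have hz : x₀ + x₀ + x₀ = 0 := by linear_combination x₀ * h3
    have hα0 : α 0 = 0 := by
      simp only [hα]; rw [h30_u_zero, hc.map_one]; rfl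
    rw [hz, hα0, hβform x₀ hx₀, hγlin x₀ hx₀] at e2
    rw [hβform x₀ hx₀, hγlin x₀ hx₀] at e1
    have e3 : c₀ * x₀ ^ 3 = 0 := by
      have e4 : 2 * (c₀ * x₀ ^ 3) = 0 := by
        linear_combination e2 + e1 +
          (α x₀ - 2 * x₀ * (c₀ * x₀ ^ 2 / 2) - 2 * b₁ * x₀ ^ 2 - c₀ * x₀ ^ 3) * h3
      exact (mul_eq_zero.mp e4).resolve_left h2
    exact (mul_eq_zero.mp e3).resolve_right (pow_ne_zero 3 hx₀0)
  -- step 4 : the additive function a₁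
  set a₁ : k → k := fun x => α x + c₀ * x ^ 3 / 3 + b₁ * x ^ 2 with ha₁
  have ha₁add : ∀ x ∈ A, ∀ y ∈ A, a₁ (x + y) = a₁ x + a₁ y := by
    intro x hx y hy
    have e1 := hαadd x hx y hy
    rw [hβform y hy, hγlin y hy] at e1
    simp only [ha₁]
    have q1 : c₀ * y ^ 2 / 2 * 2 = c₀ * y ^ 2 := div_mul_cancel₀ _ h2
    by_cases hp3 : p = 3
    · have hc0 := hc₀3 hp3
      rw [hc0] at e1 ⊢
      rw [e1]; ring
    · have h3 : (3 : k) ≠ 0 := h30_three_ne_zero hp3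
      have r1 : c₀ * (x + y) ^ 3 / 3 * 3 = c₀ * (x + y) ^ 3 := div_mul_cancel₀ _ h3
      have r2 : c₀ * x ^ 3 / 3 * 3 = c₀ * x ^ 3 := div_mul_cancel₀ _ h3
      have r3 : c₀ * y ^ 3 / 3 * 3 = c₀ * y ^ 3 := div_mul_cancel₀ _ h3
      have e5 : 3 * (α (x + y) + c₀ * (x + y) ^ 3 / 3 + b₁ * (x + y) ^ 2) =
          3 * (α x + c₀ * x ^ 3 / 3 + b₁ * x ^ 2 + (α y + c₀ * y ^ 3 / 3 + b₁ * y ^ 2)) := by
        linear_combination 3 * e1 + r1 - r2 - r3 - 3 * x * q1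
      exact mul_left_cancel₀ h3 e5
  refine ⟨!![0, 0; b₁, 0], c₀, a₁, by simp [Matrix.trace_fin_two], ha₁add, hc₀3, fun x hx => ?_⟩
  rw [h30_act_u]
  have ht := hc.trace_zero (h30_u x) (hA x hx)
  rw [h30_eta_trace_zero _ ht]
  have e1 : c (h30_u x) 0 0 = c₀ * x ^ 2 / 2 + b₁ * x := hβform x hx
  have e2 : c (h30_u x) 1 0 = c₀ * x := hγlin x hx
  have e3 : c (h30_u x) 0 1 = a₁ x - c₀ * x ^ 3 / 3 - b₁ * x ^ 2 := by
    simp only [ha₁, hα]; ring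
  rw [e1, e2, e3]
  ext i j; fin_cases i <;> fin_cases j <;> simp [h30_nf] <;> ring

end Fermat.Agent.S56
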