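/-
S56 / W3 / E-IRR (flat local bound, no stable line): common definitions of the E-IRR rows.
Everything lives in `Ω = PadicAlgCl p` with absolute Galois elements `g : h78_G p`
(conventions of `h78_W3Defs`).
-/
import Fermat.Agent.S56.h78_W3Defs

set_option autoImplicit false

namespace Fermat.Agent.S56

variable (p : ℕ) [Fact p.Prime]

/-- `g` fixes the subfield `M` pointwise, i.e. `g ∈ Gal(Ω/M)`. -/
def h43_Fix (M : IntermediateField ℚ_[p] (PadicAlgCl p)) (g : h78_G p) : Prop :=
  ∀ z ∈ M, g z = z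

/-- `f` is the Kummer character of `u` over `M` with respect to the `p`-th root of unity `ζ`
(`h α = ζ ^ (f h) * α` on `Gal(Ω/M)` for a `p`-th root `α` of `u`), extended by zero outside
`Gal(Ω/M)`. -/
def h43_IsKum (M : IntermediateField ℚ_[p] (PadicAlgCl p)) (ζ u : PadicAlgCl p)
    (f : h78_G p → ZMod p) : Prop :=
  ∃ α : PadicAlgCl p, α ^ p = u ∧ α ≠ 0 ∧
    (∀ h : h78_G p, h43_Fix p M h → h α = ζ ^ (f h).val * α) ∧
    (∀ h : h78_G p, ¬ h43_Fix p M h → f h = 0)

/-- the twisted conjugation action of `g` on functions `Gal(Ω/ℚ_p) → ZMod p`: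
`(g • f)(h) = n * f(g⁻¹ h g)`, where `n` is the exponent of `g` on the `p`-th roots of unity. -/
noncomputable def h43_tw (n : ℤ) (g : h78_G p) : (h78_G p → ZMod p) →+ (h78_G p → ZMod p) where
  toFun f := fun h => (n : ZMod p) * f (g⁻¹ * h * g)
  map_zero' := by
    funext h
    simp
  map_add' f f' := by
    funext h
    simp [mul_add]

/-- `u ∈ M` is a reduced representative of its class modulo `p`-th powers of `M`:
`‖u - 1‖` cannot be decreased by multiplying with a `p`-th power of `M`. -/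
def h43_Red (M : IntermediateField ℚ_[p] (PadicAlgCl p)) (u : PadicAlgCl p) : Prop :=
  u ∈ M ∧ ∀ w ∈ M, w ≠ 0 → ‖u - 1‖ ≤ ‖u * w ^ p - 1‖

/-- the character `f` has exact level `i` (w.r.t. the uniformizer `π` of `M`): it is the Kummer
character of a reduced `u` with `‖u - 1‖ = ‖π‖ ^ i`. -/
def h43_Lev (M : IntermediateField ℚ_[p] (PadicAlgCl p)) (ζ π : PadicAlgCl p)
    (f : h78_G p → ZMod p) (i : ℕ) : Prop :=
  ∃ u : PadicAlgCl p, h43_Red p M u ∧ ‖u - 1‖ = ‖π‖ ^ i ∧ h43_IsKum p M ζ u f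

/-- the flat Kummer characters over `M`: Kummer characters of elements of `h78_U p M`. -/
def h43_IsFlatChar (M : IntermediateField ℚ_[p] (PadicAlgCl p)) (ζ : PadicAlgCl p)
    (f : h78_G p → ZMod p) : Prop :=
  ∃ u : PadicAlgCl p, u ∈ h78_U p M ∧ h43_IsKum p M ζ u f

/-- `g` fixes every root of unity of order prime to `p` (i.e. `g` is in the absolute inertia
group). -/
def h43_Inert (g : h78_G p) : Prop :=
  ∀ ξ : PadicAlgCl p, (∃ n : ℕ, 0 < n ∧ ¬ p ∣ n ∧ ξ ^ n = 1) → g ξ = ξ

end Fermat.Agent.S56
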