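/-
S56 / W3 / E-IRR, row EI-M (helper32): the fixed field of an open subgroup of `Gal(Ω/ℚ_p)`.
-/
import Fermat.Agent.S56.h43_EIDefs

set_option autoImplicit false

namespace Fermat.Agent.S56

variable (p : ℕ) [Fact p.Prime]

local notation "Ω" => PadicAlgCl p
local notation "Fld" => IntermediateField ℚ_[p] (PadicAlgCl p)

/-- **EI-M.**  A subgroup `Hs` of `Gal(Ω/ℚ_p)` containing `Gal(Ω/L)` for a finite `L/ℚ_p` is
`Gal(Ω/M)` for a subfield `M ≤ L`. -/
theorem h43_fixedField_of_open (Hs : Subgroup (h78_G p)) (L : Fld) [FiniteDimensional ℚ_[p] L]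
    (hL : ∀ g : h78_G p, h43_Fix p L g → g ∈ Hs) :
    ∃ M : Fld, M ≤ L ∧ ∀ g : h78_G p, h43_Fix p M g ↔ g ∈ Hs := by
  have hle : L.fixingSubgroup ≤ Hs := by
    intro g hg
    apply hL
    intro z hz
    exact (IntermediateField.mem_fixingSubgroup_iff L g).mp hg z hz
  have hLopen : IsOpen (L.fixingSubgroup : Set (h78_G p)) :=
    IntermediateField.fixingSubgroup_isOpen L
  have hopen : IsOpen (Hs : Set (h78_G p)) := Subgroup.isOpen_mono hle hLopen
  have hclosed : IsClosed (Hs : Set (h78_G p)) := Subgroup.isClosed_of_isOpen Hs hopen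
  let Hc : ClosedSubgroup (h78_G p) := ⟨Hs, hclosed⟩
  have hfix : (IntermediateField.fixedField Hs).fixingSubgroup = Hs :=
    InfiniteGalois.fixingSubgroup_fixedField Hc
  refine ⟨IntermediateField.fixedField Hs, ?_, ?_⟩
  · have h1 : IntermediateField.fixedField Hs ≤ IntermediateField.fixedField L.fixingSubgroup :=
      IntermediateField.fixedField_antitone hle
    rwa [InfiniteGalois.fixedField_fixingSubgroup] at h1
  · intro g
    constructor
    · intro hg
      rw [← hfix]
      exact (IntermediateField.mem_fixingSubgroup_iff _ g).mpr hg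
    · intro hg z hz
      have hg' : g ∈ (IntermediateField.fixedField Hs).fixingSubgroup := by
        rw [hfix]
        exact hg
      exact (IntermediateField.mem_fixingSubgroup_iff _ g).mp hg' z hz

end Fermat.Agent.S56
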