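/-
S56 / W3 / E-RED (route R80), row W3-ER-IMG (helper32): `J_L` and `J_F` have the same image on
a stable subfield `F ≤ L`.

Proof.  `H := {g | ∃ τ' ∈ J_L, τ' = g on F}` is a subgroup of `Gal(Ω/ℚ_p)` (because `F` is
stable) containing `Gal(Ω/F)`, hence `H = Gal(Ω/E)` for a subfield `E ≤ F`
(`h43_fixedField_of_open`).  Since `J_L = Gal(Ω/K₀(L)) ≤ H`, `E ≤ K₀(L)`.  A subfield `E'` of
`K₀(L)` is unramified with the residue field of `K₀(E')` (`h49_K0_res`), hence equals `K₀(E')`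
(`h35_expansion` with `j = 1`); so `E ≤ F ⊓ K₀(L) ≤ K₀(F)`, and `J_F ≤ Gal(Ω/E) = H`.
-/
import Fermat.Agent.S56.h32_EIFixed
import Fermat.Agent.S56.h35_Expansion
import Fermat.Agent.S56.h57_K0Unram
import Fermat.Agent.S56.h49_K0Res
import Fermat.Agent.S56.h62_W3Basics

set_option autoImplicit false

namespace Fermat.Agent.S56

variable (p : ℕ) [Fact p.Prime]

local notation "Ω" => PadicAlgCl p
local notation "Fld" => IntermediateField ℚ_[p] (PadicAlgCl p)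

/-- `p` is a uniformizer of every subfield with value group `p^ℤ`. -/
theorem h32_unif_p (E : Fld) (hE : ∀ c ∈ E, c ≠ 0 → ∃ n : ℤ, ‖c‖ = (p : ℝ) ^ n) :
    h78_IsUnif p E (p : Ω) := by
  have hp0 : (p : ℝ) ≠ 0 := by exact_mod_cast (Fact.out : p.Prime).ne_zero
  refine ⟨natCast_mem E p, ?_, h49_norm_p_lt_one p, ?_⟩
  · exact_mod_cast (Fact.out : p.Prime).ne_zero
  · intro x hx hx0
    obtain ⟨n, hn⟩ := hE x hx hx0
    refine ⟨-n, ?_⟩
    rw [hn, h62_norm_p, inv_zpow, zpow_neg, inv_inv]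

/-- `K₀` is monotone. -/
theorem h32_K0_mono {E F : Fld} (h : E ≤ F) : h78_K0 p E ≤ h78_K0 p F := by
  apply IntermediateField.adjoin.mono
  rintro ζ ⟨hζ, hn⟩
  exact ⟨h hζ, hn⟩

/-- A subfield of `K₀(L)` is generated by its roots of unity of order prime to `p`. -/
theorem h32_le_K0_self (E L : Fld) [FiniteDimensional ℚ_[p] E] [FiniteDimensional ℚ_[p] L]
    (hEL : E ≤ h78_K0 p L) : E ≤ h78_K0 p E := by
  have hunrE : ∀ c ∈ E, c ≠ 0 → ∃ n : ℤ, ‖c‖ = (p : ℝ) ^ n :=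
    fun c hc hc0 => h57_K0_unram p L c (hEL hc) hc0
  have hM₀E : h78_K0 p E ≤ E := h49_K0_le p E
  have hunrM : ∀ c ∈ h78_K0 p E, c ≠ 0 → ∃ n : ℤ, ‖c‖ = (p : ℝ) ^ n :=
    fun c hc hc0 => hunrE c (hM₀E hc) hc0
  intro z hz
  obtain ⟨c, hc, hzc, -⟩ := h35_expansion p E (h78_K0 p E) hM₀E
    (fun x hx hx1 => h49_K0_res p E x hx hx1) (p : Ω) (p : Ω) (h32_unif_p p E hunrE)
    (h32_unif_p p (h78_K0 p E) hunrM) 1 (by rw [pow_one]) z hz
  have h1 : z = c 0 := by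
    rw [hzc, Fin.sum_univ_one]
    simp
  rw [h1]
  exact hc 0

/-- `F ⊓ K₀(L) ≤ K₀(F)`. -/
theorem h32_inf_K0_le (F L : Fld) [FiniteDimensional ℚ_[p] F] [FiniteDimensional ℚ_[p] L] :
    F ⊓ h78_K0 p L ≤ h78_K0 p F := by
  have hfd : FiniteDimensional ℚ_[p] ↥(F ⊓ h78_K0 p L) :=
    Module.Finite.of_injective (IntermediateField.inclusion (inf_le_left : F ⊓ h78_K0 p L ≤ F)).toLinearMap
      (IntermediateField.inclusion_injective (inf_le_left : F ⊓ h78_K0 p L ≤ F))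
  exact (h32_le_K0_self p (F ⊓ h78_K0 p L) L inf_le_right).trans (h32_K0_mono p inf_le_left)

/-- **W3-ER-IMG** (`skR_J_image` of the E-RED skeleton, verbatim). -/
theorem h32_J_image (F L : Fld) [FiniteDimensional ℚ_[p] F] [FiniteDimensional ℚ_[p] L]
    (hF : h78_Stable p F) (hL : h78_Stable p L) (hFL : F ≤ L)
    (τ : h78_G p) (hτ : τ ∈ h78_J p F) : ∃ τ' ∈ h78_J p L, ∀ z ∈ F, τ' z = τ z := by
  let H : Subgroup (h78_G p) :=
    { carrier := {g | ∃ τ' ∈ h78_J p L, ∀ z ∈ F, τ' z = g z}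
      one_mem' := ⟨1, Subgroup.one_mem _, fun _ _ => rfl⟩
      mul_mem' := by
        rintro g₁ g₂ ⟨t₁, ht₁, h₁⟩ ⟨t₂, ht₂, h₂⟩
        refine ⟨t₁ * t₂, Subgroup.mul_mem _ ht₁ ht₂, fun z hz => ?_⟩
        rw [AlgEquiv.mul_apply, AlgEquiv.mul_apply, h₂ z hz, h₁ _ (hF g₂ z hz)]
      inv_mem' := by
        rintro g ⟨t, ht, h⟩
        refine ⟨t⁻¹, Subgroup.inv_mem _ ht, fun z hz => ?_⟩
        have hw : g⁻¹ z ∈ F := hF g⁻¹ z hz
        have h1 : t (g⁻¹ z) = z := by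
          rw [h _ hw]
          exact AlgEquiv.apply_symm_apply g z
        calc t⁻¹ z = t⁻¹ (t (g⁻¹ z)) := by rw [h1]
          _ = g⁻¹ z := AlgEquiv.symm_apply_apply t _ }
  have hHF : ∀ g : h78_G p, h43_Fix p F g → g ∈ H := fun g hg =>
    ⟨1, Subgroup.one_mem _, fun z hz => (hg z hz).symm⟩
  obtain ⟨E, hEF, hE⟩ := h43_fixedField_of_open p H F hHF
  have hfdK : FiniteDimensional ℚ_[p] ↥(h78_K0 p L) :=
    Module.Finite.of_injective (IntermediateField.inclusion (h49_K0_le p L)).toLinearMap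
      (IntermediateField.inclusion_injective (h49_K0_le p L))
  have hEK : E ≤ h78_K0 p L := by
    intro x hx
    apply h62_mem_of_fixed p (h78_K0 p L) x
    intro g hg
    have hgJ : g ∈ h78_J p L := by
      intro c
      exact hg c c.2
    have hgH : g ∈ H := ⟨g, hgJ, fun _ _ => rfl⟩
    exact (hE g).mpr hgH x hx
  have hEK0 : E ≤ h78_K0 p F := (le_inf hEF hEK).trans (h32_inf_K0_le p F L)
  have hτE : h43_Fix p E τ := fun z hz => h49_J_fix p F τ hτ z (hEK0 hz)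
  exact (hE τ).mp hτE

end Fermat.Agent.S56
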