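import Fermat.Agent.S56.h80_ERedDefs
import Fermat.Agent.S56.h62_W3Basics
import Fermat.Agent.S56.h5_KumBasic
import Fermat.Agent.S56.h49_KumUnram

/-!
# S56 / W3 / E-RED, route R80, row W3-ER-LEAD (helper79)

The leading coefficient of a Kummer datum (`h80_Lead`): statements `skR_lead_unique`,
`skR_lead_add`, `skR_lead_gal`, `skR_lead_ker` of helper80's skeleton, verbatim.

* `h79_lead_unique` (L1) : the leading coefficient is well defined modulo the maximal ideal;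
* `h79_lead_add`    (L2) : additivity;
* `h79_lead_gal`    (L3) : Galois equivariance;
* `h79_lead_ker`    (L4) : leading coefficient zero ⇒ the character vanishes on inertia
  (D3 `h49_kummer_unram`).
-/

set_option autoImplicit false

open Coalgebra WithConv

namespace Fermat.Agent.S56

variable (p : ℕ) [Fact p.Prime]

local notation "Ω" => PadicAlgCl p
local notation "Fld" => IntermediateField ℚ_[p] (PadicAlgCl p)

/-! ## Elementary facts -/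

theorem h79_zeta_pow_val_add (ζ : Ω) (hζp : ζ ^ p = 1) (a b : ZMod p) :
    ζ ^ (a + b).val = ζ ^ a.val * ζ ^ b.val := by
  rw [ZMod.val_add, ← pow_eq_pow_mod _ hζp, pow_add]

theorem h79_zeta_pow_val_mul (ζ : Ω) (hζp : ζ ^ p = 1) (n : ℕ) (b : ZMod p) :
    ζ ^ ((n : ZMod p) * b).val = (ζ ^ n) ^ b.val := by
  rw [ZMod.val_mul, ← pow_eq_pow_mod _ hζp, ZMod.val_natCast, pow_mul,
    ← pow_eq_pow_mod _ hζp, ← pow_mul]

theorem h79_norm_eq_one (u : Ω) (h : ‖u - 1‖ < 1) : ‖u‖ = 1 := by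
  have e : u = (u - 1) + 1 := by ring
  rw [e, IsUltrametricDist.norm_add_eq_max_of_norm_ne_norm, norm_one, max_eq_right h.le]
  rw [norm_one]
  exact h.ne

theorem h79_natCast_ne_zero : (p : Ω) ≠ 0 := by
  intro h0
  have h1 := h5_norm_p p
  rw [h0, norm_zero] at h1
  have h2 := inv_pos.2 (h5_p_pos p)
  linarith

/-- an element of `F` of norm `< 1` has norm at most that of a uniformizer. -/
theorem h79_norm_le_unif (F : Fld) (π : Ω) (hunif : h78_IsUnif p F π) (x : Ω) (hx : x ∈ F)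
    (hx1 : ‖x‖ < 1) : ‖x‖ ≤ ‖π‖ := by
  obtain ⟨-, hπ0, hπlt, hπval⟩ := hunif
  have hπpos : 0 < ‖π‖ := norm_pos_iff.2 hπ0
  by_cases hx0 : x = 0
  · rw [hx0, norm_zero]
    exact hπpos.le
  · obtain ⟨n, hn⟩ := hπval x hx hx0
    have h0n : 0 < n := h5_zpow_lt hπpos hπlt (by rw [zpow_zero, ← hn]; exact hx1)
    rw [hn]
    calc ‖π‖ ^ n ≤ ‖π‖ ^ (1 : ℤ) := zpow_le_zpow_right_of_le_one₀ hπpos hπlt.le (by omega)
      _ = ‖π‖ := zpow_one _

/-! ## L2 : additivity -/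

theorem h79_lead_add (F L : Fld) (ζ : Ω) (hζp : ζ ^ p = 1)
    (ξ ξ' : h78_G p → ZMod p) (y y' : Ω) (h : h80_Lead p F L ζ ξ y)
    (h' : h80_Lead p F L ζ ξ' y') : h80_Lead p F L ζ (fun g => ξ g + ξ' g) (y + y') := by
  obtain ⟨u, α, huF, hαL, hα, hu1, hy, hact⟩ := h
  obtain ⟨u', α', hu'F, hα'L, hα', hu'1, hy', hact'⟩ := h'
  have hpi : (p : ℝ)⁻¹ < 1 := h5_inv_p_lt_one p
  have hppos : (0 : ℝ) < p := h5_p_pos p
  have hpn : ‖(p : Ω)‖ = (p : ℝ)⁻¹ := h5_norm_p p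
  have hp0 : (p : Ω) ≠ 0 := h79_natCast_ne_zero p
  refine ⟨u * u', α * α', F.mul_mem huF hu'F, L.mul_mem hαL hα'L, by rw [mul_pow, hα, hα'],
    ?_, ?_, ?_⟩
  · have e : u * u' - 1 = (u - 1) * (u' - 1) + ((u - 1) + (u' - 1)) := by ring
    rw [e]
    refine le_trans (IsUltrametricDist.norm_add_le_max _ _) (max_le ?_
      (le_trans (IsUltrametricDist.norm_add_le_max _ _) (max_le hu1 hu'1)))
    rw [norm_mul]
    calc ‖u - 1‖ * ‖u' - 1‖ ≤ (p : ℝ)⁻¹ * 1 :=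
          mul_le_mul hu1 (hu'1.trans hpi.le) (norm_nonneg _) (inv_nonneg.2 hppos.le)
      _ = (p : ℝ)⁻¹ := mul_one _
  · have e : (u * u' - 1) / (p : Ω) - (y + y') =
        (((u - 1) / (p : Ω) - y) + ((u' - 1) / (p : Ω) - y')) +
          (u - 1) * ((u' - 1) / (p : Ω)) := by
      field_simp
      ring
    rw [e]
    refine lt_of_le_of_lt (IsUltrametricDist.norm_add_le_max _ _) (max_lt
      (lt_of_le_of_lt (IsUltrametricDist.norm_add_le_max _ _) (max_lt hy hy')) ?_)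
    rw [norm_mul, norm_div, hpn]
    have h1 : ‖u' - 1‖ / (p : ℝ)⁻¹ ≤ 1 := by
      rw [div_le_one (inv_pos.2 hppos)]
      exact hu'1
    calc ‖u - 1‖ * (‖u' - 1‖ / (p : ℝ)⁻¹) ≤ (p : ℝ)⁻¹ * 1 :=
          mul_le_mul hu1 h1 (div_nonneg (norm_nonneg _) (inv_nonneg.2 hppos.le))
            (inv_nonneg.2 hppos.le)
      _ = (p : ℝ)⁻¹ := mul_one _
      _ < 1 := hpi
  · intro g hg
    rw [map_mul, hact g hg, hact' g hg, h79_zeta_pow_val_add p ζ hζp]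
    ring

/-! ## L3 : Galois equivariance -/

theorem h79_lead_gal (F L : Fld) (hF : h78_Stable p F) (hL : h78_Stable p L)
    (ζ : Ω) (hζp : ζ ^ p = 1) (g : h78_G p) (n : ℕ) (hn : g ζ = ζ ^ n)
    (ξ : h78_G p → ZMod p) (y : Ω) (h : h80_Lead p F L ζ ξ y) :
    h80_Lead p F L ζ (fun s => (n : ZMod p) * ξ (g⁻¹ * s * g)) (g y) := by
  obtain ⟨u, α, huF, hαL, hα, hu1, hy, hact⟩ := h
  refine ⟨g u, g α, hF g u huF, hL g α hαL, by rw [← map_pow, hα], ?_, ?_, ?_⟩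
  · have e : g u - 1 = g (u - 1) := by rw [map_sub, map_one]
    rw [e, h78_norm_aut]
    exact hu1
  · have e : (g u - 1) / (p : Ω) - g y = g ((u - 1) / (p : Ω) - y) := by
      rw [map_sub, map_div₀, map_sub, map_one, map_natCast]
    rw [e, h78_norm_aut]
    exact hy
  · intro s hs
    have hinv : ∀ x : Ω, g⁻¹ (g x) = x := by
      intro x
      show (g⁻¹ * g) x = x
      rw [inv_mul_cancel]
      rfl
    have hinv' : ∀ x : Ω, g (g⁻¹ x) = x := by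
      intro x
      show (g * g⁻¹) x = x
      rw [mul_inv_cancel]
      rfl
    have hfix : ∀ z ∈ F, (g⁻¹ * s * g) z = z := by
      intro z hz
      show g⁻¹ (s (g z)) = z
      rw [hs (g z) (hF g z hz), hinv]
    have e1 : s (g α) = g ((g⁻¹ * s * g) α) := by
      show s (g α) = g (g⁻¹ (s (g α)))
      rw [hinv']
    rw [e1, hact _ hfix, map_mul, map_pow, hn, h79_zeta_pow_val_mul p ζ hζp]

/-! ## L1 : the leading coefficient is well defined -/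

theorem h79_lead_unique (F L : Fld) [FiniteDimensional ℚ_[p] F]
    (ζ : Ω) (hζp : ζ ^ p = 1) (hζ1 : ζ ≠ 1) (hunif : h78_IsUnif p F (ζ - 1))
    (ξ : h78_G p → ZMod p) (y y' : Ω) (h : h80_Lead p F L ζ ξ y) (h' : h80_Lead p F L ζ ξ y') :
    ‖y - y'‖ < 1 := by
  obtain ⟨u, α, huF, hαL, hα, hu1, hy, hact⟩ := h
  obtain ⟨u', α', hu'F, hα'L, hα', hu'1, hy', hact'⟩ := h'
  have hp : p.Prime := Fact.out
  have hpi : (p : ℝ)⁻¹ < 1 := h5_inv_p_lt_one p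
  have hppos : (0 : ℝ) < p := h5_p_pos p
  have hpn : ‖(p : Ω)‖ = (p : ℝ)⁻¹ := h5_norm_p p
  have hp0 : (p : Ω) ≠ 0 := h79_natCast_ne_zero p
  have hun : ‖u‖ = 1 := h79_norm_eq_one p u (lt_of_le_of_lt hu1 hpi)
  have hu'n : ‖u'‖ = 1 := h79_norm_eq_one p u' (lt_of_le_of_lt hu'1 hpi)
  have hαn : ‖α‖ = 1 := by
    have h2 : ‖α‖ ^ p = 1 := by rw [← norm_pow, hα, hun]
    exact (pow_eq_one_iff_of_nonneg (norm_nonneg α) hp.ne_zero).1 h2
  have hα'n : ‖α'‖ = 1 := by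
    have h2 : ‖α'‖ ^ p = 1 := by rw [← norm_pow, hα', hu'n]
    exact (pow_eq_one_iff_of_nonneg (norm_nonneg α') hp.ne_zero).1 h2
  have hα'0 : α' ≠ 0 := by
    intro h0
    rw [h0, norm_zero] at hα'n
    exact zero_ne_one hα'n
  have hu'0 : u' ≠ 0 := by
    intro h0
    rw [h0, norm_zero] at hu'n
    exact zero_ne_one hu'n
  have hζ0 : ζ ≠ 0 := by
    intro h0
    rw [h0, zero_pow hp.ne_zero] at hζp
    exact zero_ne_one hζp
  -- `β = α / α'` lies in `F`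
  have hβF : α / α' ∈ F := by
    apply h62_mem_of_fixed p F
    intro g hg
    rw [map_div₀, hact g hg, hact' g hg]
    have hζe : ζ ^ (ξ g).val ≠ 0 := pow_ne_zero _ hζ0
    field_simp
  have hβp : (α / α') ^ p = u / u' := by rw [div_pow, hα, hα']
  have hβn : ‖α / α'‖ = 1 := by rw [norm_div, hαn, hα'n, div_one]
  have htF : α / α' - 1 ∈ F := F.sub_mem hβF F.one_mem
  have ht1 : ‖α / α' - 1‖ ≤ 1 := by
    refine le_trans (h5_norm_sub_le_max p _ _) ?_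
    rw [hβn, norm_one, max_self]
  have hv : ‖u / u' - 1‖ ≤ (p : ℝ)⁻¹ := by
    have e : u / u' - 1 = ((u - 1) - (u' - 1)) / u' := by
      field_simp
      ring
    rw [e, norm_div, hu'n, div_one]
    exact le_trans (h5_norm_sub_le_max p _ _) (max_le hu1 hu'1)
  have hb := h5_binom_one p (α / α' - 1) ht1
  have e1 : (1 + (α / α' - 1)) ^ p = u / u' := by rw [add_sub_cancel, hβp]
  rw [e1] at hb
  have htp : ‖α / α' - 1‖ ^ p ≤ (p : ℝ)⁻¹ := by
    rw [← norm_pow]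
    have e2 : (α / α' - 1) ^ p = (u / u' - 1) - (u / u' - 1 - (α / α' - 1) ^ p) := by ring
    rw [e2]
    refine le_trans (h5_norm_sub_le_max p _ _) (max_le hv (hb.trans ?_))
    calc (p : ℝ)⁻¹ * ‖α / α' - 1‖ ≤ (p : ℝ)⁻¹ * 1 :=
          mul_le_mul_of_nonneg_left ht1 (inv_nonneg.2 hppos.le)
      _ = (p : ℝ)⁻¹ := mul_one _
  have htlt : ‖α / α' - 1‖ < 1 := by
    by_contra hge
    rw [not_lt] at hge
    have h2 : (1 : ℝ) ≤ ‖α / α' - 1‖ ^ p := one_le_pow₀ hge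
    linarith
  have htπ : ‖α / α' - 1‖ ≤ ‖ζ - 1‖ := h79_norm_le_unif p F (ζ - 1) hunif _ htF htlt
  have hπlt : ‖ζ - 1‖ < 1 := hunif.2.2.1
  have hπp : ‖ζ - 1‖ ^ (p - 1) = (p : ℝ)⁻¹ := h5_root_unity_eq p ζ hζp hζ1
  have hv2 : ‖u / u' - 1‖ ≤ (p : ℝ)⁻¹ * ‖ζ - 1‖ := by
    have e2 : u / u' - 1 = (u / u' - 1 - (α / α' - 1) ^ p) + (α / α' - 1) ^ p := by ring
    rw [e2]
    refine le_trans (IsUltrametricDist.norm_add_le_max _ _) (max_le (hb.trans ?_) ?_)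
    · exact mul_le_mul_of_nonneg_left htπ (inv_nonneg.2 hppos.le)
    · rw [norm_pow]
      calc ‖α / α' - 1‖ ^ p ≤ ‖ζ - 1‖ ^ p := pow_le_pow_left₀ (norm_nonneg _) htπ p
        _ = ‖ζ - 1‖ ^ (p - 1) * ‖ζ - 1‖ := by
            rw [← pow_succ]
            congr 1
            have := hp.one_le
            omega
        _ = (p : ℝ)⁻¹ * ‖ζ - 1‖ := by rw [hπp]
  have e3 : y - y' = (((u' - 1) / (p : Ω) - y') - ((u - 1) / (p : Ω) - y)) +
      u' * (u / u' - 1) / (p : Ω) := by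
    field_simp
    ring
  rw [e3]
  refine lt_of_le_of_lt (IsUltrametricDist.norm_add_le_max _ _) (max_lt
    (lt_of_le_of_lt (h5_norm_sub_le_max p _ _) (max_lt hy' hy)) ?_)
  rw [norm_div, norm_mul, hu'n, one_mul, hpn]
  calc ‖u / u' - 1‖ / (p : ℝ)⁻¹ ≤ ((p : ℝ)⁻¹ * ‖ζ - 1‖) / (p : ℝ)⁻¹ :=
        div_le_div_of_nonneg_right hv2 (inv_nonneg.2 hppos.le)
    _ = ‖ζ - 1‖ := by
        field_simp
    _ < 1 := hπlt

/-! ## L4 : leading coefficient zero ⇒ trivial on inertia -/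

theorem h79_lead_ker (F L : Fld) [FiniteDimensional ℚ_[p] F] [FiniteDimensional ℚ_[p] L]
    (hFL : F ≤ L) (ζ : Ω) (hζp : ζ ^ p = 1) (hζ1 : ζ ≠ 1) (hunif : h78_IsUnif p F (ζ - 1))
    (ξ : h78_G p → ZMod p) (y : Ω) (h : h80_Lead p F L ζ ξ y) (hy : ‖y‖ < 1)
    (s : h78_G p) (hsF : ∀ z ∈ F, s z = z) (hsJ : s ∈ h78_J p L) : ξ s = 0 := by
  obtain ⟨u, α, huF, hαL, hα, hu1, hyu, hact⟩ := h
  have hp : p.Prime := Fact.out
  have hNZ : NeZero p := ⟨hp.ne_zero⟩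
  have hpi : (p : ℝ)⁻¹ < 1 := h5_inv_p_lt_one p
  have hppos : (0 : ℝ) < p := h5_p_pos p
  have hpn : ‖(p : Ω)‖ = (p : ℝ)⁻¹ := h5_norm_p p
  have hp0 : (p : Ω) ≠ 0 := h79_natCast_ne_zero p
  have hζF : ζ ∈ F := by
    have h1 := F.add_mem hunif.1 F.one_mem
    rwa [sub_add_cancel] at h1
  have hπp : ‖ζ - 1‖ ^ (p - 1) = (p : ℝ)⁻¹ := h5_root_unity_eq p ζ hζp hζ1
  -- `‖(u - 1) / p‖ < 1`, hence `≤ ‖ζ - 1‖`
  have hx : ‖(u - 1) / (p : Ω)‖ < 1 := by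
    have e : (u - 1) / (p : Ω) = ((u - 1) / (p : Ω) - y) + y := by ring
    rw [e]
    exact lt_of_le_of_lt (IsUltrametricDist.norm_add_le_max _ _) (max_lt hyu hy)
  have hxF : (u - 1) / (p : Ω) ∈ F := F.div_mem (F.sub_mem huF F.one_mem) (natCast_mem F p)
  have hxπ : ‖(u - 1) / (p : Ω)‖ ≤ ‖ζ - 1‖ := h79_norm_le_unif p F (ζ - 1) hunif _ hxF hx
  have hu2 : ‖u - 1‖ ≤ (p : ℝ)⁻¹ * ‖ζ - 1‖ := by
    rw [norm_div, hpn, div_le_iff₀ (inv_pos.2 hppos)] at hxπ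
    rw [mul_comm]
    exact hxπ
  have hD3 : (p : ℝ) ^ p * ‖u - 1‖ ^ (p - 1) ≤ 1 := by
    calc (p : ℝ) ^ p * ‖u - 1‖ ^ (p - 1)
        ≤ (p : ℝ) ^ p * ((p : ℝ)⁻¹ * ‖ζ - 1‖) ^ (p - 1) :=
          mul_le_mul_of_nonneg_left (pow_le_pow_left₀ (norm_nonneg _) hu2 _)
            (pow_nonneg hppos.le _)
      _ = (p : ℝ) ^ p * (((p : ℝ)⁻¹) ^ (p - 1) * (p : ℝ)⁻¹) := by rw [mul_pow, hπp]
      _ = 1 := by
          rw [← pow_succ, Nat.sub_add_cancel hp.one_le, ← mul_pow, mul_inv_cancel₀ hppos.ne',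
            one_pow]
  have hmem := h49_kummer_unram p F L hFL ζ hζF hζp hζ1 u huF hD3 α hα hαL
  -- `s` fixes `F·K₀(L)` pointwise
  have hfix : ∀ x ∈ IntermediateField.adjoin ℚ_[p] ((F : Set Ω) ∪ (h78_K0 p L : Set Ω)),
      s x = x := by
    intro x hx
    induction hx using IntermediateField.adjoin_induction with
    | mem x hx =>
      rcases hx with hx | hx
      · exact hsF x hx
      · exact (IntermediateField.mem_fixingSubgroup_iff _ s).1 hsJ x hx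
    | algebraMap x => exact s.commutes x
    | add x y _ _ hx hy => rw [map_add, hx, hy]
    | inv x _ hx => rw [map_inv₀, hx]
    | mul x y _ _ hx hy => rw [map_mul, hx, hy]
  have hsα : s α = α := hfix α hmem
  have hun : ‖u‖ = 1 := h79_norm_eq_one p u (lt_of_le_of_lt hu1 hpi)
  have hα0 : α ≠ 0 := by
    intro h0
    rw [h0, zero_pow hp.ne_zero] at hα
    rw [← hα, norm_zero] at hun
    exact zero_ne_one hun
  have h1 : ζ ^ (ξ s).val = 1 := by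
    have h2 := hact s hsF
    rw [hsα] at h2
    have h3 : (ζ ^ (ξ s).val - 1) * α = 0 := by
      rw [sub_mul, one_mul, ← h2, sub_self]
    rcases mul_eq_zero.1 h3 with h4 | h4
    · exact sub_eq_zero.1 h4
    · exact absurd h4 hα0
  have hord : orderOf ζ = p := orderOf_eq_prime hζp hζ1
  have hdvd : p ∣ (ξ s).val := by
    have h5 := orderOf_dvd_of_pow_eq_one h1
    rwa [hord] at h5
  have hlt : (ξ s).val < p := ZMod.val_lt (ξ s)
  have h0 : (ξ s).val = 0 := Nat.eq_zero_of_dvd_of_lt hdvd hlt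
  exact (ZMod.val_eq_zero (ξ s)).1 h0

end Fermat.Agent.S56
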