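/-
S56 / W3 / E-RED (route R80 v2), row W3-ER-LEAD (tasks 651; helper32): the seven basic facts on
Kummer data (`h80_KD`) and leading coefficients (`h80_Lead`) of skeleton v2
(`skR_lead_of_kd`, `skR_lead_norm`, `skR_lead_near`, `skR_lead_congr`, `skR_kd_mono`,
`skR_kd_congr`, `skR_kd_add`), verbatim with `skR_` replaced by `h32_`.

The four main statements L1–L4 of the row are helper79's `h79_lead_unique`, `h79_lead_add`,
`h79_lead_gal`, `h79_lead_ker` (S56/h79_ERLead.lean, imported here).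
-/
import Fermat.Agent.S56.h79_ERLead

set_option autoImplicit false

namespace Fermat.Agent.S56

variable (p : ℕ) [Fact p.Prime]

local notation "Ω" => PadicAlgCl p
local notation "Fld" => IntermediateField ℚ_[p] (PadicAlgCl p)

/-- `‖x / p‖ = p * ‖x‖`. -/
theorem h32_norm_div_p (x : Ω) : ‖x / (p : Ω)‖ = (p : ℝ) * ‖x‖ := by
  rw [norm_div, h62_norm_p, div_eq_mul_inv, inv_inv, mul_comm]

theorem h32_lead_of_kd (F L : Fld) (ζ : Ω) (ξ : h78_G p → ZMod p) (h : h80_KD p F L ζ ξ) :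
    ∃ y : Ω, ‖y‖ ≤ 1 ∧ y ∈ F ∧ h80_Lead p F L ζ ξ y := by
  obtain ⟨u, α, huF, hαL, hαp, hu, hα⟩ := h
  have hp0 : (0 : ℝ) < p := by exact_mod_cast (Fact.out : p.Prime).pos
  refine ⟨(u - 1) / (p : Ω), ?_, ?_, u, α, huF, hαL, hαp, hu, ?_, hα⟩
  · rw [h32_norm_div_p]
    calc (p : ℝ) * ‖u - 1‖ ≤ (p : ℝ) * (p : ℝ)⁻¹ := mul_le_mul_of_nonneg_left hu hp0.le
      _ = 1 := mul_inv_cancel₀ hp0.ne'
  · exact div_mem (sub_mem huF (one_mem F)) (natCast_mem F p)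
  · rw [sub_self, norm_zero]
    exact one_pos

theorem h32_lead_norm (F L : Fld) (ζ : Ω) (ξ : h78_G p → ZMod p) (y : Ω)
    (h : h80_Lead p F L ζ ξ y) : ‖y‖ ≤ 1 := by
  obtain ⟨u, α, -, -, -, hu, hy, -⟩ := h
  have hp0 : (0 : ℝ) < p := by exact_mod_cast (Fact.out : p.Prime).pos
  have h1 : ‖(u - 1) / (p : Ω)‖ ≤ 1 := by
    rw [h32_norm_div_p]
    calc (p : ℝ) * ‖u - 1‖ ≤ (p : ℝ) * (p : ℝ)⁻¹ := mul_le_mul_of_nonneg_left hu hp0.le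
      _ = 1 := mul_inv_cancel₀ hp0.ne'
  have e : y = (u - 1) / (p : Ω) + -((u - 1) / (p : Ω) - y) := by ring
  rw [e]
  exact (IsUltrametricDist.norm_add_le_max _ _).trans (max_le h1 (by rw [norm_neg]; exact hy.le))

theorem h32_lead_near (F L : Fld) (ζ : Ω) (ξ : h78_G p → ZMod p) (y y' : Ω)
    (h : h80_Lead p F L ζ ξ y) (hyy' : ‖y - y'‖ < 1) : h80_Lead p F L ζ ξ y' := by
  obtain ⟨u, α, huF, hαL, hαp, hu, hy, hα⟩ := h
  refine ⟨u, α, huF, hαL, hαp, hu, ?_, hα⟩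
  have e : (u - 1) / (p : Ω) - y' = ((u - 1) / (p : Ω) - y) + (y - y') := by ring
  rw [e]
  exact lt_of_le_of_lt (IsUltrametricDist.norm_add_le_max _ _) (max_lt hy hyy')

theorem h32_lead_congr (F L : Fld) (ζ : Ω) (ξ ξ' : h78_G p → ZMod p) (y : Ω)
    (h : h80_Lead p F L ζ ξ y) (hξ : ∀ g : h78_G p, (∀ z ∈ F, g z = z) → ξ g = ξ' g) :
    h80_Lead p F L ζ ξ' y := by
  obtain ⟨u, α, huF, hαL, hαp, hu, hy, hα⟩ := h
  refine ⟨u, α, huF, hαL, hαp, hu, hy, fun g hg => ?_⟩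
  rw [← hξ g hg]
  exact hα g hg

theorem h32_kd_mono (F L L' : Fld) (hLL' : L ≤ L') (ζ : Ω) (ξ : h78_G p → ZMod p)
    (h : h80_KD p F L ζ ξ) : h80_KD p F L' ζ ξ := by
  obtain ⟨u, α, huF, hαL, hαp, hu, hα⟩ := h
  exact ⟨u, α, huF, hLL' hαL, hαp, hu, hα⟩

theorem h32_kd_congr (F L : Fld) (ζ : Ω) (ξ ξ' : h78_G p → ZMod p)
    (h : h80_KD p F L ζ ξ) (hξ : ∀ g : h78_G p, (∀ z ∈ F, g z = z) → ξ g = ξ' g) :
    h80_KD p F L ζ ξ' := by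
  obtain ⟨u, α, huF, hαL, hαp, hu, hα⟩ := h
  refine ⟨u, α, huF, hαL, hαp, hu, fun g hg => ?_⟩
  rw [← hξ g hg]
  exact hα g hg

theorem h32_kd_add (F L : Fld) (ζ : Ω) (hζp : ζ ^ p = 1) (ξ ξ' : h78_G p → ZMod p)
    (h : h80_KD p F L ζ ξ) (h' : h80_KD p F L ζ ξ') :
    h80_KD p F L ζ (fun g => ξ g + ξ' g) := by
  obtain ⟨u, α, huF, hαL, hαp, hu, hα⟩ := h
  obtain ⟨u', α', hu'F, hα'L, hα'p, hu', hα'⟩ := h'
  have hp0 : (0 : ℝ) < p := by exact_mod_cast (Fact.out : p.Prime).pos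
  have hp1 : (p : ℝ)⁻¹ ≤ 1 := by
    apply inv_le_one_of_one_le₀
    exact_mod_cast (Fact.out : p.Prime).one_lt.le
  refine ⟨u * u', α * α', mul_mem huF hu'F, mul_mem hαL hα'L, ?_, ?_, fun g hg => ?_⟩
  · rw [mul_pow, hαp, hα'p]
  · have e : u * u' - 1 = (u - 1) * (u' - 1) + ((u - 1) + (u' - 1)) := by ring
    rw [e]
    refine (IsUltrametricDist.norm_add_le_max _ _).trans (max_le ?_ ?_)
    · rw [norm_mul]
      calc ‖u - 1‖ * ‖u' - 1‖ ≤ (p : ℝ)⁻¹ * 1 :=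
            mul_le_mul hu (hu'.trans hp1) (norm_nonneg _) (inv_pos.2 hp0).le
        _ = (p : ℝ)⁻¹ := mul_one _
    · exact (IsUltrametricDist.norm_add_le_max _ _).trans (max_le hu hu')
  · rw [map_mul, hα g hg, hα' g hg, h79_zeta_pow_val_add p ζ hζp]
    ring

/-! The four main statements of the row (helper79), under the names of this file. -/

theorem h32_lead_unique (F L : Fld) [FiniteDimensional ℚ_[p] F]
    (ζ : Ω) (hζp : ζ ^ p = 1) (hζ1 : ζ ≠ 1) (hunif : h78_IsUnif p F (ζ - 1))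
    (ξ : h78_G p → ZMod p) (y y' : Ω) (h : h80_Lead p F L ζ ξ y) (h' : h80_Lead p F L ζ ξ y') :
    ‖y - y'‖ < 1 :=
  h79_lead_unique p F L ζ hζp hζ1 hunif ξ y y' h h'

theorem h32_lead_add (F L : Fld) (ζ : Ω) (hζp : ζ ^ p = 1)
    (ξ ξ' : h78_G p → ZMod p) (y y' : Ω) (h : h80_Lead p F L ζ ξ y)
    (h' : h80_Lead p F L ζ ξ' y') : h80_Lead p F L ζ (fun g => ξ g + ξ' g) (y + y') :=
  h79_lead_add p F L ζ hζp ξ ξ' y y' h h'

theorem h32_lead_gal (F L : Fld) (hF : h78_Stable p F) (hL : h78_Stable p L)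
    (ζ : Ω) (hζp : ζ ^ p = 1) (g : h78_G p) (n : ℕ) (hn : g ζ = ζ ^ n)
    (ξ : h78_G p → ZMod p) (y : Ω) (h : h80_Lead p F L ζ ξ y) :
    h80_Lead p F L ζ (fun s => (n : ZMod p) * ξ (g⁻¹ * s * g)) (g y) :=
  h79_lead_gal p F L hF hL ζ hζp g n hn ξ y h

theorem h32_lead_ker (F L : Fld) [FiniteDimensional ℚ_[p] F] [FiniteDimensional ℚ_[p] L]
    (hFL : F ≤ L) (ζ : Ω) (hζp : ζ ^ p = 1) (hζ1 : ζ ≠ 1) (hunif : h78_IsUnif p F (ζ - 1))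
    (ξ : h78_G p → ZMod p) (y : Ω) (h : h80_Lead p F L ζ ξ y) (hy : ‖y‖ < 1)
    (s : h78_G p) (hsF : ∀ z ∈ F, s z = z) (hsJ : s ∈ h78_J p L) : ξ s = 0 :=
  h79_lead_ker p F L hFL ζ hζp hζ1 hunif ξ y h hy s hsF hsJ

end Fermat.Agent.S56
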