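import Fermat.Agent.S56.h72_BaseDefs

/-!
# S56, front W1: the infinite-place dictionary  `Pl_∞(F) ≅ (G_ℚ ⧸ U_F) ⧸ ⟨c̄⟩`

For an `S`-level `L₀` (field `F = L₀.F`, `G = G_ℚ ⧸ L₀.U`) and the complex conjugation
`c = complexConjugation`:

* `h72_res_coe`, `h72_res_mul`, `h72_res_one`, `h72_res_eq_one_iff`, `h72_res_surjective` :
  the restriction `h72_res L₀ : G_ℚ → Gal(F/ℚ)`;
* `h72_resBar L₀ : (G_ℚ ⧸ L₀.U) →* Gal(F/ℚ)` (injective, surjective);
* `h72_v0 L₀ : InfinitePlace F` : the place of `complexEmbedding` restricted to `F`;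
* `h72_inf_exists` : every infinite place is `g • v₀`;
* `h72_inf_eq_iff` : `g • v₀ = g' • v₀ ↔ mk (g⁻¹ g') ∈ zpowers c̄`;
* `h72_infEquiv L₀ : (G ⧸ zpowers c̄) ≃ InfinitePlace F`, with
  `h72_infEquiv_smul : infEquiv (mk g • x) = h72_res L₀ g • infEquiv x`.
-/

set_option autoImplicit false

open NumberField

noncomputable section

namespace Fermat.Agent.S56

open Fermat.Agent.S55

local notation "GQ" => (AlgebraicClosure ℚ ≃ₐ[ℚ] AlgebraicClosure ℚ)
local notation "Qb" => AlgebraicClosure ℚ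

variable {S : Finset Nat.Primes} (L₀ : h72_Lev S)

/-! ### The restriction map -/

theorem h72_res_coe (g : GQ) (x : ↥L₀.F) : ((h72_res L₀ g x : ↥L₀.F) : Qb) = g (x : Qb) := by
  have : Normal ℚ ↥L₀.F := L₀.gal.to_normal
  exact AlgEquiv.restrictNormal_commutes g ↥L₀.F x

theorem h72_res_mul (g h : GQ) : h72_res L₀ (g * h) = h72_res L₀ g * h72_res L₀ h := by
  apply AlgEquiv.ext
  intro x
  apply Subtype.ext
  rw [h72_res_coe, AlgEquiv.mul_apply, AlgEquiv.mul_apply, h72_res_coe, h72_res_coe]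

theorem h72_res_one : h72_res L₀ 1 = 1 := by
  apply AlgEquiv.ext
  intro x
  apply Subtype.ext
  rw [h72_res_coe]
  rfl

theorem h72_res_eq_one_iff (g : GQ) : h72_res L₀ g = 1 ↔ g ∈ L₀.U := by
  constructor
  · intro h
    show g ∈ L₀.F.fixingSubgroup
    rw [IntermediateField.mem_fixingSubgroup_iff]
    intro x hx
    have := h72_res_coe L₀ g ⟨x, hx⟩
    rw [h] at this
    exact this.symm
  · intro hg
    apply AlgEquiv.ext
    intro x
    apply Subtype.ext
    rw [h72_res_coe]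
    exact (IntermediateField.mem_fixingSubgroup_iff _ _).1 hg x x.2

theorem h72_res_eq_iff (g h : GQ) : h72_res L₀ g = h72_res L₀ h ↔ g⁻¹ * h ∈ L₀.U := by
  rw [← h72_res_eq_one_iff, h72_res_mul]
  have hinv : h72_res L₀ g⁻¹ * h72_res L₀ g = 1 := by
    rw [← h72_res_mul, inv_mul_cancel, h72_res_one]
  constructor
  · intro e
    rw [← e, hinv]
  · intro e
    have h1 : h72_res L₀ g * (h72_res L₀ g⁻¹ * h72_res L₀ h) = h72_res L₀ g := by rw [e, mul_one]
    rw [← mul_assoc, ← h72_res_mul, mul_inv_cancel, h72_res_one, one_mul] at h1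
    exact h1.symm

theorem h72_res_surjective : Function.Surjective (h72_res L₀) := by
  have : Normal ℚ ↥L₀.F := L₀.gal.to_normal
  have : Algebra.IsAlgebraic ℚ Qb := AlgebraicClosure.isAlgebraic ℚ
  have : IsAlgClosure ℚ Qb := ⟨inferInstance, inferInstance⟩
  have : Normal ℚ Qb := IsAlgClosure.normal ℚ Qb
  exact AlgEquiv.restrictNormalHom_surjective (F := ℚ) (K₁ := ↥L₀.F) Qb

/-- The restriction map as a homomorphism on `G_ℚ ⧸ L₀.U`. -/
def h72_resBar : (GQ ⧸ L₀.U) →* (↥L₀.F ≃ₐ[ℚ] ↥L₀.F) :=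
  QuotientGroup.lift L₀.U
    (MonoidHom.mk' (h72_res L₀) (h72_res_mul L₀))
    (fun g hg => (h72_res_eq_one_iff L₀ g).2 hg)

@[simp] theorem h72_resBar_mk (g : GQ) :
    h72_resBar L₀ (QuotientGroup.mk g) = h72_res L₀ g := rfl

theorem h72_resBar_injective : Function.Injective (h72_resBar L₀) := by
  rw [injective_iff_map_eq_one]
  intro x hx
  induction x using QuotientGroup.induction_on with
  | H g =>
    rw [h72_resBar_mk, h72_res_eq_one_iff] at hx
    exact (QuotientGroup.eq_one_iff g).2 hx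

theorem h72_resBar_surjective : Function.Surjective (h72_resBar L₀) := by
  intro τ
  obtain ⟨g, rfl⟩ := h72_res_surjective L₀ τ
  exact ⟨QuotientGroup.mk g, rfl⟩

/-! ### The base place -/

/-- The complex embedding restricted to `F`. -/
def h72_emb0 : ↥L₀.F →+* ℂ :=
  (complexEmbedding : Qb →ₐ[ℚ] ℂ).toRingHom.comp (algebraMap ↥L₀.F Qb)

theorem h72_emb0_apply (x : ↥L₀.F) : h72_emb0 L₀ x = complexEmbedding (x : Qb) := rfl

/-- The infinite place of `F` cut out by `complexEmbedding`. -/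
def h72_v0 : InfinitePlace ↥L₀.F := InfinitePlace.mk (h72_emb0 L₀)

/-- The stabilizer of the base place. -/
theorem h72_res_smul_v0_iff (g : GQ) :
    h72_res L₀ g • h72_v0 L₀ = h72_v0 L₀ ↔ g ∈ L₀.U ∨ complexConjugation⁻¹ * g ∈ L₀.U := by
  rw [← MulAction.mem_stabilizer_iff, h72_v0, InfinitePlace.mem_stabilizer_mk_iff,
    h72_res_eq_one_iff, ← h72_res_eq_iff]
  refine or_congr Iff.rfl ?_
  unfold ComplexEmbedding.IsConj
  constructor
  · intro h
    apply AlgEquiv.ext
    intro x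
    apply Subtype.ext
    rw [h72_res_coe, h72_res_coe]
    have h1 : starRingEnd ℂ (complexEmbedding (x : Qb)) =
        complexEmbedding ((h72_res L₀ g x : ↥L₀.F) : Qb) := RingHom.congr_fun h x
    rw [h72_res_coe, ← complexEmbedding_complexConjugation] at h1
    exact (complexEmbedding : Qb →ₐ[ℚ] ℂ).toRingHom.injective h1
  · intro h
    apply RingHom.ext
    intro x
    show starRingEnd ℂ (complexEmbedding (x : Qb)) =
        complexEmbedding ((h72_res L₀ g x : ↥L₀.F) : Qb)
    rw [← h, h72_res_coe, complexEmbedding_complexConjugation]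

/-- Every infinite place of `F` is a translate of the base place. -/
theorem h72_inf_exists (v : InfinitePlace ↥L₀.F) : ∃ g : GQ, h72_res L₀ g • h72_v0 L₀ = v := by
  obtain ⟨τ, hτ⟩ := InfinitePlace.exists_smul_eq_of_comap_eq (k := ℚ) (K := ↥L₀.F)
    (w := h72_v0 L₀) (w' := v) (Subsingleton.elim _ _)
  obtain ⟨g, rfl⟩ := h72_res_surjective L₀ τ
  exact ⟨g, hτ⟩

/-- `c̄`, the class of the complex conjugation. -/
abbrev h72_cbar : GQ ⧸ L₀.U := QuotientGroup.mk complexConjugation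

theorem h72_cbar_mul_self : h72_cbar L₀ * h72_cbar L₀ = 1 := by
  rw [h72_cbar, ← QuotientGroup.mk_mul, complexConjugation_mul_self]
  rfl

theorem h72_mem_zpowers_cbar (x : GQ ⧸ L₀.U) :
    x ∈ Subgroup.zpowers (h72_cbar L₀) ↔ x = 1 ∨ x = h72_cbar L₀ := by
  constructor
  · intro hx
    obtain ⟨n, rfl⟩ := Subgroup.mem_zpowers_iff.1 hx
    rcases Int.even_or_odd n with ⟨k, rfl⟩ | ⟨k, rfl⟩
    · left
      rw [← two_mul, zpow_mul, zpow_ofNat, pow_two, h72_cbar_mul_self, one_zpow]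
    · right
      rw [zpow_add, zpow_mul, zpow_ofNat, pow_two, h72_cbar_mul_self, one_zpow, one_mul, zpow_one]
  · rintro (rfl | rfl)
    · exact one_mem _
    · exact Subgroup.mem_zpowers _

/-- Two translates of the base place agree iff the elements agree modulo `⟨c̄⟩`. -/
theorem h72_inf_eq_iff (g g' : GQ) :
    h72_res L₀ g • h72_v0 L₀ = h72_res L₀ g' • h72_v0 L₀ ↔
      (QuotientGroup.mk (g⁻¹ * g') : GQ ⧸ L₀.U) ∈ Subgroup.zpowers (h72_cbar L₀) := by
  have h1 : h72_res L₀ g • h72_v0 L₀ = h72_res L₀ g' • h72_v0 L₀ ↔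
      h72_res L₀ (g⁻¹ * g') • h72_v0 L₀ = h72_v0 L₀ := by
    rw [h72_res_mul, mul_smul]
    have hinv : h72_res L₀ g⁻¹ * h72_res L₀ g = 1 := by
      rw [← h72_res_mul, inv_mul_cancel, h72_res_one]
    constructor
    · intro e
      rw [← e, ← mul_smul, hinv, one_smul]
    · intro e
      have e2 := congrArg (fun w => h72_res L₀ g • w) e
      simp only [← mul_smul] at e2
      rw [← mul_assoc, ← h72_res_mul, mul_inv_cancel, h72_res_one, one_mul] at e2
      exact e2.symm
  rw [h1, h72_res_smul_v0_iff, h72_mem_zpowers_cbar]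
  refine or_congr (QuotientGroup.eq_one_iff _).symm ?_
  rw [h72_cbar, eq_comm, QuotientGroup.eq]

/-! ### The equivalence -/

/-- The map `G ⧸ ⟨c̄⟩ → Pl_∞(F)`, `g ↦ g • v₀`. -/
def h72_infFun : (GQ ⧸ L₀.U) ⧸ Subgroup.zpowers (h72_cbar L₀) → InfinitePlace ↥L₀.F :=
  Quotient.lift (fun x : GQ ⧸ L₀.U => h72_resBar L₀ x • h72_v0 L₀) (by
    intro x y hxy
    have hxy' : x⁻¹ * y ∈ Subgroup.zpowers (h72_cbar L₀) := QuotientGroup.leftRel_apply.1 hxy
    induction x using QuotientGroup.induction_on with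
    | H g =>
      induction y using QuotientGroup.induction_on with
      | H g' =>
        show h72_res L₀ g • h72_v0 L₀ = h72_res L₀ g' • h72_v0 L₀
        rw [h72_inf_eq_iff]
        exact hxy')

theorem h72_infFun_mk (g : GQ) :
    h72_infFun L₀ (QuotientGroup.mk (QuotientGroup.mk g : GQ ⧸ L₀.U)) =
      h72_res L₀ g • h72_v0 L₀ := rfl

theorem h72_infFun_bijective : Function.Bijective (h72_infFun L₀) := by
  constructor
  · intro x y hxy
    induction x using QuotientGroup.induction_on with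
    | H x =>
      induction y using QuotientGroup.induction_on with
      | H y =>
        induction x using QuotientGroup.induction_on with
        | H g =>
          induction y using QuotientGroup.induction_on with
          | H g' =>
            rw [h72_infFun_mk, h72_infFun_mk, h72_inf_eq_iff] at hxy
            exact QuotientGroup.eq.2 hxy
  · intro v
    obtain ⟨g, hg⟩ := h72_inf_exists L₀ v
    exact ⟨QuotientGroup.mk (QuotientGroup.mk g : GQ ⧸ L₀.U), hg⟩

/-- **The infinite-place dictionary** `G ⧸ ⟨c̄⟩ ≃ Pl_∞(F)`. -/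
def h72_infEquiv : (GQ ⧸ L₀.U) ⧸ Subgroup.zpowers (h72_cbar L₀) ≃ InfinitePlace ↥L₀.F :=
  Equiv.ofBijective (h72_infFun L₀) (h72_infFun_bijective L₀)

theorem h72_infEquiv_mk (g : GQ) :
    h72_infEquiv L₀ (QuotientGroup.mk (QuotientGroup.mk g : GQ ⧸ L₀.U)) =
      h72_res L₀ g • h72_v0 L₀ := rfl

/-- Equivariance: left translation by `ḡ` corresponds to the Galois action of `g|F`. -/
theorem h72_infEquiv_smul (g : GQ) (x : (GQ ⧸ L₀.U) ⧸ Subgroup.zpowers (h72_cbar L₀)) :
    h72_infEquiv L₀ ((QuotientGroup.mk g : GQ ⧸ L₀.U) • x) = h72_res L₀ g • h72_infEquiv L₀ x := by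
  induction x using QuotientGroup.induction_on with
  | H y =>
    induction y using QuotientGroup.induction_on with
    | H g' =>
      show h72_infEquiv L₀ (QuotientGroup.mk ((QuotientGroup.mk g : GQ ⧸ L₀.U) * QuotientGroup.mk g'))
        = _
      rw [← QuotientGroup.mk_mul, h72_infEquiv_mk, h72_infEquiv_mk, h72_res_mul, mul_smul]

theorem h72_infEquiv_permInf (g : GQ) (x : (GQ ⧸ L₀.U) ⧸ Subgroup.zpowers (h72_cbar L₀)) :
    h72_infEquiv L₀ ((QuotientGroup.mk g : GQ ⧸ L₀.U) • x) =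
      h72_permInf L₀ g (h72_infEquiv L₀ x) := h72_infEquiv_smul L₀ g x

end Fermat.Agent.S56
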