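import Fermat.Agent.S56.h95_Descent
import Fermat.Agent.S55.h84_EmbDict
import Fermat.Agent.S55.h94_EmbCoind

/-!
# S56, front W1, base case: the finite place dictionary

`L₀` an `S`-level, `F = L₀.F`, `U = L₀.U`, `G = G_ℚ ⧸ U`.  For a prime `q`:

* `h95_wOf L₀ q g` : the prime `{x | ‖ι_q (g x)‖ < 1}` of `𝓞 F` above `q` cut out by `g ∈ G_ℚ`
  (`h95_wOf_surj`, `h95_wOf_eq_iff`, `h95_galPrime_wOf`);
* `h95_wq L₀ q := h95_wOf L₀ q 1` : the distinguished prime above `q`;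
* `h95_prime_exists` : every prime of `F` above `S` is `g · w_q` for some `q ∈ S`, `g ∈ G_ℚ`
  (Galois action `h92_galPrime (h72_res L₀ g)`, the one used in the Herbrand rows);
* `h95_prime_eq_iff` : `g · w_q = g' · w_q'` iff `q = q'` and `g⁻¹ g' ∈ D_q = h95_Dbar L₀ q`
  modulo `U` (the image in `G` of the decomposition group `primeLocalToGlobal q`);
* `h95_placeEquiv` : `(Σ q : S, G ⧸ D_q) ≃ {primes of F above S}`, with `h95_placeEquiv_mk` and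
  the equivariance `h95_placeEquiv_smul`.
-/

set_option autoImplicit false
set_option linter.unusedSectionVars false
set_option linter.unusedVariables false

open CategoryTheory Module groupCohomology ExtCitation NumberField IsDedekindDomain
open scoped Pointwise

noncomputable section

namespace Fermat.Agent.S56

open Fermat.Agent.S55

local notation "Qb" => AlgebraicClosure ℚ
local notation "GQ" => (AlgebraicClosure ℚ ≃ₐ[ℚ] AlgebraicClosure ℚ)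

variable {S : Finset Nat.Primes} (L₀ : h72_Lev S)

theorem h95_res_coe (g : GQ) (x : ↥L₀.F) : ((h72_res L₀ g x : ↥L₀.F) : Qb) = g (x : Qb) :=
  haveI : Normal ℚ ↥L₀.F := L₀.gal.to_normal
  AlgEquiv.restrictNormal_commutes g (↥L₀.F) x

theorem h95_res_mul (g h : GQ) : h72_res L₀ (g * h) = h72_res L₀ g * h72_res L₀ h :=
  haveI : Normal ℚ ↥L₀.F := L₀.gal.to_normal
  map_mul (AlgEquiv.restrictNormalHom (↥L₀.F)) g h

theorem h95_res_one : h72_res L₀ 1 = 1 :=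
  haveI : Normal ℚ ↥L₀.F := L₀.gal.to_normal
  map_one (AlgEquiv.restrictNormalHom (↥L₀.F))

/-- the prime of `F` above `q` cut out by `g ∈ G_ℚ`: `{x | ‖ι_q (g x)‖ < 1}`. -/
def h95_wOf (q : Nat.Primes) (g : GQ) : HeightOneSpectrum (𝓞 ↥L₀.F) :=
  h84_placeOf (q : ℕ) (h94_emb (q : ℕ) L₀.F g)

theorem h95_mem_wOf (q : Nat.Primes) (g : GQ) (x : 𝓞 ↥L₀.F) :
    x ∈ (h95_wOf L₀ q g).asIdeal ↔ ‖padicEmbedding (q : ℕ) (g ((x : ↥L₀.F) : Qb))‖ < 1 := Iff.rfl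

theorem h95_natCast_mem_wOf (q : Nat.Primes) (g : GQ) :
    (((q : ℕ) : ℕ) : 𝓞 ↥L₀.F) ∈ (h95_wOf L₀ q g).asIdeal :=
  h84_natCast_mem_placeOf (q : ℕ) _

theorem h95_wOf_surj (q : Nat.Primes) (v : HeightOneSpectrum (𝓞 ↥L₀.F))
    (hv : (((q : ℕ) : ℕ) : 𝓞 ↥L₀.F) ∈ v.asIdeal) : ∃ g : GQ, h95_wOf L₀ q g = v := by
  obtain ⟨j, hj⟩ := h84_exists_placeOf_eq (q := (q : ℕ)) v hv
  obtain ⟨g, rfl⟩ := h94_emb_surjective (q : ℕ) L₀.F j
  exact ⟨g, hj⟩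

theorem h95_wOf_eq_iff (q : Nat.Primes) (g g' : GQ) :
    h95_wOf L₀ q g = h95_wOf L₀ q g' ↔
      ∃ τ : primeLocalGaloisGroup q, (primeLocalToGlobal q τ * g)⁻¹ * g' ∈ L₀.U := by
  unfold h95_wOf
  rw [h84_placeOf_eq_iff]
  constructor
  · rintro ⟨τ, hτ⟩
    refine ⟨τ, ?_⟩
    rw [← h94_emb_local] at hτ
    exact (h94_emb_eq_iff (q := (q : ℕ)) (F := L₀.F) _ _).1 hτ.symm
  · rintro ⟨τ, hτ⟩
    let τ' : PadicAlgCl (q : ℕ) ≃ₐ[ℚ_[(q : ℕ)]] PadicAlgCl (q : ℕ) := τ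
    refine ⟨τ', ?_⟩
    rw [← h94_emb_local]
    exact ((h94_emb_eq_iff (q := (q : ℕ)) (F := L₀.F) _ _).2 hτ).symm

theorem h95_coe_smul (σ : ↥L₀.F ≃ₐ[ℚ] ↥L₀.F) (x : 𝓞 ↥L₀.F) :
    ((σ • x : 𝓞 ↥L₀.F) : ↥L₀.F) = σ (x : ↥L₀.F) := rfl

theorem h95_galPrime_wOf (q : Nat.Primes) (s g : GQ) :
    h92_galPrime (h72_res L₀ s) (h95_wOf L₀ q g) = h95_wOf L₀ q (g * s⁻¹) := by
  apply HeightOneSpectrum.ext
  ext x
  rw [h92_galPrime_asIdeal, Ideal.mem_pointwise_smul_iff_inv_smul_mem, h95_mem_wOf, h95_mem_wOf,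
    h95_coe_smul]
  have h1 : (h72_res L₀ s)⁻¹ = h72_res L₀ s⁻¹ := by
    rw [eq_comm, ← mul_eq_one_iff_eq_inv, ← h95_res_mul, inv_mul_cancel, h95_res_one]
  rw [h1, h95_res_coe]
  rfl

/-! ### The distinguished primes and the orbit description -/

/-- the distinguished prime of `F` above `q` (cut out by `ι_q`). -/
def h95_wq (q : Nat.Primes) : HeightOneSpectrum (𝓞 ↥L₀.F) := h95_wOf L₀ q 1

theorem h95_galPrime_wq (q : Nat.Primes) (g : GQ) :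
    h92_galPrime (h72_res L₀ g) (h95_wq L₀ q) = h95_wOf L₀ q g⁻¹ := by
  rw [h95_wq, h95_galPrime_wOf, one_mul]

theorem h95_galPrime_wq_mem (q : Nat.Primes) (hq : q ∈ S) (g : GQ) :
    h92_galPrime (h72_res L₀ g) (h95_wq L₀ q) ∈ h46_primesOver S L₀.F :=
  ⟨q, hq, by rw [h95_galPrime_wq]; exact h95_natCast_mem_wOf L₀ q _⟩

/-- **every prime of `F` above `S` is a conjugate of a distinguished prime.** -/
theorem h95_prime_exists (w : HeightOneSpectrum (𝓞 ↥L₀.F)) (hw : w ∈ h46_primesOver S L₀.F) :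
    ∃ (q : ↥S) (g : GQ), h92_galPrime (h72_res L₀ g) (h95_wq L₀ q.1) = w := by
  obtain ⟨q, hq, hqw⟩ := hw
  obtain ⟨g, hg⟩ := h95_wOf_surj L₀ q w hqw
  exact ⟨⟨q, hq⟩, g⁻¹, by rw [h95_galPrime_wq, inv_inv]; exact hg⟩

theorem h95_wOf_ne (q q' : Nat.Primes) (h : q ≠ q') (g g' : GQ) :
    h95_wOf L₀ q g ≠ h95_wOf L₀ q' g' := by
  intro heq
  have h1 : (((q : ℕ) : ℕ) : 𝓞 ↥L₀.F) ∈ (h95_wOf L₀ q g).asIdeal := h95_natCast_mem_wOf L₀ q g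
  have h2 : (((q' : ℕ) : ℕ) : 𝓞 ↥L₀.F) ∈ (h95_wOf L₀ q g).asIdeal := by
    rw [heq]
    exact h95_natCast_mem_wOf L₀ q' g'
  have hcop : Nat.Coprime (q : ℕ) (q' : ℕ) :=
    (Nat.coprime_primes q.2 q'.2).2 (fun e => h (Subtype.ext e))
  have h4 : ((Nat.gcd (q : ℕ) (q' : ℕ) : ℕ) : ℤ) =
      (q : ℕ) * Nat.gcdA (q : ℕ) (q' : ℕ) + (q' : ℕ) * Nat.gcdB (q : ℕ) (q' : ℕ) :=
    Nat.gcd_eq_gcd_ab _ _
  rw [hcop] at h4
  have h5 : (1 : 𝓞 ↥L₀.F) = (((q : ℕ) : ℕ) : 𝓞 ↥L₀.F) * ((Nat.gcdA (q : ℕ) (q' : ℕ) : ℤ) : 𝓞 ↥L₀.F) +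
      (((q' : ℕ) : ℕ) : 𝓞 ↥L₀.F) * ((Nat.gcdB (q : ℕ) (q' : ℕ) : ℤ) : 𝓞 ↥L₀.F) := by
    have := congrArg (fun z : ℤ => (z : 𝓞 ↥L₀.F)) h4
    simpa using this
  have h6 : (1 : 𝓞 ↥L₀.F) ∈ (h95_wOf L₀ q g).asIdeal := by
    rw [h5]
    exact Ideal.add_mem _ (Ideal.mul_mem_right _ _ h1) (Ideal.mul_mem_right _ _ h2)
  exact (h95_wOf L₀ q g).isPrime.ne_top ((Ideal.eq_top_iff_one _).2 h6)

/-- **when two conjugates of distinguished primes agree**: the stabilizer of `w_q` in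
`G = G_ℚ ⧸ U` is `h95_Dbar L₀ q`. -/
theorem h95_prime_eq_iff (q q' : Nat.Primes) (g g' : GQ) :
    h92_galPrime (h72_res L₀ g) (h95_wq L₀ q) = h92_galPrime (h72_res L₀ g') (h95_wq L₀ q') ↔
      q = q' ∧ QuotientGroup.mk' L₀.U (g⁻¹ * g') ∈ h95_Dbar L₀ q := by
  rw [h95_galPrime_wq, h95_galPrime_wq]
  by_cases hqq : q = q'
  · subst hqq
    rw [h95_wOf_eq_iff, h95_mem_Dbar]
    constructor
    · rintro ⟨τ, hτ⟩
      refine ⟨rfl, τ⁻¹, ?_⟩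
      have h1 : QuotientGroup.mk' L₀.U ((primeLocalToGlobal q τ * g⁻¹)⁻¹ * g'⁻¹) = 1 :=
        (QuotientGroup.eq_one_iff _).2 hτ
      rw [map_mul, map_inv, map_mul, map_inv, map_inv] at h1
      rw [map_inv, map_mul, map_inv, map_inv]
      have h2 := mul_inv_eq_one.1 h1
      rw [← h2]
      group
    · rintro ⟨-, τ, hτ⟩
      refine ⟨τ⁻¹, (QuotientGroup.eq_one_iff _).1 ?_⟩
      show QuotientGroup.mk' L₀.U ((primeLocalToGlobal q τ⁻¹ * g⁻¹)⁻¹ * g'⁻¹) = 1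
      have e1 : QuotientGroup.mk' L₀.U (primeLocalToGlobal q τ⁻¹) =
          ((QuotientGroup.mk' L₀.U g)⁻¹ * QuotientGroup.mk' L₀.U g')⁻¹ := by
        rw [map_inv, map_inv, hτ, map_mul, map_inv]
      rw [map_mul, map_inv, map_mul, e1, map_inv, map_inv]
      group
  · constructor
    · intro h
      exact absurd h (h95_wOf_ne L₀ q q' hqq _ _)
    · rintro ⟨h, -⟩
      exact absurd h hqq

/-- the stabilizer of the distinguished prime `w_q` in `G = G_ℚ ⧸ U` is `D_q`. -/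
theorem h95_galPrime_wq_eq_iff (q : Nat.Primes) (g : GQ) :
    h92_galPrime (h72_res L₀ g) (h95_wq L₀ q) = h95_wq L₀ q ↔
      QuotientGroup.mk' L₀.U g ∈ h95_Dbar L₀ q := by
  have h := h95_prime_eq_iff L₀ q q 1 g
  rw [h95_res_one, h92_galPrime_one, inv_one, one_mul] at h
  rw [eq_comm, h]
  exact ⟨fun h => h.2, fun h => ⟨rfl, h⟩⟩

/-! ### The `G`-set of primes above `S` -/

/-- the map `(q, x · D_q) ↦ x · w_q`. -/
def h95_placeFun (y : Σ q : ↥S, (GQ ⧸ L₀.U) ⧸ h95_Dbar L₀ q.1) : ↥(h46_primesOver S L₀.F) :=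
  ⟨h92_galPrime (h72_res L₀ y.2.out.out) (h95_wq L₀ y.1.1),
    h95_galPrime_wq_mem L₀ y.1.1 y.1.2 _⟩

theorem h95_placeFun_mk (q : ↥S) (g : GQ) :
    (h95_placeFun L₀ ⟨q, QuotientGroup.mk (QuotientGroup.mk' L₀.U g)⟩ :
      HeightOneSpectrum (𝓞 ↥L₀.F)) = h92_galPrime (h72_res L₀ g) (h95_wq L₀ q.1) := by
  show h92_galPrime (h72_res L₀ _) _ = _
  rw [h95_prime_eq_iff]
  refine ⟨rfl, ?_⟩
  set x : (GQ ⧸ L₀.U) ⧸ h95_Dbar L₀ q.1 := QuotientGroup.mk (QuotientGroup.mk' L₀.U g) with hx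
  have h1 : (QuotientGroup.mk x.out : (GQ ⧸ L₀.U) ⧸ h95_Dbar L₀ q.1) =
      QuotientGroup.mk (QuotientGroup.mk' L₀.U g) := QuotientGroup.out_eq' x
  have h2 : QuotientGroup.mk' L₀.U x.out.out = x.out := QuotientGroup.out_eq' _
  rw [map_mul, map_inv, h2]
  exact QuotientGroup.eq.1 h1

theorem h95_exists_mk (q : ↥S) (x : (GQ ⧸ L₀.U) ⧸ h95_Dbar L₀ q.1) :
    ∃ g : GQ, x = QuotientGroup.mk (QuotientGroup.mk' L₀.U g) := by
  obtain ⟨x', rfl⟩ := QuotientGroup.mk_surjective x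
  obtain ⟨g, rfl⟩ := QuotientGroup.mk_surjective x'
  exact ⟨g, rfl⟩

theorem h95_placeFun_injective : Function.Injective (h95_placeFun (S := S) L₀) := by
  rintro ⟨q, x⟩ ⟨q', x'⟩ h
  obtain ⟨g, rfl⟩ := h95_exists_mk L₀ q x
  obtain ⟨g', rfl⟩ := h95_exists_mk L₀ q' x'
  have h1 := congrArg (Subtype.val) h
  rw [h95_placeFun_mk, h95_placeFun_mk, h95_prime_eq_iff] at h1
  obtain ⟨h2, h3⟩ := h1
  obtain rfl : q = q' := Subtype.ext h2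
  have h4 : (QuotientGroup.mk (QuotientGroup.mk' L₀.U g) : (GQ ⧸ L₀.U) ⧸ h95_Dbar L₀ q.1) =
      QuotientGroup.mk (QuotientGroup.mk' L₀.U g') := by
    rw [QuotientGroup.eq, ← map_inv, ← map_mul]
    exact h3
  rw [h4]

theorem h95_placeFun_surjective : Function.Surjective (h95_placeFun (S := S) L₀) := by
  rintro ⟨w, hw⟩
  obtain ⟨q, g, hg⟩ := h95_prime_exists L₀ w hw
  refine ⟨⟨q, QuotientGroup.mk (QuotientGroup.mk' L₀.U g)⟩, ?_⟩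
  apply Subtype.ext
  rw [h95_placeFun_mk]
  exact hg

/-- **The finite place dictionary**: the primes of `F` above `S`, as a `G`-set, are
`⊔_{q ∈ S} G ⧸ D_q`. -/
def h95_placeEquiv :
    (Σ q : ↥S, (GQ ⧸ L₀.U) ⧸ h95_Dbar L₀ q.1) ≃ ↥(h46_primesOver S L₀.F) :=
  Equiv.ofBijective (h95_placeFun L₀) ⟨h95_placeFun_injective L₀, h95_placeFun_surjective L₀⟩

theorem h95_placeEquiv_mk (q : ↥S) (g : GQ) :
    (h95_placeEquiv L₀ ⟨q, QuotientGroup.mk (QuotientGroup.mk' L₀.U g)⟩ :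
      HeightOneSpectrum (𝓞 ↥L₀.F)) = h92_galPrime (h72_res L₀ g) (h95_wq L₀ q.1) :=
  h95_placeFun_mk L₀ q g

/-- equivariance of the dictionary: left multiplication on `G ⧸ D_q` is the Galois action on
primes. -/
theorem h95_placeEquiv_smul (q : ↥S) (g : GQ) (x : (GQ ⧸ L₀.U) ⧸ h95_Dbar L₀ q.1) :
    (h95_placeEquiv L₀ ⟨q, QuotientGroup.mk' L₀.U g • x⟩ : HeightOneSpectrum (𝓞 ↥L₀.F)) =
      h92_galPrime (h72_res L₀ g) (h95_placeEquiv L₀ ⟨q, x⟩ : HeightOneSpectrum (𝓞 ↥L₀.F)) := by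
  obtain ⟨h, rfl⟩ := h95_exists_mk L₀ q x
  have h1 : (QuotientGroup.mk' L₀.U g • (QuotientGroup.mk (QuotientGroup.mk' L₀.U h) :
      (GQ ⧸ L₀.U) ⧸ h95_Dbar L₀ q.1)) = QuotientGroup.mk (QuotientGroup.mk' L₀.U (g * h)) := rfl
  rw [h1, h95_placeEquiv_mk, h95_placeEquiv_mk, h95_res_mul, h92_galPrime_mul]

end Fermat.Agent.S56
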