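import Fermat.Agent.S56.h33_KumShir
import Fermat.Agent.S56.h13_HerbrandOmega
import Fermat.Agent.S56.h72_PlaceInf
import Fermat.Agent.S56.h95_PlaceF

/-!
# S56, front W1, base case: the generator-form inputs at a level

`L₀` an `S`-level (`F = L₀.F`, `G = G_ℚ ⧸ L₀.U`), `γ ∈ G_ℚ`, `σ_γ = γ|F = h97_π L₀.F γ`,
`T = h59_T ↥F S` the primes of `F` above `S`.  In helper13's objects (the Herbrand isomorphism
`h13_herbrand_modp_omega`):

* `h33_herb_level` : for `γ ^ m ∈ L₀.U`, `p ∤ m`, `ζ_p ∈ F`: a linear isomorphism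
  `E_S/p × 𝔽_p ≃ 𝔽_p × (𝔽_p^{Pl_∞} × 𝔽_p^T)` intertwining `(h33_actA S p F γ, id)` with
  `(χ_p(γ), σ_γ-permutation, σ_γ-permutation)`;
* `h33_ePf L₀ : T ≃ Σ q : S, G ⧸ D_q` with `h33_ePf_perm` (the permutation `h13_permT` of `σ_γ`
  is left translation by `γ̄`);
* `h33_ePinf L₀ : Pl_∞(F) ≃ G ⧸ ⟨c̄⟩` with `h33_ePinf_perm`.
-/

set_option autoImplicit false
set_option linter.unusedSectionVars false
set_option linter.unusedVariables false

open NumberField IsDedekindDomain groupCohomology ExtCitation TensorProduct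

namespace Fermat.Agent.S56

open Fermat.Agent.S55

local notation "Qb" => AlgebraicClosure ℚ
local notation "GQ" => (AlgebraicClosure ℚ ≃ₐ[ℚ] AlgebraicClosure ℚ)

variable {p : ℕ} [Fact p.Prime] {S : Finset Nat.Primes} (L₀ : h72_Lev S)

/-- helper72's and helper97's restriction maps agree. -/
theorem h33_res_eq_π (g : GQ) : h72_res L₀ g = h97_π L₀.F g := rfl

theorem h33_π_pow_eq_one (γ : GQ) (m : ℕ) (hm : γ ^ m ∈ L₀.U) : h97_π L₀.F γ ^ m = 1 := by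
  rw [← map_pow, ← h33_res_eq_π]
  exact (h72_res_eq_one_iff L₀ (γ ^ m)).mpr hm

theorem h33_π_zeta {ζ : ↥L₀.F} (hζ : IsPrimitiveRoot ζ p) (γ : GQ) :
    h97_π L₀.F γ ζ = ζ ^ ((cycloChar p γ : (ZMod p)ˣ) : ZMod p).val := by
  have hζ' : IsPrimitiveRoot (ζ : Qb) p :=
    hζ.map_of_injective (f := L₀.F.val) Subtype.val_injective
  apply Subtype.ext
  rw [h97_π_apply, h33_cycloChar_spec hζ' γ]
  rfl

/-- **(H) Herbrand at a level, generator form.** -/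
theorem h33_herb_level {ζ : ↥L₀.F} (hζ : IsPrimitiveRoot ζ p) (γ : GQ) (m : ℕ)
    (hm : γ ^ m ∈ L₀.U) (hpm : ¬ p ∣ m) :
    ∃ e : ((ZMod p ⊗[ℤ] Additive ↥(h33_ES S L₀.F)) × ZMod p) ≃ₗ[ZMod p]
        (ZMod p × ((InfinitePlace ↥L₀.F → ZMod p) × (↥(h59_T ↥L₀.F S) → ZMod p))),
      ∀ y, e (((h33_actA S p L₀.F γ).prodMap LinearMap.id) y) =
        ((((cycloChar p γ : (ZMod p)ˣ) : ZMod p) • (1 : Module.End (ZMod p) (ZMod p))).prodMap
          ((h13_permLin (ZMod p)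
              (MulAction.toPerm (h97_π L₀.F γ) : Equiv.Perm (InfinitePlace ↥L₀.F))).prodMap
            (h13_permLin (ZMod p) (h13_permT (h59_T ↥L₀.F S) (h97_π L₀.F γ)
              (h33_T_stable S L₀.F (h97_π L₀.F γ)))))) (e y) := by
  have : NeZero p := ⟨(Fact.out : p.Prime).ne_zero⟩
  obtain ⟨e, he⟩ := h13_herbrand_modp_omega (h59_T ↥L₀.F S) p (h97_π L₀.F γ) m
    (h33_π_pow_eq_one L₀ γ m hm) hpm (h33_T_stable S L₀.F (h97_π L₀.F γ)) ζ hζ _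
    (h33_π_zeta L₀ hζ γ)
  refine ⟨e, fun y => ?_⟩
  have h := he y
  unfold h13_herbL h13_herbOmega at h
  rw [ZMod.natCast_zmod_val] at h
  exact h

/-! ### The place dictionaries in the generator form -/

/-- **(P1)** the primes of `F` above `S` (helper13's finset `h59_T`) as `⊔_{q ∈ S} G ⧸ D_q`. -/
noncomputable def h33_ePf :
    ↥(h59_T ↥L₀.F S) ≃ Σ q : ↥S, (GQ ⧸ L₀.U) ⧸ h95_Dbar L₀ q.1 :=
  (Equiv.subtypeEquivRight (fun w => by
    rw [← h33_coe_T_eq, Finset.mem_coe])).trans (h95_placeEquiv L₀).symm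

theorem h33_placeEquiv_ePf (x : ↥(h59_T ↥L₀.F S)) :
    ((h95_placeEquiv L₀ (h33_ePf L₀ x) : ↥(h46_primesOver S L₀.F)) :
      HeightOneSpectrum (𝓞 ↥L₀.F)) = x.1 := by
  unfold h33_ePf
  rw [Equiv.trans_apply, Equiv.apply_symm_apply]
  rfl

/-- the permutation of `T` induced by `γ|F` is left translation by `γ̄` on `⊔ G ⧸ D_q`. -/
theorem h33_ePf_perm (γ : GQ) (x : ↥(h59_T ↥L₀.F S)) :
    h33_ePf L₀ (h13_permT (h59_T ↥L₀.F S) (h97_π L₀.F γ)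
        (h33_T_stable S L₀.F (h97_π L₀.F γ)) x) =
      (QuotientGroup.mk γ : GQ ⧸ L₀.U) • h33_ePf L₀ x := by
  apply (h95_placeEquiv L₀).injective
  apply Subtype.ext
  rw [h33_placeEquiv_ePf, h13_permT_coe]
  rcases hx : h33_ePf L₀ x with ⟨q, y⟩
  have h1 : (QuotientGroup.mk γ : GQ ⧸ L₀.U) • (⟨q, y⟩ : Σ q : ↥S, (GQ ⧸ L₀.U) ⧸ h95_Dbar L₀ q.1)
      = ⟨q, QuotientGroup.mk' L₀.U γ • y⟩ := rfl
  rw [h1, h95_placeEquiv_smul, ← hx, h33_placeEquiv_ePf, h33_res_eq_π]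

/-- **(P2)** the infinite places of `F` as `G ⧸ ⟨c̄⟩`. -/
noncomputable def h33_ePinf :
    InfinitePlace ↥L₀.F ≃ (GQ ⧸ L₀.U) ⧸ Subgroup.zpowers (h72_cbar L₀) :=
  (h72_infEquiv L₀).symm

/-- the permutation of `Pl_∞(F)` induced by `γ|F` is left translation by `γ̄` on `G ⧸ ⟨c̄⟩`. -/
theorem h33_ePinf_perm (γ : GQ) (v : InfinitePlace ↥L₀.F) :
    h33_ePinf L₀ ((MulAction.toPerm (h97_π L₀.F γ) : Equiv.Perm (InfinitePlace ↥L₀.F)) v) =
      (QuotientGroup.mk γ : GQ ⧸ L₀.U) • h33_ePinf L₀ v := by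
  apply (h72_infEquiv L₀).injective
  unfold h33_ePinf
  rw [Equiv.apply_symm_apply, h72_infEquiv_smul, Equiv.apply_symm_apply]
  rfl

end Fermat.Agent.S56
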