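import Fermat.Agent.S56.h69_MidR1EC
import Fermat.Agent.S56.h97_Split0EC
import Fermat.Agent.S56.h92_ClassKill

/-!
# S56, front W1: the base case in the quantifier shape of (EC)

`h33_base_T0_of` : the hypothesis `hbase` of helper69's `h69_hEC_of_base`
(`∀ F0 finite Galois ∋ ζ_p, ∃ T0, ∀ S ⊇ T0 with p ∈ S, ∀ L₀ : h72_Lev S with L₀.F = F0`, the
invariant `h72_delta S L₀` vanishes on the modules coinduced from cyclic subgroups of order prime
to `p`), from the base case `hb` for a fixed `(S, L₀)` under the two conditions on `(S, L₀)`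
produced by auxiliary primes: (SPLIT0) (`h97_exists_T0_split0_EC`) and "the `S`-units surject
onto the Selmer group" (`h92_ck_selmer_level`); the ambient is the S55 one
(`h69_exists_ambient`).
-/

set_option autoImplicit false
set_option linter.unusedSectionVars false
set_option linter.unusedVariables false

open NumberField IsDedekindDomain groupCohomology ExtCitation

namespace Fermat.Agent.S56

open Fermat.Agent.S55

local notation "Qb" => AlgebraicClosure ℚ
local notation "GQ" => (AlgebraicClosure ℚ ≃ₐ[ℚ] AlgebraicClosure ℚ)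

/-- **W1-BASE in the quantifier shape of (EC)**, from the base case at a fixed `(S, L₀)`. -/
theorem h33_base_T0_of (p : ℕ) [Fact p.Prime] (hp2 : p ≠ 2)
    (hb : ∀ (S : Finset Nat.Primes) (hpS : pPrime p ∈ S)
      (CC : Type) [AddCommGroup CC] [DistribMulAction GQ CC]
      (JJ : ↥S → Type) [∀ q, AddCommGroup (JJ q)] [∀ q, DistribMulAction GQ (JJ q)]
      (XX : ↥S → Type) [∀ q, AddCommGroup (XX q)]
      [∀ q : ↥S, DistribMulAction (primeLocalGaloisGroup q.1) (XX q)]
      (κ : ∀ q, JJ q →+ CC) (ev : ∀ q, JJ q →+ XX q) (zz : ∀ q, XX q)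
      (hA : h72_PTAmbient p S CC JJ XX κ ev zz) (L₀ : h72_Lev S) (ζ : ↥L₀.F)
      (hζ : IsPrimitiveRoot ζ p) (hsplit : h95_Split0 p S L₀)
      (hCK : ∀ c : (↥L₀.F)ˣ ⧸ (powMonoidHom p : (↥L₀.F)ˣ →* (↥L₀.F)ˣ).range,
        c ∈ selmerGroup (R := 𝓞 ↥L₀.F) (K := ↥L₀.F) (S := h46_primesOver S L₀.F) (n := p) →
          ∃ u ∈ (h46_primesOver S L₀.F).unit ↥L₀.F, (QuotientGroup.mk u : (↥L₀.F)ˣ ⧸ _) = c),
      ∀ C : Subgroup (GQ ⧸ L₀.U), IsCyclic C → (Nat.card C).Coprime p →
        ∀ (W : Type) [AddCommGroup W] [Module (ZMod p) W] [Finite W]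
          (σ : Representation (ZMod p) C W),
          h72_delta S L₀ (Representation.coindV C.subtype σ)
            (Representation.coind C.subtype σ) = 0) :
    ∀ F0 : IntermediateField ℚ Qb, FiniteDimensional ℚ F0 →
      IsGalois ℚ F0 → (∃ ζ ∈ F0, IsPrimitiveRoot ζ p) →
      ∃ T0 : Finset Nat.Primes, ∀ S : Finset Nat.Primes, T0 ⊆ S → pPrime p ∈ S →
        ∀ L₀ : h72_Lev S, L₀.F = F0 →
        ∀ C : Subgroup (GQ ⧸ L₀.U), IsCyclic C → (Nat.card C).Coprime p →
        ∀ (W : Type) [AddCommGroup W] [Module (ZMod p) W] [Finite W]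
          (σ : Representation (ZMod p) C W),
          h72_delta S L₀ (Representation.coindV C.subtype σ)
            (Representation.coind C.subtype σ) = 0 := by
  intro F0 hfd hgal hex
  obtain ⟨ζ, hζmem, hζ⟩ := hex
  have hnf : NumberField ↥F0 := { }
  have hζ' : IsPrimitiveRoot (⟨ζ, hζmem⟩ : ↥F0) p :=
    IsPrimitiveRoot.coe_submonoidClass_iff.mp hζ
  obtain ⟨T1, hT1⟩ := h92_ck_selmer_level F0
  obtain ⟨T2, hT2⟩ := h97_exists_T0_split0_EC p F0 hgal hζ'
  refine ⟨T1 ∪ T2, fun S hS hpS L₀ hL => ?_⟩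
  subst hL
  obtain ⟨CC, i1, i2, JJ, i3, i4, XX, i5, i6, κ, ev, zz, hA⟩ := h69_exists_ambient p hp2 S hpS
  exact hb S hpS CC JJ XX κ ev zz hA L₀ ⟨ζ, hζmem⟩ hζ'
    (hT2 S (Finset.union_subset_right hS) L₀ rfl)
    (fun c hc => hT1 S (Finset.union_subset_left hS) p c hc)

end Fermat.Agent.S56
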