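import Mathlib

/-!
# S56, front W1, row C2 (glue): from a perfect pairing to a tensor product

`p` prime, `k = ZMod p`.  `U` a subgroup of a group `Γ`, `N` a subgroup, `A` a finite-dimensional
`k`-vector space and `κ : Γ → Module.Dual k A` additive on `U`, with left kernel `N` (on `U`) and
trivial right kernel.  Then for every `k`-vector space `W`:

* `h33_pair_existsUnique` : every map `φ : Γ → W` which is additive on `U` and kills `N ∩ U` is
  `s ↦ (κ s ⊗ id) x` on `U` for a unique `x ∈ A ⊗ W`;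
* `h33_pair_equivariant_iff` : if `κ (h s h⁻¹) (ρA h a) = ω h * κ s a`, then the map attached to
  `x` is equivariant (`φ (h s h⁻¹) = ρW h (φ s)`) iff `(ρA h ⊗ ρW h) x = ω h • x`.
-/

set_option autoImplicit false
set_option linter.unusedSectionVars false

open TensorProduct

namespace Fermat.Agent.S56

section Tev

variable {k : Type*} [Field k]
variable {A W : Type*} [AddCommGroup A] [Module k A] [AddCommGroup W] [Module k W]

/-- `a ⊗ w ↦ l a • w`. -/
noncomputable def h33_tev (l : Module.Dual k A) : A ⊗[k] W →ₗ[k] W :=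
  (TensorProduct.lid k W).toLinearMap ∘ₗ LinearMap.rTensor W l

@[simp]
theorem h33_tev_tmul (l : Module.Dual k A) (a : A) (w : W) :
    h33_tev l (a ⊗ₜ[k] w) = l a • w := by
  simp [h33_tev]

theorem h33_tev_add (l l' : Module.Dual k A) (x : A ⊗[k] W) :
    h33_tev (l + l') x = h33_tev l x + h33_tev l' x := by
  induction x using TensorProduct.induction_on with
  | zero => simp
  | tmul a w => simp [add_smul]
  | add x y hx hy => rw [map_add, hx, hy, map_add, map_add]; abel

theorem h33_tev_smul (c : k) (l : Module.Dual k A) (x : A ⊗[k] W) :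
    h33_tev (c • l) x = c • h33_tev l x := by
  induction x using TensorProduct.induction_on with
  | zero => simp
  | tmul a w => simp [mul_smul]
  | add x y hx hy => rw [map_add, hx, hy, map_add, smul_add]

variable [Module.Finite k A]

/-- `A ⊗ W ≃ Hom(A^∨, W)`. -/
noncomputable def h33_tevEquiv : A ⊗[k] W ≃ₗ[k] (Module.Dual k A →ₗ[k] W) :=
  (LinearEquiv.rTensor W (Module.evalEquiv k A)).trans
    (dualTensorHomEquiv k (Module.Dual k A) W)

theorem h33_tevEquiv_apply (x : A ⊗[k] W) (l : Module.Dual k A) :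
    h33_tevEquiv x l = h33_tev l x := by
  induction x using TensorProduct.induction_on with
  | zero => simp
  | tmul a w =>
    simp [h33_tevEquiv, dualTensorHom_apply]
  | add x y hx hy => rw [map_add, LinearMap.add_apply, hx, hy, map_add]

theorem h33_tev_eq_zero {x : A ⊗[k] W} (h : ∀ l : Module.Dual k A, h33_tev l x = 0) : x = 0 := by
  apply (h33_tevEquiv (k := k) (A := A) (W := W)).injective
  rw [map_zero]
  ext l
  rw [h33_tevEquiv_apply, h l, LinearMap.zero_apply]

theorem h33_tev_exists (f : Module.Dual k A →ₗ[k] W) :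
    ∃ x : A ⊗[k] W, ∀ l : Module.Dual k A, h33_tev l x = f l :=
  ⟨h33_tevEquiv.symm f, fun l => by rw [← h33_tevEquiv_apply, LinearEquiv.apply_symm_apply]⟩

end Tev

section Pair

variable {p : ℕ} [Fact p.Prime]
variable {A W : Type*} [AddCommGroup A] [Module (ZMod p) A] [AddCommGroup W] [Module (ZMod p) W]
variable {Γ : Type*} [Group Γ] (U N : Subgroup Γ) (κ : Γ → Module.Dual (ZMod p) A)

theorem h33_pair_one (hadd : ∀ s ∈ U, ∀ t ∈ U, κ (s * t) = κ s + κ t) : κ 1 = 0 := by
  have h := hadd 1 (one_mem U) 1 (one_mem U)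
  rw [one_mul] at h
  exact left_eq_add.mp h

theorem h33_pair_inv (hadd : ∀ s ∈ U, ∀ t ∈ U, κ (s * t) = κ s + κ t) {s : Γ} (hs : s ∈ U) :
    κ s⁻¹ = -κ s := by
  have h := hadd s hs s⁻¹ (inv_mem hs)
  rw [mul_inv_cancel, h33_pair_one U κ hadd] at h
  exact eq_neg_of_add_eq_zero_right h.symm

theorem h33_pair_pow (hadd : ∀ s ∈ U, ∀ t ∈ U, κ (s * t) = κ s + κ t) {s : Γ} (hs : s ∈ U)
    (n : ℕ) : κ (s ^ n) = n • κ s := by
  induction n with
  | zero => rw [pow_zero, zero_smul, h33_pair_one U κ hadd]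
  | succ n ih => rw [pow_succ, hadd _ (pow_mem hs n) s hs, ih, succ_nsmul]

/-- **The pairing is onto the dual**: every linear form on `A` is `κ s` for some `s ∈ U`. -/
theorem h33_pair_surj [Module.Finite (ZMod p) A]
    (hadd : ∀ s ∈ U, ∀ t ∈ U, κ (s * t) = κ s + κ t)
    (hr : ∀ a : A, (∀ s ∈ U, κ s a = 0) → a = 0) (l : Module.Dual (ZMod p) A) :
    ∃ s ∈ U, κ s = l := by
  have : NeZero p := ⟨(Fact.out : p.Prime).ne_zero⟩
  let D : Submodule (ZMod p) (Module.Dual (ZMod p) A) :=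
    { carrier := {l | ∃ s ∈ U, κ s = l}
      add_mem' := by
        rintro _ _ ⟨s, hs, rfl⟩ ⟨t, ht, rfl⟩
        exact ⟨s * t, mul_mem hs ht, hadd s hs t ht⟩
      zero_mem' := ⟨1, one_mem U, h33_pair_one U κ hadd⟩
      smul_mem' := by
        rintro c _ ⟨s, hs, rfl⟩
        refine ⟨s ^ c.val, pow_mem hs _, ?_⟩
        rw [h33_pair_pow U κ hadd hs, ← Nat.cast_smul_eq_nsmul (ZMod p), ZMod.natCast_zmod_val] }
  have hD : D.dualCoannihilator = ⊥ := by
    rw [eq_bot_iff]
    intro a ha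
    rw [Submodule.mem_dualCoannihilator] at ha
    exact (Submodule.mem_bot _).2 (hr a fun s hs => ha (κ s) ⟨s, hs, rfl⟩)
  have hD' : D = ⊤ := by
    rw [← Subspace.dualCoannihilator_dualAnnihilator_eq (W := D), hD]
    exact Submodule.dualAnnihilator_bot
  have hl : l ∈ D := by rw [hD']; exact Submodule.mem_top
  exact hl

/-- maps which are additive on `U` and kill `N ∩ U` factor through the pairing. -/
theorem h33_pair_wd
    (hadd : ∀ s ∈ U, ∀ t ∈ U, κ (s * t) = κ s + κ t)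
    (hl : ∀ s ∈ U, κ s = 0 → s ∈ N)
    (φ : Γ → W) (hφ : ∀ s ∈ U, ∀ t ∈ U, φ (s * t) = φ s + φ t)
    (hφN : ∀ s ∈ U, s ∈ N → φ s = 0) {s t : Γ} (hs : s ∈ U) (ht : t ∈ U) (h : κ s = κ t) :
    φ s = φ t := by
  have h1 : κ (s * t⁻¹) = 0 := by
    rw [hadd s hs t⁻¹ (inv_mem ht), h33_pair_inv U κ hadd ht, h, add_neg_cancel]
  have h2 : φ (s * t⁻¹) = 0 := hφN _ (mul_mem hs (inv_mem ht)) (hl _ (mul_mem hs (inv_mem ht)) h1)
  have h3 := hφ (s * t⁻¹) (mul_mem hs (inv_mem ht)) t ht
  rw [inv_mul_cancel_right, h2, zero_add] at h3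
  exact h3

/-- **From the pairing to the tensor product**: every map `φ` on `Γ` which is additive on `U`
and kills `N ∩ U` is given on `U` by a unique element of `A ⊗ W`. -/
theorem h33_pair_existsUnique [Module.Finite (ZMod p) A]
    (hadd : ∀ s ∈ U, ∀ t ∈ U, κ (s * t) = κ s + κ t)
    (hl : ∀ s ∈ U, κ s = 0 → s ∈ N)
    (hr : ∀ a : A, (∀ s ∈ U, κ s a = 0) → a = 0)
    (φ : Γ → W) (hφ : ∀ s ∈ U, ∀ t ∈ U, φ (s * t) = φ s + φ t)
    (hφN : ∀ s ∈ U, s ∈ N → φ s = 0) :
    ∃! x : A ⊗[ZMod p] W, ∀ s ∈ U, φ s = h33_tev (κ s) x := by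
  have hsurj := h33_pair_surj U κ hadd hr
  choose σ hσU hσ using hsurj
  have hwd : ∀ {s t : Γ}, s ∈ U → t ∈ U → κ s = κ t → φ s = φ t := fun hs ht h =>
    h33_pair_wd U N κ hadd hl φ hφ hφN hs ht h
  let f₀ : Module.Dual (ZMod p) A →+ W :=
    { toFun := fun l => φ (σ l)
      map_zero' := by
        have h1 : φ (σ 0) = φ 1 := hwd (hσU 0) (one_mem U) (by rw [hσ, h33_pair_one U κ hadd])
        have h2 := hφ 1 (one_mem U) 1 (one_mem U)
        rw [one_mul] at h2
        show φ (σ 0) = 0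
        rw [h1]
        exact left_eq_add.mp h2
      map_add' := by
        intro l l'
        show φ (σ (l + l')) = φ (σ l) + φ (σ l')
        rw [← hφ _ (hσU l) _ (hσU l')]
        exact hwd (hσU _) (mul_mem (hσU l) (hσU l')) (by rw [hσ, hadd _ (hσU l) _ (hσU l'), hσ, hσ]) }
  obtain ⟨x, hx⟩ := h33_tev_exists (f₀.toZModLinearMap p)
  refine ⟨x, fun s hs => ?_, fun y hy => ?_⟩
  · rw [hx (κ s)]
    exact hwd hs (hσU _) (hσ _).symm
  · have h0 : y - x = 0 := by
      apply h33_tev_eq_zero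
      intro l
      rw [map_sub, ← hσ l, ← hy _ (hσU l), hx (κ (σ l)), hσ l]
      exact sub_self _
    exact sub_eq_zero.mp h0

/-- The map attached to an element of `A ⊗ W` is additive on `U`. -/
theorem h33_pair_map_add
    (hadd : ∀ s ∈ U, ∀ t ∈ U, κ (s * t) = κ s + κ t) (x : A ⊗[ZMod p] W) {s t : Γ}
    (hs : s ∈ U) (ht : t ∈ U) :
    h33_tev (κ (s * t)) x = h33_tev (κ s) x + h33_tev (κ t) x := by
  rw [hadd s hs t ht, h33_tev_add]

/-- The map attached to an element of `A ⊗ W` kills the left kernel. -/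
theorem h33_pair_map_ker (x : A ⊗[ZMod p] W) {s : Γ} (h : κ s = 0) :
    h33_tev (κ s) x = 0 := by
  rw [h]
  induction x using TensorProduct.induction_on with
  | zero => simp
  | tmul a w => simp
  | add x y hx hy => rw [map_add, hx, hy, add_zero]

/-- **Equivariance transfer**: if `κ (h s h⁻¹) (ρA h a) = ω h * κ s a` (`ω h ≠ 0`), the map
attached to `x ∈ A ⊗ W` is `H`-equivariant iff `(ρA h ⊗ ρW h) x = ω h • x` for all `h ∈ H`. -/
theorem h33_pair_equivariant_iff [Module.Finite (ZMod p) A] [hU : U.Normal]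
    (hadd : ∀ s ∈ U, ∀ t ∈ U, κ (s * t) = κ s + κ t)
    (hr : ∀ a : A, (∀ s ∈ U, κ s a = 0) → a = 0)
    (H : Set Γ) (ρA : Γ → A →ₗ[ZMod p] A) (ρW : Γ → W →ₗ[ZMod p] W) (ω : Γ → ZMod p)
    (hω : ∀ h ∈ H, ω h ≠ 0)
    (hκ : ∀ h ∈ H, ∀ s ∈ U, ∀ a : A, κ (h * s * h⁻¹) (ρA h a) = ω h * κ s a)
    (x : A ⊗[ZMod p] W) :
    (∀ h ∈ H, ∀ s ∈ U, h33_tev (κ (h * s * h⁻¹)) x = ρW h (h33_tev (κ s) x)) ↔
      ∀ h ∈ H, TensorProduct.map (ρA h) (ρW h) x = ω h • x := by
  have key : ∀ h ∈ H, ∀ s ∈ U, ∀ y : A ⊗[ZMod p] W,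
      h33_tev (κ (h * s * h⁻¹)) (TensorProduct.map (ρA h) (ρW h) y) =
        ω h • ρW h (h33_tev (κ s) y) := by
    intro h hh s hs y
    induction y using TensorProduct.induction_on with
    | zero => simp
    | tmul a w =>
      rw [TensorProduct.map_tmul, h33_tev_tmul, h33_tev_tmul, hκ h hh s hs a, map_smul, mul_smul]
    | add y z hy hz => rw [map_add, map_add, hy, hz, map_add, map_add, smul_add]
  constructor
  · intro hx h hh
    have h0 : TensorProduct.map (ρA h) (ρW h) x - ω h • x = 0 := by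
      apply h33_tev_eq_zero
      intro l
      obtain ⟨t, ht, rfl⟩ := h33_pair_surj U κ hadd hr l
      have hs : h⁻¹ * t * h ∈ U := by
        have := hU.conj_mem t ht h⁻¹
        rwa [inv_inv] at this
      have ht' : h * (h⁻¹ * t * h) * h⁻¹ = t := by group
      have h1 := key h hh _ hs x
      have h2 := hx h hh _ hs
      rw [ht'] at h1 h2
      rw [map_sub, h1, map_smul, h2]
      exact sub_self _
    exact sub_eq_zero.mp h0
  · intro hx h hh s hs
    have h1 := key h hh s hs x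
    rw [hx h hh, map_smul] at h1
    exact smul_right_injective W (hω h hh) h1

end Pair

end Fermat.Agent.S56
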