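import Fermat.Agent.S56.h33_KumS
import Fermat.Agent.S56.h33_PairInv
import Fermat.Agent.S56.h13_SUnitCharpoly
import Fermat.Agent.S55.h28_GlobAct

/-!
# S56, front W1, row C2 (final form): additive maps of level `S` on `Gal(Qbar/F)` and `E_S/p ⊗ W`

`F ⊆ Qbar` a Galois `S`-level containing a primitive `p`-th root of unity `ζ`, `U = Gal(Qbar/F)`,
`E_S` the `S`-units of `F` in helper13's spelling (`T = h59_T ↥F S`), `A = ZMod p ⊗[ℤ] Additive E_S`.

* `h33_kumDual S p F hζ s : Module.Dual (ZMod p) A` : the Kummer character of `s ∈ U`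
  (`0` for `s ∉ U`), `h33_kumDual_tmul`;
* `h33_kum_tensor_existsUnique` : every map `φ : GQ → W` (`W` an `𝔽_p`-vector space), additive on
  `U` and of level `S`, is `s ↦ (κ s ⊗ id) x` on `U` for a unique `x ∈ A ⊗ W`
  (under helper92's `C6a`: the `S`-units surject onto the Selmer group);
* `h33_kum_tensor_level` : conversely `s ↦ (κ s ⊗ id) x` is additive on `U` and `IsLevelConstantS₁`;
* `h33_kum_tensor_equivariant_iff` : `φ (g s g⁻¹) = τ (φ s)` for all `s ∈ U` iff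
  `(σ_g ⊗ τ) x = χ_p(g) • x`, `σ_g` = helper13's `(h13_sunitEnd T (g|F) hT).baseChange (ZMod p)`.
-/

set_option autoImplicit false
set_option linter.unusedSectionVars false
set_option linter.unusedVariables false

open NumberField IsDedekindDomain groupCohomology ExtCitation TensorProduct

namespace Fermat.Agent.S56

open Fermat.Agent.S55

local notation "Qb" => AlgebraicClosure ℚ
local notation "GQ" => (AlgebraicClosure ℚ ≃ₐ[ℚ] AlgebraicClosure ℚ)

section Carrier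

variable (S : Finset Nat.Primes) (p : ℕ) [Fact p.Prime] (F : IntermediateField ℚ Qb)
  [NumberField ↥F]

/-- The `S`-units of `F` in helper13's spelling (`T = h59_T ↥F S`, a `Finset` of primes). -/
noncomputable abbrev h33_ES : Subgroup (↥F)ˣ :=
  ((h59_T ↥F S : Finset (HeightOneSpectrum (𝓞 ↥F))) : Set (HeightOneSpectrum (𝓞 ↥F))).unit ↥F

theorem h33_ES_eq : h33_ES S F = (h46_primesOver S F).unit ↥F := by
  rw [h33_ES, h33_coe_T_eq]

/-- every element of `ZMod p ⊗[ℤ] M` is a pure tensor `1 ⊗ m`. -/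
theorem h33_exists_one_tmul {M : Type*} [AddCommGroup M] (x : ZMod p ⊗[ℤ] M) :
    ∃ m : M, x = (1 : ZMod p) ⊗ₜ[ℤ] m := by
  have : NeZero p := ⟨(Fact.out : p.Prime).ne_zero⟩
  induction x using TensorProduct.induction_on with
  | zero => exact ⟨0, by rw [tmul_zero]⟩
  | tmul c m =>
    refine ⟨c.val • m, ?_⟩
    rw [TensorProduct.tmul_smul, TensorProduct.smul_tmul', nsmul_eq_mul, mul_one,
      ZMod.natCast_zmod_val]
  | add x y hx hy =>
    obtain ⟨m, rfl⟩ := hx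
    obtain ⟨m', rfl⟩ := hy
    exact ⟨m + m', by rw [tmul_add]⟩

variable {S p F}

/-- The Kummer character of `s ∈ Gal(Qbar/F)` on the `S`-units, as an additive map. -/
noncomputable def h33_kumAddHom {ζ : ↥F} (hζ : IsPrimitiveRoot ζ p) {s : GQ}
    (hs : s ∈ F.fixingSubgroup) : Additive ↥(h33_ES S F) →+ ZMod p where
  toFun u := h33_kumSymb p (ζ : Qb) s
    (((((Additive.toMul u : ↥(h33_ES S F)) : (↥F)ˣ) : ↥F)) : Qb)
  map_zero' := by
    have hζ' : IsPrimitiveRoot (ζ : Qb) p :=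
      hζ.map_of_injective (f := F.val) Subtype.val_injective
    have hfix : ∀ x : ↥F, s (x : Qb) = x := fun x =>
      (IntermediateField.mem_fixingSubgroup_iff F s).mp hs _ x.2
    have h1 : (((((Additive.toMul (0 : Additive ↥(h33_ES S F)) : ↥(h33_ES S F)) : (↥F)ˣ) : ↥F)) : Qb)
        = (1 : Qb) ^ p := by
      rw [one_pow]
      rfl
    rw [h1]
    exact h33_kumSymb_pow hζ' (hfix ζ) one_ne_zero (map_one s)
  map_add' u v := by
    have hζ' : IsPrimitiveRoot (ζ : Qb) p :=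
      hζ.map_of_injective (f := F.val) Subtype.val_injective
    have hfix : ∀ x : ↥F, s (x : Qb) = x := fun x =>
      (IntermediateField.mem_fixingSubgroup_iff F s).mp hs _ x.2
    have hne : ∀ a : (↥F)ˣ, (((a : (↥F)ˣ) : ↥F) : Qb) ≠ 0 := fun a h0 =>
      a.ne_zero (Subtype.ext h0)
    have h1 : (((((Additive.toMul (u + v) : ↥(h33_ES S F)) : (↥F)ˣ) : ↥F)) : Qb) =
        (((((Additive.toMul u : ↥(h33_ES S F)) : (↥F)ˣ) : ↥F)) : Qb) *
          (((((Additive.toMul v : ↥(h33_ES S F)) : (↥F)ˣ) : ↥F)) : Qb) := rfl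
    rw [h1]
    exact h33_kumSymb_mul_right hζ' (hfix ζ) (hne _) (hne _) (hfix _) (hfix _)

theorem h33_kumAddHom_apply {ζ : ↥F} (hζ : IsPrimitiveRoot ζ p) {s : GQ}
    (hs : s ∈ F.fixingSubgroup) (u : ↥(h33_ES S F)) :
    h33_kumAddHom hζ hs (Additive.ofMul u) =
      h33_kumSymb p (ζ : Qb) s ((((u : (↥F)ˣ) : ↥F)) : Qb) := rfl

variable (S p F)

open Classical in
/-- The Kummer character of `s` as a linear form on `E_S/p = ZMod p ⊗[ℤ] Additive E_S`
(`0` if `s ∉ Gal(Qbar/F)`). -/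
noncomputable def h33_kumDual {ζ : ↥F} (hζ : IsPrimitiveRoot ζ p) (s : GQ) :
    Module.Dual (ZMod p) (ZMod p ⊗[ℤ] Additive ↥(h33_ES S F)) :=
  if hs : s ∈ F.fixingSubgroup then
    LinearMap.liftBaseChange (ZMod p) (h33_kumAddHom hζ hs).toIntLinearMap
  else 0

theorem h33_kumDual_tmul {ζ : ↥F} (hζ : IsPrimitiveRoot ζ p) {s : GQ}
    (hs : s ∈ F.fixingSubgroup) (c : ZMod p) (u : ↥(h33_ES S F)) :
    h33_kumDual S p F hζ s (c ⊗ₜ[ℤ] Additive.ofMul u) =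
      c * h33_kumSymb p (ζ : Qb) s ((((u : (↥F)ˣ) : ↥F)) : Qb) := by
  rw [h33_kumDual, dif_pos hs, LinearMap.liftBaseChange_tmul]
  rfl

theorem h33_kumDual_of_not_mem {ζ : ↥F} (hζ : IsPrimitiveRoot ζ p) {s : GQ}
    (hs : s ∉ F.fixingSubgroup) : h33_kumDual S p F hζ s = 0 := by
  rw [h33_kumDual, dif_neg hs]

/-- linear forms on `ZMod p ⊗[ℤ] M` are determined by their values on `1 ⊗ m`. -/
theorem h33_dual_ext {M : Type*} [AddCommGroup M] {l l' : Module.Dual (ZMod p) (ZMod p ⊗[ℤ] M)}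
    (h : ∀ m : M, l ((1 : ZMod p) ⊗ₜ[ℤ] m) = l' ((1 : ZMod p) ⊗ₜ[ℤ] m)) : l = l' := by
  refine LinearMap.ext fun x => ?_
  obtain ⟨m, rfl⟩ := h33_exists_one_tmul p x
  exact h m

theorem h33_kumDual_mul {ζ : ↥F} (hζ : IsPrimitiveRoot ζ p) {s t : GQ}
    (hs : s ∈ F.fixingSubgroup) (ht : t ∈ F.fixingSubgroup) :
    h33_kumDual S p F hζ (s * t) = h33_kumDual S p F hζ s + h33_kumDual S p F hζ t := by
  have hζ' : IsPrimitiveRoot (ζ : Qb) p :=
    hζ.map_of_injective (f := F.val) Subtype.val_injective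
  have hfix : ∀ {r : GQ}, r ∈ F.fixingSubgroup → ∀ x : ↥F, r (x : Qb) = x := fun {r} hr x =>
    (IntermediateField.mem_fixingSubgroup_iff F r).mp hr _ x.2
  have hne : ∀ a : (↥F)ˣ, (((a : (↥F)ˣ) : ↥F) : Qb) ≠ 0 := fun a h0 =>
    a.ne_zero (Subtype.ext h0)
  apply h33_dual_ext
  intro m
  obtain ⟨u, rfl⟩ := Additive.ofMul.surjective m
  rw [LinearMap.add_apply, h33_kumDual_tmul S p F hζ (mul_mem hs ht), h33_kumDual_tmul S p F hζ hs,
    h33_kumDual_tmul S p F hζ ht, one_mul, one_mul, one_mul]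
  exact h33_kumSymb_mul_left hζ' (hfix hs ζ) (hfix ht ζ) (hne _) (hfix hs _) (hfix ht _)

theorem h33_kumDual_eq_zero_iff {ζ : ↥F} (hζ : IsPrimitiveRoot ζ p) {s : GQ}
    (hs : s ∈ F.fixingSubgroup) :
    h33_kumDual S p F hζ s = 0 ↔ ∀ u ∈ (h46_primesOver S F).unit ↥F,
      h33_kumSymb p (ζ : Qb) s (((u : (↥F)ˣ) : ↥F) : Qb) = 0 := by
  constructor
  · intro h u hu
    have hu' : u ∈ h33_ES S F := by rw [h33_ES_eq]; exact hu
    have h1 := h33_kumDual_tmul S p F hζ hs 1 ⟨u, hu'⟩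
    rw [h, LinearMap.zero_apply, one_mul] at h1
    exact h1.symm
  · intro h
    apply h33_dual_ext
    intro m
    obtain ⟨u, rfl⟩ := Additive.ofMul.surjective m
    rw [h33_kumDual_tmul S p F hζ hs, one_mul, LinearMap.zero_apply]
    exact h u.1 (by rw [← h33_ES_eq]; exact u.2)

end Carrier

section Main

variable (S : Finset Nat.Primes) (p : ℕ) [Fact p.Prime] (F : IntermediateField ℚ Qb)
  [NumberField ↥F]

theorem h33_ES_finite : Module.Finite (ZMod p) (ZMod p ⊗[ℤ] Additive ↥(h33_ES S F)) := by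
  have := h59_sunit_finite ↥F (h59_T ↥F S)
  infer_instance

/-- **Right kernel** of the Kummer pairing on `E_S/p` is trivial. -/
theorem h33_kumDual_right_ker {ζ : ↥F} (hζ : IsPrimitiveRoot ζ p)
    (x : ZMod p ⊗[ℤ] Additive ↥(h33_ES S F))
    (h : ∀ s ∈ F.fixingSubgroup, h33_kumDual S p F hζ s x = 0) : x = 0 := by
  obtain ⟨m, rfl⟩ := h33_exists_one_tmul p x
  obtain ⟨u, rfl⟩ := Additive.ofMul.surjective m
  have h1 : ∀ s ∈ F.fixingSubgroup,
      h33_kumSymb p (ζ : Qb) s ((((u : (↥F)ˣ) : ↥F)) : Qb) = 0 := fun s hs => by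
    have := h s hs
    rwa [h33_kumDual_tmul S p F hζ hs, one_mul] at this
  have hu : (u : (↥F)ˣ) ∈ (h46_primesOver S F).unit ↥F := by rw [← h33_ES_eq]; exact u.2
  obtain ⟨w, hw, hwu⟩ := (h33_kumSymb_right_ker_units S p F hζ hu).mp h1
  have hw' : w ∈ h33_ES S F := by rw [h33_ES_eq]; exact hw
  have hu2 : u = (⟨w, hw'⟩ : ↥(h33_ES S F)) ^ p := Subtype.ext hwu.symm
  rw [hu2, ofMul_pow, TensorProduct.tmul_smul, TensorProduct.smul_tmul', nsmul_eq_mul, mul_one,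
    ZMod.natCast_self, zero_tmul]

/-- The primes above `S` are stable under `Gal(F/ℚ)`. -/
theorem h33_T_stable (σ : ↥F ≃ₐ[ℚ] ↥F) :
    ∀ w ∈ h59_T ↥F S, h92_galPrime σ w ∈ h59_T ↥F S := fun w hw =>
  (h59_mem_T ↥F S _).mpr ((h28_above_galPrime S σ w).mpr ((h59_mem_T ↥F S w).mp hw))

/-- The action of `g ∈ Gal(Qbar/ℚ)` on `E_S/p` (helper13's endomorphism for `g|F`). -/
noncomputable abbrev h33_actA [Normal ℚ F] (g : GQ) :
    (ZMod p ⊗[ℤ] Additive ↥(h33_ES S F)) →ₗ[ZMod p] (ZMod p ⊗[ℤ] Additive ↥(h33_ES S F)) :=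
  (h13_sunitEnd (h59_T ↥F S) (h97_π F g) (h33_T_stable S F (h97_π F g))).baseChange (ZMod p)

/-- **Equivariance** of the Kummer pairing on `E_S/p`. -/
theorem h33_kumDual_conj [Normal ℚ F] {ζ : ↥F} (hζ : IsPrimitiveRoot ζ p) (g : GQ) {s : GQ}
    (hs : s ∈ F.fixingSubgroup) (x : ZMod p ⊗[ℤ] Additive ↥(h33_ES S F)) :
    h33_kumDual S p F hζ (g * s * g⁻¹) (h33_actA S p F g x) =
      ((cycloChar p g : (ZMod p)ˣ) : ZMod p) * h33_kumDual S p F hζ s x := by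
  have hζ' : IsPrimitiveRoot (ζ : Qb) p :=
    hζ.map_of_injective (f := F.val) Subtype.val_injective
  have hfix : ∀ y : ↥F, s (y : Qb) = y := fun y =>
    (IntermediateField.mem_fixingSubgroup_iff F s).mp hs _ y.2
  have hne : ∀ a : (↥F)ˣ, (((a : (↥F)ˣ) : ↥F) : Qb) ≠ 0 := fun a h0 =>
    a.ne_zero (Subtype.ext h0)
  obtain ⟨m, rfl⟩ := h33_exists_one_tmul p x
  obtain ⟨u, rfl⟩ := Additive.ofMul.surjective m
  have hconj : g * s * g⁻¹ ∈ F.fixingSubgroup := h33_conj_mem_fixing F g hs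
  rw [h33_actA, LinearMap.baseChange_tmul, h13_sunitEnd_apply, h33_kumDual_tmul S p F hζ hconj,
    h33_kumDual_tmul S p F hζ hs, one_mul, one_mul]
  have h1 : (((((h13_sunitMap (h59_T ↥F S) (h97_π F g) (h33_T_stable S F (h97_π F g)) u :
      ↥(h33_ES S F)) : (↥F)ˣ) : ↥F)) : Qb) = g ((((u : (↥F)ˣ) : ↥F)) : Qb) :=
    h97_π_apply F g ((u : (↥F)ˣ) : ↥F)
  rw [h1]
  exact h33_kumSymb_conj_cyclo hζ' g (hfix ζ) (hne _) (hfix _)

variable {W : Type*} [AddCommGroup W] [Module (ZMod p) W]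

/-- **C2, tensor form (existence and uniqueness)**: every map `φ : GQ → W` which is additive
on `U = Gal(Qbar/F)` and of level `S` is `s ↦ (κ s ⊗ id) x` on `U`, for a unique
`x ∈ E_S/p ⊗ W`. -/
theorem h33_kum_tensor_existsUnique (hF : h25_IsLevel S F) {ζ : ↥F} (hζ : IsPrimitiveRoot ζ p)
    (hCK : ∀ c : (↥F)ˣ ⧸ (powMonoidHom p : (↥F)ˣ →* (↥F)ˣ).range,
      c ∈ selmerGroup (R := 𝓞 ↥F) (K := ↥F) (S := h46_primesOver S F) (n := p) →
        ∃ u ∈ (h46_primesOver S F).unit ↥F, (QuotientGroup.mk u : (↥F)ˣ ⧸ _) = c)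
    (φ : GQ → W)
    (hadd : ∀ s ∈ F.fixingSubgroup, ∀ t ∈ F.fixingSubgroup, φ (s * t) = φ s + φ t)
    (hlev : ∃ F₁ : IntermediateField ℚ Qb, F₁.IsUnramifiedOutside S ∧
      ∀ s ∈ F.fixingSubgroup, s ∈ F₁.fixingSubgroup → φ s = 0) :
    ∃! x : (ZMod p ⊗[ℤ] Additive ↥(h33_ES S F)) ⊗[ZMod p] W,
      ∀ s ∈ F.fixingSubgroup, φ s = h33_tev (h33_kumDual S p F hζ s) x := by
  have := h33_ES_finite S p F
  refine h33_pair_existsUnique F.fixingSubgroup (h33_kumL S p F).fixingSubgroup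
    (h33_kumDual S p F hζ) (fun s hs t ht => h33_kumDual_mul S p F hζ hs ht) (fun s hs h => ?_)
    (fun a ha => h33_kumDual_right_ker S p F hζ a ha) φ hadd
    (fun s _ hsN => h33_kum_universal S p F hF hζ φ hadd hlev s hsN)
  exact (h33_kumSymb_left_ker_units S p F hζ hCK hs).mp
    ((h33_kumDual_eq_zero_iff S p F hζ hs).mp h)

/-- **C2, tensor form (converse)**: the map attached to `x ∈ E_S/p ⊗ W` is additive on `U` and
constant modulo the `S`-level `F(V_S^{1/p})`. -/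
theorem h33_kum_tensor_level (hpS : pPrime p ∈ S) (hF : h25_IsLevel S F) {ζ : ↥F}
    (hζ : IsPrimitiveRoot ζ p) (x : (ZMod p ⊗[ℤ] Additive ↥(h33_ES S F)) ⊗[ZMod p] W) :
    (∀ s ∈ F.fixingSubgroup, ∀ t ∈ F.fixingSubgroup,
        h33_tev (h33_kumDual S p F hζ (s * t)) x =
          h33_tev (h33_kumDual S p F hζ s) x + h33_tev (h33_kumDual S p F hζ t) x) ∧
      (∀ s, s ∉ F.fixingSubgroup → h33_tev (h33_kumDual S p F hζ s) x = 0) ∧
      IsLevelConstantS₁ S (fun s : GQ => h33_tev (h33_kumDual S p F hζ s) x) := by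
  have hadd : ∀ s ∈ F.fixingSubgroup, ∀ t ∈ F.fixingSubgroup,
      h33_kumDual S p F hζ (s * t) = h33_kumDual S p F hζ s + h33_kumDual S p F hζ t :=
    fun s hs t ht => h33_kumDual_mul S p F hζ hs ht
  have hout : ∀ s, s ∉ F.fixingSubgroup → h33_tev (h33_kumDual S p F hζ s) x = 0 := fun s hs =>
    h33_pair_map_ker (h33_kumDual S p F hζ) x (h33_kumDual_of_not_mem S p F hζ hs)
  refine ⟨fun s hs t ht => h33_pair_map_add F.fixingSubgroup _ hadd x hs ht, hout, ?_⟩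
  refine ⟨h33_kumL S p F, (h33_kumL_isLevel S p F hpS hF hζ).2.1, fun g s hs => ?_⟩
  have hsF : s ∈ F.fixingSubgroup := h33_fixing_kumL_le S p F hs
  have hs0 : h33_kumDual S p F hζ s = 0 := by
    rw [h33_kumDual_eq_zero_iff S p F hζ hsF]
    intro u hu
    exact (h33_kumSymb_left_ker S p F hζ hsF).mpr hs u (h33_units_le_kumV S p F hu)
  show h33_tev (h33_kumDual S p F hζ (g * s)) x = h33_tev (h33_kumDual S p F hζ g) x
  by_cases hg : g ∈ F.fixingSubgroup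
  · rw [hadd g hg s hsF, hs0, add_zero]
  · have hgs : g * s ∉ F.fixingSubgroup := fun h => hg (by
      have := mul_mem h (inv_mem hsF)
      rwa [mul_inv_cancel_right] at this)
    rw [hout g hg, hout _ hgs]

/-- **C2, tensor form (equivariance)**: for `g ∈ Gal(Qbar/ℚ)` and `τ ∈ End(W)`, the map `φ`
attached to `x ∈ E_S/p ⊗ W` satisfies `φ (g s g⁻¹) = τ (φ s)` on `U` iff
`(g ⊗ τ) x = χ_p(g) • x`. -/
theorem h33_kum_tensor_equivariant_iff [Normal ℚ F] {ζ : ↥F} (hζ : IsPrimitiveRoot ζ p) (g : GQ)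
    (τ : W →ₗ[ZMod p] W) (x : (ZMod p ⊗[ℤ] Additive ↥(h33_ES S F)) ⊗[ZMod p] W) :
    (∀ s ∈ F.fixingSubgroup, h33_tev (h33_kumDual S p F hζ (g * s * g⁻¹)) x =
        τ (h33_tev (h33_kumDual S p F hζ s) x)) ↔
      TensorProduct.map (h33_actA S p F g) τ x = ((cycloChar p g : (ZMod p)ˣ) : ZMod p) • x := by
  have := h33_ES_finite S p F
  have hU : F.fixingSubgroup.Normal := ⟨fun n hn h => h33_conj_mem_fixing F h hn⟩
  have h := h33_pair_equivariant_iff F.fixingSubgroup (h33_kumDual S p F hζ)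
    (fun s hs t ht => h33_kumDual_mul S p F hζ hs ht)
    (fun a ha => h33_kumDual_right_ker S p F hζ a ha) ({g} : Set GQ)
    (fun _ => h33_actA S p F g) (fun _ => τ)
    (fun _ => ((cycloChar p g : (ZMod p)ˣ) : ZMod p))
    (fun _ _ => Units.ne_zero _)
    (fun h hh s hs a => by
      rw [Set.mem_singleton_iff] at hh
      subst hh
      exact h33_kumDual_conj S p F hζ h hs a) x
  constructor
  · intro hx
    exact h.mp (fun h' hh s hs => by
      rw [Set.mem_singleton_iff] at hh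
      subst hh
      exact hx s hs) g rfl
  · intro hx s hs
    exact h.mpr (fun h' hh => by
      rw [Set.mem_singleton_iff] at hh
      subst hh
      exact hx) g rfl s hs

end Main

/-! ### Packaged form: a linear equivalence and the count -/

section Count

variable (S : Finset Nat.Primes) (p : ℕ) [Fact p.Prime] (F : IntermediateField ℚ Qb)
  [NumberField ↥F] (W : Type*) [AddCommGroup W] [Module (ZMod p) W]

/-- The additive maps `Gal(Qbar/F) → W` of level `S`. -/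
def h33_HomS : Submodule (ZMod p) (↥F.fixingSubgroup → W) where
  carrier := {φ | (∀ s t, φ (s * t) = φ s + φ t) ∧
    ∃ F₁ : IntermediateField ℚ Qb, F₁.IsUnramifiedOutside S ∧
      ∀ s : ↥F.fixingSubgroup, (s : GQ) ∈ F₁.fixingSubgroup → φ s = 0}
  add_mem' := by
    rintro φ ψ ⟨h1, F₁, hF₁, hk1⟩ ⟨h2, F₂, hF₂, hk2⟩
    refine ⟨fun s t => ?_, F₁ ⊔ F₂, hF₁.sup hF₂, fun s hs => ?_⟩
    · simp only [Pi.add_apply, h1 s t, h2 s t]
      abel
    · rw [IntermediateField.fixingSubgroup_sup] at hs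
      simp only [Pi.add_apply, hk1 s hs.1, hk2 s hs.2, add_zero]
  zero_mem' := ⟨fun _ _ => (add_zero (0 : W)).symm, ⊥, IntermediateField.isUnramifiedOutside_bot S,
    fun _ _ => rfl⟩
  smul_mem' := by
    rintro c φ ⟨h1, F₁, hF₁, hk1⟩
    refine ⟨fun s t => ?_, F₁, hF₁, fun s hs => ?_⟩
    · simp only [Pi.smul_apply, h1 s t, smul_add]
    · simp only [Pi.smul_apply, hk1 s hs, smul_zero]

variable {S p F W} in
theorem h33_mem_HomS {φ : ↥F.fixingSubgroup → W} :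
    φ ∈ h33_HomS S p F W ↔ (∀ s t, φ (s * t) = φ s + φ t) ∧
      ∃ F₁ : IntermediateField ℚ Qb, F₁.IsUnramifiedOutside S ∧
        ∀ s : ↥F.fixingSubgroup, (s : GQ) ∈ F₁.fixingSubgroup → φ s = 0 := Iff.rfl

/-- The map `x ↦ (s ↦ (κ s ⊗ id) x)` from `E_S/p ⊗ W` to the functions on `Gal(Qbar/F)`. -/
noncomputable def h33_kumMap {ζ : ↥F} (hζ : IsPrimitiveRoot ζ p) :
    (ZMod p ⊗[ℤ] Additive ↥(h33_ES S F)) ⊗[ZMod p] W →ₗ[ZMod p] (↥F.fixingSubgroup → W) where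
  toFun x s := h33_tev (h33_kumDual S p F hζ (s : GQ)) x
  map_add' x y := by
    funext s
    simp only [map_add, Pi.add_apply]
  map_smul' c x := by
    funext s
    simp only [map_smul, Pi.smul_apply, RingHom.id_apply]

theorem h33_kumMap_apply {ζ : ↥F} (hζ : IsPrimitiveRoot ζ p)
    (x : (ZMod p ⊗[ℤ] Additive ↥(h33_ES S F)) ⊗[ZMod p] W) (s : ↥F.fixingSubgroup) :
    h33_kumMap S p F W hζ x s = h33_tev (h33_kumDual S p F hζ (s : GQ)) x := rfl

theorem h33_kumMap_mem (hpS : pPrime p ∈ S) (hF : h25_IsLevel S F) {ζ : ↥F}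
    (hζ : IsPrimitiveRoot ζ p) (x : (ZMod p ⊗[ℤ] Additive ↥(h33_ES S F)) ⊗[ZMod p] W) :
    h33_kumMap S p F W hζ x ∈ h33_HomS S p F W := by
  obtain ⟨h1, -, F₁, hF₁, hc⟩ := h33_kum_tensor_level S p F hpS hF hζ x
  refine ⟨fun s t => h1 s s.2 t t.2, F₁, hF₁, fun s hs => ?_⟩
  have h2 := hc 1 (s : GQ) hs
  simp only [one_mul] at h2
  rw [h33_kumMap_apply, h2]
  exact h33_pair_map_ker (h33_kumDual S p F hζ) x
    (h33_pair_one F.fixingSubgroup (h33_kumDual S p F hζ)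
      (fun s hs t ht => h33_kumDual_mul S p F hζ hs ht))

theorem h33_kumMap_injective {ζ : ↥F} (hζ : IsPrimitiveRoot ζ p) :
    Function.Injective (h33_kumMap S p F W hζ) := by
  have := h33_ES_finite S p F
  rw [injective_iff_map_eq_zero]
  intro x hx
  apply h33_tev_eq_zero
  intro l
  obtain ⟨s, hs, rfl⟩ := h33_pair_surj F.fixingSubgroup (h33_kumDual S p F hζ)
    (fun s hs t ht => h33_kumDual_mul S p F hζ hs ht)
    (fun a ha => h33_kumDual_right_ker S p F hζ a ha) l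
  exact congrFun hx ⟨s, hs⟩

theorem h33_kumMap_surj (hF : h25_IsLevel S F) {ζ : ↥F} (hζ : IsPrimitiveRoot ζ p)
    (hCK : ∀ c : (↥F)ˣ ⧸ (powMonoidHom p : (↥F)ˣ →* (↥F)ˣ).range,
      c ∈ selmerGroup (R := 𝓞 ↥F) (K := ↥F) (S := h46_primesOver S F) (n := p) →
        ∃ u ∈ (h46_primesOver S F).unit ↥F, (QuotientGroup.mk u : (↥F)ˣ ⧸ _) = c)
    {φ : ↥F.fixingSubgroup → W} (hφ : φ ∈ h33_HomS S p F W) :
    ∃ x, h33_kumMap S p F W hζ x = φ := by
  classical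
  obtain ⟨h1, F₁, hF₁, hk⟩ := hφ
  let φ' : GQ → W := fun s => if hs : s ∈ F.fixingSubgroup then φ ⟨s, hs⟩ else 0
  have hφ' : ∀ s (hs : s ∈ F.fixingSubgroup), φ' s = φ ⟨s, hs⟩ := fun s hs => dif_pos hs
  obtain ⟨x, hx, -⟩ := h33_kum_tensor_existsUnique S p F hF hζ hCK φ'
    (fun s hs t ht => by
      rw [hφ' _ (mul_mem hs ht), hφ' s hs, hφ' t ht]
      exact h1 ⟨s, hs⟩ ⟨t, ht⟩)
    ⟨F₁, hF₁, fun s hs hs₁ => by
      rw [hφ' s hs]
      exact hk ⟨s, hs⟩ hs₁⟩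
  refine ⟨x, ?_⟩
  funext s
  rw [h33_kumMap_apply, ← hx (s : GQ) s.2, hφ' (s : GQ) s.2]

/-- **C2, packaged**: `E_S/p ⊗ W ≃ {additive maps Gal(Qbar/F) → W of level S}`. -/
noncomputable def h33_kumEquiv (hpS : pPrime p ∈ S) (hF : h25_IsLevel S F) {ζ : ↥F}
    (hζ : IsPrimitiveRoot ζ p)
    (hCK : ∀ c : (↥F)ˣ ⧸ (powMonoidHom p : (↥F)ˣ →* (↥F)ˣ).range,
      c ∈ selmerGroup (R := 𝓞 ↥F) (K := ↥F) (S := h46_primesOver S F) (n := p) →
        ∃ u ∈ (h46_primesOver S F).unit ↥F, (QuotientGroup.mk u : (↥F)ˣ ⧸ _) = c) :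
    ((ZMod p ⊗[ℤ] Additive ↥(h33_ES S F)) ⊗[ZMod p] W) ≃ₗ[ZMod p] ↥(h33_HomS S p F W) :=
  LinearEquiv.ofBijective
    ((h33_kumMap S p F W hζ).codRestrict (h33_HomS S p F W)
      (fun x => h33_kumMap_mem S p F W hpS hF hζ x))
    ⟨fun x y h => h33_kumMap_injective S p F W hζ (congrArg Subtype.val h),
      fun φ => by
        obtain ⟨x, hx⟩ := h33_kumMap_surj S p F W hF hζ hCK φ.2
        exact ⟨x, Subtype.ext hx⟩⟩

theorem h33_kumEquiv_apply (hpS : pPrime p ∈ S) (hF : h25_IsLevel S F) {ζ : ↥F}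
    (hζ : IsPrimitiveRoot ζ p)
    (hCK : ∀ c : (↥F)ˣ ⧸ (powMonoidHom p : (↥F)ˣ →* (↥F)ˣ).range,
      c ∈ selmerGroup (R := 𝓞 ↥F) (K := ↥F) (S := h46_primesOver S F) (n := p) →
        ∃ u ∈ (h46_primesOver S F).unit ↥F, (QuotientGroup.mk u : (↥F)ˣ ⧸ _) = c)
    (x : (ZMod p ⊗[ℤ] Additive ↥(h33_ES S F)) ⊗[ZMod p] W) (s : ↥F.fixingSubgroup) :
    (h33_kumEquiv S p F W hpS hF hζ hCK x : ↥F.fixingSubgroup → W) s =
      h33_tev (h33_kumDual S p F hζ (s : GQ)) x := rfl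

variable [Normal ℚ F]

/-- The additive maps of level `S` which are `g`-equivariant: `φ (g s g⁻¹) = τ (φ s)`. -/
def h33_HomSg (g : GQ) (τ : W →ₗ[ZMod p] W) : Submodule (ZMod p) (↥F.fixingSubgroup → W) where
  carrier := {φ | φ ∈ h33_HomS S p F W ∧
    ∀ u : ↥F.fixingSubgroup, φ ⟨g * u * g⁻¹, h33_conj_mem_fixing F g u.2⟩ = τ (φ u)}
  add_mem' := by
    rintro φ ψ ⟨h1, h1'⟩ ⟨h2, h2'⟩
    refine ⟨add_mem h1 h2, fun u => ?_⟩
    simp only [Pi.add_apply, h1' u, h2' u, map_add]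
  zero_mem' := ⟨zero_mem _, fun u => by simp only [Pi.zero_apply, map_zero]⟩
  smul_mem' := by
    rintro c φ ⟨h1, h1'⟩
    refine ⟨Submodule.smul_mem _ c h1, fun u => ?_⟩
    simp only [Pi.smul_apply, h1' u, map_smul]

variable {S p F W} in
theorem h33_mem_HomSg {g : GQ} {τ : W →ₗ[ZMod p] W} {φ : ↥F.fixingSubgroup → W} :
    φ ∈ h33_HomSg S p F W g τ ↔ φ ∈ h33_HomS S p F W ∧
      ∀ u : ↥F.fixingSubgroup, φ ⟨g * u * g⁻¹, h33_conj_mem_fixing F g u.2⟩ = τ (φ u) := Iff.rfl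

/-- **C2' (the count), equivalence form**: the `g`-equivariant additive maps of level `S` on
`Gal(Qbar/F)` with values in `W` correspond to the `χ_p(g)`-eigenspace of `g ⊗ τ` on
`E_S/p ⊗ W`. -/
theorem h33_kum_count_equiv (hpS : pPrime p ∈ S) (hF : h25_IsLevel S F) {ζ : ↥F}
    (hζ : IsPrimitiveRoot ζ p)
    (hCK : ∀ c : (↥F)ˣ ⧸ (powMonoidHom p : (↥F)ˣ →* (↥F)ˣ).range,
      c ∈ selmerGroup (R := 𝓞 ↥F) (K := ↥F) (S := h46_primesOver S F) (n := p) →
        ∃ u ∈ (h46_primesOver S F).unit ↥F, (QuotientGroup.mk u : (↥F)ˣ ⧸ _) = c)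
    (g : GQ) (τ : W →ₗ[ZMod p] W) :
    ∃ e : ↥(Module.End.eigenspace (TensorProduct.map (h33_actA S p F g) τ)
          ((cycloChar p g : (ZMod p)ˣ) : ZMod p)) ≃ₗ[ZMod p] ↥(h33_HomSg S p F W g τ),
      ∀ x s, (e x : ↥F.fixingSubgroup → W) s = h33_tev (h33_kumDual S p F hζ (s : GQ)) x.1 := by
  have hmem : ∀ x : (ZMod p ⊗[ℤ] Additive ↥(h33_ES S F)) ⊗[ZMod p] W,
      h33_kumMap S p F W hζ x ∈ h33_HomSg S p F W g τ ↔
        x ∈ Module.End.eigenspace (TensorProduct.map (h33_actA S p F g) τ)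
          ((cycloChar p g : (ZMod p)ˣ) : ZMod p) := by
    intro x
    rw [Module.End.mem_eigenspace_iff, ← h33_kum_tensor_equivariant_iff S p F hζ g τ x,
      h33_mem_HomSg]
    constructor
    · rintro ⟨-, h⟩ s hs
      exact h ⟨s, hs⟩
    · intro h
      exact ⟨h33_kumMap_mem S p F W hpS hF hζ x, fun u => h u u.2⟩
  let f : ↥(Module.End.eigenspace (TensorProduct.map (h33_actA S p F g) τ)
      ((cycloChar p g : (ZMod p)ˣ) : ZMod p)) →ₗ[ZMod p] ↥(h33_HomSg S p F W g τ) :=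
    ((h33_kumMap S p F W hζ).comp (Submodule.subtype _)).codRestrict (h33_HomSg S p F W g τ)
      (fun x => (hmem x.1).mpr x.2)
  have hf : Function.Bijective f := by
    constructor
    · intro x y h
      exact Subtype.ext (h33_kumMap_injective S p F W hζ (congrArg Subtype.val h))
    · intro φ
      obtain ⟨x, hx⟩ := h33_kumMap_surj S p F W hF hζ hCK φ.2.1
      have hxm : x ∈ Module.End.eigenspace (TensorProduct.map (h33_actA S p F g) τ)
          ((cycloChar p g : (ZMod p)ˣ) : ZMod p) := (hmem x).mp (by rw [hx]; exact φ.2)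
      exact ⟨⟨x, hxm⟩, Subtype.ext hx⟩
  exact ⟨LinearEquiv.ofBijective f hf, fun x s => rfl⟩

/-- **C2' (the count)**: `dim {g-equivariant additive maps of level S on Gal(Qbar/F) → W}
= dim ker (g ⊗ τ - χ_p(g))` on `E_S/p ⊗ W`. -/
theorem h33_kum_count (hpS : pPrime p ∈ S) (hF : h25_IsLevel S F) {ζ : ↥F}
    (hζ : IsPrimitiveRoot ζ p)
    (hCK : ∀ c : (↥F)ˣ ⧸ (powMonoidHom p : (↥F)ˣ →* (↥F)ˣ).range,
      c ∈ selmerGroup (R := 𝓞 ↥F) (K := ↥F) (S := h46_primesOver S F) (n := p) →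
        ∃ u ∈ (h46_primesOver S F).unit ↥F, (QuotientGroup.mk u : (↥F)ˣ ⧸ _) = c)
    (g : GQ) (τ : W →ₗ[ZMod p] W) :
    Module.finrank (ZMod p) ↥(h33_HomSg S p F W g τ) =
      Module.finrank (ZMod p) ↥(Module.End.eigenspace (TensorProduct.map (h33_actA S p F g) τ)
        ((cycloChar p g : (ZMod p)ˣ) : ZMod p)) := by
  obtain ⟨e, -⟩ := h33_kum_count_equiv S p F W hpS hF hζ hCK g τ
  exact e.finrank_eq.symm

end Count

end Fermat.Agent.S56
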