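import Fermat.Agent.S55.h33_GlobKumSeq
import Fermat.Agent.S55.h59_HypNum
import Fermat.Agent.S55.h37_DictVal
import Fermat.Agent.S55.h46_FinH1

/-!
# S56, front W1, row C2 (KUM): Galois-equivariant Kummer theory at level `S`

`F ⊆ Qbar` a Galois `S`-level containing a primitive `p`-th root of unity `ζ`, `U = Gal(Qbar/F)`.

* `h33_kumSymb p ζ g a : ZMod p` : the Kummer symbol, `g α = ζ ^ (κ g a) * α` for `α ^ p = a`
  (for `g` fixing `ζ` and `a ≠ 0`);  bi-additive, Galois equivariant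
  `κ (g s g⁻¹) (g a) = χ(g) κ s a`;
* `h33_kumV S p F = {a ∈ Fˣ : p ∣ ord_v a for all v not above S}` and the Kummer level
  `h33_kumL S p F = F(V^{1/p})`, an `S`-level (`h33_kumL_isLevel`);
* `h33_kum_exists` : every additive character `U → ZMod p` of level `S` is `κ(·, a)` for some
  `a ∈ V`;  `h33_kum_universal` : every additive map of level `S` on `U` with values in an
  `𝔽_p`-vector space is trivial on `Gal(Qbar/F(V^{1/p}))`;
* kernels: `h33_kumSymb_left_ker`, `h33_kumSymb_right_ker`;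
* `h33_kumV_eq_of_surjective` : `V = E_S · (Fˣ)^p` when the divisor map is onto
  (`𝓞_F[1/S]` principal).
-/

set_option autoImplicit false
set_option linter.unusedSectionVars false
set_option linter.unusedVariables false

open NumberField IsDedekindDomain groupCohomology ExtCitation

namespace Fermat.Agent.S56

open Fermat.Agent.S55

local notation "Qb" => AlgebraicClosure ℚ
local notation "GQ" => (AlgebraicClosure ℚ ≃ₐ[ℚ] AlgebraicClosure ℚ)

/-! ### The Kummer symbol on the absolute Galois group -/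

section Symbol

open Classical in
/-- The Kummer symbol `κ_ζ(g, a) ∈ ZMod p`: `g α = ζ ^ κ * α` for every `p`-th root `α` of `a`
(junk value `0` if there is no such exponent). -/
noncomputable def h33_kumSymb (p : ℕ) (ζ : Qb) (g : GQ) (a : Qb) : ZMod p :=
  if h : ∃ k : ZMod p, ∀ α : Qb, α ^ p = a → g α = ζ ^ k.val * α then h.choose else 0

variable {p : ℕ} [Fact p.Prime] {ζ : Qb}

theorem h33_zeta_pow_val_add (hζ : IsPrimitiveRoot ζ p) (a b : ZMod p) :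
    ζ ^ (a + b).val = ζ ^ a.val * ζ ^ b.val := by
  have : NeZero p := ⟨(Fact.out : p.Prime).ne_zero⟩
  rw [ZMod.val_add, ← pow_eq_pow_mod _ hζ.pow_eq_one, pow_add]

theorem h33_zeta_pow_val_mul (hζ : IsPrimitiveRoot ζ p) (a b : ZMod p) :
    ζ ^ (a * b).val = (ζ ^ a.val) ^ b.val := by
  have : NeZero p := ⟨(Fact.out : p.Prime).ne_zero⟩
  rw [ZMod.val_mul, ← pow_eq_pow_mod _ hζ.pow_eq_one, pow_mul]

theorem h33_zeta_pow_val_inj (hζ : IsPrimitiveRoot ζ p) {a b : ZMod p}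
    (h : ζ ^ a.val = ζ ^ b.val) : a = b := by
  have : NeZero p := ⟨(Fact.out : p.Prime).ne_zero⟩
  exact ZMod.val_injective p (hζ.pow_inj (ZMod.val_lt a) (ZMod.val_lt b) h)

theorem h33_exists_zeta_pow (hζ : IsPrimitiveRoot ζ p) {x : Qb} (hx : x ^ p = 1) :
    ∃ k : ZMod p, x = ζ ^ k.val := by
  have : NeZero p := ⟨(Fact.out : p.Prime).ne_zero⟩
  obtain ⟨i, hi, rfl⟩ := hζ.eq_pow_of_pow_eq_one hx
  exact ⟨(i : ZMod p), by rw [ZMod.val_natCast, Nat.mod_eq_of_lt hi]⟩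

/-- Existence of the Kummer exponent. -/
theorem h33_kum_exponent (hζ : IsPrimitiveRoot ζ p) {g : GQ} (hgζ : g ζ = ζ) {a : Qb}
    (ha : a ≠ 0) (hga : g a = a) :
    ∃ k : ZMod p, ∀ α : Qb, α ^ p = a → g α = ζ ^ k.val * α := by
  have hp : 0 < p := (Fact.out : p.Prime).pos
  obtain ⟨α₀, hα₀⟩ := IsAlgClosed.exists_pow_nat_eq a hp
  have hα₀0 : α₀ ≠ 0 := by
    rintro rfl
    rw [zero_pow hp.ne'] at hα₀
    exact ha hα₀.symm
  have h1 : (g α₀ / α₀) ^ p = 1 := by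
    rw [div_pow, ← map_pow, hα₀, hga, div_self ha]
  obtain ⟨k, hk⟩ := h33_exists_zeta_pow hζ h1
  refine ⟨k, fun α hα => ?_⟩
  have h2 : (α / α₀) ^ p = 1 := by rw [div_pow, hα, hα₀, div_self ha]
  obtain ⟨j, hj⟩ := h33_exists_zeta_pow hζ h2
  have hα' : α = ζ ^ j.val * α₀ := by rw [← hj, div_mul_cancel₀ _ hα₀0]
  have hg : g α₀ = ζ ^ k.val * α₀ := by rw [← hk, div_mul_cancel₀ _ hα₀0]
  rw [hα', map_mul, map_pow, hgζ, hg]
  ring

/-- **Specification of the Kummer symbol.** -/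
theorem h33_kumSymb_spec (hζ : IsPrimitiveRoot ζ p) {g : GQ} (hgζ : g ζ = ζ) {a : Qb}
    (ha : a ≠ 0) (hga : g a = a) {α : Qb} (hα : α ^ p = a) :
    g α = ζ ^ (h33_kumSymb p ζ g a).val * α := by
  classical
  have h := h33_kum_exponent hζ hgζ ha hga
  rw [h33_kumSymb, dif_pos h]
  exact h.choose_spec α hα

/-- Uniqueness of the Kummer symbol. -/
theorem h33_kumSymb_eq_of (hζ : IsPrimitiveRoot ζ p) {g : GQ} (hgζ : g ζ = ζ) {a : Qb}
    (ha : a ≠ 0) {α : Qb} (hα : α ^ p = a) {k : ZMod p} (h : g α = ζ ^ k.val * α) :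
    h33_kumSymb p ζ g a = k := by
  have hp : 0 < p := (Fact.out : p.Prime).pos
  have hα0 : α ≠ 0 := by
    rintro rfl
    rw [zero_pow hp.ne'] at hα
    exact ha hα.symm
  have hga : g a = a := by
    rw [← hα, map_pow, h, mul_pow, ← pow_mul, mul_comm k.val p, pow_mul, hζ.pow_eq_one, one_pow,
      one_mul]
  have h' := h33_kumSymb_spec hζ hgζ ha hga hα
  rw [h] at h'
  exact (h33_zeta_pow_val_inj hζ (mul_right_cancel₀ hα0 h')).symm

/-- Additivity in the Galois variable. -/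
theorem h33_kumSymb_mul_left (hζ : IsPrimitiveRoot ζ p) {s t : GQ} (hsζ : s ζ = ζ)
    (htζ : t ζ = ζ) {a : Qb} (ha : a ≠ 0) (hsa : s a = a) (hta : t a = a) :
    h33_kumSymb p ζ (s * t) a = h33_kumSymb p ζ s a + h33_kumSymb p ζ t a := by
  have hp : 0 < p := (Fact.out : p.Prime).pos
  obtain ⟨α, hα⟩ := IsAlgClosed.exists_pow_nat_eq a hp
  refine h33_kumSymb_eq_of hζ (by rw [AlgEquiv.mul_apply, htζ, hsζ]) ha hα ?_
  rw [AlgEquiv.mul_apply, h33_kumSymb_spec hζ htζ ha hta hα, map_mul, map_pow, hsζ,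
    h33_kumSymb_spec hζ hsζ ha hsa hα, h33_zeta_pow_val_add hζ]
  ring

/-- Additivity in the Kummer variable. -/
theorem h33_kumSymb_mul_right (hζ : IsPrimitiveRoot ζ p) {s : GQ} (hsζ : s ζ = ζ)
    {a b : Qb} (ha : a ≠ 0) (hb : b ≠ 0) (hsa : s a = a) (hsb : s b = b) :
    h33_kumSymb p ζ s (a * b) = h33_kumSymb p ζ s a + h33_kumSymb p ζ s b := by
  have hp : 0 < p := (Fact.out : p.Prime).pos
  obtain ⟨α, hα⟩ := IsAlgClosed.exists_pow_nat_eq a hp
  obtain ⟨β, hβ⟩ := IsAlgClosed.exists_pow_nat_eq b hp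
  have hαβ : (α * β) ^ p = a * b := by rw [mul_pow, hα, hβ]
  refine h33_kumSymb_eq_of hζ hsζ (mul_ne_zero ha hb) hαβ ?_
  rw [map_mul, h33_kumSymb_spec hζ hsζ ha hsa hα, h33_kumSymb_spec hζ hsζ hb hsb hβ,
    h33_zeta_pow_val_add hζ]
  ring

/-- The symbol vanishes iff `s` fixes one (equivalently every) `p`-th root. -/
theorem h33_kumSymb_eq_zero_iff (hζ : IsPrimitiveRoot ζ p) {s : GQ} (hsζ : s ζ = ζ)
    {a : Qb} (ha : a ≠ 0) (hsa : s a = a) {α : Qb} (hα : α ^ p = a) :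
    h33_kumSymb p ζ s a = 0 ↔ s α = α := by
  have : NeZero p := ⟨(Fact.out : p.Prime).ne_zero⟩
  constructor
  · intro h
    rw [h33_kumSymb_spec hζ hsζ ha hsa hα, h, ZMod.val_zero, pow_zero, one_mul]
  · intro h
    exact h33_kumSymb_eq_of hζ hsζ ha hα (by rw [h, ZMod.val_zero, pow_zero, one_mul])

/-- The symbol of a `p`-th power of a fixed element vanishes. -/
theorem h33_kumSymb_pow (hζ : IsPrimitiveRoot ζ p) {s : GQ} (hsζ : s ζ = ζ)
    {c : Qb} (hc : c ≠ 0) (hsc : s c = c) : h33_kumSymb p ζ s (c ^ p) = 0 := by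
  have hp : 0 < p := (Fact.out : p.Prime).pos
  exact (h33_kumSymb_eq_zero_iff hζ hsζ (pow_ne_zero p hc) (by rw [map_pow, hsc]) rfl).2 hsc

/-- **Galois equivariance** of the Kummer symbol: if `g ζ = ζ ^ c`, then
`κ (g s g⁻¹) (g a) = c * κ s a`. -/
theorem h33_kumSymb_conj (hζ : IsPrimitiveRoot ζ p) (g : GQ) {c : ZMod p}
    (hg : g ζ = ζ ^ c.val) {s : GQ} (hsζ : s ζ = ζ) {a : Qb} (ha : a ≠ 0) (hsa : s a = a) :
    h33_kumSymb p ζ (g * s * g⁻¹) (g a) = c * h33_kumSymb p ζ s a := by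
  have hp : 0 < p := (Fact.out : p.Prime).pos
  obtain ⟨α, hα⟩ := IsAlgClosed.exists_pow_nat_eq a hp
  have hginv : (g⁻¹ : GQ) ζ ^ p = 1 := by rw [← map_pow, hζ.pow_eq_one, map_one]
  obtain ⟨j, hj⟩ := h33_exists_zeta_pow hζ hginv
  have hconjζ : (g * s * g⁻¹) ζ = ζ := by
    rw [AlgEquiv.mul_apply, AlgEquiv.mul_apply, hj, map_pow, hsζ, ← hj]
    exact AlgEquiv.apply_symm_apply g ζ
  have hgα : (g α) ^ p = g a := by rw [← map_pow, hα]
  refine h33_kumSymb_eq_of hζ hconjζ ((map_ne_zero g).2 ha) hgα ?_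
  have h1 : (g * s * g⁻¹) (g α) = g (s α) := by
    rw [AlgEquiv.mul_apply, AlgEquiv.mul_apply]
    congr 2
    exact AlgEquiv.symm_apply_apply g α
  rw [h1, h33_kumSymb_spec hζ hsζ ha hsa hα, map_mul, map_pow, hg, h33_zeta_pow_val_mul hζ]

/-- The Kummer symbol and the mod `p` cyclotomic character. -/
theorem h33_cycloChar_spec (hζ : IsPrimitiveRoot ζ p) (g : GQ) :
    g ζ = ζ ^ ((cycloChar p g : (ZMod p)ˣ) : ZMod p).val := by
  have : NeZero p := ⟨(Fact.out : p.Prime).ne_zero⟩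
  have hu : IsUnit ζ := hζ.isUnit (Fact.out : p.Prime).ne_zero
  have hmem : hu.unit ∈ rootsOfUnity p Qb := by
    rw [mem_rootsOfUnity]
    ext
    rw [Units.val_pow_eq_pow_val, IsUnit.unit_spec, hζ.pow_eq_one, Units.val_one]
  have h := modularCyclotomicCharacter.spec (AlgebraicClosure ℚ) (card_rootsOfUnity_eq_self p)
    (g : Qb ≃+* Qb) hmem
  have h2 : ((cycloChar p g : (ZMod p)ˣ) : ZMod p) =
      ((modularCyclotomicCharacter (AlgebraicClosure ℚ) (card_rootsOfUnity_eq_self p)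
        (g : Qb ≃+* Qb) : (ZMod p)ˣ) : ZMod p) := rfl
  rw [h2]
  simpa using h

/-- **Galois equivariance**, cyclotomic form. -/
theorem h33_kumSymb_conj_cyclo (hζ : IsPrimitiveRoot ζ p) (g : GQ) {s : GQ} (hsζ : s ζ = ζ)
    {a : Qb} (ha : a ≠ 0) (hsa : s a = a) :
    h33_kumSymb p ζ (g * s * g⁻¹) (g a) =
      ((cycloChar p g : (ZMod p)ˣ) : ZMod p) * h33_kumSymb p ζ s a :=
  h33_kumSymb_conj hζ g (h33_cycloChar_spec hζ g) hsζ ha hsa

end Symbol

/-! ### The group `V_S` and the Kummer level `F(V_S^{1/p})` -/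

section Level

variable (S : Finset Nat.Primes) (p : ℕ) [Fact p.Prime] (F : IntermediateField ℚ Qb)
  [NumberField ↥F]

/-- `V_S = {a ∈ Fˣ : the prime-to-S divisor of a is p times a divisor}`. -/
noncomputable abbrev h33_kumV : Subgroup (↥F)ˣ := h33_V (h33_dI ↥F S) p

/-- The Kummer level `F(V_S^{1/p})`. -/
noncomputable abbrev h33_kumL : IntermediateField ℚ Qb := h33_kummerLevel F p (h33_kumV S p F)

/-- Dictionary: `a ∈ V_S` iff `p ∣ ord_v a` at every prime `v` of `F` not above `S`. -/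
theorem h33_mem_kumV_iff (x : (↥F)ˣ) :
    x ∈ h33_kumV S p F ↔ ∀ v : h25_Pl ↥F S,
      (p : ℤ) ∣ FractionalIdeal.count ↥F v.1
        (FractionalIdeal.spanSingleton (nonZeroDivisors (𝓞 ↥F)) (x : ↥F)) :=
  h59_mem_V_d2 ↥F S p x

theorem h33_pow_le_kumV : (powMonoidHom p : (↥F)ˣ →* (↥F)ˣ).range ≤ h33_kumV S p F := by
  rintro _ ⟨b, rfl⟩
  rw [h33_mem_V]
  exact ⟨h33_dI ↥F S b, by simp⟩

theorem h33_le_kumL : F ≤ h33_kumL S p F := h33_le_kummerLevel

theorem h33_fixing_kumL_le : (h33_kumL S p F).fixingSubgroup ≤ F.fixingSubgroup :=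
  IntermediateField.fixingSubgroup_antitone (h33_le_kumL S p F)

/-- `p`-th roots of elements of `V_S` lie in the Kummer level. -/
theorem h33_root_mem_kumL {a : (↥F)ˣ} (ha : a ∈ h33_kumV S p F) {α : Qb}
    (hα : α ^ p = (((a : (↥F)ˣ) : ↥F) : Qb)) : α ∈ h33_kumL S p F :=
  h33_mem_kummerLevel_of_pow ha hα

/-- **The Kummer level `F(V_S^{1/p})` is an `S`-level**, and `[V_S : (Fˣ)^p]` is finite. -/
theorem h33_kumL_isLevel (hpS : pPrime p ∈ S) (hF : h25_IsLevel S F) {ζ : ↥F}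
    (hζ : IsPrimitiveRoot ζ p) :
    (powMonoidHom p : (↥F)ˣ →* (↥F)ˣ).range.relIndex (h33_kumV S p F) ≠ 0 ∧
      h25_IsLevel S (h33_kumL S p F) := by
  have hpp : p.Prime := Fact.out
  have hp : 0 < p := hpp.pos
  have hgalF : IsGalois ℚ F := hF.2
  have hnormF : Normal ℚ F := IsGalois.to_normal
  have hpS' : ∀ q : Nat.Primes, (q : ℕ) ∣ p → q ∈ S := by
    intro q hq
    have h1 : (q : ℕ) = p := (Nat.prime_dvd_prime_iff_eq q.2 hpp).mp hq
    have h2 : q = pPrime p := Subtype.ext h1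
    rw [h2]
    exact hpS
  have hD : (h33_dI ↥F S).range.index ≠ 0 := h59_d2_range_index_ne_zero ↥F S
  have hE : (powMonoidHom p : ↥(h33_dI ↥F S).ker →* ↥(h33_dI ↥F S).ker).range.index ≠ 0 :=
    h59_d2_ker_index_pow_ne_zero ↥F S hpp hζ
  have hI : ∀ i : Multiplicative (h25_Div ↥F S), i ^ p = 1 → i = 1 :=
    h33_Div_pow_eq_one ↥F S p hp
  have hdelta := h33_count_delta (h33_dI ↥F S) p hI hD
  have hcl : ((powMonoidHom p : Multiplicative (h25_Div ↥F S) →* _).range ⊔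
      (h33_dI ↥F S).range).index ≠ 0 := by
    intro h0
    have := Subgroup.index_dvd_of_le (le_sup_right :
      (h33_dI ↥F S).range ≤ (powMonoidHom p : Multiplicative (h25_Div ↥F S) →* _).range ⊔
        (h33_dI ↥F S).range)
    rw [h0] at this
    exact hD (Nat.eq_zero_of_zero_dvd this)
  have hfin : (powMonoidHom p : (↥F)ˣ →* (↥F)ˣ).range.relIndex (h33_kumV S p F) ≠ 0 := by
    rw [hdelta]
    exact mul_ne_zero hE hcl
  exact ⟨hfin, h33_kummerLevel_unram S F hF.1 hp hpS' hζ _ (h33_pow_le_kumV S p F) hfin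
      (fun a ha => h37_hypVal S p F hF a ha),
    h33_kummerLevel_isGalois F p _ (h33_V_stable S p F)⟩

/-- An element of `Fˣ` with a `p`-th root in some `S`-level lies in `V_S`. -/
theorem h33_mem_kumV_of_root (hF : h25_IsLevel S F) {N : IntermediateField ℚ Qb}
    (hN : h25_IsLevel S N) (x : (↥F)ˣ) {y : Qb} (hyN : y ∈ N)
    (hy : y ^ p = (((x : (↥F)ˣ) : ↥F) : Qb)) : x ∈ h33_kumV S p F := by
  have hp : 0 < p := (Fact.out : p.Prime).pos
  have hgalF : IsGalois ℚ F := hF.2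
  have hgalN : IsGalois ℚ N := hN.2
  have hnfN : NumberField ↥N := h33_level_numberField hN
  have hsel := h46_kummer_mem_selmer S F N hF.1 hN.1 p hp x y hyN hy
  rw [h33_mem_kumV_iff]
  intro v
  rw [← h46_valuationOfNeZeroMod_eq_one_iff]
  exact hsel v.1 v.2

/-- **Every additive character of level `S` on `Gal(Qbar/F)` is a Kummer character** of an
element of `V_S`. -/
theorem h33_kum_exists (hF : h25_IsLevel S F) {ζ : ↥F} (hζ : IsPrimitiveRoot ζ p)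
    (lam : GQ → ZMod p)
    (hadd : ∀ s ∈ F.fixingSubgroup, ∀ t ∈ F.fixingSubgroup, lam (s * t) = lam s + lam t)
    (hlev : ∃ F₁ : IntermediateField ℚ Qb, F₁.IsUnramifiedOutside S ∧
      ∀ s ∈ F.fixingSubgroup, s ∈ F₁.fixingSubgroup → lam s = 0) :
    ∃ a ∈ h33_kumV S p F, ∀ s ∈ F.fixingSubgroup,
      lam s = h33_kumSymb p (ζ : Qb) s (((a : (↥F)ˣ) : ↥F) : Qb) := by
  have hpp : p.Prime := Fact.out
  have hp : 0 < p := hpp.pos
  have hgalQ : IsGalois ℚ Qb := Fermat.Agent.S13.h24_isGalois_Qbar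
  have hgalF : IsGalois ℚ F := hF.2
  have hζ' : IsPrimitiveRoot (ζ : Qb) p :=
    hζ.map_of_injective (f := F.val) Subtype.val_injective
  have hζ0 : (ζ : Qb) ≠ 0 := hζ'.ne_zero hpp.ne_zero
  obtain ⟨F₁, hF₁, hker⟩ := hlev
  obtain ⟨N, hF₁N, hFN, hN, hNgal⟩ := h56_exists_galois_level_ge S F₁ F hF₁ hF.1
  have hfdN : FiniteDimensional ℚ N := hN.1
  have hnorN : Normal ℚ N := hNgal.to_normal
  have hfixζ : ∀ s ∈ F.fixingSubgroup, s (ζ : Qb) = ζ := fun s hs =>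
    (IntermediateField.mem_fixingSubgroup_iff F s).mp hs _ ζ.2
  obtain ⟨y, hyN, hy0, hy⟩ := h46_resolvent F N hFN (fun g => (ζ : Qb) ^ (lam g).val)
    (fun t _ => pow_ne_zero _ hζ0) (fun t _ => pow_mem ζ.2 _)
    (fun s₁ hs₁ t₁ ht₁ => by
      show (ζ : Qb) ^ (lam (s₁ * t₁)).val = _
      rw [hadd s₁ hs₁ t₁ ht₁, h33_zeta_pow_val_add hζ'])
    (fun s₁ hs₁ t₁ ht₁ => by
      have ht₁F : t₁ ∈ F.fixingSubgroup := IntermediateField.fixingSubgroup_antitone hFN ht₁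
      show (ζ : Qb) ^ (lam (s₁ * t₁)).val = _
      rw [hadd s₁ hs₁ t₁ ht₁F,
        hker t₁ ht₁F (IntermediateField.fixingSubgroup_antitone hF₁N ht₁), add_zero])
  have hypF : y ^ p ∈ F := by
    rw [← InfiniteGalois.fixedField_fixingSubgroup F, IntermediateField.mem_fixedField_iff]
    intro t ht
    rw [map_pow, hy t ht, mul_pow, ← pow_mul, mul_comm (lam t).val p, pow_mul, hζ'.pow_eq_one,
      one_pow, one_mul]
  have hyp0 : (⟨y ^ p, hypF⟩ : ↥F) ≠ 0 := by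
    intro h0
    exact pow_ne_zero p hy0 (congrArg Subtype.val h0)
  refine ⟨Units.mk0 ⟨y ^ p, hypF⟩ hyp0, ?_, fun s hs => ?_⟩
  · exact h33_mem_kumV_of_root S p F hF ⟨hN, hNgal⟩ _ hyN rfl
  · exact (h33_kumSymb_eq_of hζ' (hfixζ s hs) (pow_ne_zero p hy0) rfl (hy s hs)).symm

/-- **Left kernel** of the Kummer pairing `Gal(Qbar/F) × V_S → ZMod p`: the absolute Galois
group of the Kummer level. -/
theorem h33_kumSymb_left_ker {ζ : ↥F} (hζ : IsPrimitiveRoot ζ p) {s : GQ}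
    (hs : s ∈ F.fixingSubgroup) :
    (∀ a ∈ h33_kumV S p F, h33_kumSymb p (ζ : Qb) s (((a : (↥F)ˣ) : ↥F) : Qb) = 0) ↔
      s ∈ (h33_kumL S p F).fixingSubgroup := by
  have hp : 0 < p := (Fact.out : p.Prime).pos
  have hζ' : IsPrimitiveRoot (ζ : Qb) p :=
    hζ.map_of_injective (f := F.val) Subtype.val_injective
  have hfix : ∀ x : ↥F, s (x : Qb) = x := fun x =>
    (IntermediateField.mem_fixingSubgroup_iff F s).mp hs _ x.2
  have hne : ∀ a : (↥F)ˣ, (((a : (↥F)ˣ) : ↥F) : Qb) ≠ 0 := fun a h0 =>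
    a.ne_zero (Subtype.ext h0)
  constructor
  · intro h
    rw [h85_mem_fixingSubgroup_iff]
    refine h33_kummerLevel_le ((h85_mem_fixingSubgroup_iff F s).mp hs) (fun a ha α hα => ?_)
    rw [h85_mem_fix]
    exact (h33_kumSymb_eq_zero_iff hζ' (hfix ζ) (hne a) (hfix _) hα).1 (h a ha)
  · intro h a ha
    obtain ⟨α, hα⟩ := IsAlgClosed.exists_pow_nat_eq ((((a : (↥F)ˣ) : ↥F) : Qb)) hp
    refine (h33_kumSymb_eq_zero_iff hζ' (hfix ζ) (hne a) (hfix _) hα).2 ?_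
    exact (IntermediateField.mem_fixingSubgroup_iff _ s).mp h α (h33_root_mem_kumL S p F ha hα)

/-- **Right kernel** of the Kummer pairing: the `p`-th powers. -/
theorem h33_kumSymb_right_ker {ζ : ↥F} (hζ : IsPrimitiveRoot ζ p) (a : (↥F)ˣ) :
    (∀ s ∈ F.fixingSubgroup, h33_kumSymb p (ζ : Qb) s (((a : (↥F)ˣ) : ↥F) : Qb) = 0) ↔
      a ∈ (powMonoidHom p : (↥F)ˣ →* (↥F)ˣ).range := by
  have hp : 0 < p := (Fact.out : p.Prime).pos
  have hgalQ : IsGalois ℚ Qb := Fermat.Agent.S13.h24_isGalois_Qbar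
  have hζ' : IsPrimitiveRoot (ζ : Qb) p :=
    hζ.map_of_injective (f := F.val) Subtype.val_injective
  have hne : ∀ a : (↥F)ˣ, (((a : (↥F)ˣ) : ↥F) : Qb) ≠ 0 := fun a h0 =>
    a.ne_zero (Subtype.ext h0)
  constructor
  · intro h
    obtain ⟨α, hα⟩ := IsAlgClosed.exists_pow_nat_eq ((((a : (↥F)ˣ) : ↥F) : Qb)) hp
    have hαF : α ∈ F := by
      rw [← InfiniteGalois.fixedField_fixingSubgroup F, IntermediateField.mem_fixedField_iff]
      intro s hs
      have hfix : ∀ x : ↥F, s (x : Qb) = x := fun x =>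
        (IntermediateField.mem_fixingSubgroup_iff F s).mp hs _ x.2
      exact (h33_kumSymb_eq_zero_iff hζ' (hfix ζ) (hne a) (hfix _) hα).1 (h s hs)
    have hα0 : (⟨α, hαF⟩ : ↥F) ≠ 0 := by
      intro h0
      have h1 : α = 0 := congrArg Subtype.val h0
      rw [h1, zero_pow hp.ne'] at hα
      exact hne a hα.symm
    refine ⟨Units.mk0 ⟨α, hαF⟩ hα0, ?_⟩
    apply Units.ext
    apply Subtype.ext
    rw [powMonoidHom_apply, Units.val_pow_eq_pow_val, Units.val_mk0, IntermediateField.coe_pow]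
    exact hα
  · rintro ⟨c, rfl⟩ s hs
    have hfix : ∀ x : ↥F, s (x : Qb) = x := fun x =>
      (IntermediateField.mem_fixingSubgroup_iff F s).mp hs _ x.2
    have h1 : ((((c ^ p : (↥F)ˣ) : (↥F)ˣ) : ↥F) : Qb) = (((c : (↥F)ˣ) : ↥F) : Qb) ^ p := by
      rw [Units.val_pow_eq_pow_val, IntermediateField.coe_pow]
    rw [powMonoidHom_apply, h1]
    exact h33_kumSymb_pow hζ' (hfix ζ) (hne c) (hfix _)

/-- **Universality of the Kummer level**: every map on `Gal(Qbar/F)` with values in an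
`𝔽_p`-vector space which is additive and of level `S` vanishes on `Gal(Qbar/F(V_S^{1/p}))`. -/
theorem h33_kum_universal (hF : h25_IsLevel S F) {ζ : ↥F} (hζ : IsPrimitiveRoot ζ p)
    {X : Type*} [AddCommGroup X] [Module (ZMod p) X] (φ : GQ → X)
    (hadd : ∀ s ∈ F.fixingSubgroup, ∀ t ∈ F.fixingSubgroup, φ (s * t) = φ s + φ t)
    (hlev : ∃ F₁ : IntermediateField ℚ Qb, F₁.IsUnramifiedOutside S ∧
      ∀ s ∈ F.fixingSubgroup, s ∈ F₁.fixingSubgroup → φ s = 0) :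
    ∀ s ∈ (h33_kumL S p F).fixingSubgroup, φ s = 0 := by
  intro s hs
  have hsF : s ∈ F.fixingSubgroup := h33_fixing_kumL_le S p F hs
  by_contra hne
  obtain ⟨l, hl⟩ : ∃ l : Module.Dual (ZMod p) X, l (φ s) ≠ 0 := by
    by_contra hcon
    push Not at hcon
    exact hne ((Module.forall_dual_apply_eq_zero_iff (ZMod p) _).mp hcon)
  obtain ⟨F₁, hF₁, hker⟩ := hlev
  obtain ⟨a, ha, hla⟩ := h33_kum_exists S p F hF hζ (fun g => l (φ g))
    (fun s₁ hs₁ t₁ ht₁ => by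
      show l (φ (s₁ * t₁)) = _
      rw [hadd s₁ hs₁ t₁ ht₁, map_add])
    ⟨F₁, hF₁, fun t ht ht₁ => by
      show l (φ t) = 0
      rw [hker t ht ht₁, map_zero]⟩
  apply hl
  have h1 := hla s hsF
  rw [(h33_kumSymb_left_ker S p F hζ hsF).2 hs a ha] at h1
  exact h1

/-- `IsLevelConstantS₁` form of the universality. -/
theorem h33_kum_universal' (hF : h25_IsLevel S F) {ζ : ↥F} (hζ : IsPrimitiveRoot ζ p)
    {X : Type*} [AddCommGroup X] [Module (ZMod p) X] (φ : GQ → X)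
    (hadd : ∀ s ∈ F.fixingSubgroup, ∀ t ∈ F.fixingSubgroup, φ (s * t) = φ s + φ t)
    (hlev : IsLevelConstantS₁ S φ) (g s : GQ) (hg : g ∈ F.fixingSubgroup)
    (hs : s ∈ (h33_kumL S p F).fixingSubgroup) : φ (g * s) = φ g := by
  have hsF : s ∈ F.fixingSubgroup := h33_fixing_kumL_le S p F hs
  obtain ⟨F₁, hF₁, hconst⟩ := hlev
  have h1F : (1 : GQ) ∈ F.fixingSubgroup := one_mem _
  have h0 : φ 1 = 0 := by
    have := hadd 1 h1F 1 h1F
    rw [one_mul] at this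
    exact left_eq_add.mp this
  rw [hadd g hg s hsF, h33_kum_universal S p F hF hζ φ hadd
    ⟨F₁, hF₁, fun t _ ht₁ => by rw [← one_mul t, hconst 1 t ht₁, h0]⟩ s hs, add_zero]

end Level

/-! ### `S`-units: `V_S = E_S · (Fˣ)^p` and the pairing on `E_S` -/

section Units

variable (S : Finset Nat.Primes) (p : ℕ) [Fact p.Prime] (F : IntermediateField ℚ Qb)
  [NumberField ↥F]

theorem h33_coe_T_eq :
    ((h59_T ↥F S : Finset _) : Set (HeightOneSpectrum (𝓞 ↥F))) = h46_primesOver S F := by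
  ext v
  rw [Finset.mem_coe, h59_mem_T]
  rfl

/-- The kernel of the prime-to-`S` divisor map is the group of `S`-units. -/
theorem h33_dI_ker : (h33_dI ↥F S).ker = (h46_primesOver S F).unit ↥F := by
  rw [← h33_coe_T_eq]
  exact h59_d2_ker ↥F S

theorem h33_units_le_kumV : (h46_primesOver S F).unit ↥F ≤ h33_kumV S p F := by
  rw [← h33_dI_ker]
  intro a ha
  rw [h33_mem_V]
  exact ⟨1, by rw [one_pow, MonoidHom.mem_ker.mp ha]⟩

/-- `V_S` is the preimage of Mathlib's Selmer group `F(S, p)`. -/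
theorem h33_mem_kumV_iff_selmer (x : (↥F)ˣ) :
    x ∈ h33_kumV S p F ↔
      (QuotientGroup.mk x : (↥F)ˣ ⧸ (powMonoidHom p : (↥F)ˣ →* (↥F)ˣ).range) ∈
        selmerGroup (R := 𝓞 ↥F) (K := ↥F) (S := h46_primesOver S F) (n := p) := by
  rw [h33_mem_kumV_iff]
  constructor
  · intro h v hv
    rw [h46_valuationOfNeZeroMod_eq_one_iff]
    exact h ⟨v, hv⟩
  · intro h v
    rw [← h46_valuationOfNeZeroMod_eq_one_iff]
    exact h v.1 v.2

/-- `V_S = E_S · (Fˣ)^p` when the `S`-units surject onto the Selmer group (`C6a`). -/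
theorem h33_kumV_decomp
    (hCK : ∀ c : (↥F)ˣ ⧸ (powMonoidHom p : (↥F)ˣ →* (↥F)ˣ).range,
      c ∈ selmerGroup (R := 𝓞 ↥F) (K := ↥F) (S := h46_primesOver S F) (n := p) →
        ∃ u ∈ (h46_primesOver S F).unit ↥F, (QuotientGroup.mk u : (↥F)ˣ ⧸ _) = c)
    {x : (↥F)ˣ} (hx : x ∈ h33_kumV S p F) :
    ∃ u ∈ (h46_primesOver S F).unit ↥F, ∃ y : (↥F)ˣ, x = u * y ^ p := by
  obtain ⟨u, hu, hux⟩ := hCK _ ((h33_mem_kumV_iff_selmer S p F x).mp hx)
  obtain ⟨y, hy⟩ := QuotientGroup.eq.mp hux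
  refine ⟨u, hu, y, ?_⟩
  rw [powMonoidHom_apply] at hy
  rw [hy, mul_inv_cancel_left]

/-- an element of `Fˣ` whose `p`-th power is an `S`-unit is an `S`-unit. -/
theorem h33_unit_of_pow_mem {c : (↥F)ˣ} (hc : c ^ p ∈ (h46_primesOver S F).unit ↥F) :
    c ∈ (h46_primesOver S F).unit ↥F := by
  have hp : p ≠ 0 := (Fact.out : p.Prime).ne_zero
  intro v hv
  have h1 : v.valuation ↥F (((c ^ p : (↥F)ˣ) : (↥F)ˣ) : ↥F) = 1 := hc v hv
  rw [Units.val_pow_eq_pow_val, map_pow] at h1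
  rcases pow_eq_one_iff.mp h1 with h | h
  · exact h
  · exact absurd h hp

/-- **Right kernel on the `S`-units**: the `p`-th powers of `S`-units. -/
theorem h33_kumSymb_right_ker_units {ζ : ↥F} (hζ : IsPrimitiveRoot ζ p) {u : (↥F)ˣ}
    (hu : u ∈ (h46_primesOver S F).unit ↥F) :
    (∀ s ∈ F.fixingSubgroup, h33_kumSymb p (ζ : Qb) s (((u : (↥F)ˣ) : ↥F) : Qb) = 0) ↔
      ∃ w ∈ (h46_primesOver S F).unit ↥F, w ^ p = u := by
  rw [h33_kumSymb_right_ker p F hζ u]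
  constructor
  · rintro ⟨c, hc⟩
    rw [powMonoidHom_apply] at hc
    exact ⟨c, h33_unit_of_pow_mem S p F (by rw [hc]; exact hu), hc⟩
  · rintro ⟨w, -, hw⟩
    exact ⟨w, hw⟩

/-- **Left kernel on the `S`-units** (when `V_S = E_S · (Fˣ)^p`): the absolute Galois group of
the Kummer level. -/
theorem h33_kumSymb_left_ker_units {ζ : ↥F} (hζ : IsPrimitiveRoot ζ p)
    (hCK : ∀ c : (↥F)ˣ ⧸ (powMonoidHom p : (↥F)ˣ →* (↥F)ˣ).range,
      c ∈ selmerGroup (R := 𝓞 ↥F) (K := ↥F) (S := h46_primesOver S F) (n := p) →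
        ∃ u ∈ (h46_primesOver S F).unit ↥F, (QuotientGroup.mk u : (↥F)ˣ ⧸ _) = c)
    {s : GQ} (hs : s ∈ F.fixingSubgroup) :
    (∀ u ∈ (h46_primesOver S F).unit ↥F,
        h33_kumSymb p (ζ : Qb) s (((u : (↥F)ˣ) : ↥F) : Qb) = 0) ↔
      s ∈ (h33_kumL S p F).fixingSubgroup := by
  have hζ' : IsPrimitiveRoot (ζ : Qb) p :=
    hζ.map_of_injective (f := F.val) Subtype.val_injective
  have hfix : ∀ x : ↥F, s (x : Qb) = x := fun x =>
    (IntermediateField.mem_fixingSubgroup_iff F s).mp hs _ x.2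
  have hne : ∀ a : (↥F)ˣ, (((a : (↥F)ˣ) : ↥F) : Qb) ≠ 0 := fun a h0 =>
    a.ne_zero (Subtype.ext h0)
  rw [← h33_kumSymb_left_ker S p F hζ hs]
  constructor
  · intro h a ha
    obtain ⟨u, hu, y, rfl⟩ := h33_kumV_decomp S p F hCK ha
    have h1 : ((((u * y ^ p : (↥F)ˣ) : (↥F)ˣ) : ↥F) : Qb) =
        (((u : (↥F)ˣ) : ↥F) : Qb) * (((y : (↥F)ˣ) : ↥F) : Qb) ^ p := by
      rw [Units.val_mul, Units.val_pow_eq_pow_val, IntermediateField.coe_mul,
        IntermediateField.coe_pow]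
    rw [h1, h33_kumSymb_mul_right hζ' (hfix ζ) (hne u) (pow_ne_zero p (hne y)) (hfix _)
      (by rw [map_pow, hfix]), h u hu, h33_kumSymb_pow hζ' (hfix ζ) (hne y) (hfix _), add_zero]
  · intro h u hu
    exact h u (h33_units_le_kumV S p F hu)

/-- **Every additive character of level `S` on `Gal(Qbar/F)` is the Kummer character of an
`S`-unit** (when `V_S = E_S · (Fˣ)^p`). -/
theorem h33_kum_exists_units (hF : h25_IsLevel S F) {ζ : ↥F} (hζ : IsPrimitiveRoot ζ p)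
    (hCK : ∀ c : (↥F)ˣ ⧸ (powMonoidHom p : (↥F)ˣ →* (↥F)ˣ).range,
      c ∈ selmerGroup (R := 𝓞 ↥F) (K := ↥F) (S := h46_primesOver S F) (n := p) →
        ∃ u ∈ (h46_primesOver S F).unit ↥F, (QuotientGroup.mk u : (↥F)ˣ ⧸ _) = c)
    (lam : GQ → ZMod p)
    (hadd : ∀ s ∈ F.fixingSubgroup, ∀ t ∈ F.fixingSubgroup, lam (s * t) = lam s + lam t)
    (hlev : ∃ F₁ : IntermediateField ℚ Qb, F₁.IsUnramifiedOutside S ∧
      ∀ s ∈ F.fixingSubgroup, s ∈ F₁.fixingSubgroup → lam s = 0) :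
    ∃ u ∈ (h46_primesOver S F).unit ↥F, ∀ s ∈ F.fixingSubgroup,
      lam s = h33_kumSymb p (ζ : Qb) s (((u : (↥F)ˣ) : ↥F) : Qb) := by
  have hζ' : IsPrimitiveRoot (ζ : Qb) p :=
    hζ.map_of_injective (f := F.val) Subtype.val_injective
  have hne : ∀ a : (↥F)ˣ, (((a : (↥F)ˣ) : ↥F) : Qb) ≠ 0 := fun a h0 =>
    a.ne_zero (Subtype.ext h0)
  obtain ⟨a, ha, hla⟩ := h33_kum_exists S p F hF hζ lam hadd hlev
  obtain ⟨u, hu, y, rfl⟩ := h33_kumV_decomp S p F hCK ha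
  refine ⟨u, hu, fun s hs => ?_⟩
  have hfix : ∀ x : ↥F, s (x : Qb) = x := fun x =>
    (IntermediateField.mem_fixingSubgroup_iff F s).mp hs _ x.2
  have h1 : ((((u * y ^ p : (↥F)ˣ) : (↥F)ˣ) : ↥F) : Qb) =
      (((u : (↥F)ˣ) : ↥F) : Qb) * (((y : (↥F)ˣ) : ↥F) : Qb) ^ p := by
    rw [Units.val_mul, Units.val_pow_eq_pow_val, IntermediateField.coe_mul,
      IntermediateField.coe_pow]
  rw [hla s hs, h1, h33_kumSymb_mul_right hζ' (hfix ζ) (hne u) (pow_ne_zero p (hne y)) (hfix _)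
    (by rw [map_pow, hfix]), h33_kumSymb_pow hζ' (hfix ζ) (hne y) (hfix _), add_zero]

end Units

/-! ### Galois action on `F` -/

section Action

variable (S : Finset Nat.Primes) (p : ℕ) [Fact p.Prime] (F : IntermediateField ℚ Qb)
  [NumberField ↥F] [Normal ℚ F]

/-- `V_S` is stable under `Gal(Qbar/ℚ)` (acting through its restriction to `F`). -/
theorem h33_kumV_map (g : GQ) {a : (↥F)ˣ} (ha : a ∈ h33_kumV S p F) :
    Units.map ((h97_π F g : ↥F ≃ₐ[ℚ] ↥F) : ↥F →* ↥F) a ∈ h33_kumV S p F := by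
  obtain ⟨b, hb, hab⟩ := h33_V_stable S p F g a ha
  have : Units.map ((h97_π F g : ↥F ≃ₐ[ℚ] ↥F) : ↥F →* ↥F) a = b := by
    apply Units.ext
    apply Subtype.ext
    rw [← hab]
    exact h97_π_apply F g (a : ↥F)
  rw [this]
  exact hb

/-- **Galois equivariance of the Kummer pairing**, level form:
`κ (g s g⁻¹) (g • a) = χ_p(g) * κ s a`. -/
theorem h33_kumSymb_conj_level {ζ : ↥F} (hζ : IsPrimitiveRoot ζ p) (g : GQ) {s : GQ}
    (hs : s ∈ F.fixingSubgroup) (a : (↥F)ˣ) :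
    h33_kumSymb p (ζ : Qb) (g * s * g⁻¹)
        ((((Units.map ((h97_π F g : ↥F ≃ₐ[ℚ] ↥F) : ↥F →* ↥F) a : (↥F)ˣ) : ↥F)) : Qb) =
      ((cycloChar p g : (ZMod p)ˣ) : ZMod p) *
        h33_kumSymb p (ζ : Qb) s (((a : (↥F)ˣ) : ↥F) : Qb) := by
  have hζ' : IsPrimitiveRoot (ζ : Qb) p :=
    hζ.map_of_injective (f := F.val) Subtype.val_injective
  have hfix : ∀ x : ↥F, s (x : Qb) = x := fun x =>
    (IntermediateField.mem_fixingSubgroup_iff F s).mp hs _ x.2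
  have hne : (((a : (↥F)ˣ) : ↥F) : Qb) ≠ 0 := fun h0 => a.ne_zero (Subtype.ext h0)
  have h1 : ((((Units.map ((h97_π F g : ↥F ≃ₐ[ℚ] ↥F) : ↥F →* ↥F) a : (↥F)ˣ) : ↥F)) : Qb) =
      g (((a : (↥F)ˣ) : ↥F) : Qb) := h97_π_apply F g (a : ↥F)
  rw [h1]
  exact h33_kumSymb_conj_cyclo hζ' g (hfix ζ) hne (hfix _)

/-- the conjugate of an element of `Gal(Qbar/F)` lies in `Gal(Qbar/F)`. -/
theorem h33_conj_mem_fixing (g : GQ) {s : GQ} (hs : s ∈ F.fixingSubgroup) :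
    g * s * g⁻¹ ∈ F.fixingSubgroup := by
  rw [← h97_π_ker F] at hs ⊢
  rw [MonoidHom.mem_ker] at hs ⊢
  rw [map_mul, map_mul, hs, mul_one, map_inv, mul_inv_cancel]

end Action

end Fermat.Agent.S56
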