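import Fermat.Agent.S55.h95_AsmFinal
import Fermat.Agent.S55.h46_FinH1

/-!
# S56, front W1: the `d²`-formula

For a finite `𝔽_p[G_S]`-module `M` with twisted dual `M' = M^∨(1)` and the S55 ambient system
`h72_PTAmbient` (`CC` = the `p`-localised `S`-idele class module):

`dim Hom_G(M, CC) + h⁰(G_ℚ, M') = dim Sha¹_S(M') + ∑_{q ∈ S} h⁰(G_q, M')`.

(With the duality `dim H²_S(M) = dim Hom_G(M, CC)` this is the formula for `h²(G_S, M)`.)

Proof: `h95_S1` gives `δ : Hom_G(M, CC) → H¹(M')` with `range δ = sha₁`, `ker δ = I`, where `I`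
is the image of `Hom_G(M, JJ[p])`; the kernel of `Hom_G(M, JJ[p]) → Hom_G(M, CC)` is
`Hom_G(M, μ_p) = H⁰(G_ℚ, M')`, and `Hom_G(M, JJ[p]) = ∏_q H⁰(G_q, M')` (Frobenius reciprocity in
the exponent model `h95_JJp`).
-/

set_option autoImplicit false
set_option linter.unusedSectionVars false
set_option linter.unusedVariables false
set_option maxHeartbeats 400000
set_option synthInstance.maxHeartbeats 400000

open CategoryTheory Module groupCohomology ExtCitation

noncomputable section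

namespace Fermat.Agent.S56

open Fermat.Agent.S55

local notation "GQ" => (AlgebraicClosure ℚ ≃ₐ[ℚ] AlgebraicClosure ℚ)

section Inv

variable {p : ℕ} [Fact p.Prime]

/-- `H⁰(G_ℚ, N)`: the invariants, as a subspace. -/
def h95_inv (N : Rep.{0, 0, 0} (ZMod p) GQ) : Submodule (ZMod p) N where
  carrier := {n | ∀ g : GQ, N.ρ g n = n}
  add_mem' := fun {a b} ha hb g => by rw [map_add, ha g, hb g]
  zero_mem' := fun g => map_zero _
  smul_mem' := fun c a ha g => by rw [map_smul, ha g]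

/-- `H⁰(G_q, N)`: the invariants under the decomposition group at `q`, as a subspace. -/
def h95_invAt (q : Nat.Primes) (N : Rep.{0, 0, 0} (ZMod p) GQ) : Submodule (ZMod p) N where
  carrier := {n | ∀ τ : primeLocalGaloisGroup q, N.ρ (primeLocalToGlobal q τ) n = n}
  add_mem' := fun {a b} ha hb τ => by rw [map_add, ha τ, hb τ]
  zero_mem' := fun τ => map_zero _
  smul_mem' := fun c a ha τ => by rw [map_smul, ha τ]

theorem h95_mem_inv {N : Rep.{0, 0, 0} (ZMod p) GQ} {n : N} :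
    n ∈ h95_inv N ↔ ∀ g : GQ, N.ρ g n = n := Iff.rfl

theorem h95_mem_invAt {q : Nat.Primes} {N : Rep.{0, 0, 0} (ZMod p) GQ} {n : N} :
    n ∈ h95_invAt q N ↔ ∀ τ : primeLocalGaloisGroup q, N.ρ (primeLocalToGlobal q τ) n = n :=
  Iff.rfl

variable (M : Rep.{0, 0, 0} (ZMod p) GQ)

/-- an additive functional `φ` on `M` is fixed by `g` in the twisted dual iff
`φ (g m) = χ(g) φ m`. -/
theorem h95_ofDual_fixed_iff (φ : M →+ ZMod p) (g : GQ) :
    (M.dualTwist (cycloChar p)).ρ g (h95_ofDual M φ) = h95_ofDual M φ ↔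
      ∀ m : M, φ (M.ρ g m) = (cycloChar p g : ZMod p) * φ m := by
  constructor
  · intro h m
    have h1 : h95_dualHom M ((M.dualTwist (cycloChar p)).ρ g (h95_ofDual M φ)) (M.ρ g m) =
        h95_dualHom M (h95_ofDual M φ) (M.ρ g m) := by rw [h]
    rw [h95_dualHom_ρ, h95_dualHom_ofDual, ← Module.End.mul_apply, ← map_mul, inv_mul_cancel,
      map_one, Module.End.one_apply] at h1
    exact h1.symm
  · intro h
    apply h95_dualHom_injective M
    apply AddMonoidHom.ext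
    intro m
    rw [h95_dualHom_ρ, h95_dualHom_ofDual, ← h (M.ρ g⁻¹ m), ← Module.End.mul_apply, ← map_mul,
      mul_inv_cancel, map_one, Module.End.one_apply]

theorem h95_ofDual_dualHom (n : M.dualTwist (cycloChar p)) :
    h95_ofDual M (h95_dualHom M n) = n :=
  h95_dualHom_injective M (h95_dualHom_ofDual M _)

end Inv

/-! ### Frobenius reciprocity in the exponent model `h95_JJp` -/

section Frob

variable {p : ℕ} [Fact p.Prime] {S : Finset Nat.Primes} (M : Rep.{0, 0, 0} (ZMod p) GQ)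

/-- the `q`-component of an equivariant map `M → JJ[p]`, as an element of `H⁰(G_q, M')`. -/
def h95_toProd (f : h95_H M (h95_JJp p S)) :
    ∀ q : ↥S, ↥(h95_invAt q.1 (M.dualTwist (cycloChar p))) := fun q =>
  ⟨h95_ofDual M ((h95_JJp.e p S q).comp f.1), fun τ => by
    rw [h95_ofDual_fixed_iff]
    intro m
    show (f.1 (M.ρ (primeLocalToGlobal q.1 τ) m)).fam q 1 = _ * (f.1 m).fam q 1
    rw [f.2, h95_JJp.smul_fam, one_mul]
    have := (f.1 m).isFam.1 q τ 1
    rwa [mul_one] at this⟩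

theorem h95_toProd_apply (f : h95_H M (h95_JJp p S)) (q : ↥S) (m : M) :
    h95_dualHom M (h95_toProd M f q).1 m = (f.1 m).fam q 1 := rfl

theorem h95_fam_eq (f : h95_H M (h95_JJp p S)) (q : ↥S) (g : GQ) (m : M) :
    (f.1 m).fam q g = (f.1 (M.ρ g m)).fam q 1 := by
  rw [f.2, h95_JJp.smul_fam, one_mul]

theorem h95_toProd_injective : Function.Injective (h95_toProd (S := S) M) := by
  intro f f' h
  have h1 : ∀ (q : ↥S) (m : M), (f.1 m).fam q 1 = (f'.1 m).fam q 1 := fun q m => by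
    rw [← h95_toProd_apply, ← h95_toProd_apply, h]
  apply Subtype.ext
  apply AddMonoidHom.ext
  intro m
  apply h95_JJp.ext
  intro q g
  rw [h95_fam_eq M f, h95_fam_eq M f', h1]

theorem h95_toProd_surjective
    (F : IntermediateField ℚ (AlgebraicClosure ℚ)) (hF : F.IsUnramifiedOutside S)
    (hM : ∀ s ∈ F.fixingSubgroup, M.ρ s = 1) :
    Function.Surjective (h95_toProd (S := S) M) := by
  intro φ
  have hφ : ∀ (q : ↥S) (τ : primeLocalGaloisGroup q.1) (m : M),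
      h95_dualHom M (φ q).1 (M.ρ (primeLocalToGlobal q.1 τ) m) =
        (cycloChar p (primeLocalToGlobal q.1 τ) : ZMod p) * h95_dualHom M (φ q).1 m := by
    intro q τ
    rw [← h95_ofDual_fixed_iff, h95_ofDual_dualHom]
    exact (φ q).2 τ
  have hfam : ∀ m : M, h95_IsFam S (fun (q : ↥S) (g : GQ) => h95_dualHom M (φ q).1 (M.ρ g m)) := by
    intro m
    refine ⟨fun q τ g => ?_, F, hF, fun q g s hs => ?_⟩
    · show h95_dualHom M (φ q).1 (M.ρ (primeLocalToGlobal q.1 τ * g) m) = _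
      rw [map_mul, Module.End.mul_apply, hφ]
    · show h95_dualHom M (φ q).1 (M.ρ (g * s) m) = h95_dualHom M (φ q).1 (M.ρ g m)
      rw [map_mul, Module.End.mul_apply, hM s hs, Module.End.one_apply]
  let f₀ : M → h95_JJp p S := fun m =>
    (⟨fun (q : ↥S) (g : GQ) => h95_dualHom M (φ q).1 (M.ρ g m), hfam m⟩ : ↥(h95_JJpSub p S))
  have hf₀ : ∀ (m : M) (q : ↥S) (g : GQ), (f₀ m).fam q g = h95_dualHom M (φ q).1 (M.ρ g m) :=
    fun m q g => rfl
  let f : M →+ h95_JJp p S := AddMonoidHom.mk' f₀ (fun m m' => by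
    apply h95_JJp.ext
    intro q g
    rw [h95_JJp.add_fam, hf₀, hf₀, hf₀, map_add, map_add])
  have hf : f ∈ h95_H M (h95_JJp p S) := by
    intro g m
    apply h95_JJp.ext
    intro q g'
    show (f₀ (M.ρ g m)).fam q g' = (g • f₀ m).fam q g'
    rw [h95_JJp.smul_fam, hf₀, hf₀, map_mul, Module.End.mul_apply]
  refine ⟨⟨f, hf⟩, ?_⟩
  funext q
  apply Subtype.ext
  apply h95_dualHom_injective M
  apply AddMonoidHom.ext
  intro m
  rw [h95_toProd_apply]
  show (f₀ m).fam q 1 = _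
  rw [hf₀, map_one, Module.End.one_apply]

/-- **Frobenius reciprocity (counting form)**: `#Hom_G(M, JJ[p]) = ∏_q #H⁰(G_q, M')`. -/
theorem h95_card_HJ
    (F : IntermediateField ℚ (AlgebraicClosure ℚ)) (hF : F.IsUnramifiedOutside S)
    (hM : ∀ s ∈ F.fixingSubgroup, M.ρ s = 1) :
    Nat.card (h95_H M (h95_JJp p S)) =
      ∏ q : ↥S, Nat.card ↥(h95_invAt q.1 (M.dualTwist (cycloChar p))) := by
  rw [← Nat.card_pi]
  exact Nat.card_eq_of_bijective _ ⟨h95_toProd_injective M, h95_toProd_surjective M F hF hM⟩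

end Frob

/-! ### The kernel of `Hom_G(M, JJ[p]) → Hom_G(M, CC)` -/

section Ker

variable {p : ℕ} [Fact p.Prime] {S : Finset Nat.Primes} (M : Rep.{0, 0, 0} (ZMod p) GQ)
  {CC : Type} [AddCommGroup CC] [DistribMulAction GQ CC]

/-- post-composition with `j`: `Hom_G(M, JJ[p]) → Hom_G(M, CC)`. -/
def h95_post (j : h95_JJp p S →+ CC) (hj : ∀ (g : GQ) (x : h95_JJp p S), j (g • x) = g • j x) :
    h95_H M (h95_JJp p S) →+ h95_H M CC :=
  AddMonoidHom.mk' (fun f => ⟨j.comp f.1, fun g m => by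
    show j (f.1 (M.ρ g m)) = g • j (f.1 m)
    rw [f.2 g m, hj]⟩) (fun a b => by
      apply Subtype.ext
      apply AddMonoidHom.ext
      intro m
      show j ((a.1 + b.1) m) = j (a.1 m) + j (b.1 m)
      rw [AddMonoidHom.add_apply, map_add])

theorem h95_post_apply (j : h95_JJp p S →+ CC)
    (hj : ∀ (g : GQ) (x : h95_JJp p S), j (g • x) = g • j x) (f : h95_H M (h95_JJp p S)) (m : M) :
    (h95_post M j hj f).1 m = j (f.1 m) := rfl

theorem h95_mem_ker_post (j : h95_JJp p S →+ CC)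
    (hj : ∀ (g : GQ) (x : h95_JJp p S), j (g • x) = g • j x) (f : h95_H M (h95_JJp p S)) :
    f ∈ (h95_post M j hj).ker ↔ ∀ m : M, j (f.1 m) = 0 := by
  rw [AddMonoidHom.mem_ker]
  constructor
  · intro h m
    rw [← h95_post_apply M j hj f m, h]
    rfl
  · intro h
    apply Subtype.ext
    apply AddMonoidHom.ext
    intro m
    rw [h95_post_apply, h m]
    rfl

theorem h95_mem_range_post (j : h95_JJp p S →+ CC)
    (hj : ∀ (g : GQ) (x : h95_JJp p S), j (g • x) = g • j x) (f : h95_H M CC) :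
    f ∈ (h95_post M j hj).range ↔ f ∈ h95_I M j := by
  rw [h95_mem_I, AddMonoidHom.mem_range]
  constructor
  · rintro ⟨f', rfl⟩
    exact ⟨f'.1, f'.2, fun m => rfl⟩
  · rintro ⟨f', hf', h⟩
    refine ⟨⟨f', hf'⟩, ?_⟩
    apply Subtype.ext
    apply AddMonoidHom.ext
    intro m
    rw [h95_post_apply, h m]

/-- the kernel of `Hom_G(M, JJ[p]) → Hom_G(M, CC)` is `Hom_G(M, μ_p) = H⁰(G_ℚ, M')`
(counting form). -/
theorem h95_card_ker_post (hpS : pPrime p ∈ S)
    (F : IntermediateField ℚ (AlgebraicClosure ℚ)) (hF : F.IsUnramifiedOutside S)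
    (hχ : ∀ s ∈ F.fixingSubgroup, cycloChar p s = 1)
    (j : h95_JJp p S →+ CC) (hj : ∀ (g : GQ) (x : h95_JJp p S), j (g • x) = g • j x)
    (hK1 : ∀ x : h95_JJp p S, j x = 0 ↔
      ∃ k : ZMod p, ∀ (q : ↥S) (g : GQ), x.fam q g = (cycloChar p g : ZMod p) * k) :
    Nat.card ↥(h95_post M j hj).ker = Nat.card ↥(h95_inv (M.dualTwist (cycloChar p))) := by
  classical
  let q₀ : ↥S := ⟨pPrime p, hpS⟩
  have hχone : (cycloChar p (1 : GQ) : ZMod p) = 1 := by rw [map_one, Units.val_one]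
  -- elements of the kernel are "constant"
  have hconst : ∀ (f : ↥(h95_post M j hj).ker) (m : M) (q : ↥S) (g : GQ),
      (f.1.1 m).fam q g = (cycloChar p g : ZMod p) * (f.1.1 m).fam q₀ 1 := by
    intro f m q g
    obtain ⟨k, hk⟩ := (hK1 (f.1.1 m)).1 ((h95_mem_ker_post M j hj f.1).1 f.2 m)
    rw [hk q g, hk q₀ 1, hχone, one_mul]
  let A : ↥(h95_post M j hj).ker → ↥(h95_inv (M.dualTwist (cycloChar p))) := fun f =>
    ⟨h95_ofDual M ((h95_JJp.e p S q₀).comp f.1.1), fun g => by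
      rw [h95_ofDual_fixed_iff]
      intro m
      show (f.1.1 (M.ρ g m)).fam q₀ 1 = _ * (f.1.1 m).fam q₀ 1
      rw [f.1.2 g m, h95_JJp.smul_fam, one_mul, hconst f m q₀ g]⟩
  have hA : ∀ (f : ↥(h95_post M j hj).ker) (m : M),
      h95_dualHom M (A f).1 m = (f.1.1 m).fam q₀ 1 := fun f m => rfl
  refine Nat.card_eq_of_bijective A ⟨?_, ?_⟩
  · intro f f' h
    apply Subtype.ext
    apply Subtype.ext
    apply AddMonoidHom.ext
    intro m
    apply h95_JJp.ext
    intro q g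
    rw [hconst f m q g, hconst f' m q g, ← hA f m, ← hA f' m, h]
  · intro n
    have hn : ∀ (g : GQ) (m : M), h95_dualHom M n.1 (M.ρ g m) =
        (cycloChar p g : ZMod p) * h95_dualHom M n.1 m := by
      intro g
      rw [← h95_ofDual_fixed_iff, h95_ofDual_dualHom]
      exact n.2 g
    have hfam : ∀ m : M, h95_IsFam S
        (fun (_ : ↥S) (g : GQ) => (cycloChar p g : ZMod p) * h95_dualHom M n.1 m) := by
      intro m
      refine ⟨fun q τ g => ?_, F, hF, fun q g s hs => ?_⟩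
      · show (cycloChar p (primeLocalToGlobal q.1 τ * g) : ZMod p) * _ = _
        rw [map_mul, Units.val_mul, mul_assoc]
      · show (cycloChar p (g * s) : ZMod p) * _ = (cycloChar p g : ZMod p) * _
        rw [map_mul, hχ s hs, mul_one]
    let f₀ : M → h95_JJp p S := fun m =>
      (⟨fun (_ : ↥S) (g : GQ) => (cycloChar p g : ZMod p) * h95_dualHom M n.1 m, hfam m⟩ :
        ↥(h95_JJpSub p S))
    have hf₀ : ∀ (m : M) (q : ↥S) (g : GQ),
        (f₀ m).fam q g = (cycloChar p g : ZMod p) * h95_dualHom M n.1 m := fun m q g => rfl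
    let f : M →+ h95_JJp p S := AddMonoidHom.mk' f₀ (fun m m' => by
      apply h95_JJp.ext
      intro q g
      rw [h95_JJp.add_fam, hf₀, hf₀, hf₀, map_add, mul_add])
    have hf : f ∈ h95_H M (h95_JJp p S) := by
      intro g m
      apply h95_JJp.ext
      intro q g'
      show (f₀ (M.ρ g m)).fam q g' = (g • f₀ m).fam q g'
      rw [h95_JJp.smul_fam, hf₀, hf₀, hn, map_mul, Units.val_mul, mul_assoc]
    have hker : (⟨f, hf⟩ : h95_H M (h95_JJp p S)) ∈ (h95_post M j hj).ker := by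
      rw [h95_mem_ker_post]
      intro m
      exact (hK1 (f₀ m)).2 ⟨h95_dualHom M n.1 m, fun q g => hf₀ m q g⟩
    refine ⟨⟨⟨f, hf⟩, hker⟩, ?_⟩
    apply Subtype.ext
    apply h95_dualHom_injective M
    apply AddMonoidHom.ext
    intro m
    rw [hA]
    show (f₀ m).fam q₀ 1 = _
    rw [hf₀, hχone, one_mul]

/-- **The `d²`-formula, core counting form**: from the connecting map `δ` of `h95_S1`. -/
theorem h95_d2_card_core (hpS : pPrime p ∈ S)
    (F : IntermediateField ℚ (AlgebraicClosure ℚ)) (hF : F.IsUnramifiedOutside S)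
    (hM : ∀ s ∈ F.fixingSubgroup, M.ρ s = 1)
    (hχ : ∀ s ∈ F.fixingSubgroup, cycloChar p s = 1)
    (j : h95_JJp p S →+ CC) (hj : ∀ (g : GQ) (x : h95_JJp p S), j (g • x) = g • j x)
    (hK1 : ∀ x : h95_JJp p S, j x = 0 ↔
      ∃ k : ZMod p, ∀ (q : ↥S) (g : GQ), x.fam q g = (cycloChar p g : ZMod p) * k)
    (δ : h95_H M CC →ₗ[ZMod p] H1 (M.dualTwist (cycloChar p)))
    (hδr : LinearMap.range δ = sha₁ S (M.dualTwist (cycloChar p)))
    (hδk : LinearMap.ker δ = h95_I M j) :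
    Nat.card (h95_H M CC) * Nat.card ↥(h95_inv (M.dualTwist (cycloChar p))) =
      Nat.card ↥(sha₁ S (M.dualTwist (cycloChar p))) *
        ∏ q : ↥S, Nat.card ↥(h95_invAt q.1 (M.dualTwist (cycloChar p))) := by
  classical
  have h1 : Nat.card (h95_H M CC) =
      Nat.card ↥(sha₁ S (M.dualTwist (cycloChar p))) * Nat.card ↥(h95_I M j) := by
    rw [← hδr, ← hδk, Submodule.card_eq_card_quotient_mul_card (LinearMap.ker δ), mul_comm]
    congr 1
    exact Nat.card_congr δ.quotKerEquivRange.toEquiv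
  have h2 : Nat.card (h95_H M (h95_JJp p S)) =
      Nat.card ↥(h95_I M j) * Nat.card ↥(h95_inv (M.dualTwist (cycloChar p))) := by
    rw [AddSubgroup.card_eq_card_quotient_mul_card_addSubgroup (h95_post M j hj).ker,
      h95_card_ker_post M hpS F hF hχ j hj hK1]
    congr 1
    rw [Nat.card_congr (QuotientAddGroup.quotientKerEquivRange (h95_post M j hj)).toEquiv]
    exact Nat.card_congr (Equiv.subtypeEquivRight (h95_mem_range_post M j hj))
  rw [h1, mul_assoc, ← h2, h95_card_HJ M F hF hM]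

end Ker

/-! ### The formula for the ambient system -/

section Amb

variable {p : ℕ} [Fact p.Prime] {S : Finset Nat.Primes}
  {CC : Type} [AddCommGroup CC] [DistribMulAction GQ CC]
  {JJ : ↥S → Type} [∀ q, AddCommGroup (JJ q)] [∀ q, DistribMulAction GQ (JJ q)]
  {XX : ↥S → Type} [∀ q, AddCommGroup (XX q)]
  [∀ q : ↥S, DistribMulAction (primeLocalGaloisGroup q.1) (XX q)]
  {κ : ∀ q, JJ q →+ CC} {ev : ∀ q, JJ q →+ XX q} {zz : ∀ q, XX q}

/-- (K1) for `j = ∑_q κ q ∘ Θ_q`: the kernel is the diagonal `μ_p`. -/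
theorem h95_jΘ_K1 (hA : h72_PTAmbient p S CC JJ XX κ ev zz)
    (F : IntermediateField ℚ (AlgebraicClosure ℚ)) (hF : F.IsUnramifiedOutside S)
    (hχ : ∀ s ∈ F.fixingSubgroup, cycloChar p s = 1) (x : h95_JJp p S) :
    h95_jΘ hA x = 0 ↔
      ∃ k : ZMod p, ∀ (q : ↥S) (g : GQ), x.fam q g = (cycloChar p g : ZMod p) * k := by
  have hfam0 : h95_IsFam S (fun (_ : ↥S) (g : GQ) => (cycloChar p g : ZMod p)) := by
    refine ⟨fun q τ g => ?_, F, hF, fun q g s hs => ?_⟩
    · show (cycloChar p (primeLocalToGlobal q.1 τ * g) : ZMod p) = _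
      rw [map_mul, Units.val_mul]
    · show (cycloChar p (g * s) : ZMod p) = (cycloChar p g : ZMod p)
      rw [map_mul, hχ s hs, mul_one]
  let x0 : h95_JJp p S :=
    (⟨fun (_ : ↥S) (g : GQ) => (cycloChar p g : ZMod p), hfam0⟩ : ↥(h95_JJpSub p S))
  have hx0 : ∀ (q : ↥S) (g : GQ), x0.fam q g = (cycloChar p g : ZMod p) := fun q g => rfl
  have hj0 : h95_jΘ hA x0 = 0 := by
    rw [h95_jΘ_apply]
    exact hA.kum_diag (fun q => h95_Θ hA q x0) (fun q g => by rw [h95_Θ_spec, h95_zm_apply, hx0])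
  constructor
  · intro h
    obtain ⟨k, hk⟩ := hA.kum_ker (fun q => h95_Θ hA q x) (fun q => h95_Θ_tors hA q x)
      (by rw [← h95_jΘ_apply]; exact h)
    refine ⟨(k : ZMod p), fun q g => ?_⟩
    apply h95_zm_injective (zz q) (hA.zz_tors q) (hA.zz_ne q)
    rw [← h95_Θ_spec hA q x g, hk q g, ← h95_zm_natCast (zz q) (hA.zz_tors q)]
    congr 1
    rw [Nat.cast_mul, ZMod.natCast_val, ZMod.cast_id, mul_comm]
  · rintro ⟨k, hk⟩
    have hx : x = k.val • x0 := by
      apply h95_JJp.ext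
      intro q g
      rw [h95_JJp.nsmul_fam, hk, hx0, nsmul_eq_mul, ZMod.natCast_val, ZMod.cast_id, mul_comm]
    rw [hx, map_nsmul, hj0, smul_zero]

/-- (K2) for `j = ∑_q κ q ∘ Θ_q`: onto the `p`-torsion of `CC`. -/
theorem h95_jΘ_K2 (hA : h72_PTAmbient p S CC JJ XX κ ev zz) (c : CC) (hc : p • c = 0) :
    ∃ x : h95_JJp p S, h95_jΘ hA x = c := by
  obtain ⟨y, hy, hyc⟩ := hA.kum_cap c hc
  obtain ⟨ψ, hψ⟩ := h95_Θ_surj hA y hy
  refine ⟨ψ, ?_⟩
  rw [h95_jΘ_apply, ← hyc]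
  exact Finset.sum_congr rfl fun q _ => by rw [hψ q]

/-- `Hom_G(M, CC)` is finite (for a module trivial on a level). -/
theorem h95_H_finite_of_ambient (M : Rep.{0, 0, 0} (ZMod p) GQ) [FiniteDimensional (ZMod p) M]
    (hA : h72_PTAmbient p S CC JJ XX κ ev zz)
    (L₀ : h56_Level S) (hL₀M : ∀ s ∈ L₀.U, ∀ m : M, M.ρ s m = m) : Finite (h95_H M CC) := by
  have : Finite M := Module.finite_of_finite (ZMod p)
  have hfin := hA.cc_fin ⟨L₀.1, L₀.2.1, L₀.2.2⟩
  refine h95_H_finite S M L₀ hL₀M ?_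
  refine Set.finite_coe_iff.1 (Finite.of_injective
    (fun c : ↥{c : CC | p • c = 0 ∧ ∀ s ∈ L₀.U, s • c = c} =>
      (⟨c.1, c.2.2, c.2.1⟩ : {c : CC // (∀ s ∈ (h72_Lev.U ⟨L₀.1, L₀.2.1, L₀.2.2⟩), s • c = c) ∧
        p • c = 0})) (fun a b h => Subtype.ext (by
      have h1 := congrArg (fun z : {c : CC // (∀ s ∈ (h72_Lev.U ⟨L₀.1, L₀.2.1, L₀.2.2⟩),
        s • c = c) ∧ p • c = 0} => (z : CC)) h
      exact h1)))

/-- **The `d²`-formula, counting form**:
`#Hom_G(M, CC) · #H⁰(G_ℚ, M') = #Sha¹_S(M') · ∏_{q ∈ S} #H⁰(G_q, M')`. -/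
theorem h95_d2_card (hp2 : p ≠ 2) (hpS : pPrime p ∈ S)
    (M : Rep.{0, 0, 0} (ZMod p) GQ) [FiniteDimensional (ZMod p) M]
    (hsm : ∀ m : M, ∃ F : IntermediateField ℚ (AlgebraicClosure ℚ), FiniteDimensional ℚ F ∧
      ∀ s ∈ F.fixingSubgroup, M.ρ s m = m)
    (hMur : ∀ q : Nat.Primes, q ∉ S → ∀ A : ValuationSubring (AlgebraicClosure ℚ),
      A.LiesOverPrime (q : ℕ) → ∀ g ∈ A.inertiaSubgroupIn ℚ, M.ρ g = 1)
    (hA : h72_PTAmbient p S CC JJ XX κ ev zz) :
    Nat.card (h95_H M CC) * Nat.card ↥(h95_inv (M.dualTwist (cycloChar p))) =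
      Nat.card ↥(sha₁ S (M.dualTwist (cycloChar p))) *
        ∏ q : ↥S, Nat.card ↥(h95_invAt q.1 (M.dualTwist (cycloChar p))) := by
  classical
  have hMfin : Finite M := Module.finite_of_finite (ZMod p)
  obtain ⟨F, hF, hgal, hM, -, hχ, -⟩ := h56_exists_base_level S hpS M hsm hMur
  let L₀ : h56_Level S := h56_Level.mk' F hF hgal
  have hL₀M : ∀ s ∈ L₀.U, ∀ m : M, M.ρ s m = m := fun s hs m => by
    rw [hM s hs]
    rfl
  have hL₀χ : ∀ s ∈ L₀.U, cycloChar p s = 1 := hχ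
  have hK1 := h95_jΘ_K1 hA F hF hχ
  obtain ⟨δ, hδr, hδk⟩ := h95_S1 S M (h95_JJp.e p S) hp2 hpS L₀ hL₀M hL₀χ h95_JJp.he1
    h95_JJp.he0 h95_JJp.he2 h95_JJp.hsm (h95_jΘ hA) (h95_jΘ_smul hA)
    (fun x => (hK1 x).trans ⟨fun ⟨k, hk⟩ => ⟨k, fun q g => by rw [h95_JJp.e_smul, hk]⟩,
      fun ⟨k, hk⟩ => ⟨k, fun q g => by rw [← h95_JJp.e_smul, hk]⟩⟩)
    (h95_jΘ_K2 hA)
  exact h95_d2_card_core M hpS F hF hM hχ (h95_jΘ hA) (h95_jΘ_smul hA) hK1 δ hδr hδk

/-- `Hom_G(M, CC)` is a finite-dimensional `𝔽_p`-space (S55 hypotheses on `M`). -/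
theorem h95_H_module_finite (hpS : pPrime p ∈ S)
    (M : Rep.{0, 0, 0} (ZMod p) GQ) [FiniteDimensional (ZMod p) M]
    (hsm : ∀ m : M, ∃ F : IntermediateField ℚ (AlgebraicClosure ℚ), FiniteDimensional ℚ F ∧
      ∀ s ∈ F.fixingSubgroup, M.ρ s m = m)
    (hMur : ∀ q : Nat.Primes, q ∉ S → ∀ A : ValuationSubring (AlgebraicClosure ℚ),
      A.LiesOverPrime (q : ℕ) → ∀ g ∈ A.inertiaSubgroupIn ℚ, M.ρ g = 1)
    (hA : h72_PTAmbient p S CC JJ XX κ ev zz) : Module.Finite (ZMod p) (h95_H M CC) := by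
  obtain ⟨F, hF, hgal, hM, -, hχ, -⟩ := h56_exists_base_level S hpS M hsm hMur
  have hHfin : Finite (h95_H M CC) := h95_H_finite_of_ambient M hA (h56_Level.mk' F hF hgal)
    (fun s hs m => by
      rw [hM s hs]
      rfl)
  exact Module.Finite.of_finite

/-- **The `d²`-formula**:
`dim Hom_G(M, CC) + h⁰(G_ℚ, M') = dim Sha¹_S(M') + ∑_{q ∈ S} h⁰(G_q, M')`, `M' = M^∨(1)`. -/
theorem h95_d2_formula (hp2 : p ≠ 2) (hpS : pPrime p ∈ S)
    (M : Rep.{0, 0, 0} (ZMod p) GQ) [FiniteDimensional (ZMod p) M]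
    (hsm : ∀ m : M, ∃ F : IntermediateField ℚ (AlgebraicClosure ℚ), FiniteDimensional ℚ F ∧
      ∀ s ∈ F.fixingSubgroup, M.ρ s m = m)
    (hMur : ∀ q : Nat.Primes, q ∉ S → ∀ A : ValuationSubring (AlgebraicClosure ℚ),
      A.LiesOverPrime (q : ℕ) → ∀ g ∈ A.inertiaSubgroupIn ℚ, M.ρ g = 1)
    (hA : h72_PTAmbient p S CC JJ XX κ ev zz) :
    Module.finrank (ZMod p) (h95_H M CC) +
        Module.finrank (ZMod p) ↥(h95_inv (M.dualTwist (cycloChar p))) =
      Module.finrank (ZMod p) ↥(sha₁ S (M.dualTwist (cycloChar p))) +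
        ∑ q : ↥S, Module.finrank (ZMod p) ↥(h95_invAt q.1 (M.dualTwist (cycloChar p))) := by
  classical
  have hHfd : Module.Finite (ZMod p) (h95_H M CC) := h95_H_module_finite hpS M hsm hMur hA
  have hM'fd : Module.Finite (ZMod p) (M.dualTwist (cycloChar p)) :=
    inferInstanceAs (Module.Finite (ZMod p) (Module.Dual (ZMod p) M))
  have hshafd : Module.Finite (ZMod p) ↥(sha₁ S (M.dualTwist (cycloChar p))) :=
    h46_finite_sha₁_dualTwist S hpS M hsm hMur
  have hcard := h95_d2_card hp2 hpS M hsm hMur hA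
  have hp1 : 1 < p := (Fact.out : p.Prime).one_lt
  have e1 : Nat.card (h95_H M CC) = p ^ Module.finrank (ZMod p) (h95_H M CC) := by
    rw [Module.natCard_eq_pow_finrank (K := ZMod p), Nat.card_zmod]
  have e2 : Nat.card ↥(h95_inv (M.dualTwist (cycloChar p))) =
      p ^ Module.finrank (ZMod p) ↥(h95_inv (M.dualTwist (cycloChar p))) := by
    rw [Module.natCard_eq_pow_finrank (K := ZMod p), Nat.card_zmod]
  have e3 : Nat.card ↥(sha₁ S (M.dualTwist (cycloChar p))) =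
      p ^ Module.finrank (ZMod p) ↥(sha₁ S (M.dualTwist (cycloChar p))) := by
    rw [Module.natCard_eq_pow_finrank (K := ZMod p), Nat.card_zmod]
  have e4 : ∀ q : ↥S, Nat.card ↥(h95_invAt q.1 (M.dualTwist (cycloChar p))) =
      p ^ Module.finrank (ZMod p) ↥(h95_invAt q.1 (M.dualTwist (cycloChar p))) := fun q => by
    rw [Module.natCard_eq_pow_finrank (K := ZMod p), Nat.card_zmod]
  rw [e1, e2, e3, Finset.prod_congr rfl (fun q _ => e4 q), ← pow_add, Finset.prod_pow_eq_pow_sum,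
    ← pow_add] at hcard
  exact Nat.pow_right_injective hp1 hcard

/-- a module which is trivial on an `S`-level satisfies the hypotheses `hsm`, `hMur` of S55. -/
theorem h95_smooth_unram_of_level (M : Rep.{0, 0, 0} (ZMod p) GQ)
    (L₀ : h72_Lev S) (hL₀ : ∀ s ∈ L₀.U, M.ρ s = 1) :
    (∀ m : M, ∃ F : IntermediateField ℚ (AlgebraicClosure ℚ), FiniteDimensional ℚ F ∧
      ∀ s ∈ F.fixingSubgroup, M.ρ s m = m) ∧
    (∀ q : Nat.Primes, q ∉ S → ∀ A : ValuationSubring (AlgebraicClosure ℚ),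
      A.LiesOverPrime (q : ℕ) → ∀ g ∈ A.inertiaSubgroupIn ℚ, M.ρ g = 1) := by
  refine ⟨fun m => ⟨L₀.F, L₀.unr.1, fun s hs => ?_⟩, fun q hq A hA g hg => ?_⟩
  · rw [hL₀ s hs]
    rfl
  · exact hL₀ g (L₀.unr.2 q hq A hA hg)

/-- **The `d²`-formula**, for a module trivial on an `S`-level (the hypotheses of the
duality package `h72_H2_duality`). -/
theorem h95_d2_formula_level (hp2 : p ≠ 2) (hpS : pPrime p ∈ S)
    (M : Rep.{0, 0, 0} (ZMod p) GQ) [FiniteDimensional (ZMod p) M]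
    (hA : h72_PTAmbient p S CC JJ XX κ ev zz)
    (L₀ : h72_Lev S) (hL₀ : ∀ s ∈ L₀.U, M.ρ s = 1) :
    Module.finrank (ZMod p) (h95_H M CC) +
        Module.finrank (ZMod p) ↥(h95_inv (M.dualTwist (cycloChar p))) =
      Module.finrank (ZMod p) ↥(sha₁ S (M.dualTwist (cycloChar p))) +
        ∑ q : ↥S, Module.finrank (ZMod p) ↥(h95_invAt q.1 (M.dualTwist (cycloChar p))) :=
  h95_d2_formula hp2 hpS M (h95_smooth_unram_of_level M L₀ hL₀).1
    (h95_smooth_unram_of_level M L₀ hL₀).2 hA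

end Amb

end Fermat.Agent.S56
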