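import Fermat.Agent.S56.h72_ChiAdd
import Fermat.Agent.S56.h95_D2Formula
import Fermat.Agent.S55.h46_UnramVal
import Fermat.Agent.S55.h92_SUnits

/-!
# S56, front W1, block C (base case of Tate's Euler characteristic formula): shared definitions

Everything is phrased for an `S`-level `L₀` (field `F = L₀.F`, `U_F = L₀.U`, finite group
`G = G_ℚ ⧸ U_F`), an element `γ : G_ℚ` (a lift of a generator of the cyclic subgroup `C ≤ G`),
a finite `𝔽_p`-space `W` with an operator `s` (the action of the generator) and the scalar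
`ω₀ = ω(γ)` (mod-`p` cyclotomic character).

* `h72_infl L₀ ρ` : inflation of a representation of `G_ℚ ⧸ L₀.U` to `G_ℚ`;
* `h72_delta S L₀` : the additive invariant `χ_S(infl ρ) + dim ker (ρ(c) + 1)` of the dévissage;
* `h72_X1 L₀ γ s` : additive `S`-level maps `φ : U_F → W` with `φ (γ u γ⁻¹) = s (φ u)`;
* `h72_Tw π s ω₀` : functions `f : P → W^∨` with `f (π x) (s w) = ω₀ * f x w`;
* `h72_Hom x₀ s ω₀` : linear maps `Θ : X → W^∨` with `Θ (x₀ x) (s w) = ω₀ * Θ x w`;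
* `h72_SU S L₀` : the `S`-units of `F` (Mathlib's `Set.unit` for the primes of `𝓞 F` above `S`);
* `h72_K1 S L₀`, `h72_K2 S L₀` : the two conditions on `(S, F)` produced by the auxiliary set
  of primes `T₀` (row C6).
-/

set_option autoImplicit false

open CategoryTheory Module groupCohomology ExtCitation NumberField IsDedekindDomain
open scoped Pointwise

noncomputable section

namespace Fermat.Agent.S56

open Fermat.Agent.S55

local notation "GQ" => (AlgebraicClosure ℚ ≃ₐ[ℚ] AlgebraicClosure ℚ)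

variable {p : ℕ} [Fact p.Prime] {S : Finset Nat.Primes}

/-- The field of a level is a number field. -/
instance h72_Lev.instNumberField (L : h72_Lev S) : NumberField ↥L.F :=
  haveI : FiniteDimensional ℚ ↥L.F := L.unr.1
  { }

/-- Inflation of a representation of `G_ℚ ⧸ L₀.U` to `G_ℚ`. -/
def h72_infl (L₀ : h72_Lev S) {V : Type} [AddCommGroup V] [Module (ZMod p) V]
    (ρ : Representation (ZMod p) (GQ ⧸ L₀.U) V) : Rep.{0, 0, 0} (ZMod p) GQ :=
  Rep.of (ρ.comp (QuotientGroup.mk' L₀.U))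

/-- The additive invariant of the dévissage: `χ_S(infl ρ) + dim V^{c = -1}`. -/
def h72_delta (S : Finset Nat.Primes) (L₀ : h72_Lev S) (V : Type) [AddCommGroup V]
    [Module (ZMod p) V] (ρ : Representation (ZMod p) (GQ ⧸ L₀.U) V) : ℤ :=
  h72_chi S (h72_infl L₀ ρ) +
    (Module.finrank (ZMod p)
      ↥(LinearMap.ker (ρ (QuotientGroup.mk complexConjugation) + 1)) : ℤ)

/-- `X₁`: additive `S`-level maps `φ : U_F → W` with `φ (γ u γ⁻¹) = s (φ u)`. -/
def h72_X1 (L₀ : h72_Lev S) (γ : GQ) {W : Type} [AddCommGroup W] [Module (ZMod p) W]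
    (s : W →ₗ[ZMod p] W) : Submodule (ZMod p) (↥L₀.U → W) where
  carrier := {φ | (∀ u v, φ (u * v) = φ u + φ v) ∧
    (∃ K : h72_Lev S, ∀ u : ↥L₀.U, (u : GQ) ∈ K.U → φ u = 0) ∧
    ∀ u, φ (MulAut.conjNormal γ u) = s (φ u)}
  add_mem' := by
    rintro φ ψ ⟨h1, ⟨K, hK⟩, h3⟩ ⟨h1', ⟨K', hK'⟩, h3'⟩
    refine ⟨fun u v => ?_, ?_, fun u => ?_⟩
    · simp only [Pi.add_apply, h1 u v, h1' u v]; abel
    · obtain ⟨L'', h1, h2⟩ := K.to56.exists_ge K'.F K'.unr
      refine ⟨h72_Lev.of56 L'', fun u hu => ?_⟩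
      have e1 : φ u = 0 := hK u (h56_Level.U_anti h1 hu)
      have e2 : ψ u = 0 := hK' u (IntermediateField.fixingSubgroup_antitone h2 hu)
      simp only [Pi.add_apply, e1, e2, add_zero]
    · simp only [Pi.add_apply, h3 u, h3' u, map_add]
  zero_mem' := ⟨fun _ _ => by simp, ⟨L₀, fun _ _ => rfl⟩, fun _ => by simp⟩
  smul_mem' := by
    rintro c φ ⟨h1, ⟨K, hK⟩, h3⟩
    refine ⟨fun u v => ?_, ⟨K, fun u hu => ?_⟩, fun u => ?_⟩
    · simp only [Pi.smul_apply, h1 u v, smul_add]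
    · simp only [Pi.smul_apply, hK u hu, smul_zero]
    · simp only [Pi.smul_apply, h3 u, map_smul]

theorem h72_mem_X1 (L₀ : h72_Lev S) (γ : GQ) {W : Type} [AddCommGroup W] [Module (ZMod p) W]
    (s : W →ₗ[ZMod p] W) (φ : ↥L₀.U → W) :
    φ ∈ h72_X1 L₀ γ s ↔ (∀ u v, φ (u * v) = φ u + φ v) ∧
      (∃ K : h72_Lev S, ∀ u : ↥L₀.U, (u : GQ) ∈ K.U → φ u = 0) ∧
      ∀ u, φ (MulAut.conjNormal γ u) = s (φ u) := Iff.rfl

/-- Twisted equivariant functions on a set with a self-map: `f (π x) (s w) = ω₀ * f x w`. -/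
def h72_Tw {P : Type*} (π : P → P) {W : Type} [AddCommGroup W] [Module (ZMod p) W]
    (s : W →ₗ[ZMod p] W) (ω₀ : ZMod p) :
    Submodule (ZMod p) (P → Module.Dual (ZMod p) W) where
  carrier := {f | ∀ x w, f (π x) (s w) = ω₀ * f x w}
  add_mem' := by
    intro f g hf hg x w
    simp only [Pi.add_apply, LinearMap.add_apply, hf x w, hg x w, mul_add]
  zero_mem' := fun x w => by simp
  smul_mem' := by
    intro c f hf x w
    simp only [Pi.smul_apply, LinearMap.smul_apply, hf x w, smul_eq_mul]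
    ring

theorem h72_mem_Tw {P : Type*} (π : P → P) {W : Type} [AddCommGroup W] [Module (ZMod p) W]
    (s : W →ₗ[ZMod p] W) (ω₀ : ZMod p) (f : P → Module.Dual (ZMod p) W) :
    f ∈ h72_Tw π s ω₀ ↔ ∀ x w, f (π x) (s w) = ω₀ * f x w := Iff.rfl

/-- Twisted equivariant linear maps `Θ : X → W^∨`: `Θ (x₀ x) (s w) = ω₀ * Θ x w`
(= bilinear forms `β` on `X × W` with `β (x₀ x, s w) = ω₀ β (x, w)`). -/
def h72_Hom {X : Type*} [AddCommGroup X] [Module (ZMod p) X] (x₀ : X →ₗ[ZMod p] X)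
    {W : Type} [AddCommGroup W] [Module (ZMod p) W] (s : W →ₗ[ZMod p] W) (ω₀ : ZMod p) :
    Submodule (ZMod p) (X →ₗ[ZMod p] Module.Dual (ZMod p) W) where
  carrier := {Θ | ∀ x w, Θ (x₀ x) (s w) = ω₀ * Θ x w}
  add_mem' := by
    intro f g hf hg x w
    simp only [LinearMap.add_apply, hf x w, hg x w, mul_add]
  zero_mem' := fun x w => by simp
  smul_mem' := by
    intro c f hf x w
    simp only [LinearMap.smul_apply, hf x w, smul_eq_mul]
    ring

theorem h72_mem_Hom {X : Type*} [AddCommGroup X] [Module (ZMod p) X] (x₀ : X →ₗ[ZMod p] X)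
    {W : Type} [AddCommGroup W] [Module (ZMod p) W] (s : W →ₗ[ZMod p] W) (ω₀ : ZMod p)
    (Θ : X →ₗ[ZMod p] Module.Dual (ZMod p) W) :
    Θ ∈ h72_Hom x₀ s ω₀ ↔ ∀ x w, Θ (x₀ x) (s w) = ω₀ * Θ x w := Iff.rfl

/-- The `S`-units of the field of a level. -/
def h72_SU (S : Finset Nat.Primes) (L₀ : h72_Lev S) : Subgroup (↥L₀.F)ˣ :=
  (h46_primesOver S L₀.F : Set (HeightOneSpectrum (𝓞 ↥L₀.F))).unit ↥L₀.F

/-- The restriction of `g : G_ℚ` to the field of a level. -/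
def h72_res (L₀ : h72_Lev S) (g : GQ) : ↥L₀.F ≃ₐ[ℚ] ↥L₀.F :=
  haveI : Normal ℚ ↥L₀.F := L₀.gal.to_normal
  AlgEquiv.restrictNormalHom (↥L₀.F) g

/-! ### The cyclic subgroup, its generator, the base module -/

/-- the cyclic subgroup of `G_ℚ ⧸ U_F` generated by the class of `γ`. -/
abbrev h72_C (L₀ : h72_Lev S) (γ : GQ) : Subgroup (GQ ⧸ L₀.U) :=
  Subgroup.zpowers (QuotientGroup.mk γ : GQ ⧸ L₀.U)

/-- the generator of `h72_C L₀ γ`. -/
def h72_gen (L₀ : h72_Lev S) (γ : GQ) : h72_C L₀ γ :=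
  ⟨QuotientGroup.mk γ, Subgroup.mem_zpowers _⟩

/-- the base module `infl coind_C^G W`. -/
abbrev h72_M (L₀ : h72_Lev S) (γ : GQ) {W : Type} [AddCommGroup W] [Module (ZMod p) W]
    (σ : Representation (ZMod p) (h72_C L₀ γ) W) : Rep.{0, 0, 0} (ZMod p) GQ :=
  h72_infl L₀ (Representation.coind (h72_C L₀ γ).subtype σ)

/-- the primes above `S` are stable under the Galois action. -/
theorem h72_galPrime_mem_primesOver (L₀ : h72_Lev S) (τ : ↥L₀.F ≃ₐ[ℚ] ↥L₀.F)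
    (w : HeightOneSpectrum (𝓞 ↥L₀.F)) (hw : w ∈ h46_primesOver S L₀.F) :
    h92_galPrime τ w ∈ h46_primesOver S L₀.F := by
  obtain ⟨q, hq, hqw⟩ := hw
  refine ⟨q, hq, ?_⟩
  rw [h92_galPrime_asIdeal]
  have h1 : τ • ((q : ℕ) : 𝓞 ↥L₀.F) ∈ τ • w.asIdeal := Ideal.smul_mem_pointwise_smul _ _ _ hqw
  have h2 : τ • ((q : ℕ) : 𝓞 ↥L₀.F) = ((q : ℕ) : 𝓞 ↥L₀.F) :=
    map_natCast (MulSemiringAction.toRingHom (↥L₀.F ≃ₐ[ℚ] ↥L₀.F) (𝓞 ↥L₀.F) τ) (q : ℕ)
  rwa [h2] at h1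

/-- the action of `γ` on the primes of `F` above `S`. -/
def h72_permT (L₀ : h72_Lev S) (γ : GQ) :
    ↥(h46_primesOver S L₀.F) → ↥(h46_primesOver S L₀.F) :=
  fun w => ⟨h92_galPrime (h72_res L₀ γ) w.1, h72_galPrime_mem_primesOver L₀ _ w.1 w.2⟩

/-- the action of `γ` on the infinite places of `F`. -/
def h72_permInf (L₀ : h72_Lev S) (γ : GQ) : InfinitePlace ↥L₀.F → InfinitePlace ↥L₀.F :=
  fun v => (h72_res L₀ γ) • v

/-- "`p ∣ v(a)` for all primes `v` of `F` not above `S`". -/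
def h72_VS (p : ℕ) (S : Finset Nat.Primes) (F : IntermediateField ℚ (AlgebraicClosure ℚ))
    [NumberField ↥F] (a : (↥F)ˣ) : Prop :=
  ∀ v : HeightOneSpectrum (𝓞 ↥F), v ∉ h46_primesOver S F →
    ∃ j : ℤ, v.valuationOfNeZero a = Multiplicative.ofAdd ((p : ℤ) * j)

/-- The Kummer pairing axioms for `κ : U_F × F^× → 𝔽_p` (`κ u a = log_ζ (u α / α)`, `α ^ p = a`). -/
structure h72_IsKummer (p : ℕ) [Fact p.Prime] (F : IntermediateField ℚ (AlgebraicClosure ℚ))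
    [NumberField ↥F] (κ : ↥F.fixingSubgroup → (↥F)ˣ → ZMod p) : Prop where
  add_left : ∀ u v a, κ (u * v) a = κ u a + κ v a
  add_right : ∀ u a b, κ u (a * b) = κ u a + κ u b
  ker_iff : ∀ a, (∀ u, κ u a = 0) ↔ ∃ b : (↥F)ˣ, a = b ^ p
  /-- `p ∣ v(a)` outside `S`  ⟹  `κ (·, a)` is of `S`-level. -/
  level : ∀ S : Finset Nat.Primes, pPrime p ∈ S → F.IsUnramifiedOutside S → ∀ a, h72_VS p S F a →
    ∃ K : IntermediateField ℚ (AlgebraicClosure ℚ), K.IsUnramifiedOutside S ∧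
      ∀ u : ↥F.fixingSubgroup, (u : GQ) ∈ K.fixingSubgroup → κ u a = 0
  /-- every additive `S`-level map `U_F → 𝔽_p` is `κ (·, a)` with `p ∣ v(a)` outside `S`. -/
  surj : ∀ S : Finset Nat.Primes, pPrime p ∈ S → F.IsUnramifiedOutside S →
    ∀ φ : ↥F.fixingSubgroup → ZMod p, (∀ u v, φ (u * v) = φ u + φ v) →
      (∃ K : IntermediateField ℚ (AlgebraicClosure ℚ), K.IsUnramifiedOutside S ∧
        ∀ u : ↥F.fixingSubgroup, (u : GQ) ∈ K.fixingSubgroup → φ u = 0) →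
      ∃ a, h72_VS p S F a ∧ ∀ u, φ u = κ u a
  /-- equivariance: `κ (g u g⁻¹, g a) = ω(g) κ (u, a)`. -/
  equiv : ∀ (g : GQ) (u : ↥F.fixingSubgroup) (hu : g * u * g⁻¹ ∈ F.fixingSubgroup)
    (a b : (↥F)ˣ), ((b : ↥F) : AlgebraicClosure ℚ) = g ((a : ↥F) : AlgebraicClosure ℚ) →
    κ ⟨g * u * g⁻¹, hu⟩ b = ((cycloChar p g : (ZMod p)ˣ) : ZMod p) * κ u a

/-- Intertwiners `(A, a) → (W, s)`. -/
def h72_Int {k : Type*} [Field k] {A W : Type*} [AddCommGroup A] [Module k A] [AddCommGroup W]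
    [Module k W] (a : A →ₗ[k] A) (s : W →ₗ[k] W) : Submodule k (A →ₗ[k] W) where
  carrier := {φ | ∀ x, φ (a x) = s (φ x)}
  add_mem' := by
    intro f g hf hg x
    simp only [LinearMap.add_apply, hf x, hg x, map_add]
  zero_mem' := fun x => by simp
  smul_mem' := by
    intro c f hf x
    simp only [LinearMap.smul_apply, hf x, map_smul]

/-- Twisted equivariant functions with values in `W`: `ω₀ • f (π x) = s (f x)`. -/
def h72_TwCo {P : Type*} (π : P → P) {W : Type} [AddCommGroup W] [Module (ZMod p) W]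
    (s : W →ₗ[ZMod p] W) (ω₀ : ZMod p) : Submodule (ZMod p) (P → W) where
  carrier := {f | ∀ x, ω₀ • f (π x) = s (f x)}
  add_mem' := by
    intro f g hf hg x
    simp only [Pi.add_apply, smul_add, hf x, hg x, map_add]
  zero_mem' := fun x => by simp
  smul_mem' := by
    intro c f hf x
    simp only [Pi.smul_apply, map_smul, ← hf x, smul_comm c ω₀]

/-- (K1) of the auxiliary primes: an element of `F^×` whose valuations outside `S` are all
divisible by `p` is an `S`-unit times a `p`-th power. -/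
def h72_K1 (p : ℕ) (S : Finset Nat.Primes) (L₀ : h72_Lev S) : Prop :=
  ∀ a : (↥L₀.F)ˣ,
    (∀ v : HeightOneSpectrum (𝓞 ↥L₀.F), v ∉ h46_primesOver S L₀.F →
      ∃ j : ℤ, v.valuationOfNeZero a = Multiplicative.ofAdd ((p : ℤ) * j)) →
    ∃ e ∈ h72_SU S L₀, ∃ b : (↥L₀.F)ˣ, a = e * b ^ p

/-- (K2) of the auxiliary primes: an additive `S`-level map `U_F → 𝔽_p` which vanishes on the
intersections of `U_F` with all conjugates of the decomposition groups at the primes of `S`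
is zero. -/
def h72_K2 (p : ℕ) (S : Finset Nat.Primes) (L₀ : h72_Lev S) : Prop :=
  ∀ φ : ↥L₀.U → ZMod p, (∀ u v, φ (u * v) = φ u + φ v) →
    (∃ K : h72_Lev S, ∀ u : ↥L₀.U, (u : GQ) ∈ K.U → φ u = 0) →
    (∀ q ∈ S, ∀ (g : GQ) (τ : primeLocalGaloisGroup q)
      (h : g * primeLocalToGlobal q τ * g⁻¹ ∈ L₀.U), φ ⟨_, h⟩ = 0) →
    φ = 0

end Fermat.Agent.S56
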