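import Fermat.Agent.S56.h72_ChiH2
import Fermat.Agent.S55.h46_FinH1

/-!
# S56, front W1: the Euler characteristic `χ = h⁰ - h¹ + h²` of `G_S` is ADDITIVE

`h72_chi S M := dim H⁰ - dim H¹ + dim H²` for helper4's level cohomology of the `S`-level system
(`h4_H (h72_levels S) M n`; degree 2 is the Prelude's `continuousH2S S M` by `h72_H2equiv`).

* `h72_h4_H0_finite`, `h72_h4_H1_finite` : finiteness in degrees 0 and 1;
* `h72_chi_additive` : for a short exact sequence `0 → X₁ → X₂ → X₃ → 0` of finite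
  `𝔽_p[G_S]`-modules, `χ(X₂) = χ(X₁) + χ(X₃)`.

The proof is helper4's long exact sequence (`h4_exact₁/₂/₃`) through degree 2 and the right
exactness of `H²` (`h72_h4_map2_surjective`).  No `H³`.
-/

set_option autoImplicit false
set_option linter.unusedSectionVars false
set_option linter.unusedVariables false
set_option maxHeartbeats 400000

open CategoryTheory Module groupCohomology ExtCitation

namespace Fermat.Agent.S56

open Fermat.Agent.S55

local notation "GQ" => (AlgebraicClosure ℚ ≃ₐ[ℚ] AlgebraicClosure ℚ)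

/-! ### Linear algebra -/

section LinAlg

variable {K V W U : Type*} [Field K] [AddCommGroup V] [Module K V] [AddCommGroup W] [Module K W]
  [AddCommGroup U] [Module K U]

theorem h72_finrank_exact [FiniteDimensional K W] (f : V →ₗ[K] W) (g : W →ₗ[K] U)
    (h : Function.Exact f g) :
    Module.finrank K W = Module.finrank K (LinearMap.range f) +
      Module.finrank K (LinearMap.range g) := by
  have h1 := LinearMap.finrank_range_add_finrank_ker g
  rw [LinearMap.exact_iff.1 h] at h1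
  omega

end LinAlg

/-! ### Finiteness in degrees 0 and 1 -/

section Fin01

variable {p : ℕ} [Fact p.Prime] (S : Finset Nat.Primes) (M : Rep.{0, 0, 0} (ZMod p) GQ)
  [FiniteDimensional (ZMod p) M]

theorem h72_h4_H0_finite : Module.Finite (ZMod p) ↥(h4_H (h72_levels S) M 0) := by
  have h1 : Module.Finite (ZMod p) ((Fin 0 → GQ) → M) := inferInstance
  have h2 : Module.Finite (ZMod p) ↥(h4_Z (h72_levels S) M 0) := inferInstance
  exact Module.Finite.of_surjective (h4_π (h72_levels S) M 0) (h4_π_surjective _ _ 0)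

/-- the hypotheses `hsm`, `hMur` of the S55 statements, from a base level. -/
theorem h72_hsm_of_level (L₀ : h72_Lev S) (hL₀ : ∀ s ∈ L₀.U, M.ρ s = 1) :
    (∀ m : M, ∃ F : IntermediateField ℚ (AlgebraicClosure ℚ), FiniteDimensional ℚ F ∧
      ∀ s ∈ F.fixingSubgroup, M.ρ s m = m) ∧
    (∀ q : Nat.Primes, q ∉ S → ∀ A : ValuationSubring (AlgebraicClosure ℚ),
      A.LiesOverPrime (q : ℕ) → ∀ g ∈ A.inertiaSubgroupIn ℚ, M.ρ g = 1) :=
  ⟨fun m => ⟨L₀.F, L₀.unr.1, fun s hs => by rw [hL₀ s hs]; rfl⟩,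
    fun q hq A hA g hg => hL₀ g (L₀.unr.2 q hq A hA hg)⟩

theorem h72_h4_Z1_finite (hpS : pPrime p ∈ S) (L₀ : h72_Lev S) (hL₀ : ∀ s ∈ L₀.U, M.ρ s = 1) :
    Finite ↥(h4_Z (h72_levels S) M 1) := by
  obtain ⟨hsm, hMur⟩ := h72_hsm_of_level S M L₀ hL₀
  have hfin : Finite (levelCocyclesS₁ S M) := h46_finite_levelCocyclesS₁ S hpS M hsm hMur
  let φ : ↥(h4_Z (h72_levels S) M 1) → levelCocyclesS₁ S M := fun z =>
    ⟨⟨fun g => z.1 (fun _ => g), (h72_d1_eq_zero_iff M z.1).1 z.2.2⟩,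
      (h72_isLevel_one S z.1).1 z.2.1⟩
  refine Finite.of_injective φ (fun z z' h => ?_)
  apply Subtype.ext
  funext v
  have h1 : (fun g : GQ => z.1 (fun _ => g)) = fun g : GQ => z'.1 (fun _ => g) :=
    congrArg (fun c : levelCocyclesS₁ S M => ((c : cocycles₁ M) : GQ → M)) h
  have h2 := congrFun h1 (v 0)
  simpa [h72_fin1_eta] using h2

theorem h72_h4_H1_finite (hpS : pPrime p ∈ S) (L₀ : h72_Lev S) (hL₀ : ∀ s ∈ L₀.U, M.ρ s = 1) :
    Module.Finite (ZMod p) ↥(h4_H (h72_levels S) M 1) := by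
  have h1 := h72_h4_Z1_finite S M hpS L₀ hL₀
  have h2 : Module.Finite (ZMod p) ↥(h4_Z (h72_levels S) M 1) := Module.Finite.of_finite
  exact Module.Finite.of_surjective (h4_π (h72_levels S) M 1) (h4_π_surjective _ _ 1)

end Fin01

/-! ### The Euler characteristic -/

section Chi

variable {p : ℕ} [Fact p.Prime] (S : Finset Nat.Primes)
  {CC : Type} [AddCommGroup CC] [DistribMulAction GQ CC]
  {JJ : ↥S → Type} [∀ q, AddCommGroup (JJ q)] [∀ q, DistribMulAction GQ (JJ q)]
  {XX : ↥S → Type} [∀ q, AddCommGroup (XX q)]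
  [∀ q : ↥S, DistribMulAction (primeLocalGaloisGroup q.1) (XX q)]
  {κ : ∀ q, JJ q →+ CC} {ev : ∀ q, JJ q →+ XX q} {zz : ∀ q, XX q}

/-- The Euler characteristic `h⁰ - h¹ + h²` of the `S`-level cohomology of `G_ℚ`. -/
noncomputable def h72_chi (M : Rep.{0, 0, 0} (ZMod p) GQ) : ℤ :=
  (Module.finrank (ZMod p) ↥(h4_H (h72_levels S) M 0) : ℤ)
    - Module.finrank (ZMod p) ↥(h4_H (h72_levels S) M 1)
    + Module.finrank (ZMod p) ↥(h4_H (h72_levels S) M 2)

/-- **Additivity of the Euler characteristic.** -/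
theorem h72_chi_additive (hpS : pPrime p ∈ S) (hA : h72_PTAmbient p S CC JJ XX κ ev zz)
    (X : ShortComplex (Rep.{0, 0, 0} (ZMod p) GQ)) (hX : X.ShortExact)
    [FiniteDimensional (ZMod p) X.X₁] [FiniteDimensional (ZMod p) X.X₂]
    [FiniteDimensional (ZMod p) X.X₃]
    (L₀ : h72_Lev S) (hL₀ : ∀ s ∈ L₀.U, X.X₂.ρ s = 1) :
    h72_chi S X.X₂ = h72_chi S X.X₁ + h72_chi S X.X₃ := by
  classical
  have hinj : Function.Injective X.f.hom := (Rep.mono_iff_injective X.f).1 hX.mono_f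
  have hsurj : Function.Surjective X.g.hom := (Rep.epi_iff_surjective X.g).1 hX.epi_g
  -- the base level acts trivially on `X₁` and `X₃`
  have hL₁ : ∀ s ∈ L₀.U, X.X₁.ρ s = 1 := by
    intro s hs
    apply LinearMap.ext
    intro m
    apply hinj
    rw [Rep.hom_comm_apply, hL₀ s hs]
    rfl
  have hL₃ : ∀ s ∈ L₀.U, X.X₃.ρ s = 1 := by
    intro s hs
    apply LinearMap.ext
    intro m
    obtain ⟨b, rfl⟩ := hsurj m
    rw [← Rep.hom_comm_apply, hL₀ s hs]
    rfl
  have hs : h4_IsSmooth (h72_levels S) X.X₂ := h72_smooth S X.X₂ L₀ hL₀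
  -- finiteness
  have f01 := h72_h4_H0_finite S X.X₁
  have f02 := h72_h4_H0_finite S X.X₂
  have f03 := h72_h4_H0_finite S X.X₃
  have f11 := h72_h4_H1_finite S X.X₁ hpS L₀ hL₁
  have f12 := h72_h4_H1_finite S X.X₂ hpS L₀ hL₀
  have f13 := h72_h4_H1_finite S X.X₃ hpS L₀ hL₃
  obtain ⟨f21, -⟩ := h72_h4_H2_finite_finrank S hpS X.X₁ hA L₀ hL₁
  obtain ⟨f22, -⟩ := h72_h4_H2_finite_finrank S hpS X.X₂ hA L₀ hL₀
  obtain ⟨f23, -⟩ := h72_h4_H2_finite_finrank S hpS X.X₃ hA L₀ hL₃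
  -- the maps
  set a₀ := (h4_map (MonoidHom.id GQ) (h72_levels S).compat_id X.f 0).hom with ha₀
  set b₀ := (h4_map (MonoidHom.id GQ) (h72_levels S).compat_id X.g 0).hom with hb₀
  set a₁ := (h4_map (MonoidHom.id GQ) (h72_levels S).compat_id X.f 1).hom with ha₁
  set b₁ := (h4_map (MonoidHom.id GQ) (h72_levels S).compat_id X.g 1).hom with hb₁
  set a₂ := (h4_map (MonoidHom.id GQ) (h72_levels S).compat_id X.f 2).hom with ha₂
  set b₂ := (h4_map (MonoidHom.id GQ) (h72_levels S).compat_id X.g 2).hom with hb₂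
  set d₀ := (h4_δ hX hs 0 1 rfl).hom with hd₀
  set d₁ := (h4_δ hX hs 1 2 rfl).hom with hd₁
  -- exactness
  have e1 : Function.Exact a₀ b₀ := h4_exact₂ hX hs 0
  have e2 : Function.Exact b₀ d₀ := h4_exact₃ hX hs 0 1 rfl
  have e3 : Function.Exact d₀ a₁ := h4_exact₁ hX hs 0 1 rfl
  have e4 : Function.Exact a₁ b₁ := h4_exact₂ hX hs 1
  have e5 : Function.Exact b₁ d₁ := h4_exact₃ hX hs 1 2 rfl
  have e6 : Function.Exact d₁ a₂ := h4_exact₁ hX hs 1 2 rfl
  have e7 : Function.Exact a₂ b₂ := h4_exact₂ hX hs 2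
  -- the two ends
  have ha₀inj : Function.Injective a₀ := by
    rw [injective_iff_map_eq_zero]
    intro y hy
    obtain ⟨z, rfl⟩ := h4_π_surjective (h72_levels S) X.X₁ 0 y
    rw [ha₀, h4_map_π, h4_π_eq_zero_iff_zero] at hy
    have hz : z = 0 := by
      apply Subtype.ext
      funext g
      apply hinj
      have h1 : X.f.hom (z.1 g) = 0 := congrFun (congrArg Subtype.val hy) g
      show X.f.hom (z.1 g) = X.f.hom 0
      rw [h1, map_zero]
    rw [hz, map_zero]
  have hb₂surj : Function.Surjective b₂ :=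
    h72_h4_map2_surjective S hpS X.X₂ X.X₃ hA L₀ hL₀ X.g hsurj
  -- the count
  have c1 : Module.finrank (ZMod p) (LinearMap.range a₀) =
      Module.finrank (ZMod p) ↥(h4_H (h72_levels S) X.X₁ 0) :=
    LinearMap.finrank_range_of_inj ha₀inj
  have c2 := h72_finrank_exact a₀ b₀ e1
  have c3 := h72_finrank_exact b₀ d₀ e2
  have c4 := h72_finrank_exact d₀ a₁ e3
  have c5 := h72_finrank_exact a₁ b₁ e4
  have c6 := h72_finrank_exact b₁ d₁ e5
  have c7 := h72_finrank_exact d₁ a₂ e6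
  have c8 := h72_finrank_exact a₂ b₂ e7
  have c9 : Module.finrank (ZMod p) (LinearMap.range b₂) =
      Module.finrank (ZMod p) ↥(h4_H (h72_levels S) X.X₃ 2) := by
    rw [LinearMap.range_eq_top.2 hb₂surj, finrank_top]
  unfold h72_chi
  omega

end Chi

end Fermat.Agent.S56
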