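import Fermat.Agent.S56.h95_ShaVanish
import Fermat.Agent.S56.h72_ChiAdd

/-!
# S56, front W1, row C1 (SHIR): `H¹(G_S, infl coind_C σ)` = equivariant homomorphisms on `U`

`L₀` an `S`-level, `U = L₀.U`, `C ≤ G_ℚ ⧸ U` of order prime to `p`, `σ` a representation of `C`
on an `𝔽_p`-space `W`, `Mσ := infl coind_C^{G_ℚ/U} σ` (`h95_Mσ`).

* `h95_HomS S L₀ C σ` : the `S`-level maps `ψ : G_ℚ → W`, zero outside `U`, additive on `U`,
  with `ψ (h u h⁻¹) = σ(h̄) (ψ u)` for `h̄ ∈ C`, `u ∈ U`.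
* `h95_shirMap` : restriction-evaluation `z ↦ (u ↦ z(u)(1))` from level 1-cocycles to `h95_HomS`;
  `h95_shirMap_ker` (kernel = coboundaries, by the relative trace), `h95_shirMap_surjective`
  (explicit averaging formula).
* `h95_shir` : `finrank H¹(G_S, Mσ) = finrank (h95_HomS S L₀ C σ)` (helper4's level cohomology,
  the `h¹`-term of `h72_chi`).
-/

set_option autoImplicit false
set_option linter.unusedSectionVars false
set_option linter.unusedVariables false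
set_option maxHeartbeats 400000
set_option synthInstance.maxHeartbeats 400000

open CategoryTheory Module groupCohomology ExtCitation

noncomputable section

namespace Fermat.Agent.S56

open Fermat.Agent.S55

local notation "Qb" => AlgebraicClosure ℚ
local notation "GQ" => (AlgebraicClosure ℚ ≃ₐ[ℚ] AlgebraicClosure ℚ)

section Abstract

universe uK uZ uH uT

variable {K : Type uK} [Field K] {Z : Type uZ} {H : Type uH} {T : Type uT}
  [AddCommGroup Z] [Module K Z] [AddCommGroup H] [Module K H] [AddCommGroup T] [Module K T]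

/-- two surjections with the same kernel have isomorphic targets. -/
def h95_equivOfKerEq (f : Z →ₗ[K] H) (g : Z →ₗ[K] T) (hf : Function.Surjective f)
    (hg : Function.Surjective g) (hk : LinearMap.ker f = LinearMap.ker g) : H ≃ₗ[K] T :=
  (f.quotKerEquivOfSurjective hf).symm.trans
    ((Submodule.quotEquivOfEq _ _ hk).trans (g.quotKerEquivOfSurjective hg))

theorem h95_equivOfKerEq_apply (f : Z →ₗ[K] H) (g : Z →ₗ[K] T) (hf : Function.Surjective f)
    (hg : Function.Surjective g) (hk : LinearMap.ker f = LinearMap.ker g) (z : Z) :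
    h95_equivOfKerEq f g hf hg hk (f z) = g z := by
  have h1 : (f.quotKerEquivOfSurjective hf).symm (f z) = Submodule.Quotient.mk z := by
    rw [LinearEquiv.symm_apply_eq]
    rfl
  show g.quotKerEquivOfSurjective hg
    (Submodule.quotEquivOfEq _ _ hk ((f.quotKerEquivOfSurjective hf).symm (f z))) = _
  rw [h1]
  rfl

end Abstract

variable {p : ℕ} [Fact p.Prime] {S : Finset Nat.Primes} (L₀ : h72_Lev S)
  (C : Subgroup (GQ ⧸ L₀.U)) {W : Type} [AddCommGroup W] [Module (ZMod p) W]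
  (σ : Representation (ZMod p) C W)

/-- The base-case module `infl coind_C^{G_ℚ/U} σ`. -/
abbrev h95_Mσ : Rep.{0, 0, 0} (ZMod p) GQ :=
  Rep.of ((Representation.coind C.subtype σ).comp (QuotientGroup.mk' L₀.U))

theorem h95_Mσ_ρ_apply (g : GQ) (f : h95_Mσ L₀ C σ) (x : GQ ⧸ L₀.U) :
    (((h95_Mσ L₀ C σ).ρ g f : h95_Mσ L₀ C σ) : Representation.coindV C.subtype σ).1 x =
      (f : Representation.coindV C.subtype σ).1 (x * QuotientGroup.mk' L₀.U g) := rfl

theorem h95_Mσ_trivial (s : GQ) (hs : s ∈ L₀.U) : (h95_Mσ L₀ C σ).ρ s = 1 := by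
  have h1 : QuotientGroup.mk' L₀.U s = 1 := (QuotientGroup.eq_one_iff s).2 hs
  show (Representation.coind C.subtype σ) (QuotientGroup.mk' L₀.U s) = 1
  rw [h1, map_one]

variable (S)

/-- The `S`-level maps `G_ℚ → W`, zero outside `U`, additive on `U` and `C`-equivariant. -/
def h95_HomS : Submodule (ZMod p) (GQ → W) where
  carrier := {ψ | IsLevelConstantS₁ S ψ ∧ (∀ g, g ∉ L₀.U → ψ g = 0) ∧
    (∀ u ∈ L₀.U, ∀ u' ∈ L₀.U, ψ (u * u') = ψ u + ψ u') ∧
    (∀ (h : GQ) (hh : QuotientGroup.mk' L₀.U h ∈ C), ∀ u ∈ L₀.U,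
      ψ (h * u * h⁻¹) = σ ⟨_, hh⟩ (ψ u))}
  add_mem' := by
    rintro ψ ψ' ⟨h1, h2, h3, h4⟩ ⟨h1', h2', h3', h4'⟩
    refine ⟨h1.add h1', fun g hg => ?_, fun u hu u' hu' => ?_, fun h hh u hu => ?_⟩
    · rw [Pi.add_apply, h2 g hg, h2' g hg, add_zero]
    · rw [Pi.add_apply, Pi.add_apply, Pi.add_apply, h3 u hu u' hu', h3' u hu u' hu']
      abel
    · rw [Pi.add_apply, Pi.add_apply, h4 h hh u hu, h4' h hh u hu, map_add]
  zero_mem' := ⟨isLevelConstantS₁_const S (0 : W), fun g hg => rfl,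
    fun u hu u' hu' => by simp, fun h hh u hu => by simp⟩
  smul_mem' := by
    rintro a ψ ⟨h1, h2, h3, h4⟩
    refine ⟨h1.comp (a • ·), fun g hg => ?_, fun u hu u' hu' => ?_, fun h hh u hu => ?_⟩
    · rw [Pi.smul_apply, h2 g hg, smul_zero]
    · rw [Pi.smul_apply, Pi.smul_apply, Pi.smul_apply, h3 u hu u' hu', smul_add]
    · rw [Pi.smul_apply, Pi.smul_apply, h4 h hh u hu, map_smul]

theorem h95_mem_HomS (ψ : GQ → W) : ψ ∈ h95_HomS S L₀ C σ ↔
    IsLevelConstantS₁ S ψ ∧ (∀ g, g ∉ L₀.U → ψ g = 0) ∧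
    (∀ u ∈ L₀.U, ∀ u' ∈ L₀.U, ψ (u * u') = ψ u + ψ u') ∧
    (∀ (h : GQ) (hh : QuotientGroup.mk' L₀.U h ∈ C), ∀ u ∈ L₀.U,
      ψ (h * u * h⁻¹) = σ ⟨_, hh⟩ (ψ u)) := Iff.rfl

/-! ### Cocycles of a module trivial on `U` -/

section Coc

variable {S} {L₀}
variable (M : Rep.{0, 0, 0} (ZMod p) GQ) (hM : ∀ s ∈ L₀.U, M.ρ s = 1)
  (z : GQ → M) (hz : ∀ g h, z (g * h) = z g + M.ρ g (z h))

include hz in
theorem h95_coc_one : z 1 = 0 := by
  have := hz 1 1
  rw [mul_one, map_one, Module.End.one_apply] at this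
  exact left_eq_add.1 this

include hz in
theorem h95_coc_inv (g : GQ) : z g⁻¹ = - M.ρ g⁻¹ (z g) := by
  have := hz g⁻¹ g
  rw [inv_mul_cancel, h95_coc_one M z hz] at this
  exact eq_neg_of_add_eq_zero_left this.symm

include hM hz in
theorem h95_coc_add (u : GQ) (hu : u ∈ L₀.U) (u' : GQ) : z (u * u') = z u + z u' := by
  rw [hz, hM u hu, Module.End.one_apply]

include hM hz in
theorem h95_coc_conj (g u : GQ) (hu : u ∈ L₀.U) : z (g * u * g⁻¹) = M.ρ g (z u) := by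
  have hc : g * u * g⁻¹ ∈ L₀.U := (inferInstance : L₀.U.Normal).conj_mem u hu g
  have h2 : z (g * u * g⁻¹) = z g + M.ρ g (z u) - M.ρ (g * u * g⁻¹) (z g) := by
    rw [hz (g * u) g⁻¹, hz g u, h95_coc_inv M z hz g, map_neg, ← Module.End.mul_apply, ← map_mul]
    abel
  rw [h2, hM _ hc, Module.End.one_apply]
  abel

end Coc

/-! ### The plain form of a level 1-cocycle -/

section Plain

variable {S}
variable (M : Rep.{0, 0, 0} (ZMod p) GQ)

theorem h95_Z1_cocycle (z : ↥(h4_Z (h72_levels S) M 1)) (g h : GQ) :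
    z.1 (fun _ => g * h) = z.1 (fun _ => g) + M.ρ g (z.1 (fun _ => h)) := by
  have h1 := (h72_d1_eq_zero_iff M z.1).1 z.2.2
  have h2 := (mem_cocycles₁_iff (fun g : GQ => z.1 (fun _ => g))).1 h1 g h
  rw [h2, add_comm]

theorem h95_Z1_level (z : ↥(h4_Z (h72_levels S) M 1)) :
    IsLevelConstantS₁ S (fun g : GQ => z.1 (fun _ => g)) := (h72_isLevel_one S z.1).1 z.2.1

/-- a plain level 1-cocycle as an element of `h4_Z`. -/
theorem h95_Z1_mk (z' : GQ → M) (hz : ∀ g h, z' (g * h) = z' g + M.ρ g (z' h))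
    (hlev : IsLevelConstantS₁ S z') :
    (fun v : Fin 1 → GQ => z' (v 0)) ∈ h4_Z (h72_levels S) M 1 := by
  refine ⟨(h72_isLevel_one S _).2 hlev, (h72_d1_eq_zero_iff M _).2 ?_⟩
  exact (mem_cocycles₁_iff (fun g : GQ => z' g)).2 fun g h => by rw [hz g h, add_comm]

/-- the class of a level 1-cocycle vanishes iff its plain form is a coboundary. -/
theorem h95_Z1_π_eq_zero_iff (z : ↥(h4_Z (h72_levels S) M 1)) :
    h4_π (h72_levels S) M 1 z = 0 ↔ ∃ a : M, ∀ g : GQ, z.1 (fun _ => g) = M.ρ g a - a := by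
  rw [h4_π_eq_zero_iff_succ]
  constructor
  · rintro ⟨y, -, hy⟩
    obtain ⟨a, h1⟩ : ∃ a : M, (d₀₁ M).hom a = fun g : GQ => z.1 (fun _ => g) :=
      ⟨_, (h72_d0_eq_iff M y z.1).1 hy⟩
    refine ⟨a, fun g => ?_⟩
    have h2 := congrFun h1 g
    rw [d₀₁_hom_apply] at h2
    exact h2.symm
  · rintro ⟨a, ha⟩
    refine ⟨fun _ => a, h72_isLevel_zero S _, (h72_d0_eq_iff M _ z.1).2 ?_⟩
    funext g
    rw [d₀₁_hom_apply]
    exact (ha g).symm

end Plain

/-! ### Restriction-evaluation -/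

section Shir

variable {S}

open Classical in
/-- restriction to `U` and evaluation at `1` of a plain cochain. -/
def h95_shirFun (z' : GQ → h95_Mσ L₀ C σ) : GQ → W := fun g =>
  if g ∈ L₀.U then (z' g : Representation.coindV C.subtype σ).1 1 else 0

theorem h95_shirFun_of_mem (z' : GQ → h95_Mσ L₀ C σ) {g : GQ} (hg : g ∈ L₀.U) :
    h95_shirFun L₀ C σ z' g = (z' g : Representation.coindV C.subtype σ).1 1 := by
  classical
  exact if_pos hg

theorem h95_shirFun_of_not_mem (z' : GQ → h95_Mσ L₀ C σ) {g : GQ} (hg : g ∉ L₀.U) :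
    h95_shirFun L₀ C σ z' g = 0 := by
  classical
  exact if_neg hg

theorem h95_shirFun_mem (z' : GQ → h95_Mσ L₀ C σ)
    (hz : ∀ g h, z' (g * h) = z' g + (h95_Mσ L₀ C σ).ρ g (z' h))
    (hlev : IsLevelConstantS₁ S z') : h95_shirFun L₀ C σ z' ∈ h95_HomS S L₀ C σ := by
  classical
  have hM := h95_Mσ_trivial L₀ C σ
  refine ⟨?_, fun g hg => h95_shirFun_of_not_mem L₀ C σ z' hg, fun u hu u' hu' => ?_,
    fun h hh u hu => ?_⟩
  · obtain ⟨F, hF₀, hF, -, hinv⟩ := (h97_isLevelConstantS₁_iff S L₀.F L₀.unr _).1 hlev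
    refine ⟨F, hF, fun g s hs => ?_⟩
    have hsU : s ∈ L₀.U := IntermediateField.fixingSubgroup_antitone hF₀ hs
    by_cases hg : g ∈ L₀.U
    · rw [h95_shirFun_of_mem L₀ C σ z' (L₀.U.mul_mem hg hsU), h95_shirFun_of_mem L₀ C σ z' hg,
        hinv g s hs]
    · rw [h95_shirFun_of_not_mem L₀ C σ z' hg, h95_shirFun_of_not_mem L₀ C σ z'
        (fun h => hg ((Subgroup.mul_mem_cancel_right L₀.U hsU).1 h))]
  · rw [h95_shirFun_of_mem L₀ C σ z' (L₀.U.mul_mem hu hu'), h95_shirFun_of_mem L₀ C σ z' hu,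
      h95_shirFun_of_mem L₀ C σ z' hu', h95_coc_add (h95_Mσ L₀ C σ) hM z' hz u hu u']
    rfl
  · have hc : h * u * h⁻¹ ∈ L₀.U := (inferInstance : L₀.U.Normal).conj_mem u hu h
    rw [h95_shirFun_of_mem L₀ C σ z' hc, h95_shirFun_of_mem L₀ C σ z' hu,
      h95_coc_conj (h95_Mσ L₀ C σ) hM z' hz h u hu, h95_Mσ_ρ_apply, one_mul]
    have h1 := (z' u : Representation.coindV C.subtype σ).2 ⟨_, hh⟩ 1
    rw [mul_one] at h1
    exact h1

theorem h95_shirFun_add (z₁ z₂ : GQ → h95_Mσ L₀ C σ) :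
    h95_shirFun L₀ C σ (z₁ + z₂) = h95_shirFun L₀ C σ z₁ + h95_shirFun L₀ C σ z₂ := by
  classical
  funext g
  by_cases hg : g ∈ L₀.U
  · rw [Pi.add_apply, h95_shirFun_of_mem L₀ C σ _ hg, h95_shirFun_of_mem L₀ C σ _ hg,
      h95_shirFun_of_mem L₀ C σ _ hg]
    rfl
  · rw [Pi.add_apply, h95_shirFun_of_not_mem L₀ C σ _ hg, h95_shirFun_of_not_mem L₀ C σ _ hg,
      h95_shirFun_of_not_mem L₀ C σ _ hg, add_zero]

theorem h95_shirFun_smul (a : ZMod p) (z₁ : GQ → h95_Mσ L₀ C σ) :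
    h95_shirFun L₀ C σ (a • z₁) = a • h95_shirFun L₀ C σ z₁ := by
  classical
  funext g
  by_cases hg : g ∈ L₀.U
  · rw [Pi.smul_apply, h95_shirFun_of_mem L₀ C σ _ hg, h95_shirFun_of_mem L₀ C σ _ hg]
    rfl
  · rw [Pi.smul_apply, h95_shirFun_of_not_mem L₀ C σ _ hg, h95_shirFun_of_not_mem L₀ C σ _ hg,
      smul_zero]

/-- **Restriction-evaluation** `z ↦ (u ↦ z(u)(1))` on level 1-cocycles. -/
def h95_shirMap :
    ↥(h4_Z (h72_levels S) (h95_Mσ L₀ C σ) 1) →ₗ[ZMod p] ↥(h95_HomS S L₀ C σ) where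
  toFun z := ⟨h95_shirFun L₀ C σ (fun g => z.1 (fun _ => g)),
    h95_shirFun_mem L₀ C σ _ (h95_Z1_cocycle _ z) (h95_Z1_level _ z)⟩
  map_add' z z' := Subtype.ext (h95_shirFun_add L₀ C σ _ _)
  map_smul' a z := Subtype.ext (h95_shirFun_smul L₀ C σ a _)

theorem h95_shirMap_apply (z : ↥(h4_Z (h72_levels S) (h95_Mσ L₀ C σ) 1)) (g : GQ) :
    (h95_shirMap L₀ C σ z).1 g = h95_shirFun L₀ C σ (fun g => z.1 (fun _ => g)) g := rfl

/-- (CT) for the base-case module itself: inflated cocycles are coboundaries. -/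
theorem h95_CT_coind (hcop : (Nat.card C).Coprime p) : h95_CT L₀ (h95_Mσ L₀ C σ) := by
  classical
  intro z hz hzU
  haveI : Finite (GQ ⧸ L₀.U) := h97_lev_finite_quot L₀
  set H : Subgroup GQ := C.comap (QuotientGroup.mk' L₀.U) with hH
  have hUH : L₀.U ≤ H := by
    intro u hu
    rw [hH, Subgroup.mem_comap]
    have : QuotientGroup.mk' L₀.U u = 1 := (QuotientGroup.eq_one_iff u).2 hu
    rw [this]
    exact C.one_mem
  have hrel : L₀.U.relIndex H = Nat.card C := by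
    have h1 : (⊥ : Subgroup (GQ ⧸ L₀.U)).comap (QuotientGroup.mk' L₀.U) = L₀.U :=
      QuotientGroup.ker_mk' L₀.U
    conv_lhs => rw [← h1]
    rw [hH, Subgroup.relIndex_comap, Subgroup.map_comap_eq_self_of_surjective
      (QuotientGroup.mk'_surjective L₀.U), Subgroup.relIndex_bot_left]
  obtain ⟨h1, h2⟩ := h95_coind_trace (p := p) L₀.U C σ
  exact h95_rel_trace_vanish ((Representation.coind C.subtype σ).comp (QuotientGroup.mk' L₀.U))
    L₀.U H hUH (by rw [hrel]; exact hcop) (h95_coindTheta L₀.U C σ) h1 h2 z hz hzU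

/-- **The kernel of restriction-evaluation is the coboundaries.** -/
theorem h95_shirMap_ker (hcop : (Nat.card C).Coprime p) :
    LinearMap.ker (h95_shirMap L₀ C σ) =
      LinearMap.ker (h4_π (h72_levels S) (h95_Mσ L₀ C σ) 1) := by
  classical
  have hM := h95_Mσ_trivial L₀ C σ
  ext z
  rw [LinearMap.mem_ker, LinearMap.mem_ker, h95_Z1_π_eq_zero_iff]
  have hz := h95_Z1_cocycle (h95_Mσ L₀ C σ) z
  constructor
  · intro h0
    -- `z` vanishes on `U`
    have h1 : ∀ u ∈ L₀.U, (z.1 (fun _ => u) : Representation.coindV C.subtype σ).1 1 = 0 := by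
      intro u hu
      have := congrArg (fun ψ : ↥(h95_HomS S L₀ C σ) => ψ.1 u) h0
      simp only [h95_shirMap_apply] at this
      rw [h95_shirFun_of_mem L₀ C σ _ hu] at this
      exact this
    have h2 : ∀ u ∈ L₀.U, z.1 (fun _ => u) = 0 := by
      intro u hu
      apply Subtype.ext
      funext x
      obtain ⟨g, rfl⟩ := QuotientGroup.mk'_surjective L₀.U x
      have hc : g * u * g⁻¹ ∈ L₀.U := (inferInstance : L₀.U.Normal).conj_mem u hu g
      have h3 := h1 _ hc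
      rw [h95_coc_conj (h95_Mσ L₀ C σ) hM (fun g => z.1 (fun _ => g)) hz g u hu,
        h95_Mσ_ρ_apply, one_mul] at h3
      exact h3
    exact h95_CT_coind L₀ C σ hcop (fun g => z.1 (fun _ => g)) hz
      (fun g s hs => by rw [hz, h2 s hs, map_zero, add_zero])
  · rintro ⟨a, ha⟩
    apply Subtype.ext
    funext g
    rw [h95_shirMap_apply]
    by_cases hg : g ∈ L₀.U
    · rw [h95_shirFun_of_mem L₀ C σ _ hg, ha g, hM g hg, Module.End.one_apply, sub_self]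
      rfl
    · rw [h95_shirFun_of_not_mem L₀ C σ _ hg]
      rfl

end Shir

/-! ### Surjectivity: the explicit inverse -/

section Inv

variable {S}

/-- `t(x, g) = s(x) g s(x ḡ)⁻¹ ∈ U` for the section `s = Quotient.out` of `G_ℚ → G_ℚ ⧸ U`. -/
def h95_shirT (x : GQ ⧸ L₀.U) (g : GQ) : GQ :=
  x.out * g * ((x * QuotientGroup.mk' L₀.U g).out)⁻¹

theorem h95_mk_out (x : GQ ⧸ L₀.U) : QuotientGroup.mk' L₀.U x.out = x :=
  QuotientGroup.out_eq' x

theorem h95_shirT_mem (x : GQ ⧸ L₀.U) (g : GQ) : h95_shirT L₀ x g ∈ L₀.U := by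
  rw [← QuotientGroup.eq_one_iff]
  show QuotientGroup.mk' L₀.U (h95_shirT L₀ x g) = 1
  rw [h95_shirT, map_mul, map_mul, map_inv, h95_mk_out, h95_mk_out, mul_inv_cancel]

theorem h95_shirT_mul (x : GQ ⧸ L₀.U) (g g' : GQ) :
    h95_shirT L₀ x (g * g') =
      h95_shirT L₀ x g * h95_shirT L₀ (x * QuotientGroup.mk' L₀.U g) g' := by
  simp only [h95_shirT, map_mul, mul_assoc]
  group

theorem h95_shirT_mul_right (x : GQ ⧸ L₀.U) (g s : GQ) (hs : s ∈ L₀.U) :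
    h95_shirT L₀ x (g * s) = h95_shirT L₀ x g *
      ((x * QuotientGroup.mk' L₀.U g).out * s * ((x * QuotientGroup.mk' L₀.U g).out)⁻¹) := by
  have h1 : QuotientGroup.mk' L₀.U s = 1 := (QuotientGroup.eq_one_iff s).2 hs
  simp only [h95_shirT, map_mul, h1, mul_one]
  group

theorem h95_shirT_of_mem (x : GQ ⧸ L₀.U) (u : GQ) (hu : u ∈ L₀.U) :
    h95_shirT L₀ x u = x.out * u * (x.out)⁻¹ := by
  have h1 : QuotientGroup.mk' L₀.U u = 1 := (QuotientGroup.eq_one_iff u).2 hu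
  rw [h95_shirT, h1, mul_one]

variable [Fintype C]

/-- the explicit inverse of restriction-evaluation:
`z(g)(x) = |C|⁻¹ ∑_{c ∈ C} σ(c)⁻¹ ψ(t(c x, g))`. -/
def h95_shirInv (ψ : GQ → W) (g : GQ) (x : GQ ⧸ L₀.U) : W :=
  (Nat.card C : ZMod p)⁻¹ • ∑ c : C, σ c⁻¹ (ψ (h95_shirT L₀ ((c : GQ ⧸ L₀.U) * x) g))

theorem h95_shirInv_mem (ψ : GQ → W) (g : GQ) :
    h95_shirInv L₀ C σ ψ g ∈ Representation.coindV C.subtype σ := by
  intro c₀ x
  show h95_shirInv L₀ C σ ψ g ((c₀ : GQ ⧸ L₀.U) * x) = σ c₀ (h95_shirInv L₀ C σ ψ g x)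
  rw [h95_shirInv, h95_shirInv, map_smul, map_sum]
  congr 1
  refine Fintype.sum_equiv (Equiv.mulRight c₀) _ _ (fun c => ?_)
  show σ c⁻¹ (ψ (h95_shirT L₀ ((c : GQ ⧸ L₀.U) * ((c₀ : GQ ⧸ L₀.U) * x)) g)) =
    σ c₀ (σ (c * c₀)⁻¹ (ψ (h95_shirT L₀ (((c * c₀ : C) : GQ ⧸ L₀.U) * x) g)))
  rw [← Module.End.mul_apply, ← map_mul, mul_inv_rev, mul_inv_cancel_left, Subgroup.coe_mul,
    mul_assoc]

theorem h95_shirInv_cocycle (ψ : GQ → W)
    (hadd : ∀ u ∈ L₀.U, ∀ u' ∈ L₀.U, ψ (u * u') = ψ u + ψ u') (g g' : GQ) (x : GQ ⧸ L₀.U) :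
    h95_shirInv L₀ C σ ψ (g * g') x =
      h95_shirInv L₀ C σ ψ g x + h95_shirInv L₀ C σ ψ g' (x * QuotientGroup.mk' L₀.U g) := by
  rw [h95_shirInv, h95_shirInv, h95_shirInv, ← smul_add, ← Finset.sum_add_distrib]
  congr 1
  refine Finset.sum_congr rfl (fun c _ => ?_)
  rw [h95_shirT_mul, hadd _ (h95_shirT_mem L₀ _ _) _ (h95_shirT_mem L₀ _ _), map_add, mul_assoc]

theorem h95_shirInv_level (ψ : GQ → W) (F : IntermediateField ℚ Qb)
    (hFU : F.fixingSubgroup ≤ L₀.U) (hFn : F.fixingSubgroup.Normal)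
    (hinv : ∀ g s, s ∈ F.fixingSubgroup → ψ (g * s) = ψ g) (g s : GQ)
    (hs : s ∈ F.fixingSubgroup) :
    h95_shirInv L₀ C σ ψ (g * s) = h95_shirInv L₀ C σ ψ g := by
  funext x
  rw [h95_shirInv, h95_shirInv]
  congr 1
  refine Finset.sum_congr rfl (fun c _ => ?_)
  rw [h95_shirT_mul_right L₀ _ g s (hFU hs), hinv _ _ (hFn.conj_mem s hs _)]

theorem h95_shirInv_eval (hcop : (Nat.card C).Coprime p) (ψ : GQ → W)
    (heqv : ∀ (h : GQ) (hh : QuotientGroup.mk' L₀.U h ∈ C), ∀ u ∈ L₀.U,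
      ψ (h * u * h⁻¹) = σ ⟨_, hh⟩ (ψ u)) (u : GQ) (hu : u ∈ L₀.U) :
    h95_shirInv L₀ C σ ψ u 1 = ψ u := by
  have hp : p.Prime := Fact.out
  have hm0 : ((Nat.card C : ℕ) : ZMod p) ≠ 0 := by
    intro h0
    rw [ZMod.natCast_eq_zero_iff] at h0
    have h1 : p ∣ Nat.gcd (Nat.card C) p := Nat.dvd_gcd h0 dvd_rfl
    rw [Nat.Coprime.gcd_eq_one hcop] at h1
    exact hp.one_lt.ne' (Nat.dvd_one.1 h1)
  have hterm : ∀ c : C, σ c⁻¹ (ψ (h95_shirT L₀ ((c : GQ ⧸ L₀.U) * 1) u)) = ψ u := by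
    intro c
    have hc : QuotientGroup.mk' L₀.U ((c : GQ ⧸ L₀.U)).out ∈ C := by
      rw [h95_mk_out]
      exact c.2
    have hce : (⟨_, hc⟩ : C) = c := Subtype.ext (h95_mk_out L₀ _)
    rw [mul_one, h95_shirT_of_mem L₀ _ u hu, heqv _ hc u hu, hce, ← Module.End.mul_apply,
      ← map_mul, inv_mul_cancel, map_one, Module.End.one_apply]
  rw [h95_shirInv, Finset.sum_congr rfl (fun c _ => hterm c), Finset.sum_const, Finset.card_univ,
    ← Nat.card_eq_fintype_card, ← Nat.cast_smul_eq_nsmul (ZMod p), smul_smul,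
    inv_mul_cancel₀ hm0, one_smul]

end Inv

section Final

variable {S}

/-- **Restriction-evaluation is surjective.** -/
theorem h95_shirMap_surjective (hcop : (Nat.card C).Coprime p) :
    Function.Surjective (h95_shirMap L₀ C σ) := by
  classical
  intro ψ
  obtain ⟨hlev, hout, hadd, heqv⟩ := ψ.2
  haveI : Finite (GQ ⧸ L₀.U) := h97_lev_finite_quot L₀
  haveI : Fintype C := Fintype.ofFinite C
  obtain ⟨F, hF₀, hF, hgal, hinv⟩ := (h97_isLevelConstantS₁_iff S L₀.F L₀.unr _).1 hlev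
  have hFU : F.fixingSubgroup ≤ L₀.U := IntermediateField.fixingSubgroup_antitone hF₀
  have hFn : F.fixingSubgroup.Normal := h72_fixingSubgroup_normal F hgal
  let z' : GQ → h95_Mσ L₀ C σ := fun g =>
    (⟨h95_shirInv L₀ C σ ψ.1 g, h95_shirInv_mem L₀ C σ ψ.1 g⟩ :
      Representation.coindV C.subtype σ)
  have hz'c : ∀ g h, z' (g * h) = z' g + (h95_Mσ L₀ C σ).ρ g (z' h) := by
    intro g h
    apply Subtype.ext
    funext x
    exact h95_shirInv_cocycle L₀ C σ ψ.1 hadd g h x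
  have hz'l : IsLevelConstantS₁ S z' := by
    refine ⟨F, hF, fun g s hs => ?_⟩
    apply Subtype.ext
    exact h95_shirInv_level L₀ C σ ψ.1 F hFU hFn hinv g s hs
  refine ⟨⟨fun v => z' (v 0), h95_Z1_mk (h95_Mσ L₀ C σ) z' hz'c hz'l⟩, ?_⟩
  apply Subtype.ext
  funext g
  rw [h95_shirMap_apply]
  by_cases hg : g ∈ L₀.U
  · rw [h95_shirFun_of_mem L₀ C σ _ hg]
    exact h95_shirInv_eval L₀ C σ hcop ψ.1 heqv g hg
  · rw [h95_shirFun_of_not_mem L₀ C σ _ hg, hout g hg]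

/-- **C1 (SHIR)**: `H¹(G_S, infl coind_C σ) ≃ {S-level C-equivariant homomorphisms U → W}`. -/
def h95_shirEquiv (hcop : (Nat.card C).Coprime p) :
    ↥(h4_H (h72_levels S) (h95_Mσ L₀ C σ) 1) ≃ₗ[ZMod p] ↥(h95_HomS S L₀ C σ) :=
  h95_equivOfKerEq (h4_π (h72_levels S) (h95_Mσ L₀ C σ) 1) (h95_shirMap L₀ C σ)
    (h4_π_surjective _ _ 1) (h95_shirMap_surjective L₀ C σ hcop)
    (h95_shirMap_ker L₀ C σ hcop).symm

theorem h95_shirEquiv_π (hcop : (Nat.card C).Coprime p)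
    (z : ↥(h4_Z (h72_levels S) (h95_Mσ L₀ C σ) 1)) :
    h95_shirEquiv L₀ C σ hcop (h4_π (h72_levels S) (h95_Mσ L₀ C σ) 1 z) =
      h95_shirMap L₀ C σ z :=
  h95_equivOfKerEq_apply _ _ _ _ _ z

/-- **C1 (SHIR), dimension form**: the `h¹`-term of `h72_chi` for the base-case module. -/
theorem h95_shir (hcop : (Nat.card C).Coprime p) :
    Module.finrank (ZMod p) ↥(h4_H (h72_levels S) (h95_Mσ L₀ C σ) 1) =
      Module.finrank (ZMod p) ↥(h95_HomS S L₀ C σ) :=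
  (h95_shirEquiv L₀ C σ hcop).finrank_eq

end Final

end Fermat.Agent.S56
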