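import Fermat.Agent.S56.h33_KumCount
import Fermat.Agent.S56.h95_Shir
import Fermat.Agent.S56.h72_BaseDefs

/-!
# S56, front W1: C1 (SHIR) + C2 (KUM) = the `h¹`-term of the base case

`L₀` an `S`-level containing a primitive `p`-th root of unity, `C = ⟨γ̄⟩ ≤ G_ℚ ⧸ L₀.U` cyclic,
`σ` a representation of `C` on an `𝔽_p`-vector space `W`.  Then helper95's space
`h95_HomS S L₀ C σ` (the `S`-level maps `G_ℚ → W`, zero outside `U`, additive on `U`,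
`C`-equivariant; `h95_shir`: its dimension is `h¹(G_S, infl coind_C^G W)`) is isomorphic to the
`χ_p(γ)`-eigenspace of `γ ⊗ σ(γ̄)` on `E_S/p ⊗ W` (`h33_kum_shir_equiv`, `h33_kum_shir`), hence
`h¹(G_S, h95_Mσ L₀ C σ)` is the dimension of that eigenspace (`h33_h1_base`).
-/

set_option autoImplicit false
set_option linter.unusedSectionVars false
set_option linter.unusedVariables false

open NumberField IsDedekindDomain groupCohomology ExtCitation TensorProduct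

namespace Fermat.Agent.S56

open Fermat.Agent.S55

local notation "Qb" => AlgebraicClosure ℚ
local notation "GQ" => (AlgebraicClosure ℚ ≃ₐ[ℚ] AlgebraicClosure ℚ)

section Gen

variable {p : ℕ} [Fact p.Prime] {S : Finset Nat.Primes} (L₀ : h72_Lev S)
  (C : Subgroup (GQ ⧸ L₀.U)) {W : Type} [AddCommGroup W] [Module (ZMod p) W]
  (σ : Representation (ZMod p) C W)

/-- additive maps on `U` are invariant under conjugation by `U`. -/
theorem h33_add_conj_inv (φ : GQ → W)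
    (hadd : ∀ u ∈ L₀.U, ∀ u' ∈ L₀.U, φ (u * u') = φ u + φ u') {v u : GQ} (hv : v ∈ L₀.U)
    (hu : u ∈ L₀.U) : φ (v * u * v⁻¹) = φ u := by
  have h1 : φ 1 = 0 := by
    have := hadd 1 (one_mem _) 1 (one_mem _)
    rw [one_mul] at this
    exact left_eq_add.mp this
  have h2 : φ v⁻¹ = -φ v := by
    have := hadd v hv v⁻¹ (inv_mem hv)
    rw [mul_inv_cancel, h1] at this
    exact eq_neg_of_add_eq_zero_right this.symm
  rw [hadd _ (mul_mem hv hu) _ (inv_mem hv), hadd v hv u hu, h2]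
  abel

/-- **From the generator to the cyclic group**: an additive map on `U` which is equivariant for
`γ` is equivariant for every `h` whose class lies in `C = ⟨γ̄⟩`. -/
theorem h33_equivariant_of_gen (γ : GQ)
    (hC : C = Subgroup.zpowers (QuotientGroup.mk' L₀.U γ))
    (hγ : QuotientGroup.mk' L₀.U γ ∈ C) (φ : GQ → W)
    (hadd : ∀ u ∈ L₀.U, ∀ u' ∈ L₀.U, φ (u * u') = φ u + φ u')
    (hgen : ∀ u ∈ L₀.U, φ (γ * u * γ⁻¹) = σ ⟨_, hγ⟩ (φ u))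
    (h : GQ) (hh : QuotientGroup.mk' L₀.U h ∈ C) (u : GQ) (hu : u ∈ L₀.U) :
    φ (h * u * h⁻¹) = σ ⟨_, hh⟩ (φ u) := by
  have hfin : Finite (GQ ⧸ L₀.U) := h97_lev_finite_quot L₀
  have hpow : ∀ n : ℕ, ∀ v ∈ L₀.U, φ (γ ^ n * v * (γ ^ n)⁻¹) = (σ ⟨_, hγ⟩ ^ n) (φ v) := by
    intro n
    induction n with
    | zero =>
      intro v hv
      rw [pow_zero, one_mul, inv_one, mul_one, pow_zero, Module.End.one_apply]
    | succ n ih =>
      intro v hv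
      have hconj : γ ^ n * v * (γ ^ n)⁻¹ ∈ L₀.U := Subgroup.Normal.conj_mem inferInstance v hv _
      have e : γ ^ (n + 1) * v * (γ ^ (n + 1))⁻¹ = γ * (γ ^ n * v * (γ ^ n)⁻¹) * γ⁻¹ := by
        rw [pow_succ']
        group
      rw [e, hgen _ hconj, ih v hv, pow_succ', Module.End.mul_apply]
  have hmem : QuotientGroup.mk' L₀.U h ∈ Submonoid.powers (QuotientGroup.mk' L₀.U γ) := by
    rw [mem_powers_iff_mem_zpowers, ← hC]
    exact hh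
  obtain ⟨n, hn⟩ := hmem
  have hn' : QuotientGroup.mk' L₀.U (γ ^ n) = QuotientGroup.mk' L₀.U h := by
    rw [map_pow]
    exact hn
  have hv : (γ ^ n)⁻¹ * h ∈ L₀.U := QuotientGroup.eq.mp hn'
  have e : h * u * h⁻¹ =
      γ ^ n * (((γ ^ n)⁻¹ * h) * u * ((γ ^ n)⁻¹ * h)⁻¹) * (γ ^ n)⁻¹ := by group
  have hσ : σ ⟨_, hh⟩ = σ ⟨_, hγ⟩ ^ n := by
    rw [← map_pow]
    congr 1
    exact Subtype.ext hn.symm
  rw [e, hpow n _ (Subgroup.Normal.conj_mem inferInstance u hu _),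
    h33_add_conj_inv L₀ φ hadd hv hu, hσ]

end Gen

section Theta

variable (S : Finset Nat.Primes) (p : ℕ) [Fact p.Prime] (F : IntermediateField ℚ Qb)
  [NumberField ↥F] (W : Type) [AddCommGroup W] [Module (ZMod p) W]

/-- The map `x ↦ (s ↦ (κ s ⊗ id) x)` from `E_S/p ⊗ W` to the functions on `Gal(Qbar/ℚ)`
(zero outside `Gal(Qbar/F)`). -/
noncomputable def h33_kumTheta {ζ : ↥F} (hζ : IsPrimitiveRoot ζ p) :
    (ZMod p ⊗[ℤ] Additive ↥(h33_ES S F)) ⊗[ZMod p] W →ₗ[ZMod p] (GQ → W) where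
  toFun x s := h33_tev (h33_kumDual S p F hζ s) x
  map_add' x y := by
    funext s
    simp only [map_add, Pi.add_apply]
  map_smul' c x := by
    funext s
    simp only [map_smul, Pi.smul_apply, RingHom.id_apply]

theorem h33_kumTheta_apply {ζ : ↥F} (hζ : IsPrimitiveRoot ζ p)
    (x : (ZMod p ⊗[ℤ] Additive ↥(h33_ES S F)) ⊗[ZMod p] W) (s : GQ) :
    h33_kumTheta S p F W hζ x s = h33_tev (h33_kumDual S p F hζ s) x := rfl

theorem h33_kumTheta_injective {ζ : ↥F} (hζ : IsPrimitiveRoot ζ p) :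
    Function.Injective (h33_kumTheta S p F W hζ) := by
  intro x y hxy
  apply h33_kumMap_injective S p F W hζ
  funext s
  exact congrFun hxy (s : GQ)

end Theta

section Main

variable {p : ℕ} [Fact p.Prime] {S : Finset Nat.Primes} (L₀ : h72_Lev S)
  (C : Subgroup (GQ ⧸ L₀.U)) {W : Type} [AddCommGroup W] [Module (ZMod p) W]
  (σ : Representation (ZMod p) C W)

theorem h33_kumTheta_mem_iff (hpS : pPrime p ∈ S) {ζ : ↥L₀.F} (hζ : IsPrimitiveRoot ζ p)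
    (γ : GQ) (hC : C = Subgroup.zpowers (QuotientGroup.mk' L₀.U γ))
    (hγ : QuotientGroup.mk' L₀.U γ ∈ C)
    (x : (ZMod p ⊗[ℤ] Additive ↥(h33_ES S L₀.F)) ⊗[ZMod p] W) :
    h33_kumTheta S p L₀.F W hζ x ∈ h95_HomS S L₀ C σ ↔
      x ∈ Module.End.eigenspace (TensorProduct.map (h33_actA S p L₀.F γ) (σ ⟨_, hγ⟩))
        ((cycloChar p γ : (ZMod p)ˣ) : ZMod p) := by
  have hF : h25_IsLevel S L₀.F := ⟨L₀.unr, L₀.gal⟩
  obtain ⟨h1, h2, h3⟩ := h33_kum_tensor_level S p L₀.F hpS hF hζ x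
  have hiff := h33_kum_tensor_equivariant_iff S p L₀.F hζ γ (σ ⟨_, hγ⟩) x
  rw [Module.End.mem_eigenspace_iff, ← hiff, h95_mem_HomS]
  constructor
  · rintro ⟨-, -, -, h4⟩ s hs
    exact h4 γ hγ s hs
  · intro h4
    refine ⟨h3, h2, h1, ?_⟩
    intro h hh u hu
    exact h33_equivariant_of_gen L₀ C σ γ hC hγ (h33_kumTheta S p L₀.F W hζ x) h1 h4 h hh u hu

theorem h33_kumTheta_surj {ζ : ↥L₀.F} (hζ : IsPrimitiveRoot ζ p) (hpS : pPrime p ∈ S)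
    (hCK : ∀ c : (↥L₀.F)ˣ ⧸ (powMonoidHom p : (↥L₀.F)ˣ →* (↥L₀.F)ˣ).range,
      c ∈ selmerGroup (R := 𝓞 ↥L₀.F) (K := ↥L₀.F) (S := h46_primesOver S L₀.F) (n := p) →
        ∃ u ∈ (h46_primesOver S L₀.F).unit ↥L₀.F, (QuotientGroup.mk u : (↥L₀.F)ˣ ⧸ _) = c)
    (ψ : GQ → W) (hψ : ψ ∈ h95_HomS S L₀ C σ) :
    ∃ x, h33_kumTheta S p L₀.F W hζ x = ψ := by
  have hF : h25_IsLevel S L₀.F := ⟨L₀.unr, L₀.gal⟩
  obtain ⟨hlev, hout, hadd, hequiv⟩ := (h95_mem_HomS S L₀ C σ ψ).mp hψ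
  have hψ1 : ψ 1 = 0 := by
    have := hadd 1 (one_mem _) 1 (one_mem _)
    rw [one_mul] at this
    exact left_eq_add.mp this
  obtain ⟨F₁, hF₁, hconst⟩ := hlev
  have hadd' : ∀ s ∈ L₀.F.fixingSubgroup, ∀ t ∈ L₀.F.fixingSubgroup,
      ψ (s * t) = ψ s + ψ t := hadd
  have hlev' : ∃ F₁ : IntermediateField ℚ Qb, F₁.IsUnramifiedOutside S ∧
      ∀ s ∈ L₀.F.fixingSubgroup, s ∈ F₁.fixingSubgroup → ψ s = 0 := by
    refine ⟨F₁, hF₁, fun s _ hs₁ => ?_⟩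
    have h1 := hconst 1 s hs₁
    rw [one_mul] at h1
    rw [h1, hψ1]
  obtain ⟨x, hx, -⟩ := h33_kum_tensor_existsUnique S p L₀.F hF hζ hCK ψ hadd' hlev'
  refine ⟨x, ?_⟩
  funext s
  rw [h33_kumTheta_apply]
  by_cases hs : s ∈ L₀.U
  · exact (hx s hs).symm
  · rw [hout s hs]
    exact (h33_kum_tensor_level S p L₀.F hpS hF hζ x).2.1 s hs

/-- **C1 + C2, equivalence form**: for `C = ⟨γ̄⟩`, helper95's space `h95_HomS S L₀ C σ` is the
`χ_p(γ)`-eigenspace of `γ ⊗ σ(γ̄)` on `E_S/p ⊗ W`, via `x ↦ (s ↦ (κ s ⊗ id) x)`. -/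
theorem h33_kum_shir_equiv (hpS : pPrime p ∈ S) {ζ : ↥L₀.F} (hζ : IsPrimitiveRoot ζ p)
    (hCK : ∀ c : (↥L₀.F)ˣ ⧸ (powMonoidHom p : (↥L₀.F)ˣ →* (↥L₀.F)ˣ).range,
      c ∈ selmerGroup (R := 𝓞 ↥L₀.F) (K := ↥L₀.F) (S := h46_primesOver S L₀.F) (n := p) →
        ∃ u ∈ (h46_primesOver S L₀.F).unit ↥L₀.F, (QuotientGroup.mk u : (↥L₀.F)ˣ ⧸ _) = c)
    (γ : GQ) (hC : C = Subgroup.zpowers (QuotientGroup.mk' L₀.U γ))
    (hγ : QuotientGroup.mk' L₀.U γ ∈ C) :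
    ∃ e : ↥(Module.End.eigenspace (TensorProduct.map (h33_actA S p L₀.F γ) (σ ⟨_, hγ⟩))
          ((cycloChar p γ : (ZMod p)ˣ) : ZMod p)) ≃ₗ[ZMod p] ↥(h95_HomS S L₀ C σ),
      ∀ x s, (e x : GQ → W) s = h33_tev (h33_kumDual S p L₀.F hζ s) x.1 := by
  have hmem := h33_kumTheta_mem_iff L₀ C σ hpS hζ γ hC hγ
  refine ⟨LinearEquiv.ofBijective
    (((h33_kumTheta S p L₀.F W hζ).comp (Submodule.subtype _)).codRestrict (h95_HomS S L₀ C σ)
      (fun x => (hmem x.1).mpr x.2)) ⟨?_, ?_⟩, fun x s => rfl⟩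
  · intro x y h
    exact Subtype.ext (h33_kumTheta_injective S p L₀.F W hζ (congrArg Subtype.val h))
  · intro ψ
    obtain ⟨x, hx⟩ := h33_kumTheta_surj L₀ C σ hζ hpS hCK ψ.1 ψ.2
    have hxm : x ∈ Module.End.eigenspace (TensorProduct.map (h33_actA S p L₀.F γ) (σ ⟨_, hγ⟩))
        ((cycloChar p γ : (ZMod p)ˣ) : ZMod p) := (hmem x).mp (by rw [hx]; exact ψ.2)
    exact ⟨⟨x, hxm⟩, Subtype.ext hx⟩

/-- **C1 + C2 (the `h¹`-term of the base case)**: for `C = ⟨γ̄⟩`,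
`dim h95_HomS S L₀ C σ = dim ker (γ ⊗ σ(γ̄) - χ_p(γ))` on `E_S/p ⊗ W`. -/
theorem h33_kum_shir (hpS : pPrime p ∈ S) {ζ : ↥L₀.F} (hζ : IsPrimitiveRoot ζ p)
    (hCK : ∀ c : (↥L₀.F)ˣ ⧸ (powMonoidHom p : (↥L₀.F)ˣ →* (↥L₀.F)ˣ).range,
      c ∈ selmerGroup (R := 𝓞 ↥L₀.F) (K := ↥L₀.F) (S := h46_primesOver S L₀.F) (n := p) →
        ∃ u ∈ (h46_primesOver S L₀.F).unit ↥L₀.F, (QuotientGroup.mk u : (↥L₀.F)ˣ ⧸ _) = c)
    (γ : GQ) (hC : C = Subgroup.zpowers (QuotientGroup.mk' L₀.U γ))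
    (hγ : QuotientGroup.mk' L₀.U γ ∈ C) :
    Module.finrank (ZMod p) ↥(h95_HomS S L₀ C σ) =
      Module.finrank (ZMod p)
        ↥(Module.End.eigenspace (TensorProduct.map (h33_actA S p L₀.F γ) (σ ⟨_, hγ⟩))
          ((cycloChar p γ : (ZMod p)ˣ) : ZMod p)) := by
  obtain ⟨e, -⟩ := h33_kum_shir_equiv L₀ C σ hpS hζ hCK γ hC hγ
  exact e.finrank_eq.symm

/-- **The `h¹`-term of `h72_chi S (h95_Mσ L₀ C σ)`** for `C = ⟨γ̄⟩` of order prime to `p`. -/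
theorem h33_h1_base (hcop : (Nat.card C).Coprime p) (hpS : pPrime p ∈ S) {ζ : ↥L₀.F}
    (hζ : IsPrimitiveRoot ζ p)
    (hCK : ∀ c : (↥L₀.F)ˣ ⧸ (powMonoidHom p : (↥L₀.F)ˣ →* (↥L₀.F)ˣ).range,
      c ∈ selmerGroup (R := 𝓞 ↥L₀.F) (K := ↥L₀.F) (S := h46_primesOver S L₀.F) (n := p) →
        ∃ u ∈ (h46_primesOver S L₀.F).unit ↥L₀.F, (QuotientGroup.mk u : (↥L₀.F)ˣ ⧸ _) = c)
    (γ : GQ) (hC : C = Subgroup.zpowers (QuotientGroup.mk' L₀.U γ))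
    (hγ : QuotientGroup.mk' L₀.U γ ∈ C) :
    Module.finrank (ZMod p) ↥(h4_H (h72_levels S) (h95_Mσ L₀ C σ) 1) =
      Module.finrank (ZMod p)
        ↥(Module.End.eigenspace (TensorProduct.map (h33_actA S p L₀.F γ) (σ ⟨_, hγ⟩))
          ((cycloChar p γ : (ZMod p)ˣ) : ZMod p)) := by
  rw [h95_shir L₀ C σ hcop]
  exact h33_kum_shir L₀ C σ hpS hζ hCK γ hC hγ

end Main

end Fermat.Agent.S56
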