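import Mathlib
import Fermat.Agent.S56.h12_MidDefs

/-!
# S56 / MID, row MID-TAME (hypothesis form)

`h35_tame_of`: at a Taylor–Wiles prime `q` (`q ≡ 1 mod p`, Frobenius with distinct eigenvalues,
`rb` unramified at `q`), if `ψ ∈ Z¹(G_{S₀}, ad⁰(1))` is non-trivial at `q` and all cup products
`a ∪ (c ψ)` (`c ∈ k`) are locally trivial at `q`, then the TRACE-FREE tangent cocycle `a` is
trivial on inertia at `q`.

The trace hypothesis `htr` is necessary: `a σ = χ σ • rb σ` (`χ` the additive character of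
`Gal(ℚ(ζ_q)/ℚ)` of order `p`) has all cup products zero and is ramified at `q`.

The rows MID-TS1 (`hTS1`), MID-PLACES (`hPL1`, `hPL2`, `hPL3`, `hCYC`, `hPq`) enter as explicit
hypotheses, in the shapes of the skeleton.
-/

set_option autoImplicit false

namespace Fermat.Agent.S56

open Fermat.Agent.S53 Fermat.Agent.S53.Dict ExtCitation groupCohomology

local notation "M₂[" k "]" => Matrix (Fin 2) (Fin 2) k

section MatCore

variable {k : Type} [Field k]

/-- `2 × 2` algebra: if `det A = 1`, `tr Ψ = 0` and `tr (A Ψ) = 0`, then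
`Y' := tr A • (A Ψ) - ((tr A)² - 2) • Ψ` satisfies `A Y' adj(A) - Y' = ((tr A)² - 4) • Ψ`. -/
theorem h35_mat_sol (A Ψ : M₂[k]) (hdet : A.det = 1) (hΨ : Ψ.trace = 0)
    (hAΨ : (A * Ψ).trace = 0) :
    A * (A.trace • (A * Ψ) - (A.trace ^ 2 - 2) • Ψ) * A.adjugate
        - (A.trace • (A * Ψ) - (A.trace ^ 2 - 2) • Ψ) = (A.trace ^ 2 - 4) • Ψ := by
  obtain ⟨a, b, c, d, rfl⟩ : ∃ a b c d : k, A = !![a, b; c, d] :=
    ⟨_, _, _, _, Matrix.eta_fin_two A⟩
  obtain ⟨x, y, z, w, rfl⟩ : ∃ x y z w : k, Ψ = !![x, y; z, w] :=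
    ⟨_, _, _, _, Matrix.eta_fin_two Ψ⟩
  simp only [Matrix.det_fin_two_of] at hdet
  simp only [Matrix.trace_fin_two_of] at hΨ
  simp only [Matrix.mul_fin_two, Matrix.trace_fin_two_of] at hAΨ
  obtain rfl : w = -x := by linear_combination hΨ
  ext i j
  fin_cases i <;> fin_cases j
  · simp only [Fin.zero_eta, Matrix.sub_apply, Matrix.smul_apply, Matrix.mul_apply,
      Fin.sum_univ_two, Matrix.adjugate_fin_two_of, Matrix.trace_fin_two_of, Matrix.of_apply,
      Matrix.cons_val', Matrix.cons_val_zero, Matrix.cons_val_one, Matrix.cons_val_fin_one,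
      smul_eq_mul]
    linear_combination (-(a + d) * (a * x + b * z) - 2 * x +
      ((a - d) * x + b * z + c * y) * (a + d)) * hdet + (-2 * a + (a + d)) * hAΨ
  · simp only [Fin.zero_eta, Fin.mk_one, Matrix.sub_apply, Matrix.smul_apply, Matrix.mul_apply,
      Fin.sum_univ_two, Matrix.adjugate_fin_two_of, Matrix.trace_fin_two_of, Matrix.of_apply,
      Matrix.cons_val', Matrix.cons_val_zero, Matrix.cons_val_one, Matrix.cons_val_fin_one,
      smul_eq_mul]
    linear_combination (-(a + d) * (a * y - b * x) - 2 * y) * hdet + (-2 * b) * hAΨ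
  · simp only [Fin.zero_eta, Fin.mk_one, Matrix.sub_apply, Matrix.smul_apply, Matrix.mul_apply,
      Fin.sum_univ_two, Matrix.adjugate_fin_two_of, Matrix.trace_fin_two_of, Matrix.of_apply,
      Matrix.cons_val', Matrix.cons_val_zero, Matrix.cons_val_one, Matrix.cons_val_fin_one,
      smul_eq_mul]
    linear_combination (-(a + d) * (c * x + d * z) - 2 * z) * hdet + (-2 * c) * hAΨ
  · simp only [Fin.mk_one, Matrix.sub_apply, Matrix.smul_apply, Matrix.mul_apply,
      Fin.sum_univ_two, Matrix.adjugate_fin_two_of, Matrix.trace_fin_two_of, Matrix.of_apply,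
      Matrix.cons_val', Matrix.cons_val_zero, Matrix.cons_val_one, Matrix.cons_val_fin_one,
      smul_eq_mul]
    linear_combination (-(a + d) * (c * y - d * x) + 2 * x +
      ((a - d) * x + b * z + c * y) * (a + d)) * hdet + (-2 * d + (a + d)) * hAΨ

/-- `2 × 2` algebra: a trace-zero `X ≠ 0` commuting with `A` is "parallel to `A`": orthogonality
to `X` implies orthogonality to `A` on trace-zero matrices. -/
theorem h35_mat_parallel (h2 : (2 : k) ≠ 0) (A X Ψ : M₂[k]) (hcomm : A * X = X * A)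
    (hX : X.trace = 0) (hΨ : Ψ.trace = 0) (hXΨ : (X * Ψ).trace = 0) (hX0 : X ≠ 0) :
    (A * Ψ).trace = 0 := by
  obtain ⟨a, b, c, d, rfl⟩ : ∃ a b c d : k, A = !![a, b; c, d] :=
    ⟨_, _, _, _, Matrix.eta_fin_two A⟩
  obtain ⟨x, y, z, w, rfl⟩ : ∃ x y z w : k, Ψ = !![x, y; z, w] :=
    ⟨_, _, _, _, Matrix.eta_fin_two Ψ⟩
  obtain ⟨x1, x2, x3, x4, rfl⟩ : ∃ x1 x2 x3 x4 : k, X = !![x1, x2; x3, x4] :=
    ⟨_, _, _, _, Matrix.eta_fin_two X⟩
  simp only [Matrix.trace_fin_two_of] at hΨ hX
  obtain rfl : w = -x := by linear_combination hΨ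
  obtain rfl : x4 = -x1 := by linear_combination hX
  simp only [Matrix.mul_fin_two, Matrix.trace_fin_two_of] at hXΨ ⊢
  have hC := hcomm
  simp only [Matrix.mul_fin_two] at hC
  have hC1 : b * x3 - c * x2 = 0 := by
    have := congrFun (congrFun hC 0) 0
    simp only [Matrix.of_apply, Matrix.cons_val_zero] at this
    linear_combination this
  have hC2 : (a - d) * x2 - 2 * b * x1 = 0 := by
    have := congrFun (congrFun hC 0) 1
    simp only [Matrix.of_apply, Matrix.cons_val_zero, Matrix.cons_val_one] at this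
    linear_combination this
  have hC3 : 2 * c * x1 - (a - d) * x3 = 0 := by
    have := congrFun (congrFun hC 1) 0
    simp only [Matrix.of_apply, Matrix.cons_val_zero, Matrix.cons_val_one] at this
    linear_combination this
  have hne : x1 ≠ 0 ∨ x2 ≠ 0 ∨ x3 ≠ 0 := by
    by_contra hcon
    push Not at hcon
    obtain ⟨h1, h2', h3⟩ := hcon
    apply hX0
    rw [h1, h2', h3]
    ext i j
    fin_cases i <;> fin_cases j <;> simp
  rcases hne with h1 | h1 | h1
  · have h : 2 * x1 * (a * x + b * z + (c * y + d * -x)) = 0 := by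
      linear_combination (a - d) * hXΨ - z * hC2 + y * hC3
    rcases mul_eq_zero.mp h with h' | h'
    · exact absurd h' (mul_ne_zero h2 h1)
    · exact h'
  · have h : x2 * (a * x + b * z + (c * y + d * -x)) = 0 := by
      linear_combination b * hXΨ + x * hC2 - y * hC1
    rcases mul_eq_zero.mp h with h' | h'
    · exact absurd h' h1
    · exact h'
  · have h : x3 * (a * x + b * z + (c * y + d * -x)) = 0 := by
      linear_combination c * hXΨ - x * hC3 + z * hC1
    rcases mul_eq_zero.mp h with h' | h'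
    · exact absurd h' h1
    · exact h'

/-- **The matrix core of MID-TAME.** -/
theorem h35_mat_core (h2 : (2 : k) ≠ 0) (A X Ψ : M₂[k]) (hdet : A.det = 1)
    (hD : A.trace ^ 2 - 4 ≠ 0) (hcomm : A * X = X * A) (hX : X.trace = 0) (hΨ : Ψ.trace = 0)
    (hXΨ : (X * Ψ).trace = 0)
    (hnon : ∀ Y : M₂[k], Y.trace = 0 → Ψ ≠ A * Y * A.adjugate - Y) : X = 0 := by
  by_contra hX0
  have hAΨ := h35_mat_parallel h2 A X Ψ hcomm hX hΨ hXΨ hX0
  have hsol := h35_mat_sol A Ψ hdet hΨ hAΨ
  refine hnon ((A.trace ^ 2 - 4)⁻¹ • (A.trace • (A * Ψ) - (A.trace ^ 2 - 2) • Ψ)) ?_ ?_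
  · rw [Matrix.trace_smul, Matrix.trace_sub, Matrix.trace_smul, Matrix.trace_smul, hAΨ, hΨ]
    simp
  · rw [Matrix.mul_smul, Matrix.smul_mul, ← smul_sub, hsol, smul_smul, inv_mul_cancel₀ hD,
      one_smul]

end MatCore

section Tame

variable {k : Type} [Field k] [Finite k] (p : ℕ) [Fact p.Prime] [Algebra (ZMod p) k]
variable (rb : GQ →* M₂[k])

/-- **MID-TAME, hypothesis form** (the skeleton statement of `h12_tame` plus the necessary trace
hypothesis `htr`; `hTS1` = `h12_tame_inv`, `hPL1` = `h12_places_conj`, `hPL2` = `h12_decomp_range`,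
`hPL3` = `h12_exists_frob`, `hCYC` = `h12_cyclo_loc_eq_one`, `hPq` = the distinguished place lies
over `q`). -/
theorem h35_tame_of (hp2 : p ≠ 2) (hdet : h12_DetCyc p rb)
    (hrb : GaloisFactorsThroughFiniteLevel rb) (S₀ : Finset Nat.Primes)
    (q : Nat.Primes) (hqS₀ : q ∉ S₀) (hq : h12_IsTWPrime p 0 rb (q : ℕ))
    (hrbq : ∀ P : ValuationSubring (AlgebraicClosure ℚ), P.LiesOverPrime (q : ℕ) →
      ∀ σ ∈ P.inertiaSubgroupIn ℚ, rb σ = 1)
    (a : GQ → M₂[k]) (ha : a ∈ h40_TanZ rb)
    (htr : ∀ σ, (a σ * (rb σ).adjugate).trace = 0)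
    (ψ : GQ → M₂[k]) (hψ : ψ ∈ h12_ZN rb S₀) (hψq : h12_FrobNonCob rb ψ (q : ℕ))
    (h : ∀ c : k, h12_LocCob₂ p q (h12_cup p rb a (c • ψ)))
    (hTS1 : ∀ (A : Type) [AddCommGroup A], (∀ x : A, p • x = 0) →
      ∀ w : primeLocalGaloisGroup q → A, IsLevelConstant₁ (primeLocalToGlobal q) w →
      (∀ i i' : primeLocalGaloisGroup q,
        primeLocalToGlobal q i ∈ (primeLocalPlace q).inertiaSubgroupIn ℚ →
        primeLocalToGlobal q i' ∈ (primeLocalPlace q).inertiaSubgroupIn ℚ →
        w (i * i') = w i + w i') →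
      ∀ g i : primeLocalGaloisGroup q,
        primeLocalToGlobal q i ∈ (primeLocalPlace q).inertiaSubgroupIn ℚ →
        w (g * i * g⁻¹) = w i)
    (hPL1 : ∀ P : ValuationSubring (AlgebraicClosure ℚ), P.LiesOverPrime (q : ℕ) →
      ∃ g : GQ, (∀ σ : GQ, σ ∈ P.inertiaSubgroupIn ℚ ↔
          g⁻¹ * σ * g ∈ (primeLocalPlace q).inertiaSubgroupIn ℚ) ∧
        ∀ φ : GQ, P.IsFrobeniusAt φ (q : ℕ) ↔
          (primeLocalPlace q).IsFrobeniusAt (g⁻¹ * φ * g) (q : ℕ))
    (hPL2 : ∀ σ : GQ, σ ∈ (primeLocalPlace q).decompositionSubgroup ℚ ↔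
      ∃ τ : primeLocalGaloisGroup q, primeLocalToGlobal q τ = σ)
    (hPL3 : ∃ φ : primeLocalGaloisGroup q,
      (primeLocalPlace q).IsFrobeniusAt (primeLocalToGlobal q φ) (q : ℕ))
    (hCYC : ∀ τ : primeLocalGaloisGroup q, cycloChar p (primeLocalToGlobal q τ) = 1)
    (hPq : (primeLocalPlace q).LiesOverPrime (q : ℕ)) :
    h12_InertiaTriv rb a (q : ℕ) := by
  classical
  have hLeib := ha.1
  have ha1 : a 1 = 0 := h40_TanZ_map_one ha
  have hψtr := hψ.1
  have hψcoc := hψ.2.1
  obtain ⟨F, hF, hψF⟩ := hψ.2.2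
  have hψ1 : ψ 1 = 0 := by
    have h1 := hψcoc 1 1
    have h2 : h12_act (1 : M₂[k]) (ψ 1) = ψ 1 := by simp [h12_act]
    rw [mul_one, map_one, h2] at h1
    exact left_eq_add.mp h1
  have hψI : ∀ σ ∈ (primeLocalPlace q).inertiaSubgroupIn ℚ, ψ σ = 0 := by
    intro σ hσ
    have hσF : σ ∈ F.fixingSubgroup := hF.2 q hqS₀ (primeLocalPlace q) hPq hσ
    have h1 := hψF 1 σ hσF
    rw [one_mul] at h1
    rw [h1, hψ1]
  have hrbI : ∀ σ ∈ (primeLocalPlace q).inertiaSubgroupIn ℚ, rb σ = 1 := hrbq _ hPq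
  have hpk : (p : k) = 0 := by
    have h1 := map_natCast (algebraMap (ZMod p) k) p
    rw [ZMod.natCast_self, map_zero] at h1
    exact h1.symm
  have h2k : (2 : k) ≠ 0 := by
    intro h2
    obtain ⟨m, hm⟩ := (Fact.out : p.Prime).odd_of_ne_two hp2
    rw [hm] at hpk
    push_cast at hpk
    rw [h2, zero_mul, zero_add] at hpk
    exact one_ne_zero hpk
  -- `a` is level-constant on the local group, additive on inertia
  obtain ⟨L, hLfd, haL⟩ := ha.2
  obtain ⟨L', hL'fd, hrbL'⟩ := hrb
  have hlev_a : IsLevelConstant₁ (primeLocalToGlobal q)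
      (fun τ => a (primeLocalToGlobal q τ)) := by
    refine ⟨L ⊔ L', IntermediateField.finiteDimensional_sup L L', fun g s hs => ?_⟩
    rw [IntermediateField.mem_fixingSubgroup_iff] at hs
    have h1 : a (primeLocalToGlobal q s) = 0 :=
      haL _ fun x hx => hs x ((le_sup_left : L ≤ L ⊔ L') hx)
    have h2 : rb (primeLocalToGlobal q s) = 1 :=
      hrbL' _ fun x hx => hs x ((le_sup_right : L' ≤ L ⊔ L') hx)
    show a (primeLocalToGlobal q (g * s)) = a (primeLocalToGlobal q g)
    rw [map_mul, hLeib, h1, h2, mul_one, mul_zero, add_zero]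
  have hpM : ∀ X : M₂[k], p • X = 0 := by
    intro X
    rw [← Nat.cast_smul_eq_nsmul k p X, hpk, zero_smul]
  have hadd_a : ∀ i i' : primeLocalGaloisGroup q,
      primeLocalToGlobal q i ∈ (primeLocalPlace q).inertiaSubgroupIn ℚ →
      primeLocalToGlobal q i' ∈ (primeLocalPlace q).inertiaSubgroupIn ℚ →
      a (primeLocalToGlobal q (i * i')) =
        a (primeLocalToGlobal q i) + a (primeLocalToGlobal q i') := by
    intro i i' hi hi'
    rw [map_mul, hLeib, hrbI _ hi, hrbI _ hi', mul_one, one_mul]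
  have hconj_a : ∀ g i : primeLocalGaloisGroup q,
      primeLocalToGlobal q i ∈ (primeLocalPlace q).inertiaSubgroupIn ℚ →
      a (primeLocalToGlobal q (g * i * g⁻¹)) = a (primeLocalToGlobal q i) :=
    hTS1 (M₂[k]) hpM (fun τ => a (primeLocalToGlobal q τ)) hlev_a hadd_a
  have hrbconj : ∀ g i : primeLocalGaloisGroup q,
      primeLocalToGlobal q i ∈ (primeLocalPlace q).inertiaSubgroupIn ℚ →
      rb (primeLocalToGlobal q (g * i * g⁻¹)) = 1 := by
    intro g i hi
    have e : primeLocalToGlobal q (g * i * g⁻¹) =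
        primeLocalToGlobal q g * primeLocalToGlobal q i * (primeLocalToGlobal q g)⁻¹ := by
      rw [map_mul, map_mul, map_inv]
    rw [e, map_mul, map_mul, hrbI _ hi, mul_one, ← map_mul, mul_inv_cancel, map_one]
  have hcomm : ∀ g i : primeLocalGaloisGroup q,
      primeLocalToGlobal q i ∈ (primeLocalPlace q).inertiaSubgroupIn ℚ →
      rb (primeLocalToGlobal q g) * a (primeLocalToGlobal q i) =
        a (primeLocalToGlobal q i) * rb (primeLocalToGlobal q g) := by
    intro g i hi
    have e1 : a (primeLocalToGlobal q (g * i)) =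
        a (primeLocalToGlobal q g) + rb (primeLocalToGlobal q g) * a (primeLocalToGlobal q i) := by
      rw [map_mul, hLeib, hrbI _ hi, mul_one]
    have e2 : a (primeLocalToGlobal q (g * i)) =
        a (primeLocalToGlobal q i) * rb (primeLocalToGlobal q g) + a (primeLocalToGlobal q g) := by
      have hgi : g * i = (g * i * g⁻¹) * g := by group
      conv_lhs => rw [hgi]
      rw [map_mul, hLeib, hrbconj g i hi, one_mul, hconj_a g i hi]
    have e3 := e1.symm.trans e2
    rw [add_comm] at e3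
    exact add_right_cancel e3
  -- orthogonality from the cup products
  have hpZ : ∀ x : ZMod p, p • x = 0 := by
    intro x
    rw [nsmul_eq_mul, ZMod.natCast_self, zero_mul]
  have hortho : ∀ g i : primeLocalGaloisGroup q,
      primeLocalToGlobal q i ∈ (primeLocalPlace q).inertiaSubgroupIn ℚ →
      (a (primeLocalToGlobal q i) * ψ (primeLocalToGlobal q g)).trace = 0 := by
    intro g i hi
    have key : ∀ c : k, Algebra.trace (ZMod p) k
        (c * (a (primeLocalToGlobal q i) * ψ (primeLocalToGlobal q g)).trace) = 0 := by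
      intro c
      obtain ⟨w, hwlev, hw⟩ := h c
      have hw' : ∀ τ τ' : primeLocalGaloisGroup q, w (τ * τ') = w τ + w τ' -
          h12_cup p rb a (c • ψ) (primeLocalToGlobal q τ, primeLocalToGlobal q τ') := by
        intro τ τ'
        have h1 := hw τ τ'
        rw [hCYC τ, Units.val_one, one_mul] at h1
        linear_combination -h1
      have hz0 : ∀ τ τ' : primeLocalGaloisGroup q,
          primeLocalToGlobal q τ' ∈ (primeLocalPlace q).inertiaSubgroupIn ℚ →
          h12_cup p rb a (c • ψ) (primeLocalToGlobal q τ, primeLocalToGlobal q τ') = 0 := by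
        intro τ τ' hτ'
        simp only [h12_cup, Pi.smul_apply, hψI _ hτ', smul_zero, mul_zero, zero_mul,
          Matrix.trace_zero, map_zero]
      have hwadd : ∀ i i' : primeLocalGaloisGroup q,
          primeLocalToGlobal q i ∈ (primeLocalPlace q).inertiaSubgroupIn ℚ →
          primeLocalToGlobal q i' ∈ (primeLocalPlace q).inertiaSubgroupIn ℚ →
          w (i * i') = w i + w i' := by
        intro i i' _ hi'
        rw [hw', hz0 _ _ hi', sub_zero]
      have hwconj := hTS1 (ZMod p) hpZ w hwlev hwadd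
      have e1 : w (g * i) = w g + w i := by rw [hw', hz0 _ _ hi, sub_zero]
      have e2 : w (g * i) = w (g * i * g⁻¹) + w g -
          h12_cup p rb a (c • ψ) (primeLocalToGlobal q (g * i * g⁻¹), primeLocalToGlobal q g) := by
        have hgi : g * i = (g * i * g⁻¹) * g := by group
        conv_lhs => rw [hgi]
        rw [hw']
      rw [hwconj g i hi] at e2
      have hz : h12_cup p rb a (c • ψ)
          (primeLocalToGlobal q (g * i * g⁻¹), primeLocalToGlobal q g) = 0 := by
        linear_combination e2 - e1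
      simp only [h12_cup, Pi.smul_apply] at hz
      rw [hrbconj g i hi, hconj_a g i hi, Matrix.adjugate_one, mul_one, Matrix.mul_smul,
        Matrix.trace_smul, smul_eq_mul] at hz
      exact hz
    exact (traceForm_nondegenerate (ZMod p) k).1 _ (fun c => by
      rw [Algebra.traceForm_apply, mul_comm]
      exact key c)
  -- the Frobenius
  obtain ⟨φ, hφ⟩ := hPL3
  obtain ⟨α, β, hαβ, hchar⟩ := hq.2.2 (primeLocalPlace q) hPq (primeLocalToGlobal q φ) hφ
  have hdetA : (rb (primeLocalToGlobal q φ)).det = 1 := by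
    rw [hdet (primeLocalToGlobal q φ), hCYC φ, Units.val_one, map_one]
  have htrA : (rb (primeLocalToGlobal q φ)).trace = α + β ∧ α * β = 1 := by
    rw [Matrix.charpoly_fin_two, hdetA] at hchar
    have h0 := congrArg (Polynomial.eval 0) hchar
    have h1 := congrArg (Polynomial.eval 1) hchar
    simp only [Polynomial.eval_add, Polynomial.eval_sub, Polynomial.eval_mul, Polynomial.eval_pow,
      Polynomial.eval_X, Polynomial.eval_C, map_one, Polynomial.eval_one] at h0 h1
    constructor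
    · linear_combination h0 - h1
    · linear_combination -h0
  have hD : (rb (primeLocalToGlobal q φ)).trace ^ 2 - 4 ≠ 0 := by
    rw [htrA.1]
    intro h0
    apply hαβ
    have h1 : (α - β) ^ 2 = 0 := by linear_combination h0 - 4 * htrA.2
    exact sub_eq_zero.mp ((pow_eq_zero_iff (two_ne_zero)).mp h1)
  have hI0 : ∀ i : primeLocalGaloisGroup q,
      primeLocalToGlobal q i ∈ (primeLocalPlace q).inertiaSubgroupIn ℚ →
      a (primeLocalToGlobal q i) = 0 := by
    intro i hi
    refine h35_mat_core h2k (rb (primeLocalToGlobal q φ)) (a (primeLocalToGlobal q i))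
      (ψ (primeLocalToGlobal q φ)) hdetA hD (hcomm φ i hi) ?_ (hψtr _) (hortho φ i hi) ?_
    · have h1 := htr (primeLocalToGlobal q i)
      rwa [hrbI _ hi, Matrix.adjugate_one, mul_one] at h1
    · intro Y hY
      exact hψq (primeLocalPlace q) hPq (primeLocalToGlobal q φ) hφ Y hY
  -- all places over `q`
  intro P hP σ hσ
  refine ⟨hrbq P hP σ hσ, ?_⟩
  obtain ⟨g, hg, -⟩ := hPL1 P hP
  have hσ' := (hg σ).mp hσ
  have hdec : g⁻¹ * σ * g ∈ (primeLocalPlace q).decompositionSubgroup ℚ := by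
    obtain ⟨x, -, hx⟩ := Subgroup.mem_map.mp hσ'
    rw [← hx]
    exact x.2
  obtain ⟨τ, hτ⟩ := (hPL2 _).mp hdec
  have ha' : a (g⁻¹ * σ * g) = 0 := by
    rw [← hτ]
    exact hI0 τ (by rw [hτ]; exact hσ')
  have hrb' : rb (g⁻¹ * σ * g) = 1 := hrbI _ hσ'
  have e1 : a (g * (g⁻¹ * σ * g)) = a g := by
    rw [hLeib, ha', hrb', mul_one, mul_zero, add_zero]
  have e2 : rb (g * (g⁻¹ * σ * g)) = rb g := by
    rw [map_mul, hrb', mul_one]
  have hσeq : σ = g * (g⁻¹ * σ * g) * g⁻¹ := by group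
  rw [hσeq, hLeib, e1, e2, ← hLeib, mul_inv_cancel, ha1]

end Tame

end Fermat.Agent.S56
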