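/-
S56 / W3 / E-RED, the Kummer count (K), algebraic layer (helper44).  Mathlib only.

* `h44_card_semilinear_fixed` : a set of fixed points of a `p`-semilinear additive endomorphism of
  a finite-dimensional vector space over a field of characteristic `p` has at most `p ^ dim`
  elements (Lang's lemma, counting form).
* `h44_two_dependent` : `k` a finite field of characteristic `p`, `κ` a field of characteristic
  `p`, `μ : S →+ κ` additive on a `k`-vector space with `μ (e • f) = μ f ^ p` for one `e ≠ 0`.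
  Then any two `f₁ f₂ : S` have a nontrivial combination `f = c₁ • f₁ + c₂ • f₂` with
  `μ (c • f) = 0` for every `c : k`.
-/
import Mathlib

set_option autoImplicit false

namespace Fermat.Agent.S56

/-- A set of fixed points of a `p`-semilinear additive endomorphism `Ψ` of a finite-dimensional
vector space over a field of characteristic `p` has at most `p ^ dim` elements. -/
theorem h44_card_semilinear_fixed (p : ℕ) [Fact p.Prime] {κ V : Type*} [Field κ] [CharP κ p]
    [AddCommGroup V] [Module κ V] [FiniteDimensional κ V] (Ψ : V →+ V)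
    (hΨ : ∀ (x : κ) (v : V), Ψ (x • v) = x ^ p • Ψ v) (T : Set V) (hT : ∀ v ∈ T, Ψ v = v) :
    T.Finite ∧ T.ncard ≤ p ^ Module.finrank κ V := by
  classical
  obtain ⟨b, hbT, hspan, hli⟩ := exists_linearIndependent κ T
  have hbfin : b.Finite := hli.setFinite
  have : Fintype b := hbfin.fintype
  have hcard : Fintype.card b ≤ Module.finrank κ V := hli.fintype_card_le_finrank
  let P : (b → ZMod p) → V := fun n => ∑ i : b, (ZMod.cast (n i) : κ) • (i : V)
  have hsub : T ⊆ Set.range P := by
    intro v hv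
    have hv' : v ∈ Submodule.span κ (Set.range ((↑) : b → V)) := by
      rw [Subtype.range_coe, hspan]
      exact Submodule.subset_span hv
    obtain ⟨c, hc⟩ := (Submodule.mem_span_range_iff_exists_fun κ).1 hv'
    have h1 : Ψ v = ∑ i : b, (c i) ^ p • (i : V) := by
      rw [← hc, map_sum]
      refine Finset.sum_congr rfl fun i _ => ?_
      rw [hΨ, hT _ (hbT i.2)]
    have h2 : ∑ i : b, ((c i) ^ p - c i) • (i : V) = 0 := by
      simp only [sub_smul, Finset.sum_sub_distrib]
      rw [← h1, hc, hT v hv, sub_self]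
    have h3 := Fintype.linearIndependent_iff.1 hli _ h2
    have h4 : ∀ i : b, ∃ n : ZMod p, (ZMod.cast n : κ) = c i := by
      intro i
      have h5 : c i ∈ (⊥ : Subfield κ) :=
        (Subfield.mem_bot_iff_pow_eq_self κ p).2 (sub_eq_zero.1 (h3 i))
      obtain ⟨n, hn⟩ := (mem_bot_iff_intCast p κ).1 h5
      exact ⟨(n : ZMod p), by rw [ZMod.cast_intCast', hn]⟩
    choose n hn using h4
    refine ⟨n, ?_⟩
    show ∑ i : b, (ZMod.cast (n i) : κ) • (i : V) = v
    rw [← hc]
    exact Finset.sum_congr rfl fun i _ => by rw [hn]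
  have hfin : (Set.range P).Finite := Set.finite_range P
  refine ⟨hfin.subset hsub, ?_⟩
  calc T.ncard ≤ (Set.range P).ncard := Set.ncard_le_ncard hsub hfin
    _ ≤ Nat.card (b → ZMod p) := by
        rw [← Set.image_univ, ← Set.ncard_univ]
        exact Set.ncard_image_le Set.finite_univ
    _ = p ^ Fintype.card b := by
        rw [Nat.card_eq_fintype_card, Fintype.card_fun, ZMod.card]
    _ ≤ p ^ Module.finrank κ V := Nat.pow_le_pow_right (Fact.out : p.Prime).pos hcard

/-- The counting lemma behind the Kummer count (K). -/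
theorem h44_two_dependent (p : ℕ) [Fact p.Prime] {k κ S : Type*} [Field k] [Finite k] [CharP k p]
    [Field κ] [CharP κ p] [AddCommGroup S] [Module k S] (μ : S →+ κ) (e : k) (he : e ≠ 0)
    (hμ : ∀ f : S, μ (e • f) = μ f ^ p) (f₁ f₂ : S) :
    ∃ c₁ c₂ : k, (c₁ ≠ 0 ∨ c₂ ≠ 0) ∧ ∀ c : k, μ (c • (c₁ • f₁ + c₂ • f₂)) = 0 := by
  classical
  let _ : Algebra (ZMod p) k := ZMod.algebra k p
  let _ : Algebra (ZMod p) κ := ZMod.algebra κ p
  have : Fintype k := Fintype.ofFinite k
  let m : S →+ (k →ₗ[ZMod p] κ) :=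
    { toFun := fun f => (μ.comp ((smulAddHom k S).flip f)).toZModLinearMap p
      map_zero' := by
        ext c
        simp
      map_add' := fun f g => by
        ext c
        simp }
  have hm : ∀ (f : S) (c : k), m f c = μ (c • f) := fun f c => rfl
  let Ψ : (k →ₗ[ZMod p] κ) →+ (k →ₗ[ZMod p] κ) :=
    { toFun := fun l => (((frobenius κ p : κ →+* κ) : κ →+ κ).comp
        ((l : k →+ κ).comp (AddMonoidHom.mulLeft e⁻¹))).toZModLinearMap p
      map_zero' := by
        ext c
        simp
      map_add' := fun a b => by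
        ext c
        simp [map_add] }
  have hΨa : ∀ (l : k →ₗ[ZMod p] κ) (c : k), Ψ l c = l (e⁻¹ * c) ^ p := fun l c => rfl
  have hΨ : ∀ (x : κ) (l : k →ₗ[ZMod p] κ), Ψ (x • l) = x ^ p • Ψ l := by
    intro x l
    ext c
    rw [LinearMap.smul_apply, hΨa, hΨa, LinearMap.smul_apply, smul_eq_mul, smul_eq_mul, mul_pow]
  have hfix : ∀ v ∈ Set.range m, Ψ v = v := by
    rintro _ ⟨f, rfl⟩
    ext c
    rw [hΨa, hm, hm, ← hμ, smul_smul, mul_inv_cancel_left₀ he]
  obtain ⟨hTfin, hTcard⟩ := h44_card_semilinear_fixed p Ψ hΨ (Set.range m) hfix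
  have hrank : Module.finrank κ (k →ₗ[ZMod p] κ) = Module.finrank (ZMod p) k :=
    Module.finrank_linearMap_self (ZMod p) κ k
  have hcardk : Fintype.card k = p ^ Module.finrank (ZMod p) k := by
    rw [Module.card_eq_pow_finrank (K := ZMod p) (V := k), ZMod.card]
  rw [hrank, ← hcardk] at hTcard
  by_contra hcon
  push_neg at hcon
  let φ : k × k → (k →ₗ[ZMod p] κ) := fun c => m (c.1 • f₁ + c.2 • f₂)
  have hφinj : Function.Injective φ := by
    rintro ⟨a₁, a₂⟩ ⟨b₁, b₂⟩ hab
    have h0 : m ((a₁ - b₁) • f₁ + (a₂ - b₂) • f₂) = 0 := by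
      have h1 : (a₁ - b₁) • f₁ + (a₂ - b₂) • f₂ = (a₁ • f₁ + a₂ • f₂) - (b₁ • f₁ + b₂ • f₂) := by
        rw [sub_smul, sub_smul]; abel
      rw [h1, map_sub]
      exact sub_eq_zero.2 hab
    by_contra hne
    have hne' : a₁ - b₁ ≠ 0 ∨ a₂ - b₂ ≠ 0 := by
      by_contra h2
      push_neg at h2
      exact hne (Prod.ext (sub_eq_zero.1 h2.1) (sub_eq_zero.1 h2.2))
    obtain ⟨c, hc⟩ := hcon (a₁ - b₁) (a₂ - b₂) hne'
    apply hc
    rw [← hm, h0, LinearMap.zero_apply]
  have hle : Fintype.card (k × k) ≤ Fintype.card k := by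
    calc Fintype.card (k × k) = (Set.range φ).ncard := by
          rw [← Set.image_univ, Set.ncard_image_of_injective _ hφinj, Set.ncard_univ,
            Nat.card_eq_fintype_card]
      _ ≤ (Set.range m).ncard := by
          refine Set.ncard_le_ncard ?_ hTfin
          rintro _ ⟨c, rfl⟩
          exact ⟨_, rfl⟩
      _ ≤ Fintype.card k := hTcard
  rw [Fintype.card_prod] at hle
  have h2 : 2 ≤ Fintype.card k := Fintype.one_lt_card
  nlinarith

end Fermat.Agent.S56
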