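/-
S56 / W3 E-RED, row RED-S4: unit Kummer generators and the count (`sk_red_kum_count`).
A space `C` of `χ`-cocycles (`χ = ω` on inertia) all of whose `𝔽_p`-characters on
`J₁ = {s ∈ J_L | s ζ = ζ}` are Kummer characters of units of `K₀(L)` has dimension `≤ 1`
modulo coboundaries.  Wiring: the Fermat quotient (`h36_FermatQuot`), the abstract count
`h44_two_dependent` and the restriction lemma `h11_red_res_inj`.
-/
import Mathlib
import Fermat.Agent.S56.h36_FermatQuot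
import Fermat.Agent.S56.h44_RedKummerAlg
import Fermat.Agent.S56.h11_RedS4a

set_option autoImplicit false

namespace Fermat.Agent.S56

variable (p : ℕ) [Fact p.Prime]

local notation "Ω" => PadicAlgCl p
local notation "Fld" => IntermediateField ℚ_[p] (PadicAlgCl p)

/-- `v` is a unit Kummer generator of the `J₁`-character `ψ`: `v` is a unit of `L`,
`v ^ p ∈ K₀(L)` and `s v = ζ ^ ψ(s) · v` for `s ∈ J₁ = {s ∈ J_L | s ζ = ζ}`. -/
def h36_IsKumGen (L : Fld) (ζ : Ω) (ψ : h78_G p → ZMod p) (v : Ω) : Prop :=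
  v ∈ L ∧ ‖v‖ = 1 ∧ v ^ p ∈ h78_K0 p L ∧
    ∀ s ∈ h78_J p L, s ζ = ζ → s v = ζ ^ (ψ s).val * v

theorem h36_zeta_ne_zero (ζ : Ω) (hζp : ζ ^ p = 1) : ζ ≠ 0 := by
  intro h
  rw [h, zero_pow (Fact.out : p.Prime).ne_zero] at hζp
  exact zero_ne_one hζp

theorem h36_zeta_pow_val_add (ζ : Ω) (hζp : ζ ^ p = 1) (a b : ZMod p) :
    ζ ^ (a + b).val = ζ ^ a.val * ζ ^ b.val := by
  rw [ZMod.val_add, h36_pow_mod p ζ hζp, pow_add]

theorem h36_zeta_pow_val_mul (ζ : Ω) (hζp : ζ ^ p = 1) (a b : ZMod p) :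
    ζ ^ (a * b).val = (ζ ^ a.val) ^ b.val := by
  rw [ZMod.val_mul, h36_pow_mod p ζ hζp, pow_mul]

theorem h36_zeta_pow_val_eq_one (ζ : Ω) (hζp : ζ ^ p = 1) (hζ1 : ζ ≠ 1) (a : ZMod p)
    (h : ζ ^ a.val = 1) : a = 0 := by
  have hord : orderOf ζ = p := orderOf_eq_prime hζp hζ1
  have hdvd : orderOf ζ ∣ a.val := orderOf_dvd_of_pow_eq_one h
  rw [hord] at hdvd
  have hlt : a.val < p := ZMod.val_lt a
  have h0 : a.val = 0 := Nat.eq_zero_of_dvd_of_lt hdvd hlt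
  exact (ZMod.val_eq_zero a).1 h0

/-- (wd) the Fermat quotient of `v ^ p` only depends on the character on `J₁`. -/
theorem h36_kumGen_fq_eq (L : Fld) [FiniteDimensional ℚ_[p] L] (hL : h78_Stable p L)
    (ζ : Ω) (hζp : ζ ^ p = 1) (hζ1 : ζ ≠ 1) (ψ ψ' : h78_G p → ZMod p) (v v' : Ω)
    (hv : h36_IsKumGen p L ζ ψ v) (hv' : h36_IsKumGen p L ζ ψ' v')
    (hψ : ∀ s ∈ h78_J p L, s ζ = ζ → ψ s = ψ' s) :
    h36_fq p L (v ^ p) = h36_fq p L (v' ^ p) := by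
  obtain ⟨hvL, hv1, hvK, hvs⟩ := hv
  obtain ⟨hvL', hv1', hvK', hvs'⟩ := hv'
  have hv0' : v' ≠ 0 := by
    intro h; rw [h, norm_zero] at hv1'; exact zero_ne_one hv1'
  have hζ0 := h36_zeta_ne_zero p ζ hζp
  have hw1 : ‖v / v'‖ = 1 := by rw [norm_div, hv1, hv1', div_one]
  have hwK : (v / v') ^ p ∈ h78_K0 p L := by rw [div_pow]; exact div_mem hvK hvK'
  have hfix : ∀ s ∈ h78_J p L, s ζ = ζ → s (v / v') = v / v' := by
    intro s hs hsζ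
    rw [map_div₀, hvs s hs hsζ, hvs' s hs hsζ, hψ s hs hsζ]
    exact mul_div_mul_left _ _ (pow_ne_zero _ hζ0)
  have h0 := h36_fq_eq_zero_of_fixed p L hL ζ hζp hζ1 (v / v') hw1 hwK hfix
  have e : v ^ p = (v / v') ^ p * v' ^ p := by
    rw [div_pow, div_mul_cancel₀ _ (pow_ne_zero _ hv0')]
  rw [e, h36_fq_mul p L _ _ hwK (by rw [norm_pow, hw1, one_pow]) hvK'
    (by rw [norm_pow, hv1', one_pow]), h0, zero_add]

/-- (add) products of generators. -/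
theorem h36_kumGen_mul (L : Fld) (ζ : Ω) (hζp : ζ ^ p = 1) (ψ ψ' : h78_G p → ZMod p) (v v' : Ω)
    (hv : h36_IsKumGen p L ζ ψ v) (hv' : h36_IsKumGen p L ζ ψ' v') :
    h36_IsKumGen p L ζ (fun s => ψ s + ψ' s) (v * v') := by
  obtain ⟨hvL, hv1, hvK, hvs⟩ := hv
  obtain ⟨hvL', hv1', hvK', hvs'⟩ := hv'
  refine ⟨mul_mem hvL hvL', by rw [norm_mul, hv1, hv1', one_mul],
    by rw [mul_pow]; exact mul_mem hvK hvK', fun s hs hsζ => ?_⟩
  rw [map_mul, hvs s hs hsζ, hvs' s hs hsζ, h36_zeta_pow_val_add p ζ hζp]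
  ring

/-- (inj) a generator with vanishing Fermat quotient has trivial character on `J₁`. -/
theorem h36_kumGen_inj (L : Fld) [FiniteDimensional ℚ_[p] L]
    (ζ : Ω) (hζL : ζ ∈ L) (hζp : ζ ^ p = 1) (hζ1 : ζ ≠ 1) (ψ : h78_G p → ZMod p) (v : Ω)
    (hv : h36_IsKumGen p L ζ ψ v) (h0 : h36_fq p L (v ^ p) = 0) :
    ∀ s ∈ h78_J p L, s ζ = ζ → ψ s = 0 := by
  obtain ⟨hvL, hv1, hvK, hvs⟩ := hv
  intro s hs hsζ
  have h1 := h36_fq_kummer_fixed p L ζ hζL hζp hζ1 v hvL hv1 hvK h0 s hs hsζ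
  have hv0 : v ≠ 0 := by
    intro h; rw [h, norm_zero] at hv1; exact zero_ne_one hv1
  have h2 := hvs s hs hsζ
  rw [h1] at h2
  have h3 : ζ ^ (ψ s).val = 1 := by
    have h4 : ζ ^ (ψ s).val * v = 1 * v := by rw [one_mul]; exact h2.symm
    exact mul_right_cancel₀ hv0 h4
  exact h36_zeta_pow_val_eq_one p ζ hζp hζ1 _ h3

/-- `J_L` is normal. -/
theorem h36_J_conj (L : Fld) (hL : h78_Stable p L) (g s : h78_G p) (hs : s ∈ h78_J p L) :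
    g⁻¹ * s * g ∈ h78_J p L := by
  rw [h78_J, IntermediateField.mem_fixingSubgroup_iff]
  intro x hx
  have hgx : g x ∈ h78_K0 p L := h49_K0_stable p L hL g x hx
  show g⁻¹ (s (g x)) = x
  rw [h49_J_fix p L s hs _ hgx]
  show (g⁻¹ * g) x = x
  rw [inv_mul_cancel]; rfl

/-- (frob) the Frobenius twist of a generator. -/
theorem h36_kumGen_frob (L : Fld) (hL : h78_Stable p L) (ζ : Ω) (hζp : ζ ^ p = 1)
    (φ : h78_G p) (n : ℕ) (hφζ : φ ζ = ζ ^ n) (ψ : h78_G p → ZMod p) (v : Ω)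
    (hv : h36_IsKumGen p L ζ ψ v) :
    h36_IsKumGen p L ζ (fun s => (n : ZMod p) * ψ (φ⁻¹ * s * φ)) (φ v) := by
  obtain ⟨hvL, hv1, hvK, hvs⟩ := hv
  refine ⟨hL φ v hvL, by rw [h78_norm_aut, hv1], ?_, fun s hs hsζ => ?_⟩
  · rw [← map_pow]; exact h49_K0_stable p L hL φ _ hvK
  · have ht : φ⁻¹ * s * φ ∈ h78_J p L := h36_J_conj p L hL φ s hs
    have htζ : (φ⁻¹ * s * φ) ζ = ζ := by
      show φ⁻¹ (s (φ ζ)) = ζ
      rw [hφζ, map_pow, hsζ, ← hφζ]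
      show (φ⁻¹ * φ) ζ = ζ
      rw [inv_mul_cancel]; rfl
    have h1 := hvs _ ht htζ
    have e : s (φ v) = φ ((φ⁻¹ * s * φ) v) := by
      show s (φ v) = (φ * (φ⁻¹ * s * φ)) v
      rw [← mul_assoc, ← mul_assoc, mul_inv_cancel, one_mul]; rfl
    rw [e, h1, map_mul, map_pow, hφζ, h36_zeta_pow_val_mul p ζ hζp, ZMod.val_natCast,
      h36_pow_mod p ζ hζp]

/-- a nonzero additive functional on a field of characteristic `p`. -/
theorem h36_exists_functional (k : Type*) [Field k] [CharP k p] :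
    ∃ (ℓ₀ : k →+ ZMod p) (y₀ : k), ℓ₀ y₀ ≠ 0 := by
  let _ : Algebra (ZMod p) k := ZMod.algebra k p
  have h : ¬ ∀ φ : Module.Dual (ZMod p) k, φ (1 : k) = 0 := fun h' =>
    one_ne_zero ((Module.forall_dual_apply_eq_zero_iff (ZMod p) (1 : k)).1 h')
  obtain ⟨φ, hφ⟩ := not_forall.1 h
  exact ⟨φ.toAddMonoidHom, 1, hφ⟩

/-- **RED-S4 KUM-COUNT** (`sk_red_kum_count`): a space of `χ`-cocycles (`χ = ω` on inertia) all
of whose `𝔽_p`-characters on `J₁` are Kummer characters of units of `K₀(L)` has dimension `≤ 1`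
modulo coboundaries. -/
theorem h36_red_kum_count (hp2 : p ≠ 2) (L : Fld) [FiniteDimensional ℚ_[p] L]
    (hL : h78_Stable p L) (ζ : Ω) (hζL : ζ ∈ L) (hζp : ζ ^ p = 1) (hζ1 : ζ ≠ 1)
    {k : Type} [Field k] [Finite k] [CharP k p] (χ : h78_G p →* kˣ)
    (hχJ : ∀ s ∈ h78_J p L, ∀ n : ℕ, s ζ = ζ ^ n → ((χ s : kˣ) : k) = (n : k))
    (_hχL : ∀ g ∈ L.fixingSubgroup, χ g = 1)
    (C : Submodule k (h78_G p → k))
    (hC : ∀ c ∈ C, ∀ s t, c (s * t) = c s + ((χ s : kˣ) : k) * c t)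
    (_hCL : ∀ c ∈ C, ∀ g ∈ L.fixingSubgroup, c g = 0)
    (hunit : ∀ c ∈ C, ∀ ℓ : k →+ ZMod p, ∃ v ∈ L, ‖v‖ = 1 ∧ v ^ p ∈ h78_K0 p L ∧
      ∀ s ∈ h78_J p L, s ζ = ζ → s v = ζ ^ (ℓ (c s)).val * v) :
    ∀ c₁ ∈ C, ∀ c₂ ∈ C, ∃ x₁ x₂ y : k, (x₁ ≠ 0 ∨ x₂ ≠ 0) ∧
      ∀ g, x₁ * c₁ g + x₂ * c₂ g = y * (((χ g : kˣ) : k) - 1) := by
  classical
  have hp : p.Prime := Fact.out
  intro c₁ hc₁ c₂ hc₂
  -- a nonzero additive functional
  obtain ⟨ℓ₀, y₀, hℓ₀⟩ := h36_exists_functional p k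
  -- generators
  have hgen : ∀ c : C, ∃ v, h36_IsKumGen p L ζ (fun s => ℓ₀ ((c : h78_G p → k) s)) v :=
    fun c => by
      obtain ⟨v, hvL, hv1, hvK, hvs⟩ := hunit c.1 c.2 ℓ₀
      exact ⟨v, hvL, hv1, hvK, hvs⟩
  choose V hV using hgen
  -- the additive map `E`
  have hadd : ∀ a b : C,
      h36_fq p L (V (a + b) ^ p) = h36_fq p L (V a ^ p) + h36_fq p L (V b ^ p) := by
    intro a b
    have hm := h36_kumGen_mul p L ζ hζp _ _ _ _ (hV a) (hV b)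
    have h1 := h36_kumGen_fq_eq p L hL ζ hζp hζ1 _ _ _ _ (hV (a + b)) hm (fun s _ _ => by
      show ℓ₀ (((a + b : C) : h78_G p → k) s) =
        ℓ₀ ((a : h78_G p → k) s) + ℓ₀ ((b : h78_G p → k) s)
      rw [Submodule.coe_add, Pi.add_apply, map_add])
    rw [h1, mul_pow]
    exact h36_fq_mul p L _ _ (hV a).2.2.1 (by rw [norm_pow, (hV a).2.1, one_pow])
      (hV b).2.2.1 (by rw [norm_pow, (hV b).2.1, one_pow])
  obtain ⟨E, hE⟩ : ∃ E : C →+ h93_resk p L, ∀ c, E c = h36_fq p L (V c ^ p) :=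
    ⟨AddMonoidHom.mk' (fun c => h36_fq p L (V c ^ p)) hadd, fun c => rfl⟩
  -- Frobenius
  obtain ⟨φ, hφ⟩ := h88_sk_exists_frob p L hL
  obtain ⟨b, hb⟩ := h36_exists_unit_pow p ζ hζp hζ1 φ
  have hnk : (((b : ZMod p).val : ℕ) : k) ≠ 0 := by
    rw [Ne, CharP.cast_eq_zero_iff k p]; exact h36_not_dvd_val p b
  have he0 : (((b : ZMod p).val : ℕ) : k) * (((χ φ)⁻¹ : kˣ) : k) ≠ 0 :=
    mul_ne_zero hnk (Units.ne_zero _)
  have hχ1 : ∀ s ∈ h78_J p L, s ζ = ζ → ((χ s : kˣ) : k) = 1 := fun s hs hsζ => by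
    have h := hχJ s hs 1 (by rw [pow_one]; exact hsζ)
    rw [h, Nat.cast_one]
  -- conjugation: `c (φ⁻¹ s φ) = χ(φ)⁻¹ c s` for `s ∈ J₁`
  have hconj : ∀ c ∈ C, ∀ s ∈ h78_J p L, s ζ = ζ →
      c (φ⁻¹ * s * φ) = (((χ φ)⁻¹ : kˣ) : k) * c s := by
    intro c hc s hs hsζ
    have h1 : c 1 = 0 := by
      have h := hC c hc 1 1
      rw [mul_one, map_one, Units.val_one, one_mul] at h
      exact left_eq_add.1 h
    have h2 : c φ⁻¹ = -((((χ φ)⁻¹ : kˣ) : k) * c φ) := by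
      have h := hC c hc φ⁻¹ φ
      rw [inv_mul_cancel, h1, map_inv] at h
      exact eq_neg_of_add_eq_zero_left h.symm
    rw [mul_assoc, hC c hc φ⁻¹ (s * φ), hC c hc s φ, h2, map_inv, hχ1 s hs hsζ]
    ring
  have hsemi : ∀ f : C,
      E (((((b : ZMod p).val : ℕ) : k) * (((χ φ)⁻¹ : kˣ) : k)) • f) = E f ^ p := by
    intro f
    rw [hE, hE]
    have hfr := h36_kumGen_frob p L hL ζ hζp φ _ hb _ _ (hV f)
    have h1 := h36_kumGen_fq_eq p L hL ζ hζp hζ1 _ _ _ _ (hV _) hfr (fun s hs hsζ => by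
      show ℓ₀ (((((((b : ZMod p).val : ℕ) : k) * (((χ φ)⁻¹ : kˣ) : k)) • f : C) :
          h78_G p → k) s) =
        (((b : ZMod p).val : ℕ) : ZMod p) * ℓ₀ ((f : h78_G p → k) (φ⁻¹ * s * φ))
      rw [hconj f.1 f.2 s hs hsζ, Submodule.coe_smul, Pi.smul_apply, smul_eq_mul, mul_assoc,
        ← nsmul_eq_mul, map_nsmul, nsmul_eq_mul])
    rw [h1, ← map_pow]
    exact h36_fq_frob p L hL φ hφ _ (hV f).2.2.1 (by rw [norm_pow, (hV f).2.1, one_pow])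
  obtain ⟨x₁, x₂, hx, hzero⟩ := h44_two_dependent p E _ he0 hsemi ⟨c₁, hc₁⟩ ⟨c₂, hc₂⟩
  -- `f := x₁ c₁ + x₂ c₂` vanishes on `J₁`
  obtain ⟨f, hf⟩ : ∃ f : C, f = x₁ • (⟨c₁, hc₁⟩ : C) + x₂ • (⟨c₂, hc₂⟩ : C) := ⟨_, rfl⟩
  have hfJ1 : ∀ s ∈ h78_J p L, s ζ = ζ → (f : h78_G p → k) s = 0 := by
    intro s hs hsζ
    by_contra hne
    have h0 : E ((y₀ / (f : h78_G p → k) s) • f) = 0 := by rw [hf]; exact hzero _
    rw [hE] at h0
    have h1 := h36_kumGen_inj p L ζ hζL hζp hζ1 _ _ (hV _) h0 s hs hsζ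
    apply hℓ₀
    rw [← h1]
    show ℓ₀ y₀ = ℓ₀ ((((y₀ / (f : h78_G p → k) s) • f : C) : h78_G p → k) s)
    rw [Submodule.coe_smul, Pi.smul_apply, smul_eq_mul, div_mul_cancel₀ _ hne]
  -- `s ∈ J`, `χ s = 1` gives `s ζ = ζ`
  have hJ1 : ∀ s ∈ h78_J p L, ((χ s : kˣ) : k) = 1 → s ζ = ζ := by
    intro s hs hχs
    obtain ⟨b', hb'⟩ := h36_exists_unit_pow p ζ hζp hζ1 s
    have h1 := hχJ s hs _ hb'
    rw [hχs] at h1
    have h2 : ((1 : ℕ) : k) = (((b' : ZMod p).val : ℕ) : k) := by rw [Nat.cast_one]; exact h1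
    rw [CharP.natCast_eq_natCast k p] at h2
    have h3 : (b' : ZMod p).val = 1 := by
      have hlt : (b' : ZMod p).val < p := ZMod.val_lt _
      unfold Nat.ModEq at h2
      rw [Nat.mod_eq_of_lt hp.one_lt, Nat.mod_eq_of_lt hlt] at h2
      exact h2.symm
    rw [hb', h3, pow_one]
  -- restriction to `J₁` is injective modulo coboundaries
  obtain ⟨τ, hτJ, hτζ⟩ := h88_sk_cyclo_inertia p L hL ζ hζp hζ1 2 (by
    intro h; exact hp2 ((Nat.prime_dvd_prime_iff_eq hp Nat.prime_two).1 h))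
  have hχτ : ((χ τ : kˣ) : k) ≠ 1 := by
    rw [hχJ τ hτJ 2 hτζ]
    intro h
    have h2 : (1 : k) = 0 := by
      have h3 : ((2 : ℕ) : k) = 1 + 1 := by norm_num
      rw [h3] at h
      exact add_eq_left.1 h
    exact one_ne_zero h2
  obtain ⟨y, hy⟩ := h11_red_res_inj (fun g => ((χ g : kˣ) : k))
    (fun s t => by rw [map_mul, Units.val_mul]) (fun g => Units.ne_zero _)
    (f : h78_G p → k) (hC _ f.2) (h78_J p L) τ
    (fun g => h88_sk_comm_mem_J p L hL g τ) hχτ (fun s hs hχs => hfJ1 s hs (hJ1 s hs hχs))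
  refine ⟨x₁, x₂, y, hx, fun g => ?_⟩
  have h := hy g
  rw [hf] at h
  exact h

end Fermat.Agent.S56
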