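import Mathlib

/-!
# S56 / W1, block DEV (B1a): representations in characteristic zero with equal characters are
isomorphic

`h37_char_iso` : `k` a field of characteristic zero, `G` a finite group, `ρ`, `σ`
finite-dimensional representations with `trace (ρ g) = trace (σ g)` for all `g`.  Then there is an
equivariant linear equivalence.  (Mathlib's scalar product formula
`Representation.card_inv_mul_sum_char_mul_char_eq_finrank` + Maschke + induction on the dimension.)
-/

set_option autoImplicit false

namespace Fermat.Agent.S56

open Module Representation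

universe u

section CharIso

variable {k : Type*} [Field k] [CharZero k] {G : Type*} [Group G] [Finite G]

omit [CharZero k] [Finite G] in
theorem h37_sub_bot_toSubmodule {V : Type*} [AddCommGroup V] [Module k V]
    (ρ : Representation k G V) : (⊥ : Subrepresentation ρ).toSubmodule = ⊥ := rfl

omit [CharZero k] [Finite G] in
theorem h37_sub_top_toSubmodule {V : Type*} [AddCommGroup V] [Module k V]
    (ρ : Representation k G V) : (⊤ : Subrepresentation ρ).toSubmodule = ⊤ := rfl

/-- Maschke: every subrepresentation has a complement (as submodules). -/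
theorem h37_exists_compl {V : Type*} [AddCommGroup V] [Module k V] (ρ : Representation k G V)
    (S : Subrepresentation ρ) :
    ∃ S' : Subrepresentation ρ, IsCompl S.toSubmodule S'.toSubmodule := by
  haveI : NeZero (Nat.card G : k) := ⟨by exact_mod_cast (Nat.card_pos (α := G)).ne'⟩
  have hss : IsSemisimpleRepresentation ρ := inferInstance
  obtain ⟨S', hS'⟩ := hss.exists_isCompl S
  refine ⟨S', ?_⟩
  constructor
  · rw [disjoint_iff]
    have := hS'.inf_eq_bot
    rw [← Subrepresentation.toSubmodule_inf, this]
    rfl
  · rw [codisjoint_iff]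
    have := hS'.sup_eq_top
    rw [← Subrepresentation.toSubmodule_sup, this]
    rfl

omit [CharZero k] [Finite G] in
/-- A nonzero subrepresentation of minimal dimension. -/
theorem h37_exists_min {V : Type*} [AddCommGroup V] [Module k V] [FiniteDimensional k V]
    [Nontrivial V] (ρ : Representation k G V) :
    ∃ S : Subrepresentation ρ, S.toSubmodule ≠ ⊥ ∧
      ∀ T : Subrepresentation ρ, T.toSubmodule ≤ S.toSubmodule →
        T.toSubmodule = ⊥ ∨ T.toSubmodule = S.toSubmodule := by
  classical
  have hex : ∃ n : ℕ, ∃ S : Subrepresentation ρ, S.toSubmodule ≠ ⊥ ∧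
      finrank k S.toSubmodule = n := by
    refine ⟨_, ⊤, ?_, rfl⟩
    rw [h37_sub_top_toSubmodule]
    exact top_ne_bot
  obtain ⟨S, hS, hn⟩ := Nat.find_spec hex
  refine ⟨S, hS, fun T hT => ?_⟩
  by_cases hT0 : T.toSubmodule = ⊥
  · exact Or.inl hT0
  · right
    have hle : Nat.find hex ≤ finrank k T.toSubmodule := Nat.find_min' hex ⟨T, hT0, rfl⟩
    rw [← hn] at hle
    exact Submodule.eq_of_le_of_finrank_le hT hle

/-- If the characters of `ρ` and `σ` agree, every nonzero subrepresentation of `ρ` has a nonzero
intertwining map to `σ`. -/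
theorem h37_exists_intertwining {V W : Type*} [AddCommGroup V] [Module k V]
    [FiniteDimensional k V] [AddCommGroup W] [Module k W] [FiniteDimensional k W]
    (ρ : Representation k G V) (σ : Representation k G W)
    (h : ∀ g : G, LinearMap.trace k V (ρ g) = LinearMap.trace k W (σ g))
    (S : Subrepresentation ρ) (hS : S.toSubmodule ≠ ⊥) :
    ∃ f : IntertwiningMap S.toRepresentation σ, f ≠ 0 := by
  classical
  letI : Fintype G := Fintype.ofFinite G
  haveI : Invertible (Nat.card G : k) :=
    invertibleOfNonzero (by exact_mod_cast (Nat.card_pos (α := G)).ne')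
  have e1 := card_inv_mul_sum_char_mul_char_eq_finrank S.toRepresentation σ
  have e2 := card_inv_mul_sum_char_mul_char_eq_finrank S.toRepresentation ρ
  have hch : ∀ g : G, σ.character g = ρ.character g := fun g => (h g).symm
  simp only [hch] at e1
  rw [e2] at e1
  have e3 : finrank k (IntertwiningMap S.toRepresentation ρ) =
      finrank k (IntertwiningMap S.toRepresentation σ) := by exact_mod_cast e1
  -- the inclusion is a nonzero intertwining map
  let ι : IntertwiningMap S.toRepresentation ρ :=
    { toLinearMap := S.toSubmodule.subtype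
      isIntertwining' := fun g => by
        ext v
        rfl }
  have hι : ι ≠ 0 := by
    intro h0
    apply hS
    rw [Submodule.eq_bot_iff]
    intro v hv
    have : ι ⟨v, hv⟩ = (0 : IntertwiningMap S.toRepresentation ρ) ⟨v, hv⟩ := by rw [h0]
    exact this
  have hpos : 0 < finrank k (IntertwiningMap S.toRepresentation ρ) :=
    Module.finrank_pos_iff_exists_ne_zero.mpr ⟨ι, hι⟩
  rw [e3] at hpos
  exact Module.finrank_pos_iff_exists_ne_zero.mp hpos

omit [CharZero k] [Finite G] in
/-- A nonzero intertwining map out of a minimal subrepresentation is injective. -/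
theorem h37_injective_of_min {V W : Type*} [AddCommGroup V] [Module k V]
    [AddCommGroup W] [Module k W]
    (ρ : Representation k G V) (σ : Representation k G W) (S : Subrepresentation ρ)
    (hmin : ∀ T : Subrepresentation ρ, T.toSubmodule ≤ S.toSubmodule →
        T.toSubmodule = ⊥ ∨ T.toSubmodule = S.toSubmodule)
    (f : IntertwiningMap S.toRepresentation σ) (hf : f ≠ 0) : Function.Injective f := by
  let K : Subrepresentation ρ :=
    { toSubmodule := (LinearMap.ker f.toLinearMap).map S.toSubmodule.subtype
      apply_mem_toSubmodule := by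
        rintro g v ⟨s, hs, rfl⟩
        refine ⟨S.toRepresentation g s, ?_, rfl⟩
        have hs' : f s = 0 := hs
        show f (S.toRepresentation g s) = 0
        rw [f.isIntertwining, hs', map_zero] }
  have hK : K.toSubmodule ≤ S.toSubmodule := by
    rintro v ⟨s, -, rfl⟩
    exact s.2
  rcases hmin K hK with h0 | h1
  · have hker : LinearMap.ker f.toLinearMap = ⊥ := by
      rw [Submodule.eq_bot_iff]
      intro s hs
      have : (s : V) ∈ K.toSubmodule := ⟨s, hs, rfl⟩
      rw [h0] at this
      exact Subtype.ext this
    exact LinearMap.ker_eq_bot.mp hker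
  · exfalso
    apply hf
    apply IntertwiningMap.ext
    apply LinearMap.ext
    intro s
    have : (s : V) ∈ K.toSubmodule := by rw [h1]; exact s.2
    obtain ⟨s', hs', hss'⟩ := this
    have : s' = s := Subtype.ext hss'
    subst this
    exact hs'

omit [CharZero k] [Finite G] in
/-- additivity of the trace along a complementary pair of subrepresentations. -/
theorem h37_trace_compl {V : Type*} [AddCommGroup V] [Module k V] [FiniteDimensional k V]
    (ρ : Representation k G V) (S S' : Subrepresentation ρ)
    (hc : IsCompl S.toSubmodule S'.toSubmodule) (g : G) :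
    LinearMap.trace k V (ρ g) = LinearMap.trace k S.toSubmodule (S.toRepresentation g) +
      LinearMap.trace k S'.toSubmodule (S'.toRepresentation g) := by
  have hconj : ρ g = (Submodule.prodEquivOfIsCompl _ _ hc).conj
      ((S.toRepresentation g).prodMap (S'.toRepresentation g)) := by
    apply LinearMap.ext
    intro v
    obtain ⟨⟨s, s'⟩, rfl⟩ := (Submodule.prodEquivOfIsCompl _ _ hc).surjective v
    rw [LinearEquiv.conj_apply_apply, LinearEquiv.symm_apply_apply]
    simp only [Submodule.coe_prodEquivOfIsCompl', LinearMap.prodMap_apply, map_add]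
    rfl
  rw [hconj, LinearMap.trace_conj', LinearMap.trace_prodMap']

/-- Induction form of `h37_char_iso`. -/
theorem h37_char_iso_aux (n : ℕ) : ∀ (V W : Type u) [AddCommGroup V] [Module k V]
    [FiniteDimensional k V] [AddCommGroup W] [Module k W] [FiniteDimensional k W]
    (ρ : Representation k G V) (σ : Representation k G W), finrank k V = n →
    (∀ g : G, LinearMap.trace k V (ρ g) = LinearMap.trace k W (σ g)) →
    ∃ e : V ≃ₗ[k] W, ∀ (g : G) (v : V), e (ρ g v) = σ g (e v) := by
  induction n using Nat.strong_induction_on with
  | _ n ih =>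
  intro V W _ _ _ _ _ _ ρ σ hn h
  have hdim : finrank k V = finrank k W := by
    have h1 := h 1
    simp only [map_one, LinearMap.trace_one] at h1
    exact_mod_cast h1
  rcases Nat.eq_zero_or_pos n with h0 | hpos
  · subst h0
    haveI : Subsingleton V := Module.finrank_zero_iff.mp hn
    haveI : Subsingleton W := Module.finrank_zero_iff.mp (hdim ▸ hn)
    exact ⟨LinearEquiv.ofSubsingleton V W, fun g v => Subsingleton.elim _ _⟩
  · haveI : Nontrivial V := Module.nontrivial_of_finrank_pos (R := k) (hn ▸ hpos)
    obtain ⟨S, hS, hmin⟩ := h37_exists_min ρ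
    obtain ⟨f, hf⟩ := h37_exists_intertwining ρ σ h S hS
    have hinj : Function.Injective f := h37_injective_of_min ρ σ S hmin f hf
    obtain ⟨S', hc⟩ := h37_exists_compl ρ S
    obtain ⟨T', hc'⟩ := h37_exists_compl σ f.range
    let eS : S.toSubmodule ≃ₗ[k] f.range.toSubmodule := LinearEquiv.ofInjective f.toLinearMap hinj
    have heS : ∀ s : S.toSubmodule, ((eS s : f.range.toSubmodule) : W) = f s := fun s => rfl
    -- traces
    have htr1 : ∀ g : G, LinearMap.trace k f.range.toSubmodule (f.range.toRepresentation g) =
        LinearMap.trace k S.toSubmodule (S.toRepresentation g) := by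
      intro g
      have hconj : f.range.toRepresentation g = eS.conj (S.toRepresentation g) := by
        apply LinearMap.ext
        intro w
        obtain ⟨s, rfl⟩ := eS.surjective w
        rw [LinearEquiv.conj_apply_apply, LinearEquiv.symm_apply_apply]
        apply Subtype.ext
        rw [heS]
        show σ g (eS s : W) = _
        rw [heS, f.isIntertwining]
      rw [hconj, LinearMap.trace_conj']
    have htr2 : ∀ g : G, LinearMap.trace k S'.toSubmodule (S'.toRepresentation g) =
        LinearMap.trace k T'.toSubmodule (T'.toRepresentation g) := by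
      intro g
      have a1 := h37_trace_compl ρ S S' hc g
      have a2 := h37_trace_compl σ f.range T' hc' g
      rw [htr1 g] at a2
      have := h g
      rw [a1, a2] at this
      exact add_left_cancel this
    have hfr : finrank k S.toSubmodule + finrank k S'.toSubmodule = finrank k V :=
      Submodule.finrank_add_eq_of_isCompl hc
    have hSpos : 0 < finrank k S.toSubmodule := by
      rw [Module.finrank_pos_iff_exists_ne_zero]
      obtain ⟨v, hv, hv0⟩ := Submodule.exists_mem_ne_zero_of_ne_bot hS
      exact ⟨⟨v, hv⟩, fun h => hv0 (congrArg Subtype.val h)⟩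
    obtain ⟨e', he'⟩ := ih (finrank k S'.toSubmodule) (by omega) S'.toSubmodule T'.toSubmodule
      S'.toRepresentation T'.toRepresentation rfl htr2
    refine ⟨(Submodule.prodEquivOfIsCompl _ _ hc).symm ≪≫ₗ (eS.prodCongr e') ≪≫ₗ
      Submodule.prodEquivOfIsCompl _ _ hc', ?_⟩
    intro g v
    obtain ⟨⟨s, s'⟩, rfl⟩ := (Submodule.prodEquivOfIsCompl _ _ hc).surjective v
    have hρ : ρ g (Submodule.prodEquivOfIsCompl _ _ hc (s, s')) =
        Submodule.prodEquivOfIsCompl _ _ hc (S.toRepresentation g s, S'.toRepresentation g s') := by
      simp only [Submodule.coe_prodEquivOfIsCompl', map_add]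
      rfl
    rw [hρ]
    show Submodule.prodEquivOfIsCompl _ _ hc' ((eS.prodCongr e')
        ((Submodule.prodEquivOfIsCompl _ _ hc).symm (Submodule.prodEquivOfIsCompl _ _ hc
          (S.toRepresentation g s, S'.toRepresentation g s')))) =
      σ g (Submodule.prodEquivOfIsCompl _ _ hc' ((eS.prodCongr e')
        ((Submodule.prodEquivOfIsCompl _ _ hc).symm (Submodule.prodEquivOfIsCompl _ _ hc (s, s')))))
    rw [LinearEquiv.symm_apply_apply, LinearEquiv.symm_apply_apply]
    show Submodule.prodEquivOfIsCompl _ _ hc' (eS (S.toRepresentation g s),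
        e' (S'.toRepresentation g s')) =
      σ g (Submodule.prodEquivOfIsCompl _ _ hc' (eS s, e' s'))
    rw [Submodule.coe_prodEquivOfIsCompl', Submodule.coe_prodEquivOfIsCompl', map_add, he' g s']
    congr 1
    rw [heS, heS, f.isIntertwining]

/-- **Equal characters imply isomorphic** (characteristic zero, finite group). -/
theorem h37_char_iso {V W : Type u} [AddCommGroup V] [Module k V]
    [FiniteDimensional k V] [AddCommGroup W] [Module k W] [FiniteDimensional k W]
    (ρ : Representation k G V) (σ : Representation k G W)
    (h : ∀ g : G, LinearMap.trace k V (ρ g) = LinearMap.trace k W (σ g)) :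
    ∃ e : V ≃ₗ[k] W, ∀ (g : G) (v : V), e (ρ g v) = σ g (e v) :=
  h37_char_iso_aux _ V W ρ σ rfl h

end CharIso

end Fermat.Agent.S56
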