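/-
S56 / W3 / E-IRR row EI-LV2 (helper3): TAME WEIGHTS.
`h43_lv_tame_lin`, `h43_lv_tame_quad` of the E-IRR skeleton (helper43, 51ae02d) verbatim:
if `τ` acts on the graded pieces of `M` through the character `ζτ` and `τ u = u^m` modulo
`p`-th powers for a reduced `u` of level `i`, then `ζτ^i ≡ m`; likewise for a quadratic
relation `τ² u = (τ u)^a u^b`.
-/
import Fermat.Agent.S56.h43_EIDefs

set_option autoImplicit false

namespace Fermat.Agent.S56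

variable (p : ℕ) [Fact p.Prime]

local notation "Ω" => PadicAlgCl p
local notation "Fld" => IntermediateField ℚ_[p] (PadicAlgCl p)

/-! ### norms of integers -/

theorem h3_norm_intCast_le (m : ℤ) : ‖(m : Ω)‖ ≤ 1 := by
  rw [← map_intCast (algebraMap ℚ_[p] (PadicAlgCl p)), PadicAlgCl.norm_extends]
  exact Padic.norm_int_le_one m

theorem h3_norm_natCast_le (m : ℕ) : ‖(m : Ω)‖ ≤ 1 := by
  have := h3_norm_intCast_le p (m : ℤ)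
  simpa using this

theorem h3_norm_intCast_lt_of_dvd (c : ℤ) (hc : (p : ℤ) ∣ c) : ‖(c : Ω)‖ < 1 := by
  rw [← map_intCast (algebraMap ℚ_[p] (PadicAlgCl p)), PadicAlgCl.norm_extends]
  exact Padic.norm_intCast_lt_one_iff.2 hc

/-! ### leading terms: `x = 1 + t + (smaller than ρ)` with `‖t‖ ≤ ρ < 1` -/

theorem h3_lead_norm_le {ρ : ℝ} (hρ1 : ρ < 1) {x t : Ω} (ht : ‖t‖ ≤ ρ)
    (hx : ‖x - 1 - t‖ < ρ) : ‖x‖ ≤ 1 := by
  have h : x = 1 + (t + (x - 1 - t)) := by ring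
  rw [h]
  refine (IsUltrametricDist.norm_add_le_max _ _).trans (max_le (by rw [norm_one]) ?_)
  exact (IsUltrametricDist.norm_add_le_max _ _).trans (max_le (ht.trans hρ1.le) (hx.le.trans hρ1.le))

theorem h3_lead_norm_eq {ρ : ℝ} (hρ1 : ρ < 1) {x t : Ω} (ht : ‖t‖ ≤ ρ)
    (hx : ‖x - 1 - t‖ < ρ) : ‖x‖ = 1 := by
  have h : x = 1 + (t + (x - 1 - t)) := by ring
  have h2 : ‖t + (x - 1 - t)‖ < ‖(1 : Ω)‖ := by
    rw [norm_one]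
    exact lt_of_le_of_lt (IsUltrametricDist.norm_add_le_max _ _)
      (max_lt (lt_of_le_of_lt ht hρ1) (hx.trans hρ1))
  rw [h, IsUltrametricDist.norm_add_eq_max_of_norm_ne_norm (ne_of_gt h2), max_eq_left h2.le,
    norm_one]

theorem h3_lead_mul {ρ : ℝ} (hρ1 : ρ < 1) {x x' t t' : Ω} (ht : ‖t‖ ≤ ρ) (ht' : ‖t'‖ ≤ ρ)
    (hx : ‖x - 1 - t‖ < ρ) (hx' : ‖x' - 1 - t'‖ < ρ) :
    ‖x * x' - 1 - (t + t')‖ < ρ := by
  have hρ0 : 0 < ρ := lt_of_le_of_lt (norm_nonneg _) hx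
  have h : x * x' - 1 - (t + t') = t * t' + ((1 + t) * (x' - 1 - t') + (x - 1 - t) * x') := by
    ring
  rw [h]
  refine lt_of_le_of_lt (IsUltrametricDist.norm_add_le_max _ _) (max_lt ?_ ?_)
  · rw [norm_mul]
    calc ‖t‖ * ‖t'‖ ≤ ρ * ρ := mul_le_mul ht ht' (norm_nonneg _) hρ0.le
      _ < ρ := by nlinarith
  · refine lt_of_le_of_lt (IsUltrametricDist.norm_add_le_max _ _) (max_lt ?_ ?_)
    · rw [norm_mul]
      have h1 : ‖1 + t‖ ≤ 1 :=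
        (IsUltrametricDist.norm_add_le_max _ _).trans
          (max_le (by rw [norm_one]) (ht.trans hρ1.le))
      calc ‖1 + t‖ * ‖x' - 1 - t'‖ ≤ 1 * ‖x' - 1 - t'‖ :=
            mul_le_mul_of_nonneg_right h1 (norm_nonneg _)
        _ = ‖x' - 1 - t'‖ := one_mul _
        _ < ρ := hx'
    · rw [norm_mul]
      have h1 : ‖x'‖ ≤ 1 := h3_lead_norm_le p hρ1 ht' hx'
      calc ‖x - 1 - t‖ * ‖x'‖ ≤ ‖x - 1 - t‖ * 1 :=
            mul_le_mul_of_nonneg_left h1 (norm_nonneg _)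
        _ = ‖x - 1 - t‖ := mul_one _
        _ < ρ := hx

theorem h3_lead_inv {ρ : ℝ} (hρ1 : ρ < 1) {x t : Ω} (ht : ‖t‖ ≤ ρ) (hx : ‖x - 1 - t‖ < ρ) :
    ‖x⁻¹ - 1 - (-t)‖ < ρ := by
  have hρ0 : 0 < ρ := lt_of_le_of_lt (norm_nonneg _) hx
  have hx1 : ‖x‖ = 1 := h3_lead_norm_eq p hρ1 ht hx
  have hx0 : x ≠ 0 := by
    intro h0
    rw [h0, norm_zero] at hx1
    exact zero_ne_one hx1
  have h : x⁻¹ - 1 - (-t) = x⁻¹ * (-(x - 1 - t) + (t * t + t * (x - 1 - t))) := by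
    field_simp
    ring
  rw [h, norm_mul, norm_inv, hx1, inv_one, one_mul]
  refine lt_of_le_of_lt (IsUltrametricDist.norm_add_le_max _ _) (max_lt ?_ ?_)
  · rw [norm_neg]; exact hx
  · refine lt_of_le_of_lt (IsUltrametricDist.norm_add_le_max _ _) (max_lt ?_ ?_)
    · rw [norm_mul]
      calc ‖t‖ * ‖t‖ ≤ ρ * ρ := mul_le_mul ht ht (norm_nonneg _) hρ0.le
        _ < ρ := by nlinarith
    · rw [norm_mul]
      calc ‖t‖ * ‖x - 1 - t‖ ≤ 1 * ‖x - 1 - t‖ :=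
            mul_le_mul_of_nonneg_right (ht.trans hρ1.le) (norm_nonneg _)
        _ = ‖x - 1 - t‖ := one_mul _
        _ < ρ := hx

theorem h3_lead_pow {ρ : ℝ} (hρ1 : ρ < 1) {x t : Ω} (ht : ‖t‖ ≤ ρ) (hx : ‖x - 1 - t‖ < ρ)
    (n : ℕ) : ‖x ^ n - 1 - (n : Ω) * t‖ < ρ := by
  have hρ0 : 0 < ρ := lt_of_le_of_lt (norm_nonneg _) hx
  induction n with
  | zero => simpa using hρ0
  | succ n ih =>
    have hnt : ‖(n : Ω) * t‖ ≤ ρ := by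
      rw [norm_mul]
      calc ‖(n : Ω)‖ * ‖t‖ ≤ 1 * ‖t‖ :=
            mul_le_mul_of_nonneg_right (h3_norm_natCast_le p n) (norm_nonneg _)
        _ = ‖t‖ := one_mul _
        _ ≤ ρ := ht
    have h := h3_lead_mul p hρ1 hnt ht ih hx
    have h2 : x ^ (n + 1) - 1 - ((n + 1 : ℕ) : Ω) * t = x ^ n * x - 1 - ((n : Ω) * t + t) := by
      push_cast
      ring
    rw [h2]
    exact h

theorem h3_lead_zpow {ρ : ℝ} (hρ1 : ρ < 1) {x t : Ω} (ht : ‖t‖ ≤ ρ) (hx : ‖x - 1 - t‖ < ρ)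
    (m : ℤ) : ‖x ^ m - 1 - (m : Ω) * t‖ < ρ := by
  cases m with
  | ofNat n =>
    have h := h3_lead_pow p hρ1 ht hx n
    simpa using h
  | negSucc n =>
    have h := h3_lead_pow p hρ1 ht hx (n + 1)
    have hnt : ‖((n + 1 : ℕ) : Ω) * t‖ ≤ ρ := by
      rw [norm_mul]
      calc ‖((n + 1 : ℕ) : Ω)‖ * ‖t‖ ≤ 1 * ‖t‖ :=
            mul_le_mul_of_nonneg_right (h3_norm_natCast_le p (n + 1)) (norm_nonneg _)
        _ = ‖t‖ := one_mul _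
        _ ≤ ρ := ht
    have h2 := h3_lead_inv p hρ1 hnt h
    have h3 : x ^ (Int.negSucc n) - 1 - ((Int.negSucc n : ℤ) : Ω) * t
        = (x ^ (n + 1))⁻¹ - 1 - (-(((n + 1 : ℕ) : Ω) * t)) := by
      rw [zpow_negSucc, Int.cast_negSucc]
      ring
    rw [h3]
    exact h2

/-! ### the common core -/

/-- the common core of the two tame weight statements; the three basic level lemmas (LV0)
enter as hypotheses. `v = w ^ p` is a `p`-th power with leading term `q * (u - 1)`. -/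
theorem h3_lv_tame_core (M : Fld) (π : Ω) (hπ : h78_IsUnif p M π) (e l : ℕ) (he1 : 0 < e)
    (hpth : ∀ x : Ω, x ∈ M → ‖x - 1‖ < ‖π‖ ^ (e + l) → ∃ w ∈ M, w ≠ 0 ∧ x = w ^ p)
    (himp : ∀ x : Ω, x ∈ M → ∀ i : ℕ, ‖x - 1‖ = ‖π‖ ^ i → e ≤ i → i < e + l → p ∣ i →
      ∃ w ∈ M, w ≠ 0 ∧ ‖x * w ^ p - 1‖ < ‖x - 1‖)
    (hred : ∀ x : Ω, x ∈ M → ∀ i : ℕ, ‖x - 1‖ = ‖π‖ ^ i → e ≤ i → i < e + l → ¬ p ∣ i →
      h43_Red p M x)
    (u : Ω) (hu : h43_Red p M u) (i : ℕ) (hi : ‖u - 1‖ = ‖π‖ ^ i) (hie : e ≤ i)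
    (hil : i ≤ e + l)
    (w : Ω) (hw : w ∈ M) (hw0 : w ≠ 0)
    (q : Ω) (hq1 : ‖q‖ ≤ 1) (hlead : ‖w ^ p - 1 - q * (u - 1)‖ < ‖u - 1‖)
    (c : ℤ) (hc : i = e + l → ‖q - (c : Ω)‖ < 1) :
    ‖q‖ < 1 := by
  obtain ⟨hπM, hπ0, hπ1, -⟩ := hπ
  have hρ0 : 0 < ‖u - 1‖ := by rw [hi]; exact pow_pos (norm_pos_iff.2 hπ0) i
  have hρ1 : ‖u - 1‖ < 1 := by
    rw [hi]
    exact pow_lt_one₀ (norm_nonneg _) hπ1 (by omega)
  by_contra hq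
  have hq' : ‖q‖ = 1 := le_antisymm hq1 (not_lt.1 hq)
  have hwp : w ^ p ∈ M := pow_mem hw p
  -- a `p`-th power at positive distance from `1` is not reduced
  have hkey : ∀ y : Ω, y ∈ M → y ≠ 0 → ¬ (h43_Red p M (y ^ p) ∧ 0 < ‖y ^ p - 1‖) := by
    rintro y hy hy0 ⟨hR, hpos⟩
    have h1 := hR.2 y⁻¹ (inv_mem hy) (inv_ne_zero hy0)
    rw [← mul_pow, mul_inv_cancel₀ hy0, one_pow, sub_self, norm_zero] at h1
    linarith
  rcases lt_or_eq_of_le hil with hlt | heq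
  · have hpi : ¬ p ∣ i := by
      intro hpi
      obtain ⟨w', hw'M, hw'0, hlt'⟩ := himp u hu.1 i hi hie hlt hpi
      have := hu.2 w' hw'M hw'0
      linarith
    have hv1 : ‖w ^ p - 1‖ = ‖u - 1‖ := by
      have h : w ^ p - 1 = q * (u - 1) + (w ^ p - 1 - q * (u - 1)) := by ring
      have h2 : ‖w ^ p - 1 - q * (u - 1)‖ < ‖q * (u - 1)‖ := by
        rw [norm_mul, hq', one_mul]; exact hlead
      rw [h, IsUltrametricDist.norm_add_eq_max_of_norm_ne_norm (ne_of_gt h2),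
        max_eq_left h2.le, norm_mul, hq', one_mul]
    have hR := hred (w ^ p) hwp i (by rw [hv1, hi]) hie hlt hpi
    exact hkey w hw hw0 ⟨hR, by rw [hv1]; exact hρ0⟩
  · have hqc := hc heq
    have hpc : ¬ (p : ℤ) ∣ c := by
      intro hpc
      have h1 := h3_norm_intCast_lt_of_dvd p c hpc
      have h2 : q = (q - (c : Ω)) + (c : Ω) := by ring
      have h3 : ‖q‖ < 1 := by
        rw [h2]
        exact lt_of_le_of_lt (IsUltrametricDist.norm_add_le_max _ _) (max_lt hqc h1)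
      exact hq h3
    have hvc : ‖w ^ p - 1 - (c : Ω) * (u - 1)‖ < ‖u - 1‖ := by
      have h : w ^ p - 1 - (c : Ω) * (u - 1)
          = (w ^ p - 1 - q * (u - 1)) + (q - (c : Ω)) * (u - 1) := by ring
      rw [h]
      refine lt_of_le_of_lt (IsUltrametricDist.norm_add_le_max _ _) (max_lt hlead ?_)
      rw [norm_mul]
      calc ‖q - (c : Ω)‖ * ‖u - 1‖ < 1 * ‖u - 1‖ := mul_lt_mul_of_pos_right hqc hρ0
        _ = ‖u - 1‖ := one_mul _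
    have hct : ‖(c : Ω) * (u - 1)‖ ≤ ‖u - 1‖ := by
      rw [norm_mul]
      calc ‖(c : Ω)‖ * ‖u - 1‖ ≤ 1 * ‖u - 1‖ :=
            mul_le_mul_of_nonneg_right (h3_norm_intCast_le p c) (norm_nonneg _)
        _ = ‖u - 1‖ := one_mul _
    have hu1 : ‖u - 1 - (u - 1)‖ < ‖u - 1‖ := by rw [sub_self, norm_zero]; exact hρ0
    have huc := h3_lead_zpow p hρ1 le_rfl hu1 c
    have hucinv := h3_lead_inv p hρ1 hct huc
    have hprod := h3_lead_mul p hρ1 hct (by rw [norm_neg]; exact hct) hvc hucinv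
    rw [add_neg_cancel, sub_zero] at hprod
    have hu0 : u ≠ 0 := by
      intro h0
      rw [h0, zero_sub, norm_neg, norm_one] at hρ1
      exact lt_irrefl _ hρ1
    have hucM : (u ^ c)⁻¹ ∈ M := inv_mem (zpow_mem hu.1 c)
    obtain ⟨w', hw'M, hw'0, hw'⟩ := hpth (w ^ p * (u ^ c)⁻¹) (mul_mem hwp hucM)
      (by rw [← heq, ← hi]; exact hprod)
    have huc0 : u ^ c ≠ 0 := zpow_ne_zero c hu0
    have h1 : u ^ c = (w * w'⁻¹) ^ p := by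
      rw [mul_pow, inv_pow, ← hw']
      field_simp
    have hcop : IsCoprime c (p : ℤ) := by
      rw [Int.isCoprime_iff_gcd_eq_one, Int.gcd, Int.natAbs_natCast]
      have hp := (Fact.out : p.Prime)
      exact Nat.Coprime.symm
        ((Nat.Prime.coprime_iff_not_dvd hp).2 (fun h => hpc (Int.natCast_dvd.2 h)))
    obtain ⟨x, y, hxy⟩ := hcop
    have h2 : u = ((w * w'⁻¹) ^ x * u ^ y) ^ p := by
      calc u = u ^ (1 : ℤ) := (zpow_one u).symm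
        _ = u ^ (c * x + y * (p : ℤ)) := by rw [mul_comm c x, hxy]
        _ = (u ^ c) ^ x * (u ^ y) ^ p := by
            rw [zpow_add₀ hu0, zpow_mul, zpow_mul, zpow_natCast]
        _ = ((w * w'⁻¹) ^ x * u ^ y) ^ p := by
            have h3 : ((w * w'⁻¹) ^ p) ^ x = ((w * w'⁻¹) ^ x) ^ p := by
              rw [← zpow_natCast (w * w'⁻¹) p, ← zpow_natCast ((w * w'⁻¹) ^ x) p, ← zpow_mul,
                ← zpow_mul, mul_comm (p : ℤ) x]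
            rw [h1, h3, ← mul_pow]
    have hy'M : (w * w'⁻¹) ^ x * u ^ y ∈ M :=
      mul_mem (zpow_mem (mul_mem hw (inv_mem hw'M)) x) (zpow_mem hu.1 y)
    have hy'0 : (w * w'⁻¹) ^ x * u ^ y ≠ 0 :=
      mul_ne_zero (zpow_ne_zero x (mul_ne_zero hw0 (inv_ne_zero hw'0))) (zpow_ne_zero y hu0)
    exact hkey _ hy'M hy'0 ⟨by rw [← h2]; exact hu, by rw [← h2]; exact hρ0⟩

theorem h3_norm_sub_le_max (x y : Ω) : ‖x - y‖ ≤ max ‖x‖ ‖y‖ := by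
  rw [sub_eq_add_neg]
  refine (IsUltrametricDist.norm_add_le_max _ _).trans ?_
  rw [norm_neg]

/-! ### the two statements over the LV0 hypotheses -/

/-- TAME WEIGHTS, linear form, over the three LV0 lemmas. -/
theorem h3_lv_tame_lin_of (M : Fld) (π : Ω) (hπ : h78_IsUnif p M π) (e l : ℕ) (hl : 0 < l)
    (he : e = (p - 1) * l)
    (hpth : ∀ x : Ω, x ∈ M → ‖x - 1‖ < ‖π‖ ^ (e + l) → ∃ w ∈ M, w ≠ 0 ∧ x = w ^ p)
    (himp : ∀ x : Ω, x ∈ M → ∀ i : ℕ, ‖x - 1‖ = ‖π‖ ^ i → e ≤ i → i < e + l → p ∣ i →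
      ∃ w ∈ M, w ≠ 0 ∧ ‖x * w ^ p - 1‖ < ‖x - 1‖)
    (hred : ∀ x : Ω, x ∈ M → ∀ i : ℕ, ‖x - 1‖ = ‖π‖ ^ i → e ≤ i → i < e + l → ¬ p ∣ i →
      h43_Red p M x)
    (τ : h78_G p) (ζτ : Ω) (hζτe : ζτ ^ e = 1)
    (hτlead : ∀ z ∈ M, ∀ i : ℕ, ‖z‖ = ‖π‖ ^ i → ‖τ z - ζτ ^ i * z‖ < ‖z‖)
    (nτ : ℤ) (hnτ : ‖ζτ ^ l - (nτ : Ω)‖ < 1)
    (u : Ω) (hu : h43_Red p M u) (i : ℕ) (hi : ‖u - 1‖ = ‖π‖ ^ i) (hie : e ≤ i)
    (hil : i ≤ e + l) (m : ℤ) (hpow : ∃ w ∈ M, w ≠ 0 ∧ τ u = u ^ m * w ^ p) :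
    ‖ζτ ^ i - (m : Ω)‖ < 1 := by
  obtain ⟨w, hwM, hw0, hτu⟩ := hpow
  have hp := (Fact.out : p.Prime)
  have he1 : 0 < e := by rw [he]; exact Nat.mul_pos (Nat.sub_pos_of_lt hp.one_lt) hl
  have hπ' := hπ
  obtain ⟨hπM, hπ0, hπ1, -⟩ := hπ'
  have hρ0 : 0 < ‖u - 1‖ := by rw [hi]; exact pow_pos (norm_pos_iff.2 hπ0) i
  have hρ1 : ‖u - 1‖ < 1 := by
    rw [hi]
    exact pow_lt_one₀ (norm_nonneg _) hπ1 (by omega)
  have hζτ1 : ‖ζτ‖ = 1 := by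
    have h := congrArg norm hζτe
    rw [norm_pow, norm_one] at h
    exact (pow_eq_one_iff_of_nonneg (norm_nonneg _) he1.ne').1 h
  have hζτi : ‖ζτ ^ i‖ = 1 := by rw [norm_pow, hζτ1, one_pow]
  have hzM : u - 1 ∈ M := sub_mem hu.1 (one_mem M)
  have hu0 : u ≠ 0 := by
    intro h0
    rw [h0, zero_sub, norm_neg, norm_one] at hρ1
    exact lt_irrefl _ hρ1
  -- the leading term of `τ u`
  have hA : ‖τ u - 1 - ζτ ^ i * (u - 1)‖ < ‖u - 1‖ := by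
    have h := hτlead (u - 1) hzM i hi
    rwa [map_sub, map_one] at h
  have hAt : ‖ζτ ^ i * (u - 1)‖ ≤ ‖u - 1‖ := by rw [norm_mul, hζτi, one_mul]
  have hu1 : ‖u - 1 - (u - 1)‖ < ‖u - 1‖ := by rw [sub_self, norm_zero]; exact hρ0
  have hum := h3_lead_zpow p hρ1 le_rfl hu1 m
  have hmt : ‖(m : Ω) * (u - 1)‖ ≤ ‖u - 1‖ := by
    rw [norm_mul]
    calc ‖(m : Ω)‖ * ‖u - 1‖ ≤ 1 * ‖u - 1‖ :=
          mul_le_mul_of_nonneg_right (h3_norm_intCast_le p m) (norm_nonneg _)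
      _ = ‖u - 1‖ := one_mul _
  have huminv := h3_lead_inv p hρ1 hmt hum
  have hprod := h3_lead_mul p hρ1 hAt (by rw [norm_neg]; exact hmt) hA huminv
  have hum0 : u ^ m ≠ 0 := zpow_ne_zero m hu0
  have hv : τ u * (u ^ m)⁻¹ = w ^ p := by
    rw [hτu]
    field_simp
  have hlead : ‖w ^ p - 1 - (ζτ ^ i - (m : Ω)) * (u - 1)‖ < ‖u - 1‖ := by
    rw [← hv]
    have h : (ζτ ^ i - (m : Ω)) * (u - 1) = ζτ ^ i * (u - 1) + -((m : Ω) * (u - 1)) := by ring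
    rw [h]
    exact hprod
  have hq1 : ‖ζτ ^ i - (m : Ω)‖ ≤ 1 :=
    (h3_norm_sub_le_max p _ _).trans (max_le hζτi.le (h3_norm_intCast_le p m))
  refine h3_lv_tame_core p M π hπ e l he1 hpth himp hred u hu i hi hie hil w hwM hw0 _ hq1 hlead
    (nτ - m) ?_
  intro heq
  have h : ζτ ^ i - (m : Ω) - ((nτ - m : ℤ) : Ω) = ζτ ^ l - (nτ : Ω) := by
    rw [heq, pow_add, hζτe, one_mul]
    push_cast
    ring
  rw [h]
  exact hnτ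

/-- TAME WEIGHTS, quadratic form, over the three LV0 lemmas. -/
theorem h3_lv_tame_quad_of (M : Fld) (π : Ω) (hπ : h78_IsUnif p M π) (e l : ℕ) (hl : 0 < l)
    (he : e = (p - 1) * l)
    (hpth : ∀ x : Ω, x ∈ M → ‖x - 1‖ < ‖π‖ ^ (e + l) → ∃ w ∈ M, w ≠ 0 ∧ x = w ^ p)
    (himp : ∀ x : Ω, x ∈ M → ∀ i : ℕ, ‖x - 1‖ = ‖π‖ ^ i → e ≤ i → i < e + l → p ∣ i →
      ∃ w ∈ M, w ≠ 0 ∧ ‖x * w ^ p - 1‖ < ‖x - 1‖)
    (hred : ∀ x : Ω, x ∈ M → ∀ i : ℕ, ‖x - 1‖ = ‖π‖ ^ i → e ≤ i → i < e + l → ¬ p ∣ i →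
      h43_Red p M x)
    (τ : h78_G p) (hτM : ∀ z ∈ M, τ z ∈ M) (ζτ : Ω) (hζτe : ζτ ^ e = 1)
    (hτlead : ∀ z ∈ M, ∀ i : ℕ, ‖z‖ = ‖π‖ ^ i → ‖τ z - ζτ ^ i * z‖ < ‖z‖)
    (nτ : ℤ) (hnτ : ‖ζτ ^ l - (nτ : Ω)‖ < 1)
    (u : Ω) (hu : h43_Red p M u) (i : ℕ) (hi : ‖u - 1‖ = ‖π‖ ^ i) (hie : e ≤ i)
    (hil : i ≤ e + l) (a b : ℤ)
    (hpow : ∃ w ∈ M, w ≠ 0 ∧ τ (τ u) = (τ u) ^ a * u ^ b * w ^ p) :
    ‖ζτ ^ i * ζτ ^ i - (a : Ω) * ζτ ^ i - (b : Ω)‖ < 1 := by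
  obtain ⟨w, hwM, hw0, hττu⟩ := hpow
  have hp := (Fact.out : p.Prime)
  have he1 : 0 < e := by rw [he]; exact Nat.mul_pos (Nat.sub_pos_of_lt hp.one_lt) hl
  have hπ' := hπ
  obtain ⟨hπM, hπ0, hπ1, -⟩ := hπ'
  have hρ0 : 0 < ‖u - 1‖ := by rw [hi]; exact pow_pos (norm_pos_iff.2 hπ0) i
  have hρ1 : ‖u - 1‖ < 1 := by
    rw [hi]
    exact pow_lt_one₀ (norm_nonneg _) hπ1 (by omega)
  have hζτ1 : ‖ζτ‖ = 1 := by
    have h := congrArg norm hζτe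
    rw [norm_pow, norm_one] at h
    exact (pow_eq_one_iff_of_nonneg (norm_nonneg _) he1.ne').1 h
  have hζτi : ‖ζτ ^ i‖ = 1 := by rw [norm_pow, hζτ1, one_pow]
  have hzM : u - 1 ∈ M := sub_mem hu.1 (one_mem M)
  have hu0 : u ≠ 0 := by
    intro h0
    rw [h0, zero_sub, norm_neg, norm_one] at hρ1
    exact lt_irrefl _ hρ1
  have hτu0 : τ u ≠ 0 := fun h => hu0 ((map_eq_zero_iff τ τ.injective).1 h)
  -- the leading term of `τ u`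
  have hA : ‖τ u - 1 - ζτ ^ i * (u - 1)‖ < ‖u - 1‖ := by
    have h := hτlead (u - 1) hzM i hi
    rwa [map_sub, map_one] at h
  have hAt : ‖ζτ ^ i * (u - 1)‖ ≤ ‖u - 1‖ := by rw [norm_mul, hζτi, one_mul]
  -- the leading term of `τ (τ u)`
  have hz1M : τ u - 1 ∈ M := sub_mem (hτM u hu.1) (one_mem M)
  have hz1n : ‖τ u - 1‖ = ‖π‖ ^ i := by
    have h : τ u - 1 = τ (u - 1) := by rw [map_sub, map_one]
    rw [h, h78_norm_aut, hi]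
  have hB0 : ‖τ (τ u) - 1 - ζτ ^ i * (τ u - 1)‖ < ‖u - 1‖ := by
    have h := hτlead (τ u - 1) hz1M i hz1n
    rw [map_sub, map_one, hz1n, ← hi] at h
    exact h
  have hB : ‖τ (τ u) - 1 - ζτ ^ i * ζτ ^ i * (u - 1)‖ < ‖u - 1‖ := by
    have h : τ (τ u) - 1 - ζτ ^ i * ζτ ^ i * (u - 1)
        = (τ (τ u) - 1 - ζτ ^ i * (τ u - 1)) + ζτ ^ i * (τ u - 1 - ζτ ^ i * (u - 1)) := by ring
    rw [h]
    refine lt_of_le_of_lt (IsUltrametricDist.norm_add_le_max _ _) (max_lt hB0 ?_)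
    rw [norm_mul, hζτi, one_mul]
    exact hA
  have hBt : ‖ζτ ^ i * ζτ ^ i * (u - 1)‖ ≤ ‖u - 1‖ := by
    rw [norm_mul, norm_mul, hζτi, one_mul, one_mul]
  -- the leading terms of `(τ u) ^ a` and `u ^ b`
  have hτua := h3_lead_zpow p hρ1 hAt hA a
  have hat : ‖(a : Ω) * (ζτ ^ i * (u - 1))‖ ≤ ‖u - 1‖ := by
    rw [norm_mul]
    calc ‖(a : Ω)‖ * ‖ζτ ^ i * (u - 1)‖ ≤ 1 * ‖ζτ ^ i * (u - 1)‖ :=
          mul_le_mul_of_nonneg_right (h3_norm_intCast_le p a) (norm_nonneg _)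
      _ = ‖ζτ ^ i * (u - 1)‖ := one_mul _
      _ ≤ ‖u - 1‖ := hAt
  have hτuainv := h3_lead_inv p hρ1 hat hτua
  have hu1 : ‖u - 1 - (u - 1)‖ < ‖u - 1‖ := by rw [sub_self, norm_zero]; exact hρ0
  have hub := h3_lead_zpow p hρ1 le_rfl hu1 b
  have hbt : ‖(b : Ω) * (u - 1)‖ ≤ ‖u - 1‖ := by
    rw [norm_mul]
    calc ‖(b : Ω)‖ * ‖u - 1‖ ≤ 1 * ‖u - 1‖ :=
          mul_le_mul_of_nonneg_right (h3_norm_intCast_le p b) (norm_nonneg _)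
      _ = ‖u - 1‖ := one_mul _
  have hubinv := h3_lead_inv p hρ1 hbt hub
  have hprod1 := h3_lead_mul p hρ1 hBt (by rw [norm_neg]; exact hat) hB hτuainv
  have hprod1t : ‖ζτ ^ i * ζτ ^ i * (u - 1) + -((a : Ω) * (ζτ ^ i * (u - 1)))‖ ≤ ‖u - 1‖ :=
    (IsUltrametricDist.norm_add_le_max _ _).trans (max_le hBt (by rw [norm_neg]; exact hat))
  have hprod := h3_lead_mul p hρ1 hprod1t (by rw [norm_neg]; exact hbt) hprod1 hubinv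
  have hτua0 : τ u ^ a ≠ 0 := zpow_ne_zero a hτu0
  have hub0 : u ^ b ≠ 0 := zpow_ne_zero b hu0
  have hv : τ (τ u) * (τ u ^ a)⁻¹ * (u ^ b)⁻¹ = w ^ p := by
    rw [hττu]
    field_simp
  have hlead : ‖w ^ p - 1 - (ζτ ^ i * ζτ ^ i - (a : Ω) * ζτ ^ i - (b : Ω)) * (u - 1)‖
      < ‖u - 1‖ := by
    rw [← hv]
    have h : (ζτ ^ i * ζτ ^ i - (a : Ω) * ζτ ^ i - (b : Ω)) * (u - 1)
        = ζτ ^ i * ζτ ^ i * (u - 1) + -((a : Ω) * (ζτ ^ i * (u - 1))) + -((b : Ω) * (u - 1)) := by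
      ring
    rw [h]
    exact hprod
  have hq1 : ‖ζτ ^ i * ζτ ^ i - (a : Ω) * ζτ ^ i - (b : Ω)‖ ≤ 1 := by
    refine (h3_norm_sub_le_max p _ _).trans (max_le ?_ (h3_norm_intCast_le p b))
    refine (h3_norm_sub_le_max p _ _).trans (max_le ?_ ?_)
    · rw [norm_mul, hζτi, one_mul]
    · rw [norm_mul, hζτi, mul_one]
      exact h3_norm_intCast_le p a
  refine h3_lv_tame_core p M π hπ e l he1 hpth himp hred u hu i hi hie hil w hwM hw0 _ hq1 hlead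
    (nτ * nτ - a * nτ - b) ?_
  intro heq
  have hil' : ζτ ^ i = ζτ ^ l := by rw [heq, pow_add, hζτe, one_mul]
  have h : ζτ ^ i * ζτ ^ i - (a : Ω) * ζτ ^ i - (b : Ω) - ((nτ * nτ - a * nτ - b : ℤ) : Ω)
      = (ζτ ^ l - (nτ : Ω)) * (ζτ ^ l + (nτ : Ω) - (a : Ω)) := by
    rw [hil']
    push_cast
    ring
  rw [h, norm_mul]
  have h2 : ‖ζτ ^ l + (nτ : Ω) - (a : Ω)‖ ≤ 1 := by
    refine (h3_norm_sub_le_max p _ _).trans (max_le ?_ (h3_norm_intCast_le p a))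
    refine (IsUltrametricDist.norm_add_le_max _ _).trans (max_le ?_ (h3_norm_intCast_le p nτ))
    rw [norm_pow, hζτ1, one_pow]
  calc ‖ζτ ^ l - (nτ : Ω)‖ * ‖ζτ ^ l + (nτ : Ω) - (a : Ω)‖ ≤ ‖ζτ ^ l - (nτ : Ω)‖ * 1 :=
        mul_le_mul_of_nonneg_left h2 (norm_nonneg _)
    _ = ‖ζτ ^ l - (nτ : Ω)‖ := mul_one _
    _ < 1 := hnτ

end Fermat.Agent.S56
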