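/-
S56 / W3 / E-RED (route R80) row ER-C1 (helper3): a nontrivial inertial twist forces
"unramified".  `h3_twist_unram_of` = `skR_twist_unram` of the E-RED skeleton (helper80) with the
three leading-coefficient lemmas L2 (additivity), L3 (Galois equivariance), L4 (kernel) of row
ER-LEAD as hypotheses.
-/
import Fermat.Agent.S56.h80_ERedDefs
import Fermat.Agent.S56.h49_K0Res

set_option autoImplicit false

namespace Fermat.Agent.S56

variable (p : ℕ) [Fact p.Prime]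

local notation "Ω" => PadicAlgCl p
local notation "Fld" => IntermediateField ℚ_[p] (PadicAlgCl p)

/-- additive functionals `k → 𝔽_p` separate the points of a ring of characteristic `p`. -/
theorem h3_addHom_separates {k : Type} [Field k] [CharP k p] (x : k)
    (h : ∀ ℓ : k →+ ZMod p, ℓ x = 0) : x = 0 := by
  let _ : Algebra (ZMod p) k := ZMod.algebra k p
  refine (Module.forall_dual_apply_eq_zero_iff (ZMod p) x).1 (fun φ => ?_)
  exact h φ.toAddMonoidHom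

/-- the leading coefficient `(u - 1) / p` of a Kummer datum. -/
theorem h3_lead_of_KD (F L : Fld) (ζ : Ω) (ξ : h78_G p → ZMod p) (h : h80_KD p F L ζ ξ) :
    ∃ y : Ω, y ∈ F ∧ ‖y‖ ≤ 1 ∧ h80_Lead p F L ζ ξ y := by
  obtain ⟨u, α, hu, hα, hαp, hu1, hh⟩ := h
  have hp0 : (0 : ℝ) < p := by exact_mod_cast (Fact.out : p.Prime).pos
  have hnp : ‖(p : Ω)‖ = (p : ℝ)⁻¹ := by
    rw [← map_natCast (algebraMap ℚ_[p] (PadicAlgCl p)), PadicAlgCl.norm_extends, Padic.norm_p]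
  refine ⟨(u - 1) / (p : Ω), div_mem (sub_mem hu (one_mem F)) (natCast_mem F p), ?_,
    u, α, hu, hα, hαp, hu1, ?_, hh⟩
  · rw [norm_div, hnp, div_le_one (inv_pos.2 hp0)]
    exact hu1
  · rw [sub_self, norm_zero]
    exact zero_lt_one

/-- natural multiples of a leading coefficient (from additivity L2). -/
theorem h3_lead_nsmul (F L : Fld) (ζ : Ω)
    (hL2 : ∀ (ξ ξ' : h78_G p → ZMod p) (y y' : Ω), h80_Lead p F L ζ ξ y →
      h80_Lead p F L ζ ξ' y' → h80_Lead p F L ζ (fun g => ξ g + ξ' g) (y + y'))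
    (ξ : h78_G p → ZMod p) (y : Ω) (h : h80_Lead p F L ζ ξ y) (m : ℕ) :
    h80_Lead p F L ζ (fun g => (m + 1) • ξ g) (((m + 1 : ℕ) : Ω) * y) := by
  induction m with
  | zero =>
    have h1 : (fun g => (0 + 1) • ξ g) = ξ := by
      funext g
      rw [zero_add, one_nsmul]
    have h2 : (((0 + 1 : ℕ) : Ω)) * y = y := by
      rw [zero_add, Nat.cast_one, one_mul]
    rw [h1, h2]
    exact h
  | succ m ih =>
    have h1 : (fun g => (m + 1 + 1) • ξ g) = fun g => (m + 1) • ξ g + ξ g := by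
      funext g
      rw [succ_nsmul]
    have h2 : (((m + 1 + 1 : ℕ) : Ω)) * y = ((m + 1 : ℕ) : Ω) * y + y := by
      push_cast
      ring
    rw [h1, h2]
    exact hL2 _ _ _ _ ih h

/-- **ER-C1** over the leading-coefficient lemmas L2, L3, L4. -/
theorem h3_twist_unram_of {k : Type} [Field k] [CharP k p]
    (F L : Fld) [FiniteDimensional ℚ_[p] L] (hFL : F ≤ L) (ζ : Ω)
    (hL2 : ∀ (ξ ξ' : h78_G p → ZMod p) (y y' : Ω), h80_Lead p F L ζ ξ y →
      h80_Lead p F L ζ ξ' y' → h80_Lead p F L ζ (fun g => ξ g + ξ' g) (y + y'))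
    (hL3 : ∀ (g : h78_G p) (n : ℕ), g ζ = ζ ^ n → ∀ (ξ : h78_G p → ZMod p) (y : Ω),
      h80_Lead p F L ζ ξ y → h80_Lead p F L ζ (fun s => (n : ZMod p) * ξ (g⁻¹ * s * g)) (g y))
    (hL4 : ∀ (ξ : h78_G p → ZMod p) (y : Ω), h80_Lead p F L ζ ξ y → ‖y‖ < 1 →
      ∀ s : h78_G p, (∀ z ∈ F, s z = z) → s ∈ h78_J p L → ξ s = 0)
    (c ψ : h78_G p → k)
    (hconj : ∀ g h : h78_G p, (∀ z ∈ F, h z = z) → c (g * h * g⁻¹) = ψ g * c h)
    (hKD : ∀ ℓ : k →+ ZMod p, h80_KD p F L ζ (fun h => ℓ (c h)))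
    (τ : h78_G p) (hτ : τ ∈ h78_J p L) (n : ℕ) (hn : τ ζ = ζ ^ n) (hne : (n : k) * ψ τ⁻¹ ≠ 1) :
    ∀ h : h78_G p, (∀ z ∈ F, h z = z) → h ∈ h78_J p L → c h = 0 := by
  intro s hsF hsJ
  have hp := (Fact.out : p.Prime)
  have hp0 : (0 : ℝ) < p := by exact_mod_cast hp.pos
  have hp1 : (1 : ℝ) < p := by exact_mod_cast hp.one_lt
  have hnp : ‖(p : Ω)‖ = (p : ℝ)⁻¹ := by
    rw [← map_natCast (algebraMap ℚ_[p] (PadicAlgCl p)), PadicAlgCl.norm_extends, Padic.norm_p]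
  -- every functional kills `(λ - 1) * c s`
  have hkey : ∀ ℓ : k →+ ZMod p, ℓ (((n : k) * ψ τ⁻¹ - 1) * c s) = 0 := by
    intro ℓ
    obtain ⟨y, hyF, hy1, hy⟩ := h3_lead_of_KD p F L ζ _ (hKD ℓ)
    have h3 := hL3 τ n hn _ y hy
    have hm := h3_lead_nsmul p F L ζ hL2 _ y hy (p - 2)
    have htot := hL2 _ _ _ _ h3 hm
    have hpm : p - 2 + 1 = p - 1 := by have := hp.two_le; omega
    have hcast : (((p - 2 + 1 : ℕ) : Ω)) = (p : Ω) - 1 := by
      rw [hpm, Nat.cast_sub hp.one_le, Nat.cast_one]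
    have hY : ‖τ y + ((p - 2 + 1 : ℕ) : Ω) * y‖ < 1 := by
      have h : τ y + ((p - 2 + 1 : ℕ) : Ω) * y = (τ y - y) + (p : Ω) * y := by
        rw [hcast]
        ring
      rw [h]
      refine lt_of_le_of_lt (IsUltrametricDist.norm_add_le_max _ _) (max_lt ?_ ?_)
      · exact h49_J_res p L τ hτ y (hFL hyF) hy1
      · rw [norm_mul, hnp]
        calc (p : ℝ)⁻¹ * ‖y‖ ≤ (p : ℝ)⁻¹ * 1 :=
              mul_le_mul_of_nonneg_left hy1 (inv_pos.2 hp0).le
          _ = (p : ℝ)⁻¹ := mul_one _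
          _ < 1 := inv_lt_one_of_one_lt₀ hp1
    have h0 := hL4 _ _ htot hY s hsF hsJ
    -- unfold the total character at `s`
    have hc : c (τ⁻¹ * s * τ) = ψ τ⁻¹ * c s := by
      have h := hconj τ⁻¹ s hsF
      rwa [inv_inv] at h
    beta_reduce at h0
    rw [hc, hpm] at h0
    have h1 : ℓ (((n : k) * ψ τ⁻¹ - 1) * c s) = (n : ZMod p) * ℓ (ψ τ⁻¹ * c s) - ℓ (c s) := by
      have h : ((n : k) * ψ τ⁻¹ - 1) * c s = n • (ψ τ⁻¹ * c s) - c s := by
        rw [nsmul_eq_mul]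
        ring
      rw [h, map_sub, map_nsmul, nsmul_eq_mul]
    have h2 : (p - 1) • ℓ (c s) = - ℓ (c s) := by
      have h : (p - 1) • ℓ (c s) + ℓ (c s) = 0 := by
        rw [← succ_nsmul, Nat.sub_add_cancel hp.one_le, nsmul_eq_mul, ZMod.natCast_self, zero_mul]
      exact eq_neg_of_add_eq_zero_left h
    rw [h1, sub_eq_add_neg, ← h2]
    exact h0
  have hx := h3_addHom_separates p _ hkey
  rcases mul_eq_zero.1 hx with h | h
  · exact absurd (sub_eq_zero.1 h) hne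
  · exact h

end Fermat.Agent.S56
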