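/-
S56 / W3 / E-RED (route R80) row ER-C1 (helper3), closed form:
`h3_twist_unram` = `skR_twist_unram` of the E-RED skeleton (helper80) VERBATIM, from the core
`h3_twist_unram_of` and the leading-coefficient lemmas L2, L3, L4 of helper79 (`h79_ERLead`).
-/
import Fermat.Agent.S56.h3_ERedC1
import Fermat.Agent.S56.h79_ERLead

set_option autoImplicit false

namespace Fermat.Agent.S56

variable (p : ℕ) [Fact p.Prime]

local notation "Ω" => PadicAlgCl p
local notation "Fld" => IntermediateField ℚ_[p] (PadicAlgCl p)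

/-- **ER-C1** : a nontrivial inertial twist forces "unramified". -/
theorem h3_twist_unram {k : Type} [Field k] [Finite k] [CharP k p]
    (F L : Fld) [FiniteDimensional ℚ_[p] F] [FiniteDimensional ℚ_[p] L]
    (hF : h78_Stable p F) (hL : h78_Stable p L) (hFL : F ≤ L)
    (ζ : Ω) (hζp : ζ ^ p = 1) (hζ1 : ζ ≠ 1) (hunif : h78_IsUnif p F (ζ - 1))
    (c ψ : h78_G p → k)
    (hconj : ∀ g h : h78_G p, (∀ z ∈ F, h z = z) → c (g * h * g⁻¹) = ψ g * c h)
    (hKD : ∀ ℓ : k →+ ZMod p, h80_KD p F L ζ (fun h => ℓ (c h)))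
    (τ : h78_G p) (hτ : τ ∈ h78_J p L) (n : ℕ) (hn : τ ζ = ζ ^ n) (hne : (n : k) * ψ τ⁻¹ ≠ 1) :
    ∀ h : h78_G p, (∀ z ∈ F, h z = z) → h ∈ h78_J p L → c h = 0 :=
  h3_twist_unram_of p F L hFL ζ
    (fun ξ ξ' y y' h h' => h79_lead_add p F L ζ hζp ξ ξ' y y' h h')
    (fun g n hn ξ y h => h79_lead_gal p F L hF hL ζ hζp g n hn ξ y h)
    (fun ξ y h hy s hsF hsJ => h79_lead_ker p F L hFL ζ hζp hζ1 hunif ξ y h hy s hsF hsJ)
    c ψ hconj hKD τ hτ n hn hne

end Fermat.Agent.S56
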