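import Fermat.Agent.S56.h12_MidDefs
import Fermat.Agent.S55.h46_FinH1

/-!
# S56 / MID-FIN (row 599): `Z¹(G_{S₀}, ad⁰ ρ̄ (1))` is finite

Dictionary between the matrix cocycles of `h12_MidDefs` and the prelude's `Rep (ZMod p) GQ`
language:

* `h3_actRho rb` : `σ ↦ (Y ↦ rb σ * Y * adjugate (rb σ))` as a `ZMod p`-linear representation of
  `GQ` on `M₂(k)`; `h3_actRep rb` the object of `Rep (ZMod p) GQ`.
* `h3_ZN_toLevel` : every `ψ ∈ h12_ZN rb S` is an `S`-level `1`-cocycle of `h3_actRep rb`.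
* `h3_ZN_finite_set` : `h12_ZN rb S₀` is a finite set (S55 `h46_finite_levelCocyclesS₁`).
* `h3_ZN_finite` : `Module.Finite k (h12_ZN rb S₀)` - the skeleton statement `h12_ZN_finite`.
-/

set_option autoImplicit false

open ExtCitation groupCohomology

noncomputable section

namespace Fermat.Agent.S56

local notation "Γℚ" => (AlgebraicClosure ℚ ≃ₐ[ℚ] AlgebraicClosure ℚ)
local notation "M₂[" k "]" => Matrix (Fin 2) (Fin 2) k

section Dict

variable {k : Type} [Field k] (p : ℕ) [Algebra (ZMod p) k]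
variable (rb : Γℚ →* M₂[k])

/-- The twisted adjoint action of `A` as a `ZMod p`-linear endomorphism of `M₂(k)`. -/
def h3_actEnd (A : M₂[k]) : Module.End (ZMod p) M₂[k] where
  toFun Y := h12_act A Y
  map_add' Y Z := h12_act_add A Y Z
  map_smul' c Y := by
    simp only [RingHom.id_apply, h12_act, Matrix.mul_smul, Matrix.smul_mul]

@[simp] theorem h3_actEnd_apply (A Y : M₂[k]) : h3_actEnd p A Y = h12_act A Y := rfl

/-- `σ ↦ h12_act (rb σ)` as a representation of `GQ` on `M₂(k)` over `ZMod p`. -/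
def h3_actRho : Γℚ →* Module.End (ZMod p) M₂[k] where
  toFun σ := h3_actEnd p (rb σ)
  map_one' := by
    ext Y : 1
    simp [h12_act]
  map_mul' σ τ := by
    ext Y : 1
    simp only [h3_actEnd_apply, Module.End.mul_apply, h12_act, map_mul, Matrix.adjugate_mul_distrib,
      Matrix.mul_assoc]

@[simp] theorem h3_actRho_apply (σ : Γℚ) (Y : M₂[k]) :
    h3_actRho p rb σ Y = h12_act (rb σ) Y := rfl

/-- `M₂(k)` with the twisted adjoint action, as an object of `Rep (ZMod p) GQ`. -/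
abbrev h3_actRep : Rep.{0, 0, 0} (ZMod p) Γℚ := Rep.of (h3_actRho p rb)

end Dict

section Fin

variable {k : Type} [Field k] (p : ℕ) [Algebra (ZMod p) k]
variable (rb : Γℚ →* M₂[k])

/-- Every `ψ ∈ h12_ZN rb S` is a `1`-cocycle of `h3_actRep p rb`. -/
theorem h3_ZN_mem_cocycles (S : Finset Nat.Primes) (ψ : Γℚ → M₂[k]) (hψ : ψ ∈ h12_ZN rb S) :
    (ψ : Γℚ → h3_actRep p rb) ∈ cocycles₁ (h3_actRep p rb) := by
  rw [mem_cocycles₁_iff]
  intro g h
  have := hψ.2.1 g h
  rw [this, add_comm]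
  rfl

/-- The map `h12_ZN rb S → levelCocyclesS₁ S (h3_actRep p rb)`. -/
def h3_ZN_toLevel (S : Finset Nat.Primes) (ψ : h12_ZN rb S) :
    levelCocyclesS₁ S (h3_actRep p rb) :=
  ⟨⟨(ψ.1 : Γℚ → h3_actRep p rb), h3_ZN_mem_cocycles p rb S ψ.1 ψ.2⟩, ψ.2.2.2⟩

theorem h3_ZN_toLevel_injective (S : Finset Nat.Primes) :
    Function.Injective (h3_ZN_toLevel p rb S) := by
  intro ψ ψ' h
  apply Subtype.ext
  exact congrArg (fun c : levelCocyclesS₁ S (h3_actRep p rb) =>
    ((c : cocycles₁ (h3_actRep p rb)) : Γℚ → M₂[k])) h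

variable [Finite k] [Fact p.Prime]

/-- `Z¹(G_{S₀}, ad⁰ ρ̄ (1))` (indeed with values in all of `M₂(k)`) is a finite set. -/
theorem h3_ZN_finite_set (hrb : GaloisFactorsThroughFiniteLevel rb)
    (S₀ : Finset Nat.Primes) (hpS₀ : pPrime p ∈ S₀)
    (hrbS₀ : ∀ q : Nat.Primes, q ∉ S₀ → ∀ P : ValuationSubring (AlgebraicClosure ℚ),
      P.LiesOverPrime (q : ℕ) → ∀ σ ∈ P.inertiaSubgroupIn ℚ, rb σ = 1) :
    Finite ↥(h12_ZN rb S₀) := by
  have hfd : FiniteDimensional (ZMod p) (h3_actRep p rb) :=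
    Module.Finite.of_finite (R := ZMod p) (M := M₂[k])
  have h1 : ∀ (Y : M₂[k]), h12_act (1 : M₂[k]) Y = Y := by
    intro Y
    simp [h12_act]
  have hC : Finite (levelCocyclesS₁ S₀ (h3_actRep p rb)) := by
    refine Fermat.Agent.S55.h46_finite_levelCocyclesS₁ S₀ hpS₀ (h3_actRep p rb) ?_ ?_
    · intro m
      obtain ⟨L, hL, hLfix⟩ := hrb
      refine ⟨L, hL, fun s hs => ?_⟩
      have hs1 : rb s = 1 :=
        hLfix s (fun x hx => (IntermediateField.mem_fixingSubgroup_iff L s).mp hs x hx)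
      show h12_act (rb s) m = m
      rw [hs1]
      exact h1 m
    · intro q hq A hA g hg
      ext m : 1
      show h12_act (rb g) m = m
      rw [hrbS₀ q hq A hA g hg]
      exact h1 m
  exact Finite.of_injective (h3_ZN_toLevel p rb S₀) (h3_ZN_toLevel_injective p rb S₀)

end Fin

section Final

variable {k : Type} [Field k] [Finite k] (p : ℕ) [Fact p.Prime] [Algebra (ZMod p) k]
variable (rb : Γℚ →* M₂[k])

/-- **MID-FIN** (`h12_ZN_finite` of the MID skeleton, verbatim): `Z¹(G_{S₀}, ad⁰ ρ̄ (1))` is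
finite-dimensional. (`hdet` is not used.) -/
theorem h3_ZN_finite (_hdet : h12_DetCyc p rb) (hrb : GaloisFactorsThroughFiniteLevel rb)
    (S₀ : Finset Nat.Primes) (hpS₀ : pPrime p ∈ S₀)
    (hrbS₀ : ∀ q : Nat.Primes, q ∉ S₀ → ∀ P : ValuationSubring (AlgebraicClosure ℚ),
      P.LiesOverPrime (q : ℕ) → ∀ σ ∈ P.inertiaSubgroupIn ℚ, rb σ = 1) :
    Module.Finite k ↥(h12_ZN rb S₀) := by
  have := h3_ZN_finite_set p rb hrb S₀ hpS₀ hrbS₀
  exact Module.Finite.of_finite

end Final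


end Fermat.Agent.S56
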