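import Fermat.Agent.S56.h40_LocUnr
import Fermat.Agent.S56.h40_Unpack

/-!
# S56 local layer: the per-subspace bounds at `q ≠ p` (helper40)

* `h40_R3_unr` : (UNR) a space `W` of tangent cocycles whose nonzero members give lifts that are
  unramified at `q` with cyclotomic determinant: the classes of `W` on the decomposition group
  `D_P` have rank at most `dim H⁰(D_P, ad⁰)`.
* `h40_unip_rank` : (R3-unip) the same bound when `rb` is ramified at `P` and the nonzero members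
  of `W` are unipotent on inertia, given that the image of inertia under each lift is cyclic
  (`hcyc`: the tame quotient is pro-cyclic and the images are `p`-groups, `p ≠ q`).
-/

set_option autoImplicit false
set_option linter.style.haveILetI false
set_option linter.unusedSectionVars false

namespace Fermat.Agent.S56

open Fermat.Agent.S53 Fermat.Agent.S53.Dict

section LinAlg

variable {k : Type} [Field k]

theorem h40_exists_comm_aux (a b c d y1 y2 y3 y4 : k) (h1 : a + d = 2) (h2 : a * d - b * c = 1)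
    (hu : ¬ (a = 1 ∧ b = 0 ∧ c = 0 ∧ d = 1)) (hY1 : y1 + y4 = 0)
    (hY2 : y1 * d - y2 * c - y3 * b + y4 * a = 0) :
    ∃ x1 x2 x3 x4 : k, !![y1, y2; y3, y4] =
      !![x1, x2; x3, x4] * !![a, b; c, d] - !![a, b; c, d] * !![x1, x2; x3, x4] := by
  by_cases hb : b = 0
  · subst hb
    have ha : a = 1 := by
      have : (a - 1) ^ 2 = 0 := by linear_combination a * h1 - h2
      have := (pow_eq_zero_iff (two_ne_zero)).mp this
      linear_combination this
    have hd : d = 1 := by linear_combination h1 - ha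
    subst ha hd
    have hc : c ≠ 0 := fun hc => hu ⟨rfl, rfl, hc, rfl⟩
    have hy2 : y2 = 0 := by
      have : y2 * c = 0 := by linear_combination -hY2 + hY1
      exact (mul_eq_zero.mp this).resolve_right hc
    subst hy2
    refine ⟨0, y1 / c, 0, y3 / c, ?_⟩
    rw [Matrix.mul_fin_two, Matrix.mul_fin_two]
    ext i j
    fin_cases i <;> fin_cases j <;> simp <;> field_simp
    linear_combination hY1
  · refine ⟨y2 / b, 0, -y1 / b, 0, ?_⟩
    rw [Matrix.mul_fin_two, Matrix.mul_fin_two]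
    ext i j
    fin_cases i <;> fin_cases j <;> simp <;> field_simp
    · ring
    · linear_combination a * hY1 - hY2
    · linear_combination hY1

/-- For a non-trivial unipotent `u`, every `Y` with `tr Y = 0 = tr (Y u⁻¹)` is a commutator
`X u - u X`. -/
theorem h40_exists_comm_of_unip (u Y : Matrix (Fin 2) (Fin 2) k) (h1 : u.trace = 2)
    (h2 : u.det = 1) (hu : u ≠ 1) (hY1 : Y.trace = 0) (hY2 : (Y * u.adjugate).trace = 0) :
    ∃ X : Matrix (Fin 2) (Fin 2) k, Y = X * u - u * X := by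
  have eu := Matrix.eta_fin_two u
  have eY := Matrix.eta_fin_two Y
  rw [Matrix.trace_fin_two] at h1 hY1
  rw [Matrix.det_fin_two] at h2
  have hY2' : Y 0 0 * u 1 1 - Y 0 1 * u 1 0 - Y 1 0 * u 0 1 + Y 1 1 * u 0 0 = 0 := by
    rw [Matrix.trace_fin_two, Matrix.adjugate_fin_two] at hY2
    simp only [Matrix.mul_apply, Fin.sum_univ_two, Matrix.of_apply, Matrix.cons_val_zero,
      Matrix.cons_val_one, Matrix.cons_val', Matrix.cons_val_fin_one] at hY2
    linear_combination hY2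
  have hu' : ¬ (u 0 0 = 1 ∧ u 0 1 = 0 ∧ u 1 0 = 0 ∧ u 1 1 = 1) := by
    rintro ⟨e1, e2, e3, e4⟩
    apply hu
    ext i j
    fin_cases i <;> fin_cases j <;> simp [e1, e2, e3, e4]
  obtain ⟨x1, x2, x3, x4, h⟩ := h40_exists_comm_aux (u 0 0) (u 0 1) (u 1 0) (u 1 1)
    (Y 0 0) (Y 0 1) (Y 1 0) (Y 1 1) h1 h2 hu' hY1 hY2'
  rw [← eu, ← eY] at h
  exact ⟨_, h⟩

end LinAlg

section Pow

variable {k : Type} [Field k]

theorem h40_dmat_pow_fst (A B : Matrix (Fin 2) (Fin 2) k) (j : ℕ) :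
    ∃ C : Matrix (Fin 2) (Fin 2) k, h40_dmat A B ^ j = h40_dmat (A ^ j) C := by
  induction j with
  | zero => exact ⟨0, by rw [pow_zero, pow_zero, h40_dmat_one]⟩
  | succ j ih =>
    obtain ⟨C, hC⟩ := ih
    exact ⟨C * A + A ^ j * B, by rw [pow_succ, hC, h40_dmat_mul, pow_succ]⟩

theorem h40_dmat_comm_pow (u X : Matrix (Fin 2) (Fin 2) k) (j : ℕ) :
    h40_dmat u (X * u - u * X) ^ j = h40_dmat (u ^ j) (X * u ^ j - u ^ j * X) := by
  induction j with
  | zero => rw [pow_zero, pow_zero, mul_one, one_mul, sub_self, h40_dmat_one]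
  | succ j ih =>
    rw [pow_succ, ih, h40_dmat_mul, pow_succ]
    congr 1
    noncomm_ring

end Pow

section Unip

variable {k : Type} [Field k] (rb : GQ →* Matrix (Fin 2) (Fin 2) k)

/-- A unipotent lift with cyclic image of inertia is, on inertia, the coboundary of one matrix. -/
theorem h40_unip_cob_on_inertia (I : Subgroup GQ) (hram : ∃ τ ∈ I, rb τ ≠ 1)
    (a : GQ → Matrix (Fin 2) (Fin 2) k) (ha : a ∈ h40_TanZ rb)
    (hunip : ∀ τ ∈ I, ((rb τ).trace = 2 ∧ (rb τ).det = 1) ∧ (a τ).trace = 0 ∧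
      (a τ * (rb τ).adjugate).trace = 0)
    (hcyc : ∃ τ₀ ∈ I, ∀ τ ∈ I, ∃ j : ℕ, h40_tanHom rb a ha τ = h40_tanHom rb a ha τ₀ ^ j) :
    ∃ X : Matrix (Fin 2) (Fin 2) k, ∀ τ ∈ I, a τ = X * rb τ - rb τ * X := by
  obtain ⟨τ₀, hτ₀, hgen⟩ := hcyc
  have hu : rb τ₀ ≠ 1 := by
    intro h1
    obtain ⟨τ, hτ, hne⟩ := hram
    obtain ⟨j, hj⟩ := hgen τ hτ
    obtain ⟨C, hC⟩ := h40_dmat_pow_fst (rb τ₀) (a τ₀) j
    rw [h40_tanHom_apply, h40_tanHom_apply, h40_tanMat, h40_tanMat, hC, h40_dmat_eq_iff, h1,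
      one_pow] at hj
    exact hne hj.1
  obtain ⟨⟨h1, h2⟩, h3, h4⟩ := hunip τ₀ hτ₀
  obtain ⟨X, hX⟩ := h40_exists_comm_of_unip (rb τ₀) (a τ₀) h1 h2 hu h3 h4
  refine ⟨X, fun τ hτ => ?_⟩
  obtain ⟨j, hj⟩ := hgen τ hτ
  rw [h40_tanHom_apply, h40_tanHom_apply, h40_tanMat, h40_tanMat, hX, h40_dmat_comm_pow,
    h40_dmat_eq_iff] at hj
  rw [hj.2, hj.1]

/-- **(R3-unip), abstract form.** `rb` ramified at `P`; `W` a space of tangent cocycles, trace-zero
on `D_P`, whose nonzero members are unipotent on inertia and have cyclic image of inertia.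
Then the classes of `W` on `D_P` have rank at most `dim H⁰(D_P, ad⁰)`. -/
theorem h40_unip_rank (hrb : GaloisFactorsThroughFiniteLevel rb)
    (P : ValuationSubring (AlgebraicClosure ℚ)) {q : ℕ} (hq : q.Prime) (hP : P.LiesOverPrime q)
    (hram : ∃ τ ∈ P.inertiaSubgroupIn ℚ, rb τ ≠ 1)
    (W : Submodule k (GQ → Matrix (Fin 2) (Fin 2) k)) (hW : W ≤ h40_TanZ rb)
    (htr : ∀ a ∈ W, ∀ σ ∈ P.decompositionSubgroup ℚ, (a σ * (rb σ).adjugate).trace = 0)
    (hunip : ∀ a ∈ W, a ≠ 0 → ∀ τ ∈ P.inertiaSubgroupIn ℚ,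
      ((rb τ).trace = 2 ∧ (rb τ).det = 1) ∧ (a τ).trace = 0)
    (hcyc : ∀ a (ha : a ∈ W), a ≠ 0 → ∃ τ₀ ∈ P.inertiaSubgroupIn ℚ,
      ∀ τ ∈ P.inertiaSubgroupIn ℚ, ∃ j : ℕ,
        h40_tanHom rb a (hW ha) τ = h40_tanHom rb a (hW ha) τ₀ ^ j) :
    Module.rank k (W ⧸ (h40_CobOn rb (P.decompositionSubgroup ℚ)).comap W.subtype) ≤
      Module.finrank k (h40_H0 rb (P.decompositionSubgroup ℚ)) := by
  refine le_trans (h40_rank_le_of_le_sup W
    (h40_UnrZ rb (P.decompositionSubgroup ℚ) (P.inertiaSubgroupIn ℚ))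
    (h40_CobOn rb (P.decompositionSubgroup ℚ)) ?_) (h40_unr_rank rb hrb P hq hP)
  intro a ha
  by_cases ha0 : a = 0
  · rw [ha0]
    exact Submodule.zero_mem _
  obtain ⟨X, hX⟩ := h40_unip_cob_on_inertia rb (P.inertiaSubgroupIn ℚ) hram a (hW ha)
    (fun τ hτ => ⟨(hunip a ha ha0 τ hτ).1, (hunip a ha ha0 τ hτ).2,
      htr a ha τ (h40_inertia_le_dec P hτ)⟩) (hcyc a ha ha0)
  have h1 : a - h40_cob rb X ∈ h40_UnrZ rb (P.decompositionSubgroup ℚ)
      (P.inertiaSubgroupIn ℚ) := by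
    refine ⟨Submodule.sub_mem _ (hW ha) (h40_cob_mem_TanZ rb hrb X), fun τ hτ => ?_,
      fun σ hσ => ?_⟩
    · rw [Pi.sub_apply, h40_cob_apply, hX τ hτ, sub_self]
    · rw [Pi.sub_apply, sub_mul, Matrix.trace_sub, htr a ha σ hσ, h40_cob_trace, sub_zero]
  have h2 : a = (a - h40_cob rb X) + h40_cob rb X := by abel
  rw [h2]
  exact Submodule.add_mem_sup h1 (h40_cob_mem_CobOn rb _ X)

end Unip

section Frozen

variable {k : Type} [Field k] (rb : GQ →* Matrix (Fin 2) (Fin 2) k)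
  (hrb : GaloisFactorsThroughFiniteLevel rb)

/-- **(UNR), frozen form.** If the nonzero members of `W` give lifts with cyclotomic determinant
that are unramified at `q`, then for every place `P` over `q` the classes of `W` on `D_P` have
rank at most `dim H⁰(D_P, ad⁰)`. -/
theorem h40_R3_unr {p : ℕ} [Fact p.Prime] {q : ℕ} (hq : q.Prime)
    (W : Submodule k (GQ → Matrix (Fin 2) (Fin 2) k)) (hW : W ≤ h40_TanZ rb)
    (htype : ∀ a (ha : a ∈ W), a ≠ 0 →
      (h40_tanRep rb hrb a (hW ha)).DetIsCyclotomic p ∧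
      (h40_tanRep rb hrb a (hW ha)).IsUnramifiedAt q)
    (P : ValuationSubring (AlgebraicClosure ℚ)) (hP : P.LiesOverPrime q) :
    Module.rank k (W ⧸ (h40_CobOn rb (P.decompositionSubgroup ℚ)).comap W.subtype) ≤
      Module.finrank k (h40_H0 rb (P.decompositionSubgroup ℚ)) := by
  refine le_trans (h40_rank_le_of_le_sup W
    (h40_UnrZ rb (P.decompositionSubgroup ℚ) (P.inertiaSubgroupIn ℚ))
    (h40_CobOn rb (P.decompositionSubgroup ℚ)) ?_) (h40_unr_rank rb hrb P hq hP)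
  intro a ha
  refine (le_sup_left : h40_UnrZ rb (P.decompositionSubgroup ℚ) (P.inertiaSubgroupIn ℚ) ≤ _) ?_
  by_cases ha0 : a = 0
  · rw [ha0]
    exact Submodule.zero_mem _
  obtain ⟨hdet, hunr⟩ := htype a ha ha0
  exact ⟨hW ha, fun τ hτ => ((h40_unpack_unr rb hrb a (hW ha) q).mp hunr P hP τ hτ).2,
    fun σ _ => (h40_unpack_det rb hrb a (hW ha) hdet).2.2 σ⟩

end Frozen

end Fermat.Agent.S56
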