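import Fermat.Agent.S56.h40_TopDefs
import Fermat.Agent.S56.h40_DecGen
import Fermat.Agent.S54.Frob

/-!
# S56 local layer: unramified classes at a prime (helper40)

`rb : GQ →* M₂(k)` of finite level, `P` a place of `ℚ̄` over `q`, `D`, `I` its decomposition and
inertia groups.

* `h40_cob rb X` : the coboundary `σ ↦ X * rb σ - rb σ * X`;
* `h40_CobOn rb D` : maps whose restriction to `D` is a coboundary;
* `h40_H0 rb D` : trace-zero matrices commuting with `rb D`  (`H⁰(D, ad⁰)`);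
* `h40_UnrZ rb D I` : tangent cocycles vanishing on `I`, with `a σ * (rb σ)⁻¹` of trace zero on `D`;
* `h40_unr_rank` : the classes on `D` of the unramified cocycles span a space of rank at most
  `finrank (h40_H0 rb D)`;
* `h40_rank_le_of_le_sup` : the transfer to any `W ≤ h40_UnrZ ⊔ h40_CobOn`.
-/

set_option autoImplicit false
set_option linter.style.haveILetI false
set_option linter.unusedSectionVars false

namespace Fermat.Agent.S56

open Fermat.Agent.S53 Fermat.Agent.S53.Dict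

section Defs

variable {k : Type} [Field k] (rb : GQ →* Matrix (Fin 2) (Fin 2) k)

/-- The coboundary of `X`. -/
noncomputable def h40_cob (X : Matrix (Fin 2) (Fin 2) k) : GQ → Matrix (Fin 2) (Fin 2) k :=
  fun σ => X * rb σ - rb σ * X

@[simp] theorem h40_cob_apply (X : Matrix (Fin 2) (Fin 2) k) (σ : GQ) :
    h40_cob rb X σ = X * rb σ - rb σ * X := rfl

theorem h40_cob_mem_TanZ (hrb : GaloisFactorsThroughFiniteLevel rb)
    (X : Matrix (Fin 2) (Fin 2) k) : h40_cob rb X ∈ h40_TanZ rb := by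
  obtain ⟨L, hL, h1⟩ := hrb
  refine ⟨fun σ τ => ?_, L, hL, fun σ hσ => ?_⟩
  · simp only [h40_cob_apply, map_mul]
    noncomm_ring
  · rw [h40_cob_apply, h1 σ hσ, mul_one, one_mul, sub_self]

theorem h40_cob_trace (X : Matrix (Fin 2) (Fin 2) k) (σ : GQ) :
    (h40_cob rb X σ * (rb σ).adjugate).trace = 0 := by
  rw [h40_cob_apply, sub_mul, Matrix.trace_sub, mul_assoc, Matrix.mul_adjugate, mul_assoc,
    Matrix.trace_mul_comm (rb σ), mul_assoc, Matrix.adjugate_mul, sub_self]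

/-- Maps `GQ → M₂(k)` whose restriction to `D` is a coboundary. -/
def h40_CobOn (D : Subgroup GQ) : Submodule k (GQ → Matrix (Fin 2) (Fin 2) k) where
  carrier := {a | ∃ X : Matrix (Fin 2) (Fin 2) k, ∀ σ ∈ D, a σ = X * rb σ - rb σ * X}
  add_mem' := by
    rintro a b ⟨X, hX⟩ ⟨Y, hY⟩
    refine ⟨X + Y, fun σ hσ => ?_⟩
    rw [Pi.add_apply, hX σ hσ, hY σ hσ]
    noncomm_ring
  zero_mem' := ⟨0, fun σ _ => by simp⟩
  smul_mem' := by
    rintro c a ⟨X, hX⟩
    refine ⟨c • X, fun σ hσ => ?_⟩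
    rw [Pi.smul_apply, hX σ hσ, smul_sub, Matrix.smul_mul, Matrix.mul_smul]

theorem h40_mem_CobOn (D : Subgroup GQ) (a : GQ → Matrix (Fin 2) (Fin 2) k) :
    a ∈ h40_CobOn rb D ↔ ∃ X : Matrix (Fin 2) (Fin 2) k, ∀ σ ∈ D, a σ = X * rb σ - rb σ * X :=
  Iff.rfl

theorem h40_cob_mem_CobOn (D : Subgroup GQ) (X : Matrix (Fin 2) (Fin 2) k) :
    h40_cob rb X ∈ h40_CobOn rb D := ⟨X, fun _ _ => rfl⟩

/-- Trace-zero matrices commuting with `rb D`: the invariants `H⁰(D, ad⁰)`. -/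
def h40_H0 (D : Subgroup GQ) : Submodule k (Matrix (Fin 2) (Fin 2) k) where
  carrier := {X | X.trace = 0 ∧ ∀ σ ∈ D, X * rb σ = rb σ * X}
  add_mem' := by
    rintro X Y ⟨hX, hX'⟩ ⟨hY, hY'⟩
    refine ⟨by rw [Matrix.trace_add, hX, hY, add_zero], fun σ hσ => ?_⟩
    rw [add_mul, mul_add, hX' σ hσ, hY' σ hσ]
  zero_mem' := ⟨Matrix.trace_zero _ _, fun σ _ => by simp⟩
  smul_mem' := by
    rintro c X ⟨hX, hX'⟩
    refine ⟨by rw [Matrix.trace_smul, hX, smul_zero], fun σ hσ => ?_⟩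
    rw [Matrix.smul_mul, Matrix.mul_smul, hX' σ hσ]

theorem h40_mem_H0 (D : Subgroup GQ) (X : Matrix (Fin 2) (Fin 2) k) :
    X ∈ h40_H0 rb D ↔ X.trace = 0 ∧ ∀ σ ∈ D, X * rb σ = rb σ * X := Iff.rfl

/-- Tangent cocycles that vanish on `I` and are trace-zero on `D`. -/
def h40_UnrZ (D I : Subgroup GQ) : Submodule k (GQ → Matrix (Fin 2) (Fin 2) k) where
  carrier := {a | a ∈ h40_TanZ rb ∧ (∀ τ ∈ I, a τ = 0) ∧
    ∀ σ ∈ D, (a σ * (rb σ).adjugate).trace = 0}
  add_mem' := by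
    rintro a b ⟨ha, ha1, ha2⟩ ⟨hb, hb1, hb2⟩
    refine ⟨Submodule.add_mem _ ha hb, fun τ hτ => ?_, fun σ hσ => ?_⟩
    · rw [Pi.add_apply, ha1 τ hτ, hb1 τ hτ, add_zero]
    · rw [Pi.add_apply, add_mul, Matrix.trace_add, ha2 σ hσ, hb2 σ hσ, add_zero]
  zero_mem' := ⟨Submodule.zero_mem _, fun _ _ => rfl, fun σ _ => by simp⟩
  smul_mem' := by
    rintro c a ⟨ha, ha1, ha2⟩
    refine ⟨Submodule.smul_mem _ c ha, fun τ hτ => ?_, fun σ hσ => ?_⟩
    · rw [Pi.smul_apply, ha1 τ hτ, smul_zero]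
    · rw [Pi.smul_apply, Matrix.smul_mul, Matrix.trace_smul, ha2 σ hσ, smul_zero]

theorem h40_mem_UnrZ (D I : Subgroup GQ) (a : GQ → Matrix (Fin 2) (Fin 2) k) :
    a ∈ h40_UnrZ rb D I ↔ a ∈ h40_TanZ rb ∧ (∀ τ ∈ I, a τ = 0) ∧
      ∀ σ ∈ D, (a σ * (rb σ).adjugate).trace = 0 := Iff.rfl

end Defs

section Group

variable (P : ValuationSubring (AlgebraicClosure ℚ))

theorem h40_inertia_le_dec {τ : GQ} (hτ : τ ∈ P.inertiaSubgroupIn ℚ) :
    τ ∈ P.decompositionSubgroup ℚ := by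
  obtain ⟨t, -, rfl⟩ := hτ
  exact t.2

/-- The inertia group is normal in the decomposition group. -/
theorem h40_conj_mem_inertia {σ τ : GQ} (hσ : σ ∈ P.decompositionSubgroup ℚ)
    (hτ : τ ∈ P.inertiaSubgroupIn ℚ) : σ * τ * σ⁻¹ ∈ P.inertiaSubgroupIn ℚ := by
  obtain ⟨t, ht, rfl⟩ := hτ
  have hn : (P.inertiaSubgroup ℚ).Normal := by
    unfold ValuationSubring.inertiaSubgroup
    infer_instance
  have h1 := hn.conj_mem t ht ⟨σ, hσ⟩
  exact Subgroup.mem_map.mpr ⟨_, h1, by simp⟩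

end Group

section Tan

variable {k : Type} [Field k] (rb : GQ →* Matrix (Fin 2) (Fin 2) k)

theorem h40_dmat_zero_mul (A B : Matrix (Fin 2) (Fin 2) k) :
    h40_dmat A 0 * h40_dmat B 0 = h40_dmat (A * B) 0 := by
  rw [h40_dmat_mul, zero_mul, mul_zero, add_zero]

theorem h40_dmat_zero_pow (A : Matrix (Fin 2) (Fin 2) k) (j : ℕ) :
    h40_dmat A 0 ^ j = h40_dmat (A ^ j) 0 := by
  induction j with
  | zero => rw [pow_zero, pow_zero, h40_dmat_one]
  | succ j ih => rw [pow_succ, ih, h40_dmat_zero_mul, pow_succ]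

theorem h40_tanHom_finiteLevel (hrb : GaloisFactorsThroughFiniteLevel rb)
    (a : GQ → Matrix (Fin 2) (Fin 2) k) (ha : a ∈ h40_TanZ rb) :
    GaloisFactorsThroughFiniteLevel (h40_tanHom rb a ha) := by
  obtain ⟨L₁, hL₁, h1⟩ := hrb
  obtain ⟨L₂, hL₂, h2⟩ := ha.2
  refine ⟨L₁ ⊔ L₂, IntermediateField.finiteDimensional_sup L₁ L₂, fun σ hσ => ?_⟩
  have e1 : rb σ = 1 := h1 σ fun x hx => hσ x ((le_sup_left : L₁ ≤ L₁ ⊔ L₂) hx)
  have e2 : a σ = 0 := h2 σ fun x hx => hσ x ((le_sup_right : L₂ ≤ L₁ ⊔ L₂) hx)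
  show h40_dmat (rb σ) (a σ) = 1
  rw [e1, e2, h40_dmat_one]

/-- A tangent cocycle vanishing on inertia and at a Frobenius element vanishes on the
decomposition group. -/
theorem h40_eq_zero_on_dec (hrb : GaloisFactorsThroughFiniteLevel rb)
    (P : ValuationSubring (AlgebraicClosure ℚ)) {q : ℕ} (hq : q.Prime) (hP : P.LiesOverPrime q)
    {φ : GQ} (hφ : P.IsFrobeniusAt φ q)
    (a : GQ → Matrix (Fin 2) (Fin 2) k) (ha : a ∈ h40_TanZ rb)
    (hI : ∀ τ ∈ P.inertiaSubgroupIn ℚ, a τ = 0) (hφ0 : a φ = 0)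
    {σ : GQ} (hσ : σ ∈ P.decompositionSubgroup ℚ) : a σ = 0 := by
  obtain ⟨j, τ, hτ, h⟩ := h40_dec_gen (h40_tanHom rb a ha) (h40_tanHom_finiteLevel rb hrb a ha)
    P hq hP hφ hσ
  rw [h40_tanHom_apply, h40_tanHom_apply, h40_tanHom_apply, h40_tanMat, h40_tanMat, h40_tanMat,
    hφ0, hI τ hτ, h40_dmat_zero_pow, h40_dmat_zero_mul, h40_dmat_eq_iff] at h
  exact h.2

/-- A matrix commuting with `rb` on inertia and at a Frobenius element commutes with `rb` on the
decomposition group. -/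
theorem h40_commute_on_dec (hrb : GaloisFactorsThroughFiniteLevel rb)
    (P : ValuationSubring (AlgebraicClosure ℚ)) {q : ℕ} (hq : q.Prime) (hP : P.LiesOverPrime q)
    {φ : GQ} (hφ : P.IsFrobeniusAt φ q) (Y : Matrix (Fin 2) (Fin 2) k)
    (hI : ∀ τ ∈ P.inertiaSubgroupIn ℚ, Y * rb τ = rb τ * Y) (hφ0 : Y * rb φ = rb φ * Y)
    {σ : GQ} (hσ : σ ∈ P.decompositionSubgroup ℚ) : Y * rb σ = rb σ * Y := by
  obtain ⟨j, τ, hτ, h⟩ := h40_dec_gen rb hrb P hq hP hφ hσ
  have hc : Commute Y (rb φ ^ j) := Commute.pow_right hφ0 j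
  rw [h, ← mul_assoc, hc.eq, mul_assoc, hI τ hτ, mul_assoc]

end Tan

section Rank

variable {k : Type} [Field k] {M : Type} [AddCommGroup M] [Module k M]

/-- If `W ≤ U ⊔ B`, the classes of `W` modulo `B` are among those of `U`. -/
theorem h40_rank_le_of_le_sup (W U B : Submodule k M) (h : W ≤ U ⊔ B) :
    Module.rank k (W ⧸ B.comap W.subtype) ≤ Module.rank k (U ⧸ B.comap U.subtype) := by
  let ψW : W →ₗ[k] M ⧸ B := B.mkQ.comp W.subtype
  let ψU : U →ₗ[k] M ⧸ B := B.mkQ.comp U.subtype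
  have hkW : LinearMap.ker ψW = B.comap W.subtype := by
    rw [LinearMap.ker_comp, Submodule.ker_mkQ]
  have hkU : LinearMap.ker ψU = B.comap U.subtype := by
    rw [LinearMap.ker_comp, Submodule.ker_mkQ]
  have hrange : LinearMap.range ψW ≤ LinearMap.range ψU := by
    rintro _ ⟨w, rfl⟩
    obtain ⟨u, hu, b, hb, hub⟩ := Submodule.mem_sup.mp (h w.2)
    refine ⟨⟨u, hu⟩, ?_⟩
    show B.mkQ u = B.mkQ (w : M)
    rw [← hub, map_add, (Submodule.mkQ_apply B b).trans ((Submodule.Quotient.mk_eq_zero B).mpr hb),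
      add_zero]
  calc Module.rank k (W ⧸ B.comap W.subtype)
      = Module.rank k (W ⧸ LinearMap.ker ψW) := by rw [hkW]
    _ = Module.rank k (LinearMap.range ψW) := ψW.quotKerEquivRange.rank_eq
    _ ≤ Module.rank k (LinearMap.range ψU) := Submodule.rank_mono hrange
    _ = Module.rank k (U ⧸ LinearMap.ker ψU) := ψU.quotKerEquivRange.rank_eq.symm
    _ = Module.rank k (U ⧸ B.comap U.subtype) := by rw [hkU]

end Rank

section Unr

variable {k : Type} [Field k] (rb : GQ →* Matrix (Fin 2) (Fin 2) k)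

/-- **UNR.** The classes on the decomposition group `D` of the tangent cocycles that are
unramified (zero on inertia) and trace-zero on `D` form a space of rank at most
`dim H⁰(D, ad⁰)`. -/
theorem h40_unr_rank (hrb : GaloisFactorsThroughFiniteLevel rb)
    (P : ValuationSubring (AlgebraicClosure ℚ)) {q : ℕ} (hq : q.Prime) (hP : P.LiesOverPrime q) :
    Module.rank k (↥(h40_UnrZ rb (P.decompositionSubgroup ℚ) (P.inertiaSubgroupIn ℚ)) ⧸
        (h40_CobOn rb (P.decompositionSubgroup ℚ)).comap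
          (h40_UnrZ rb (P.decompositionSubgroup ℚ) (P.inertiaSubgroupIn ℚ)).subtype) ≤
      Module.finrank k (h40_H0 rb (P.decompositionSubgroup ℚ)) := by
  obtain ⟨φ, hφ⟩ := Fermat.Agent.S54.exists_isFrobeniusAt_of_liesOverPrime P q hq hP
  have hφD : φ ∈ P.decompositionSubgroup ℚ := hφ.mem_decompositionSubgroup
  set D := P.decompositionSubgroup ℚ with hD
  set I := P.inertiaSubgroupIn ℚ with hI
  set g := rb φ with hg
  set ginv := rb φ⁻¹ with hginv
  have hg1 : g * ginv = 1 := by rw [hg, hginv, ← map_mul, mul_inv_cancel, map_one]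
  have hg2 : ginv * g = 1 := by rw [hg, hginv, ← map_mul, inv_mul_cancel, map_one]
  -- conjugation by Frobenius on inertia
  have hconj : ∀ τ ∈ I, φ⁻¹ * τ * φ ∈ I := fun τ hτ => by
    have := h40_conj_mem_inertia P (inv_mem hφD) hτ
    rwa [inv_inv] at this
  have hc1 : ∀ τ : GQ, ginv * rb τ = rb (φ⁻¹ * τ * φ) * ginv := fun τ => by
    rw [hginv, ← map_mul, ← map_mul]
    congr 1
    group
  have hc2 : ∀ τ : GQ, g * rb (φ⁻¹ * τ * φ) = rb τ * g := fun τ => by
    rw [hg, ← map_mul, ← map_mul]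
    congr 1
    group
  set V := h40_H0 rb I with hV
  -- the operator `1 - Ad φ` on `V`
  let T : V →ₗ[k] V :=
    { toFun := fun Y => ⟨Y.1 - g * Y.1 * ginv, by
        obtain ⟨Y, hY0, hYc⟩ := Y
        refine ⟨?_, fun τ hτ => ?_⟩
        · rw [Matrix.trace_sub, Matrix.trace_mul_cycle, hg2, one_mul, sub_self]
        · have h1 := hYc τ hτ
          have h2 := hYc _ (hconj τ hτ)
          show (Y - g * Y * ginv) * rb τ = rb τ * (Y - g * Y * ginv)
          rw [sub_mul, mul_sub, h1, mul_assoc (g * Y), hc1, ← mul_assoc (g * Y), mul_assoc g Y,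
            h2, ← mul_assoc g, hc2, mul_assoc, mul_assoc, mul_assoc g Y ginv]⟩
      map_add' := fun Y Z => by
        apply Subtype.ext
        show (Y.1 + Z.1) - g * (Y.1 + Z.1) * ginv = (Y.1 - g * Y.1 * ginv) + (Z.1 - g * Z.1 * ginv)
        noncomm_ring
      map_smul' := fun c Y => by
        apply Subtype.ext
        show c • Y.1 - g * (c • Y.1) * ginv = c • (Y.1 - g * Y.1 * ginv)
        rw [Matrix.mul_smul, Matrix.smul_mul, smul_sub] }
  have hT : ∀ Y : V, ((T Y : V) : Matrix (Fin 2) (Fin 2) k) = Y.1 - g * Y.1 * ginv := fun _ => rfl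
  have hdet : g.det ≠ 0 := by
    intro h0
    have := congrArg Matrix.det hg1
    rw [Matrix.det_mul, h0, zero_mul, Matrix.det_one] at this
    exact zero_ne_one this
  have hadj : g.adjugate = g.det • ginv := by
    calc g.adjugate = g.adjugate * (g * ginv) := by rw [hg1, mul_one]
      _ = g.det • ginv := by rw [← mul_assoc, Matrix.adjugate_mul, Matrix.smul_mul, one_mul]
  -- evaluation at Frobenius
  let ev : ↥(h40_UnrZ rb D I) →ₗ[k] V :=
    { toFun := fun a => ⟨a.1 φ * ginv, by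
        obtain ⟨a, haZ, haI, haT⟩ := a
        refine ⟨?_, fun τ hτ => ?_⟩
        · have h1 := haT φ hφD
          rw [← hg, hadj, Matrix.mul_smul, Matrix.trace_smul, smul_eq_mul] at h1
          exact (mul_eq_zero.mp h1).resolve_left hdet
        · show a φ * ginv * rb τ = rb τ * (a φ * ginv)
          have h1 : a (φ * (φ⁻¹ * τ * φ)) = a φ * rb (φ⁻¹ * τ * φ) := by
            rw [haZ.1, haI _ (hconj τ hτ), mul_zero, add_zero]
          have h2 : a (τ * φ) = rb τ * a φ := by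
            rw [haZ.1, haI τ hτ, zero_mul, zero_add]
          have h3 : φ * (φ⁻¹ * τ * φ) = τ * φ := by group
          rw [h3, h2] at h1
          rw [mul_assoc, hc1, ← mul_assoc, ← h1, mul_assoc]⟩
      map_add' := fun a b => by
        apply Subtype.ext
        show (a.1 φ + b.1 φ) * ginv = a.1 φ * ginv + b.1 φ * ginv
        rw [add_mul]
      map_smul' := fun c a => by
        apply Subtype.ext
        show (c • a.1 φ) * ginv = c • (a.1 φ * ginv)
        rw [Matrix.smul_mul] }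
  have hev : ∀ a : ↥(h40_UnrZ rb D I), ((ev a : V) : Matrix (Fin 2) (Fin 2) k) = a.1 φ * ginv :=
    fun _ => rfl
  let Λ : ↥(h40_UnrZ rb D I) →ₗ[k] V ⧸ LinearMap.range T := (LinearMap.range T).mkQ.comp ev
  -- the kernel of `Λ` consists of coboundaries on `D`
  have hker : LinearMap.ker Λ ≤ (h40_CobOn rb D).comap (h40_UnrZ rb D I).subtype := by
    intro a ha
    rw [LinearMap.mem_ker, LinearMap.comp_apply, Submodule.mkQ_apply,
      Submodule.Quotient.mk_eq_zero] at ha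
    obtain ⟨Y, hY⟩ := ha
    have hYe : a.1 φ * ginv = Y.1 - g * Y.1 * ginv := by rw [← hev, ← hY, hT]
    obtain ⟨haZ, haI, haT⟩ := a.2
    have hZ' : a.1 - h40_cob rb Y.1 ∈ h40_TanZ rb :=
      Submodule.sub_mem _ haZ (h40_cob_mem_TanZ rb hrb Y.1)
    have h0I : ∀ τ ∈ P.inertiaSubgroupIn ℚ, (a.1 - h40_cob rb Y.1) τ = 0 := fun τ hτ => by
      rw [Pi.sub_apply, haI τ hτ, h40_cob_apply, Y.2.2 τ hτ, sub_self, sub_zero]
    have h0φ : (a.1 - h40_cob rb Y.1) φ = 0 := by
      have e1 : a.1 φ = (Y.1 - g * Y.1 * ginv) * g := by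
        rw [← hYe, mul_assoc, hg2, mul_one]
      rw [Pi.sub_apply, h40_cob_apply, e1, sub_mul, mul_assoc (g * Y.1), hg2, mul_one]
      abel
    refine ⟨Y.1, fun σ hσ => ?_⟩
    have := h40_eq_zero_on_dec rb hrb P hq hP hφ _ hZ' h0I h0φ hσ
    rw [Pi.sub_apply, h40_cob_apply, sub_eq_zero] at this
    exact this
  -- the kernel of `T` consists of invariants of `D`
  have hkerT : (LinearMap.ker T).map V.subtype ≤ h40_H0 rb D := by
    rintro _ ⟨Y, hY, rfl⟩
    rw [SetLike.mem_coe, LinearMap.mem_ker] at hY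
    have h1 : Y.1 - g * Y.1 * ginv = 0 := by rw [← hT, hY]; rfl
    have h2 : Y.1 * g = g * Y.1 := by
      have h3 : Y.1 * g = g * Y.1 * ginv * g := congrArg (· * g) (sub_eq_zero.mp h1)
      rw [h3, mul_assoc, hg2, mul_one]
    exact ⟨Y.2.1, fun σ hσ => h40_commute_on_dec rb hrb P hq hP hφ Y.1 Y.2.2 h2 hσ⟩
  -- rank count
  have hfin1 : Module.finrank k (V ⧸ LinearMap.range T) = Module.finrank k (LinearMap.ker T) := by
    have e1 := Submodule.finrank_quotient_add_finrank (LinearMap.range T)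
    have e2 := LinearMap.finrank_range_add_finrank_ker T
    omega
  have hfin2 : Module.finrank k (LinearMap.ker T) ≤ Module.finrank k (h40_H0 rb D) := by
    rw [← Submodule.finrank_map_subtype_eq V (LinearMap.ker T)]
    exact Submodule.finrank_mono hkerT
  calc Module.rank k (↥(h40_UnrZ rb D I) ⧸ (h40_CobOn rb D).comap (h40_UnrZ rb D I).subtype)
      ≤ Module.rank k (↥(h40_UnrZ rb D I) ⧸ LinearMap.ker Λ) :=
        LinearMap.rank_le_of_surjective
          (Submodule.mapQ (LinearMap.ker Λ) ((h40_CobOn rb D).comap (h40_UnrZ rb D I).subtype)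
            LinearMap.id hker)
          (fun x => by
            obtain ⟨y, rfl⟩ := Submodule.mkQ_surjective _ x
            exact ⟨(LinearMap.ker Λ).mkQ y, rfl⟩)
    _ = Module.rank k (LinearMap.range Λ) := Λ.quotKerEquivRange.rank_eq
    _ ≤ Module.rank k (V ⧸ LinearMap.range T) := Submodule.rank_le _
    _ = Module.finrank k (V ⧸ LinearMap.range T) := (Module.finrank_eq_rank _ _).symm
    _ ≤ Module.finrank k (h40_H0 rb D) := by
        rw [hfin1]
        exact_mod_cast hfin2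

end Unr

end Fermat.Agent.S56
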