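import Fermat.Agent.S56.h4_S56Of
import Fermat.Agent.S56.h70_Recip
import Fermat.Agent.S56.h52_TameRel
import Fermat.Agent.S56.h40_W2Unip
import Fermat.Agent.S56.h79_OrdClosed
import Fermat.Agent.S56.h69_R1Final
import Fermat.Agent.S56.h12_FlatAdapt

/-!
# S56 from the two statements still open (helper40)

`h40_S56_of_two` : the frozen statement S56 from

* `hbase` : the base case of the devissage for the global Euler characteristic (W1-BASE), in the
  exact shape of the hypothesis `hbase` of `h69_R1_of_base`;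
* `hloc` : the local flat bound (W3 FINAL), in the exact shape of `sk_flat_local_bound`
  (= the hypothesis `hloc` of `h12_R3_flat_of`, for every finite field `k` of characteristic `p`).

Every other row is plugged in: `h70_recip`, `h52_tame_inv`, `h69_R1_of_base`, `h12_R3_unr`,
`h12_R3_unip`, `h12_R3_ord`, `h12_R3_flat_of`, through `h4_midRows_of` and `h4_S56_of`.
-/

set_option autoImplicit false
set_option linter.unusedVariables false
set_option linter.unusedSectionVars false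
set_option linter.style.haveILetI false

namespace Fermat.Agent.S56

open Polynomial IsLocalRing ResidualGaloisRep
open Fermat.Agent.S53 Fermat.Agent.S53.Dict ExtCitation groupCohomology Fermat.Agent.S55

local notation "M₂[" k "]" => Matrix (Fin 2) (Fin 2) k

/-- **The frozen statement S56 from W1-BASE and the local flat bound.** -/
theorem h40_S56_of_two
    {𝒪 : Type} [CommRing 𝒪] [IsDomain 𝒪] [IsDiscreteValuationRing 𝒪]
    [IsAdicComplete (maximalIdeal 𝒪) 𝒪] [Finite (ResidueField 𝒪)]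
    (p : ℕ) [Fact p.Prime] (hp2 : p ≠ 2) (hp𝒪 : (p : 𝒪) ∈ maximalIdeal 𝒪)
    (ρbar : ResidualGaloisRep (ResidueField 𝒪))
    (habs : ρbar.IsAbsolutelyIrreducible)
    (hdet : (GaloisRepAdic.ofResidualGaloisRep ρbar).DetIsCyclotomic p)
    (hsplit : ∀ σ : AlgebraicClosure ℚ ≃ₐ[ℚ] AlgebraicClosure ℚ,
      ∃ α β : ResidueField 𝒪, LinearMap.charpoly (ρbar.ρ σ) = (X - C α) * (X - C β))
    (hTW : ∀ (K : Type) [Field K] [Algebra (ResidueField 𝒪) K]
      (G : Subgroup (AlgebraicClosure ℚ ≃ₐ[ℚ] AlgebraicClosure ℚ)), G.index = 2 →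
      ∀ V : Submodule K (ρbar.baseChange K).V,
        (∀ σ ∈ G, ∀ x ∈ V, (ρbar.baseChange K).ρ σ x ∈ V) → V = ⊥ ∨ V = ⊤)
    (S Smin : Finset ℕ) (hpSmin : p ∈ Smin) (hSmin : Smin ⊆ S) (hS : ∀ q ∈ S, q.Prime)
    (hmin : ∀ q : ℕ, q.Prime → q ≠ p → (q ∈ Smin ↔ ¬ ρbar.IsUnramifiedAt q))
    (hbase : ∀ F0 : IntermediateField ℚ (AlgebraicClosure ℚ), FiniteDimensional ℚ F0 →
      IsGalois ℚ F0 → (∃ ζ ∈ F0, IsPrimitiveRoot ζ p) →
      ∃ T0 : Finset Nat.Primes, ∀ S : Finset Nat.Primes, T0 ⊆ S → pPrime p ∈ S →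
        ∀ L₀ : h72_Lev S, L₀.F = F0 →
        ∀ C : Subgroup (GQ ⧸ L₀.U), IsCyclic C → (Nat.card C).Coprime p →
        ∀ (W : Type) [AddCommGroup W] [Module (ZMod p) W] [Finite W]
          (σ : Representation (ZMod p) C W),
          h72_delta S L₀ (Representation.coindV C.subtype σ)
            (Representation.coind C.subtype σ) = 0)
    (hloc : ∀ {k : Type} [Field k] [Finite k] [CharP k p] (rbl : h78_G p →* M₂[k]),
      (∀ (g : h78_G p) (ζ : PadicAlgCl p), ζ ^ p = 1 →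
        ∃ n : ℕ, g ζ = ζ ^ n ∧ (rbl g).det = (n : k)) →
      ∀ W : Submodule k (h78_G p → M₂[k]),
      (∀ a ∈ W, ∀ s t, a (s * t) = a s * rbl t + rbl s * a t) →
      (∀ a ∈ W, ∀ s, (a s * rbl s⁻¹).trace = 0) →
      (∀ a ∈ W, a ≠ 0 → h78_LocFlat p rbl a) →
      (∀ a ∈ W, (∃ X : M₂[k], ∀ s, a s = X * rbl s - rbl s * X) → a = 0) →
      Module.finrank k W ≤ Module.finrank k (h78_H0 p rbl) + 1) :
    (∃ r : ℕ, ∀ n : ℕ, ∃ qv : Fin r → ℕ, Function.Injective qv ∧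
      (∀ i, (qv i).Prime ∧ qv i ∉ S ∧ p ^ (n + 1) ∣ qv i - 1) ∧
      (∀ i, ∀ P : ValuationSubring (AlgebraicClosure ℚ), P.LiesOverPrime (qv i) →
        ∀ φ : AlgebraicClosure ℚ ≃ₐ[ℚ] AlgebraicClosure ℚ, P.IsFrobeniusAt φ (qv i) →
          ∃ α β : ResidueField 𝒪, α ≠ β ∧ LinearMap.charpoly (ρbar.ρ φ) = (X - C α) * (X - C β)) ∧
      ∀ DQ : GaloisRep.DeformationRingData 𝒪 ρbar (fun _A _ _ _ ρ =>
          GaloisRep.strictOrdinaryCondition 𝒪 p (Smin ∪ Finset.univ.image qv) ρ ∧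
            ∀ q ∈ Smin, q.Prime → q ≠ p → ρ.IsUnipotentOnInertiaAt q),
        ∃ γ : MvPowerSeries (Fin r) 𝒪 →ₐ[𝒪] DQ.R, Function.Surjective γ) ∧
    (∃ r : ℕ, ∀ n : ℕ, ∃ qv : Fin r → ℕ, Function.Injective qv ∧
      (∀ i, (qv i).Prime ∧ qv i ∉ S ∧ p ^ (n + 1) ∣ qv i - 1) ∧
      (∀ i, ∀ P : ValuationSubring (AlgebraicClosure ℚ), P.LiesOverPrime (qv i) →
        ∀ φ : AlgebraicClosure ℚ ≃ₐ[ℚ] AlgebraicClosure ℚ, P.IsFrobeniusAt φ (qv i) →
          ∃ α β : ResidueField 𝒪, α ≠ β ∧ LinearMap.charpoly (ρbar.ρ φ) = (X - C α) * (X - C β)) ∧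
      ∀ DQ : GaloisRep.DeformationRingData 𝒪 ρbar (fun _A _ _ _ ρ =>
          GaloisRep.flatCondition 𝒪 p (Smin ∪ Finset.univ.image qv) ρ ∧
            ∀ q ∈ Smin, q.Prime → q ≠ p → ρ.IsUnipotentOnInertiaAt q),
        ∃ γ : MvPowerSeries (Fin r) 𝒪 →ₐ[𝒪] DQ.R, Function.Surjective γ) :=
  h4_S56_of p hp2 hp𝒪 ρbar habs hdet hsplit hTW S Smin hpSmin hSmin hS hmin
    (h4_midRows_of p
      (fun hp2' Sg hpS z hz hlev q₀ hq₀ hloc' => h70_recip p hp2' Sg hpS z hz hlev q₀ hq₀ hloc')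
      (fun q hpq A _ hA w hlev hadd => h52_tame_inv p q hpq hA w hlev hadd)
      (fun rb hp2' hdet' hrb hH0M hH0N Smin' hpS hrbS =>
        h69_R1_of_base p rb hbase hp2' hdet' hrb hH0M hH0N Smin' hpS hrbS)
      (fun rb => h12_R3_unr rb)
      (fun rb => h12_R3_unip p rb))
    (fun rb => h12_R3_ord p rb)
    (fun {k} _ _ _ rb hp2' hdet' hrb W' hW' hD h0 => by
      haveI : CharP k p := charP_of_injective_algebraMap (algebraMap (ZMod p) k).injective p
      exact h12_R3_flat_of p rb (fun rbl hd W h1 h2 h3 h4 => hloc rbl hd W h1 h2 h3 h4)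
        hrb W' hW' hD h0)

end Fermat.Agent.S56
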