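import Mathlib
import Fermat.Prelude.Def_FLTPrelim_Ramification
import Fermat.Agent.S05.h26_Inertia
import Fermat.Agent.S13.h24_Unram

/-!
# S56 local layer: discreteness of a place of `ℚ̄` on a number field (helper40)

`P` a valuation subring of `ℚ̄` over the prime `q`, `F/ℚ` finite.  The values of `P.valuation` on
`F^×` form an infinite cyclic group:

* `h40_val_rat` : the value of a nonzero rational is an integral power of the value of `q`;
* `h40_val_pow_mem` : for `x ∈ F^×` some power `v(x)^m`, `0 < m ≤ [F:ℚ]`, is a power of `v(q)`;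
* `h40_exists_uniformizer` : there is `π ∈ F` with `v(π) < 1` such that every `x ∈ F^×` has
  `v(x) = v(π)^j` for some `j : ℤ`.
-/

set_option autoImplicit false
set_option linter.style.haveILetI false
set_option linter.unusedSectionVars false

namespace Fermat.Agent.S56

open Fermat.Agent.S05 Fermat.Agent.S13

local notation "Qb" => AlgebraicClosure ℚ

section Ultra

variable {K : Type*} [Field K] {Γ : Type*} [LinearOrderedCommGroupWithZero Γ] (v : Valuation K Γ)

/-- A finite sum of nonzero terms with pairwise distinct valuations has the valuation of one of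
its terms. -/
theorem h40_val_sum_of_injOn {ι : Type*} [DecidableEq ι] (s : Finset ι) (f : ι → K)
    (hs : s.Nonempty) (hinj : Set.InjOn (fun i => v (f i)) (s : Set ι)) :
    ∃ i ∈ s, v (∑ j ∈ s, f j) = v (f i) := by
  induction s using Finset.induction_on with
  | empty => exact absurd hs Finset.not_nonempty_empty
  | insert a t hat ih =>
    rcases Finset.eq_empty_or_nonempty t with ht | ht
    · subst ht
      exact ⟨a, Finset.mem_insert_self a _, by simp⟩
    · have hinj' : Set.InjOn (fun i => v (f i)) (t : Set ι) :=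
        hinj.mono (Finset.coe_subset.mpr (Finset.subset_insert a t))
      obtain ⟨i, hi, hsum⟩ := ih ht hinj'
      have hne : v (f a) ≠ v (∑ j ∈ t, f j) := by
        rw [hsum]
        intro h
        have := hinj (Finset.mem_coe.mpr (Finset.mem_insert_self a t))
          (Finset.mem_coe.mpr (Finset.mem_insert_of_mem hi)) h
        exact hat (this ▸ hi)
      rw [Finset.sum_insert hat, v.map_add_of_distinct_val hne]
      rcases max_choice (v (f a)) (v (∑ j ∈ t, f j)) with h | h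
      · exact ⟨a, Finset.mem_insert_self a _, h⟩
      · exact ⟨i, Finset.mem_insert_of_mem hi, h.trans hsum⟩

/-- In a vanishing sum with a nonzero term, two distinct nonzero terms have the same valuation. -/
theorem h40_exists_val_eq_of_sum_eq_zero {ι : Type*} [DecidableEq ι] (s : Finset ι) (f : ι → K)
    (hsum : ∑ j ∈ s, f j = 0) (hne : ∃ i ∈ s, f i ≠ 0) :
    ∃ i ∈ s, ∃ j ∈ s, i ≠ j ∧ f i ≠ 0 ∧ f j ≠ 0 ∧ v (f i) = v (f j) := by
  classical
  by_contra hcon
  set t := s.filter (fun i => f i ≠ 0) with ht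
  have htne : t.Nonempty := by
    obtain ⟨i, hi, hfi⟩ := hne
    exact ⟨i, Finset.mem_filter.mpr ⟨hi, hfi⟩⟩
  have hinj : Set.InjOn (fun i => v (f i)) (t : Set ι) := by
    intro i hi j hj hij
    rw [Finset.mem_coe, Finset.mem_filter] at hi hj
    by_contra hne'
    exact hcon ⟨i, hi.1, j, hj.1, hne', hi.2, hj.2, hij⟩
  obtain ⟨i, hi, hval⟩ := h40_val_sum_of_injOn v t f htne hinj
  have hsum' : ∑ j ∈ t, f j = 0 := by
    rw [ht, Finset.sum_filter_ne_zero]
    exact hsum
  rw [hsum', map_zero] at hval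
  exact (Finset.mem_filter.mp hi).2 ((map_eq_zero v).mp hval.symm)

end Ultra

section Aux

variable {Γ : Type*} [LinearOrderedCommGroupWithZero Γ]

theorem h40_pow_sub_eq_zpow (a b : Γ) (ha : a ≠ 0) (hb : b ≠ 0) {i j : ℕ} (hij : i ≤ j)
    (e f : ℤ) (h : b ^ e * a ^ i = b ^ f * a ^ j) : a ^ (j - i) = b ^ (e - f) := by
  have h1 : a ^ j = a ^ (j - i) * a ^ i := by rw [← pow_add, Nat.sub_add_cancel hij]
  rw [h1, ← mul_assoc] at h
  have h2 := mul_right_cancel₀ (pow_ne_zero i ha) h
  rw [zpow_sub₀ hb, h2, mul_div_cancel_left₀ _ (zpow_ne_zero f hb)]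

end Aux

section Disc

variable (P : ValuationSubring Qb) {q : ℕ} (hq : q.Prime) (hP : P.LiesOverPrime q)

include hP in
theorem h40_val_q_lt_one : P.valuation (q : Qb) < 1 :=
  (ValuationSubring.mem_nonunits_iff P).mp hP

include hq in
theorem h40_val_q_ne_zero : P.valuation (q : Qb) ≠ 0 :=
  (map_ne_zero _).mpr (Nat.cast_ne_zero.mpr hq.ne_zero)

include hq hP in
theorem h40_val_nat_of_not_dvd {m : ℕ} (hm : ¬ q ∣ m) : P.valuation (m : Qb) = 1 :=
  le_antisymm ((P.valuation_le_one_iff _).mpr (natCast_mem P m))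
    (not_lt.mp fun h => hm ((h26_natCast_mem_nonunits_iff P hq hP m).mp
      ((ValuationSubring.mem_nonunits_iff P).mpr h)))

include hq hP in
theorem h40_val_nat {m : ℕ} (hm : m ≠ 0) :
    ∃ e : ℕ, P.valuation (m : Qb) = P.valuation (q : Qb) ^ e := by
  obtain ⟨e, m', hm', rfl⟩ := Nat.exists_eq_pow_mul_and_not_dvd hm q hq.ne_one
  exact ⟨e, by rw [Nat.cast_mul, Nat.cast_pow, map_mul, map_pow,
    h40_val_nat_of_not_dvd P hq hP hm', mul_one]⟩

include hq hP in
/-- The value of a nonzero rational is an integral power of the value of `q`. -/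
theorem h40_val_rat {r : ℚ} (hr : r ≠ 0) :
    ∃ a : ℤ, P.valuation (algebraMap ℚ Qb r) = P.valuation (q : Qb) ^ a := by
  obtain ⟨e1, h1⟩ := h40_val_nat P hq hP (m := r.num.natAbs) (by simpa using hr)
  obtain ⟨e2, h2⟩ := h40_val_nat P hq hP (m := r.den) r.den_ne_zero
  refine ⟨(e1 : ℤ) - e2, ?_⟩
  have hr' : algebraMap ℚ Qb r = ((r.num : ℤ) : Qb) / ((r.den : ℕ) : Qb) := by
    rw [eq_ratCast]
    exact Rat.cast_def r
  have habs : P.valuation ((r.num : ℤ) : Qb) = P.valuation ((r.num.natAbs : ℕ) : Qb) := by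
    rcases Int.natAbs_eq r.num with h | h
    · conv_lhs => rw [h]
      rw [Int.cast_natCast]
    · conv_lhs => rw [h]
      rw [Int.cast_neg, Valuation.map_neg, Int.cast_natCast]
  rw [hr', map_div₀, habs, h1, h2, zpow_sub₀ (h40_val_q_ne_zero P hq), zpow_natCast,
    zpow_natCast]

include hq hP in
/-- For `x ∈ F^×`, some power `v(x)^m` with `0 < m ≤ [F:ℚ]` is an integral power of `v(q)`. -/
theorem h40_val_pow_mem (F : IntermediateField ℚ Qb) [FiniteDimensional ℚ F] {x : Qb}
    (hx : x ∈ F) (hx0 : x ≠ 0) :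
    ∃ m : ℕ, 0 < m ∧ m ≤ Module.finrank ℚ F ∧
      ∃ a : ℤ, P.valuation x ^ m = P.valuation (q : Qb) ^ a := by
  classical
  set n := Module.finrank ℚ F with hn
  let w : Fin (n + 1) → F := fun i => (⟨x, hx⟩ : F) ^ (i : ℕ)
  have hdep : ¬ LinearIndependent ℚ w := fun hli => by
    have := hli.fintype_card_le_finrank
    rw [Fintype.card_fin] at this
    omega
  rw [Fintype.not_linearIndependent_iff] at hdep
  obtain ⟨g, hg, i₀, hi₀⟩ := hdep
  have hsum : ∑ i : Fin (n + 1), algebraMap ℚ Qb (g i) * x ^ (i : ℕ) = 0 := by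
    have h1 := congrArg (fun y : F => (y : Qb)) hg
    simp only [w, AddSubmonoidClass.coe_finsetSum, ZeroMemClass.coe_zero] at h1
    rw [← h1]
    refine Finset.sum_congr rfl fun i _ => ?_
    rw [Algebra.smul_def]
    rfl
  obtain ⟨i, -, j, -, hij, hfi, hfj, hval⟩ := h40_exists_val_eq_of_sum_eq_zero P.valuation
    Finset.univ (fun i : Fin (n + 1) => algebraMap ℚ Qb (g i) * x ^ (i : ℕ)) hsum
    ⟨i₀, Finset.mem_univ _, mul_ne_zero ((map_ne_zero _).mpr hi₀) (pow_ne_zero _ hx0)⟩
  have hgi : g i ≠ 0 := fun h => hfi (by rw [h, map_zero, zero_mul])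
  have hgj : g j ≠ 0 := fun h => hfj (by rw [h, map_zero, zero_mul])
  obtain ⟨ai, hai⟩ := h40_val_rat P hq hP hgi
  obtain ⟨aj, haj⟩ := h40_val_rat P hq hP hgj
  simp only [map_mul, map_pow] at hval
  rw [hai, haj] at hval
  have hvx : P.valuation x ≠ 0 := (map_ne_zero _).mpr hx0
  have hvq := h40_val_q_ne_zero P hq
  have hi_le : (i : ℕ) ≤ n := Nat.lt_succ_iff.mp i.2
  have hj_le : (j : ℕ) ≤ n := Nat.lt_succ_iff.mp j.2
  rcases lt_or_gt_of_ne (Fin.val_ne_of_ne hij) with h | h
  · exact ⟨j - i, by omega, by omega, ai - aj,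
      h40_pow_sub_eq_zpow _ _ hvx hvq h.le ai aj hval⟩
  · exact ⟨i - j, by omega, by omega, aj - ai,
      h40_pow_sub_eq_zpow _ _ hvx hvq h.le aj ai hval.symm⟩

include hq hP in
/-- **Discreteness.** A uniformizer of `P` on the number field `F`. -/
theorem h40_exists_uniformizer (F : IntermediateField ℚ Qb) [FiniteDimensional ℚ F] :
    ∃ π : Qb, π ∈ F ∧ π ≠ 0 ∧ P.valuation π < 1 ∧
      ∀ x ∈ F, x ≠ 0 → ∃ j : ℤ, P.valuation x = P.valuation π ^ j := by
  classical
  set n := Module.finrank ℚ F with hn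
  set M := n.factorial with hM
  have hMpos : 0 < M := Nat.factorial_pos n
  set vq := P.valuation (q : Qb) with hvq
  have hvq0 : vq ≠ 0 := h40_val_q_ne_zero P hq
  have hvq1 : vq < 1 := h40_val_q_lt_one P hP
  have key : ∀ x ∈ F, x ≠ 0 → ∃ a : ℤ, P.valuation x ^ M = vq ^ a := by
    intro x hx hx0
    obtain ⟨m, hm0, hmn, a, ha⟩ := h40_val_pow_mem P hq hP F hx hx0
    obtain ⟨c, hc⟩ : m ∣ M := Nat.dvd_factorial hm0 hmn
    exact ⟨a * c, by rw [hc, pow_mul, ha, zpow_mul, zpow_natCast]⟩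
  have hex : ∃ d : ℕ, 0 < d ∧ ∃ x ∈ F, x ≠ 0 ∧ P.valuation x ^ M = vq ^ (d : ℤ) :=
    ⟨M, hMpos, (q : Qb), natCast_mem F q, Nat.cast_ne_zero.mpr hq.ne_zero, by
      rw [zpow_natCast]⟩
  obtain ⟨hd0, π, hπF, hπ0, hπ⟩ := Nat.find_spec hex
  set d := Nat.find hex with hd
  have hvπ0 : P.valuation π ≠ 0 := (map_ne_zero _).mpr hπ0
  refine ⟨π, hπF, hπ0, ?_, ?_⟩
  · by_contra h
    have h1 : 1 ≤ P.valuation π ^ M := one_le_pow₀ (not_lt.mp h)
    rw [hπ, zpow_natCast] at h1
    exact absurd (pow_lt_one₀ zero_le hvq1 hd0.ne') (not_lt.mpr h1)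
  · intro x hx hx0
    obtain ⟨a, ha⟩ := key x hx hx0
    have hdpos : (0 : ℤ) < (d : ℤ) := by exact_mod_cast hd0
    set j := a / (d : ℤ) with hj
    set r := a % (d : ℤ) with hr
    have hr0 : 0 ≤ r := Int.emod_nonneg _ hdpos.ne'
    have hr1 : r < d := Int.emod_lt_of_pos _ hdpos
    have hadj : a = (d : ℤ) * j + r := (Int.mul_ediv_add_emod a d).symm
    have hy : P.valuation (x / π ^ j) ^ M = vq ^ r := by
      have e1 : P.valuation (x / π ^ j) ^ M = P.valuation x ^ M / (P.valuation π ^ M) ^ j := by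
        rw [map_div₀, map_zpow₀, div_pow, ← zpow_natCast (P.valuation π ^ j) M, ← zpow_mul,
          mul_comm, zpow_mul, zpow_natCast]
      rw [e1, ha, hπ, ← zpow_mul, ← zpow_sub₀ hvq0]
      congr 1
      omega
    have hrz : r = 0 := by
      by_contra hne
      have hrpos : 0 < r := lt_of_le_of_ne hr0 (Ne.symm hne)
      have hmin := Nat.find_min' hex (m := r.toNat) ⟨by omega, x / π ^ j,
        F.div_mem hx (zpow_mem hπF j), div_ne_zero hx0 (zpow_ne_zero _ hπ0), by
          rw [hy, Int.toNat_of_nonneg hr0]⟩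
      omega
    rw [hrz, zpow_zero] at hy
    have h1 : P.valuation (x / π ^ j) = 1 :=
      (pow_eq_one_iff_of_nonneg zero_le hMpos.ne').mp hy
    refine ⟨j, ?_⟩
    rw [map_div₀, map_zpow₀] at h1
    exact (div_eq_one_iff_eq (zpow_ne_zero _ hvπ0)).mp h1

end Disc

end Fermat.Agent.S56
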