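import Fermat.Agent.S53.TestAlg
import Fermat.Agent.S53.Cotangent
import Fermat.Agent.S53.AdicLimit
import Fermat.Agent.S53.PowerSeries

/-!
# S56 top level, commutative algebra (helper40)

* `h40_surjective_of_map_maximalIdeal`: a ring map `γ : P → R` of local rings with `P` precomplete,
  `R` separated, `γ(m_P) R = m_R` and `R = γ(P) + m_R` is surjective.
* `h40_Der`: the `k`-space of `𝒪`-derivations `R → k` (`k` the residue field of `𝒪`).
* `h40_exists_surjective_of_rank_der_le`: if `rank_k Der ≤ r` then `𝒪⟦X₁,…,X_r⟧ ↠ R`.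
-/

set_option autoImplicit false
set_option linter.style.haveILetI false

namespace Fermat.Agent.S56

open IsLocalRing Fermat.Agent.S53

section Complete

variable {P R : Type*} [CommRing P] [CommRing R] [IsLocalRing P] [IsLocalRing R]

theorem h40_approx_step (γ : P →+* R)
    (hmap : Ideal.map γ (maximalIdeal P) = maximalIdeal R)
    (hres : ∀ y : R, ∃ f : P, y - γ f ∈ maximalIdeal R) (j : ℕ) (y : R)
    (hy : y ∈ maximalIdeal R ^ j) :
    ∃ f ∈ maximalIdeal P ^ j, y - γ f ∈ maximalIdeal R ^ (j + 1) := by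
  have hpow : maximalIdeal R ^ j = Ideal.map γ (maximalIdeal P ^ j) := by
    rw [Ideal.map_pow, hmap]
  have key : ∀ z ∈ Ideal.map γ (maximalIdeal P ^ j),
      z ∈ maximalIdeal R ^ j ∧ ∃ f ∈ maximalIdeal P ^ j, z - γ f ∈ maximalIdeal R ^ (j + 1) := by
    intro z hz
    refine Submodule.span_induction (p := fun z _ => z ∈ maximalIdeal R ^ j ∧
      ∃ f ∈ maximalIdeal P ^ j, z - γ f ∈ maximalIdeal R ^ (j + 1)) ?_ ?_ ?_ ?_ hz
    · rintro z ⟨g, hg, rfl⟩
      refine ⟨?_, g, hg, by simp⟩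
      rw [hpow]
      exact Ideal.mem_map_of_mem γ hg
    · exact ⟨Ideal.zero_mem _, 0, Ideal.zero_mem _, by simp⟩
    · rintro z₁ z₂ _ _ ⟨h1, f₁, hf₁, hz₁⟩ ⟨h2, f₂, hf₂, hz₂⟩
      refine ⟨Ideal.add_mem _ h1 h2, f₁ + f₂, Ideal.add_mem _ hf₁ hf₂, ?_⟩
      have : z₁ + z₂ - γ (f₁ + f₂) = (z₁ - γ f₁) + (z₂ - γ f₂) := by rw [map_add]; ring
      rw [this]
      exact Ideal.add_mem _ hz₁ hz₂
    · rintro a z _ ⟨h1, f, hf, hz⟩
      obtain ⟨g, hg⟩ := hres a
      refine ⟨Ideal.mul_mem_left _ _ h1, g * f, Ideal.mul_mem_left _ _ hf, ?_⟩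
      have : a • z - γ (g * f) = γ g * (z - γ f) + (a - γ g) * z := by
        rw [map_mul, smul_eq_mul]; ring
      rw [this]
      refine Ideal.add_mem _ (Ideal.mul_mem_left _ _ hz) ?_
      rw [pow_succ']
      exact Ideal.mul_mem_mul hg h1
  exact (key y (hpow ▸ hy)).2

/-- A local-ring map with `P` precomplete, `R` separated, `γ(m_P) R = m_R` and trivial residue
extension is surjective. -/
theorem h40_surjective_of_map_maximalIdeal [IsPrecomplete (maximalIdeal P) P]
    [IsHausdorff (maximalIdeal R) R] (γ : P →+* R)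
    (hmap : Ideal.map γ (maximalIdeal P) = maximalIdeal R)
    (hres : ∀ y : R, ∃ f : P, y - γ f ∈ maximalIdeal R) : Function.Surjective γ := by
  intro y
  have hle : ∀ n, Ideal.map γ (maximalIdeal P ^ n) ≤ maximalIdeal R ^ n := by
    intro n
    rw [Ideal.map_pow, hmap]
  -- recursive approximation
  have step : ∀ (j : ℕ) (F : P), ∃ F' : P, y - γ F ∈ maximalIdeal R ^ j →
      (F' - F ∈ maximalIdeal P ^ j ∧ y - γ F' ∈ maximalIdeal R ^ (j + 1)) := by
    intro j F
    by_cases h : y - γ F ∈ maximalIdeal R ^ j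
    · obtain ⟨f, hf, hyf⟩ := h40_approx_step γ hmap hres j (y - γ F) h
      refine ⟨F + f, fun _ => ⟨by simpa using hf, ?_⟩⟩
      have : y - γ (F + f) = y - γ F - γ f := by rw [map_add]; ring
      rw [this]
      exact hyf
    · exact ⟨0, fun h' => absurd h' h⟩
  choose next hnext using step
  let s : ℕ → P := fun n => Nat.rec 0 (fun j F => next j F) n
  have hs0 : s 0 = 0 := rfl
  have hssucc : ∀ n, s (n + 1) = next n (s n) := fun n => rfl
  have hsy : ∀ n, y - γ (s n) ∈ maximalIdeal R ^ n := by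
    intro n
    induction n with
    | zero => simp
    | succ n ih => rw [hssucc]; exact (hnext n (s n) ih).2
  have hsd : ∀ n, s (n + 1) - s n ∈ maximalIdeal P ^ n := by
    intro n
    rw [hssucc]
    exact (hnext n (s n) (hsy n)).1
  obtain ⟨L, hL⟩ := adicLimit_exists_of_compatible (maximalIdeal P)
    (fun n => maximalIdeal P ^ n) (fun a b hab => Ideal.pow_le_pow_right hab) (fun n => le_rfl)
    (fun n => le_sup_right) s hsd
  refine ⟨L, ?_⟩
  rw [← sub_eq_zero]
  have h0 := iInf_pow_eq_bot_of_isHausdorff (maximalIdeal R)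
  rw [← Ideal.mem_bot, ← h0, Ideal.mem_iInf]
  intro n
  have h1 : γ L - y = γ (L - s n) - (y - γ (s n)) := by rw [map_sub]; ring
  rw [h1]
  exact Ideal.sub_mem _ (hle n (Ideal.mem_map_of_mem γ (hL n))) (hsy n)

end Complete

section LinAlg

/-- A separating family of functionals on a space of rank `≤ r` contains `r` members which
already separate. -/
theorem h40_exists_separating {k V X : Type*} [Field k] [AddCommGroup V] [Module k V]
    [Nonempty X] (r : ℕ) (hr : Module.rank k V ≤ r) (ev : X → V →ₗ[k] k)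
    (hsep : ∀ v, (∀ x, ev x v = 0) → v = 0) :
    ∃ x : Fin r → X, ∀ v, (∀ i, ev (x i) v = 0) → v = 0 := by
  haveI : Module.Finite k V :=
    Module.rank_lt_aleph0_iff.mp (lt_of_le_of_lt hr (Cardinal.natCast_lt_aleph0))
  have hfr : Module.finrank k V ≤ r := Module.finrank_le_of_rank_le hr
  let s : Set (Module.Dual k V) := Set.range ev
  let W : Subspace k (Module.Dual k V) := Submodule.span k s
  have hco : Submodule.dualCoannihilator W = ⊥ := by
    rw [eq_bot_iff]
    intro v hv
    rw [Submodule.mem_dualCoannihilator] at hv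
    rw [Submodule.mem_bot]
    exact hsep v fun x => hv (ev x) (Submodule.subset_span ⟨x, rfl⟩)
  have hW : Module.finrank k W = Module.finrank k V := by
    have h := Subspace.finrank_add_finrank_dualCoannihilator_eq W
    rw [hco, finrank_bot, add_zero] at h
    exact h
  have hWtop : W = ⊤ := by
    apply Submodule.eq_top_of_finrank_eq
    rw [hW, Subspace.dual_finrank_eq]
  obtain ⟨f, hfs, hfspan, -⟩ := Submodule.exists_fun_fin_finrank_span_eq k s
  choose y hy using hfs
  have hn : Module.finrank k (Submodule.span k s) ≤ r := hW ▸ hfr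
  refine ⟨fun i => if h : (i : ℕ) < Module.finrank k (Submodule.span k s) then y ⟨i, h⟩
    else Classical.arbitrary X, fun v hv => ?_⟩
  rw [← Module.forall_dual_apply_eq_zero_iff k v]
  intro φ
  have hφ : φ ∈ Submodule.span k (Set.range f) := by
    rw [hfspan]
    show φ ∈ W
    rw [hWtop]
    exact Submodule.mem_top
  refine Submodule.span_induction (p := fun φ _ => φ v = 0) ?_ ?_ ?_ ?_ hφ
  · rintro φ ⟨j, rfl⟩
    have h1 := hv ⟨j, lt_of_lt_of_le j.2 hn⟩
    simp only [Fin.is_lt, dite_true, Fin.eta] at h1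
    rw [← hy j]
    exact h1
  · simp
  · intro a b _ _ ha hb
    rw [LinearMap.add_apply, ha, hb, add_zero]
  · intro c a _ ha
    rw [LinearMap.smul_apply, ha, smul_zero]

end LinAlg

section Der

variable {𝒪 : Type} [CommRing 𝒪] [IsLocalRing 𝒪]
variable {R : Type} [CommRing R] [IsLocalRing R] [Algebra 𝒪 R]
variable (hloc : IsLocalHom (algebraMap 𝒪 R))
  (hsurj : Function.Surjective (IsLocalRing.residue R ∘ algebraMap 𝒪 R))

/-- The `k`-vector space of `𝒪`-derivations `R → k`, `k` the residue field of `𝒪`, viewed as an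
`R`-module through `TA.toRes`. -/
noncomputable def h40_Der : Submodule (ResidueField 𝒪) (R → ResidueField 𝒪) where
  carrier := {d | (∀ x y, d (x + y) = d x + d y) ∧
    (∀ x y, d (x * y) = TA.toRes hloc hsurj x * d y + TA.toRes hloc hsurj y * d x) ∧
    ∀ o : 𝒪, d (algebraMap 𝒪 R o) = 0}
  add_mem' := by
    rintro d e ⟨hd1, hd2, hd3⟩ ⟨he1, he2, he3⟩
    refine ⟨fun x y => ?_, fun x y => ?_, fun o => ?_⟩
    · simp only [Pi.add_apply, hd1, he1]; ring
    · simp only [Pi.add_apply, hd2, he2]; ring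
    · simp only [Pi.add_apply, hd3, he3, add_zero]
  zero_mem' := ⟨fun x y => by simp, fun x y => by simp, fun o => rfl⟩
  smul_mem' := by
    rintro c d ⟨hd1, hd2, hd3⟩
    refine ⟨fun x y => ?_, fun x y => ?_, fun o => ?_⟩
    · simp only [Pi.smul_apply, hd1, smul_eq_mul]; ring
    · simp only [Pi.smul_apply, hd2, smul_eq_mul]; ring
    · simp only [Pi.smul_apply, hd3, smul_zero]

theorem h40_mem_Der_iff (d : R → ResidueField 𝒪) :
    d ∈ h40_Der hloc hsurj ↔ (∀ x y, d (x + y) = d x + d y) ∧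
      (∀ x y, d (x * y) = TA.toRes hloc hsurj x * d y + TA.toRes hloc hsurj y * d x) ∧
      ∀ o : 𝒪, d (algebraMap 𝒪 R o) = 0 := Iff.rfl

variable {hloc hsurj}

theorem h40_Der_map_zero {d : R → ResidueField 𝒪} (hd : d ∈ h40_Der hloc hsurj) : d 0 = 0 := by
  have := hd.2.2 0
  rwa [map_zero] at this

theorem h40_Der_map_one {d : R → ResidueField 𝒪} (hd : d ∈ h40_Der hloc hsurj) : d 1 = 0 := by
  have := hd.2.2 1
  rwa [map_one] at this

theorem h40_Der_map_neg {d : R → ResidueField 𝒪} (hd : d ∈ h40_Der hloc hsurj) (x : R) :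
    d (-x) = -d x := by
  have h := hd.1 x (-x)
  rw [add_neg_cancel, h40_Der_map_zero hd] at h
  exact eq_neg_of_add_eq_zero_right h.symm

theorem h40_Der_map_sub {d : R → ResidueField 𝒪} (hd : d ∈ h40_Der hloc hsurj) (x y : R) :
    d (x - y) = d x - d y := by
  rw [sub_eq_add_neg, hd.1, h40_Der_map_neg hd, sub_eq_add_neg]

theorem h40_Der_map_sum {d : R → ResidueField 𝒪} (hd : d ∈ h40_Der hloc hsurj) {ι : Type*}
    (s : Finset ι) (f : ι → R) : d (∑ i ∈ s, f i) = ∑ i ∈ s, d (f i) := by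
  classical
  induction s using Finset.induction_on with
  | empty => simpa using h40_Der_map_zero hd
  | insert a s ha ih => rw [Finset.sum_insert ha, Finset.sum_insert ha, hd.1, ih]

/-- A derivation kills the square of the maximal ideal. -/
theorem h40_Der_eq_zero_of_mem_sq {d : R → ResidueField 𝒪} (hd : d ∈ h40_Der hloc hsurj)
    {x : R} (hx : x ∈ maximalIdeal R ^ 2) : d x = 0 := by
  rw [pow_two] at hx
  refine Submodule.mul_induction_on hx ?_ ?_
  · intro a ha b hb
    rw [hd.2.1, (TA.toRes_eq_zero_iff hloc hsurj a).mpr ha,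
      (TA.toRes_eq_zero_iff hloc hsurj b).mpr hb, zero_mul, zero_mul, add_zero]
  · intro a b ha hb
    rw [hd.1, ha, hb, add_zero]

/-- The `𝒪`-algebra map to the dual numbers attached to a derivation. -/
noncomputable def h40_derHom (d : R → ResidueField 𝒪) (hd : d ∈ h40_Der hloc hsurj) :
    letI := algDual 𝒪
    R →ₐ[𝒪] DualNumber (ResidueField 𝒪) :=
  letI := algDual 𝒪
  { toFun := fun x => TrivSqZeroExt.inl (TA.toRes hloc hsurj x) + TrivSqZeroExt.inr (d x)
    map_one' := by
      rw [map_one, h40_Der_map_one hd]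
      simp
    map_mul' := fun x y => by
      apply TrivSqZeroExt.ext
      · simp
      · simp [hd.2.1, mul_comm]
    map_zero' := by
      rw [map_zero, h40_Der_map_zero hd]
      simp
    map_add' := fun x y => by
      apply TrivSqZeroExt.ext
      · simp
      · simp [hd.1]
    commutes' := fun o => by
      rw [hd.2.2, TA.toRes_algebraMap]
      show _ = TrivSqZeroExt.inl (residue 𝒪 o)
      simp }

theorem h40_derHom_fst (d : R → ResidueField 𝒪) (hd : d ∈ h40_Der hloc hsurj) (x : R) :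
    TrivSqZeroExt.fst (h40_derHom d hd x) = TA.toRes hloc hsurj x := by
  show TrivSqZeroExt.fst (TrivSqZeroExt.inl (TA.toRes hloc hsurj x) + TrivSqZeroExt.inr (d x)) = _
  simp

theorem h40_derHom_snd (d : R → ResidueField 𝒪) (hd : d ∈ h40_Der hloc hsurj) (x : R) :
    TrivSqZeroExt.snd (h40_derHom d hd x) = d x := by
  show TrivSqZeroExt.snd (TrivSqZeroExt.inl (TA.toRes hloc hsurj x) + TrivSqZeroExt.inr (d x)) = _
  simp

/-- The first component of any `𝒪`-algebra map to the dual numbers is `TA.toRes`. -/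
theorem h40_fst_algHom (φ : letI := algDual 𝒪; R →ₐ[𝒪] DualNumber (ResidueField 𝒪)) (x : R) :
    TrivSqZeroExt.fst (φ x) = TA.toRes hloc hsurj x := by
  letI := algDual 𝒪
  let ψ : R →ₐ[𝒪] ResidueField 𝒪 :=
    { toFun := fun x => TrivSqZeroExt.fst (φ x)
      map_one' := by rw [map_one]; rfl
      map_mul' := fun x y => by rw [map_mul, TrivSqZeroExt.fst_mul]
      map_zero' := by rw [map_zero]; rfl
      map_add' := fun x y => by rw [map_add, TrivSqZeroExt.fst_add]
      commutes' := fun o => by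
        rw [AlgHom.commutes]
        rfl }
  have h := TA.algHom_residueField_eq_toRes hloc hsurj ψ
  exact congrArg (fun f : R →ₐ[𝒪] ResidueField 𝒪 => f x) h

/-- The second component of any `𝒪`-algebra map to the dual numbers is a derivation. -/
theorem h40_snd_algHom_mem (φ : letI := algDual 𝒪; R →ₐ[𝒪] DualNumber (ResidueField 𝒪)) :
    (fun x => TrivSqZeroExt.snd (φ x)) ∈ h40_Der hloc hsurj := by
  letI := algDual 𝒪
  refine ⟨fun x y => ?_, fun x y => ?_, fun o => ?_⟩
  · simp only [map_add, TrivSqZeroExt.snd_add]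
  · simp only [map_mul, TrivSqZeroExt.snd_mul, h40_fst_algHom (hloc := hloc) (hsurj := hsurj),
      smul_eq_mul, MulOpposite.smul_eq_mul_unop, MulOpposite.unop_op]
    ring
  · show TrivSqZeroExt.snd (φ (algebraMap 𝒪 R o)) = 0
    rw [AlgHom.commutes]
    rfl

end Der

section Generators

variable {𝒪 : Type} [CommRing 𝒪] [IsLocalRing 𝒪]
variable {R : Type} [CommRing R] [IsLocalRing R] [Algebra 𝒪 R]
variable (hloc : IsLocalHom (algebraMap 𝒪 R))
  (hsurj : Function.Surjective (IsLocalRing.residue R ∘ algebraMap 𝒪 R))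

include hloc hsurj in
/-- If `r` elements of the maximal ideal separate the derivations, then together with `m_𝒪`
they generate the maximal ideal. -/
theorem h40_maximalIdeal_eq_of_separating [IsNoetherianRing R] {r : ℕ} (x : Fin r → R)
    (hx : ∀ i, x i ∈ maximalIdeal R)
    (hsep : ∀ d ∈ h40_Der hloc hsurj, (∀ i, d (x i) = 0) → d = 0) :
    Ideal.span (Set.range x) ⊔ Ideal.map (algebraMap 𝒪 R) (maximalIdeal 𝒪) = maximalIdeal R := by
  letI := algDual 𝒪
  have hA := TA.isArtinianTestAlgebra_quotPow hloc hsurj 1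
  set mk := Ideal.Quotient.mk (maximalIdeal R ^ (1 + 1)) with hmk
  -- Step 1: the images of the `x i` generate `R / m²` as an `𝒪`-algebra.
  have hadj : Algebra.adjoin 𝒪 (Set.range fun i => mk (x i)) = ⊤ := by
    refine adjoin_eq_top_of_forall_algHom_dualNumber hA _ ?_
    intro φ ψ hφψ
    have key : ∀ y : R, φ (mk y) = ψ (mk y) := by
      intro y
      let φ' : R →ₐ[𝒪] DualNumber (ResidueField 𝒪) :=
        φ.comp (Ideal.Quotient.mkₐ 𝒪 (maximalIdeal R ^ (1 + 1)))
      let ψ' : R →ₐ[𝒪] DualNumber (ResidueField 𝒪) :=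
        ψ.comp (Ideal.Quotient.mkₐ 𝒪 (maximalIdeal R ^ (1 + 1)))
      have hd : (fun z => TrivSqZeroExt.snd (φ' z)) - (fun z => TrivSqZeroExt.snd (ψ' z)) ∈
          h40_Der hloc hsurj :=
        Submodule.sub_mem _ (h40_snd_algHom_mem φ') (h40_snd_algHom_mem ψ')
      have h0 := hsep _ hd (fun i => by
        have := hφψ (mk (x i)) ⟨i, rfl⟩
        show TrivSqZeroExt.snd (φ (mk (x i))) - TrivSqZeroExt.snd (ψ (mk (x i))) = 0
        rw [this, sub_self])
      have h1 : TrivSqZeroExt.snd (φ' y) - TrivSqZeroExt.snd (ψ' y) = 0 := congrFun h0 y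
      show φ' y = ψ' y
      apply TrivSqZeroExt.ext
      · rw [h40_fst_algHom (hloc := hloc) (hsurj := hsurj) φ',
          h40_fst_algHom (hloc := hloc) (hsurj := hsurj) ψ']
      · exact sub_eq_zero.mp h1
    apply AlgHom.ext
    intro a
    obtain ⟨y, rfl⟩ := Ideal.Quotient.mk_surjective a
    exact key y
  -- Step 2: every element of the adjoin is a constant plus an element of the ideal of the `x i`.
  have hdec : ∀ a ∈ Algebra.adjoin 𝒪 (Set.range fun i => mk (x i)),
      ∃ o : 𝒪, a - algebraMap 𝒪 _ o ∈ Ideal.map mk (Ideal.span (Set.range x)) := by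
    intro a ha
    refine Algebra.adjoin_induction (p := fun a _ => ∃ o : 𝒪, a - algebraMap 𝒪 _ o ∈
      Ideal.map mk (Ideal.span (Set.range x))) ?_ ?_ ?_ ?_ ha
    · rintro a ⟨i, rfl⟩
      refine ⟨0, ?_⟩
      rw [map_zero, sub_zero]
      exact Ideal.mem_map_of_mem _ (Ideal.subset_span ⟨i, rfl⟩)
    · intro o
      exact ⟨o, by rw [sub_self]; exact Ideal.zero_mem _⟩
    · rintro a b _ _ ⟨o₁, h₁⟩ ⟨o₂, h₂⟩
      refine ⟨o₁ + o₂, ?_⟩
      have : a + b - algebraMap 𝒪 _ (o₁ + o₂) = (a - algebraMap 𝒪 _ o₁) + (b - algebraMap 𝒪 _ o₂) := by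
        rw [map_add]; ring
      rw [this]
      exact Ideal.add_mem _ h₁ h₂
    · rintro a b _ _ ⟨o₁, h₁⟩ ⟨o₂, h₂⟩
      refine ⟨o₁ * o₂, ?_⟩
      have : a * b - algebraMap 𝒪 _ (o₁ * o₂) =
          (a - algebraMap 𝒪 _ o₁) * b + algebraMap 𝒪 _ o₁ * (b - algebraMap 𝒪 _ o₂) := by
        rw [map_mul]; ring
      rw [this]
      exact Ideal.add_mem _ (Ideal.mul_mem_right _ _ h₁) (Ideal.mul_mem_left _ _ h₂)
  -- Step 3: `m ≤ N ⊔ m²`, then Nakayama.
  set N : Ideal R := Ideal.span (Set.range x) ⊔ Ideal.map (algebraMap 𝒪 R) (maximalIdeal 𝒪)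
    with hN
  have hNle : N ≤ maximalIdeal R := by
    refine sup_le ?_ ?_
    · rw [Ideal.span_le]
      rintro _ ⟨i, rfl⟩
      exact hx i
    · rw [Ideal.map_le_iff_le_comap]
      intro o ho
      rw [Ideal.mem_comap]
      exact (IsLocalRing.mem_maximalIdeal _).mpr fun hu =>
        (IsLocalRing.mem_maximalIdeal _).mp ho (hloc.map_nonunit o hu)
  have hspanle : Ideal.span (Set.range x) ≤ maximalIdeal R := le_trans le_sup_left hNle
  have hle : maximalIdeal R ≤ N ⊔ maximalIdeal R • maximalIdeal R := by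
    intro y hy
    obtain ⟨o, ho⟩ := hdec (mk y) (hadj ▸ Algebra.mem_top)
    obtain ⟨z, hz, hzy⟩ := (Ideal.mem_map_iff_of_surjective mk Ideal.Quotient.mk_surjective).mp ho
    have hw : y - algebraMap 𝒪 R o - z ∈ maximalIdeal R ^ (1 + 1) := by
      rw [← Ideal.Quotient.eq_zero_iff_mem, map_sub, hzy, map_sub]
      exact sub_self _
    have hom : algebraMap 𝒪 R o ∈ maximalIdeal R := by
      have h1 : algebraMap 𝒪 R o = y - z - (y - algebraMap 𝒪 R o - z) := by ring
      rw [h1]
      exact Ideal.sub_mem _ (Ideal.sub_mem _ hy (hspanle hz))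
        (Ideal.pow_le_self (by norm_num) hw)
    have ho' : o ∈ maximalIdeal 𝒪 := by
      rw [← TA.toRes_eq_zero_iff hloc hsurj, TA.toRes_algebraMap] at hom
      exact (IsLocalRing.residue_eq_zero_iff o).mp hom
    have h2 : y = (z + algebraMap 𝒪 R o) + (y - algebraMap 𝒪 R o - z) := by ring
    rw [h2]
    refine Submodule.add_mem_sup (Submodule.add_mem_sup hz (Ideal.mem_map_of_mem _ ho')) ?_
    rw [smul_eq_mul, ← pow_two]
    exact hw
  have hfg : (maximalIdeal R).FG := IsNoetherian.noetherian _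
  have hjac : maximalIdeal R ≤ (⊥ : Ideal R).jacobson := by
    rw [IsLocalRing.jacobson_eq_maximalIdeal ⊥ bot_ne_top]
  exact le_antisymm hNle (Submodule.le_of_le_smul_of_le_jacobson_bot hfg hjac hle)

/-- **Generator bound.** A complete Noetherian local `𝒪`-algebra `R` with residue field `k`
whose space of `𝒪`-derivations to `k` has rank `≤ r` is a quotient of `𝒪⟦X₁,…,X_r⟧`. -/
theorem h40_exists_surjective_of_rank_der_le [IsNoetherianRing 𝒪]
    [IsAdicComplete (maximalIdeal 𝒪) 𝒪] [IsNoetherianRing R]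
    [IsAdicComplete (maximalIdeal R) R] (r : ℕ)
    (hr : Module.rank (ResidueField 𝒪) (h40_Der hloc hsurj) ≤ r) :
    ∃ γ : MvPowerSeries (Fin r) 𝒪 →ₐ[𝒪] R, Function.Surjective γ := by
  -- separating elements
  let ev : R → (h40_Der hloc hsurj →ₗ[ResidueField 𝒪] ResidueField 𝒪) := fun x =>
    { toFun := fun d => d.1 x
      map_add' := fun d e => rfl
      map_smul' := fun c d => rfl }
  obtain ⟨x₀, hx₀⟩ := h40_exists_separating r hr ev (fun d hd => by
    apply Subtype.ext
    funext x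
    exact hd x)
  choose o ho using fun i => TA.exists_algebraMap_sub_mem hloc hsurj (x₀ i)
  let x : Fin r → R := fun i => x₀ i - algebraMap 𝒪 R (o i)
  have hx : ∀ i, x i ∈ maximalIdeal R := ho
  have hsep : ∀ d ∈ h40_Der hloc hsurj, (∀ i, d (x i) = 0) → d = 0 := by
    intro d hd h
    have := hx₀ ⟨d, hd⟩ (fun i => by
      have h1 := h i
      show d (x₀ i) = 0
      rw [h40_Der_map_sub hd, hd.2.2, sub_zero] at h1
      exact h1)
    exact congrArg Subtype.val this
  have hgen := h40_maximalIdeal_eq_of_separating hloc hsurj x hx hsep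
  -- the map
  haveI := mvPowerSeries_isAdicComplete 𝒪 r
  let γ : MvPowerSeries (Fin r) 𝒪 →ₐ[𝒪] R := evalComplete (maximalIdeal R) x hx
  have hγX : ∀ i, γ (MvPowerSeries.X i) = x i := evalComplete_X (maximalIdeal R) x hx
  refine ⟨γ, ?_⟩
  -- the augmentation `P → k` has kernel `m_P`
  let ε : MvPowerSeries (Fin r) 𝒪 →+* ResidueField 𝒪 :=
    (TA.toRes hloc hsurj : R →+* ResidueField 𝒪).comp (γ : MvPowerSeries (Fin r) 𝒪 →+* R)
  have hεsurj : Function.Surjective ε := by
    intro c
    obtain ⟨a, rfl⟩ := IsLocalRing.residue_surjective c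
    refine ⟨algebraMap 𝒪 _ a, ?_⟩
    show TA.toRes hloc hsurj (γ (algebraMap 𝒪 _ a)) = _
    rw [AlgHom.commutes, TA.toRes_algebraMap]
  have hker : RingHom.ker ε = maximalIdeal (MvPowerSeries (Fin r) 𝒪) :=
    IsLocalRing.eq_maximalIdeal (RingHom.ker_isMaximal_of_surjective ε hεsurj)
  have hmem : ∀ f : MvPowerSeries (Fin r) 𝒪,
      f ∈ maximalIdeal (MvPowerSeries (Fin r) 𝒪) ↔ γ f ∈ maximalIdeal R := by
    intro f
    rw [← hker, RingHom.mem_ker, ← TA.toRes_eq_zero_iff hloc hsurj]
    rfl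
  have hmap : Ideal.map (γ : MvPowerSeries (Fin r) 𝒪 →+* R)
      (maximalIdeal (MvPowerSeries (Fin r) 𝒪)) = maximalIdeal R := by
    apply le_antisymm
    · rw [Ideal.map_le_iff_le_comap]
      intro f hf
      exact (hmem f).mp hf
    · rw [← hgen]
      refine sup_le ?_ ?_
      · rw [Ideal.span_le]
        rintro _ ⟨i, rfl⟩
        have h1 : MvPowerSeries.X i ∈ maximalIdeal (MvPowerSeries (Fin r) 𝒪) := by
          rw [hmem, hγX]
          exact hx i
        have h2 := Ideal.mem_map_of_mem (γ : MvPowerSeries (Fin r) 𝒪 →+* R) h1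
        rw [RingHom.coe_coe, hγX] at h2
        exact h2
      · rw [Ideal.map_le_iff_le_comap]
        intro a ha
        rw [Ideal.mem_comap]
        have h1 : algebraMap 𝒪 (MvPowerSeries (Fin r) 𝒪) a ∈
            maximalIdeal (MvPowerSeries (Fin r) 𝒪) := by
          rw [hmem, AlgHom.commutes, ← TA.toRes_eq_zero_iff hloc hsurj, TA.toRes_algebraMap]
          exact (IsLocalRing.residue_eq_zero_iff a).mpr ha
        have h2 := Ideal.mem_map_of_mem (γ : MvPowerSeries (Fin r) 𝒪 →+* R) h1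
        rw [RingHom.coe_coe, AlgHom.commutes] at h2
        exact h2
  have hres : ∀ y : R, ∃ f : MvPowerSeries (Fin r) 𝒪,
      y - (γ : MvPowerSeries (Fin r) 𝒪 →+* R) f ∈ maximalIdeal R := by
    intro y
    obtain ⟨c, hc⟩ := TA.exists_algebraMap_sub_mem hloc hsurj y
    refine ⟨algebraMap 𝒪 _ c, ?_⟩
    rw [RingHom.coe_coe, AlgHom.commutes]
    exact hc
  exact h40_surjective_of_map_maximalIdeal (γ : MvPowerSeries (Fin r) 𝒪 →+* R) hmap hres

end Generators

end Fermat.Agent.S56
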