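import Fermat.Agent.S53.Dict
import Fermat.Agent.S53.Cotangent

/-!
# S56 top level: tangent cocycles in matrix form (helper40)

`k` a field, `rb : GQ →* M₂(k)` a residual matrix representation.

* `h40_TanZ rb` : the `k`-space of maps `a : GQ → M₂(k)` with the Leibniz rule
  `a (σ τ) = a σ * rb τ + rb σ * a τ`, vanishing on an open subgroup
  (`a σ * (rb σ)⁻¹` is the usual `ad`-valued 1-cocycle).
* `h40_tanHom rb a` : the lift `σ ↦ rb σ + ε · a σ` to the dual numbers, `h40_tanRep` the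
  associated `GaloisRepAdic (DualNumber k)`.
* `h40_IsCob rb a` : `a` is a coboundary, `a σ = X * rb σ - rb σ * X`.
* `h40_SEL` : the Selmer bound in the form consumed by the top-level reduction.
-/

set_option autoImplicit false
set_option linter.style.haveILetI false

namespace Fermat.Agent.S56

open Fermat.Agent.S53 Fermat.Agent.S53.Dict

section TanZ

variable {k : Type} [Field k]

/-- Tangent cocycles (Leibniz form) for the residual matrix representation `rb`. -/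
def h40_TanZ (rb : GQ →* Matrix (Fin 2) (Fin 2) k) :
    Submodule k (GQ → Matrix (Fin 2) (Fin 2) k) where
  carrier := {a | (∀ σ τ, a (σ * τ) = a σ * rb τ + rb σ * a τ) ∧
    ∃ L : IntermediateField ℚ (AlgebraicClosure ℚ), FiniteDimensional ℚ L ∧
      ∀ σ : GQ, (∀ x ∈ L, σ x = x) → a σ = 0}
  add_mem' := by
    rintro a b ⟨ha, La, hLa, haL⟩ ⟨hb, Lb, hLb, hbL⟩
    refine ⟨fun σ τ => ?_, La ⊔ Lb, IntermediateField.finiteDimensional_sup La Lb, fun σ hσ => ?_⟩
    · simp only [Pi.add_apply, ha, hb, add_mul, mul_add]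
      abel
    · rw [Pi.add_apply, haL σ fun x hx => hσ x ((le_sup_left : La ≤ La ⊔ Lb) hx),
        hbL σ fun x hx => hσ x ((le_sup_right : Lb ≤ La ⊔ Lb) hx), add_zero]
  zero_mem' := ⟨fun σ τ => by simp, ⊥, inferInstance, fun σ _ => rfl⟩
  smul_mem' := by
    rintro c a ⟨ha, La, hLa, haL⟩
    refine ⟨fun σ τ => ?_, La, hLa, fun σ hσ => ?_⟩
    · simp only [Pi.smul_apply, ha, smul_add, Matrix.smul_mul, Matrix.mul_smul]
    · rw [Pi.smul_apply, haL σ hσ, smul_zero]

theorem h40_mem_TanZ_iff (rb : GQ →* Matrix (Fin 2) (Fin 2) k)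
    (a : GQ → Matrix (Fin 2) (Fin 2) k) :
    a ∈ h40_TanZ rb ↔ (∀ σ τ, a (σ * τ) = a σ * rb τ + rb σ * a τ) ∧
      ∃ L : IntermediateField ℚ (AlgebraicClosure ℚ), FiniteDimensional ℚ L ∧
        ∀ σ : GQ, (∀ x ∈ L, σ x = x) → a σ = 0 := Iff.rfl

theorem h40_TanZ_map_one {rb : GQ →* Matrix (Fin 2) (Fin 2) k}
    {a : GQ → Matrix (Fin 2) (Fin 2) k} (ha : a ∈ h40_TanZ rb) : a 1 = 0 := by
  have h := ha.1 1 1
  rw [mul_one, map_one, mul_one, one_mul] at h
  exact left_eq_add.mp h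

/-- `a` is a coboundary. -/
def h40_IsCob (rb : GQ →* Matrix (Fin 2) (Fin 2) k) (a : GQ → Matrix (Fin 2) (Fin 2) k) : Prop :=
  ∃ X : Matrix (Fin 2) (Fin 2) k, ∀ σ, a σ = X * rb σ - rb σ * X

/-- The matrix `A + ε · B` over the dual numbers. -/
noncomputable def h40_dmat (A B : Matrix (Fin 2) (Fin 2) k) :
    Matrix (Fin 2) (Fin 2) (DualNumber k) :=
  Matrix.of fun i j => TrivSqZeroExt.inl (A i j) + TrivSqZeroExt.inr (B i j)

@[simp] theorem h40_dmat_fst (A B : Matrix (Fin 2) (Fin 2) k) (i j : Fin 2) :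
    TrivSqZeroExt.fst (h40_dmat A B i j) = A i j := by
  simp [h40_dmat]

@[simp] theorem h40_dmat_snd (A B : Matrix (Fin 2) (Fin 2) k) (i j : Fin 2) :
    TrivSqZeroExt.snd (h40_dmat A B i j) = B i j := by
  simp [h40_dmat]

theorem h40_dmat_mul (A B A' B' : Matrix (Fin 2) (Fin 2) k) :
    h40_dmat A B * h40_dmat A' B' = h40_dmat (A * A') (B * A' + A * B') := by
  ext i j
  · simp [Matrix.mul_apply, Fin.sum_univ_two]
  · simp [Matrix.mul_apply, Fin.sum_univ_two, Matrix.add_apply]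
    ring

theorem h40_dmat_one : h40_dmat (1 : Matrix (Fin 2) (Fin 2) k) 0 = 1 := by
  ext i j
  · rw [h40_dmat_fst]
    by_cases h : i = j <;> simp [Matrix.one_apply, h]
  · rw [h40_dmat_snd]
    by_cases h : i = j <;> simp [Matrix.one_apply, h]

theorem h40_dmat_eq_iff (A B A' B' : Matrix (Fin 2) (Fin 2) k) :
    h40_dmat A B = h40_dmat A' B' ↔ A = A' ∧ B = B' := by
  constructor
  · intro h
    constructor
    · ext i j
      have := congrArg (fun M : Matrix (Fin 2) (Fin 2) (DualNumber k) =>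
        TrivSqZeroExt.fst (M i j)) h
      simpa using this
    · ext i j
      have := congrArg (fun M : Matrix (Fin 2) (Fin 2) (DualNumber k) =>
        TrivSqZeroExt.snd (M i j)) h
      simpa using this
  · rintro ⟨rfl, rfl⟩
    rfl

/-- The matrix `rb σ + ε · a σ` over the dual numbers. -/
noncomputable def h40_tanMat (rb : GQ →* Matrix (Fin 2) (Fin 2) k)
    (a : GQ → Matrix (Fin 2) (Fin 2) k) (σ : GQ) : Matrix (Fin 2) (Fin 2) (DualNumber k) :=
  h40_dmat (rb σ) (a σ)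

@[simp] theorem h40_tanMat_fst (rb : GQ →* Matrix (Fin 2) (Fin 2) k)
    (a : GQ → Matrix (Fin 2) (Fin 2) k) (σ : GQ) (i j : Fin 2) :
    TrivSqZeroExt.fst (h40_tanMat rb a σ i j) = rb σ i j := by
  simp [h40_tanMat]

@[simp] theorem h40_tanMat_snd (rb : GQ →* Matrix (Fin 2) (Fin 2) k)
    (a : GQ → Matrix (Fin 2) (Fin 2) k) (σ : GQ) (i j : Fin 2) :
    TrivSqZeroExt.snd (h40_tanMat rb a σ i j) = a σ i j := by
  simp [h40_tanMat]

/-- The lift of `rb` to the dual numbers attached to a tangent cocycle. -/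
noncomputable def h40_tanHom (rb : GQ →* Matrix (Fin 2) (Fin 2) k)
    (a : GQ → Matrix (Fin 2) (Fin 2) k) (ha : a ∈ h40_TanZ rb) :
    GQ →* Matrix (Fin 2) (Fin 2) (DualNumber k) where
  toFun := h40_tanMat rb a
  map_one' := by
    show h40_dmat (rb 1) (a 1) = 1
    rw [map_one, h40_TanZ_map_one ha, h40_dmat_one]
  map_mul' := fun σ τ => by
    show h40_dmat (rb (σ * τ)) (a (σ * τ)) = h40_dmat (rb σ) (a σ) * h40_dmat (rb τ) (a τ)
    rw [h40_dmat_mul, map_mul, ha.1 σ τ]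

@[simp] theorem h40_tanHom_apply (rb : GQ →* Matrix (Fin 2) (Fin 2) k)
    (a : GQ → Matrix (Fin 2) (Fin 2) k) (ha : a ∈ h40_TanZ rb) (σ : GQ) :
    h40_tanHom rb a ha σ = h40_tanMat rb a σ := rfl

theorem h40_tanHom_matCont (rb : GQ →* Matrix (Fin 2) (Fin 2) k)
    (hrb : GaloisFactorsThroughFiniteLevel rb)
    (a : GQ → Matrix (Fin 2) (Fin 2) k) (ha : a ∈ h40_TanZ rb) :
    MatCont (h40_tanHom rb a ha) := by
  obtain ⟨L₁, hL₁, h1⟩ := hrb
  obtain ⟨L₂, hL₂, h2⟩ := ha.2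
  intro n
  refine ⟨L₁ ⊔ L₂, IntermediateField.finiteDimensional_sup L₁ L₂, fun σ hσ i j => ?_⟩
  have e1 : rb σ = 1 := h1 σ fun x hx => hσ x ((le_sup_left : L₁ ≤ L₁ ⊔ L₂) hx)
  have e2 : a σ = 0 := h2 σ fun x hx => hσ x ((le_sup_right : L₂ ≤ L₁ ⊔ L₂) hx)
  have : h40_tanHom rb a ha σ = 1 := by
    show h40_dmat (rb σ) (a σ) = 1
    rw [e1, e2, h40_dmat_one]
  rw [this, sub_self]
  exact Ideal.zero_mem _

/-- The deformation of `rb` to the dual numbers attached to a tangent cocycle. -/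
noncomputable def h40_tanRep (rb : GQ →* Matrix (Fin 2) (Fin 2) k)
    (hrb : GaloisFactorsThroughFiniteLevel rb)
    (a : GQ → Matrix (Fin 2) (Fin 2) k) (ha : a ∈ h40_TanZ rb) :
    GaloisRepAdic (DualNumber k) :=
  ofMat (h40_tanHom rb a ha) (h40_tanHom_matCont rb hrb a ha)

end TanZ

section SEL

variable (𝒪 : Type) [CommRing 𝒪] [IsLocalRing 𝒪]

/-- The residual matrices of a `ResidualGaloisRep` factor through a finite level. -/
theorem h40_resMat_finiteLevel {k : Type} [Field k] (ρbar : ResidualGaloisRep k)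
    (bbar : Module.Basis (Fin 2) k ρbar.V) :
    GaloisFactorsThroughFiniteLevel (resMat ρbar bbar) := by
  obtain ⟨L, hL, h1⟩ := ρbar.factorsThroughFiniteLevel
  refine ⟨L, hL, fun σ hσ => ?_⟩
  rw [resMat_apply, h1 σ hσ]
  exact LinearMap.toMatrix_one bbar

/-- **The Selmer bound consumed by the top-level reduction of S56.**
Every `k`-subspace `W` of tangent cocycles all of whose nonzero members give lifts of type `𝒟`
over the dual numbers, and which contains no nonzero coboundary, has rank at most `r`. -/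
def h40_SEL (ρbar : ResidualGaloisRep (IsLocalRing.ResidueField 𝒪))
    (bbar : Module.Basis (Fin 2) (IsLocalRing.ResidueField 𝒪) ρbar.V)
    (𝒟 : ∀ ⦃A : Type⦄ [CommRing A] [IsLocalRing A] [Algebra 𝒪 A], GaloisRepAdic A → Prop)
    (r : ℕ) : Prop :=
  ∀ (W : Submodule (IsLocalRing.ResidueField 𝒪)
      (GQ → Matrix (Fin 2) (Fin 2) (IsLocalRing.ResidueField 𝒪)))
    (hW : W ≤ h40_TanZ (resMat ρbar bbar)),
    (∀ (a : GQ → Matrix (Fin 2) (Fin 2) (IsLocalRing.ResidueField 𝒪)) (ha : a ∈ W), a ≠ 0 →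
      @𝒟 (DualNumber (IsLocalRing.ResidueField 𝒪)) _ _ (algDual 𝒪)
        (h40_tanRep (resMat ρbar bbar) (h40_resMat_finiteLevel ρbar bbar) a (hW ha))) →
    (∀ a ∈ W, h40_IsCob (resMat ρbar bbar) a → a = 0) →
    Module.rank (IsLocalRing.ResidueField 𝒪) W ≤ r

end SEL

end Fermat.Agent.S56
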