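import Fermat.Agent.S56.h40_TopTan
import Fermat.Agent.S56.h40_TopType
import Fermat.Statements.S56

/-!
# S56 top level: the frozen statement from Taylor–Wiles primes with a Selmer bound (helper40)

`h40_S56_of_SEL`: the frozen statement S56 follows from the existence, for each of the two
types, of `r` and (for every `n`) Taylor–Wiles primes `qv : Fin r → ℕ` such that the Selmer
bound `h40_SEL` holds for the type with ramification set `Smin ∪ image qv`.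
-/

set_option autoImplicit false
set_option linter.style.haveILetI false
set_option linter.unusedSectionVars false

namespace Fermat.Agent.S56

open Polynomial IsLocalRing ResidualGaloisRep Fermat.Agent.S53 Fermat.Agent.S53.Dict

section Main

variable {𝒪 : Type} [CommRing 𝒪] [IsDomain 𝒪] [IsDiscreteValuationRing 𝒪]
  [IsAdicComplete (maximalIdeal 𝒪) 𝒪]

/-- One strict-ordinary deformation ring. -/
theorem h40_top_SO (p : ℕ) (ρbar : ResidualGaloisRep (ResidueField 𝒪))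
    (bbar : Module.Basis (Fin 2) (ResidueField 𝒪) ρbar.V) (Sig Smin : Finset ℕ) (r : ℕ)
    (hSEL : h40_SEL 𝒪 ρbar bbar (fun _A _ _ _ ρ => h40_SOType p Sig Smin ρ) r)
    (DQ : GaloisRep.DeformationRingData 𝒪 ρbar (fun _A _ _ _ ρ =>
      GaloisRep.strictOrdinaryCondition 𝒪 p Sig ρ ∧
        ∀ q ∈ Smin, q.Prime → q ≠ p → ρ.IsUnipotentOnInertiaAt q)) :
    ∃ γ : MvPowerSeries (Fin r) 𝒪 →ₐ[𝒪] DQ.R, Function.Surjective γ :=
  h40_top DQ bbar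
    (fun φ hφ _ => h40_SOType_baseChangeAlong φ hφ DQ.ρ DQ.isOfType)
    (fun _ _ h hρ => h40_SOType_of_isEquiv h hρ) r hSEL

/-- One flat deformation ring. -/
theorem h40_top_FL (p : ℕ) (ρbar : ResidualGaloisRep (ResidueField 𝒪))
    (bbar : Module.Basis (Fin 2) (ResidueField 𝒪) ρbar.V) (Sig Smin : Finset ℕ) (r : ℕ)
    (hSEL : h40_SEL 𝒪 ρbar bbar (fun _A _ _ _ ρ => h40_FLType p Sig Smin ρ) r)
    (DQ : GaloisRep.DeformationRingData 𝒪 ρbar (fun _A _ _ _ ρ =>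
      GaloisRep.flatCondition 𝒪 p Sig ρ ∧
        ∀ q ∈ Smin, q.Prime → q ≠ p → ρ.IsUnipotentOnInertiaAt q)) :
    ∃ γ : MvPowerSeries (Fin r) 𝒪 →ₐ[𝒪] DQ.R, Function.Surjective γ :=
  h40_top DQ bbar
    (fun φ hφ hs => h40_FLType_baseChangeAlong φ hφ hs DQ.ρ DQ.isOfType)
    (fun _ _ h hρ => h40_FLType_of_isEquiv h hρ) r hSEL

/-- **Frozen S56 from Taylor–Wiles primes with a Selmer bound.** -/
theorem h40_S56_of_SEL (p : ℕ) (ρbar : ResidualGaloisRep (ResidueField 𝒪)) (S Smin : Finset ℕ)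
    (hSO : ∃ r : ℕ, ∀ n : ℕ, ∃ qv : Fin r → ℕ, Function.Injective qv ∧
      (∀ i, (qv i).Prime ∧ qv i ∉ S ∧ p ^ (n + 1) ∣ qv i - 1) ∧
      (∀ i, ∀ P : ValuationSubring (AlgebraicClosure ℚ), P.LiesOverPrime (qv i) →
        ∀ φ : AlgebraicClosure ℚ ≃ₐ[ℚ] AlgebraicClosure ℚ, P.IsFrobeniusAt φ (qv i) →
          ∃ α β : ResidueField 𝒪, α ≠ β ∧
            LinearMap.charpoly (ρbar.ρ φ) = (X - C α) * (X - C β)) ∧
      ∃ bbar : Module.Basis (Fin 2) (ResidueField 𝒪) ρbar.V,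
        h40_SEL 𝒪 ρbar bbar
          (fun _A _ _ _ ρ => h40_SOType p (Smin ∪ Finset.univ.image qv) Smin ρ) r)
    (hFL : ∃ r : ℕ, ∀ n : ℕ, ∃ qv : Fin r → ℕ, Function.Injective qv ∧
      (∀ i, (qv i).Prime ∧ qv i ∉ S ∧ p ^ (n + 1) ∣ qv i - 1) ∧
      (∀ i, ∀ P : ValuationSubring (AlgebraicClosure ℚ), P.LiesOverPrime (qv i) →
        ∀ φ : AlgebraicClosure ℚ ≃ₐ[ℚ] AlgebraicClosure ℚ, P.IsFrobeniusAt φ (qv i) →
          ∃ α β : ResidueField 𝒪, α ≠ β ∧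
            LinearMap.charpoly (ρbar.ρ φ) = (X - C α) * (X - C β)) ∧
      ∃ bbar : Module.Basis (Fin 2) (ResidueField 𝒪) ρbar.V,
        h40_SEL 𝒪 ρbar bbar
          (fun _A _ _ _ ρ => h40_FLType p (Smin ∪ Finset.univ.image qv) Smin ρ) r) :
    (∃ r : ℕ, ∀ n : ℕ, ∃ qv : Fin r → ℕ, Function.Injective qv ∧
      (∀ i, (qv i).Prime ∧ qv i ∉ S ∧ p ^ (n + 1) ∣ qv i - 1) ∧
      (∀ i, ∀ P : ValuationSubring (AlgebraicClosure ℚ), P.LiesOverPrime (qv i) →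
        ∀ φ : AlgebraicClosure ℚ ≃ₐ[ℚ] AlgebraicClosure ℚ, P.IsFrobeniusAt φ (qv i) →
          ∃ α β : ResidueField 𝒪, α ≠ β ∧ LinearMap.charpoly (ρbar.ρ φ) = (X - C α) * (X - C β)) ∧
      ∀ DQ : GaloisRep.DeformationRingData 𝒪 ρbar (fun _A _ _ _ ρ =>
          GaloisRep.strictOrdinaryCondition 𝒪 p (Smin ∪ Finset.univ.image qv) ρ ∧
            ∀ q ∈ Smin, q.Prime → q ≠ p → ρ.IsUnipotentOnInertiaAt q),
        ∃ γ : MvPowerSeries (Fin r) 𝒪 →ₐ[𝒪] DQ.R, Function.Surjective γ) ∧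
    (∃ r : ℕ, ∀ n : ℕ, ∃ qv : Fin r → ℕ, Function.Injective qv ∧
      (∀ i, (qv i).Prime ∧ qv i ∉ S ∧ p ^ (n + 1) ∣ qv i - 1) ∧
      (∀ i, ∀ P : ValuationSubring (AlgebraicClosure ℚ), P.LiesOverPrime (qv i) →
        ∀ φ : AlgebraicClosure ℚ ≃ₐ[ℚ] AlgebraicClosure ℚ, P.IsFrobeniusAt φ (qv i) →
          ∃ α β : ResidueField 𝒪, α ≠ β ∧ LinearMap.charpoly (ρbar.ρ φ) = (X - C α) * (X - C β)) ∧
      ∀ DQ : GaloisRep.DeformationRingData 𝒪 ρbar (fun _A _ _ _ ρ =>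
          GaloisRep.flatCondition 𝒪 p (Smin ∪ Finset.univ.image qv) ρ ∧
            ∀ q ∈ Smin, q.Prime → q ≠ p → ρ.IsUnipotentOnInertiaAt q),
        ∃ γ : MvPowerSeries (Fin r) 𝒪 →ₐ[𝒪] DQ.R, Function.Surjective γ) := by
  refine ⟨?_, ?_⟩
  · obtain ⟨r, hr⟩ := hSO
    refine ⟨r, fun n => ?_⟩
    obtain ⟨qv, hinj, hq, hfrob, bbar, hSEL⟩ := hr n
    exact ⟨qv, hinj, hq, hfrob, fun DQ => h40_top_SO p ρbar bbar _ Smin r hSEL DQ⟩
  · obtain ⟨r, hr⟩ := hFL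
    refine ⟨r, fun n => ?_⟩
    obtain ⟨qv, hinj, hq, hfrob, bbar, hSEL⟩ := hr n
    exact ⟨qv, hinj, hq, hfrob, fun DQ => h40_top_FL p ρbar bbar _ Smin r hSEL DQ⟩

end Main

end Fermat.Agent.S56
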