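import Fermat.Agent.S56.h40_TopAlg
import Fermat.Agent.S56.h40_TopDefs
import Fermat.Prelude.Def_GaloisRep_DeformationRingData

/-!
# S56 top level: the tangent map of a universal deformation ring (helper40)

For a `DeformationRingData` `DQ` the map `Der_𝒪(DQ.R, k) → TanZ rb`, `d ↦ (σ ↦ d (M σ))`
is `k`-linear and, by the uniqueness clause of `universal`, injective modulo coboundaries.
Together with the Selmer bound `h40_SEL` and the generator bound of `h40_TopAlg` this gives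
`𝒪⟦X₁,…,X_r⟧ ↠ DQ.R` (`h40_top`).
-/

set_option autoImplicit false
set_option linter.style.haveILetI false
set_option linter.unusedSectionVars false

namespace Fermat.Agent.S56

open IsLocalRing Fermat.Agent.S53 Fermat.Agent.S53.Dict

section Nilp

theorem h40_isAdicComplete_of_pow_eq_bot {A : Type*} [CommRing A] (I : Ideal A) (N : ℕ)
    (h : I ^ N = ⊥) : IsAdicComplete I A := by
  have hz : ∀ x y : A, x ≡ y [SMOD (I ^ N • ⊤ : Submodule A A)] → x = y := by
    intro x y hxy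
    rw [adicLimit_smodEq_iff, h, Ideal.mem_bot, sub_eq_zero] at hxy
    exact hxy
  refine { toIsHausdorff := ⟨fun x hx => hz x 0 (hx N)⟩, toIsPrecomplete := ⟨fun f hf => ?_⟩ }
  refine ⟨f N, fun n => ?_⟩
  rcases le_total n N with hn | hn
  · exact hf hn
  · rw [hz _ _ (hf hn)]

end Nilp

section Dual

variable {k : Type} [Field k]

theorem h40_dual_mem_maximalIdeal_iff (x : DualNumber k) :
    x ∈ maximalIdeal (DualNumber k) ↔ TrivSqZeroExt.fst x = 0 := by
  rw [mem_maximalIdeal, mem_nonunits_iff, TrivSqZeroExt.isUnit_iff_isUnit_fst, isUnit_iff_ne_zero,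
    not_not]

theorem h40_dual_maximalIdeal_sq : maximalIdeal (DualNumber k) ^ 2 = ⊥ := by
  rw [eq_bot_iff, pow_two, Ideal.mul_le]
  intro x hx y hy
  rw [h40_dual_mem_maximalIdeal_iff] at hx hy
  rw [Ideal.mem_bot]
  apply TrivSqZeroExt.ext
  · simp [hx]
  · simp [hx, hy]

theorem h40_dual_isAdicComplete :
    IsAdicComplete (maximalIdeal (DualNumber k)) (DualNumber k) :=
  h40_isAdicComplete_of_pow_eq_bot _ 2 h40_dual_maximalIdeal_sq

end Dual

section DualO

variable (𝒪 : Type) [CommRing 𝒪] [IsLocalRing 𝒪]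

theorem h40_dual_isNoetherianRing : IsNoetherianRing (DualNumber (ResidueField 𝒪)) := by
  letI := algDual 𝒪
  haveI : IsArtinianRing (DualNumber (ResidueField 𝒪)) :=
    (isArtinianTestAlgebra_dualNumber (𝒪 := 𝒪)).isArtinian
  infer_instance

theorem h40_dual_isLocalHom :
    letI := algDual 𝒪
    IsLocalHom (algebraMap 𝒪 (DualNumber (ResidueField 𝒪))) :=
  letI := algDual 𝒪
  (isArtinianTestAlgebra_dualNumber (𝒪 := 𝒪)).isLocalHom

theorem h40_dual_residue_surjective :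
    letI := algDual 𝒪
    Function.Surjective (residue (DualNumber (ResidueField 𝒪)) ∘
      algebraMap 𝒪 (DualNumber (ResidueField 𝒪))) :=
  letI := algDual 𝒪
  (isArtinianTestAlgebra_dualNumber (𝒪 := 𝒪)).residue_surjective

end DualO

section Tangent

variable {𝒪 : Type} [CommRing 𝒪] [IsLocalRing 𝒪]
variable {R : Type} [CommRing R] [IsLocalRing R] [Algebra 𝒪 R]
variable (hloc : IsLocalHom (algebraMap 𝒪 R))
  (hsurj : Function.Surjective (IsLocalRing.residue R ∘ algebraMap 𝒪 R))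

/-- Entrywise image of a matrix family under a map `R → k`. -/
noncomputable def h40_kappaFun (M : GQ →* Matrix (Fin 2) (Fin 2) R) (d : R → ResidueField 𝒪) :
    GQ → Matrix (Fin 2) (Fin 2) (ResidueField 𝒪) :=
  fun σ => Matrix.of fun i j => d (M σ i j)

@[simp] theorem h40_kappaFun_apply (M : GQ →* Matrix (Fin 2) (Fin 2) R) (d : R → ResidueField 𝒪)
    (σ : GQ) (i j : Fin 2) : h40_kappaFun M d σ i j = d (M σ i j) := rfl

theorem h40_kappaFun_zero (M : GQ →* Matrix (Fin 2) (Fin 2) R) :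
    h40_kappaFun M (0 : R → ResidueField 𝒪) = 0 := by
  funext σ
  ext i j
  rfl

theorem h40_kappaFun_mem (M : GQ →* Matrix (Fin 2) (Fin 2) R) (hM : MatCont M)
    (rb : GQ →* Matrix (Fin 2) (Fin 2) (ResidueField 𝒪))
    (hres : ∀ σ i j, TA.toRes hloc hsurj (M σ i j) = rb σ i j)
    (d : R → ResidueField 𝒪) (hd : d ∈ h40_Der hloc hsurj) :
    h40_kappaFun M d ∈ h40_TanZ rb := by
  refine ⟨fun σ τ => ?_, ?_⟩
  · ext i j
    rw [h40_kappaFun_apply, map_mul, Matrix.mul_apply, h40_Der_map_sum hd, Matrix.add_apply,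
      Matrix.mul_apply, Matrix.mul_apply, ← Finset.sum_add_distrib]
    refine Finset.sum_congr rfl fun l _ => ?_
    rw [hd.2.1, hres, hres, h40_kappaFun_apply, h40_kappaFun_apply]
    ring
  · obtain ⟨L, hL, h⟩ := hM 2
    refine ⟨L, hL, fun σ hσ => ?_⟩
    ext i j
    rw [h40_kappaFun_apply]
    have h1 : M σ i j = (M σ - 1) i j + (1 : Matrix (Fin 2) (Fin 2) R) i j := by simp
    rw [h1, hd.1, h40_Der_eq_zero_of_mem_sq hd (h σ hσ i j), zero_add]
    by_cases hij : i = j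
    · rw [hij, Matrix.one_apply_eq]
      exact h40_Der_map_one hd
    · rw [Matrix.one_apply_ne hij]
      exact h40_Der_map_zero hd

/-- The ring map underlying `h40_derHom`. -/
noncomputable def h40_derRingHom (d : R → ResidueField 𝒪) (hd : d ∈ h40_Der hloc hsurj) :
    R →+* DualNumber (ResidueField 𝒪) :=
  letI := algDual 𝒪
  ((h40_derHom d hd : R →ₐ[𝒪] DualNumber (ResidueField 𝒪)) : R →+* DualNumber (ResidueField 𝒪))

theorem h40_derRingHom_fst (d : R → ResidueField 𝒪) (hd : d ∈ h40_Der hloc hsurj) (x : R) :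
    TrivSqZeroExt.fst (h40_derRingHom hloc hsurj d hd x) = TA.toRes hloc hsurj x :=
  h40_derHom_fst d hd x

theorem h40_derRingHom_snd (d : R → ResidueField 𝒪) (hd : d ∈ h40_Der hloc hsurj) (x : R) :
    TrivSqZeroExt.snd (h40_derRingHom hloc hsurj d hd x) = d x :=
  h40_derHom_snd d hd x

theorem h40_isLocalHom_of_fst (φ : R →+* DualNumber (ResidueField 𝒪))
    (h : ∀ x, TrivSqZeroExt.fst (φ x) = TA.toRes hloc hsurj x) : IsLocalHom φ := by
  constructor
  intro x hx
  rw [TrivSqZeroExt.isUnit_iff_isUnit_fst, h, isUnit_iff_ne_zero, Ne,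
    TA.toRes_eq_zero_iff] at hx
  exact IsLocalRing.notMem_maximalIdeal.mp hx

theorem h40_derRingHom_surjective (d : R → ResidueField 𝒪) (hd : d ∈ h40_Der hloc hsurj)
    (hne : d ≠ 0) : Function.Surjective (h40_derRingHom hloc hsurj d hd) := by
  obtain ⟨x, hx⟩ : ∃ x, d x ≠ 0 := by
    by_contra h
    exact hne (funext fun x => not_not.mp fun hx => h ⟨x, hx⟩)
  obtain ⟨o, ho⟩ := TA.exists_algebraMap_sub_mem hloc hsurj x
  have hy1 : TA.toRes hloc hsurj (x - algebraMap 𝒪 R o) = 0 :=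
    (TA.toRes_eq_zero_iff hloc hsurj _).mpr ho
  have hy2 : d (x - algebraMap 𝒪 R o) = d x := by
    rw [h40_Der_map_sub hd, hd.2.2, sub_zero]
  intro z
  obtain ⟨c₁, hc₁⟩ := IsLocalRing.residue_surjective (TrivSqZeroExt.fst z)
  obtain ⟨c₂, hc₂⟩ := IsLocalRing.residue_surjective (TrivSqZeroExt.snd z / d x)
  refine ⟨algebraMap 𝒪 R c₁ + algebraMap 𝒪 R c₂ * (x - algebraMap 𝒪 R o), ?_⟩
  apply TrivSqZeroExt.ext
  · rw [h40_derRingHom_fst, map_add, map_mul, hy1, mul_zero, add_zero, TA.toRes_algebraMap, hc₁]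
  · rw [h40_derRingHom_snd, hd.1, hd.2.2, zero_add, hd.2.1, hd.2.2, mul_zero, add_zero,
      TA.toRes_algebraMap, hc₂, hy2, div_mul_cancel₀ _ hx]

theorem h40_mapMat_derRingHom (M : GQ →* Matrix (Fin 2) (Fin 2) R) (hM : MatCont M)
    (rb : GQ →* Matrix (Fin 2) (Fin 2) (ResidueField 𝒪))
    (hres : ∀ σ i j, TA.toRes hloc hsurj (M σ i j) = rb σ i j)
    (d : R → ResidueField 𝒪) (hd : d ∈ h40_Der hloc hsurj) :
    mapMat (h40_derRingHom hloc hsurj d hd) M =
      h40_tanHom rb (h40_kappaFun M d) (h40_kappaFun_mem hloc hsurj M hM rb hres d hd) := by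
  apply MonoidHom.ext
  intro σ
  ext i j
  · rw [mapMat_apply_apply, h40_derRingHom_fst, hres, h40_tanHom_apply, h40_tanMat_fst]
  · rw [mapMat_apply_apply, h40_derRingHom_snd, h40_tanHom_apply, h40_tanMat_snd,
      h40_kappaFun_apply]

end Tangent

section Cob

variable {k : Type} [Field k]

/-- Cohomologous tangent cocycles give equivalent lifts. -/
theorem h40_tanRep_isEquiv_of_sub_isCob (rb : GQ →* Matrix (Fin 2) (Fin 2) k)
    (hrb : GaloisFactorsThroughFiniteLevel rb) (a₀ a : GQ → Matrix (Fin 2) (Fin 2) k)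
    (ha₀ : a₀ ∈ h40_TanZ rb) (ha : a ∈ h40_TanZ rb) (hcob : h40_IsCob rb (a - a₀)) :
    (h40_tanRep rb hrb a₀ ha₀).IsEquiv (h40_tanRep rb hrb a ha) := by
  obtain ⟨X, hX⟩ := hcob
  refine (isEquiv_ofMat_iff (h40_tanHom_matCont rb hrb a₀ ha₀)
    (h40_tanHom_matCont rb hrb a ha)).mpr ⟨⟨h40_dmat 1 X, h40_dmat 1 (-X), ?_, ?_⟩, fun σ => ?_⟩
  · rw [h40_dmat_mul, mul_one, mul_one, one_mul, add_neg_cancel, h40_dmat_one]
  · rw [h40_dmat_mul, mul_one, mul_one, one_mul, neg_add_cancel, h40_dmat_one]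
  · show h40_dmat 1 X * h40_dmat (rb σ) (a₀ σ) = h40_dmat (rb σ) (a σ) * h40_dmat 1 X
    rw [h40_dmat_mul, h40_dmat_mul, h40_dmat_eq_iff]
    refine ⟨by rw [one_mul, mul_one], ?_⟩
    have h := hX σ
    rw [Pi.sub_apply] at h
    rw [one_mul, mul_one]
    have h2 : a σ = X * rb σ - rb σ * X + a₀ σ := by rw [← h]; abel
    rw [h2]
    abel

end Cob

section Residual

variable {𝒪 : Type} [CommRing 𝒪] [IsLocalRing 𝒪]
variable {R : Type} [CommRing R] [IsLocalRing R] [Algebra 𝒪 R] [IsLocalHom (algebraMap 𝒪 R)]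
variable {A : Type} [CommRing A] [IsLocalRing A] [Algebra 𝒪 A] [IsLocalHom (algebraMap 𝒪 A)]

/-- The residual representation of a base change along an `𝒪`-algebra map is still `ρbar`. -/
theorem h40_residual_baseChange (ρbar : ResidualGaloisRep (ResidueField 𝒪))
    (bbar : Module.Basis (Fin 2) (ResidueField 𝒪) ρbar.V) (ρ : GaloisRepAdic R)
    (b : Module.Basis (Fin 2) R ρ.V)
    (hb : ∀ σ i j, residue R (toMat ρ b σ i j) =
      ResidueField.map (algebraMap 𝒪 R) (resMat ρbar bbar σ i j))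
    (φ : R →ₐ[𝒪] A) (hφ : IsLocalHom (φ : R →+* A)) :
    (ρ.baseChangeAlong (φ : R →+* A) hφ).residual.IsEquiv
      (ρbar.baseChangeAlong (ResidueField.map (algebraMap 𝒪 A))) := by
  rw [residual_isEquiv_iff ρbar bbar]
  refine ⟨baseChangeBasis (φ : R →+* A) hφ ρ b, fun σ i j => ?_⟩
  rw [toMat_baseChangeAlong, mapMat_apply_apply]
  obtain ⟨o, ho⟩ := IsLocalRing.residue_surjective (resMat ρbar bbar σ i j)
  have h1 := hb σ i j
  rw [← ho, ResidueField.map_residue] at h1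
  rw [← ho, ResidueField.map_residue]
  rw [← sub_eq_zero, ← map_sub, residue_eq_zero_iff] at h1 ⊢
  have h2 : (φ : R →+* A) (toMat ρ b σ i j) - algebraMap 𝒪 A o =
      (φ : R →+* A) (toMat ρ b σ i j - algebraMap 𝒪 R o) := by
    rw [map_sub]
    congr 1
    exact (φ.commutes o).symm
  rw [h2]
  exact (IsLocalRing.mem_maximalIdeal _).mpr fun hu =>
    (IsLocalRing.mem_maximalIdeal _).mp h1 (hφ.map_nonunit _ hu)

end Residual

section Top

variable {𝒪 : Type} [CommRing 𝒪] [IsDomain 𝒪] [IsDiscreteValuationRing 𝒪]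
  [IsAdicComplete (maximalIdeal 𝒪) 𝒪]
variable {ρbar : ResidualGaloisRep (ResidueField 𝒪)}
variable {𝒟 : ∀ ⦃A : Type⦄ [CommRing A] [IsLocalRing A] [Algebra 𝒪 A], GaloisRepAdic A → Prop}

/-- A derivation of the universal ring whose tangent cocycle is a coboundary vanishes. -/
theorem h40_der_eq_zero_of_isCob (DQ : GaloisRep.DeformationRingData 𝒪 ρbar 𝒟)
    (bbar : Module.Basis (Fin 2) (ResidueField 𝒪) ρbar.V)
    (hBC : ∀ (φ : DQ.R →+* DualNumber (ResidueField 𝒪)) (hφ : IsLocalHom φ),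
      Function.Surjective φ →
        @𝒟 (DualNumber (ResidueField 𝒪)) _ _ (algDual 𝒪) (DQ.ρ.baseChangeAlong φ hφ))
    (b : Module.Basis (Fin 2) DQ.R DQ.ρ.V)
    (hb : ∀ σ i j, residue DQ.R (toMat DQ.ρ b σ i j) =
      ResidueField.map (algebraMap 𝒪 DQ.R) (resMat ρbar bbar σ i j))
    (d : DQ.R → ResidueField 𝒪)
    (hd : d ∈ h40_Der DQ.instIsLocalHom DQ.residue_surjective)
    (hcob : h40_IsCob (resMat ρbar bbar) (h40_kappaFun (toMat DQ.ρ b) d)) : d = 0 := by
  by_contra hne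
  letI := algDual 𝒪
  haveI := h40_dual_isNoetherianRing 𝒪
  haveI : IsAdicComplete (maximalIdeal (DualNumber (ResidueField 𝒪)))
      (DualNumber (ResidueField 𝒪)) := h40_dual_isAdicComplete
  haveI : IsLocalHom (algebraMap 𝒪 (DualNumber (ResidueField 𝒪))) := h40_dual_isLocalHom 𝒪
  set hloc := DQ.instIsLocalHom with hloc_def
  set hsurj := DQ.residue_surjective with hsurj_def
  set M := toMat DQ.ρ b with hM_def
  have hM : MatCont M := matCont_toMat DQ.ρ b
  set rb := resMat ρbar bbar with hrb_def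
  have hrb : GaloisFactorsThroughFiniteLevel rb := h40_resMat_finiteLevel ρbar bbar
  have hres : ∀ σ i j, TA.toRes hloc hsurj (M σ i j) = rb σ i j := by
    intro σ i j
    apply (ResidueField.map (algebraMap 𝒪 DQ.R)).injective
    rw [TA.residueFieldMap_toRes]
    exact hb σ i j
  have h0 : (0 : DQ.R → ResidueField 𝒪) ∈ h40_Der hloc hsurj := Submodule.zero_mem _
  -- the two algebra maps
  let φd : DQ.R →ₐ[𝒪] DualNumber (ResidueField 𝒪) := h40_derHom d hd
  let φ0 : DQ.R →ₐ[𝒪] DualNumber (ResidueField 𝒪) := h40_derHom 0 h0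
  have hφd : IsLocalHom (φd : DQ.R →+* DualNumber (ResidueField 𝒪)) :=
    h40_isLocalHom_of_fst hloc hsurj _ (h40_derRingHom_fst hloc hsurj d hd)
  have hφ0 : IsLocalHom (φ0 : DQ.R →+* DualNumber (ResidueField 𝒪)) :=
    h40_isLocalHom_of_fst hloc hsurj _ (h40_derRingHom_fst hloc hsurj 0 h0)
  have hsurjd : Function.Surjective (φd : DQ.R →+* DualNumber (ResidueField 𝒪)) :=
    h40_derRingHom_surjective hloc hsurj d hd hne
  have hD := hBC (φd : DQ.R →+* DualNumber (ResidueField 𝒪)) hφd hsurjd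
  have hresA := h40_residual_baseChange ρbar bbar DQ.ρ b hb φd hφd
  obtain ⟨φ, -, huniq⟩ := DQ.universal (DualNumber (ResidueField 𝒪))
    (h40_dual_residue_surjective 𝒪) _ hD hresA
  have e1 : φd = φ := huniq φd ⟨hφd, ⟨GaloisRepAdic.Equiv.refl _⟩⟩
  have e0 : φ0 = φ := by
    refine huniq φ0 ⟨hφ0, ?_⟩
    -- chain of equivalences
    obtain ⟨E1⟩ := baseChangeAlong_isEquiv_ofMat
      (φ0 : DQ.R →+* DualNumber (ResidueField 𝒪)) hφ0 DQ.ρ b
    obtain ⟨E2⟩ := isEquiv_ofMat_of_eq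
      (matCont_mapMat (φ0 : DQ.R →+* DualNumber (ResidueField 𝒪)) hφ0 hM)
      (h40_tanHom_matCont rb hrb _ (h40_kappaFun_mem hloc hsurj M hM rb hres 0 h0))
      (h40_mapMat_derRingHom hloc hsurj M hM rb hres 0 h0)
    obtain ⟨E3⟩ := h40_tanRep_isEquiv_of_sub_isCob rb hrb (h40_kappaFun M 0) (h40_kappaFun M d)
      (h40_kappaFun_mem hloc hsurj M hM rb hres 0 h0)
      (h40_kappaFun_mem hloc hsurj M hM rb hres d hd)
      (by rw [h40_kappaFun_zero, sub_zero]; exact hcob)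
    obtain ⟨E4⟩ := isEquiv_ofMat_of_eq
      (matCont_mapMat (φd : DQ.R →+* DualNumber (ResidueField 𝒪)) hφd hM)
      (h40_tanHom_matCont rb hrb _ (h40_kappaFun_mem hloc hsurj M hM rb hres d hd))
      (h40_mapMat_derRingHom hloc hsurj M hM rb hres d hd)
    obtain ⟨E5⟩ := baseChangeAlong_isEquiv_ofMat
      (φd : DQ.R →+* DualNumber (ResidueField 𝒪)) hφd DQ.ρ b
    exact ⟨(((E1.trans E2).trans E3).trans E4.symm).trans E5.symm⟩
  apply hne
  funext x
  have h1 : TrivSqZeroExt.snd (φd x) = TrivSqZeroExt.snd (φ0 x) := by rw [e1, e0]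
  rw [h40_derHom_snd, h40_derHom_snd] at h1
  exact h1

/-- **Top-level reduction of S56.** For a universal deformation ring `DQ` of type `𝒟`, the
Selmer bound `h40_SEL … 𝒟 r` gives a surjection `𝒪⟦X₁,…,X_r⟧ ↠ DQ.R`, provided the type
passes to the push-forward of the universal deformation along surjections onto the dual
numbers (`hBC`) and is invariant under equivalence over the dual numbers (`hEQ`). -/
theorem h40_top (DQ : GaloisRep.DeformationRingData 𝒪 ρbar 𝒟)
    (bbar : Module.Basis (Fin 2) (ResidueField 𝒪) ρbar.V)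
    (hBC : ∀ (φ : DQ.R →+* DualNumber (ResidueField 𝒪)) (hφ : IsLocalHom φ),
      Function.Surjective φ →
        @𝒟 (DualNumber (ResidueField 𝒪)) _ _ (algDual 𝒪) (DQ.ρ.baseChangeAlong φ hφ))
    (hEQ : ∀ ρ ρ' : GaloisRepAdic (DualNumber (ResidueField 𝒪)), ρ.IsEquiv ρ' →
      @𝒟 (DualNumber (ResidueField 𝒪)) _ _ (algDual 𝒪) ρ →
      @𝒟 (DualNumber (ResidueField 𝒪)) _ _ (algDual 𝒪) ρ')
    (r : ℕ) (hSEL : h40_SEL 𝒪 ρbar bbar 𝒟 r) :
    ∃ γ : MvPowerSeries (Fin r) 𝒪 →ₐ[𝒪] DQ.R, Function.Surjective γ := by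
  obtain ⟨b, hb⟩ := (residual_isEquiv_iff ρbar bbar (ResidueField.map (algebraMap 𝒪 DQ.R))
    DQ.ρ).mp DQ.residual_isEquiv
  set hloc := DQ.instIsLocalHom with hloc_def
  set hsurj := DQ.residue_surjective with hsurj_def
  set M := toMat DQ.ρ b with hM_def
  have hM : MatCont M := matCont_toMat DQ.ρ b
  set rb := resMat ρbar bbar with hrb_def
  have hrb : GaloisFactorsThroughFiniteLevel rb := h40_resMat_finiteLevel ρbar bbar
  have hres : ∀ σ i j, TA.toRes hloc hsurj (M σ i j) = rb σ i j := by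
    intro σ i j
    apply (ResidueField.map (algebraMap 𝒪 DQ.R)).injective
    rw [TA.residueFieldMap_toRes]
    exact hb σ i j
  let κ : h40_Der hloc hsurj →ₗ[ResidueField 𝒪]
      (GQ → Matrix (Fin 2) (Fin 2) (ResidueField 𝒪)) :=
    { toFun := fun d => h40_kappaFun M d.1
      map_add' := fun _ _ => rfl
      map_smul' := fun _ _ => rfl }
  have hκmem : ∀ d : h40_Der hloc hsurj, κ d ∈ h40_TanZ rb := fun d =>
    h40_kappaFun_mem hloc hsurj M hM rb hres d.1 d.2
  have hW : LinearMap.range κ ≤ h40_TanZ rb := by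
    rintro _ ⟨d, rfl⟩
    exact hκmem d
  have hcob0 : ∀ d : h40_Der hloc hsurj, h40_IsCob rb (κ d) → d = 0 := fun d hc =>
    Subtype.ext (h40_der_eq_zero_of_isCob DQ bbar hBC b hb d.1 d.2 hc)
  have hinj : Function.Injective κ := by
    rw [← LinearMap.ker_eq_bot, eq_bot_iff]
    intro d hd
    rw [LinearMap.mem_ker] at hd
    rw [Submodule.mem_bot]
    refine hcob0 d ⟨0, fun σ => ?_⟩
    rw [hd]
    simp
  have hrank := hSEL (LinearMap.range κ) hW (by
    rintro _ ⟨d, rfl⟩ hne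
    have hd0 : d.1 ≠ 0 := by
      intro h
      apply hne
      have : d = 0 := Subtype.ext h
      rw [this, map_zero]
    have hφd : IsLocalHom (h40_derRingHom hloc hsurj d.1 d.2) :=
      h40_isLocalHom_of_fst hloc hsurj _ (h40_derRingHom_fst hloc hsurj d.1 d.2)
    have hD := hBC (h40_derRingHom hloc hsurj d.1 d.2) hφd
      (h40_derRingHom_surjective hloc hsurj d.1 d.2 hd0)
    obtain ⟨E5⟩ := baseChangeAlong_isEquiv_ofMat (h40_derRingHom hloc hsurj d.1 d.2) hφd DQ.ρ b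
    obtain ⟨E4⟩ := isEquiv_ofMat_of_eq
      (matCont_mapMat (h40_derRingHom hloc hsurj d.1 d.2) hφd hM)
      (h40_tanHom_matCont rb hrb _ (h40_kappaFun_mem hloc hsurj M hM rb hres d.1 d.2))
      (h40_mapMat_derRingHom hloc hsurj M hM rb hres d.1 d.2)
    exact hEQ _ _ ⟨E5.trans E4⟩ hD) (by
    rintro _ ⟨d, rfl⟩ hc
    rw [hcob0 d hc, map_zero])
  have hr : Module.rank (ResidueField 𝒪) (h40_Der hloc hsurj) ≤ r := by
    rw [← LinearEquiv.rank_eq (LinearEquiv.ofInjective κ hinj).symm]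
    exact hrank
  exact h40_exists_surjective_of_rank_der_le hloc hsurj r hr

end Top

end Fermat.Agent.S56
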