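import Fermat.Agent.S53.Dict
import Fermat.Prelude.Def_GaloisRep_StrictOrdinary
import Fermat.Prelude.Def_GaloisRep_Flat

/-!
# S56 top level: the frozen local conditions are invariant under `IsEquiv` (helper40)
-/

set_option autoImplicit false
set_option linter.style.haveILetI false
set_option linter.unusedSectionVars false

namespace Fermat.Agent.S56

open IsLocalRing Fermat.Agent.S53.Dict

section Eq

variable {A : Type} [CommRing A] [IsLocalRing A]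

theorem h40_equiv_conj {ρ ρ' : GaloisRepAdic A} (e : GaloisRepAdic.Equiv ρ ρ') (σ : GQ) :
    ρ'.ρ σ = e.toLinearEquiv.conj (ρ.ρ σ) := by
  apply LinearMap.ext
  intro y
  rw [LinearEquiv.conj_apply, LinearMap.comp_apply, LinearMap.comp_apply, LinearEquiv.coe_coe,
    LinearEquiv.coe_coe, e.map_apply, LinearEquiv.apply_symm_apply]

theorem h40_equiv_apply_symm {ρ ρ' : GaloisRepAdic A} (e : GaloisRepAdic.Equiv ρ ρ') (σ : GQ)
    (y : ρ'.V) : ρ'.ρ σ y = e.toLinearEquiv (ρ.ρ σ (e.toLinearEquiv.symm y)) := by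
  rw [e.map_apply, LinearEquiv.apply_symm_apply]

theorem h40_detIsCyclotomic_of_isEquiv {ρ ρ' : GaloisRepAdic A} (h : ρ.IsEquiv ρ') {p : ℕ}
    (hρ : ρ.DetIsCyclotomic p) : ρ'.DetIsCyclotomic p := by
  obtain ⟨e⟩ := h
  refine ⟨hρ.1, fun n σ a ha => ?_⟩
  have h1 : LinearMap.det (ρ'.ρ σ) = LinearMap.det (ρ.ρ σ) := by
    rw [h40_equiv_conj e σ, LinearEquiv.conj_apply]
    exact LinearMap.det_conj (ρ.ρ σ) e.toLinearEquiv
  rw [h1]
  exact hρ.2 n σ a ha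

theorem h40_isUnramifiedAt_of_isEquiv {ρ ρ' : GaloisRepAdic A} (h : ρ.IsEquiv ρ') {q : ℕ}
    (hρ : ρ.IsUnramifiedAt q) : ρ'.IsUnramifiedAt q := by
  obtain ⟨e⟩ := h
  intro P hP σ hσ
  apply LinearMap.ext
  intro y
  rw [h40_equiv_apply_symm e σ y, hρ P hP σ hσ, Module.End.one_apply, Module.End.one_apply,
    LinearEquiv.apply_symm_apply]

theorem h40_isUnipotentOnInertiaAt_of_isEquiv {ρ ρ' : GaloisRepAdic A} (h : ρ.IsEquiv ρ') {q : ℕ}
    (hρ : ρ.IsUnipotentOnInertiaAt q) : ρ'.IsUnipotentOnInertiaAt q := by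
  obtain ⟨e⟩ := h
  intro P hP σ hσ
  rw [h40_equiv_conj e σ, LinearEquiv.charpoly_conj]
  exact hρ P hP σ hσ

theorem h40_isStrictOrdinaryAt_of_isEquiv {ρ ρ' : GaloisRepAdic A} (h : ρ.IsEquiv ρ') {p : ℕ}
    (hρ : ρ.IsStrictOrdinaryAt p) : ρ'.IsStrictOrdinaryAt p := by
  obtain ⟨e⟩ := h
  refine ⟨hρ.1, fun P hP => ?_⟩
  obtain ⟨L, ⟨b, hL⟩, hD, hI, h4⟩ := hρ.2 P hP
  have hmem : ∀ y : ρ'.V, y ∈ L.map (e.toLinearEquiv : ρ.V →ₗ[A] ρ'.V) ↔
      e.toLinearEquiv.symm y ∈ L := by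
    intro y
    constructor
    · rintro ⟨x, hx, rfl⟩
      rw [LinearEquiv.coe_coe, LinearEquiv.symm_apply_apply]
      exact hx
    · intro hy
      exact ⟨_, hy, by rw [LinearEquiv.coe_coe, LinearEquiv.apply_symm_apply]⟩
  refine ⟨L.map (e.toLinearEquiv : ρ.V →ₗ[A] ρ'.V), ⟨b.map e.toLinearEquiv, ?_⟩, ?_, ?_, ?_⟩
  · rw [hL, Submodule.map_span, Set.image_singleton, Module.Basis.map_apply]
    rfl
  · intro σ hσ v hv
    rw [hmem] at hv ⊢
    rw [h40_equiv_apply_symm e σ v, LinearEquiv.symm_apply_apply]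
    exact hD σ hσ _ hv
  · intro σ hσ v
    rw [hmem, map_sub, h40_equiv_apply_symm e σ v, LinearEquiv.symm_apply_apply]
    exact hI σ hσ _
  · intro σ hσ
    obtain ⟨x, z, hx, hz, hxz⟩ := h4 σ hσ
    refine ⟨x, z, fun w hw => ?_, fun v => ?_, hxz⟩
    · rw [hmem] at hw
      rw [h40_equiv_apply_symm e σ w, hx _ hw, map_smul, LinearEquiv.apply_symm_apply]
    · rw [hmem, map_sub, map_smul, h40_equiv_apply_symm e σ v, LinearEquiv.symm_apply_apply]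
      exact hz _

theorem h40_isFlatAt_of_isEquiv {ρ ρ' : GaloisRepAdic A} (h : ρ.IsEquiv ρ') {p : ℕ}
    (hρ : ρ.IsFlatAt p) : ρ'.IsFlatAt p := by
  obtain ⟨e⟩ := h
  refine ⟨hρ.1, fun I hI => ?_⟩
  obtain ⟨H, iC, iH, hfin, hflat, hcocomm, e₀, hadd, hgal⟩ := hρ.2 I hI
  have hmap : Submodule.map (e.toLinearEquiv : ρ.V →ₗ[A] ρ'.V) (I • (⊤ : Submodule A ρ.V)) =
      I • (⊤ : Submodule A ρ'.V) := by
    rw [Submodule.map_smul'', Submodule.map_top, LinearEquiv.range]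
  let θ : (ρ.V ⧸ (I • (⊤ : Submodule A ρ.V))) ≃ₗ[A] (ρ'.V ⧸ (I • (⊤ : Submodule A ρ'.V))) :=
    Submodule.Quotient.equiv _ _ e.toLinearEquiv hmap
  have hθ : ∀ (σ : GQ) (x : ρ.V ⧸ (I • (⊤ : Submodule A ρ.V))),
      θ (ρ.levelAction I σ x) = ρ'.levelAction I σ (θ x) := by
    intro σ x
    obtain ⟨v, rfl⟩ := Submodule.Quotient.mk_surjective _ x
    show θ (Submodule.Quotient.mk (ρ.ρ σ v)) =
      ρ'.levelAction I σ (Submodule.Quotient.mk (e.toLinearEquiv v))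
    show Submodule.Quotient.mk (e.toLinearEquiv (ρ.ρ σ v)) =
      Submodule.Quotient.mk (ρ'.ρ σ (e.toLinearEquiv v))
    rw [e.map_apply]
  refine ⟨H, iC, iH, hfin, hflat, hcocomm, e₀.trans θ.toEquiv, fun f g => ?_, fun σ f g hfg => ?_⟩
  · show θ (e₀ (f * g)) = θ (e₀ f) + θ (e₀ g)
    rw [hadd, map_add]
  · show θ (e₀ g) = ρ'.levelAction I σ (θ (e₀ f))
    rw [hgal σ f g hfg, hθ]

end Eq

end Fermat.Agent.S56
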