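import Fermat.Agent.S56.h12_MidDefs
import Fermat.Agent.S56.h40_TopMain
import Fermat.Agent.S56.h30_FrobIndep
import Fermat.Agent.S56.h40_DecGen
import Fermat.Agent.S55.h6_LocalLevels
import Fermat.Agent.S55.h56_Levels
import Fermat.Agent.GAL.h11_CycFrob
import Fermat.Agent.S54.Frob

/-!
# S56 / MID, row MID-PLACES (helper66): dictionary local group / global decomposition groups

Statements verbatim from helper12's MID skeleton (`h12_SkelMid.lean`):

* `h12_places_conj`      (PL1) all places over `q` are conjugate to the distinguished one;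
* `h12_decomp_range`     (PL2) the decomposition group of the distinguished place is the image of
                         the local group;
* `h12_exists_frob`      (PL3) Frobenius lifts exist in the local group;
* `h12_frob_gen`         (FG) modulo any finite level, the local group is generated by a Frobenius
                         lift and inertia;
* `h12_cyclo_loc_eq_one` (CYC1) `q ≡ 1 mod p`: the mod `p` cyclotomic character is trivial on the
                         local group at `q`.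
-/

set_option autoImplicit false

namespace Fermat.Agent.S56

open Fermat.Agent.S53 Fermat.Agent.S53.Dict ExtCitation groupCohomology

local notation "M₂[" k "]" => Matrix (Fin 2) (Fin 2) k

section Aux

open scoped Pointwise

/-- The distinguished place at `q` lies over `q`. -/
theorem h66_primeLocalPlace_lies (q : Nat.Primes) :
    (primeLocalPlace q).LiesOverPrime (q : ℕ) := by
  have : Fact (q : ℕ).Prime := ⟨q.2⟩
  show ((q : ℕ) : AlgebraicClosure ℚ) ∈ (padicPlace (q : ℕ)).nonunits
  rw [ValuationSubring.mem_nonunits_iff_or]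
  right
  intro h
  rw [mem_padicPlace_iff] at h
  have h1 : ‖padicEmbedding (q : ℕ) (((q : ℕ) : AlgebraicClosure ℚ)⁻¹)‖ ≤ 1 := by
    exact_mod_cast h
  rw [map_inv₀, map_natCast, norm_inv, Fermat.Agent.S55.h6_norm_natCast_q, inv_inv] at h1
  have h2 : (1 : ℝ) < ((q : ℕ) : ℝ) := by exact_mod_cast q.2.one_lt
  linarith

/-- Conjugation of inertia groups, as an equivalence. -/
theorem h66_inertia_conj_iff (A : ValuationSubring (AlgebraicClosure ℚ)) (g σ : GQ) :
    σ ∈ (g • A).inertiaSubgroupIn ℚ ↔ g⁻¹ * σ * g ∈ A.inertiaSubgroupIn ℚ := by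
  constructor
  · intro h
    have h1 := Fermat.Agent.S55.h56_conj_mem_inertia (g • A) g⁻¹ σ h
    rwa [inv_inv, inv_smul_smul] at h1
  · intro h
    have h1 := Fermat.Agent.S55.h56_conj_mem_inertia A g (g⁻¹ * σ * g) h
    have e : g * (g⁻¹ * σ * g) * g⁻¹ = σ := by group
    rwa [e] at h1

/-- Conjugation of Frobenius elements, as an equivalence. -/
theorem h66_frob_conj_iff (A : ValuationSubring (AlgebraicClosure ℚ)) (q : ℕ) (g φ : GQ) :
    (g • A).IsFrobeniusAt φ q ↔ A.IsFrobeniusAt (g⁻¹ * φ * g) q := by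
  constructor
  · intro h
    exact h30_frob_conj A q g φ h
  · intro h
    have h0 : (g⁻¹ • (g • A)).IsFrobeniusAt (g⁻¹ * φ * g) q := by
      rwa [inv_smul_smul]
    have h1 := h30_frob_conj (g • A) q g⁻¹ (g⁻¹ * φ * g) h0
    have e : g⁻¹⁻¹ * (g⁻¹ * φ * g) * g⁻¹ = φ := by group
    rwa [e] at h1

end Aux

section Rows

variable {k : Type} [Field k] [Finite k] (p : ℕ) [Fact p.Prime] [Algebra (ZMod p) k]
variable (rb : GQ →* M₂[k])

/-- (PL1) all places over `q` are conjugate to the distinguished one. -/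
theorem h12_places_conj (q : Nat.Primes) (P : ValuationSubring (AlgebraicClosure ℚ))
    (hP : P.LiesOverPrime (q : ℕ)) :
    ∃ g : GQ, (∀ σ : GQ, σ ∈ P.inertiaSubgroupIn ℚ ↔
        g⁻¹ * σ * g ∈ (primeLocalPlace q).inertiaSubgroupIn ℚ) ∧
      ∀ φ : GQ, P.IsFrobeniusAt φ (q : ℕ) ↔
        (primeLocalPlace q).IsFrobeniusAt (g⁻¹ * φ * g) (q : ℕ) := by
  obtain ⟨g, rfl⟩ := h30_exists_smul_eq (primeLocalPlace q) P (q : ℕ) q.2
    (h66_primeLocalPlace_lies q) hP
  exact ⟨g, fun σ => h66_inertia_conj_iff _ g σ, fun φ => h66_frob_conj_iff _ _ g φ⟩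

/-- (PL2) the decomposition group of the distinguished place is the image of the local group. -/
theorem h12_decomp_range (q : Nat.Primes) (σ : GQ) :
    σ ∈ (primeLocalPlace q).decompositionSubgroup ℚ ↔
      ∃ τ : primeLocalGaloisGroup q, primeLocalToGlobal q τ = σ := by
  rw [← Fermat.Agent.S55.h6_primeLocalToGlobal_range]
  exact MonoidHom.mem_range

/-- (PL3) Frobenius lifts exist. -/
theorem h12_exists_frob (q : Nat.Primes) :
    ∃ φ : primeLocalGaloisGroup q,
      (primeLocalPlace q).IsFrobeniusAt (primeLocalToGlobal q φ) (q : ℕ) := by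
  obtain ⟨σ, hσ⟩ := Fermat.Agent.S54.exists_isFrobeniusAt_of_liesOverPrime (primeLocalPlace q)
    (q : ℕ) q.2 (h66_primeLocalPlace_lies q)
  obtain ⟨φ, rfl⟩ := Fermat.Agent.S55.h6_exists_primeLocal_lift q hσ.mem_decompositionSubgroup
  exact ⟨φ, hσ⟩

/-- (FG) modulo any open subgroup, the local group is generated by a Frobenius lift and
inertia. -/
theorem h12_frob_gen (q : Nat.Primes) (φ : primeLocalGaloisGroup q)
    (hφ : (primeLocalPlace q).IsFrobeniusAt (primeLocalToGlobal q φ) (q : ℕ))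
    (F : IntermediateField ℚ (AlgebraicClosure ℚ)) (hF : FiniteDimensional ℚ F)
    (τ : primeLocalGaloisGroup q) :
    ∃ (n : ℕ) (i : primeLocalGaloisGroup q),
      primeLocalToGlobal q i ∈ (primeLocalPlace q).inertiaSubgroupIn ℚ ∧
      primeLocalToGlobal q (τ⁻¹ * φ ^ n * i) ∈ F.fixingSubgroup := by
  obtain ⟨F', hF'fin, hF'norm, hFF'⟩ := h40_exists_normal_level F
  obtain ⟨j, ι, hι, h⟩ := h40_dec_gen_level (primeLocalPlace q) F' q.2
    (h66_primeLocalPlace_lies q) hφ
    (Fermat.Agent.S55.h6_primeLocalToGlobal_mem_decomposition q τ)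
  have hιD : ι ∈ (primeLocalPlace q).decompositionSubgroup ℚ := by
    obtain ⟨x, -, rfl⟩ := Subgroup.mem_map.mp hι
    exact x.2
  obtain ⟨i, rfl⟩ := Fermat.Agent.S55.h6_exists_primeLocal_lift q hιD
  refine ⟨j, i, hι, ?_⟩
  rw [IntermediateField.mem_fixingSubgroup_iff]
  intro x hx
  rw [map_mul, map_mul, map_inv, map_pow, mul_assoc, AlgEquiv.mul_apply, ← h x (hFF' hx)]
  show (primeLocalToGlobal q τ)⁻¹ ((primeLocalToGlobal q τ) x) = x
  rw [← AlgEquiv.mul_apply, inv_mul_cancel, AlgEquiv.one_apply]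

/-- (CYC1) `q ≡ 1 mod p`: the mod `p` cyclotomic character is trivial on `G_q`. -/
theorem h12_cyclo_loc_eq_one (q : Nat.Primes) (hpq : p ∣ (q : ℕ) - 1)
    (τ : primeLocalGaloisGroup q) : cycloChar p (primeLocalToGlobal q τ) = 1 := by
  have hp : p.Prime := Fact.out
  have hq1 : 1 ≤ (q : ℕ) := q.2.one_lt.le
  have hqp : (q : ℕ) ≠ p := by
    intro h
    rw [h] at hpq
    have := Nat.le_of_dvd (Nat.sub_pos_of_lt hp.one_lt) hpq
    have := hp.one_lt
    omega
  have hf : GaloisFactorsThroughFiniteLevel (cycloChar p) := by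
    obtain ⟨L, hL, -, hμ⟩ := Fermat.Agent.GAL.h11_exists_cyclo_level p
    refine ⟨L, hL, fun σ hσ => ?_⟩
    rw [Fermat.Agent.GAL.h11_cycloChar_congr σ 1 (fun ζ hζ => by rw [hσ ζ (hμ ζ hζ)]; rfl),
      map_one]
  obtain ⟨φ, hφ⟩ := Fermat.Agent.S54.exists_isFrobeniusAt_of_liesOverPrime (primeLocalPlace q)
    (q : ℕ) q.2 (h66_primeLocalPlace_lies q)
  obtain ⟨j, ι, hι, h⟩ := h40_dec_gen (cycloChar p) hf (primeLocalPlace q) q.2
    (h66_primeLocalPlace_lies q) hφ
    (Fermat.Agent.S55.h6_primeLocalToGlobal_mem_decomposition q τ)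
  have h1 : cycloChar p φ = 1 := by
    apply Units.ext
    rw [Fermat.Agent.GAL.h11_cycloChar_frob (primeLocalPlace q) q.2 hqp
      (h66_primeLocalPlace_lies q) hφ, Units.val_one]
    have e : ((q : ℕ) : ZMod p) = ((((q : ℕ) - 1 + 1 : ℕ)) : ZMod p) := by
      rw [Nat.sub_add_cancel hq1]
    rw [e, Nat.cast_add, (ZMod.natCast_eq_zero_iff _ _).mpr hpq, zero_add, Nat.cast_one]
  have h2 : cycloChar p ι = 1 :=
    Fermat.Agent.GAL.h11_cycloChar_inertia (primeLocalPlace q) q.2 hqp
      (h66_primeLocalPlace_lies q) hι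
  rw [h, h1, h2, one_pow, one_mul]

end Rows

end Fermat.Agent.S56
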