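import Fermat.Agent.S56.h12_MidDefs
import Fermat.Agent.S56.h40_LocUnip
import Fermat.Agent.S56.h66_MidPlaces

/-!
# S56 / W2 rows UNR (helper40): the skeleton statement `h12_R3_unr`, and the dictionary between
the local-group language of `h12_MidDefs` and the decomposition group of `primeLocalPlace`.
-/

set_option autoImplicit false
set_option linter.style.haveILetI false
set_option linter.unusedSectionVars false

namespace Fermat.Agent.S56

open Fermat.Agent.S53 Fermat.Agent.S53.Dict ExtCitation groupCohomology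

local notation "M₂[" k "]" => Matrix (Fin 2) (Fin 2) k

section Dict

variable {k : Type} [Field k] (rb : GQ →* M₂[k])

/-- `h12_LocCobM` is membership in `h40_CobOn` for the decomposition group of the distinguished
place. -/
theorem h40_locCobM_iff (v : Nat.Primes) (a : GQ → M₂[k]) :
    h12_LocCobM rb v a ↔ a ∈ h40_CobOn rb ((primeLocalPlace v).decompositionSubgroup ℚ) := by
  constructor
  · rintro ⟨X, hX⟩
    refine ⟨X, fun σ hσ => ?_⟩
    obtain ⟨τ, rfl⟩ := (h12_decomp_range v σ).mp hσ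
    exact hX τ
  · rintro ⟨X, hX⟩
    exact ⟨X, fun τ => hX _ ((h12_decomp_range v _).mpr ⟨τ, rfl⟩)⟩

theorem h40_H0_le_H0M (v : Nat.Primes) :
    h40_H0 rb ((primeLocalPlace v).decompositionSubgroup ℚ) ≤ h12_H0M rb v := by
  rintro X ⟨h1, h2⟩
  exact ⟨h1, fun τ => (h2 _ ((h12_decomp_range v _).mpr ⟨τ, rfl⟩)).symm⟩

theorem h40_finrank_H0_le (v : Nat.Primes) :
    Module.finrank k (h40_H0 rb ((primeLocalPlace v).decompositionSubgroup ℚ)) ≤
      Module.finrank k (h12_H0M rb v) :=
  Submodule.finrank_mono (h40_H0_le_H0M rb v)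

/-- From the quotient form of a local bound to the skeleton form. -/
theorem h40_rank_le_of_quot (v : Nat.Primes) (W' : Submodule k (GQ → M₂[k])) {c : ℕ}
    (h : Module.rank k (W' ⧸ (h40_CobOn rb ((primeLocalPlace v).decompositionSubgroup ℚ)).comap
      W'.subtype) ≤ (c : Cardinal))
    (h0 : ∀ a ∈ W', h12_LocCobM rb v a → a = 0) :
    Module.rank k W' ≤ (c : Cardinal) := by
  have hbot : (h40_CobOn rb ((primeLocalPlace v).decompositionSubgroup ℚ)).comap W'.subtype = ⊥ := by
    rw [eq_bot_iff]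
    intro a ha
    rw [Submodule.mem_bot]
    apply Subtype.ext
    exact h0 a.1 a.2 ((h40_locCobM_iff rb v a.1).mpr ha)
  rw [← (Submodule.quotEquivOfEqBot _ hbot).rank_eq]
  exact h

end Dict

section Rows

variable {k : Type} [Field k] [Finite k] (p : ℕ) [Fact p.Prime] [Algebra (ZMod p) k]
variable (rb : GQ →* M₂[k])

/-- (W2-UNR) unramified classes at `v`. -/
theorem h12_R3_unr (hrb : GaloisFactorsThroughFiniteLevel rb) (v : Nat.Primes)
    (W' : Submodule k (GQ → M₂[k])) (hW' : W' ≤ h40_TanZ rb)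
    (htr : ∀ a ∈ W', ∀ σ, (a σ * (rb σ).adjugate).trace = 0)
    (hunr : ∀ a ∈ W', h12_InertiaTriv rb a (v : ℕ))
    (h0 : ∀ a ∈ W', h12_LocCobM rb v a → a = 0) :
    Module.rank k W' ≤ (Module.finrank k (h12_H0M rb v) : Cardinal) := by
  have hP := h66_primeLocalPlace_lies v
  refine h40_rank_le_of_quot rb v W' ?_ h0
  refine le_trans (h40_rank_le_of_le_sup W'
    (h40_UnrZ rb ((primeLocalPlace v).decompositionSubgroup ℚ)
      ((primeLocalPlace v).inertiaSubgroupIn ℚ))
    (h40_CobOn rb ((primeLocalPlace v).decompositionSubgroup ℚ)) ?_)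
    (le_trans (h40_unr_rank rb hrb (primeLocalPlace v) v.2 hP) ?_)
  · intro a ha
    refine (le_sup_left : h40_UnrZ rb ((primeLocalPlace v).decompositionSubgroup ℚ)
      ((primeLocalPlace v).inertiaSubgroupIn ℚ) ≤ _) ?_
    exact ⟨hW' ha, fun τ hτ => (hunr a ha (primeLocalPlace v) hP τ hτ).2, fun σ _ => htr a ha σ⟩
  · exact_mod_cast h40_finrank_H0_le rb v

end Rows

end Fermat.Agent.S56
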