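/-
S56 / W3 / E-RED route R80, row W3-ER-KFK (helper43): the Kummer datum of a flat character.
`h43_kfk` = `skR_kfk` of helper80's skeleton `h80_ERedSkel`, verbatim.
Proof: local Kummer theory (`h92_irr3_kummer`) gives a Kummer generator `α₀ ∈ L`, `α₀ ^ p = u₀ ∈ F^×`;
`h78_FK` puts `u₀` into `h78_U p F`, i.e. `‖u₀ * w ^ p - 1‖ ≤ p⁻¹` for some `w ∈ F^×`;
take `u := u₀ * w ^ p`, `α := α₀ * w`.
-/
import Fermat.Agent.S56.h80_ERedDefs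
import Fermat.Agent.S56.h92_IrrKummer
import Fermat.Agent.S56.h78_FKFinal

set_option autoImplicit false

open Coalgebra WithConv

namespace Fermat.Agent.S56

variable (p : ℕ) [Fact p.Prime]

local notation "Ω" => PadicAlgCl p
local notation "Fld" => IntermediateField ℚ_[p] (PadicAlgCl p)

/-- **R-KFK** : Kummer datum of a flat character (Kummer theory + `h78_FK`). -/
theorem h43_kfk {H : Type} [CommRing H] [Bialgebra (h78_Zp p) H]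
    [Coalgebra.IsCocomm (h78_Zp p) H] [Module.Free (h78_Zp p) H] [Module.Finite (h78_Zp p) H]
    (hkill : ∀ γ : WithConv (H →ₐ[h78_Zp p] Ω), γ ^ p = 1)
    (F L : Fld) [FiniteDimensional ℚ_[p] F] [FiniteDimensional ℚ_[p] L]
    (hF : h78_Stable p F) (hL : h78_Stable p L) (hFL : F ≤ L) (hFt : h78_IsTame p F)
    (hLpts : ∀ (γ : H →ₐ[h78_Zp p] Ω) (h : H), γ h ∈ L)
    (hfaith : ∀ g : h78_G p, (∀ z ∈ F, g z = z) →
      (∀ (γ : H →ₐ[h78_Zp p] Ω) (h : H), g (γ h) = γ h) → ∀ z ∈ L, g z = z)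
    (ζ : Ω) (hζF : ζ ∈ F) (hζp : ζ ^ p = 1) (hζ1 : ζ ≠ 1)
    (ξ : h78_G p → ZMod p)
    (hadd : ∀ g h : h78_G p, (∀ z ∈ F, g z = z) → (∀ z ∈ F, h z = z) → ξ (g * h) = ξ g + ξ h)
    (hL0 : ∀ g : h78_G p, (∀ z ∈ L, g z = z) → ξ g = 0) :
    h80_KD p F L ζ ξ := by
  obtain ⟨u₀, α₀, hu₀F, hu₀0, hα₀L, hα₀p, hα₀⟩ :=
    h92_irr3_kummer p F L hFL (fun s _ z hz => hL s z hz) ζ hζF hζp ξ hadd hL0
  have hU : u₀ ∈ h78_U p F :=
    h78_FK p hkill F L hF hL hFL hFt hLpts hfaith u₀ α₀ hu₀F hu₀0 hα₀p hα₀L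
  obtain ⟨-, -, w, hwF, -, hw⟩ := hU
  refine ⟨u₀ * w ^ p, α₀ * w, F.mul_mem hu₀F (pow_mem hwF p), L.mul_mem hα₀L (hFL hwF), ?_, hw, ?_⟩
  · rw [mul_pow, hα₀p]
  · intro h hh
    rw [map_mul, hα₀ h hh, hh w hwF, mul_assoc]

end Fermat.Agent.S56
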