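/-
S56 / W3 / E-RED, row RED-S3, part TYPE (helper44).

`h44_red_type` : `rb` reducible with `det rb = ω`, one lift `a₀` satisfying the abstract
[C] [D] [A] [KL2] package `h44_RedPts` for a normal subgroup `J` (the inertia group of a finite
level) on which the tame relation `htame` holds.  Then `rb` has a stable line whose character
is `ω` on `J`.  (Case `χ₁|J ≠ 1`: the points `(0, c v)` lie in `(J - 1) V ⊆ V1`, are fixed by
`J₁`, hence lie in `T` and `J` acts on them through `ω`.  Case `χ₁|J = 1`: the `2`-eigenvector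
`v'` of `rb s₀` (`s₀ ζ = ζ ^ 2`) is an eigenvector of all of `J` - otherwise `(0, v)` would be a
`J`-fixed point of `V1`, against [KL2] with `Z = 0` - and `k v'` is stable under the whole
group because `J` is normal.)
-/
import Mathlib
import Fermat.Agent.S56.h78_W3Defs
import Fermat.Agent.S56.h44_RedType

set_option autoImplicit false

namespace Fermat.Agent.S56

variable (p : ℕ) [Fact p.Prime]

local notation "Ω" => PadicAlgCl p

section Lin

variable {k : Type} [Field k]

/-- `ℓ_v (w) = det (v | w)`. -/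
def h44_ell (v w : Fin 2 → k) : k := v 0 * w 1 - v 1 * w 0

theorem h44_ell_self (v : Fin 2 → k) : h44_ell v v = 0 := by
  unfold h44_ell; ring

theorem h44_ell_add (v w w' : Fin 2 → k) : h44_ell v (w + w') = h44_ell v w + h44_ell v w' := by
  simp only [h44_ell, Pi.add_apply]; ring

theorem h44_ell_sub (v w w' : Fin 2 → k) : h44_ell v (w - w') = h44_ell v w - h44_ell v w' := by
  simp only [h44_ell, Pi.sub_apply]; ring

theorem h44_ell_smul (v : Fin 2 → k) (c : k) (w : Fin 2 → k) :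
    h44_ell v (c • w) = c * h44_ell v w := by
  simp only [h44_ell, Pi.smul_apply, smul_eq_mul]; ring

theorem h44_ell_mulVec (M : Matrix (Fin 2) (Fin 2) k) (v w : Fin 2 → k) (c : k)
    (h : M.mulVec v = c • v) : c * h44_ell v (M.mulVec w) = M.det * h44_ell v w := by
  have h0 := congrFun h 0
  have h1 := congrFun h 1
  simp only [Matrix.mulVec, dotProduct, Fin.sum_univ_two, Pi.smul_apply, smul_eq_mul] at h0 h1
  simp only [h44_ell, Matrix.mulVec, dotProduct, Fin.sum_univ_two, Matrix.det_fin_two]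
  linear_combination (-(M 1 0 * w 0 + M 1 1 * w 1)) * h0 + (M 0 0 * w 0 + M 0 1 * w 1) * h1

theorem h44_ell_ker (v u : Fin 2 → k) (hv : v ≠ 0) (h : h44_ell v u = 0) :
    ∃ x : k, u = x • v := by
  unfold h44_ell at h
  by_cases h0 : v 0 = 0
  · have h1 : v 1 ≠ 0 := by
      intro h1
      apply hv
      funext i
      fin_cases i
      · exact h0
      · exact h1
    refine ⟨u 1 / v 1, ?_⟩
    have hu0 : u 0 = 0 := by
      rw [h0, zero_mul, zero_sub, neg_eq_zero] at h
      rcases mul_eq_zero.1 h with h | h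
      · exact absurd h h1
      · exact h
    funext i
    fin_cases i
    · show u 0 = u 1 / v 1 * v 0
      rw [hu0, h0, mul_zero]
    · show u 1 = u 1 / v 1 * v 1
      rw [div_mul_cancel₀ _ h1]
  · refine ⟨u 0 / v 0, ?_⟩
    funext i
    fin_cases i
    · show u 0 = u 0 / v 0 * v 0
      rw [div_mul_cancel₀ _ h0]
    · show u 1 = u 0 / v 0 * v 1
      field_simp
      linear_combination h

theorem h44_ell_exists (v : Fin 2 → k) (hv : v ≠ 0) : ∃ w : Fin 2 → k, h44_ell v w ≠ 0 := by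
  by_cases h0 : v 0 = 0
  · have h1 : v 1 ≠ 0 := by
      intro h1
      apply hv
      funext i
      fin_cases i
      · exact h0
      · exact h1
    refine ⟨![1, 0], ?_⟩
    simp [h44_ell, h1]
  · refine ⟨![0, 1], ?_⟩
    simp [h44_ell, h0]

end Lin

/-- **TYPE**: a stable line whose character is `ω` on `J`. -/
theorem h44_red_type {k : Type} [Field k] [CharP k p]
    (rb : h78_G p →* Matrix (Fin 2) (Fin 2) k)
    (hdet : ∀ (g : h78_G p) (ζ : Ω), ζ ^ p = 1 → ∃ n : ℕ, g ζ = ζ ^ n ∧ (rb g).det = (n : k))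
    (hred : ∃ v : Fin 2 → k, v ≠ 0 ∧ ∀ g, ∃ c : k, (rb g).mulVec v = c • v)
    (a₀ : h78_G p → Matrix (Fin 2) (Fin 2) k)
    (J : Subgroup (h78_G p)) (hJn : ∀ (g : h78_G p), ∀ s ∈ J, g * s * g⁻¹ ∈ J)
    (ζ : Ω) (hζ : ζ ^ p = 1) (hζ1 : ζ ≠ 1)
    (V1 T : Set ((Fin 2 → k) × (Fin 2 → k))) (hpts : h44_RedPts p rb a₀ J ζ V1 T)
    (hs₀ : ∃ s₀ ∈ J, s₀ ζ = ζ ^ 2)
    (htame : ∀ χ : h78_G p →* k, (∀ g, rb g = 1 → χ g = 1) → ∀ g ∈ J, g ζ = ζ → χ g = 1) :
    ∃ v : Fin 2 → k, v ≠ 0 ∧ ∀ g, ∃ c : k, (rb g).mulVec v = c • v ∧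
      (g ∈ J → ∀ n : ℕ, g ζ = ζ ^ n → c = (n : k)) := by
  have hp : p.Prime := Fact.out
  obtain ⟨v, hv0, hv⟩ := hred
  choose χ₁ hχ₁ using hv
  obtain ⟨s₀, hs₀J, hs₀ζ⟩ := hs₀
  have hinj : ∀ (u : Fin 2 → k), u ≠ 0 → ∀ c c' : k, c • u = c' • u → c = c' := by
    intro u hu c c' h
    by_contra hne
    have h2 : (c - c') • u = 0 := by rw [sub_smul, h, sub_self]
    rcases smul_eq_zero.1 h2 with h3 | h3
    · exact hne (sub_eq_zero.1 h3)
    · exact hu h3
  -- `χ₁` is a character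
  have hχmul : ∀ g h, χ₁ (g * h) = χ₁ g * χ₁ h := by
    intro g h
    apply hinj v hv0
    rw [← hχ₁ (g * h), map_mul, ← Matrix.mulVec_mulVec, hχ₁ h, Matrix.mulVec_smul, hχ₁ g,
      smul_smul, mul_comm]
  have hχone : χ₁ 1 = 1 := by
    apply hinj v hv0
    rw [← hχ₁ 1, map_one, Matrix.one_mulVec, one_smul]
  let χ : h78_G p →* k :=
    { toFun := χ₁
      map_one' := hχone
      map_mul' := hχmul }
  have hχker : ∀ g, rb g = 1 → χ g = 1 := by
    intro g hg
    apply hinj v hv0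
    show χ₁ g • v = (1 : k) • v
    rw [← hχ₁ g, hg, Matrix.one_mulVec, one_smul]
  have hJ1 : ∀ g ∈ J, g ζ = ζ → χ₁ g = 1 := htame χ hχker
  -- the cyclotomic character via `hdet`
  have hord : orderOf ζ = p := orderOf_eq_prime hζ hζ1
  have hdetJ : ∀ (g : h78_G p) (n : ℕ), g ζ = ζ ^ n → (rb g).det = (n : k) := by
    intro g n hn
    obtain ⟨n', hn', hd⟩ := hdet g ζ hζ
    rw [hd]
    rw [hn] at hn'
    have hζ0 : ζ ≠ 0 := by
      intro h0
      rw [h0, zero_pow hp.ne_zero] at hζ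
      exact zero_ne_one hζ
    have h1 : n ≡ n' [MOD p] := by
      have hu : (Units.mk0 ζ hζ0) ^ n = (Units.mk0 ζ hζ0) ^ n' := by
        apply Units.ext
        simpa using hn'
      have h2 := pow_eq_pow_iff_modEq.1 hu
      rwa [← orderOf_units, Units.val_mk0, hord] at h2
    exact ((CharP.natCast_eq_natCast k p).2 h1).symm
  by_cases hA : ∃ s ∈ J, χ₁ s ≠ 1
  · -- case A
    obtain ⟨s, hsJ, hs1⟩ := hA
    have hs1' : χ₁ s - 1 ≠ 0 := sub_ne_zero.2 hs1
    have hmem : ((0 : Fin 2 → k), v) ∈ V1 := by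
      have h3 : h78_act p rb a₀ s ((0 : Fin 2 → k), (χ₁ s - 1)⁻¹ • v) -
          ((0 : Fin 2 → k), (χ₁ s - 1)⁻¹ • v) = ((0 : Fin 2 → k), v) := by
        rw [h44_act_zero_left, Matrix.mulVec_smul, hχ₁ s]
        refine Prod.ext (by simp) ?_
        show (χ₁ s - 1)⁻¹ • χ₁ s • v - (χ₁ s - 1)⁻¹ • v = v
        rw [smul_smul, ← sub_smul, ← mul_sub_one, inv_mul_cancel₀ hs1', one_smul]
      rw [← h3]
      exact hpts.hC s hsJ _
    have hT : ((0 : Fin 2 → k), v) ∈ T := by
      apply hpts.hD _ hmem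
      intro s' hs' hs'ζ
      rw [h44_act_zero_left, hχ₁ s', hJ1 s' hs' hs'ζ, one_smul]
    refine ⟨v, hv0, fun g => ⟨χ₁ g, hχ₁ g, fun hg n hn => ?_⟩⟩
    have h4 := hpts.hA _ hT g hg n hn
    rw [h44_act_zero_left, hχ₁ g] at h4
    have h5 : χ₁ g • v = (n : k) • v := by
      have h6 := congrArg Prod.snd h4
      simp only [Prod.smul_snd] at h6
      rw [h6, Nat.cast_smul_eq_nsmul]
    exact hinj v hv0 _ _ h5
  · -- case B : `χ₁ = 1` on `J`
    push_neg at hA
    have hvJ : ∀ s ∈ J, (rb s).mulVec v = v := by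
      intro s hs
      rw [hχ₁ s, hA s hs, one_smul]
    have hℓJ : ∀ s ∈ J, ∀ w, h44_ell v ((rb s).mulVec w) = (rb s).det * h44_ell v w := by
      intro s hs w
      have h := h44_ell_mulVec (rb s) v w 1 (by rw [one_smul]; exact hvJ s hs)
      rwa [one_mul] at h
    have hdet0 : (rb s₀).det = 2 := by
      rw [hdetJ s₀ 2 hs₀ζ]; norm_num
    -- the `2`-eigenvector of `rb s₀`
    obtain ⟨w₀, hw₀⟩ := h44_ell_exists v hv0
    obtain ⟨x, hx⟩ := h44_ell_ker v ((rb s₀).mulVec w₀ - (2 : k) • w₀) hv0 (by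
      rw [h44_ell_sub, hℓJ s₀ hs₀J, h44_ell_smul, hdet0, sub_self])
    obtain ⟨v', hv'⟩ : ∃ v' : Fin 2 → k, v' = w₀ + x • v := ⟨_, rfl⟩
    have hv'ℓ : h44_ell v v' ≠ 0 := by
      rw [hv', h44_ell_add, h44_ell_smul, h44_ell_self, mul_zero, add_zero]
      exact hw₀
    have hv'0 : v' ≠ 0 := by
      intro h0
      apply hv'ℓ
      rw [h0]
      simp [h44_ell]
    have hv's₀ : (rb s₀).mulVec v' = (2 : k) • v' := by
      have h1 : (rb s₀).mulVec w₀ = (2 : k) • w₀ + x • v := by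
        rw [← hx]; abel
      rw [hv', Matrix.mulVec_add, Matrix.mulVec_smul, hvJ s₀ hs₀J, h1, smul_add, smul_smul]
      have h2 : (2 : k) * x = x + x := by ring
      rw [h2, add_smul]
      abel
    -- `(0, v)` is not in `V1`
    have hnot : ((0 : Fin 2 → k), v) ∉ V1 := by
      intro hmem
      have h1 := hpts.hKL2 ⊥ (fun z hz => by
          rw [AddSubgroup.mem_bot] at hz
          rw [hz]
          exact h44_red_zero_mem_T p rb a₀ hpts)
        (fun s _ z hz => by
          rw [AddSubgroup.mem_bot] at hz ⊢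
          rw [hz]
          exact h44_act_zero p rb a₀ s)
        _ hmem (fun s hs => by
          rw [AddSubgroup.mem_bot, h44_act_zero_left, hvJ s hs, sub_self])
      rw [AddSubgroup.mem_bot] at h1
      exact hv0 (congrArg Prod.snd h1)
    -- Claim 1
    have hcl1 : ∀ s ∈ J, (rb s).mulVec v' = (rb s).det • v' := by
      intro s hs
      obtain ⟨β, hβ⟩ := h44_ell_ker v ((rb s).mulVec v' - (rb s).det • v') hv0 (by
        rw [h44_ell_sub, hℓJ s hs, h44_ell_smul, sub_self])
      by_cases hβ0 : β = 0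
      · rw [hβ0, zero_smul] at hβ
        exact sub_eq_zero.1 hβ
      exfalso
      apply hnot
      have hE1 := h44_red_smul_mem p rb a₀ hpts s hs β⁻¹ ((0 : Fin 2 → k), v')
      have hE2 := h44_red_smul_mem p rb a₀ hpts s₀ hs₀J (-(β⁻¹ * ((rb s).det - 1)))
        ((0 : Fin 2 → k), v')
      have hsum := hpts.add_mem _ hE1 _ hE2
      have h3 : β⁻¹ • (h78_act p rb a₀ s ((0 : Fin 2 → k), v') - ((0 : Fin 2 → k), v')) +
          (-(β⁻¹ * ((rb s).det - 1))) •
            (h78_act p rb a₀ s₀ ((0 : Fin 2 → k), v') - ((0 : Fin 2 → k), v')) =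
          ((0 : Fin 2 → k), v) := by
        rw [h44_act_zero_left, h44_act_zero_left, hv's₀]
        have h4 : (rb s).mulVec v' = (rb s).det • v' + β • v := by
          rw [← hβ]; abel
        rw [h4]
        refine Prod.ext (by simp) ?_
        show β⁻¹ • ((rb s).det • v' + β • v - v') +
          (-(β⁻¹ * ((rb s).det - 1))) • ((2 : k) • v' - v') = v
        have h5 : (2 : k) • v' - v' = v' := by
          rw [two_smul]; abel
        rw [h5, smul_sub, smul_add, smul_smul, smul_smul, inv_mul_cancel₀ hβ0, one_smul,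
          neg_smul, mul_sub, sub_smul, mul_one]
        abel
      rw [h3] at hsum
      exact hsum
    -- Claim 2
    have hcl2 : ∀ g : h78_G p, ∃ y : k, (rb g).mulVec v' = y • v' := by
      intro g
      have hsJ : g⁻¹ * s₀ * g ∈ J := by
        have h := hJn g⁻¹ s₀ hs₀J
        rwa [inv_inv] at h
      have hdets : (rb (g⁻¹ * s₀ * g)).det = 2 := by
        rw [map_mul, map_mul, Matrix.det_mul, Matrix.det_mul, hdet0, mul_comm, ← mul_assoc,
          ← Matrix.det_mul, ← map_mul, mul_inv_cancel, map_one, Matrix.det_one, one_mul]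
      have h2 : (rb s₀).mulVec ((rb g).mulVec v') = (2 : k) • (rb g).mulVec v' := by
        have h3 : s₀ * g = g * (g⁻¹ * s₀ * g) := by group
        rw [Matrix.mulVec_mulVec, ← map_mul, h3, map_mul, ← Matrix.mulVec_mulVec,
          hcl1 _ hsJ, hdets, Matrix.mulVec_smul]
      obtain ⟨w, hw⟩ : ∃ w : Fin 2 → k, w = (rb g).mulVec v' := ⟨_, rfl⟩
      rw [← hw] at h2
      obtain ⟨c, hc⟩ : ∃ c : k, c = h44_ell v w / h44_ell v v' := ⟨_, rfl⟩
      obtain ⟨x', hx'⟩ := h44_ell_ker v (w - c • v') hv0 (by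
        rw [h44_ell_sub, h44_ell_smul, hc, div_mul_cancel₀ _ hv'ℓ, sub_self])
      refine ⟨c, ?_⟩
      have h4 : w = c • v' + x' • v := by
        rw [← hx']; abel
      have h5 : x' = 0 := by
        have h6 : (rb s₀).mulVec w = (2 : k) • w := h2
        rw [h4, Matrix.mulVec_add, Matrix.mulVec_smul, Matrix.mulVec_smul, hv's₀,
          hvJ s₀ hs₀J, smul_add, smul_smul, smul_smul, mul_comm c (2 : k)] at h6
        have h7 : x' • v = (2 * x') • v := by
          have h9 := add_left_cancel h6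
          rwa [smul_smul] at h9
        have h8 := hinj v hv0 _ _ h7
        linear_combination -h8
      rw [← hw, h4, h5, zero_smul, add_zero]
    choose y hy using hcl2
    refine ⟨v', hv'0, fun g => ⟨y g, hy g, fun hg n hn => ?_⟩⟩
    apply hinj v' hv'0
    rw [← hy g, hcl1 g hg, hdetJ g n hn]

end Fermat.Agent.S56
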