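import Fermat.Agent.S56.h12_MidDefs

/-!
# S56 / MID-COUNT (helper45): the Selmer count, hypothesis form

`h45_count_of` is the statement of the row MID-COUNT (`h12_count` of the MID skeleton) with the
rows it consumes (CUP, RECIP, TAME, UNRLEVEL) as explicit hypotheses in their skeleton shapes.

Route (board, S56 lead plan, section 1 (i)-(iii)):  `W₀ := {a ∈ W : a locally a coboundary at
every v ∈ S₀}`.
* (ii) every `a ∈ W₀` has trivial inertia at each Taylor-Wiles prime `qv i`: the cup products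
  `a ∪ (c • ψ_i)` are `Sg`-level cocycles, locally coboundaries at `S₀` (since `a` is) and at
  `qv j`, `j ≠ i` (since `ψ_i` is), hence at `qv i` (RECIP); TAME concludes.
* (iii) so `W₀` is unramified outside `S₀` (UNRLEVEL) and the bound (R1) applies to it.
* (i) `rank W ≤ rank W₀ + ∑_{v ∈ S₀} c_v` by the local bounds (`h45_rank_le_inf`).
-/

set_option autoImplicit false

namespace Fermat.Agent.S56

open Fermat.Agent.S53 Fermat.Agent.S53.Dict ExtCitation groupCohomology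

local notation "M₂[" k "]" => Matrix (Fin 2) (Fin 2) k

section LinAlg

variable {k V : Type} [Field k] [AddCommGroup V] [Module k V]

/-- One step: a subspace `U` is the sum of `U ⊓ K` and a subspace meeting `K` trivially. -/
theorem h45_rank_step (U K : Submodule k V) :
    ∃ W' : Submodule k V, W' ≤ U ∧ (∀ a ∈ W', a ∈ K → a = 0) ∧
      Module.rank k U = Module.rank k ↥(U ⊓ K) + Module.rank k W' := by
  obtain ⟨Q, hQ⟩ := Submodule.exists_isCompl (Submodule.comap U.subtype K)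
  refine ⟨Q.map U.subtype, Submodule.map_subtype_le U Q, ?_, ?_⟩
  · intro a ha haK
    obtain ⟨y, hy, rfl⟩ := Submodule.mem_map.1 ha
    have hyP : y ∈ Submodule.comap U.subtype K := haK
    have h0 : y ∈ (Submodule.comap U.subtype K) ⊓ Q := ⟨hyP, hy⟩
    rw [hQ.inf_eq_bot, Submodule.mem_bot] at h0
    rw [h0, map_zero]
  · have h1 := Submodule.rank_sup_add_rank_inf_eq (Submodule.comap U.subtype K) Q
    rw [hQ.sup_eq_top, hQ.inf_eq_bot, rank_top, rank_bot, add_zero] at h1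
    have h2 : Module.rank k ↥(Submodule.comap U.subtype K) = Module.rank k ↥(U ⊓ K) := by
      rw [← Submodule.map_comap_subtype]
      exact (Submodule.equivMapOfInjective U.subtype (Submodule.injective_subtype U) _).rank_eq
    have h3 : Module.rank k ↥Q = Module.rank k ↥(Q.map U.subtype) :=
      (Submodule.equivMapOfInjective U.subtype (Submodule.injective_subtype U) Q).rank_eq
    rw [h1, h2, h3]

/-- Successive local bounds: if every subspace of `W` meeting `K v` trivially has rank `≤ c v`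
(`v ∈ S`), then `rank W ≤ rank (W ⊓ ⨅_{v ∈ S} K v) + ∑_{v ∈ S} c v`. -/
theorem h45_rank_le_inf {ι : Type} [DecidableEq ι] (W : Submodule k V) (K : ι → Submodule k V)
    (c : ι → ℕ) (S : Finset ι)
    (h : ∀ v ∈ S, ∀ W' : Submodule k V, W' ≤ W → (∀ a ∈ W', a ∈ K v → a = 0) →
      Module.rank k W' ≤ (c v : Cardinal)) :
    Module.rank k W ≤ Module.rank k ↥(W ⊓ S.inf K) + ((∑ v ∈ S, c v : ℕ) : Cardinal) := by
  induction S using Finset.induction_on with
  | empty =>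
    rw [Finset.inf_empty, inf_top_eq, Finset.sum_empty, Nat.cast_zero, add_zero]
  | insert w T hw ih =>
    have ih' := ih fun v hv => h v (Finset.mem_insert_of_mem hv)
    obtain ⟨W', hW'U, hW'K, hrk⟩ := h45_rank_step (W ⊓ T.inf K) (K w)
    have hc : Module.rank k W' ≤ (c w : Cardinal) :=
      h w (Finset.mem_insert_self w T) W' (hW'U.trans inf_le_left) hW'K
    have heq : W ⊓ (insert w T).inf K = W ⊓ T.inf K ⊓ K w := by
      rw [Finset.inf_insert, inf_assoc, inf_comm (T.inf K) (K w)]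
    rw [heq, Finset.sum_insert hw, Nat.cast_add]
    calc Module.rank k W ≤ Module.rank k ↥(W ⊓ T.inf K) + ((∑ v ∈ T, c v : ℕ) : Cardinal) := ih'
      _ = Module.rank k ↥(W ⊓ T.inf K ⊓ K w) + Module.rank k W' +
            ((∑ v ∈ T, c v : ℕ) : Cardinal) := by rw [hrk]
      _ ≤ Module.rank k ↥(W ⊓ T.inf K ⊓ K w) + (c w : Cardinal) +
            ((∑ v ∈ T, c v : ℕ) : Cardinal) := by gcongr
      _ = Module.rank k ↥(W ⊓ T.inf K ⊓ K w) + ((c w : Cardinal) +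
            ((∑ v ∈ T, c v : ℕ) : Cardinal)) := add_assoc _ _ _

end LinAlg

section Count

variable {k : Type} [Field k] [Finite k] (p : ℕ) [Fact p.Prime] [Algebra (ZMod p) k]
variable (rb : GQ →* M₂[k])

/-- The tangent cocycles which are coboundaries on the decomposition group at `q`. -/
def h45_locK (q : Nat.Primes) : Submodule k (GQ → M₂[k]) where
  carrier := {a | h12_LocCobM rb q a}
  add_mem' := by
    rintro a b ⟨X, hX⟩ ⟨Y, hY⟩
    refine ⟨X + Y, fun τ => ?_⟩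
    rw [Pi.add_apply, hX τ, hY τ, add_mul, mul_add]
    abel
  zero_mem' := ⟨0, fun τ => by simp⟩
  smul_mem' := by
    rintro c a ⟨X, hX⟩
    refine ⟨c • X, fun τ => ?_⟩
    rw [Pi.smul_apply, hX τ, smul_sub, Matrix.smul_mul, Matrix.mul_smul]

omit [Finite k] in
theorem h45_mem_locK (q : Nat.Primes) (a : GQ → M₂[k]) :
    a ∈ h45_locK rb q ↔ h12_LocCobM rb q a := Iff.rfl

omit [Finite k] in
theorem h45_mem_ZN_iff (S : Finset Nat.Primes) (ψ : GQ → M₂[k]) :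
    ψ ∈ h12_ZN rb S ↔ (∀ σ, (ψ σ).trace = 0) ∧
      (∀ σ τ, ψ (σ * τ) = ψ σ + h12_act (rb σ) (ψ τ)) ∧ IsLevelConstantS₁ S ψ := Iff.rfl

omit [Finite k] in
theorem h45_ZN_mono {S S' : Finset Nat.Primes} (h : S ⊆ S') {ψ : GQ → M₂[k]}
    (hψ : ψ ∈ h12_ZN rb S) : ψ ∈ h12_ZN rb S' := by
  rw [h45_mem_ZN_iff] at hψ ⊢
  exact ⟨hψ.1, hψ.2.1, hψ.2.2.mono h⟩

omit [Finite k] in
theorem h45_locCobN_smul (q : Nat.Primes) (c : k) {ψ : GQ → M₂[k]}
    (h : h12_LocCobN rb q ψ) : h12_LocCobN rb q (c • ψ) := by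
  obtain ⟨Y, hY, hψ⟩ := h
  refine ⟨c • Y, by rw [Matrix.trace_smul, hY, smul_zero], fun τ => ?_⟩
  rw [Pi.smul_apply, hψ τ, h12_act_smul, smul_sub]

omit [Finite k] in
/-- **MID-COUNT, hypothesis form**: the Selmer count `rank W ≤ r` from the rows CUP
(`hcupcoc`, `hcuplev`, `hcupM`, `hcupN`), RECIP (`hrecip`), TAME (`htame`) and UNRLEVEL
(`hunrlev`), each in the shape of its skeleton statement. -/
theorem h45_count_of
    (hcupcoc : ∀ a : GQ → M₂[k], a ∈ h40_TanZ rb → ∀ ψ : GQ → M₂[k],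
      (∀ σ τ, ψ (σ * τ) = ψ σ + h12_act (rb σ) (ψ τ)) →
      h12_IsCocycle₂ p (h12_cup p rb a ψ))
    (hcuplev : ∀ (S : Finset Nat.Primes) (a : GQ → M₂[k]), a ∈ h40_TanZ rb →
      h12_UnrOutside rb a S → ∀ ψ : GQ → M₂[k], ψ ∈ h12_ZN rb S →
      IsLevelConstantS₂ S (h12_cup p rb a ψ))
    (hcupM : ∀ (S : Finset Nat.Primes) (q : Nat.Primes) (a : GQ → M₂[k]), a ∈ h40_TanZ rb →
      ∀ ψ : GQ → M₂[k], ψ ∈ h12_ZN rb S → h12_LocCobM rb q a →
      h12_LocCob₂ p q (h12_cup p rb a ψ))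
    (hcupN : ∀ (S : Finset Nat.Primes) (q : Nat.Primes) (a : GQ → M₂[k]), a ∈ h40_TanZ rb →
      ∀ ψ : GQ → M₂[k], ψ ∈ h12_ZN rb S → h12_LocCobN rb q ψ →
      h12_LocCob₂ p q (h12_cup p rb a ψ))
    (hrecip : ∀ Sg : Finset Nat.Primes, pPrime p ∈ Sg → ∀ z : GQ × GQ → ZMod p,
      h12_IsCocycle₂ p z → IsLevelConstantS₂ Sg z → ∀ q₀ : Nat.Primes, q₀ ∈ Sg →
      (∀ q ∈ Sg, q ≠ q₀ → h12_LocCob₂ p q z) → h12_LocCob₂ p q₀ z)
    (htame : ∀ (S₀ : Finset Nat.Primes) (q : Nat.Primes), q ∉ S₀ →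
      h12_IsTWPrime p 0 rb (q : ℕ) →
      (∀ P : ValuationSubring (AlgebraicClosure ℚ), P.LiesOverPrime (q : ℕ) →
        ∀ σ ∈ P.inertiaSubgroupIn ℚ, rb σ = 1) →
      ∀ a : GQ → M₂[k], a ∈ h40_TanZ rb → ∀ ψ : GQ → M₂[k], ψ ∈ h12_ZN rb S₀ →
      h12_FrobNonCob rb ψ (q : ℕ) →
      (∀ c : k, h12_LocCob₂ p q (h12_cup p rb a (c • ψ))) → h12_InertiaTriv rb a (q : ℕ))
    (hunrlev : ∀ S₀ Sg : Finset Nat.Primes, S₀ ⊆ Sg → ∀ a : GQ → M₂[k], a ∈ h40_TanZ rb →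
      h12_UnrOutside rb a Sg → (∀ q ∈ Sg, q ∉ S₀ → h12_InertiaTriv rb a (q : ℕ)) →
      h12_UnrOutside rb a S₀)
    (S₀ : Finset Nat.Primes) (hpS₀ : pPrime p ∈ S₀)
    (hrbS₀ : ∀ q : Nat.Primes, q ∉ S₀ → ∀ P : ValuationSubring (AlgebraicClosure ℚ),
      P.LiesOverPrime (q : ℕ) → ∀ σ ∈ P.inertiaSubgroupIn ℚ, rb σ = 1)
    (qv : Fin (h12_rN rb S₀) → Nat.Primes)
    (hqS₀ : ∀ i, qv i ∉ S₀) (hTW : ∀ i, h12_IsTWPrime p 0 rb (qv i : ℕ))
    (ψs : Fin (h12_rN rb S₀) → GQ → M₂[k])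
    (hψs : ∀ i, ψs i ∈ h12_ZN rb S₀ ∧ h12_FrobNonCob rb (ψs i) (qv i : ℕ) ∧
      ∀ j, j ≠ i → h12_LocCobN rb (qv j) (ψs i))
    (W : Submodule k (GQ → M₂[k])) (hW : W ≤ h40_TanZ rb)
    (hW0 : ∀ a ∈ W, h40_IsCob rb a → a = 0)
    (hunr : ∀ a ∈ W, h12_UnrOutside rb a (S₀ ∪ Finset.univ.image qv))
    (htr : ∀ a ∈ W, ∀ σ, (a σ * (rb σ).adjugate).trace = 0)
    (hloc : ∀ v ∈ S₀, h12_LocBound rb v W
      (Module.finrank k (h12_H0M rb v) + (if v = pPrime p then 1 else 0)))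
    (hR1 : h12_ShaBound rb S₀) :
    Module.rank k W ≤ (h12_rN rb S₀ : Cardinal) := by
  classical
  set Sg : Finset Nat.Primes := S₀ ∪ Finset.univ.image qv with hSg
  have hsub : S₀ ⊆ Sg := Finset.subset_union_left
  have hpSg : pPrime p ∈ Sg := hsub hpS₀
  set W₀ : Submodule k (GQ → M₂[k]) := W ⊓ S₀.inf (h45_locK rb) with hW₀
  have hW₀W : W₀ ≤ W := inf_le_left
  have hW₀K : ∀ a ∈ W₀, ∀ v ∈ S₀, h12_LocCobM rb v a := by
    intro a ha v hv
    have h1 : a ∈ S₀.inf (h45_locK rb) := ha.2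
    rw [Submodule.mem_finsetInf] at h1
    exact h1 v hv
  -- (ii) trivial inertia at the Taylor-Wiles primes
  have hii : ∀ a ∈ W₀, ∀ i, h12_InertiaTriv rb a (qv i : ℕ) := by
    intro a ha i
    have haT : a ∈ h40_TanZ rb := hW (hW₀W ha)
    refine htame S₀ (qv i) (hqS₀ i) (hTW i) (hrbS₀ (qv i) (hqS₀ i)) a haT (ψs i) (hψs i).1
      (hψs i).2.1 fun c => ?_
    have hψc₀ : c • ψs i ∈ h12_ZN rb S₀ := (h12_ZN rb S₀).smul_mem c (hψs i).1
    have hψc : c • ψs i ∈ h12_ZN rb Sg := h45_ZN_mono rb hsub hψc₀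
    have hcoc := ((h45_mem_ZN_iff rb Sg (c • ψs i)).1 hψc).2.1
    refine hrecip Sg hpSg _ (hcupcoc a haT (c • ψs i) hcoc)
      (hcuplev Sg a haT (hunr a (hW₀W ha)) (c • ψs i) hψc) (qv i)
      (Finset.mem_union_right _ (Finset.mem_image_of_mem qv (Finset.mem_univ i)))
      fun q hq hne => ?_
    rcases Finset.mem_union.1 hq with hq' | hq'
    · exact hcupM Sg q a haT (c • ψs i) hψc (hW₀K a ha q hq')
    · obtain ⟨j, -, rfl⟩ := Finset.mem_image.1 hq'
      have hji : j ≠ i := fun h => hne (by rw [h])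
      exact hcupN Sg (qv j) a haT (c • ψs i) hψc
        (h45_locCobN_smul rb (qv j) c ((hψs i).2.2 j hji))
  -- (iii) `W₀` is unramified outside `S₀`, so (R1) applies
  have hiii : ∀ a ∈ W₀, h12_UnrOutside rb a S₀ := by
    intro a ha
    refine hunrlev S₀ Sg hsub a (hW (hW₀W ha)) (hunr a (hW₀W ha)) fun q hq hqn => ?_
    rcases Finset.mem_union.1 hq with hq' | hq'
    · exact absurd hq' hqn
    · obtain ⟨i, -, rfl⟩ := Finset.mem_image.1 hq'
      exact hii a ha i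
  have hR := hR1 W₀ (hW₀W.trans hW)
    (fun a ha => ⟨hiii a ha, htr a (hW₀W ha), fun v hv => hW₀K a ha v hv⟩)
    (fun a ha => hW0 a (hW₀W ha))
  -- (i) the local bounds
  have hi := h45_rank_le_inf W (h45_locK rb)
    (fun v => Module.finrank k (h12_H0M rb v) + (if v = pPrime p then 1 else 0)) S₀
    (fun v hv W' hW' h0 => hloc v hv W' hW' fun a ha hK => h0 a ha hK)
  have hsum : (∑ v ∈ S₀, (Module.finrank k (h12_H0M rb v) + (if v = pPrime p then 1 else 0)))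
      = ∑ v ∈ S₀, Module.finrank k (h12_H0M rb v) + 1 := by
    rw [Finset.sum_add_distrib, Finset.sum_ite_eq' S₀ (pPrime p) (fun _ => 1), if_pos hpS₀]
  rw [hsum] at hi
  exact hi.trans hR

end Count

end Fermat.Agent.S56
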