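/-
S56 / W3 E-IRR sub-row IRR-5 (LOCAL INPUT), core: levels of Kummer classes.

`F` a local field with `ζ_p ∈ F`; characters are functions `χ : h78_G p → ZMod p` (only their
values on `Gal(Ω/F)` matter); `(u, α)` is a Kummer generator of `χ` when `α ^ p = u ∈ F^×` and
`s α = ζ ^ (χ s) α` on `Gal(Ω/F)` (language of `h92_IrrKummer`).  `h47_Lev χ r x` says that `χ`
has a Kummer generator with `u ≡ 1 + x` modulo terms of norm `< r`.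
-/
import Fermat.Agent.S56.h92_IrrKummer
import Fermat.Agent.S56.h36_LevelRigid
import Fermat.Agent.S56.h28_K0Unram
import Fermat.Agent.S56.h19_IrrArith

set_option autoImplicit false

namespace Fermat.Agent.S56

variable (p : ℕ) [Fact p.Prime]

local notation "Ω" => PadicAlgCl p
local notation "Fld" => IntermediateField ℚ_[p] (PadicAlgCl p)

/-- `(u, α)` is a Kummer generator of `χ` over `F`. -/
def h47_KG (F : Fld) (ζ : Ω) (χ : h78_G p → ZMod p) (u α : Ω) : Prop :=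
  u ∈ F ∧ u ≠ 0 ∧ α ^ p = u ∧
    ∀ s : h78_G p, (∀ z ∈ F, s z = z) → s α = ζ ^ (χ s).val * α

/-- `χ` has a Kummer generator `(u, α)` with `‖u - 1 - x‖ < r`. -/
def h47_Lev (F : Fld) (ζ : Ω) (χ : h78_G p → ZMod p) (r : ℝ) (x : Ω) : Prop :=
  ∃ u α : Ω, h47_KG p F ζ χ u α ∧ ‖u - 1 - x‖ < r

theorem h47_Lev_pos (F : Fld) (ζ : Ω) (χ : h78_G p → ZMod p) (r : ℝ) (x : Ω)
    (h : h47_Lev p F ζ χ r x) : 0 < r := by
  obtain ⟨u, α, -, h1⟩ := h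
  exact lt_of_le_of_lt (norm_nonneg _) h1

theorem h47_Lev_zero (F : Fld) (ζ : Ω) (r : ℝ) (hr : 0 < r) :
    h47_Lev p F ζ (fun _ => 0) r 0 := by
  refine ⟨1, 1, ⟨F.one_mem, one_ne_zero, one_pow _, fun s _ => ?_⟩, by simpa using hr⟩
  rw [map_one, ZMod.val_zero, pow_zero, one_mul]

theorem h47_Lev_congr (F : Fld) (ζ : Ω) (χ : h78_G p → ZMod p) (r : ℝ) (x x' : Ω)
    (h : h47_Lev p F ζ χ r x) (hx : ‖x - x'‖ < r) : h47_Lev p F ζ χ r x' := by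
  obtain ⟨u, α, hKG, h1⟩ := h
  refine ⟨u, α, hKG, ?_⟩
  have e : u - 1 - x' = (u - 1 - x) + (x - x') := by ring
  rw [e]
  exact lt_of_le_of_lt (IsUltrametricDist.norm_add_le_max _ _) (max_lt h1 hx)

theorem h47_KG_ext (F : Fld) (ζ : Ω) (χ χ' : h78_G p → ZMod p) (u α : Ω)
    (h : h47_KG p F ζ χ u α) (hχ : ∀ s : h78_G p, (∀ z ∈ F, s z = z) → χ s = χ' s) :
    h47_KG p F ζ χ' u α := by
  obtain ⟨h1, h2, h3, h4⟩ := h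
  exact ⟨h1, h2, h3, fun s hs => by rw [← hχ s hs]; exact h4 s hs⟩

theorem h47_Lev_ext (F : Fld) (ζ : Ω) (χ χ' : h78_G p → ZMod p) (r : ℝ) (x : Ω)
    (h : h47_Lev p F ζ χ r x) (hχ : ∀ s : h78_G p, (∀ z ∈ F, s z = z) → χ s = χ' s) :
    h47_Lev p F ζ χ' r x := by
  obtain ⟨u, α, hKG, h1⟩ := h
  exact ⟨u, α, h47_KG_ext p F ζ χ χ' u α hKG hχ, h1⟩

/-- Kummer generators multiply. -/
theorem h47_KG_mul (F : Fld) (ζ : Ω) (hζp : ζ ^ p = 1) (χ₁ χ₂ : h78_G p → ZMod p)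
    (u₁ α₁ u₂ α₂ : Ω) (h₁ : h47_KG p F ζ χ₁ u₁ α₁) (h₂ : h47_KG p F ζ χ₂ u₂ α₂) :
    h47_KG p F ζ (fun s => χ₁ s + χ₂ s) (u₁ * u₂) (α₁ * α₂) := by
  obtain ⟨a1, a2, a3, a4⟩ := h₁
  obtain ⟨b1, b2, b3, b4⟩ := h₂
  refine ⟨F.mul_mem a1 b1, mul_ne_zero a2 b2, by rw [mul_pow, a3, b3], ?_⟩
  exact h92_irr3_mul p F ζ hζp χ₁ χ₂ α₁ α₂ a4 b4

/-- multiplying a generator by an element of `F`. -/
theorem h47_KG_mul_base (F : Fld) (ζ : Ω) (χ : h78_G p → ZMod p) (u α w : Ω)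
    (h : h47_KG p F ζ χ u α) (hw : w ∈ F) (hw0 : w ≠ 0) :
    h47_KG p F ζ χ (u * w ^ p) (α * w) := by
  obtain ⟨a1, a2, a3, a4⟩ := h
  refine ⟨F.mul_mem a1 (pow_mem hw p), mul_ne_zero a2 (pow_ne_zero _ hw0),
    by rw [mul_pow, a3], ?_⟩
  exact h92_irr3_mul_base p F ζ χ α w hw a4

theorem h47_Lev_add (F : Fld) (ζ : Ω) (hζp : ζ ^ p = 1) (χ₁ χ₂ : h78_G p → ZMod p) (r : ℝ)
    (x₁ x₂ : Ω) (h₁ : h47_Lev p F ζ χ₁ r x₁) (h₂ : h47_Lev p F ζ χ₂ r x₂)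
    (hx₁ : ‖x₁‖ ≤ r) (hx₂ : ‖x₂‖ ≤ r) (hr : r < 1) :
    h47_Lev p F ζ (fun s => χ₁ s + χ₂ s) r (x₁ + x₂) := by
  have hr0 : 0 < r := h47_Lev_pos p F ζ χ₁ r x₁ h₁
  obtain ⟨u₁, α₁, hKG₁, e₁⟩ := h₁
  obtain ⟨u₂, α₂, hKG₂, e₂⟩ := h₂
  refine ⟨u₁ * u₂, α₁ * α₂, h47_KG_mul p F ζ hζp χ₁ χ₂ u₁ α₁ u₂ α₂ hKG₁ hKG₂, ?_⟩
  have hu₁ : ‖u₁ - 1‖ ≤ r := by
    have e : u₁ - 1 = (u₁ - 1 - x₁) + x₁ := by ring
    rw [e]
    exact le_trans (IsUltrametricDist.norm_add_le_max _ _) (max_le e₁.le hx₁)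
  have hu₂ : ‖u₂ - 1‖ ≤ r := by
    have e : u₂ - 1 = (u₂ - 1 - x₂) + x₂ := by ring
    rw [e]
    exact le_trans (IsUltrametricDist.norm_add_le_max _ _) (max_le e₂.le hx₂)
  have e : u₁ * u₂ - 1 - (x₁ + x₂) = ((u₁ - 1 - x₁) + (u₂ - 1 - x₂)) + (u₁ - 1) * (u₂ - 1) := by
    ring
  rw [e]
  refine lt_of_le_of_lt (IsUltrametricDist.norm_add_le_max _ _) (max_lt ?_ ?_)
  · exact lt_of_le_of_lt (IsUltrametricDist.norm_add_le_max _ _) (max_lt e₁ e₂)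
  · rw [norm_mul]
    calc ‖u₁ - 1‖ * ‖u₂ - 1‖ ≤ r * r :=
          mul_le_mul hu₁ hu₂ (norm_nonneg _) hr0.le
      _ < r * 1 := mul_lt_mul_of_pos_left hr hr0
      _ = r := mul_one r

theorem h47_Lev_nsmul (F : Fld) (ζ : Ω) (hζp : ζ ^ p = 1) (χ : h78_G p → ZMod p) (r : ℝ)
    (x : Ω) (h : h47_Lev p F ζ χ r x) (hx : ‖x‖ ≤ r) (hr : r < 1) (n : ℕ) :
    h47_Lev p F ζ (fun s => (n : ZMod p) * χ s) r ((n : Ω) * x) := by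
  have hr0 : 0 < r := h47_Lev_pos p F ζ χ r x h
  induction n with
  | zero =>
    have e : (fun s => ((0 : ℕ) : ZMod p) * χ s) = fun _ => 0 := by
      funext s; simp
    rw [e, Nat.cast_zero, zero_mul]
    exact h47_Lev_zero p F ζ r hr0
  | succ n ih =>
    have e : (fun s => ((n + 1 : ℕ) : ZMod p) * χ s) = fun s => (n : ZMod p) * χ s + χ s := by
      funext s; push_cast; ring
    have e' : ((n + 1 : ℕ) : Ω) * x = (n : Ω) * x + x := by push_cast; ring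
    rw [e, e']
    refine h47_Lev_add p F ζ hζp _ χ r _ x ih h ?_ hx hr
    rw [norm_mul]
    calc ‖(n : Ω)‖ * ‖x‖ ≤ 1 * ‖x‖ :=
          mul_le_mul_of_nonneg_right (h28_norm_natCast_le p n) (norm_nonneg _)
      _ = ‖x‖ := one_mul _
      _ ≤ r := hx

/-- the twist: `τ α` generates `s ↦ n * χ (τ⁻¹ s τ)`. -/
theorem h47_Lev_twist (F : Fld) (ζ : Ω) (hζp : ζ ^ p = 1) (χ : h78_G p → ZMod p) (r : ℝ)
    (x x' : Ω) (h : h47_Lev p F ζ χ r x) (τ : h78_G p) (hτF : ∀ z ∈ F, τ z ∈ F) (n : ℕ)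
    (hτζ : τ ζ = ζ ^ n) (hx : ‖τ x - x'‖ < r) :
    h47_Lev p F ζ (fun s => (n : ZMod p) * χ (τ⁻¹ * s * τ)) r x' := by
  obtain ⟨u, α, ⟨a1, a2, a3, a4⟩, e₁⟩ := h
  refine ⟨τ u, τ α, ⟨hτF u a1, ?_, by rw [← map_pow, a3], ?_⟩, ?_⟩
  · exact fun h0 => a2 ((map_eq_zero_iff τ τ.injective).1 h0)
  · exact h92_irr3_twist p F ζ hζp χ α a4 τ hτF n hτζ
  · have e : τ u - 1 - x' = τ (u - 1 - x) + (τ x - x') := by
      rw [map_sub, map_sub, map_one]; ring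
    rw [e]
    refine lt_of_le_of_lt (IsUltrametricDist.norm_add_le_max _ _) (max_lt ?_ hx)
    rw [h78_norm_aut]; exact e₁

/-- uniqueness: the trivial character has no leading term at a radius which is `≤ 1/p`, below
the top, and not the norm of a `p`-th power. -/
theorem h47_Lev_unique (F : Fld) (πF : Ω) (hπF : h78_IsUnif p F πF) (ζ : Ω)
    (χ : h78_G p → ZMod p) (hχ : ∀ s : h78_G p, (∀ z ∈ F, s z = z) → χ s = 0) (r : ℝ) (x : Ω)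
    (h : h47_Lev p F ζ χ r x) (hx : ‖x‖ ≤ r) (h1 : r ≤ (p : ℝ)⁻¹)
    (h2 : 1 < (p : ℝ) ^ p * r ^ (p - 1)) (h3 : ∀ z ∈ F, z ≠ 0 → r ≠ ‖z‖ ^ p) : ‖x‖ < r := by
  have hr0 : 0 < r := h47_Lev_pos p F ζ χ r x h
  obtain ⟨u, α, ⟨a1, a2, a3, a4⟩, e₁⟩ := h
  by_contra hcon
  have hxr : ‖x‖ = r := le_antisymm hx (not_lt.1 hcon)
  have hur : ‖u - 1‖ = r := by
    have e : u - 1 = (u - 1 - x) + x := by ring
    rw [e, IsUltrametricDist.norm_add_eq_max_of_norm_ne_norm (by rw [hxr]; exact e₁.ne),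
      hxr, max_eq_right e₁.le]
  have hα0 : α ≠ 0 := by
    rintro rfl
    rw [zero_pow (Fact.out : p.Prime).ne_zero] at a3
    exact a2 a3.symm
  have hαF : α ∈ F := by
    apply h92_irr3_mem_of_fixed
    intro g hg
    rw [a4 g hg, hχ g hg, ZMod.val_zero, pow_zero, one_mul]
  have h5 := h36_level_rigid p F πF hπF u α⁻¹ a1 (F.inv_mem hαF) (inv_ne_zero hα0)
    (by rw [hur]; exact h1) (by rw [hur]; exact h2) (by rw [hur]; exact h3)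
  rw [hur, inv_pow, a3, mul_inv_cancel₀ a2, sub_self, norm_zero] at h5
  exact absurd h5 (not_le.2 hr0)

/-! ## the action of `τ` on leading terms -/

/-- `‖θ‖ = 1` when `τ π ≡ θ π`. -/
theorem h47_norm_theta (π : Ω) (hπ0 : π ≠ 0) (τ : h78_G p) (θ : Ω)
    (hθπ : ‖τ π - θ * π‖ < ‖π‖) : ‖θ‖ = 1 := by
  have hπpos : 0 < ‖π‖ := norm_pos_iff.2 hπ0
  have e : θ * π = τ π + -(τ π - θ * π) := by ring
  have h1 : ‖θ * π‖ = ‖π‖ := by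
    rw [e, IsUltrametricDist.norm_add_eq_max_of_norm_ne_norm, norm_neg, h78_norm_aut,
      max_eq_left hθπ.le]
    rw [norm_neg, h78_norm_aut]; exact hθπ.ne'
  rw [norm_mul] at h1
  exact (mul_eq_right₀ hπpos.ne').1 h1

/-- the action of `τ` on a leading term of level `i`. -/
theorem h47_tau_lead (F : Fld) (π : Ω) (hπF : π ∈ F) (hπ0 : π ≠ 0) (τ : h78_G p)
    (hτres : ∀ x ∈ F, ‖x‖ ≤ 1 → ‖τ x - x‖ < 1) (θ : Ω)
    (hθπ : ‖τ π - θ * π‖ < ‖π‖) (x : Ω) (hx : x ∈ F) (i : ℕ) (hxi : ‖x‖ = ‖π‖ ^ i) :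
    ‖τ x - θ ^ i * x‖ < ‖x‖ := by
  have hπpos : 0 < ‖π‖ := norm_pos_iff.2 hπ0
  obtain ⟨a', ha'⟩ : ∃ a', a' = τ π / π := ⟨_, rfl⟩
  have hτπ : τ π = π * a' := by rw [ha']; field_simp
  have ha'1 : ‖a'‖ = 1 := by rw [ha', norm_div, h78_norm_aut, div_self hπpos.ne']
  have ha'θ : ‖a' - θ‖ < 1 := by
    have e : a' - θ = (τ π - θ * π) / π := by rw [ha']; field_simp
    rw [e, norm_div, div_lt_one hπpos]; exact hθπ
  have hθ1 : ‖θ‖ ≤ 1 := (h47_norm_theta p π hπ0 τ θ hθπ).le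
  obtain ⟨c, hc⟩ : ∃ c, c = x / π ^ i := ⟨_, rfl⟩
  have hcF : c ∈ F := by rw [hc]; exact F.div_mem hx (pow_mem hπF i)
  have hc1 : ‖c‖ = 1 := by
    rw [hc, norm_div, norm_pow, hxi, div_self (pow_pos hπpos i).ne']
  have hxc : x = c * π ^ i := by rw [hc]; field_simp
  have hτc : ‖τ c - c‖ < 1 := hτres c hcF hc1.le
  have e : τ x - θ ^ i * x = π ^ i * ((τ c - c) * a' ^ i + c * (a' ^ i - θ ^ i)) := by
    rw [hxc, map_mul, map_pow, hτπ]; ring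
  have h1 : ‖(τ c - c) * a' ^ i + c * (a' ^ i - θ ^ i)‖ < 1 := by
    refine lt_of_le_of_lt (IsUltrametricDist.norm_add_le_max _ _) (max_lt ?_ ?_)
    · rw [norm_mul, norm_pow, ha'1, one_pow, mul_one]; exact hτc
    · rw [norm_mul, hc1, one_mul]
      exact lt_of_le_of_lt (h28_norm_pow_sub_pow_le p a' θ ha'1.le hθ1 i) ha'θ
  rw [e, norm_mul, norm_pow, hxi]
  calc ‖π‖ ^ i * ‖(τ c - c) * a' ^ i + c * (a' ^ i - θ ^ i)‖ < ‖π‖ ^ i * 1 :=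
        mul_lt_mul_of_pos_left h1 (pow_pos hπpos i)
    _ = ‖π‖ ^ i := mul_one _

/-- the integer level of an element of `F` of norm `≤ 1/p` below the top. -/
theorem h47_level (F : Fld) (π : Ω) (hπ : h78_IsUnif p F π) (e : ℕ)
    (he : ‖π‖ ^ e = (p : ℝ)⁻¹) (x : Ω) (hx : x ∈ F) (h1 : ‖x‖ ≤ (p : ℝ)⁻¹)
    (h2 : 1 < (p : ℝ) ^ p * ‖x‖ ^ (p - 1)) :
    ∃ i : ℕ, ‖x‖ = ‖π‖ ^ i ∧ e ≤ i ∧ i * (p - 1) < e * p := by
  have hp : p.Prime := Fact.out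
  obtain ⟨-, hπ0, hπlt, hval⟩ := hπ
  have hπpos : 0 < ‖π‖ := norm_pos_iff.2 hπ0
  have hppos : (0 : ℝ) < p := Nat.cast_pos.2 hp.pos
  have hx0 : x ≠ 0 := by
    rintro rfl
    rw [norm_zero, zero_pow (by have := hp.two_le; omega), mul_zero] at h2
    exact absurd h2 (by norm_num)
  obtain ⟨n, hn⟩ := hval x hx hx0
  have hen : (e : ℤ) ≤ n := by
    have h3 : ‖π‖ ^ n ≤ ‖π‖ ^ (e : ℤ) := by
      rw [← hn, zpow_natCast, he]; exact h1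
    exact (zpow_le_zpow_iff_right_of_lt_one₀ hπpos hπlt).1 h3
  obtain ⟨i, rfl⟩ := Int.eq_ofNat_of_zero_le (le_trans (Int.natCast_nonneg e) hen)
  rw [zpow_natCast] at hn
  refine ⟨i, hn, by exact_mod_cast hen, ?_⟩
  have h4 : (p : ℝ) ^ p = (‖π‖ ^ (e * p))⁻¹ := by
    rw [pow_mul, he, inv_pow, inv_inv]
  rw [h4, hn, ← pow_mul, inv_mul_eq_div, one_lt_div (pow_pos hπpos _)] at h2
  exact (pow_lt_pow_iff_right_of_lt_one₀ hπpos hπlt).1 h2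

/-! ## the main relation -/

/-- **Main relation.** If `χ` has a normal-form generator at level `i` below the top and
satisfies the twisted relation `A nw² χ^{ττ} + B nw χ^τ + C χ = 0` on `Gal(Ω/F)`, then
`A θ^{2i} + B θ^i + C ≡ 0`. -/
theorem h47_level_rel (F : Fld) (π : Ω) (hπ : h78_IsUnif p F π) (ζ : Ω) (hζp : ζ ^ p = 1)
    (τ : h78_G p) (hτF : ∀ z ∈ F, τ z ∈ F) (nw : ℕ) (hτζ : τ ζ = ζ ^ nw)
    (hτres : ∀ x ∈ F, ‖x‖ ≤ 1 → ‖τ x - x‖ < 1) (θ : Ω) (hθF : θ ∈ F)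
    (hθπ : ‖τ π - θ * π‖ < ‖π‖)
    (χ : h78_G p → ZMod p) (u α : Ω) (hKG : h47_KG p F ζ χ u α)
    (i : ℕ) (hi : ‖u - 1‖ = ‖π‖ ^ i) (h1 : ‖u - 1‖ ≤ (p : ℝ)⁻¹)
    (h2 : 1 < (p : ℝ) ^ p * ‖u - 1‖ ^ (p - 1)) (h3 : ∀ z ∈ F, z ≠ 0 → ‖u - 1‖ ≠ ‖z‖ ^ p)
    (A B C : ℕ)
    (hrel : ∀ s : h78_G p, (∀ z ∈ F, s z = z) →
      (A : ZMod p) * ((nw : ZMod p) * ((nw : ZMod p) * χ (τ⁻¹ * (τ⁻¹ * s * τ) * τ))) +
        (B : ZMod p) * ((nw : ZMod p) * χ (τ⁻¹ * s * τ)) + (C : ZMod p) * χ s = 0) :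
    ‖(A : Ω) * (θ ^ i * θ ^ i) + (B : Ω) * θ ^ i + (C : Ω)‖ < 1 := by
  have hp : p.Prime := Fact.out
  have hppos : (0 : ℝ) < p := Nat.cast_pos.2 hp.pos
  obtain ⟨hπF, hπ0, hπlt, hval⟩ := hπ
  have hπpos : 0 < ‖π‖ := norm_pos_iff.2 hπ0
  obtain ⟨r, hr⟩ : ∃ r, r = ‖u - 1‖ := ⟨_, rfl⟩
  rw [← hr] at hi h1 h2 h3
  have hr1 : r < 1 := lt_of_le_of_lt h1 (inv_lt_one_of_one_lt₀ (by exact_mod_cast hp.one_lt))
  have hr0 : 0 < r := by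
    rw [hi]; exact pow_pos hπpos i
  have huF : u ∈ F := hKG.1
  have hxF : u - 1 ∈ F := F.sub_mem huF F.one_mem
  have hθ1 : ‖θ‖ = 1 := h47_norm_theta p π hπ0 τ θ hθπ
  have hθi : ‖θ ^ i‖ = 1 := by rw [norm_pow, hθ1, one_pow]
  -- level 0
  have L0 : h47_Lev p F ζ χ r (u - 1) := ⟨u, α, hKG, by rw [sub_self, norm_zero]; exact hr0⟩
  have hx0 : ‖u - 1‖ ≤ r := hr.ge
  -- first twist
  have hx1F : θ ^ i * (u - 1) ∈ F := F.mul_mem (pow_mem hθF i) hxF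
  have hx1 : ‖θ ^ i * (u - 1)‖ = r := by rw [norm_mul, hθi, one_mul, hr]
  have L1 : h47_Lev p F ζ (fun s => (nw : ZMod p) * χ (τ⁻¹ * s * τ)) r (θ ^ i * (u - 1)) := by
    refine h47_Lev_twist p F ζ hζp χ r (u - 1) _ L0 τ hτF nw hτζ ?_
    have h4 := h47_tau_lead p F π hπF hπ0 τ hτres θ hθπ (u - 1) hxF i (by rw [← hr]; exact hi)
    rw [← hr] at h4; exact h4
  -- second twist
  have hx2 : ‖θ ^ i * (θ ^ i * (u - 1))‖ = r := by rw [norm_mul, hθi, one_mul, hx1]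
  have L2 : h47_Lev p F ζ
      (fun s => (nw : ZMod p) * ((nw : ZMod p) * χ (τ⁻¹ * (τ⁻¹ * s * τ) * τ))) r
      (θ ^ i * (θ ^ i * (u - 1))) := by
    refine h47_Lev_twist p F ζ hζp _ r (θ ^ i * (u - 1)) _ L1 τ hτF nw hτζ ?_
    have h4 := h47_tau_lead p F π hπF hπ0 τ hτres θ hθπ (θ ^ i * (u - 1)) hx1F i
      (by rw [hx1]; exact hi)
    rw [hx1] at h4; exact h4
  -- combine
  have hnat : ∀ (n : ℕ) (y : Ω), ‖y‖ ≤ r → ‖(n : Ω) * y‖ ≤ r := by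
    intro n y hy
    rw [norm_mul]
    calc ‖(n : Ω)‖ * ‖y‖ ≤ 1 * ‖y‖ :=
          mul_le_mul_of_nonneg_right (h28_norm_natCast_le p n) (norm_nonneg _)
      _ = ‖y‖ := one_mul _
      _ ≤ r := hy
  have M2 := h47_Lev_nsmul p F ζ hζp _ r _ L2 hx2.le hr1 A
  have M1 := h47_Lev_nsmul p F ζ hζp _ r _ L1 hx1.le hr1 B
  have M0 := h47_Lev_nsmul p F ζ hζp _ r _ L0 hx0 hr1 C
  have M21 := h47_Lev_add p F ζ hζp _ _ r _ _ M2 M1 (hnat A _ hx2.le) (hnat B _ hx1.le) hr1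
  have M210 := h47_Lev_add p F ζ hζp _ _ r _ _ M21 M0
    (le_trans (IsUltrametricDist.norm_add_le_max _ _)
      (max_le (hnat A _ hx2.le) (hnat B _ hx1.le))) (hnat C _ hx0) hr1
  have hU := h47_Lev_unique p F π ⟨hπF, hπ0, hπlt, hval⟩ ζ _ (fun s hs => hrel s hs) r _ M210
    (le_trans (IsUltrametricDist.norm_add_le_max _ _)
      (max_le (le_trans (IsUltrametricDist.norm_add_le_max _ _)
        (max_le (hnat A _ hx2.le) (hnat B _ hx1.le))) (hnat C _ hx0))) h1 h2 h3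
  have e : (A : Ω) * (θ ^ i * (θ ^ i * (u - 1))) + (B : Ω) * (θ ^ i * (u - 1)) +
      (C : Ω) * (u - 1) = ((A : Ω) * (θ ^ i * θ ^ i) + (B : Ω) * θ ^ i + (C : Ω)) * (u - 1) := by
    ring
  rw [e, norm_mul, ← hr] at hU
  by_contra hcon
  rw [not_lt] at hcon
  have h5 : r ≤ ‖(A : Ω) * (θ ^ i * θ ^ i) + (B : Ω) * θ ^ i + (C : Ω)‖ * r :=
    le_mul_of_one_le_left hr0.le hcon
  exact absurd hU (not_lt.2 h5)

/-! ## arithmetic of the tame character -/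

theorem h47_e_pos (π : Ω) (e : ℕ) (he : ‖π‖ ^ e = (p : ℝ)⁻¹) : 0 < e := by
  have hp : p.Prime := Fact.out
  rcases Nat.eq_zero_or_pos e with h | h
  · subst h
    rw [pow_zero] at he
    have h1 : (p : ℝ)⁻¹ < 1 := inv_lt_one_of_one_lt₀ (by exact_mod_cast hp.one_lt)
    rw [← he] at h1
    exact absurd h1 (lt_irrefl _)
  · exact h

theorem h47_theta_order (θ : Ω) (e : ℕ) (he0 : 0 < e) (hθe : θ ^ e = 1)
    (hθe' : ∀ j : ℕ, 0 < j → j < e → θ ^ j ≠ 1) : orderOf θ = e :=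
  (orderOf_eq_iff he0).2 ⟨hθe, fun m hm hm0 => hθe' m hm0 hm⟩

theorem h47_level_lt (e i : ℕ) (hpe : (p - 1) ∣ e) (h : i * (p - 1) < e * p) :
    i < e + e / (p - 1) := by
  have hp : p.Prime := Fact.out
  have hq : e / (p - 1) * (p - 1) = e := Nat.div_mul_cancel hpe
  have h1 : e * p = (e + e / (p - 1)) * (p - 1) := by
    rw [add_mul, hq]
    have h2 : p = (p - 1) + 1 := (Nat.sub_add_cancel hp.one_le).symm
    conv_lhs => rw [h2]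
    ring
  rw [h1] at h
  exact Nat.lt_of_mul_lt_mul_right h

theorem h47_norm_p_nat_lt (n : ℕ) : ‖(p : Ω) * (n : Ω)‖ < 1 := by
  rw [norm_mul]
  calc ‖(p : Ω)‖ * ‖(n : Ω)‖ ≤ ‖(p : Ω)‖ * 1 :=
        mul_le_mul_of_nonneg_left (h28_norm_natCast_le p n) (norm_nonneg _)
    _ = ‖(p : Ω)‖ := mul_one _
    _ < 1 := by
        rw [h28_norm_p]
        exact inv_lt_one_of_one_lt₀ (by exact_mod_cast (Fact.out : p.Prime).one_lt)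

theorem h47_pred_cast : ((p - 1 : ℕ) : ZMod p) = -1 := by
  have hp : p.Prime := Fact.out
  rw [Nat.cast_sub hp.one_le, ZMod.natCast_self, Nat.cast_one, zero_sub]

/-- **(C-h)** a `τ`-invariant character has no level below the top. -/
theorem h47_no_level_inv (hp2 : p ≠ 2) (F : Fld) (π : Ω) (hπ : h78_IsUnif p F π) (ζ : Ω)
    (hζp : ζ ^ p = 1) (τ : h78_G p) (hτF : ∀ z ∈ F, τ z ∈ F) (nw : ℕ) (hτζ : τ ζ = ζ ^ nw)
    (hτres : ∀ x ∈ F, ‖x‖ ≤ 1 → ‖τ x - x‖ < 1) (θ : Ω) (hθF : θ ∈ F)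
    (hθπ : ‖τ π - θ * π‖ < ‖π‖)
    (e : ℕ) (he : ‖π‖ ^ e = (p : ℝ)⁻¹) (hpe : (p - 1) ∣ e) (hpe' : ¬ p ∣ e) (hθe : θ ^ e = 1)
    (hθe' : ∀ j : ℕ, 0 < j → j < e → θ ^ j ≠ 1) (hwθ : ‖θ ^ (e / (p - 1)) - (nw : Ω)‖ < 1)
    (χ : h78_G p → ZMod p) (u α : Ω) (hKG : h47_KG p F ζ χ u α)
    (h1 : ‖u - 1‖ ≤ (p : ℝ)⁻¹) (h3 : ∀ z ∈ F, z ≠ 0 → ‖u - 1‖ ≠ ‖z‖ ^ p)
    (hinv : ∀ s : h78_G p, (∀ z ∈ F, s z = z) → χ (τ⁻¹ * s * τ) = χ s) :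
    (p : ℝ) ^ p * ‖u - 1‖ ^ (p - 1) ≤ 1 := by
  have hp : p.Prime := Fact.out
  by_contra h2
  rw [not_le] at h2
  have he0 : 0 < e := h47_e_pos p π e he
  have hord : orderOf θ = e := h47_theta_order p θ e he0 hθe hθe'
  obtain ⟨i, hi, hei, hip⟩ := h47_level p F π hπ e he (u - 1) (F.sub_mem hKG.1 F.one_mem) h1 h2
  have hrel := h47_level_rel p F π hπ ζ hζp τ hτF nw hτζ hτres θ hθF hθπ χ u α hKG i hi h1 h2 h3
    0 1 ((p - 1) * nw) (fun s hs => by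
      rw [hinv s hs, Nat.cast_mul, h47_pred_cast]
      push_cast
      ring)
  have hw : ‖θ ^ i - θ ^ (e / (p - 1))‖ < 1 := by
    have e1 : θ ^ i - θ ^ (e / (p - 1)) =
        (((0 : ℕ) : Ω) * (θ ^ i * θ ^ i) + ((1 : ℕ) : Ω) * θ ^ i + (((p - 1) * nw : ℕ) : Ω)) +
          (-((p : Ω) * (nw : Ω)) + -(θ ^ (e / (p - 1)) - (nw : Ω))) := by
      rw [Nat.cast_mul, Nat.cast_sub hp.one_le]
      push_cast
      ring
    rw [e1]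
    refine lt_of_le_of_lt (IsUltrametricDist.norm_add_le_max _ _) (max_lt hrel ?_)
    refine lt_of_le_of_lt (IsUltrametricDist.norm_add_le_max _ _) (max_lt ?_ ?_)
    · rw [norm_neg]; exact h47_norm_p_nat_lt p nw
    · rw [norm_neg]; exact hwθ
  have h5 : θ ^ i = θ ^ (e / (p - 1)) :=
    h28_root_eq_of_close p e he0 hpe' (θ ^ (e / (p - 1))) (θ ^ i)
      (by rw [← pow_mul, mul_comm, pow_mul, hθe, one_pow])
      (by rw [← pow_mul, mul_comm, pow_mul, hθe, one_pow]) hw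
  exact h19_irr_arith_C θ (θ ^ (e / (p - 1))) e hp hp2 hpe he0 hord rfl i hei
    (h47_level_lt p e i hpe hip) h5

/-- **(C-deg)** a character with `(twist + 1)² = 0` has no level below the top (`p ≠ 3`). -/
theorem h47_no_level_deg (hp2 : p ≠ 2) (hp3 : p ≠ 3) (F : Fld) (π : Ω)
    (hπ : h78_IsUnif p F π) (ζ : Ω)
    (hζp : ζ ^ p = 1) (τ : h78_G p) (hτF : ∀ z ∈ F, τ z ∈ F) (nw : ℕ) (hτζ : τ ζ = ζ ^ nw)
    (hτres : ∀ x ∈ F, ‖x‖ ≤ 1 → ‖τ x - x‖ < 1) (θ : Ω) (hθF : θ ∈ F)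
    (hθπ : ‖τ π - θ * π‖ < ‖π‖)
    (e : ℕ) (he : ‖π‖ ^ e = (p : ℝ)⁻¹) (hpe : (p - 1) ∣ e) (hpe' : ¬ p ∣ e) (hθe : θ ^ e = 1)
    (hθe' : ∀ j : ℕ, 0 < j → j < e → θ ^ j ≠ 1) (hwθ : ‖θ ^ (e / (p - 1)) - (nw : Ω)‖ < 1)
    (χ : h78_G p → ZMod p) (u α : Ω) (hKG : h47_KG p F ζ χ u α)
    (h1 : ‖u - 1‖ ≤ (p : ℝ)⁻¹) (h3 : ∀ z ∈ F, z ≠ 0 → ‖u - 1‖ ≠ ‖z‖ ^ p)
    (hrel : ∀ s : h78_G p, (∀ z ∈ F, s z = z) →
      χ (τ⁻¹ * (τ⁻¹ * s * τ) * τ) + 2 * χ (τ⁻¹ * s * τ) + χ s = 0) :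
    (p : ℝ) ^ p * ‖u - 1‖ ^ (p - 1) ≤ 1 := by
  have hp : p.Prime := Fact.out
  by_contra h2
  rw [not_le] at h2
  have he0 : 0 < e := h47_e_pos p π e he
  have hord : orderOf θ = e := h47_theta_order p θ e he0 hθe hθe'
  obtain ⟨i, hi, hei, hip⟩ := h47_level p F π hπ e he (u - 1) (F.sub_mem hKG.1 F.one_mem) h1 h2
  have hM := h47_level_rel p F π hπ ζ hζp τ hτF nw hτζ hτres θ hθF hθπ χ u α hKG i hi h1 h2 h3
    1 (2 * nw) (nw * nw) (fun s hs => by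
      have h4 := hrel s hs
      push_cast
      linear_combination (nw : ZMod p) * (nw : ZMod p) * h4)
  have hsq : ‖θ ^ i + (nw : Ω)‖ < 1 := by
    have e1 : ((1 : ℕ) : Ω) * (θ ^ i * θ ^ i) + ((2 * nw : ℕ) : Ω) * θ ^ i + ((nw * nw : ℕ) : Ω)
        = (θ ^ i + (nw : Ω)) ^ 2 := by
      push_cast; ring
    rw [e1, norm_pow] at hM
    by_contra hcon
    rw [not_lt] at hcon
    exact absurd hM (not_lt.2 (one_le_pow₀ hcon))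
  have hw : ‖θ ^ i - -θ ^ (e / (p - 1))‖ < 1 := by
    have e1 : θ ^ i - -θ ^ (e / (p - 1)) = (θ ^ i + (nw : Ω)) + (θ ^ (e / (p - 1)) - (nw : Ω)) := by
      ring
    rw [e1]
    exact lt_of_le_of_lt (IsUltrametricDist.norm_add_le_max _ _) (max_lt hsq hwθ)
  have h2e : ¬ p ∣ 2 * e := by
    intro h
    rcases (Nat.Prime.dvd_mul hp).1 h with h' | h'
    · exact hp2 ((Nat.prime_dvd_prime_iff_eq hp Nat.prime_two).1 h')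
    · exact hpe' h'
  have hwe : (θ ^ (e / (p - 1))) ^ e = 1 := by rw [← pow_mul, mul_comm, pow_mul, hθe, one_pow]
  have hie : (θ ^ i) ^ e = 1 := by rw [← pow_mul, mul_comm, pow_mul, hθe, one_pow]
  have h5 : θ ^ i = -θ ^ (e / (p - 1)) :=
    h28_root_eq_of_close p (2 * e) (by omega) h2e (-θ ^ (e / (p - 1))) (θ ^ i)
      (by rw [pow_mul, neg_sq, ← pow_mul, mul_comm, pow_mul, hwe, one_pow])
      (by rw [mul_comm, pow_mul, hie, one_pow]) hw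
  refine h19_irr_arith_B θ (-1) (θ ^ (e / (p - 1))) e hp hp2 hpe he0 hord rfl rfl hp3 i hei
    (h47_level_lt p e i hpe hip).le ?_
  rw [h5]; ring

/-- **(C-gen), first half**: the level equation of a character with
`χ^{ττ} + χ = c' χ^τ`. -/
theorem h47_level_gen (F : Fld) (π : Ω) (hπ : h78_IsUnif p F π) (ζ : Ω)
    (hζp : ζ ^ p = 1) (τ : h78_G p) (hτF : ∀ z ∈ F, τ z ∈ F) (nw : ℕ) (hτζ : τ ζ = ζ ^ nw)
    (hτres : ∀ x ∈ F, ‖x‖ ≤ 1 → ‖τ x - x‖ < 1) (θ : Ω) (hθF : θ ∈ F)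
    (hθπ : ‖τ π - θ * π‖ < ‖π‖)
    (e : ℕ) (he : ‖π‖ ^ e = (p : ℝ)⁻¹) (hpe : (p - 1) ∣ e)
    (hwθ : ‖θ ^ (e / (p - 1)) - (nw : Ω)‖ < 1) (c' : ℕ)
    (χ : h78_G p → ZMod p) (u α : Ω) (hKG : h47_KG p F ζ χ u α)
    (h1 : ‖u - 1‖ ≤ (p : ℝ)⁻¹) (h2 : 1 < (p : ℝ) ^ p * ‖u - 1‖ ^ (p - 1))
    (h3 : ∀ z ∈ F, z ≠ 0 → ‖u - 1‖ ≠ ‖z‖ ^ p)
    (hrel : ∀ s : h78_G p, (∀ z ∈ F, s z = z) →
      χ (τ⁻¹ * (τ⁻¹ * s * τ) * τ) + χ s = (c' : ZMod p) * χ (τ⁻¹ * s * τ)) :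
    ∃ i : ℕ, ‖u - 1‖ = ‖π‖ ^ i ∧ e ≤ i ∧ i < e + e / (p - 1) ∧
      ‖θ ^ i * θ ^ i - (c' : Ω) * (θ ^ (e / (p - 1)) * θ ^ i) +
        θ ^ (e / (p - 1)) * θ ^ (e / (p - 1))‖ < 1 := by
  have hp : p.Prime := Fact.out
  obtain ⟨i, hi, hei, hip⟩ := h47_level p F π hπ e he (u - 1) (F.sub_mem hKG.1 F.one_mem) h1 h2
  refine ⟨i, hi, hei, h47_level_lt p e i hpe hip, ?_⟩
  have hM := h47_level_rel p F π hπ ζ hζp τ hτF nw hτζ hτres θ hθF hθπ χ u α hKG i hi h1 h2 h3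
    1 ((p - 1) * c' * nw) (nw * nw) (fun s hs => by
      have h4 := hrel s hs
      rw [Nat.cast_mul, Nat.cast_mul, h47_pred_cast]
      push_cast
      linear_combination (nw : ZMod p) * (nw : ZMod p) * h4)
  have hθ1 : ‖θ‖ = 1 := h47_norm_theta p π hπ.2.1 τ θ hθπ
  have hθi : ‖θ ^ i‖ = 1 := by rw [norm_pow, hθ1, one_pow]
  obtain ⟨w, hw⟩ : ∃ w, w = θ ^ (e / (p - 1)) := ⟨_, rfl⟩
  rw [← hw] at hwθ ⊢
  have hw1 : ‖w‖ = 1 := by rw [hw, norm_pow, hθ1, one_pow]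
  have hc1 : ‖(c' : Ω)‖ ≤ 1 := h28_norm_natCast_le p c'
  have hn1 : ‖(nw : Ω)‖ ≤ 1 := h28_norm_natCast_le p nw
  have e1 : θ ^ i * θ ^ i - (c' : Ω) * (w * θ ^ i) + w * w =
      (((1 : ℕ) : Ω) * (θ ^ i * θ ^ i) + (((p - 1) * c' * nw : ℕ) : Ω) * θ ^ i +
        ((nw * nw : ℕ) : Ω)) +
      ((-((c' : Ω) * θ ^ i * (w - (nw : Ω))) + -((p : Ω) * ((c' * nw : ℕ) : Ω) * θ ^ i)) +
        (w - (nw : Ω)) * (w + (nw : Ω))) := by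
    rw [Nat.cast_mul, Nat.cast_mul, Nat.cast_sub hp.one_le]
    push_cast
    ring
  rw [e1]
  refine lt_of_le_of_lt (IsUltrametricDist.norm_add_le_max _ _) (max_lt hM ?_)
  refine lt_of_le_of_lt (IsUltrametricDist.norm_add_le_max _ _) (max_lt ?_ ?_)
  · refine lt_of_le_of_lt (IsUltrametricDist.norm_add_le_max _ _) (max_lt ?_ ?_)
    · rw [norm_neg, norm_mul, norm_mul, hθi, mul_one]
      calc ‖(c' : Ω)‖ * ‖w - (nw : Ω)‖ ≤ 1 * ‖w - (nw : Ω)‖ :=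
            mul_le_mul_of_nonneg_right hc1 (norm_nonneg _)
        _ = ‖w - (nw : Ω)‖ := one_mul _
        _ < 1 := hwθ
    · rw [norm_neg, norm_mul, hθi, mul_one]
      exact h47_norm_p_nat_lt p (c' * nw)
  · rw [norm_mul]
    have h5 : ‖w + (nw : Ω)‖ ≤ 1 :=
      le_trans (IsUltrametricDist.norm_add_le_max _ _) (max_le hw1.le hn1)
    calc ‖w - (nw : Ω)‖ * ‖w + (nw : Ω)‖ ≤ ‖w - (nw : Ω)‖ * 1 :=
          mul_le_mul_of_nonneg_left h5 (norm_nonneg _)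
      _ = ‖w - (nw : Ω)‖ := mul_one _
      _ < 1 := hwθ

/-- **(C-gen), second half**: the level equation has at most one solution
(`c' ≢ ±2 mod p`). -/
theorem h47_level_eq_unique (hp2 : p ≠ 2) (θ : Ω) (e : ℕ) (he0 : 0 < e) (hpe : (p - 1) ∣ e)
    (hpe' : ¬ p ∣ e) (hθe : θ ^ e = 1) (hθe' : ∀ j : ℕ, 0 < j → j < e → θ ^ j ≠ 1)
    (c' : ℕ) (hc2 : ¬ ‖(c' : Ω) - 2‖ < 1) (hc2' : ¬ ‖(c' : Ω) + 2‖ < 1)
    (i i' : ℕ) (hei : e ≤ i) (hi : i < e + e / (p - 1)) (hei' : e ≤ i')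
    (hi' : i' < e + e / (p - 1))
    (hE : ‖θ ^ i * θ ^ i - (c' : Ω) * (θ ^ (e / (p - 1)) * θ ^ i) +
        θ ^ (e / (p - 1)) * θ ^ (e / (p - 1))‖ < 1)
    (hE' : ‖θ ^ i' * θ ^ i' - (c' : Ω) * (θ ^ (e / (p - 1)) * θ ^ i') +
        θ ^ (e / (p - 1)) * θ ^ (e / (p - 1))‖ < 1) : i = i' := by
  have hp : p.Prime := Fact.out
  have hord : orderOf θ = e := h47_theta_order p θ e he0 hθe hθe'
  have hθ1 : ‖θ‖ = 1 := h28_norm_root p e he0 θ hθe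
  obtain ⟨w, hw⟩ : ∃ w, w = θ ^ (e / (p - 1)) := ⟨_, rfl⟩
  rw [← hw] at hE hE'
  have hw1 : ‖w‖ = 1 := by rw [hw, norm_pow, hθ1, one_pow]
  have hw0 : w ≠ 0 := by
    intro h; rw [h, norm_zero] at hw1; exact zero_ne_one hw1
  have hwe : w ^ e = 1 := by rw [hw, ← pow_mul, mul_comm, pow_mul, hθe, one_pow]
  have hwi1 : ‖w⁻¹‖ = 1 := by rw [norm_inv, hw1, inv_one]
  have hwie : (w⁻¹) ^ e = 1 := by rw [inv_pow, hwe, inv_one]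
  -- the normalised solutions
  have key : ∀ j : ℕ, ‖θ ^ j * θ ^ j - (c' : Ω) * (w * θ ^ j) + w * w‖ < 1 →
      ‖(θ ^ j * w⁻¹) * (θ ^ j * w⁻¹) - (c' : Ω) * (θ ^ j * w⁻¹) + 1‖ < 1 := by
    intro j hj
    have e1 : (θ ^ j * w⁻¹) * (θ ^ j * w⁻¹) - (c' : Ω) * (θ ^ j * w⁻¹) + 1 =
        (θ ^ j * θ ^ j - (c' : Ω) * (w * θ ^ j) + w * w) * (w⁻¹ * w⁻¹) := by
      field_simp
    rw [e1, norm_mul, norm_mul, hwi1, mul_one, mul_one]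
    exact hj
  have hroot : ∀ j : ℕ, (θ ^ j * w⁻¹) ^ e = 1 := by
    intro j
    rw [mul_pow, hwie, mul_one, ← pow_mul, mul_comm, pow_mul, hθe, one_pow]
  have hnorm : ∀ j : ℕ, ‖θ ^ j * w⁻¹‖ = 1 := by
    intro j
    rw [norm_mul, norm_pow, hθ1, one_pow, hwi1, mul_one]
  obtain ⟨ϑ, hϑ⟩ : ∃ ϑ, ϑ = θ ^ i * w⁻¹ := ⟨_, rfl⟩
  obtain ⟨ϑ', hϑ'⟩ : ∃ ϑ', ϑ' = θ ^ i' * w⁻¹ := ⟨_, rfl⟩
  have hQ : ‖ϑ * ϑ - (c' : Ω) * ϑ + 1‖ < 1 := by rw [hϑ]; exact key i hE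
  have hQ' : ‖ϑ' * ϑ' - (c' : Ω) * ϑ' + 1‖ < 1 := by rw [hϑ']; exact key i' hE'
  have hϑe : ϑ ^ e = 1 := by rw [hϑ]; exact hroot i
  have hϑe' : ϑ' ^ e = 1 := by rw [hϑ']; exact hroot i'
  have hϑ1 : ‖ϑ‖ = 1 := by rw [hϑ]; exact hnorm i
  have hϑ1' : ‖ϑ'‖ = 1 := by rw [hϑ']; exact hnorm i'
  have hϑ0 : ϑ ≠ 0 := by
    intro h; rw [h, norm_zero] at hϑ1; exact zero_ne_one hϑ1
  have hθi : θ ^ i = w * ϑ := by rw [hϑ]; field_simp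
  have hθi' : θ ^ i' = w * ϑ' := by rw [hϑ']; field_simp
  -- `ϑ² ≠ 1`
  have hϑϑ : ϑ * ϑ ≠ 1 := by
    intro h
    have h4 : (ϑ - 1) * (ϑ + 1) = 0 := by
      have : (ϑ - 1) * (ϑ + 1) = ϑ * ϑ - 1 := by ring
      rw [this, h, sub_self]
    rcases mul_eq_zero.1 h4 with h5 | h5
    · have h6 : ϑ = 1 := sub_eq_zero.1 h5
      rw [h6] at hQ
      apply hc2
      have e2 : (c' : Ω) - 2 = -((1 : Ω) * 1 - (c' : Ω) * 1 + 1) := by ring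
      rw [e2, norm_neg]; exact hQ
    · have h6 : ϑ = -1 := eq_neg_of_add_eq_zero_left h5
      rw [h6] at hQ
      apply hc2'
      have e2 : (c' : Ω) + 2 = (-1 : Ω) * (-1) - (c' : Ω) * (-1) + 1 := by ring
      rw [e2]; exact hQ
  -- `ϑ' = ϑ` or `ϑ' ϑ = 1`
  have hprod : ‖(ϑ' - ϑ) * (ϑ' * ϑ - 1)‖ < 1 := by
    have e3 : (ϑ' - ϑ) * (ϑ' * ϑ - 1) =
        ϑ * (ϑ' * ϑ' - (c' : Ω) * ϑ' + 1) + -(ϑ' * (ϑ * ϑ - (c' : Ω) * ϑ + 1)) := by ring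
    rw [e3]
    refine lt_of_le_of_lt (IsUltrametricDist.norm_add_le_max _ _) (max_lt ?_ ?_)
    · rw [norm_mul, hϑ1, one_mul]; exact hQ'
    · rw [norm_neg, norm_mul, hϑ1', one_mul]; exact hQ
  have hcases : ϑ' = ϑ ∨ ϑ' * ϑ = 1 := by
    by_cases h7 : ‖ϑ' - ϑ‖ < 1
    · exact Or.inl (h28_root_eq_of_close p e he0 hpe' ϑ ϑ' hϑe hϑe' h7)
    · right
      have h8 : ‖ϑ' * ϑ - 1‖ < 1 := by
        by_contra h9
        rw [not_lt] at h7 h9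
        rw [norm_mul] at hprod
        exact absurd hprod (not_lt.2 (one_le_mul_of_one_le_of_one_le h7 h9))
      exact h28_root_eq_of_close p e he0 hpe' 1 (ϑ' * ϑ) (one_pow _)
        (by rw [mul_pow, hϑe, hϑe', one_mul]) h8
  have hA := h19_irr_arith_A θ ϑ w e hp hp2 hpe he0 hord hw hϑϑ hϑ0 i i' hei hi.le hei' hi'.le
    (Or.inl hθi) (by
      rcases hcases with h | h
      · left; rw [hθi', h]
      · right; rw [hθi', mul_assoc, h, mul_one])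
  exact hA.1

/-! ## counting -/

/-- closure of a family of characters under natural multiples. -/
theorem h47_X_nsmul {Γ : Type*} (X : (Γ → ZMod p) → Prop) (hX0 : X (fun _ => 0))
    (hXadd : ∀ χ χ', X χ → X χ' → X (fun s => χ s + χ' s)) (χ : Γ → ZMod p) (hχ : X χ)
    (n : ℕ) : X (fun s => (n : ZMod p) * χ s) := by
  induction n with
  | zero =>
    have e : (fun s => ((0 : ℕ) : ZMod p) * χ s) = fun _ => 0 := by funext s; simp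
    rw [e]; exact hX0
  | succ n ih =>
    have e : (fun s => ((n + 1 : ℕ) : ZMod p) * χ s) = fun s => (n : ZMod p) * χ s + χ s := by
      funext s; push_cast; ring
    rw [e]; exact hXadd _ _ ih hχ

theorem h47_X_smul {Γ : Type*} (X : (Γ → ZMod p) → Prop) (hX0 : X (fun _ => 0))
    (hXadd : ∀ χ χ', X χ → X χ' → X (fun s => χ s + χ' s)) (χ : Γ → ZMod p) (hχ : X χ)
    (j : ZMod p) : X (fun s => j * χ s) := by
  have : NeZero p := ⟨(Fact.out : p.Prime).ne_zero⟩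
  have h := h47_X_nsmul p X hX0 hXadd χ hχ j.val
  rw [ZMod.natCast_zmod_val] at h
  exact h

/-- the common kernel of two characters has index `≤ p²`. -/
theorem h47_index_two {Γ : Type*} [Group Γ] (I : Subgroup Γ) (χ₁ χ₂ : Γ → ZMod p)
    (h₁ : ∀ s ∈ I, ∀ t ∈ I, χ₁ (s * t) = χ₁ s + χ₁ t)
    (h₂ : ∀ s ∈ I, ∀ t ∈ I, χ₂ (s * t) = χ₂ s + χ₂ t) :
    ∃ K : Subgroup Γ, K ≤ I ∧ K.relIndex I ≠ 0 ∧ K.relIndex I ≤ p ^ 2 ∧
      ∀ s : Γ, s ∈ K ↔ s ∈ I ∧ χ₁ s = 0 ∧ χ₂ s = 0 := by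
  have : NeZero p := ⟨(Fact.out : p.Prime).ne_zero⟩
  let f : ↥I →* Multiplicative (ZMod p × ZMod p) :=
    { toFun := fun s => Multiplicative.ofAdd (χ₁ s.1, χ₂ s.1)
      map_one' := by
        have e1 : χ₁ 1 = 0 := by
          have h := h₁ 1 I.one_mem 1 I.one_mem
          rw [mul_one] at h
          exact (add_eq_left.1 h.symm)
        have e2 : χ₂ 1 = 0 := by
          have h := h₂ 1 I.one_mem 1 I.one_mem
          rw [mul_one] at h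
          exact (add_eq_left.1 h.symm)
        show Multiplicative.ofAdd (χ₁ ((1 : ↥I) : Γ), χ₂ ((1 : ↥I) : Γ)) = 1
        rw [Subgroup.coe_one, e1, e2]
        rfl
      map_mul' := by
        intro s t
        show Multiplicative.ofAdd (χ₁ ((s * t : ↥I) : Γ), χ₂ ((s * t : ↥I) : Γ)) =
          Multiplicative.ofAdd (χ₁ s.1, χ₂ s.1) * Multiplicative.ofAdd (χ₁ t.1, χ₂ t.1)
        rw [Subgroup.coe_mul, h₁ s.1 s.2 t.1 t.2, h₂ s.1 s.2 t.1 t.2]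
        rfl }
  have hf : ∀ s : ↥I, f s = 1 ↔ χ₁ s.1 = 0 ∧ χ₂ s.1 = 0 := by
    intro s
    show Multiplicative.ofAdd (χ₁ s.1, χ₂ s.1) = Multiplicative.ofAdd (0, 0) ↔ _
    rw [Multiplicative.ofAdd.injective.eq_iff, Prod.mk.injEq]
  have e : ((f.ker).map I.subtype).subgroupOf I = f.ker :=
    Subgroup.comap_map_eq_self_of_injective (Subgroup.subtype_injective I) _
  have hidx : ((f.ker).map I.subtype).relIndex I = Nat.card f.range := by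
    rw [Subgroup.relIndex, e, Subgroup.index_ker]
  have hcard : Nat.card (Multiplicative (ZMod p × ZMod p)) = p ^ 2 := by
    rw [Nat.card_congr Multiplicative.toAdd, Nat.card_prod, Nat.card_zmod, sq]
  refine ⟨(f.ker).map I.subtype, ?_, ?_, ?_, ?_⟩
  · exact Subgroup.map_subtype_le _
  · rw [hidx]; exact Nat.card_pos.ne'
  · rw [hidx, ← hcard]; exact Nat.card_le_card_of_injective _ Subtype.val_injective
  · intro s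
    rw [Subgroup.mem_map]
    constructor
    · rintro ⟨x, hx, rfl⟩
      exact ⟨x.2, (hf x).1 (MonoidHom.mem_ker.1 hx)⟩
    · rintro ⟨hs, h⟩
      exact ⟨⟨s, hs⟩, MonoidHom.mem_ker.2 ((hf ⟨s, hs⟩).2 h), rfl⟩

/-- a family of characters (closed under sums) with at most `p²` restrictions to `I` is killed
by a subgroup of `I` of index `≤ p²`. -/
theorem h47_small_family {Γ : Type*} [Group Γ] (I : Subgroup Γ) (X : (Γ → ZMod p) → Prop)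
    (hX0 : X (fun _ => 0))
    (hXadd : ∀ χ χ', X χ → X χ' → X (fun s => χ s + χ' s))
    (hadd : ∀ χ, X χ → ∀ s ∈ I, ∀ t ∈ I, χ (s * t) = χ s + χ t)
    {ι : Type*} (S : Finset ι) (hS : S.card ≤ p ^ 2) (σ : (Γ → ZMod p) → ι)
    (hσS : ∀ χ, X χ → σ χ ∈ S)
    (hσ : ∀ χ χ', X χ → X χ' → σ χ = σ χ' → ∀ s ∈ I, χ s = χ' s) :
    ∃ K : Subgroup Γ, K ≤ I ∧ K.relIndex I ≠ 0 ∧ K.relIndex I ≤ p ^ 2 ∧
      ∀ χ, X χ → ∀ s ∈ K, χ s = 0 := by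
  classical
  have hp : p.Prime := Fact.out
  have : NeZero p := ⟨hp.ne_zero⟩
  have hcomb : ∀ χ₁ χ₂, X χ₁ → X χ₂ → ∀ j l : ZMod p, X (fun s => j * χ₁ s + l * χ₂ s) :=
    fun χ₁ χ₂ h₁ h₂ j l => hXadd _ _ (h47_X_smul p X hX0 hXadd χ₁ h₁ j)
      (h47_X_smul p X hX0 hXadd χ₂ h₂ l)
  by_cases hA : ∀ χ, X χ → ∀ s ∈ I, χ s = 0
  · refine ⟨I, le_rfl, ?_, ?_, hA⟩
    · rw [Subgroup.relIndex_self]; exact one_ne_zero
    · rw [Subgroup.relIndex_self]; exact Nat.one_le_pow _ _ hp.pos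
  push Not at hA
  obtain ⟨χ₁, hχ₁, g, hg, hg0⟩ := hA
  by_cases hB : ∃ χ₂, X χ₂ ∧ ∀ j l j' l' : ZMod p,
      (∀ s ∈ I, j * χ₁ s + l * χ₂ s = j' * χ₁ s + l' * χ₂ s) → j = j' ∧ l = l'
  · obtain ⟨χ₂, hχ₂, hinj⟩ := hB
    obtain ⟨K, hKI, hK0, hKp, hKmem⟩ := h47_index_two p I χ₁ χ₂ (hadd χ₁ hχ₁) (hadd χ₂ hχ₂)
    refine ⟨K, hKI, hK0, hKp, ?_⟩
    intro χ hχ s hs
    let Φ : ZMod p × ZMod p → ι := fun jl => σ (fun s => jl.1 * χ₁ s + jl.2 * χ₂ s)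
    have hΦinj : Function.Injective Φ := by
      rintro ⟨j, l⟩ ⟨j', l'⟩ h
      have h1 := hσ _ _ (hcomb χ₁ χ₂ hχ₁ hχ₂ j l) (hcomb χ₁ χ₂ hχ₁ hχ₂ j' l') h
      obtain ⟨e1, e2⟩ := hinj j l j' l' h1
      rw [e1, e2]
    have himg : Finset.univ.image Φ = S := by
      refine Finset.eq_of_subset_of_card_le ?_ ?_
      · intro x hx
        obtain ⟨jl, -, rfl⟩ := Finset.mem_image.1 hx
        exact hσS _ (hcomb χ₁ χ₂ hχ₁ hχ₂ jl.1 jl.2)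
      · rw [Finset.card_image_of_injective _ hΦinj, Finset.card_univ, Fintype.card_prod,
          ZMod.card, ← sq]
        exact hS
    have hmem : σ χ ∈ Finset.univ.image Φ := by rw [himg]; exact hσS χ hχ
    obtain ⟨⟨j, l⟩, -, hjl⟩ := Finset.mem_image.1 hmem
    have h2 := hσ _ _ (hcomb χ₁ χ₂ hχ₁ hχ₂ j l) hχ hjl s (hKI hs)
    obtain ⟨-, e1, e2⟩ := (hKmem s).1 hs
    rw [← h2, e1, e2, mul_zero, mul_zero, add_zero]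
  · push Not at hB
    obtain ⟨K, hKI, hK0, hKp, hKmem⟩ := h47_index_two p I χ₁ χ₁ (hadd χ₁ hχ₁) (hadd χ₁ hχ₁)
    refine ⟨K, hKI, hK0, hKp, ?_⟩
    intro χ₂ hχ₂ s hs
    obtain ⟨j, l, j', l', hrel, hne⟩ := hB χ₂ hχ₂
    obtain ⟨hsI, e1, -⟩ := (hKmem s).1 hs
    have hll : l ≠ l' := by
      intro hll
      have hjj : j = j' := by
        have h3 := hrel g hg
        rw [hll] at h3
        have h4 : (j - j') * χ₁ g = 0 := by linear_combination h3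
        rcases mul_eq_zero.1 h4 with h5 | h5
        · exact sub_eq_zero.1 h5
        · exact absurd h5 hg0
      exact hne hjj hll
    have h3 := hrel s hsI
    rw [e1, mul_zero, mul_zero, zero_add, zero_add] at h3
    have h4 : (l - l') * χ₂ s = 0 := by linear_combination h3
    rcases mul_eq_zero.1 h4 with h5 | h5
    · exact absurd (sub_eq_zero.1 h5) hll
    · exact h5

/-- **(C-gen), the count.** A family `X` of characters of `Gal(Ω/F)`, closed under sums, with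
normal-form Kummer generators, whose top classes vanish on `I1`, and satisfying
`χ^{ττ} + χ = c' χ^τ` with `c' ≢ ±2`, is killed by a subgroup of `I1` of index `≤ p²`
(`S` = a set of representatives of the residue field of `F`, at most `p²` of them). -/
theorem h47_irr5_count (hp2 : p ≠ 2) (F : Fld) (π : Ω) (hπ : h78_IsUnif p F π) (ζ : Ω)
    (hζp : ζ ^ p = 1) (τ : h78_G p) (hτF : ∀ z ∈ F, τ z ∈ F) (nw : ℕ) (hτζ : τ ζ = ζ ^ nw)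
    (hτres : ∀ x ∈ F, ‖x‖ ≤ 1 → ‖τ x - x‖ < 1) (θ : Ω) (hθF : θ ∈ F)
    (hθπ : ‖τ π - θ * π‖ < ‖π‖)
    (e : ℕ) (he : ‖π‖ ^ e = (p : ℝ)⁻¹) (hpe : (p - 1) ∣ e) (hpe' : ¬ p ∣ e) (hθe : θ ^ e = 1)
    (hθe' : ∀ j : ℕ, 0 < j → j < e → θ ^ j ≠ 1) (hwθ : ‖θ ^ (e / (p - 1)) - (nw : Ω)‖ < 1)
    (c' : ℕ) (hc2 : ¬ ‖(c' : Ω) - 2‖ < 1) (hc2' : ¬ ‖(c' : Ω) + 2‖ < 1)
    (I1 : Subgroup (h78_G p)) (hI1 : ∀ s ∈ I1, ∀ z ∈ F, s z = z)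
    (S : Finset Ω) (hScard : S.card ≤ p ^ 2)
    (hS : ∀ c ∈ F, ‖c‖ ≤ 1 → ∃ s ∈ S, ‖c - s‖ < 1)
    (X : (h78_G p → ZMod p) → Prop) (hX0 : X (fun _ => 0))
    (hXadd : ∀ χ χ', X χ → X χ' → X (fun s => χ s + χ' s))
    (hadd : ∀ χ, X χ → ∀ s t : h78_G p, (∀ z ∈ F, s z = z) → (∀ z ∈ F, t z = z) →
      χ (s * t) = χ s + χ t)
    (hgen : ∀ χ, X χ → ∃ u α : Ω, h47_KG p F ζ χ u α ∧ ‖u - 1‖ ≤ (p : ℝ)⁻¹ ∧
      ((p : ℝ) ^ p * ‖u - 1‖ ^ (p - 1) ≤ 1 ∨ ∀ z ∈ F, z ≠ 0 → ‖u - 1‖ ≠ ‖z‖ ^ p))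
    (htop : ∀ χ, X χ → ∀ u α : Ω, h47_KG p F ζ χ u α →
      (p : ℝ) ^ p * ‖u - 1‖ ^ (p - 1) ≤ 1 → ∀ s ∈ I1, χ s = 0)
    (hrel : ∀ χ, X χ → ∀ s : h78_G p, (∀ z ∈ F, s z = z) →
      χ (τ⁻¹ * (τ⁻¹ * s * τ) * τ) + χ s = (c' : ZMod p) * χ (τ⁻¹ * s * τ)) :
    ∃ K1 : Subgroup (h78_G p), K1 ≤ I1 ∧ K1.relIndex I1 ≠ 0 ∧ K1.relIndex I1 ≤ p ^ 2 ∧
      ∀ χ, X χ → ∀ s ∈ K1, χ s = 0 := by
  classical
  have hp : p.Prime := Fact.out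
  have hppos : (0 : ℝ) < p := Nat.cast_pos.2 hp.pos
  have he0 : 0 < e := h47_e_pos p π e he
  by_cases hNT : ∃ χ, X χ ∧ ∃ u α : Ω, h47_KG p F ζ χ u α ∧ ‖u - 1‖ ≤ (p : ℝ)⁻¹ ∧
      1 < (p : ℝ) ^ p * ‖u - 1‖ ^ (p - 1) ∧ ∀ z ∈ F, z ≠ 0 → ‖u - 1‖ ≠ ‖z‖ ^ p
  swap
  · refine ⟨I1, le_rfl, ?_, ?_, ?_⟩
    · rw [Subgroup.relIndex_self]; exact one_ne_zero
    · rw [Subgroup.relIndex_self]; exact Nat.one_le_pow _ _ hp.pos
    · intro χ hχ s hs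
      obtain ⟨u, α, hKG, h1, hcase⟩ := hgen χ hχ
      by_cases ht : (p : ℝ) ^ p * ‖u - 1‖ ^ (p - 1) ≤ 1
      · exact htop χ hχ u α hKG ht s hs
      · rcases hcase with h | h
        · exact absurd h ht
        · exact absurd ⟨χ, hχ, u, α, hKG, h1, not_le.1 ht, h⟩ hNT
  obtain ⟨χ₀, hχ₀, u₀, α₀, hKG₀, h1₀, h2₀, h3₀⟩ := hNT
  obtain ⟨i₀, hi₀, hei₀, hilt₀, hE₀⟩ := h47_level_gen p F π hπ ζ hζp τ hτF nw hτζ hτres θ hθF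
    hθπ e he hpe hwθ c' χ₀ u₀ α₀ hKG₀ h1₀ h2₀ h3₀ (hrel χ₀ hχ₀)
  obtain ⟨r₀, hr₀⟩ : ∃ r₀, r₀ = ‖u₀ - 1‖ := ⟨_, rfl⟩
  rw [← hr₀] at h1₀ h2₀ h3₀ hi₀
  have hπF := hπ.1
  have hπ0 := hπ.2.1
  have hπpos : 0 < ‖π‖ := norm_pos_iff.2 hπ0
  have hr₀pos : 0 < r₀ := by rw [hi₀]; exact pow_pos hπpos _
  have hr₀1 : r₀ < 1 :=
    lt_of_le_of_lt h1₀ (inv_lt_one_of_one_lt₀ (by exact_mod_cast hp.one_lt))
  have hA : ∀ χ, X χ → ∃ x ∈ F, ‖x‖ ≤ r₀ ∧ h47_Lev p F ζ χ r₀ x ∧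
      (‖x‖ < r₀ → ∀ s ∈ I1, χ s = 0) := by
    intro χ hχ
    obtain ⟨u, α, hKG, h1, hcase⟩ := hgen χ hχ
    by_cases ht : (p : ℝ) ^ p * ‖u - 1‖ ^ (p - 1) ≤ 1
    · refine ⟨0, F.zero_mem, by rw [norm_zero]; exact hr₀pos.le, ⟨u, α, hKG, ?_⟩,
        fun _ => htop χ hχ u α hKG ht⟩
      rw [sub_zero]
      by_contra hcon
      rw [not_lt] at hcon
      have h5 : (p : ℝ) ^ p * r₀ ^ (p - 1) ≤ (p : ℝ) ^ p * ‖u - 1‖ ^ (p - 1) :=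
        mul_le_mul_of_nonneg_left (pow_le_pow_left₀ hr₀pos.le hcon _) (pow_nonneg hppos.le _)
      linarith
    · have h3 : ∀ z ∈ F, z ≠ 0 → ‖u - 1‖ ≠ ‖z‖ ^ p := by
        rcases hcase with h | h
        · exact absurd h ht
        · exact h
      obtain ⟨i, hi, hei, hilt, hE⟩ := h47_level_gen p F π hπ ζ hζp τ hτF nw hτζ hτres θ hθF
        hθπ e he hpe hwθ c' χ u α hKG h1 (not_le.1 ht) h3 (hrel χ hχ)
      have hii : i = i₀ := h47_level_eq_unique p hp2 θ e he0 hpe hpe' hθe hθe' c' hc2 hc2'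
        i i₀ hei hilt hei₀ hilt₀ hE hE₀
      have hur : ‖u - 1‖ = r₀ := by rw [hi, hii, ← hi₀]
      exact ⟨u - 1, F.sub_mem hKG.1 F.one_mem, hur.le,
        ⟨u, α, hKG, by rw [sub_self, norm_zero]; exact hr₀pos⟩,
        fun hlt => absurd hlt (by rw [hur]; exact lt_irrefl _)⟩
  have hnat : ∀ (n : ℕ) (y : Ω), ‖(n : Ω) * y‖ ≤ ‖y‖ := by
    intro n y
    rw [norm_mul]
    calc ‖(n : Ω)‖ * ‖y‖ ≤ 1 * ‖y‖ :=
          mul_le_mul_of_nonneg_right (h28_norm_natCast_le p n) (norm_nonneg _)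
      _ = ‖y‖ := one_mul _
  have hB : ∀ χ, X χ → ∀ x : Ω, h47_Lev p F ζ χ r₀ x → ‖x‖ < r₀ → ∀ s ∈ I1, χ s = 0 := by
    intro χ hχ x hLev hx
    obtain ⟨x₁, hx₁F, hx₁r, hLev₁, himp⟩ := hA χ hχ
    apply himp
    have M := h47_Lev_nsmul p F ζ hζp χ r₀ x hLev hx.le hr₀1 (p - 1)
    have hpx : ‖((p - 1 : ℕ) : Ω) * x‖ < r₀ := lt_of_le_of_lt (hnat _ _) hx
    have M' := h47_Lev_add p F ζ hζp _ _ r₀ _ _ hLev₁ M hx₁r hpx.le hr₀1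
    have hU := h47_Lev_unique p F π hπ ζ _ (fun s _ => by
      show χ s + ((p - 1 : ℕ) : ZMod p) * χ s = 0
      rw [h47_pred_cast]; ring) r₀ _ M'
      (le_trans (IsUltrametricDist.norm_add_le_max _ _) (max_le hx₁r hpx.le)) h1₀ h2₀ h3₀
    have e1 : x₁ = (x₁ + ((p - 1 : ℕ) : Ω) * x) + -(((p - 1 : ℕ) : Ω) * x) := by ring
    rw [e1]
    refine lt_of_le_of_lt (IsUltrametricDist.norm_add_le_max _ _) (max_lt hU ?_)
    rw [norm_neg]; exact hpx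
  choose! xs hxsF hxsr hxsLev _ using hA
  have hcls : ∀ χ, X χ → ∃ s ∈ S, ‖xs χ / π ^ i₀ - s‖ < 1 := by
    intro χ hχ
    refine hS _ (F.div_mem (hxsF χ hχ) (pow_mem hπF i₀)) ?_
    rw [norm_div, norm_pow, ← hi₀]
    exact div_le_one_of_le₀ (hxsr χ hχ) hr₀pos.le
  let σ : (h78_G p → ZMod p) → Ω := fun χ =>
    if h : ∃ s ∈ S, ‖xs χ / π ^ i₀ - s‖ < 1 then h.choose else 0
  have hσspec : ∀ χ, X χ → σ χ ∈ S ∧ ‖xs χ / π ^ i₀ - σ χ‖ < 1 := by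
    intro χ hχ
    have h := hcls χ hχ
    simp only [σ, dif_pos h]
    exact h.choose_spec
  refine h47_small_family p I1 X hX0 hXadd
    (fun χ hχ s hs t ht => hadd χ hχ s t (hI1 s hs) (hI1 t ht)) S hScard σ
    (fun χ hχ => (hσspec χ hχ).1) ?_
  intro χ χ' hχ hχ' hσeq s hs
  have hd : ‖xs χ - xs χ'‖ < r₀ := by
    have h1 := (hσspec χ hχ).2
    have h2 := (hσspec χ' hχ').2
    rw [← hσeq] at h2
    have hπi0 : π ^ i₀ ≠ 0 := pow_ne_zero _ hπ0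
    have e1 : xs χ - xs χ' =
        π ^ i₀ * ((xs χ / π ^ i₀ - σ χ) + -(xs χ' / π ^ i₀ - σ χ)) := by
      field_simp; ring
    rw [e1, norm_mul, norm_pow, ← hi₀]
    calc r₀ * ‖(xs χ / π ^ i₀ - σ χ) + -(xs χ' / π ^ i₀ - σ χ)‖ < r₀ * 1 :=
          mul_lt_mul_of_pos_left (lt_of_le_of_lt (IsUltrametricDist.norm_add_le_max _ _)
            (max_lt h1 (by rw [norm_neg]; exact h2))) hr₀pos
      _ = r₀ := mul_one _
  have hψ : X (fun s => χ s + ((p - 1 : ℕ) : ZMod p) * χ' s) :=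
    hXadd _ _ hχ (h47_X_nsmul p X hX0 hXadd χ' hχ' (p - 1))
  have M := h47_Lev_nsmul p F ζ hζp χ' r₀ _ (hxsLev χ' hχ') (hxsr χ' hχ') hr₀1 (p - 1)
  have hpx : ‖((p - 1 : ℕ) : Ω) * xs χ'‖ ≤ r₀ := le_trans (hnat _ _) (hxsr χ' hχ')
  have M' := h47_Lev_add p F ζ hζp _ _ r₀ _ _ (hxsLev χ hχ) M (hxsr χ hχ) hpx hr₀1
  have hsmall : ‖xs χ + ((p - 1 : ℕ) : Ω) * xs χ'‖ < r₀ := by
    have e1 : xs χ + ((p - 1 : ℕ) : Ω) * xs χ' = (xs χ - xs χ') + (p : Ω) * xs χ' := by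
      rw [Nat.cast_sub hp.one_le]; push_cast; ring
    rw [e1]
    refine lt_of_le_of_lt (IsUltrametricDist.norm_add_le_max _ _) (max_lt hd ?_)
    rw [norm_mul]
    have hpn : ‖(p : Ω)‖ < 1 := by
      rw [h28_norm_p]; exact inv_lt_one_of_one_lt₀ (by exact_mod_cast hp.one_lt)
    calc ‖(p : Ω)‖ * ‖xs χ'‖ ≤ ‖(p : Ω)‖ * r₀ :=
          mul_le_mul_of_nonneg_left (hxsr χ' hχ') (norm_nonneg _)
      _ < 1 * r₀ := mul_lt_mul_of_pos_right hpn hr₀pos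
      _ = r₀ := one_mul _
  have h0 : χ s + ((p - 1 : ℕ) : ZMod p) * χ' s = 0 := hB _ hψ _ M' hsmall s hs
  rw [h47_pred_cast] at h0
  linear_combination h0

end Fermat.Agent.S56
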