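import Fermat.Agent.S56.h64_RedCountGen

/-!
# S56 / W3 / E-RED : the count in NORM language (helper64)

`Ω` an ultrametric normed field with `‖p‖ < 1` (e.g. `PadicAlgCl p`).  Leading coefficients are
elements of the unit ball of `Ω`, defined and additive only modulo `{‖x‖ < 1}`.
`h64_red_finrank_norm` / `h64_red_finrank_rel` are the count `h64_red_finrank_gen` for such data:
no residue field has to be constructed by the consumer.
-/

set_option autoImplicit false
set_option linter.unusedSectionVars false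

namespace Fermat.Agent.S56

section Ball

variable (Ω : Type*) [NormedField Ω] [IsUltrametricDist Ω]

/-- the unit ball of `Ω` as a valuation subring. -/
noncomputable def h64_ball : ValuationSubring Ω :=
  (NormedField.valuation (K := Ω)).valuationSubring

variable {Ω}

theorem h64_mem_ball (x : Ω) : x ∈ h64_ball Ω ↔ ‖x‖ ≤ 1 := by
  rw [h64_ball, Valuation.mem_valuationSubring_iff, NormedField.valuation_apply,
    ← NNReal.coe_le_coe, coe_nnnorm, NNReal.coe_one]

theorem h64_residue_eq_zero_iff (x : h64_ball Ω) :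
    IsLocalRing.residue (h64_ball Ω) x = 0 ↔ ‖(x : Ω)‖ < 1 := by
  rw [IsLocalRing.residue_eq_zero_iff, IsLocalRing.mem_maximalIdeal, mem_nonunits_iff]
  have hx1 : ‖(x : Ω)‖ ≤ 1 := (h64_mem_ball _).1 x.2
  constructor
  · intro hnu
    by_contra hlt
    have h1 : ‖(x : Ω)‖ = 1 := le_antisymm hx1 (not_lt.1 hlt)
    have hx0 : (x : Ω) ≠ 0 := by
      intro h0
      rw [h0, norm_zero] at h1
      exact zero_ne_one h1
    have hinv : (x : Ω)⁻¹ ∈ h64_ball Ω := by
      rw [h64_mem_ball, norm_inv, h1, inv_one]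
    exact hnu (IsUnit.of_mul_eq_one (⟨(x : Ω)⁻¹, hinv⟩ : h64_ball Ω)
      (Subtype.ext (mul_inv_cancel₀ hx0)))
  · intro hlt hu
    obtain ⟨y, hy⟩ := hu.exists_right_inv
    have h1 : ‖(x : Ω)‖ * ‖(y : Ω)‖ = 1 := by
      rw [← norm_mul]
      have := congrArg (fun z : h64_ball Ω => ‖(z : Ω)‖) hy
      simpa using this
    have hy1 : ‖(y : Ω)‖ ≤ 1 := (h64_mem_ball _).1 y.2
    nlinarith [norm_nonneg (x : Ω), norm_nonneg (y : Ω)]

theorem h64_residue_eq_iff (x y : h64_ball Ω) :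
    IsLocalRing.residue (h64_ball Ω) x = IsLocalRing.residue (h64_ball Ω) y ↔
      ‖(x : Ω) - y‖ < 1 := by
  rw [← sub_eq_zero, ← map_sub, h64_residue_eq_zero_iff]
  rfl

end Ball

section Norm

variable (p : ℕ) [Fact p.Prime] {Ω : Type*} [NormedField Ω] [IsUltrametricDist Ω]
  {k : Type*} [Field k] [Finite k] [CharP k p]

/-- **RED-COUNT in norm language, function form.**  `t v y` in the unit ball of `Ω`, additive
in `v` and in `y` modulo `{‖x‖ < 1}`, jointly injective modulo it, and `c`-semilinear: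
`t v (c * y) ≡ (t v y) ^ p`.  Then `finrank_k V ≤ 1`. -/
theorem h64_red_finrank_norm (hp : ‖(p : Ω)‖ < 1) (c : k) {V : Type*} [AddCommGroup V]
    [Module k V] (t : V → k → Ω)
    (hint : ∀ v y, ‖t v y‖ ≤ 1)
    (haddV : ∀ v v' y, ‖t (v + v') y - (t v y + t v' y)‖ < 1)
    (haddy : ∀ v y y', ‖t v (y + y') - (t v y + t v y')‖ < 1)
    (hinj : ∀ v, (∀ y, ‖t v y‖ < 1) → v = 0)
    (hsemi : ∀ v y, ‖t v (c * y) - t v y ^ p‖ < 1) :
    Module.finrank k V ≤ 1 := by
  have hpκ : ((p : ℕ) : IsLocalRing.ResidueField (h64_ball Ω)) = 0 := by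
    have h1 : IsLocalRing.residue (h64_ball Ω) ((p : ℕ) : h64_ball Ω) = 0 := by
      rw [h64_residue_eq_zero_iff]
      simpa using hp
    rw [← h1, map_natCast]
  have hchar : CharP (IsLocalRing.ResidueField (h64_ball Ω)) p :=
    (CharP.charP_iff_prime_eq_zero (Fact.out : p.Prime)).2 hpκ
  let r : V → k → IsLocalRing.ResidueField (h64_ball Ω) := fun v y =>
    IsLocalRing.residue (h64_ball Ω) ⟨t v y, (h64_mem_ball _).2 (hint v y)⟩
  have hr_addy : ∀ v y y', r v (y + y') = r v y + r v y' := by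
    intro v y y'
    show IsLocalRing.residue (h64_ball Ω) _ =
      IsLocalRing.residue (h64_ball Ω) _ + IsLocalRing.residue (h64_ball Ω) _
    rw [← map_add, h64_residue_eq_iff]
    exact haddy v y y'
  have hr_addV : ∀ v v' y, r (v + v') y = r v y + r v' y := by
    intro v v' y
    show IsLocalRing.residue (h64_ball Ω) _ =
      IsLocalRing.residue (h64_ball Ω) _ + IsLocalRing.residue (h64_ball Ω) _
    rw [← map_add, h64_residue_eq_iff]
    exact haddV v v' y
  let T₀ : V → (k →+ IsLocalRing.ResidueField (h64_ball Ω)) := fun v =>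
    AddMonoidHom.mk' (r v) (hr_addy v)
  let T : V →+ (k →+ IsLocalRing.ResidueField (h64_ball Ω)) :=
    AddMonoidHom.mk' T₀ (fun v v' => by
      ext y
      exact hr_addV v v' y)
  refine h64_red_finrank_gen p c T ?_ ?_
  · rw [injective_iff_map_eq_zero]
    intro v hv
    apply hinj v
    intro y
    have h1 : r v y = 0 := DFunLike.congr_fun hv y
    exact (h64_residue_eq_zero_iff _).1 h1
  · intro v y
    show IsLocalRing.residue (h64_ball Ω) _ = IsLocalRing.residue (h64_ball Ω) _ ^ p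
    rw [← map_pow, h64_residue_eq_iff]
    exact hsemi v y

/-- **RED-COUNT in norm language, relation form.**  `Rel v y t` : "`t` is a leading coefficient
of the class `v` at `y`" (existence, integrality, additivity and semilinearity modulo
`{‖x‖ < 1}` for arbitrary witnesses). -/
theorem h64_red_finrank_rel (hp : ‖(p : Ω)‖ < 1) (c : k) {V : Type*} [AddCommGroup V]
    [Module k V] (Rel : V → k → Ω → Prop)
    (hex : ∀ v y, ∃ t, Rel v y t)
    (hint : ∀ v y t, Rel v y t → ‖t‖ ≤ 1)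
    (haddV : ∀ v v' y t t' t'', Rel v y t → Rel v' y t' → Rel (v + v') y t'' →
      ‖t'' - (t + t')‖ < 1)
    (haddy : ∀ v y y' t t' t'', Rel v y t → Rel v y' t' → Rel v (y + y') t'' →
      ‖t'' - (t + t')‖ < 1)
    (hinj : ∀ v, (∀ y t, Rel v y t → ‖t‖ < 1) → v = 0)
    (hsemi : ∀ v y t t', Rel v y t → Rel v (c * y) t' → ‖t' - t ^ p‖ < 1) :
    Module.finrank k V ≤ 1 := by
  choose t ht using hex
  refine h64_red_finrank_norm p hp c t (fun v y => hint v y _ (ht v y))
    (fun v v' y => haddV v v' y _ _ _ (ht v y) (ht v' y) (ht (v + v') y))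
    (fun v y y' => haddy v y y' _ _ _ (ht v y) (ht v y') (ht v (y + y')))
    (fun v hv => hinj v fun y t' ht' => ?_)
    (fun v y => hsemi v y _ _ (ht v y) (ht v (c * y)))
  -- any witness is congruent to the chosen one: additivity at `y + 0`
  have h0 : ‖t v 0‖ < 1 := hv 0
  have h1 := haddy v y 0 t' (t v 0) (t v (y + 0)) ht' (ht v 0) (ht v (y + 0))
  rw [add_zero] at h1
  have h2 : ‖t v y‖ < 1 := hv y
  have h3 : t' = -(t v y - (t' + t v 0)) + (t v y + -(t v 0)) := by ring
  rw [h3]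
  refine lt_of_le_of_lt (IsUltrametricDist.norm_add_le_max _ _) (max_lt ?_ ?_)
  · rw [norm_neg]; exact h1
  · refine lt_of_le_of_lt (IsUltrametricDist.norm_add_le_max _ _) (max_lt h2 ?_)
    rw [norm_neg]; exact h0

/-- **RED-COUNT in norm language, dual function form** (functionals `l : k →+ 𝔽_p`). -/
theorem h64_red_finrank_norm_dual (hp : ‖(p : Ω)‖ < 1) (c : k) {V : Type*} [AddCommGroup V]
    [Module k V] (t : V → (k →+ ZMod p) → Ω)
    (hint : ∀ v l, ‖t v l‖ ≤ 1)
    (haddV : ∀ v v' l, ‖t (v + v') l - (t v l + t v' l)‖ < 1)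
    (haddl : ∀ v l l', ‖t v (l + l') - (t v l + t v l')‖ < 1)
    (hinj : ∀ v, (∀ l, ‖t v l‖ < 1) → v = 0)
    (hsemi : ∀ v (l : k →+ ZMod p), ‖t v (l.comp (AddMonoidHom.mulLeft c)) - t v l ^ p‖ < 1) :
    Module.finrank k V ≤ 1 := by
  obtain ⟨l₀, hl₀⟩ := h64_exists_dual_gen (k := k) p
  let Ψ : k →+ (k →+ ZMod p) := (AddMonoidHom.compHom l₀).comp AddMonoidHom.mul
  have hΨ : ∀ y, Ψ y = l₀.comp (AddMonoidHom.mulLeft y) := fun y => rfl
  have hΨc : ∀ y, Ψ (c * y) = (Ψ y).comp (AddMonoidHom.mulLeft c) := by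
    intro y
    ext x
    simp only [hΨ, AddMonoidHom.comp_apply, AddMonoidHom.coe_mulLeft]
    rw [mul_left_comm, mul_assoc]
  refine h64_red_finrank_norm p hp c (fun v y => t v (Ψ y)) (fun v y => hint v _)
    (fun v v' y => haddV v v' _) (fun v y y' => ?_) (fun v hv => hinj v fun l => ?_)
    (fun v y => ?_)
  · show ‖t v (Ψ (y + y')) - (t v (Ψ y) + t v (Ψ y'))‖ < 1
    rw [map_add]
    exact haddl v _ _
  · obtain ⟨y, rfl⟩ := hl₀ l
    exact hv y
  · show ‖t v (Ψ (c * y)) - t v (Ψ y) ^ p‖ < 1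
    rw [hΨc]
    exact hsemi v _

/-- **RED-COUNT in norm language, dual relation form.** -/
theorem h64_red_finrank_rel_dual (hp : ‖(p : Ω)‖ < 1) (c : k) {V : Type*} [AddCommGroup V]
    [Module k V] (Rel : V → (k →+ ZMod p) → Ω → Prop)
    (hex : ∀ v l, ∃ t, Rel v l t)
    (hint : ∀ v l t, Rel v l t → ‖t‖ ≤ 1)
    (haddV : ∀ v v' l t t' t'', Rel v l t → Rel v' l t' → Rel (v + v') l t'' →
      ‖t'' - (t + t')‖ < 1)
    (haddl : ∀ v l l' t t' t'', Rel v l t → Rel v l' t' → Rel v (l + l') t'' →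
      ‖t'' - (t + t')‖ < 1)
    (hinj : ∀ v, (∀ l t, Rel v l t → ‖t‖ < 1) → v = 0)
    (hsemi : ∀ v (l : k →+ ZMod p) t t', Rel v l t →
      Rel v (l.comp (AddMonoidHom.mulLeft c)) t' → ‖t' - t ^ p‖ < 1) :
    Module.finrank k V ≤ 1 := by
  choose t ht using hex
  refine h64_red_finrank_norm_dual p hp c t (fun v l => hint v l _ (ht v l))
    (fun v v' l => haddV v v' l _ _ _ (ht v l) (ht v' l) (ht (v + v') l))
    (fun v l l' => haddl v l l' _ _ _ (ht v l) (ht v l') (ht v (l + l')))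
    (fun v hv => hinj v fun l t' ht' => ?_)
    (fun v l => hsemi v l _ _ (ht v l) (ht v _))
  have h0 : ‖t v 0‖ < 1 := hv 0
  have h1 := haddl v l 0 t' (t v 0) (t v (l + 0)) ht' (ht v 0) (ht v (l + 0))
  rw [add_zero] at h1
  have h2 : ‖t v l‖ < 1 := hv l
  have h3 : t' = -(t v l - (t' + t v 0)) + (t v l + -(t v 0)) := by ring
  rw [h3]
  refine lt_of_le_of_lt (IsUltrametricDist.norm_add_le_max _ _) (max_lt ?_ ?_)
  · rw [norm_neg]; exact h1
  · refine lt_of_le_of_lt (IsUltrametricDist.norm_add_le_max _ _) (max_lt h2 ?_)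
    rw [norm_neg]; exact h0

end Norm

end Fermat.Agent.S56
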