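import Fermat.Agent.S56.h80_ERedDefs
import Fermat.Agent.S56.h64_RedCountNorm
import Fermat.Agent.S56.h14_ERFrob
import Fermat.Agent.S56.h28_K0Unram
import Fermat.Agent.S56.h49_K0Res

/-!
# S56 / W3 / E-RED row W3-ER-C2 (helper4): the count for a trivial inertial twist

`h4_count_of` : the statement `skR_count` of helper80's E-RED skeleton, with the four
statements L1-L4 of row W3-ER-LEAD (`skR_lead_unique`, `skR_lead_add`, `skR_lead_gal`,
`skR_lead_ker`) for the given `F`, `L`, `ζ` as hypotheses.  The Frobenius lift is helper14's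
`h14_exists_frob`, the count is helper64's `h64_red_finrank_rel_dual`.

Proof.  If `c₁, c₂ ∈ Z` were independent on `N = Gal(Ω/F)`, then `V = k × k`,
`v ↦ v.1 • c₁ + v.2 • c₂`, with `Rel v l t := "t is a leading coefficient of l ∘ c_v"` would
satisfy the hypotheses of the count (additivity by L2 + L1, semilinearity by L3 at the
Frobenius + L1, injectivity by L4 + the commutator with `τ₀`), so `dim_k (k × k) ≤ 1`.
-/

set_option autoImplicit false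
set_option linter.unusedSectionVars false
set_option linter.unusedVariables false
set_option linter.style.haveILetI false

namespace Fermat.Agent.S56

variable (p : ℕ) [Fact p.Prime]

local notation "Ω" => PadicAlgCl p
local notation "Fld" => IntermediateField ℚ_[p] (PadicAlgCl p)

/-- `h80_Lead` only depends on the values of `ξ` on `Gal(Ω/F)`. -/
theorem h4_lead_congr (F L : Fld) (ζ : Ω) (ξ ξ' : h78_G p → ZMod p) (y : Ω)
    (hξ : ∀ h : h78_G p, (∀ z ∈ F, h z = z) → ξ h = ξ' h) (h : h80_Lead p F L ζ ξ y) :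
    h80_Lead p F L ζ ξ' y := by
  obtain ⟨u, α, hu, hα, hαp, hu1, hy, hk⟩ := h
  exact ⟨u, α, hu, hα, hαp, hu1, hy, fun g hg => by rw [← hξ g hg]; exact hk g hg⟩

/-- a Kummer datum has a leading coefficient. -/
theorem h4_lead_of_KD (F L : Fld) (ζ : Ω) (ξ : h78_G p → ZMod p) (h : h80_KD p F L ζ ξ) :
    ∃ y, h80_Lead p F L ζ ξ y := by
  obtain ⟨u, α, hu, hα, hαp, hu1, hk⟩ := h
  exact ⟨(u - 1) / (p : Ω), u, α, hu, hα, hαp, hu1, by simp, hk⟩

/-- an integral representative in `F` of a leading coefficient. -/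
theorem h4_lead_rep (F L : Fld) (ζ : Ω) (ξ : h78_G p → ZMod p) (y : Ω)
    (h : h80_Lead p F L ζ ξ y) :
    ∃ y₀ ∈ F, ‖y₀‖ ≤ 1 ∧ ‖y₀ - y‖ < 1 ∧ h80_Lead p F L ζ ξ y₀ := by
  obtain ⟨u, α, hu, hα, hαp, hu1, hy, hk⟩ := h
  have hp0 : (0 : ℝ) < p := by exact_mod_cast (Fact.out : p.Prime).pos
  refine ⟨(u - 1) / (p : Ω), ?_, ?_, hy, u, α, hu, hα, hαp, hu1, by simp, hk⟩
  · exact F.div_mem (F.sub_mem hu F.one_mem) (natCast_mem F p)
  · rw [norm_div, h28_norm_p, div_le_one (inv_pos.2 hp0)]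
    exact hu1

/-- leading coefficients are integral. -/
theorem h4_lead_norm_le (F L : Fld) (ζ : Ω) (ξ : h78_G p → ZMod p) (y : Ω)
    (h : h80_Lead p F L ζ ξ y) : ‖y‖ ≤ 1 := by
  obtain ⟨y₀, -, h1, h2, -⟩ := h4_lead_rep p F L ζ ξ y h
  have h3 : y = y₀ + -(y₀ - y) := by ring
  rw [h3]
  exact le_trans (IsUltrametricDist.norm_add_le_max _ _) (max_le h1 (by rw [norm_neg]; exact h2.le))

/-- additive functionals `k → 𝔽_p` separate the points of `k`. -/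
theorem h4_sep {k : Type} [Field k] [CharP k p] (x : k) (h : ∀ l : k →+ ZMod p, l x = 0) :
    x = 0 := by
  letI := ZMod.algebra k p
  exact (Module.forall_dual_apply_eq_zero_iff (ZMod p) x).1 fun f => h f.toAddMonoidHom

/-- Galois elements act on `ζ` by powers. -/
theorem h4_exists_pow (ζ : Ω) (hζp : ζ ^ p = 1) (hζ1 : ζ ≠ 1) (g : h78_G p) :
    ∃ n : ℕ, g ζ = ζ ^ n := by
  haveI : NeZero p := ⟨(Fact.out : p.Prime).ne_zero⟩
  have hprim : IsPrimitiveRoot ζ p := IsPrimitiveRoot.iff_orderOf.2 (orderOf_eq_prime hζp hζ1)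
  have h1 : (g ζ) ^ p = 1 := by rw [← map_pow, hζp, map_one]
  obtain ⟨i, -, hi⟩ := hprim.eq_pow_of_pow_eq_one h1
  exact ⟨i, hi.symm⟩

/-- **W3-ER-C2 from W3-ER-LEAD** (`skR_count` with L1-L4 as hypotheses). -/
theorem h4_count_of {k : Type} [Field k] [Finite k] [CharP k p]
    (F L : Fld) [FiniteDimensional ℚ_[p] F] [FiniteDimensional ℚ_[p] L]
    (hF : h78_Stable p F) (hL : h78_Stable p L) (hFL : F ≤ L)
    (ζ : Ω) (hζp : ζ ^ p = 1) (hζ1 : ζ ≠ 1)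
    (hL1 : ∀ (ξ : h78_G p → ZMod p) (y y' : Ω), h80_Lead p F L ζ ξ y →
      h80_Lead p F L ζ ξ y' → ‖y - y'‖ < 1)
    (hL2 : ∀ (ξ ξ' : h78_G p → ZMod p) (y y' : Ω), h80_Lead p F L ζ ξ y →
      h80_Lead p F L ζ ξ' y' → h80_Lead p F L ζ (fun g => ξ g + ξ' g) (y + y'))
    (hL3 : ∀ (g : h78_G p) (n : ℕ), g ζ = ζ ^ n → ∀ (ξ : h78_G p → ZMod p) (y : Ω),
      h80_Lead p F L ζ ξ y →
      h80_Lead p F L ζ (fun s => (n : ZMod p) * ξ (g⁻¹ * s * g)) (g y))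
    (hL4 : ∀ (ξ : h78_G p → ZMod p) (y : Ω), h80_Lead p F L ζ ξ y → ‖y‖ < 1 →
      ∀ s : h78_G p, (∀ z ∈ F, s z = z) → s ∈ h78_J p L → ξ s = 0)
    (ψ : h78_G p →* kˣ)
    (hJ : ∀ τ ∈ h78_J p L, ∀ n : ℕ, τ ζ = ζ ^ n → ((ψ τ : kˣ) : k) = (n : k))
    (τ₀ : h78_G p) (hτ₀ : τ₀ ∈ h78_J p L) (hτ₀ζ : τ₀ ζ ≠ ζ)
    (Z : Submodule k (h78_G p → k))
    (hadd : ∀ c ∈ Z, ∀ g h : h78_G p, (∀ z ∈ F, g z = z) → (∀ z ∈ F, h z = z) →
      c (g * h) = c g + c h)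
    (hconj : ∀ c ∈ Z, ∀ g h : h78_G p, (∀ z ∈ F, h z = z) →
      c (g * h * g⁻¹) = ((ψ g : kˣ) : k) * c h)
    (hKD : ∀ c ∈ Z, ∀ ℓ : k →+ ZMod p, h80_KD p F L ζ (fun h => ℓ (c h))) :
    ∀ c₁ ∈ Z, ∀ c₂ ∈ Z, ∃ t₁ t₂ : k, (t₁ ≠ 0 ∨ t₂ ≠ 0) ∧
      ∀ h : h78_G p, (∀ z ∈ F, h z = z) → t₁ * c₁ h + t₂ * c₂ h = 0 := by
  intro c₁ hc₁ c₂ hc₂
  by_contra hcon
  push Not at hcon
  have hindep : ∀ t₁ t₂ : k,
      (∀ h : h78_G p, (∀ z ∈ F, h z = z) → t₁ * c₁ h + t₂ * c₂ h = 0) → t₁ = 0 ∧ t₂ = 0 := by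
    intro t₁ t₂ h
    by_contra hne
    have h1 : t₁ ≠ 0 ∨ t₂ ≠ 0 := by
      by_contra h2
      push Not at h2
      exact hne h2
    obtain ⟨g, hg, hg'⟩ := hcon t₁ t₂ h1
    exact hg' (h g hg)
  -- the combinations `c_v = v.1 c₁ + v.2 c₂`
  let cv : k × k → (h78_G p → k) := fun v => v.1 • c₁ + v.2 • c₂
  have hcvZ : ∀ v, cv v ∈ Z := fun v => Z.add_mem (Z.smul_mem _ hc₁) (Z.smul_mem _ hc₂)
  have hcv_apply : ∀ v h, cv v h = v.1 * c₁ h + v.2 * c₂ h := fun v h => rfl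
  let Rel : k × k → (k →+ ZMod p) → Ω → Prop :=
    fun v l t => h80_Lead p F L ζ (fun h => l (cv v h)) t
  obtain ⟨φ, hφ, -⟩ := h14_exists_frob p L hL
  obtain ⟨nφ, hnφ⟩ := h4_exists_pow p ζ hζp hζ1 φ
  have hex : ∀ v l, ∃ t, Rel v l t := fun v l =>
    h4_lead_of_KD p F L ζ _ (hKD (cv v) (hcvZ v) l)
  have hfin := h64_red_finrank_rel_dual p (k := k) (h49_norm_p_lt_one p)
    ((nφ : k) * ((ψ φ⁻¹ : kˣ) : k)) (V := k × k) Rel hex ?hint ?haddV ?haddl ?hinj ?hsemi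
  · rw [Module.finrank_prod, Module.finrank_self] at hfin
    omega
  case hint =>
    intro v l t h
    exact h4_lead_norm_le p F L ζ _ t h
  case haddV =>
    intro v v' l t t' t'' h h' h''
    have h2 := hL2 _ _ t t' h h'
    have h3 : h80_Lead p F L ζ (fun g => l (cv (v + v') g)) (t + t') := by
      have e : (fun g => l (cv v g) + l (cv v' g)) = (fun g => l (cv (v + v') g)) := by
        funext g
        rw [← map_add]
        congr 1
        simp only [hcv_apply, Prod.fst_add, Prod.snd_add]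
        ring
      rw [← e]
      exact h2
    exact hL1 _ t'' (t + t') h'' h3
  case haddl =>
    intro v l l' t t' t'' h h' h''
    have h2 := hL2 _ _ t t' h h'
    exact hL1 _ t'' (t + t') h'' h2
  case hinj =>
    intro v hv
    have hadd' := hadd (cv v) (hcvZ v)
    have hconj' := hconj (cv v) (hcvZ v)
    have key : ∀ s : h78_G p, (∀ z ∈ F, s z = z) → s ∈ h78_J p L → cv v s = 0 := by
      intro s hsF hsJ
      apply h4_sep p
      intro l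
      obtain ⟨t, ht⟩ := hex v l
      exact hL4 _ t ht (hv l t ht) s hsF hsJ
    have hone : cv v 1 = 0 := by
      have h1 := hadd' 1 1 (fun z _ => rfl) (fun z _ => rfl)
      rw [mul_one] at h1
      exact left_eq_add.1 h1
    have hinvF : ∀ h : h78_G p, (∀ z ∈ F, h z = z) → ∀ z ∈ F, h⁻¹ z = z := by
      intro h hh z hz
      calc h⁻¹ z = h⁻¹ (h z) := by rw [hh z hz]
        _ = (h⁻¹ * h) z := rfl
        _ = z := by rw [inv_mul_cancel]; rfl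
    have hall : ∀ h : h78_G p, (∀ z ∈ F, h z = z) → cv v h = 0 := by
      intro h hh
      have hhi := hinvF h hh
      have hneg : cv v h⁻¹ = - cv v h := by
        have h1 := hadd' h h⁻¹ hh hhi
        rw [mul_inv_cancel, hone] at h1
        exact eq_neg_of_add_eq_zero_right h1.symm
      have hconjF : ∀ z ∈ F, (τ₀ * h * τ₀⁻¹) z = z := by
        intro z hz
        have h1 : τ₀⁻¹ z ∈ F := hF τ₀⁻¹ z hz
        calc (τ₀ * h * τ₀⁻¹) z = τ₀ (h (τ₀⁻¹ z)) := rfl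
          _ = τ₀ (τ₀⁻¹ z) := by rw [hh _ h1]
          _ = (τ₀ * τ₀⁻¹) z := rfl
          _ = z := by rw [mul_inv_cancel]; rfl
      have hcommF : ∀ z ∈ F, (τ₀ * h * τ₀⁻¹ * h⁻¹) z = z := by
        intro z hz
        calc (τ₀ * h * τ₀⁻¹ * h⁻¹) z = (τ₀ * h * τ₀⁻¹) (h⁻¹ z) := rfl
          _ = (τ₀ * h * τ₀⁻¹) z := by rw [hhi z hz]
          _ = z := hconjF z hz
      have hcommJ : τ₀ * h * τ₀⁻¹ * h⁻¹ ∈ h78_J p L := by
        have h1 : h * τ₀⁻¹ * h⁻¹ ∈ h78_J p L := by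
          show h * τ₀⁻¹ * h⁻¹ ∈ (h78_K0 p L).fixingSubgroup
          rw [IntermediateField.mem_fixingSubgroup_iff]
          intro z hz
          have h2 : h⁻¹ z ∈ h78_K0 p L := h49_K0_stable p L hL h⁻¹ z hz
          have h3 : τ₀⁻¹ (h⁻¹ z) = h⁻¹ z :=
            h49_J_fix p L τ₀⁻¹ (Subgroup.inv_mem _ hτ₀) _ h2
          calc (h * τ₀⁻¹ * h⁻¹) z = h (τ₀⁻¹ (h⁻¹ z)) := rfl
            _ = h (h⁻¹ z) := by rw [h3]
            _ = (h * h⁻¹) z := rfl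
            _ = z := by rw [mul_inv_cancel]; rfl
        have h4 : τ₀ * h * τ₀⁻¹ * h⁻¹ = τ₀ * (h * τ₀⁻¹ * h⁻¹) := by group
        rw [h4]
        exact Subgroup.mul_mem _ hτ₀ h1
      have h0 := key _ hcommF hcommJ
      rw [hadd' (τ₀ * h * τ₀⁻¹) h⁻¹ hconjF hhi, hconj' τ₀ h hh, hneg] at h0
      obtain ⟨n₀, hn₀⟩ := h4_exists_pow p ζ hζp hζ1 τ₀
      have hψ : ((ψ τ₀ : kˣ) : k) = (n₀ : k) := hJ τ₀ hτ₀ n₀ hn₀
      have hn1 : (n₀ : k) ≠ 1 := by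
        intro h1
        have h2 : ((n₀ : ℕ) : k) = ((1 : ℕ) : k) := by rw [h1, Nat.cast_one]
        have h3 : n₀ ≡ 1 [MOD p] := (CharP.natCast_eq_natCast k p).1 h2
        have h3' : n₀ % p = 1 % p := h3
        have h4 : ζ ^ n₀ = ζ ^ 1 := by
          rw [pow_eq_pow_mod n₀ hζp, h3', ← pow_eq_pow_mod 1 hζp]
        rw [pow_one] at h4
        exact hτ₀ζ (hn₀.trans h4)
      rw [hψ] at h0
      have h5 : ((n₀ : k) - 1) * cv v h = 0 := by
        rw [sub_mul, one_mul, sub_eq_add_neg]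
        exact h0
      rcases mul_eq_zero.1 h5 with h6 | h6
      · exact absurd (sub_eq_zero.1 h6) hn1
      · exact h6
    obtain ⟨h1, h2⟩ := hindep v.1 v.2 (fun h hh => by rw [← hcv_apply]; exact hall h hh)
    exact Prod.ext h1 h2
  case hsemi =>
    intro v l t t' h h'
    obtain ⟨y₀, hy₀F, hy₀1, hy₀t, hy₀⟩ := h4_lead_rep p F L ζ _ t h
    have h3 := hL3 φ nφ hnφ _ y₀ hy₀
    have h4 : h80_Lead p F L ζ
        (fun s => (l.comp (AddMonoidHom.mulLeft ((nφ : k) * ((ψ φ⁻¹ : kˣ) : k)))) (cv v s))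
        (φ y₀) := by
      refine h4_lead_congr p F L ζ _ _ _ (fun s hs => ?_) h3
      show (nφ : ZMod p) * l (cv v (φ⁻¹ * s * φ)) =
        l ((nφ : k) * ((ψ φ⁻¹ : kˣ) : k) * cv v s)
      have e1 : cv v (φ⁻¹ * s * φ) = ((ψ φ⁻¹ : kˣ) : k) * cv v s := by
        have h5 := hconj (cv v) (hcvZ v) φ⁻¹ s hs
        rwa [inv_inv] at h5
      rw [e1, ← nsmul_eq_mul, ← map_nsmul, nsmul_eq_mul, mul_assoc]
    have h5 : ‖t' - φ y₀‖ < 1 := hL1 _ t' (φ y₀) h' h4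
    have h6 : ‖φ y₀ - y₀ ^ p‖ < 1 := hφ y₀ (hFL hy₀F) hy₀1
    have h7 : ‖y₀ ^ p - t ^ p‖ < 1 :=
      lt_of_le_of_lt
        (h28_norm_pow_sub_pow_le p y₀ t hy₀1 (h4_lead_norm_le p F L ζ _ t h) p) hy₀t
    have h8 : t' - t ^ p = (t' - φ y₀) + ((φ y₀ - y₀ ^ p) + (y₀ ^ p - t ^ p)) := by ring
    rw [h8]
    exact lt_of_le_of_lt (IsUltrametricDist.norm_add_le_max _ _)
      (max_lt h5 (lt_of_le_of_lt (IsUltrametricDist.norm_add_le_max _ _) (max_lt h6 h7)))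

end Fermat.Agent.S56
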