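import Fermat.Agent.S56.h12_MidDefs
import Fermat.Agent.S56.h40_TopMain
import Fermat.Agent.S56.h40_Unpack
import Fermat.Agent.S56.h30_TWHyp
import Fermat.Agent.S56.h83_UnrLevel

/-!
# S56 / MID-TOP in hypothesis form (helper4)

The two targets `hSO` / `hFL` of `h40_S56_of_SEL` (the skeleton statements `h12_WSO` / `h12_WFL`)
are proved from the MID row statements, taken as hypotheses in their skeleton shapes:

* `h4_MidRows p` : the rows `h12_ZN_finite`, `h12_R1`, `h12_greedy` (skeleton v3: with `hp2`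
  and `hrbS₀`), `h12_count`, `h12_R3_unr`, `h12_R3_unip` (all quantified over the finite field
  `k` and the residual matrices `rb`);
* `hTW1` : the row `h12_TW1` at the given `ρbar`;
* `hord` / `hflat` : the rows `h12_R3_ord` / `h12_R3_flat`.

Everything on the frozen side that has no row is done here: the basis `bbar`, `Smin` as a
`Finset Nat.Primes`, `hdet ⟹ h12_DetCyc`, `hmin ⟹` (`rb` unramified outside `Smin`, ramified
at `Smin ∖ {p}`), `hTW ⟹ H⁰(ad⁰) = H⁰(ad⁰(1)) = 0`, and the unpacking of the two types.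
-/

set_option autoImplicit false
set_option linter.unusedSectionVars false
set_option linter.unusedVariables false
set_option linter.style.haveILetI false

namespace Fermat.Agent.S56

open Fermat.Agent.S53 Fermat.Agent.S53.Dict ExtCitation groupCohomology

local notation "M₂[" k "]" => Matrix (Fin 2) (Fin 2) k

/-! ## The row statements consumed by the top -/

/-- The MID row statements consumed by MID-TOP, in their skeleton shapes. -/
structure h4_MidRows (p : ℕ) [Fact p.Prime] : Prop where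
  ZN_finite : ∀ {k : Type} [Field k] [Finite k] [Algebra (ZMod p) k] (rb : GQ →* M₂[k])
    (hdet : h12_DetCyc p rb) (hrb : GaloisFactorsThroughFiniteLevel rb)
    (S₀ : Finset Nat.Primes) (hpS₀ : pPrime p ∈ S₀)
    (hrbS₀ : ∀ q : Nat.Primes, q ∉ S₀ → ∀ P : ValuationSubring (AlgebraicClosure ℚ),
      P.LiesOverPrime (q : ℕ) → ∀ σ ∈ P.inertiaSubgroupIn ℚ, rb σ = 1),
    Module.Finite k ↥(h12_ZN rb S₀)
  R1 : ∀ {k : Type} [Field k] [Finite k] [Algebra (ZMod p) k] (rb : GQ →* M₂[k])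
    (hp2 : p ≠ 2) (hdet : h12_DetCyc p rb)
    (hrb : GaloisFactorsThroughFiniteLevel rb)
    (hH0M : ∀ X : M₂[k], X.trace = 0 → (∀ σ, rb σ * X = X * rb σ) → X = 0)
    (hH0N : ∀ Y : M₂[k], Y.trace = 0 → (∀ σ, h12_act (rb σ) Y = Y) → Y = 0)
    (Smin' : Finset Nat.Primes) (hpS : pPrime p ∈ Smin')
    (hrbS : ∀ q : Nat.Primes, q ∉ Smin' → ∀ P : ValuationSubring (AlgebraicClosure ℚ),
      P.LiesOverPrime (q : ℕ) → ∀ σ ∈ P.inertiaSubgroupIn ℚ, rb σ = 1),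
    ∃ T0 : Finset Nat.Primes, ∀ S₀ : Finset Nat.Primes, Smin' ∪ T0 ⊆ S₀ →
      h12_ShaBound rb S₀
  greedy : ∀ {k : Type} [Field k] [Finite k] [Algebra (ZMod p) k] (rb : GQ →* M₂[k])
    (hp2 : p ≠ 2) (hdet : h12_DetCyc p rb) (hrb : GaloisFactorsThroughFiniteLevel rb)
    (S₀ : Finset Nat.Primes) (n : ℕ) (B : Finset ℕ)
    (hB : ∀ q ∈ S₀, (q : ℕ) ∈ B)
    (hrbS₀ : ∀ q : Nat.Primes, q ∉ S₀ → ∀ P : ValuationSubring (AlgebraicClosure ℚ),
      P.LiesOverPrime (q : ℕ) → ∀ σ ∈ P.inertiaSubgroupIn ℚ, rb σ = 1)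
    (hfin : Module.Finite k (↥(h12_ZN rb S₀) ⧸ (h12_BN rb).comap (h12_ZN rb S₀).subtype))
    (hTW1 : ∀ ψ ∈ h12_ZN rb S₀, ψ ∉ h12_BN rb →
      ∃ q : ℕ, q ∉ B ∧ h12_IsTWPrime p n rb q ∧ h12_FrobNonCob rb ψ q),
    ∃ qv : Fin (h12_rN rb S₀) → Nat.Primes, Function.Injective qv ∧
      (∀ i, ((qv i : ℕ)) ∉ B ∧ h12_IsTWPrime p n rb (qv i : ℕ)) ∧
      ∃ ψs : Fin (h12_rN rb S₀) → GQ → M₂[k], ∀ i, ψs i ∈ h12_ZN rb S₀ ∧
        h12_FrobNonCob rb (ψs i) (qv i : ℕ) ∧ ∀ j, j ≠ i → h12_LocCobN rb (qv j) (ψs i)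
  count : ∀ {k : Type} [Field k] [Finite k] [Algebra (ZMod p) k] (rb : GQ →* M₂[k])
    (hp2 : p ≠ 2) (hdet : h12_DetCyc p rb)
    (hrb : GaloisFactorsThroughFiniteLevel rb)
    (S₀ : Finset Nat.Primes) (hpS₀ : pPrime p ∈ S₀)
    (hrbS₀ : ∀ q : Nat.Primes, q ∉ S₀ → ∀ P : ValuationSubring (AlgebraicClosure ℚ),
      P.LiesOverPrime (q : ℕ) → ∀ σ ∈ P.inertiaSubgroupIn ℚ, rb σ = 1)
    (qv : Fin (h12_rN rb S₀) → Nat.Primes) (hqv : Function.Injective qv)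
    (hqS₀ : ∀ i, qv i ∉ S₀) (hTW : ∀ i, h12_IsTWPrime p 0 rb (qv i : ℕ))
    (ψs : Fin (h12_rN rb S₀) → GQ → M₂[k])
    (hψs : ∀ i, ψs i ∈ h12_ZN rb S₀ ∧ h12_FrobNonCob rb (ψs i) (qv i : ℕ) ∧
      ∀ j, j ≠ i → h12_LocCobN rb (qv j) (ψs i))
    (W : Submodule k (GQ → M₂[k])) (hW : W ≤ h40_TanZ rb)
    (hW0 : ∀ a ∈ W, h40_IsCob rb a → a = 0)
    (hunr : ∀ a ∈ W, h12_UnrOutside rb a (S₀ ∪ Finset.univ.image qv))
    (htr : ∀ a ∈ W, ∀ σ, (a σ * (rb σ).adjugate).trace = 0)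
    (hloc : ∀ v ∈ S₀, h12_LocBound rb v W
      (Module.finrank k (h12_H0M rb v) + (if v = pPrime p then 1 else 0)))
    (hR1 : h12_ShaBound rb S₀),
    Module.rank k W ≤ (h12_rN rb S₀ : Cardinal)
  R3_unr : ∀ {k : Type} [Field k] [Finite k] (rb : GQ →* M₂[k])
    (hrb : GaloisFactorsThroughFiniteLevel rb) (v : Nat.Primes)
    (W' : Submodule k (GQ → M₂[k])) (hW' : W' ≤ h40_TanZ rb)
    (htr : ∀ a ∈ W', ∀ σ, (a σ * (rb σ).adjugate).trace = 0)
    (hunr : ∀ a ∈ W', h12_InertiaTriv rb a (v : ℕ))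
    (h0 : ∀ a ∈ W', h12_LocCobM rb v a → a = 0),
    Module.rank k W' ≤ (Module.finrank k (h12_H0M rb v) : Cardinal)
  R3_unip : ∀ {k : Type} [Field k] [Finite k] [Algebra (ZMod p) k] (rb : GQ →* M₂[k])
    (hp2 : p ≠ 2) (hrb : GaloisFactorsThroughFiniteLevel rb)
    (v : Nat.Primes) (hv : (v : ℕ) ≠ p)
    (hram : ¬ ∀ P : ValuationSubring (AlgebraicClosure ℚ), P.LiesOverPrime (v : ℕ) →
      ∀ σ ∈ P.inertiaSubgroupIn ℚ, rb σ = 1)
    (W' : Submodule k (GQ → M₂[k])) (hW' : W' ≤ h40_TanZ rb)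
    (htr : ∀ a ∈ W', ∀ σ, (a σ * (rb σ).adjugate).trace = 0)
    (hD : ∀ (a : GQ → M₂[k]) (ha : a ∈ W'), a ≠ 0 →
      (h40_tanRep rb hrb a (hW' ha)).IsUnipotentOnInertiaAt (v : ℕ))
    (h0 : ∀ a ∈ W', h12_LocCobM rb v a → a = 0),
    Module.rank k W' ≤ (Module.finrank k (h12_H0M rb v) : Cardinal)

/-! ## Algebra: `H⁰(ad⁰) = 0` and `H⁰(ad⁰(1)) = 0` from the frozen `hTW` -/

section Alg

variable {k : Type} [Field k]

/-- `h12_act` is `h66_act` on invertible matrices. -/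
theorem h4_act_eq_h66 (g : GL (Fin 2) k) (Y : M₂[k]) :
    h12_act (g : M₂[k]) Y = h66_act g Y := by
  have hdet : (g : M₂[k]).det ≠ 0 := by
    rw [← Matrix.GeneralLinearGroup.val_det_apply]
    exact (Matrix.GeneralLinearGroup.det g).ne_zero
  unfold h12_act h66_act
  rw [Matrix.coe_units_inv, Matrix.inv_def, Matrix.mul_smul, smul_smul,
    Matrix.GeneralLinearGroup.val_det_apply, Ring.inverse_eq_inv', mul_inv_cancel₀ hdet, one_smul]

/-- `H⁰(G, ad⁰ ρ̄(1)) = 0`. -/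
theorem h4_H0N_zero {K : Type} [Field K] [Algebra k K] [IsAlgClosed K] (h2 : (2 : k) ≠ 0)
    (ρ : GQ →* GL (Fin 2) k)
    (hTW : ∀ H : Subgroup GQ, H.index = 2 → h66_NoLine ρ K H)
    (hidx : ∃ H : Subgroup GQ, H.index = 2)
    (Y : M₂[k]) (hY : Y.trace = 0) (hinv : ∀ σ, h12_act (ρ σ : M₂[k]) Y = Y) : Y = 0 :=
  h66_inv_zero (K := K) h2 ρ hTW hidx Y hY (fun γ => by rw [← h4_act_eq_h66]; exact hinv γ)

/-- `H⁰(G, ad⁰ ρ̄) = 0`. -/
theorem h4_H0M_zero {K : Type} [Field K] [Algebra k K] [IsAlgClosed K] (h2 : (2 : k) ≠ 0)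
    (ρ : GQ →* GL (Fin 2) k)
    (hTW : ∀ H : Subgroup GQ, H.index = 2 → h66_NoLine ρ K H)
    (hidx : ∃ H : Subgroup GQ, H.index = 2)
    (X : M₂[k]) (hX : X.trace = 0)
    (hcomm : ∀ σ, (ρ σ : M₂[k]) * X = X * (ρ σ : M₂[k])) : X = 0 := by
  have hcen : ∀ Y : M₂[k], X * Y = Y * X := by
    intro Y
    have h0 : X * Y - Y * X = 0 := by
      apply h66_nondeg (K := K) h2 ρ hTW hidx ⊤ (fun a b => Subgroup.mem_top _) (X * Y - Y * X)
      intro σ _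
      rw [Matrix.sub_mul, Matrix.trace_sub, Matrix.mul_assoc Y X, ← hcomm σ, ← Matrix.mul_assoc Y,
        Matrix.trace_mul_comm (Y * (ρ σ : M₂[k])) X, Matrix.mul_assoc X Y, sub_self]
    exact sub_eq_zero.mp h0
  have e1 := congrFun (congrFun (hcen !![1, 0; 0, 0]) 0) 1
  have e2 := congrFun (congrFun (hcen !![1, 0; 0, 0]) 1) 0
  have e3 := congrFun (congrFun (hcen !![0, 1; 0, 0]) 0) 1
  simp [Matrix.mul_apply, Fin.sum_univ_two] at e1 e2 e3
  rw [Matrix.trace_fin_two] at hX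
  have h00 : X 0 0 = 0 := by
    have h3 : (2 : k) * X 0 0 = 0 := by rw [← hX, ← e3]; ring
    rcases mul_eq_zero.mp h3 with h | h
    · exact absurd h h2
    · exact h
  ext i j
  fin_cases i <;> fin_cases j
  · simpa using h00
  · simpa using e1.symm
  · simpa using e2
  · simpa using (e3 ▸ h00 : X 1 1 = 0)

end Alg

/-! ## The top, generic in the type at `p` -/

section Top

open Polynomial IsLocalRing ResidualGaloisRep

variable {𝒪 : Type} [CommRing 𝒪] [IsDomain 𝒪] [IsDiscreteValuationRing 𝒪]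
  [IsAdicComplete (maximalIdeal 𝒪) 𝒪] [Finite (ResidueField 𝒪)]

theorem h4_top_core (p : ℕ) [Fact p.Prime] (hp2 : p ≠ 2)
    (ρbar : ResidualGaloisRep (ResidueField 𝒪))
    (hdet : (GaloisRepAdic.ofResidualGaloisRep ρbar).DetIsCyclotomic p)
    (hTW : ∀ (K : Type) [Field K] [Algebra (ResidueField 𝒪) K]
      (G : Subgroup (AlgebraicClosure ℚ ≃ₐ[ℚ] AlgebraicClosure ℚ)), G.index = 2 →
      ∀ V : Submodule K (ρbar.baseChange K).V,
        (∀ σ ∈ G, ∀ x ∈ V, (ρbar.baseChange K).ρ σ x ∈ V) → V = ⊥ ∨ V = ⊤)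
    (S Smin : Finset ℕ) (hpSmin : p ∈ Smin) (hSmin : Smin ⊆ S) (hS : ∀ q ∈ S, q.Prime)
    (hmin : ∀ q : ℕ, q.Prime → q ≠ p → (q ∈ Smin ↔ ¬ ρbar.IsUnramifiedAt q))
    (rows : h4_MidRows p)
    (hTW1 : ∀ (bbar : Module.Basis (Fin 2) (ResidueField 𝒪) ρbar.V)
      (S₀ : Finset Nat.Primes) (n : ℕ) (B : Finset ℕ)
      (ψ : GQ → M₂[ResidueField 𝒪]), ψ ∈ h12_ZN (resMat ρbar bbar) S₀ →
      ψ ∉ h12_BN (resMat ρbar bbar) →
      ∃ q : ℕ, q ∉ B ∧ h12_IsTWPrime p n (resMat ρbar bbar) q ∧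
        h12_FrobNonCob (resMat ρbar bbar) ψ q)
    (𝒟 : Finset ℕ → ∀ ⦃A : Type⦄ [CommRing A] [IsLocalRing A] [Algebra 𝒪 A],
      GaloisRepAdic A → Prop)
    (h𝒟 : ∀ (Sig : Finset ℕ) (ρ : GaloisRepAdic (DualNumber (ResidueField 𝒪))),
      @𝒟 Sig (DualNumber (ResidueField 𝒪)) _ _ (algDual 𝒪) ρ →
        ρ.DetIsCyclotomic p ∧ (∀ q : ℕ, q.Prime → q ∉ Sig → ρ.IsUnramifiedAt q) ∧
          ∀ q ∈ Smin, q.Prime → q ≠ p → ρ.IsUnipotentOnInertiaAt q)
    (hDp : ∀ (bbar : Module.Basis (Fin 2) (ResidueField 𝒪) ρbar.V) (Sig : Finset ℕ)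
      (W' : Submodule (ResidueField 𝒪) (GQ → M₂[ResidueField 𝒪]))
      (hW' : W' ≤ h40_TanZ (resMat ρbar bbar)),
      (∀ (a : GQ → M₂[ResidueField 𝒪]) (ha : a ∈ W'), a ≠ 0 →
        @𝒟 Sig (DualNumber (ResidueField 𝒪)) _ _ (algDual 𝒪)
          (h40_tanRep (resMat ρbar bbar) (h40_resMat_finiteLevel ρbar bbar) a (hW' ha))) →
      (∀ a ∈ W', h12_LocCobM (resMat ρbar bbar) (pPrime p) a → a = 0) →
      Module.rank (ResidueField 𝒪) W' ≤
        ((Module.finrank (ResidueField 𝒪) (h12_H0M (resMat ρbar bbar) (pPrime p)) + 1 : ℕ) :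
          Cardinal)) :
    ∃ r : ℕ, ∀ n : ℕ, ∃ qv : Fin r → ℕ, Function.Injective qv ∧
      (∀ i, (qv i).Prime ∧ qv i ∉ S ∧ p ^ (n + 1) ∣ qv i - 1) ∧
      (∀ i, ∀ P : ValuationSubring (AlgebraicClosure ℚ), P.LiesOverPrime (qv i) →
        ∀ φ : AlgebraicClosure ℚ ≃ₐ[ℚ] AlgebraicClosure ℚ, P.IsFrobeniusAt φ (qv i) →
          ∃ α β : ResidueField 𝒪, α ≠ β ∧
            LinearMap.charpoly (ρbar.ρ φ) = (X - C α) * (X - C β)) ∧
      ∃ bbar : Module.Basis (Fin 2) (ResidueField 𝒪) ρbar.V,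
        h40_SEL 𝒪 ρbar bbar (𝒟 (Smin ∪ Finset.univ.image qv)) r := by
  classical
  haveI hchar : CharP (ResidueField 𝒪) p := h30_charP ρbar hdet
  letI algk : Algebra (ZMod p) (ResidueField 𝒪) := ZMod.algebra (ResidueField 𝒪) p
  have h2 : (2 : ResidueField 𝒪) ≠ 0 := by
    intro h
    have h' : ((2 : ℕ) : ResidueField 𝒪) = 0 := by exact_mod_cast h
    rw [CharP.cast_eq_zero_iff (ResidueField 𝒪) p] at h'
    exact hp2 ((Nat.prime_dvd_prime_iff_eq (Fact.out : p.Prime) Nat.prime_two).mp h')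
  -- the basis and the residual matrices
  let bbar : Module.Basis (Fin 2) (ResidueField 𝒪) ρbar.V :=
    Module.finBasisOfFinrankEq (ResidueField 𝒪) ρbar.V ρbar.finrank_eq
  have hrb : GaloisFactorsThroughFiniteLevel (resMat ρbar bbar) :=
    h40_resMat_finiteLevel ρbar bbar
  have hdetC : h12_DetCyc p (resMat ρbar bbar) := by
    intro σ
    have h1 := h30_det_of_cyclo ρbar bbar hdet σ (cycloExp p σ)
      (fun μ hμ => Fermat.Agent.GAL.h11_cycloExp_spec p σ μ hμ)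
    rw [Matrix.GeneralLinearGroup.val_det_apply, h30_rbGL_coe] at h1
    rw [h1, coe_cycloChar, map_natCast]
  -- `H⁰ = 0`
  have hNL : ∀ H : Subgroup GQ, H.index = 2 →
      h66_NoLine (h30_rbGL ρbar bbar) (AlgebraicClosure (ResidueField 𝒪)) H :=
    fun H hH => h30_noLine_of_irr ρbar bbar H (AlgebraicClosure (ResidueField 𝒪))
      (hTW (AlgebraicClosure (ResidueField 𝒪)) H hH)
  have hH0M : ∀ X : M₂[ResidueField 𝒪], X.trace = 0 →
      (∀ σ, resMat ρbar bbar σ * X = X * resMat ρbar bbar σ) → X = 0 :=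
    fun X hX hc => h4_H0M_zero (K := AlgebraicClosure (ResidueField 𝒪)) h2
      (h30_rbGL ρbar bbar) hNL h30_exists_index_two X hX (fun σ => hc σ)
  have hH0N : ∀ Y : M₂[ResidueField 𝒪], Y.trace = 0 →
      (∀ σ, h12_act (resMat ρbar bbar σ) Y = Y) → Y = 0 :=
    fun Y hY hc => h4_H0N_zero (K := AlgebraicClosure (ResidueField 𝒪)) h2
      (h30_rbGL ρbar bbar) hNL h30_exists_index_two Y hY (fun σ => hc σ)
  -- `Smin` as a set of primes
  let Smin' : Finset Nat.Primes := Smin.subtype Nat.Prime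
  have hmemS' : ∀ q : Nat.Primes, q ∈ Smin' ↔ (q : ℕ) ∈ Smin := fun q => Finset.mem_subtype
  have hpS' : pPrime p ∈ Smin' := (hmemS' _).2 hpSmin
  have hrbS : ∀ q : Nat.Primes, q ∉ Smin' → ∀ P : ValuationSubring (AlgebraicClosure ℚ),
      P.LiesOverPrime (q : ℕ) → ∀ σ ∈ P.inertiaSubgroupIn ℚ, resMat ρbar bbar σ = 1 := by
    intro q hq P hP σ hσ
    have h1 := h30_rbGL_unram ρbar bbar Smin hpSmin hmin (q : ℕ) q.2
      (fun h => hq ((hmemS' q).2 h)) P hP σ hσ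
    rw [← h30_rbGL_coe, h1, Units.val_one]
  -- the base set
  obtain ⟨T0, hT0⟩ := rows.R1 (resMat ρbar bbar) hp2 hdetC hrb hH0M hH0N Smin' hpS' hrbS
  have hSha : h12_ShaBound (resMat ρbar bbar) (Smin' ∪ T0) := hT0 _ (Finset.Subset.refl _)
  have hpS₀ : pPrime p ∈ Smin' ∪ T0 := Finset.mem_union_left _ hpS'
  have hrbS₀ : ∀ q : Nat.Primes, q ∉ Smin' ∪ T0 →
      ∀ P : ValuationSubring (AlgebraicClosure ℚ),
      P.LiesOverPrime (q : ℕ) → ∀ σ ∈ P.inertiaSubgroupIn ℚ, resMat ρbar bbar σ = 1 :=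
    fun q hq => hrbS q (fun h => hq (Finset.mem_union_left _ h))
  refine ⟨h12_rN (resMat ρbar bbar) (Smin' ∪ T0), fun n => ?_⟩
  -- the Taylor-Wiles primes
  have hB : ∀ q ∈ Smin' ∪ T0,
      (q : ℕ) ∈ S ∪ (Smin' ∪ T0).image (fun q : Nat.Primes => (q : ℕ)) :=
    fun q hq => Finset.mem_union_right _ (Finset.mem_image_of_mem _ hq)
  haveI hZfin : Module.Finite (ResidueField 𝒪) ↥(h12_ZN (resMat ρbar bbar) (Smin' ∪ T0)) :=
    rows.ZN_finite (resMat ρbar bbar) hdetC hrb (Smin' ∪ T0) hpS₀ hrbS₀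
  obtain ⟨qv, hinj, hqv, ψs, hψs⟩ := rows.greedy (resMat ρbar bbar) hp2 hdetC hrb (Smin' ∪ T0) n
    (S ∪ (Smin' ∪ T0).image (fun q : Nat.Primes => (q : ℕ))) hB hrbS₀ inferInstance
    (fun ψ hψ hψB => hTW1 bbar (Smin' ∪ T0) n _ ψ hψ hψB)
  have hqS : ∀ i, (qv i : ℕ) ∉ S := fun i h => (hqv i).1 (Finset.mem_union_left _ h)
  have hqS₀ : ∀ i, qv i ∉ Smin' ∪ T0 := fun i h => (hqv i).1 (hB _ h)
  refine ⟨fun i => (qv i : ℕ), fun i j hij => hinj (Subtype.ext hij),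
    fun i => ⟨(qv i).2, hqS i, (hqv i).2.2.1⟩, fun i P hP φ hφ => ?_, bbar, ?_⟩
  · obtain ⟨α, β, hαβ, hcp⟩ := (hqv i).2.2.2 P hP φ hφ
    exact ⟨α, β, hαβ, by rw [← h30_resMat_charpoly ρbar bbar, hcp]⟩
  -- the Selmer bound
  intro W hW hType hcob
  have hT : ∀ (a : GQ → M₂[ResidueField 𝒪]) (ha : a ∈ W), a ≠ 0 →
      (h40_tanRep (resMat ρbar bbar) hrb a (hW ha)).DetIsCyclotomic p ∧
      (∀ q : ℕ, q.Prime → q ∉ Smin ∪ Finset.univ.image (fun i => (qv i : ℕ)) →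
        (h40_tanRep (resMat ρbar bbar) hrb a (hW ha)).IsUnramifiedAt q) ∧
      ∀ q ∈ Smin, q.Prime → q ≠ p →
        (h40_tanRep (resMat ρbar bbar) hrb a (hW ha)).IsUnipotentOnInertiaAt q :=
    fun a ha hne => h𝒟 _ _ (hType a ha hne)
  -- membership dictionary for the ramification set
  have hSig : ∀ q : Nat.Primes, q ∉ (Smin' ∪ T0) ∪ Finset.univ.image qv →
      (q : ℕ) ∉ Smin ∪ Finset.univ.image (fun i => (qv i : ℕ)) := by
    intro q hq h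
    rcases Finset.mem_union.mp h with h | h
    · exact hq (Finset.mem_union_left _ (Finset.mem_union_left _ ((hmemS' q).2 h)))
    · obtain ⟨i, -, hi⟩ := Finset.mem_image.mp h
      exact hq (Finset.mem_union_right _
        (Finset.mem_image.mpr ⟨i, Finset.mem_univ _, Subtype.ext hi⟩))
  have htr : ∀ a ∈ W, ∀ σ, (a σ * (resMat ρbar bbar σ).adjugate).trace = 0 := by
    intro a ha σ
    by_cases hne : a = 0
    · subst hne
      simp
    · exact (h40_unpack_det (resMat ρbar bbar) hrb a (hW ha) (hT a ha hne).1).2.2 σ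
  have hunrq : ∀ a ∈ W, ∀ q : Nat.Primes,
      (q : ℕ) ∉ Smin ∪ Finset.univ.image (fun i => (qv i : ℕ)) →
      h12_InertiaTriv (resMat ρbar bbar) a (q : ℕ) := by
    intro a ha q hq
    by_cases hne : a = 0
    · subst hne
      intro P hP σ hσ
      exact ⟨hrbS q (fun h => hq (Finset.mem_union_left _ ((hmemS' q).1 h))) P hP σ hσ, rfl⟩
    · exact (h40_unpack_unr (resMat ρbar bbar) hrb a (hW ha) (q : ℕ)).mp
        ((hT a ha hne).2.1 (q : ℕ) q.2 hq)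
  have hunr : ∀ a ∈ W, h12_UnrOutside (resMat ρbar bbar) a
      ((Smin' ∪ T0) ∪ Finset.univ.image qv) :=
    fun a ha => h12_unrOutside_of_inertiaTriv (resMat ρbar bbar) _ hrb a (hW ha)
      (fun q hq => hunrq a ha q (hSig q hq))
  have hloc : ∀ v ∈ Smin' ∪ T0, h12_LocBound (resMat ρbar bbar) v W
      (Module.finrank (ResidueField 𝒪) (h12_H0M (resMat ρbar bbar) v) +
        (if v = pPrime p then 1 else 0)) := by
    intro v hv W' hW'W h0
    by_cases hvp : v = pPrime p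
    · subst hvp
      rw [if_pos rfl]
      exact hDp bbar _ W' (hW'W.trans hW) (fun a ha hne => hType a (hW'W ha) hne) h0
    · rw [if_neg hvp, add_zero]
      have hvp' : (v : ℕ) ≠ p := fun h => hvp (Subtype.ext h)
      by_cases hvS : v ∈ Smin'
      · -- unipotent type at a prime of `Smin ∖ {p}`
        have hvS' : (v : ℕ) ∈ Smin := (hmemS' v).1 hvS
        have hram : ¬ ∀ P : ValuationSubring (AlgebraicClosure ℚ), P.LiesOverPrime (v : ℕ) →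
            ∀ σ ∈ P.inertiaSubgroupIn ℚ, resMat ρbar bbar σ = 1 := by
          intro h
          apply (hmin (v : ℕ) v.2 hvp').1 hvS'
          intro P hP σ hσ
          have h1 := h P hP σ hσ
          rw [resMat_apply] at h1
          apply (LinearMap.toMatrix bbar bbar).injective
          rw [h1]
          exact (LinearMap.toMatrix_one bbar).symm
        exact rows.R3_unip (resMat ρbar bbar) hp2 hrb v hvp' hram W' (hW'W.trans hW)
          (fun a ha => htr a (hW'W ha))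
          (fun a ha hne => (hT a (hW'W ha) hne).2.2 (v : ℕ) hvS' v.2 hvp') h0
      · -- unramified type at an auxiliary prime
        have hvSig : (v : ℕ) ∉ Smin ∪ Finset.univ.image (fun i => (qv i : ℕ)) := by
          intro h
          rcases Finset.mem_union.mp h with h | h
          · exact hvS ((hmemS' v).2 h)
          · obtain ⟨i, -, hi⟩ := Finset.mem_image.mp h
            exact hqS₀ i ((Subtype.ext hi : qv i = v) ▸ hv)
        exact rows.R3_unr (resMat ρbar bbar) hrb v W' (hW'W.trans hW)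
          (fun a ha => htr a (hW'W ha)) (fun a ha => hunrq a (hW'W ha) v hvSig) h0
  have hTW0 : ∀ i, h12_IsTWPrime p 0 (resMat ρbar bbar) (qv i : ℕ) :=
    fun i => ⟨(hqv i).2.1, (pow_dvd_pow p (by omega)).trans (hqv i).2.2.1, (hqv i).2.2.2⟩
  exact rows.count (resMat ρbar bbar) hp2 hdetC hrb (Smin' ∪ T0) hpS₀ hrbS₀ qv hinj hqS₀ hTW0
    ψs hψs W hW hcob hunr htr hloc hSha

/-- `det rb` is the mod `p` cyclotomic character (for the canonical `ZMod p`-algebra structure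
of the residue field). -/
theorem h4_detCyc (p : ℕ) [Fact p.Prime] (ρbar : ResidualGaloisRep (ResidueField 𝒪))
    (hdet : (GaloisRepAdic.ofResidualGaloisRep ρbar).DetIsCyclotomic p)
    [CharP (ResidueField 𝒪) p]
    (bbar : Module.Basis (Fin 2) (ResidueField 𝒪) ρbar.V) :
    @h12_DetCyc (ResidueField 𝒪) _ p _ (ZMod.algebra (ResidueField 𝒪) p) (resMat ρbar bbar) := by
  letI algk : Algebra (ZMod p) (ResidueField 𝒪) := ZMod.algebra (ResidueField 𝒪) p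
  intro σ
  have h1 := h30_det_of_cyclo ρbar bbar hdet σ (cycloExp p σ)
    (fun μ hμ => Fermat.Agent.GAL.h11_cycloExp_spec p σ μ hμ)
  rw [Matrix.GeneralLinearGroup.val_det_apply, h30_rbGL_coe] at h1
  rw [h1, coe_cycloChar, map_natCast]

/-- **MID-TOP, strict ordinary, in hypothesis form**: the skeleton statement `h12_WSO`
(`= hSO` of `h40_S56_of_SEL`) from the rows. -/
theorem h4_WSO_of (p : ℕ) [Fact p.Prime] (hp2 : p ≠ 2) (hp𝒪 : (p : 𝒪) ∈ maximalIdeal 𝒪)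
    (ρbar : ResidualGaloisRep (ResidueField 𝒪))
    (habs : ρbar.IsAbsolutelyIrreducible)
    (hdet : (GaloisRepAdic.ofResidualGaloisRep ρbar).DetIsCyclotomic p)
    (hsplit : ∀ σ : AlgebraicClosure ℚ ≃ₐ[ℚ] AlgebraicClosure ℚ,
      ∃ α β : ResidueField 𝒪, LinearMap.charpoly (ρbar.ρ σ) = (X - C α) * (X - C β))
    (hTW : ∀ (K : Type) [Field K] [Algebra (ResidueField 𝒪) K]
      (G : Subgroup (AlgebraicClosure ℚ ≃ₐ[ℚ] AlgebraicClosure ℚ)), G.index = 2 →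
      ∀ V : Submodule K (ρbar.baseChange K).V,
        (∀ σ ∈ G, ∀ x ∈ V, (ρbar.baseChange K).ρ σ x ∈ V) → V = ⊥ ∨ V = ⊤)
    (S Smin : Finset ℕ) (hpSmin : p ∈ Smin) (hSmin : Smin ⊆ S) (hS : ∀ q ∈ S, q.Prime)
    (hmin : ∀ q : ℕ, q.Prime → q ≠ p → (q ∈ Smin ↔ ¬ ρbar.IsUnramifiedAt q))
    (rows : h4_MidRows p)
    (hTW1 : ∀ (bbar : Module.Basis (Fin 2) (ResidueField 𝒪) ρbar.V)
      (S₀ : Finset Nat.Primes) (n : ℕ) (B : Finset ℕ)
      (ψ : GQ → M₂[ResidueField 𝒪]), ψ ∈ h12_ZN (resMat ρbar bbar) S₀ →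
      ψ ∉ h12_BN (resMat ρbar bbar) →
      ∃ q : ℕ, q ∉ B ∧ h12_IsTWPrime p n (resMat ρbar bbar) q ∧
        h12_FrobNonCob (resMat ρbar bbar) ψ q)
    (hord : ∀ {k : Type} [Field k] [Finite k] [Algebra (ZMod p) k] (rb : GQ →* M₂[k])
      (hp2 : p ≠ 2) (hdet : h12_DetCyc p rb) (hrb : GaloisFactorsThroughFiniteLevel rb)
      (W' : Submodule k (GQ → M₂[k])) (hW' : W' ≤ h40_TanZ rb)
      (hD : ∀ (a : GQ → M₂[k]) (ha : a ∈ W'), a ≠ 0 →
        (h40_tanRep rb hrb a (hW' ha)).DetIsCyclotomic p ∧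
        (h40_tanRep rb hrb a (hW' ha)).IsStrictOrdinaryAt p)
      (h0 : ∀ a ∈ W', h12_LocCobM rb (pPrime p) a → a = 0),
      Module.rank k W' ≤ ((Module.finrank k (h12_H0M rb (pPrime p)) + 1 : ℕ) : Cardinal)) :
    ∃ r : ℕ, ∀ n : ℕ, ∃ qv : Fin r → ℕ, Function.Injective qv ∧
      (∀ i, (qv i).Prime ∧ qv i ∉ S ∧ p ^ (n + 1) ∣ qv i - 1) ∧
      (∀ i, ∀ P : ValuationSubring (AlgebraicClosure ℚ), P.LiesOverPrime (qv i) →
        ∀ φ : AlgebraicClosure ℚ ≃ₐ[ℚ] AlgebraicClosure ℚ, P.IsFrobeniusAt φ (qv i) →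
          ∃ α β : ResidueField 𝒪, α ≠ β ∧
            LinearMap.charpoly (ρbar.ρ φ) = (X - C α) * (X - C β)) ∧
      ∃ bbar : Module.Basis (Fin 2) (ResidueField 𝒪) ρbar.V,
        h40_SEL 𝒪 ρbar bbar
          (fun _A _ _ _ ρ => h40_SOType p (Smin ∪ Finset.univ.image qv) Smin ρ) r := by
  haveI hchar : CharP (ResidueField 𝒪) p := h30_charP ρbar hdet
  letI algk : Algebra (ZMod p) (ResidueField 𝒪) := ZMod.algebra (ResidueField 𝒪) p
  exact h4_top_core p hp2 ρbar hdet hTW S Smin hpSmin hSmin hS hmin rows hTW1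
    (fun Sig _A _ _ _ ρ => h40_SOType p Sig Smin ρ)
    (fun Sig ρ h => ⟨h.1.1, h.1.2.2, h.2⟩)
    (fun bbar Sig W' hW' hD h0 => hord (resMat ρbar bbar) hp2 (h4_detCyc p ρbar hdet bbar)
      (h40_resMat_finiteLevel ρbar bbar) W' hW'
      (fun a ha hne => ⟨(hD a ha hne).1.1, (hD a ha hne).1.2.1⟩) h0)

/-- **MID-TOP, flat, in hypothesis form**: the skeleton statement `h12_WFL`
(`= hFL` of `h40_S56_of_SEL`) from the rows. -/
theorem h4_WFL_of (p : ℕ) [Fact p.Prime] (hp2 : p ≠ 2) (hp𝒪 : (p : 𝒪) ∈ maximalIdeal 𝒪)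
    (ρbar : ResidualGaloisRep (ResidueField 𝒪))
    (habs : ρbar.IsAbsolutelyIrreducible)
    (hdet : (GaloisRepAdic.ofResidualGaloisRep ρbar).DetIsCyclotomic p)
    (hsplit : ∀ σ : AlgebraicClosure ℚ ≃ₐ[ℚ] AlgebraicClosure ℚ,
      ∃ α β : ResidueField 𝒪, LinearMap.charpoly (ρbar.ρ σ) = (X - C α) * (X - C β))
    (hTW : ∀ (K : Type) [Field K] [Algebra (ResidueField 𝒪) K]
      (G : Subgroup (AlgebraicClosure ℚ ≃ₐ[ℚ] AlgebraicClosure ℚ)), G.index = 2 →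
      ∀ V : Submodule K (ρbar.baseChange K).V,
        (∀ σ ∈ G, ∀ x ∈ V, (ρbar.baseChange K).ρ σ x ∈ V) → V = ⊥ ∨ V = ⊤)
    (S Smin : Finset ℕ) (hpSmin : p ∈ Smin) (hSmin : Smin ⊆ S) (hS : ∀ q ∈ S, q.Prime)
    (hmin : ∀ q : ℕ, q.Prime → q ≠ p → (q ∈ Smin ↔ ¬ ρbar.IsUnramifiedAt q))
    (rows : h4_MidRows p)
    (hTW1 : ∀ (bbar : Module.Basis (Fin 2) (ResidueField 𝒪) ρbar.V)
      (S₀ : Finset Nat.Primes) (n : ℕ) (B : Finset ℕ)
      (ψ : GQ → M₂[ResidueField 𝒪]), ψ ∈ h12_ZN (resMat ρbar bbar) S₀ →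
      ψ ∉ h12_BN (resMat ρbar bbar) →
      ∃ q : ℕ, q ∉ B ∧ h12_IsTWPrime p n (resMat ρbar bbar) q ∧
        h12_FrobNonCob (resMat ρbar bbar) ψ q)
    (hflat : ∀ {k : Type} [Field k] [Finite k] [Algebra (ZMod p) k] (rb : GQ →* M₂[k])
      (hp2 : p ≠ 2) (hdet : h12_DetCyc p rb) (hrb : GaloisFactorsThroughFiniteLevel rb)
      (W' : Submodule k (GQ → M₂[k])) (hW' : W' ≤ h40_TanZ rb)
      (hD : ∀ (a : GQ → M₂[k]) (ha : a ∈ W'), a ≠ 0 →
        (h40_tanRep rb hrb a (hW' ha)).DetIsCyclotomic p ∧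
        (h40_tanRep rb hrb a (hW' ha)).IsFlatAt p)
      (h0 : ∀ a ∈ W', h12_LocCobM rb (pPrime p) a → a = 0),
      Module.rank k W' ≤ ((Module.finrank k (h12_H0M rb (pPrime p)) + 1 : ℕ) : Cardinal)) :
    ∃ r : ℕ, ∀ n : ℕ, ∃ qv : Fin r → ℕ, Function.Injective qv ∧
      (∀ i, (qv i).Prime ∧ qv i ∉ S ∧ p ^ (n + 1) ∣ qv i - 1) ∧
      (∀ i, ∀ P : ValuationSubring (AlgebraicClosure ℚ), P.LiesOverPrime (qv i) →
        ∀ φ : AlgebraicClosure ℚ ≃ₐ[ℚ] AlgebraicClosure ℚ, P.IsFrobeniusAt φ (qv i) →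
          ∃ α β : ResidueField 𝒪, α ≠ β ∧
            LinearMap.charpoly (ρbar.ρ φ) = (X - C α) * (X - C β)) ∧
      ∃ bbar : Module.Basis (Fin 2) (ResidueField 𝒪) ρbar.V,
        h40_SEL 𝒪 ρbar bbar
          (fun _A _ _ _ ρ => h40_FLType p (Smin ∪ Finset.univ.image qv) Smin ρ) r := by
  haveI hchar : CharP (ResidueField 𝒪) p := h30_charP ρbar hdet
  letI algk : Algebra (ZMod p) (ResidueField 𝒪) := ZMod.algebra (ResidueField 𝒪) p
  exact h4_top_core p hp2 ρbar hdet hTW S Smin hpSmin hSmin hS hmin rows hTW1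
    (fun Sig _A _ _ _ ρ => h40_FLType p Sig Smin ρ)
    (fun Sig ρ h => ⟨h.1.1, h.1.2.2, h.2⟩)
    (fun bbar Sig W' hW' hD h0 => hflat (resMat ρbar bbar) hp2 (h4_detCyc p ρbar hdet bbar)
      (h40_resMat_finiteLevel ρbar bbar) W' hW'
      (fun a ha hne => ⟨(hD a ha hne).1.1, (hD a ha hne).1.2.1⟩) h0)

end Top

end Fermat.Agent.S56
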