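import Fermat.Agent.S56.h69_MidR1
import Fermat.Agent.S56.h72_ECofBase

/-!
# S56 / MID-R1 (row 600): the hypothesis `hEC` of `h69_R1_of` from the BASE case of W1

`h69_hEC_of_base` : the Euler-characteristic hypothesis `hEC` of `h69_R1_of`, from the base case
of the dévissage (W1-BASE) in the quantifier shape
`∀ F0 finite Galois ∋ ζ_p, ∃ T0, ∀ S ⊇ T0 with p ∈ S, ∀ L₀ : h72_Lev S with L₀.F = F0, hbase`,
via helper72's `h72_EC_of_base` and the S55 ambient.
-/

set_option autoImplicit false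
set_option linter.unusedSectionVars false

open ExtCitation groupCohomology

noncomputable section

namespace Fermat.Agent.S56

open Fermat.Agent.S55

local notation "Γℚ" => (AlgebraicClosure ℚ ≃ₐ[ℚ] AlgebraicClosure ℚ)
local notation "M₂[" k "]" => Matrix (Fin 2) (Fin 2) k

/-- `hEC` of `h69_R1_of` from W1-BASE. -/
theorem h69_hEC_of_base (p : ℕ) [Fact p.Prime] (hp2 : p ≠ 2)
    (hbase : ∀ F0 : IntermediateField ℚ (AlgebraicClosure ℚ), FiniteDimensional ℚ F0 →
      IsGalois ℚ F0 → (∃ ζ ∈ F0, IsPrimitiveRoot ζ p) →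
      ∃ T0 : Finset Nat.Primes, ∀ S : Finset Nat.Primes, T0 ⊆ S → pPrime p ∈ S →
        ∀ L₀ : h72_Lev S, L₀.F = F0 →
        ∀ C : Subgroup (Γℚ ⧸ L₀.U), IsCyclic C → (Nat.card C).Coprime p →
        ∀ (W : Type) [AddCommGroup W] [Module (ZMod p) W] [Finite W]
          (σ : Representation (ZMod p) C W),
          h72_delta S L₀ (Representation.coindV C.subtype σ)
            (Representation.coind C.subtype σ) = 0) :
    ∀ Smin' : Finset Nat.Primes, pPrime p ∈ Smin' →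
      ∀ F0 : IntermediateField ℚ (AlgebraicClosure ℚ), F0.IsUnramifiedOutside Smin' →
      IsGalois ℚ F0 → (∃ ζ ∈ F0, IsPrimitiveRoot ζ p) →
      ∃ T0 : Finset Nat.Primes, ∀ S : Finset Nat.Primes, Smin' ∪ T0 ⊆ S →
        ∀ (M : Rep.{0, 0, 0} (ZMod p) Γℚ) [Finite M], (∀ s ∈ F0.fixingSubgroup, M.ρ s = 1) →
          h72_chi S M =
            -(Module.finrank (ZMod p) ↥(LinearMap.ker (M.ρ complexConjugation + 1)) : ℤ) := by
  intro Smin' hpS F0 hF0 hgal hζ
  obtain ⟨T0, hT0⟩ := hbase F0 hF0.1 hgal hζ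
  refine ⟨T0, fun S hS M _ hM => ?_⟩
  have hpS' : pPrime p ∈ S := hS (Finset.mem_union_left _ hpS)
  obtain ⟨CC, i1, i2, JJ, i3, i4, XX, i5, i6, κ, ev, zz, hA⟩ :=
    h69_exists_ambient p hp2 S hpS'
  exact h72_EC_of_base hp2 hpS' hA ⟨F0, hF0.mono (Finset.union_subset_left hS), hgal⟩
    (hT0 S (Finset.union_subset_right hS) hpS' _ rfl) M hM

end Fermat.Agent.S56
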