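import Fermat.Agent.S56.h79_OrdFinal

/-!
# S56, W2 row R3-ord: adapter from local Kummer theory at `p` in the "three generators" form
(helper79)

`h79_twZ_rank_le_of_kum` : if every level-constant crossed homomorphism `u : D → k(ω)` (extended
to `GQ` in any way) is a `k`-combination of two fixed functions `γ₁, γ₂` and of the coboundary
`ω - 1` on `D`, then `rank Z¹(D, k(ω)) = rank (h79_TwZ p k D) ≤ 3`.

`h79_R3_ord_of_kum` : the skeleton row `h12_R3_ord` from the statement of helper7's `h7_kum_p`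
(local Kummer theory at `p`) as ONE hypothesis.
-/

set_option autoImplicit false

namespace Fermat.Agent.S56

open Fermat.Agent.S53 Fermat.Agent.S53.Dict Matrix ExtCitation

local notation "M₂[" k "]" => Matrix (Fin 2) (Fin 2) k

section Kum

variable (p : ℕ) [Fact p.Prime] (k : Type) [Field k]

/-- `h79_om` has the frozen cyclotomic property: if `s μ = μ ^ a` for all `p`-th roots of unity
`μ`, then `h79_om p k s = a`. -/
theorem h79_om_eq_of_forall [CharP k p] (s : GQ) (a : ℕ)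
    (h : ∀ μ : AlgebraicClosure ℚ, μ ^ p = 1 → s μ = μ ^ a) : h79_om p k s = (a : k) := by
  have hp : p.Prime := Fact.out
  have hNZ : NeZero ((p : ℕ) : AlgebraicClosure ℚ) := ⟨Nat.cast_ne_zero.mpr hp.ne_zero⟩
  obtain ⟨ζ, hζ⟩ := HasEnoughRootsOfUnity.exists_primitiveRoot (AlgebraicClosure ℚ) p
  have e1 := h ζ hζ.pow_eq_one
  rw [Fermat.Agent.S14.gal_cycloExp_spec p s ζ hζ.pow_eq_one,
    pow_eq_pow_mod (cycloExp p s) hζ.pow_eq_one, pow_eq_pow_mod a hζ.pow_eq_one] at e1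
  have e2 : cycloExp p s ≡ a [MOD p] :=
    hζ.pow_inj (Nat.mod_lt _ hp.pos) (Nat.mod_lt _ hp.pos) e1
  exact (CharP.natCast_eq_natCast k p).mpr e2

/-- Three generators for the crossed homomorphisms give `rank (h79_TwZ p k D) ≤ 3`. -/
theorem h79_twZ_rank_le_of_kum (D : Subgroup GQ) (γ₁ γ₂ : GQ → k)
    (hγ : ∀ u : GQ → k,
      (∀ s ∈ D, ∀ t ∈ D, u (s * t) = u s + h79_om p k s * u t) →
      (∃ L : IntermediateField ℚ (AlgebraicClosure ℚ), FiniteDimensional ℚ L ∧
        ∀ s ∈ D, (∀ x ∈ L, s x = x) → u s = 0) →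
      ∃ a₁ a₂ x : k, ∀ s ∈ D, u s = a₁ * γ₁ s + a₂ * γ₂ s + x * (h79_om p k s - 1)) :
    Module.rank k ↥(h79_TwZ p k D) ≤ 3 := by
  classical
  obtain ⟨f, hf⟩ : ∃ f : (Fin 3 → k) →ₗ[k] (↥D → k), ∀ (c : Fin 3 → k) (s : ↥D),
      f c s = c 0 * γ₁ s + c 1 * γ₂ s + c 2 * (h79_om p k s - 1) :=
    ⟨{ toFun := fun c s => c 0 * γ₁ s + c 1 * γ₂ s + c 2 * (h79_om p k s - 1)
       map_add' := fun c c' => by
         funext s
         simp only [Pi.add_apply]
         ring
       map_smul' := fun a c => by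
         funext s
         simp only [Pi.smul_apply, smul_eq_mul, RingHom.id_apply]
         ring }, fun c s => rfl⟩
  have hle : h79_TwZ p k D ≤ LinearMap.range f := by
    intro u hu
    obtain ⟨hu1, L, hL, hu2⟩ := (h79_mem_TwZ_iff p k D u).mp hu
    obtain ⟨a₁, a₂, x, h⟩ := hγ (fun s => if hs : s ∈ D then u ⟨s, hs⟩ else 0)
      (fun s hs t ht => by
        simp only [dif_pos hs, dif_pos ht, dif_pos (D.mul_mem hs ht)]
        exact hu1 ⟨s, hs⟩ ⟨t, ht⟩)
      ⟨L, hL, fun s hs hfix => by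
        simp only [dif_pos hs]
        exact hu2 ⟨s, hs⟩ hfix⟩
    refine ⟨![a₁, a₂, x], funext fun s => ?_⟩
    have h1 := h s s.2
    simp only [dif_pos s.2] at h1
    rw [hf, h1]
    simp
  calc Module.rank k ↥(h79_TwZ p k D) ≤ Module.rank k ↥(LinearMap.range f) :=
        Submodule.rank_mono hle
    _ ≤ Module.rank k (Fin 3 → k) := rank_range_le f
    _ = 3 := by
      rw [rank_fin_fun]
      norm_num

end Kum

section Row

variable {k : Type} [Field k] (p : ℕ) [Fact p.Prime] [Algebra (ZMod p) k]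
variable (rb : GQ →* M₂[k])

/-- **(W2-ORD) from local Kummer theory at `p`**: the skeleton row `h12_R3_ord`, given the
statement of `h7_kum_p` (for this `k`) as a hypothesis. -/
theorem h79_R3_ord_of_kum (hp2 : p ≠ 2)
    (hkum : ∀ χ : GQ → k,
      (∀ s ∈ (padicPlace p).decompositionSubgroup ℚ, ∀ a : ℕ,
        (∀ μ : AlgebraicClosure ℚ, μ ^ p = 1 → s μ = μ ^ a) → χ s = (a : k)) →
      ∃ γ₁ γ₂ : GQ → k, ∀ u : GQ → k,
        (∀ s ∈ (padicPlace p).decompositionSubgroup ℚ,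
          ∀ t ∈ (padicPlace p).decompositionSubgroup ℚ, u (s * t) = u s + χ s * u t) →
        (∃ L : IntermediateField ℚ (AlgebraicClosure ℚ), FiniteDimensional ℚ L ∧
          ∀ s ∈ (padicPlace p).decompositionSubgroup ℚ, (∀ x ∈ L, s x = x) → u s = 0) →
        ∃ a₁ a₂ x : k, ∀ s ∈ (padicPlace p).decompositionSubgroup ℚ,
          u s = a₁ * γ₁ s + a₂ * γ₂ s + x * (χ s - 1))
    (hdet : h12_DetCyc p rb) (hrb : GaloisFactorsThroughFiniteLevel rb)
    (W' : Submodule k (GQ → M₂[k])) (hW' : W' ≤ h40_TanZ rb)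
    (hD : ∀ (a : GQ → M₂[k]) (ha : a ∈ W'), a ≠ 0 →
      (h40_tanRep rb hrb a (hW' ha)).DetIsCyclotomic p ∧
      (h40_tanRep rb hrb a (hW' ha)).IsStrictOrdinaryAt p)
    (h0 : ∀ a ∈ W', h12_LocCobM rb (pPrime p) a → a = 0) :
    Module.rank k W' ≤ ((Module.finrank k (h12_H0M rb (pPrime p)) + 1 : ℕ) : Cardinal) := by
  have hchar : CharP k p := charP_of_injective_algebraMap (algebraMap (ZMod p) k).injective p
  obtain ⟨γ₁, γ₂, hγ⟩ := hkum (h79_om p k) (fun s _ a h => h79_om_eq_of_forall p k s a h)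
  exact h79_R3_ord_of p rb hp2
    (h79_twZ_rank_le_of_kum p k ((primeLocalPlace (pPrime p)).decompositionSubgroup ℚ) γ₁ γ₂ hγ)
    hdet hrb W' hW' hD h0

end Row

end Fermat.Agent.S56
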