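import Fermat.Agent.S56.h4_S56Of
import Fermat.Agent.S56.h70_Recip
import Fermat.Agent.S56.h52_TameRel
import Fermat.Agent.S56.h69_MidR1EC
import Fermat.Agent.S56.h3_Ad0H1
import Fermat.Agent.S56.h72_NegEigN
import Fermat.Agent.S56.h40_W2Unr
import Fermat.Agent.S56.h40_W2Unip
import Fermat.Agent.S56.h79_OrdKum
import Fermat.Agent.S56.h7_KumP
import Fermat.Agent.S56.h12_FlatAdapt

/-!
# S56 from W1-BASE and the W3 local flat bound (helper4)

`h4_S56_of_base_flat`: the frozen statement S56 from the two inputs that are still open,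
taken as hypotheses in their exact consumer shapes:

* `hbase`  : W1-BASE, the binder of `h69_hEC_of_base` (helper69);
* `hflatloc` : W3 FINAL, the statement of `sk_flat_local_bound` of the W3 skeleton
  (= the binder `hloc` of `h12_R3_flat_of`, helper12), for every finite field `k` of
  characteristic `p`.

Every other row is plugged in with the theorem on main: `h70_recip` (MID-RECIP),
`h52_tame_inv` (MID-TS1), `h69_R1_of` + `h69_hEC_of_base` + `h3_finrank_H1_N` +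
`h3_finrank_H0_N` + `h72_finrank_negEig_N` (MID-R1), `h12_R3_unr`, `h12_R3_unip` (W2),
`h79_R3_ord_of_kum` + `h7_kum_p` (W2-ORD), `h12_R3_flat_of` (W3-ADAPT).
-/

set_option autoImplicit false
set_option linter.unusedSectionVars false
set_option linter.unusedVariables false

namespace Fermat.Agent.S56

open Fermat.Agent.S53 Fermat.Agent.S53.Dict Fermat.Agent.S55 ExtCitation groupCohomology

local notation "M₂[" k "]" => Matrix (Fin 2) (Fin 2) k

/-- The MID rows consumed by the top, from W1-BASE. -/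
theorem h4_midRows_of_base (p : ℕ) [Fact p.Prime] (hp2 : p ≠ 2)
    (hbase : ∀ F0 : IntermediateField ℚ (AlgebraicClosure ℚ), FiniteDimensional ℚ F0 →
      IsGalois ℚ F0 → (∃ ζ ∈ F0, IsPrimitiveRoot ζ p) →
      ∃ T0 : Finset Nat.Primes, ∀ S : Finset Nat.Primes, T0 ⊆ S → pPrime p ∈ S →
        ∀ L₀ : h72_Lev S, L₀.F = F0 →
        ∀ C : Subgroup (GQ ⧸ L₀.U), IsCyclic C → (Nat.card C).Coprime p →
        ∀ (W : Type) [AddCommGroup W] [Module (ZMod p) W] [Finite W]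
          (σ : Representation (ZMod p) C W),
          h72_delta S L₀ (Representation.coindV C.subtype σ)
            (Representation.coind C.subtype σ) = 0) :
    h4_MidRows p :=
  h4_midRows_of p
    (fun hp2 Sg hpS z hz hlev q₀ hq₀ hloc => h70_recip p hp2 Sg hpS z hz hlev q₀ hq₀ hloc)
    (fun q hpq A _ hA w hlev hadd => h52_tame_inv p q hpq hA w hlev hadd)
    (fun rb hp2' hdet hrb hH0M hH0N Smin' hpS hrbS =>
      h69_R1_of p rb (h69_hEC_of_base p hp2 hbase)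
        (fun S => h3_finrank_H1_N p rb S) (fun h S => h3_finrank_H0_N p rb S h)
        (h72_finrank_negEig_N p rb hp2 hdet)
        hp2 hdet hrb hH0M hH0N Smin' hpS hrbS)
    (fun rb => h12_R3_unr rb) (fun rb => h12_R3_unip p rb)

section Top

open Polynomial IsLocalRing ResidualGaloisRep

variable {𝒪 : Type} [CommRing 𝒪] [IsDomain 𝒪] [IsDiscreteValuationRing 𝒪]
  [IsAdicComplete (maximalIdeal 𝒪) 𝒪] [Finite (ResidueField 𝒪)]

/-- **The frozen statement S56 from W1-BASE and the W3 local flat bound.** -/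
theorem h4_S56_of_base_flat (p : ℕ) [Fact p.Prime] (hp2 : p ≠ 2)
    (hp𝒪 : (p : 𝒪) ∈ maximalIdeal 𝒪)
    (ρbar : ResidualGaloisRep (ResidueField 𝒪))
    (habs : ρbar.IsAbsolutelyIrreducible)
    (hdet : (GaloisRepAdic.ofResidualGaloisRep ρbar).DetIsCyclotomic p)
    (hsplit : ∀ σ : AlgebraicClosure ℚ ≃ₐ[ℚ] AlgebraicClosure ℚ,
      ∃ α β : ResidueField 𝒪, LinearMap.charpoly (ρbar.ρ σ) = (X - C α) * (X - C β))
    (hTW : ∀ (K : Type) [Field K] [Algebra (ResidueField 𝒪) K]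
      (G : Subgroup (AlgebraicClosure ℚ ≃ₐ[ℚ] AlgebraicClosure ℚ)), G.index = 2 →
      ∀ V : Submodule K (ρbar.baseChange K).V,
        (∀ σ ∈ G, ∀ x ∈ V, (ρbar.baseChange K).ρ σ x ∈ V) → V = ⊥ ∨ V = ⊤)
    (S Smin : Finset ℕ) (hpSmin : p ∈ Smin) (hSmin : Smin ⊆ S) (hS : ∀ q ∈ S, q.Prime)
    (hmin : ∀ q : ℕ, q.Prime → q ≠ p → (q ∈ Smin ↔ ¬ ρbar.IsUnramifiedAt q))
    (hbase : ∀ F0 : IntermediateField ℚ (AlgebraicClosure ℚ), FiniteDimensional ℚ F0 →
      IsGalois ℚ F0 → (∃ ζ ∈ F0, IsPrimitiveRoot ζ p) →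
      ∃ T0 : Finset Nat.Primes, ∀ S : Finset Nat.Primes, T0 ⊆ S → pPrime p ∈ S →
        ∀ L₀ : h72_Lev S, L₀.F = F0 →
        ∀ C : Subgroup (GQ ⧸ L₀.U), IsCyclic C → (Nat.card C).Coprime p →
        ∀ (W : Type) [AddCommGroup W] [Module (ZMod p) W] [Finite W]
          (σ : Representation (ZMod p) C W),
          h72_delta S L₀ (Representation.coindV C.subtype σ)
            (Representation.coind C.subtype σ) = 0)
    (hflatloc : ∀ {k : Type} [Field k] [Finite k] [CharP k p]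
      (rbl : h78_G p →* M₂[k]),
      (∀ (g : h78_G p) (ζ : PadicAlgCl p), ζ ^ p = 1 →
        ∃ n : ℕ, g ζ = ζ ^ n ∧ (rbl g).det = (n : k)) →
      ∀ W : Submodule k (h78_G p → M₂[k]),
      (∀ a ∈ W, ∀ s t, a (s * t) = a s * rbl t + rbl s * a t) →
      (∀ a ∈ W, ∀ s, (a s * rbl s⁻¹).trace = 0) →
      (∀ a ∈ W, a ≠ 0 → h78_LocFlat p rbl a) →
      (∀ a ∈ W, (∃ X : M₂[k], ∀ s, a s = X * rbl s - rbl s * X) → a = 0) →
      Module.finrank k W ≤ Module.finrank k (h78_H0 p rbl) + 1) :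
    (∃ r : ℕ, ∀ n : ℕ, ∃ qv : Fin r → ℕ, Function.Injective qv ∧
      (∀ i, (qv i).Prime ∧ qv i ∉ S ∧ p ^ (n + 1) ∣ qv i - 1) ∧
      (∀ i, ∀ P : ValuationSubring (AlgebraicClosure ℚ), P.LiesOverPrime (qv i) →
        ∀ φ : AlgebraicClosure ℚ ≃ₐ[ℚ] AlgebraicClosure ℚ, P.IsFrobeniusAt φ (qv i) →
          ∃ α β : ResidueField 𝒪, α ≠ β ∧ LinearMap.charpoly (ρbar.ρ φ) = (X - C α) * (X - C β)) ∧
      ∀ DQ : GaloisRep.DeformationRingData 𝒪 ρbar (fun _A _ _ _ ρ =>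
          GaloisRep.strictOrdinaryCondition 𝒪 p (Smin ∪ Finset.univ.image qv) ρ ∧
            ∀ q ∈ Smin, q.Prime → q ≠ p → ρ.IsUnipotentOnInertiaAt q),
        ∃ γ : MvPowerSeries (Fin r) 𝒪 →ₐ[𝒪] DQ.R, Function.Surjective γ) ∧
    (∃ r : ℕ, ∀ n : ℕ, ∃ qv : Fin r → ℕ, Function.Injective qv ∧
      (∀ i, (qv i).Prime ∧ qv i ∉ S ∧ p ^ (n + 1) ∣ qv i - 1) ∧
      (∀ i, ∀ P : ValuationSubring (AlgebraicClosure ℚ), P.LiesOverPrime (qv i) →
        ∀ φ : AlgebraicClosure ℚ ≃ₐ[ℚ] AlgebraicClosure ℚ, P.IsFrobeniusAt φ (qv i) →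
          ∃ α β : ResidueField 𝒪, α ≠ β ∧ LinearMap.charpoly (ρbar.ρ φ) = (X - C α) * (X - C β)) ∧
      ∀ DQ : GaloisRep.DeformationRingData 𝒪 ρbar (fun _A _ _ _ ρ =>
          GaloisRep.flatCondition 𝒪 p (Smin ∪ Finset.univ.image qv) ρ ∧
            ∀ q ∈ Smin, q.Prime → q ≠ p → ρ.IsUnipotentOnInertiaAt q),
        ∃ γ : MvPowerSeries (Fin r) 𝒪 →ₐ[𝒪] DQ.R, Function.Surjective γ) :=
  h4_S56_of p hp2 hp𝒪 ρbar habs hdet hsplit hTW S Smin hpSmin hSmin hS hmin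
    (h4_midRows_of_base p hp2 hbase)
    (fun {k} _ _ _ rb hp2' hdet' hrb W' hW' hD h0 =>
      haveI : CharP k p := charP_of_injective_algebraMap (algebraMap (ZMod p) k).injective p
      h79_R3_ord_of_kum p rb hp2' (fun χ hχ => h7_kum_p p hp2' k χ hχ) hdet' hrb W' hW' hD h0)
    (fun {k} _ _ _ rb hp2' hdet' hrb W' hW' hD h0 =>
      haveI : CharP k p := charP_of_injective_algebraMap (algebraMap (ZMod p) k).injective p
      h12_R3_flat_of p rb (fun rbl hd W hcoc htr hfl hcob => hflatloc rbl hd W hcoc htr hfl hcob)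
        hrb W' hW' hD h0)

end Top

end Fermat.Agent.S56
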