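import Mathlib

/-!
# S56 / MID-TAME, the algebra (owner helper56; Mathlib only)

`h56_tw_alg`: let `R` be a `2 × 2` matrix of determinant `1` with `(tr R)² ≠ 4` (two distinct
eigenvalues), `X ≠ 0` a trace-zero matrix commuting with `R`, and `Y` a trace-zero matrix with
`tr (X Y) = 0`. Then `Y = R Z adj(R) - Z` for a trace-zero matrix `Z`.

(At a Taylor–Wiles prime: `R = ρ̄(Frob)`, `X` = the value of a tangent cocycle on tame inertia,
`Y` = the value of an `ad⁰(1)`-cocycle at Frobenius.)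
-/

set_option autoImplicit false

namespace Fermat.Agent.S56

open Matrix

variable {k : Type*} [Field k]

/-- Cayley–Hamilton for a `2 × 2` matrix of determinant one. -/
theorem h56_sq_of_det_one (R : Matrix (Fin 2) (Fin 2) k) (hdet : R.det = 1) :
    R * R = R.trace • R - 1 := by
  rw [Matrix.det_fin_two] at hdet
  ext i j
  fin_cases i <;> fin_cases j <;>
    simp [Matrix.mul_apply, Fin.sum_univ_two, Matrix.trace_fin_two] <;>
    first | ring1 | linear_combination (-1 : k) * hdet | linear_combination hdet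

/-- the adjugate of a `2 × 2` matrix. -/
theorem h56_adjugate_eq (R : Matrix (Fin 2) (Fin 2) k) :
    R.adjugate = R.trace • (1 : Matrix (Fin 2) (Fin 2) k) - R := by
  rw [Matrix.adjugate_fin_two]
  ext i j
  fin_cases i <;> fin_cases j <;> simp [Matrix.trace_fin_two]

/-- the scalar identity behind `h56_anticomm`. -/
theorem h56_E5 (h2 : (2 : k) ≠ 0) (r1 r2 r3 r4 x1 x2 x3 y1 y2 y3 : k)
    (e1 : x1 * r1 + x2 * r3 = r1 * x1 + r2 * x3)
    (e2 : x1 * r2 + x2 * r4 = r1 * x2 + r2 * -x1)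
    (e3 : x3 * r1 + -x1 * r3 = r3 * x1 + r4 * x3)
    (hXY : x1 * y1 + x2 * y3 + (x3 * y2 + -x1 * -y1) = 0)
    (hne : x1 ≠ 0 ∨ x2 ≠ 0 ∨ x3 ≠ 0) :
    (r1 - r4) * y1 + r2 * y3 + r3 * y2 = 0 := by
  rcases hne with h | h | h
  · apply mul_left_cancel₀ (mul_ne_zero h2 h)
    linear_combination (r1 - r4) * hXY + y3 * e2 - y2 * e3
  · apply mul_left_cancel₀ h
    linear_combination r2 * hXY - y1 * e2 + y2 * e1
  · apply mul_left_cancel₀ h
    linear_combination r3 * hXY + y1 * e3 - y3 * e1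

/-- a nonzero trace-zero matrix `X` commuting with `R`, and a trace-zero `Y` with
`tr (X Y) = 0`: then `Y R = tr R • Y - R Y`. -/
theorem h56_anticomm (h2 : (2 : k) ≠ 0) (R X Y : Matrix (Fin 2) (Fin 2) k)
    (hXR : X * R = R * X) (hX : X.trace = 0) (hY : Y.trace = 0) (hXY : (X * Y).trace = 0)
    (hX0 : X ≠ 0) : Y * R = R.trace • Y - R * Y := by
  rw [Matrix.trace_fin_two] at hX hY
  have e1 := congrFun (congrFun hXR 0) 0
  have e2 := congrFun (congrFun hXR 0) 1
  have e3 := congrFun (congrFun hXR 1) 0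
  simp only [Matrix.mul_apply, Fin.sum_univ_two] at e1 e2 e3
  rw [Matrix.trace_fin_two] at hXY
  simp only [Matrix.mul_apply, Fin.sum_univ_two] at hXY
  have hx11 : X 1 1 = -X 0 0 := by linear_combination hX
  have hy11 : Y 1 1 = -Y 0 0 := by linear_combination hY
  rw [hx11] at e2 e3 hXY
  rw [hy11] at hXY
  have hne : X 0 0 ≠ 0 ∨ X 0 1 ≠ 0 ∨ X 1 0 ≠ 0 := by
    by_contra hcon
    simp only [not_or, not_not] at hcon
    apply hX0
    ext i j
    fin_cases i <;> fin_cases j <;> simp [hcon.1, hcon.2.1, hcon.2.2, hx11]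
  have E5 := h56_E5 h2 (R 0 0) (R 0 1) (R 1 0) (R 1 1) (X 0 0) (X 0 1) (X 1 0)
    (Y 0 0) (Y 0 1) (Y 1 0) e1 e2 e3 hXY hne
  ext i j
  fin_cases i <;> fin_cases j <;>
    simp [Matrix.mul_apply, Fin.sum_univ_two, Matrix.trace_fin_two, hy11] <;>
    first | ring1 | linear_combination E5 | linear_combination (-1 : k) * E5

/-- **The Taylor–Wiles algebra lemma.** -/
theorem h56_tw_alg (h2 : (2 : k) ≠ 0) (R X Y : Matrix (Fin 2) (Fin 2) k) (hdet : R.det = 1)
    (hdisc : R.trace ^ 2 ≠ 4) (hXR : X * R = R * X) (hX : X.trace = 0) (hY : Y.trace = 0)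
    (hXY : (X * Y).trace = 0) (hX0 : X ≠ 0) :
    ∃ Z : Matrix (Fin 2) (Fin 2) k, Z.trace = 0 ∧ Y = R * Z * R.adjugate - Z := by
  set t := R.trace with ht
  have F1 : Y * R = t • Y - R * Y := h56_anticomm h2 R X Y hXR hX hY hXY hX0
  have F2 : R * R = t • R - 1 := h56_sq_of_det_one R hdet
  have F3 : R.adjugate = t • (1 : Matrix (Fin 2) (Fin 2) k) - R := h56_adjugate_eq R
  have hD : t ^ 2 - 4 ≠ 0 := sub_ne_zero.mpr hdisc
  have hRRY : R * (R * Y) = t • (R * Y) - Y := by
    rw [← Matrix.mul_assoc, F2, Matrix.sub_mul, Matrix.smul_mul, Matrix.one_mul]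
  -- the trace of `R Y`
  have htrRY : (R * Y).trace = 0 := by
    have h1 : (Y * R).trace = (R * Y).trace := Matrix.trace_mul_comm Y R
    have h3 := congrArg Matrix.trace F1
    rw [h1, Matrix.trace_sub, Matrix.trace_smul, hY, smul_zero, zero_sub] at h3
    have h4 : (2 : k) * (R * Y).trace = 0 := by linear_combination h3
    exact (mul_eq_zero.mp h4).resolve_left h2
  set W : Matrix (Fin 2) (Fin 2) k := t • (R * Y) - (t ^ 2 - 2) • Y with hW
  have hRW : R * W = (2 : k) • (R * Y) - t • Y := by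
    rw [hW, Matrix.mul_sub, Matrix.mul_smul, Matrix.mul_smul, hRRY]
    module
  have hWR : W * R = t • Y - (t ^ 2 - 2) • (t • Y - R * Y) := by
    rw [hW, Matrix.sub_mul, Matrix.smul_mul, Matrix.smul_mul, F1, Matrix.mul_assoc, F1,
      Matrix.mul_sub, Matrix.mul_smul, hRRY]
    module
  have hRWR : R * (W * R) = t • (R * Y) - (t ^ 2 - 2) • Y := by
    rw [hWR, Matrix.mul_sub, Matrix.mul_smul, Matrix.mul_smul, Matrix.mul_sub, Matrix.mul_smul,
      hRRY]
    module
  have hmain : R * W * R.adjugate - W = (t ^ 2 - 4) • Y := by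
    rw [F3, Matrix.mul_sub, Matrix.mul_smul, Matrix.mul_one, Matrix.mul_assoc R W R, hRWR, hRW,
      hW]
    module
  refine ⟨(t ^ 2 - 4)⁻¹ • W, ?_, ?_⟩
  · rw [Matrix.trace_smul, hW, Matrix.trace_sub, Matrix.trace_smul, Matrix.trace_smul, htrRY, hY]
    simp
  · rw [Matrix.mul_smul, Matrix.smul_mul, ← smul_sub, hmain, smul_smul, inv_mul_cancel₀ hD,
      one_smul]

end Fermat.Agent.S56
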