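import Fermat.Agent.S56.h12_MidDefs
import Fermat.Agent.S56.h66_MidPlaces
import Fermat.Agent.S56.h56_TameAlg

/-!
# S56 / MID-TAME (helper56): assembly

`h56_tame_of_BC`: the statement of `h12_tame` (with `htr`) from the two local inputs

* (T-B) `rb (loc g)` commutes with `a (loc i)` for `i` in inertia at `q`,
* (T-C) `tr (a (loc i) * ψ (loc φ)) = 0` for `i` in inertia at `q`,

using the `sl₂` algebra `h56_tw_alg` and the dictionary rows PL1 / PL2 / PL3 / CYC1.
-/

set_option autoImplicit false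

namespace Fermat.Agent.S56

open Fermat.Agent.S53 Fermat.Agent.S53.Dict ExtCitation groupCohomology

section TameAssembly

variable {k : Type} [Field k] (p : ℕ) [Fact p.Prime] [Algebra (ZMod p) k]
variable (rb : GQ →* Matrix (Fin 2) (Fin 2) k)

/-- Leibniz rule on a conjugate of an element where `rb = 1`. -/
theorem h56_tan_conj {a : GQ → Matrix (Fin 2) (Fin 2) k} (ha : a ∈ h40_TanZ rb)
    (g j : GQ) (hj : rb j = 1) :
    a (g * j * g⁻¹) = rb g * a j * rb g⁻¹ := by
  have h1 : a (g * g⁻¹) = a g * rb g⁻¹ + rb g * a g⁻¹ := ha.1 g g⁻¹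
  rw [mul_inv_cancel, h40_TanZ_map_one ha] at h1
  rw [ha.1 (g * j) g⁻¹, ha.1 g j, map_mul, hj, mul_one, mul_one, add_mul, add_assoc,
    add_left_comm, ← h1, add_zero]

/-- The inertia subgroup (in the big group) is contained in the decomposition subgroup. -/
theorem h56_inertiaIn_le_decomp (P : ValuationSubring (AlgebraicClosure ℚ)) :
    P.inertiaSubgroupIn ℚ ≤ P.decompositionSubgroup ℚ := by
  intro σ hσ
  obtain ⟨x, -, rfl⟩ := Subgroup.mem_map.mp hσ
  exact x.2

/-- Two distinct roots with product `1`: the trace squared is not `4`. -/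
theorem h56_disc_of_charpoly (R : Matrix (Fin 2) (Fin 2) k) (hdet : R.det = 1)
    (α β : k) (hαβ : α ≠ β)
    (h : R.charpoly = (Polynomial.X - Polynomial.C α) * (Polynomial.X - Polynomial.C β)) :
    R.trace ^ 2 ≠ 4 := by
  rw [Matrix.charpoly_fin_two] at h
  have h0 := congrArg (Polynomial.eval 0) h
  have h1 := congrArg (Polynomial.eval 1) h
  simp only [Polynomial.eval_add, Polynomial.eval_sub, Polynomial.eval_mul, Polynomial.eval_pow,
    Polynomial.eval_X, Polynomial.eval_C, hdet] at h0 h1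
  have hprod : α * β = 1 := by linear_combination -h0
  have hsum : R.trace = α + β := by linear_combination -h1 - hprod
  intro h4
  apply hαβ
  have : (α - β) ^ 2 = 0 := by
    rw [hsum] at h4
    linear_combination h4 - 4 * hprod
  exact sub_eq_zero.mp ((pow_eq_zero_iff two_ne_zero).mp this)

/-- `p • x = 0` for matrices over a `ZMod p`-algebra. -/
theorem h56_nsmul_p_eq_zero (x : Matrix (Fin 2) (Fin 2) k) : p • x = 0 := by
  have hp0 : (p : k) = 0 := by
    rw [← map_natCast (algebraMap (ZMod p) k) p, ZMod.natCast_self, map_zero]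
  rw [← Nat.cast_smul_eq_nsmul k p x, hp0, zero_smul]

/-- **(T-B₀)** a tangent cocycle is invariant under conjugation on inertia at `q`
(`q ≡ 1 mod p`, `rb` unramified at `q`), from (TS1) at `A = M₂(k)`. -/
theorem h56_tame_conj_inv (q : Nat.Primes)
    (TS1 : ∀ (A : Type) [AddCommGroup A], (∀ x : A, p • x = 0) →
      ∀ w : primeLocalGaloisGroup q → A, IsLevelConstant₁ (primeLocalToGlobal q) w →
      (∀ i i' : primeLocalGaloisGroup q,
        primeLocalToGlobal q i ∈ (primeLocalPlace q).inertiaSubgroupIn ℚ →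
        primeLocalToGlobal q i' ∈ (primeLocalPlace q).inertiaSubgroupIn ℚ →
        w (i * i') = w i + w i') →
      ∀ g i : primeLocalGaloisGroup q,
        primeLocalToGlobal q i ∈ (primeLocalPlace q).inertiaSubgroupIn ℚ →
        w (g * i * g⁻¹) = w i)
    (hrb : GaloisFactorsThroughFiniteLevel rb)
    (hrbq : ∀ P : ValuationSubring (AlgebraicClosure ℚ), P.LiesOverPrime (q : ℕ) →
      ∀ σ ∈ P.inertiaSubgroupIn ℚ, rb σ = 1)
    (a : GQ → Matrix (Fin 2) (Fin 2) k) (ha : a ∈ h40_TanZ rb) :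
    ∀ g i : primeLocalGaloisGroup q,
      primeLocalToGlobal q i ∈ (primeLocalPlace q).inertiaSubgroupIn ℚ →
      a (primeLocalToGlobal q (g * i * g⁻¹)) = a (primeLocalToGlobal q i) := by
  have hP0 := h66_primeLocalPlace_lies q
  refine TS1 (Matrix (Fin 2) (Fin 2) k) (h56_nsmul_p_eq_zero p)
    (fun τ => a (primeLocalToGlobal q τ)) ?_ ?_
  · obtain ⟨L, hL, haL⟩ := ha.2
    obtain ⟨L', hL', hrbL⟩ := hrb
    have := hL
    have := hL'
    refine ⟨L ⊔ L', IntermediateField.finiteDimensional_sup L L', fun g s hs => ?_⟩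
    have hs' := (IntermediateField.mem_fixingSubgroup_iff _ _).1 hs
    have h1 : a (primeLocalToGlobal q s) = 0 :=
      haL _ fun x hx => hs' x ((le_sup_left : L ≤ L ⊔ L') hx)
    have h2 : rb (primeLocalToGlobal q s) = 1 :=
      hrbL _ fun x hx => hs' x ((le_sup_right : L' ≤ L ⊔ L') hx)
    show a (primeLocalToGlobal q (g * s)) = a (primeLocalToGlobal q g)
    rw [map_mul, ha.1, h1, h2, mul_one, mul_zero, add_zero]
  · intro i i' hi hi'
    show a (primeLocalToGlobal q (i * i')) = a (primeLocalToGlobal q i) + a (primeLocalToGlobal q i')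
    rw [map_mul, ha.1, hrbq _ hP0 _ hi, hrbq _ hP0 _ hi', mul_one, one_mul]

/-- **(T-B)** `rb` of the decomposition group at `q` commutes with `a` of inertia. -/
theorem h56_tame_comm (q : Nat.Primes)
    (TS1 : ∀ (A : Type) [AddCommGroup A], (∀ x : A, p • x = 0) →
      ∀ w : primeLocalGaloisGroup q → A, IsLevelConstant₁ (primeLocalToGlobal q) w →
      (∀ i i' : primeLocalGaloisGroup q,
        primeLocalToGlobal q i ∈ (primeLocalPlace q).inertiaSubgroupIn ℚ →
        primeLocalToGlobal q i' ∈ (primeLocalPlace q).inertiaSubgroupIn ℚ →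
        w (i * i') = w i + w i') →
      ∀ g i : primeLocalGaloisGroup q,
        primeLocalToGlobal q i ∈ (primeLocalPlace q).inertiaSubgroupIn ℚ →
        w (g * i * g⁻¹) = w i)
    (hrb : GaloisFactorsThroughFiniteLevel rb)
    (hrbq : ∀ P : ValuationSubring (AlgebraicClosure ℚ), P.LiesOverPrime (q : ℕ) →
      ∀ σ ∈ P.inertiaSubgroupIn ℚ, rb σ = 1)
    (a : GQ → Matrix (Fin 2) (Fin 2) k) (ha : a ∈ h40_TanZ rb) :
    ∀ g i : primeLocalGaloisGroup q,
      primeLocalToGlobal q i ∈ (primeLocalPlace q).inertiaSubgroupIn ℚ →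
      rb (primeLocalToGlobal q g) * a (primeLocalToGlobal q i) =
        a (primeLocalToGlobal q i) * rb (primeLocalToGlobal q g) := by
  intro g i hi
  have hP0 := h66_primeLocalPlace_lies q
  have h1 := h56_tame_conj_inv p rb q TS1 hrb hrbq a ha g i hi
  rw [map_mul, map_mul, map_inv, h56_tan_conj rb ha _ _ (hrbq _ hP0 _ hi)] at h1
  have h2 : rb (primeLocalToGlobal q g)⁻¹ * rb (primeLocalToGlobal q g) = 1 := by
    rw [← map_mul, inv_mul_cancel, map_one]
  calc rb (primeLocalToGlobal q g) * a (primeLocalToGlobal q i)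
      = rb (primeLocalToGlobal q g) * a (primeLocalToGlobal q i) *
          (rb (primeLocalToGlobal q g)⁻¹ * rb (primeLocalToGlobal q g)) := by rw [h2, mul_one]
    _ = (rb (primeLocalToGlobal q g) * a (primeLocalToGlobal q i) *
          rb (primeLocalToGlobal q g)⁻¹) * rb (primeLocalToGlobal q g) := by
        simp only [mul_assoc]
    _ = a (primeLocalToGlobal q i) * rb (primeLocalToGlobal q g) := by rw [h1]

/-- **MID-TAME, assembly (T-D).**  From (T-B) `hB` and (T-C) `hC`. -/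
theorem h56_tame_of_BC (hp2 : p ≠ 2) (hdet : h12_DetCyc p rb)
    (q : Nat.Primes) (hq : h12_IsTWPrime p 0 rb (q : ℕ))
    (hrbq : ∀ P : ValuationSubring (AlgebraicClosure ℚ), P.LiesOverPrime (q : ℕ) →
      ∀ σ ∈ P.inertiaSubgroupIn ℚ, rb σ = 1)
    (a : GQ → Matrix (Fin 2) (Fin 2) k) (ha : a ∈ h40_TanZ rb)
    (htr : ∀ σ, (a σ * (rb σ).adjugate).trace = 0)
    (ψ : GQ → Matrix (Fin 2) (Fin 2) k) (hψtr : ∀ σ, (ψ σ).trace = 0)
    (hψq : h12_FrobNonCob rb ψ (q : ℕ))
    (hB : ∀ g i : primeLocalGaloisGroup q,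
      primeLocalToGlobal q i ∈ (primeLocalPlace q).inertiaSubgroupIn ℚ →
      rb (primeLocalToGlobal q g) * a (primeLocalToGlobal q i) =
        a (primeLocalToGlobal q i) * rb (primeLocalToGlobal q g))
    (hC : ∀ φ i : primeLocalGaloisGroup q,
      primeLocalToGlobal q i ∈ (primeLocalPlace q).inertiaSubgroupIn ℚ →
      (a (primeLocalToGlobal q i) * ψ (primeLocalToGlobal q φ)).trace = 0) :
    h12_InertiaTriv rb a (q : ℕ) := by
  have hpP : p.Prime := Fact.out
  have hpq : p ∣ (q : ℕ) - 1 := by simpa using hq.2.1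
  have hP0 := h66_primeLocalPlace_lies q
  -- `2 ≠ 0` in `k`
  have h2 : (2 : k) ≠ 0 := by
    intro h
    have h' : algebraMap (ZMod p) k (2 : ZMod p) = 0 := by rw [map_ofNat]; exact h
    have h'' : (2 : ZMod p) = 0 := by
      have hinj := (algebraMap (ZMod p) k).injective
      exact hinj (by rw [h', map_zero])
    have h3 : ((2 : ℕ) : ZMod p) = 0 := by exact_mod_cast h''
    rw [ZMod.natCast_eq_zero_iff] at h3
    exact hp2 ((Nat.prime_dvd_prime_iff_eq hpP Nat.prime_two).mp h3)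
  -- the key local statement at the distinguished place
  have key : ∀ i : primeLocalGaloisGroup q,
      primeLocalToGlobal q i ∈ (primeLocalPlace q).inertiaSubgroupIn ℚ →
      a (primeLocalToGlobal q i) = 0 := by
    intro i hi
    obtain ⟨φ, hφ⟩ := h12_exists_frob q
    by_contra hX0
    have hdetR : (rb (primeLocalToGlobal q φ)).det = 1 := by
      rw [hdet (primeLocalToGlobal q φ), h12_cyclo_loc_eq_one p q hpq φ]
      simp
    obtain ⟨α, β, hαβ, hchar⟩ := hq.2.2 _ hP0 _ hφ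
    have hdisc := h56_disc_of_charpoly _ hdetR α β hαβ hchar
    have hXtr : (a (primeLocalToGlobal q i)).trace = 0 := by
      have h := htr (primeLocalToGlobal q i)
      rwa [hrbq _ hP0 _ hi, Matrix.adjugate_one, mul_one] at h
    obtain ⟨Z, hZ, hY⟩ := h56_tw_alg h2 (rb (primeLocalToGlobal q φ))
      (a (primeLocalToGlobal q i)) (ψ (primeLocalToGlobal q φ)) hdetR hdisc
      (hB φ i hi).symm hXtr (hψtr _) (hC φ i hi) hX0
    exact hψq _ hP0 _ hφ Z hZ hY
  intro P hP σ hσ
  refine ⟨hrbq P hP σ hσ, ?_⟩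
  obtain ⟨g, hg1, -⟩ := h12_places_conj q P hP
  have hσ' := (hg1 σ).1 hσ
  obtain ⟨i, hi⟩ := (h12_decomp_range q _).1 (h56_inertiaIn_le_decomp _ hσ')
  have hi' : primeLocalToGlobal q i ∈ (primeLocalPlace q).inertiaSubgroupIn ℚ := by
    rw [hi]; exact hσ'
  have h0 := key i hi'
  have hσeq : σ = g * (primeLocalToGlobal q i) * g⁻¹ := by
    rw [hi]; group
  rw [hσeq, h56_tan_conj rb ha g _ (hrbq _ hP0 _ hi'), h0, mul_zero, zero_mul]

end TameAssembly

section TameFinal

variable {k : Type} [Field k] [Finite k] (p : ℕ) [Fact p.Prime] [Algebra (ZMod p) k]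
variable (rb : GQ →* Matrix (Fin 2) (Fin 2) k)

/-- The trace form of the finite field `k` over `𝔽_p` is nondegenerate (consumer form). -/
theorem h56_eq_zero_of_trace_mul (x : k)
    (h : ∀ c : k, Algebra.trace (ZMod p) k (c * x) = 0) : x = 0 := by
  by_contra hx
  obtain ⟨y, hy⟩ := Algebra.trace_surjective (ZMod p) k 1
  have h1 := h (y * x⁻¹)
  rw [mul_assoc, inv_mul_cancel₀ hx, mul_one, hy] at h1
  exact one_ne_zero h1

/-- **(T-C)** the pairing of `a` on inertia with `ψ` on the decomposition group vanishes. -/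
theorem h56_tame_pair (q : Nat.Primes) (hpq : p ∣ (q : ℕ) - 1)
    (TS1 : ∀ (A : Type) [AddCommGroup A], (∀ x : A, p • x = 0) →
      ∀ w : primeLocalGaloisGroup q → A, IsLevelConstant₁ (primeLocalToGlobal q) w →
      (∀ i i' : primeLocalGaloisGroup q,
        primeLocalToGlobal q i ∈ (primeLocalPlace q).inertiaSubgroupIn ℚ →
        primeLocalToGlobal q i' ∈ (primeLocalPlace q).inertiaSubgroupIn ℚ →
        w (i * i') = w i + w i') →
      ∀ g i : primeLocalGaloisGroup q,
        primeLocalToGlobal q i ∈ (primeLocalPlace q).inertiaSubgroupIn ℚ →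
        w (g * i * g⁻¹) = w i)
    (hrb : GaloisFactorsThroughFiniteLevel rb) (S₀ : Finset Nat.Primes) (hqS₀ : q ∉ S₀)
    (hrbq : ∀ P : ValuationSubring (AlgebraicClosure ℚ), P.LiesOverPrime (q : ℕ) →
      ∀ σ ∈ P.inertiaSubgroupIn ℚ, rb σ = 1)
    (a : GQ → Matrix (Fin 2) (Fin 2) k) (ha : a ∈ h40_TanZ rb)
    (ψ : GQ → Matrix (Fin 2) (Fin 2) k) (hψ : ψ ∈ h12_ZN rb S₀)
    (h : ∀ c : k, h12_LocCob₂ p q (h12_cup p rb a (c • ψ))) :
    ∀ φ i : primeLocalGaloisGroup q,
      primeLocalToGlobal q i ∈ (primeLocalPlace q).inertiaSubgroupIn ℚ →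
      (a (primeLocalToGlobal q i) * ψ (primeLocalToGlobal q φ)).trace = 0 := by
  intro φ i hi
  have hP0 := h66_primeLocalPlace_lies q
  have hψ1 : ψ 1 = 0 := by
    have h1 := hψ.2.1 1 1
    rw [mul_one, map_one, h12_act, one_mul, Matrix.adjugate_one, mul_one] at h1
    exact left_eq_add.mp h1
  have hψI : ∀ j : primeLocalGaloisGroup q,
      primeLocalToGlobal q j ∈ (primeLocalPlace q).inertiaSubgroupIn ℚ →
      ψ (primeLocalToGlobal q j) = 0 := by
    intro j hj
    obtain ⟨F, hF, hFψ⟩ := hψ.2.2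
    have h1 := hFψ 1 (primeLocalToGlobal q j) (hF.2 q hqS₀ _ hP0 hj)
    rwa [one_mul, hψ1] at h1
  have hconj := h56_tame_conj_inv p rb q TS1 hrb hrbq a ha
  apply h56_eq_zero_of_trace_mul p
  intro c
  obtain ⟨w, hwlev, hw⟩ := h c
  have hcyc : ∀ τ : primeLocalGaloisGroup q,
      ((cycloChar p (primeLocalToGlobal q τ) : (ZMod p)ˣ) : ZMod p) = 1 := by
    intro τ
    rw [h12_cyclo_loc_eq_one p q hpq τ]
    rfl
  have hwadd : ∀ τ j : primeLocalGaloisGroup q,
      primeLocalToGlobal q j ∈ (primeLocalPlace q).inertiaSubgroupIn ℚ →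
      w (τ * j) = w τ + w j := by
    intro τ j hj
    have h1 := hw τ j
    rw [hcyc, one_mul] at h1
    have hz : h12_cup p rb a (c • ψ) (primeLocalToGlobal q τ, primeLocalToGlobal q j) = 0 := by
      simp only [h12_cup, Pi.smul_apply, hψI j hj, smul_zero, mul_zero, zero_mul,
        Matrix.trace_zero, map_zero]
    rw [hz] at h1
    linear_combination -h1
  have hwinv := TS1 (ZMod p)
    (fun x => by rw [nsmul_eq_mul, ZMod.natCast_self, zero_mul]) w hwlev
    (fun i i' _ hi' => hwadd i i' hi') φ i hi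
  have h2 := hw (φ * i * φ⁻¹) φ
  rw [hcyc, one_mul, inv_mul_cancel_right, hwadd φ i hi, hwinv] at h2
  have hrb1 : rb (primeLocalToGlobal q (φ * i * φ⁻¹)) = 1 := by
    rw [map_mul, map_mul, map_mul, map_mul, hrbq _ hP0 _ hi, mul_one, ← map_mul, ← map_mul,
      mul_inv_cancel, map_one, map_one]
  have hz2 : h12_cup p rb a (c • ψ)
      (primeLocalToGlobal q (φ * i * φ⁻¹), primeLocalToGlobal q φ) =
      Algebra.trace (ZMod p) k
        (c * (a (primeLocalToGlobal q i) * ψ (primeLocalToGlobal q φ)).trace) := by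
    simp only [h12_cup, Pi.smul_apply, hrb1, Matrix.adjugate_one, mul_one, hconj φ i hi,
      Matrix.mul_smul, Matrix.trace_smul, smul_eq_mul]
  rw [hz2] at h2
  rw [← h2]
  ring

/-- **MID-TAME in hypothesis form**: the skeleton statement `h12_tame` (v2, with `htr`) from
(TS1) `h12_tame_inv` (at `A : Type`; only `A = M₂(k)` and `A = ZMod p` are used). -/
theorem h56_tame_of (hp2 : p ≠ 2) (hdet : h12_DetCyc p rb)
    (hrb : GaloisFactorsThroughFiniteLevel rb) (S₀ : Finset Nat.Primes)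
    (q : Nat.Primes) (hqS₀ : q ∉ S₀) (hq : h12_IsTWPrime p 0 rb (q : ℕ))
    (TS1 : ∀ (A : Type) [AddCommGroup A], (∀ x : A, p • x = 0) →
      ∀ w : primeLocalGaloisGroup q → A, IsLevelConstant₁ (primeLocalToGlobal q) w →
      (∀ i i' : primeLocalGaloisGroup q,
        primeLocalToGlobal q i ∈ (primeLocalPlace q).inertiaSubgroupIn ℚ →
        primeLocalToGlobal q i' ∈ (primeLocalPlace q).inertiaSubgroupIn ℚ →
        w (i * i') = w i + w i') →
      ∀ g i : primeLocalGaloisGroup q,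
        primeLocalToGlobal q i ∈ (primeLocalPlace q).inertiaSubgroupIn ℚ →
        w (g * i * g⁻¹) = w i)
    (hrbq : ∀ P : ValuationSubring (AlgebraicClosure ℚ), P.LiesOverPrime (q : ℕ) →
      ∀ σ ∈ P.inertiaSubgroupIn ℚ, rb σ = 1)
    (a : GQ → Matrix (Fin 2) (Fin 2) k) (ha : a ∈ h40_TanZ rb)
    (htr : ∀ σ, (a σ * (rb σ).adjugate).trace = 0)
    (ψ : GQ → Matrix (Fin 2) (Fin 2) k) (hψ : ψ ∈ h12_ZN rb S₀)
    (hψq : h12_FrobNonCob rb ψ (q : ℕ))
    (h : ∀ c : k, h12_LocCob₂ p q (h12_cup p rb a (c • ψ))) :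
    h12_InertiaTriv rb a (q : ℕ) := by
  have hpq : p ∣ (q : ℕ) - 1 := by simpa using hq.2.1
  exact h56_tame_of_BC p rb hp2 hdet q hq hrbq a ha htr ψ hψ.1 hψq
    (h56_tame_comm p rb q TS1 hrb hrbq a ha)
    (h56_tame_pair p rb q hpq TS1 hrb S₀ hqS₀ hrbq a ha ψ hψ h)

end TameFinal

end Fermat.Agent.S56
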