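import Fermat.Agent.S56.h12_MidDefs
import Fermat.Agent.S56.h66_MidPlaces
import Fermat.Agent.S56.h66_TWLemma
import Fermat.Agent.S56.h30_FrobIndep

/-!
# S56 / MID, row MID-GREEDY (helper68): the greedy choice of Taylor–Wiles primes

`h68_greedy` = the skeleton statement `h12_greedy` (helper12's `h12_SkelMid.lean`, v3: with the
binder `hrbS₀`; the hypothesis `hp2 : p ≠ 2` is NOT needed and is left out).

For a Taylor–Wiles prime `q ∉ B` and the Frobenius `φ_q` at the distinguished place, the functional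
`ψ ↦ tr (ψ φ_q * rb φ_q)` on `h12_ZN rb S₀` kills the coboundaries, and cuts out exactly the classes
which are coboundaries on `G_q`; its non-vanishing is `h12_FrobNonCob`.  These functionals separate
the points of `H = ZN / BN` (`hTW1`), hence contain a basis of the dual of `H`; the dual basis
gives the classes `ψs`.

* `h68_dual_system`: the linear algebra (Mathlib only).
* `h68_exists_act_sub`, `h68_trace_act_sub`, `h68_reg_of_charpoly`: `2 × 2` matrices.
* `h68_cob_mul`, `h68_cob_pow`, `h68_cob_conj`: cocycle algebra.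
* `h68_locCob_of_frob`, `h68_frob_indep`: the local statements at an unramified prime.
* `h68_greedy`: the row.
-/

set_option autoImplicit false

namespace Fermat.Agent.S56

open Fermat.Agent.S53 Fermat.Agent.S53.Dict ExtCitation groupCohomology

local notation "M₂[" k "]" => Matrix (Fin 2) (Fin 2) k

/-- Greedy dual system: a separating family of functionals on a finite-dimensional space contains
a basis of the dual; `xs` is the dual basis. -/
theorem h68_dual_system {k : Type*} [Field k] {H : Type*} [AddCommGroup H] [Module k H]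
    [Module.Finite k H] {ι : Type*} (lam : ι → H →ₗ[k] k)
    (hsep : ∀ x : H, x ≠ 0 → ∃ i, lam i x ≠ 0) :
    ∃ (qv : Fin (Module.finrank k H) → ι) (xs : Fin (Module.finrank k H) → H),
      (∀ i, lam (qv i) (xs i) = 1) ∧ ∀ i j, j ≠ i → lam (qv j) (xs i) = 0 := by
  classical
  have hco : (Submodule.span k (Set.range lam)).dualCoannihilator = ⊥ := by
    rw [eq_bot_iff]
    intro x hx
    rw [Submodule.mem_dualCoannihilator] at hx
    by_contra hx0
    obtain ⟨i, hi⟩ := hsep x hx0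
    exact hi (hx (lam i) (Submodule.subset_span ⟨i, rfl⟩))
  have hspan : (⊤ : Submodule k (Module.Dual k H)) ≤ Submodule.span k (Set.range lam) := by
    rw [← Subspace.dualCoannihilator_dualAnnihilator_eq (W := Submodule.span k (Set.range lam)),
      hco, Submodule.dualAnnihilator_bot]
  let b0 := Module.Basis.ofSpan hspan
  have : Finite ((linearIndepOn_empty k (id : Module.Dual k H → Module.Dual k H)).extend
      (Set.empty_subset (Set.range lam))) := Module.Finite.finite_basis b0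
  have := Fintype.ofFinite ((linearIndepOn_empty k (id : Module.Dual k H → Module.Dual k H)).extend
      (Set.empty_subset (Set.range lam)))
  have hcard : Fintype.card ((linearIndepOn_empty k (id : Module.Dual k H → Module.Dual k H)).extend
      (Set.empty_subset (Set.range lam))) = Module.finrank k H := by
    rw [← Module.finrank_eq_card_basis b0, Subspace.dual_finrank_eq]
  let e := Fintype.equivFinOfCardEq hcard
  let b := b0.reindex e
  have hb : ∀ j, ∃ i, lam i = b j := by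
    intro j
    have := Module.Basis.ofSpan_subset hspan ⟨e.symm j, rfl⟩
    obtain ⟨i, hi⟩ := this
    exact ⟨i, by rw [hi]; simp [b, b0]⟩
  choose qv hqv using hb
  refine ⟨qv, fun i => (Module.evalEquiv k H).symm (b.dualBasis i), fun i => ?_,
    fun i j hj => ?_⟩
  · rw [hqv, Module.apply_evalEquiv_symm_apply, Module.Basis.dualBasis_apply_self]
    simp
  · rw [hqv, Module.apply_evalEquiv_symm_apply, Module.Basis.dualBasis_apply_self]
    simp [hj]

section Mat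

variable {k : Type} [Field k]

theorem h68_act_trace (A Y : M₂[k]) : (h12_act A Y).trace = A.det * Y.trace := by
  rw [h12_act, Matrix.trace_mul_comm, ← Matrix.mul_assoc, Matrix.adjugate_mul, Matrix.smul_mul,
    Matrix.one_mul, Matrix.trace_smul, smul_eq_mul]

theorem h68_act_one (Y : M₂[k]) : h12_act (1 : M₂[k]) Y = Y := by
  simp [h12_act]

theorem h68_act_mul (A B Y : M₂[k]) : h12_act (A * B) Y = h12_act A (h12_act B Y) := by
  simp only [h12_act, Matrix.adjugate_mul_distrib, Matrix.mul_assoc]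

theorem h68_act_sub (A Y Z : M₂[k]) : h12_act A (Y - Z) = h12_act A Y - h12_act A Z := by
  simp only [h12_act, Matrix.mul_sub, Matrix.sub_mul]

theorem h68_act_neg (A Y : M₂[k]) : h12_act A (-Y) = -h12_act A Y := by
  simp only [h12_act, Matrix.mul_neg, Matrix.neg_mul]

/-- Coboundaries at `A` are orthogonal to `A` (for `det A = 1`). -/
theorem h68_trace_act_sub (A Y : M₂[k]) (hA : A.det = 1) :
    ((h12_act A Y - Y) * A).trace = 0 := by
  rw [h12_act, Matrix.sub_mul, Matrix.trace_sub, Matrix.mul_assoc, Matrix.adjugate_mul, hA,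
    one_smul, Matrix.mul_one, Matrix.trace_mul_comm, sub_self]

/-- For a regular `A` of determinant one, the trace-zero matrices orthogonal to `A` are
coboundaries at `A`. -/
theorem h68_exists_act_sub (A y : M₂[k]) (hA : A.det = 1) (hreg : A.trace ^ 2 ≠ 4)
    (hy : y.trace = 0) (hyA : (y * A).trace = 0) :
    ∃ Y : M₂[k], Y.trace = 0 ∧ y = h12_act A Y - Y := by
  have hA0 : A.det ≠ 0 := by rw [hA]; exact one_ne_zero
  have hg : Matrix.GeneralLinearGroup.det (Matrix.GeneralLinearGroup.mkOfDetNeZero A hA0) = 1 := by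
    apply Units.ext
    show A.det = 1
    exact hA
  obtain ⟨Z, hZ, h⟩ := h66_exists_act_sub (Matrix.GeneralLinearGroup.mkOfDetNeZero A hA0) hg
    hreg y hy hyA
  refine ⟨Z, hZ, ?_⟩
  rw [h, h66_act_of_det_one _ hg]
  rfl

/-- Two distinct eigenvalues and determinant one: the discriminant is nonzero. -/
theorem h68_reg_of_charpoly (A : M₂[k]) (hA : A.det = 1) (α β : k) (hαβ : α ≠ β)
    (h : A.charpoly = (Polynomial.X - Polynomial.C α) * (Polynomial.X - Polynomial.C β)) :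
    A.trace ^ 2 ≠ 4 := by
  rw [Matrix.charpoly_fin_two, hA] at h
  have h1 := congrArg (Polynomial.eval α) h
  have h2 := congrArg (Polynomial.eval β) h
  simp only [Polynomial.eval_add, Polynomial.eval_sub, Polynomial.eval_mul, Polynomial.eval_pow,
    Polynomial.eval_X, Polynomial.eval_C, sub_self, zero_mul, mul_zero, map_one,
    Polynomial.eval_one] at h1 h2
  have h3 : (α - β) * (α + β - A.trace) = 0 := by linear_combination h1 - h2
  have h4 : A.trace = α + β := by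
    rcases mul_eq_zero.mp h3 with h | h
    · exact absurd (sub_eq_zero.mp h) hαβ
    · linear_combination -h
  intro h5
  have h6 : α * β = 1 := by
    rw [h4] at h1
    linear_combination -h1
  have h7 : (α - β) ^ 2 = 0 := by
    rw [h4] at h5
    linear_combination h5 - 4 * h6
  exact hαβ (sub_eq_zero.mp (pow_eq_zero_iff two_ne_zero |>.mp h7))

end Mat

section Cocycle

variable {k : Type} [Field k] {G : Type*} [Group G] (rb : G →* M₂[k]) (ψ : G → M₂[k])

theorem h68_cocycle_one (hψ : ∀ σ τ, ψ (σ * τ) = ψ σ + h12_act (rb σ) (ψ τ)) : ψ 1 = 0 := by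
  have := hψ 1 1
  rw [mul_one, map_one, h68_act_one] at this
  exact left_eq_add.mp this

/-- The set where `ψ` agrees with the coboundary of `Y` is closed under products. -/
theorem h68_cob_mul (hψ : ∀ σ τ, ψ (σ * τ) = ψ σ + h12_act (rb σ) (ψ τ)) (Y : M₂[k]) (σ τ : G)
    (hσ : ψ σ = h12_act (rb σ) Y - Y) (hτ : ψ τ = h12_act (rb τ) Y - Y) :
    ψ (σ * τ) = h12_act (rb (σ * τ)) Y - Y := by
  rw [hψ, hσ, hτ, map_mul, h68_act_mul, h68_act_sub]
  abel

theorem h68_cob_pow (hψ : ∀ σ τ, ψ (σ * τ) = ψ σ + h12_act (rb σ) (ψ τ)) (Y : M₂[k]) (σ : G)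
    (hσ : ψ σ = h12_act (rb σ) Y - Y) (n : ℕ) :
    ψ (σ ^ n) = h12_act (rb (σ ^ n)) Y - Y := by
  induction n with
  | zero => rw [pow_zero, h68_cocycle_one rb ψ hψ, map_one, h68_act_one, sub_self]
  | succ n ih =>
    rw [pow_succ]
    exact h68_cob_mul rb ψ hψ Y _ _ ih hσ

/-- Transport of the coboundary condition under conjugation. -/
theorem h68_cob_conj (htr : ∀ σ, (ψ σ).trace = 0)
    (hψ : ∀ σ τ, ψ (σ * τ) = ψ σ + h12_act (rb σ) (ψ τ)) (g x : G) (Y : M₂[k])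
    (hY : Y.trace = 0) (h : ψ (g * x * g⁻¹) = h12_act (rb (g * x * g⁻¹)) Y - Y) :
    ∃ W : M₂[k], W.trace = 0 ∧ ψ x = h12_act (rb x) W - W := by
  refine ⟨h12_act (rb g⁻¹) (Y + ψ g), ?_, ?_⟩
  · rw [h68_act_trace, Matrix.trace_add, hY, htr, add_zero, mul_zero]
  · have h1 := h68_cocycle_one rb ψ hψ
    have hinv : ψ g⁻¹ = -h12_act (rb g⁻¹) (ψ g) := by
      have := hψ g⁻¹ g
      rw [inv_mul_cancel, h1] at this
      exact eq_neg_of_add_eq_zero_left this.symm
    have e : x = g⁻¹ * ((g * x * g⁻¹) * g) := by group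
    have e2 : ψ x = ψ g⁻¹ + h12_act (rb g⁻¹)
        (ψ (g * x * g⁻¹) + h12_act (rb (g * x * g⁻¹)) (ψ g)) := by
      conv_lhs => rw [e]
      rw [hψ, hψ]
    have e3 : h12_act (rb x) (h12_act (rb g⁻¹) (Y + ψ g))
        = h12_act (rb g⁻¹) (h12_act (rb (g * x * g⁻¹)) (Y + ψ g)) := by
      rw [← h68_act_mul, ← h68_act_mul, ← map_mul, ← map_mul]
      congr 2
      group
    rw [e2, hinv, h, e3]
    simp only [h12_act_add, h68_act_sub]
    abel

end Cocycle

section Loc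

variable {k : Type} [Field k] (rb : GQ →* M₂[k])

/-- A cocycle of `h12_ZN rb S` vanishes on the inertia groups at `q ∉ S`. -/
theorem h68_ZN_inertia (S : Finset Nat.Primes) (ψ : GQ → M₂[k]) (hψ : ψ ∈ h12_ZN rb S)
    (q : Nat.Primes) (hq : q ∉ S) (P : ValuationSubring (AlgebraicClosure ℚ))
    (hP : P.LiesOverPrime (q : ℕ)) (σ : GQ) (hσ : σ ∈ P.inertiaSubgroupIn ℚ) : ψ σ = 0 := by
  obtain ⟨-, hcoc, F, hF, hlev⟩ := hψ
  have := hlev 1 σ (hF.2 q hq P hP hσ)
  rw [one_mul] at this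
  rw [this]
  exact h68_cocycle_one rb ψ hcoc

/-- (LOC) at a prime `q ∉ S` where `rb` is unramified: a cocycle which is a coboundary at the
local Frobenius is a coboundary on the whole decomposition group. -/
theorem h68_locCob_of_frob (hrb : GaloisFactorsThroughFiniteLevel rb) (S : Finset Nat.Primes)
    (ψ : GQ → M₂[k]) (hψ : ψ ∈ h12_ZN rb S) (q : Nat.Primes) (hq : q ∉ S)
    (hrbq : ∀ P : ValuationSubring (AlgebraicClosure ℚ), P.LiesOverPrime (q : ℕ) →
      ∀ σ ∈ P.inertiaSubgroupIn ℚ, rb σ = 1)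
    (φ : primeLocalGaloisGroup q)
    (hφ : (primeLocalPlace q).IsFrobeniusAt (primeLocalToGlobal q φ) (q : ℕ))
    (Y : M₂[k]) (hY : Y.trace = 0)
    (h : ψ (primeLocalToGlobal q φ) = h12_act (rb (primeLocalToGlobal q φ)) Y - Y) :
    h12_LocCobN rb q ψ := by
  refine ⟨Y, hY, fun τ => ?_⟩
  have hψ' := hψ
  obtain ⟨-, hcoc, F, hF, hlev⟩ := hψ'
  obtain ⟨L, hL, hLrb⟩ := hrb
  have hFfin : FiniteDimensional ℚ F := hF.1
  obtain ⟨n, i, hi, hs⟩ := h12_frob_gen q φ hφ (F ⊔ L)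
    (IntermediateField.finiteDimensional_sup F L) τ
  rw [IntermediateField.fixingSubgroup_sup] at hs
  obtain ⟨hsF, hsL⟩ := hs
  have e : primeLocalToGlobal q τ * primeLocalToGlobal q (τ⁻¹ * φ ^ n * i)
      = (primeLocalToGlobal q φ) ^ n * primeLocalToGlobal q i := by
    rw [map_mul, map_mul, map_inv, map_pow]
    group
  have hrbs : rb (primeLocalToGlobal q (τ⁻¹ * φ ^ n * i)) = 1 :=
    hLrb _ (fun x hx => (IntermediateField.mem_fixingSubgroup_iff _ _).mp hsL x hx)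
  have h1 : ψ (primeLocalToGlobal q τ)
      = ψ (primeLocalToGlobal q τ * primeLocalToGlobal q (τ⁻¹ * φ ^ n * i)) :=
    (hlev _ _ hsF).symm
  have h2 : rb (primeLocalToGlobal q τ)
      = rb (primeLocalToGlobal q τ * primeLocalToGlobal q (τ⁻¹ * φ ^ n * i)) := by
    rw [map_mul, hrbs, mul_one]
  rw [h1, h2, e]
  apply h68_cob_mul rb ψ hcoc Y
  · exact h68_cob_pow rb ψ hcoc Y _ h n
  · rw [hrbq _ (h66_primeLocalPlace_lies q) _ hi, h68_act_one, sub_self]
    exact h68_ZN_inertia rb S ψ hψ q hq _ (h66_primeLocalPlace_lies q) _ hi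

/-- (IND) at a prime `q ∉ S` where `rb` is unramified: a cocycle which is a coboundary at some
Frobenius lift at some place over `q` is a coboundary at every Frobenius lift at the distinguished
place. -/
theorem h68_frob_indep (S : Finset Nat.Primes) (ψ : GQ → M₂[k]) (hψ : ψ ∈ h12_ZN rb S)
    (q : Nat.Primes) (hq : q ∉ S)
    (hrbq : ∀ P : ValuationSubring (AlgebraicClosure ℚ), P.LiesOverPrime (q : ℕ) →
      ∀ σ ∈ P.inertiaSubgroupIn ℚ, rb σ = 1)
    (φ : GQ) (hφ : (primeLocalPlace q).IsFrobeniusAt φ (q : ℕ))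
    (P : ValuationSubring (AlgebraicClosure ℚ)) (hP : P.LiesOverPrime (q : ℕ))
    (φ' : GQ) (hφ' : P.IsFrobeniusAt φ' (q : ℕ)) (Y : M₂[k]) (hY : Y.trace = 0)
    (h : ψ φ' = h12_act (rb φ') Y - Y) :
    ∃ W : M₂[k], W.trace = 0 ∧ ψ φ = h12_act (rb φ) W - W := by
  have hψ' := hψ
  obtain ⟨htr, hcoc, -⟩ := hψ'
  obtain ⟨g, -, hgF⟩ := h12_places_conj q P hP
  have hx := (hgF φ').mp hφ'
  obtain ⟨x, hx_def⟩ : ∃ x : GQ, x = g⁻¹ * φ' * g := ⟨_, rfl⟩
  rw [← hx_def] at hx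
  have hi := h30_frob_inertia (primeLocalPlace q) (q : ℕ) φ x hφ hx
  have e : φ' = g * x * g⁻¹ := by rw [hx_def]; group
  rw [e] at h
  obtain ⟨W, hW, hWx⟩ := h68_cob_conj rb ψ htr hcoc g x Y hY h
  have hι1 : rb (φ⁻¹ * x) = 1 := hrbq _ (h66_primeLocalPlace_lies q) _ hi
  have hι2 : ψ (φ⁻¹ * x) = 0 :=
    h68_ZN_inertia rb S ψ hψ q hq _ (h66_primeLocalPlace_lies q) _ hi
  have hx1 : rb x = rb φ := by
    have : rb (φ * (φ⁻¹ * x)) = rb φ := by rw [map_mul, hι1, mul_one]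
    rwa [mul_inv_cancel_left] at this
  have hx2 : ψ x = ψ φ := by
    have : ψ (φ * (φ⁻¹ * x)) = ψ φ := by rw [hcoc, hι2, h12_act_zero, add_zero]
    rwa [mul_inv_cancel_left] at this
  exact ⟨W, hW, by rw [← hx2, ← hx1]; exact hWx⟩

/-- The functional `ψ ↦ tr (ψ g * rb g)` on `h12_ZN rb S`. -/
noncomputable def h68_frobFun (S : Finset Nat.Primes) (g : GQ) : ↥(h12_ZN rb S) →ₗ[k] k where
  toFun ψ := ((ψ : GQ → M₂[k]) g * rb g).trace
  map_add' ψ ψ' := by
    simp only [Submodule.coe_add, Pi.add_apply, Matrix.add_mul, Matrix.trace_add]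
  map_smul' c ψ := by
    simp only [Submodule.coe_smul, Pi.smul_apply, Matrix.smul_mul, Matrix.trace_smul,
      RingHom.id_apply]

theorem h68_frobFun_apply (S : Finset Nat.Primes) (g : GQ) (ψ : ↥(h12_ZN rb S)) :
    h68_frobFun rb S g ψ = ((ψ : GQ → M₂[k]) g * rb g).trace := rfl

/-- The functional kills the coboundaries when `det (rb g) = 1`. -/
theorem h68_frobFun_BN (S : Finset Nat.Primes) (g : GQ) (hg : (rb g).det = 1) :
    (h12_BN rb).comap (h12_ZN rb S).subtype ≤ LinearMap.ker (h68_frobFun rb S g) := by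
  rintro ψ ⟨Y, -, h⟩
  rw [LinearMap.mem_ker, h68_frobFun_apply]
  have := h g
  simp only [Submodule.subtype_apply] at this
  rw [this]
  exact h68_trace_act_sub (rb g) Y hg

end Loc

section Row

variable {k : Type} [Field k] [Finite k] (p : ℕ) [Fact p.Prime] [Algebra (ZMod p) k]
variable (rb : GQ →* M₂[k])

/-- **ROW MID-GREEDY** (`h12_greedy` of the MID skeleton v3, without the unused `hp2`). -/
theorem h68_greedy (hdet : h12_DetCyc p rb) (hrb : GaloisFactorsThroughFiniteLevel rb)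
    (S₀ : Finset Nat.Primes) (n : ℕ) (B : Finset ℕ) (hB : ∀ q ∈ S₀, (q : ℕ) ∈ B)
    (hrbS₀ : ∀ q : Nat.Primes, q ∉ S₀ → ∀ P : ValuationSubring (AlgebraicClosure ℚ),
      P.LiesOverPrime (q : ℕ) → ∀ σ ∈ P.inertiaSubgroupIn ℚ, rb σ = 1)
    (hfin : Module.Finite k (↥(h12_ZN rb S₀) ⧸ (h12_BN rb).comap (h12_ZN rb S₀).subtype))
    (hTW1 : ∀ ψ ∈ h12_ZN rb S₀, ψ ∉ h12_BN rb →
      ∃ q : ℕ, q ∉ B ∧ h12_IsTWPrime p n rb q ∧ h12_FrobNonCob rb ψ q) :
    ∃ qv : Fin (h12_rN rb S₀) → Nat.Primes, Function.Injective qv ∧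
      (∀ i, ((qv i : ℕ)) ∉ B ∧ h12_IsTWPrime p n rb (qv i : ℕ)) ∧
      ∃ ψs : Fin (h12_rN rb S₀) → GQ → M₂[k], ∀ i, ψs i ∈ h12_ZN rb S₀ ∧
        h12_FrobNonCob rb (ψs i) (qv i : ℕ) ∧ ∀ j, j ≠ i → h12_LocCobN rb (qv j) (ψs i) := by
  classical
  -- the index type: Taylor–Wiles primes outside `B`, each with a local Frobenius
  have hfr : ∀ q : {q : Nat.Primes // (q : ℕ) ∉ B ∧ h12_IsTWPrime p n rb (q : ℕ)},
      ∃ φ : primeLocalGaloisGroup q.1,
        (primeLocalPlace q.1).IsFrobeniusAt (primeLocalToGlobal q.1 φ) (q.1 : ℕ) :=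
    fun q => h12_exists_frob q.1
  choose φ hφ using hfr
  have hqS : ∀ q : {q : Nat.Primes // (q : ℕ) ∉ B ∧ h12_IsTWPrime p n rb (q : ℕ)},
      q.1 ∉ S₀ := fun q h => q.2.1 (hB _ h)
  have hdetg : ∀ q : {q : Nat.Primes // (q : ℕ) ∉ B ∧ h12_IsTWPrime p n rb (q : ℕ)},
      (rb (primeLocalToGlobal q.1 (φ q))).det = 1 := by
    intro q
    have hpq : p ∣ (q.1 : ℕ) - 1 := (dvd_pow_self p (Nat.succ_ne_zero n)).trans q.2.2.2.1
    rw [hdet, h12_cyclo_loc_eq_one p q.1 hpq (φ q)]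
    simp
  have hreg : ∀ q : {q : Nat.Primes // (q : ℕ) ∉ B ∧ h12_IsTWPrime p n rb (q : ℕ)},
      (rb (primeLocalToGlobal q.1 (φ q))).trace ^ 2 ≠ 4 := by
    intro q
    obtain ⟨α, β, hαβ, hch⟩ := q.2.2.2.2 _ (h66_primeLocalPlace_lies q.1) _ (hφ q)
    exact h68_reg_of_charpoly _ (hdetg q) α β hαβ hch
  -- the functionals on the quotient
  have hkey : ∀ (q : {q : Nat.Primes // (q : ℕ) ∉ B ∧ h12_IsTWPrime p n rb (q : ℕ)})
      (ψ : ↥(h12_ZN rb S₀)), h68_frobFun rb S₀ (primeLocalToGlobal q.1 (φ q)) ψ = 0 →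
      ∃ Y : M₂[k], Y.trace = 0 ∧ (ψ : GQ → M₂[k]) (primeLocalToGlobal q.1 (φ q))
        = h12_act (rb (primeLocalToGlobal q.1 (φ q))) Y - Y :=
    fun q ψ h => h68_exists_act_sub _ _ (hdetg q) (hreg q) (ψ.2.1 _) h
  obtain ⟨lam, hlam⟩ : ∃ lam : {q : Nat.Primes // (q : ℕ) ∉ B ∧ h12_IsTWPrime p n rb (q : ℕ)} →
      (↥(h12_ZN rb S₀) ⧸ (h12_BN rb).comap (h12_ZN rb S₀).subtype) →ₗ[k] k,
      ∀ q ψ, lam q (Submodule.Quotient.mk ψ)
        = h68_frobFun rb S₀ (primeLocalToGlobal q.1 (φ q)) ψ :=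
    ⟨fun q => Submodule.liftQ _ (h68_frobFun rb S₀ (primeLocalToGlobal q.1 (φ q)))
      (h68_frobFun_BN rb S₀ _ (hdetg q)), fun q ψ => rfl⟩
  have hsep : ∀ x : ↥(h12_ZN rb S₀) ⧸ (h12_BN rb).comap (h12_ZN rb S₀).subtype, x ≠ 0 →
      ∃ q, lam q x ≠ 0 := by
    intro x hx
    obtain ⟨ψ, rfl⟩ := Submodule.mkQ_surjective _ x
    have hψB : (ψ : GQ → M₂[k]) ∉ h12_BN rb := by
      intro hmem
      apply hx
      exact (Submodule.Quotient.mk_eq_zero _).mpr hmem
    obtain ⟨q, hqB, hTW, hnc⟩ := hTW1 ψ.1 ψ.2 hψB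
    refine ⟨⟨⟨q, hTW.1⟩, hqB, hTW⟩, fun h0 => ?_⟩
    rw [Submodule.mkQ_apply, hlam] at h0
    obtain ⟨Y, hY, hcob⟩ := hkey _ ψ h0
    exact hnc _ (h66_primeLocalPlace_lies _) _ (hφ _) Y hY hcob
  obtain ⟨qv, xs, hqx1, hqx0⟩ := h68_dual_system lam hsep
  have hlift : ∀ i, ∃ ψ : ↥(h12_ZN rb S₀), Submodule.Quotient.mk ψ = xs i :=
    fun i => Submodule.mkQ_surjective _ (xs i)
  choose ψs hψs using hlift
  have hval1 : ∀ i, h68_frobFun rb S₀ (primeLocalToGlobal (qv i).1 (φ (qv i))) (ψs i) = 1 := by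
    intro i
    rw [← hqx1 i, ← hψs i, hlam]
  have hval0 : ∀ i j, j ≠ i →
      h68_frobFun rb S₀ (primeLocalToGlobal (qv j).1 (φ (qv j))) (ψs i) = 0 := by
    intro i j hj
    rw [← hqx0 i j hj, ← hψs i, hlam]
  refine ⟨fun i => (qv i).1, ?_, fun i => (qv i).2, fun i => (ψs i).1,
    fun i => ⟨(ψs i).2, ?_, ?_⟩⟩
  · intro i j hij
    by_contra hne
    have h1 := hval1 i
    have h2 := hval0 i j (Ne.symm hne)
    have hqq : qv i = qv j := Subtype.ext hij
    rw [hqq, h2] at h1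
    exact zero_ne_one h1
  · intro P hP φ' hφ' Y hY hcob
    obtain ⟨W, hW, hWc⟩ := h68_frob_indep rb S₀ (ψs i).1 (ψs i).2 (qv i).1 (hqS _)
      (hrbS₀ _ (hqS _)) _ (hφ (qv i)) P hP φ' hφ' Y hY hcob
    have h1 := hval1 i
    rw [h68_frobFun_apply, hWc, h68_trace_act_sub _ W (hdetg _)] at h1
    exact zero_ne_one h1
  · intro j hj
    obtain ⟨Y, hY, hcob⟩ := hkey (qv j) (ψs i) (hval0 i j hj)
    exact h68_locCob_of_frob rb hrb S₀ _ (ψs i).2 (qv j).1 (hqS _) (hrbS₀ _ (hqS _))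
      (φ (qv j)) (hφ (qv j)) Y hY hcob

/-- The same row with the skeleton's binder list verbatim (`hp2` is not used). -/
theorem h68_greedy_skel (_hp2 : p ≠ 2) (hdet : h12_DetCyc p rb)
    (hrb : GaloisFactorsThroughFiniteLevel rb)
    (S₀ : Finset Nat.Primes) (n : ℕ) (B : Finset ℕ)
    (hB : ∀ q ∈ S₀, (q : ℕ) ∈ B)
    (hrbS₀ : ∀ q : Nat.Primes, q ∉ S₀ → ∀ P : ValuationSubring (AlgebraicClosure ℚ),
      P.LiesOverPrime (q : ℕ) → ∀ σ ∈ P.inertiaSubgroupIn ℚ, rb σ = 1)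
    (hfin : Module.Finite k (↥(h12_ZN rb S₀) ⧸ (h12_BN rb).comap (h12_ZN rb S₀).subtype))
    (hTW1 : ∀ ψ ∈ h12_ZN rb S₀, ψ ∉ h12_BN rb →
      ∃ q : ℕ, q ∉ B ∧ h12_IsTWPrime p n rb q ∧ h12_FrobNonCob rb ψ q) :
    ∃ qv : Fin (h12_rN rb S₀) → Nat.Primes, Function.Injective qv ∧
      (∀ i, ((qv i : ℕ)) ∉ B ∧ h12_IsTWPrime p n rb (qv i : ℕ)) ∧
      ∃ ψs : Fin (h12_rN rb S₀) → GQ → M₂[k], ∀ i, ψs i ∈ h12_ZN rb S₀ ∧
        h12_FrobNonCob rb (ψs i) (qv i : ℕ) ∧ ∀ j, j ≠ i → h12_LocCobN rb (qv j) (ψs i) :=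
  h68_greedy p rb hdet hrb S₀ n B hB hrbS₀ hfin hTW1

end Row

end Fermat.Agent.S56
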