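import Fermat.Agent.S56.h4_MidTop
import Fermat.Agent.S56.h12_MidCount
import Fermat.Agent.S56.h56_Tame
import Fermat.Agent.S56.h68_Greedy
import Fermat.Agent.S56.h3_ZNFin
import Fermat.Agent.S56.h30_TW1Final

/-!
# S56 from the rows that are still open (helper4)

`h4_S56_of`: the frozen statement S56 from the MID / W1 / W2 / W3 rows which are not yet on
main, taken as hypotheses in their skeleton shapes:

* `hrecip` (`h12_recip`, MID-RECIP), `hTS1` (`h12_tame_inv`, MID-TS1),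
* `hR1` (`h12_R1`, W1),
* `hunr`, `hunip` (`h12_R3_unr`, `h12_R3_unip`, W2), `hord` (`h12_R3_ord`, W2),
  `hflat` (`h12_R3_flat`, W3).

The landed rows are plugged in: `h12_TW1`, `h3_ZN_finite`, `h68_greedy_skel`, `h12_count_of`,
`h56_tame_of`, `h12_unr_level`, and the top `h4_WSO_of` / `h4_WFL_of` + `h40_S56_of_SEL`.
-/

set_option autoImplicit false
set_option linter.unusedSectionVars false
set_option linter.unusedVariables false

namespace Fermat.Agent.S56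

open Fermat.Agent.S53 Fermat.Agent.S53.Dict ExtCitation groupCohomology

local notation "M₂[" k "]" => Matrix (Fin 2) (Fin 2) k

/-- The rows consumed by the top, from the landed rows and the open rows RECIP, TS1, R1,
R3-unr, R3-unip. -/
theorem h4_midRows_of (p : ℕ) [Fact p.Prime]
    (hrecip : p ≠ 2 → ∀ (Sg : Finset Nat.Primes), pPrime p ∈ Sg →
      ∀ z : GQ × GQ → ZMod p, h12_IsCocycle₂ p z → IsLevelConstantS₂ Sg z →
      ∀ q₀ : Nat.Primes, q₀ ∈ Sg →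
      (∀ q ∈ Sg, q ≠ q₀ → h12_LocCob₂ p q z) → h12_LocCob₂ p q₀ z)
    (hTS1 : ∀ (q : Nat.Primes), p ∣ (q : ℕ) - 1 → ∀ (A : Type) [AddCommGroup A],
      (∀ x : A, p • x = 0) → ∀ w : primeLocalGaloisGroup q → A,
      IsLevelConstant₁ (primeLocalToGlobal q) w →
      (∀ i i' : primeLocalGaloisGroup q,
        primeLocalToGlobal q i ∈ (primeLocalPlace q).inertiaSubgroupIn ℚ →
        primeLocalToGlobal q i' ∈ (primeLocalPlace q).inertiaSubgroupIn ℚ →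
        w (i * i') = w i + w i') →
      ∀ g i : primeLocalGaloisGroup q,
        primeLocalToGlobal q i ∈ (primeLocalPlace q).inertiaSubgroupIn ℚ →
        w (g * i * g⁻¹) = w i)
    (hR1 : ∀ {k : Type} [Field k] [Finite k] [Algebra (ZMod p) k] (rb : GQ →* M₂[k])
      (hp2 : p ≠ 2) (hdet : h12_DetCyc p rb)
      (hrb : GaloisFactorsThroughFiniteLevel rb)
      (hH0M : ∀ X : M₂[k], X.trace = 0 → (∀ σ, rb σ * X = X * rb σ) → X = 0)
      (hH0N : ∀ Y : M₂[k], Y.trace = 0 → (∀ σ, h12_act (rb σ) Y = Y) → Y = 0)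
      (Smin' : Finset Nat.Primes) (hpS : pPrime p ∈ Smin')
      (hrbS : ∀ q : Nat.Primes, q ∉ Smin' → ∀ P : ValuationSubring (AlgebraicClosure ℚ),
        P.LiesOverPrime (q : ℕ) → ∀ σ ∈ P.inertiaSubgroupIn ℚ, rb σ = 1),
      ∃ T0 : Finset Nat.Primes, ∀ S₀ : Finset Nat.Primes, Smin' ∪ T0 ⊆ S₀ →
        h12_ShaBound rb S₀)
    (hunr : ∀ {k : Type} [Field k] [Finite k] (rb : GQ →* M₂[k])
      (hrb : GaloisFactorsThroughFiniteLevel rb) (v : Nat.Primes)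
      (W' : Submodule k (GQ → M₂[k])) (hW' : W' ≤ h40_TanZ rb)
      (htr : ∀ a ∈ W', ∀ σ, (a σ * (rb σ).adjugate).trace = 0)
      (hunr : ∀ a ∈ W', h12_InertiaTriv rb a (v : ℕ))
      (h0 : ∀ a ∈ W', h12_LocCobM rb v a → a = 0),
      Module.rank k W' ≤ (Module.finrank k (h12_H0M rb v) : Cardinal))
    (hunip : ∀ {k : Type} [Field k] [Finite k] [Algebra (ZMod p) k] (rb : GQ →* M₂[k])
      (hp2 : p ≠ 2) (hrb : GaloisFactorsThroughFiniteLevel rb)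
      (v : Nat.Primes) (hv : (v : ℕ) ≠ p)
      (hram : ¬ ∀ P : ValuationSubring (AlgebraicClosure ℚ), P.LiesOverPrime (v : ℕ) →
        ∀ σ ∈ P.inertiaSubgroupIn ℚ, rb σ = 1)
      (W' : Submodule k (GQ → M₂[k])) (hW' : W' ≤ h40_TanZ rb)
      (htr : ∀ a ∈ W', ∀ σ, (a σ * (rb σ).adjugate).trace = 0)
      (hD : ∀ (a : GQ → M₂[k]) (ha : a ∈ W'), a ≠ 0 →
        (h40_tanRep rb hrb a (hW' ha)).IsUnipotentOnInertiaAt (v : ℕ))
      (h0 : ∀ a ∈ W', h12_LocCobM rb v a → a = 0),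
      Module.rank k W' ≤ (Module.finrank k (h12_H0M rb v) : Cardinal)) :
    h4_MidRows p where
  ZN_finite := fun rb hdet hrb S₀ hpS₀ hrbS₀ => h3_ZN_finite p rb hdet hrb S₀ hpS₀ hrbS₀
  R1 := hR1
  greedy := fun rb => h68_greedy_skel p rb
  count := fun rb hp2 hdet hrb S₀ hpS₀ hrbS₀ qv hqv hqS₀ hTW ψs hψs W hW hW0 hunr' htr hloc
      hSha =>
    h12_count_of p rb hdet hrb S₀ hpS₀ qv ψs (fun i => ⟨(hψs i).1, (hψs i).2.2⟩)
      (fun z hz hlev q₀ hq₀ hloc' =>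
        hrecip hp2 _ (Finset.mem_union_left _ hpS₀) z hz hlev q₀ hq₀ hloc')
      (fun i a ha htr' h =>
        h56_tame_of p rb hp2 hdet hrb S₀ (qv i) (hqS₀ i) (hTW i)
          (fun A _ hA w hlev hadd => hTS1 (qv i) (by simpa using (hTW i).2.1) A hA w hlev hadd)
          (hrbS₀ (qv i) (hqS₀ i)) a ha htr' (ψs i) (hψs i).1 (hψs i).2.1 h)
      (fun a ha h hq => h12_unr_level rb S₀ _ Finset.subset_union_left a ha h hq)
      W hW hW0 hunr' htr hloc hSha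
  R3_unr := hunr
  R3_unip := hunip

section Top

open Polynomial IsLocalRing ResidualGaloisRep

variable {𝒪 : Type} [CommRing 𝒪] [IsDomain 𝒪] [IsDiscreteValuationRing 𝒪]
  [IsAdicComplete (maximalIdeal 𝒪) 𝒪] [Finite (ResidueField 𝒪)]

/-- **The frozen statement S56 from the open rows.** -/
theorem h4_S56_of (p : ℕ) [Fact p.Prime] (hp2 : p ≠ 2) (hp𝒪 : (p : 𝒪) ∈ maximalIdeal 𝒪)
    (ρbar : ResidualGaloisRep (ResidueField 𝒪))
    (habs : ρbar.IsAbsolutelyIrreducible)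
    (hdet : (GaloisRepAdic.ofResidualGaloisRep ρbar).DetIsCyclotomic p)
    (hsplit : ∀ σ : AlgebraicClosure ℚ ≃ₐ[ℚ] AlgebraicClosure ℚ,
      ∃ α β : ResidueField 𝒪, LinearMap.charpoly (ρbar.ρ σ) = (X - C α) * (X - C β))
    (hTW : ∀ (K : Type) [Field K] [Algebra (ResidueField 𝒪) K]
      (G : Subgroup (AlgebraicClosure ℚ ≃ₐ[ℚ] AlgebraicClosure ℚ)), G.index = 2 →
      ∀ V : Submodule K (ρbar.baseChange K).V,
        (∀ σ ∈ G, ∀ x ∈ V, (ρbar.baseChange K).ρ σ x ∈ V) → V = ⊥ ∨ V = ⊤)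
    (S Smin : Finset ℕ) (hpSmin : p ∈ Smin) (hSmin : Smin ⊆ S) (hS : ∀ q ∈ S, q.Prime)
    (hmin : ∀ q : ℕ, q.Prime → q ≠ p → (q ∈ Smin ↔ ¬ ρbar.IsUnramifiedAt q))
    (rows : h4_MidRows p)
    (hord : ∀ {k : Type} [Field k] [Finite k] [Algebra (ZMod p) k] (rb : GQ →* M₂[k])
      (hp2 : p ≠ 2) (hdet : h12_DetCyc p rb) (hrb : GaloisFactorsThroughFiniteLevel rb)
      (W' : Submodule k (GQ → M₂[k])) (hW' : W' ≤ h40_TanZ rb)
      (hD : ∀ (a : GQ → M₂[k]) (ha : a ∈ W'), a ≠ 0 →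
        (h40_tanRep rb hrb a (hW' ha)).DetIsCyclotomic p ∧
        (h40_tanRep rb hrb a (hW' ha)).IsStrictOrdinaryAt p)
      (h0 : ∀ a ∈ W', h12_LocCobM rb (pPrime p) a → a = 0),
      Module.rank k W' ≤ ((Module.finrank k (h12_H0M rb (pPrime p)) + 1 : ℕ) : Cardinal))
    (hflat : ∀ {k : Type} [Field k] [Finite k] [Algebra (ZMod p) k] (rb : GQ →* M₂[k])
      (hp2 : p ≠ 2) (hdet : h12_DetCyc p rb) (hrb : GaloisFactorsThroughFiniteLevel rb)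
      (W' : Submodule k (GQ → M₂[k])) (hW' : W' ≤ h40_TanZ rb)
      (hD : ∀ (a : GQ → M₂[k]) (ha : a ∈ W'), a ≠ 0 →
        (h40_tanRep rb hrb a (hW' ha)).DetIsCyclotomic p ∧
        (h40_tanRep rb hrb a (hW' ha)).IsFlatAt p)
      (h0 : ∀ a ∈ W', h12_LocCobM rb (pPrime p) a → a = 0),
      Module.rank k W' ≤ ((Module.finrank k (h12_H0M rb (pPrime p)) + 1 : ℕ) : Cardinal)) :
    (∃ r : ℕ, ∀ n : ℕ, ∃ qv : Fin r → ℕ, Function.Injective qv ∧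
      (∀ i, (qv i).Prime ∧ qv i ∉ S ∧ p ^ (n + 1) ∣ qv i - 1) ∧
      (∀ i, ∀ P : ValuationSubring (AlgebraicClosure ℚ), P.LiesOverPrime (qv i) →
        ∀ φ : AlgebraicClosure ℚ ≃ₐ[ℚ] AlgebraicClosure ℚ, P.IsFrobeniusAt φ (qv i) →
          ∃ α β : ResidueField 𝒪, α ≠ β ∧ LinearMap.charpoly (ρbar.ρ φ) = (X - C α) * (X - C β)) ∧
      ∀ DQ : GaloisRep.DeformationRingData 𝒪 ρbar (fun _A _ _ _ ρ =>
          GaloisRep.strictOrdinaryCondition 𝒪 p (Smin ∪ Finset.univ.image qv) ρ ∧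
            ∀ q ∈ Smin, q.Prime → q ≠ p → ρ.IsUnipotentOnInertiaAt q),
        ∃ γ : MvPowerSeries (Fin r) 𝒪 →ₐ[𝒪] DQ.R, Function.Surjective γ) ∧
    (∃ r : ℕ, ∀ n : ℕ, ∃ qv : Fin r → ℕ, Function.Injective qv ∧
      (∀ i, (qv i).Prime ∧ qv i ∉ S ∧ p ^ (n + 1) ∣ qv i - 1) ∧
      (∀ i, ∀ P : ValuationSubring (AlgebraicClosure ℚ), P.LiesOverPrime (qv i) →
        ∀ φ : AlgebraicClosure ℚ ≃ₐ[ℚ] AlgebraicClosure ℚ, P.IsFrobeniusAt φ (qv i) →
          ∃ α β : ResidueField 𝒪, α ≠ β ∧ LinearMap.charpoly (ρbar.ρ φ) = (X - C α) * (X - C β)) ∧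
      ∀ DQ : GaloisRep.DeformationRingData 𝒪 ρbar (fun _A _ _ _ ρ =>
          GaloisRep.flatCondition 𝒪 p (Smin ∪ Finset.univ.image qv) ρ ∧
            ∀ q ∈ Smin, q.Prime → q ≠ p → ρ.IsUnipotentOnInertiaAt q),
        ∃ γ : MvPowerSeries (Fin r) 𝒪 →ₐ[𝒪] DQ.R, Function.Surjective γ) :=
  h40_S56_of_SEL p ρbar S Smin
    (h4_WSO_of p hp2 hp𝒪 ρbar habs hdet hsplit hTW S Smin hpSmin hSmin hS hmin rows
      (fun bbar S₀ n B ψ hψ hψB =>
        h12_TW1 p hp2 hp𝒪 ρbar habs hdet hsplit hTW bbar S₀ n B ψ hψ hψB) hord)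
    (h4_WFL_of p hp2 hp𝒪 ρbar habs hdet hsplit hTW S Smin hpSmin hSmin hS hmin rows
      (fun bbar S₀ n B ψ hψ hψB =>
        h12_TW1 p hp2 hp𝒪 ρbar habs hdet hsplit hTW bbar S₀ n B ψ hψ hψB) hflat)

end Top

end Fermat.Agent.S56
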