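/-
S56 tame package, part (B) CYC (Mathlib only, on top of `h52_TameCore`):
* `h52_tame_cyc_core` : cyclicity of the tame quotient, given a uniformizer;
* `h52_exists_unif`   : existence of a uniformizer from discreteness of the valuations;
* `h52_disc_of_degree`: discreteness for algebraic elements of bounded degree over `ℚ`.
-/
import Fermat.Agent.S56.h52_TameCore

namespace Fermat.Agent.S56

open IsLocalRing Polynomial

section CycCore

variable {Ω : Type*} [Field Ω] (O : ValuationSubring Ω) {G : Type*} [Group G]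
  [MulSemiringAction G Ω] (hunit : ∀ (g : G) (x : Ω), g • x * x⁻¹ ∈ O)

theorem h52_chi_one_right (g : G) : h52_chi O hunit g 1 = 1 :=
  h52_chi_fix O hunit (smul_one g) one_ne_zero

theorem h52_chi_inv_right (g : G) {x : Ω} (hx : x ≠ 0) :
    h52_chi O hunit g x⁻¹ = (h52_chi O hunit g x)⁻¹ := by
  have h := h52_chi_mul_right O hunit g x x⁻¹
  rw [mul_inv_cancel₀ hx, h52_chi_one_right] at h
  exact eq_inv_of_mul_eq_one_right h.symm

theorem h52_chi_pow_right (g : G) (x : Ω) (n : ℕ) :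
    h52_chi O hunit g (x ^ n) = h52_chi O hunit g x ^ n := by
  induction n with
  | zero => rw [pow_zero, pow_zero]; exact h52_chi_one_right O hunit g
  | succ n ih => rw [pow_succ, h52_chi_mul_right, ih, pow_succ]

theorem h52_chi_zpow_right (g : G) {x : Ω} (hx : x ≠ 0) (n : ℤ) :
    h52_chi O hunit g (x ^ n) = h52_chi O hunit g x ^ n := by
  cases n with
  | ofNat n => simp only [Int.ofNat_eq_natCast, zpow_natCast]; exact h52_chi_pow_right O hunit g x n
  | negSucc n =>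
    rw [zpow_negSucc, zpow_negSucc, h52_chi_inv_right O hunit g (pow_ne_zero _ hx),
      h52_chi_pow_right]

/-- **Abstract (B) CYC.**  If every nonzero element of `L` is a power of `π` times a unit, then
the inert elements are, modulo the kernel of all the characters `χ · y` (`y ∈ L`), the powers of
a single one. -/
theorem h52_tame_cyc_core (L : Set Ω) (I : Subgroup G) (hI : ∀ τ ∈ I, h52_Inert O τ)
    (N : ℕ) (hN : 0 < N) (hfin : ∀ g : G, ∀ x ∈ L, g ^ N • x = x)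
    (π : Ω) (hπL : π ∈ L) (hπ0 : π ≠ 0)
    (hπ : ∀ x ∈ L, x ≠ 0 → ∃ j : ℤ, O.valuation (x * π ^ (-j)) = 1) :
    ∃ τ₀ ∈ I, ∀ τ ∈ I, ∃ j : ℕ, ∀ y ∈ L, y ≠ 0 →
      h52_chi O hunit (τ * (τ₀ ^ j)⁻¹) y = 1 := by
  classical
  have : NeZero N := ⟨hN.ne'⟩
  have hθN : ∀ τ ∈ I, h52_chi O hunit τ π ^ N = 1 := fun τ hτ => by
    rw [← h52_chi_pow hunit (hI τ hτ) hπ0]; exact h52_chi_fix O hunit (hfin τ π hπL) hπ0
  have hθ0 : ∀ τ ∈ I, h52_chi O hunit τ π ≠ 0 := fun τ hτ h0 => by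
    have := hθN τ hτ; rw [h0, zero_pow hN.ne'] at this; exact zero_ne_one this
  let φ : ↥I →* (ResidueField O)ˣ := MonoidHom.mk' (fun τ => Units.mk0 _ (hθ0 τ.1 τ.2)) (by
    intro a b
    apply Units.ext
    simp only [Units.val_mul, Units.val_mk0]
    show h52_chi O hunit (a.1 * b.1) π = _
    rw [h52_chi_mul_of_inert hunit (hI _ a.2), mul_comm])
  have hφ : ∀ τ : ↥I, ((φ τ : (ResidueField O)ˣ) : ResidueField O) = h52_chi O hunit τ.1 π :=
    fun _ => rfl
  have hrange : φ.range ≤ rootsOfUnity N (ResidueField O) := by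
    rintro _ ⟨τ, rfl⟩
    rw [mem_rootsOfUnity]
    apply Units.ext
    rw [Units.val_pow_eq_pow_val, hφ, hθN τ.1 τ.2, Units.val_one]
  haveI : Finite φ.range :=
    Finite.of_injective (Subgroup.inclusion hrange) (Subgroup.inclusion_injective hrange)
  obtain ⟨⟨u, τ₀, rfl⟩, hu⟩ := IsCyclic.exists_monoid_generator (α := φ.range)
  refine ⟨τ₀.1, τ₀.2, fun τ hτ => ?_⟩
  obtain ⟨j, hj⟩ := hu ⟨φ ⟨τ, hτ⟩, ⟨_, rfl⟩⟩
  have hj' : h52_chi O hunit τ₀.1 π ^ j = h52_chi O hunit τ π := by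
    have h1 := congrArg (fun z : φ.range => ((z : (ResidueField O)ˣ) : ResidueField O)) hj
    simpa [hφ] using h1
  refine ⟨j, fun y hy hy0 => ?_⟩
  have hρI : τ * (τ₀.1 ^ j)⁻¹ ∈ I := I.mul_mem hτ (I.inv_mem (I.pow_mem τ₀.2 j))
  have hρπ : h52_chi O hunit (τ * (τ₀.1 ^ j)⁻¹) π = 1 := by
    rw [h52_chi_mul_of_inert hunit (hI τ hτ), ← hj', ← h52_chi_pow hunit (hI _ τ₀.2) hπ0]
    exact h52_chi_inv hunit (hI _ (I.pow_mem τ₀.2 j)) hπ0
  obtain ⟨i, hi⟩ := hπ y hy hy0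
  have hu0 : y * π ^ (-i) ≠ 0 := mul_ne_zero hy0 (zpow_ne_zero _ hπ0)
  have hu1 : y * π ^ (-i) ∈ O := (O.valuation_le_one_iff _).mp hi.le
  have hu2 : (y * π ^ (-i))⁻¹ ∈ O := by
    apply (O.valuation_le_one_iff _).mp
    rw [map_inv₀, hi, inv_one]
  have hy_eq : y = (y * π ^ (-i)) * π ^ i := by
    rw [mul_assoc, ← zpow_add₀ hπ0, neg_add_cancel, zpow_zero, mul_one]
  rw [hy_eq, h52_chi_mul_right, h52_chi_unit hunit (hI _ hρI) hu1 hu2 hu0, one_mul,
    h52_chi_zpow_right O hunit _ hπ0, hρπ, one_zpow]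

end CycCore

section Disc

variable {Ω : Type*} [Field Ω] (O : ValuationSubring Ω)

/-- **Abstract DISC.**  If the `N`-th powers of the valuations of the nonzero elements of the
subfield `L` are integral powers of the valuation of `q` (a nonunit), then `L` has a uniformizer:
every nonzero element is a power of `π` times a unit. -/
theorem h52_exists_unif (L : Subfield Ω) {q : ℕ} (hqO : (q : Ω) ∈ O.nonunits) (hq0 : (q : Ω) ≠ 0)
    (N : ℕ) (hN : 0 < N)
    (hdisc : ∀ x ∈ L, x ≠ 0 → ∃ b : ℤ, O.valuation x ^ N = O.valuation (q : Ω) ^ b) :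
    ∃ π ∈ L, π ≠ 0 ∧ ∀ x ∈ L, x ≠ 0 → ∃ j : ℤ, O.valuation (x * π ^ (-j)) = 1 := by
  classical
  set γ := O.valuation (q : Ω) with hγ
  have hγ1 : γ < 1 := O.mem_nonunits_iff.mp hqO
  have hγ0 : γ ≠ 0 := (Valuation.ne_zero_iff _).mpr hq0
  have hγpos : 0 < γ := zero_lt_iff.mpr hγ0
  let B : ℕ → Prop := fun b => 0 < b ∧ ∃ x ∈ L, x ≠ 0 ∧ O.valuation x ^ N = γ ^ (b : ℤ)
  have hB : ∃ b, B b := ⟨N, hN, (q : Ω), natCast_mem L q, hq0, by rw [zpow_natCast]⟩
  obtain ⟨hb₀pos, π, hπL, hπ0, hπv⟩ := Nat.find_spec hB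
  set b₀ := Nat.find hB with hb₀
  refine ⟨π, hπL, hπ0, fun x hx hx0 => ?_⟩
  obtain ⟨c, hc⟩ := hdisc x hx hx0
  refine ⟨c / (b₀ : ℤ), ?_⟩
  set j := c / (b₀ : ℤ) with hj
  set r := c % (b₀ : ℤ) with hr
  have hb₀pos' : (0 : ℤ) < (b₀ : ℤ) := by exact_mod_cast hb₀pos
  have hr0 : 0 ≤ r := Int.emod_nonneg _ hb₀pos'.ne'
  have hrlt : r < (b₀ : ℤ) := Int.emod_lt_of_pos _ hb₀pos'
  have hcr : c = (b₀ : ℤ) * j + r := (Int.mul_ediv_add_emod c b₀).symm
  have hu0 : x * π ^ (-j) ≠ 0 := mul_ne_zero hx0 (zpow_ne_zero _ hπ0)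
  have hvu : O.valuation (x * π ^ (-j)) ^ N = γ ^ r := by
    rw [map_mul, map_zpow₀, mul_pow, hc, ← zpow_natCast (O.valuation π ^ (-j)) N, ← zpow_mul,
      mul_comm (-j) (N : ℤ), zpow_mul, zpow_natCast, hπv, ← zpow_mul, ← zpow_add₀ hγ0]
    congr 1
    rw [hcr]; ring
  have hr_eq : r = 0 := by
    by_contra hne
    have hrpos : 0 < r := lt_of_le_of_ne hr0 (Ne.symm hne)
    have hBr : B r.toNat := by
      refine ⟨by omega, x * π ^ (-j), L.mul_mem hx (L.zpow_mem hπL _), hu0, ?_⟩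
      rw [hvu, Int.toNat_of_nonneg hr0]
    have := Nat.find_min' hB hBr
    omega
  rw [hr_eq, zpow_zero] at hvu
  exact (pow_eq_one_iff_of_nonneg zero_le hN.ne').mp hvu

end Disc

section DiscDeg

variable {Ω : Type*} [Field Ω] (O : ValuationSubring Ω) {q : ℕ}

/-- Integers prime to the residue characteristic are units. -/
theorem h52_val_natCast_of_not_dvd (hq : q.Prime) (hqO : (q : Ω) ∈ O.nonunits) {n : ℕ}
    (hn : ¬ q ∣ n) : O.valuation (n : Ω) = 1 := by
  have hle : O.valuation (n : Ω) ≤ 1 := (O.valuation_le_one_iff _).mpr (natCast_mem O n)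
  by_contra hne
  have hlt : O.valuation (n : Ω) < 1 := lt_of_le_of_ne hle hne
  have hco : Nat.Coprime n q := ((Nat.Prime.coprime_iff_not_dvd hq).mpr hn).symm
  obtain ⟨a, b, hab⟩ := Nat.isCoprime_iff_coprime.mpr hco
  have h1 : ((a : Ω) * (n : Ω) + (b : Ω) * (q : Ω)) = 1 := by
    have := congrArg (Int.cast : ℤ → Ω) hab
    push_cast at this
    exact this
  have hva : O.valuation (a : Ω) ≤ 1 := (O.valuation_le_one_iff _).mpr (intCast_mem O a)
  have hvb : O.valuation (b : Ω) ≤ 1 := (O.valuation_le_one_iff _).mpr (intCast_mem O b)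
  have hq1 : O.valuation (q : Ω) < 1 := O.mem_nonunits_iff.mp hqO
  have h2 : O.valuation (1 : Ω) < 1 := by
    rw [← h1]
    refine lt_of_le_of_lt (Valuation.map_add _ _ _) (max_lt ?_ ?_)
    · rw [map_mul]
      calc O.valuation (a : Ω) * O.valuation (n : Ω) ≤ 1 * O.valuation (n : Ω) :=
            mul_le_mul_left hva _
        _ = O.valuation (n : Ω) := one_mul _
        _ < 1 := hlt
    · rw [map_mul]
      calc O.valuation (b : Ω) * O.valuation (q : Ω) ≤ 1 * O.valuation (q : Ω) :=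
            mul_le_mul_left hvb _
        _ = O.valuation (q : Ω) := one_mul _
        _ < 1 := hq1
  rw [map_one] at h2
  exact lt_irrefl _ h2

theorem h52_val_natCast (hq : q.Prime) (hqO : (q : Ω) ∈ O.nonunits) {n : ℕ} (hn : n ≠ 0) :
    ∃ e : ℕ, O.valuation (n : Ω) = O.valuation (q : Ω) ^ e := by
  obtain ⟨e, n', hn', rfl⟩ := Nat.exists_eq_pow_mul_and_not_dvd hn q hq.ne_one
  refine ⟨e, ?_⟩
  rw [Nat.cast_mul, Nat.cast_pow, map_mul, map_pow, h52_val_natCast_of_not_dvd O hq hqO hn',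
    mul_one]

variable [Algebra ℚ Ω]

theorem h52_val_rat (hq : q.Prime) (hqO : (q : Ω) ∈ O.nonunits) (hq0 : (q : Ω) ≠ 0) {c : ℚ}
    (hc : c ≠ 0) : ∃ a : ℤ, O.valuation (algebraMap ℚ Ω c) = O.valuation (q : Ω) ^ a := by
  have hγ0 : O.valuation (q : Ω) ≠ 0 := (Valuation.ne_zero_iff _).mpr hq0
  have hnum : c.num ≠ 0 := Rat.num_ne_zero.mpr hc
  obtain ⟨e1, he1⟩ := h52_val_natCast O hq hqO (n := c.num.natAbs)
    (Int.natAbs_ne_zero.mpr hnum)
  obtain ⟨e2, he2⟩ := h52_val_natCast O hq hqO (n := c.den) c.den_nz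
  refine ⟨(e1 : ℤ) - e2, ?_⟩
  have hc' : algebraMap ℚ Ω c = (c.num : Ω) / (c.den : Ω) := by
    conv_lhs => rw [← Rat.num_div_den c]
    rw [map_div₀, map_intCast, map_natCast]
  have hnum' : O.valuation (c.num : Ω) = O.valuation ((c.num.natAbs : ℕ) : Ω) := by
    rcases Int.natAbs_eq c.num with h | h
    · conv_lhs => rw [h]
      simp
    · conv_lhs => rw [h]
      simp [Valuation.map_neg]
  rw [hc', map_div₀, hnum', he1, he2, zpow_sub₀ hγ0, zpow_natCast, zpow_natCast]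

/-- Two monomials of the minimal polynomial have the same valuation. -/
theorem h52_disc_pair (hq : q.Prime) (hqO : (q : Ω) ∈ O.nonunits) (hq0 : (q : Ω) ≠ 0) (x : Ω)
    (hx : IsIntegral ℚ x) (hx0 : x ≠ 0) :
    ∃ m : ℕ, 0 < m ∧ m ≤ (minpoly ℚ x).natDegree ∧
      ∃ a : ℤ, O.valuation x ^ m = O.valuation (q : Ω) ^ a := by
  classical
  have hγ0 : O.valuation (q : Ω) ≠ 0 := (Valuation.ne_zero_iff _).mpr hq0
  set f := minpoly ℚ x with hf
  let t : ℕ → Ω := fun i => algebraMap ℚ Ω (f.coeff i) * x ^ i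
  have hsum : ∑ i ∈ f.support, t i = 0 := by
    have h := minpoly.aeval ℚ x
    rw [aeval_def, eval₂_eq_sum, Polynomial.sum_def] at h
    exact h
  have ht0 : ∀ i ∈ f.support, t i ≠ 0 := fun i hi =>
    mul_ne_zero ((_root_.map_ne_zero _).mpr (mem_support_iff.mp hi)) (pow_ne_zero _ hx0)
  have hex : ∃ i ∈ f.support, ∃ j ∈ f.support, i < j ∧ O.valuation (t i) = O.valuation (t j) := by
    by_contra hcon
    push Not at hcon
    have hinj : ∀ i ∈ f.support, ∀ j ∈ f.support, i ≠ j →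
        O.valuation (t i) ≠ O.valuation (t j) := by
      intro i hi j hj hij
      rcases lt_or_gt_of_ne hij with h | h
      · exact hcon i hi j hj h
      · exact fun e => hcon j hj i hi h e.symm
    have hne : f.support.Nonempty :=
      ⟨0, mem_support_iff.mpr (minpoly.coeff_zero_ne_zero hx hx0)⟩
    obtain ⟨i₀, hi₀, hmax⟩ :=
      Finset.exists_max_image f.support (fun i => O.valuation (t i)) hne
    have h1 : t i₀ + ∑ i ∈ f.support.erase i₀, t i = 0 := by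
      rw [Finset.add_sum_erase _ _ hi₀]; exact hsum
    have h2 : O.valuation (∑ i ∈ f.support.erase i₀, t i) < O.valuation (t i₀) := by
      apply Valuation.map_sum_lt _ ((Valuation.ne_zero_iff _).mpr (ht0 i₀ hi₀))
      intro i hi
      have hi' := Finset.mem_of_mem_erase hi
      exact lt_of_le_of_ne (hmax i hi') (hinj i hi' i₀ hi₀ (Finset.ne_of_mem_erase hi))
    have h3 : ∑ i ∈ f.support.erase i₀, t i = - t i₀ := by linear_combination h1
    rw [h3, Valuation.map_neg] at h2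
    exact lt_irrefl _ h2
  obtain ⟨i, hi, j, hj, hij, hv⟩ := hex
  obtain ⟨ai, hai⟩ := h52_val_rat (Ω := Ω) O hq hqO hq0 (mem_support_iff.mp hi)
  obtain ⟨aj, haj⟩ := h52_val_rat (Ω := Ω) O hq hqO hq0 (mem_support_iff.mp hj)
  refine ⟨j - i, by omega, (Nat.sub_le _ _).trans (le_natDegree_of_mem_supp j hj), ai - aj, ?_⟩
  simp only [t, map_mul, map_pow, hai, haj] at hv
  have hvx0 : O.valuation x ≠ 0 := (Valuation.ne_zero_iff _).mpr hx0
  have hsplit : O.valuation x ^ j = O.valuation x ^ (j - i) * O.valuation x ^ i := by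
    rw [← pow_add, Nat.sub_add_cancel hij.le]
  rw [hsplit] at hv
  have hVi : O.valuation x ^ i ≠ 0 := pow_ne_zero _ hvx0
  have h4 : O.valuation (q : Ω) ^ ai
      = O.valuation (q : Ω) ^ aj * O.valuation x ^ (j - i) := by
    apply mul_right_cancel₀ hVi
    rw [hv, mul_assoc]
  rw [zpow_sub₀ hγ0, h4, mul_comm, mul_div_assoc, div_self (zpow_ne_zero _ hγ0), mul_one]

/-- **DISC for bounded degree.** -/
theorem h52_disc_of_degree (hq : q.Prime) (hqO : (q : Ω) ∈ O.nonunits) (hq0 : (q : Ω) ≠ 0)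
    (n : ℕ) (x : Ω) (hx : IsIntegral ℚ x) (hx0 : x ≠ 0) (hdeg : (minpoly ℚ x).natDegree ≤ n) :
    ∃ b : ℤ, O.valuation x ^ n.factorial = O.valuation (q : Ω) ^ b := by
  obtain ⟨m, hm, hmd, a, ha⟩ := h52_disc_pair O hq hqO hq0 x hx hx0
  obtain ⟨k, hk⟩ := Nat.dvd_factorial hm (hmd.trans hdeg)
  refine ⟨a * k, ?_⟩
  rw [hk, pow_mul, ha, ← zpow_natCast, ← zpow_mul]

end DiscDeg

end Fermat.Agent.S56
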