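import Mathlib
import Fermat.Agent.S56.h57_Crux

/-!
# S56 / W3 / E-RED route R80, row STRB (helper57)

`h57_str_B'` = `skR_str_B'` of helper80's E-RED skeleton v2, verbatim: if the sub character of
`rb` is unramified on `J_L`, the quotient character is ramified on `J_L` and `rb` is non-split,
then `rb` has no flat lift at all.  Proof: `h57_red_struct` (the CRUX in representation
language) applied to the vector `(0, e₀)`, which lies in `V0` and is `J_L`-fixed.
-/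

set_option autoImplicit false
set_option linter.unusedSectionVars false
set_option linter.unusedVariables false
set_option linter.unusedSimpArgs false

open Coalgebra WithConv

namespace Fermat.Agent.S56

variable (p : ℕ) [Fact p.Prime]

local notation "Ω" => PadicAlgCl p
local notation "Fld" => IntermediateField ℚ_[p] (PadicAlgCl p)

theorem h57_mv_zero {k : Type} [Field k] (M : Matrix (Fin 2) (Fin 2) k) (v : Fin 2 → k) :
    M.mulVec v 0 = M 0 0 * v 0 + M 0 1 * v 1 := by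
  simp [Matrix.mulVec, dotProduct, Fin.sum_univ_two]

theorem h57_mv_one {k : Type} [Field k] (M : Matrix (Fin 2) (Fin 2) k) (v : Fin 2 → k) :
    M.mulVec v 1 = M 1 0 * v 0 + M 1 1 * v 1 := by
  simp [Matrix.mulVec, dotProduct, Fin.sum_univ_two]

/-- STR-B (`skR_str_B'`): sub character unramified and `rb` non-split => no flat lift at all. -/
theorem h57_str_B' (hp2 : p ≠ 2) {k : Type} [Field k] [Finite k] [CharP k p]
    (rb : h78_G p →* Matrix (Fin 2) (Fin 2) k) (hut : ∀ g, rb g 1 0 = 0)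
    (L : Fld) [FiniteDimensional ℚ_[p] L] (hL : h78_Stable p L)
    (a : h78_G p → Matrix (Fin 2) (Fin 2) k)
    (hcoc : ∀ s t, a (s * t) = a s * rb t + rb s * a t) (hfl : h78_LocFlat p rb a)
    (htriv : ∀ g : h78_G p, (∀ z ∈ L, g z = z) → rb g = 1 ∧ a g = 0)
    (hχ1 : ∀ s ∈ h78_J p L, rb s 0 0 = 1)
    (τ₀ : h78_G p) (hτ₀ : τ₀ ∈ h78_J p L) (hτ₀1 : rb τ₀ 1 1 ≠ 1)
    (hns : ¬ ∃ y : k, ∀ g, rb g 0 1 = y * (rb g 1 1 - rb g 0 0)) : False := by
  classical
  obtain ⟨V0, hG, hi, hii⟩ := h57_red_struct p hp2 rb a hcoc hfl L htriv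
  have hne : rb τ₀ 1 1 - 1 ≠ 0 := sub_ne_zero.2 hτ₀1
  -- the elements `(τ₀ - 1)(0, t e₁)` of `V0`
  have hs : ∀ t : k, (((0 : Fin 2 → k)),
      (![rb τ₀ 0 1 * t, (rb τ₀ 1 1 - 1) * t] : Fin 2 → k)) ∈ V0 := by
    intro t
    have h1 := hi τ₀ hτ₀ ((0 : Fin 2 → k), (![0, t] : Fin 2 → k))
    have h2 : h78_act p rb a τ₀ ((0 : Fin 2 → k), (![0, t] : Fin 2 → k))
        - ((0 : Fin 2 → k), (![0, t] : Fin 2 → k))
        = ((0 : Fin 2 → k), (![rb τ₀ 0 1 * t, (rb τ₀ 1 1 - 1) * t] : Fin 2 → k)) := by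
      refine Prod.ext ?_ ?_
      · show (rb τ₀).mulVec 0 - 0 = 0
        rw [Matrix.mulVec_zero, sub_zero]
      · funext i
        fin_cases i
        · simp [h78_act, h57_mv_zero]
        · simp [h78_act, h57_mv_one]; ring
    rw [h2] at h1
    exact h1
  -- the obstruction `κ(g)`
  have hκ : ∀ g : h78_G p, (rb g 0 0 - rb g 1 1) * rb τ₀ 0 1 + rb g 0 1 * (rb τ₀ 1 1 - 1) = 0 := by
    intro g
    by_contra hκ0
    set κ : k := (rb g 0 0 - rb g 1 1) * rb τ₀ 0 1 + rb g 0 1 * (rb τ₀ 1 1 - 1) with hκdef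
    have hx : h78_act p rb a g ((0 : Fin 2 → k),
        (![rb τ₀ 0 1 * κ⁻¹, (rb τ₀ 1 1 - 1) * κ⁻¹] : Fin 2 → k))
        - ((0 : Fin 2 → k),
          (![rb τ₀ 0 1 * (rb g 1 1 * κ⁻¹), (rb τ₀ 1 1 - 1) * (rb g 1 1 * κ⁻¹)] : Fin 2 → k)) ∈ V0 :=
      V0.sub_mem (hG g _ (hs κ⁻¹)) (hs (rb g 1 1 * κ⁻¹))
    have h2 : h78_act p rb a g ((0 : Fin 2 → k),
        (![rb τ₀ 0 1 * κ⁻¹, (rb τ₀ 1 1 - 1) * κ⁻¹] : Fin 2 → k))
        - ((0 : Fin 2 → k),
          (![rb τ₀ 0 1 * (rb g 1 1 * κ⁻¹), (rb τ₀ 1 1 - 1) * (rb g 1 1 * κ⁻¹)] : Fin 2 → k))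
        = ((0 : Fin 2 → k), (![1, 0] : Fin 2 → k)) := by
      refine Prod.ext ?_ ?_
      · show (rb g).mulVec 0 - 0 = 0
        rw [Matrix.mulVec_zero, sub_zero]
      · funext i
        fin_cases i
        · simp [h78_act, h57_mv_zero]
          have h3 : κ * κ⁻¹ = 1 := mul_inv_cancel₀ hκ0
          rw [hκdef] at h3
          linear_combination h3
        · simp [h78_act, h57_mv_one, hut]
          ring
    rw [h2] at hx
    have h4 := hii ⊥ (fun σ _ n hn => by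
      rw [AddSubgroup.mem_bot] at hn ⊢
      rw [hn]
      refine Prod.ext ?_ ?_
      · show (rb σ).mulVec 0 = 0
        rw [Matrix.mulVec_zero]
      · show (a σ).mulVec 0 + (rb σ).mulVec 0 = 0
        rw [Matrix.mulVec_zero, Matrix.mulVec_zero, add_zero])
      ((0 : Fin 2 → k), (![1, 0] : Fin 2 → k)) hx (fun σ hσ => by
      rw [AddSubgroup.mem_bot]
      refine Prod.ext ?_ ?_
      · show (rb σ).mulVec 0 - 0 = 0
        rw [Matrix.mulVec_zero, sub_zero]
      · funext i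
        fin_cases i
        · simp [h78_act, h57_mv_zero, hχ1 σ hσ]
        · simp [h78_act, h57_mv_one, hut])
    rw [AddSubgroup.mem_bot] at h4
    have h5 : (((0 : Fin 2 → k), (![1, 0] : Fin 2 → k)) : (Fin 2 → k) × (Fin 2 → k)).2 0
        = ((0 : (Fin 2 → k) × (Fin 2 → k))).2 0 := by rw [h4]
    simp at h5
  apply hns
  refine ⟨rb τ₀ 0 1 * (rb τ₀ 1 1 - 1)⁻¹, fun g => ?_⟩
  have h1 := hκ g
  field_simp
  linear_combination h1

end Fermat.Agent.S56
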