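import Mathlib
import Fermat.Agent.S56.h80_ERedDefs
import Fermat.Agent.S56.h57_Crux
import Fermat.Agent.S56.h57_ERedQR

/-!
# S56 / W3 / E-RED row STR (helper57)

`h57_datum_struct`: the structure of a flat lift in pure representation language, for a Hopf
datum `D : h80_Datum p rb a` (a subgroup `V0 ⊆ k² × k²`, Galois stable, containing `(J - 1) V`,
without `J`-fixed points modulo any `J`-stable subgroup).

`h57_str_A`, `h57_str_B`: the rows `skR_str_A`, `skR_str_B` of helper80's E-RED skeleton, verbatim.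
-/

set_option autoImplicit false
set_option linter.unusedSectionVars false
set_option linter.unusedVariables false
set_option linter.unusedSimpArgs false

open Coalgebra WithConv

namespace Fermat.Agent.S56

variable (p : ℕ) [Fact p.Prime]

local notation "Ω" => PadicAlgCl p
local notation "Fld" => IntermediateField ℚ_[p] (PadicAlgCl p)

section str
variable {k : Type} [Field k] [Finite k] [CharP k p]

/-- **Structure of a flat lift**, for a Hopf datum. -/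
theorem h57_datum_struct (hp2 : p ≠ 2) (rb : h78_G p →* Matrix (Fin 2) (Fin 2) k)
    (a : h78_G p → Matrix (Fin 2) (Fin 2) k) (D : h80_Datum p rb a) :
    ∃ V0 : AddSubgroup ((Fin 2 → k) × (Fin 2 → k)),
      (∀ (σ : h78_G p), ∀ v ∈ V0, h78_act p rb a σ v ∈ V0) ∧
      (∀ σ ∈ h78_J p D.La, ∀ v, h78_act p rb a σ v - v ∈ V0) ∧
      ∀ N : AddSubgroup ((Fin 2 → k) × (Fin 2 → k)),
        (∀ σ ∈ h78_J p D.La, ∀ n ∈ N, h78_act p rb a σ n ∈ N) →
        ∀ x ∈ V0, (∀ σ ∈ h78_J p D.La, h78_act p rb a σ x - x ∈ N) → x ∈ N := by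
  classical
  have hLpts := D.pts
  have hkill := D.kill
  have hemul := D.e_mul
  have heq := D.e_act
  have hint : ∀ (γ : D.H →ₐ[h78_Zp p] Ω) (h : D.H), ‖γ h‖ ≤ 1 :=
    fun γ h => h62_point_norm_le_one p γ h
  have he1 : D.e 1 = 0 := by
    have := hemul 1 1
    rw [mul_one] at this
    exact left_eq_add.mp this
  have hepow : ∀ (γ : WithConv (D.H →ₐ[h78_Zp p] Ω)) (n : ℕ), D.e (γ ^ n) = n • D.e γ := by
    intro γ n
    induction n with
    | zero => rw [pow_zero, he1, zero_smul]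
    | succ n ih => rw [pow_succ, hemul, ih, succ_nsmul]
  have hpv : ∀ v : (Fin 2 → k) × (Fin 2 → k), p • v = 0 := by
    intro v
    rw [← Nat.cast_smul_eq_nsmul k, CharP.cast_eq_zero, zero_smul]
  have hp1 : 1 ≤ p := (Fact.out : p.Prime).one_lt.le
  have hneg : ∀ v : (Fin 2 → k) × (Fin 2 → k), (p - 1) • v = -v := by
    intro v
    have h1 : (p - 1) • v + v = 0 := by
      rw [← succ_nsmul, Nat.sub_add_cancel hp1, hpv]
    exact eq_neg_of_add_eq_zero_left h1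
  let cj : h78_G p → WithConv (D.H →ₐ[h78_Zp p] Ω) → WithConv (D.H →ₐ[h78_Zp p] Ω) :=
    fun σ γ => toConv (h81_galPt p σ γ.ofConv)
  have hcj : ∀ σ γ, D.e (cj σ γ) = h78_act p rb a σ (D.e γ) :=
    fun σ γ => heq σ γ (cj σ γ) (fun h => rfl)
  have hcjconn : ∀ σ γ, γ ∈ h80_V1 p D.H → cj σ γ ∈ h80_V1 p D.H := by
    intro σ γ hγ h
    have h1 : (cj σ γ) h - algebraMap (h78_Zp p) Ω (counit (R := h78_Zp p) h)
        = σ (γ h - algebraMap (h78_Zp p) Ω (counit (R := h78_Zp p) h)) := by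
      rw [map_sub, h81_gal_algebraMap]
      rfl
    rw [h1, h78_norm_aut]
    exact hγ h
  have hVpow : ∀ γ : WithConv (D.H →ₐ[h78_Zp p] Ω), γ ∈ h80_V1 p D.H →
      ∀ n : ℕ, γ ^ n ∈ h80_V1 p D.H := by
    intro γ hγ n
    induction n with
    | zero => rw [pow_zero]; exact h57_V1_one p
    | succ n ih => rw [pow_succ]; exact h57_V1_mul p _ _ ih hγ
  have hsymm_add : ∀ v w, D.e.symm (v + w) = D.e.symm v * D.e.symm w := by
    intro v w
    apply D.e.injective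
    rw [hemul, D.e.apply_symm_apply, D.e.apply_symm_apply, D.e.apply_symm_apply]
  have hsymm_zero : D.e.symm 0 = 1 := by
    apply D.e.injective
    rw [D.e.apply_symm_apply, he1]
  have hsymm_neg : ∀ v, D.e.symm (-v) = D.e.symm v ^ (p - 1) := by
    intro v
    apply D.e.injective
    rw [hepow, D.e.apply_symm_apply, D.e.apply_symm_apply, hneg]
  refine ⟨{ carrier := {v | D.e.symm v ∈ h80_V1 p D.H}
            add_mem' := ?_
            zero_mem' := ?_
            neg_mem' := ?_ }, ?_, ?_, ?_⟩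
  · intro v w hv hw
    show D.e.symm (v + w) ∈ h80_V1 p D.H
    rw [hsymm_add]
    exact h57_V1_mul p _ _ hv hw
  · show D.e.symm 0 ∈ h80_V1 p D.H
    rw [hsymm_zero]
    exact h57_V1_one p
  · intro v hv
    show D.e.symm (-v) ∈ h80_V1 p D.H
    rw [hsymm_neg]
    exact hVpow _ hv _
  · intro σ v hv
    show D.e.symm (h78_act p rb a σ v) ∈ h80_V1 p D.H
    have h1 : D.e.symm (h78_act p rb a σ v) = cj σ (D.e.symm v) := by
      apply D.e.injective
      rw [hcj, D.e.apply_symm_apply, D.e.apply_symm_apply]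
    rw [h1]
    exact hcjconn σ _ hv
  · intro σ hσ v
    show D.e.symm (h78_act p rb a σ v - v) ∈ h80_V1 p D.H
    obtain ⟨d, hd, hgd⟩ := h57_V1_inertia p hkill D.La D.stable hLpts σ hσ (D.e.symm v)
      (cj σ (D.e.symm v)) (fun h => rfl)
    have h1 : D.e.symm (h78_act p rb a σ v - v) = d := by
      apply D.e.injective
      have h2 := hcj σ (D.e.symm v)
      rw [hgd, hemul, D.e.apply_symm_apply] at h2
      rw [D.e.apply_symm_apply, ← h2, add_sub_cancel_left]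
    rw [h1]
    exact hd
  · intro N hN x hx hxN
    have hfin : Finite (WithConv (D.H →ₐ[h78_Zp p] Ω)) := Finite.of_equiv _ D.e.symm
    have : Fintype (WithConv (D.H →ₐ[h78_Zp p] Ω)) := Fintype.ofFinite _
    have hmem : ∀ γ : WithConv (D.H →ₐ[h78_Zp p] Ω),
        γ ∈ (Finset.univ.filter (fun γ : WithConv (D.H →ₐ[h78_Zp p] Ω) => D.e γ ∈ N))
          ↔ D.e γ ∈ N :=
      fun γ => by simp
    have key := h57_crux p hp2 D.La hLpts hint
      (Finset.univ.filter (fun γ : WithConv (D.H →ₐ[h78_Zp p] Ω) => D.e γ ∈ N))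
      ((hmem 1).2 (by rw [he1]; exact N.zero_mem))
      (fun a ha b hb => (hmem _).2 (by
        rw [hemul]; exact N.add_mem ((hmem a).1 ha) ((hmem b).1 hb)))
      (fun a ha => ⟨a ^ (p - 1), (hmem _).2 (by
        rw [hepow]; exact N.nsmul_mem ((hmem a).1 ha) _), by
        rw [← pow_succ', Nat.sub_add_cancel hp1, hkill]⟩)
      (fun σ hσ n hn n' hn' => (hmem _).2 (by
        rw [heq σ n n' hn']; exact hN σ hσ _ ((hmem n).1 hn)))
      (D.e.symm x) hx ((hmem _).2 (by rw [hkill, he1]; exact N.zero_mem))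
      (fun σ hσ => ⟨cj σ (D.e.symm x) * D.e.symm x ^ (p - 1), (hmem _).2 (by
        rw [hemul, hcj, hepow, D.e.apply_symm_apply, hneg, ← sub_eq_add_neg]
        exact hxN σ hσ), fun h => by
        have h2 : D.e.symm x * (cj σ (D.e.symm x) * D.e.symm x ^ (p - 1)) = cj σ (D.e.symm x) := by
          rw [mul_left_comm, ← pow_succ', Nat.sub_add_cancel hp1, hkill, mul_one]
        rw [h2]
        rfl⟩)
    have := (hmem _).1 key
    rwa [D.e.apply_symm_apply] at this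

theorem h57_mulVec_zero (M : Matrix (Fin 2) (Fin 2) k) (v : Fin 2 → k) :
    M.mulVec v 0 = M 0 0 * v 0 + M 0 1 * v 1 := by
  simp [Matrix.mulVec, dotProduct, Fin.sum_univ_two]

theorem h57_mulVec_one (M : Matrix (Fin 2) (Fin 2) k) (v : Fin 2 → k) :
    M.mulVec v 1 = M 1 0 * v 0 + M 1 1 * v 1 := by
  simp [Matrix.mulVec, dotProduct, Fin.sum_univ_two]

/-- STR-A (`skR_str_A`): quotient character unramified => the lower left entry of a flat `a`
is a coboundary. -/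
theorem h57_str_A (hp2 : p ≠ 2) (rb : h78_G p →* Matrix (Fin 2) (Fin 2) k)
    (a : h78_G p → Matrix (Fin 2) (Fin 2) k) (htri : ∀ g, rb g 1 0 = 0)
    (hcoc : ∀ s t, a (s * t) = a s * rb t + rb s * a t)
    (D : h80_Datum p rb a)
    (hχ2 : ∀ τ ∈ h78_J p D.La, rb τ 1 1 = 1)
    (τ₀ : h78_G p) (hτ₀ : τ₀ ∈ h78_J p D.La) (hτ₀1 : rb τ₀ 0 0 ≠ 1) :
    ∃ z : k, ∀ g, a g 1 0 = z * (rb g 0 0 - rb g 1 1) := by
  classical
  obtain ⟨V0, hG, hi, hii⟩ := h57_datum_struct p hp2 rb a D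
  have hne : rb τ₀ 0 0 - 1 ≠ 0 := sub_ne_zero.2 hτ₀1
  set c : k := (rb τ₀ 0 0 - 1)⁻¹ with hc
  have hcc : (rb τ₀ 0 0 - 1) * c = 1 := mul_inv_cancel₀ hne
  -- the elements `(τ₀ - 1)(t e₀, 0)` of `V0`
  have hu : ∀ t : k, (((![(rb τ₀ 0 0 - 1) * t, 0] : Fin 2 → k),
      (![a τ₀ 0 0 * t, a τ₀ 1 0 * t] : Fin 2 → k)) : (Fin 2 → k) × (Fin 2 → k)) ∈ V0 := by
    intro t
    have h1 := hi τ₀ hτ₀ ((![t, 0] : Fin 2 → k), (0 : Fin 2 → k))
    have h2 : h78_act p rb a τ₀ ((![t, 0] : Fin 2 → k), (0 : Fin 2 → k))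
        - ((![t, 0] : Fin 2 → k), (0 : Fin 2 → k))
        = ((![(rb τ₀ 0 0 - 1) * t, 0] : Fin 2 → k), (![a τ₀ 0 0 * t, a τ₀ 1 0 * t] : Fin 2 → k)) := by
      refine Prod.ext ?_ ?_
      · funext i
        fin_cases i
        · simp [h78_act, h57_mulVec_zero]; ring
        · simp [h78_act, h57_mulVec_one, htri]
      · funext i
        fin_cases i
        · simp [h78_act, h57_mulVec_zero]
        · simp [h78_act, h57_mulVec_one]
    rw [h2] at h1
    exact h1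
  -- the subgroup `N = (0, k e₀)`
  let N : AddSubgroup ((Fin 2 → k) × (Fin 2 → k)) :=
    { carrier := {v | v.1 = 0 ∧ v.2 1 = 0}
      add_mem' := fun {x y} hx hy => ⟨by simp [hx.1, hy.1], by simp [hx.2, hy.2]⟩
      zero_mem' := ⟨rfl, rfl⟩
      neg_mem' := fun {x} hx => ⟨by simp [hx.1], by simp [hx.2]⟩ }
  have hNst : ∀ σ ∈ h78_J p D.La, ∀ n ∈ N, h78_act p rb a σ n ∈ N := by
    intro σ hσ n hn
    have hn1 : n.1 = 0 := hn.1
    have hn2 : n.2 1 = 0 := hn.2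
    refine ⟨?_, ?_⟩
    · show (rb σ).mulVec n.1 = 0
      rw [hn1, Matrix.mulVec_zero]
    · show ((a σ).mulVec n.1 + (rb σ).mulVec n.2) 1 = 0
      rw [hn1, Matrix.mulVec_zero, zero_add, h57_mulVec_one, htri, hn2]
      ring
  refine ⟨c * a τ₀ 1 0, fun g => ?_⟩
  -- the element `g u₀ - χ₁(g) u₀`
  have hx : h78_act p rb a g ((![(rb τ₀ 0 0 - 1) * c, 0] : Fin 2 → k),
      (![a τ₀ 0 0 * c, a τ₀ 1 0 * c] : Fin 2 → k))
      - ((![(rb τ₀ 0 0 - 1) * (c * rb g 0 0), 0] : Fin 2 → k),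
        (![a τ₀ 0 0 * (c * rb g 0 0), a τ₀ 1 0 * (c * rb g 0 0)] : Fin 2 → k)) ∈ V0 :=
    V0.sub_mem (hG g _ (hu c)) (hu (c * rb g 0 0))
  set x : (Fin 2 → k) × (Fin 2 → k) := h78_act p rb a g ((![(rb τ₀ 0 0 - 1) * c, 0] : Fin 2 → k),
      (![a τ₀ 0 0 * c, a τ₀ 1 0 * c] : Fin 2 → k))
      - ((![(rb τ₀ 0 0 - 1) * (c * rb g 0 0), 0] : Fin 2 → k),
        (![a τ₀ 0 0 * (c * rb g 0 0), a τ₀ 1 0 * (c * rb g 0 0)] : Fin 2 → k)) with hxdef
  have hx1 : x.1 = 0 := by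
    funext i
    fin_cases i
    · simp [hxdef, h78_act, h57_mulVec_zero]
      rw [hcc, ← mul_assoc, hcc]; ring
    · simp [hxdef, h78_act, h57_mulVec_one, htri]
  have hx2 : x.2 1 = a g 1 0 + rb g 1 1 * (a τ₀ 1 0 * c) - a τ₀ 1 0 * (c * rb g 0 0) := by
    simp [hxdef, h78_act, h57_mulVec_one, htri]
    rw [hcc]; ring
  have hxN : x ∈ N := by
    refine hii N hNst x hx (fun σ hσ => ⟨?_, ?_⟩)
    · show (h78_act p rb a σ x - x).1 = 0
      show (rb σ).mulVec x.1 - x.1 = 0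
      rw [hx1, Matrix.mulVec_zero, sub_zero]
    · show (h78_act p rb a σ x - x).2 1 = 0
      show ((a σ).mulVec x.1 + (rb σ).mulVec x.2) 1 - x.2 1 = 0
      rw [hx1, Matrix.mulVec_zero, zero_add, h57_mulVec_one, htri, hχ2 σ hσ]
      ring
  have h3 : x.2 1 = 0 := hxN.2
  rw [hx2] at h3
  linear_combination h3

/-- STR-B (`skR_str_B`): sub character unramified and `rb` non-split => no flat lift at all. -/
theorem h57_str_B (hp2 : p ≠ 2) (rb : h78_G p →* Matrix (Fin 2) (Fin 2) k)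
    (a : h78_G p → Matrix (Fin 2) (Fin 2) k) (htri : ∀ g, rb g 1 0 = 0)
    (D : h80_Datum p rb a)
    (hχ1 : ∀ τ ∈ h78_J p D.La, rb τ 0 0 = 1)
    (τ₀ : h78_G p) (hτ₀ : τ₀ ∈ h78_J p D.La) (hτ₀1 : rb τ₀ 1 1 ≠ 1)
    (hns : ¬ ∃ y : k, ∀ g, rb g 0 1 = y * (rb g 1 1 - rb g 0 0)) : False := by
  classical
  obtain ⟨V0, hG, hi, hii⟩ := h57_datum_struct p hp2 rb a D
  have hne : rb τ₀ 1 1 - 1 ≠ 0 := sub_ne_zero.2 hτ₀1
  -- the elements `(τ₀ - 1)(0, t e₁)` of `V0`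
  have hs : ∀ t : k, (((0 : Fin 2 → k)),
      (![rb τ₀ 0 1 * t, (rb τ₀ 1 1 - 1) * t] : Fin 2 → k)) ∈ V0 := by
    intro t
    have h1 := hi τ₀ hτ₀ ((0 : Fin 2 → k), (![0, t] : Fin 2 → k))
    have h2 : h78_act p rb a τ₀ ((0 : Fin 2 → k), (![0, t] : Fin 2 → k))
        - ((0 : Fin 2 → k), (![0, t] : Fin 2 → k))
        = ((0 : Fin 2 → k), (![rb τ₀ 0 1 * t, (rb τ₀ 1 1 - 1) * t] : Fin 2 → k)) := by
      refine Prod.ext ?_ ?_
      · show (rb τ₀).mulVec 0 - 0 = 0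
        rw [Matrix.mulVec_zero, sub_zero]
      · funext i
        fin_cases i
        · simp [h78_act, h57_mulVec_zero]
        · simp [h78_act, h57_mulVec_one]; ring
    rw [h2] at h1
    exact h1
  -- the obstruction `κ(g)`
  have hκ : ∀ g : h78_G p, (rb g 0 0 - rb g 1 1) * rb τ₀ 0 1 + rb g 0 1 * (rb τ₀ 1 1 - 1) = 0 := by
    intro g
    by_contra hκ0
    set κ : k := (rb g 0 0 - rb g 1 1) * rb τ₀ 0 1 + rb g 0 1 * (rb τ₀ 1 1 - 1) with hκdef
    have hx : h78_act p rb a g ((0 : Fin 2 → k),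
        (![rb τ₀ 0 1 * κ⁻¹, (rb τ₀ 1 1 - 1) * κ⁻¹] : Fin 2 → k))
        - ((0 : Fin 2 → k),
          (![rb τ₀ 0 1 * (rb g 1 1 * κ⁻¹), (rb τ₀ 1 1 - 1) * (rb g 1 1 * κ⁻¹)] : Fin 2 → k)) ∈ V0 :=
      V0.sub_mem (hG g _ (hs κ⁻¹)) (hs (rb g 1 1 * κ⁻¹))
    have h2 : h78_act p rb a g ((0 : Fin 2 → k),
        (![rb τ₀ 0 1 * κ⁻¹, (rb τ₀ 1 1 - 1) * κ⁻¹] : Fin 2 → k))
        - ((0 : Fin 2 → k),
          (![rb τ₀ 0 1 * (rb g 1 1 * κ⁻¹), (rb τ₀ 1 1 - 1) * (rb g 1 1 * κ⁻¹)] : Fin 2 → k))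
        = ((0 : Fin 2 → k), (![1, 0] : Fin 2 → k)) := by
      refine Prod.ext ?_ ?_
      · show (rb g).mulVec 0 - 0 = 0
        rw [Matrix.mulVec_zero, sub_zero]
      · funext i
        fin_cases i
        · simp [h78_act, h57_mulVec_zero]
          have h3 : κ * κ⁻¹ = 1 := mul_inv_cancel₀ hκ0
          rw [hκdef] at h3
          linear_combination h3
        · simp [h78_act, h57_mulVec_one, htri]
          ring
    rw [h2] at hx
    have h4 := hii ⊥ (fun σ _ n hn => by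
      rw [AddSubgroup.mem_bot] at hn ⊢
      rw [hn]
      refine Prod.ext ?_ ?_
      · show (rb σ).mulVec 0 = 0
        rw [Matrix.mulVec_zero]
      · show (a σ).mulVec 0 + (rb σ).mulVec 0 = 0
        rw [Matrix.mulVec_zero, Matrix.mulVec_zero, add_zero])
      ((0 : Fin 2 → k), (![1, 0] : Fin 2 → k)) hx (fun σ hσ => by
      rw [AddSubgroup.mem_bot]
      refine Prod.ext ?_ ?_
      · show (rb σ).mulVec 0 - 0 = 0
        rw [Matrix.mulVec_zero, sub_zero]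
      · funext i
        fin_cases i
        · simp [h78_act, h57_mulVec_zero, hχ1 σ hσ]
        · simp [h78_act, h57_mulVec_one, htri])
    rw [AddSubgroup.mem_bot] at h4
    have h5 : (((0 : Fin 2 → k), (![1, 0] : Fin 2 → k)) : (Fin 2 → k) × (Fin 2 → k)).2 0
        = ((0 : (Fin 2 → k) × (Fin 2 → k))).2 0 := by rw [h4]
    simp at h5
  apply hns
  refine ⟨rb τ₀ 0 1 * (rb τ₀ 1 1 - 1)⁻¹, fun g => ?_⟩
  have h1 := hκ g
  field_simp
  linear_combination h1

end str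

end Fermat.Agent.S56
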