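import Fermat.Agent.S56.h71_PointTransfer

/-!
# S56 / W3-C: the abstract twist argument (helper57)

Step (2) "TWIST" of the W3 proposal, in ring language, on top of helper71's transfer of points.

`H` is a finite free commutative cocommutative bialgebra over `O`.  `T` (think `O_L`) is a DVR,
`S` (think `O_{L'}`, `L' / L` unramified) a complete DVR containing `T` (`ι`), `g` an `O`-algebra
automorphism of `S`, and `φ : T → S ⧸ I` an `O`-algebra hom with `I ⊆ (ϖ^M)`,
`(p - 1) M > p v_S(p)`, which is `g`-invariant: if `s` lifts `φ t` then so does `g s`.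
If every point of `H` in `S` killed by `p` has values in `T`, then `g` fixes the values of every
point of `H` in `S` killed by `p`.

No fixed field of `g` and no ring of integers of a twisted field is needed: the transfer
`γ ↦ f` (`f ≡ φ ∘ γ` modulo `ϖ^k`) of `h71_exists_transfer` is a bijection between the finite
sets of points killed by `p`, and `g ∘ f` is again a companion of `γ`, so `g ∘ f = f` by
uniqueness.
-/

set_option autoImplicit false

namespace Fermat.Agent.S56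

open WithConv

section twistAbs

variable {O : Type*} [CommRing O] {H : Type*} [CommRing H] [Bialgebra O H]
  [Coalgebra.IsCocomm O H] [Module.Free O H] [Module.Finite O H]
  {S : Type*} [CommRing S] [IsDomain S] [IsDiscreteValuationRing S] [Algebra O S]
  [IsAdicComplete (IsLocalRing.maximalIdeal S) S]
  {T : Type*} [CommRing T] [IsDomain T] [IsDiscreteValuationRing T] [Algebra O T]

/-- A ring automorphism of a discrete valuation ring preserves divisibility by powers of a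
uniformizer. -/
theorem h57_dvr_equiv_pow_dvd {S : Type*} [CommRing S] [IsDomain S] [IsDiscreteValuationRing S]
    (g : S ≃+* S) (ϖ : S) (hϖ : Irreducible ϖ) (k : ℕ) (s : S) (h : ϖ ^ k ∣ s) :
    ϖ ^ k ∣ g s := by
  have h1 : Irreducible (g ϖ) := (MulEquiv.irreducible_iff (g : S ≃* S)).2 hϖ
  have h2 : Associated (g ϖ) ϖ :=
    IsDiscreteValuationRing.associated_of_irreducible S h1 hϖ
  obtain ⟨d, rfl⟩ := h
  rw [map_mul, map_pow]
  exact Dvd.dvd.mul_right ((h2.pow_pow (n := k)).symm.dvd) _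

/-- **The abstract twist argument.** -/
theorem h57_twist_abs (p : ℕ) (hp : p.Prime)
    (ϖ : S) (hϖ : Irreducible ϖ) (e M : ℕ) (u : S) (hu : IsUnit u)
    (hpe : (p : S) = ϖ ^ e * u) (he : 0 < e) (hM : p * e < (p - 1) * M)
    (I : Ideal S) (hI : I ≤ Ideal.span {ϖ ^ M})
    (hpT : (p : T) ≠ 0)
    (φ : T →ₐ[O] S ⧸ I) (g : S ≃ₐ[O] S)
    (hgφ : ∀ (t : T) (s : S), Ideal.Quotient.mk I s = φ t → Ideal.Quotient.mk I (g s) = φ t)
    (ι : T →ₐ[O] S) (hι : Function.Injective ι)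
    [Finite (H →ₐ[O] S)]
    (hT : ∀ f : H →ₐ[O] S, (toConv f.toLinearMap : WithConv (H →ₗ[O] S)) ^ p = 1 →
      ∃ γ : H →ₐ[O] T, ι.comp γ = f)
    (f : H →ₐ[O] S) (hf : (toConv f.toLinearMap : WithConv (H →ₗ[O] S)) ^ p = 1) (h : H) :
    g (f h) = f h := by
  classical
  obtain ⟨q, rfl⟩ : ∃ q, p = q + 1 := ⟨p - 1, by have := hp.pos; omega⟩
  have heM : e < M := by
    by_contra hle
    push Not at hle
    have : q * M ≤ (q + 1) * e := by nlinarith
    simp only [Nat.add_sub_cancel] at hM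
    omega
  obtain ⟨k, rfl⟩ : ∃ k, M = e + k := Nat.exists_eq_add_of_le heM.le
  have hk : e < (q + 1 - 1) * k := by
    simp only [Nat.add_sub_cancel] at hM ⊢
    nlinarith
  have hI' : ∀ x ∈ I, ((q + 1 : ℕ) : S) * ϖ ^ k ∣ x := by
    intro x hx
    have h1 := hI hx
    rw [Ideal.mem_span_singleton] at h1
    obtain ⟨d, rfl⟩ := h1
    obtain ⟨u', hu'⟩ := hu.exists_right_inv
    refine ⟨u' * d, ?_⟩
    rw [hpe, pow_add]
    linear_combination (-(ϖ ^ e * ϖ ^ k * d)) * hu'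
  have hreg : ∀ z : S, ϖ * z = 0 → z = 0 := fun z hz =>
    (mul_eq_zero.1 hz).resolve_left hϖ.ne_zero
  have hP : ∀ f : ℕ → S, (∀ n, ϖ ^ n ∣ f (n + 1) - f n) → ∃ L, ∀ n, ϖ ^ n ∣ L - f n := by
    have : IsPrecomplete (Ideal.span {ϖ}) S := by
      rw [← hϖ.maximalIdeal_eq]
      infer_instance
    exact h71_prec_of_isPrecomplete ϖ
  obtain ⟨ϖT, hϖT⟩ := IsDiscreteValuationRing.exists_irreducible T
  obtain ⟨eT, uT, hpeT⟩ := IsDiscreteValuationRing.eq_unit_mul_pow_irreducible hpT hϖT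
  have hpeT' : ((q + 1 : ℕ) : T) = ϖT ^ eT * (uT : T) := by rw [hpeT, mul_comm]
  have heM' : e < e + k := heM
  obtain ⟨kT, hkT, hφ⟩ := h71_dvr_reflect (q + 1) ϖ hϖ e (e + k) u hu hpe he heM' I hI
    ϖT hϖT eT (uT : T) uT.isUnit hpeT' (φ : T →+* S ⧸ I) k (q + 1 - 1) hk
  have hregT : ∀ z : T, ϖT * z = 0 → z = 0 := fun z hz =>
    (mul_eq_zero.1 hz).resolve_left hϖT.ne_zero
  obtain ⟨Φ, hΦinj, hΦ⟩ := h71_exists_transfer (H := H) (q + 1) hp ϖ u e k hu hpe hk hreg
    (h71_dvr_haus ϖ hϖ) hP I hI' ϖT (uT : T) eT kT uT.isUnit hpeT' hkT hregT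
    (h71_dvr_haus ϖT hϖT) φ (fun t ht => hφ t ht)
  -- the set of points of `S` killed by `p` is finite and injects into that of `T`
  have key := fun f : {f : H →ₐ[O] S //
      (toConv f.toLinearMap : WithConv (H →ₗ[O] S)) ^ (q + 1) = 1} => hT f.1 f.2
  choose Ψ hΨ using key
  have hΨpow : ∀ f : {f : H →ₐ[O] S //
      (toConv f.toLinearMap : WithConv (H →ₗ[O] S)) ^ (q + 1) = 1},
      (toConv (Ψ f).toLinearMap : WithConv (H →ₗ[O] T)) ^ (q + 1) = 1 := by
    intro f
    apply h71_pow_of_comp_injective (q + 1) ι hι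
    rw [hΨ f]
    exact f.2
  let Ψ' : {f : H →ₐ[O] S // (toConv f.toLinearMap : WithConv (H →ₗ[O] S)) ^ (q + 1) = 1} →
      {γ : H →ₐ[O] T // (toConv γ.toLinearMap : WithConv (H →ₗ[O] T)) ^ (q + 1) = 1} :=
    fun f => ⟨Ψ f, hΨpow f⟩
  have hΨinj : Function.Injective Ψ' := by
    intro f f' hff'
    apply Subtype.ext
    have h1 : Ψ f = Ψ f' := congrArg Subtype.val hff'
    rw [← hΨ f, ← hΨ f', h1]
  have hsurj : Function.Surjective (Φ ∘ Ψ') :=
    Finite.surjective_of_injective (hΦinj.comp hΨinj)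
  obtain ⟨f₀, hf₀⟩ := hsurj ⟨f, hf⟩
  have hf₀' : (Φ (Ψ' f₀)).1 = f := congrArg Subtype.val hf₀
  -- `g ∘ f` is again a companion of `Ψ' f₀`
  have hgf : (toConv ((g : S →ₐ[O] S).comp f).toLinearMap : WithConv (H →ₗ[O] S)) ^ (q + 1)
      = 1 := h71_pow_comp (q + 1) (g : S →ₐ[O] S) f hf
  have hcong : ∀ h' : H, ϖ ^ k ∣ ((g : S →ₐ[O] S).comp f) h' - f h' := by
    intro h'
    obtain ⟨s, hs⟩ := Ideal.Quotient.mk_surjective (φ ((Ψ' f₀).1 h'))
    have h1 : ϖ ^ k ∣ f h' - s := by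
      have := hΦ (Ψ' f₀) h' s hs
      rwa [hf₀'] at this
    have h2 : ϖ ^ k ∣ f h' - g s := by
      have := hΦ (Ψ' f₀) h' (g s) (hgφ _ s hs)
      rwa [hf₀'] at this
    have h3 : ϖ ^ k ∣ g (f h' - s) :=
      h57_dvr_equiv_pow_dvd (g : S ≃+* S) ϖ hϖ k _ h1
    have h4 : ((g : S →ₐ[O] S).comp f) h' - f h' = g (f h' - s) - (f h' - g s) := by
      rw [map_sub]
      simp only [AlgHom.coe_comp, AlgEquiv.coe_toAlgHom, Function.comp_apply]
      ring
    rw [h4]
    exact dvd_sub h3 h2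
  have heq : (g : S →ₐ[O] S).comp f = f :=
    h71_point_unique_of_pow (q + 1) hp ϖ u e k hu hpe hk hreg (h71_dvr_haus ϖ hϖ) _ f hgf hf
      hcong
  have := congrArg (fun F : H →ₐ[O] S => F h) heq
  simpa using this

end twistAbs

end Fermat.Agent.S56
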