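import Fermat.Agent.S56.h78_W3Defs

/-!
# S56 / W3-C1: the twist datum (helper57)

Row W3-C1 of helper78's W3 table, in hypothesis form (`h57_twist_datum_of`): the statements of the
rows B3 (`K₀(L)` unramified), B4a (expansion in `1, π, …, π^(e-1)` over `K₀(L)` and its
orthogonality), B4b (the `J`-conjugates of `π`) and B5 (the twisting datum `(g, b)`) are explicit
hypotheses.

Construction: `x := ∑_{j<p} g^j (π b)` is `g`-fixed with `‖x - π‖ ≤ ‖tπ - π‖ < ‖π‖`;
`E := K₀(L)(x)`; `φ (∑ c_i π^i) := ∑ c_i x^i`.  The multiplicativity defect is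
`-Q(x) P₀(x)` with `P₀ = ∏ (X - π')` over the `J`-conjugates and `A B = Q P₀ + R` over the
integers of `K₀(L)`.
-/

set_option autoImplicit false

noncomputable section

open Polynomial

namespace Fermat.Agent.S56

variable (p : ℕ) [Fact p.Prime]

local notation "Ω" => PadicAlgCl p
local notation "Fld" => IntermediateField ℚ_[p] (PadicAlgCl p)

/-- membership in the set of conjugates. -/
theorem h57_mem_conj (S : Subgroup (h78_G p)) (x y : Ω) :
    y ∈ h78_conj p S x ↔
      (y ∈ (minpoly ℚ_[p] x).rootSet (PadicAlgCl p) ∧ ∃ g ∈ S, g x = y) := by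
  unfold h78_conj
  simp only [Finset.mem_filter, Set.mem_toFinset]

theorem h57_self_mem_conj (S : Subgroup (h78_G p)) (x : Ω) : x ∈ h78_conj p S x := by
  rw [h57_mem_conj]
  refine ⟨?_, 1, S.one_mem, rfl⟩
  have hint : IsIntegral ℚ_[p] x := Algebra.IsIntegral.isIntegral x
  rw [Polynomial.mem_rootSet]
  exact ⟨minpoly.ne_zero hint, minpoly.aeval _ _⟩

theorem h57_norm_of_mem_conj (S : Subgroup (h78_G p)) (x y : Ω) (hy : y ∈ h78_conj p S x) :
    ‖y‖ = ‖x‖ := by
  rw [h57_mem_conj] at hy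
  obtain ⟨-, g, -, rfl⟩ := hy
  exact h78_norm_aut p g x

/-- the closed unit ball of `Ω` as a subring. -/
def h57_ball : Subring Ω := (padicIntegers p).toSubring

theorem h57_mem_ball {x : Ω} : x ∈ h57_ball p ↔ ‖x‖ ≤ 1 := by
  change x ∈ padicIntegers p ↔ _
  rw [mem_padicIntegers_iff]
  exact Iff.rfl

/-- the integers of a subfield. -/
def h57_int (K : Fld) : Subring Ω := K.toSubring ⊓ h57_ball p

theorem h57_mem_int {K : Fld} {x : Ω} : x ∈ h57_int p K ↔ x ∈ K ∧ ‖x‖ ≤ 1 := by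
  unfold h57_int
  rw [Subring.mem_inf, h57_mem_ball]
  exact Iff.rfl

/-- a polynomial with coefficients of norm `≤ 1` takes values of norm `≤ 1` on the unit ball. -/
theorem h57_norm_eval₂_le_one (K : Fld) (Q : Polynomial (h57_int p K)) (x : Ω) (hx : ‖x‖ ≤ 1) :
    ‖Polynomial.eval₂ (h57_int p K).subtype x Q‖ ≤ 1 := by
  rw [Polynomial.eval₂_eq_sum_range]
  apply IsUltrametricDist.norm_sum_le_of_forall_le_of_nonneg zero_le_one
  intro i _
  rw [norm_mul, norm_pow]
  have h1 : ‖(h57_int p K).subtype (Q.coeff i)‖ ≤ 1 := ((h57_mem_int p).1 (Q.coeff i).2).2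
  calc ‖(h57_int p K).subtype (Q.coeff i)‖ * ‖x‖ ^ i ≤ 1 * 1 :=
        mul_le_mul h1 (pow_le_one₀ (norm_nonneg _) hx) (pow_nonneg (norm_nonneg _) _) zero_le_one
    _ = 1 := one_mul 1

/-- the coefficients of `∏ (X - y)`, `‖y‖ ≤ 1`, have norm `≤ 1`. -/
theorem h57_prod_coeff_mem_ball (s : Finset Ω) (hs : ∀ y ∈ s, ‖y‖ ≤ 1) (n : ℕ) :
    (∏ y ∈ s, (Polynomial.X - Polynomial.C y)).coeff n ∈ h57_ball p := by
  have h1 : (∏ y ∈ s, (Polynomial.X - Polynomial.C y)) ∈
      Polynomial.liftsRing (h57_ball p).subtype := by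
    apply Subring.prod_mem
    intro y hy
    apply Subring.sub_mem
    · exact Polynomial.X_mem_lifts _
    · exact Polynomial.C_mem_lifts (h57_ball p).subtype ⟨y, (h57_mem_ball p).2 (hs y hy)⟩
  have h2 := (Polynomial.lifts_iff_coeff_lifts _).1 h1 n
  obtain ⟨c, hc⟩ := h2
  rw [← hc]
  exact c.2

/-- the fixed field of one automorphism. -/
def h57_fix (g : h78_G p) : Fld where
  carrier := {z | g z = z}
  mul_mem' := by
    intro a b ha hb
    change g a = a at ha
    change g b = b at hb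
    change g (a * b) = a * b
    rw [map_mul, ha, hb]
  one_mem' := map_one g
  add_mem' := by
    intro a b ha hb
    change g a = a at ha
    change g b = b at hb
    change g (a + b) = a + b
    rw [map_add, ha, hb]
  zero_mem' := map_zero g
  algebraMap_mem' := fun r => g.commutes r
  inv_mem' := by
    intro a ha
    change g a = a at ha
    change g a⁻¹ = a⁻¹
    rw [map_inv₀, ha]

theorem h57_mem_fix {g : h78_G p} {z : Ω} : z ∈ h57_fix p g ↔ g z = z := Iff.rfl

/-- `‖t^j π - π‖ ≤ ‖t π - π‖`. -/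
theorem h57_norm_pow_sub_le (t : h78_G p) (π : Ω) (j : ℕ) : ‖(t ^ j) π - π‖ ≤ ‖t π - π‖ := by
  induction j with
  | zero => simp
  | succ j ih =>
    have h1 : (t ^ (j + 1)) π - π = t ((t ^ j) π - π) + (t π - π) := by
      rw [pow_succ', AlgEquiv.mul_apply, map_sub]
      ring
    rw [h1]
    refine le_trans (IsUltrametricDist.norm_add_le_max _ _) (max_le ?_ le_rfl)
    rw [h78_norm_aut]
    exact ih

/-- two automorphisms agreeing on a stable subfield have powers agreeing there. -/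
theorem h57_pow_eq_on (L : Fld) (hL : h78_Stable p L) (g t : h78_G p)
    (hgt : ∀ z ∈ L, g z = t z) (j : ℕ) : ∀ z ∈ L, (g ^ j) z = (t ^ j) z := by
  induction j with
  | zero => intro z _; rfl
  | succ j ih =>
    intro z hz
    rw [pow_succ, pow_succ, AlgEquiv.mul_apply, AlgEquiv.mul_apply, hgt z hz]
    exact ih _ (hL t z hz)

/-- evaluation of a polynomial given by `Fin e`-indexed coefficients. -/
theorem h57_eval₂_sum (K : Fld) (e : ℕ) (c : Fin e → h57_int p K) (y : Ω) :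
    Polynomial.eval₂ (h57_int p K).subtype y
        (∑ i : Fin e, Polynomial.C (c i) * Polynomial.X ^ (i : ℕ)) =
      ∑ i : Fin e, (c i : Ω) * y ^ (i : ℕ) := by
  rw [Polynomial.eval₂_finsetSum]
  refine Finset.sum_congr rfl fun i _ => ?_
  rw [Polynomial.eval₂_mul, Polynomial.eval₂_C, Polynomial.eval₂_pow, Polynomial.eval₂_X]
  rfl

theorem h57_sum_ite (e : ℕ) (he : 0 < e) (y : Ω) :
    ∑ i : Fin e, (if (i : ℕ) = 0 then (1 : Ω) else 0) * y ^ (i : ℕ) = 1 := by
  rw [Finset.sum_eq_single (⟨0, he⟩ : Fin e)]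
  · simp
  · intro i _ hi
    have : (i : ℕ) ≠ 0 := fun h => hi (Fin.ext h)
    simp [this]
  · intro h
    exact absurd (Finset.mem_univ _) h


/-- **W3-C1 (twist datum), hypothesis form.**  The hypotheses `hK0unram` (B3.2), `hexp`, `hexpn`
(B4a for `M₀ = K₀(L)`, `π₀ = p`), `hcard`, `hprod` (B4b) and `htw` (B5) are the statements of the
corresponding rows for this `L`. -/
theorem h57_twist_datum_of (L : Fld) [FiniteDimensional ℚ_[p] L] (hL : h78_Stable p L)
    (π : Ω) (hπ : h78_IsUnif p L π) (t : h78_G p) (ht : t ∈ h78_P p L π)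
    (htp : ∀ z ∈ L, (t ^ p) z = z)
    (hK0le : h78_K0 p L ≤ L)
    (hK0unram : ∀ c ∈ h78_K0 p L, c ≠ 0 → ∃ n : ℤ, ‖c‖ = (p : ℝ) ^ n)
    (hexp : ∀ z ∈ L, ∃ c : Fin (h78_conj p (h78_J p L) π).card → Ω,
      (∀ i, c i ∈ h78_K0 p L) ∧ z = ∑ i, c i * π ^ (i : ℕ) ∧
        ∀ i, ‖c i * π ^ (i : ℕ)‖ ≤ ‖z‖)
    (hexpn : ∀ y : Ω, ‖y‖ = ‖π‖ → ∀ c : Fin (h78_conj p (h78_J p L) π).card → Ω,
      (∀ i, c i ∈ h78_K0 p L) → ∀ i, ‖c i * y ^ (i : ℕ)‖ ≤ ‖∑ i, c i * y ^ (i : ℕ)‖)
    (hcard : ‖π‖ ^ (h78_conj p (h78_J p L) π).card = (p : ℝ)⁻¹)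
    (hprod : ∀ n : ℕ,
      (∏ x ∈ h78_conj p (h78_J p L) π, (Polynomial.X - Polynomial.C x)).coeff n ∈ h78_K0 p L)
    (htw : ∃ (g : h78_G p) (b : Ω), (∀ z ∈ L, g z = t z) ∧ ‖b‖ ≤ 1 ∧
      (∑ j ∈ Finset.range p, (g ^ j) b = 1) ∧ (g ^ p) b = b) :
    ∃ (E : Fld) (_ : FiniteDimensional ℚ_[p] E) (φ : L →ₗ[ℚ_[p]] Ω) (g : h78_G p),
      (∀ z, φ z ∈ E) ∧ φ 1 = 1 ∧ (∀ z : L, ‖φ z‖ = ‖(z : Ω)‖) ∧
      (∀ a b : L, ‖(a : Ω)‖ ≤ 1 → ‖(b : Ω)‖ ≤ 1 →
        ‖φ (a * b) - φ a * φ b‖ ≤ h78_sOf p L π t) ∧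
      (∀ z ∈ L, g z = t z) ∧ ∀ z ∈ E, g z = z := by
  classical
  obtain ⟨g, b, hgt, hb1, hbsum, hbp⟩ := htw
  obtain ⟨hπL, hπ0, hπ1, -⟩ := hπ
  have hπpos : 0 < ‖π‖ := norm_pos_iff.2 hπ0
  have hp1 : (1 : ℝ) < p := by exact_mod_cast (Fact.out : p.Prime).one_lt
  have hp0 : (0 : ℝ) < p := by linarith
  have htJ : t ∈ h78_J p L := ht.1
  have htπ : ‖t π - π‖ < ‖π‖ := by
    rcases ht.2 with h | h
    · exact absurd h hπ0
    · exact h
  -- `e ≥ 1`
  have he1 : 0 < (h78_conj p (h78_J p L) π).card := by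
    rcases Nat.eq_zero_or_pos (h78_conj p (h78_J p L) π).card with h | h
    · rw [h, pow_zero] at hcard
      have : (p : ℝ)⁻¹ < 1 := inv_lt_one_of_one_lt₀ hp1
      linarith
    · exact h
  -- the twisted element
  have hgj := h57_pow_eq_on p L hL g t hgt
  set x : Ω := ∑ j ∈ Finset.range p, (g ^ j) (π * b) with hx
  have hgx : g x = x := by
    have h1 : g x = ∑ j ∈ Finset.range p, (g ^ (j + 1)) (π * b) := by
      rw [hx, map_sum]
      refine Finset.sum_congr rfl fun j _ => ?_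
      rw [pow_succ', AlgEquiv.mul_apply]
    have h2 := Finset.sum_range_succ' (fun j => (g ^ j) (π * b)) p
    have h3 := Finset.sum_range_succ (fun j => (g ^ j) (π * b)) p
    have h4 : (g ^ p) (π * b) = (g ^ 0) (π * b) := by
      rw [map_mul, hbp, hgj p π hπL, htp π hπL, pow_zero]
      rfl
    rw [h1]
    rw [h3, h4] at h2
    exact (add_right_cancel h2).symm
  have hxπ : ‖x - π‖ ≤ ‖t π - π‖ := by
    have h1 : x - π = ∑ j ∈ Finset.range p, ((t ^ j) π - π) * (g ^ j) b := by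
      have h2 : π = ∑ j ∈ Finset.range p, π * (g ^ j) b := by
        rw [← Finset.mul_sum, hbsum, mul_one]
      rw [hx]
      nth_rewrite 2 [h2]
      rw [← Finset.sum_sub_distrib]
      refine Finset.sum_congr rfl fun j _ => ?_
      rw [map_mul, hgj j π hπL, sub_mul]
    rw [h1]
    apply IsUltrametricDist.norm_sum_le_of_forall_le_of_nonneg (norm_nonneg _)
    intro j _
    rw [norm_mul, h78_norm_aut]
    calc ‖(t ^ j) π - π‖ * ‖b‖ ≤ ‖t π - π‖ * 1 :=
          mul_le_mul (h57_norm_pow_sub_le p t π j) hb1 (norm_nonneg _) (norm_nonneg _)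
      _ = ‖t π - π‖ := mul_one _
  have hxn : ‖x‖ = ‖π‖ := by
    have h1 : ‖x - π‖ < ‖π‖ := lt_of_le_of_lt hxπ htπ
    have h2 : x = (x - π) + π := by ring
    rw [h2, IsUltrametricDist.norm_add_eq_max_of_norm_ne_norm (ne_of_lt h1)]
    exact max_eq_right h1.le
  have hx1 : ‖x‖ ≤ 1 := hxn ▸ hπ1.le
  -- the field `E`
  have hfinK0 : FiniteDimensional ℚ_[p] (h78_K0 p L) :=
    Module.Finite.of_injective (IntermediateField.inclusion hK0le).toLinearMap
      (IntermediateField.inclusion hK0le).injective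
  have hfinx : FiniteDimensional ℚ_[p] (IntermediateField.adjoin ℚ_[p] {x}) :=
    IntermediateField.adjoin.finiteDimensional (Algebra.IsIntegral.isIntegral x)
  let E : Fld := h78_K0 p L ⊔ IntermediateField.adjoin ℚ_[p] {x}
  have hK0E : h78_K0 p L ≤ E := le_sup_left
  have hxE : x ∈ E :=
    (le_sup_right : IntermediateField.adjoin ℚ_[p] {x} ≤ E)
      (IntermediateField.subset_adjoin ℚ_[p] {x} rfl)
  have hEfix : E ≤ h57_fix p g := by
    refine sup_le ?_ ?_
    · refine IntermediateField.adjoin_le_iff.2 ?_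
      intro ζ hζ
      have hζK0 : ζ ∈ h78_K0 p L := IntermediateField.subset_adjoin ℚ_[p] _ hζ
      change g ζ = ζ
      rw [hgt ζ hζ.1]
      exact (IntermediateField.mem_fixingSubgroup_iff _ _).1 htJ ζ hζK0
    · refine IntermediateField.adjoin_le_iff.2 ?_
      intro y hy
      rw [Set.mem_singleton_iff] at hy
      rw [hy]
      exact hgx
  -- the coefficient functions
  have hexp' : ∀ z : L, ∃ c : Fin (h78_conj p (h78_J p L) π).card → Ω,
      (∀ i, c i ∈ h78_K0 p L) ∧ (z : Ω) = ∑ i, c i * π ^ (i : ℕ) ∧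
        ∀ i, ‖c i * π ^ (i : ℕ)‖ ≤ ‖(z : Ω)‖ := fun z => hexp z z.2
  choose coef hcK hcsum hcn using hexp'
  have huniq : ∀ c c' : Fin (h78_conj p (h78_J p L) π).card → Ω, (∀ i, c i ∈ h78_K0 p L) →
      (∀ i, c' i ∈ h78_K0 p L) →
      ∑ i, c i * π ^ (i : ℕ) = ∑ i, c' i * π ^ (i : ℕ) → c = c' := by
    intro c c' hc hc' h
    funext i
    have h1 := hexpn π rfl (fun i => c i - c' i) (fun i => sub_mem (hc i) (hc' i)) i
    have h2 : ∑ i, (c i - c' i) * π ^ (i : ℕ) = 0 := by
      simp only [sub_mul, Finset.sum_sub_distrib, h, sub_self]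
    rw [h2, norm_zero] at h1
    have h3 : (c i - c' i) * π ^ (i : ℕ) = 0 := norm_le_zero_iff.1 h1
    rcases mul_eq_zero.1 h3 with h4 | h4
    · exact sub_eq_zero.1 h4
    · exact absurd h4 (pow_ne_zero _ hπ0)
  have hcadd : ∀ z w : L, coef (z + w) = coef z + coef w := by
    intro z w
    apply huniq _ _ (hcK _) (fun i => add_mem (hcK z i) (hcK w i))
    rw [← hcsum]
    simp only [add_mul, Finset.sum_add_distrib]
    rw [← hcsum, ← hcsum]
    rfl
  have hcsmul : ∀ (r : ℚ_[p]) (z : L),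
      coef (r • z) = fun i => algebraMap ℚ_[p] Ω r * coef z i := by
    intro r z
    apply huniq _ _ (hcK _) (fun i => mul_mem (IntermediateField.algebraMap_mem _ r) (hcK z i))
    rw [← hcsum]
    simp only [mul_assoc]
    rw [← Finset.mul_sum, ← hcsum]
    rw [IntermediateField.coe_smul, Algebra.smul_def]
  let φ : L →ₗ[ℚ_[p]] Ω :=
    { toFun := fun z => ∑ i, coef z i * x ^ (i : ℕ)
      map_add' := by
        intro z w
        simp only [hcadd, Pi.add_apply, add_mul, Finset.sum_add_distrib]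
      map_smul' := by
        intro r z
        simp only [hcsmul, RingHom.id_apply, mul_assoc]
        rw [← Finset.mul_sum, Algebra.smul_def] }
  have hφ : ∀ z : L, φ z = ∑ i, coef z i * x ^ (i : ℕ) := fun z => rfl
  refine ⟨E, IntermediateField.finiteDimensional_sup _ _, φ, g, ?_, ?_, ?_, ?_, hgt, ?_⟩
  · -- values in `E`
    intro z
    rw [hφ]
    exact sum_mem fun i _ => mul_mem (hK0E (hcK z i)) (pow_mem hxE _)
  · -- `φ 1 = 1`
    have h1 : coef 1 = fun i : Fin (h78_conj p (h78_J p L) π).card =>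
        if (i : ℕ) = 0 then (1 : Ω) else 0 := by
      apply huniq _ _ (hcK _)
      · intro i
        split_ifs
        · exact one_mem _
        · exact zero_mem _
      · rw [← hcsum, h57_sum_ite p _ he1]
        rfl
    rw [hφ, h1]
    exact h57_sum_ite p _ he1 x
  · -- norm preserving
    intro z
    rw [hφ]
    have hterm : ∀ i, ‖coef z i * x ^ (i : ℕ)‖ = ‖coef z i * π ^ (i : ℕ)‖ := by
      intro i
      rw [norm_mul, norm_mul, norm_pow, norm_pow, hxn]
    apply le_antisymm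
    · apply IsUltrametricDist.norm_sum_le_of_forall_le_of_nonneg (norm_nonneg _)
      intro i _
      rw [hterm]
      exact hcn z i
    · have hne : (Finset.univ : Finset (Fin (h78_conj p (h78_J p L) π).card)).Nonempty :=
        ⟨⟨0, he1⟩, Finset.mem_univ _⟩
      obtain ⟨i, -, hi⟩ := IsUltrametricDist.exists_norm_finsetSum_le_of_nonempty hne
        (fun i => coef z i * π ^ (i : ℕ))
      rw [← hcsum] at hi
      refine le_trans hi ?_
      rw [← hterm]
      exact hexpn x hxn (coef z) (hcK z) i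
  · -- multiplicativity defect
    intro a c ha hc
    -- coefficients of integral elements are integral
    have hcint : ∀ z : L, ‖(z : Ω)‖ ≤ 1 → ∀ i, coef z i ∈ h57_int p (h78_K0 p L) := by
      intro z hz i
      rw [h57_mem_int]
      refine ⟨hcK z i, ?_⟩
      by_cases h0 : coef z i = 0
      · rw [h0, norm_zero]
        exact zero_le_one
      obtain ⟨n, hn⟩ := hK0unram _ (hcK z i) h0
      have h1 : ‖coef z i‖ * ‖π‖ ^ (i : ℕ) ≤ 1 := by
        have := (hcn z i).trans hz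
        rwa [norm_mul, norm_pow] at this
      rw [hn]
      apply zpow_le_one_of_nonpos₀ hp1.le
      by_contra hpos
      push Not at hpos
      have h2 : (p : ℝ) ≤ (p : ℝ) ^ n := by
        calc (p : ℝ) = (p : ℝ) ^ (1 : ℤ) := (zpow_one _).symm
          _ ≤ (p : ℝ) ^ n := zpow_le_zpow_right₀ hp1.le hpos
      have h3 : ‖π‖ ^ (h78_conj p (h78_J p L) π).card < ‖π‖ ^ (i : ℕ) :=
        pow_lt_pow_right_of_lt_one₀ hπpos hπ1 i.2
      rw [hcard] at h3
      have h4 : (p : ℝ) * ‖π‖ ^ (i : ℕ) ≤ 1 := by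
        calc (p : ℝ) * ‖π‖ ^ (i : ℕ) ≤ (p : ℝ) ^ n * ‖π‖ ^ (i : ℕ) :=
              mul_le_mul_of_nonneg_right h2 (pow_nonneg (norm_nonneg _) _)
          _ = ‖coef z i‖ * ‖π‖ ^ (i : ℕ) := by rw [hn]
          _ ≤ 1 := h1
      have h5 : (p : ℝ) * (p : ℝ)⁻¹ < (p : ℝ) * ‖π‖ ^ (i : ℕ) :=
        mul_lt_mul_of_pos_left h3 hp0
      rw [mul_inv_cancel₀ hp0.ne'] at h5
      linarith
    -- the polynomial `P₀`
    set P0 : Polynomial Ω := ∏ y ∈ h78_conj p (h78_J p L) π, (Polynomial.X - Polynomial.C y)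
      with hP0
    have hP0coef : (↑P0.coeffs : Set Ω) ⊆ ↑(h57_int p (h78_K0 p L)) := by
      intro c' hc'
      obtain ⟨n, -, rfl⟩ := Polynomial.mem_coeffs_iff.1 (Finset.mem_coe.1 hc')
      refine (h57_mem_int p).2 ⟨hprod n, (h57_mem_ball p).1 ?_⟩
      refine h57_prod_coeff_mem_ball p _ ?_ n
      intro y hy
      rw [h57_norm_of_mem_conj p _ _ _ hy]
      exact hπ1.le
    set P0' : Polynomial (h57_int p (h78_K0 p L)) := P0.toSubring _ hP0coef with hP0'
    have hP0'monic : P0'.Monic :=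
      (Polynomial.monic_toSubring _ _ _).2
        (Polynomial.monic_prod_of_monic _ _ fun y _ => Polynomial.monic_X_sub_C y)
    have hP0'deg : P0'.natDegree = (h78_conj p (h78_J p L) π).card := by
      rw [hP0', Polynomial.natDegree_toSubring, hP0]
      exact Polynomial.natDegree_finsetProd_X_sub_C_eq_card _ _
    have hP0'ne : P0' ≠ 1 := by
      intro h
      rw [h, Polynomial.natDegree_one] at hP0'deg
      omega
    have hP0'ev : ∀ y : Ω, Polynomial.eval₂ (h57_int p (h78_K0 p L)).subtype y P0' =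
        ∏ s ∈ h78_conj p (h78_J p L) π, (y - s) := by
      intro y
      rw [Polynomial.eval₂_eq_eval_map, hP0', Polynomial.map_toSubring, hP0,
        Polynomial.eval_prod]
      refine Finset.prod_congr rfl fun s _ => ?_
      rw [Polynomial.eval_sub, Polynomial.eval_X, Polynomial.eval_C]
    -- the polynomials of `a`, `c` and the division
    set A' : Polynomial (h57_int p (h78_K0 p L)) :=
      ∑ i, Polynomial.C (⟨coef a i, hcint a ha i⟩ : h57_int p (h78_K0 p L)) *
        Polynomial.X ^ (i : ℕ) with hA'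
    set C' : Polynomial (h57_int p (h78_K0 p L)) :=
      ∑ i, Polynomial.C (⟨coef c i, hcint c hc i⟩ : h57_int p (h78_K0 p L)) *
        Polynomial.X ^ (i : ℕ) with hC'
    have hA'ev : ∀ y : Ω, Polynomial.eval₂ (h57_int p (h78_K0 p L)).subtype y A' =
        ∑ i, coef a i * y ^ (i : ℕ) := fun y => h57_eval₂_sum p _ _ _ y
    have hC'ev : ∀ y : Ω, Polynomial.eval₂ (h57_int p (h78_K0 p L)).subtype y C' =
        ∑ i, coef c i * y ^ (i : ℕ) := fun y => h57_eval₂_sum p _ _ _ y
    set Q := (A' * C') /ₘ P0' with hQ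
    set R := (A' * C') %ₘ P0' with hR
    have hdiv : R + P0' * Q = A' * C' := Polynomial.modByMonic_add_div _ _
    have hRdeg : R.natDegree < (h78_conj p (h78_J p L) π).card := by
      rw [← hP0'deg]
      exact Polynomial.natDegree_modByMonic_lt _ hP0'monic hP0'ne
    have hRsum : R = ∑ i : Fin (h78_conj p (h78_J p L) π).card,
        Polynomial.C (R.coeff i) * Polynomial.X ^ (i : ℕ) := by
      have h1 := Polynomial.as_sum_range' R _ hRdeg
      rw [Finset.sum_range] at h1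
      simp only [Polynomial.C_mul_X_pow_eq_monomial]
      exact h1
    have hRev : ∀ y : Ω, Polynomial.eval₂ (h57_int p (h78_K0 p L)).subtype y R =
        ∑ i : Fin (h78_conj p (h78_J p L) π).card, ((R.coeff i : h57_int p (h78_K0 p L)) : Ω) *
          y ^ (i : ℕ) := by
      intro y
      conv_lhs => rw [hRsum]
      exact h57_eval₂_sum p _ _ _ y
    have hev : ∀ y : Ω, (∑ i, coef a i * y ^ (i : ℕ)) * (∑ i, coef c i * y ^ (i : ℕ)) =
        (∑ i : Fin (h78_conj p (h78_J p L) π).card,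
          ((R.coeff i : h57_int p (h78_K0 p L)) : Ω) * y ^ (i : ℕ)) +
        (∏ s ∈ h78_conj p (h78_J p L) π, (y - s)) *
          Polynomial.eval₂ (h57_int p (h78_K0 p L)).subtype y Q := by
      intro y
      rw [← hA'ev, ← hC'ev, ← hRev, ← hP0'ev, ← Polynomial.eval₂_mul, ← Polynomial.eval₂_mul,
        ← Polynomial.eval₂_add, hdiv]
    -- at `π` the product vanishes
    have hπev : (∏ s ∈ h78_conj p (h78_J p L) π, (π - s)) = 0 :=
      Finset.prod_eq_zero (h57_self_mem_conj p _ π) (sub_self π)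
    have hcoefR : coef (a * c) = fun i : Fin (h78_conj p (h78_J p L) π).card =>
        ((R.coeff i : h57_int p (h78_K0 p L)) : Ω) := by
      apply huniq _ _ (hcK _) (fun i => ((h57_mem_int p).1 (R.coeff i).2).1)
      rw [← hcsum]
      have h1 := hev π
      rw [hπev, zero_mul, add_zero, ← hcsum, ← hcsum] at h1
      rw [← h1]
      rfl
    have hdefect : φ (a * c) - φ a * φ c =
        -((∏ s ∈ h78_conj p (h78_J p L) π, (x - s)) *
          Polynomial.eval₂ (h57_int p (h78_K0 p L)).subtype x Q) := by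
      rw [hφ, hφ, hφ, hcoefR, hev x]
      ring
    rw [hdefect, norm_neg, norm_mul]
    have hQn : ‖Polynomial.eval₂ (h57_int p (h78_K0 p L)).subtype x Q‖ ≤ 1 :=
      h57_norm_eval₂_le_one p _ Q x hx1
    have hPn : ‖∏ s ∈ h78_conj p (h78_J p L) π, (x - s)‖ ≤ h78_sOf p L π t := by
      rw [norm_prod]
      unfold h78_sOf
      apply Finset.prod_le_prod (fun s _ => norm_nonneg _)
      intro s _
      have h1 : x - s = (x - π) + (π - s) := by ring
      rw [h1]
      refine le_trans (IsUltrametricDist.norm_add_le_max _ _) (max_le_max hxπ ?_)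
      rw [norm_sub_rev]
    calc ‖∏ s ∈ h78_conj p (h78_J p L) π, (x - s)‖ *
          ‖Polynomial.eval₂ (h57_int p (h78_K0 p L)).subtype x Q‖
        ≤ h78_sOf p L π t * 1 :=
          mul_le_mul hPn hQn (norm_nonneg _) (le_trans (norm_nonneg _) hPn)
      _ = h78_sOf p L π t := mul_one _
  · intro z hz
    exact hEfix hz

end Fermat.Agent.S56

end
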