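import Mathlib
import Fermat.Agent.S56.h5_KumBasic

/-!
# S56 / W3-D1b : the Kummer normal form below `p`

`F` a subfield of `Ω = PadicAlgCl p` with a uniformizer and perfect residue field (norm form).
Every `u ∈ F` with `‖u - 1‖ ≤ p⁻¹` is, up to `p`-th powers of `F`, either at the top level
(`p ^ p * ‖u - 1‖ ^ (p - 1) ≤ 1`) or at a level prime to `p`
(`h59_normal_form_deep` = `sk_normal_form_deep` of the W3 skeleton, verbatim).
-/

set_option autoImplicit false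

namespace Fermat.Agent.S56

variable (p : ℕ) [Fact p.Prime]

local notation "Ω" => PadicAlgCl p
local notation "Fld" => IntermediateField ℚ_[p] (PadicAlgCl p)

/-- the conclusion of D1b, in a shape stable under `p`-th powers. -/
def h59_NFd (F : Fld) (v : Ω) : Prop :=
  ∃ w ∈ F, w ≠ 0 ∧ ‖v * w ^ p - 1‖ ≤ (p : ℝ)⁻¹ ∧
    ((p : ℝ) ^ p * ‖v * w ^ p - 1‖ ^ (p - 1) ≤ 1 ∨
      ∀ z ∈ F, z ≠ 0 → ‖v * w ^ p - 1‖ ≠ ‖z‖ ^ p)

theorem h59_NFd_of_mul (F : Fld) (v t : Ω) (ht : t ∈ F) (ht0 : t ≠ 0)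
    (h : h59_NFd p F (v * t ^ p)) : h59_NFd p F v := by
  obtain ⟨w, hw, hw0, h1, h2⟩ := h
  refine ⟨t * w, F.mul_mem ht hw, mul_ne_zero ht0 hw0, ?_, ?_⟩
  · rwa [mul_pow, ← mul_assoc]
  · rwa [mul_pow, ← mul_assoc]

/-- the improvement loop below `p`: `‖v - 1‖ ≤ p⁻¹` and `‖v - 1‖ ‖π‖^d` at the top level. -/
theorem h59_nfd_loop (F : Fld) (πF : Ω) (hπF : h78_IsUnif p F πF)
    (hres : ∀ x ∈ F, ‖x‖ ≤ 1 → ∃ w ∈ F, ‖w‖ ≤ 1 ∧ ‖x - w ^ p‖ < 1) (d : ℕ) :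
    ∀ v ∈ F, ‖v - 1‖ ≤ (p : ℝ)⁻¹ →
      (p : ℝ) ^ p * (‖v - 1‖ * ‖πF‖ ^ d) ^ (p - 1) ≤ 1 → h59_NFd p F v := by
  obtain ⟨hπmem, hπ0, hπ1, hval⟩ := hπF
  have hp : p.Prime := Fact.out
  have hr0 : 0 < ‖πF‖ := norm_pos_iff.2 hπ0
  have hppos : (0 : ℝ) < p := h5_p_pos p
  have hpi : 0 ≤ (p : ℝ)⁻¹ := inv_nonneg.2 hppos.le
  have hpi1 : (p : ℝ)⁻¹ < 1 := h5_inv_p_lt_one p
  induction d with
  | zero =>
    intro v hv hv1 hd
    rw [pow_zero, mul_one] at hd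
    exact ⟨1, F.one_mem, one_ne_zero, by simpa using hv1, Or.inl (by simpa using hd)⟩
  | succ d ih =>
    intro v hv hv1 hd
    by_cases htop : (p : ℝ) ^ p * ‖v - 1‖ ^ (p - 1) ≤ 1
    · exact ⟨1, F.one_mem, one_ne_zero, by simpa using hv1, Or.inl (by simpa using htop)⟩
    rw [not_le] at htop
    have hxF : v - 1 ∈ F := F.sub_mem hv F.one_mem
    have hx0 : v - 1 ≠ 0 := by
      intro h0
      have hp1 : p - 1 ≠ 0 := by have := hp.two_le; omega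
      rw [h0, norm_zero, zero_pow hp1, mul_zero] at htop
      exact absurd htop (by norm_num)
    have hv1' : ‖v - 1‖ < 1 := lt_of_le_of_lt hv1 hpi1
    obtain ⟨j, hj⟩ := hval (v - 1) hxF hx0
    have hjpos : 0 < j := by
      have h1 : ‖πF‖ ^ j < ‖πF‖ ^ (0 : ℤ) := by
        rw [← hj, zpow_zero]
        exact hv1'
      exact h5_zpow_lt hr0 hπ1 h1
    by_cases hpj : (p : ℤ) ∣ j
    · -- `p ∣ j` : improve `v` by a `p`-th power
      obtain ⟨i, hi⟩ := hpj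
      have hipos : 0 < i := by
        have hp0 : (0 : ℤ) < p := by exact_mod_cast hp.pos
        by_contra hneg
        rw [not_lt] at hneg
        have h1 : j ≤ 0 := by
          rw [hi]
          exact mul_nonpos_of_nonneg_of_nonpos hp0.le hneg
        omega
      have hri1 : ‖πF‖ ^ i < 1 := by
        have h1 : ‖πF‖ ^ i < ‖πF‖ ^ (0 : ℤ) :=
          (zpow_lt_zpow_iff_right_of_lt_one₀ hr0 hπ1).2 hipos
        rwa [zpow_zero] at h1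
      have hri0 : 0 < ‖πF‖ ^ i := zpow_pos hr0 i
      have hπF' : ∀ n : ℤ, πF ^ n ∈ F := fun n => zpow_mem hπmem n
      -- below the top level: `p⁻¹ ‖π‖^i < ‖π‖^j`
      have hrj : ‖πF‖ ^ j = (‖πF‖ ^ i) ^ p := by
        rw [hi, mul_comm (p : ℤ) i, zpow_mul, zpow_natCast]
      have hkey : (p : ℝ)⁻¹ * ‖πF‖ ^ i < ‖πF‖ ^ j := by
        have h1' : 1 < (p : ℝ) * (‖πF‖ ^ i) ^ (p - 1) := by
          by_contra hle
          rw [not_lt] at hle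
          have h2 : ((p : ℝ) * (‖πF‖ ^ i) ^ (p - 1)) ^ p ≤ 1 :=
            pow_le_one₀ (mul_nonneg hppos.le (pow_nonneg hri0.le _)) hle
          have e : ((p : ℝ) * (‖πF‖ ^ i) ^ (p - 1)) ^ p
              = (p : ℝ) ^ p * ((‖πF‖ ^ i) ^ p) ^ (p - 1) := by
            rw [mul_pow, ← pow_mul, ← pow_mul, mul_comm (p - 1) p]
          rw [e, ← hrj, ← hj] at h2
          exact absurd htop (not_lt.2 h2)
        have e2 : (‖πF‖ ^ i) ^ p = (‖πF‖ ^ i) ^ (p - 1) * ‖πF‖ ^ i := by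
          rw [← pow_succ]
          congr 1
          have := hp.two_le
          omega
        rw [hrj, e2]
        refine mul_lt_mul_of_pos_right ?_ hri0
        rw [inv_lt_iff_one_lt_mul₀' hppos]
        exact h1'
      -- the unit part of `x = v - 1`
      have hyF : (v - 1) * πF ^ (-j) ∈ F := F.mul_mem hxF (hπF' _)
      have hyn : ‖(v - 1) * πF ^ (-j)‖ = 1 := by
        rw [norm_mul, norm_zpow, hj, ← zpow_add₀ hr0.ne', add_neg_cancel, zpow_zero]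
      obtain ⟨w0, hw0F, hw0n, hw0⟩ := hres (-((v - 1) * πF ^ (-j))) (F.neg_mem hyF)
        (by rw [norm_neg, hyn])
      have hbF : w0 * πF ^ i ∈ F := F.mul_mem hw0F (hπF' _)
      have hbn : ‖w0 * πF ^ i‖ ≤ ‖πF‖ ^ i := by
        rw [norm_mul, norm_zpow]
        exact mul_le_of_le_one_left hri0.le hw0n
      have hbn1 : ‖w0 * πF ^ i‖ ≤ 1 := hbn.trans hri1.le
      have hbp : (w0 * πF ^ i) ^ p = w0 ^ p * πF ^ j := by
        rw [mul_pow, hi, mul_comm (p : ℤ) i, zpow_mul, zpow_natCast]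
      -- (1) `x + b^p` is smaller than `x`
      have h1 : ‖(v - 1) + (w0 * πF ^ i) ^ p‖ < ‖πF‖ ^ j := by
        have e : (v - 1) + (w0 * πF ^ i) ^ p
            = -((-((v - 1) * πF ^ (-j)) - w0 ^ p) * πF ^ j) := by
          rw [hbp]
          have : πF ^ (-j) * πF ^ j = 1 := by
            rw [← zpow_add₀ hπ0, neg_add_cancel, zpow_zero]
          linear_combination (-(v - 1)) * this
        rw [e, norm_neg, norm_mul, norm_zpow]
        calc ‖-((v - 1) * πF ^ (-j)) - w0 ^ p‖ * ‖πF‖ ^ j < 1 * ‖πF‖ ^ j :=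
              mul_lt_mul_of_pos_right hw0 (zpow_pos hr0 j)
          _ = ‖πF‖ ^ j := one_mul _
      -- (2) the binomial error
      have h2 := h5_binom_one p (w0 * πF ^ i) hbn1
      have h2' : ‖(1 + w0 * πF ^ i) ^ p - 1 - (w0 * πF ^ i) ^ p‖ < ‖πF‖ ^ j := by
        refine lt_of_le_of_lt h2 ?_
        calc (p : ℝ)⁻¹ * ‖w0 * πF ^ i‖ ≤ (p : ℝ)⁻¹ * ‖πF‖ ^ i :=
              mul_le_mul_of_nonneg_left hbn hpi
          _ < ‖πF‖ ^ j := hkey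
      have hrj1 : ‖πF‖ ^ j < 1 := by rw [← hj]; exact hv1'
      -- (3) the cross term
      have h3 : ‖(w0 * πF ^ i) ^ p + ((1 + w0 * πF ^ i) ^ p - 1 - (w0 * πF ^ i) ^ p)‖ < 1 := by
        refine lt_of_le_of_lt (IsUltrametricDist.norm_add_le_max _ _) (max_lt ?_ (h2'.trans hrj1))
        rw [norm_pow]
        calc ‖w0 * πF ^ i‖ ^ p ≤ ‖w0 * πF ^ i‖ ^ 1 :=
              pow_le_pow_of_le_one (norm_nonneg _) hbn1 hp.one_le
          _ = ‖w0 * πF ^ i‖ := pow_one _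
          _ < 1 := lt_of_le_of_lt hbn hri1
      -- the new element
      have htF : 1 + w0 * πF ^ i ∈ F := F.add_mem F.one_mem hbF
      have ht0 : 1 + w0 * πF ^ i ≠ 0 := by
        intro h0
        have h4 : w0 * πF ^ i = -1 := by linear_combination h0
        have h5 : ‖w0 * πF ^ i‖ = 1 := by rw [h4, norm_neg, norm_one]
        have := lt_of_le_of_lt hbn hri1
        linarith
      have hv'F : v * (1 + w0 * πF ^ i) ^ p ∈ F := F.mul_mem hv (pow_mem htF p)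
      have hnew : ‖v * (1 + w0 * πF ^ i) ^ p - 1‖ < ‖πF‖ ^ j := by
        have e : v * (1 + w0 * πF ^ i) ^ p - 1
            = ((v - 1) + (w0 * πF ^ i) ^ p)
              + (((1 + w0 * πF ^ i) ^ p - 1 - (w0 * πF ^ i) ^ p)
              + (v - 1) * ((w0 * πF ^ i) ^ p
                  + ((1 + w0 * πF ^ i) ^ p - 1 - (w0 * πF ^ i) ^ p))) := by ring
        rw [e]
        refine lt_of_le_of_lt (IsUltrametricDist.norm_add_le_max _ _) (max_lt h1 ?_)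
        refine lt_of_le_of_lt (IsUltrametricDist.norm_add_le_max _ _) (max_lt h2' ?_)
        rw [norm_mul, hj]
        calc ‖πF‖ ^ j * ‖(w0 * πF ^ i) ^ p + ((1 + w0 * πF ^ i) ^ p - 1 - (w0 * πF ^ i) ^ p)‖
            < ‖πF‖ ^ j * 1 := mul_lt_mul_of_pos_left h3 (zpow_pos hr0 j)
          _ = ‖πF‖ ^ j := mul_one _
      have hnew1 : ‖v * (1 + w0 * πF ^ i) ^ p - 1‖ ≤ (p : ℝ)⁻¹ := by
        refine hnew.le.trans ?_
        rw [← hj]
        exact hv1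
      have hstep : ‖v * (1 + w0 * πF ^ i) ^ p - 1‖ ≤ ‖πF‖ ^ j * ‖πF‖ := by
        by_cases h0 : v * (1 + w0 * πF ^ i) ^ p - 1 = 0
        · rw [h0, norm_zero]
          exact (mul_pos (zpow_pos hr0 j) hr0).le
        · obtain ⟨j', hj'⟩ := hval _ (F.sub_mem hv'F F.one_mem) h0
          rw [hj'] at hnew ⊢
          have hlt : j < j' := h5_zpow_lt hr0 hπ1 hnew
          have h6 : ‖πF‖ ^ j' ≤ ‖πF‖ ^ (j + 1) :=
            (zpow_le_zpow_iff_right_of_lt_one₀ hr0 hπ1).2 (by omega)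
          rwa [zpow_add_one₀ hr0.ne'] at h6
      have hnewd : (p : ℝ) ^ p * (‖v * (1 + w0 * πF ^ i) ^ p - 1‖ * ‖πF‖ ^ d) ^ (p - 1) ≤ 1 := by
        refine le_trans ?_ hd
        refine mul_le_mul_of_nonneg_left ?_ (pow_nonneg hppos.le p)
        refine pow_le_pow_left₀ (mul_nonneg (norm_nonneg _) (pow_nonneg hr0.le d)) ?_ _
        calc ‖v * (1 + w0 * πF ^ i) ^ p - 1‖ * ‖πF‖ ^ d
            ≤ ‖πF‖ ^ j * ‖πF‖ * ‖πF‖ ^ d :=
              mul_le_mul_of_nonneg_right hstep (pow_nonneg hr0.le d)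
          _ = ‖v - 1‖ * ‖πF‖ ^ (d + 1) := by rw [hj, pow_succ]; ring
      exact h59_NFd_of_mul p F v _ htF ht0 (ih _ hv'F hnew1 hnewd)
    · -- `p ∤ j` : a level prime to `p`
      refine ⟨1, F.one_mem, one_ne_zero, by simpa using hv1, Or.inr fun z hz hz0 h => hpj ?_⟩
      obtain ⟨a, ha⟩ := hval z hz hz0
      have h1 : ‖πF‖ ^ j = ‖πF‖ ^ (a * (p : ℤ)) := by
        rw [← hj, zpow_mul, zpow_natCast, ← ha]
        simpa using h
      exact ⟨a, by rw [h5_zpow_inj hr0 hπ1 h1, mul_comm]⟩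

/-- **W3-D1b, normal form below `p`** (`sk_normal_form_deep` verbatim). -/
theorem h59_normal_form_deep (F : Fld) (πF : Ω) (hπF : h78_IsUnif p F πF)
    (hres : ∀ x ∈ F, ‖x‖ ≤ 1 → ∃ w ∈ F, ‖w‖ ≤ 1 ∧ ‖x - w ^ p‖ < 1)
    (u : Ω) (hu : u ∈ F) (hu1 : ‖u - 1‖ ≤ (p : ℝ)⁻¹) :
    ∃ w ∈ F, w ≠ 0 ∧ ‖u * w ^ p - 1‖ ≤ (p : ℝ)⁻¹ ∧
      ((p : ℝ) ^ p * ‖u * w ^ p - 1‖ ^ (p - 1) ≤ 1 ∨
        ∀ z ∈ F, z ≠ 0 → ‖u * w ^ p - 1‖ ≠ ‖z‖ ^ p) := by
  have hp : p.Prime := Fact.out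
  have hloop := h59_nfd_loop p F πF hπF hres
  obtain ⟨hπmem, hπ0, hπ1, hval⟩ := hπF
  have hr0 : 0 < ‖πF‖ := norm_pos_iff.2 hπ0
  have hppos : (0 : ℝ) < p := h5_p_pos p
  have hpi : 0 ≤ (p : ℝ)⁻¹ := inv_nonneg.2 hppos.le
  have hpi1 : (p : ℝ)⁻¹ < 1 := h5_inv_p_lt_one p
  obtain ⟨d, hd⟩ := exists_pow_lt_of_lt_one (pow_pos (inv_pos.2 hppos) p) hπ1
  refine hloop d u hu hu1 ?_
  have h1 : ‖u - 1‖ * ‖πF‖ ^ d ≤ ‖πF‖ ^ d := by
    calc ‖u - 1‖ * ‖πF‖ ^ d ≤ 1 * ‖πF‖ ^ d :=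
          mul_le_mul_of_nonneg_right (hu1.trans hpi1.le) (pow_nonneg hr0.le d)
      _ = ‖πF‖ ^ d := one_mul _
  have h2 : ‖πF‖ ^ d ≤ 1 := pow_le_one₀ hr0.le hπ1.le
  have h3 : (‖u - 1‖ * ‖πF‖ ^ d) ^ (p - 1) ≤ ((p : ℝ)⁻¹) ^ p := by
    calc (‖u - 1‖ * ‖πF‖ ^ d) ^ (p - 1) ≤ (‖πF‖ ^ d) ^ (p - 1) :=
          pow_le_pow_left₀ (mul_nonneg (norm_nonneg _) (pow_nonneg hr0.le d)) h1 _
      _ ≤ (‖πF‖ ^ d) ^ 1 :=
          pow_le_pow_of_le_one (pow_nonneg hr0.le d) h2 (by have := hp.two_le; omega)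
      _ = ‖πF‖ ^ d := pow_one _
      _ ≤ ((p : ℝ)⁻¹) ^ p := hd.le
  calc (p : ℝ) ^ p * (‖u - 1‖ * ‖πF‖ ^ d) ^ (p - 1) ≤ (p : ℝ) ^ p * ((p : ℝ)⁻¹) ^ p :=
        mul_le_mul_of_nonneg_left h3 (pow_nonneg hppos.le p)
    _ = 1 := by rw [← mul_pow, mul_inv_cancel₀ hppos.ne', one_pow]

end Fermat.Agent.S56
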