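/-
S56 / W3 / E-RED rows R-GC and R-IMG (helper62).
`h62_fixed_field` = `skR_fixed_field` verbatim, `h62_J_image` = `skR_J_image` verbatim
(skeleton `h80_ERedSkel`).  Auxiliary: `h62_K0_inf` (`F ⊓ K₀(L) ≤ K₀(F)` for `F ≤ L`).
-/
import Fermat.Agent.S56.h80_ERedDefs
import Fermat.Agent.S56.h62_W3Basics
import Fermat.Agent.S56.h35_Expansion
import Fermat.Agent.S56.h49_K0Res
import Fermat.Agent.S56.h28_K0Unram

set_option autoImplicit false

open Coalgebra WithConv

namespace Fermat.Agent.S56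

variable (p : ℕ) [Fact p.Prime]

local notation "Ω" => PadicAlgCl p
local notation "Fld" => IntermediateField ℚ_[p] (PadicAlgCl p)

/-- a subgroup of `Gal(Ω/ℚ_p)` containing `Gal(Ω/L)` (`L` finite) is closed. -/
theorem h62_isClosed_of_fixing_le (L : Fld) [FiniteDimensional ℚ_[p] L]
    (N : Subgroup (h78_G p)) (hN : L.fixingSubgroup ≤ N) :
    IsClosed (N : Set (h78_G p)) :=
  Subgroup.isClosed_of_isOpen N
    (Subgroup.isOpen_mono hN (IntermediateField.fixingSubgroup_isOpen L))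

/-- a subgroup of `Gal(Ω/ℚ_p)` containing `Gal(Ω/L)` (`L` finite) is the fixing subgroup of its
fixed field. -/
theorem h62_mem_of_fixes_fixedField (L : Fld) [FiniteDimensional ℚ_[p] L]
    (N : Subgroup (h78_G p)) (hN : L.fixingSubgroup ≤ N) (g : h78_G p)
    (hg : ∀ z ∈ IntermediateField.fixedField N, g z = z) : g ∈ N := by
  have hcl : IsClosed (N : Set (h78_G p)) := h62_isClosed_of_fixing_le p L N hN
  have h := InfiniteGalois.fixingSubgroup_fixedField (k := ℚ_[p]) (K := Ω)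
    (⟨N, hcl⟩ : ClosedSubgroup (h78_G p))
  have h2 : g ∈ (IntermediateField.fixedField N).fixingSubgroup := by
    rw [IntermediateField.mem_fixingSubgroup_iff]
    exact hg
  have h3 : g ∈ ((⟨N, hcl⟩ : ClosedSubgroup (h78_G p)) : Subgroup (h78_G p)) := by
    rw [← h]; exact h2
  exact h3

/-- R-GC : Galois correspondence in absolute language. -/
theorem h62_fixed_field (L : Fld) [FiniteDimensional ℚ_[p] L] (hL : h78_Stable p L)
    (N : Subgroup (h78_G p)) (hN : ∀ g : h78_G p, (∀ z ∈ L, g z = z) → g ∈ N) :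
    ∃ F : Fld, F ≤ L ∧ ∀ g : h78_G p, (∀ z ∈ F, g z = z) ↔ g ∈ N := by
  have hLN : L.fixingSubgroup ≤ N := fun g hg =>
    hN g ((IntermediateField.mem_fixingSubgroup_iff L g).1 hg)
  refine ⟨IntermediateField.fixedField N, ?_, ?_⟩
  · intro x hx
    apply h62_mem_of_fixed p L x
    intro g hg
    exact (IntermediateField.mem_fixedField_iff N x).1 hx g (hN g hg)
  · intro g
    constructor
    · intro hg
      exact h62_mem_of_fixes_fixedField p L N hLN g hg
    · intro hg z hz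
      exact (IntermediateField.mem_fixedField_iff N z).1 hz g hg

/-- `K₀` is monotone. -/
theorem h62_K0_mono (F L : Fld) (hFL : F ≤ L) : h78_K0 p F ≤ h78_K0 p L := by
  unfold h78_K0
  exact IntermediateField.adjoin.mono _ _ _ (fun ζ hζ => ⟨hFL hζ.1, hζ.2⟩)

/-- `p` is a uniformizer of any subfield of an unramified field `K₀(L)`. -/
theorem h62_isUnif_p (L : Fld) [FiniteDimensional ℚ_[p] L] (E : Fld) (hE : E ≤ h78_K0 p L) :
    h78_IsUnif p E (p : Ω) := by
  have hp : (p : Ω) = algebraMap ℚ_[p] Ω (p : ℚ_[p]) := by simp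
  have hnp : ‖(p : Ω)‖ = (p : ℝ)⁻¹ := h62_norm_p p
  have hp1 : 1 < (p : ℝ) := by exact_mod_cast (Fact.out : p.Prime).one_lt
  refine ⟨?_, ?_, ?_, ?_⟩
  · rw [hp]; exact E.algebraMap_mem _
  · intro h0
    rw [h0, norm_zero] at hnp
    have : (0 : ℝ) < (p : ℝ)⁻¹ := by positivity
    linarith
  · rw [hnp]; exact inv_lt_one_of_one_lt₀ hp1
  · intro x hx hx0
    obtain ⟨n, hn⟩ := h28_K0_unram p L x (hE hx) hx0
    refine ⟨-n, ?_⟩
    rw [hn, hnp, inv_zpow, zpow_neg, inv_inv]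

/-- the unramified part of `F ≤ L` is `F ⊓ K₀(L)`. -/
theorem h62_K0_inf (F L : Fld) [FiniteDimensional ℚ_[p] F] [FiniteDimensional ℚ_[p] L]
    (hFL : F ≤ L) (z : Ω) (hzF : z ∈ F) (hzL : z ∈ h78_K0 p L) : z ∈ h78_K0 p F := by
  have hEF : F ⊓ h78_K0 p L ≤ F := inf_le_left
  haveI hfd : FiniteDimensional ℚ_[p] ↥(F ⊓ h78_K0 p L) :=
    Module.Finite.of_injective (IntermediateField.inclusion hEF).toLinearMap
      (IntermediateField.inclusion_injective hEF)
  have hML : h78_K0 p F ≤ F ⊓ h78_K0 p L := le_inf (h49_K0_le p F) (h62_K0_mono p F L hFL)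
  have hres : ∀ x ∈ F ⊓ h78_K0 p L, ‖x‖ ≤ 1 → ∃ c ∈ h78_K0 p F, ‖x - c‖ < 1 :=
    fun x hx hx1 => h49_K0_res p F x (hEF hx) hx1
  have hπ : h78_IsUnif p (F ⊓ h78_K0 p L) (p : Ω) := h62_isUnif_p p L _ inf_le_right
  have hπ₀ : h78_IsUnif p (h78_K0 p F) (p : Ω) := h62_isUnif_p p F _ le_rfl
  obtain ⟨c, hc, hz, -⟩ := h35_expansion p (F ⊓ h78_K0 p L) (h78_K0 p F) hML hres (p : Ω) (p : Ω)
    hπ hπ₀ 1 (pow_one _).symm z ⟨hzF, hzL⟩
  rw [hz]
  exact sum_mem fun i _ => by
    have hi : (i : ℕ) = 0 := by omega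
    rw [hi, pow_zero, mul_one]
    exact hc i

/-- `Gal(Ω/F)` is normal for a stable `F`. -/
theorem h62_fixing_normal (F : Fld) (hF : h78_Stable p F) :
    (F.fixingSubgroup : Subgroup (h78_G p)).Normal := by
  refine ⟨fun n hn g => ?_⟩
  rw [IntermediateField.mem_fixingSubgroup_iff] at hn ⊢
  intro z hz
  have h1 : g⁻¹ z ∈ F := hF g⁻¹ z hz
  show g (n (g⁻¹ z)) = z
  rw [hn _ h1]
  show (g * g⁻¹) z = z
  rw [mul_inv_cancel]; rfl

/-- R-IMG : `J_L` and `J_F` have the same image on `F ≤ L`. -/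
theorem h62_J_image (F L : Fld) [FiniteDimensional ℚ_[p] F] [FiniteDimensional ℚ_[p] L]
    (hF : h78_Stable p F) (hL : h78_Stable p L) (hFL : F ≤ L)
    (τ : h78_G p) (hτ : τ ∈ h78_J p F) : ∃ τ' ∈ h78_J p L, ∀ z ∈ F, τ' z = τ z := by
  haveI hnorm : (F.fixingSubgroup : Subgroup (h78_G p)).Normal := h62_fixing_normal p F hF
  have hle : F.fixingSubgroup ≤ h78_J p L ⊔ F.fixingSubgroup := le_sup_right
  have hmem : τ ∈ h78_J p L ⊔ F.fixingSubgroup := by
    apply h62_mem_of_fixes_fixedField p F _ hle τ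
    intro z hz
    rw [IntermediateField.mem_fixedField_iff] at hz
    have hzF : z ∈ F := by
      apply h62_mem_of_fixed p F z
      intro g hg
      exact hz g (hle ((IntermediateField.mem_fixingSubgroup_iff F g).2 hg))
    have hzL : z ∈ h78_K0 p L := by
      have h := InfiniteGalois.fixedField_fixingSubgroup (k := ℚ_[p]) (K := Ω) (h78_K0 p L)
      rw [← h, IntermediateField.mem_fixedField_iff]
      intro g hg
      exact hz g ((le_sup_left : h78_J p L ≤ h78_J p L ⊔ F.fixingSubgroup) hg)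
    exact h49_J_fix p F τ hτ z (h62_K0_inf p F L hFL z hzF hzL)
  rw [Subgroup.mem_sup_of_normal_right] at hmem
  obtain ⟨τ', hτ', h, hh, rfl⟩ := hmem
  refine ⟨τ', hτ', fun z hz => ?_⟩
  show τ' z = τ' (h z)
  rw [(IntermediateField.mem_fixingSubgroup_iff F h).1 hh z hz]

end Fermat.Agent.S56
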