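/-
S56 / W3 row B0, addendum (helper62): B0.4' of skeleton v3 - finite subfields of
`Ω = PadicAlgCl p` are complete (the form `sk_Ps` consumes; `Ω` itself is not complete).
-/
import Fermat.Agent.S56.h78_W3Defs

set_option autoImplicit false

namespace Fermat.Agent.S56

variable (p : ℕ) [Fact p.Prime]

local notation "Ω" => PadicAlgCl p
local notation "Fld" => IntermediateField ℚ_[p] (PadicAlgCl p)

/-- B0.4' finite subfields are complete (the form `sk_Ps` consumes; `Ω` itself is not complete). -/
theorem h62_isComplete (E : Fld) [FiniteDimensional ℚ_[p] E] : IsComplete (E : Set Ω) := by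
  have h1 : CompleteSpace E.toSubmodule :=
    FiniteDimensional.complete ℚ_[p] E.toSubmodule
  exact completeSpace_coe_iff_isComplete.1 h1

end Fermat.Agent.S56
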