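import Fermat.Agent.S56.h64_RedCount

/-!
# S56 / W3 / E-RED : the finite-field count, target field not necessarily finite (helper64)

Same statements as `h64_RedCount.lean`, but the target `κ` of the leading-coefficient maps is an
arbitrary field of characteristic `p` (e.g. the residue field of `PadicAlgCl p`): the set of
additive `Λ : k → κ` with `Λ (c * y) = Λ y ^ p` is finite with at most `|k|` elements.
-/

set_option autoImplicit false
set_option linter.unusedSectionVars false

namespace Fermat.Agent.S56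

open Polynomial

section RedCountGen

variable (p : ℕ) [Fact p.Prime] {k κ : Type*} [Field k] [Field κ]
  [Algebra (ZMod p) k] [Algebra (ZMod p) κ]

theorem h64_red_card_gen_aux [Finite k] (c : k) :
    Finite {Λ : k →+ κ | ∀ y, Λ (c * y) = Λ y ^ p} ∧
      Nat.card {Λ : k →+ κ | ∀ y, Λ (c * y) = Λ y ^ p} ≤ Nat.card k := by
  classical
  have hc : IsIntegral (ZMod p) c := IsIntegral.of_finite (ZMod p) c
  set m := minpoly (ZMod p) c with hm
  set R : Finset κ := (h64_lin p κ m).roots.toFinset with hR
  have hRcard : R.card ≤ p ^ m.natDegree :=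
    (Multiset.toFinset_card_le _).trans ((card_roots' _).trans (h64_lin_natDegree_le p m))
  let k₀ : IntermediateField (ZMod p) k := IntermediateField.adjoin (ZMod p) {c}
  let pb : PowerBasis (ZMod p) k₀ := IntermediateField.adjoin.powerBasis hc
  let b₁ := Module.Free.chooseBasis k₀ k
  let B := pb.basis.smulTower b₁
  let f : {Λ : k →+ κ | ∀ y, Λ (c * y) = Λ y ^ p} →
      (Module.Free.ChooseBasisIndex k₀ k → R) :=
    fun Λ i => ⟨Λ.1 (b₁ i), h64_value_mem p Λ.2 (b₁ i)⟩
  have hf : Function.Injective f := by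
    rintro ⟨Λ, hΛ⟩ ⟨Λ', hΛ'⟩ hff
    apply Subtype.ext
    apply AddMonoidHom.toZModLinearMap_injective p
    apply B.ext
    rintro ⟨j, i⟩
    have h1 : B (j, i) = c ^ (j : ℕ) * b₁ i := by
      rw [Module.Basis.smulTower_apply, PowerBasis.basis_eq_pow]
      rfl
    have h2 : Λ (b₁ i) = Λ' (b₁ i) := congrArg Subtype.val (congrFun hff i)
    show Λ (B (j, i)) = Λ' (B (j, i))
    rw [h1, h64_semi_pow p hΛ, h64_semi_pow p hΛ', h2]
  refine ⟨Finite.of_injective f hf, ?_⟩
  calc Nat.card _ ≤ Nat.card (Module.Free.ChooseBasisIndex k₀ k → R) :=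
        Nat.card_le_card_of_injective f hf
    _ = Nat.card R ^ Nat.card (Module.Free.ChooseBasisIndex k₀ k) := Nat.card_fun
    _ ≤ (p ^ m.natDegree) ^ Nat.card (Module.Free.ChooseBasisIndex k₀ k) := by
        rw [Nat.card_eq_finsetCard]
        exact Nat.pow_le_pow_left hRcard _
    _ = Nat.card k := by
        rw [Module.natCard_eq_pow_finrank (K := ZMod p) (V := k), Nat.card_zmod, ← pow_mul]
        congr 1
        rw [← Module.finrank_mul_finrank (ZMod p) k₀ k, IntermediateField.adjoin.finrank hc,
          Module.finrank_eq_card_chooseBasisIndex, Nat.card_eq_fintype_card]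

end RedCountGen

section RedCountGenFinal

variable (p : ℕ) [Fact p.Prime] {k κ : Type*} [Field k] [Finite k] [CharP k p]
  [Field κ] [CharP κ p]

/-- **RED-COUNT, general target.** The `c`-semilinear additive maps `k → κ` form a finite set
with at most `|k|` elements (`κ` any field of characteristic `p`). -/
theorem h64_red_card_gen (c : k) :
    Finite {Λ : k →+ κ | ∀ y, Λ (c * y) = Λ y ^ p} ∧
      Nat.card {Λ : k →+ κ | ∀ y, Λ (c * y) = Λ y ^ p} ≤ Nat.card k := by
  let _ := ZMod.algebra k p
  let _ := ZMod.algebra κ p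
  exact h64_red_card_gen_aux p c

/-- **RED-COUNT, consumer form, general target.** -/
theorem h64_red_finrank_gen (c : k) {V : Type*} [AddCommGroup V] [Module k V]
    (T : V →+ (k →+ κ)) (hT : Function.Injective T)
    (hsemi : ∀ v y, T v (c * y) = T v y ^ p) : Module.finrank k V ≤ 1 := by
  obtain ⟨hfin, hcard⟩ := h64_red_card_gen (κ := κ) p c
  let g : V → {Λ : k →+ κ | ∀ y, Λ (c * y) = Λ y ^ p} := fun v => ⟨T v, hsemi v⟩
  have hg : Function.Injective g := fun a b h => hT (congrArg Subtype.val h)
  have : Finite V := Finite.of_injective g hg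
  exact h64_finrank_le_one_of_card_le ((Nat.card_le_card_of_injective g hg).trans hcard)

/-- **RED-COUNT, dual consumer form, general target**: functionals `l : k →+ 𝔽_p` in place of
`y : k`; semilinearity reads `T v (l ∘ (c * ·)) = T v l ^ p`. -/
theorem h64_red_finrank_dual_gen (c : k) {V : Type*} [AddCommGroup V] [Module k V]
    (T : V →+ ((k →+ ZMod p) →+ κ)) (hT : Function.Injective T)
    (hsemi : ∀ v (l : k →+ ZMod p), T v (l.comp (AddMonoidHom.mulLeft c)) = T v l ^ p) :
    Module.finrank k V ≤ 1 := by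
  obtain ⟨l₀, hl₀⟩ := h64_exists_dual_gen (k := k) p
  let Ψ : k →+ (k →+ ZMod p) := (AddMonoidHom.compHom l₀).comp AddMonoidHom.mul
  have hΨ : ∀ y, Ψ y = l₀.comp (AddMonoidHom.mulLeft y) := fun y => rfl
  have hΨc : ∀ y, Ψ (c * y) = (Ψ y).comp (AddMonoidHom.mulLeft c) := by
    intro y
    ext x
    simp only [hΨ, AddMonoidHom.comp_apply, AddMonoidHom.coe_mulLeft]
    rw [mul_left_comm, mul_assoc]
  let T' : V →+ (k →+ κ) := (AddMonoidHom.compHom' Ψ).comp T
  have hT' : ∀ v y, T' v y = T v (Ψ y) := fun v y => rfl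
  refine h64_red_finrank_gen p c T' ?_ ?_
  · intro v v' h
    apply hT
    ext l
    obtain ⟨y, rfl⟩ := hl₀ l
    have := DFunLike.congr_fun h y
    rw [hT', hT'] at this
    exact this
  · intro v y
    rw [hT', hT', hΨc, hsemi]

end RedCountGenFinal

end Fermat.Agent.S56
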