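import Fermat.Agent.S56.h66_Mat2

/-!
# S56 / W4 (G6): choice of `σ` (Mathlib only)

`h66_choice`: for a set `S` of `2 × 2` matrices of determinant one over a field of characteristic
`≠ 2`, closed under products and inverses, with nondegenerate trace form (absolutely irreducible),
and a nonzero conjugation-stable space `V` of trace-zero matrices, there are a regular `g ∈ S`
(`tr(g)² ≠ 4`) and `X ∈ V` with `tr(X g) ≠ 0`.
-/

set_option autoImplicit false

namespace Fermat.Agent.S56

open Matrix

variable {k : Type*} [Field k]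

/-- traces against the two products of two unipotents. -/
theorem h66_two_traces (h2 : (2 : k) ≠ 0) (n n' Y : Matrix (Fin 2) (Fin 2) k)
    (hn : n.trace = 0) (hn' : n'.trace = 0) (hY : Y.trace = 0)
    (h1 : (Y * ((1 + n) * (1 + n'))).trace = 0) (h1' : (Y * ((1 + n') * (1 + n))).trace = 0) :
    (Y * n).trace + (Y * n').trace = 0 ∧ (Y * n * n').trace = 0 := by
  have anti := h66_anticomm n n' hn hn'
  have e1 : (Y * ((1 + n) * (1 + n'))).trace
      = Y.trace + (Y * n).trace + (Y * n').trace + (Y * n * n').trace := by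
    simp only [Matrix.mul_add, Matrix.add_mul, Matrix.mul_one, Matrix.one_mul, Matrix.trace_add,
      Matrix.mul_assoc]
    ring
  have e2 : (Y * ((1 + n') * (1 + n))).trace
      = Y.trace + (Y * n').trace + (Y * n).trace + (Y * n' * n).trace := by
    simp only [Matrix.mul_add, Matrix.add_mul, Matrix.mul_one, Matrix.one_mul, Matrix.trace_add,
      Matrix.mul_assoc]
    ring
  have e3 : (Y * n' * n).trace = (n * n').trace * Y.trace - (Y * n * n').trace := by
    have : n' * n = (n * n').trace • (1 : Matrix (Fin 2) (Fin 2) k) - n * n' := by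
      rw [← anti]; abel
    rw [Matrix.mul_assoc, this, Matrix.mul_sub, Matrix.trace_sub, Matrix.mul_smul, Matrix.mul_one,
      Matrix.trace_smul, smul_eq_mul, Matrix.mul_assoc]
  rw [e1, hY] at h1
  rw [e2, e3, hY] at h1'
  have h3 : (2 : k) * (Y * n * n').trace = 0 := by linear_combination h1 - h1'
  have h4 : (Y * n * n').trace = 0 := by
    rcases mul_eq_zero.mp h3 with h | h
    · exact absurd h h2
    · exact h
  refine ⟨?_, h4⟩
  linear_combination h1 - h4

/-- core of (G6): a trace-zero matrix orthogonal to the two products of two non-commuting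
unipotents, together with its conjugate, vanishes. -/
theorem h66_choice_core (h2 : (2 : k) ≠ 0) (n n' X : Matrix (Fin 2) (Fin 2) k)
    (hn : n.trace = 0) (hn' : n'.trace = 0) (dn : n.det = 0) (dn' : n'.det = 0)
    (ht : (n * n').trace ≠ 0) (hX : X.trace = 0)
    (h1 : (X * ((1 + n) * (1 + n'))).trace = 0) (h1' : (X * ((1 + n') * (1 + n))).trace = 0)
    (h3 : (((1 + n) * X * (1 - n)) * ((1 + n) * (1 + n'))).trace = 0)
    (h3' : (((1 + n) * X * (1 - n)) * ((1 + n') * (1 + n))).trace = 0) : X = 0 := by
  set t := (n * n').trace with htdef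
  have nn : n * n = 0 := by rw [h66_cayley, hn, dn]; simp
  have n'n' : n' * n' = 0 := by rw [h66_cayley, hn', dn']; simp
  have nn'n : n * n' * n = t • n := h66_rank_one n n' dn
  have ht' : (n' * n).trace = t := by rw [Matrix.trace_mul_comm]
  have n'nn' : n' * n * n' = t • n' := by rw [h66_rank_one n' n dn', ht']
  have anti : n * n' + n' * n = t • (1 : Matrix (Fin 2) (Fin 2) k) := h66_anticomm n n' hn hn'
  obtain ⟨q, r⟩ := h66_two_traces h2 n n' X hn hn' hX h1 h1'
  -- the conjugate
  have hX' : ((1 + n) * X * (1 - n)).trace = 0 := by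
    rw [Matrix.trace_mul_comm, ← Matrix.mul_assoc]
    have : (1 - n) * (1 + n) = 1 := by
      rw [Matrix.sub_mul, Matrix.mul_add, Matrix.mul_add, nn]; simp
    rw [this, Matrix.one_mul, hX]
  obtain ⟨q', -⟩ := h66_two_traces h2 n n' _ hn hn' hX' h3 h3'
  have p1' : ((1 + n) * X * (1 - n) * n).trace = (X * n).trace := by
    have e : (1 + n) * X * (1 - n) * n = X * n + n * (X * n) := by
      rw [Matrix.mul_assoc ((1 + n) * X), Matrix.sub_mul, nn, Matrix.one_mul, sub_zero,
        Matrix.mul_assoc, Matrix.add_mul, Matrix.one_mul]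
    rw [e, Matrix.trace_add, Matrix.trace_mul_comm n, Matrix.mul_assoc, nn, Matrix.mul_zero,
      Matrix.trace_zero, add_zero]
  have p2' : ((1 + n) * X * (1 - n) * n').trace
      = (X * n').trace - 2 * (X * n * n').trace - t * (X * n).trace := by
    have e : (1 + n) * X * (1 - n) * n'
        = X * n' - X * n * n' + n * (X * n') - n * (X * n * n') := by
      simp only [Matrix.add_mul, Matrix.mul_one, Matrix.one_mul, Matrix.mul_sub,
        Matrix.sub_mul, Matrix.mul_assoc]
      abel
    have e1 : (n * (X * n')).trace = t * X.trace - (X * n * n').trace := by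
      rw [Matrix.trace_mul_comm, Matrix.mul_assoc]
      have : n' * n = t • (1 : Matrix (Fin 2) (Fin 2) k) - n * n' := by
        rw [← anti]; abel
      rw [this, Matrix.mul_sub, Matrix.trace_sub, Matrix.mul_smul, Matrix.mul_one,
        Matrix.trace_smul, smul_eq_mul, Matrix.mul_assoc]
    have e2 : (n * (X * n * n')).trace = t * (X * n).trace := by
      rw [Matrix.trace_mul_comm, Matrix.mul_assoc, Matrix.mul_assoc, ← Matrix.mul_assoc n n' n,
        nn'n, Matrix.mul_smul, Matrix.trace_smul, smul_eq_mul]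
    rw [e, Matrix.trace_sub, Matrix.trace_add, Matrix.trace_sub, e1, e2, hX]
    ring
  rw [p1', p2', r] at q'
  have hp1 : (X * n).trace = 0 := by
    have : t * (X * n).trace = 0 := by linear_combination q - q'
    rcases mul_eq_zero.mp this with h | h
    · exact absurd h ht
    · exact h
  have hp2 : (X * n').trace = 0 := by linear_combination q - hp1
  -- `t² X = 0`
  have key : (t • (1 : Matrix (Fin 2) (Fin 2) k)) * X * (t • (1 : Matrix (Fin 2) (Fin 2) k)) = 0 := by
    rw [← anti]
    have a1 : n * n' * X * (n * n') = 0 := by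
      rw [h66_rank_one (n * n') X (by rw [Matrix.det_mul, dn, zero_mul])]
      have : (n * n' * X).trace = 0 := by
        rw [Matrix.trace_mul_comm, ← Matrix.mul_assoc]; exact r
      rw [this, zero_smul]
    have a2 : n' * n * X * (n' * n) = 0 := by
      rw [h66_rank_one (n' * n) X (by rw [Matrix.det_mul, dn, mul_zero])]
      have : (n' * n * X).trace = 0 := by
        rw [Matrix.trace_mul_comm, ← Matrix.mul_assoc]
        have e3 : (X * n' * n).trace = t * X.trace - (X * n * n').trace := by
          have : n' * n = t • (1 : Matrix (Fin 2) (Fin 2) k) - n * n' := by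
            rw [← anti]; abel
          rw [Matrix.mul_assoc, this, Matrix.mul_sub, Matrix.trace_sub, Matrix.mul_smul,
            Matrix.mul_one, Matrix.trace_smul, smul_eq_mul, Matrix.mul_assoc]
        rw [e3, hX, r]; ring
      rw [this, zero_smul]
    have a3 : n * n' * X * (n' * n) = 0 := by
      have : n * n' * X * (n' * n) = n * (n' * X * n') * n := by
        simp only [Matrix.mul_assoc]
      rw [this, h66_rank_one n' X dn']
      have : (n' * X).trace = 0 := by rw [Matrix.trace_mul_comm]; exact hp2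
      rw [this, zero_smul, Matrix.mul_zero, Matrix.zero_mul]
    have a4 : n' * n * X * (n * n') = 0 := by
      have : n' * n * X * (n * n') = n' * (n * X * n) * n' := by
        simp only [Matrix.mul_assoc]
      rw [this, h66_rank_one n X dn]
      have : (n * X).trace = 0 := by rw [Matrix.trace_mul_comm]; exact hp1
      rw [this, zero_smul, Matrix.mul_zero, Matrix.zero_mul]
    rw [Matrix.add_mul, Matrix.add_mul, Matrix.mul_add, Matrix.mul_add, a1, a2, a3, a4]
    simp
  rw [Matrix.smul_mul, Matrix.one_mul, Matrix.mul_smul, Matrix.mul_one, smul_smul] at key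
  rcases smul_eq_zero.mp key with h | h
  · exact absurd (mul_self_eq_zero.mp h) ht
  · exact h

/-- consequence of the core: two non-commuting unipotents `1 + n`, `1 + n'` in a multiplicatively
closed set `S` whose products are regular; a conjugation-stable space of trace-zero matrices
orthogonal to all regular elements of `S` is zero. -/
theorem h66_choice_aux (h2 : (2 : k) ≠ 0) (S : Set (Matrix (Fin 2) (Fin 2) k))
    (hmul : ∀ a ∈ S, ∀ b ∈ S, a * b ∈ S)
    (V : Submodule k (Matrix (Fin 2) (Fin 2) k)) (hVtr : ∀ X ∈ V, X.trace = 0)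
    (hVst : ∀ a ∈ S, ∀ X ∈ V, a * X * a.adjugate ∈ V)
    (hcon : ∀ g ∈ S, g.trace ^ 2 ≠ 4 → ∀ X ∈ V, (X * g).trace = 0)
    (n n' : Matrix (Fin 2) (Fin 2) k) (hu : 1 + n ∈ S) (hu' : 1 + n' ∈ S)
    (hn : n.trace = 0) (hn' : n'.trace = 0) (dn : n.det = 0) (dn' : n'.det = 0)
    (ht : (n * n').trace ≠ 0) (ht4 : (n * n').trace ≠ -4) : ∀ X ∈ V, X = 0 := by
  intro X hX
  have tr1 : ((1 + n) * (1 + n')).trace = 2 + (n * n').trace := by
    simp only [Matrix.mul_add, Matrix.add_mul, Matrix.mul_one, Matrix.one_mul, Matrix.trace_add,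
      hn, hn', Matrix.trace_one, Fintype.card_fin]
    push_cast; ring
  have tr2 : ((1 + n') * (1 + n)).trace = 2 + (n * n').trace := by
    simp only [Matrix.mul_add, Matrix.add_mul, Matrix.mul_one, Matrix.one_mul, Matrix.trace_add,
      hn, hn', Matrix.trace_one, Fintype.card_fin, Matrix.trace_mul_comm n' n]
    push_cast; ring
  have hreg : (2 + (n * n').trace) ^ 2 ≠ 4 := by
    intro h
    have : (n * n').trace * ((n * n').trace + 4) = 0 := by linear_combination h
    rcases mul_eq_zero.mp this with h | h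
    · exact ht h
    · exact ht4 (by linear_combination h)
  have hg : (1 + n) * (1 + n') ∈ S := hmul _ hu _ hu'
  have hg' : (1 + n') * (1 + n) ∈ S := hmul _ hu' _ hu
  have hadj : (1 + n).adjugate = 1 - n := by
    rw [h66_adj_eq, Matrix.trace_add, hn, Matrix.trace_one, Fintype.card_fin]
    ext i j
    fin_cases i <;> fin_cases j <;> simp <;> ring
  have hX' : (1 + n) * X * (1 - n) ∈ V := by
    have := hVst _ hu X hX
    rwa [hadj] at this
  exact h66_choice_core h2 n n' X hn hn' dn dn' ht (hVtr X hX)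
    (hcon _ hg (by rw [tr1]; exact hreg) X hX) (hcon _ hg' (by rw [tr2]; exact hreg) X hX)
    (hcon _ hg (by rw [tr1]; exact hreg) _ hX') (hcon _ hg' (by rw [tr2]; exact hreg) _ hX')

/-- **(G6) choice of `σ`.**  Let `S` be a set of `2 × 2` matrices of determinant one, closed under
multiplication and inverses, on which the trace form is nondegenerate (e.g. `S` spans all
matrices, see `h66_choice_of_span`), and `V` a nonzero space of trace-zero
matrices stable under conjugation by `S`.  Then some regular `g ∈ S` (`tr(g)² ≠ 4`) and some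
`X ∈ V` have `tr(X g) ≠ 0`. -/
theorem h66_choice (h2 : (2 : k) ≠ 0) (S : Set (Matrix (Fin 2) (Fin 2) k))
    (hmul : ∀ a ∈ S, ∀ b ∈ S, a * b ∈ S) (hadj : ∀ a ∈ S, a.adjugate ∈ S)
    (hdet : ∀ a ∈ S, a.det = 1)
    (hnd : ∀ X : Matrix (Fin 2) (Fin 2) k, (∀ Y ∈ S, (X * Y).trace = 0) → X = 0)
    (V : Submodule k (Matrix (Fin 2) (Fin 2) k)) (hV0 : V ≠ ⊥) (hVtr : ∀ X ∈ V, X.trace = 0)
    (hVst : ∀ a ∈ S, ∀ X ∈ V, a * X * a.adjugate ∈ V) :
    ∃ g ∈ S, g.trace ^ 2 ≠ 4 ∧ ∃ X ∈ V, (X * g).trace ≠ 0 := by
  by_contra hcon0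
  have hcon : ∀ g ∈ S, g.trace ^ 2 ≠ 4 → ∀ X ∈ V, (X * g).trace = 0 := by
    intro g hg hreg X hX
    by_contra hne
    exact hcon0 ⟨g, hg, hreg, X, hX, hne⟩
  apply hV0
  rw [Submodule.eq_bot_iff]
  by_cases hcase : ∀ g ∈ S, g.trace ^ 2 = 4 → ∃ a : k, g = a • (1 : Matrix (Fin 2) (Fin 2) k)
  · -- every non-regular element is scalar
    intro X hX
    apply hnd X
    intro g hg
    by_cases hreg : g.trace ^ 2 = 4
    · obtain ⟨a, rfl⟩ := hcase g hg hreg
      rw [Matrix.mul_smul, Matrix.mul_one, Matrix.trace_smul, hVtr X hX, smul_zero]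
    · exact hcon g hg hreg X hX
  · -- a non-scalar element `g0` with `tr² = 4`: `g0²` is a nontrivial unipotent
    push Not at hcase
    obtain ⟨g0, hg0, htr0, hns⟩ := hcase
    have h4 : (4 : k) ≠ 0 := by
      have : (4 : k) = 2 * 2 := by norm_num
      rw [this]; exact mul_ne_zero h2 h2
    have hτ0 : g0.trace ≠ 0 := by
      intro h; rw [h] at htr0; exact h4 (by linear_combination -htr0)
    have hsq : g0 * g0 = g0.trace • g0 - 1 := by
      rw [h66_cayley, hdet g0 hg0, one_smul]
    set m : Matrix (Fin 2) (Fin 2) k := g0 * g0 - 1 with hm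
    have hu0 : 1 + m = g0 * g0 := by rw [hm]; abel
    have hmS : 1 + m ∈ S := by rw [hu0]; exact hmul _ hg0 _ hg0
    have hm' : m = g0.trace • g0 - 1 - 1 := by rw [hm, hsq]
    have trm : m.trace = 0 := by
      rw [hm', Matrix.trace_sub, Matrix.trace_sub, Matrix.trace_smul, Matrix.trace_one,
        Fintype.card_fin, smul_eq_mul]
      push_cast; linear_combination htr0
    have detm : m.det = 0 := by
      have hd := hdet g0 hg0
      rw [Matrix.det_fin_two] at hd
      have ht2 := htr0
      rw [Matrix.trace_fin_two] at ht2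
      rw [hm', Matrix.det_fin_two]
      simp only [Matrix.sub_apply, Matrix.smul_apply, Matrix.one_apply_eq, smul_eq_mul,
        Matrix.trace_fin_two, ne_eq, zero_ne_one, one_ne_zero, not_false_eq_true,
        Matrix.one_apply_ne, sub_zero]
      linear_combination (g0 0 0 + g0 1 1) ^ 2 * hd - ht2
    have m0 : m ≠ 0 := by
      intro h
      apply hns (g0.trace⁻¹ * 2)
      have : g0.trace • g0 = (2 : k) • (1 : Matrix (Fin 2) (Fin 2) k) := by
        have h' : g0.trace • g0 - 1 - 1 = 0 := by rw [← hm', h]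
        rw [two_smul]
        rw [sub_sub, sub_eq_zero] at h'
        exact h'
      calc g0 = g0.trace⁻¹ • (g0.trace • g0) := by rw [smul_smul, inv_mul_cancel₀ hτ0, one_smul]
        _ = (g0.trace⁻¹ * 2) • (1 : Matrix (Fin 2) (Fin 2) k) := by rw [this, smul_smul]
    -- an element `h` of `S` with `tr(m h) ≠ 0`
    obtain ⟨h, hhS, hmh⟩ : ∃ h ∈ S, (m * h).trace ≠ 0 := by
      by_contra hno
      push Not at hno
      exact m0 (hnd m hno)
    have dh : h.det = 1 := hdet h hhS
    have hh1 : h * h.adjugate = 1 := by rw [Matrix.mul_adjugate, dh, one_smul]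
    have hh2 : h.adjugate * h = 1 := by rw [Matrix.adjugate_mul, dh, one_smul]
    set n' : Matrix (Fin 2) (Fin 2) k := h * m * h.adjugate with hn'def
    have hu' : 1 + n' ∈ S := by
      have : 1 + n' = h * (1 + m) * h.adjugate := by
        rw [Matrix.mul_add, Matrix.add_mul, Matrix.mul_one, hh1]
      rw [this]
      exact hmul _ (hmul _ hhS _ hmS) _ (hadj h hhS)
    have trn' : n'.trace = 0 := by
      rw [hn'def, Matrix.trace_mul_comm, ← Matrix.mul_assoc, hh2, Matrix.one_mul, trm]
    have detn' : n'.det = 0 := by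
      rw [hn'def, Matrix.det_mul, Matrix.det_mul, detm, mul_zero, zero_mul]
    have ht0 : (m * n').trace = - (m * h).trace ^ 2 := by
      have e : m * n' = (m * h * m) * h.adjugate := by
        rw [hn'def]; simp only [Matrix.mul_assoc]
      rw [e, h66_rank_one m h detm, h66_adj_eq, Matrix.smul_mul, Matrix.trace_smul, Matrix.mul_sub,
        Matrix.trace_sub, Matrix.mul_smul, Matrix.mul_one, Matrix.trace_smul, trm, smul_eq_mul,
        smul_eq_mul]
      ring
    have ht0' : (m * n').trace ≠ 0 := by
      rw [ht0]; exact neg_ne_zero.mpr (pow_ne_zero 2 hmh)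
    by_cases hc4 : (m * n').trace = -4
    · -- use `(1 + m)² = 1 + 2 m`
      have mm : m * m = 0 := by rw [h66_cayley, trm, detm]; simp
      have hu2 : 1 + (2 : k) • m ∈ S := by
        have : 1 + (2 : k) • m = (1 + m) * (1 + m) := by
          simp only [Matrix.mul_add, Matrix.add_mul, Matrix.mul_one, Matrix.one_mul, mm, two_smul]
          abel
        rw [this]; exact hmul _ hmS _ hmS
      have e2 : ((2 : k) • m * n').trace = -8 := by
        rw [Matrix.smul_mul, Matrix.trace_smul, hc4, smul_eq_mul]; norm_num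
      exact h66_choice_aux h2 S hmul V hVtr hVst hcon ((2 : k) • m) n' hu2 hu'
        (by rw [Matrix.trace_smul, trm, smul_zero]) trn'
        (by rw [Matrix.det_smul, detm, mul_zero]) detn'
        (by
          rw [e2]
          have : (8 : k) = 2 * 4 := by norm_num
          rw [neg_ne_zero, this]; exact mul_ne_zero h2 h4)
        (by
          rw [e2]
          intro h8
          exact h4 (by linear_combination -h8))
    · exact h66_choice_aux h2 S hmul V hVtr hVst hcon m n' hmS hu' trm trn' detm detn' ht0' hc4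

/-- (G6) in the form with a spanning hypothesis. -/
theorem h66_choice_of_span (h2 : (2 : k) ≠ 0) (S : Set (Matrix (Fin 2) (Fin 2) k))
    (hmul : ∀ a ∈ S, ∀ b ∈ S, a * b ∈ S) (hadj : ∀ a ∈ S, a.adjugate ∈ S)
    (hdet : ∀ a ∈ S, a.det = 1) (hspan : Submodule.span k S = ⊤)
    (V : Submodule k (Matrix (Fin 2) (Fin 2) k)) (hV0 : V ≠ ⊥) (hVtr : ∀ X ∈ V, X.trace = 0)
    (hVst : ∀ a ∈ S, ∀ X ∈ V, a * X * a.adjugate ∈ V) :
    ∃ g ∈ S, g.trace ^ 2 ≠ 4 ∧ ∃ X ∈ V, (X * g).trace ≠ 0 :=
  h66_choice h2 S hmul hadj hdet (fun X hX => h66_eq_zero_of_trace X S hspan hX) V hV0 hVtr hVst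

end Fermat.Agent.S56
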