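/-
S56 / W3 / E-IRR, row W3-EI-LV1 (helper66), hypothesis form.

`h66_lv_exists_of` : the statement of `h43_lv_exists` (E-IRR skeleton of helper43) with the
conclusion of `h43_lv_pth` (row LV0) as its only hypothesis `hpth`.

Normal form: for `u ∈ h78_U p M` which is not a `p`-th power in `M`, among the exponents `i` with
`‖u * w ^ p - 1‖ = ‖π‖ ^ i` (`w ∈ M^×`) there is a largest one; it lies in `[e, e + l]` and the
corresponding `u * w ^ p` is reduced.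
-/
import Fermat.Agent.S56.h43_EIDefs

set_option autoImplicit false

namespace Fermat.Agent.S56

variable (p : ℕ) [Fact p.Prime]

local notation "Ω" => PadicAlgCl p
local notation "Fld" => IntermediateField ℚ_[p] (PadicAlgCl p)

/-- powers of a real number in `(0, 1)`: `r ^ a ≤ r ^ b` (integer exponents) iff `b ≤ a`. -/
theorem h66_zpow_le_zpow_iff_of_lt_one {r : ℝ} (h0 : 0 < r) (h1 : r < 1) (a b : ℤ) :
    r ^ a ≤ r ^ b ↔ b ≤ a :=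
  zpow_le_zpow_iff_right_of_lt_one₀ h0 h1

/-- powers of a real number in `(0, 1)`: `r ^ a < r ^ b` (integer exponents) iff `b < a`. -/
theorem h66_zpow_lt_zpow_iff_of_lt_one {r : ℝ} (h0 : 0 < r) (h1 : r < 1) (a b : ℤ) :
    r ^ a < r ^ b ↔ b < a :=
  zpow_lt_zpow_iff_right_of_lt_one₀ h0 h1

/-- **W3-EI-LV1, hypothesis form.** -/
theorem h66_lv_exists_of (M : Fld)
    (π : Ω) (hπ : h78_IsUnif p M π) (e l : ℕ)
    (hπe : ‖π‖ ^ e = (p : ℝ)⁻¹)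
    (hpth : ∀ u' : Ω, u' ∈ M → ‖u' - 1‖ < ‖π‖ ^ (e + l) → ∃ w ∈ M, w ≠ 0 ∧ u' = w ^ p)
    (u : Ω) (hu : u ∈ h78_U p M) (hnp : ¬ ∃ w ∈ M, u = w ^ p) :
    ∃ w ∈ M, w ≠ 0 ∧ ∃ i : ℕ, e ≤ i ∧ i ≤ e + l ∧ ‖u * w ^ p - 1‖ = ‖π‖ ^ i ∧
      h43_Red p M (u * w ^ p) := by
  classical
  obtain ⟨hπM, hπ0, hπ1, hπv⟩ := hπ
  obtain ⟨huM, hu0, w0, hw0M, hw00, hw0⟩ := hu
  have hr0 : 0 < ‖π‖ := norm_pos_iff.2 hπ0
  -- `u * w ^ p - 1` is a nonzero element of `M` for `w ∈ M^×`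
  have hmem : ∀ w : Ω, w ∈ M → u * w ^ p - 1 ∈ M := fun w hw =>
    M.sub_mem (M.mul_mem huM (pow_mem hw p)) M.one_mem
  have hne : ∀ w : Ω, w ∈ M → w ≠ 0 → u * w ^ p - 1 ≠ 0 := by
    intro w hw hw0' h
    apply hnp
    refine ⟨w⁻¹, M.inv_mem hw, ?_⟩
    have h1 : u * w ^ p = 1 := sub_eq_zero.1 h
    rw [inv_pow]
    exact eq_inv_of_mul_eq_one_left h1
  -- the set of attained exponents
  set S : ℕ → Prop := fun i => ∃ w ∈ M, w ≠ 0 ∧ ‖u * w ^ p - 1‖ = ‖π‖ ^ i with hS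
  -- bounded by `e + l`
  have hbd : ∀ i, S i → i ≤ e + l := by
    rintro i ⟨w, hwM, hw0', hwi⟩
    by_contra hcon
    rw [not_le] at hcon
    have hlt : ‖u * w ^ p - 1‖ < ‖π‖ ^ (e + l) := by
      rw [hwi]
      exact pow_lt_pow_right_of_lt_one₀ hr0 hπ1 hcon
    obtain ⟨w', hw'M, hw'0, hw'⟩ := hpth _ (M.mul_mem huM (pow_mem hwM p)) hlt
    apply hnp
    refine ⟨w' * w⁻¹, M.mul_mem hw'M (M.inv_mem hwM), ?_⟩
    rw [mul_pow, ← hw', inv_pow, mul_assoc, mul_inv_cancel₀ (pow_ne_zero p hw0'), mul_one]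
  -- an element `≥ e`
  have hex : ∃ i, e ≤ i ∧ S i := by
    obtain ⟨n, hn⟩ := hπv _ (hmem w0 hw0M) (hne w0 hw0M hw00)
    have h1 : ‖π‖ ^ n ≤ ‖π‖ ^ (e : ℤ) := by
      rw [← hn, zpow_natCast, hπe]
      exact hw0
    have h2 : (e : ℤ) ≤ n := (h66_zpow_le_zpow_iff_of_lt_one hr0 hπ1 n e).1 h1
    obtain ⟨i, rfl⟩ : ∃ i : ℕ, n = (i : ℤ) := ⟨n.toNat, (Int.toNat_of_nonneg (le_trans (Int.natCast_nonneg e) h2)).symm⟩
    refine ⟨i, by exact_mod_cast h2, w0, hw0M, hw00, ?_⟩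
    rw [hn, zpow_natCast]
  obtain ⟨i0, hi0e, hi0S⟩ := hex
  -- the maximal exponent
  set i := Nat.findGreatest S (e + l) with hi
  have hiS : S i := Nat.findGreatest_spec (hbd i0 hi0S) hi0S
  have himax : ∀ j, S j → j ≤ i := fun j hj => Nat.le_findGreatest (hbd j hj) hj
  obtain ⟨w, hwM, hw0', hwi⟩ := hiS
  refine ⟨w, hwM, hw0', i, le_trans hi0e (himax i0 hi0S), hbd i ⟨w, hwM, hw0', hwi⟩, hwi,
    M.mul_mem huM (pow_mem hwM p), ?_⟩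
  intro w' hw'M hw'0
  by_contra hcon
  rw [not_le] at hcon
  have hww : w * w' ∈ M := M.mul_mem hwM hw'M
  have hww0 : w * w' ≠ 0 := mul_ne_zero hw0' hw'0
  have heq : u * w ^ p * w' ^ p - 1 = u * (w * w') ^ p - 1 := by rw [mul_pow, mul_assoc]
  rw [heq] at hcon
  obtain ⟨n, hn⟩ := hπv _ (hmem _ hww) (hne _ hww hww0)
  rw [hn, hwi, ← zpow_natCast] at hcon
  have h2 : (i : ℤ) < n := (h66_zpow_lt_zpow_iff_of_lt_one hr0 hπ1 n i).1 hcon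
  obtain ⟨j, rfl⟩ : ∃ j : ℕ, n = (j : ℤ) := ⟨n.toNat, (Int.toNat_of_nonneg (le_trans (Int.natCast_nonneg i) h2.le)).symm⟩
  have hj : S j := ⟨w * w', hww, hww0, by rw [hn, zpow_natCast]⟩
  have := himax j hj
  omega

end Fermat.Agent.S56
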