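/-
S56 / W3 / E-IRR, row W3-EI-LV1 (helper66): `h43_lv_exists`, VERBATIM from the E-IRR skeleton
of helper43 (origin/helper43 51ae02d).

The only input beyond `h66_lv_exists_of` is the `p`-th power criterion
`‖u - 1‖ < ‖π‖ ^ (e + l) ⟹ u ∈ (M^×)^p` (statement of `h43_lv_pth`, row LV0); it is proved here
under the private name `h66_lv_pth` (no Hensel: among the `p`-th roots of `u` in `Ω` one is
`‖ζ - 1‖`-close to `1`, and such a root is fixed by `Gal(Ω/M)` because two distinct `p`-th roots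
of `u` are at distance exactly `‖ζ - 1‖`).
-/
import Fermat.Agent.S56.h66_EILvExOf
import Fermat.Agent.S56.h62_W3Basics
import Fermat.Agent.S56.h5_KumBasic

set_option autoImplicit false

namespace Fermat.Agent.S56

variable (p : ℕ) [Fact p.Prime]

local notation "Ω" => PadicAlgCl p
local notation "Fld" => IntermediateField ℚ_[p] (PadicAlgCl p)

/-- an element `‖·‖ < 1`-close to `1` has norm `1`. -/
theorem h66_norm_eq_one_of_near (w : Ω) (h : ‖w - 1‖ < 1) : ‖w‖ = 1 := by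
  have h1 : ‖w‖ ≤ 1 := by
    have := h5_norm_sub_le_max p (w - 1) (-1)
    rw [sub_neg_eq_add, sub_add_cancel, norm_neg, norm_one] at this
    exact this.trans (max_le h.le le_rfl)
  refine le_antisymm h1 ?_
  by_contra hcon
  rw [not_le] at hcon
  have := h5_norm_sub_le_max p w (w - 1)
  rw [sub_sub_cancel, norm_one] at this
  exact absurd this (not_le.2 (max_lt hcon h))

/-- a `p`-th root `w` of an element of `M` which is `‖ζ - 1‖`-close to `1` lies in `M`. -/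
theorem h66_root_mem_of_near (M : Fld) [FiniteDimensional ℚ_[p] M]
    (ζ : Ω) (hζp : ζ ^ p = 1) (hζ1 : ζ ≠ 1)
    (w : Ω) (hwM : w ^ p ∈ M) (hw : ‖w - 1‖ < ‖ζ - 1‖) : w ∈ M := by
  have hp : p.Prime := Fact.out
  have hr0 : ‖ζ - 1‖ ^ (p - 1) = (p : ℝ)⁻¹ := h5_root_unity_eq p ζ hζp hζ1
  have hr1 : ‖ζ - 1‖ < 1 := h5_root_unity_lt_one p ζ hζp
  have hw1 : ‖w‖ = 1 := h66_norm_eq_one_of_near p w (hw.trans hr1)
  have hw0 : w ≠ 0 := by
    intro h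
    rw [h, norm_zero] at hw1
    exact zero_ne_one hw1
  apply h62_mem_of_fixed p M w
  intro g hg
  by_contra hne
  set ξ : Ω := g w / w with hξ
  have hξp : ξ ^ p = 1 := by
    rw [hξ, div_pow, ← map_pow, hg _ hwM, div_self (pow_ne_zero p hw0)]
  have hξ1 : ξ ≠ 1 := by
    intro h
    apply hne
    rw [hξ, div_eq_one_iff_eq hw0] at h
    exact h
  have hξn : ‖ξ - 1‖ = ‖ζ - 1‖ := by
    have h1 : ‖ξ - 1‖ ^ (p - 1) = ‖ζ - 1‖ ^ (p - 1) := by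
      rw [h5_root_unity_eq p ξ hξp hξ1, hr0]
    exact (pow_left_inj₀ (norm_nonneg _) (norm_nonneg _) (by have := hp.two_le; omega)).1 h1
  have h2 : g w - w = w * (ξ - 1) := by
    rw [hξ]; field_simp
  have h3 : ‖g w - w‖ = ‖ζ - 1‖ := by rw [h2, norm_mul, hw1, one_mul, hξn]
  have h4 : g w - w = g (w - 1) - (w - 1) := by rw [map_sub, map_one]; ring
  have h5 : ‖g w - w‖ < ‖ζ - 1‖ := by
    rw [h4]
    refine lt_of_le_of_lt (h5_norm_sub_le_max p _ _) (max_lt ?_ hw)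
    rw [h78_norm_aut]; exact hw
  rw [h3] at h5
  exact lt_irrefl _ h5

/-- the `p`-th power criterion (statement of `h43_lv_pth`, private copy of helper66). -/
theorem h66_lv_pth (M : Fld) [FiniteDimensional ℚ_[p] M]
    (π : Ω) (e l : ℕ) (he : e = (p - 1) * l)
    (hπe : ‖π‖ ^ e = (p : ℝ)⁻¹)
    (ζ : Ω) (hζp : ζ ^ p = 1) (hζ1 : ζ ≠ 1)
    (u : Ω) (hu : u ∈ M) (h : ‖u - 1‖ < ‖π‖ ^ (e + l)) :
    ∃ w ∈ M, w ≠ 0 ∧ u = w ^ p := by
  classical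
  have hp : p.Prime := Fact.out
  have hp1 : p - 1 ≠ 0 := by have := hp.two_le; omega
  have hr0 : ‖ζ - 1‖ ^ (p - 1) = (p : ℝ)⁻¹ := h5_root_unity_eq p ζ hζp hζ1
  have hr1 : ‖ζ - 1‖ < 1 := h5_root_unity_lt_one p ζ hζp
  have hrpos : 0 < ‖ζ - 1‖ := norm_pos_iff.2 (sub_ne_zero.2 hζ1)
  -- `‖π‖ ^ l = ‖ζ - 1‖`
  have hl : ‖π‖ ^ l = ‖ζ - 1‖ := by
    have h1 : (‖π‖ ^ l) ^ (p - 1) = ‖ζ - 1‖ ^ (p - 1) := by
      rw [← pow_mul, mul_comm, ← he, hπe, hr0]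
    exact (pow_left_inj₀ (pow_nonneg (norm_nonneg _) l) (norm_nonneg _) hp1).1 h1
  have hbound : ‖u - 1‖ < ‖ζ - 1‖ ^ p := by
    have h2 : ‖π‖ ^ (e + l) = ‖ζ - 1‖ ^ p := by
      rw [pow_add, hπe, hl, ← hr0, ← pow_succ]
      congr 1
      omega
    rw [← h2]; exact h
  -- a `p`-th root of `u` in `Ω`
  obtain ⟨α, hα⟩ := IsAlgClosed.exists_pow_nat_eq u hp.pos
  have hprim : IsPrimitiveRoot ζ p := by
    have hord : orderOf ζ = p := orderOf_eq_prime hζp hζ1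
    have := IsPrimitiveRoot.orderOf ζ
    rwa [hord] at this
  have hprod := hprim.pow_sub_pow_eq_prod_sub_mul (1 : Ω) α hp.pos
  rw [one_pow, hα] at hprod
  have hcard := hprim.card_nthRootsFinset
  -- one of the roots is close to `1`
  have hex : ∃ ξ ∈ Polynomial.nthRootsFinset p (1 : Ω), ‖1 - ξ * α‖ < ‖ζ - 1‖ := by
    by_contra hcon
    push Not at hcon
    have h3 : ‖ζ - 1‖ ^ p ≤ ‖1 - u‖ := by
      rw [hprod, norm_prod]
      calc ‖ζ - 1‖ ^ p = ∏ _ξ ∈ Polynomial.nthRootsFinset p (1 : Ω), ‖ζ - 1‖ := by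
            rw [Finset.prod_const, hcard]
        _ ≤ ∏ ξ ∈ Polynomial.nthRootsFinset p (1 : Ω), ‖1 - ξ * α‖ :=
            Finset.prod_le_prod (fun _ _ => norm_nonneg _) hcon
    rw [norm_sub_rev 1 u] at h3
    exact absurd hbound (not_lt.2 h3)
  obtain ⟨ξ, hξ, hξα⟩ := hex
  have hξp : ξ ^ p = 1 := (Polynomial.mem_nthRootsFinset hp.pos (1 : Ω)).1 hξ
  set w : Ω := ξ * α with hw
  have hwp : w ^ p = u := by rw [hw, mul_pow, hξp, one_mul, hα]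
  have hwn : ‖w - 1‖ < ‖ζ - 1‖ := by rw [norm_sub_rev]; exact hξα
  have hwM : w ∈ M := h66_root_mem_of_near p M ζ hζp hζ1 w (by rw [hwp]; exact hu) hwn
  refine ⟨w, hwM, ?_, hwp.symm⟩
  intro h0
  have := h66_norm_eq_one_of_near p w (hwn.trans hr1)
  rw [h0, norm_zero] at this
  exact zero_ne_one this

/-- **W3-EI-LV1** (`h43_lv_exists` of the E-IRR skeleton, verbatim). -/
theorem h43_lv_exists (hp2 : p ≠ 2) (M : Fld) [FiniteDimensional ℚ_[p] M]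
    (π : Ω) (hπ : h78_IsUnif p M π) (e l : ℕ) (hl : 0 < l) (he : e = (p - 1) * l)
    (hπe : ‖π‖ ^ e = (p : ℝ)⁻¹)
    (ζ : Ω) (hζM : ζ ∈ M) (hζp : ζ ^ p = 1) (hζ1 : ζ ≠ 1)
    (u : Ω) (hu : u ∈ h78_U p M) (hnp : ¬ ∃ w ∈ M, u = w ^ p) :
    ∃ w ∈ M, w ≠ 0 ∧ ∃ i : ℕ, e ≤ i ∧ i ≤ e + l ∧ ‖u * w ^ p - 1‖ = ‖π‖ ^ i ∧
      h43_Red p M (u * w ^ p) := by
  have _h1 := hp2
  have _h2 := hl
  have _h3 := hζM
  exact h66_lv_exists_of p M π hπ e l hπe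
    (fun u' hu' h => h66_lv_pth p M π e l he hπe ζ hζp hζ1 u' hu' h) u hu hnp

end Fermat.Agent.S56
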