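/-
S56 / W3 / E-RED (route R80), row W3-ER-C2 (helper66): `h66_count` = `skR_count` of helper80's
E-RED skeleton (origin/helper80 aad82e7), VERBATIM.

Trivial inertial twist (`ψ = ω` on `J_L`): the flat `ψ`-equivariant homomorphisms
`Gal(Ω/F) → k` form a line.  Proof = `h66_count_of` (leading-coefficient map into the residue
field, Frobenius semilinearity, helper64's count) with the four LEAD statements of helper79.
-/
import Fermat.Agent.S56.h66_ERCountOf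
import Fermat.Agent.S56.h79_ERLead

set_option autoImplicit false

open Coalgebra WithConv

namespace Fermat.Agent.S56

variable (p : ℕ) [Fact p.Prime]

local notation "Ω" => PadicAlgCl p
local notation "Fld" => IntermediateField ℚ_[p] (PadicAlgCl p)

/-- **W3-ER-C2** (`skR_count`, verbatim). -/
theorem h66_count {k : Type} [Field k] [Finite k] [CharP k p]
    (F L : Fld) [FiniteDimensional ℚ_[p] F] [FiniteDimensional ℚ_[p] L]
    (hF : h78_Stable p F) (hL : h78_Stable p L) (hFL : F ≤ L)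
    (ζ : Ω) (hζp : ζ ^ p = 1) (hζ1 : ζ ≠ 1) (hunif : h78_IsUnif p F (ζ - 1))
    (ψ : h78_G p →* kˣ)
    (hJ : ∀ τ ∈ h78_J p L, ∀ n : ℕ, τ ζ = ζ ^ n → ((ψ τ : kˣ) : k) = (n : k))
    (τ₀ : h78_G p) (hτ₀ : τ₀ ∈ h78_J p L) (hτ₀ζ : τ₀ ζ ≠ ζ)
    (Z : Submodule k (h78_G p → k))
    (hadd : ∀ c ∈ Z, ∀ g h : h78_G p, (∀ z ∈ F, g z = z) → (∀ z ∈ F, h z = z) →
      c (g * h) = c g + c h)
    (hconj : ∀ c ∈ Z, ∀ g h : h78_G p, (∀ z ∈ F, h z = z) →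
      c (g * h * g⁻¹) = ((ψ g : kˣ) : k) * c h)
    (hKD : ∀ c ∈ Z, ∀ ℓ : k →+ ZMod p, h80_KD p F L ζ (fun h => ℓ (c h))) :
    ∀ c₁ ∈ Z, ∀ c₂ ∈ Z, ∃ t₁ t₂ : k, (t₁ ≠ 0 ∨ t₂ ≠ 0) ∧
      ∀ h : h78_G p, (∀ z ∈ F, h z = z) → t₁ * c₁ h + t₂ * c₂ h = 0 :=
  h66_count_of p F L hF hL hFL ζ hζp hζ1
    (fun ξ y y' h h' => h79_lead_unique p F L ζ hζp hζ1 hunif ξ y y' h h')
    (fun ξ ξ' y y' h h' => h79_lead_add p F L ζ hζp ξ ξ' y y' h h')
    (fun g n hn ξ y h => h79_lead_gal p F L hF hL ζ hζp g n hn ξ y h)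
    (fun ξ y h hy s hsF hsJ => h79_lead_ker p F L hFL ζ hζp hζ1 hunif ξ y h hy s hsF hsJ)
    ψ hJ τ₀ hτ₀ hτ₀ζ Z hadd hconj hKD

end Fermat.Agent.S56
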