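/-
S56 / W3 / E-RED (route R80), row W3-ER-C2 (helper66), hypothesis form.

`h66_count_of` : the statement `skR_count` of helper80's E-RED skeleton with the four LEAD
statements `skR_lead_unique / _add / _gal / _ker` (row W3-ER-LEAD) as explicit hypotheses
`hL1 .. hL4` (for the given `F`, `L`, `ζ`).  The Frobenius of row W3-ER-FROB (`h14_exists_frob`)
and the norm-language count `h64_red_finrank_rel_dual` are on main and are used directly.

Trivial inertial twist: the flat `ψ`-equivariant homomorphisms `Gal(Ω/F) → k` form a line.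
-/
import Fermat.Agent.S56.h80_ERedDefs
import Fermat.Agent.S56.h64_RedCountNorm
import Fermat.Agent.S56.h14_ERFrob
import Fermat.Agent.S56.h62_W3Basics

set_option autoImplicit false

open Coalgebra WithConv

namespace Fermat.Agent.S56

variable (p : ℕ) [Fact p.Prime]

local notation "Ω" => PadicAlgCl p
local notation "Fld" => IntermediateField ℚ_[p] (PadicAlgCl p)

/-- only the values of `ξ` on `Gal(Ω/F)` matter in `h80_Lead`. -/
theorem h66_lead_congr (F L : Fld) (ζ : Ω) (ξ ξ' : h78_G p → ZMod p)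
    (hξ : ∀ h : h78_G p, (∀ z ∈ F, h z = z) → ξ h = ξ' h) (y : Ω)
    (h : h80_Lead p F L ζ ξ y) : h80_Lead p F L ζ ξ' y := by
  obtain ⟨u, α, hu, hα, hαp, hu1, hy, hk⟩ := h
  exact ⟨u, α, hu, hα, hαp, hu1, hy, fun s hs => by rw [← hξ s hs]; exact hk s hs⟩

/-- additive functionals `k → 𝔽_p` separate the points of a field of characteristic `p`. -/
theorem h66_addHom_sep {k : Type} [Field k] [CharP k p] (x : k)
    (hx : ∀ l : k →+ ZMod p, l x = 0) : x = 0 := by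
  let _ := ZMod.algebra k p
  exact (Module.forall_dual_apply_eq_zero_iff (ZMod p) x).1 (fun f => hx f.toAddMonoidHom)

/-- `‖a ^ n - b ^ n‖ ≤ ‖a - b‖` on the unit ball. -/
theorem h66_norm_pow_sub_pow_le (a b : Ω) (ha : ‖a‖ ≤ 1) (hb : ‖b‖ ≤ 1) (n : ℕ) :
    ‖a ^ n - b ^ n‖ ≤ ‖a - b‖ := by
  induction n with
  | zero => simp
  | succ n ih =>
    have h1 : a ^ (n + 1) - b ^ (n + 1) = a ^ n * (a - b) + (a ^ n - b ^ n) * b := by ring
    rw [h1]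
    refine (IsUltrametricDist.norm_add_le_max _ _).trans (max_le ?_ ?_)
    · rw [norm_mul, norm_pow]
      calc ‖a‖ ^ n * ‖a - b‖ ≤ 1 * ‖a - b‖ :=
            mul_le_mul_of_nonneg_right (pow_le_one₀ (norm_nonneg _) ha) (norm_nonneg _)
        _ = ‖a - b‖ := one_mul _
    · rw [norm_mul]
      calc ‖a ^ n - b ^ n‖ * ‖b‖ ≤ ‖a - b‖ * 1 :=
            mul_le_mul ih hb (norm_nonneg _) (norm_nonneg _)
        _ = ‖a - b‖ := mul_one _

/-- a `p`-th root of unity is a power of the primitive one. -/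
theorem h66_exists_pow_of_root (ζ : Ω) (hζp : ζ ^ p = 1) (hζ1 : ζ ≠ 1) (ξ : Ω) (hξ : ξ ^ p = 1) :
    ∃ n : ℕ, ξ = ζ ^ n := by
  have hp : p.Prime := Fact.out
  have hprim : IsPrimitiveRoot ζ p := by
    have hord : orderOf ζ = p := orderOf_eq_prime hζp hζ1
    have := IsPrimitiveRoot.orderOf ζ
    rwa [hord] at this
  have : NeZero p := ⟨hp.ne_zero⟩
  obtain ⟨i, _, hi⟩ := hprim.eq_pow_of_pow_eq_one hξ
  exact ⟨i, hi.symm⟩

/-- the lift of a leading coefficient is integral and congruent to an integral element of `F`. -/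
theorem h66_lead_int (F L : Fld) (ζ : Ω) (ξ : h78_G p → ZMod p) (y : Ω)
    (h : h80_Lead p F L ζ ξ y) :
    ∃ x : Ω, x ∈ F ∧ ‖x‖ ≤ 1 ∧ ‖x - y‖ < 1 ∧ ‖y‖ ≤ 1 := by
  obtain ⟨u, α, hu, -, -, hu1, hy, -⟩ := h
  have hp : p.Prime := Fact.out
  have hpn : ‖(p : Ω)‖ = (p : ℝ)⁻¹ := h62_norm_p p
  have hppos : (0 : ℝ) < p := by exact_mod_cast hp.pos
  have hx1 : ‖(u - 1) / (p : Ω)‖ ≤ 1 := by
    rw [norm_div, hpn, div_le_one (inv_pos.2 hppos)]
    exact hu1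
  refine ⟨(u - 1) / (p : Ω), F.div_mem (F.sub_mem hu F.one_mem) (natCast_mem F p), hx1, hy, ?_⟩
  have h2 : y = (u - 1) / (p : Ω) - ((u - 1) / (p : Ω) - y) := by ring
  rw [h2, sub_eq_add_neg]
  refine (IsUltrametricDist.norm_add_le_max _ _).trans (max_le hx1 ?_)
  rw [norm_neg]
  exact hy.le

/-- **W3-ER-C2, hypothesis form** (`skR_count` from the four LEAD statements). -/
theorem h66_count_of {k : Type} [Field k] [Finite k] [CharP k p]
    (F L : Fld) [FiniteDimensional ℚ_[p] F] [FiniteDimensional ℚ_[p] L]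
    (hF : h78_Stable p F) (hL : h78_Stable p L) (hFL : F ≤ L)
    (ζ : Ω) (hζp : ζ ^ p = 1) (hζ1 : ζ ≠ 1)
    (hL1 : ∀ (ξ : h78_G p → ZMod p) (y y' : Ω), h80_Lead p F L ζ ξ y → h80_Lead p F L ζ ξ y' →
      ‖y - y'‖ < 1)
    (hL2 : ∀ (ξ ξ' : h78_G p → ZMod p) (y y' : Ω), h80_Lead p F L ζ ξ y →
      h80_Lead p F L ζ ξ' y' → h80_Lead p F L ζ (fun g => ξ g + ξ' g) (y + y'))
    (hL3 : ∀ (g : h78_G p) (n : ℕ), g ζ = ζ ^ n → ∀ (ξ : h78_G p → ZMod p) (y : Ω),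
      h80_Lead p F L ζ ξ y → h80_Lead p F L ζ (fun s => (n : ZMod p) * ξ (g⁻¹ * s * g)) (g y))
    (hL4 : ∀ (ξ : h78_G p → ZMod p) (y : Ω), h80_Lead p F L ζ ξ y → ‖y‖ < 1 →
      ∀ s : h78_G p, (∀ z ∈ F, s z = z) → s ∈ h78_J p L → ξ s = 0)
    (ψ : h78_G p →* kˣ)
    (hJ : ∀ τ ∈ h78_J p L, ∀ n : ℕ, τ ζ = ζ ^ n → ((ψ τ : kˣ) : k) = (n : k))
    (τ₀ : h78_G p) (hτ₀ : τ₀ ∈ h78_J p L) (hτ₀ζ : τ₀ ζ ≠ ζ)
    (Z : Submodule k (h78_G p → k))
    (hadd : ∀ c ∈ Z, ∀ g h : h78_G p, (∀ z ∈ F, g z = z) → (∀ z ∈ F, h z = z) →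
      c (g * h) = c g + c h)
    (hconj : ∀ c ∈ Z, ∀ g h : h78_G p, (∀ z ∈ F, h z = z) →
      c (g * h * g⁻¹) = ((ψ g : kˣ) : k) * c h)
    (hKD : ∀ c ∈ Z, ∀ ℓ : k →+ ZMod p, h80_KD p F L ζ (fun h => ℓ (c h))) :
    ∀ c₁ ∈ Z, ∀ c₂ ∈ Z, ∃ t₁ t₂ : k, (t₁ ≠ 0 ∨ t₂ ≠ 0) ∧
      ∀ h : h78_G p, (∀ z ∈ F, h z = z) → t₁ * c₁ h + t₂ * c₂ h = 0 := by
  classical
  intro c₁ hc₁ c₂ hc₂
  by_contra hcon
  push Not at hcon
  have hp : p.Prime := Fact.out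
  have hpn : ‖(p : Ω)‖ = (p : ℝ)⁻¹ := h62_norm_p p
  have hppos : (0 : ℝ) < p := by exact_mod_cast hp.pos
  have hp1 : ‖(p : Ω)‖ < 1 := by
    rw [hpn]
    exact inv_lt_one_of_one_lt₀ (by exact_mod_cast hp.one_lt)
  -- the combinations `t₁ c₁ + t₂ c₂`
  set cv : k × k → (h78_G p → k) := fun v => v.1 • c₁ + v.2 • c₂ with hcv
  have hcvZ : ∀ v, cv v ∈ Z := fun v => Z.add_mem (Z.smul_mem _ hc₁) (Z.smul_mem _ hc₂)
  have hcv_apply : ∀ v h, cv v h = v.1 * c₁ h + v.2 * c₂ h := fun v h => rfl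
  have hcv_add : ∀ v v' h, cv (v + v') h = cv v h + cv v' h := by
    intro v v' h
    rw [hcv_apply, hcv_apply, hcv_apply, Prod.fst_add, Prod.snd_add]
    ring
  -- normality of `Gal(Ω/F)` and of `J_L`
  have hNconj : ∀ (g h : h78_G p), (∀ z ∈ F, h z = z) → ∀ z ∈ F, (g * h * g⁻¹) z = z := by
    intro g h hh z hz
    have h1 : g⁻¹ z ∈ F := hF g⁻¹ z hz
    show g (h (g⁻¹ z)) = z
    rw [hh _ h1]
    show (g * g⁻¹) z = z
    rw [mul_inv_cancel]; rfl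
  have hNmul : ∀ (g h : h78_G p), (∀ z ∈ F, g z = z) → (∀ z ∈ F, h z = z) →
      ∀ z ∈ F, (g * h) z = z := by
    intro g h hg hh z hz
    show g (h z) = z
    rw [hh z hz, hg z hz]
  have hNinv : ∀ (h : h78_G p), (∀ z ∈ F, h z = z) → ∀ z ∈ F, h⁻¹ z = z := by
    intro h hh z hz
    have h1 : h⁻¹ (h z) = z := by
      show (h⁻¹ * h) z = z
      rw [inv_mul_cancel]; rfl
    rw [hh z hz] at h1
    exact h1
  have hK0 : h78_Stable p (h78_K0 p L) := h49_K0_stable p L hL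
  have hJconj : ∀ (g h : h78_G p), h ∈ h78_J p L → g * h * g⁻¹ ∈ h78_J p L := by
    intro g h hh
    show g * h * g⁻¹ ∈ (h78_K0 p L).fixingSubgroup
    rw [IntermediateField.mem_fixingSubgroup_iff]
    intro z hz
    have h1 : g⁻¹ z ∈ h78_K0 p L := hK0 g⁻¹ z hz
    show g (h (g⁻¹ z)) = z
    rw [h49_J_fix p L h hh _ h1]
    show (g * g⁻¹) z = z
    rw [mul_inv_cancel]; rfl
  -- exponents on `ζ`
  obtain ⟨φ, hφ, -⟩ := h14_exists_frob p L hL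
  obtain ⟨nφ, hnφ⟩ : ∃ n : ℕ, φ ζ = ζ ^ n :=
    h66_exists_pow_of_root p ζ hζp hζ1 (φ ζ) (by rw [← map_pow, hζp, map_one])
  obtain ⟨n₀, hn₀⟩ : ∃ n : ℕ, τ₀ ζ = ζ ^ n :=
    h66_exists_pow_of_root p ζ hζp hζ1 (τ₀ ζ) (by rw [← map_pow, hζp, map_one])
  have hn₀1 : (n₀ : k) ≠ 1 := by
    intro h
    apply hτ₀ζ
    have h1 : ((n₀ : ℕ) : k) = ((1 : ℕ) : k) := by rw [h, Nat.cast_one]
    rw [CharP.natCast_eq_natCast k p] at h1
    have h2 : n₀ % p = 1 % p := h1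
    rw [hn₀, pow_eq_pow_mod n₀ hζp, h2, ← pow_eq_pow_mod 1 hζp, pow_one]
  set s : k := (nφ : k) * ((ψ φ⁻¹ : kˣ) : k) with hs
  -- the count
  have key := h64_red_finrank_rel_dual p hp1 s (V := k × k)
    (fun v l y => h80_Lead p F L ζ (fun h => l (cv v h)) y) ?_ ?_ ?_ ?_ ?_ ?_
  · rw [Module.finrank_prod, Module.finrank_self] at key
    omega
  · -- existence
    intro v l
    obtain ⟨u, α, hu, hα, hαp, hu1, hk⟩ := hKD (cv v) (hcvZ v) l
    exact ⟨(u - 1) / (p : Ω), u, α, hu, hα, hαp, hu1, by simp, hk⟩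
  · -- integrality
    intro v l t ht
    obtain ⟨x, -, -, -, h4⟩ := h66_lead_int p F L ζ _ t ht
    exact h4
  · -- additivity in `v`
    intro v v' l t t' t'' ht ht' ht''
    have h1 := hL2 _ _ t t' ht ht'
    have h2 : (fun g => l (cv v g) + l (cv v' g)) = (fun h => l (cv (v + v') h)) := by
      funext g
      rw [hcv_add, map_add]
    rw [h2] at h1
    exact hL1 _ t'' (t + t') ht'' h1
  · -- additivity in `l`
    intro v l l' t t' t'' ht ht' ht''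
    have h1 := hL2 _ _ t t' ht ht'
    have h2 : (fun g => l (cv v g) + l' (cv v g)) = (fun h => (l + l') (cv v h)) := by
      funext g
      rw [AddMonoidHom.add_apply]
    rw [h2] at h1
    exact hL1 _ t'' (t + t') ht'' h1
  · -- injectivity
    intro v hv
    by_contra hv0
    have hv' : v.1 ≠ 0 ∨ v.2 ≠ 0 := by
      by_contra hcon'
      push Not at hcon'
      exact hv0 (Prod.ext hcon'.1 hcon'.2)
    obtain ⟨h, hhF, hne⟩ := hcon v.1 v.2 hv'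
    -- `cv v` vanishes on `Gal(Ω/F) ∩ J_L`
    have hzero : ∀ σ : h78_G p, (∀ z ∈ F, σ z = z) → σ ∈ h78_J p L → cv v σ = 0 := by
      intro σ hσF hσJ
      apply h66_addHom_sep p
      intro l
      obtain ⟨u, α, hu, hα, hαp, hu1, hk⟩ := hKD (cv v) (hcvZ v) l
      have hlead : h80_Lead p F L ζ (fun h => l (cv v h)) ((u - 1) / (p : Ω)) :=
        ⟨u, α, hu, hα, hαp, hu1, by simp, hk⟩
      exact hL4 _ _ hlead (hv l _ hlead) σ hσF hσJ
    -- the commutator `τ₀ h τ₀⁻¹ h⁻¹`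
    have hc1 : cv v 1 = 0 := by
      have h1 := hadd (cv v) (hcvZ v) 1 1 (fun z _ => rfl) (fun z _ => rfl)
      rw [mul_one] at h1
      exact left_eq_add.mp h1
    have hcinv : cv v h⁻¹ = - cv v h := by
      have h1 := hadd (cv v) (hcvZ v) h h⁻¹ hhF (hNinv h hhF)
      rw [mul_inv_cancel, hc1] at h1
      exact eq_neg_of_add_eq_zero_right h1.symm
    have hcomF : ∀ z ∈ F, (τ₀ * h * τ₀⁻¹ * h⁻¹) z = z :=
      hNmul _ _ (hNconj τ₀ h hhF) (hNinv h hhF)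
    have hcomJ : τ₀ * h * τ₀⁻¹ * h⁻¹ ∈ h78_J p L := by
      have h1 : h * τ₀⁻¹ * h⁻¹ ∈ h78_J p L := hJconj h τ₀⁻¹ (Subgroup.inv_mem _ hτ₀)
      have h2 : τ₀ * h * τ₀⁻¹ * h⁻¹ = τ₀ * (h * τ₀⁻¹ * h⁻¹) := by group
      rw [h2]
      exact Subgroup.mul_mem _ hτ₀ h1
    have h3 := hzero _ hcomF hcomJ
    rw [hadd (cv v) (hcvZ v) _ _ (hNconj τ₀ h hhF) (hNinv h hhF),
      hconj (cv v) (hcvZ v) τ₀ h hhF, hcinv, hJ τ₀ hτ₀ n₀ hn₀] at h3
    have h4 : ((n₀ : k) - 1) * cv v h = 0 := by linear_combination h3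
    rcases mul_eq_zero.1 h4 with h5 | h5
    · exact hn₀1 (sub_eq_zero.1 h5)
    · exact hne (by rw [← hcv_apply]; exact h5)
  · -- semilinearity
    intro v l t t' ht ht'
    have h1 := hL3 φ nφ hnφ _ t ht
    have h2 : h80_Lead p F L ζ (fun h => (l.comp (AddMonoidHom.mulLeft s)) (cv v h)) (φ t) := by
      refine h66_lead_congr p F L ζ _ _ ?_ _ h1
      intro σ hσ
      have h3 : cv v (φ⁻¹ * σ * φ) = ((ψ φ⁻¹ : kˣ) : k) * cv v σ := by
        have := hconj (cv v) (hcvZ v) φ⁻¹ σ hσ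
        rwa [inv_inv] at this
      rw [h3, AddMonoidHom.comp_apply, AddMonoidHom.coe_mulLeft, hs, mul_assoc,
        ← nsmul_eq_mul (nφ : ℕ) (((ψ φ⁻¹ : kˣ) : k) * cv v σ), map_nsmul, nsmul_eq_mul]
    have h4 : ‖t' - φ t‖ < 1 := hL1 _ t' (φ t) ht' h2
    obtain ⟨x, hxF, hx1, hxt, ht1⟩ := h66_lead_int p F L ζ _ t ht
    have h5 : ‖φ x - x ^ p‖ < 1 := hφ x (hFL hxF) hx1
    have h6 : ‖φ t - φ x‖ < 1 := by
      rw [← map_sub, h78_norm_aut, norm_sub_rev]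
      exact hxt
    have h7 : ‖x ^ p - t ^ p‖ < 1 :=
      lt_of_le_of_lt (h66_norm_pow_sub_pow_le p x t hx1 ht1 p) hxt
    have h8 : t' - t ^ p = (t' - φ t) + ((φ t - φ x) + ((φ x - x ^ p) + (x ^ p - t ^ p))) := by
      ring
    rw [h8]
    refine lt_of_le_of_lt (IsUltrametricDist.norm_add_le_max _ _) (max_lt h4 ?_)
    refine lt_of_le_of_lt (IsUltrametricDist.norm_add_le_max _ _) (max_lt h6 ?_)
    exact lt_of_le_of_lt (IsUltrametricDist.norm_add_le_max _ _) (max_lt h5 h7)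

end Fermat.Agent.S56
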