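import Fermat.Agent.S56.h62_W3Basics

/-!
# S56 / W3, row IRR-3 KUMMER (helper66): Kummer generators of `𝔽_p`-characters

`Ω = PadicAlgCl p`, `F ≤ L` finite subfields, `ζ ∈ F` with `ζ ^ p = 1`, `χ` an additive character
of `Gal(Ω/F)` (given as a function on the absolute group `h78_G p`, additive on the elements
fixing `F`) which is trivial on `Gal(Ω/L)`.

* `h66_kummer_exists` : there are `u ∈ F`, `u ≠ 0`, and `α ∈ L` with `α ^ p = u` and
  `s α = ζ ^ χ(s) * α` for every `s` fixing `F` (Lagrange resolvent over the embeddings of `L`,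
  Dedekind independence of characters; the Galois correspondence `h62_mem_of_fixed`).
* `h66_kummer_twist`  : the twist rule: for `τ` with `τ F ⊆ F` and `τ ζ = ζ ^ n`, `τ α` is a
  Kummer generator of `s ↦ n * χ(τ⁻¹ s τ)`.
* `h66_kummer_unique`, `h66_kummer_mul`, `h66_kummer_pow`, `h66_kummer_notMem` : the usual calculus.
-/

set_option autoImplicit false

namespace Fermat.Agent.S56

variable (p : ℕ) [Fact p.Prime]

local notation "Ω" => PadicAlgCl p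
local notation "Fld" => IntermediateField ℚ_[p] (PadicAlgCl p)

/-- `α` is a Kummer generator over `F` of the character `χ`, w.r.t. the root of unity `ζ`:
`s α = ζ ^ χ(s) * α` for all `s ∈ Gal(Ω/F)`. -/
def h66_IsKumGen (F : Fld) (ζ : Ω) (χ : h78_G p → ZMod p) (α : Ω) : Prop :=
  ∀ s : h78_G p, (∀ z ∈ F, s z = z) → s α = ζ ^ (χ s).val * α

section Pow

variable {p}

/-- `a ↦ ζ ^ a.val` is additive on `ZMod p` when `ζ ^ p = 1`. -/
theorem h66_zpow_add {R : Type*} [Monoid R] {ζ : R} (hζp : ζ ^ p = 1) (a b : ZMod p) :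
    ζ ^ (a + b).val = ζ ^ a.val * ζ ^ b.val := by
  rw [ZMod.val_add, ← pow_add, ← pow_eq_pow_mod _ hζp]

theorem h66_zpow_natCast {R : Type*} [Monoid R] {ζ : R} (hζp : ζ ^ p = 1) (n : ℕ) :
    ζ ^ ((n : ZMod p)).val = ζ ^ n := by
  rw [ZMod.val_natCast, ← pow_eq_pow_mod _ hζp]

theorem h66_zpow_mul_natCast {R : Type*} [Monoid R] {ζ : R} (hζp : ζ ^ p = 1) (n : ℕ)
    (a : ZMod p) : ζ ^ ((n : ZMod p) * a).val = (ζ ^ n) ^ a.val := by
  rw [ZMod.val_mul, ZMod.val_natCast, ← pow_eq_pow_mod _ hζp, ← pow_mul,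
    pow_eq_pow_mod (n % p * a.val) hζp, Nat.mod_mul_mod, ← pow_eq_pow_mod _ hζp]

end Pow

section Exists

open Classical in
/-- **IRR-3 KUMMER (existence).**  Every additive character of `Gal(Ω/F)` with values in
`ZMod p` which is trivial on `Gal(Ω/L)` (`F ≤ L` finite, `μ_p ⊆ F`) has a Kummer generator
`α ∈ L`, `α ^ p = u ∈ F^×`. -/
theorem h66_kummer_exists (F L : Fld) [FiniteDimensional ℚ_[p] F] [FiniteDimensional ℚ_[p] L]
    (hFL : F ≤ L) (ζ : Ω) (hζF : ζ ∈ F) (hζp : ζ ^ p = 1)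
    (χ : h78_G p → ZMod p)
    (hχ : ∀ s t : h78_G p, (∀ z ∈ F, s z = z) → (∀ z ∈ F, t z = z) → χ (s * t) = χ s + χ t)
    (hχL : ∀ s : h78_G p, (∀ z ∈ L, s z = z) → χ s = 0) :
    ∃ u α : Ω, u ∈ F ∧ u ≠ 0 ∧ α ∈ L ∧ α ^ p = u ∧
      ∀ s : h78_G p, (∀ z ∈ F, s z = z) → s α = ζ ^ (χ s).val * α := by
  -- restriction to `L`
  let res : h78_G p → (↥L →ₐ[ℚ_[p]] Ω) := fun s => (s : Ω →ₐ[ℚ_[p]] Ω).comp L.val
  have hres : ∀ (s : h78_G p) (x : ↥L), res s x = s (x : Ω) := fun s x => rfl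
  have hres_mul : ∀ (t s : h78_G p), res (t * s) = (t : Ω →ₐ[ℚ_[p]] Ω).comp (res s) := by
    intro t s
    ext x
    rfl
  have hχ1 : χ 1 = 0 := hχL 1 (fun z _ => rfl)
  have hH_inv : ∀ t : h78_G p, (∀ z ∈ F, t z = z) → ∀ z ∈ F, t⁻¹ z = z := by
    intro t ht z hz
    have h1 : t⁻¹ (t z) = z := by
      rw [← AlgEquiv.mul_apply, inv_mul_cancel, AlgEquiv.one_apply]
    rw [ht z hz] at h1
    exact h1
  have hH_mul : ∀ s t : h78_G p, (∀ z ∈ F, s z = z) → (∀ z ∈ F, t z = z) →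
      ∀ z ∈ F, (s * t) z = z := by
    intro s t hs ht z hz
    rw [AlgEquiv.mul_apply, ht z hz, hs z hz]
  -- `χ` only depends on the restriction to `L`
  have hwd : ∀ s t : h78_G p, (∀ z ∈ F, s z = z) → (∀ z ∈ F, t z = z) → res s = res t →
      χ s = χ t := by
    intro s t hs ht hst
    have h1 : χ (t⁻¹ * s) = 0 := by
      apply hχL
      intro z hz
      have h2 : s z = t z := by
        have := congrArg (fun f : ↥L →ₐ[ℚ_[p]] Ω => f ⟨z, hz⟩) hst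
        exact this
      rw [AlgEquiv.mul_apply, h2, ← AlgEquiv.mul_apply, inv_mul_cancel, AlgEquiv.one_apply]
    have h3 : s = t * (t⁻¹ * s) := by group
    rw [h3, hχ t (t⁻¹ * s) ht (hH_mul _ _ (hH_inv t ht) hs), h1, add_zero]
  -- the weights
  let w : (↥L →ₐ[ℚ_[p]] Ω) → Ω := fun τ =>
    if h : ∃ s : h78_G p, (∀ z ∈ F, s z = z) ∧ res s = τ then ζ ^ (-(χ h.choose)).val else 0
  have hw1 : ∀ s : h78_G p, (∀ z ∈ F, s z = z) → w (res s) = ζ ^ (-(χ s)).val := by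
    intro s hs
    have h : ∃ s' : h78_G p, (∀ z ∈ F, s' z = z) ∧ res s' = res s := ⟨s, hs, rfl⟩
    have e : w (res s) = ζ ^ (-(χ h.choose)).val := dif_pos h
    rw [e, hwd _ _ h.choose_spec.1 hs h.choose_spec.2]
  have hw0 : ∀ τ : ↥L →ₐ[ℚ_[p]] Ω, (¬ ∃ s : h78_G p, (∀ z ∈ F, s z = z) ∧ res s = τ) →
      w τ = 0 := fun τ h => dif_neg h
  have hw2 : ∀ (t : h78_G p), (∀ z ∈ F, t z = z) → ∀ τ : ↥L →ₐ[ℚ_[p]] Ω,
      w τ = ζ ^ (χ t).val * w ((t : Ω →ₐ[ℚ_[p]] Ω).comp τ) := by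
    intro t ht τ
    by_cases h : ∃ s : h78_G p, (∀ z ∈ F, s z = z) ∧ res s = τ
    · obtain ⟨s, hs, rfl⟩ := h
      rw [← hres_mul, hw1 s hs, hw1 (t * s) (hH_mul t s ht hs), hχ t s ht hs,
        ← h66_zpow_add hζp]
      congr 2
      ring
    · have h' : ¬ ∃ s : h78_G p, (∀ z ∈ F, s z = z) ∧
          res s = (t : Ω →ₐ[ℚ_[p]] Ω).comp τ := by
        rintro ⟨s, hs, hsτ⟩
        apply h
        refine ⟨t⁻¹ * s, hH_mul _ _ (hH_inv t ht) hs, ?_⟩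
        rw [hres_mul, hsτ]
        ext x
        show t⁻¹ (t (τ x)) = τ x
        rw [← AlgEquiv.mul_apply, inv_mul_cancel, AlgEquiv.one_apply]
      rw [hw0 τ h, hw0 _ h', mul_zero]
  -- the resolvent does not vanish identically
  have hι : w (res 1) = 1 := by
    rw [hw1 1 (fun z _ => rfl), hχ1, neg_zero, ZMod.val_zero, pow_zero]
  have hLI := linearIndependent_algHom_toLinearMap ℚ_[p] ↥L Ω
  have hex : ∃ x : ↥L, ∑ τ : ↥L →ₐ[ℚ_[p]] Ω, w τ * τ x ≠ 0 := by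
    by_contra hcon
    push Not at hcon
    have hsum : ∑ τ : ↥L →ₐ[ℚ_[p]] Ω, w τ • (τ.toLinearMap : ↥L →ₗ[ℚ_[p]] Ω) = 0 := by
      ext x
      rw [LinearMap.sum_apply, LinearMap.zero_apply, ← hcon x]
      rfl
    have h0 := Fintype.linearIndependent_iff.mp hLI w hsum (res 1)
    rw [hι] at h0
    exact one_ne_zero h0
  obtain ⟨x, hx⟩ := hex
  set α : Ω := ∑ τ : ↥L →ₐ[ℚ_[p]] Ω, w τ * τ x with hα
  -- equivariance
  have hwfix : ∀ (t : h78_G p), (∀ z ∈ F, t z = z) → ∀ τ : ↥L →ₐ[ℚ_[p]] Ω, t (w τ) = w τ := by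
    intro t ht τ
    by_cases h : ∃ s : h78_G p, (∀ z ∈ F, s z = z) ∧ res s = τ
    · obtain ⟨s, hs, rfl⟩ := h
      rw [hw1 s hs, map_pow, ht ζ hζF]
    · rw [hw0 τ h, map_zero]
  have hkum : ∀ t : h78_G p, (∀ z ∈ F, t z = z) → t α = ζ ^ (χ t).val * α := by
    intro t ht
    let e : (↥L →ₐ[ℚ_[p]] Ω) ≃ (↥L →ₐ[ℚ_[p]] Ω) :=
      { toFun := fun τ => (t : Ω →ₐ[ℚ_[p]] Ω).comp τ
        invFun := fun τ => ((t⁻¹ : h78_G p) : Ω →ₐ[ℚ_[p]] Ω).comp τ
        left_inv := fun τ => by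
          ext x
          show t⁻¹ (t (τ x)) = τ x
          rw [← AlgEquiv.mul_apply, inv_mul_cancel, AlgEquiv.one_apply]
        right_inv := fun τ => by
          ext x
          show t (t⁻¹ (τ x)) = τ x
          rw [← AlgEquiv.mul_apply, mul_inv_cancel, AlgEquiv.one_apply] }
    have h1 : t α = ∑ τ : ↥L →ₐ[ℚ_[p]] Ω, ζ ^ (χ t).val * (w (e τ) * (e τ) x) := by
      rw [hα, map_sum]
      refine Finset.sum_congr rfl fun τ _ => ?_
      rw [map_mul, hwfix t ht, hw2 t ht τ, mul_assoc]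
      rfl
    rw [h1, ← Finset.mul_sum, Equiv.sum_comp e (fun τ => w τ * τ x)]
  refine ⟨α ^ p, α, ?_, pow_ne_zero p hx, ?_, rfl, hkum⟩
  · apply h62_mem_of_fixed p F
    intro g hg
    rw [map_pow, hkum g hg, mul_pow, ← pow_mul, mul_comm (χ g).val p, pow_mul, hζp, one_pow,
      one_mul]
  · apply h62_mem_of_fixed p L
    intro g hg
    have hgF : ∀ z ∈ F, g z = z := fun z hz => hg z (hFL hz)
    rw [hkum g hgF, hχL g hg, ZMod.val_zero, pow_zero, one_mul]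

/-- The existence statement in terms of `h66_IsKumGen`. -/
theorem h66_kummer_exists' (F L : Fld) [FiniteDimensional ℚ_[p] F] [FiniteDimensional ℚ_[p] L]
    (hFL : F ≤ L) (ζ : Ω) (hζF : ζ ∈ F) (hζp : ζ ^ p = 1)
    (χ : h78_G p → ZMod p)
    (hχ : ∀ s t : h78_G p, (∀ z ∈ F, s z = z) → (∀ z ∈ F, t z = z) → χ (s * t) = χ s + χ t)
    (hχL : ∀ s : h78_G p, (∀ z ∈ L, s z = z) → χ s = 0) :
    ∃ u α : Ω, u ∈ F ∧ u ≠ 0 ∧ α ∈ L ∧ α ^ p = u ∧ h66_IsKumGen p F ζ χ α :=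
  h66_kummer_exists p F L hFL ζ hζF hζp χ hχ hχL

end Exists

section Calculus

/-- **Twist rule.**  If `τ` maps `F` into itself and `τ ζ = ζ ^ n`, then `τ α` is a Kummer
generator of `s ↦ n * χ(τ⁻¹ s τ)`. -/
theorem h66_kummer_twist (F : Fld) (ζ : Ω) (hζp : ζ ^ p = 1) (χ : h78_G p → ZMod p) (α : Ω)
    (hα : h66_IsKumGen p F ζ χ α) (τ : h78_G p) (hτF : ∀ z ∈ F, τ z ∈ F) (n : ℕ)
    (hτζ : τ ζ = ζ ^ n) :
    h66_IsKumGen p F ζ (fun s => (n : ZMod p) * χ (τ⁻¹ * s * τ)) (τ α) := by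
  intro s hs
  have hconj : ∀ z ∈ F, (τ⁻¹ * s * τ) z = z := by
    intro z hz
    rw [AlgEquiv.mul_apply, AlgEquiv.mul_apply, hs (τ z) (hτF z hz), ← AlgEquiv.mul_apply,
      inv_mul_cancel, AlgEquiv.one_apply]
  have h1 : s (τ α) = τ ((τ⁻¹ * s * τ) α) := by
    rw [AlgEquiv.mul_apply, AlgEquiv.mul_apply, ← AlgEquiv.mul_apply τ τ⁻¹, mul_inv_cancel,
      AlgEquiv.one_apply]
  rw [h1, hα _ hconj, map_mul, map_pow, hτζ]
  show (ζ ^ n) ^ (χ (τ⁻¹ * s * τ)).val * τ α = ζ ^ ((n : ZMod p) * χ (τ⁻¹ * s * τ)).val * τ α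
  rw [h66_zpow_mul_natCast hζp]

/-- `(τ α) ^ p = τ (α ^ p)`, for reference next to the twist rule. -/
theorem h66_kummer_twist_pow (α : Ω) (τ : h78_G p) : (τ α) ^ p = τ (α ^ p) := (map_pow τ α p).symm

/-- Two Kummer generators of the same character differ by an element of `F`. -/
theorem h66_kummer_unique (F : Fld) [FiniteDimensional ℚ_[p] F] (ζ : Ω) (χ : h78_G p → ZMod p)
    (α β : Ω) (hα : h66_IsKumGen p F ζ χ α) (hβ : h66_IsKumGen p F ζ χ β) (hα0 : α ≠ 0) :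
    ∃ c ∈ F, β = c * α := by
  refine ⟨β / α, ?_, by field_simp⟩
  apply h62_mem_of_fixed p F
  intro g hg
  have hne : ζ ^ (χ g).val ≠ 0 := by
    intro h0
    have h1 := hα g hg
    rw [h0, zero_mul] at h1
    exact hα0 ((map_eq_zero_iff g g.injective).mp h1)
  rw [map_div₀, hα g hg, hβ g hg, mul_div_mul_left _ _ hne]

/-- The product of Kummer generators is a Kummer generator of the sum. -/
theorem h66_kummer_mul (F : Fld) (ζ : Ω) (hζp : ζ ^ p = 1) (χ₁ χ₂ : h78_G p → ZMod p) (α β : Ω)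
    (hα : h66_IsKumGen p F ζ χ₁ α) (hβ : h66_IsKumGen p F ζ χ₂ β) :
    h66_IsKumGen p F ζ (fun s => χ₁ s + χ₂ s) (α * β) := by
  intro s hs
  show s (α * β) = ζ ^ (χ₁ s + χ₂ s).val * (α * β)
  rw [map_mul, hα s hs, hβ s hs, h66_zpow_add hζp]
  ring

/-- Powers of Kummer generators. -/
theorem h66_kummer_pow (F : Fld) (ζ : Ω) (hζp : ζ ^ p = 1) (χ : h78_G p → ZMod p) (α : Ω)
    (hα : h66_IsKumGen p F ζ χ α) (n : ℕ) :
    h66_IsKumGen p F ζ (fun s => (n : ZMod p) * χ s) (α ^ n) := by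
  intro s hs
  show s (α ^ n) = ζ ^ ((n : ZMod p) * χ s).val * α ^ n
  rw [map_pow, hα s hs, mul_pow, h66_zpow_mul_natCast hζp, ← pow_mul, ← pow_mul,
    mul_comm n (χ s).val]

/-- An element of `F` times a Kummer generator is a Kummer generator. -/
theorem h66_kummer_smul (F : Fld) (ζ : Ω) (χ : h78_G p → ZMod p) (α c : Ω) (hc : c ∈ F)
    (hα : h66_IsKumGen p F ζ χ α) : h66_IsKumGen p F ζ χ (c * α) := by
  intro s hs
  rw [map_mul, hs c hc, hα s hs]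
  ring

/-- A nonzero Kummer generator of a character which is nontrivial on `Gal(Ω/F)` is not in `F`
(`ζ ≠ 1`). -/
theorem h66_kummer_notMem (F : Fld) (ζ : Ω) (hζp : ζ ^ p = 1) (hζ1 : ζ ≠ 1)
    (χ : h78_G p → ZMod p) (α : Ω) (hα : h66_IsKumGen p F ζ χ α) (hα0 : α ≠ 0)
    (s : h78_G p) (hs : ∀ z ∈ F, s z = z) (hχs : χ s ≠ 0) : α ∉ F := by
  intro hαF
  have hp : p.Prime := Fact.out
  have h1 := hα s hs
  rw [hs α hαF] at h1
  have h2 : ζ ^ (χ s).val = 1 := by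
    have h3 : (ζ ^ (χ s).val - 1) * α = 0 := by rw [sub_mul, one_mul, ← h1, sub_self]
    rcases mul_eq_zero.mp h3 with h | h
    · exact sub_eq_zero.mp h
    · exact absurd h hα0
  have hpos : 0 < (χ s).val := Nat.pos_of_ne_zero fun h => hχs ((ZMod.val_eq_zero _).mp h)
  have hlt : (χ s).val < p := ZMod.val_lt _
  have hcop : Nat.gcd (χ s).val p = 1 := by
    rw [Nat.gcd_comm]
    exact (Nat.Prime.coprime_iff_not_dvd hp).mpr (Nat.not_dvd_of_pos_of_lt hpos hlt)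
  have h4 : ζ ^ Nat.gcd (χ s).val p = 1 := pow_gcd_eq_one.mpr ⟨h2, hζp⟩
  rw [hcop, pow_one] at h4
  exact hζ1 h4

end Calculus

end Fermat.Agent.S56
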