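import Mathlib

/-!
# S56 / W4: identities for `2 × 2` matrices (Mathlib only)

Elementary identities used by the "choice of `σ`" lemma (G6) and the abstract Taylor–Wiles
lemma (G7): Cayley–Hamilton, the rank-one identity `A X A = tr(A X) A` for singular `A`, the
anticommutator of trace-zero matrices and nondegeneracy of the trace form.
-/

set_option autoImplicit false

namespace Fermat.Agent.S56

open Matrix

variable {k : Type*} [Field k]

/-- adjugate of a `2 × 2` matrix. -/
theorem h66_adj_eq (A : Matrix (Fin 2) (Fin 2) k) :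
    A.adjugate = A.trace • (1 : Matrix (Fin 2) (Fin 2) k) - A := by
  rw [Matrix.adjugate_fin_two]
  ext i j
  fin_cases i <;> fin_cases j <;> simp [Matrix.trace_fin_two]

/-- Cayley–Hamilton for `2 × 2` matrices. -/
theorem h66_cayley (A : Matrix (Fin 2) (Fin 2) k) :
    A * A = A.trace • A - A.det • (1 : Matrix (Fin 2) (Fin 2) k) := by
  ext i j
  fin_cases i <;> fin_cases j <;>
    simp [Matrix.mul_apply, Fin.sum_univ_two, Matrix.trace_fin_two, Matrix.det_fin_two] <;> ring

/-- a singular `2 × 2` matrix has rank at most one: `A X A = tr(A X) A`. -/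
theorem h66_rank_one (A X : Matrix (Fin 2) (Fin 2) k) (h : A.det = 0) :
    A * X * A = (A * X).trace • A := by
  rw [Matrix.det_fin_two] at h
  ext i j
  fin_cases i <;> fin_cases j <;>
    simp [Matrix.mul_apply, Fin.sum_univ_two, Matrix.trace_fin_two] <;> grind

/-- anticommutator of two trace-zero `2 × 2` matrices. -/
theorem h66_anticomm (A B : Matrix (Fin 2) (Fin 2) k) (hA : A.trace = 0) (hB : B.trace = 0) :
    A * B + B * A = (A * B).trace • (1 : Matrix (Fin 2) (Fin 2) k) := by
  rw [Matrix.trace_fin_two] at hA hB
  have hA' : A 1 1 = - A 0 0 := by linear_combination hA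
  have hB' : B 1 1 = - B 0 0 := by linear_combination hB
  ext i j
  fin_cases i <;> fin_cases j <;>
    simp [Matrix.mul_apply, Fin.sum_univ_two, Matrix.trace_fin_two, hA', hB'] <;> ring

/-- nondegeneracy of the trace form against a spanning set. -/
theorem h66_eq_zero_of_trace (X : Matrix (Fin 2) (Fin 2) k) (S : Set (Matrix (Fin 2) (Fin 2) k))
    (hspan : Submodule.span k S = ⊤) (h : ∀ Y ∈ S, (X * Y).trace = 0) : X = 0 := by
  have hall : ∀ Y : Matrix (Fin 2) (Fin 2) k, (X * Y).trace = 0 := by
    intro Y
    have hY : Y ∈ Submodule.span k S := by rw [hspan]; exact Submodule.mem_top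
    induction hY using Submodule.span_induction with
    | mem Y hY => exact h Y hY
    | zero => simp
    | add Y Z _ _ hY hZ => rw [Matrix.mul_add, Matrix.trace_add, hY, hZ, add_zero]
    | smul a Y _ hY => rw [Matrix.mul_smul, Matrix.trace_smul, hY, smul_zero]
  ext i j
  have := hall (Matrix.single j i 1)
  rw [Matrix.trace_mul_comm] at this
  simpa [Matrix.trace_single_mul] using this

end Fermat.Agent.S56
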