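import Fermat.Agent.S56.h69_Ad0Rep
import Fermat.Agent.S56.h95_D2Formula
import Fermat.Agent.S55.h97_Sha

/-!
# S56 / MID-R1 (row 600): the twisted dual of `N = ad⁰ ρ̄ (1)` is `ad⁰ ρ̄`

`h69_Phi p : M₂(k) →ₗ[𝔽_p] Hom_{𝔽_p}(sl₂(k), 𝔽_p)`, `X ↦ (Y ↦ Tr_{k/𝔽_p} tr (X Y))`.
-/

set_option autoImplicit false
set_option linter.unusedSectionVars false

open ExtCitation groupCohomology

noncomputable section

namespace Fermat.Agent.S56

open Fermat.Agent.S55

local notation "Γℚ" => (AlgebraicClosure ℚ ≃ₐ[ℚ] AlgebraicClosure ℚ)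
local notation "M₂[" k "]" => Matrix (Fin 2) (Fin 2) k

section Alg

variable {k : Type} [Field k]

/-- the trace pairing is nondegenerate on trace-zero matrices (`2 ≠ 0`). -/
theorem h69_eq_zero_of_trace_mul (h2 : (2 : k) ≠ 0) {Z : M₂[k]} (hZ : Z.trace = 0)
    (h : ∀ Y : M₂[k], Y.trace = 0 → (Z * Y).trace = 0) : Z = 0 := by
  have h01 := h !![0, 1; 0, 0] (by simp [Matrix.trace_fin_two])
  have h10 := h !![0, 0; 1, 0] (by simp [Matrix.trace_fin_two])
  have hd := h !![1, 0; 0, -1] (by simp [Matrix.trace_fin_two])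
  rw [Matrix.trace_fin_two] at hZ h01 h10 hd
  simp [Matrix.mul_apply, Fin.sum_univ_two] at h01 h10 hd
  have h00 : Z 0 0 = 0 := by
    have : (2 : k) * Z 0 0 = 0 := by linear_combination hd + hZ
    exact (mul_eq_zero.1 this).resolve_left h2
  have h11 : Z 1 1 = 0 := by rw [h00, zero_add] at hZ; exact hZ
  ext i j
  fin_cases i <;> fin_cases j <;> simp [h00, h11, h01, h10]

variable (rb : Γℚ →* M₂[k])

theorem h69_rb_mul_inv (σ : Γℚ) : rb σ * rb σ⁻¹ = 1 := by
  rw [← map_mul, mul_inv_cancel, map_one]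

theorem h69_rb_inv_mul (σ : Γℚ) : rb σ⁻¹ * rb σ = 1 := by
  rw [← map_mul, inv_mul_cancel, map_one]

theorem h69_adj_eq (σ : Γℚ) : (rb σ).adjugate = (rb σ).det • rb σ⁻¹ := by
  have h1 : (rb σ).adjugate * rb σ * rb σ⁻¹ = (rb σ).det • rb σ⁻¹ := by
    rw [Matrix.adjugate_mul, Matrix.smul_mul, Matrix.one_mul]
  rw [← h1, Matrix.mul_assoc, h69_rb_mul_inv, Matrix.mul_one]

end Alg

section Phi

variable {k : Type} [Field k] (p : ℕ) [Algebra (ZMod p) k]

/-- `X ↦ (Y ↦ Tr_{k/𝔽_p} tr (X Y))`. -/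
def h69_Phi : M₂[k] →ₗ[ZMod p] Module.Dual (ZMod p) ↥(h69_sl2 k) where
  toFun X :=
    { toFun := fun Y => Algebra.trace (ZMod p) k (X * (Y : M₂[k])).trace
      map_add' := fun Y Z => by
        rw [Submodule.coe_add, Matrix.mul_add, Matrix.trace_add, map_add]
      map_smul' := fun c Y => by
        have h1 : ((c • Y : ↥(h69_sl2 k)) : M₂[k]) = c • (Y : M₂[k]) := rfl
        rw [h1, Matrix.mul_smul, Matrix.trace_smul, map_smul]
        rfl }
  map_add' X X' := by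
    ext Y
    show Algebra.trace (ZMod p) k ((X + X') * (Y : M₂[k])).trace = _
    rw [Matrix.add_mul, Matrix.trace_add, map_add]
    rfl
  map_smul' c X := by
    ext Y
    show Algebra.trace (ZMod p) k ((c • X) * (Y : M₂[k])).trace = _
    rw [Matrix.smul_mul, Matrix.trace_smul, map_smul]
    rfl

theorem h69_Phi_apply (X : M₂[k]) (Y : ↥(h69_sl2 k)) :
    h69_Phi p X Y = Algebra.trace (ZMod p) k (X * (Y : M₂[k])).trace := rfl

end Phi

section Nondeg

variable {k : Type} [Field k] [Finite k] (p : ℕ) [Fact p.Prime] [Algebra (ZMod p) k]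

/-- the trace form of `k / 𝔽_p` is nondegenerate. -/
theorem h69_trace_nondeg (t : k) (h : ∀ c : k, Algebra.trace (ZMod p) k (c * t) = 0) : t = 0 := by
  have : FiniteDimensional (ZMod p) k := Module.Finite.of_finite
  have hnd := traceForm_nondegenerate (ZMod p) k
  exact hnd.2 t (fun c => by rw [Algebra.traceForm_apply]; exact h c)

/-- `2 ≠ 0` in `k` for `p` odd. -/
theorem h69_two_ne_zero (hp2 : p ≠ 2) : (2 : k) ≠ 0 := by
  have hchar : CharP k p := by
    have h1 : CharP (ZMod p) p := ZMod.charP p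
    exact (RingHom.charP_iff (algebraMap (ZMod p) k) (algebraMap (ZMod p) k).injective p).1 h1
  intro h
  have h3 : ((2 : ℕ) : k) = 0 := by exact_mod_cast h
  have h4 := (CharP.cast_eq_zero_iff k p 2).1 h3
  have hp : p.Prime := Fact.out
  exact hp2 ((Nat.prime_dvd_prime_iff_eq hp Nat.prime_two).1 h4)

/-- `Φ` is injective on trace-zero matrices. -/
theorem h69_Phi_eq_zero (hp2 : p ≠ 2) {X : M₂[k]} (hX : X.trace = 0) (h : h69_Phi p X = 0) :
    X = 0 := by
  apply h69_eq_zero_of_trace_mul (h69_two_ne_zero p hp2) hX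
  intro Y hY
  apply h69_trace_nondeg p
  intro c
  have h1 := congrArg (fun f : Module.Dual (ZMod p) ↥(h69_sl2 k) =>
    f ⟨c • Y, (h69_sl2 k).smul_mem c (h69_mem_sl2.2 hY)⟩) h
  simp only [h69_Phi_apply, LinearMap.zero_apply] at h1
  rw [Matrix.mul_smul, Matrix.trace_smul, smul_eq_mul] at h1
  exact h1

theorem h69_Phi_inj (hp2 : p ≠ 2) {X X' : M₂[k]} (hX : X.trace = 0) (hX' : X'.trace = 0)
    (h : h69_Phi p X = h69_Phi p X') : X = X' := by
  have h1 : h69_Phi p (X - X') = 0 := by rw [map_sub, h, sub_self]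
  have h2 := h69_Phi_eq_zero p hp2 (by rw [Matrix.trace_sub, hX, hX', sub_zero]) h1
  exact sub_eq_zero.1 h2

/-- every `𝔽_p`-linear functional on `sl₂(k)` is `Φ X` for a trace-zero `X`. -/
theorem h69_Phi_surj (hp2 : p ≠ 2) (f : Module.Dual (ZMod p) ↥(h69_sl2 k)) :
    ∃ X : M₂[k], X.trace = 0 ∧ h69_Phi p X = f := by
  have hfd : FiniteDimensional (ZMod p) ↥(h69_sl2 k) :=
    Module.Finite.of_finite (R := ZMod p) (M := ↥(h69_sl2 k))
  let Ψ : ↥(h69_sl2 k) →ₗ[ZMod p] Module.Dual (ZMod p) ↥(h69_sl2 k) :=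
    (h69_Phi p).comp ((h69_sl2 k).subtype.restrictScalars (ZMod p))
  have hinj : Function.Injective Ψ := by
    intro X X' h
    exact Subtype.ext (h69_Phi_inj p hp2 (h69_sl2_trace X) (h69_sl2_trace X') h)
  have hsurj : Function.Surjective Ψ :=
    (LinearMap.injective_iff_surjective_of_finrank_eq_finrank
      (Subspace.dual_finrank_eq (K := ZMod p) (V := ↥(h69_sl2 k))).symm).1 hinj
  obtain ⟨X, hX⟩ := hsurj f
  exact ⟨X.1, h69_sl2_trace X, hX⟩

end Nondeg

section Equivariance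

variable {k : Type} [Field k] (p : ℕ) [Fact p.Prime] [Algebra (ZMod p) k]
variable (rb : Γℚ →* M₂[k])

/-- `Φ` intertwines conjugation by `rb g` with the action on the twisted dual `N^∨(1)`. -/
theorem h69_Phi_equivariant (hdet : h12_DetCyc p rb) (g : Γℚ) (X : M₂[k]) :
    ((h69_N p rb).dualTwist (cycloChar p)).ρ g (h69_Phi p X) =
      h69_Phi p (rb g * X * rb g⁻¹) := by
  apply LinearMap.ext
  intro Y
  have h1 : ((h69_N p rb).dualTwist (cycloChar p)).ρ g (h69_Phi p X) Y =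
      (cycloChar p g : ZMod p) * h69_Phi p X ((h69_N p rb).ρ g⁻¹ Y) := rfl
  rw [h1, h69_Phi_apply, h69_Phi_apply, h69_N_ρ_coe, h12_act, h69_adj_eq rb g⁻¹, inv_inv, hdet]
  have h2 : (X * (rb g⁻¹ * (Y : M₂[k]) *
      (algebraMap (ZMod p) k (cycloChar p g⁻¹ : ZMod p) • rb g))).trace =
      (cycloChar p g⁻¹ : ZMod p) • (rb g * X * rb g⁻¹ * (Y : M₂[k])).trace := by
    rw [Matrix.mul_smul, Matrix.mul_smul, Matrix.trace_smul, smul_eq_mul, Algebra.smul_def]
    congr 1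
    have h4 : X * (rb g⁻¹ * (Y : M₂[k]) * rb g) = (X * rb g⁻¹ * (Y : M₂[k])) * rb g := by
      simp only [Matrix.mul_assoc]
    rw [h4, Matrix.trace_mul_comm]
    simp only [Matrix.mul_assoc]
  rw [h2, map_smul, smul_eq_mul, ← mul_assoc]
  have h3 : (cycloChar p g : ZMod p) * (cycloChar p g⁻¹ : ZMod p) = 1 := by
    rw [← Units.val_mul, ← map_mul, mul_inv_cancel, map_one, Units.val_one]
  rw [h3, one_mul]

end Equivariance

section Count

variable {k : Type} [Field k] [Finite k] (p : ℕ) [Fact p.Prime] [Algebra (ZMod p) k]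

/-- `#V = #W` for an `𝔽_p`-space `V` and a `k`-space `W` gives `dim_{𝔽_p} V = [k:𝔽_p] dim_k W`. -/
theorem h69_finrank_of_card {V : Type} [AddCommGroup V] [Module (ZMod p) V] [Finite V]
    {W : Type} [AddCommGroup W] [Module k W] [Finite W] (h : Nat.card V = Nat.card W) :
    Module.finrank (ZMod p) V = Module.finrank (ZMod p) k * Module.finrank k W := by
  have hp1 : 1 < p := (Fact.out : p.Prime).one_lt
  have hV : Module.Finite (ZMod p) V := Module.Finite.of_finite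
  have hW : Module.Finite k W := Module.Finite.of_finite
  have hk : Module.Finite (ZMod p) k := Module.Finite.of_finite
  rw [Module.natCard_eq_pow_finrank (K := ZMod p) (V := V), Nat.card_zmod,
    Module.natCard_eq_pow_finrank (K := k) (V := W),
    Module.natCard_eq_pow_finrank (K := ZMod p) (V := k), Nat.card_zmod, ← pow_mul] at h
  exact Nat.pow_right_injective hp1 h

/-- `#W ≤ #V` gives `[k:𝔽_p] dim_k W ≤ dim_{𝔽_p} V`. -/
theorem h69_finrank_le_of_card_le {V : Type} [AddCommGroup V] [Module (ZMod p) V] [Finite V]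
    {W : Type} [AddCommGroup W] [Module k W] [Finite W] (h : Nat.card W ≤ Nat.card V) :
    Module.finrank (ZMod p) k * Module.finrank k W ≤ Module.finrank (ZMod p) V := by
  have hp1 : 1 < p := (Fact.out : p.Prime).one_lt
  have hV : Module.Finite (ZMod p) V := Module.Finite.of_finite
  have hW : Module.Finite k W := Module.Finite.of_finite
  have hk : Module.Finite (ZMod p) k := Module.Finite.of_finite
  rw [Module.natCard_eq_pow_finrank (K := ZMod p) (V := V), Nat.card_zmod,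
    Module.natCard_eq_pow_finrank (K := k) (V := W),
    Module.natCard_eq_pow_finrank (K := ZMod p) (V := k), Nat.card_zmod, ← pow_mul] at h
  exact (Nat.pow_le_pow_iff_right hp1).1 h

end Count

section Invariants

variable {k : Type} [Field k] [Finite k] (p : ℕ) [Fact p.Prime] [Algebra (ZMod p) k]
variable (rb : Γℚ →* M₂[k])

omit [Finite k] in
theorem h69_conj_eq_iff (g : Γℚ) (X : M₂[k]) :
    rb g * X * rb g⁻¹ = X ↔ rb g * X = X * rb g := by
  constructor
  · intro h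
    calc rb g * X = rb g * X * (rb g⁻¹ * rb g) := by rw [h69_rb_inv_mul, Matrix.mul_one]
      _ = (rb g * X * rb g⁻¹) * rb g := by simp only [Matrix.mul_assoc]
      _ = X * rb g := by rw [h]
  · intro h
    rw [h, Matrix.mul_assoc, h69_rb_mul_inv, Matrix.mul_one]

omit [Finite k] in
theorem h69_conj_trace (g : Γℚ) (X : M₂[k]) : (rb g * X * rb g⁻¹).trace = X.trace := by
  rw [Matrix.trace_mul_comm, ← Matrix.mul_assoc, h69_rb_inv_mul, Matrix.one_mul]

theorem h69_dual_finite : Finite (Module.Dual (ZMod p) ↥(h69_sl2 k)) := by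
  have h1 : Module.Finite (ZMod p) ↥(h69_sl2 k) :=
    Module.Finite.of_finite (R := ZMod p) (M := ↥(h69_sl2 k))
  have h2 : Module.Finite (ZMod p) (Module.Dual (ZMod p) ↥(h69_sl2 k)) := inferInstance
  exact Module.finite_of_finite (ZMod p)

instance h69_dualTwist_finite' : Finite ((h69_N p rb).dualTwist (cycloChar p)) :=
  h69_dual_finite p

instance h69_dualTwist_finite :
    Module.Finite (ZMod p) ((h69_N p rb).dualTwist (cycloChar p)) :=
  Module.Finite.of_finite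

/-- `H⁰(G_ℚ, N^∨(1)) = 0` when `ad⁰ ρ̄` has no invariants. -/
theorem h69_inv_eq_bot (hp2 : p ≠ 2) (hdet : h12_DetCyc p rb)
    (hH0M : ∀ X : M₂[k], X.trace = 0 → (∀ σ, rb σ * X = X * rb σ) → X = 0) :
    h95_inv ((h69_N p rb).dualTwist (cycloChar p)) = ⊥ := by
  rw [eq_bot_iff]
  intro f hf
  obtain ⟨X, hX, rfl⟩ := h69_Phi_surj p hp2 f
  have h0 : X = 0 := hH0M X hX (fun σ => by
    have h1 := hf σ
    rw [h69_Phi_equivariant p rb hdet] at h1
    have h2 := h69_Phi_inj p hp2 (by rw [h69_conj_trace, hX]) hX h1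
    exact (h69_conj_eq_iff rb σ X).1 h2)
  rw [h0, map_zero]
  exact Submodule.zero_mem _

/-- `H⁰(G_q, N^∨(1))` is in bijection with `h12_H0M rb q`. -/
theorem h69_card_invAt (hp2 : p ≠ 2) (hdet : h12_DetCyc p rb) (q : Nat.Primes) :
    Nat.card ↥(h95_invAt q ((h69_N p rb).dualTwist (cycloChar p))) =
      Nat.card ↥(h12_H0M rb q) := by
  symm
  apply Nat.card_congr
  refine Equiv.ofBijective (fun X => ⟨h69_Phi p X.1, ?_⟩) ⟨?_, ?_⟩
  · intro τ
    rw [h69_Phi_equivariant p rb hdet, (h69_conj_eq_iff rb _ X.1).2 (X.2.2 τ)]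
  · intro X X' h
    exact Subtype.ext (h69_Phi_inj p hp2 X.2.1 X'.2.1 (congrArg Subtype.val h))
  · rintro ⟨f, hf⟩
    obtain ⟨X, hX, rfl⟩ := h69_Phi_surj p hp2 f
    refine ⟨⟨X, hX, fun τ => ?_⟩, rfl⟩
    have h1 := hf τ
    rw [h69_Phi_equivariant p rb hdet] at h1
    exact (h69_conj_eq_iff rb _ X).1 (h69_Phi_inj p hp2 (by rw [h69_conj_trace, hX]) hX h1)

/-- `h⁰(G_q, N^∨(1)) = [k:𝔽_p] · dim_k H⁰(G_q, ad⁰ ρ̄)`. -/
theorem h69_finrank_invAt (hp2 : p ≠ 2) (hdet : h12_DetCyc p rb) (q : Nat.Primes) :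
    Module.finrank (ZMod p) ↥(h95_invAt q ((h69_N p rb).dualTwist (cycloChar p))) =
      Module.finrank (ZMod p) k * Module.finrank k ↥(h12_H0M rb q) := by
  exact h69_finrank_of_card p (h69_card_invAt p rb hp2 hdet q)

end Invariants

section Sha

variable {k : Type} [Field k] [Finite k] (p : ℕ) [Fact p.Prime] [Algebra (ZMod p) k]
variable (rb : Γℚ →* M₂[k])

/-- The additive cocycle `σ ↦ Φ (a σ * (rb σ)⁻¹)` of `N^∨(1)` attached to a tangent cocycle
(Leibniz form) `a`. -/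
def h69_tanCoc (a : Γℚ → M₂[k]) : Γℚ → ((h69_N p rb).dualTwist (cycloChar p)) :=
  fun σ => h69_Phi p (a σ * rb σ⁻¹)

omit [Finite k] in
theorem h69_tanCoc_apply (a : Γℚ → M₂[k]) (σ : Γℚ) :
    h69_tanCoc p rb a σ = h69_Phi p (a σ * rb σ⁻¹) := rfl

omit [Finite k] in
theorem h69_tanCoc_sub (a a' : Γℚ → M₂[k]) :
    h69_tanCoc p rb (a - a') = h69_tanCoc p rb a - h69_tanCoc p rb a' := by
  funext σ
  show h69_Phi p ((a σ - a' σ) * rb σ⁻¹) = h69_Phi p (a σ * rb σ⁻¹) - h69_Phi p (a' σ * rb σ⁻¹)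
  rw [Matrix.sub_mul, map_sub]

omit [Finite k] in
theorem h69_tanCoc_mem (hdet : h12_DetCyc p rb) {a : Γℚ → M₂[k]}
    (ha : ∀ σ τ, a (σ * τ) = a σ * rb τ + rb σ * a τ) :
    h69_tanCoc p rb a ∈ cocycles₁ ((h69_N p rb).dualTwist (cycloChar p)) := by
  rw [mem_cocycles₁_iff]
  intro g h
  rw [h69_tanCoc_apply, h69_tanCoc_apply, h69_tanCoc_apply, h69_Phi_equivariant p rb hdet,
    ← map_add]
  congr 1
  rw [ha, mul_inv_rev, map_mul rb, Matrix.add_mul]
  have e1 : a g * rb h * (rb h⁻¹ * rb g⁻¹) = a g * rb g⁻¹ := by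
    rw [Matrix.mul_assoc, ← Matrix.mul_assoc (rb h), h69_rb_mul_inv, Matrix.one_mul]
  have e2 : rb g * a h * (rb h⁻¹ * rb g⁻¹) = rb g * (a h * rb h⁻¹) * rb g⁻¹ := by
    simp only [Matrix.mul_assoc]
  rw [e1, e2, add_comm]

omit [Finite k] in
theorem h69_tanCoc_level {a : Γℚ → M₂[k]}
    (ha : ∀ σ τ, a (σ * τ) = a σ * rb τ + rb σ * a τ) (S : Finset Nat.Primes)
    (hunr : h12_UnrOutside rb a S) : IsLevelConstantS₁ S (h69_tanCoc p rb a) := by
  obtain ⟨F, hF, h⟩ := hunr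
  refine ⟨F, hF, fun g s hs => ?_⟩
  obtain ⟨hs1, hs2⟩ := h s hs
  have hs3 : rb s⁻¹ = 1 := by
    have := h69_rb_mul_inv rb s
    rwa [hs1, Matrix.one_mul] at this
  rw [h69_tanCoc_apply, h69_tanCoc_apply, ha, hs1, hs2, mul_inv_rev, map_mul rb, hs3,
    Matrix.mul_one, Matrix.mul_zero, add_zero, Matrix.one_mul]

omit [Finite k] in
theorem h69_tanCoc_loc (hdet : h12_DetCyc p rb) {a : Γℚ → M₂[k]} (q : Nat.Primes)
    (hloc : h12_LocCobM rb q a) :
    ∃ b : ((h69_N p rb).dualTwist (cycloChar p)), ∀ τ : primeLocalGaloisGroup q,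
      h69_tanCoc p rb a (primeLocalToGlobal q τ) =
        ((h69_N p rb).dualTwist (cycloChar p)).ρ (primeLocalToGlobal q τ) b - b := by
  obtain ⟨X, hX⟩ := hloc
  refine ⟨h69_Phi p (-X), fun τ => ?_⟩
  rw [h69_Phi_equivariant p rb hdet, ← map_sub, h69_tanCoc_apply]
  congr 1
  rw [hX τ, Matrix.sub_mul, Matrix.mul_assoc, h69_rb_mul_inv, Matrix.mul_one, Matrix.mul_neg,
    Matrix.neg_mul, sub_neg_eq_add, neg_add_eq_sub]

theorem h69_tanCoc_cob (hp2 : p ≠ 2) (hdet : h12_DetCyc p rb) {a : Γℚ → M₂[k]}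
    (htr : ∀ σ, (a σ * (rb σ).adjugate).trace = 0)
    (hb : ∃ b : ((h69_N p rb).dualTwist (cycloChar p)), ∀ g : Γℚ,
      h69_tanCoc p rb a g = ((h69_N p rb).dualTwist (cycloChar p)).ρ g b - b) :
    h40_IsCob rb a := by
  obtain ⟨b, hb⟩ := hb
  obtain ⟨X₀, hX₀, rfl⟩ := h69_Phi_surj p hp2 b
  refine ⟨-X₀, fun σ => ?_⟩
  have h1 := hb σ
  rw [h69_Phi_equivariant p rb hdet, ← map_sub, h69_tanCoc_apply] at h1
  have hdetne : (rb σ).det ≠ 0 := by
    intro h0
    have h2 := congrArg Matrix.det (h69_rb_mul_inv rb σ)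
    rw [Matrix.det_mul, h0, zero_mul, Matrix.det_one] at h2
    exact zero_ne_one h2
  have htr' : (a σ * rb σ⁻¹).trace = 0 := by
    have h2 := htr σ
    rw [h69_adj_eq, Matrix.mul_smul, Matrix.trace_smul, smul_eq_mul] at h2
    exact (mul_eq_zero.1 h2).resolve_left hdetne
  have h2 := h69_Phi_inj p hp2 htr' (by rw [Matrix.trace_sub, h69_conj_trace, hX₀, sub_zero]) h1
  calc a σ = a σ * rb σ⁻¹ * rb σ := by rw [Matrix.mul_assoc, h69_rb_inv_mul, Matrix.mul_one]
    _ = (rb σ * X₀ * rb σ⁻¹ - X₀) * rb σ := by rw [h2]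
    _ = -X₀ * rb σ - rb σ * -X₀ := by
      rw [Matrix.sub_mul, Matrix.mul_assoc, h69_rb_inv_mul, Matrix.mul_one, Matrix.mul_neg,
        Matrix.neg_mul, sub_neg_eq_add, neg_add_eq_sub]

/-- **The injection `W ↪ Ш¹_{S₀}(N^∨(1))`**: a `k`-space of tangent cocycles which are
trace-free, unramified outside `S₀`, locally coboundaries at `S₀`, and contains no nonzero
coboundary, injects into `sha₁ S₀ (N^∨(1))`. -/
theorem h69_W_card_le (hp2 : p ≠ 2) (hdet : h12_DetCyc p rb) (S₀ : Finset Nat.Primes)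
    (hfin : Finite ↥(sha₁ S₀ ((h69_N p rb).dualTwist (cycloChar p))))
    (W : Submodule k (Γℚ → M₂[k])) (hW : W ≤ h40_TanZ rb)
    (hloc : ∀ a ∈ W, h12_UnrOutside rb a S₀ ∧ (∀ σ, (a σ * (rb σ).adjugate).trace = 0) ∧
      ∀ v ∈ S₀, h12_LocCobM rb v a)
    (hcob : ∀ a ∈ W, h40_IsCob rb a → a = 0) :
    Finite ↥W ∧
      Nat.card ↥W ≤ Nat.card ↥(sha₁ S₀ ((h69_N p rb).dualTwist (cycloChar p))) := by
  have hcoc : ∀ a : ↥W, h69_tanCoc p rb a.1 ∈
      cocycles₁ ((h69_N p rb).dualTwist (cycloChar p)) :=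
    fun a => h69_tanCoc_mem p rb hdet (hW a.2).1
  let f : ↥W → ↥(sha₁ S₀ ((h69_N p rb).dualTwist (cycloChar p))) := fun a =>
    ⟨(H1π ((h69_N p rb).dualTwist (cycloChar p))).hom ⟨h69_tanCoc p rb a.1, hcoc a⟩, by
      rw [h97_H1π_mem_sha₁_iff S₀ ((h69_N p rb).dualTwist (cycloChar p)) hp2 _
        (h69_tanCoc_level p rb (hW a.2).1 S₀ (hloc a.1 a.2).1)]
      intro q
      exact h69_tanCoc_loc p rb hdet q.1 ((hloc a.1 a.2).2.2 q.1 q.2)⟩
  have hf : Function.Injective f := by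
    intro a a' h
    have h1 : (H1π ((h69_N p rb).dualTwist (cycloChar p))).hom ⟨h69_tanCoc p rb a.1, hcoc a⟩ =
        (H1π ((h69_N p rb).dualTwist (cycloChar p))).hom ⟨h69_tanCoc p rb a'.1, hcoc a'⟩ :=
      congrArg Subtype.val h
    have h2 : (H1π ((h69_N p rb).dualTwist (cycloChar p))).hom
        (⟨h69_tanCoc p rb (a - a').1, hcoc (a - a')⟩ :
          cocycles₁ ((h69_N p rb).dualTwist (cycloChar p))) = 0 := by
      have h3 : (⟨h69_tanCoc p rb (a - a').1, hcoc (a - a')⟩ :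
          cocycles₁ ((h69_N p rb).dualTwist (cycloChar p))) =
          ⟨h69_tanCoc p rb a.1, hcoc a⟩ - ⟨h69_tanCoc p rb a'.1, hcoc a'⟩ := by
        apply Subtype.ext
        exact h69_tanCoc_sub p rb a.1 a'.1
      rw [h3]
      exact ((H1π ((h69_N p rb).dualTwist (cycloChar p))).hom.map_sub _ _).trans
        (by rw [h1, sub_self])
    have h4 := (h97_H1π_eq_zero_iff ((h69_N p rb).dualTwist (cycloChar p)) _).1 h2
    have h5 := h69_tanCoc_cob p rb hp2 hdet (hloc _ (a - a').2).2.1 h4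
    have h6 := hcob _ (a - a').2 h5
    exact sub_eq_zero.1 (Subtype.ext h6)
  exact ⟨Finite.of_injective f hf, Nat.card_le_card_of_injective f hf⟩

end Sha

end Fermat.Agent.S56
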