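import Fermat.Agent.S56.h43_EIDefs
import Fermat.Agent.S56.h84_IrrLevel

/-!
# S56 / W3 / E-IRR, row W3-EI-LV3 (row 644): Frobenius lines

`h69_lv_frob_core` : the statement `h43_lv_frob` of the E-IRR skeleton, with the three level
lemmas of rows LV0 / LV1 (`h43_lv_improve`, `h43_lv_red`, `h43_lv_exists`) as hypotheses at the
given `(M, π, e, l)`.

Proof.  `z := u - 1`, `z' := u' - 1`, `‖z‖ = ‖z'‖ = ‖π‖^i`, `p ∤ i` (reduced + improve).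
If `s u = u^n w^p` then `‖s z - n z‖ < ‖z‖` (otherwise `w^p` would be reduced of level `i`).
Hence `q := z'/z` satisfies `‖s q - q‖ < 1`; with `‖s q - q^p‖ < 1` this gives `‖q^p - q‖ < 1`,
so `‖q - c‖ < 1` for an integer `c` (`∏_{c<p}(X - c) ≡ X^p - X mod p`), and
`‖u' (u^c)⁻¹ - 1‖ < ‖π‖^i`.
-/

set_option autoImplicit false

namespace Fermat.Agent.S56

variable (p : ℕ) [Fact p.Prime]

local notation "Ω" => PadicAlgCl p
local notation "Fld" => IntermediateField ℚ_[p] (PadicAlgCl p)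

/-! ## an integral element with `q^p ≡ q` is congruent to an integer -/

open Polynomial in
/-- `∏_{c < p} (X - c) = X^p - X + p R` in `ℤ[X]`. -/
theorem h69_prod_X_sub_int :
    ∃ R : Polynomial ℤ, ∏ c ∈ Finset.range p, (X - C (c : ℤ)) = X ^ p - X + C (p : ℤ) * R := by
  have hp : p.Prime := Fact.out
  have hmap : Polynomial.map (Int.castRingHom (ZMod p))
      (∏ c ∈ Finset.range p, (X - C (c : ℤ)) - (X ^ p - X)) = 0 := by
    rw [Polynomial.map_sub, Polynomial.map_prod, Polynomial.map_sub, Polynomial.map_pow,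
      Polynomial.map_X]
    have h1 : ∏ c ∈ Finset.range p, Polynomial.map (Int.castRingHom (ZMod p)) (X - C (c : ℤ)) =
        ∏ a : ZMod p, (X - C a) := by
      refine Finset.prod_bij (fun c _ => (c : ZMod p)) (fun c _ => Finset.mem_univ _) ?_ ?_ ?_
      · intro c hc c' hc' h
        have h2 := congrArg ZMod.val h
        rwa [ZMod.val_natCast_of_lt (Finset.mem_range.1 hc),
          ZMod.val_natCast_of_lt (Finset.mem_range.1 hc')] at h2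
      · intro a _
        exact ⟨a.val, Finset.mem_range.2 (ZMod.val_lt a), ZMod.natCast_zmod_val a⟩
      · intro c _
        rw [Polynomial.map_sub, Polynomial.map_X, Polynomial.map_C]
        simp
    have hp1 : 1 < p := hp.one_lt
    have hnat : (X ^ p - X : (ZMod p)[X]).natDegree = p :=
      FiniteField.X_pow_card_sub_X_natDegree_eq (ZMod p) hp1
    have hmonic : (X ^ p - X : (ZMod p)[X]).Monic := by
      rw [Polynomial.Monic, Polynomial.leadingCoeff, hnat, Polynomial.coeff_sub,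
        Polynomial.coeff_X_pow, Polynomial.coeff_X, if_pos rfl, if_neg (by omega), sub_zero]
    have hroots : (X ^ p - X : (ZMod p)[X]).roots = Finset.univ.val := by
      have h3 := FiniteField.roots_X_pow_card_sub_X (ZMod p)
      rwa [ZMod.card] at h3
    have hprod := Polynomial.prod_multiset_X_sub_C_of_monic_of_roots_card_eq hmonic
      (by rw [hroots, hnat]; simp [ZMod.card])
    rw [hroots] at hprod
    have h4 : ∏ a : ZMod p, (X - C a) = X ^ p - X := hprod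
    rw [h1, h4, sub_self]
  have hdvd : C (p : ℤ) ∣ (∏ c ∈ Finset.range p, (X - C (c : ℤ)) - (X ^ p - X)) := by
    rw [Polynomial.C_dvd_iff_dvd_coeff]
    intro n
    have h2 := congrArg (fun f => Polynomial.coeff f n) hmap
    simp only [Polynomial.coeff_map, Polynomial.coeff_zero] at h2
    exact (ZMod.intCast_zmod_eq_zero_iff_dvd _ p).1 h2
  obtain ⟨R, hR⟩ := hdvd
  exact ⟨R, by rw [← hR]; ring⟩

theorem h69_norm_intCast_le (a : ℤ) : ‖(a : Ω)‖ ≤ 1 :=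
  IsUltrametricDist.norm_intCast_le_one Ω a

/-- an integer polynomial at an integral point is integral. -/
theorem h69_norm_aeval_le (q : Ω) (hq : ‖q‖ ≤ 1) (R : Polynomial ℤ) :
    ‖Polynomial.aeval q R‖ ≤ 1 := by
  induction R using Polynomial.induction_on' with
  | add f g hf hg =>
    rw [map_add]
    exact le_trans (IsUltrametricDist.norm_add_le_max _ _) (max_le hf hg)
  | monomial n a =>
    rw [Polynomial.aeval_monomial, norm_mul, norm_pow, eq_intCast]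
    exact mul_le_one₀ (h69_norm_intCast_le p a) (pow_nonneg (norm_nonneg _) n)
      (pow_le_one₀ (norm_nonneg _) hq)

/-- an integral `q` with `q^p ≡ q` is congruent to an integer. -/
theorem h69_exists_nat_near (q : Ω) (hq : ‖q‖ ≤ 1) (h : ‖q ^ p - q‖ < 1) :
    ∃ c : ℕ, ‖q - (c : Ω)‖ < 1 := by
  obtain ⟨R, hR⟩ := h69_prod_X_sub_int p
  have h1 := congrArg (Polynomial.aeval q) hR
  simp only [map_prod, map_sub, map_add, map_mul, map_pow, Polynomial.aeval_X,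
    map_natCast] at h1
  have h2 : ‖∏ c ∈ Finset.range p, (q - (c : Ω))‖ < 1 := by
    rw [h1]
    refine lt_of_le_of_lt (IsUltrametricDist.norm_add_le_max _ _) (max_lt h ?_)
    rw [norm_mul, h5_norm_p]
    calc (p : ℝ)⁻¹ * ‖Polynomial.aeval q R‖ ≤ (p : ℝ)⁻¹ * 1 :=
          mul_le_mul_of_nonneg_left (h69_norm_aeval_le p q hq R) (inv_nonneg.2 (h5_p_pos p).le)
      _ < 1 := by rw [mul_one]; exact h5_inv_p_lt_one p
  by_contra hcon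
  have hcon' : ∀ c : ℕ, 1 ≤ ‖q - (c : Ω)‖ := fun c => not_lt.1 (fun hc => hcon ⟨c, hc⟩)
  have h3 : (1 : ℝ) ≤ ‖∏ c ∈ Finset.range p, (q - (c : Ω))‖ := by
    rw [norm_prod]
    calc (1 : ℝ) = ∏ c ∈ Finset.range p, (1 : ℝ) := by rw [Finset.prod_const_one]
      _ ≤ ∏ c ∈ Finset.range p, ‖q - (c : Ω)‖ :=
        Finset.prod_le_prod (fun _ _ => zero_le_one) (fun c _ => hcon' c)
  exact absurd h3 (not_le.2 h2)


/-! ## the Frobenius relation on leading terms -/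

/-- if `s u = u^n w^p` for `u` of level `i` (`e ≤ i < e + l`, `p ∤ i`), then
`s (u - 1) ≡ n (u - 1)` to first order. -/
theorem h69_frob_key (M : Fld) (π : Ω) (hπ0 : π ≠ 0) (hπ1 : ‖π‖ < 1) (e l : ℕ) (he0 : 0 < e)
    (hred : ∀ u : Ω, u ∈ M → ∀ i : ℕ, ‖u - 1‖ = ‖π‖ ^ i → e ≤ i → i < e + l → ¬ p ∣ i →
      h43_Red p M u)
    (s : h78_G p) (u : Ω) (i : ℕ) (hi : ‖u - 1‖ = ‖π‖ ^ i) (hie : e ≤ i)
    (hil : i < e + l) (hpi : ¬ p ∣ i) (n : ℕ) (hrel : ∃ w ∈ M, w ≠ 0 ∧ s u = u ^ n * w ^ p) :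
    ‖s (u - 1) - (n : Ω) * (u - 1)‖ < ‖u - 1‖ := by
  obtain ⟨w, hwM, hw0, hrel⟩ := hrel
  have hπpos : 0 < ‖π‖ := norm_pos_iff.2 hπ0
  have hrpos : 0 < ‖u - 1‖ := by rw [hi]; exact pow_pos hπpos i
  have hr1 : ‖u - 1‖ < 1 := by
    rw [hi]
    exact pow_lt_one₀ hπpos.le hπ1 (by omega)
  have hu1 : ‖u‖ = 1 := by
    have h1 : ‖(1 : Ω) - u‖ < ‖(1 : Ω)‖ := by rw [norm_one, norm_sub_rev]; exact hr1
    rw [h84_norm_eq_of_sub_lt p h1, norm_one]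
  have hun : ‖u ^ n‖ = 1 := by rw [norm_pow, hu1, one_pow]
  obtain ⟨hb1, -⟩ := h84_pow_sub_one p hr1.le (le_refl ‖u - 1‖) n
  by_contra hcon
  have hge : ‖u - 1‖ ≤ ‖s (u - 1) - (n : Ω) * (u - 1)‖ := not_lt.1 hcon
  have hsq : ‖u - 1‖ ^ 2 < ‖u - 1‖ := by rw [sq]; exact mul_lt_of_lt_one_left hrpos hr1
  have hv : ‖w ^ p - 1‖ = ‖π‖ ^ i := by
    have e1 : (w ^ p - 1) * u ^ n =
        (s (u - 1) - (n : Ω) * (u - 1)) - (u ^ n - 1 - (n : Ω) * (u - 1)) := by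
      rw [map_sub, map_one, hrel]; ring
    have e2 : ‖(s (u - 1) - (n : Ω) * (u - 1)) - (u ^ n - 1 - (n : Ω) * (u - 1))‖ =
        ‖s (u - 1) - (n : Ω) * (u - 1)‖ := by
      apply h84_norm_eq_of_sub_lt p
      rw [sub_sub_cancel]
      exact lt_of_le_of_lt hb1 (lt_of_lt_of_le hsq hge)
    have e3 : ‖s (u - 1) - (n : Ω) * (u - 1)‖ ≤ ‖u - 1‖ := by
      refine le_trans (h5_norm_sub_le_max p _ _) (max_le ?_ ?_)
      · rw [h78_norm_aut]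
      · rw [norm_mul]
        exact mul_le_of_le_one_left (norm_nonneg _) (h5_norm_natCast_le p n)
    have e4 : ‖(w ^ p - 1) * u ^ n‖ = ‖u - 1‖ := by
      rw [e1, e2]; exact le_antisymm e3 hge
    rw [norm_mul, hun, mul_one] at e4
    rw [e4, hi]
  have hredv := hred (w ^ p) (pow_mem hwM p) i hv hie hil hpi
  have h0 := hredv.2 w⁻¹ (inv_mem hwM) (inv_ne_zero hw0)
  rw [← mul_pow, mul_inv_cancel₀ hw0, one_pow, sub_self, norm_zero, hv] at h0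
  exact absurd h0 (not_le.2 (pow_pos hπpos i))

/-- **Frobenius lines** (`h43_lv_frob`), with the level lemmas as hypotheses. -/
theorem h69_lv_frob_core (M : Fld) (π : Ω) (hπ0 : π ≠ 0) (hπ1 : ‖π‖ < 1) (e l : ℕ)
    (he0 : 0 < e) (hπe : ‖π‖ ^ e = (p : ℝ)⁻¹)
    (himp : ∀ u : Ω, u ∈ M → ∀ i : ℕ, ‖u - 1‖ = ‖π‖ ^ i → e ≤ i → i < e + l → p ∣ i →
      ∃ w ∈ M, w ≠ 0 ∧ ‖u * w ^ p - 1‖ < ‖u - 1‖)
    (hred : ∀ u : Ω, u ∈ M → ∀ i : ℕ, ‖u - 1‖ = ‖π‖ ^ i → e ≤ i → i < e + l → ¬ p ∣ i →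
      h43_Red p M u)
    (hex : ∀ u : Ω, u ∈ h78_U p M → (¬ ∃ w ∈ M, u = w ^ p) →
      ∃ w ∈ M, w ≠ 0 ∧ ∃ i : ℕ, e ≤ i ∧ i ≤ e + l ∧ ‖u * w ^ p - 1‖ = ‖π‖ ^ i ∧
        h43_Red p M (u * w ^ p))
    (s : h78_G p) (hs : ∀ x ∈ M, ‖x‖ ≤ 1 → ‖s x - x ^ p‖ < 1)
    (u u' : Ω) (hu : h43_Red p M u) (hu' : h43_Red p M u') (i : ℕ)
    (hi : ‖u - 1‖ = ‖π‖ ^ i) (hi' : ‖u' - 1‖ = ‖π‖ ^ i) (hie : e ≤ i) (hil : i < e + l)
    (ν : ℤ) (h : ∃ w ∈ M, w ≠ 0 ∧ s u = u ^ ν * w ^ p)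
    (h' : ∃ w ∈ M, w ≠ 0 ∧ s u' = u' ^ ν * w ^ p) :
    ∃ c : ℤ, (∃ w ∈ M, w ≠ 0 ∧ u' = u ^ c * w ^ p) ∨
      ∃ w ∈ M, w ≠ 0 ∧ ∃ i' : ℕ, i < i' ∧ i' ≤ e + l ∧
        ‖u' * (u ^ c)⁻¹ * w ^ p - 1‖ = ‖π‖ ^ i' ∧ h43_Red p M (u' * (u ^ c)⁻¹ * w ^ p) := by
  have hp : p.Prime := Fact.out
  have hπpos : 0 < ‖π‖ := norm_pos_iff.2 hπ0
  have hr1 : ‖π‖ ^ i < 1 := pow_lt_one₀ hπpos.le hπ1 (by omega)
  have hrpos : 0 < ‖π‖ ^ i := pow_pos hπpos i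
  -- `p ∤ i`
  have hpi : ¬ p ∣ i := by
    intro hpi
    obtain ⟨w, hwM, hw0, hlt⟩ := himp u hu.1 i hi hie hil hpi
    exact absurd (hu.2 w hwM hw0) (not_le.2 hlt)
  -- units
  have hnorm1 : ∀ x : Ω, ‖x - 1‖ = ‖π‖ ^ i → ‖x‖ = 1 := by
    intro x hx
    have h1 : ‖(1 : Ω) - x‖ < ‖(1 : Ω)‖ := by rw [norm_one, norm_sub_rev, hx]; exact hr1
    rw [h84_norm_eq_of_sub_lt p h1, norm_one]
  have hu1 := hnorm1 u hi
  have hu'1 := hnorm1 u' hi'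
  have hu0 : u ≠ 0 := by
    intro h0; rw [h0, norm_zero] at hu1; exact zero_ne_one hu1
  have hu'0 : u' ≠ 0 := by
    intro h0; rw [h0, norm_zero] at hu'1; exact zero_ne_one hu'1
  -- reduce the exponent `ν` to a natural number modulo `p`
  have hpZ : (p : ℤ) ≠ 0 := by exact_mod_cast hp.ne_zero
  obtain ⟨n, hn⟩ : ∃ n : ℕ, ν = (n : ℤ) + (ν / (p : ℤ)) * (p : ℤ) := by
    refine ⟨(ν % (p : ℤ)).toNat, ?_⟩
    rw [Int.toNat_of_nonneg (Int.emod_nonneg _ hpZ), mul_comm]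
    exact (Int.emod_add_mul_ediv ν p).symm
  have hpow : ∀ x : Ω, x ≠ 0 → x ^ ν = x ^ n * (x ^ (ν / (p : ℤ))) ^ p := by
    intro x hx
    conv_lhs => rw [hn]
    rw [zpow_add₀ hx, zpow_natCast, zpow_mul, zpow_natCast]
  have hrelu : ∃ w ∈ M, w ≠ 0 ∧ s u = u ^ n * w ^ p := by
    obtain ⟨w, hwM, hw0, hw⟩ := h
    refine ⟨u ^ (ν / (p : ℤ)) * w, mul_mem (zpow_mem hu.1 _) hwM,
      mul_ne_zero (zpow_ne_zero _ hu0) hw0, ?_⟩
    rw [hw, hpow u hu0, mul_pow, mul_assoc]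
  have hrelu' : ∃ w ∈ M, w ≠ 0 ∧ s u' = u' ^ n * w ^ p := by
    obtain ⟨w, hwM, hw0, hw⟩ := h'
    refine ⟨u' ^ (ν / (p : ℤ)) * w, mul_mem (zpow_mem hu'.1 _) hwM,
      mul_ne_zero (zpow_ne_zero _ hu'0) hw0, ?_⟩
    rw [hw, hpow u' hu'0, mul_pow, mul_assoc]
  have hkey : ‖s (u - 1) - (n : Ω) * (u - 1)‖ < ‖π‖ ^ i := by
    have := h69_frob_key p M π hπ0 hπ1 e l he0 hred s u i hi hie hil hpi n hrelu
    rwa [hi] at this
  have hkey' : ‖s (u' - 1) - (n : Ω) * (u' - 1)‖ < ‖π‖ ^ i := by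
    have := h69_frob_key p M π hπ0 hπ1 e l he0 hred s u' i hi' hie hil hpi n hrelu'
    rwa [hi'] at this
  have hz0 : u - 1 ≠ 0 := by
    intro h0; rw [h0, norm_zero] at hi; exact hrpos.ne hi
  have hsz : ‖s (u - 1)‖ = ‖π‖ ^ i := by rw [h78_norm_aut, hi]
  have hsz0 : s (u - 1) ≠ 0 := by
    intro h0; rw [h0, norm_zero] at hsz; exact hrpos.ne hsz
  -- the quotient `q = z' / z`
  have hqM : (u' - 1) * (u - 1)⁻¹ ∈ M :=
    mul_mem (sub_mem hu'.1 (one_mem _)) (inv_mem (sub_mem hu.1 (one_mem _)))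
  have hq1 : ‖(u' - 1) * (u - 1)⁻¹‖ = 1 := by
    rw [norm_mul, norm_inv, hi', hi, mul_inv_cancel₀ hrpos.ne']
  have hsq : ‖s ((u' - 1) * (u - 1)⁻¹) - (u' - 1) * (u - 1)⁻¹‖ < 1 := by
    have e1 : s ((u' - 1) * (u - 1)⁻¹) - (u' - 1) * (u - 1)⁻¹ =
        ((s (u' - 1) - (n : Ω) * (u' - 1)) * (u - 1) -
          (u' - 1) * (s (u - 1) - (n : Ω) * (u - 1))) * ((s (u - 1))⁻¹ * (u - 1)⁻¹) := by
      rw [map_mul, map_inv₀]
      field_simp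
      ring
    have e2 : ‖(s (u' - 1) - (n : Ω) * (u' - 1)) * (u - 1) -
        (u' - 1) * (s (u - 1) - (n : Ω) * (u - 1))‖ < ‖π‖ ^ i * ‖π‖ ^ i := by
      refine lt_of_le_of_lt (h5_norm_sub_le_max p _ _) (max_lt ?_ ?_)
      · rw [norm_mul, hi]
        exact mul_lt_mul_of_pos_right hkey' hrpos
      · rw [norm_mul, hi']
        exact mul_lt_mul_of_pos_left hkey hrpos
    rw [e1, norm_mul, norm_mul, norm_inv, norm_inv, hsz, hi, ← mul_inv,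
      mul_inv_lt_iff₀ (mul_pos hrpos hrpos), one_mul]
    exact e2
  have hq2 : ‖((u' - 1) * (u - 1)⁻¹) ^ p - (u' - 1) * (u - 1)⁻¹‖ < 1 := by
    have e1 : ((u' - 1) * (u - 1)⁻¹) ^ p - (u' - 1) * (u - 1)⁻¹ =
        (s ((u' - 1) * (u - 1)⁻¹) - (u' - 1) * (u - 1)⁻¹) -
          (s ((u' - 1) * (u - 1)⁻¹) - ((u' - 1) * (u - 1)⁻¹) ^ p) := by ring
    rw [e1]
    exact lt_of_le_of_lt (h5_norm_sub_le_max p _ _) (max_lt hsq (hs _ hqM hq1.le))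
  obtain ⟨c, hc⟩ := h69_exists_nat_near p _ hq1.le hq2
  refine ⟨(c : ℤ), ?_⟩
  rw [zpow_natCast]
  have huc : ‖u ^ c‖ = 1 := by rw [norm_pow, hu1, one_pow]
  have huc0 : u ^ c ≠ 0 := pow_ne_zero c hu0
  obtain ⟨hb1, -⟩ := h84_pow_sub_one p hr1.le (le_of_eq hi) c
  have hd : ‖u' - u ^ c‖ < ‖π‖ ^ i := by
    have e1 : u' - u ^ c = ((u' - 1) * (u - 1)⁻¹ - (c : Ω)) * (u - 1) -
        (u ^ c - 1 - (c : Ω) * (u - 1)) := by
      field_simp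
      ring
    rw [e1]
    refine lt_of_le_of_lt (h5_norm_sub_le_max p _ _) (max_lt ?_ ?_)
    · rw [norm_mul, hi]
      calc ‖(u' - 1) * (u - 1)⁻¹ - (c : Ω)‖ * ‖π‖ ^ i < 1 * ‖π‖ ^ i :=
            mul_lt_mul_of_pos_right hc hrpos
        _ = ‖π‖ ^ i := one_mul _
    · refine lt_of_le_of_lt hb1 ?_
      rw [sq]
      exact mul_lt_of_lt_one_left hrpos hr1
  have hu'' : ‖u' * (u ^ c)⁻¹ - 1‖ < ‖π‖ ^ i := by
    have e1 : u' * (u ^ c)⁻¹ - 1 = (u' - u ^ c) * (u ^ c)⁻¹ := by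
      field_simp
    rw [e1, norm_mul, norm_inv, huc, inv_one, mul_one]
    exact hd
  have hu''M : u' * (u ^ c)⁻¹ ∈ M := mul_mem hu'.1 (inv_mem (pow_mem hu.1 c))
  have hu''0 : u' * (u ^ c)⁻¹ ≠ 0 := mul_ne_zero hu'0 (inv_ne_zero huc0)
  by_cases hpth : ∃ w ∈ M, u' * (u ^ c)⁻¹ = w ^ p
  · left
    obtain ⟨w, hwM, hw⟩ := hpth
    have hw0 : w ≠ 0 := by
      intro h0
      rw [h0, zero_pow hp.ne_zero] at hw
      exact hu''0 hw
    refine ⟨w, hwM, hw0, ?_⟩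
    rw [← hw]
    field_simp
  · right
    have hU : u' * (u ^ c)⁻¹ ∈ h78_U p M := by
      refine ⟨hu''M, hu''0, 1, one_mem _, one_ne_zero, ?_⟩
      rw [one_pow, mul_one]
      calc ‖u' * (u ^ c)⁻¹ - 1‖ ≤ ‖π‖ ^ i := hu''.le
        _ ≤ ‖π‖ ^ e := pow_le_pow_of_le_one hπpos.le hπ1.le hie
        _ = (p : ℝ)⁻¹ := hπe
    obtain ⟨w, hwM, hw0, i', -, hi'l, hnorm, hredw⟩ := hex _ hU hpth
    refine ⟨w, hwM, hw0, i', ?_, hi'l, hnorm, hredw⟩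
    have h1 := hredw.2 w⁻¹ (inv_mem hwM) (inv_ne_zero hw0)
    rw [mul_assoc (u' * (u ^ c)⁻¹), ← mul_pow, mul_inv_cancel₀ hw0, one_pow, mul_one, hnorm] at h1
    have h2 : ‖π‖ ^ i' < ‖π‖ ^ i := lt_of_le_of_lt h1 hu''
    exact (pow_lt_pow_iff_right_of_lt_one₀ hπpos hπ1).1 h2

end Fermat.Agent.S56
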