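import Fermat.Agent.S56.h69_Ad0Dual
import Fermat.Agent.S56.h72_ChiAdd
import Fermat.Agent.S55.h72_AmbFinal
import Fermat.Agent.S55.h95_HypRecip
import Fermat.Agent.S55.h4_LfBetaFinal

/-!
# S56 / MID-R1 (row 600): the bound on `Ш¹_{S₀}(ad⁰ ρ̄)` from the global Euler characteristic

`h69_R1_core` : for a fixed `S₀ ∋ p`, from
* the global Euler characteristic of `N = ad⁰ ρ̄ (1)`: `χ_{S₀}(N) = -[k:𝔽_p]`,
* `h⁰(N) = 0`, `h¹_{S₀}(N) = [k:𝔽_p] · r_N(S₀)`,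
* the duality `h²_{S₀}(N) = dim Hom_G(N, CC)` (helper72) and the `d²`-formula (helper95),
the bound `h12_ShaBound rb S₀` of the MID skeleton:
`rank_k W + ∑_{v ∈ S₀} h⁰(G_v, ad⁰) + 1 ≤ r_N(S₀)`.
-/

set_option autoImplicit false
set_option linter.unusedSectionVars false

open ExtCitation groupCohomology

noncomputable section

namespace Fermat.Agent.S56

open Fermat.Agent.S55

local notation "Γℚ" => (AlgebraicClosure ℚ ≃ₐ[ℚ] AlgebraicClosure ℚ)
local notation "M₂[" k "]" => Matrix (Fin 2) (Fin 2) k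

section Core

variable {k : Type} [Field k] [Finite k] (p : ℕ) [Fact p.Prime] [Algebra (ZMod p) k]
variable (rb : Γℚ →* M₂[k])

/-- **(R1) at a fixed `S₀`, numeric hypothesis form.** -/
theorem h69_R1_core (hp2 : p ≠ 2) (hdet : h12_DetCyc p rb)
    (hH0M : ∀ X : M₂[k], X.trace = 0 → (∀ σ, rb σ * X = X * rb σ) → X = 0)
    (S₀ : Finset Nat.Primes) (hpS : pPrime p ∈ S₀)
    {CC : Type} [AddCommGroup CC] [DistribMulAction Γℚ CC]
    {JJ : ↥S₀ → Type} [∀ q, AddCommGroup (JJ q)] [∀ q, DistribMulAction Γℚ (JJ q)]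
    {XX : ↥S₀ → Type} [∀ q, AddCommGroup (XX q)]
    [∀ q : ↥S₀, DistribMulAction (primeLocalGaloisGroup q.1) (XX q)]
    {κ : ∀ q, JJ q →+ CC} {ev : ∀ q, JJ q →+ XX q} {zz : ∀ q, XX q}
    (hA : h72_PTAmbient p S₀ CC JJ XX κ ev zz)
    (L₀ : h72_Lev S₀) (hL₀ : ∀ s ∈ L₀.U, (h69_N p rb).ρ s = 1)
    (hH0 : Module.finrank (ZMod p) ↥(h4_H (h72_levels S₀) (h69_N p rb) 0) = 0)
    (hH1 : Module.finrank (ZMod p) ↥(h4_H (h72_levels S₀) (h69_N p rb) 1) =
      Module.finrank (ZMod p) k * h12_rN rb S₀)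
    (hEC : h72_chi S₀ (h69_N p rb) = -(Module.finrank (ZMod p) k : ℤ)) :
    h12_ShaBound rb S₀ := by
  intro W hW hloc hcob
  have hsm := h95_smooth_unram_of_level (h69_N p rb) L₀ hL₀
  have hshafd : Module.Finite (ZMod p)
      ↥(sha₁ S₀ ((h69_N p rb).dualTwist (cycloChar p))) :=
    h46_finite_sha₁_dualTwist S₀ hpS (h69_N p rb) hsm.1 hsm.2
  have hshafin : Finite ↥(sha₁ S₀ ((h69_N p rb).dualTwist (cycloChar p))) :=
    Module.finite_of_finite (ZMod p)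
  obtain ⟨hWfin, hWcard⟩ := h69_W_card_le p rb hp2 hdet S₀ hshafin W hW hloc hcob
  have hWle : Module.finrank (ZMod p) k * Module.finrank k ↥W ≤
      Module.finrank (ZMod p) ↥(sha₁ S₀ ((h69_N p rb).dualTwist (cycloChar p))) :=
    h69_finrank_le_of_card_le (k := k) p hWcard
  have hd2 := h95_d2_formula_level hp2 hpS (h69_N p rb) hA L₀ hL₀
  obtain ⟨-, hH2⟩ := h72_h4_H2_finite_finrank S₀ hpS (h69_N p rb) hA L₀ hL₀
  rw [h69_inv_eq_bot p rb hp2 hdet hH0M, finrank_bot, add_zero] at hd2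
  have hsum : ∑ q : ↥S₀, Module.finrank (ZMod p)
      ↥(h95_invAt q.1 ((h69_N p rb).dualTwist (cycloChar p))) =
      Module.finrank (ZMod p) k * ∑ v ∈ S₀, Module.finrank k ↥(h12_H0M rb v) := by
    rw [Finset.mul_sum, ← Finset.sum_coe_sort S₀]
    exact Finset.sum_congr rfl (fun q _ => h69_finrank_invAt p rb hp2 hdet q.1)
  rw [hsum] at hd2
  have hD : 0 < Module.finrank (ZMod p) k := by
    have : Module.Finite (ZMod p) k := Module.Finite.of_finite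
    exact Module.finrank_pos
  have hWfd : Module.Finite k ↥W := Module.Finite.of_finite
  unfold h72_chi at hEC
  rw [hH0, hH1, hH2, hd2] at hEC
  rw [← Module.finrank_eq_rank k ↥W, ← Nat.cast_add, Nat.cast_le]
  apply Nat.le_of_mul_le_mul_left _ hD
  zify at hWle hEC ⊢
  nlinarith [hWle, hEC]

end Core

section Final

variable {k : Type} [Field k] [Finite k] (p : ℕ) [Fact p.Prime] [Algebra (ZMod p) k]
variable (rb : Γℚ →* M₂[k])

/-- The S55 ambient system exists for every `S ∋ p` (`p` odd). -/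
theorem h69_exists_ambient (hp2 : p ≠ 2) (S : Finset Nat.Primes) (hpS : pPrime p ∈ S) :
    ∃ (CC : Type) (_ : AddCommGroup CC) (_ : DistribMulAction Γℚ CC)
      (JJ : ↥S → Type) (_ : ∀ q, AddCommGroup (JJ q)) (_ : ∀ q, DistribMulAction Γℚ (JJ q))
      (XX : ↥S → Type) (_ : ∀ q, AddCommGroup (XX q))
      (_ : ∀ q : ↥S, DistribMulAction (primeLocalGaloisGroup q.1) (XX q))
      (κ : ∀ q, JJ q →+ CC) (ev : ∀ q, JJ q →+ XX q) (zz : ∀ q, XX q),
      h72_PTAmbient p S CC JJ XX κ ev zz :=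
  h72_glob_exists_ambient_of hp2 S hpS
    (h72_openFields_of hp2 S hpS (h95_hypRecip S p hp2 hpS) (h4_lf_hnorm p S hp2 hpS))

/-- **MID-R1, hypothesis form**: the skeleton statement `h12_R1` from
* `hEC` : the global Euler characteristic formula (W1-EC; conclusion shape of helper72's
  `h72_EC_of_base`), for the levels `F0 ∋ ζ_p` unramified outside `Smin'` and all
  `S ⊇ Smin' ∪ T0(F0)`;
* `hN2`, `hN3` : `h¹`, `h⁰` of `N = ad⁰ ρ̄ (1)` in matrix-cocycle language (helper3);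
* `hN4` : the `(-1)`-eigenspace of complex conjugation on `N` (helper72). -/
theorem h69_R1_of
    (hEC : ∀ Smin' : Finset Nat.Primes, pPrime p ∈ Smin' →
      ∀ F0 : IntermediateField ℚ (AlgebraicClosure ℚ), F0.IsUnramifiedOutside Smin' →
      IsGalois ℚ F0 → (∃ ζ ∈ F0, IsPrimitiveRoot ζ p) →
      ∃ T0 : Finset Nat.Primes, ∀ S : Finset Nat.Primes, Smin' ∪ T0 ⊆ S →
        ∀ (M : Rep.{0, 0, 0} (ZMod p) Γℚ) [Finite M], (∀ s ∈ F0.fixingSubgroup, M.ρ s = 1) →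
          h72_chi S M =
            -(Module.finrank (ZMod p) ↥(LinearMap.ker (M.ρ complexConjugation + 1)) : ℤ))
    (hN2 : ∀ S : Finset Nat.Primes,
      Module.finrank (ZMod p) ↥(h4_H (h72_levels S) (h69_N p rb) 1) =
        Module.finrank (ZMod p) k * h12_rN rb S)
    (hN3 : (∀ Y : M₂[k], Y.trace = 0 → (∀ σ, h12_act (rb σ) Y = Y) → Y = 0) →
      ∀ S : Finset Nat.Primes,
        Module.finrank (ZMod p) ↥(h4_H (h72_levels S) (h69_N p rb) 0) = 0)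
    (hN4 : Module.finrank (ZMod p)
        ↥(LinearMap.ker ((h69_N p rb).ρ complexConjugation + 1)) = Module.finrank (ZMod p) k)
    (hp2 : p ≠ 2) (hdet : h12_DetCyc p rb) (hrb : GaloisFactorsThroughFiniteLevel rb)
    (hH0M : ∀ X : M₂[k], X.trace = 0 → (∀ σ, rb σ * X = X * rb σ) → X = 0)
    (hH0N : ∀ Y : M₂[k], Y.trace = 0 → (∀ σ, h12_act (rb σ) Y = Y) → Y = 0)
    (Smin' : Finset Nat.Primes) (hpS : pPrime p ∈ Smin')
    (hrbS : ∀ q : Nat.Primes, q ∉ Smin' → ∀ P : ValuationSubring (AlgebraicClosure ℚ),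
      P.LiesOverPrime (q : ℕ) → ∀ σ ∈ P.inertiaSubgroupIn ℚ, rb σ = 1) :
    ∃ T0 : Finset Nat.Primes, ∀ S₀ : Finset Nat.Primes, Smin' ∪ T0 ⊆ S₀ →
      h12_ShaBound rb S₀ := by
  have hsm : ∀ m : h69_N p rb, ∃ F : IntermediateField ℚ (AlgebraicClosure ℚ),
      FiniteDimensional ℚ F ∧ ∀ s ∈ F.fixingSubgroup, (h69_N p rb).ρ s m = m := by
    intro m
    obtain ⟨L, hL, hLfix⟩ := hrb
    refine ⟨L, hL, fun s hs => ?_⟩
    rw [h69_N_ρ_eq_one p rb (hLfix s (fun x hx =>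
      (IntermediateField.mem_fixingSubgroup_iff L s).mp hs x hx))]
    rfl
  have hMur : ∀ q : Nat.Primes, q ∉ Smin' → ∀ A : ValuationSubring (AlgebraicClosure ℚ),
      A.LiesOverPrime (q : ℕ) → ∀ g ∈ A.inertiaSubgroupIn ℚ, (h69_N p rb).ρ g = 1 :=
    fun q hq A hA g hg => h69_N_ρ_eq_one p rb (hrbS q hq A hA g hg)
  obtain ⟨F0, hF0, hgal, hM, hζ, -, -⟩ :=
    h56_exists_base_level Smin' hpS (h69_N p rb) hsm hMur
  obtain ⟨T0, hT0⟩ := hEC Smin' hpS F0 hF0 hgal hζ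
  refine ⟨T0, fun S₀ hS₀ => ?_⟩
  have hpS₀ : pPrime p ∈ S₀ := hS₀ (Finset.mem_union_left _ hpS)
  obtain ⟨CC, i1, i2, JJ, i3, i4, XX, i5, i6, κ, ev, zz, hA⟩ :=
    h69_exists_ambient p hp2 S₀ hpS₀
  have hEC' := hT0 S₀ hS₀ (h69_N p rb) hM
  rw [hN4] at hEC'
  exact h69_R1_core p rb hp2 hdet hH0M S₀ hpS₀ hA
    ⟨F0, hF0.mono (Finset.union_subset_left hS₀), hgal⟩ hM (hN3 hH0N S₀) (hN2 S₀) hEC'

end Final

end Fermat.Agent.S56
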