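import Fermat.Agent.S56.h69_R1Final
import Fermat.Agent.S56.h95_EC

/-!
# S56 / MID-R1 (row 600): the skeleton row `h12_R1`, CLOSED

`h69_R1` = the statement `h12_R1` of the MID skeleton, verbatim and unconditional:
`h69_R1_of_base` with helper95's `h95_hbase_T0` (Tate's global Euler characteristic formula, W1).
-/

set_option autoImplicit false
set_option linter.unusedSectionVars false

open ExtCitation groupCohomology

noncomputable section

namespace Fermat.Agent.S56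

open Fermat.Agent.S55

local notation "Γℚ" => (AlgebraicClosure ℚ ≃ₐ[ℚ] AlgebraicClosure ℚ)
local notation "M₂[" k "]" => Matrix (Fin 2) (Fin 2) k

variable {k : Type} [Field k] [Finite k] (p : ℕ) [Fact p.Prime] [Algebra (ZMod p) k]
variable (rb : Γℚ →* M₂[k])

/-- **MID-R1** (`h12_R1` of the MID skeleton, verbatim): for `S₀ ⊇ Smin' ∪ T0` every `k`-space of
trace-free tangent cocycles, unramified outside `S₀`, locally trivial at `S₀` and without nonzero
coboundaries has rank `≤ r_N(S₀) - ∑_{v ∈ S₀} h⁰(G_v, ad⁰ ρ̄) - 1`. -/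
theorem h69_R1 (hp2 : p ≠ 2) (hdet : h12_DetCyc p rb)
    (hrb : GaloisFactorsThroughFiniteLevel rb)
    (hH0M : ∀ X : M₂[k], X.trace = 0 → (∀ σ, rb σ * X = X * rb σ) → X = 0)
    (hH0N : ∀ Y : M₂[k], Y.trace = 0 → (∀ σ, h12_act (rb σ) Y = Y) → Y = 0)
    (Smin' : Finset Nat.Primes) (hpS : pPrime p ∈ Smin')
    (hrbS : ∀ q : Nat.Primes, q ∉ Smin' → ∀ P : ValuationSubring (AlgebraicClosure ℚ),
      P.LiesOverPrime (q : ℕ) → ∀ σ ∈ P.inertiaSubgroupIn ℚ, rb σ = 1) :
    ∃ T0 : Finset Nat.Primes, ∀ S₀ : Finset Nat.Primes, Smin' ∪ T0 ⊆ S₀ →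
      h12_ShaBound rb S₀ :=
  h69_R1_of_base p rb (h95_hbase_T0 p hp2) hp2 hdet hrb hH0M hH0N Smin' hpS hrbS

end Fermat.Agent.S56
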