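import Fermat.Agent.S56.h95_H2Base
import Fermat.Agent.S56.h95_Shir
import Fermat.Agent.S56.h72_BaseDefs

/-!
# S56, front W1, base case: the `h⁰`- and `h²`-terms in the language of `G = G_ℚ ⧸ U`

`L₀` an `S`-level, `U = L₀.U`, `G = G_ℚ ⧸ U` (finite), `ρ` a representation of `G` on `V`,
`M = infl ρ = h72_infl L₀ ρ`.

* `h95_h0_eq` : `h⁰(G_S, M) = dim M^{G_ℚ}` for every `M` (`h4_H … 0` vs `h95_inv`);
* `h95_h0_infl` : `h⁰(G_S, infl ρ) = dim V^G` (`Representation.invariants ρ`);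
* `h95_ωbar L₀ hχ` : the mod `p` cyclotomic character on `G` (when `ζ_p ∈ F`);
* `h95_Dbar L₀ q` : the image in `G` of the decomposition group at `q`;
* `h95_dualInv ρ ω D` : the `ω`-twisted `D`-invariant functionals on `V`, i.e. `(V^∨ ⊗ ω)^D`;
* `h95_inv_dualTwist_infl`, `h95_invAt_dualTwist_infl` : the invariants of `M' = M^∨(1)` under
  `G_ℚ` and under the decomposition group at `q` are `h95_dualInv ρ ω̄ ⊤` and
  `h95_dualInv ρ ω̄ (h95_Dbar L₀ q)`;
* `h95_h2_base_G` : the `h²`-term of the base case in this language.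
-/

set_option autoImplicit false
set_option linter.unusedSectionVars false
set_option linter.unusedVariables false
set_option maxHeartbeats 400000
set_option synthInstance.maxHeartbeats 400000

open CategoryTheory Module groupCohomology ExtCitation

noncomputable section

namespace Fermat.Agent.S56

open Fermat.Agent.S55

local notation "GQ" => (AlgebraicClosure ℚ ≃ₐ[ℚ] AlgebraicClosure ℚ)

variable {p : ℕ} [Fact p.Prime] {S : Finset Nat.Primes}

/-! ### `h⁰` -/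

section H0

variable (S) (M : Rep.{0, 0, 0} (ZMod p) GQ)

/-- level `0`-cocycles are the invariants. -/
def h95_Z0Equiv : ↥(h4_Z (h72_levels S) M 0) ≃ₗ[ZMod p] ↥(h95_inv M) where
  toFun z := ⟨z.1 (fun i => i.elim0), fun g => by
    have h1 : (_root_.inhomogeneousCochains.d M 0).hom z.1 = 0 := z.2.2
    rw [h72_d0_eq_iff] at h1
    have h2 : (d₀₁ M).hom (z.1 (fun i => i.elim0)) g = 0 := by
      have h3 := congrFun h1 g
      exact (congrArg (fun v => (d₀₁ M).hom (z.1 v) g) (Subsingleton.elim _ _)).trans h3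
    rw [d₀₁_hom_apply] at h2
    exact sub_eq_zero.1 h2⟩
  invFun m := ⟨fun _ => m.1, h72_isLevel_zero S _, by
    rw [h72_d0_eq_iff]
    funext g
    rw [d₀₁_hom_apply]
    exact sub_eq_zero.2 (m.2 g)⟩
  map_add' _ _ := rfl
  map_smul' _ _ := rfl
  left_inv z := by
    apply Subtype.ext
    funext v
    exact congrArg z.1 (Subsingleton.elim _ _)
  right_inv _ := rfl

/-- **`h⁰(G_S, M) = dim M^{G_ℚ}`.** -/
theorem h95_h0_eq :
    Module.finrank (ZMod p) ↥(h4_H (h72_levels S) M 0) = Module.finrank (ZMod p) ↥(h95_inv M) := by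
  rw [← (LinearEquiv.ofBijective (h4_π (h72_levels S) M 0)
    (h4_π_bijective_zero (h72_levels S) M)).finrank_eq]
  exact (h95_Z0Equiv S M).finrank_eq

end H0

/-! ### Inflation from `G = G_ℚ ⧸ U` -/

section Infl

variable (L₀ : h72_Lev S) {V : Type} [AddCommGroup V] [Module (ZMod p) V]
  (ρ : Representation (ZMod p) (GQ ⧸ L₀.U) V)

theorem h95_infl_ρ (g : GQ) (v : V) :
    (h72_infl L₀ ρ).ρ g (show (h72_infl L₀ ρ : Type) from v) = ρ (QuotientGroup.mk' L₀.U g) v :=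
  rfl

/-- the invariants of an inflated module. -/
def h95_invInflEquiv : ↥(h95_inv (h72_infl L₀ ρ)) ≃ₗ[ZMod p] ↥(Representation.invariants ρ) where
  toFun x := ⟨x.1, fun g => by
    obtain ⟨g, rfl⟩ := QuotientGroup.mk_surjective g
    exact x.2 g⟩
  invFun y := ⟨y.1, fun g => y.2 (QuotientGroup.mk' L₀.U g)⟩
  map_add' _ _ := rfl
  map_smul' _ _ := rfl
  left_inv _ := rfl
  right_inv _ := rfl

/-- **`h⁰(G_S, infl ρ) = dim V^G`.** -/
theorem h95_h0_infl :
    Module.finrank (ZMod p) ↥(h4_H (h72_levels S) (h72_infl L₀ ρ) 0) =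
      Module.finrank (ZMod p) ↥(Representation.invariants ρ) := by
  rw [h95_h0_eq]
  exact (h95_invInflEquiv L₀ ρ).finrank_eq

/-- the `h⁰`-term of the base case. -/
theorem h95_h0_coind (C : Subgroup (GQ ⧸ L₀.U)) {W : Type} [AddCommGroup W] [Module (ZMod p) W]
    (σ : Representation (ZMod p) C W) :
    Module.finrank (ZMod p) ↥(h4_H (h72_levels S) (h95_Mσ L₀ C σ) 0) =
      Module.finrank (ZMod p) ↥(Representation.invariants (Representation.coind C.subtype σ)) :=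
  h95_h0_infl L₀ (Representation.coind C.subtype σ)

end Infl

/-! ### The twisted dual in the language of `G` -/

section Dual

/-- `(V^∨ ⊗ ω)^D`: the functionals `l` on `V` with `l (ρ d v) = ω d * l v` for all `d ∈ D`. -/
def h95_dualInv {G : Type*} [Group G] {V : Type*} [AddCommGroup V] [Module (ZMod p) V]
    (ρ : Representation (ZMod p) G V) (ω : G →* (ZMod p)ˣ) (D : Subgroup G) :
    Submodule (ZMod p) (Module.Dual (ZMod p) V) where
  carrier := {l | ∀ d ∈ D, ∀ v, l (ρ d v) = (ω d : ZMod p) * l v}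
  add_mem' := by
    intro a b ha hb d hd v
    rw [LinearMap.add_apply, LinearMap.add_apply, ha d hd v, hb d hd v, mul_add]
  zero_mem' := by
    intro d hd v
    rw [LinearMap.zero_apply, LinearMap.zero_apply, mul_zero]
  smul_mem' := by
    intro c a ha d hd v
    rw [LinearMap.smul_apply, LinearMap.smul_apply, ha d hd v, smul_eq_mul, smul_eq_mul]
    ring

theorem h95_mem_dualInv {G : Type*} [Group G] {V : Type*} [AddCommGroup V] [Module (ZMod p) V]
    (ρ : Representation (ZMod p) G V) (ω : G →* (ZMod p)ˣ) (D : Subgroup G)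
    (l : Module.Dual (ZMod p) V) :
    l ∈ h95_dualInv ρ ω D ↔ ∀ d ∈ D, ∀ v, l (ρ d v) = (ω d : ZMod p) * l v := Iff.rfl

variable (L₀ : h72_Lev S)

/-- the mod `p` cyclotomic character on `G = G_ℚ ⧸ U` (for a level containing `ζ_p`). -/
def h95_ωbar (hχ : ∀ s ∈ L₀.U, cycloChar p s = 1) : (GQ ⧸ L₀.U) →* (ZMod p)ˣ :=
  QuotientGroup.lift L₀.U (cycloChar p) hχ

theorem h95_ωbar_mk (hχ : ∀ s ∈ L₀.U, cycloChar p s = 1) (g : GQ) :
    h95_ωbar L₀ hχ (QuotientGroup.mk' L₀.U g) = cycloChar p g := rfl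

/-- the image in `G = G_ℚ ⧸ U` of the decomposition group at `q`. -/
def h95_Dbar (q : Nat.Primes) : Subgroup (GQ ⧸ L₀.U) :=
  (primeLocalToGlobal q).range.map (QuotientGroup.mk' L₀.U)

theorem h95_mem_Dbar (q : Nat.Primes) (x : GQ ⧸ L₀.U) :
    x ∈ h95_Dbar L₀ q ↔
      ∃ τ : primeLocalGaloisGroup q, QuotientGroup.mk' L₀.U (primeLocalToGlobal q τ) = x := by
  constructor
  · rintro ⟨_, ⟨τ, rfl⟩, rfl⟩
    exact ⟨τ, rfl⟩
  · rintro ⟨τ, rfl⟩
    exact ⟨_, ⟨τ, rfl⟩, rfl⟩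

variable {V : Type} [AddCommGroup V] [Module (ZMod p) V]
  (ρ : Representation (ZMod p) (GQ ⧸ L₀.U) V)

theorem h95_dualTwist_infl_fixed_iff (hχ : ∀ s ∈ L₀.U, cycloChar p s = 1)
    (n : (h72_infl L₀ ρ).dualTwist (cycloChar p)) (g : GQ) :
    ((h72_infl L₀ ρ).dualTwist (cycloChar p)).ρ g n = n ↔
      ∀ v : V, (show Module.Dual (ZMod p) V from n) (ρ (QuotientGroup.mk' L₀.U g) v) =
        (h95_ωbar L₀ hχ (QuotientGroup.mk' L₀.U g) : ZMod p) *
          (show Module.Dual (ZMod p) V from n) v := by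
  have h := h95_ofDual_fixed_iff (h72_infl L₀ ρ) (h95_dualHom (h72_infl L₀ ρ) n) g
  rw [h95_ofDual_dualHom] at h
  exact h

/-- `H⁰(G_q, M^∨(1))` for `M = infl ρ`, in the language of `G`. -/
def h95_invAtDualEquiv (hχ : ∀ s ∈ L₀.U, cycloChar p s = 1) (q : Nat.Primes) :
    ↥(h95_invAt q ((h72_infl L₀ ρ).dualTwist (cycloChar p))) ≃ₗ[ZMod p]
      ↥(h95_dualInv ρ (h95_ωbar L₀ hχ) (h95_Dbar L₀ q)) where
  toFun n := ⟨(show Module.Dual (ZMod p) V from n.1), fun d hd v => by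
    obtain ⟨τ, rfl⟩ := (h95_mem_Dbar L₀ q d).1 hd
    exact (h95_dualTwist_infl_fixed_iff L₀ ρ hχ n.1 (primeLocalToGlobal q τ)).1 (n.2 τ) v⟩
  invFun l := ⟨(show (h72_infl L₀ ρ).dualTwist (cycloChar p) from l.1), fun τ => by
    refine (h95_dualTwist_infl_fixed_iff L₀ ρ hχ _ (primeLocalToGlobal q τ)).2 (fun v => ?_)
    exact l.2 _ ((h95_mem_Dbar L₀ q _).2 ⟨τ, rfl⟩) v⟩
  map_add' _ _ := rfl
  map_smul' _ _ := rfl
  left_inv _ := rfl
  right_inv _ := rfl

/-- `H⁰(G_ℚ, M^∨(1))` for `M = infl ρ`, in the language of `G`. -/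
def h95_invDualEquiv (hχ : ∀ s ∈ L₀.U, cycloChar p s = 1) :
    ↥(h95_inv ((h72_infl L₀ ρ).dualTwist (cycloChar p))) ≃ₗ[ZMod p]
      ↥(h95_dualInv ρ (h95_ωbar L₀ hχ) ⊤) where
  toFun n := ⟨(show Module.Dual (ZMod p) V from n.1), fun d hd v => by
    obtain ⟨g, rfl⟩ := QuotientGroup.mk_surjective d
    exact (h95_dualTwist_infl_fixed_iff L₀ ρ hχ n.1 g).1 (n.2 g) v⟩
  invFun l := ⟨(show (h72_infl L₀ ρ).dualTwist (cycloChar p) from l.1), fun g => by
    refine (h95_dualTwist_infl_fixed_iff L₀ ρ hχ _ g).2 (fun v => ?_)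
    exact l.2 _ (Subgroup.mem_top _) v⟩
  map_add' _ _ := rfl
  map_smul' _ _ := rfl
  left_inv _ := rfl
  right_inv _ := rfl

theorem h95_invAt_dualTwist_infl (hχ : ∀ s ∈ L₀.U, cycloChar p s = 1) (q : Nat.Primes) :
    Module.finrank (ZMod p) ↥(h95_invAt q ((h72_infl L₀ ρ).dualTwist (cycloChar p))) =
      Module.finrank (ZMod p) ↥(h95_dualInv ρ (h95_ωbar L₀ hχ) (h95_Dbar L₀ q)) :=
  (h95_invAtDualEquiv L₀ ρ hχ q).finrank_eq

theorem h95_inv_dualTwist_infl (hχ : ∀ s ∈ L₀.U, cycloChar p s = 1) :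
    Module.finrank (ZMod p) ↥(h95_inv ((h72_infl L₀ ρ).dualTwist (cycloChar p))) =
      Module.finrank (ZMod p) ↥(h95_dualInv ρ (h95_ωbar L₀ hχ) ⊤) :=
  (h95_invDualEquiv L₀ ρ hχ).finrank_eq

end Dual

/-! ### The `h²`-term of the base case in the language of `G` -/

section H2

variable {CC : Type} [AddCommGroup CC] [DistribMulAction GQ CC]
  {JJ : ↥S → Type} [∀ q, AddCommGroup (JJ q)] [∀ q, DistribMulAction GQ (JJ q)]
  {XX : ↥S → Type} [∀ q, AddCommGroup (XX q)]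
  [∀ q : ↥S, DistribMulAction (primeLocalGaloisGroup q.1) (XX q)]
  {κ : ∀ q, JJ q →+ CC} {ev : ∀ q, JJ q →+ XX q} {zz : ∀ q, XX q}

/-- **`h²` of the base case, in the language of `G = G_ℚ ⧸ U`**:
`h²(G_S, infl coind_C^G σ) + dim (M^∨ ⊗ ω)^G = ∑_{q ∈ S} dim (M^∨ ⊗ ω)^{D_q}`, `M = coind_C^G σ`,
`D_q ≤ G` the image of the decomposition group at `q`. -/
theorem h95_h2_base_G (hp2 : p ≠ 2) (hpS : pPrime p ∈ S)
    (hA : h72_PTAmbient p S CC JJ XX κ ev zz)
    (L₀ : h72_Lev S) (hχ : ∀ s ∈ L₀.U, cycloChar p s = 1) (hsplit : h95_Split0 p S L₀)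
    (C : Subgroup (GQ ⧸ L₀.U)) (hcop : (Nat.card C).Coprime p)
    {W : Type} [AddCommGroup W] [Module (ZMod p) W] [Module.Finite (ZMod p) W]
    (σ : Representation (ZMod p) C W) :
    Module.finrank (ZMod p) ↥(h4_H (h72_levels S) (h95_Mσ L₀ C σ) 2) +
      Module.finrank (ZMod p)
        ↥(h95_dualInv (Representation.coind C.subtype σ) (h95_ωbar L₀ hχ) ⊤) =
      ∑ q : ↥S, Module.finrank (ZMod p)
        ↥(h95_dualInv (Representation.coind C.subtype σ) (h95_ωbar L₀ hχ) (h95_Dbar L₀ q.1)) := by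
  have h := h95_h2_base_coind hp2 hpS hA L₀ hχ hsplit C hcop σ
  rw [← h95_inv_dualTwist_infl L₀ (Representation.coind C.subtype σ) hχ]
  rw [Finset.sum_congr rfl (fun q _ =>
    (h95_invAt_dualTwist_infl L₀ (Representation.coind C.subtype σ) hχ q.1).symm)]
  exact h

end H2

end Fermat.Agent.S56
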