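import Fermat.Agent.S56.h96_BaseGen
import Fermat.Agent.S56.h95_Descent
import Fermat.Agent.S56.h95_PlaceF
import Fermat.Agent.S56.h33_KumShir
import Fermat.Agent.S56.h13_HerbrandOmega
import Fermat.Agent.S56.h72_PlaceInf
import Fermat.Agent.S56.h70_Recip
import Fermat.Agent.S41.h61_NotEis

/-!
# S56, front W1: the BASE case of Tate's Euler characteristic formula (final substitution)

`h72_base_of` : for a level `L₀` with `ζ_p ∈ L₀.F`, `h95_Split0`, class-kill at `(S, L₀.F)`, and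
a cyclic subgroup `C ≤ G = G_ℚ ⧸ L₀.U` of order prime to `p`:

  `h72_delta S L₀ (coind_C^G σ) = χ_S(infl coind_C^G σ) + dim (coind_C^G σ)^{c = -1} = 0`.

It is helper96's abstract count `h96_base_count_gen` fed with
* `h⁰` : helper95 `h95_h0_coind`;
* `h¹` : helper33 `h33_h1_base` (Shapiro + Kummer);
* `h²` : helper95 `h95_h2_base_G` (Poitou–Tate at the level + `Split0`);
* Herbrand : helper13 `h13_herbrand_modp_omega` (input `hH`);
* places : helper95 `h95_placeEquiv` (input `hP1`), `h72_infEquiv`.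
-/

set_option autoImplicit false

open CategoryTheory Module groupCohomology ExtCitation NumberField IsDedekindDomain TensorProduct

noncomputable section

namespace Fermat.Agent.S56

open Fermat.Agent.S55

local notation "Qb" => AlgebraicClosure ℚ
local notation "GQ" => (AlgebraicClosure ℚ ≃ₐ[ℚ] AlgebraicClosure ℚ)

variable {p : ℕ} [Fact p.Prime] {S : Finset Nat.Primes}

/-- `ζ_p ∈ L₀.F` ⟹ the mod `p` cyclotomic character is trivial on `L₀.U`. -/
theorem h72_cyclo_trivial_of_zeta (L₀ : h72_Lev S) (ζ : ↥L₀.F) (hζ : IsPrimitiveRoot ζ p) :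
    ∀ s ∈ L₀.U, cycloChar p s = 1 := by
  intro s hs
  have hζ' : IsPrimitiveRoot ((ζ : ↥L₀.F) : Qb) p :=
    hζ.map_of_injective (f := L₀.F.val) Subtype.val_injective
  have hfix : s ((ζ : ↥L₀.F) : Qb) = ((ζ : ↥L₀.F) : Qb) ^ 1 := by
    rw [pow_one]
    exact (IntermediateField.mem_fixingSubgroup_iff L₀.F s).mp hs _ ζ.2
  have h := Fermat.Agent.GAL.h11_cycloChar_eq_of_pow s _ hζ' 1 hfix
  apply Units.ext
  rw [h, Nat.cast_one, Units.val_one]

/-- A cyclic subgroup of `G_ℚ ⧸ L₀.U` is generated by the class of some `γ ∈ G_ℚ`. -/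
theorem h72_exists_gen (L₀ : h72_Lev S) (C : Subgroup (GQ ⧸ L₀.U)) (hcyc : IsCyclic C) :
    ∃ (γ : GQ) (hγ : QuotientGroup.mk' L₀.U γ ∈ C),
      (∀ x : C, x ∈ Subgroup.zpowers (⟨QuotientGroup.mk' L₀.U γ, hγ⟩ : C)) ∧
      C = Subgroup.zpowers (QuotientGroup.mk' L₀.U γ) ∧ γ ^ Nat.card C ∈ L₀.U := by
  obtain ⟨⟨g0, hg0⟩, hgen⟩ := hcyc.exists_generator
  obtain ⟨γ, rfl⟩ := QuotientGroup.mk_surjective g0
  refine ⟨γ, hg0, hgen, ?_, ?_⟩
  · apply le_antisymm
    · intro x hx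
      obtain ⟨n, hn⟩ := Subgroup.mem_zpowers_iff.mp (hgen ⟨x, hx⟩)
      have h1 := congrArg (Subtype.val : ↥C → GQ ⧸ L₀.U) hn
      rw [Subgroup.coe_zpow] at h1
      exact Subgroup.mem_zpowers_iff.mpr ⟨n, h1⟩
    · exact (Subgroup.zpowers_le).mpr hg0
  · have h1 : (⟨QuotientGroup.mk' L₀.U γ, hg0⟩ : C) ^ Nat.card C = 1 := pow_card_eq_one'
    have h2 := congrArg (Subtype.val : ↥C → GQ ⧸ L₀.U) h1
    rw [Subgroup.coe_pow] at h2
    exact (QuotientGroup.eq_one_iff _).mp h2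

/-- `ker (f + 1)` is the `(-1)`-eigenspace. -/
theorem h72_ker_add_one_eq {V : Type*} [AddCommGroup V] [Module (ZMod p) V]
    (f : Module.End (ZMod p) V) :
    LinearMap.ker (f + 1) = Module.End.eigenspace f (-1 : ZMod p) := by
  ext v
  rw [LinearMap.mem_ker, Module.End.mem_eigenspace_iff, LinearMap.add_apply,
    Module.End.one_apply, neg_smul, one_smul, add_eq_zero_iff_eq_neg]

/-- **W1-BASE, hypothesis form** (Herbrand iso `hH` and the finite-place dictionary `hP1` as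
inputs). -/
theorem h72_base_of (hp2 : p ≠ 2) (hpS : pPrime p ∈ S) (L₀ : h72_Lev S) (ζ : ↥L₀.F)
    (hζ : IsPrimitiveRoot ζ p) (hsplit : h95_Split0 p S L₀)
    (hCK : ∀ c : (↥L₀.F)ˣ ⧸ (powMonoidHom p : (↥L₀.F)ˣ →* (↥L₀.F)ˣ).range,
      c ∈ selmerGroup (R := 𝓞 ↥L₀.F) (K := ↥L₀.F) (S := h46_primesOver S L₀.F) (n := p) →
      ∃ u ∈ (h46_primesOver S L₀.F).unit ↥L₀.F,
        (QuotientGroup.mk u : (↥L₀.F)ˣ ⧸ (powMonoidHom p : (↥L₀.F)ˣ →* (↥L₀.F)ˣ).range) = c)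
    (hH : ∀ (γ : GQ) (m : ℕ), γ ^ m ∈ L₀.U → ¬ p ∣ m →
      ∃ e : ((ZMod p ⊗[ℤ] Additive ↥(h33_ES S L₀.F)) × ZMod p) ≃ₗ[ZMod p]
          (ZMod p × ((InfinitePlace ↥L₀.F → ZMod p) × (↥(h59_T ↥L₀.F S) → ZMod p))),
        ∀ y, e (((h33_actA S p L₀.F γ).prodMap LinearMap.id) y) =
          (((((cycloChar p γ : (ZMod p)ˣ) : ZMod p) • (1 : Module.End (ZMod p) (ZMod p))).prodMap
            ((h13_permLin (ZMod p)
                (MulAction.toPerm (h97_π L₀.F γ) : Equiv.Perm (InfinitePlace ↥L₀.F))).prodMap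
              (h13_permLin (ZMod p) (h13_permT (h59_T ↥L₀.F S) (h97_π L₀.F γ)
                (h33_T_stable S L₀.F (h97_π L₀.F γ)))))) (e y)))
    (hP1 : ∃ ePf : ↥(h59_T ↥L₀.F S) ≃ Σ q : ↥S, (GQ ⧸ L₀.U) ⧸ h95_Dbar L₀ q.1,
      ∀ (γ : GQ) x, ePf (h13_permT (h59_T ↥L₀.F S) (h97_π L₀.F γ)
          (h33_T_stable S L₀.F (h97_π L₀.F γ)) x) = (QuotientGroup.mk γ : GQ ⧸ L₀.U) • ePf x)
    (C : Subgroup (GQ ⧸ L₀.U)) (hcyc : IsCyclic C) (hcop : (Nat.card C).Coprime p)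
    (W : Type) [AddCommGroup W] [Module (ZMod p) W] [Finite W]
    (σ : Representation (ZMod p) C W) :
    h72_delta S L₀ (Representation.coindV C.subtype σ) (Representation.coind C.subtype σ) = 0 := by
  classical
  have hp : p.Prime := Fact.out
  have hχ := h72_cyclo_trivial_of_zeta L₀ ζ hζ
  obtain ⟨γ, hγ, hgen, hC, hm⟩ := h72_exists_gen L₀ C hcyc
  have hpm : ¬ p ∣ Nat.card C := fun h =>
    hp.one_lt.ne' (Nat.eq_one_of_dvd_coprimes hcop h (dvd_refl p))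
  have hC0 : ((Nat.card C : ℕ) : ZMod p) ≠ 0 := by
    rw [Ne, ZMod.natCast_eq_zero_iff]
    exact hpm
  have hWfin : Module.Finite (ZMod p) W := Module.Finite.of_finite
  have hAfin : Module.Finite (ZMod p) (ZMod p ⊗[ℤ] Additive ↥(h33_ES S L₀.F)) :=
    h33_ES_finite S p L₀.F
  obtain ⟨e, he⟩ := hH γ (Nat.card C) hm hpm
  obtain ⟨ePf, hePf⟩ := hP1
  obtain ⟨CC, _, _, JJ, _, _, XX, _, _, κ, ev, zz, hA⟩ := h70_exists_ambient p hp2 S hpS
  -- the three terms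
  have hh0 := h95_h0_coind L₀ C σ
  have hh1 := h33_h1_base L₀ C σ hcop hpS hζ hCK γ hC hγ
  have hh2 := h95_h2_base_G hp2 hpS hA L₀ hχ hsplit C hcop σ
  have hω : h95_ωbar L₀ hχ (h72_cbar L₀) = -1 :=
    (h95_ωbar_mk L₀ hχ complexConjugation).trans (Fermat.Agent.S41.h61_cycloChar_complexConj p)
  have key := h96_base_count_gen (k := ZMod p) (G := GQ ⧸ L₀.U) C
    (⟨QuotientGroup.mk' L₀.U γ, hγ⟩ : C) hC0 hgen σ (h95_ωbar L₀ hχ) (h72_cbar L₀) hω
    (h33_actA S p L₀.F γ) (L := ZMod p) (Module.finrank_self (ZMod p))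
    ((((cycloChar p γ : (ZMod p)ˣ) : ZMod p)) • (1 : Module.End (ZMod p) (ZMod p)))
    (fun x => rfl)
    (MulAction.toPerm (h97_π L₀.F γ) : Equiv.Perm (InfinitePlace ↥L₀.F))
    (h13_permT (h59_T ↥L₀.F S) (h97_π L₀.F γ) (h33_T_stable S L₀.F (h97_π L₀.F γ)))
    (h13_permLin (ZMod p) _) (h13_permLin_apply (ZMod p) _)
    (h13_permLin (ZMod p) _) (h13_permLin_apply (ZMod p) _)
    e he (fun q : ↥S => h95_Dbar L₀ q.1) ePf (hePf γ)
    (h72_infEquiv L₀).symm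
    (fun v => by
      apply (h72_infEquiv L₀).injective
      rw [Equiv.apply_symm_apply]
      show _ = h72_infEquiv L₀ ((QuotientGroup.mk γ : GQ ⧸ L₀.U) • (h72_infEquiv L₀).symm v)
      rw [h72_infEquiv_smul, Equiv.apply_symm_apply]
      rfl)
    (Module.finrank (ZMod p) ↥(h4_H (h72_levels S) (h95_Mσ L₀ C σ) 0))
    (Module.finrank (ZMod p) ↥(h4_H (h72_levels S) (h95_Mσ L₀ C σ) 1))
    (Module.finrank (ZMod p) ↥(h4_H (h72_levels S) (h95_Mσ L₀ C σ) 2))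
    (by rw [hh0])
    (by rw [hh1]; rfl)
    (by
      have h2' : (Module.finrank (ZMod p) ↥(h4_H (h72_levels S) (h95_Mσ L₀ C σ) 2) : ℤ) +
          Module.finrank (ZMod p)
            ↥(h95_dualInv (Representation.coind C.subtype σ) (h95_ωbar L₀ hχ) ⊤) =
          ∑ q : ↥S, (Module.finrank (ZMod p)
            ↥(h95_dualInv (Representation.coind C.subtype σ) (h95_ωbar L₀ hχ)
              (h95_Dbar L₀ q.1)) : ℤ) := by
        exact_mod_cast hh2
      have h3 : (Module.finrank (ZMod p) ↥(h4_H (h72_levels S) (h95_Mσ L₀ C σ) 2) : ℤ) =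
          ∑ q : ↥S, (Module.finrank (ZMod p)
            ↥(h95_dualInv (Representation.coind C.subtype σ) (h95_ωbar L₀ hχ)
              (h95_Dbar L₀ q.1)) : ℤ) -
          Module.finrank (ZMod p)
            ↥(h95_dualInv (Representation.coind C.subtype σ) (h95_ωbar L₀ hχ) ⊤) := by
        linarith
      exact h3)
  have key2 : h72_chi S (h72_infl L₀ (Representation.coind C.subtype σ)) =
      -(Module.finrank (ZMod p) ↥(Module.End.eigenspace
        (Representation.coind C.subtype σ (QuotientGroup.mk complexConjugation))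
          (-1 : ZMod p)) : ℤ) := key
  unfold h72_delta
  rw [h72_ker_add_one_eq, key2, neg_add_cancel]

end Fermat.Agent.S56
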