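import Fermat.Agent.S56.h72_ECofBase
import Fermat.Agent.S56.h97_Split0EC
import Fermat.Agent.S56.h92_ClassKill
import Fermat.Agent.S56.h70_Recip

/-!
# S56, front W1: (E) Tate's Euler characteristic formula in the consumer shape, from BASE

`h72_EC_final_of_base` : the hypothesis `hEC` of helper69's `h69_R1_of` (MID-R1, row 600),
verbatim, from the base case `hBASE` stated at a level `L₀` with

* `ζ_p ∈ L₀.F`,
* `h95_Split0 p S L₀` (helper97: holds for `S ⊇ T0`),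
* the class-kill statement at `(S, L₀.F)` (helper92: holds for `S ⊇ T0`).

Choice of `T0`: helper97's `h97_exists_T0_split0_EC'` and helper92's `h92_ck_selmer_level`;
the ambient is helper70's `h70_exists_ambient`; the dévissage is `h72_EC_of_base`.
-/

set_option autoImplicit false

open CategoryTheory Module groupCohomology ExtCitation NumberField IsDedekindDomain

noncomputable section

namespace Fermat.Agent.S56

open Fermat.Agent.S55

local notation "GQ" => (AlgebraicClosure ℚ ≃ₐ[ℚ] AlgebraicClosure ℚ)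

/-- **(E) W1-EC, consumer shape, modulo the base case.** -/
theorem h72_EC_final_of_base (p : ℕ) [Fact p.Prime] (hp2 : p ≠ 2)
    (hBASE : ∀ S : Finset Nat.Primes, pPrime p ∈ S → ∀ (L₀ : h72_Lev S) (ζ : ↥L₀.F),
      IsPrimitiveRoot ζ p → h95_Split0 p S L₀ →
      (∀ c : (↥L₀.F)ˣ ⧸ (powMonoidHom p : (↥L₀.F)ˣ →* (↥L₀.F)ˣ).range,
        c ∈ selmerGroup (R := 𝓞 ↥L₀.F) (K := ↥L₀.F) (S := h46_primesOver S L₀.F) (n := p) →
        ∃ u ∈ (h46_primesOver S L₀.F).unit ↥L₀.F,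
          (QuotientGroup.mk u : (↥L₀.F)ˣ ⧸ (powMonoidHom p : (↥L₀.F)ˣ →* (↥L₀.F)ˣ).range) = c) →
      ∀ C : Subgroup (GQ ⧸ L₀.U), IsCyclic C → (Nat.card C).Coprime p →
      ∀ (W : Type) [AddCommGroup W] [Module (ZMod p) W] [Finite W]
        (σ : Representation (ZMod p) C W),
        h72_delta S L₀ (Representation.coindV C.subtype σ)
          (Representation.coind C.subtype σ) = 0) :
    ∀ Smin' : Finset Nat.Primes, pPrime p ∈ Smin' →
      ∀ F0 : IntermediateField ℚ (AlgebraicClosure ℚ), F0.IsUnramifiedOutside Smin' →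
      IsGalois ℚ F0 → (∃ ζ ∈ F0, IsPrimitiveRoot ζ p) →
      ∃ T0 : Finset Nat.Primes, ∀ S : Finset Nat.Primes, Smin' ∪ T0 ⊆ S →
        ∀ (M : Rep.{0, 0, 0} (ZMod p) GQ) [Finite M], (∀ s ∈ F0.fixingSubgroup, M.ρ s = 1) →
          h72_chi S M =
            -(Module.finrank (ZMod p) ↥(LinearMap.ker (M.ρ complexConjugation + 1)) : ℤ) := by
  classical
  intro Smin' hpS F0 hunr hgal hζ
  obtain ⟨ζ, hζF, hζ⟩ := hζ
  have hfd : FiniteDimensional ℚ ↥F0 := hunr.1
  have hnf : NumberField ↥F0 := { to_charZero := inferInstance, to_finiteDimensional := hfd }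
  have hζ' : IsPrimitiveRoot (⟨ζ, hζF⟩ : ↥F0) p :=
    (IsPrimitiveRoot.coe_submonoidClass_iff (ζ := (⟨ζ, hζF⟩ : ↥F0))).mp hζ
  obtain ⟨T1, _, _, hT1⟩ := h97_exists_T0_split0_EC' p F0 hgal hζ'
  obtain ⟨T2, hT2⟩ := h92_ck_selmer_level F0
  refine ⟨T1 ∪ T2, fun S hS M _ hM => ?_⟩
  have hS0 : Smin' ⊆ S := Finset.union_subset_left hS
  have hS12 : T1 ∪ T2 ⊆ S := Finset.union_subset_right hS
  have hS1 : T1 ⊆ S := Finset.union_subset_left hS12
  have hS2 : T2 ⊆ S := Finset.union_subset_right hS12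
  have hpS' : pPrime p ∈ S := hS0 hpS
  let L₀ : h72_Lev S := ⟨F0, hunr.mono hS0, hgal⟩
  obtain ⟨CC, _, _, JJ, _, _, XX, _, _, κ, ev, zz, hA⟩ := h70_exists_ambient p hp2 S hpS'
  exact h72_EC_of_base hp2 hpS' hA L₀
    (hBASE S hpS' L₀ ⟨ζ, hζF⟩ hζ' (hT1 S hS1 L₀ rfl) (hT2 S hS2 p)) M hM

end Fermat.Agent.S56
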