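import Fermat.Agent.S56.h72_Base
import Fermat.Agent.S56.h72_ECFinal
import Fermat.Agent.S56.h33_BaseInputs

/-!
# S56, front W1: Tate's global Euler characteristic formula — CLOSED

* `h72_base` : the BASE case (`h72_delta = 0` on the modules coinduced from cyclic subgroups of
  order prime to `p`), at every level `L₀ ∋ ζ_p` with `Split0` and class-kill;
* `h72_EC_final` : for every finite Galois `F0 ∋ ζ_p` unramified outside `Smin' ∋ p` there is a
  finite `T0` such that for all `S ⊇ Smin' ∪ T0` and all finite `𝔽_p[G_ℚ]`-modules `M` trivial on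
  `Gal(ℚ̄/F0)`:   `h⁰ - h¹ + h² (G_S, M) = - dim ker (M.ρ c + 1)`   (`c` complex conjugation).

`h72_EC_final p hp2` is the hypothesis `hEC` of helper69's `h69_R1_of`, verbatim.
-/

set_option autoImplicit false

open CategoryTheory Module groupCohomology ExtCitation NumberField IsDedekindDomain TensorProduct

noncomputable section

namespace Fermat.Agent.S56

open Fermat.Agent.S55

local notation "GQ" => (AlgebraicClosure ℚ ≃ₐ[ℚ] AlgebraicClosure ℚ)

/-- **W1-BASE.** -/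
theorem h72_base {p : ℕ} [Fact p.Prime] (hp2 : p ≠ 2) (S : Finset Nat.Primes)
    (hpS : pPrime p ∈ S) (L₀ : h72_Lev S) (ζ : ↥L₀.F)
    (hζ : IsPrimitiveRoot ζ p) (hsplit : h95_Split0 p S L₀)
    (hCK : ∀ c : (↥L₀.F)ˣ ⧸ (powMonoidHom p : (↥L₀.F)ˣ →* (↥L₀.F)ˣ).range,
      c ∈ selmerGroup (R := 𝓞 ↥L₀.F) (K := ↥L₀.F) (S := h46_primesOver S L₀.F) (n := p) →
      ∃ u ∈ (h46_primesOver S L₀.F).unit ↥L₀.F,
        (QuotientGroup.mk u : (↥L₀.F)ˣ ⧸ (powMonoidHom p : (↥L₀.F)ˣ →* (↥L₀.F)ˣ).range) = c)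
    (C : Subgroup (GQ ⧸ L₀.U)) (hcyc : IsCyclic C) (hcop : (Nat.card C).Coprime p)
    (W : Type) [AddCommGroup W] [Module (ZMod p) W] [Finite W]
    (σ : Representation (ZMod p) C W) :
    h72_delta S L₀ (Representation.coindV C.subtype σ) (Representation.coind C.subtype σ) = 0 :=
  h72_base_of hp2 hpS L₀ ζ hζ hsplit hCK
    (fun γ m hm hpm => h33_herb_level L₀ hζ γ m hm hpm)
    ⟨h33_ePf L₀, h33_ePf_perm L₀⟩ C hcyc hcop W σ

/-- **(EC) Tate's global Euler characteristic formula**, in the shape consumed by MID-R1. -/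
theorem h72_EC_final (p : ℕ) [Fact p.Prime] (hp2 : p ≠ 2) :
    ∀ Smin' : Finset Nat.Primes, pPrime p ∈ Smin' →
      ∀ F0 : IntermediateField ℚ (AlgebraicClosure ℚ), F0.IsUnramifiedOutside Smin' →
      IsGalois ℚ F0 → (∃ ζ ∈ F0, IsPrimitiveRoot ζ p) →
      ∃ T0 : Finset Nat.Primes, ∀ S : Finset Nat.Primes, Smin' ∪ T0 ⊆ S →
        ∀ (M : Rep.{0, 0, 0} (ZMod p) GQ) [Finite M], (∀ s ∈ F0.fixingSubgroup, M.ρ s = 1) →
          h72_chi S M =
            -(Module.finrank (ZMod p) ↥(LinearMap.ker (M.ρ complexConjugation + 1)) : ℤ) :=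
  h72_EC_final_of_base p hp2
    (fun S hpS L₀ ζ hζ hsplit hCK => h72_base hp2 S hpS L₀ ζ hζ hsplit hCK)

end Fermat.Agent.S56
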