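import Fermat.Agent.S56.h72_ChiLevels

/-!
# S56, front W1: degree 2 of helper4's level cohomology is the Prelude's `continuousH2S`

* `h72_toZ2`   : `levelCocyclesS₂ S M ≃ h4_Z (h72_levels S) M 2` (as a linear map with inverse
  on representatives);
* `h72_Psi2`   : `levelCocyclesS₂ S M →ₗ h4_H (h72_levels S) M 2`, surjective, with kernel the
  `S`-level coboundaries;
* `h72_H2equiv : continuousH2S S M ≃ₗ[𝔽_p] h4_H (h72_levels S) M 2`;
* `h72_h4_H2_finite`, `h72_h4_H2_finrank` : finiteness and `dim = dim Hom_G(M, CC)`;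
* `h72_h4_map2_surjective` : right exactness of `H²` in helper4's language.
-/

set_option autoImplicit false
set_option linter.unusedSectionVars false
set_option linter.unusedVariables false
set_option maxHeartbeats 400000

open CategoryTheory Module groupCohomology ExtCitation

namespace Fermat.Agent.S56

open Fermat.Agent.S55

local notation "GQ" => (AlgebraicClosure ℚ ≃ₐ[ℚ] AlgebraicClosure ℚ)

section Deg2

variable {p : ℕ} [Fact p.Prime] (S : Finset Nat.Primes) (M : Rep.{0, 0, 0} (ZMod p) GQ)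

/-- Prelude `S`-level 2-cocycles as level 2-cocycles in `Fin 2 → G` variables. -/
noncomputable def h72_toZ2 : ↥(levelCocyclesS₂ S M) →ₗ[ZMod p] ↥(h4_Z (h72_levels S) M 2) where
  toFun c := ⟨fun v => (c : GQ × GQ → M) (v 0, v 1), by
    obtain ⟨hc1, hc2⟩ := (mem_levelCocyclesS₂_iff S M c.1).1 c.2
    exact ⟨(h72_isLevel_two S _).2 hc2, (h72_d2_eq_zero_iff M _).2 hc1⟩⟩
  map_add' c c' := rfl
  map_smul' a c := rfl

theorem h72_toZ2_apply (c : ↥(levelCocyclesS₂ S M)) (v : Fin 2 → GQ) :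
    (h72_toZ2 S M c).1 v = (c : GQ × GQ → M) (v 0, v 1) := rfl

theorem h72_toZ2_surjective : Function.Surjective (h72_toZ2 S M) := by
  intro z
  refine ⟨⟨fun x => z.1 ![x.1, x.2], (mem_levelCocyclesS₂_iff S M _).2
    ⟨(h72_d2_eq_zero_iff M z.1).1 z.2.2, (h72_isLevel_two S z.1).1 z.2.1⟩⟩, ?_⟩
  apply Subtype.ext
  funext v
  show z.1 ![v 0, v 1] = z.1 v
  rw [h72_vec2_eta]

/-- The class map to helper4's level cohomology in degree 2. -/
noncomputable def h72_Psi2 : ↥(levelCocyclesS₂ S M) →ₗ[ZMod p] ↥(h4_H (h72_levels S) M 2) :=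
  (h4_π (h72_levels S) M 2).comp (h72_toZ2 S M)

theorem h72_Psi2_surjective : Function.Surjective (h72_Psi2 S M) :=
  (h4_π_surjective (h72_levels S) M 2).comp (h72_toZ2_surjective S M)

theorem h72_Psi2_eq_zero_iff (c : ↥(levelCocyclesS₂ S M)) :
    h72_Psi2 S M c = 0 ↔ (c : GQ × GQ → M) ∈ levelCoboundariesS₂ S M := by
  show h4_π (h72_levels S) M 2 (h72_toZ2 S M c) = 0 ↔ _
  rw [h4_π_eq_zero_iff_succ, mem_levelCoboundariesS₂_iff]
  constructor
  · rintro ⟨y, hy, hyz⟩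
    refine ⟨fun g => y (fun _ => g), (h72_isLevel_one S y).1 hy, ?_⟩
    rw [(h72_d1_eq_iff M y _).1 hyz]
    funext x
    rfl
  · rintro ⟨x, hx, hxc⟩
    refine ⟨fun v => x (v 0), (h72_isLevel_one S _).2 hx, ?_⟩
    rw [h72_d1_eq_iff]
    show (d₁₂ M).hom x = _
    rw [hxc]
    funext x
    rfl

theorem h72_ker_Psi2 : LinearMap.ker (h72_Psi2 S M) =
    (levelCoboundariesS₂ S M).comap (levelCocyclesS₂ S M).subtype := by
  ext c
  rw [LinearMap.mem_ker, h72_Psi2_eq_zero_iff]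
  rfl

/-- **Degree 2 comparison**: the Prelude's `H²_S(M)` is helper4's level cohomology. -/
noncomputable def h72_H2equiv : continuousH2S S M ≃ₗ[ZMod p] ↥(h4_H (h72_levels S) M 2) :=
  (Submodule.quotEquivOfEq _ _ (h72_ker_Psi2 S M).symm).trans
    ((h72_Psi2 S M).quotKerEquivOfSurjective (h72_Psi2_surjective S M))

theorem h72_H2equiv_mk (c : ↥(levelCocyclesS₂ S M)) :
    h72_H2equiv S M (continuousH2Sπ S M c) = h72_Psi2 S M c := rfl

end Deg2

section Exact2

variable {p : ℕ} [Fact p.Prime] (S : Finset Nat.Primes)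
  {CC : Type} [AddCommGroup CC] [DistribMulAction GQ CC]
  {JJ : ↥S → Type} [∀ q, AddCommGroup (JJ q)] [∀ q, DistribMulAction GQ (JJ q)]
  {XX : ↥S → Type} [∀ q, AddCommGroup (XX q)]
  [∀ q : ↥S, DistribMulAction (primeLocalGaloisGroup q.1) (XX q)]
  {κ : ∀ q, JJ q →+ CC} {ev : ∀ q, JJ q →+ XX q} {zz : ∀ q, XX q}

/-- helper4's `H²` of a finite `S`-module is finite-dimensional, of dimension
`dim Hom_G(M, CC)`. -/
theorem h72_h4_H2_finite_finrank (hpS : pPrime p ∈ S) (M : Rep.{0, 0, 0} (ZMod p) GQ)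
    [FiniteDimensional (ZMod p) M] (hA : h72_PTAmbient p S CC JJ XX κ ev zz)
    (L₀ : h72_Lev S) (hL₀ : ∀ s ∈ L₀.U, M.ρ s = 1) :
    Module.Finite (ZMod p) ↥(h4_H (h72_levels S) M 2) ∧
      Module.finrank (ZMod p) ↥(h4_H (h72_levels S) M 2) =
        Module.finrank (ZMod p) (h95_H M CC) := by
  obtain ⟨hfin, hrank⟩ := h72_H2_finite_finrank S hpS M hA L₀ hL₀
  exact ⟨Module.Finite.equiv (h72_H2equiv S M), by rw [← hrank, (h72_H2equiv S M).finrank_eq]⟩

/-- **Right exactness of `H²`** in helper4's language: an epimorphism of finite `S`-modules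
induces a surjection on level cohomology in degree 2. -/
theorem h72_h4_map2_surjective (hpS : pPrime p ∈ S) (M M'' : Rep.{0, 0, 0} (ZMod p) GQ)
    [FiniteDimensional (ZMod p) M] [FiniteDimensional (ZMod p) M'']
    (hA : h72_PTAmbient p S CC JJ XX κ ev zz)
    (L₀ : h72_Lev S) (hL₀ : ∀ s ∈ L₀.U, M.ρ s = 1)
    (φ : M ⟶ M'') (hφ : Function.Surjective φ.hom) :
    Function.Surjective
      (h4_map (MonoidHom.id GQ) (h72_levels S).compat_id φ 2).hom := by
  intro y
  obtain ⟨c'', rfl⟩ := h72_Psi2_surjective S M'' y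
  obtain ⟨c, hc⟩ := h72_H2_right_exact S hpS M M'' hA L₀ hL₀ φ.hom.toLinearMap
    (fun g m => Rep.hom_comm_apply φ g m) hφ (continuousH2Sπ S M'' c'')
  refine ⟨h72_Psi2 S M c, ?_⟩
  have h1 : h72_Psi2 S M'' (h72_cocMap S M M'' φ.hom.toLinearMap
      (fun g m => Rep.hom_comm_apply φ g m) c) = h72_Psi2 S M'' c'' := by
    rw [← h72_H2equiv_mk, ← h72_H2equiv_mk]
    exact congrArg (h72_H2equiv S M'') hc
  rw [← h1]
  show (h4_map (MonoidHom.id GQ) (h72_levels S).compat_id φ 2).hom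
    (h4_π (h72_levels S) M 2 (h72_toZ2 S M c)) = _
  rw [h4_map_π]
  rfl

end Exact2

end Fermat.Agent.S56
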