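import Fermat.Agent.S56.h72_BaseDefs
import Fermat.Agent.S56.h25_RepAdd

/-!
# S56, front W1: (G) W1-GLUE — the invariant of the dévissage is additive

`h72_delta S L₀ V ρ = χ_S(infl ρ) + dim ker (ρ(c̄) + 1)` (`c` the complex conjugation) is an
additive invariant of `𝔽_p[G_ℚ ⧸ L₀.U]`-modules in helper25's sense:

* `h72_negEig_additive` : the `(-1)`-eigenspace of an involution is additive (`p` odd);
* `h72_chi_infl_additive` : `χ_S ∘ infl` is additive (from `h72_chi_additive`);
* `h72_delta_isAdditive : h25_IsAdditive p (G_ℚ ⧸ L₀.U) (h72_delta S L₀)`.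
-/

set_option autoImplicit false

open CategoryTheory Module groupCohomology ExtCitation

noncomputable section

namespace Fermat.Agent.S56

open Fermat.Agent.S55

local notation "GQ" => (AlgebraicClosure ℚ ≃ₐ[ℚ] AlgebraicClosure ℚ)

variable {p : ℕ} [Fact p.Prime]

/-! ### The `(-1)`-eigenspace of an involution -/

section NegEig

variable {G : Type} [Group G]
  {V' V V'' : Type} [AddCommGroup V'] [Module (ZMod p) V'] [AddCommGroup V] [Module (ZMod p) V]
  [AddCommGroup V''] [Module (ZMod p) V''] [Module.Finite (ZMod p) V]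

/-- The `(-1)`-eigenspace of an involution is additive in short exact sequences (`p ≠ 2`). -/
theorem h72_negEig_additive (hp2 : p ≠ 2)
    (ρ' : Representation (ZMod p) G V') (ρ : Representation (ZMod p) G V)
    (ρ'' : Representation (ZMod p) G V'') (i : V' →ₗ[ZMod p] V) (q : V →ₗ[ZMod p] V'')
    (hi : ∀ g v, i (ρ' g v) = ρ g (i v)) (hq : ∀ g v, q (ρ g v) = ρ'' g (q v))
    (hinj : Function.Injective i) (hsurj : Function.Surjective q)
    (hex : ∀ v, q v = 0 ↔ ∃ v', i v' = v) (c : G) (hc : c * c = 1) :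
    Module.finrank (ZMod p) ↥(LinearMap.ker (ρ c + 1)) =
      Module.finrank (ZMod p) ↥(LinearMap.ker (ρ' c + 1)) +
        Module.finrank (ZMod p) ↥(LinearMap.ker (ρ'' c + 1)) := by
  have hp : p.Prime := Fact.out
  have h2 : (2 : ZMod p) ≠ 0 := by
    intro h
    have h' : ((2 : ℕ) : ZMod p) = 0 := by exact_mod_cast h
    rw [ZMod.natCast_eq_zero_iff] at h'
    exact hp2 ((Nat.prime_dvd_prime_iff_eq hp Nat.prime_two).1 h')
  have hcc : ∀ v, ρ c (ρ c v) = v := by
    intro v
    have := congrArg (fun f => f v) (map_mul ρ c c)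
    simp only [hc, map_one, Module.End.one_apply, Module.End.mul_apply] at this
    exact this.symm
  have hcc'' : ∀ v, ρ'' c (ρ'' c v) = v := by
    intro v
    have := congrArg (fun f => f v) (map_mul ρ'' c c)
    simp only [hc, map_one, Module.End.one_apply, Module.End.mul_apply] at this
    exact this.symm
  -- the restricted maps
  have ha : ∀ x ∈ LinearMap.ker (ρ' c + 1), i x ∈ LinearMap.ker (ρ c + 1) := by
    intro x hx
    rw [LinearMap.mem_ker, LinearMap.add_apply, Module.End.one_apply] at hx ⊢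
    rw [← hi, ← map_add, hx, map_zero]
  have hb : ∀ x ∈ LinearMap.ker (ρ c + 1), q x ∈ LinearMap.ker (ρ'' c + 1) := by
    intro x hx
    rw [LinearMap.mem_ker, LinearMap.add_apply, Module.End.one_apply] at hx ⊢
    rw [← hq, ← map_add, hx, map_zero]
  set a := i.restrict ha with ha_def
  set b := q.restrict hb with hb_def
  have hainj : Function.Injective a := by
    intro x y hxy
    apply Subtype.ext
    apply hinj
    exact congrArg Subtype.val hxy
  have hbsurj : Function.Surjective b := by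
    rintro ⟨v'', hv''⟩
    rw [LinearMap.mem_ker, LinearMap.add_apply, Module.End.one_apply] at hv''
    obtain ⟨v, rfl⟩ := hsurj v''
    have hw : (2 : ZMod p)⁻¹ • (v - ρ c v) ∈ LinearMap.ker (ρ c + 1) := by
      rw [LinearMap.mem_ker, LinearMap.add_apply, Module.End.one_apply, map_smul, map_sub, hcc,
        ← smul_add]
      have : ρ c v - v + (v - ρ c v) = 0 := by abel
      rw [this, smul_zero]
    refine ⟨⟨_, hw⟩, ?_⟩
    apply Subtype.ext
    show q ((2 : ZMod p)⁻¹ • (v - ρ c v)) = q v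
    rw [map_smul, map_sub, hq]
    have e : ρ'' c (q v) = - q v := eq_neg_of_add_eq_zero_left hv''
    rw [e, sub_neg_eq_add, ← two_smul (ZMod p) (q v), smul_smul, inv_mul_cancel₀ h2, one_smul]
  have hexab : Function.Exact a b := by
    intro y
    constructor
    · intro hy
      have hy' : q (y : V) = 0 := congrArg Subtype.val hy
      obtain ⟨v', hv'⟩ := (hex _).1 hy'
      have hv'k : v' ∈ LinearMap.ker (ρ' c + 1) := by
        rw [LinearMap.mem_ker, LinearMap.add_apply, Module.End.one_apply]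
        apply hinj
        rw [map_add, hi, hv', map_zero]
        have := y.2
        rw [LinearMap.mem_ker, LinearMap.add_apply, Module.End.one_apply] at this
        exact this
      exact ⟨⟨v', hv'k⟩, Subtype.ext hv'⟩
    · rintro ⟨x, rfl⟩
      apply Subtype.ext
      show q (i (x : V')) = 0
      exact (hex _).2 ⟨_, rfl⟩
  have c1 := h72_finrank_exact a b hexab
  have c2 : Module.finrank (ZMod p) (LinearMap.range a) =
      Module.finrank (ZMod p) ↥(LinearMap.ker (ρ' c + 1)) := LinearMap.finrank_range_of_inj hainj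
  have c3 : Module.finrank (ZMod p) (LinearMap.range b) =
      Module.finrank (ZMod p) ↥(LinearMap.ker (ρ'' c + 1)) := by
    rw [LinearMap.range_eq_top.2 hbsurj, finrank_top]
  omega

end NegEig

/-! ### `χ_S ∘ infl` is additive -/

section Chi

variable {S : Finset Nat.Primes}
  {CC : Type} [AddCommGroup CC] [DistribMulAction GQ CC]
  {JJ : ↥S → Type} [∀ q, AddCommGroup (JJ q)] [∀ q, DistribMulAction GQ (JJ q)]
  {XX : ↥S → Type} [∀ q, AddCommGroup (XX q)]
  [∀ q : ↥S, DistribMulAction (primeLocalGaloisGroup q.1) (XX q)]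
  {κ : ∀ q, JJ q →+ CC} {ev : ∀ q, JJ q →+ XX q} {zz : ∀ q, XX q}

theorem h72_infl_ρ (L₀ : h72_Lev S) {V : Type} [AddCommGroup V] [Module (ZMod p) V]
    (ρ : Representation (ZMod p) (GQ ⧸ L₀.U) V) (g : GQ) :
    (h72_infl L₀ ρ).ρ g = ρ (QuotientGroup.mk g) := rfl

theorem h72_infl_trivial (L₀ : h72_Lev S) {V : Type} [AddCommGroup V] [Module (ZMod p) V]
    (ρ : Representation (ZMod p) (GQ ⧸ L₀.U) V) (s : GQ) (hs : s ∈ L₀.U) :
    (h72_infl L₀ ρ).ρ s = 1 := by
  rw [h72_infl_ρ, (QuotientGroup.eq_one_iff s).2 hs, map_one]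
  rfl

/-- `χ_S ∘ infl` is additive in short exact sequences of `𝔽_p[G_ℚ ⧸ L₀.U]`-modules. -/
theorem h72_chi_infl_additive (hpS : pPrime p ∈ S) (hA : h72_PTAmbient p S CC JJ XX κ ev zz)
    (L₀ : h72_Lev S)
    {V' V V'' : Type} [AddCommGroup V'] [Module (ZMod p) V'] [AddCommGroup V] [Module (ZMod p) V]
    [AddCommGroup V''] [Module (ZMod p) V''] [Module.Finite (ZMod p) V]
    (ρ' : Representation (ZMod p) (GQ ⧸ L₀.U) V') (ρ : Representation (ZMod p) (GQ ⧸ L₀.U) V)
    (ρ'' : Representation (ZMod p) (GQ ⧸ L₀.U) V'') (i : V' →ₗ[ZMod p] V) (q : V →ₗ[ZMod p] V'')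
    (hi : ∀ g v, i (ρ' g v) = ρ g (i v)) (hq : ∀ g v, q (ρ g v) = ρ'' g (q v))
    (hinj : Function.Injective i) (hsurj : Function.Surjective q)
    (hex : ∀ v, q v = 0 ↔ ∃ v', i v' = v) :
    h72_chi S (h72_infl L₀ ρ) = h72_chi S (h72_infl L₀ ρ') + h72_chi S (h72_infl L₀ ρ'') := by
  -- the morphisms in `Rep`
  let fi : Representation.IntertwiningMap (ρ'.comp (QuotientGroup.mk' L₀.U))
      (ρ.comp (QuotientGroup.mk' L₀.U)) :=
    LinearMap.intertwiningMap_of_isIntertwiningMap _ _ i (fun g v => hi _ v)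
  let fq : Representation.IntertwiningMap (ρ.comp (QuotientGroup.mk' L₀.U))
      (ρ''.comp (QuotientGroup.mk' L₀.U)) :=
    LinearMap.intertwiningMap_of_isIntertwiningMap _ _ q (fun g v => hq _ v)
  have w : (Rep.ofHom fi : h72_infl L₀ ρ' ⟶ h72_infl L₀ ρ) ≫
      (Rep.ofHom fq : h72_infl L₀ ρ ⟶ h72_infl L₀ ρ'') = 0 := by
    ext x
    exact (hex _).2 ⟨x, rfl⟩
  let X : ShortComplex (Rep.{0, 0, 0} (ZMod p) GQ) := ShortComplex.mk _ _ w
  have hX : X.ShortExact := by
    have hmono : Mono X.f := (Rep.mono_iff_injective _).2 hinj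
    have hepi : Epi X.g := (Rep.epi_iff_surjective _).2 hsurj
    refine ShortComplex.ShortExact.mk ?_
    rw [← ShortComplex.exact_map_iff_of_faithful X (forget₂ (Rep (ZMod p) GQ) (ModuleCat (ZMod p))),
      ShortComplex.moduleCat_exact_iff]
    intro y hy
    obtain ⟨x, hx⟩ := (hex y).1 hy
    exact ⟨x, hx⟩
  haveI : Module.Finite (ZMod p) V' := Module.Finite.of_injective i hinj
  haveI : Module.Finite (ZMod p) V'' := Module.Finite.of_surjective q hsurj
  haveI : FiniteDimensional (ZMod p) X.X₁ := inferInstanceAs (Module.Finite (ZMod p) V')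
  haveI : FiniteDimensional (ZMod p) X.X₂ := inferInstanceAs (Module.Finite (ZMod p) V)
  haveI : FiniteDimensional (ZMod p) X.X₃ := inferInstanceAs (Module.Finite (ZMod p) V'')
  exact h72_chi_additive S hpS hA X hX L₀ (fun s hs => h72_infl_trivial L₀ ρ s hs)

/-- **(G) W1-GLUE.** The invariant `h72_delta S L₀` of the dévissage is additive. -/
theorem h72_delta_isAdditive (hp2 : p ≠ 2) (hpS : pPrime p ∈ S)
    (hA : h72_PTAmbient p S CC JJ XX κ ev zz) (L₀ : h72_Lev S) :
    h25_IsAdditive p (GQ ⧸ L₀.U) (h72_delta S L₀) := by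
  constructor
  intro V' V V'' _ _ _ _ _ _ _ ρ' ρ ρ'' i q hi hq hinj hsurj hex
  have : Module.Finite (ZMod p) V := Module.Finite.of_finite
  have hc : (QuotientGroup.mk complexConjugation : GQ ⧸ L₀.U) * QuotientGroup.mk complexConjugation
      = 1 := by
    rw [← QuotientGroup.mk_mul, complexConjugation_mul_self]
    rfl
  have h1 := h72_chi_infl_additive hpS hA L₀ ρ' ρ ρ'' i q hi hq hinj hsurj hex
  have h2 := h72_negEig_additive hp2 ρ' ρ ρ'' i q hi hq hinj hsurj hex _ hc
  unfold h72_delta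
  rw [h1, h2]
  push_cast
  ring

end Chi

end Fermat.Agent.S56
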