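import Fermat.Agent.S56.h72_LKZero
import Fermat.Agent.S55.h95_AsmFinal

/-!
# S56, front W1, duality package: `H²(G_S, M)` is DUAL to `Hom_G(M, CC)`

For a finite `𝔽_p[G_S]`-module `M` and the ambient system `h72_PTAmbient` of S55
(`CC` = the `p`-localised `S`-idele class module):

* `h72_pairing_of_facts` : the pairing `β : H × H²_S(M) → 𝔽_p` from the facts (T), (RK), (LK⁺),
  with `β f [c] = 0 ↔ f ∘ c` is a level coboundary of `CC`;
* `h72_H2_duality`       : `β : Hom_G(M, CC) × H²_S(M) → 𝔽_p` with both kernels ZERO;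
* `h72_H2_finite`, `h72_H2_finrank` : `H²_S(M)` is finite and
  `dim H²_S(M) = dim Hom_G(M, CC)`.

(No Tate-Nakayama shift, no `cd_p ≤ 2`, no divisibility of `CC`: only (RK) = `h73_asm_d1`,
(T) = `h32_asm_fund` and (LK⁺) = `h72_LK_zero`.)
-/

set_option autoImplicit false
set_option linter.unusedSectionVars false
set_option linter.unusedVariables false
set_option maxHeartbeats 400000

open CategoryTheory Module groupCohomology ExtCitation

namespace Fermat.Agent.S56

open Fermat.Agent.S55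

local notation "GQ" => (AlgebraicClosure ℚ ≃ₐ[ℚ] AlgebraicClosure ℚ)

section Pairing

variable {p : ℕ} [Fact p.Prime] (S : Finset Nat.Primes) (M : Rep (ZMod p) GQ)
  {CC : Type*} [AddCommGroup CC] [DistribMulAction GQ CC]

/-- **The pairing `β` from the facts (T), (RK), (LK⁺)**, with its explicit description. -/
theorem h72_pairing_of_facts
    {H : Type} [AddCommGroup H] [Module (ZMod p) H] (ev : H →+ (M →+ CC))
    (hev : ∀ (f : H) (g : GQ) (m : M), ev f (M.ρ g m) = g • ev f m)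
    (u₀ : GQ × GQ → CC)
    (hT1 : p • u₀ ∈ h56_levelCobS₂ S CC) (hT2 : u₀ ∉ h56_levelCobS₂ S CC)
    (hT3 : ∀ (f : H) (c : ↥(levelCocyclesS₂ S M)), ∃ k : ℕ,
      (fun x : GQ × GQ => ev f ((c : GQ × GQ → M) x) - k • u₀ x) ∈ h56_levelCobS₂ S CC)
    (hRK : ∀ c : ↥(levelCocyclesS₂ S M),
      (∀ f : H, (fun x : GQ × GQ => ev f ((c : GQ × GQ → M) x)) ∈ h56_levelCobS₂ S CC) →
        (c : GQ × GQ → M) ∈ levelCoboundariesS₂ S M)
    (hLK : ∀ f : H, (∀ c : ↥(levelCocyclesS₂ S M),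
      (fun x : GQ × GQ => ev f ((c : GQ × GQ → M) x)) ∈ h56_levelCobS₂ S CC) → f = 0) :
    ∃ β : H →ₗ[ZMod p] continuousH2S S M →ₗ[ZMod p] ZMod p,
      (∀ (f : H) (c : ↥(levelCocyclesS₂ S M)), β f (continuousH2Sπ S M c) = 0 ↔
        (fun x : GQ × GQ => ev f ((c : GQ × GQ → M) x)) ∈ h56_levelCobS₂ S CC) ∧
      (∀ y, (∀ f, β f y = 0) → y = 0) ∧ (∀ f, (∀ y, β f y = 0) → f = 0) := by
  classical
  have hpprime : p.Prime := Fact.out
  -- multiples of `u₀` which are level coboundaries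
  have key : ∀ n : ℤ, n • u₀ ∈ h56_levelCobS₂ S CC → (p : ℤ) ∣ n := by
    intro n hn
    by_contra hdvd
    have hcop : IsCoprime (p : ℤ) n :=
      ((Nat.prime_iff_prime_int.mp hpprime).irreducible.coprime_iff_not_dvd).2 hdvd
    obtain ⟨a, b, hab⟩ := hcop
    apply hT2
    have h1 : u₀ = a • ((p : ℤ) • u₀) + b • (n • u₀) := by
      rw [smul_smul, smul_smul, ← add_smul, hab, one_smul]
    rw [h1]
    refine (h56_levelCobS₂ S CC).add_mem ((h56_levelCobS₂ S CC).zsmul_mem ?_ a)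
      ((h56_levelCobS₂ S CC).zsmul_mem hn b)
    rw [natCast_zsmul]
    exact hT1
  choose kk hkk using hT3
  -- uniqueness of the multiple modulo `p`
  have huniq : ∀ (f : H) (c : ↥(levelCocyclesS₂ S M)) (n : ℤ),
      (fun x : GQ × GQ => ev f ((c : GQ × GQ → M) x) - n • u₀ x) ∈ h56_levelCobS₂ S CC →
        ((kk f c : ℕ) : ZMod p) = (n : ZMod p) := by
    intro f c n hn
    have h1 := (h56_levelCobS₂ S CC).sub_mem hn (hkk f c)
    have h2 : (fun x : GQ × GQ => ev f ((c : GQ × GQ → M) x) - n • u₀ x) -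
        (fun x : GQ × GQ => ev f ((c : GQ × GQ → M) x) - kk f c • u₀ x) =
          ((kk f c : ℤ) - n) • u₀ := by
      funext x
      simp only [Pi.sub_apply, Pi.smul_apply, sub_smul, natCast_zsmul]
      abel
    rw [h2] at h1
    have h3 := key _ h1
    have h4 : (((kk f c : ℤ) - n : ℤ) : ZMod p) = 0 :=
      (ZMod.intCast_zmod_eq_zero_iff_dvd _ p).2 h3
    push_cast at h4
    exact sub_eq_zero.1 h4
  -- the pairing on cocycles
  let b : H → ↥(levelCocyclesS₂ S M) → ZMod p := fun f c => ((kk f c : ℕ) : ZMod p)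
  have hb : ∀ f c, b f c = ((kk f c : ℕ) : ZMod p) := fun f c => rfl
  have hb_add_c : ∀ f c c', b f (c + c') = b f c + b f c' := by
    intro f c c'
    have h1 := (h56_levelCobS₂ S CC).add_mem (hkk f c) (hkk f c')
    have h2 : (fun x : GQ × GQ => ev f ((c : GQ × GQ → M) x) - kk f c • u₀ x) +
        (fun x : GQ × GQ => ev f ((c' : GQ × GQ → M) x) - kk f c' • u₀ x) =
        (fun x : GQ × GQ => ev f (((c + c' : ↥(levelCocyclesS₂ S M)) : GQ × GQ → M) x) -
          (((kk f c + kk f c' : ℕ) : ℤ)) • u₀ x) := by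
      funext x
      simp only [Pi.add_apply, Submodule.coe_add, map_add, natCast_zsmul, add_smul]
      abel
    rw [h2] at h1
    have h3 := huniq f (c + c') _ h1
    rw [hb, h3, hb, hb]
    push_cast
    rfl
  have hb_add_f : ∀ f f' c, b (f + f') c = b f c + b f' c := by
    intro f f' c
    have h1 := (h56_levelCobS₂ S CC).add_mem (hkk f c) (hkk f' c)
    have h2 : (fun x : GQ × GQ => ev f ((c : GQ × GQ → M) x) - kk f c • u₀ x) +
        (fun x : GQ × GQ => ev f' ((c : GQ × GQ → M) x) - kk f' c • u₀ x) =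
        (fun x : GQ × GQ => ev (f + f') ((c : GQ × GQ → M) x) -
          (((kk f c + kk f' c : ℕ) : ℤ)) • u₀ x) := by
      funext x
      simp only [Pi.add_apply, map_add, AddMonoidHom.add_apply, natCast_zsmul, add_smul]
      abel
    rw [h2] at h1
    have h3 := huniq (f + f') c _ h1
    rw [hb, h3, hb, hb]
    push_cast
    rfl
  have hb_zero_iff : ∀ f c, b f c = 0 ↔
      (fun x : GQ × GQ => ev f ((c : GQ × GQ → M) x)) ∈ h56_levelCobS₂ S CC := by
    intro f c
    constructor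
    · intro h0
      rw [hb] at h0
      obtain ⟨t, ht⟩ := (ZMod.natCast_eq_zero_iff _ _).1 h0
      have h1 : kk f c • u₀ ∈ h56_levelCobS₂ S CC := by
        rw [ht, mul_comm, mul_smul]
        exact (h56_levelCobS₂ S CC).nsmul_mem hT1 t
      have h2 := (h56_levelCobS₂ S CC).add_mem (hkk f c) h1
      have h3 : (fun x : GQ × GQ => ev f ((c : GQ × GQ → M) x) - kk f c • u₀ x) + kk f c • u₀ =
          (fun x : GQ × GQ => ev f ((c : GQ × GQ → M) x)) := by
        funext x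
        simp only [Pi.add_apply, Pi.smul_apply, sub_add_cancel]
      rwa [h3] at h2
    · intro h0
      have h1 : (fun x : GQ × GQ => ev f ((c : GQ × GQ → M) x) - (0 : ℤ) • u₀ x) ∈
          h56_levelCobS₂ S CC := by
        simpa using h0
      have h2 := huniq f c 0 h1
      rw [hb, h2]
      simp
  have hb_cob : ∀ (f : H) (c : ↥(levelCocyclesS₂ S M)),
      (c : GQ × GQ → M) ∈ levelCoboundariesS₂ S M → b f c = 0 := by
    intro f c hc
    rw [hb_zero_iff]
    exact h56_comp_mem_levelCobS₂ S M (ev f) (hev f) _ hc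
  -- linear maps
  let φ : H → (↥(levelCocyclesS₂ S M) →ₗ[ZMod p] ZMod p) := fun f =>
    AddMonoidHom.toZModLinearMap p (AddMonoidHom.mk' (b f) (hb_add_c f))
  have hφ : ∀ f c, φ f c = b f c := fun f c => rfl
  let F : H → (continuousH2S S M →ₗ[ZMod p] ZMod p) := fun f =>
    Submodule.liftQ _ (φ f) (by
      intro c hc
      rw [LinearMap.mem_ker, hφ]
      exact hb_cob f c (by simpa [Submodule.mem_comap] using hc))
  have hF : ∀ f c, F f (continuousH2Sπ S M c) = b f c := fun f c => rfl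
  have hF_add : ∀ f f', F (f + f') = F f + F f' := by
    intro f f'
    apply LinearMap.ext
    intro y
    obtain ⟨c, rfl⟩ := Submodule.mkQ_surjective _ y
    show F (f + f') (continuousH2Sπ S M c) = F f (continuousH2Sπ S M c) + F f' (continuousH2Sπ S M c)
    rw [hF, hF, hF, hb_add_f]
  let β : H →ₗ[ZMod p] continuousH2S S M →ₗ[ZMod p] ZMod p :=
    AddMonoidHom.toZModLinearMap p (AddMonoidHom.mk' F hF_add)
  have hβ : ∀ f c, β f (continuousH2Sπ S M c) = b f c := fun f c => rfl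
  refine ⟨β, fun f c => by rw [hβ, hb_zero_iff], ?_, ?_⟩
  · intro y hy
    obtain ⟨c, rfl⟩ := Submodule.mkQ_surjective _ y
    show continuousH2Sπ S M c = 0
    rw [continuousH2Sπ_eq_zero_iff]
    apply hRK
    intro f
    rw [← hb_zero_iff, ← hβ]
    exact hy f
  · intro f hf
    apply hLK
    intro c
    rw [← hb_zero_iff, ← hβ]
    exact hf _

end Pairing

section Duality

variable {p : ℕ} [Fact p.Prime] (S : Finset Nat.Primes)
  {CC : Type} [AddCommGroup CC] [DistribMulAction GQ CC]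
  {JJ : ↥S → Type} [∀ q, AddCommGroup (JJ q)] [∀ q, DistribMulAction GQ (JJ q)]
  {XX : ↥S → Type} [∀ q, AddCommGroup (XX q)]
  [∀ q : ↥S, DistribMulAction (primeLocalGaloisGroup q.1) (XX q)]
  {κ : ∀ q, JJ q →+ CC} {ev : ∀ q, JJ q →+ XX q} {zz : ∀ q, XX q}

/-- **Tate duality in degree 2, perfect form**: `Hom_G(M, CC) × H²_S(M) → 𝔽_p` has both
kernels zero, and `β f [c] = 0` iff `f ∘ c` is a level coboundary with values in `CC`. -/
theorem h72_H2_duality (hpS : pPrime p ∈ S) (M : Rep.{0, 0, 0} (ZMod p) GQ)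
    [FiniteDimensional (ZMod p) M] (hA : h72_PTAmbient p S CC JJ XX κ ev zz)
    (L₀ : h72_Lev S) (hL₀ : ∀ s ∈ L₀.U, M.ρ s = 1) :
    ∃ β : h95_H M CC →ₗ[ZMod p] continuousH2S S M →ₗ[ZMod p] ZMod p,
      (∀ (f : h95_H M CC) (c : ↥(levelCocyclesS₂ S M)), β f (continuousH2Sπ S M c) = 0 ↔
        (fun x : GQ × GQ => f.1 ((c : GQ × GQ → M) x)) ∈ h56_levelCobS₂ S CC) ∧
      (∀ y, (∀ f, β f y = 0) → y = 0) ∧ (∀ f, (∀ y, β f y = 0) → f = 0) := by
  classical
  have hpprime : p.Prime := Fact.out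
  obtain ⟨t, -, -, ht3, ht4, ht5⟩ := h32_asm_fund S hpS hA
  have hcoc : ∀ (f : M →+ CC), h72_IsEqv M f → ∀ c : GQ × GQ → M, c ∈ cocycles₂ M →
      IsCocycle₂ (fun x => f (c x)) := by
    intro f hf c hc g h k
    have h1 := (mem_cocycles₂_iff c).1 hc g h k
    show f (c (g * h, k)) + f (c (g, h)) = g • f (c (h, k)) + f (c (g, h * k))
    rw [← hf g, ← map_add, ← map_add, h1]
  refine h72_pairing_of_facts S M (h95_H M CC).subtype (fun f g m => f.2 g m) t ht3 ?_ ?_ ?_ ?_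
  · -- (T2)
    intro h
    have h1 : p ∣ 1 := ht5 1 (by rw [one_smul]; exact h)
    exact hpprime.one_lt.ne' (Nat.dvd_one.1 h1)
  · -- (T3)
    intro f c
    obtain ⟨hc1, hc2⟩ := (mem_levelCocyclesS₂_iff S M c.1).1 c.2
    have hz0 : p • (fun x : GQ × GQ => f.1 ((c : GQ × GQ → M) x)) = 0 := by
      funext x
      exact h95_hom_nsmul_eq_zero M f.1 _
    obtain ⟨k, hk⟩ := ht4 (fun x => f.1 ((c : GQ × GQ → M) x)) (hcoc f.1 f.2 c.1 hc1)
      (hc2.comp f.1) (by rw [hz0]; exact (h56_levelCobS₂ S CC).zero_mem)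
    exact ⟨k, hk⟩
  · -- (RK)
    intro c h
    obtain ⟨hc1, hc2⟩ := (mem_levelCocyclesS₂_iff S M c.1).1 c.2
    obtain ⟨x, hx, hxc⟩ := h73_asm_d1 S M hA L₀ hL₀ c.1 hc1 hc2 (fun f hf => h ⟨f, hf⟩)
    refine (mem_levelCoboundariesS₂_iff S M c.1).2 ⟨x, hx, ?_⟩
    funext ⟨g, h⟩
    rw [d₁₂_hom_apply]
    exact hxc g h
  · -- (LK⁺)
    intro f h
    apply Subtype.ext
    apply AddMonoidHom.ext
    intro m
    exact h72_LK_zero S hpS M hA L₀ hL₀ f.1 f.2
      (fun c hc hcl => h ⟨c, (mem_levelCocyclesS₂_iff S M c).2 ⟨hc, hcl⟩⟩) m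

end Duality

end Fermat.Agent.S56
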