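import Fermat.Agent.S56.h72_H2Dual

/-!
# S56, front W1, duality package: finiteness, dimension and RIGHT EXACTNESS of `H²(G_S, -)`

Consequences of the perfect duality `h72_H2_duality`:

* `h72_H_finite`         : `Hom_G(M, CC)` is finite;
* `h72_H2_finite`        : `H²_S(M)` is a finite-dimensional `𝔽_p`-space;
* `h72_H2_finrank`       : `dim H²_S(M) = dim Hom_G(M, CC)`;
* `h72_H2_right_exact`   : for an equivariant surjection `π : M → M''` every class of
  `H²_S(M'')` is the image of a class of `H²_S(M)` (no `cd_p ≤ 2`, no `H³`).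
-/

set_option autoImplicit false
set_option linter.unusedSectionVars false
set_option linter.unusedVariables false
set_option maxHeartbeats 400000

open CategoryTheory Module groupCohomology ExtCitation

namespace Fermat.Agent.S56

open Fermat.Agent.S55

local notation "GQ" => (AlgebraicClosure ℚ ≃ₐ[ℚ] AlgebraicClosure ℚ)

variable {p : ℕ} [Fact p.Prime] (S : Finset Nat.Primes)
  {CC : Type} [AddCommGroup CC] [DistribMulAction GQ CC]
  {JJ : ↥S → Type} [∀ q, AddCommGroup (JJ q)] [∀ q, DistribMulAction GQ (JJ q)]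
  {XX : ↥S → Type} [∀ q, AddCommGroup (XX q)]
  [∀ q : ↥S, DistribMulAction (primeLocalGaloisGroup q.1) (XX q)]
  {κ : ∀ q, JJ q →+ CC} {ev : ∀ q, JJ q →+ XX q} {zz : ∀ q, XX q}

/-- `Hom_G(M, CC)` is finite. -/
theorem h72_H_finite (M : Rep.{0, 0, 0} (ZMod p) GQ) [FiniteDimensional (ZMod p) M]
    (hA : h72_PTAmbient p S CC JJ XX κ ev zz)
    (L₀ : h72_Lev S) (hL₀ : ∀ s ∈ L₀.U, M.ρ s = 1) : Finite (h95_H M CC) := by
  have : Finite M := Module.finite_of_finite (ZMod p)
  have hfin := hA.cc_fin L₀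
  refine h95_H_finite S M L₀.to56 (fun s hs m => by rw [hL₀ s hs]; rfl) ?_
  refine Set.finite_coe_iff.1 (Finite.of_injective
    (fun c : ↥{c : CC | p • c = 0 ∧ ∀ s ∈ L₀.to56.U, s • c = c} =>
      (⟨c.1, c.2.2, c.2.1⟩ : {c : CC // (∀ s ∈ L₀.U, s • c = c) ∧ p • c = 0}))
    (fun a b h => Subtype.ext (by
      have h1 := congrArg (fun z : {c : CC // (∀ s ∈ L₀.U, s • c = c) ∧ p • c = 0} => (z : CC)) h
      exact h1)))

/-- `H²_S(M)` is finite-dimensional, of the dimension of `Hom_G(M, CC)`. -/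
theorem h72_H2_finite_finrank (hpS : pPrime p ∈ S) (M : Rep.{0, 0, 0} (ZMod p) GQ)
    [FiniteDimensional (ZMod p) M] (hA : h72_PTAmbient p S CC JJ XX κ ev zz)
    (L₀ : h72_Lev S) (hL₀ : ∀ s ∈ L₀.U, M.ρ s = 1) :
    Module.Finite (ZMod p) (continuousH2S S M) ∧
      Module.finrank (ZMod p) (continuousH2S S M) = Module.finrank (ZMod p) (h95_H M CC) := by
  classical
  have hHfin : Finite (h95_H M CC) := h72_H_finite S M hA L₀ hL₀
  have hHfd : Module.Finite (ZMod p) (h95_H M CC) := Module.Finite.of_finite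
  obtain ⟨β, -, hright, hleft⟩ := h72_H2_duality S hpS M hA L₀ hL₀
  have hinj2 : Function.Injective β.flip := by
    rw [injective_iff_map_eq_zero]
    intro y hy
    exact hright y (fun f => by
      have := congrArg (fun φ : h95_H M CC →ₗ[ZMod p] ZMod p => φ f) hy
      simpa using this)
  have hinj1 : Function.Injective β := by
    rw [injective_iff_map_eq_zero]
    intro f hf
    exact hleft f (fun y => by
      have := congrArg (fun φ : continuousH2S S M →ₗ[ZMod p] ZMod p => φ y) hf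
      simpa using this)
  have hfd2 : Module.Finite (ZMod p) (continuousH2S S M) := Module.Finite.of_injective β.flip hinj2
  refine ⟨hfd2, le_antisymm ?_ ?_⟩
  · have := LinearMap.finrank_le_finrank_of_injective hinj2
    rwa [Subspace.dual_finrank_eq] at this
  · have := LinearMap.finrank_le_finrank_of_injective hinj1
    rwa [Subspace.dual_finrank_eq] at this

/-- post-composition with an equivariant linear map, on `S`-level 2-cocycles. -/
noncomputable def h72_cocMap (M M'' : Rep.{0, 0, 0} (ZMod p) GQ) (π : M →ₗ[ZMod p] M'')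
    (hπ : ∀ (g : GQ) (m : M), π (M.ρ g m) = M''.ρ g (π m)) :
    ↥(levelCocyclesS₂ S M) →ₗ[ZMod p] ↥(levelCocyclesS₂ S M'') :=
  ((π.compLeft (GQ × GQ)).comp (levelCocyclesS₂ S M).subtype).codRestrict (levelCocyclesS₂ S M'')
    (fun c => by
      obtain ⟨hc1, hc2⟩ := (mem_levelCocyclesS₂_iff S M c.1).1 c.2
      refine (mem_levelCocyclesS₂_iff S M'' _).2 ⟨?_, hc2.comp π⟩
      rw [mem_cocycles₂_iff]
      intro g h j
      have h1 := (mem_cocycles₂_iff c.1).1 hc1 g h j
      show π (c.1 (g * h, j)) + π (c.1 (g, h)) = M''.ρ g (π (c.1 (h, j))) + π (c.1 (g, h * j))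
      rw [← hπ, ← map_add, ← map_add, h1])

theorem h72_cocMap_apply (M M'' : Rep.{0, 0, 0} (ZMod p) GQ) (π : M →ₗ[ZMod p] M'')
    (hπ : ∀ (g : GQ) (m : M), π (M.ρ g m) = M''.ρ g (π m)) (c : ↥(levelCocyclesS₂ S M))
    (x : GQ × GQ) :
    ((h72_cocMap S M M'' π hπ c : ↥(levelCocyclesS₂ S M'')) : GQ × GQ → M'') x =
      π ((c : GQ × GQ → M) x) := rfl

/-- **Right exactness of `H²(G_S, -)`**: an equivariant surjection `M → M''` of finite
`𝔽_p[G_S]`-modules induces a surjection on `H²_S`. -/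
theorem h72_H2_right_exact (hpS : pPrime p ∈ S) (M M'' : Rep.{0, 0, 0} (ZMod p) GQ)
    [FiniteDimensional (ZMod p) M] [FiniteDimensional (ZMod p) M'']
    (hA : h72_PTAmbient p S CC JJ XX κ ev zz)
    (L₀ : h72_Lev S) (hL₀ : ∀ s ∈ L₀.U, M.ρ s = 1)
    (π : M →ₗ[ZMod p] M'') (hπ : ∀ (g : GQ) (m : M), π (M.ρ g m) = M''.ρ g (π m))
    (hsurj : Function.Surjective π) :
    Function.Surjective ((continuousH2Sπ S M'').comp (h72_cocMap S M M'' π hπ)) := by
  classical
  -- the base level also works for `M''`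
  have hL₀'' : ∀ s ∈ L₀.U, M''.ρ s = 1 := by
    intro s hs
    apply LinearMap.ext
    intro m''
    obtain ⟨m, rfl⟩ := hsurj m''
    rw [← hπ, hL₀ s hs]
    rfl
  have hHfin : Finite (h95_H M'' CC) := h72_H_finite S M'' hA L₀ hL₀''
  have hHfd : Module.Finite (ZMod p) (h95_H M'' CC) := Module.Finite.of_finite
  obtain ⟨hfd2, hrank⟩ := h72_H2_finite_finrank S hpS M'' hA L₀ hL₀''
  obtain ⟨β, hβ, hright, hleft⟩ := h72_H2_duality S hpS M'' hA L₀ hL₀''
  have hinj1 : Function.Injective β := by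
    rw [injective_iff_map_eq_zero]
    intro f hf
    exact hleft f (fun y => by
      have := congrArg (fun φ : continuousH2S S M'' →ₗ[ZMod p] ZMod p => φ y) hf
      simpa using this)
  have hsurj1 : Function.Surjective β :=
    (LinearMap.injective_iff_surjective_of_finrank_eq_finrank
      (by rw [Subspace.dual_finrank_eq, hrank])).1 hinj1
  rw [← LinearMap.range_eq_top]
  by_contra hne
  obtain ⟨lam, hlam0, hlam⟩ := Submodule.exists_le_ker_of_lt_top _ (lt_top_iff_ne_top.2 hne)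
  obtain ⟨f'', rfl⟩ := hsurj1 lam
  apply hlam0
  -- `f'' ∘ π` kills `H²_S(M)`, hence vanishes
  have hFH : (f''.1).comp π.toAddMonoidHom ∈ h95_H M CC := by
    intro g m
    show f''.1 (π (M.ρ g m)) = g • f''.1 (π m)
    rw [hπ, f''.2 g]
  have hzero : ∀ m, f''.1 (π m) = 0 := by
    refine h72_LK_zero S hpS M hA L₀ hL₀ ((f''.1).comp π.toAddMonoidHom) hFH ?_
    intro c hc hcl
    have hcm : c ∈ levelCocyclesS₂ S M := (mem_levelCocyclesS₂_iff S M c).2 ⟨hc, hcl⟩
    have h1 : β f'' (continuousH2Sπ S M'' (h72_cocMap S M M'' π hπ ⟨c, hcm⟩)) = 0 :=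
      hlam ⟨⟨c, hcm⟩, rfl⟩
    exact (hβ f'' _).1 h1
  have hf0 : f'' = 0 := by
    apply Subtype.ext
    apply AddMonoidHom.ext
    intro m''
    obtain ⟨m, rfl⟩ := hsurj m''
    exact hzero m
  rw [hf0, map_zero]

end Fermat.Agent.S56
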