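import Fermat.Agent.S56.h72_NormZero

/-!
# S56, front W1, duality package: the left kernel is ZERO  (LK⁺)

`h56_LK_of_adt` (helper56) shows: an equivariant `f : M → CC` killing all of `H²(G_S, M)` is of
the form `m ↦ ∑_t t • ν (h (t⁻¹ m))` with `ν` the norm between two levels on the `p`-torsion of
`CC`.  The `p`-torsion norms from a suitable higher level VANISH (`h72_normZero`), hence `f = 0`.
Together with (RK) this makes the pairing `H²(G_S, M) × Hom_G(M, CC[p]) → 𝔽_p` perfect.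

The proof is the landed theorem with `JJ := CC`, `j := 0`.
-/

set_option autoImplicit false
set_option linter.unusedSectionVars false
set_option linter.unusedVariables false
set_option maxHeartbeats 400000

open CategoryTheory Module groupCohomology ExtCitation

namespace Fermat.Agent.S56

open Fermat.Agent.S55

local notation "GQ" => (AlgebraicClosure ℚ ≃ₐ[ℚ] AlgebraicClosure ℚ)

variable {p : ℕ} [Fact p.Prime] (S : Finset Nat.Primes)
  {CC : Type} [AddCommGroup CC] [DistribMulAction GQ CC]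
  {JJ : ↥S → Type} [∀ q, AddCommGroup (JJ q)] [∀ q, DistribMulAction GQ (JJ q)]
  {XX : ↥S → Type} [∀ q, AddCommGroup (XX q)]
  [∀ q : ↥S, DistribMulAction (primeLocalGaloisGroup q.1) (XX q)]
  {κ : ∀ q, JJ q →+ CC} {ev : ∀ q, JJ q →+ XX q} {zz : ∀ q, XX q}

/-- **(LK⁺)**, conditional form: an equivariant map `M → CC` killing all of `H²(G_S, M)` is
zero, given `unorm⁺`. -/
theorem h72_LK_zero_of (M : Rep.{0, 0, 0} (ZMod p) GQ) [FiniteDimensional (ZMod p) M]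
    (hA : h72_PTAmbient p S CC JJ XX κ ev zz) (hN0 : h72_NormZero p S CC)
    (L₀ : h72_Lev S) (hL₀ : ∀ s ∈ L₀.U, M.ρ s = 1)
    (f : M →+ CC) (hf : ∀ (g : GQ) (m : M), f (M.ρ g m) = g • f m)
    (hperp : ∀ c : GQ × GQ → M, c ∈ cocycles₂ M → IsLevelConstantS₂ S c →
      h72_IsCobS₂ S (fun x => f (c x))) :
    ∀ m, f m = 0 := by
  classical
  have : NeZero p := ⟨(Fact.out : p.Prime).ne_zero⟩
  have : Finite M := Module.finite_of_finite (ZMod p)
  have hCF : ∀ L : h56_Level S, L₀.to56 ≤ L →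
      IsPClassModule p (GQ ⧸ L.U) (h56_Inv L.U CC) := fun L _ => hA.cc_class (h72_Lev.of56 L)
  have hEX : ∀ L : h56_Level S, L₀.to56 ≤ L → ∃ (L' : h56_Level S) (h : L ≤ L'),
      ∀ c' : h56_Inv L'.U CC, ∃ c : h56_Inv L.U CC,
        ∑ᶠ s : (h56_quotMap (h56_Level.U_anti h)).ker, (s : GQ ⧸ L'.U) • c' =
          h56_invIncl (h56_Level.U_anti h) (p • c) := by
    intro L _
    obtain ⟨L', h, hn⟩ := hA.cc_ex (h72_Lev.of56 L)
    exact ⟨L'.to56, h, hn⟩
  obtain ⟨L', h01, hu⟩ := hN0 L₀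
  have hUN : ∃ (L₁ : h56_Level S) (h : L₀.to56 ≤ L₁), ∀ c' : h56_Inv L₁.U CC, p • c' = 0 →
      ∃ φ : CC, (∀ s ∈ L₀.to56.U, s • φ = φ) ∧ p • φ = 0 ∧
        (0 : CC →+ CC) φ = ((∑ᶠ s : (h56_quotMap (h56_Level.U_anti h)).ker, (s : GQ ⧸ L₁.U) • c' :
          h56_Inv L₁.U CC) : CC) := by
    refine ⟨L'.to56, h01, fun c' hc' => ⟨0, fun s _ => smul_zero s, smul_zero p, ?_⟩⟩
    exact (hu c' hc').symm
  obtain ⟨ψ, hψ1, hψ2⟩ := h56_LK_of_adt S M h56_ADT2Statement_holds L₀.to56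
    (fun s hs m => by rw [hL₀ s hs]; rfl) hCF hEX (0 : CC →+ CC) (fun g x => (smul_zero g).symm)
    hUN f hf
    (fun c => hperp c.1 ((mem_levelCocyclesS₂_iff S M c.1).1 c.2).1
      ((mem_levelCocyclesS₂_iff S M c.1).1 c.2).2)
  intro m
  rw [← hψ2 m]
  rfl

/-- **(LK⁺)**: an equivariant map `M → CC` killing all of `H²(G_S, M)` is zero. -/
theorem h72_LK_zero (hpS : pPrime p ∈ S) (M : Rep.{0, 0, 0} (ZMod p) GQ)
    [FiniteDimensional (ZMod p) M]
    (hA : h72_PTAmbient p S CC JJ XX κ ev zz)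
    (L₀ : h72_Lev S) (hL₀ : ∀ s ∈ L₀.U, M.ρ s = 1)
    (f : M →+ CC) (hf : ∀ (g : GQ) (m : M), f (M.ρ g m) = g • f m)
    (hperp : ∀ c : GQ × GQ → M, c ∈ cocycles₂ M → IsLevelConstantS₂ S c →
      h72_IsCobS₂ S (fun x => f (c x))) :
    ∀ m, f m = 0 :=
  h72_LK_zero_of S M hA (h72_normZero S hpS hA) L₀ hL₀ f hf hperp

end Fermat.Agent.S56
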