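import Mathlib

/-!
# S56, front W1, duality package: an orbit-sum lemma (Mathlib only)

If a `p`-torsion valued function `ψ` on a finite group `K` is twisted-invariant under an element
`d₀` of order `p` (`ψ (d₀ * t) = a • ψ t` for one natural number `a`), then `ψ` is
`d₀`-invariant and `∑ ψ = 0`.  This is the mechanism behind "norms kill `p`-torsion as soon as
`p` divides the local degree".
-/

set_option autoImplicit false

namespace Fermat.Agent.S56

/-- `ψ (d₀ * t) = a • ψ t`, `d₀` of order `p`, values killed by `p`  ⟹  `ψ (d₀ * t) = ψ t`. -/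
theorem h72_inv_of_twist {K : Type*} [Group K] {X : Type*} [AddCommGroup X] {p : ℕ}
    (hp : p.Prime) (ψ : K → X) (hpψ : ∀ t, p • ψ t = 0) (d₀ : K) (hd₀ : orderOf d₀ = p) (a : ℕ)
    (hψ : ∀ t, ψ (d₀ * t) = a • ψ t) (t : K) : ψ (d₀ * t) = ψ t := by
  have h1 : ∀ i : ℕ, ψ (d₀ ^ i * t) = a ^ i • ψ t := by
    intro i
    induction i with
    | zero => simp
    | succ i ih => rw [pow_succ', mul_assoc, hψ, ih, ← mul_smul, ← pow_succ']
  have h2 : a ^ p • ψ t = ψ t := by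
    rw [← h1 p, ← hd₀, pow_orderOf_eq_one, one_mul]
  have h4 : ∀ n : ℕ, n • ψ t = (n % p) • ψ t := by
    intro n
    conv_lhs => rw [← Nat.div_add_mod n p]
    rw [add_smul, mul_comm, mul_smul, hpψ, smul_zero, zero_add]
  have h3 : a ^ p % p = a % p := by
    have := Fact.mk hp
    have h5 : ((a ^ p : ℕ) : ZMod p) = (a : ZMod p) := by
      rw [Nat.cast_pow, ZMod.pow_card]
    exact (ZMod.natCast_eq_natCast_iff' _ _ _).1 h5
  rw [hψ, h4 a, ← h3, ← h4, h2]

/-- A `p`-torsion valued function on a finite group which is invariant under left translation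
by an element of order `p` has sum zero. -/
theorem h72_finsum_eq_zero_of_inv {K : Type*} [Group K] [Finite K] {X : Type*} [AddCommGroup X]
    {p : ℕ} (ψ : K → X) (hpψ : ∀ t, p • ψ t = 0) (d₀ : K) (hd₀ : orderOf d₀ = p)
    (hψ : ∀ t, ψ (d₀ * t) = ψ t) : ∑ᶠ t, ψ t = 0 := by
  classical
  have := Fintype.ofFinite K
  rw [finsum_eq_sum_of_fintype]
  obtain ⟨T, hT, -⟩ := Subgroup.exists_isComplement_right (Subgroup.zpowers d₀) 1
  have hz : ∀ (k : ℤ) (t : K), ψ (d₀ ^ k * t) = ψ t := by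
    intro k
    induction k using Int.induction_on with
    | zero => intro t; simp
    | succ i ih =>
      intro t
      have h0 : d₀ ^ ((i : ℤ) + 1) * t = d₀ ^ (i : ℤ) * (d₀ * t) := by
        rw [zpow_add_one, mul_assoc]
      rw [h0, ih (d₀ * t), hψ]
    | pred i ih =>
      intro t
      have h1 : ψ (d₀ * (d₀ ^ (-(i : ℤ) - 1) * t)) = ψ (d₀ ^ (-(i : ℤ) - 1) * t) := hψ _
      have h2 : d₀ * (d₀ ^ (-(i : ℤ) - 1) * t) = d₀ ^ (-(i : ℤ)) * t := by
        rw [← mul_assoc, ← zpow_one_add]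
        congr 2
        ring
      rw [h2] at h1
      rw [← h1]
      exact ih t
  have hinv : ∀ (c : Subgroup.zpowers d₀) (t : K), ψ ((c : K) * t) = ψ t := by
    rintro ⟨c, hc⟩ t
    obtain ⟨k, rfl⟩ := Subgroup.mem_zpowers_iff.1 hc
    exact hz k t
  let e : Prod (↥(Subgroup.zpowers d₀ : Set K)) (↥T) ≃ K := Equiv.ofBijective _ hT
  have := Fintype.ofFinite T
  have := Fintype.ofFinite ↥(Subgroup.zpowers d₀ : Set K)
  rw [← Equiv.sum_comp e ψ, Fintype.sum_prod_type_right]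
  refine Finset.sum_eq_zero fun t _ => ?_
  have h1 : ∀ c : ↥(Subgroup.zpowers d₀ : Set K), ψ (e (c, t)) = ψ (t : K) := fun c => hinv c t
  rw [Finset.sum_congr rfl fun c _ => h1 c, Finset.sum_const, Finset.card_univ]
  have h2 : Fintype.card ↥(Subgroup.zpowers d₀ : Set K) = p := by
    rw [← Nat.card_eq_fintype_card]
    exact (Nat.card_zpowers d₀).trans hd₀
  rw [h2, hpψ]

/-- The orbit-sum lemma: twisted invariance under an element of order `p` forces the sum of a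
`p`-torsion valued function to vanish. -/
theorem h72_finsum_eq_zero_of_twist {K : Type*} [Group K] [Finite K] {X : Type*}
    [AddCommGroup X] {p : ℕ} (hp : p.Prime) (ψ : K → X) (hpψ : ∀ t, p • ψ t = 0) (d₀ : K)
    (hd₀ : orderOf d₀ = p) (a : ℕ) (hψ : ∀ t, ψ (d₀ * t) = a • ψ t) : ∑ᶠ t, ψ t = 0 :=
  h72_finsum_eq_zero_of_inv ψ hpψ d₀ hd₀ (h72_inv_of_twist hp ψ hpψ d₀ hd₀ a hψ)

/-- Index bookkeeping: if `H' ≤ H ≤ Γ`, `H' ≤ C`, `p ^ k ∣ [Γ : C]`, `[Γ : H']` is finite and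
`p ^ k ∤ [Γ : H]`, then `p ∣ [H : H']`. -/
theorem h72_dvd_relIndex {Γ : Type*} [Group Γ] {p k : ℕ} (hp : p.Prime) (H' H C : Subgroup Γ)
    (h1 : H' ≤ H) (h2 : H' ≤ C) (hC : p ^ k ∣ C.index)
    (hH : ¬ p ^ k ∣ H.index) : p ∣ H'.relIndex H := by
  by_contra hcon
  have h3 : H'.relIndex H * H.index = H'.index := Subgroup.relIndex_mul_index h1
  have h4 : C.index ∣ H'.index := Subgroup.index_dvd_of_le h2
  have h5 : p ^ k ∣ H'.relIndex H * H.index := h3 ▸ hC.trans h4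
  have h6 : Nat.Coprime (p ^ k) (H'.relIndex H) :=
    Nat.Coprime.pow_left k ((Nat.Prime.coprime_iff_not_dvd hp).2 hcon)
  exact hH (h6.dvd_of_dvd_mul_left h5)

/-- Cauchy in the local quotient: if `p` divides the relative index of the preimages of
`U' ≤ U` under `ι`, some `τ` with `ι τ ∈ U` has image of order `p` in `G ⧸ U'`. -/
theorem h72_exists_orderOf_eq {Γ G : Type*} [Group Γ] [Group G] (ι : Γ →* G) (U' U : Subgroup G)
    [U'.Normal] [Finite (G ⧸ U')] {p : ℕ} (hp : p.Prime)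
    (hdvd : p ∣ (U'.comap ι).relIndex (U.comap ι)) :
    ∃ τ : Γ, ι τ ∈ U ∧ orderOf (QuotientGroup.mk (ι τ) : G ⧸ U') = p := by
  have := Fact.mk hp
  let θ : ↥(U.comap ι) →* G ⧸ U' := (QuotientGroup.mk' U').comp (ι.comp (U.comap ι).subtype)
  have hker : θ.ker = (U'.comap ι).subgroupOf (U.comap ι) := by
    ext ⟨τ, hτ⟩
    rw [MonoidHom.mem_ker, Subgroup.mem_subgroupOf, Subgroup.mem_comap]
    exact QuotientGroup.eq_one_iff (ι τ)
  have hcard : Nat.card θ.range = (U'.comap ι).relIndex (U.comap ι) := by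
    rw [← Subgroup.index_ker, hker]
    rfl
  obtain ⟨x, hx⟩ := exists_prime_orderOf_dvd_card' (G := θ.range) p (hcard ▸ hdvd)
  obtain ⟨x, ⟨τ, hτ⟩, rfl⟩ := x
  refine ⟨τ, hτ, ?_⟩
  rw [← hx]
  exact Subgroup.orderOf_coe (⟨θ ⟨τ, hτ⟩, ⟨⟨τ, hτ⟩, rfl⟩⟩ : θ.range)

end Fermat.Agent.S56
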