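import Fermat.Agent.S55.h56_AsmD2
import Fermat.Agent.S55.h56_InvNorm
import Fermat.Agent.S55.h13_CycLocalIndex
import Fermat.Agent.S55.h85_Unram
import Fermat.Agent.S56.h72_NormKill

/-!
# S56, front W1, duality package: `p`-torsion norms vanish at a higher level  (`unorm⁺`)

From the ambient interface `h72_PTAmbient` of S55:

* `h72_exists_level_pdvd` : every `S`-level `L` has an `S`-level `La ≥ L` such that `p` divides
  the local degree of `La / L` at every `q ∈ S` (adjoin a `p`-power root of unity of high order);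
* `h72_norm_kill_JJ`      : if `p` divides the local degree of `La / L` at `q`, the norm
  `La → L` kills the `p`-torsion of `JJ q` (coinduced module, `XX q [p] = μ_p`);
* `h72_normZero`          : `h72_NormZero p S CC`, i.e. for every level `L` there is a level
  `L' ≥ L` such that the norm `L' → L` kills `CC^{U_{L'}}[p]`.
-/

set_option autoImplicit false
set_option linter.unusedSectionVars false
set_option linter.unusedVariables false
set_option maxHeartbeats 400000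

open CategoryTheory Module groupCohomology ExtCitation

namespace Fermat.Agent.S56

open Fermat.Agent.S55 IntermediateField

local notation "Qb" => AlgebraicClosure ℚ
local notation "GQ" => (AlgebraicClosure ℚ ≃ₐ[ℚ] AlgebraicClosure ℚ)

variable {p : ℕ} [Fact p.Prime] (S : Finset Nat.Primes)
  {CC : Type} [AddCommGroup CC] [DistribMulAction GQ CC]
  {JJ : ↥S → Type} [∀ q, AddCommGroup (JJ q)] [∀ q, DistribMulAction GQ (JJ q)]
  {XX : ↥S → Type} [∀ q, AddCommGroup (XX q)]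
  [∀ q : ↥S, DistribMulAction (primeLocalGaloisGroup q.1) (XX q)]
  {κ : ∀ q, JJ q →+ CC} {ev : ∀ q, JJ q →+ XX q} {zz : ∀ q, XX q}

/-- The strengthened norm property `unorm⁺`: the `p`-torsion norms from a suitable higher level
vanish. -/
def h72_NormZero (p : ℕ) (S : Finset Nat.Primes) (CC : Type) [AddCommGroup CC]
    [DistribMulAction GQ CC] : Prop :=
  ∀ L : h72_Lev S, ∃ (L' : h72_Lev S) (h : L.F ≤ L'.F), ∀ c' : h56_Inv L'.U CC, p • c' = 0 →
    ((∑ᶠ s : (h56_quotMap (h72_Lev.U_anti h)).ker, (s : GQ ⧸ L'.U) • c' :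
      h56_Inv L'.U CC) : CC) = 0

instance h72_Lev.instFiniteQuot (L : h72_Lev S) : Finite (GQ ⧸ L.U) :=
  h56_Level.instFiniteQuot L.to56

/-- the preimage of a level subgroup in a local Galois group has finite index. -/
theorem h72_comap_index_ne_zero (L : h72_Lev S) (q : Nat.Primes) :
    (L.U.comap (primeLocalToGlobal q)).index ≠ 0 := by
  have h1 : L.U.FiniteIndex := Subgroup.finiteIndex_of_finite_quotient
  rw [Subgroup.index_comap]
  exact (Subgroup.instFiniteIndex_subgroupOf L.U (primeLocalToGlobal q).range).index_ne_zero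

/-- **Level choice**: every level has a higher level such that `p` divides all the local
degrees at the primes of `S`. -/
theorem h72_exists_level_pdvd (hpS : pPrime p ∈ S) (L : h72_Lev S) :
    ∃ (La : h72_Lev S) (h : L.F ≤ La.F), ∀ q : ↥S,
      p ∣ (La.U.comap (primeLocalToGlobal q.1)).relIndex (L.U.comap (primeLocalToGlobal q.1)) := by
  classical
  have hp : p.Prime := Fact.out
  -- the local indices of `L`
  set d : ↥S → ℕ := fun q => (L.U.comap (primeLocalToGlobal q.1)).index with hd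
  set k : ℕ := ∑ q, d q with hk
  have hdk : ∀ q, d q < p ^ k := fun q =>
    lt_of_le_of_lt (Finset.single_le_sum (fun _ _ => Nat.zero_le _) (Finset.mem_univ q))
      (Nat.lt_pow_self hp.one_lt)
  -- the cyclotomic levels
  have hex : ∀ q : ↥S, ∃ n : ℕ, ∀ ζ : Qb, IsPrimitiveRoot ζ (p ^ n) →
      p ^ k ∣ ((ℚ⟮ζ⟯.fixingSubgroup).comap (primeLocalToGlobal q.1)).index := by
    intro q
    have : Fact (q.1 : ℕ).Prime := ⟨q.1.2⟩
    exact h13_cyc_local_index p (q.1 : ℕ) k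
  choose n hn using hex
  set N : ℕ := ∑ q, n q with hN
  have hnN : ∀ q, n q ≤ N := fun q =>
    Finset.single_le_sum (fun _ _ => Nat.zero_le _) (Finset.mem_univ q)
  obtain ⟨z, hz⟩ := HasEnoughRootsOfUnity.exists_primitiveRoot Qb (p ^ N)
  have hunr : (ℚ⟮z⟯).IsUnramifiedOutside S := h85_unram_pPowRoot S hpS N z hz.pow_eq_one
  obtain ⟨La, hLa1, hLa2⟩ := L.to56.exists_ge ℚ⟮z⟯ hunr
  refine ⟨h72_Lev.of56 La, hLa1, fun q => ?_⟩
  -- the `p^(n q)`-th root of unity inside `ℚ(z)`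
  have hzq : IsPrimitiveRoot (z ^ p ^ (N - n q)) (p ^ n q) := by
    refine hz.pow (pow_pos hp.pos N) ?_
    rw [← pow_add]
    congr 1
    have := hnN q
    omega
  have hle : ℚ⟮z ^ p ^ (N - n q)⟯ ≤ ℚ⟮z⟯ := by
    rw [IntermediateField.adjoin_simple_le_iff]
    exact pow_mem (IntermediateField.mem_adjoin_simple_self ℚ z) _
  have hfix : (h72_Lev.of56 La).U ≤ (ℚ⟮z ^ p ^ (N - n q)⟯).fixingSubgroup :=
    IntermediateField.fixingSubgroup_antitone (hle.trans hLa2)
  refine h72_dvd_relIndex hp _ _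
    ((ℚ⟮z ^ p ^ (N - n q)⟯.fixingSubgroup).comap (primeLocalToGlobal q.1))
    (Subgroup.comap_mono (h72_Lev.U_anti (L := L) (L' := h72_Lev.of56 La) hLa1))
    (Subgroup.comap_mono hfix) (hn q _ hzq) ?_
  exact Nat.not_dvd_of_pos_of_lt (Nat.pos_of_ne_zero (h72_comap_index_ne_zero S L q.1)) (hdk q)

/-- **Norms kill the `p`-torsion of `JJ q`** as soon as `p` divides the local degree at `q`. -/
theorem h72_norm_kill_JJ (hA : h72_PTAmbient p S CC JJ XX κ ev zz) {L La : h72_Lev S}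
    (h : L.F ≤ La.F) (q : ↥S)
    (hdvd : p ∣ (La.U.comap (primeLocalToGlobal q.1)).relIndex
      (L.U.comap (primeLocalToGlobal q.1)))
    (Y : h56_Inv La.U (JJ q)) (hY : p • Y = 0) :
    ∑ᶠ t : (h56_quotMap (h72_Lev.U_anti h)).ker, (t : GQ ⧸ La.U) • Y = 0 := by
  classical
  have hp : p.Prime := Fact.out
  have hfinQ : Finite (GQ ⧸ La.U) := h72_Lev.instFiniteQuot S La
  -- the element of order `p`
  obtain ⟨τ₀, hτ₀U, hτ₀ord⟩ :=
    h72_exists_orderOf_eq (primeLocalToGlobal q.1) La.U L.U hp hdvd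
  set a : ℕ := (cycloChar p (primeLocalToGlobal q.1 τ₀) : ZMod p).val with ha
  -- uniqueness in `ev_bij` for the zero function
  obtain ⟨y0, -, huniq⟩ := hA.ev_bij q (fun _ => 0) (fun τ g => (smul_zero τ).symm)
    ⟨La, fun g s _ => rfl⟩
  apply Subtype.ext
  have h0 : (0 : JJ q) = y0 := huniq 0 (fun g => by rw [smul_zero, map_zero])
  rw [AddSubgroup.coe_zero, h0]
  refine huniq _ (fun g => ?_)
  -- the function `ψ` on the kernel
  set ψ : (h56_quotMap (h72_Lev.U_anti h)).ker → XX q := fun t =>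
    ev q (g • ((((t : GQ ⧸ La.U) • Y : h56_Inv La.U (JJ q))) : JJ q)) with hψdef
  have hsum : ev q (g • ((∑ᶠ t : (h56_quotMap (h72_Lev.U_anti h)).ker, (t : GQ ⧸ La.U) • Y :
      h56_Inv La.U (JJ q)) : JJ q)) = ∑ᶠ t, ψ t := by
    rw [h56_coe_finsum_ker]
    exact AddMonoidHom.map_finsum ((ev q).comp (DistribSMul.toAddMonoidHom (JJ q) g))
      (Set.toFinite _)
  rw [hsum]
  have hpψ : ∀ t, p • ψ t = 0 := by
    intro t
    have h1 : p • ((t : GQ ⧸ La.U) • Y) = 0 := by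
      rw [smul_comm p (t : GQ ⧸ La.U) Y, hY, smul_zero]
    have h2 : p • ((((t : GQ ⧸ La.U) • Y : h56_Inv La.U (JJ q))) : JJ q) = 0 := by
      rw [← AddSubgroup.coe_nsmul, h1, AddSubgroup.coe_zero]
    rw [hψdef]
    show p • ev q (g • _) = 0
    rw [← map_nsmul, smul_comm p g, h2, smul_zero, map_zero]
  -- the element `d₀` of the kernel
  have hmem : ((g⁻¹ * primeLocalToGlobal q.1 τ₀ * g : GQ) : GQ ⧸ La.U) ∈
      (h56_quotMap (h72_Lev.U_anti h)).ker := by
    rw [h56_mk_mem_ker_quotMap]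
    have hn : L.U.Normal := inferInstance
    have := hn.conj_mem _ hτ₀U g⁻¹
    simpa using this
  set d₀ : (h56_quotMap (h72_Lev.U_anti h)).ker := ⟨_, hmem⟩ with hd₀
  have hd₀ord : orderOf d₀ = p := by
    rw [← Subgroup.orderOf_coe, ← hτ₀ord]
    refine (SemiconjBy.orderOf_eq ((g : GQ) : GQ ⧸ La.U) ?_)
    show ((g : GQ) : GQ ⧸ La.U) * ((g⁻¹ * primeLocalToGlobal q.1 τ₀ * g : GQ) : GQ ⧸ La.U) =
      ((primeLocalToGlobal q.1 τ₀ : GQ) : GQ ⧸ La.U) * ((g : GQ) : GQ ⧸ La.U)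
    rw [← QuotientGroup.mk_mul, ← QuotientGroup.mk_mul]
    congr 1
    group
  refine h72_finsum_eq_zero_of_twist hp ψ hpψ d₀ hd₀ord a (fun t => ?_)
  -- `ψ (d₀ * t) = τ₀ • ψ t`
  have h1 : ψ (d₀ * t) = τ₀ • ψ t := by
    rw [hψdef]
    show ev q (g • ((((((g⁻¹ * primeLocalToGlobal q.1 τ₀ * g : GQ) : GQ ⧸ La.U) *
      (t : GQ ⧸ La.U)) • Y : h56_Inv La.U (JJ q))) : JJ q)) = τ₀ • ev q (g • _)
    rw [mul_smul, h56_Inv.coe_mk_smul, ← mul_smul, ← hA.ev_smul, ← mul_smul]
    congr 2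
    group
  rw [h1]
  obtain ⟨m, hm⟩ := hA.xx_tors q (ψ t) (hpψ t)
  rw [hm, smul_comm τ₀ m (zz q), hA.zz_smul q τ₀, ← mul_smul, ← mul_smul, mul_comm]

/-- **(`unorm⁺`)**: for every level there is a higher level from which the norm kills the
`p`-torsion of `CC`. -/
theorem h72_normZero (hpS : pPrime p ∈ S) (hA : h72_PTAmbient p S CC JJ XX κ ev zz) :
    h72_NormZero p S CC := by
  classical
  intro L
  obtain ⟨La, hLa, hdvd⟩ := h72_exists_level_pdvd S hpS L
  obtain ⟨L', hL', hun⟩ := hA.unorm La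
  refine ⟨L', hLa.trans hL', fun c' hc' => ?_⟩
  obtain ⟨y, hy1, hy2, hy3⟩ := hun c' hc'
  have hfinQ : Finite (GQ ⧸ L'.U) := h72_Lev.instFiniteQuot S L'
  have hfinQa : Finite (GQ ⧸ La.U) := h72_Lev.instFiniteQuot S La
  obtain ⟨d, hd⟩ := h56_finsum_ker_mem_range (h72_Lev.U_anti hL') c'
  have htower := h56_finsum_ker_tower (h72_Lev.U_anti hLa) (h72_Lev.U_anti hL') c' d hd
  have hgoal : (∑ᶠ s : (h56_quotMap (h72_Lev.U_anti (hLa.trans hL'))).ker,
      (s : GQ ⧸ L'.U) • c') = h56_invIncl (h72_Lev.U_anti hL')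
        (∑ᶠ t : (h56_quotMap (h72_Lev.U_anti hLa)).ker, (t : GQ ⧸ La.U) • d) := htower
  rw [hgoal, h56_coe_invIncl]
  -- `d = ∑ q, κ q (Y q)`
  set Y : ∀ q : ↥S, h56_Inv La.U (JJ q) := fun q => ⟨y q, hy2 q⟩ with hYdef
  have hYp : ∀ q, p • Y q = 0 := fun q => Subtype.ext (hy1 q)
  have hdY : d = ∑ q : ↥S, h56_Inv.map (U := La.U) (κ q) (hA.κ_smul q) (Y q) := by
    apply Subtype.ext
    rw [AddSubgroup.val_finsetSum]
    have h1 : ((d : h56_Inv La.U CC) : CC) =
        ((h56_invIncl (h72_Lev.U_anti hL') d : h56_Inv L'.U CC) : CC) := rfl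
    rw [h1, hd, hy3]
    rfl
  have hfin : Finite (h56_quotMap (h72_Lev.U_anti hLa)).ker := inferInstance
  have := Fintype.ofFinite (h56_quotMap (h72_Lev.U_anti hLa)).ker
  have hN : (∑ᶠ t : (h56_quotMap (h72_Lev.U_anti hLa)).ker, (t : GQ ⧸ La.U) • d) = 0 := by
    rw [finsum_eq_sum_of_fintype, hdY]
    simp_rw [Finset.smul_sum, ← h56_Inv.map_smul]
    rw [Finset.sum_comm]
    refine Finset.sum_eq_zero fun q _ => ?_
    rw [← map_sum, ← finsum_eq_sum_of_fintype, h72_norm_kill_JJ S hA hLa q (hdvd q) (Y q) (hYp q),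
      map_zero]
  rw [hN, AddSubgroup.coe_zero]

end Fermat.Agent.S56
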