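import Mathlib

/-!
# S56 / W1 / row B3 (COIND-API), part 1: exactness, transitivity, projection formula

Everything is about Mathlib's `Representation.coind C.subtype σ` (functions `f : G → W` with
`f (c * g) = σ c (f g)`, `G` acting by right translation) for a subgroup `C ≤ G`.
All maps are plain `k`-linear maps with equivariance stated pointwise.
-/

set_option autoImplicit false

namespace Fermat.Agent.S56

open Representation TensorProduct

section basic

variable {k G : Type*} [CommRing k] [Group G] (C : Subgroup G)
variable {W W' W'' : Type*} [AddCommGroup W] [Module k W] [AddCommGroup W'] [Module k W']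
  [AddCommGroup W''] [Module k W'']

/-- evaluation rule for the coinduced action -/
theorem h73_coind_apply_apply {H : Type*} [Monoid H] (φ : H →* G) (σ : Representation k H W)
    (g : G) (x : coindV φ σ) (h : G) :
    ((coind φ σ g x : coindV φ σ) : G → W) h = (x : G → W) (h * g) := rfl

/-- the defining equation of `coindV`, in applied form -/
theorem h73_coindV_apply {H : Type*} [Monoid H] (φ : H →* G) (σ : Representation k H W)
    (x : coindV φ σ) (c : H) (h : G) : (x : G → W) (φ c * h) = σ c ((x : G → W) h) :=
  x.2 c h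

/-- The map `coind σ → coind ρ` induced by an equivariant linear map `f : W → W'`. -/
noncomputable def h73_coindMap {σ : Representation k C W} {ρ : Representation k C W'}
    (f : W →ₗ[k] W') (hf : ∀ c w, f (σ c w) = ρ c (f w)) :
    coindV C.subtype σ →ₗ[k] coindV C.subtype ρ :=
  (f.compLeft G).restrict (fun x hx c h => by
    simp only [LinearMap.compLeft_apply, Function.comp_apply]
    rw [hx c h, hf])

@[simp] theorem h73_coindMap_apply {σ : Representation k C W} {ρ : Representation k C W'}
    (f : W →ₗ[k] W') (hf : ∀ c w, f (σ c w) = ρ c (f w)) (x : coindV C.subtype σ) (h : G) :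
    ((h73_coindMap C f hf x : coindV C.subtype ρ) : G → W') h = f ((x : G → W) h) := rfl

theorem h73_coindMap_equivariant {σ : Representation k C W} {ρ : Representation k C W'}
    (f : W →ₗ[k] W') (hf : ∀ c w, f (σ c w) = ρ c (f w)) (g : G) (x : coindV C.subtype σ) :
    h73_coindMap C f hf (coind C.subtype σ g x) = coind C.subtype ρ g (h73_coindMap C f hf x) := by
  apply Subtype.ext
  funext h
  rfl

/-- LIFT: a coinduced function with values in the range of an equivariant map lifts. -/
theorem h73_coind_lift {σ : Representation k C W} {ρ : Representation k C W'}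
    (f : W →ₗ[k] W') (hf : ∀ c w, f (σ c w) = ρ c (f w)) (x : coindV C.subtype ρ)
    (hx : ∀ h : G, (x : G → W') h ∈ LinearMap.range f) :
    ∃ y : coindV C.subtype σ, h73_coindMap C f hf y = x := by
  classical
  let := QuotientGroup.rightRel C
  choose s hs using hx
  choose! i hi using Quotient.mk'_surjective (α := G)
  let γ (g : G) : C := ⟨g * (i (Quotient.mk' g))⁻¹,
    (QuotientGroup.rightRel_apply.1 (Quotient.eq'.1 (hi (Quotient.mk' g))))⟩
  have hmk (c : C) (g : G) : Quotient.mk' (c.1 * g) = Quotient.mk' g :=
    Quotient.eq'.2 (QuotientGroup.rightRel_apply.2 (by simp))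
  have hγ (c : C) (g : G) : γ (c.1 * g) = c * γ g := by ext; simp [mul_assoc, γ, hmk]
  refine ⟨⟨fun g => σ (γ g) (s (i (Quotient.mk' g))), fun c g => ?_⟩, ?_⟩
  · simp [hmk, hγ]
  · apply Subtype.ext
    funext g
    have h1 := x.2 (γ g) (i (Quotient.mk' g))
    simp only [h73_coindMap_apply]
    rw [hf, hs]
    rw [← h1]
    simp [γ]

theorem h73_coindMap_injective {σ : Representation k C W} {ρ : Representation k C W'}
    (f : W →ₗ[k] W') (hf : ∀ c w, f (σ c w) = ρ c (f w)) (hinj : Function.Injective f) :
    Function.Injective (h73_coindMap C f hf) := by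
  intro x y hxy
  apply Subtype.ext
  funext h
  apply hinj
  have := congrArg (fun z : coindV C.subtype ρ => (z : G → W') h) hxy
  simpa using this

theorem h73_coindMap_surjective {σ : Representation k C W} {ρ : Representation k C W'}
    (f : W →ₗ[k] W') (hf : ∀ c w, f (σ c w) = ρ c (f w)) (hsurj : Function.Surjective f) :
    Function.Surjective (h73_coindMap C f hf) := fun x =>
  h73_coind_lift C f hf x (fun h => by rw [LinearMap.range_eq_top.2 hsurj]; trivial)

theorem h73_coindMap_exact {σ' : Representation k C W'} {σ : Representation k C W}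
    {σ'' : Representation k C W''} (i : W' →ₗ[k] W) (q : W →ₗ[k] W'')
    (hi : ∀ c w, i (σ' c w) = σ c (i w)) (hq : ∀ c w, q (σ c w) = σ'' c (q w))
    (hex : Function.Exact i q) :
    Function.Exact (h73_coindMap C i hi) (h73_coindMap C q hq) := by
  intro x
  constructor
  · intro hx
    obtain ⟨y, hy⟩ := h73_coind_lift C i hi x (fun h => by
      have := congrArg (fun z : coindV C.subtype σ'' => (z : G → W'') h) hx
      simp only [h73_coindMap_apply] at this
      exact (hex _).1 this)
    exact ⟨y, hy⟩
  · rintro ⟨y, rfl⟩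
    apply Subtype.ext
    funext h
    simp only [h73_coindMap_apply]
    exact (hex _).2 ⟨_, rfl⟩

/-- EXACT, packaged: a short exact sequence of `C`-representations induces a short exact
sequence of coinduced `G`-representations. -/
theorem h73_coind_exact {σ' : Representation k C W'} {σ : Representation k C W}
    {σ'' : Representation k C W''} (i : W' →ₗ[k] W) (q : W →ₗ[k] W'')
    (hi : ∀ c w, i (σ' c w) = σ c (i w)) (hq : ∀ c w, q (σ c w) = σ'' c (q w))
    (hinj : Function.Injective i) (hex : Function.Exact i q) (hsurj : Function.Surjective q) :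
    ∃ (I : coindV C.subtype σ' →ₗ[k] coindV C.subtype σ)
      (Q : coindV C.subtype σ →ₗ[k] coindV C.subtype σ''),
      (∀ g x, I (coind C.subtype σ' g x) = coind C.subtype σ g (I x)) ∧
      (∀ g x, Q (coind C.subtype σ g x) = coind C.subtype σ'' g (Q x)) ∧
      Function.Injective I ∧ Function.Exact I Q ∧ Function.Surjective Q :=
  ⟨h73_coindMap C i hi, h73_coindMap C q hq, h73_coindMap_equivariant C i hi,
    h73_coindMap_equivariant C q hq, h73_coindMap_injective C i hi hinj,
    h73_coindMap_exact C i q hi hq hex, h73_coindMap_surjective C q hq hsurj⟩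

/-- finite-dimensionality of the coinduced module -/
theorem h73_coindV_finite {k : Type*} [Field k] {W : Type*} [AddCommGroup W] [Module k W]
    [Finite G] [Module.Finite k W] {H : Type*} [Monoid H] (φ : H →* G)
    (σ : Representation k H W) : Module.Finite k (coindV φ σ) := by
  have : Module.Finite k (G → W) := Module.Finite.pi
  infer_instance

end basic

section trans

variable {k G : Type*} [CommRing k] [Group G] (C : Subgroup G) (C' : Subgroup C)
variable {W : Type*} [AddCommGroup W] [Module k W] (τ : Representation k C' W)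

/-- TRANS: `coind_C^G (coind_{C'}^C τ) ≃ coind_{C'}^G τ` (the right-hand side coinduced along the
composite inclusion `C' → C → G`). -/
noncomputable def h73_coindTrans :
    coindV C.subtype (coind C'.subtype τ) ≃ₗ[k] coindV (C.subtype.comp C'.subtype) τ where
  toFun F := ⟨fun g => (((F : G → coindV C'.subtype τ) g : coindV C'.subtype τ) : C → W) 1,
    fun c' g => by
      have h1 := F.2 (c' : C) g
      simp only [Subgroup.coe_subtype, MonoidHom.coe_comp, Function.comp_apply] at h1 ⊢
      rw [h1, h73_coind_apply_apply, one_mul]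
      have h2 := ((F : G → coindV C'.subtype τ) g).2 c' 1
      simpa using h2⟩
  map_add' F₁ F₂ := rfl
  map_smul' a F := rfl
  invFun E := ⟨fun g => ⟨fun c => (E : G → W) ((c : G) * g), fun c' c => by
      have h1 := E.2 c' ((c : G) * g)
      simp only [Subgroup.coe_subtype, MonoidHom.coe_comp, Function.comp_apply] at h1 ⊢
      rw [← h1]
      simp [mul_assoc]⟩,
    fun c g => by
      apply Subtype.ext
      funext c₁
      simp [mul_assoc]⟩
  left_inv F := by
    apply Subtype.ext
    funext g
    apply Subtype.ext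
    funext c
    have h1 := F.2 c g
    simp only [Subgroup.coe_subtype] at h1 ⊢
    rw [h1, h73_coind_apply_apply, one_mul]
  right_inv E := by
    apply Subtype.ext
    funext g
    simp

theorem h73_coindTrans_apply (F : coindV C.subtype (coind C'.subtype τ)) (g : G) :
    ((h73_coindTrans C C' τ F : coindV (C.subtype.comp C'.subtype) τ) : G → W) g =
      (((F : G → coindV C'.subtype τ) g : coindV C'.subtype τ) : C → W) 1 := rfl

theorem h73_coindTrans_equivariant (g : G) (F : coindV C.subtype (coind C'.subtype τ)) :
    h73_coindTrans C C' τ (coind C.subtype (coind C'.subtype τ) g F) =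
      coind (C.subtype.comp C'.subtype) τ g (h73_coindTrans C C' τ F) := by
  apply Subtype.ext
  funext h
  rfl

end trans

section transport

variable {k G : Type*} [CommRing k] [Group G]
variable {W : Type*} [AddCommGroup W] [Module k W]

/-- Coinduction only depends on the image subgroup: two presentations `φ₁ : H₁ → G`,
`φ₂ : H₂ → G` related by an isomorphism `e : H₁ ≃* H₂` give the SAME submodule of `G → W`. -/
theorem h73_coindV_eq_of_equiv {H₁ H₂ : Type*} [Group H₁] [Group H₂] (φ₁ : H₁ →* G)
    (φ₂ : H₂ →* G) (e : H₁ ≃* H₂) (he : ∀ h, φ₂ (e h) = φ₁ h) (τ₁ : Representation k H₁ W)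
    (τ₂ : Representation k H₂ W) (hτ : ∀ h w, τ₂ (e h) w = τ₁ h w) :
    coindV φ₁ τ₁ = coindV φ₂ τ₂ := by
  ext f
  simp only [mem_coindV]
  constructor
  · intro hf h₂ g
    have := hf (e.symm h₂) g
    rw [← he, ← hτ] at this
    simpa using this
  · intro hf h₁ g
    have := hf (e h₁) g
    rw [he, hτ] at this
    exact this

/-- the corresponding equivariant linear equivalence -/
noncomputable def h73_coindCongr {H₁ H₂ : Type*} [Group H₁] [Group H₂] (φ₁ : H₁ →* G)
    (φ₂ : H₂ →* G) (e : H₁ ≃* H₂) (he : ∀ h, φ₂ (e h) = φ₁ h) (τ₁ : Representation k H₁ W)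
    (τ₂ : Representation k H₂ W) (hτ : ∀ h w, τ₂ (e h) w = τ₁ h w) :
    coindV φ₁ τ₁ ≃ₗ[k] coindV φ₂ τ₂ :=
  LinearEquiv.ofEq _ _ (h73_coindV_eq_of_equiv φ₁ φ₂ e he τ₁ τ₂ hτ)

theorem h73_coindCongr_apply {H₁ H₂ : Type*} [Group H₁] [Group H₂] (φ₁ : H₁ →* G)
    (φ₂ : H₂ →* G) (e : H₁ ≃* H₂) (he : ∀ h, φ₂ (e h) = φ₁ h) (τ₁ : Representation k H₁ W)
    (τ₂ : Representation k H₂ W) (hτ : ∀ h w, τ₂ (e h) w = τ₁ h w) (x : coindV φ₁ τ₁) :
    ((h73_coindCongr φ₁ φ₂ e he τ₁ τ₂ hτ x : coindV φ₂ τ₂) : G → W) = (x : G → W) := rfl

theorem h73_coindCongr_equivariant {H₁ H₂ : Type*} [Group H₁] [Group H₂] (φ₁ : H₁ →* G)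
    (φ₂ : H₂ →* G) (e : H₁ ≃* H₂) (he : ∀ h, φ₂ (e h) = φ₁ h) (τ₁ : Representation k H₁ W)
    (τ₂ : Representation k H₂ W) (hτ : ∀ h w, τ₂ (e h) w = τ₁ h w) (g : G) (x : coindV φ₁ τ₁) :
    h73_coindCongr φ₁ φ₂ e he τ₁ τ₂ hτ (coind φ₁ τ₁ g x) =
      coind φ₂ τ₂ g (h73_coindCongr φ₁ φ₂ e he τ₁ τ₂ hτ x) := by
  apply Subtype.ext
  funext h
  rfl

end transport

section tensor

variable {k G : Type*} [CommRing k] [Group G] (C : Subgroup G)
variable {V : Type*} [AddCommGroup V] [Module k V] (ρ : Representation k G V)

/-- the permutation module `k[C\G]` in its coinduced form: left-`C`-invariant functions on `G` -/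
noncomputable abbrev h73_permV : Submodule k (G → k) := coindV C.subtype (trivial k C k)

/-- its `G`-action (right translation) -/
noncomputable abbrev h73_perm : Representation k G (h73_permV (k := k) C) :=
  coind C.subtype (trivial k C k)

/-- chosen representative of the right coset `C g` -/
noncomputable def h73_rep (x : Quotient (QuotientGroup.rightRel C)) : G := x.out

theorem h73_rep_spec (g : G) :
    g * (h73_rep C (Quotient.mk'' g))⁻¹ ∈ C := by
  have h : Quotient.mk'' (h73_rep C (Quotient.mk'' g)) =
      (Quotient.mk'' g : Quotient (QuotientGroup.rightRel C)) := Quotient.out_eq' _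
  exact QuotientGroup.rightRel_apply.1 (Quotient.eq''.1 h)

/-- indicator function of a right coset, as an element of the permutation module -/
noncomputable def h73_ind (x : Quotient (QuotientGroup.rightRel C)) : h73_permV (k := k) C := by
  classical
  exact ⟨fun g => if (Quotient.mk'' g : Quotient (QuotientGroup.rightRel C)) = x then 1 else 0,
    fun c g => by
      have : (Quotient.mk'' ((c : G) * g) : Quotient (QuotientGroup.rightRel C)) =
          Quotient.mk'' g := Quotient.eq''.2 (QuotientGroup.rightRel_apply.2 (by simp))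
      simp [this]⟩

theorem h73_ind_apply (x : Quotient (QuotientGroup.rightRel C)) (g : G) [Decidable
    ((Quotient.mk'' g : Quotient (QuotientGroup.rightRel C)) = x)] :
    ((h73_ind (k := k) C x : h73_permV (k := k) C) : G → k) g =
      if (Quotient.mk'' g : Quotient (QuotientGroup.rightRel C)) = x then 1 else 0 := by
  unfold h73_ind
  simp only
  congr

/-- forward map of the projection formula, with values in all functions -/
noncomputable def h73_tensorFun : V ⊗[k] h73_permV (k := k) C →ₗ[k] (G → V) :=
  LinearMap.pi fun g =>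
    (ρ g) ∘ₗ (TensorProduct.rid k V).toLinearMap ∘ₗ
      (LinearMap.lTensor V ((LinearMap.proj g : (G → k) →ₗ[k] k) ∘ₗ (h73_permV (k := k) C).subtype))

theorem h73_tensorFun_tmul (v : V) (f : h73_permV (k := k) C) (g : G) :
    h73_tensorFun C ρ (v ⊗ₜ f) g = (f : G → k) g • ρ g v := by
  simp [h73_tensorFun]

theorem h73_tensorFun_mem (t : V ⊗[k] h73_permV (k := k) C) :
    h73_tensorFun C ρ t ∈ coindV C.subtype (ρ.comp C.subtype) := by
  induction t using TensorProduct.induction_on with
  | zero => simp
  | tmul v f =>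
    intro c g
    rw [h73_tensorFun_tmul, h73_tensorFun_tmul]
    have := f.2 c g
    simp only [trivial_apply] at this
    rw [this]
    simp
  | add t₁ t₂ h₁ h₂ =>
    rw [map_add]
    exact Submodule.add_mem _ h₁ h₂

/-- forward map of the projection formula -/
noncomputable def h73_tensorTo :
    V ⊗[k] h73_permV (k := k) C →ₗ[k] coindV C.subtype (ρ.comp C.subtype) :=
  (h73_tensorFun C ρ).codRestrict _ (h73_tensorFun_mem C ρ)

theorem h73_tensorTo_tmul (v : V) (f : h73_permV (k := k) C) (g : G) :
    ((h73_tensorTo C ρ (v ⊗ₜ f) : coindV C.subtype (ρ.comp C.subtype)) : G → V) g =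
      (f : G → k) g • ρ g v :=
  h73_tensorFun_tmul C ρ v f g

/-- every element of the permutation module is the combination of coset indicators given by its
values on the representatives -/
theorem h73_perm_decomp [Fintype (Quotient (QuotientGroup.rightRel C))]
    (f : h73_permV (k := k) C) :
    ∑ x : Quotient (QuotientGroup.rightRel C), (f : G → k) (h73_rep C x) • h73_ind (k := k) C x
      = f := by
  classical
  apply Subtype.ext
  funext g
  rw [Submodule.coe_sum, Finset.sum_apply]
  simp only [Submodule.coe_smul, Pi.smul_apply, h73_ind_apply, smul_eq_mul, mul_ite, mul_one,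
    mul_zero]
  rw [Finset.sum_ite_eq]
  simp only [Finset.mem_univ, if_true]
  have h := f.2 ⟨_, h73_rep_spec C g⟩ (h73_rep C (Quotient.mk'' g))
  simp only [Subgroup.coe_subtype, inv_mul_cancel_right, trivial_apply] at h
  exact h.symm

/-- inverse map of the projection formula -/
noncomputable def h73_tensorInv [Fintype (Quotient (QuotientGroup.rightRel C))] :
    coindV C.subtype (ρ.comp C.subtype) →ₗ[k] V ⊗[k] h73_permV (k := k) C :=
  ∑ x : Quotient (QuotientGroup.rightRel C),
    ((TensorProduct.mk k V (h73_permV (k := k) C)).flip (h73_ind C x)) ∘ₗ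
      (ρ (h73_rep C x)⁻¹) ∘ₗ (LinearMap.proj (h73_rep C x) : (G → V) →ₗ[k] V) ∘ₗ
        (coindV C.subtype (ρ.comp C.subtype)).subtype

theorem h73_tensorInv_apply [Fintype (Quotient (QuotientGroup.rightRel C))]
    (F : coindV C.subtype (ρ.comp C.subtype)) :
    h73_tensorInv C ρ F = ∑ x : Quotient (QuotientGroup.rightRel C),
      (ρ (h73_rep C x)⁻¹ ((F : G → V) (h73_rep C x))) ⊗ₜ[k] h73_ind (k := k) C x := by
  simp [h73_tensorInv]

theorem h73_tensorTo_inv [Fintype (Quotient (QuotientGroup.rightRel C))]
    (F : coindV C.subtype (ρ.comp C.subtype)) :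
    h73_tensorTo C ρ (h73_tensorInv C ρ F) = F := by
  classical
  apply Subtype.ext
  funext g
  rw [h73_tensorInv_apply, map_sum, Submodule.coe_sum, Finset.sum_apply]
  simp only [h73_tensorTo_tmul, h73_ind_apply, ite_smul, one_smul, zero_smul]
  rw [Finset.sum_ite_eq]
  simp only [Finset.mem_univ, if_true]
  have h := F.2 ⟨_, h73_rep_spec C g⟩ (h73_rep C (Quotient.mk'' g))
  simp only [Subgroup.coe_subtype, inv_mul_cancel_right, MonoidHom.coe_comp,
    Function.comp_apply] at h
  rw [h, ← Module.End.mul_apply, ← map_mul]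

theorem h73_tensorInv_to [Fintype (Quotient (QuotientGroup.rightRel C))]
    (t : V ⊗[k] h73_permV (k := k) C) :
    h73_tensorInv C ρ (h73_tensorTo C ρ t) = t := by
  classical
  induction t using TensorProduct.induction_on with
  | zero => simp
  | tmul v f =>
    rw [h73_tensorInv_apply]
    simp only [h73_tensorTo_tmul, map_smul]
    have : ∀ x : Quotient (QuotientGroup.rightRel C),
        ρ (h73_rep C x)⁻¹ (ρ (h73_rep C x) v) = v := fun x => by
      rw [← Module.End.mul_apply, ← map_mul]; simp
    simp only [this, TensorProduct.smul_tmul]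
    rw [← TensorProduct.tmul_sum, h73_perm_decomp]
  | add t₁ t₂ h₁ h₂ => rw [map_add, map_add, h₁, h₂]

variable [Finite G]

/-- TENSOR (projection formula): `V ⊗ k[C\G] ≃ coind_C^G (Res V)`. -/
noncomputable def h73_tensorCoind :
    V ⊗[k] h73_permV (k := k) C ≃ₗ[k] coindV C.subtype (ρ.comp C.subtype) := by
  classical
  letI : Fintype (Quotient (QuotientGroup.rightRel C)) := Fintype.ofFinite _
  exact LinearEquiv.ofLinearMap (h73_tensorTo C ρ) (h73_tensorInv C ρ)
    (LinearMap.ext (h73_tensorTo_inv C ρ)) (LinearMap.ext (h73_tensorInv_to C ρ))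

theorem h73_tensorCoind_tmul (v : V) (f : h73_permV (k := k) C) (g : G) :
    ((h73_tensorCoind C ρ (v ⊗ₜ f) : coindV C.subtype (ρ.comp C.subtype)) : G → V) g =
      (f : G → k) g • ρ g v :=
  h73_tensorFun_tmul C ρ v f g

theorem h73_tensorCoind_equivariant (g : G) (t : V ⊗[k] h73_permV (k := k) C) :
    h73_tensorCoind C ρ ((ρ.tprod (h73_perm (k := k) C)) g t) =
      coind C.subtype (ρ.comp C.subtype) g (h73_tensorCoind C ρ t) := by
  induction t using TensorProduct.induction_on with
  | zero => simp
  | tmul v f =>
    apply Subtype.ext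
    funext h
    rw [Representation.tprod_apply, TensorProduct.map_tmul, h73_tensorCoind_tmul,
      h73_coind_apply_apply, h73_coind_apply_apply, h73_tensorCoind_tmul,
      ← Module.End.mul_apply, ← map_mul]
  | add t₁ t₂ h₁ h₂ => rw [map_add, map_add, map_add, map_add, h₁, h₂]

end tensor

end Fermat.Agent.S56
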