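import Fermat.Agent.S56.h80_ERedDefs

/-!
# S56 / W3 / E : the flat condition is invariant under coboundary translation

`V_a = k² × k²` with the action `h78_act rb a`.  An additive equivariant bijection
`V_a ≃ V_{a'}` transports `h78_LocFlat` and the Hopf datum `h80_Datum`.

* `h73_locFlat_of_equiv`, `h73_datum_of_equiv` : the general transport;
* `h73_locFlat_add_cob`, `h73_locFlat_sub_cob`, `h73_datum_add_cob`, `h73_datum_sub_cob` :
  `a ↦ a ± (X * rb - rb * X)` (same `H`, same field of points `La`,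
  `e' = (v, w) ↦ (v, w ± X v)` after `e`);
(conjugation invariance is `h30_locFlat_conj` in `h30_RedConj`.)
-/

set_option autoImplicit false

open Coalgebra WithConv

namespace Fermat.Agent.S56

variable (p : ℕ) [Fact p.Prime] {k : Type} [Field k]

local notation "Ω" => PadicAlgCl p

/-- transport of the flat condition along an additive equivariant bijection `V_a ≃ V_{a'}`. -/
theorem h73_locFlat_of_equiv (rb a rb' a' : h78_G p → Matrix (Fin 2) (Fin 2) k)
    (T : (Fin 2 → k) × (Fin 2 → k) ≃ (Fin 2 → k) × (Fin 2 → k))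
    (hadd : ∀ x y, T (x + y) = T x + T y)
    (hact : ∀ σ x, T (h78_act p rb a σ x) = h78_act p rb' a' σ (T x))
    (h : h78_LocFlat p rb a) : h78_LocFlat p rb' a' := by
  obtain ⟨H, i1, i2, hfin, hflat, hco, e, hemul, heq⟩ := h
  refine ⟨H, i1, i2, hfin, hflat, hco, e.trans T, fun f g => ?_, fun σ f g hfg => ?_⟩
  · rw [Equiv.trans_apply, Equiv.trans_apply, Equiv.trans_apply, hemul, hadd]
  · rw [Equiv.trans_apply, Equiv.trans_apply, heq σ f g hfg, hact]

/-- the shear `(v, w) ↦ (v, w + Y v)` -/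
def h73_shear (Y : Matrix (Fin 2) (Fin 2) k) :
    (Fin 2 → k) × (Fin 2 → k) ≃ (Fin 2 → k) × (Fin 2 → k) where
  toFun x := (x.1, x.2 + Y.mulVec x.1)
  invFun x := (x.1, x.2 - Y.mulVec x.1)
  left_inv x := by
    refine Prod.ext rfl ?_
    show x.2 + Y.mulVec x.1 - Y.mulVec x.1 = x.2
    abel
  right_inv x := by
    refine Prod.ext rfl ?_
    show x.2 - Y.mulVec x.1 + Y.mulVec x.1 = x.2
    abel

theorem h73_shear_apply (Y : Matrix (Fin 2) (Fin 2) k) (x : (Fin 2 → k) × (Fin 2 → k)) :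
    h73_shear Y x = (x.1, x.2 + Y.mulVec x.1) := rfl

theorem h73_shear_add (Y : Matrix (Fin 2) (Fin 2) k) (x y : (Fin 2 → k) × (Fin 2 → k)) :
    h73_shear Y (x + y) = h73_shear Y x + h73_shear Y y := by
  simp only [h73_shear_apply, Prod.fst_add, Prod.snd_add, Matrix.mulVec_add, Prod.mk_add_mk]
  congr 1
  abel

/-- the shear intertwines `V_a` and `V_{a + ∂Y}`, `∂Y s = Y * rb s - rb s * Y`. -/
theorem h73_shear_act (rb a : h78_G p → Matrix (Fin 2) (Fin 2) k)
    (Y : Matrix (Fin 2) (Fin 2) k) (σ : h78_G p) (x : (Fin 2 → k) × (Fin 2 → k)) :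
    h73_shear Y (h78_act p rb a σ x) =
      h78_act p rb (fun s => a s + (Y * rb s - rb s * Y)) σ (h73_shear Y x) := by
  simp only [h73_shear_apply, h78_act, Matrix.mulVec_add, Matrix.add_mulVec, Matrix.sub_mulVec,
    Matrix.mulVec_mulVec]
  congr 1
  abel

/-- **coboundary invariance** of the flat condition (`+` form). -/
theorem h73_locFlat_add_cob (rb a : h78_G p → Matrix (Fin 2) (Fin 2) k)
    (Y : Matrix (Fin 2) (Fin 2) k) (h : h78_LocFlat p rb a) :
    h78_LocFlat p rb (fun s => a s + (Y * rb s - rb s * Y)) :=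
  h73_locFlat_of_equiv p rb a rb _ (h73_shear Y) (h73_shear_add Y) (h73_shear_act p rb a Y) h

/-- transport of the Hopf datum along an additive equivariant bijection which does not change
`rb` nor the kernel condition. -/
noncomputable def h73_datum_of_equiv (rb : h78_G p →* Matrix (Fin 2) (Fin 2) k)
    (a a' : h78_G p → Matrix (Fin 2) (Fin 2) k)
    (T : (Fin 2 → k) × (Fin 2 → k) ≃ (Fin 2 → k) × (Fin 2 → k))
    (hadd : ∀ x y, T (x + y) = T x + T y)
    (hact : ∀ σ x, T (h78_act p rb a σ x) = h78_act p rb a' σ (T x))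
    (hker : ∀ g : h78_G p, rb g = 1 → (a' g = 0 ↔ a g = 0))
    (D : h80_Datum p rb a) : h80_Datum p rb a' where
  H := D.H
  instCR := D.instCR
  instBi := D.instBi
  instCo := D.instCo
  instFree := D.instFree
  instFin := D.instFin
  La := D.La
  instLa := D.instLa
  kill := D.kill
  stable := D.stable
  pts := D.pts
  gal := fun g => by
    rw [D.gal g]
    constructor
    · rintro ⟨h1, h2⟩
      exact ⟨h1, (hker g h1).2 h2⟩
    · rintro ⟨h1, h2⟩
      exact ⟨h1, (hker g h1).1 h2⟩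
  faith := D.faith
  e := D.e.trans T
  e_mul := fun f g => by
    rw [Equiv.trans_apply, Equiv.trans_apply, Equiv.trans_apply, D.e_mul, hadd]
  e_act := fun σ f g hfg => by
    rw [Equiv.trans_apply, Equiv.trans_apply, D.e_act σ f g hfg, hact]

/-- the Hopf datum of `a + ∂Y` from that of `a` (same `H`, same `La`). -/
noncomputable def h73_datum_add_cob (rb : h78_G p →* Matrix (Fin 2) (Fin 2) k)
    (a : h78_G p → Matrix (Fin 2) (Fin 2) k) (Y : Matrix (Fin 2) (Fin 2) k)
    (D : h80_Datum p rb a) : h80_Datum p rb (fun s => a s + (Y * rb s - rb s * Y)) :=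
  h73_datum_of_equiv p rb a _ (h73_shear Y) (h73_shear_add Y) (h73_shear_act p rb a Y)
    (fun g hg => by
      show a g + (Y * rb g - rb g * Y) = 0 ↔ a g = 0
      rw [hg, mul_one, one_mul, sub_self, add_zero]) D

/-- the shear by `-X` intertwines `V_a` and `V_{a - ∂X}`. -/
theorem h73_shear_act_sub (rb a : h78_G p → Matrix (Fin 2) (Fin 2) k)
    (X : Matrix (Fin 2) (Fin 2) k) (σ : h78_G p) (x : (Fin 2 → k) × (Fin 2 → k)) :
    h73_shear (-X) (h78_act p rb a σ x) =
      h78_act p rb (fun s => a s - (X * rb s - rb s * X)) σ (h73_shear (-X) x) := by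
  rw [h73_shear_act]
  have h2 : (fun s => a s + (-X * rb s - rb s * -X)) = fun s => a s - (X * rb s - rb s * X) := by
    funext s
    rw [neg_mul, mul_neg]
    abel
  rw [h2]

/-- **coboundary invariance** of the flat condition (`-` form, the shape of `hcob`). -/
theorem h73_locFlat_sub_cob (rb a : h78_G p → Matrix (Fin 2) (Fin 2) k)
    (X : Matrix (Fin 2) (Fin 2) k) (h : h78_LocFlat p rb a) :
    h78_LocFlat p rb (fun s => a s - (X * rb s - rb s * X)) :=
  h73_locFlat_of_equiv p rb a rb _ (h73_shear (-X)) (h73_shear_add (-X))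
    (h73_shear_act_sub p rb a X) h

/-- the Hopf datum of `a - ∂X` from that of `a` (same `H`, same `La`). -/
noncomputable def h73_datum_sub_cob (rb : h78_G p →* Matrix (Fin 2) (Fin 2) k)
    (a : h78_G p → Matrix (Fin 2) (Fin 2) k) (X : Matrix (Fin 2) (Fin 2) k)
    (D : h80_Datum p rb a) : h80_Datum p rb (fun s => a s - (X * rb s - rb s * X)) :=
  h73_datum_of_equiv p rb a _ (h73_shear (-X)) (h73_shear_add (-X)) (h73_shear_act_sub p rb a X)
    (fun g hg => by
      show a g - (X * rb g - rb g * X) = 0 ↔ a g = 0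
      rw [hg, mul_one, one_mul, sub_self, sub_zero]) D

theorem h73_datum_sub_cob_H (rb : h78_G p →* Matrix (Fin 2) (Fin 2) k)
    (a : h78_G p → Matrix (Fin 2) (Fin 2) k) (X : Matrix (Fin 2) (Fin 2) k)
    (D : h80_Datum p rb a) : (h73_datum_sub_cob p rb a X D).H = D.H := rfl

theorem h73_datum_sub_cob_La (rb : h78_G p →* Matrix (Fin 2) (Fin 2) k)
    (a : h78_G p → Matrix (Fin 2) (Fin 2) k) (X : Matrix (Fin 2) (Fin 2) k)
    (D : h80_Datum p rb a) : (h73_datum_sub_cob p rb a X D).La = D.La := rfl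

theorem h73_datum_sub_cob_e (rb : h78_G p →* Matrix (Fin 2) (Fin 2) k)
    (a : h78_G p → Matrix (Fin 2) (Fin 2) k) (X : Matrix (Fin 2) (Fin 2) k)
    (D : h80_Datum p rb a) (f : WithConv (D.H →ₐ[h78_Zp p] Ω)) :
    (h73_datum_sub_cob p rb a X D).e f = ((D.e f).1, (D.e f).2 + (-X).mulVec (D.e f).1) := rfl

theorem h73_datum_add_cob_H (rb : h78_G p →* Matrix (Fin 2) (Fin 2) k)
    (a : h78_G p → Matrix (Fin 2) (Fin 2) k) (Y : Matrix (Fin 2) (Fin 2) k)
    (D : h80_Datum p rb a) : (h73_datum_add_cob p rb a Y D).H = D.H := rfl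

theorem h73_datum_add_cob_La (rb : h78_G p →* Matrix (Fin 2) (Fin 2) k)
    (a : h78_G p → Matrix (Fin 2) (Fin 2) k) (Y : Matrix (Fin 2) (Fin 2) k)
    (D : h80_Datum p rb a) : (h73_datum_add_cob p rb a Y D).La = D.La := rfl

theorem h73_datum_add_cob_e (rb : h78_G p →* Matrix (Fin 2) (Fin 2) k)
    (a : h78_G p → Matrix (Fin 2) (Fin 2) k) (Y : Matrix (Fin 2) (Fin 2) k)
    (D : h80_Datum p rb a) (f : WithConv (D.H →ₐ[h78_Zp p] Ω)) :
    (h73_datum_add_cob p rb a Y D).e f = ((D.e f).1, (D.e f).2 + Y.mulVec (D.e f).1) := rfl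

end Fermat.Agent.S56
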