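import Fermat.Agent.S56.h66_MidPlaces

/-!
# S56 / MID: TS1 and TS2 from the structural tame package (A) WILD, (B) CYC, (C) FROB

`h73_Wild P F τ` : `τ` is in the inertia group of `P` and acts trivially on `F^× / (1 + 𝔪_P)`.

* `h73_tame_inv_of`    : skeleton statement `h12_tame_inv` (TS1) from (A) + (C);
* `h73_tame_cyclic_of` : skeleton statement `h12_tame_cyclic` (TS2) from (A) + (B) + (C).
-/

set_option autoImplicit false

namespace Fermat.Agent.S56

open Fermat.Agent.S53 Fermat.Agent.S53.Dict ExtCitation groupCohomology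

open scoped Pointwise

/-- wild inertia relative to a finite level `F` -/
def h73_Wild (P : ValuationSubring (AlgebraicClosure ℚ))
    (F : IntermediateField ℚ (AlgebraicClosure ℚ)) (τ : GQ) : Prop :=
  τ ∈ P.inertiaSubgroupIn ℚ ∧ ∀ x ∈ F, x ≠ 0 → τ x / x - 1 ∈ P.nonunits

/-- (A) WILD: wild elements have `q`-power order on `F`. -/
def h73_HypA (q : Nat.Primes) : Prop :=
  ∀ (F : IntermediateField ℚ (AlgebraicClosure ℚ)), FiniteDimensional ℚ F → Normal ℚ F →
    ∀ τ : GQ, h73_Wild (primeLocalPlace q) F τ → ∃ a : ℕ, ∀ x ∈ F, (τ ^ (q : ℕ) ^ a) x = x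

/-- (B) CYC: inertia modulo wild inertia is cyclic. -/
def h73_HypB (q : Nat.Primes) : Prop :=
  ∀ (F : IntermediateField ℚ (AlgebraicClosure ℚ)), FiniteDimensional ℚ F → Normal ℚ F →
    ∃ τ0 ∈ (primeLocalPlace q).inertiaSubgroupIn ℚ,
      ∀ τ ∈ (primeLocalPlace q).inertiaSubgroupIn ℚ,
        ∃ j : ℕ, h73_Wild (primeLocalPlace q) F (τ * (τ0 ^ j)⁻¹)

/-- (C) FROB: a Frobenius element acts on inertia modulo wild inertia by the `q`-th power. -/
def h73_HypC (q : Nat.Primes) : Prop :=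
  ∀ (F : IntermediateField ℚ (AlgebraicClosure ℚ)), FiniteDimensional ℚ F → Normal ℚ F →
    ∀ φ : GQ, (primeLocalPlace q).IsFrobeniusAt φ (q : ℕ) →
      ∀ τ ∈ (primeLocalPlace q).inertiaSubgroupIn ℚ,
        h73_Wild (primeLocalPlace q) F (φ * τ * φ⁻¹ * (τ ^ (q : ℕ))⁻¹)

section aux

variable (q : Nat.Primes)

/-- inertia is contained in the decomposition group -/
theorem h73_inertia_le_dec {σ : GQ} (hσ : σ ∈ (primeLocalPlace q).inertiaSubgroupIn ℚ) :
    σ ∈ (primeLocalPlace q).decompositionSubgroup ℚ := by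
  obtain ⟨x, -, rfl⟩ := Subgroup.mem_map.mp hσ
  exact x.2

/-- conjugation by the local group preserves inertia -/
theorem h73_conj_mem_inertia (g i : primeLocalGaloisGroup q)
    (hi : primeLocalToGlobal q i ∈ (primeLocalPlace q).inertiaSubgroupIn ℚ) :
    primeLocalToGlobal q (g * i * g⁻¹) ∈ (primeLocalPlace q).inertiaSubgroupIn ℚ := by
  have h1 := Fermat.Agent.S55.h56_conj_mem_inertia (primeLocalPlace q)
    (primeLocalToGlobal q g) (primeLocalToGlobal q i) hi
  have h2 : (primeLocalToGlobal q g) • (primeLocalPlace q) = primeLocalPlace q :=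
    Fermat.Agent.S55.h6_primeLocalToGlobal_mem_decomposition q g
  rw [h2] at h1
  rw [map_mul, map_mul, map_inv]
  exact h1

/-- elements of the local group that agree modulo a normal level conjugate inertia to elements
that agree modulo that level -/
theorem h73_conj_congr (F : IntermediateField ℚ (AlgebraicClosure ℚ)) (hN : Normal ℚ F)
    (g g' i : primeLocalGaloisGroup q)
    (hgg' : primeLocalToGlobal q (g⁻¹ * g') ∈ F.fixingSubgroup) :
    primeLocalToGlobal q ((g' * i * g'⁻¹)⁻¹ * (g * i * g⁻¹)) ∈ F.fixingSubgroup := by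
  have halg : Algebra.IsAlgebraic ℚ (AlgebraicClosure ℚ) := AlgebraicClosure.isAlgebraic ℚ
  have hclo : IsAlgClosure ℚ (AlgebraicClosure ℚ) := ⟨inferInstance, inferInstance⟩
  have hnor : Normal ℚ (AlgebraicClosure ℚ) := IsAlgClosure.normal ℚ (AlgebraicClosure ℚ)
  have hmap : ∀ (σ : GQ) (y : AlgebraicClosure ℚ), y ∈ F → σ y ∈ F := by
    intro σ y hy
    have h := (IntermediateField.normal_iff_forall_map_le'.1 hN) σ
    exact h ⟨y, hy, rfl⟩
  have hinv : ∀ (σ : GQ) (y : AlgebraicClosure ℚ), σ (σ⁻¹ y) = y := fun σ y => by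
    rw [← AlgEquiv.mul_apply, mul_inv_cancel, AlgEquiv.one_apply]
  have hinv' : ∀ (σ : GQ) (y : AlgebraicClosure ℚ), σ⁻¹ (σ y) = y := fun σ y => by
    rw [← AlgEquiv.mul_apply, inv_mul_cancel, AlgEquiv.one_apply]
  rw [IntermediateField.mem_fixingSubgroup_iff] at hgg' ⊢
  set G : GQ := primeLocalToGlobal q g with hG
  set G' : GQ := primeLocalToGlobal q g' with hG'
  set I : GQ := primeLocalToGlobal q i with hI
  have h1 : ∀ y ∈ F, G' y = G y := by
    intro y hy
    have := hgg' y hy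
    rw [map_mul, map_inv, AlgEquiv.mul_apply, ← hG, ← hG'] at this
    have h2 := congrArg G this
    rw [hinv] at h2
    exact h2
  have hel : primeLocalToGlobal q ((g' * i * g'⁻¹)⁻¹ * (g * i * g⁻¹)) =
      G' * I⁻¹ * G'⁻¹ * (G * I * G⁻¹) := by
    simp only [map_mul, map_inv, mul_inv_rev, inv_inv, ← hG, ← hG', ← hI, mul_assoc]
  intro y hy
  rw [hel]
  simp only [AlgEquiv.mul_apply]
  have e1 : G⁻¹ y ∈ F := hmap _ y hy
  have e2 : I (G⁻¹ y) ∈ F := hmap _ _ e1
  rw [← h1 _ e2, hinv', hinv', h1 _ e1, hinv]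

end aux

section TS1

variable (p : ℕ) [Fact p.Prime]

/-- **TS1** (skeleton statement `h12_tame_inv`) from (A) WILD and (C) FROB. -/
theorem h73_tame_inv_of (q : Nat.Primes) (hypA : h73_HypA q) (hypC : h73_HypC q)
    (hpq : p ∣ (q : ℕ) - 1) {A : Type*} [AddCommGroup A]
    (hA : ∀ x : A, p • x = 0) (w : primeLocalGaloisGroup q → A)
    (hlev : IsLevelConstant₁ (primeLocalToGlobal q) w)
    (hadd : ∀ i i' : primeLocalGaloisGroup q,
      primeLocalToGlobal q i ∈ (primeLocalPlace q).inertiaSubgroupIn ℚ →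
      primeLocalToGlobal q i' ∈ (primeLocalPlace q).inertiaSubgroupIn ℚ →
      w (i * i') = w i + w i') :
    ∀ g i : primeLocalGaloisGroup q,
      primeLocalToGlobal q i ∈ (primeLocalPlace q).inertiaSubgroupIn ℚ →
      w (g * i * g⁻¹) = w i := by
  have hp : p.Prime := Fact.out
  obtain ⟨F₀, hF₀, hw₀⟩ := hlev
  obtain ⟨F, hFfin, hFnorm, hF₀F⟩ := h40_exists_normal_level F₀
  have hw : ∀ g s : primeLocalGaloisGroup q, primeLocalToGlobal q s ∈ F.fixingSubgroup →
      w (g * s) = w g :=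
    fun g s hs => hw₀ g s (IntermediateField.fixingSubgroup_antitone hF₀F hs)
  -- the inertia subgroup of the local group
  set I₀ : Subgroup (primeLocalGaloisGroup q) :=
    ((primeLocalPlace q).inertiaSubgroupIn ℚ).comap (primeLocalToGlobal q) with hI₀
  have hmem : ∀ i, i ∈ I₀ ↔ primeLocalToGlobal q i ∈ (primeLocalPlace q).inertiaSubgroupIn ℚ :=
    fun i => Iff.rfl
  have hw1 : w 1 = 0 := by
    have h := hadd 1 1 ((hmem 1).1 (one_mem I₀)) ((hmem 1).1 (one_mem I₀))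
    rw [mul_one] at h
    exact left_eq_add.mp h
  have hpow : ∀ (i : primeLocalGaloisGroup q), i ∈ I₀ → ∀ n : ℕ, w (i ^ n) = n • w i := by
    intro i hi n
    induction n with
    | zero => rw [pow_zero, zero_smul, hw1]
    | succ n ih =>
      rw [pow_succ, hadd (i ^ n) i ((hmem _).1 (pow_mem hi n)) ((hmem _).1 hi), ih, succ_nsmul]
  have hqp : (q : ℕ) ≠ p := by
    intro h
    rw [h] at hpq
    have h1 : 1 ≤ p := hp.one_lt.le
    have h2 := Nat.le_of_dvd (by have := hp.one_lt; omega) hpq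
    omega
  have hkill : ∀ (x : A) (a : ℕ), ((q : ℕ) ^ a) • x = 0 → x = 0 := by
    intro x a hx
    have hcop : Nat.Coprime ((q : ℕ) ^ a) p :=
      Nat.Coprime.pow_left a ((Nat.coprime_primes q.2 hp).2 hqp)
    have hb := Nat.gcd_eq_gcd_ab ((q : ℕ) ^ a) p
    rw [hcop] at hb
    have h1 : x = ((1 : ℕ) : ℤ) • x := by simp
    rw [h1, hb, add_smul, mul_comm, mul_smul, mul_comm, mul_smul, natCast_zsmul, natCast_zsmul,
      hx, hA x, smul_zero, smul_zero, add_zero]
  have hwild : ∀ i : primeLocalGaloisGroup q,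
      h73_Wild (primeLocalPlace q) F (primeLocalToGlobal q i) → w i = 0 := by
    intro i hi
    obtain ⟨a, ha⟩ := hypA F hFfin hFnorm _ hi
    have h1 : primeLocalToGlobal q (i ^ (q : ℕ) ^ a) ∈ F.fixingSubgroup := by
      rw [IntermediateField.mem_fixingSubgroup_iff, map_pow]
      exact ha
    have h2 := hw 1 _ h1
    rw [one_mul, hw1, hpow i ((hmem i).2 hi.1)] at h2
    exact hkill _ a h2
  have hq1 : ∀ x : A, (q : ℕ) • x = x := by
    intro x
    obtain ⟨c, hc⟩ := hpq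
    have h1 : (q : ℕ) = p * c + 1 := by
      have := q.2.one_lt
      omega
    rw [h1, add_smul, mul_smul, one_smul]
    have : p • c • x = 0 := hA _
    rw [this, zero_add]
  have hfrob : ∀ φ : primeLocalGaloisGroup q,
      (primeLocalPlace q).IsFrobeniusAt (primeLocalToGlobal q φ) (q : ℕ) →
      ∀ i, i ∈ I₀ → w (φ * i * φ⁻¹) = w i := by
    intro φ hφ i hi
    have hC := hypC F hFfin hFnorm _ hφ _ ((hmem i).1 hi)
    have hu : primeLocalToGlobal q (φ * i * φ⁻¹ * (i ^ (q : ℕ))⁻¹) =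
        primeLocalToGlobal q φ * primeLocalToGlobal q i * (primeLocalToGlobal q φ)⁻¹ *
          (primeLocalToGlobal q i ^ (q : ℕ))⁻¹ := by
      simp only [map_mul, map_inv, map_pow]
    rw [← hu] at hC
    have h0 := hwild _ hC
    have h1 : φ * i * φ⁻¹ = (φ * i * φ⁻¹ * (i ^ (q : ℕ))⁻¹) * i ^ (q : ℕ) := by group
    rw [h1, hadd _ _ hC.1 ((hmem _).1 (pow_mem hi _)), h0, zero_add, hpow i hi, hq1]
  have hfrobn : ∀ φ : primeLocalGaloisGroup q,
      (primeLocalPlace q).IsFrobeniusAt (primeLocalToGlobal q φ) (q : ℕ) →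
      ∀ (n : ℕ) i, i ∈ I₀ → w (φ ^ n * i * (φ ^ n)⁻¹) = w i := by
    intro φ hφ n
    induction n with
    | zero => intro i _; simp
    | succ n ih =>
      intro i hi
      have h1 : φ ^ (n + 1) * i * (φ ^ (n + 1))⁻¹ = φ * (φ ^ n * i * (φ ^ n)⁻¹) * φ⁻¹ := by
        rw [pow_succ']; group
      rw [h1, hfrob φ hφ _ ((hmem _).2 (h73_conj_mem_inertia q _ _ ((hmem i).1 hi))), ih i hi]
  intro g i hi
  obtain ⟨φ, hφ⟩ := h12_exists_frob q
  obtain ⟨n, i', hi', hs⟩ := h12_frob_gen q φ hφ F hFfin g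
  have hs' : primeLocalToGlobal q (g⁻¹ * (φ ^ n * i')) ∈ F.fixingSubgroup := by
    rw [← mul_assoc]; exact hs
  have hc := h73_conj_congr q F hFnorm g (φ ^ n * i') i hs'
  have h1 : g * i * g⁻¹ = ((φ ^ n * i') * i * (φ ^ n * i')⁻¹) *
      (((φ ^ n * i') * i * (φ ^ n * i')⁻¹)⁻¹ * (g * i * g⁻¹)) := by group
  rw [h1, hw _ _ hc]
  have h2 : (φ ^ n * i') * i * (φ ^ n * i')⁻¹ = φ ^ n * (i' * i * i'⁻¹) * (φ ^ n)⁻¹ := by group
  have hi'I : i' ∈ I₀ := (hmem i').2 hi'
  have hiI : i ∈ I₀ := (hmem i).2 hi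
  rw [h2, hfrobn φ hφ n _ (mul_mem (mul_mem hi'I hiI) (inv_mem hi'I))]
  have h3 : w (i' * i'⁻¹) = w i' + w i'⁻¹ := hadd _ _ hi' ((hmem _).1 (inv_mem hi'I))
  rw [mul_inv_cancel, hw1] at h3
  rw [hadd _ _ ((hmem _).1 (mul_mem hi'I hiI)) ((hmem _).1 (inv_mem hi'I)), hadd _ _ hi' hi]
  have h4 : w i'⁻¹ = - w i' := by
    rw [eq_neg_iff_add_eq_zero, add_comm]; exact h3.symm
  rw [h4]
  abel

end TS1

section TS2

variable (p : ℕ) [Fact p.Prime]

/-- **TS2** (skeleton statement `h12_tame_cyclic`) from (A) WILD, (B) CYC and (C) FROB. -/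
theorem h73_tame_cyclic_of (q : Nat.Primes) (hypA : h73_HypA q) (hypB : h73_HypB q)
    (hypC : h73_HypC q) (hpq : p ≠ (q : ℕ)) {H : Type*} [Group H]
    (f : primeLocalGaloisGroup q →* H)
    (hlev : ∃ F : IntermediateField ℚ (AlgebraicClosure ℚ), FiniteDimensional ℚ F ∧
      ∀ s : primeLocalGaloisGroup q, primeLocalToGlobal q s ∈ F.fixingSubgroup → f s = 1)
    (hp : ∀ i : primeLocalGaloisGroup q,
      primeLocalToGlobal q i ∈ (primeLocalPlace q).inertiaSubgroupIn ℚ →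
      ∃ n : ℕ, f i ^ (p ^ n) = 1) :
    ∃ τ : primeLocalGaloisGroup q,
      primeLocalToGlobal q τ ∈ (primeLocalPlace q).inertiaSubgroupIn ℚ ∧
      (∀ i : primeLocalGaloisGroup q,
        primeLocalToGlobal q i ∈ (primeLocalPlace q).inertiaSubgroupIn ℚ →
        ∃ m : ℕ, f i = f τ ^ m) ∧
      ∀ φ : primeLocalGaloisGroup q,
        (primeLocalPlace q).IsFrobeniusAt (primeLocalToGlobal q φ) (q : ℕ) →
        f (φ * τ * φ⁻¹) = f τ ^ (q : ℕ) := by
  have hpp : p.Prime := Fact.out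
  obtain ⟨F₀, hF₀, hf₀⟩ := hlev
  obtain ⟨F, hFfin, hFnorm, hF₀F⟩ := h40_exists_normal_level F₀
  have hf : ∀ s : primeLocalGaloisGroup q, primeLocalToGlobal q s ∈ F.fixingSubgroup → f s = 1 :=
    fun s hs => hf₀ s (IntermediateField.fixingSubgroup_antitone hF₀F hs)
  -- `f` kills wild inertia
  have hwild : ∀ i : primeLocalGaloisGroup q,
      h73_Wild (primeLocalPlace q) F (primeLocalToGlobal q i) → f i = 1 := by
    intro i hi
    obtain ⟨a, ha⟩ := hypA F hFfin hFnorm _ hi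
    have h1 : primeLocalToGlobal q (i ^ (q : ℕ) ^ a) ∈ F.fixingSubgroup := by
      rw [IntermediateField.mem_fixingSubgroup_iff, map_pow]
      exact ha
    have h2 : f i ^ ((q : ℕ) ^ a) = 1 := by rw [← map_pow]; exact hf _ h1
    obtain ⟨n, hn⟩ := hp i hi.1
    have hcop : Nat.Coprime ((q : ℕ) ^ a) (p ^ n) :=
      Nat.Coprime.pow a n ((Nat.coprime_primes q.2 hpp).2 (Ne.symm hpq))
    have h3 := pow_gcd_eq_one.2 ⟨h2, hn⟩
    rw [hcop.gcd_eq_one, pow_one] at h3
    exact h3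
  obtain ⟨τ0, hτ0, hgen⟩ := hypB F hFfin hFnorm
  obtain ⟨t0, rfl⟩ := (h12_decomp_range q τ0).1 (h73_inertia_le_dec q hτ0)
  refine ⟨t0, hτ0, fun i hi => ?_, fun φ hφ => ?_⟩
  · obtain ⟨j, hj⟩ := hgen _ hi
    have hu : primeLocalToGlobal q (i * (t0 ^ j)⁻¹) =
        primeLocalToGlobal q i * (primeLocalToGlobal q t0 ^ j)⁻¹ := by
      simp only [map_mul, map_inv, map_pow]
    rw [← hu] at hj
    have h1 := hwild _ hj
    rw [map_mul, map_inv, map_pow, mul_inv_eq_one] at h1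
    exact ⟨j, h1⟩
  · have hC := hypC F hFfin hFnorm _ hφ _ hτ0
    have hu : primeLocalToGlobal q (φ * t0 * φ⁻¹ * (t0 ^ (q : ℕ))⁻¹) =
        primeLocalToGlobal q φ * primeLocalToGlobal q t0 * (primeLocalToGlobal q φ)⁻¹ *
          (primeLocalToGlobal q t0 ^ (q : ℕ))⁻¹ := by
      simp only [map_mul, map_inv, map_pow]
    rw [← hu] at hC
    have h1 := hwild _ hC
    rw [map_mul, map_inv, map_pow, mul_inv_eq_one] at h1
    exact h1

end TS2

end Fermat.Agent.S56
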