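/-
S56 / W3 E-RED, structure core (layer 1, abstract): integral idempotents in the convolution
algebra `WithConv (C →ₗ[O] Ω)` of a cocommutative coalgebra.

`Ω` is an ultrametric normed field, an `O`-algebra with `‖algebraMap O Ω x‖ ≤ 1`.
`h77_Small r f` : the functional `f` has all values of norm `≤ r`.

Main results:
* `h77_norm_sub_one_pow` : `‖ζ - 1‖ ^ (p - 1) = ‖(p : Ω)‖` for a primitive `p`-th root of unity.
* `h77_cyc_small` : if `z - 1` is `‖ζ - 1‖`-small and `t ^ p = 1`, then `∑_{j<p} (t • z)^j` is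
  `‖ζ - 1‖ ^ (p - 1)`-small  (the closure of `⟨z⟩` is of multiplicative type).
* `h77_proj`, `h77_proj_idem`, `h77_proj_eig`, `h77_proj_small` : the integral idempotents.
* `h77_rigid` : `h78_rigid` on the whole coalgebra.
-/
import Fermat.Agent.S56.h78_Rigid

set_option autoImplicit false
set_option linter.unusedSectionVars false

open Coalgebra TensorProduct WithConv

namespace Fermat.Agent.S56

section small

variable {O : Type*} [CommRing O] {Ω : Type*} [NormedField Ω] [IsUltrametricDist Ω] [Algebra O Ω]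
  {C : Type*} [AddCommGroup C] [Module O C] [Coalgebra O C]

/-- `f` has all values of norm `≤ r`. -/
def h77_Small (r : ℝ) (f : WithConv (C →ₗ[O] Ω)) : Prop := ∀ d : C, ‖f d‖ ≤ r

theorem h77_small_iff (r : ℝ) (f : WithConv (C →ₗ[O] Ω)) :
    h77_Small r f ↔ h78_SmallOn (Set.univ : Set C) r f :=
  ⟨fun h d _ => h d, fun h d => h d (Set.mem_univ d)⟩

theorem h77_exists_repr (t : C ⊗[O] C) :
    ∃ (n : ℕ) (x y : Fin n → C), t = ∑ i, x i ⊗ₜ[O] y i := by
  induction t using TensorProduct.induction_on with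
  | zero => exact ⟨0, Fin.elim0, Fin.elim0, by simp⟩
  | tmul x y => exact ⟨1, fun _ => x, fun _ => y, by simp⟩
  | add a b iha ihb =>
    obtain ⟨n, x, y, rfl⟩ := iha
    obtain ⟨m, x', y', rfl⟩ := ihb
    refine ⟨n + m, Fin.append x x', Fin.append y y', ?_⟩
    rw [Fin.sum_univ_add]
    simp

theorem h77_univ_subCoalg : h78_IsSubCoalg O (Set.univ : Set C) := by
  intro d _
  obtain ⟨n, x, y, h⟩ := h77_exists_repr (comul (R := O) d)
  exact ⟨n, x, y, fun _ => ⟨Set.mem_univ _, Set.mem_univ _⟩, h⟩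

theorem h77_small_mono {r s : ℝ} (hrs : r ≤ s) {f : WithConv (C →ₗ[O] Ω)}
    (hf : h77_Small r f) : h77_Small s f := fun d => (hf d).trans hrs

theorem h77_small_mul {r s : ℝ} (hr : 0 ≤ r) (hs : 0 ≤ s) {f g : WithConv (C →ₗ[O] Ω)}
    (hf : h77_Small r f) (hg : h77_Small s g) : h77_Small (r * s) (f * g) :=
  (h77_small_iff _ _).2 (h78_smallOn_mul h77_univ_subCoalg hr hs ((h77_small_iff _ _).1 hf)
    ((h77_small_iff _ _).1 hg))

theorem h77_small_one (hO : ∀ x : O, ‖algebraMap O Ω x‖ ≤ 1) :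
    h77_Small 1 (1 : WithConv (C →ₗ[O] Ω)) :=
  (h77_small_iff _ _).2 (h78_smallOn_one hO _)

theorem h77_small_add {r : ℝ} {f g : WithConv (C →ₗ[O] Ω)}
    (hf : h77_Small r f) (hg : h77_Small r g) : h77_Small r (f + g) := by
  intro d
  have h1 : (f + g) d = f d + g d := rfl
  rw [h1]
  exact (IsUltrametricDist.norm_add_le_max _ _).trans (max_le (hf d) (hg d))

theorem h77_small_neg {r : ℝ} {f : WithConv (C →ₗ[O] Ω)}
    (hf : h77_Small r f) : h77_Small r (-f) := by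
  intro d
  have h1 : (-f) d = - f d := rfl
  rw [h1, norm_neg]
  exact hf d

theorem h77_small_sub {r : ℝ} {f g : WithConv (C →ₗ[O] Ω)}
    (hf : h77_Small r f) (hg : h77_Small r g) : h77_Small r (f - g) := by
  rw [sub_eq_add_neg]
  exact h77_small_add hf (h77_small_neg hg)

theorem h77_smul_apply (c : Ω) (f : WithConv (C →ₗ[O] Ω)) (d : C) : (c • f) d = c * f d := rfl

theorem h77_small_smul {r : ℝ} (c : Ω) {f : WithConv (C →ₗ[O] Ω)}
    (hf : h77_Small r f) : h77_Small (‖c‖ * r) (c • f) := by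
  intro d
  rw [h77_smul_apply, norm_mul]
  exact mul_le_mul_of_nonneg_left (hf d) (norm_nonneg _)

variable [Coalgebra.IsCocomm O C]

theorem h77_small_prod (hO : ∀ x : O, ‖algebraMap O Ω x‖ ≤ 1) {ι : Type*} (s : Finset ι)
    (f : ι → WithConv (C →ₗ[O] Ω)) {r : ℝ} (hr : 0 ≤ r) (hf : ∀ i ∈ s, h77_Small r (f i)) :
    h77_Small (r ^ s.card) (∏ i ∈ s, f i) := by
  classical
  induction s using Finset.induction_on with
  | empty => simpa using h77_small_one (C := C) hO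
  | insert a s ha ih =>
    rw [Finset.prod_insert ha, Finset.card_insert_of_notMem ha, pow_succ']
    exact h77_small_mul hr (pow_nonneg hr _) (hf a (Finset.mem_insert_self a s))
      (ih fun i hi => hf i (Finset.mem_insert_of_mem hi))

theorem h77_small_sum {ι : Type*} (s : Finset ι)
    (f : ι → WithConv (C →ₗ[O] Ω)) {r : ℝ} (hr : 0 ≤ r) (hf : ∀ i ∈ s, h77_Small r (f i)) :
    h77_Small r (∑ i ∈ s, f i) := by
  classical
  induction s using Finset.induction_on with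
  | empty =>
    intro d
    rw [Finset.sum_empty]
    have : (0 : WithConv (C →ₗ[O] Ω)) d = 0 := rfl
    rw [this, norm_zero]; exact hr
  | insert a s ha ih =>
    rw [Finset.sum_insert ha]
    exact h77_small_add (hf a (Finset.mem_insert_self a s))
      (ih fun i hi => hf i (Finset.mem_insert_of_mem hi))

end small

section roots

variable {Ω : Type*} [NormedField Ω] [IsUltrametricDist Ω]

omit [IsUltrametricDist Ω] in
theorem h77_norm_root {p : ℕ} (hp : p ≠ 0) (t : Ω) (ht : t ^ p = 1) : ‖t‖ = 1 := by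
  have h1 : ‖t‖ ^ p = 1 := by rw [← norm_pow, ht, norm_one]
  exact (pow_eq_one_iff_of_nonneg (norm_nonneg t) hp).1 h1

theorem h77_norm_geom_le (t : Ω) (ht : ‖t‖ ≤ 1) (n : ℕ) :
    ‖∑ i ∈ Finset.range n, t ^ i‖ ≤ 1 := by
  refine IsUltrametricDist.norm_sum_le_of_forall_le_of_nonneg zero_le_one fun i _ => ?_
  rw [norm_pow]
  exact pow_le_one₀ (norm_nonneg t) ht

theorem h77_norm_pow_sub_one_le (t : Ω) (ht : ‖t‖ ≤ 1) (n : ℕ) : ‖t ^ n - 1‖ ≤ ‖t - 1‖ := by
  rw [← geom_sum_mul, norm_mul]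
  exact mul_le_of_le_one_left (norm_nonneg _) (h77_norm_geom_le t ht n)

/-- all `p`-th roots of unity are at distance `≤ ‖ζ - 1‖` from `1`. -/
theorem h77_norm_root_sub_one_le {p : ℕ} (hp : 0 < p) {ζ : Ω} (hζ : IsPrimitiveRoot ζ p)
    (t : Ω) (ht : t ^ p = 1) : ‖t - 1‖ ≤ ‖ζ - 1‖ := by
  have : NeZero p := ⟨hp.ne'⟩
  obtain ⟨i, -, rfl⟩ := hζ.eq_pow_of_pow_eq_one ht
  exact h77_norm_pow_sub_one_le ζ (h77_norm_root hp.ne' ζ hζ.pow_eq_one).le i

/-- two `p`-th roots of unity are at distance `≤ ‖ζ - 1‖`. -/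
theorem h77_norm_root_sub_root_le {p : ℕ} (hp : 0 < p) {ζ : Ω} (hζ : IsPrimitiveRoot ζ p)
    (t μ : Ω) (ht : t ^ p = 1) (hμ : μ ^ p = 1) : ‖t - μ‖ ≤ ‖ζ - 1‖ := by
  have hμ1 : ‖μ‖ = 1 := h77_norm_root hp.ne' μ hμ
  have hμ0 : μ ≠ 0 := by
    intro h0; rw [h0, norm_zero] at hμ1; exact zero_ne_one hμ1
  have h1 : t - μ = μ * (t * μ⁻¹ - 1) := by field_simp
  rw [h1, norm_mul, hμ1, one_mul]
  apply h77_norm_root_sub_one_le hp hζ
  rw [mul_pow, inv_pow, ht, hμ, inv_one, mul_one]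

theorem h77_norm_primitive_sub_one {p : ℕ} (hp : 0 < p) {ζ μ : Ω} (hζ : IsPrimitiveRoot ζ p)
    (hμ : IsPrimitiveRoot μ p) : ‖μ - 1‖ = ‖ζ - 1‖ :=
  le_antisymm (h77_norm_root_sub_one_le hp hζ μ hμ.pow_eq_one)
    (h77_norm_root_sub_one_le hp hμ ζ hζ.pow_eq_one)

/-- `‖ζ - 1‖ ^ (p - 1) = ‖p‖` for a primitive `p`-th root of unity `ζ`. -/
theorem h77_norm_sub_one_pow (p : ℕ) [hpp : Fact p.Prime] {ζ : Ω} (hζ : IsPrimitiveRoot ζ p) :
    ‖ζ - 1‖ ^ (p - 1) = ‖(p : Ω)‖ := by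
  have hp : 0 < p := hpp.out.pos
  have h1 := Polynomial.cyclotomic_eq_prod_X_sub_primitiveRoots hζ
  have h2 : Polynomial.eval 1 (Polynomial.cyclotomic p Ω) = (p : Ω) :=
    Polynomial.eval_one_cyclotomic_prime
  rw [h1, Polynomial.eval_prod] at h2
  rw [← h2, norm_prod]
  have h3 : ∀ μ ∈ primitiveRoots p Ω, ‖Polynomial.eval 1 (Polynomial.X - Polynomial.C μ)‖
      = ‖ζ - 1‖ := by
    intro μ hμ
    rw [mem_primitiveRoots hp] at hμ
    rw [Polynomial.eval_sub, Polynomial.eval_X, Polynomial.eval_C, norm_sub_rev]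
    exact h77_norm_primitive_sub_one hp hζ hμ
  rw [Finset.prod_congr rfl h3, Finset.prod_const, hζ.card_primitiveRoots,
    Nat.totient_prime hpp.out]

end roots

section cyc

variable {O : Type*} [CommRing O] {Ω : Type*} [NormedField Ω] [IsUltrametricDist Ω] [Algebra O Ω]
  {C : Type*} [AddCommGroup C] [Module O C] [Coalgebra O C] [Coalgebra.IsCocomm O C]

/-- the cyclotomic identity in the convolution algebra. -/
theorem h77_geom_eq_prod (p : ℕ) [hpp : Fact p.Prime] {ζ : Ω} (hζ : IsPrimitiveRoot ζ p)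
    (x : WithConv (C →ₗ[O] Ω)) :
    ∑ j ∈ Finset.range p, x ^ j
      = ∏ μ ∈ primitiveRoots p Ω, (x - algebraMap Ω (WithConv (C →ₗ[O] Ω)) μ) := by
  have h1 := Polynomial.cyclotomic_eq_prod_X_sub_primitiveRoots hζ
  rw [Polynomial.cyclotomic_prime] at h1
  have h2 := congrArg (Polynomial.aeval x) h1
  simpa [map_sum, map_prod] using h2

/-- **multiplicative type**: if `z - 1` is `‖ζ - 1‖`-small and `t ^ p = 1` then
`∑_{j<p} (t • z)^j` is `‖ζ - 1‖^(p-1)`-small. -/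
theorem h77_cyc_small (hO : ∀ x : O, ‖algebraMap O Ω x‖ ≤ 1) (p : ℕ) [hpp : Fact p.Prime]
    {ζ : Ω} (hζ : IsPrimitiveRoot ζ p) (z : WithConv (C →ₗ[O] Ω))
    (hz : h77_Small ‖ζ - 1‖ (z - 1)) (t : Ω) (ht : t ^ p = 1) :
    h77_Small (‖ζ - 1‖ ^ (p - 1)) (∑ j ∈ Finset.range p, (t • z) ^ j) := by
  have hp : 0 < p := hpp.out.pos
  rw [h77_geom_eq_prod p hζ]
  have hcard : (primitiveRoots p Ω).card = p - 1 := by
    rw [hζ.card_primitiveRoots, Nat.totient_prime hpp.out]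
  rw [← hcard]
  apply h77_small_prod hO _ _ (norm_nonneg _)
  intro μ hμ
  rw [mem_primitiveRoots hp] at hμ
  have h1 : t • z - algebraMap Ω (WithConv (C →ₗ[O] Ω)) μ
      = t • (z - 1) + (t - μ) • (1 : WithConv (C →ₗ[O] Ω)) := by
    rw [Algebra.algebraMap_eq_smul_one, smul_sub, sub_smul]; abel
  rw [h1]
  apply h77_small_add
  · have := h77_small_smul t hz
    rwa [h77_norm_root hp.ne' t ht, one_mul] at this
  · have := h77_small_smul (t - μ) (h77_small_one (C := C) hO)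
    rw [mul_one] at this
    exact h77_small_mono (h77_norm_root_sub_root_le hp hζ t μ ht hμ.pow_eq_one) this

end cyc

section idem

variable (Ω : Type*) [Field Ω] {A : Type*} [CommRing A] [Algebra Ω A]

omit [Algebra Ω A] in
theorem h77_mul_geom {p : ℕ} (x : A) (hx : x ^ p = 1) :
    x * ∑ j ∈ Finset.range p, x ^ j = ∑ j ∈ Finset.range p, x ^ j := by
  rw [Finset.mul_sum]
  have h1 : ∑ j ∈ Finset.range p, x * x ^ j = ∑ j ∈ Finset.range p, x ^ (j + 1) := by
    refine Finset.sum_congr rfl fun j _ => ?_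
    rw [pow_succ']
  rw [h1]
  have h2 := Finset.sum_range_succ' (fun j => x ^ j) p
  have h3 := Finset.sum_range_succ (fun j => x ^ j) p
  rw [h3, hx, pow_zero] at h2
  exact (add_right_cancel h2).symm

omit [Algebra Ω A] in
theorem h77_pow_mul_geom {p : ℕ} (x : A) (hx : x ^ p = 1) (i : ℕ) :
    x ^ i * ∑ j ∈ Finset.range p, x ^ j = ∑ j ∈ Finset.range p, x ^ j := by
  induction i with
  | zero => simp
  | succ i ih => rw [pow_succ, mul_assoc, h77_mul_geom x hx, ih]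

/-- the idempotent attached to a `p`-th root of unity `x` of an `Ω`-algebra. -/
noncomputable def h77_idem (p : ℕ) (x : A) : A := ((p : Ω)⁻¹) • ∑ j ∈ Finset.range p, x ^ j

theorem h77_mul_idem {p : ℕ} (x : A) (hx : x ^ p = 1) :
    x * h77_idem Ω p x = h77_idem Ω p x := by
  unfold h77_idem
  rw [mul_smul_comm, h77_mul_geom x hx]

theorem h77_idem_mul_self {p : ℕ} (hp0 : (p : Ω) ≠ 0) (x : A) (hx : x ^ p = 1) :
    h77_idem Ω p x * h77_idem Ω p x = h77_idem Ω p x := by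
  have h1 : (∑ j ∈ Finset.range p, x ^ j) * (∑ j ∈ Finset.range p, x ^ j)
      = (p : Ω) • ∑ j ∈ Finset.range p, x ^ j := by
    rw [Finset.sum_mul]
    rw [Finset.sum_congr rfl fun i _ => h77_pow_mul_geom x hx i]
    rw [Finset.sum_const, Finset.card_range, Nat.cast_smul_eq_nsmul]
  unfold h77_idem
  rw [smul_mul_smul_comm, h1, smul_smul, mul_assoc, inv_mul_cancel₀ hp0, mul_one]

/-- the product of the idempotents of a finite family. -/
noncomputable def h77_proj (p : ℕ) {ι : Type*} (s : Finset ι) (x : ι → A) : A :=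
  ∏ i ∈ s, h77_idem Ω p (x i)

theorem h77_proj_idem {p : ℕ} (hp0 : (p : Ω) ≠ 0) {ι : Type*} (s : Finset ι) (x : ι → A)
    (hx : ∀ i ∈ s, x i ^ p = 1) : h77_proj Ω p s x * h77_proj Ω p s x = h77_proj Ω p s x := by
  unfold h77_proj
  rw [← Finset.prod_mul_distrib]
  exact Finset.prod_congr rfl fun i hi => h77_idem_mul_self Ω hp0 (x i) (hx i hi)

theorem h77_proj_eig {p : ℕ} {ι : Type*} [DecidableEq ι] (s : Finset ι) (x : ι → A)
    (i : ι) (hi : i ∈ s) (hx : x i ^ p = 1) : x i * h77_proj Ω p s x = h77_proj Ω p s x := by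
  unfold h77_proj
  rw [← Finset.mul_prod_erase s _ hi, ← mul_assoc, h77_mul_idem Ω (x i) hx]

end idem

section projsmall

variable {O : Type*} [CommRing O] {Ω : Type*} [NormedField Ω] [IsUltrametricDist Ω] [Algebra O Ω]
  {C : Type*} [AddCommGroup C] [Module O C] [Coalgebra O C] [Coalgebra.IsCocomm O C]

theorem h77_idem_small (hO : ∀ x : O, ‖algebraMap O Ω x‖ ≤ 1) (p : ℕ) [hpp : Fact p.Prime]
    (hp0 : (p : Ω) ≠ 0) {ζ : Ω} (hζ : IsPrimitiveRoot ζ p) (z : WithConv (C →ₗ[O] Ω))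
    (hz : h77_Small ‖ζ - 1‖ (z - 1)) (t : Ω) (ht : t ^ p = 1) :
    h77_Small 1 (h77_idem Ω p (t • z)) := by
  have h1 := h77_small_smul ((p : Ω)⁻¹) (h77_cyc_small hO p hζ z hz t ht)
  rw [h77_norm_sub_one_pow p hζ, norm_inv, inv_mul_cancel₀ (norm_ne_zero_iff.2 hp0)] at h1
  exact h1

theorem h77_proj_small (hO : ∀ x : O, ‖algebraMap O Ω x‖ ≤ 1) (p : ℕ) [hpp : Fact p.Prime]
    (hp0 : (p : Ω) ≠ 0) {ζ : Ω} (hζ : IsPrimitiveRoot ζ p) {ι : Type*} (s : Finset ι)
    (z : ι → WithConv (C →ₗ[O] Ω)) (t : ι → Ω)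
    (hz : ∀ i ∈ s, h77_Small ‖ζ - 1‖ (z i - 1)) (ht : ∀ i ∈ s, t i ^ p = 1) :
    h77_Small 1 (h77_proj Ω p s (fun i => t i • z i)) := by
  have h1 := h77_small_prod hO s (fun i => h77_idem Ω p (t i • z i)) zero_le_one
    (fun i hi => h77_idem_small hO p hp0 hζ (z i) (hz i hi) (t i) (ht i hi))
  rwa [one_pow] at h1

/-- `h78_rigid` on the whole coalgebra. -/
theorem h77_rigid (hO : ∀ x : O, ‖algebraMap O Ω x‖ ≤ 1) (p : ℕ) [hpp : Fact p.Prime]
    (hp : ‖(p : Ω)‖ = (p : ℝ)⁻¹) {r : ℝ} (hr0 : 0 ≤ r) (hr : (p : ℝ) * r ^ (p - 1) < 1)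
    (z : WithConv (C →ₗ[O] Ω)) (hz : z ^ p = 1) (hsmall : h77_Small r (z - 1)) : z = 1 := by
  have h1 := h78_rigid hO p hp h77_univ_subCoalg hr0 hr z (fun d _ => by rw [hz])
    ((h77_small_iff _ _).1 hsmall)
  apply WithConv.ofConv_injective
  ext d
  exact h1 d (Set.mem_univ d)

/-- an idempotent which is `ρ`-small with `ρ < 1` vanishes. -/
theorem h77_idem_eq_zero_of_small (P : WithConv (C →ₗ[O] Ω)) (hP : P * P = P) {ρ : ℝ}
    (hρ0 : 0 ≤ ρ) (hρ1 : ρ < 1) (hs : h77_Small ρ P) : P = 0 := by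
  have hall : ∀ n : ℕ, h77_Small (ρ ^ (n + 1)) P := by
    intro n
    induction n with
    | zero => simpa using hs
    | succ n ih =>
      have := h77_small_mul (pow_nonneg hρ0 (n + 1)) hρ0 ih hs
      rwa [hP, ← pow_succ] at this
  apply WithConv.ofConv_injective
  ext d
  have hlim : ‖P d‖ ≤ 0 := by
    have htend : Filter.Tendsto (fun n : ℕ => ρ ^ (n + 1)) Filter.atTop (nhds 0) :=
      (tendsto_pow_atTop_nhds_zero_of_lt_one hρ0 hρ1).comp (Filter.tendsto_add_atTop_nat 1)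
    exact ge_of_tendsto' htend (fun n => hall n d)
  exact norm_le_zero_iff.mp hlim

end projsmall

end Fermat.Agent.S56
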