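import Mathlib
import Fermat.Agent.S56.h86_IrrFinal
import Fermat.Agent.S56.h58_IrrWire
import Fermat.Agent.S56.h47_IrrFrontFinal
import Fermat.Agent.S56.h47_KumNFDeep
import Fermat.Agent.S56.h94_ResFin

/-!
# S56 / W3 / E-IRR: closed form

`h78_bound_irr` = the row `sk_bound_irr` of the W3 skeleton, with no hypotheses left:
`finrank W ≤ 1` for a flat, trace-zero, coboundary-free cocycle space `W` over a residual
representation without a stable line.  Wiring: `h86_bound_irr_of_idx` (IRR-8) with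
IRR-5 (b) `h58_irr_index_of` and IRR-5 (c) `h58_irr_no_level_of`, both fed with FRONT
(`h47_irr_front`) and D1b (`h47_normal_form_deep`).
-/

set_option autoImplicit false

namespace Fermat.Agent.S56

variable (p : ℕ) [Fact p.Prime]

local notation "Ω" => PadicAlgCl p
local notation "Fld" => IntermediateField ℚ_[p] (PadicAlgCl p)

/-- **IRR-5 (b)** = `sk_irr_index`, closed. -/
theorem h78_irr_index (hp2 : p ≠ 2) {k : Type} [Field k] [Finite k] [CharP k p]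
    (rb : h78_G p →* Matrix (Fin 2) (Fin 2) k)
    (hdet : ∀ (g : h78_G p) (ζ : Ω), ζ ^ p = 1 → ∃ n : ℕ, g ζ = ζ ^ n ∧ (rb g).det = (n : k))
    (W : Submodule k (h78_G p → Matrix (Fin 2) (Fin 2) k))
    (hcoc : ∀ a ∈ W, ∀ s t, a (s * t) = a s * rb t + rb s * a t)
    (htr : ∀ a ∈ W, ∀ s, (a s * rb s⁻¹).trace = 0)
    (hflat : ∀ a ∈ W, a ≠ 0 → h78_LocFlat p rb a)
    (L : Fld) [FiniteDimensional ℚ_[p] L] (hL : h78_Stable p L) (D : h78_IrrData p rb W L)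
    (h7 : ∀ c : k, rb D.τ * rb D.τ ≠ c • (1 : Matrix (Fin 2) (Fin 2) k)) :
    ∃ K1 : Subgroup (h78_G p), K1 ≤ D.F₁.fixingSubgroup ⊓ h78_J p L ∧
      K1.relIndex (D.F₁.fixingSubgroup ⊓ h78_J p L) ≠ 0 ∧
      K1.relIndex (D.F₁.fixingSubgroup ⊓ h78_J p L) ≤ p ^ 2 ∧
      ∀ a ∈ W, ∀ s ∈ K1, ∃ c : k, a s * rb s⁻¹ =
        c • (rb D.τ - ((rb D.τ).trace / 2) • (1 : Matrix (Fin 2) (Fin 2) k)) :=
  haveI := D.fin
  h58_irr_index_of p hp2 rb hdet W hcoc htr L hL D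
    (fun a ha ℓ => h47_irr_front p rb W hcoc hflat L hL D a ha ℓ)
    (fun u hu hu1 => h47_normal_form_deep p D.F₁ D.π₁ D.unif
      (fun x hx hx1 => h94_exists_pth_root_mod p D.F₁ x hx hx1) u hu hu1)
    h7

/-- **IRR-5 (c)** = `sk_irr_no_level`, closed. -/
theorem h78_irr_no_level (hp2 : p ≠ 2) {k : Type} [Field k] [Finite k] [CharP k p]
    (rb : h78_G p →* Matrix (Fin 2) (Fin 2) k)
    (hdet : ∀ (g : h78_G p) (ζ : Ω), ζ ^ p = 1 → ∃ n : ℕ, g ζ = ζ ^ n ∧ (rb g).det = (n : k))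
    (W : Submodule k (h78_G p → Matrix (Fin 2) (Fin 2) k))
    (hcoc : ∀ a ∈ W, ∀ s t, a (s * t) = a s * rb t + rb s * a t)
    (htr : ∀ a ∈ W, ∀ s, (a s * rb s⁻¹).trace = 0)
    (hflat : ∀ a ∈ W, a ≠ 0 → h78_LocFlat p rb a)
    (L : Fld) [FiniteDimensional ℚ_[p] L] (hL : h78_Stable p L) (D : h78_IrrData p rb W L)
    (h7 : ∃ c : k, rb D.τ * rb D.τ = c • (1 : Matrix (Fin 2) (Fin 2) k))
    (a : h78_G p → Matrix (Fin 2) (Fin 2) k) (ha : a ∈ W) (s : h78_G p)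
    (hs : s ∈ D.F₁.fixingSubgroup ⊓ h78_J p L) :
    ∃ c : k, a s * rb s⁻¹ =
      c • (rb D.τ - ((rb D.τ).trace / 2) • (1 : Matrix (Fin 2) (Fin 2) k)) :=
  h58_irr_no_level_of p hp2 rb hdet W hcoc htr L hL D
    (fun a ha ℓ => h47_irr_front p rb W hcoc hflat L hL D a ha ℓ) h7 a ha s hs

/-- **E-IRR** = `sk_bound_irr`, closed: no stable line ⟹ `finrank W ≤ 1`. -/
theorem h78_bound_irr (hp2 : p ≠ 2) {k : Type} [Field k] [Finite k] [CharP k p]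
    (rb : h78_G p →* Matrix (Fin 2) (Fin 2) k)
    (hdet : ∀ (g : h78_G p) (ζ : Ω), ζ ^ p = 1 → ∃ n : ℕ, g ζ = ζ ^ n ∧ (rb g).det = (n : k))
    (hirr : ∀ v : Fin 2 → k, v ≠ 0 → ∃ g, ∀ c : k, (rb g).mulVec v ≠ c • v)
    (W : Submodule k (h78_G p → Matrix (Fin 2) (Fin 2) k))
    (hcoc : ∀ a ∈ W, ∀ s t, a (s * t) = a s * rb t + rb s * a t)
    (htr : ∀ a ∈ W, ∀ s, (a s * rb s⁻¹).trace = 0)
    (hflat : ∀ a ∈ W, a ≠ 0 → h78_LocFlat p rb a)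
    (hcob : ∀ a ∈ W, (∃ X : Matrix (Fin 2) (Fin 2) k, ∀ s, a s = X * rb s - rb s * X) → a = 0) :
    Module.finrank k W ≤ 1 :=
  h86_bound_irr_of_idx p hp2 rb hdet hirr W hcoc htr hflat hcob
    (fun L _ hL D h7 => h78_irr_index p hp2 rb hdet W hcoc htr hflat L hL D h7)
    (fun L _ hL D h7 a ha s hs =>
      h78_irr_no_level p hp2 rb hdet W hcoc htr hflat L hL D h7 a ha s hs)

end Fermat.Agent.S56
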