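/-
S56 / W3 FINAL (hypothesis form): the flat local bound from its two cases E-IRR and E-RED.
-/
import Fermat.Agent.S56.h78_W3Defs

set_option autoImplicit false

namespace Fermat.Agent.S56

variable (p : ℕ) [Fact p.Prime]

local notation "Ω" => PadicAlgCl p

/-- W3 FINAL: the case split "stable line or not". `hIRR` / `hRED` are the row statements
`sk_bound_irr` / `sk_bound_red` for the given `rb`, `W`. -/
theorem h78_flat_local_bound_of {k : Type} [Field k]
    (rb : h78_G p →* Matrix (Fin 2) (Fin 2) k)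
    (W : Submodule k (h78_G p → Matrix (Fin 2) (Fin 2) k))
    (hIRR : (∀ v : Fin 2 → k, v ≠ 0 → ∃ g, ∀ c : k, (rb g).mulVec v ≠ c • v) →
      Module.finrank k W ≤ 1)
    (hRED : (∃ v : Fin 2 → k, v ≠ 0 ∧ ∀ g, ∃ c : k, (rb g).mulVec v = c • v) →
      Module.finrank k W ≤ Module.finrank k (h78_H0 p rb) + 1) :
    Module.finrank k W ≤ Module.finrank k (h78_H0 p rb) + 1 := by
  by_cases hred : ∃ v : Fin 2 → k, v ≠ 0 ∧ ∀ g, ∃ c : k, (rb g).mulVec v = c • v
  · exact hRED hred
  · have hirr : ∀ v : Fin 2 → k, v ≠ 0 → ∃ g, ∀ c : k, (rb g).mulVec v ≠ c • v := by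
      intro v hv
      by_contra h
      apply hred
      refine ⟨v, hv, fun g => ?_⟩
      by_contra h2
      exact h ⟨g, fun c hc => h2 ⟨c, hc⟩⟩
    exact le_trans (hIRR hirr) (Nat.le_add_left 1 _)

end Fermat.Agent.S56
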