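import Mathlib
import Fermat.Agent.S56.h78_RedClose
import Fermat.Agent.S56.h78_IrrClose
import Fermat.Agent.S56.h78_W3Final
import Fermat.Agent.S56.h44_RedTypeSk
import Fermat.Agent.S56.h11_RedKumCount

/-!
# S56 / W3: the flat local bound, closed

* `h78_bound_red`        = `sk_bound_red` (E-RED, a stable line): `finrank W ≤ finrank H⁰ + 1`;
* `h78_flat_local_bound` = `sk_flat_local_bound` (W3 FINAL): the same bound for every residual
  representation `rb : G_{ℚ_p} → GL₂(k)` with cyclotomic determinant and every `k`-space `W` of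
  flat, trace-zero cocycles meeting the coboundaries trivially.

No hypotheses are left: E-IRR is `h78_bound_irr`; E-RED is `h78_bound_red_of2` fed with
`h44_red_type_sk` (`sk_red_type`) and `h11_red_kum_count` (`sk_red_kum_count`).
-/

set_option autoImplicit false

namespace Fermat.Agent.S56

variable (p : ℕ) [Fact p.Prime]

local notation "Ω" => PadicAlgCl p
local notation "Fld" => IntermediateField ℚ_[p] (PadicAlgCl p)

/-- **E-RED** = `sk_bound_red`, closed: a stable line ⟹ `finrank W ≤ finrank H⁰ + 1`. -/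
theorem h78_bound_red (hp2 : p ≠ 2) {k : Type} [Field k] [Finite k] [CharP k p]
    (rb : h78_G p →* Matrix (Fin 2) (Fin 2) k)
    (hdet : ∀ (g : h78_G p) (ζ : Ω), ζ ^ p = 1 → ∃ n : ℕ, g ζ = ζ ^ n ∧ (rb g).det = (n : k))
    (hred : ∃ v : Fin 2 → k, v ≠ 0 ∧ ∀ g, ∃ c : k, (rb g).mulVec v = c • v)
    (W : Submodule k (h78_G p → Matrix (Fin 2) (Fin 2) k))
    (hcoc : ∀ a ∈ W, ∀ s t, a (s * t) = a s * rb t + rb s * a t)
    (htr : ∀ a ∈ W, ∀ s, (a s * rb s⁻¹).trace = 0)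
    (hflat : ∀ a ∈ W, a ≠ 0 → h78_LocFlat p rb a)
    (hcob : ∀ a ∈ W, (∃ X : Matrix (Fin 2) (Fin 2) k, ∀ s, a s = X * rb s - rb s * X) → a = 0) :
    Module.finrank k W ≤ Module.finrank k (h78_H0 p rb) + 1 :=
  h78_bound_red_of2 p hp2
    (fun rb hdet hred a₀ hcoc hfl L _ hL hζ htriv =>
      h44_red_type_sk p hp2 rb hdet hred a₀ hcoc hfl L hL hζ htriv)
    (fun L _ hL ζ hζL hζp hζ1 χ hχJ hχL C hC hCL hunit =>
      h11_red_kum_count p hp2 L hL ζ hζL hζp hζ1 χ hχJ hχL C hC hCL hunit)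
    rb hdet hred W hcoc htr hflat hcob

/-- **W3 FINAL** = `sk_flat_local_bound`, closed. -/
theorem h78_flat_local_bound (hp2 : p ≠ 2) {k : Type} [Field k] [Finite k] [CharP k p]
    (rb : h78_G p →* Matrix (Fin 2) (Fin 2) k)
    (hdet : ∀ (g : h78_G p) (ζ : Ω), ζ ^ p = 1 → ∃ n : ℕ, g ζ = ζ ^ n ∧ (rb g).det = (n : k))
    (W : Submodule k (h78_G p → Matrix (Fin 2) (Fin 2) k))
    (hcoc : ∀ a ∈ W, ∀ s t, a (s * t) = a s * rb t + rb s * a t)
    (htr : ∀ a ∈ W, ∀ s, (a s * rb s⁻¹).trace = 0)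
    (hflat : ∀ a ∈ W, a ≠ 0 → h78_LocFlat p rb a)
    (hcob : ∀ a ∈ W, (∃ X : Matrix (Fin 2) (Fin 2) k, ∀ s, a s = X * rb s - rb s * X) → a = 0) :
    Module.finrank k W ≤ Module.finrank k (h78_H0 p rb) + 1 :=
  h78_flat_local_bound_of p rb W
    (fun hirr => h78_bound_irr p hp2 rb hdet hirr W hcoc htr hflat hcob)
    (fun hred => h78_bound_red p hp2 rb hdet hred W hcoc htr hflat hcob)

end Fermat.Agent.S56
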