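import Fermat.Agent.S56.h79_ERLead

/-!
# S56 / W3 / E-RED, route R80 (skeleton v2), row W3-ER-LEAD: the seven basics (helper79)

`skR_lead_of_kd`, `skR_lead_norm`, `skR_lead_near`, `skR_lead_congr`, `skR_kd_mono`,
`skR_kd_congr`, `skR_kd_add` of helper80's skeleton v2, verbatim (`skR_` -> `h79_`).
(L1..L4 are in `h79_ERLead`.)
-/

set_option autoImplicit false

open Coalgebra WithConv

namespace Fermat.Agent.S56

variable (p : ℕ) [Fact p.Prime]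

local notation "Ω" => PadicAlgCl p
local notation "Fld" => IntermediateField ℚ_[p] (PadicAlgCl p)

theorem h79_lead_of_kd (F L : Fld) (ζ : Ω) (ξ : h78_G p → ZMod p) (h : h80_KD p F L ζ ξ) :
    ∃ y : Ω, ‖y‖ ≤ 1 ∧ y ∈ F ∧ h80_Lead p F L ζ ξ y := by
  obtain ⟨u, α, huF, hαL, hα, hu1, hact⟩ := h
  have hppos : (0 : ℝ) < p := h5_p_pos p
  have hpn : ‖(p : Ω)‖ = (p : ℝ)⁻¹ := h5_norm_p p
  refine ⟨(u - 1) / (p : Ω), ?_, ?_, u, α, huF, hαL, hα, hu1, ?_, hact⟩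
  · rw [norm_div, hpn, div_le_one (inv_pos.2 hppos)]
    exact hu1
  · exact F.div_mem (F.sub_mem huF F.one_mem) (natCast_mem F p)
  · rw [sub_self, norm_zero]
    exact one_pos

theorem h79_lead_norm (F L : Fld) (ζ : Ω) (ξ : h78_G p → ZMod p) (y : Ω)
    (h : h80_Lead p F L ζ ξ y) : ‖y‖ ≤ 1 := by
  obtain ⟨u, α, -, -, -, hu1, hy, -⟩ := h
  have hppos : (0 : ℝ) < p := h5_p_pos p
  have hpn : ‖(p : Ω)‖ = (p : ℝ)⁻¹ := h5_norm_p p
  have h1 : ‖(u - 1) / (p : Ω)‖ ≤ 1 := by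
    rw [norm_div, hpn, div_le_one (inv_pos.2 hppos)]
    exact hu1
  have e : y = (u - 1) / (p : Ω) + -((u - 1) / (p : Ω) - y) := by ring
  rw [e]
  exact le_trans (IsUltrametricDist.norm_add_le_max _ _) (max_le h1 (by rw [norm_neg]; exact hy.le))

theorem h79_lead_near (F L : Fld) (ζ : Ω) (ξ : h78_G p → ZMod p) (y y' : Ω)
    (h : h80_Lead p F L ζ ξ y) (hyy' : ‖y - y'‖ < 1) : h80_Lead p F L ζ ξ y' := by
  obtain ⟨u, α, huF, hαL, hα, hu1, hy, hact⟩ := h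
  refine ⟨u, α, huF, hαL, hα, hu1, ?_, hact⟩
  have e : (u - 1) / (p : Ω) - y' = ((u - 1) / (p : Ω) - y) + (y - y') := by ring
  rw [e]
  exact lt_of_le_of_lt (IsUltrametricDist.norm_add_le_max _ _) (max_lt hy hyy')

theorem h79_lead_congr (F L : Fld) (ζ : Ω) (ξ ξ' : h78_G p → ZMod p) (y : Ω)
    (h : h80_Lead p F L ζ ξ y) (hξ : ∀ g : h78_G p, (∀ z ∈ F, g z = z) → ξ g = ξ' g) :
    h80_Lead p F L ζ ξ' y := by
  obtain ⟨u, α, huF, hαL, hα, hu1, hy, hact⟩ := h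
  refine ⟨u, α, huF, hαL, hα, hu1, hy, ?_⟩
  intro g hg
  rw [← hξ g hg]
  exact hact g hg

theorem h79_kd_mono (F L L' : Fld) (hLL' : L ≤ L') (ζ : Ω) (ξ : h78_G p → ZMod p)
    (h : h80_KD p F L ζ ξ) : h80_KD p F L' ζ ξ := by
  obtain ⟨u, α, huF, hαL, hα, hu1, hact⟩ := h
  exact ⟨u, α, huF, hLL' hαL, hα, hu1, hact⟩

theorem h79_kd_congr (F L : Fld) (ζ : Ω) (ξ ξ' : h78_G p → ZMod p)
    (h : h80_KD p F L ζ ξ) (hξ : ∀ g : h78_G p, (∀ z ∈ F, g z = z) → ξ g = ξ' g) :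
    h80_KD p F L ζ ξ' := by
  obtain ⟨u, α, huF, hαL, hα, hu1, hact⟩ := h
  refine ⟨u, α, huF, hαL, hα, hu1, ?_⟩
  intro g hg
  rw [← hξ g hg]
  exact hact g hg

theorem h79_kd_add (F L : Fld) (ζ : Ω) (hζp : ζ ^ p = 1) (ξ ξ' : h78_G p → ZMod p)
    (h : h80_KD p F L ζ ξ) (h' : h80_KD p F L ζ ξ') :
    h80_KD p F L ζ (fun g => ξ g + ξ' g) := by
  obtain ⟨u, α, huF, hαL, hα, hu1, hact⟩ := h
  obtain ⟨u', α', hu'F, hα'L, hα', hu'1, hact'⟩ := h'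
  have hpi : (p : ℝ)⁻¹ < 1 := h5_inv_p_lt_one p
  have hppos : (0 : ℝ) < p := h5_p_pos p
  refine ⟨u * u', α * α', F.mul_mem huF hu'F, L.mul_mem hαL hα'L, by rw [mul_pow, hα, hα'],
    ?_, ?_⟩
  · have e : u * u' - 1 = (u - 1) * (u' - 1) + ((u - 1) + (u' - 1)) := by ring
    rw [e]
    refine le_trans (IsUltrametricDist.norm_add_le_max _ _) (max_le ?_
      (le_trans (IsUltrametricDist.norm_add_le_max _ _) (max_le hu1 hu'1)))
    rw [norm_mul]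
    calc ‖u - 1‖ * ‖u' - 1‖ ≤ (p : ℝ)⁻¹ * 1 :=
          mul_le_mul hu1 (hu'1.trans hpi.le) (norm_nonneg _) (inv_nonneg.2 hppos.le)
      _ = (p : ℝ)⁻¹ := mul_one _
  · intro g hg
    rw [map_mul, hact g hg, hact' g hg, h79_zeta_pow_val_add p ζ hζp]
    ring

end Fermat.Agent.S56
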