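import Fermat.Agent.S56.h79_OrdDefs

/-!
# S56, W2 row R3-ord: the core rank bound (helper79)

`rb : GQ →* M₂(k)`, `H` a subgroup (the decomposition group at `p`), `v₁ ≠ 0` spanning an
`H`-stable line on which `H` acts by `ω z`, with quotient character `z`, `z ^ 2 = 1`.
If every tangent cocycle `a ∈ W` is, on `H` and up to a coboundary, a cocycle with values in the
line `𝔫 = {N | N v₁ = 0, im N ⊆ k v₁}`, then

`rank (res_H W + Cob_H) ≤ rank Z¹(H, k(ω)) + 1`.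
-/

set_option autoImplicit false

namespace Fermat.Agent.S56

open Fermat.Agent.S53 Fermat.Agent.S53.Dict Matrix

section Core

variable {k : Type} [Field k]

/-- A nonzero vector of `k²` is part of a basis; the dual basis in coordinates. -/
theorem h79_exists_dual (v₁ : Fin 2 → k) (hv₁ : v₁ ≠ 0) :
    ∃ (v₂ m₁ m₂ : Fin 2 → k), m₁ ⬝ᵥ v₁ = 1 ∧ m₁ ⬝ᵥ v₂ = 0 ∧ m₂ ⬝ᵥ v₁ = 0 ∧ m₂ ⬝ᵥ v₂ = 1 ∧
      ∀ v : Fin 2 → k, v = (m₁ ⬝ᵥ v) • v₁ + (m₂ ⬝ᵥ v) • v₂ := by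
  by_cases h0 : v₁ 0 = 0
  · have h1 : v₁ 1 ≠ 0 := by
      intro h1
      apply hv₁
      funext i
      fin_cases i
      · exact h0
      · exact h1
    refine ⟨![1, 0], ![0, (v₁ 1)⁻¹], ![1, 0], ?_, ?_, ?_, ?_, fun v => ?_⟩
    · simp [dotProduct, Fin.sum_univ_two, h1]
    · simp [dotProduct, Fin.sum_univ_two]
    · simp [dotProduct, Fin.sum_univ_two, h0]
    · simp [dotProduct, Fin.sum_univ_two]
    · funext i
      fin_cases i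
      · simp [dotProduct, Fin.sum_univ_two, h0]
      · simp [dotProduct, Fin.sum_univ_two]
        field_simp
  · refine ⟨![0, 1], ![(v₁ 0)⁻¹, 0], ![-(v₁ 1) * (v₁ 0)⁻¹, 1], ?_, ?_, ?_, ?_, fun v => ?_⟩
    · simp [dotProduct, Fin.sum_univ_two, h0]
    · simp [dotProduct, Fin.sum_univ_two]
    · simp [dotProduct, Fin.sum_univ_two]
      field_simp
      ring
    · simp [dotProduct, Fin.sum_univ_two]
    · funext i
      fin_cases i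
      · simp [dotProduct, Fin.sum_univ_two]
        field_simp
      · simp [dotProduct, Fin.sum_univ_two]
        field_simp
        ring

/-- Two matrices agreeing on a basis are equal. -/
theorem h79_mat_ext {v₁ v₂ m₁ m₂ : Fin 2 → k}
    (hdec : ∀ v : Fin 2 → k, v = (m₁ ⬝ᵥ v) • v₁ + (m₂ ⬝ᵥ v) • v₂)
    {M M' : Matrix (Fin 2) (Fin 2) k} (h1 : M *ᵥ v₁ = M' *ᵥ v₁) (h2 : M *ᵥ v₂ = M' *ᵥ v₂) :
    M = M' := by
  apply Matrix.mulVec_injective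
  funext v
  rw [hdec v, mulVec_add, mulVec_add, mulVec_smul, mulVec_smul, mulVec_smul, mulVec_smul, h1, h2]

/-- The rank one matrix `v ↦ (m ⬝ᵥ v) • w`. -/
def h79_rk1 (w m : Fin 2 → k) : Matrix (Fin 2) (Fin 2) k := Matrix.of fun i j => w i * m j

theorem h79_rk1_mulVec (w m v : Fin 2 → k) : h79_rk1 w m *ᵥ v = (m ⬝ᵥ v) • w := by
  funext i
  simp only [h79_rk1, mulVec, dotProduct, Matrix.of_apply, Fin.sum_univ_two, Pi.smul_apply,
    smul_eq_mul]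
  ring

/-- The coboundary of any matrix satisfies the Leibniz rule. -/
theorem h79_cob_leibniz (rb : GQ →* Matrix (Fin 2) (Fin 2) k) (X : Matrix (Fin 2) (Fin 2) k)
    (σ τ : GQ) :
    X * rb (σ * τ) - rb (σ * τ) * X =
      (X * rb σ - rb σ * X) * rb τ + rb σ * (X * rb τ - rb τ * X) := by
  rw [map_mul]
  noncomm_ring

end Core

section Main

variable {k : Type} [Field k] (p : ℕ) [Fact p.Prime]
  (rb : GQ →* Matrix (Fin 2) (Fin 2) k)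
  (H : Subgroup GQ) (v₁ : Fin 2 → k) (z : GQ → k)

/-- **Key lemma.** A Leibniz cocycle on `H`, level-constant, which up to the coboundary of `X`
takes values in the line `𝔫`, is of the form `(u z) N₀ + y ∂X₀` with `u ∈ Z¹(H, k(ω))`. -/
theorem h79_ord_key (hrb : GaloisFactorsThroughFiniteLevel rb)
    (hz1 : ∀ σ ∈ H, z σ * z σ = 1)
    (hx : ∀ σ ∈ H, rb σ *ᵥ v₁ = (h79_om p k σ * z σ) • v₁)
    (hzq : ∀ σ ∈ H, ∀ v : Fin 2 → k, ∃ α : k, rb σ *ᵥ v - z σ • v = α • v₁)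
    {v₂ m₁ m₂ : Fin 2 → k} (h11 : m₁ ⬝ᵥ v₁ = 1) (h21 : m₂ ⬝ᵥ v₁ = 0)
    (h22 : m₂ ⬝ᵥ v₂ = 1)
    (hdec : ∀ v : Fin 2 → k, v = (m₁ ⬝ᵥ v) • v₁ + (m₂ ⬝ᵥ v) • v₂)
    (c : GQ → Matrix (Fin 2) (Fin 2) k)
    (hc : ∀ σ ∈ H, ∀ τ ∈ H, c (σ * τ) = c σ * rb τ + rb σ * c τ)
    (hcL : ∃ L : IntermediateField ℚ (AlgebraicClosure ℚ), FiniteDimensional ℚ L ∧
      ∀ σ ∈ H, (∀ x ∈ L, σ x = x) → c σ = 0)
    (X : Matrix (Fin 2) (Fin 2) k)
    (hX : ∀ σ ∈ H, (c σ - (X * rb σ - rb σ * X)) *ᵥ v₁ = 0 ∧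
      ∀ v : Fin 2 → k, ∃ β : k, (c σ - (X * rb σ - rb σ * X)) *ᵥ v = β • v₁) :
    ∃ u ∈ h79_TwZ p k H, ∃ y : k, ∀ σ : H,
      c σ = (u σ * z σ) • h79_rk1 v₁ m₂ +
        y • (h79_rk1 v₂ m₁ * rb σ - rb σ * h79_rk1 v₂ m₁) := by
  classical
  set N₀ := h79_rk1 v₁ m₂ with hN₀
  set X₀ := h79_rk1 v₂ m₁ with hX₀
  set y : k := m₂ ⬝ᵥ (X *ᵥ v₁) with hy
  set t : k := m₁ ⬝ᵥ (X *ᵥ v₁) with ht
  -- the Borel part of `X`
  set Xb : Matrix (Fin 2) (Fin 2) k := X - y • X₀ with hXb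
  have hXbv : Xb *ᵥ v₁ = t • v₁ := by
    rw [hXb, sub_mulVec, smul_mulVec, hX₀, h79_rk1_mulVec, h11, one_smul]
    have h := hdec (X *ᵥ v₁)
    rw [← hy, ← ht] at h
    rw [h]
    abel
  -- the modified cocycle
  set N' : GQ → Matrix (Fin 2) (Fin 2) k :=
    fun σ => c σ - y • (X₀ * rb σ - rb σ * X₀) with hN'
  have hN'eq : ∀ σ, N' σ = (c σ - (X * rb σ - rb σ * X)) + (Xb * rb σ - rb σ * Xb) := by
    intro σ
    simp only [hN', hXb]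
    rw [sub_mul, mul_sub, Matrix.smul_mul, Matrix.mul_smul, smul_sub]
    abel
  have hN1 : ∀ σ ∈ H, N' σ *ᵥ v₁ = 0 := by
    intro σ hσ
    rw [hN'eq, add_mulVec, (hX σ hσ).1, zero_add, sub_mulVec, ← mulVec_mulVec, ← mulVec_mulVec,
      hx σ hσ, hXbv, mulVec_smul, mulVec_smul, hXbv, hx σ hσ, smul_smul, smul_smul, mul_comm,
      sub_self]
  have hN2 : ∀ σ ∈ H, ∀ v : Fin 2 → k, ∃ β : k, N' σ *ᵥ v = β • v₁ := by
    intro σ hσ v
    obtain ⟨β₁, hβ₁⟩ := (hX σ hσ).2 v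
    obtain ⟨α, hα⟩ := hzq σ hσ v
    obtain ⟨α', hα'⟩ := hzq σ hσ (Xb *ᵥ v)
    refine ⟨β₁ + (α * t - α'), ?_⟩
    have e1 : rb σ *ᵥ v = z σ • v + α • v₁ := by rw [← hα]; abel
    have e2 : rb σ *ᵥ (Xb *ᵥ v) = z σ • (Xb *ᵥ v) + α' • v₁ := by rw [← hα']; abel
    rw [hN'eq, add_mulVec, hβ₁, sub_mulVec, ← mulVec_mulVec, ← mulVec_mulVec, e1, e2, mulVec_add,
      mulVec_smul, mulVec_smul, hXbv, smul_smul, add_smul, sub_smul]
    abel
  -- the scalar cocycle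
  set u₀ : GQ → k := fun σ => m₁ ⬝ᵥ (N' σ *ᵥ v₂) with hu₀
  have hN3 : ∀ σ ∈ H, N' σ *ᵥ v₂ = u₀ σ • v₁ := by
    intro σ hσ
    obtain ⟨β, hβ⟩ := hN2 σ hσ v₂
    have : u₀ σ = β := by
      simp only [hu₀]
      rw [hβ, dotProduct_smul, h11, smul_eq_mul, mul_one]
    rw [this, hβ]
  have hN4 : ∀ σ ∈ H, N' σ = u₀ σ • N₀ := by
    intro σ hσ
    refine h79_mat_ext hdec ?_ ?_
    · rw [hN1 σ hσ, smul_mulVec, hN₀, h79_rk1_mulVec, h21, zero_smul, smul_zero]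
    · rw [hN3 σ hσ, smul_mulVec, hN₀, h79_rk1_mulVec, h22, one_smul]
  -- `z` in terms of `rb`
  have hzv₂ : ∀ σ ∈ H, ∃ α : k, rb σ *ᵥ v₂ = z σ • v₂ + α • v₁ := by
    intro σ hσ
    obtain ⟨α, hα⟩ := hzq σ hσ v₂
    exact ⟨α, by rw [← hα]; abel⟩
  have hzmul : ∀ σ ∈ H, ∀ τ ∈ H, z (σ * τ) = z σ * z τ := by
    intro σ hσ τ hτ
    obtain ⟨α₁, h1⟩ := hzv₂ (σ * τ) (H.mul_mem hσ hτ)
    obtain ⟨α₂, h2⟩ := hzv₂ τ hτ
    obtain ⟨α₃, h3⟩ := hzv₂ σ hσ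
    have e : rb (σ * τ) *ᵥ v₂ = rb σ *ᵥ (rb τ *ᵥ v₂) := by
      rw [map_mul, mulVec_mulVec]
    rw [h1, h2, mulVec_add, mulVec_smul, mulVec_smul, h3, hx σ hσ] at e
    have e' := congrArg (fun w => m₂ ⬝ᵥ w) e
    simp only [dotProduct_add, dotProduct_smul, h21, h22, smul_eq_mul, mul_zero, mul_one,
      add_zero] at e'
    rw [e', mul_comm]
  -- Leibniz rule for `N'`
  have hN'L : ∀ σ ∈ H, ∀ τ ∈ H, N' (σ * τ) = N' σ * rb τ + rb σ * N' τ := by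
    intro σ hσ τ hτ
    simp only [hN']
    rw [hc σ hσ τ hτ, h79_cob_leibniz rb X₀ σ τ]
    simp only [sub_mul, mul_sub, Matrix.smul_mul, Matrix.mul_smul, smul_add, smul_sub]
    abel
  have hu₀L : ∀ σ ∈ H, ∀ τ ∈ H, u₀ (σ * τ) = u₀ σ * z τ + (h79_om p k σ * z σ) * u₀ τ := by
    intro σ hσ τ hτ
    obtain ⟨α, h2⟩ := hzv₂ τ hτ
    have e : N' (σ * τ) *ᵥ v₂ = (u₀ σ * z τ + (h79_om p k σ * z σ) * u₀ τ) • v₁ := by
      rw [hN'L σ hσ τ hτ, add_mulVec, ← mulVec_mulVec, ← mulVec_mulVec, h2, mulVec_add,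
        mulVec_smul, mulVec_smul, hN1 σ hσ, hN3 σ hσ, hN3 τ hτ, mulVec_smul, hx σ hσ, smul_zero,
        add_zero, smul_smul, smul_smul, add_smul]
      congr 1
      · rw [mul_comm]
      · rw [mul_comm]
    have e' := congrArg (fun w => m₁ ⬝ᵥ w) e
    simp only [dotProduct_smul, h11, smul_eq_mul, mul_one] at e'
    exact e'
  -- the crossed homomorphism
  refine ⟨fun σ => u₀ σ * z σ, ⟨fun σ τ => ?_, ?_⟩, y, fun σ => ?_⟩
  · show u₀ ((σ : GQ) * (τ : GQ)) * z ((σ : GQ) * (τ : GQ)) =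
      u₀ σ * z σ + h79_om p k σ * (u₀ τ * z τ)
    rw [hu₀L σ σ.2 τ τ.2, hzmul σ σ.2 τ τ.2]
    have h1 := hz1 σ σ.2
    have h2 := hz1 τ τ.2
    linear_combination (u₀ σ * z σ) * h2 + (h79_om p k σ * u₀ τ * z τ) * h1
  · obtain ⟨L₁, hL₁, hcL₁⟩ := hcL
    obtain ⟨L₂, hL₂, hrbL⟩ := hrb
    refine ⟨L₁ ⊔ L₂, IntermediateField.finiteDimensional_sup L₁ L₂, fun σ hσ => ?_⟩
    have e1 : c σ = 0 := hcL₁ σ σ.2 fun x hx => hσ x ((le_sup_left : L₁ ≤ L₁ ⊔ L₂) hx)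
    have e2 : rb σ = 1 := hrbL σ fun x hx => hσ x ((le_sup_right : L₂ ≤ L₁ ⊔ L₂) hx)
    have e3 : N' σ = 0 := by
      simp only [hN']
      rw [e1, e2, mul_one, one_mul, sub_self, smul_zero, sub_zero]
    show u₀ σ * z σ = 0
    have : u₀ σ = 0 := by
      simp only [hu₀]
      rw [e3, zero_mulVec, dotProduct_zero]
    rw [this, zero_mul]
  · have h1 := hz1 σ σ.2
    have e : u₀ σ * z σ * z σ = u₀ σ := by linear_combination u₀ σ * h1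
    rw [e, ← hN4 σ σ.2]
    simp only [hN']
    abel

/-- **ORD-CORE.** The rank bound for strict-ordinary tangent cocycles at `p`, in terms of the
rank of `Z¹(H, k(ω))`. -/
theorem h79_ord_core (hrb : GaloisFactorsThroughFiniteLevel rb) (hv₁ : v₁ ≠ 0)
    (hz1 : ∀ σ ∈ H, z σ * z σ = 1)
    (hx : ∀ σ ∈ H, rb σ *ᵥ v₁ = (h79_om p k σ * z σ) • v₁)
    (hzq : ∀ σ ∈ H, ∀ v : Fin 2 → k, ∃ α : k, rb σ *ᵥ v - z σ • v = α • v₁)
    (W : Submodule k (GQ → Matrix (Fin 2) (Fin 2) k)) (hW : W ≤ h40_TanZ rb)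
    (hso : ∀ a ∈ W, ∃ X : Matrix (Fin 2) (Fin 2) k, ∀ σ ∈ H,
      (a σ - (X * rb σ - rb σ * X)) *ᵥ v₁ = 0 ∧
      ∀ v : Fin 2 → k, ∃ β : k, (a σ - (X * rb σ - rb σ * X)) *ᵥ v = β • v₁) :
    Module.rank k ↥(W.map (h79_res H) ⊔ h79_Cob rb H) ≤ Module.rank k ↥(h79_TwZ p k H) + 1 := by
  classical
  obtain ⟨v₂, m₁, m₂, h11, -, h21, h22, hdec⟩ := h79_exists_dual v₁ hv₁
  -- the parametrisation
  let Ψ : (↥(h79_TwZ p k H) × k) →ₗ[k] (H → Matrix (Fin 2) (Fin 2) k) :=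
    { toFun := fun uy σ => ((uy.1 : H → k) σ * z σ) • h79_rk1 v₁ m₂ +
        uy.2 • (h79_rk1 v₂ m₁ * rb σ - rb σ * h79_rk1 v₂ m₁)
      map_add' := by
        intro a b
        funext σ
        simp only [Prod.fst_add, Prod.snd_add, Submodule.coe_add, Pi.add_apply, add_mul, add_smul]
        abel
      map_smul' := by
        intro r a
        funext σ
        simp only [Prod.smul_fst, Prod.smul_snd, Submodule.coe_smul, Pi.smul_apply, smul_eq_mul,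
          RingHom.id_apply, smul_add, smul_smul, mul_assoc] }
  have hΨ : W.map (h79_res H) ⊔ h79_Cob rb H ≤ LinearMap.range Ψ := by
    refine sup_le ?_ ?_
    · rintro _ ⟨a, haW, rfl⟩
      have haZ := hW haW
      obtain ⟨X, hX⟩ := hso a haW
      obtain ⟨u, hu, y, huy⟩ := h79_ord_key p rb H v₁ z hrb hz1 hx hzq h11 h21 h22 hdec a
        (fun σ _ τ _ => haZ.1 σ τ)
        (by
          obtain ⟨L, hL, haL⟩ := haZ.2
          exact ⟨L, hL, fun σ _ hσ => haL σ hσ⟩) X hX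
      refine ⟨(⟨u, hu⟩, y), ?_⟩
      funext σ
      exact (huy σ).symm
    · rintro _ ⟨X', rfl⟩
      obtain ⟨u, hu, y, huy⟩ := h79_ord_key p rb H v₁ z hrb hz1 hx hzq h11 h21 h22 hdec
        (fun σ => X' * rb σ - rb σ * X')
        (fun σ _ τ _ => h79_cob_leibniz rb X' σ τ)
        (by
          obtain ⟨L, hL, hrbL⟩ := hrb
          refine ⟨L, hL, fun σ _ hσ => ?_⟩
          rw [hrbL σ hσ, mul_one, one_mul, sub_self]) X'
        (fun σ _ => by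
          rw [sub_self]
          exact ⟨zero_mulVec _, fun v => ⟨0, by rw [zero_mulVec, zero_smul]⟩⟩)
      refine ⟨(⟨u, hu⟩, y), ?_⟩
      funext σ
      exact (huy σ).symm
  calc Module.rank k ↥(W.map (h79_res H) ⊔ h79_Cob rb H)
      ≤ Module.rank k ↥(LinearMap.range Ψ) := Submodule.rank_mono hΨ
    _ ≤ Module.rank k (↥(h79_TwZ p k H) × k) := LinearMap.rank_le_domain Ψ
    _ = Module.rank k ↥(h79_TwZ p k H) + 1 := by rw [rank_prod', Module.rank_self]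

end Main

end Fermat.Agent.S56
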