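import Fermat.Agent.S56.h40_TopDefs
import Fermat.Agent.S14.GalCyc

/-!
# S56, W2 row R3-ord: definitions (helper79)

* `h79_om p k σ` : the mod `p` cyclotomic character with values in a field `k`.
* `h79_res H`    : restriction of matrix-valued functions on `GQ` to a subgroup `H`.
* `h79_Cob rb H` : the coboundaries `σ ↦ X * rb σ - rb σ * X` restricted to `H`.
* `h79_TwZ p k H`: level-constant crossed homomorphisms `u : H → k`,
  `u (σ τ) = u σ + ω σ * u τ`.
-/

set_option autoImplicit false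

namespace Fermat.Agent.S56

open Fermat.Agent.S53 Fermat.Agent.S53.Dict ExtCitation

section Defs

variable (p : ℕ) [Fact p.Prime] (k : Type) [Field k]

/-- The mod `p` cyclotomic character with values in `k`. -/
noncomputable def h79_om (σ : GQ) : k := ((cycloExp p σ : ℕ) : k)

theorem h79_om_mul [CharP k p] (σ τ : GQ) : h79_om p k (σ * τ) = h79_om p k σ * h79_om p k τ := by
  have h := Fermat.Agent.S14.gal_cycloExp_mul p σ τ
  have h2 := congrArg (ZMod.castHom (dvd_refl p) k) h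
  simpa [h79_om] using h2

theorem h79_om_ne_zero [CharP k p] (σ : GQ) : h79_om p k σ ≠ 0 := by
  intro h0
  have h1 : ((cycloExp p σ : ℕ) : ZMod p) = 0 := by
    have h2 : (ZMod.castHom (dvd_refl p) k) ((cycloExp p σ : ℕ) : ZMod p) = 0 := by
      simpa [h79_om] using h0
    exact (map_eq_zero_iff _ (RingHom.injective _)).mp h2
  rw [← coe_cycloChar] at h1
  exact (cycloChar p σ).ne_zero h1

theorem h79_om_spec (σ : GQ) (ζ : AlgebraicClosure ℚ) (hζ : ζ ^ p = 1) :
    σ ζ = ζ ^ cycloExp p σ :=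
  Fermat.Agent.S14.gal_cycloExp_spec p σ ζ hζ

end Defs

section Res

variable {k : Type} [Field k]

/-- Restriction of matrix-valued functions to a subgroup. -/
def h79_res (H : Subgroup GQ) :
    (GQ → Matrix (Fin 2) (Fin 2) k) →ₗ[k] (H → Matrix (Fin 2) (Fin 2) k) where
  toFun f σ := f σ
  map_add' _ _ := rfl
  map_smul' _ _ := rfl

@[simp] theorem h79_res_apply (H : Subgroup GQ) (f : GQ → Matrix (Fin 2) (Fin 2) k) (σ : H) :
    h79_res H f σ = f σ := rfl

/-- The coboundary map, restricted to a subgroup. -/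
noncomputable def h79_cobMap (rb : GQ →* Matrix (Fin 2) (Fin 2) k) (H : Subgroup GQ) :
    Matrix (Fin 2) (Fin 2) k →ₗ[k] (H → Matrix (Fin 2) (Fin 2) k) where
  toFun X σ := X * rb σ - rb σ * X
  map_add' X Y := by
    funext σ
    simp only [Pi.add_apply, add_mul, mul_add]
    abel
  map_smul' c X := by
    funext σ
    simp only [Pi.smul_apply, RingHom.id_apply, Matrix.smul_mul, Matrix.mul_smul, smul_sub]

@[simp] theorem h79_cobMap_apply (rb : GQ →* Matrix (Fin 2) (Fin 2) k) (H : Subgroup GQ)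
    (X : Matrix (Fin 2) (Fin 2) k) (σ : H) :
    h79_cobMap rb H X σ = X * rb σ - rb σ * X := rfl

/-- Coboundaries restricted to a subgroup. -/
noncomputable def h79_Cob (rb : GQ →* Matrix (Fin 2) (Fin 2) k) (H : Subgroup GQ) :
    Submodule k (H → Matrix (Fin 2) (Fin 2) k) :=
  LinearMap.range (h79_cobMap rb H)

end Res

section TwZ

variable (p : ℕ) [Fact p.Prime] (k : Type) [Field k]

/-- Level-constant crossed homomorphisms `H → k(ω)`. -/
def h79_TwZ (H : Subgroup GQ) : Submodule k (H → k) where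
  carrier := {u | (∀ σ τ : H, u (σ * τ) = u σ + h79_om p k σ * u τ) ∧
    ∃ L : IntermediateField ℚ (AlgebraicClosure ℚ), FiniteDimensional ℚ L ∧
      ∀ σ : H, (∀ x ∈ L, (σ : GQ) x = x) → u σ = 0}
  add_mem' := by
    rintro u v ⟨hu, Lu, hLu, huL⟩ ⟨hv, Lv, hLv, hvL⟩
    refine ⟨fun σ τ => ?_, Lu ⊔ Lv, IntermediateField.finiteDimensional_sup Lu Lv, fun σ hσ => ?_⟩
    · simp only [Pi.add_apply, hu, hv]
      ring
    · rw [Pi.add_apply, huL σ fun x hx => hσ x ((le_sup_left : Lu ≤ Lu ⊔ Lv) hx),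
        hvL σ fun x hx => hσ x ((le_sup_right : Lv ≤ Lu ⊔ Lv) hx), add_zero]
  zero_mem' := ⟨fun σ τ => by simp, ⊥, inferInstance, fun σ _ => rfl⟩
  smul_mem' := by
    rintro c u ⟨hu, Lu, hLu, huL⟩
    refine ⟨fun σ τ => ?_, Lu, hLu, fun σ hσ => ?_⟩
    · simp only [Pi.smul_apply, hu, smul_eq_mul]
      ring
    · rw [Pi.smul_apply, huL σ hσ, smul_zero]

theorem h79_mem_TwZ_iff (H : Subgroup GQ) (u : H → k) :
    u ∈ h79_TwZ p k H ↔ (∀ σ τ : H, u (σ * τ) = u σ + h79_om p k σ * u τ) ∧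
      ∃ L : IntermediateField ℚ (AlgebraicClosure ℚ), FiniteDimensional ℚ L ∧
        ∀ σ : H, (∀ x ∈ L, (σ : GQ) x = x) → u σ = 0 := Iff.rfl

end TwZ

end Fermat.Agent.S56
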