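import Fermat.Agent.S56.h79_OrdDefs
import Fermat.Agent.S14.GalVal

/-!
# S56, W2 row R3-ord: the mod `p` cyclotomic character is ramified at `p` (helper79)

* `h79_root_sub_one_mem` : `p`-th roots of unity are `≡ 1` modulo every place over `p`;
* `h79_exists_inertia_cycloExp_ne_one` : for `p` odd and every place `P | p` there is an element
  of the inertia group at `P` on which the mod `p` cyclotomic character is nontrivial
  (`ℚ(ζ_p)/ℚ` is totally ramified at `p`: every automorphism is trivial modulo `P` on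
  `ℤ[ζ_p] = 𝓞`, hence agrees on `ℚ(ζ_p)` with an element of inertia);
* `h79_om_ram` : the same for `h79_om p k` (`k` of characteristic `p`).
-/

set_option autoImplicit false

namespace Fermat.Agent.S56

open ExtCitation NumberField

section Ram

/-- `p`-th roots of unity are `≡ 1` modulo every place over `p`. -/
theorem h79_root_sub_one_mem (p : ℕ) (hp : p.Prime)
    (P : ValuationSubring (AlgebraicClosure ℚ)) (hP : P.LiesOverPrime p)
    (μ : AlgebraicClosure ℚ) (hμ : μ ^ p = 1) : μ - 1 ∈ P.nonunits := by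
  have hμint : IsIntegral ℤ μ := IsIntegral.of_pow hp.pos (by rw [hμ]; exact isIntegral_one)
  have hμP : μ ∈ P := Fermat.Agent.S13.h24_integral_mem P hμint
  obtain ⟨r, hr⟩ := exists_add_pow_prime_eq hp ((⟨μ, hμP⟩ : P) - 1) 1
  have hr' : (μ - 1) ^ p = (p : AlgebraicClosure ℚ) * (-((μ - 1) * (r : AlgebraicClosure ℚ))) := by
    have h1 := congrArg (fun x : P => (x : AlgebraicClosure ℚ)) hr
    simp only [sub_add_cancel] at h1
    push_cast at h1
    rw [hμ] at h1
    linear_combination -h1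
  have hpow : (μ - 1) ^ p ∈ P.nonunits := by
    rw [hr', mul_comm]
    refine Fermat.Agent.S13.h24_mul_mem_nonunits P ?_ hP
    exact P.neg_mem _ (P.mul_mem _ _ (P.sub_mem hμP P.one_mem) r.2)
  by_contra hcon
  have hinv : (μ - 1)⁻¹ ∈ P := Fermat.Agent.S13.h24_inv_mem P hcon
  have hne : μ - 1 ≠ 0 := by
    intro h0
    apply hcon
    rw [h0]
    exact Fermat.Agent.S13.h24_zero_mem_nonunits P
  have h1 : ((μ - 1)⁻¹) ^ p * (μ - 1) ^ p ∈ P.nonunits :=
    Fermat.Agent.S13.h24_mul_mem_nonunits P (P.pow_mem hinv p) hpow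
  rw [← mul_pow, inv_mul_cancel₀ hne, one_pow] at h1
  exact Fermat.Agent.S13.h24_one_not_mem_nonunits P h1

/-- **The mod `p` cyclotomic character is ramified at `p`** (`p` odd): every place over `p` has
an inertia element on which it is nontrivial. -/
theorem h79_exists_inertia_cycloExp_ne_one (p : ℕ) [Fact p.Prime] (hp2 : p ≠ 2)
    (P : ValuationSubring (AlgebraicClosure ℚ)) (hP : P.LiesOverPrime p) :
    ∃ σ ∈ P.inertiaSubgroupIn ℚ, ((cycloExp p σ : ℕ) : ZMod p) ≠ 1 := by
  have hp : p.Prime := Fact.out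
  have h3 : 3 ≤ p := by
    have := hp.two_le
    omega
  obtain ⟨τ, hτ⟩ := Fermat.Agent.S14.gal_exists_cycloExp_ne_one p h3
  have hNZ : NeZero p := ⟨hp.ne_zero⟩
  have hNZ' : NeZero ((p : ℕ) : ℚ) := ⟨Nat.cast_ne_zero.mpr hp.ne_zero⟩
  have hcyc : IsCyclotomicExtension {p} ℚ (CyclotomicField p ℚ) :=
    CyclotomicField.isCyclotomicExtension p ℚ
  let iL : CyclotomicField p ℚ →ₐ[ℚ] AlgebraicClosure ℚ := IsAlgClosed.lift
  have hζ : IsPrimitiveRoot (IsCyclotomicExtension.zeta p ℚ (CyclotomicField p ℚ)) p :=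
    IsCyclotomicExtension.zeta_spec p ℚ (CyclotomicField p ℚ)
  have hζ' : IsPrimitiveRoot (iL (IsCyclotomicExtension.zeta p ℚ (CyclotomicField p ℚ))) p :=
    hζ.map_of_injective iL.injective
  have hint : ∀ x : 𝓞 (CyclotomicField p ℚ), IsIntegral ℤ (iL (x : CyclotomicField p ℚ)) :=
    fun x => map_isIntegral_int iL (NumberField.RingOfIntegers.isIntegral_coe x)
  have key : ∀ x : 𝓞 (CyclotomicField p ℚ),
      τ (iL (x : CyclotomicField p ℚ)) - iL (x : CyclotomicField p ℚ) ∈ P.nonunits := by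
    intro x
    have hx : x ∈ Algebra.adjoin ℤ {hζ.toInteger} := by
      have h1 := hζ.integralPowerBasis.adjoin_gen_eq_top
      rw [IsPrimitiveRoot.integralPowerBasis_gen] at h1
      rw [h1]
      trivial
    induction hx using Algebra.adjoin_induction with
    | mem y hy =>
      rw [Set.mem_singleton_iff] at hy
      subst hy
      change τ (iL (IsCyclotomicExtension.zeta p ℚ (CyclotomicField p ℚ))) -
        iL (IsCyclotomicExtension.zeta p ℚ (CyclotomicField p ℚ)) ∈ P.nonunits
      rw [Fermat.Agent.S14.gal_cycloExp_spec p τ _ hζ'.pow_eq_one]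
      have e1 := h79_root_sub_one_mem p hp P hP _
        (show (iL (IsCyclotomicExtension.zeta p ℚ (CyclotomicField p ℚ)) ^ cycloExp p τ) ^ p = 1 by
          rw [← pow_mul, mul_comm, pow_mul, hζ'.pow_eq_one, one_pow])
      have e2 := h79_root_sub_one_mem p hp P hP _ hζ'.pow_eq_one
      have e3 := Fermat.Agent.S13.h24_sub_mem_nonunits P e1 e2
      rwa [sub_sub_sub_cancel_right] at e3
    | algebraMap n =>
      have e1 : iL ((algebraMap ℤ (𝓞 (CyclotomicField p ℚ)) n : 𝓞 (CyclotomicField p ℚ)) :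
          CyclotomicField p ℚ) = (n : AlgebraicClosure ℚ) := by
        simp
      rw [e1, map_intCast, sub_self]
      exact Fermat.Agent.S13.h24_zero_mem_nonunits P
    | add y z _ _ hy hz =>
      have e1 := Fermat.Agent.S13.h24_add_mem_nonunits P hy hz
      have e2 : τ (iL ((y + z : 𝓞 (CyclotomicField p ℚ)) : CyclotomicField p ℚ)) -
          iL ((y + z : 𝓞 (CyclotomicField p ℚ)) : CyclotomicField p ℚ) =
          τ (iL (y : CyclotomicField p ℚ)) - iL (y : CyclotomicField p ℚ) +
            (τ (iL (z : CyclotomicField p ℚ)) - iL (z : CyclotomicField p ℚ)) := by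
        push_cast
        rw [map_add, map_add]
        ring
      rw [e2]
      exact e1
    | mul y z _ _ hy hz =>
      have hy1 : τ (iL (y : CyclotomicField p ℚ)) ∈ P :=
        Fermat.Agent.S13.h24_integral_mem P (map_isIntegral_int τ (hint y))
      have hz1 : iL (z : CyclotomicField p ℚ) ∈ P :=
        Fermat.Agent.S13.h24_integral_mem P (hint z)
      have e1 := Fermat.Agent.S13.h24_add_mem_nonunits P
        (Fermat.Agent.S13.h24_mul_mem_nonunits P hy1 hz)
        (Fermat.Agent.S13.h24_mul_mem_nonunits P hz1 hy)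
      have e2 : τ (iL ((y * z : 𝓞 (CyclotomicField p ℚ)) : CyclotomicField p ℚ)) -
          iL ((y * z : 𝓞 (CyclotomicField p ℚ)) : CyclotomicField p ℚ) =
          τ (iL (y : CyclotomicField p ℚ)) *
              (τ (iL (z : CyclotomicField p ℚ)) - iL (z : CyclotomicField p ℚ)) +
            iL (z : CyclotomicField p ℚ) *
              (τ (iL (y : CyclotomicField p ℚ)) - iL (y : CyclotomicField p ℚ)) := by
        push_cast
        rw [map_mul, map_mul]
        ring
      rw [e2]
      exact e1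
  obtain ⟨σ, hσI, hσ⟩ :=
    Fermat.Agent.S14.gal_inertia_lift (CyclotomicField p ℚ) iL.toRingHom P τ key
  refine ⟨σ, hσI, fun h1 => hτ ?_⟩
  have e1 := hσ (IsCyclotomicExtension.zeta p ℚ (CyclotomicField p ℚ))
  change σ (iL _) = τ (iL _) at e1
  rw [Fermat.Agent.S14.gal_cycloExp_spec p σ _ hζ'.pow_eq_one,
    Fermat.Agent.S14.gal_cycloExp_spec p τ _ hζ'.pow_eq_one,
    pow_eq_pow_mod (cycloExp p σ) hζ'.pow_eq_one,
    pow_eq_pow_mod (cycloExp p τ) hζ'.pow_eq_one] at e1
  have e2 : cycloExp p σ ≡ cycloExp p τ [MOD p] :=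
    hζ'.pow_inj (Nat.mod_lt _ hp.pos) (Nat.mod_lt _ hp.pos) e1
  rw [← h1]
  exact ((ZMod.natCast_eq_natCast_iff _ _ _).mpr e2).symm

/-- The `k`-valued mod `p` cyclotomic character is ramified at `p`. -/
theorem h79_om_ram (p : ℕ) [Fact p.Prime] (hp2 : p ≠ 2) (k : Type) [Field k] [CharP k p]
    (P : ValuationSubring (AlgebraicClosure ℚ)) (hP : P.LiesOverPrime p) :
    ∃ σ ∈ P.inertiaSubgroupIn ℚ, h79_om p k σ ≠ 1 := by
  obtain ⟨σ, hσI, hσ⟩ := h79_exists_inertia_cycloExp_ne_one p hp2 P hP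
  refine ⟨σ, hσI, fun h1 => hσ ?_⟩
  have h2 : (ZMod.castHom (dvd_refl p) k) ((cycloExp p σ : ℕ) : ZMod p) =
      (ZMod.castHom (dvd_refl p) k) 1 := by
    simpa [h79_om] using h1
  exact (RingHom.injective _) h2

end Ram

end Fermat.Agent.S56
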