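import Fermat.Agent.S56.h79_OrdRow
import Fermat.Agent.S56.h79_OrdRam
import Fermat.Agent.S56.h12_MidDefs
import Fermat.Agent.S56.h66_MidPlaces

/-!
# S56, W2 row R3-ord in the consumer form of helper12's MID skeleton (helper79)

`h79_R3_ord_of` is the statement `h12_R3_ord` of the skeleton, with ONE extra hypothesis

`hK : Module.rank k (h79_TwZ p k D_p) ≤ 3`   (`D_p` the decomposition group of `primeLocalPlace p`),

i.e. `dim_k Z¹(G_p, k(ω)) ≤ 3` (local Kummer theory at `p`: `dim H¹(G_p, μ_p) = 2`, plus one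
for the coboundaries).  Everything else (strict-ordinary unpacking, the ordinary core, the
ramification of the mod `p` cyclotomic character at `p`, the comparison with
`h12_LocCobM` / `h12_H0M`) is proved here and in the other `h79_Ord*` files.
-/

set_option autoImplicit false

namespace Fermat.Agent.S56

open Fermat.Agent.S53 Fermat.Agent.S53.Dict Matrix ExtCitation

local notation "M₂[" k "]" => Matrix (Fin 2) (Fin 2) k

section Adapter

variable {k : Type} [Field k]

/-- Linear algebra: if `rank (res_D W' + Cob_D) ≤ 4` and every relation `res a + cob X = 0`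
with `a ∈ W'` forces `a = 0` and (`tr X = 0 → X ∈ H0`), then `rank W' ≤ dim H0 + 1`. -/
theorem h79_rank_le_aux (rb : GQ →* M₂[k]) (D : Subgroup GQ)
    (W' : Submodule k (GQ → M₂[k])) (H0 : Submodule k M₂[k])
    (hb : Module.rank k ↥(W'.map (h79_res D) ⊔ h79_Cob rb D) ≤ 4)
    (hker : ∀ a ∈ W', ∀ X : M₂[k], (∀ σ : ↥D, a σ + (X * rb σ - rb σ * X) = 0) →
      a = 0 ∧ (X.trace = 0 → X ∈ H0)) :
    Module.rank k W' ≤ ((Module.finrank k H0 + 1 : ℕ) : Cardinal) := by
  classical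
  -- the map `(a, X) ↦ res a + cob X`
  obtain ⟨g, hg⟩ : ∃ g : (↥W' × M₂[k]) →ₗ[k] (↥D → M₂[k]), ∀ (c : ↥W' × M₂[k]) (σ : ↥D),
      g c σ = (c.1 : GQ → M₂[k]) σ + (c.2 * rb σ - rb σ * c.2) :=
    ⟨((h79_res D).comp W'.subtype).coprod (h79_cobMap rb D), fun c σ => rfl⟩
  have hrange : LinearMap.range g ≤ W'.map (h79_res D) ⊔ h79_Cob rb D := by
    rintro _ ⟨⟨a, X⟩, rfl⟩
    have e : g (a, X) = h79_res D (a : GQ → M₂[k]) + h79_cobMap rb D X := by
      funext σ
      rw [hg]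
      rfl
    rw [e]
    exact Submodule.add_mem_sup (Submodule.mem_map_of_mem a.2) ⟨X, rfl⟩
  have hker' : ∀ c : ↥W' × M₂[k], g c = 0 → c.1 = 0 ∧ (c.2.trace = 0 → c.2 ∈ H0) := by
    rintro ⟨a, X⟩ hc
    have h1 := hker a a.2 X (fun σ => by rw [← hg (a, X) σ, hc]; rfl)
    exact ⟨Subtype.ext h1.1, h1.2⟩
  -- (1) `rank W' ≤ rank (ker g)`
  have hM : Module.rank k M₂[k] = 4 := by
    rw [rank_matrix'', Cardinal.mk_fin]
    norm_num
  have h1 : Module.rank k ↥W' ≤ Module.rank k ↥(LinearMap.ker g) := by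
    have e1 := LinearMap.rank_range_add_rank_ker g
    rw [rank_prod', hM] at e1
    have e2 : Module.rank k ↥(LinearMap.range g) ≤ 4 := (Submodule.rank_mono hrange).trans hb
    have e3 : Module.rank k ↥W' + 4 ≤ Module.rank k ↥(LinearMap.ker g) + 4 := by
      rw [← e1, add_comm (Module.rank k ↥(LinearMap.ker g))]
      exact add_le_add e2 le_rfl
    exact (Cardinal.add_le_add_iff_of_lt_aleph0 (Cardinal.natCast_lt_aleph0 (n := 4))).mp e3
  -- (2) the trace on `ker g`
  obtain ⟨t, ht⟩ : ∃ t : ↥(LinearMap.ker g) →ₗ[k] k,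
      ∀ c : ↥(LinearMap.ker g), t c = (c : ↥W' × M₂[k]).2.trace :=
    ⟨(Matrix.traceLinearMap (Fin 2) k k).comp
      ((LinearMap.snd k ↥W' M₂[k]).comp (LinearMap.ker g).subtype), fun c => rfl⟩
  have h2 : Module.rank k ↥(LinearMap.ker g) ≤ 1 + Module.rank k ↥(LinearMap.ker t) := by
    rw [← @LinearMap.rank_range_add_rank_ker k ↥(LinearMap.ker g) k _
      (Submodule.addCommGroup _) _ _ _ _ t]
    refine add_le_add ?_ le_rfl
    have e1 := Submodule.rank_le (LinearMap.range t)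
    rwa [Module.rank_self] at e1
  -- (3) `ker t` embeds into `H0`
  have hmem : ∀ c : ↥(LinearMap.ker t), (((c : ↥(LinearMap.ker g)) : ↥W' × M₂[k])).2 ∈ H0 := by
    intro c
    have hc1 : g (c : ↥(LinearMap.ker g)) = 0 := LinearMap.mem_ker.mp (c : ↥(LinearMap.ker g)).2
    have hc2 : t (c : ↥(LinearMap.ker g)) = 0 := LinearMap.mem_ker.mp c.2
    rw [ht] at hc2
    exact (hker' _ hc1).2 hc2
  obtain ⟨u, hu⟩ : ∃ u : ↥(LinearMap.ker t) →ₗ[k] ↥H0, ∀ c : ↥(LinearMap.ker t),
      ((u c : ↥H0) : M₂[k]) = (((c : ↥(LinearMap.ker g)) : ↥W' × M₂[k])).2 :=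
    ⟨LinearMap.codRestrict H0
      ((LinearMap.snd k ↥W' M₂[k]).comp
        ((LinearMap.ker g).subtype.comp (LinearMap.ker t).subtype)) hmem, fun c => rfl⟩
  have huinj : Function.Injective u := by
    intro c c' hc
    have hc1 : g (c : ↥(LinearMap.ker g)) = 0 := LinearMap.mem_ker.mp (c : ↥(LinearMap.ker g)).2
    have hc1' : g (c' : ↥(LinearMap.ker g)) = 0 :=
      LinearMap.mem_ker.mp (c' : ↥(LinearMap.ker g)).2
    have hc3 : ((c : ↥(LinearMap.ker g)) : ↥W' × M₂[k]).2 =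
        ((c' : ↥(LinearMap.ker g)) : ↥W' × M₂[k]).2 := by
      rw [← hu c, ← hu c', hc]
    apply Subtype.ext
    apply Subtype.ext
    exact Prod.ext ((hker' _ hc1).1.trans (hker' _ hc1').1.symm) hc3
  have h3 : Module.rank k ↥(LinearMap.ker t) ≤ Module.rank k ↥H0 :=
    LinearMap.rank_le_of_injective u huinj
  calc Module.rank k ↥W' ≤ Module.rank k ↥(LinearMap.ker g) := h1
    _ ≤ 1 + Module.rank k ↥(LinearMap.ker t) := h2
    _ ≤ 1 + Module.rank k ↥H0 := add_le_add le_rfl h3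
    _ = ((Module.finrank k H0 + 1 : ℕ) : Cardinal) := by
      rw [← Module.finrank_eq_rank, add_comm]
      norm_cast

/-- **From the `res W + Cob` form to the consumer form**: if `rank (res_D W' + Cob_D) ≤ 4` for
the decomposition group `D` of the distinguished place at `q`, and `W'` contains no nonzero
local coboundary at `q`, then `rank W' ≤ dim H⁰(G_q, ad⁰) + 1`. -/
theorem h79_rank_le_of_sup_le (rb : GQ →* M₂[k]) (q : Nat.Primes)
    (W' : Submodule k (GQ → M₂[k]))
    (hb : Module.rank k ↥(W'.map (h79_res ((primeLocalPlace q).decompositionSubgroup ℚ)) ⊔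
      h79_Cob rb ((primeLocalPlace q).decompositionSubgroup ℚ)) ≤ 4)
    (h0 : ∀ a ∈ W', h12_LocCobM rb q a → a = 0) :
    Module.rank k W' ≤ ((Module.finrank k (h12_H0M rb q) + 1 : ℕ) : Cardinal) := by
  refine h79_rank_le_aux rb _ W' (h12_H0M rb q) hb (fun a haW X hc => ?_)
  have hc' : ∀ τ : primeLocalGaloisGroup q,
      a (primeLocalToGlobal q τ) +
        (X * rb (primeLocalToGlobal q τ) - rb (primeLocalToGlobal q τ) * X) = 0 := by
    intro τ
    have hτD : primeLocalToGlobal q τ ∈ (primeLocalPlace q).decompositionSubgroup ℚ :=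
      (h12_decomp_range q _).mpr ⟨τ, rfl⟩
    exact hc ⟨primeLocalToGlobal q τ, hτD⟩
  have ha0 : a = 0 := by
    apply h0 _ haW
    refine ⟨-X, fun τ => ?_⟩
    rw [eq_neg_of_add_eq_zero_left (hc' τ)]
    simp only [neg_mul, mul_neg, neg_sub, sub_neg_eq_add]
    abel
  refine ⟨ha0, fun htr => ⟨htr, fun τ => ?_⟩⟩
  have h1 := hc' τ
  rw [ha0, Pi.zero_apply, zero_add] at h1
  exact (sub_eq_zero.mp h1).symm

end Adapter

section Row

variable {k : Type} [Field k] (p : ℕ) [Fact p.Prime] [Algebra (ZMod p) k]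
variable (rb : GQ →* M₂[k])

/-- **(W2-ORD) strict-ordinary lifts at `p`**: the statement `h12_R3_ord` of the MID skeleton,
given `hK : dim_k Z¹(G_p, k(ω)) ≤ 3`. -/
theorem h79_R3_ord_of (hp2 : p ≠ 2)
    (hK : Module.rank k
      ↥(h79_TwZ p k ((primeLocalPlace (pPrime p)).decompositionSubgroup ℚ)) ≤ 3)
    (_hdet : h12_DetCyc p rb) (hrb : GaloisFactorsThroughFiniteLevel rb)
    (W' : Submodule k (GQ → M₂[k])) (hW' : W' ≤ h40_TanZ rb)
    (hD : ∀ (a : GQ → M₂[k]) (ha : a ∈ W'), a ≠ 0 →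
      (h40_tanRep rb hrb a (hW' ha)).DetIsCyclotomic p ∧
      (h40_tanRep rb hrb a (hW' ha)).IsStrictOrdinaryAt p)
    (h0 : ∀ a ∈ W', h12_LocCobM rb (pPrime p) a → a = 0) :
    Module.rank k W' ≤ ((Module.finrank k (h12_H0M rb (pPrime p)) + 1 : ℕ) : Cardinal) := by
  have hchar : CharP k p := charP_of_injective_algebraMap (algebraMap (ZMod p) k).injective p
  have hP : (primeLocalPlace (pPrime p)).LiesOverPrime p := h66_primeLocalPlace_lies (pPrime p)
  exact h79_rank_le_of_sup_le rb (pPrime p) W'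
    (h79_ord_bound p hp2 rb hrb _ hP (h79_om_ram p hp2 k _ hP) hK W' hW' hD) h0

end Row

end Fermat.Agent.S56
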