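import Fermat.Agent.S56.h79_OrdUnpack

/-!
# S56, W2 row R3-ord: the strict-ordinary per-subspace bound at `p` (helper79)

`h79_ord_bound`: let `W` be a space of tangent cocycles all of whose nonzero members give lifts
over the dual numbers with cyclotomic determinant and strictly ordinary at `p` (`p` odd), and let
`P | p` be a place with decomposition group `D`.  If the mod `p` cyclotomic character is ramified
at `P` and `Z¹(D, k(ω))` has rank at most `3`, then

`rank (res_D W + Cob_D) ≤ 4`,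

i.e. `dim (W / {a | a|D is a coboundary}) ≤ dim (sl₂)^D + 1`.
-/

set_option autoImplicit false

namespace Fermat.Agent.S56

open Fermat.Agent.S53 Fermat.Agent.S53.Dict Matrix ExtCitation

section Row

variable {k : Type} [Field k]

theorem h79_rank_cob_le (rb : GQ →* Matrix (Fin 2) (Fin 2) k) (H : Subgroup GQ) :
    Module.rank k ↥(h79_Cob rb H) ≤ 4 := by
  have h1 : Module.rank k ↥(h79_Cob rb H) ≤ Module.rank k (Matrix (Fin 2) (Fin 2) k) :=
    LinearMap.rank_le_domain (h79_cobMap rb H)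
  have h2 : Module.rank k (Matrix (Fin 2) (Fin 2) k) = 4 := by
    rw [rank_matrix'', Cardinal.mk_fin]
    norm_num
  rwa [h2] at h1

/-- **R3-ord, in hypothesis form.** -/
theorem h79_ord_bound (p : ℕ) [Fact p.Prime] (hp2 : p ≠ 2)
    (rb : GQ →* Matrix (Fin 2) (Fin 2) k) (hrb : GaloisFactorsThroughFiniteLevel rb)
    (P : ValuationSubring (AlgebraicClosure ℚ)) (hP : P.LiesOverPrime p)
    (hram : ∃ σ ∈ P.inertiaSubgroupIn ℚ, h79_om p k σ ≠ 1)
    (hK : Module.rank k ↥(h79_TwZ p k (P.decompositionSubgroup ℚ)) ≤ 3)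
    (W : Submodule k (GQ → Matrix (Fin 2) (Fin 2) k)) (hW : W ≤ h40_TanZ rb)
    (hso : ∀ (a : GQ → Matrix (Fin 2) (Fin 2) k) (ha : a ∈ W), a ≠ 0 →
      (h40_tanRep rb hrb a (hW ha)).DetIsCyclotomic p ∧
        (h40_tanRep rb hrb a (hW ha)).IsStrictOrdinaryAt p) :
    Module.rank k ↥(W.map (h79_res (P.decompositionSubgroup ℚ)) ⊔
      h79_Cob rb (P.decompositionSubgroup ℚ)) ≤ 4 := by
  classical
  by_cases hW0 : ∀ a ∈ W, a = 0
  · have hbot : W = ⊥ := by
      rw [Submodule.eq_bot_iff]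
      exact hW0
    rw [hbot, Submodule.map_bot, bot_sup_eq]
    exact h79_rank_cob_le rb _
  · push Not at hW0
    obtain ⟨a₀, ha₀W, ha₀⟩ := hW0
    obtain ⟨v₁, z, X₀, hv₁, hz1, hzI, hx, hzq, -⟩ :=
      h79_so_unpack p hp2 rb hrb a₀ (hW ha₀W) (hso a₀ ha₀W ha₀).1 (hso a₀ ha₀W ha₀).2 P hP
    obtain ⟨σ₀, hσ₀I, hσ₀⟩ := hram
    have hσ₀D := h79_mem_dec_of_mem_inertia hσ₀I
    have hcore := h79_ord_core p rb (P.decompositionSubgroup ℚ) v₁ z hrb hv₁ hz1 hx hzq W hW ?_
    · calc Module.rank k ↥(W.map (h79_res (P.decompositionSubgroup ℚ)) ⊔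
            h79_Cob rb (P.decompositionSubgroup ℚ))
          ≤ Module.rank k ↥(h79_TwZ p k (P.decompositionSubgroup ℚ)) + 1 := hcore
        _ ≤ 3 + 1 := add_le_add hK le_rfl
        _ = 4 := by norm_num
    · intro a haW
      by_cases ha0 : a = 0
      · refine ⟨0, fun σ _ => ?_⟩
        rw [ha0]
        simp only [Pi.zero_apply, zero_mul, mul_zero, sub_self, zero_mulVec]
        exact ⟨trivial, fun v => ⟨0, by rw [zero_smul]⟩⟩
      · obtain ⟨v₁', z', X, hv₁', -, hzI', hx', -, hN⟩ :=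
          h79_so_unpack p hp2 rb hrb a (hW haW) (hso a haW ha0).1 (hso a haW ha0).2 P hP
        -- the two lines coincide: both are the `ω σ₀`-eigenline of `rb σ₀`
        obtain ⟨α, hα⟩ := hzq σ₀ hσ₀D v₁'
        have e1 : rb σ₀ *ᵥ v₁' = h79_om p k σ₀ • v₁' := by
          rw [hx' σ₀ hσ₀D, hzI' σ₀ hσ₀I, mul_one]
        rw [e1, hzI σ₀ hσ₀I, ← sub_smul] at hα
        have hne : h79_om p k σ₀ - 1 ≠ 0 := sub_ne_zero.mpr hσ₀
        have hv' : v₁' = ((h79_om p k σ₀ - 1)⁻¹ * α) • v₁ := by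
          rw [← smul_smul, ← hα, smul_smul, inv_mul_cancel₀ hne, one_smul]
        set c : k := (h79_om p k σ₀ - 1)⁻¹ * α with hc
        have hc0 : c ≠ 0 := by
          intro h0
          apply hv₁'
          rw [hv', h0, zero_smul]
        refine ⟨X, fun σ hσ => ?_⟩
        obtain ⟨hN1, hN2⟩ := hN σ hσ
        constructor
        · rw [hv', mulVec_smul] at hN1
          exact (smul_eq_zero.mp hN1).resolve_left hc0
        · intro v
          obtain ⟨β, hβ⟩ := hN2 v
          exact ⟨β * c, by rw [hβ, hv', smul_smul]⟩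

end Row

end Fermat.Agent.S56
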