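import Fermat.Agent.S56.h40_Unpack
import Fermat.Agent.S56.h79_OrdCore

/-!
# S56, W2 row R3-ord: the frozen strict-ordinary condition on a tangent lift, unpacked (helper79)

`h79_so_unpack`: for a tangent cocycle `a` whose lift `h40_tanRep` has cyclotomic determinant and
is strictly ordinary at `p` (`p` odd), and a place `P | p`, there are a nonzero vector `v₁ ∈ k²`,
a quadratic character `z` on the decomposition group and a matrix `X` such that on the
decomposition group `rb` is triangular with characters `(ω z, z)` (`z = 1` on inertia) and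
`a - ∂X` takes values in the line `{N | N v₁ = 0, im N ⊆ k v₁}`.
-/

set_option autoImplicit false
set_option linter.style.haveILetI false
set_option linter.unusedSectionVars false

namespace Fermat.Agent.S56

open Fermat.Agent.S53 Fermat.Agent.S53.Dict Matrix ExtCitation

section ALevel

variable {A : Type} [CommRing A] [IsLocalRing A]

theorem h79_mem_dec_of_mem_inertia {P : ValuationSubring (AlgebraicClosure ℚ)} {σ : GQ}
    (hσ : σ ∈ P.inertiaSubgroupIn ℚ) : σ ∈ P.decompositionSubgroup ℚ := by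
  obtain ⟨x, -, rfl⟩ := hσ
  exact x.2

/-- The frozen strict-ordinary condition for a matrix representation, in matrix language. -/
theorem h79_so_ofMat (M : GQ →* Matrix (Fin 2) (Fin 2) A) (hM : MatCont M) (p : ℕ)
    (hso : (ofMat M hM).IsStrictOrdinaryAt p)
    (P : ValuationSubring (AlgebraicClosure ℚ)) (hP : P.LiesOverPrime p) :
    ∃ b : Module.Basis (Fin 2) A (Fin 2 → A),
      (∀ σ ∈ P.inertiaSubgroupIn ℚ, ∀ v : Fin 2 → A, ∃ c : A, (M σ) *ᵥ v - v = c • b 0) ∧
      (∀ σ ∈ P.decompositionSubgroup ℚ, ∃ x z : A, (M σ) *ᵥ (b 0) = x • b 0 ∧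
        (∀ v : Fin 2 → A, ∃ c : A, (M σ) *ᵥ v - z • v = c • b 0) ∧ (M σ).det = x * z ∧
        ∀ (n e : ℕ), (∀ μ : AlgebraicClosure ℚ, μ ^ p ^ n = 1 → σ μ = μ ^ e) →
          x - (e : A) * z ∈ Ideal.span {((p ^ n : ℕ) : A)}) := by
  obtain ⟨L, ⟨b, hLb⟩, hD, hI, hchar⟩ := hso.2 P hP
  refine ⟨b, fun σ hσ v => ?_, fun σ hσ => ?_⟩
  · have h := hI σ hσ v
    rw [hLb, Submodule.mem_span_singleton] at h
    obtain ⟨c, hc⟩ := h
    exact ⟨c, hc.symm⟩
  · obtain ⟨x, z, hxw, hzv, hcyc⟩ := hchar σ hσ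
    have hx0 : (M σ) *ᵥ (b 0) = x • b 0 :=
      hxw (b 0) (by rw [hLb]; exact Submodule.mem_span_singleton_self _)
    have hzc : ∀ v : Fin 2 → A, ∃ c : A, (M σ) *ᵥ v - z • v = c • b 0 := by
      intro v
      have h := hzv v
      rw [hLb, Submodule.mem_span_singleton] at h
      obtain ⟨c, hc⟩ := h
      exact ⟨c, hc.symm⟩
    refine ⟨x, z, hx0, hzc, ?_, hcyc⟩
    -- the determinant in the basis `b`
    obtain ⟨c, hc⟩ := hzc (b 1)
    have hb1 : (M σ) *ᵥ (b 1) = z • b 1 + c • b 0 := by rw [← hc]; abel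
    have hdet : (LinearMap.toMatrix b b (Matrix.toLin' (M σ))).det = (M σ).det := by
      rw [LinearMap.det_toMatrix, LinearMap.det_toLin']
    rw [← hdet, Matrix.det_fin_two]
    simp only [LinearMap.toMatrix_apply, Matrix.toLin'_apply, hx0, hb1, map_add, map_smul,
      Module.Basis.repr_self, Finsupp.smul_apply, Finsupp.add_apply, Finsupp.single_apply,
      smul_eq_mul]
    simp

end ALevel

section Dual

variable {k : Type} [Field k]

/-- First components of a vector over the dual numbers. -/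
def h79_fstv (w : Fin 2 → DualNumber k) : Fin 2 → k := fun i => (w i).fst

/-- Second components of a vector over the dual numbers. -/
def h79_sndv (w : Fin 2 → DualNumber k) : Fin 2 → k := fun i => (w i).snd

theorem h79_fstv_mulVec (R B : Matrix (Fin 2) (Fin 2) k) (w : Fin 2 → DualNumber k) :
    h79_fstv (h40_dmat R B *ᵥ w) = R *ᵥ h79_fstv w := by
  funext i
  simp [h79_fstv, mulVec, dotProduct, Fin.sum_univ_two]

theorem h79_sndv_mulVec (R B : Matrix (Fin 2) (Fin 2) k) (w : Fin 2 → DualNumber k) :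
    h79_sndv (h40_dmat R B *ᵥ w) = R *ᵥ h79_sndv w + B *ᵥ h79_fstv w := by
  funext i
  fin_cases i
  · simp [h79_fstv, h79_sndv, mulVec, dotProduct, Fin.sum_univ_two]
    ring
  · simp [h79_fstv, h79_sndv, mulVec, dotProduct, Fin.sum_univ_two]
    ring

theorem h79_fstv_smul (c : DualNumber k) (w : Fin 2 → DualNumber k) :
    h79_fstv (c • w) = c.fst • h79_fstv w := by
  funext i
  simp [h79_fstv]

theorem h79_sndv_smul (c : DualNumber k) (w : Fin 2 → DualNumber k) :
    h79_sndv (c • w) = c.fst • h79_sndv w + c.snd • h79_fstv w := by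
  funext i
  simp [h79_fstv, h79_sndv]

theorem h79_fstv_sub (w w' : Fin 2 → DualNumber k) :
    h79_fstv (w - w') = h79_fstv w - h79_fstv w' := by
  funext i
  simp [h79_fstv]

theorem h79_sndv_sub (w w' : Fin 2 → DualNumber k) :
    h79_sndv (w - w') = h79_sndv w - h79_sndv w' := by
  funext i
  simp [h79_sndv]

/-- A constant vector. -/
def h79_cst (v : Fin 2 → k) : Fin 2 → DualNumber k := fun i => TrivSqZeroExt.inl (v i)

@[simp] theorem h79_fstv_cst (v : Fin 2 → k) : h79_fstv (h79_cst v) = v := by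
  funext i
  simp [h79_fstv, h79_cst]

@[simp] theorem h79_sndv_cst (v : Fin 2 → k) : h79_sndv (h79_cst v) = 0 := by
  funext i
  simp [h79_sndv, h79_cst]

/-- An element of the dual numbers with `ω z² = ω`, `ω ≠ 0` a constant, `2 ≠ 0`, is a constant
square root of one. -/
theorem h79_dual_rigid (h2 : (2 : k) ≠ 0) {ω : k} (hω : ω ≠ 0) {z : DualNumber k}
    (h : (TrivSqZeroExt.inl ω : DualNumber k) * z * z = TrivSqZeroExt.inl ω) :
    z.fst * z.fst = 1 ∧ z.snd = 0 := by
  have h1 := congrArg TrivSqZeroExt.fst h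
  have h3 := congrArg TrivSqZeroExt.snd h
  simp only [TrivSqZeroExt.fst_mul, TrivSqZeroExt.fst_inl, TrivSqZeroExt.snd_mul,
    TrivSqZeroExt.snd_inl, smul_eq_mul, MulOpposite.smul_eq_mul_unop, MulOpposite.unop_op,
    add_zero, zero_mul] at h1 h3
  have hz1 : z.fst * z.fst = 1 := by
    have : ω * (z.fst * z.fst - 1) = 0 := by linear_combination h1
    rcases mul_eq_zero.mp this with h' | h'
    · exact absurd h' hω
    · linear_combination h'
  have hz0 : z.fst ≠ 0 := by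
    intro h0
    rw [h0, mul_zero] at hz1
    exact zero_ne_one hz1
  refine ⟨hz1, ?_⟩
  have : 2 * ω * z.fst * z.snd = 0 := by linear_combination h3
  rcases mul_eq_zero.mp this with h' | h'
  · exact absurd h' (mul_ne_zero (mul_ne_zero h2 hω) hz0)
  · exact h'

end Dual

section Unpack

variable {k : Type} [Field k]

/-- **(U-so)** The frozen strict-ordinary condition on a tangent lift, unpacked at a place
`P | p`. -/
theorem h79_so_unpack (p : ℕ) [Fact p.Prime] (hp2 : p ≠ 2)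
    (rb : GQ →* Matrix (Fin 2) (Fin 2) k) (hrb : GaloisFactorsThroughFiniteLevel rb)
    (a : GQ → Matrix (Fin 2) (Fin 2) k) (ha : a ∈ h40_TanZ rb)
    (hdet : (h40_tanRep rb hrb a ha).DetIsCyclotomic p)
    (hso : (h40_tanRep rb hrb a ha).IsStrictOrdinaryAt p)
    (P : ValuationSubring (AlgebraicClosure ℚ)) (hP : P.LiesOverPrime p) :
    ∃ (v₁ : Fin 2 → k) (z : GQ → k) (X : Matrix (Fin 2) (Fin 2) k), v₁ ≠ 0 ∧
      (∀ σ ∈ P.decompositionSubgroup ℚ, z σ * z σ = 1) ∧
      (∀ σ ∈ P.inertiaSubgroupIn ℚ, z σ = 1) ∧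
      (∀ σ ∈ P.decompositionSubgroup ℚ, rb σ *ᵥ v₁ = (h79_om p k σ * z σ) • v₁) ∧
      (∀ σ ∈ P.decompositionSubgroup ℚ, ∀ v : Fin 2 → k, ∃ α : k,
        rb σ *ᵥ v - z σ • v = α • v₁) ∧
      (∀ σ ∈ P.decompositionSubgroup ℚ, (a σ - (X * rb σ - rb σ * X)) *ᵥ v₁ = 0 ∧
        ∀ v : Fin 2 → k, ∃ β : k, (a σ - (X * rb σ - rb σ * X)) *ᵥ v = β • v₁) := by
  classical
  obtain ⟨hp0, -, -⟩ := h40_unpack_det rb hrb a ha hdet
  haveI : CharP k p := (CharP.charP_iff_prime_eq_zero (Fact.out : p.Prime)).mpr hp0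
  have h2 : (2 : k) ≠ 0 := by
    intro h
    have h' : ((2 : ℕ) : k) = 0 := by exact_mod_cast h
    rw [CharP.cast_eq_zero_iff k p 2] at h'
    exact hp2 ((Nat.prime_dvd_prime_iff_eq (Fact.out : p.Prime) Nat.prime_two).mp h')
  have hpA : ((p ^ 1 : ℕ) : DualNumber k) = 0 := by
    rw [pow_one, h40_natCast_dual, hp0, TrivSqZeroExt.inl_zero]
  -- the A-level data
  have hso' : (ofMat (h40_tanHom rb a ha) (h40_tanHom_matCont rb hrb a ha)).IsStrictOrdinaryAt p :=
    hso
  obtain ⟨b, hbI, hbD⟩ := h79_so_ofMat _ _ p hso' P hP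
  set v₁ : Fin 2 → k := h79_fstv (b 0) with hv₁def
  set v' : Fin 2 → k := h79_sndv (b 0) with hv'def
  have hv₁ : v₁ ≠ 0 := by
    intro h0
    have hε : (TrivSqZeroExt.inr (1 : k) : DualNumber k) • b 0 = 0 := by
      funext i
      have hi : ((b 0) i).fst = 0 := congrFun h0 i
      ext
      · simp
      · simp [hi]
    have h1 := congrArg b.repr hε
    rw [map_smul, Module.Basis.repr_self, map_zero] at h1
    have h3 := DFunLike.congr_fun h1 0
    simp at h3
    have h4 := congrArg TrivSqZeroExt.snd h3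
    simp at h4
  obtain ⟨v₂, m₁, m₂, h11, h12, h21, h22, hdec⟩ := h79_exists_dual v₁ hv₁
  -- the facts at each element of the decomposition group
  have key : ∀ σ ∈ P.decompositionSubgroup ℚ, ∃ z₀ : k, z₀ * z₀ = 1 ∧
      rb σ *ᵥ v₁ = (h79_om p k σ * z₀) • v₁ ∧
      rb σ *ᵥ v' + a σ *ᵥ v₁ = (h79_om p k σ * z₀) • v' ∧
      (∀ v₀ : Fin 2 → k, ∃ α β : k, rb σ *ᵥ v₀ - z₀ • v₀ = α • v₁ ∧
        a σ *ᵥ v₀ = α • v' + β • v₁) ∧
      (σ ∈ P.inertiaSubgroupIn ℚ → z₀ = 1) := by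
    intro σ hσ
    obtain ⟨x, z, hx0, hzc, hdetxz, hcyc⟩ := hbD σ hσ
    have he : ∀ μ : AlgebraicClosure ℚ, μ ^ p ^ 1 = 1 → σ μ = μ ^ cycloExp p σ := by
      intro μ hμ
      exact h79_om_spec p σ μ (by simpa using hμ)
    have hxz : x = ((cycloExp p σ : ℕ) : DualNumber k) * z := by
      have h := hcyc 1 (cycloExp p σ) he
      rw [hpA, Ideal.span_singleton_zero, Ideal.mem_bot, sub_eq_zero] at h
      exact h
    have hdetE : (h40_tanHom rb a ha σ).det = ((cycloExp p σ : ℕ) : DualNumber k) := by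
      have h := hdet.2 1 σ (cycloExp p σ) he
      have h' : LinearMap.det ((ofMat (h40_tanHom rb a ha)
          (h40_tanHom_matCont rb hrb a ha)).ρ σ) - ((cycloExp p σ : ℕ) : DualNumber k) ∈
          Ideal.span {((p ^ 1 : ℕ) : DualNumber k)} := h
      rw [h40_det_ofMat, hpA, Ideal.span_singleton_zero, Ideal.mem_bot, sub_eq_zero] at h'
      exact h'
    have hE : ((cycloExp p σ : ℕ) : DualNumber k) = TrivSqZeroExt.inl (h79_om p k σ) :=
      h40_natCast_dual _
    have hω : h79_om p k σ ≠ 0 := h79_om_ne_zero p k σ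
    have hrig : (TrivSqZeroExt.inl (h79_om p k σ) : DualNumber k) * z * z =
        TrivSqZeroExt.inl (h79_om p k σ) := by
      rw [← hE, ← hxz, ← hdetxz, hdetE]
    obtain ⟨hz1, hz0⟩ := h79_dual_rigid h2 hω hrig
    have hxfst : x.fst = h79_om p k σ * z.fst := by
      rw [hxz, hE]
      simp
    have hxsnd : x.snd = 0 := by
      rw [hxz, hE]
      simp [hz0]
    have hM : h40_tanHom rb a ha σ = h40_dmat (rb σ) (a σ) := rfl
    refine ⟨z.fst, hz1, ?_, ?_, ?_, ?_⟩
    · have h := congrArg h79_fstv hx0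
      rw [hM, h79_fstv_mulVec, h79_fstv_smul, hxfst] at h
      exact h
    · have h := congrArg h79_sndv hx0
      rw [hM, h79_sndv_mulVec, h79_sndv_smul, hxfst, hxsnd, zero_smul, add_zero] at h
      exact h
    · intro v₀
      obtain ⟨c, hc⟩ := hzc (h79_cst v₀)
      refine ⟨c.fst, c.snd, ?_, ?_⟩
      · have h := congrArg h79_fstv hc
        rw [hM, h79_fstv_sub, h79_fstv_mulVec, h79_fstv_smul, h79_fstv_smul, h79_fstv_cst] at h
        exact h
      · have h := congrArg h79_sndv hc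
        rw [hM, h79_sndv_sub, h79_sndv_mulVec, h79_sndv_smul, h79_sndv_smul, h79_fstv_cst,
          h79_sndv_cst, hz0, zero_smul, smul_zero, mulVec_zero, zero_add, add_zero, sub_zero] at h
        exact h
    · intro hσI
      obtain ⟨c, hc⟩ := hbI σ hσI (b 1)
      obtain ⟨c', hc'⟩ := hzc (b 1)
      have h : (z - 1) • b 1 = (c - c') • b 0 := by
        rw [sub_smul, sub_smul, one_smul, ← hc, ← hc']
        abel
      have h1 := congrArg b.repr h
      rw [map_smul, map_smul, Module.Basis.repr_self, Module.Basis.repr_self] at h1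
      have h3 := DFunLike.congr_fun h1 1
      simp at h3
      have hz : z = 1 := by linear_combination h3
      rw [hz]
      simp
  -- the canonical quotient character
  set zf : GQ → k := fun σ => m₂ ⬝ᵥ (rb σ *ᵥ v₂) with hzf
  have hzf_eq : ∀ σ ∈ P.decompositionSubgroup ℚ, ∀ z₀ : k,
      (∀ v₀ : Fin 2 → k, ∃ α β : k, rb σ *ᵥ v₀ - z₀ • v₀ = α • v₁ ∧
        a σ *ᵥ v₀ = α • v' + β • v₁) → zf σ = z₀ := by
    intro σ _ z₀ h
    obtain ⟨α, β, h1, -⟩ := h v₂
    have e : rb σ *ᵥ v₂ = z₀ • v₂ + α • v₁ := by rw [← h1]; abel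
    simp only [hzf]
    rw [e, dotProduct_add, dotProduct_smul, dotProduct_smul, h21, h22, smul_eq_mul, smul_eq_mul,
      mul_one, mul_zero, add_zero]
  refine ⟨v₁, zf, h79_rk1 v' m₁, hv₁, fun σ hσ => ?_, fun σ hσ => ?_, fun σ hσ => ?_,
    fun σ hσ v => ?_, fun σ hσ => ?_⟩
  · obtain ⟨z₀, hz1, -, -, hv, -⟩ := key σ hσ
    rw [hzf_eq σ hσ z₀ hv]
    exact hz1
  · have hσD := h79_mem_dec_of_mem_inertia hσ
    obtain ⟨z₀, -, -, -, hv, hI⟩ := key σ hσD
    rw [hzf_eq σ hσD z₀ hv]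
    exact hI hσ
  · obtain ⟨z₀, -, hx, -, hv, -⟩ := key σ hσ
    rw [hzf_eq σ hσ z₀ hv]
    exact hx
  · obtain ⟨z₀, -, -, -, hv, -⟩ := key σ hσ
    rw [hzf_eq σ hσ z₀ hv]
    obtain ⟨α, β, h1, -⟩ := hv v
    exact ⟨α, h1⟩
  · obtain ⟨z₀, -, hx, hx', hv, -⟩ := key σ hσ
    have hXv : ∀ v : Fin 2 → k, h79_rk1 v' m₁ *ᵥ v = (m₁ ⬝ᵥ v) • v' := fun v =>
      h79_rk1_mulVec v' m₁ v
    constructor
    · rw [sub_mulVec, sub_mulVec, ← mulVec_mulVec, ← mulVec_mulVec, hx, mulVec_smul, hXv, h11,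
        one_smul, ← hx']
      abel
    · intro v
      obtain ⟨α, β, h1, h2'⟩ := hv v
      obtain ⟨α₁, β₁, h3, h4⟩ := hv v₁
      have e1 : rb σ *ᵥ v = z₀ • v + α • v₁ := by rw [← h1]; abel
      have hα₁ : α₁ = h79_om p k σ * z₀ - z₀ := by
        rw [hx, ← sub_smul] at h3
        have h5 := congrArg (fun w => m₁ ⬝ᵥ w) h3
        simp only [dotProduct_smul, h11, smul_eq_mul, mul_one] at h5
        exact h5.symm
      have e2 : rb σ *ᵥ v' = (h79_om p k σ * z₀) • v' - a σ *ᵥ v₁ := by rw [← hx']; abel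
      refine ⟨β - (m₁ ⬝ᵥ v) * β₁, ?_⟩
      have hA : h79_rk1 v' m₁ *ᵥ (rb σ *ᵥ v) = (z₀ * (m₁ ⬝ᵥ v) + α) • v' := by
        rw [hXv, e1, dotProduct_add, dotProduct_smul, dotProduct_smul, h11, smul_eq_mul,
          smul_eq_mul, mul_one]
      have hB : rb σ *ᵥ (h79_rk1 v' m₁ *ᵥ v) =
          (m₁ ⬝ᵥ v) • ((h79_om p k σ * z₀) • v' - a σ *ᵥ v₁) := by
        rw [hXv, mulVec_smul, e2]
      rw [sub_mulVec, sub_mulVec, ← mulVec_mulVec, ← mulVec_mulVec, hA, hB, h2', h4, hα₁]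
      module

end Unpack

end Fermat.Agent.S56
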