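/-
S56 / W3 / E-RED (route R80): the field `F = K₀(L)(ζ)` over which the Kummer count is done
(`Gal(Ω/F) = {s ∈ J_L | s ζ = ζ}`).
-/
import Fermat.Agent.S56.h80_ERedDefs

set_option autoImplicit false

namespace Fermat.Agent.S56

variable (p : ℕ) [Fact p.Prime]

/-- the field `K₀(L)(ζ)`. -/
noncomputable def h80_Fz (L : IntermediateField ℚ_[p] (PadicAlgCl p)) (ζ : PadicAlgCl p) :
    IntermediateField ℚ_[p] (PadicAlgCl p) :=
  IntermediateField.adjoin ℚ_[p] ((h78_K0 p L : Set (PadicAlgCl p)) ∪ {ζ})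

end Fermat.Agent.S56
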