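import Mathlib
import Fermat.Agent.S56.h81_TWCheb
import Fermat.Agent.S56.h66_TWFinal
import Fermat.Agent.S56.h30_TWHyp
import Fermat.Agent.GAL.h65_Cyclo
import Fermat.Agent.GAL.h14_FrobCyc

/-!
# S56 / W4 / G8-CORE: Taylor–Wiles primes from the group theory (G7) and weak Chebotarev

`h81_tw_cheb`: for an abstract `ρ : G_ℚ →* GL₂(k)` of finite level with cyclotomic determinant and
the Taylor–Wiles hypothesis, an `ad⁰(1)`-cocycle `ψ` of finite level which is not a coboundary,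
`n : ℕ` and a finite set `B` of primes, there is a prime `q ∉ B`, `q ≡ 1 mod p ^ (n + 1)`, such
that for EVERY place above `q` and EVERY Frobenius lift `φ` there: `ρ φ` is regular
(`tr² ≠ 4 det`) and `ψ φ ∉ (ρ φ - 1) W`.
-/

set_option autoImplicit false

namespace Fermat.Agent.S56

open Fermat.Agent.GAL Fermat.Agent.S54

local notation "Qb" => AlgebraicClosure ℚ

/-! ### 2 × 2 matrices: the discriminant of a power -/

section Mat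

variable {k : Type*} [Field k]

theorem h81_pow_eq (M : Matrix (Fin 2) (Fin 2) k) (b : ℕ) :
    ∃ u v : k, M ^ b = u • M + v • (1 : Matrix (Fin 2) (Fin 2) k) := by
  induction b with
  | zero => exact ⟨0, 1, by simp⟩
  | succ b ih =>
    obtain ⟨u, v, h⟩ := ih
    refine ⟨u * M.trace + v, -(u * M.det), ?_⟩
    rw [pow_succ, h, add_mul, Matrix.smul_mul, Matrix.smul_mul, one_mul, h66_cayley M]
    simp only [smul_sub, smul_smul, add_smul, neg_smul]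
    abel

theorem h81_disc_smul_add (M : Matrix (Fin 2) (Fin 2) k) (u v : k) :
    (u • M + v • (1 : Matrix (Fin 2) (Fin 2) k)).trace ^ 2 -
      4 * (u • M + v • (1 : Matrix (Fin 2) (Fin 2) k)).det =
      u ^ 2 * (M.trace ^ 2 - 4 * M.det) := by
  simp only [Matrix.trace_fin_two, Matrix.det_fin_two, Matrix.add_apply, Matrix.smul_apply,
    Matrix.one_apply_eq, smul_eq_mul]
  simp
  ring

/-- If `tr² = 4 det` for `M` then also for every power of `M`. -/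
theorem h81_disc_pow (M : Matrix (Fin 2) (Fin 2) k) (b : ℕ) (h : M.trace ^ 2 = 4 * M.det) :
    (M ^ b).trace ^ 2 = 4 * (M ^ b).det := by
  obtain ⟨u, v, huv⟩ := h81_pow_eq M b
  have h1 := h81_disc_smul_add M u v
  rw [huv]
  have h0 : M.trace ^ 2 - 4 * M.det = 0 := sub_eq_zero.mpr h
  rw [h0, mul_zero] at h1
  exact sub_eq_zero.mp h1

theorem h81_trace_conj (x y : GL (Fin 2) k) :
    ((x * y * x⁻¹ : GL (Fin 2) k) : Matrix (Fin 2) (Fin 2) k).trace =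
      (y : Matrix (Fin 2) (Fin 2) k).trace := by
  have h1 : ((x⁻¹ : GL (Fin 2) k) : Matrix (Fin 2) (Fin 2) k) * (x : Matrix (Fin 2) (Fin 2) k) = 1 :=
    Units.inv_mul x
  rw [Units.val_mul, Units.val_mul, Matrix.trace_mul_comm, ← Matrix.mul_assoc, h1, one_mul]

theorem h81_det_conj (x y : GL (Fin 2) k) :
    ((x * y * x⁻¹ : GL (Fin 2) k) : Matrix (Fin 2) (Fin 2) k).det =
      (y : Matrix (Fin 2) (Fin 2) k).det := by
  have h1 : ((x⁻¹ : GL (Fin 2) k) : Matrix (Fin 2) (Fin 2) k) * (x : Matrix (Fin 2) (Fin 2) k) = 1 :=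
    Units.inv_mul x
  have h2 := congrArg Matrix.det h1
  rw [Matrix.det_mul, Matrix.det_one] at h2
  rw [Units.val_mul, Units.val_mul, Matrix.det_mul, Matrix.det_mul]
  calc (x : Matrix (Fin 2) (Fin 2) k).det * (y : Matrix (Fin 2) (Fin 2) k).det *
        ((x⁻¹ : GL (Fin 2) k) : Matrix (Fin 2) (Fin 2) k).det
      = (((x⁻¹ : GL (Fin 2) k) : Matrix (Fin 2) (Fin 2) k).det *
          (x : Matrix (Fin 2) (Fin 2) k).det) * (y : Matrix (Fin 2) (Fin 2) k).det := by ring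
    _ = (y : Matrix (Fin 2) (Fin 2) k).det := by rw [h2, one_mul]

/-! ### Cocycles on cyclic subgroups and conjugates -/

theorem h81_act_neg (g : GL (Fin 2) k) (Z : Matrix (Fin 2) (Fin 2) k) :
    h66_act g (-Z) = - h66_act g Z := by
  have := h66_act_sub g 0 Z
  rwa [zero_sub, h66_act_zero, zero_sub] at this

theorem h81_cocycle_pow {Γ : Type*} [Group Γ] {ρ : Γ →* GL (Fin 2) k}
    {c : Γ → Matrix (Fin 2) (Fin 2) k} (hc : h66_IsCocycle ρ c) (γ : Γ)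
    (w : Matrix (Fin 2) (Fin 2) k) (h : c γ = h66_act (ρ γ) w - w) (n : ℕ) :
    c (γ ^ n) = h66_act (ρ (γ ^ n)) w - w := by
  induction n with
  | zero => simp [h66_cocycle_one hc, h66_act_one]
  | succ n ih =>
    rw [pow_succ, hc.2, ih, h, map_mul, h66_act_mul, h66_act_sub]
    abel

theorem h81_cocycle_of_conj {Γ : Type*} [Group Γ] {ρ : Γ →* GL (Fin 2) k}
    {c : Γ → Matrix (Fin 2) (Fin 2) k} (hc : h66_IsCocycle ρ c) (τ g : Γ)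
    (w : Matrix (Fin 2) (Fin 2) k) (hw : w.trace = 0)
    (h : c (τ * g * τ⁻¹) = h66_act (ρ (τ * g * τ⁻¹)) w - w) :
    ∃ Y : Matrix (Fin 2) (Fin 2) k, Y.trace = 0 ∧ c g = h66_act (ρ g) Y - Y := by
  have inj : ∀ Z Z' : Matrix (Fin 2) (Fin 2) k, h66_act (ρ τ) Z = h66_act (ρ τ) Z' → Z = Z' := by
    intro Z Z' hZ
    have := congrArg (h66_act (ρ τ⁻¹)) hZ
    rwa [← h66_act_mul, ← h66_act_mul, ← map_mul, inv_mul_cancel, map_one, h66_act_one,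
      h66_act_one] at this
  refine ⟨h66_act (ρ τ⁻¹) (w + c τ), ?_, inj _ _ ?_⟩
  · rw [h66_act_trace, Matrix.trace_add, hw, hc.1, add_zero, mul_zero]
  · have e1 : c τ⁻¹ = - h66_act (ρ τ⁻¹) (c τ) := by
      have := hc.2 τ⁻¹ τ
      rw [inv_mul_cancel, h66_cocycle_one hc] at this
      exact eq_neg_of_add_eq_zero_left this.symm
    have e2 : c (τ * g * τ⁻¹) = c τ + h66_act (ρ τ) (c g) + h66_act (ρ (τ * g)) (c τ⁻¹) := by
      rw [hc.2 (τ * g) τ⁻¹, hc.2 τ g]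
    have e3 : h66_act (ρ (τ * g)) (- h66_act (ρ τ⁻¹) (c τ)) =
        - h66_act (ρ (τ * g * τ⁻¹)) (c τ) := by
      rw [h81_act_neg, map_mul ρ (τ * g) τ⁻¹, h66_act_mul (ρ (τ * g)) (ρ τ⁻¹)]
    rw [h, e1, e3] at e2
    have hY1 : h66_act (ρ τ) (h66_act (ρ g) (h66_act (ρ τ⁻¹) (w + c τ))) =
        h66_act (ρ (τ * g * τ⁻¹)) (w + c τ) := by
      rw [map_mul, map_mul, h66_act_mul, h66_act_mul]
    have hY2 : h66_act (ρ τ) (h66_act (ρ τ⁻¹) (w + c τ)) = w + c τ := by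
      rw [← h66_act_mul, ← map_mul, mul_inv_cancel, map_one, h66_act_one]
    rw [h66_act_sub, hY1, hY2, h66_act_add]
    have e4 : h66_act (ρ τ) (c g) = (h66_act (ρ (τ * g * τ⁻¹)) w - w) - c τ +
        h66_act (ρ (τ * g * τ⁻¹)) (c τ) := by
      rw [e2]
      abel
    rw [e4]
    abel

end Mat

/-! ### The subgroup fixing the `m`-th roots of unity -/

/-- The subgroup of `G_ℚ` fixing all `m`-th roots of unity. -/
def h81_cycFix (m : ℕ) : Subgroup (Qb ≃ₐ[ℚ] Qb) where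
  carrier := {σ | ∀ μ : Qb, μ ^ m = 1 → σ μ = μ}
  mul_mem' := fun {a b} ha hb μ hμ => by
    rw [AlgEquiv.mul_apply, hb μ hμ, ha μ hμ]
  one_mem' := fun μ _ => rfl
  inv_mem' := fun {a} ha μ hμ => by
    have h1 := ha μ hμ
    rw [AlgEquiv.aut_inv]
    exact (AlgEquiv.symm_apply_eq a).mpr h1.symm

theorem h81_mem_cycFix (m : ℕ) (σ : Qb ≃ₐ[ℚ] Qb) :
    σ ∈ h81_cycFix m ↔ ∀ μ : Qb, μ ^ m = 1 → σ μ = μ := Iff.rfl

theorem h81_map_root (m : ℕ) (σ : Qb ≃ₐ[ℚ] Qb) {μ : Qb} (hμ : μ ^ m = 1) : (σ μ) ^ m = 1 := by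
  rw [← map_pow, hμ, map_one]

instance h81_cycFix_normal (m : ℕ) : (h81_cycFix m).Normal where
  conj_mem := by
    intro σ hσ τ μ hμ
    have h1 : (τ * σ * τ⁻¹) μ = τ (σ (τ⁻¹ μ)) := rfl
    rw [h1, hσ _ (h81_map_root m τ⁻¹ hμ), AlgEquiv.aut_inv, AlgEquiv.apply_symm_apply]

theorem h81_exists_primitiveRoot (m : ℕ) (hm : m ≠ 0) : ∃ ζ : Qb, IsPrimitiveRoot ζ m := by
  have : NeZero m := ⟨hm⟩
  have : NeZero ((m : ℕ) : Qb) := ⟨Nat.cast_ne_zero.mpr hm⟩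
  exact HasEnoughRootsOfUnity.exists_primitiveRoot Qb m

/-- Galois elements commute on roots of unity. -/
theorem h81_comm_root (m : ℕ) (hm : m ≠ 0) (a b : Qb ≃ₐ[ℚ] Qb) {ν : Qb} (hν : ν ^ m = 1) :
    a (b ν) = b (a ν) := by
  have : NeZero m := ⟨hm⟩
  obtain ⟨ζ, hζ⟩ := h81_exists_primitiveRoot m hm
  obtain ⟨i, -, rfl⟩ := hζ.eq_pow_of_pow_eq_one hν
  obtain ⟨ja, -, hja⟩ := hζ.eq_pow_of_pow_eq_one (h81_map_root m a hζ.pow_eq_one)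
  obtain ⟨jb, -, hjb⟩ := hζ.eq_pow_of_pow_eq_one (h81_map_root m b hζ.pow_eq_one)
  rw [map_pow, map_pow, map_pow, map_pow, ← hja, ← hjb, map_pow, map_pow, ← hja, ← hjb,
    ← pow_mul, ← pow_mul, ← pow_mul, ← pow_mul]
  congr 1
  ring

theorem h81_commutator_mem (m : ℕ) (hm : m ≠ 0) (a b : Qb ≃ₐ[ℚ] Qb) :
    a * b * a⁻¹ * b⁻¹ ∈ h81_cycFix m := by
  intro μ hμ
  have h1 : (a * b * a⁻¹ * b⁻¹) μ = a (b (a⁻¹ (b⁻¹ μ))) := rfl
  have hν : (a⁻¹ (b⁻¹ μ)) ^ m = 1 := h81_map_root m a⁻¹ (h81_map_root m b⁻¹ hμ)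
  rw [h1, h81_comm_root m hm a b hν]
  have h2 : a (a⁻¹ (b⁻¹ μ)) = b⁻¹ μ := by
    rw [AlgEquiv.aut_inv, AlgEquiv.apply_symm_apply]
  rw [h2, AlgEquiv.aut_inv, AlgEquiv.apply_symm_apply]

/-! ### G8-CORE -/

section Core

variable {k : Type*} [Field k]

/-- **G8-CORE** (all places, all Frobenius lifts). -/
theorem h81_tw_cheb [Finite k] {p : ℕ} [Fact p.Prime] [CharP k p] (hp2 : p ≠ 2)
    (K : Type*) [Field K] [Algebra k K] [IsAlgClosed K]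
    (ρ : (Qb ≃ₐ[ℚ] Qb) →* GL (Fin 2) k)
    (hlev : ∃ L : IntermediateField ℚ Qb, FiniteDimensional ℚ L ∧
      ∀ σ : Qb ≃ₐ[ℚ] Qb, (∀ x ∈ L, σ x = x) → ρ σ = 1)
    (hcyc : ∀ (σ : Qb ≃ₐ[ℚ] Qb) (a : ℕ), (∀ μ : Qb, μ ^ p = 1 → σ μ = μ ^ a) →
      ((Matrix.GeneralLinearGroup.det (ρ σ) : kˣ) : k) = (a : k))
    (hTW : ∀ H : Subgroup (Qb ≃ₐ[ℚ] Qb), H.index = 2 → h66_NoLine ρ K H)
    (hdetρ : ∀ z : ZMod p, z ≠ 0 → ∃ γ : Qb ≃ₐ[ℚ] Qb,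
      ((Matrix.GeneralLinearGroup.det (ρ γ) : kˣ) : k) = ZMod.castHom (dvd_refl p) k z)
    (ψ : (Qb ≃ₐ[ℚ] Qb) → Matrix (Fin 2) (Fin 2) k) (hψ : h66_IsCocycle ρ ψ)
    (hψlev : ∃ L : IntermediateField ℚ Qb, FiniteDimensional ℚ L ∧
      ∀ σ : Qb ≃ₐ[ℚ] Qb, (∀ x ∈ L, σ x = x) → ψ σ = 0)
    (hnc : ¬ h66_IsCobdry ρ ψ) (n : ℕ) (B : Finset ℕ) :
    ∃ q : ℕ, q.Prime ∧ q ∉ B ∧ p ^ (n + 1) ∣ q - 1 ∧
      ∀ A : ValuationSubring Qb, A.LiesOverPrime q → ∀ φ : Qb ≃ₐ[ℚ] Qb, A.IsFrobeniusAt φ q →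
        (ρ φ : Matrix (Fin 2) (Fin 2) k).trace ^ 2 ≠ 4 * (ρ φ : Matrix (Fin 2) (Fin 2) k).det ∧
        ∀ w : Matrix (Fin 2) (Fin 2) k, w.trace = 0 → ψ φ ≠ h66_act (ρ φ) w - w := by
  have hp : p.Prime := Fact.out
  set m : ℕ := p ^ (n + 1) with hm
  have hm0 : m ≠ 0 := pow_ne_zero _ hp.ne_zero
  have : NeZero m := ⟨hm0⟩
  obtain ⟨ζ, hζ⟩ := h81_exists_primitiveRoot m hm0
  -- the group theory (G7) on `N := h81_cycFix m`
  have hdetN : ∀ σ ∈ h81_cycFix m, Matrix.GeneralLinearGroup.det (ρ σ) = 1 := by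
    intro σ hσ
    have h1 := hcyc σ 1 (fun μ hμ => by
      rw [pow_one]
      apply hσ
      rw [hm, pow_succ', pow_mul, hμ, one_pow])
    apply Units.ext
    rw [h1]
    simp
  obtain ⟨σ, hσN, hreg, -, hσψ⟩ := h66_tw_final hp2 K ρ hTW h30_exists_index_two hdetρ
    (h81_cycFix m) (h81_commutator_mem m hm0) hdetN ψ hψ hnc
  -- the level
  obtain ⟨L₁, hL₁, hρL⟩ := hlev
  obtain ⟨L₂, hL₂, hψL⟩ := hψlev
  obtain ⟨L, hLfin, hLgal, hL₁L, hL₂L, hζL⟩ := h65_exists_galois_level L₁ L₂ hL₁ hL₂ ζ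
  -- the property
  let Φ : (Qb ≃ₐ[ℚ] Qb) → Prop := fun φ => φ ζ = ζ ∧
    (ρ φ : Matrix (Fin 2) (Fin 2) k).trace ^ 2 ≠ 4 * (ρ φ : Matrix (Fin 2) (Fin 2) k).det ∧
    ∀ w : Matrix (Fin 2) (Fin 2) k, w.trace = 0 → ψ φ ≠ h66_act (ρ φ) w - w
  have hΦσ : Φ σ := by
    refine ⟨hσN ζ hζ.pow_eq_one, ?_, hσψ⟩
    have hd : (ρ σ : Matrix (Fin 2) (Fin 2) k).det = 1 := by
      have := congrArg (fun u : kˣ => (u : k)) (hdetN σ hσN)
      simpa using this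
    rw [hd, mul_one]
    exact hreg
  have hΦ : ∀ (g φ τ : Qb ≃ₐ[ℚ] Qb) (a b : ℕ), Φ g → (∀ x ∈ L, φ x = (τ * g ^ a * τ⁻¹) x) →
      (∀ x ∈ L, (φ ^ b) x = (τ * g * τ⁻¹) x) → Φ φ := by
    intro g φ τ a b hg h1 h2
    obtain ⟨hgζ, hgreg, hgψ⟩ := hg
    -- `u := (τ g τ⁻¹)⁻¹ φ ^ b` is trivial on `L`
    set u : Qb ≃ₐ[ℚ] Qb := (τ * g * τ⁻¹)⁻¹ * φ ^ b with hu
    have huL : ∀ x ∈ L, u x = x := by
      intro x hx
      have h3 : u x = (τ * g * τ⁻¹)⁻¹ ((φ ^ b) x) := rfl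
      rw [h3, h2 x hx, AlgEquiv.aut_inv, AlgEquiv.symm_apply_apply]
    have hρu : ρ u = 1 := hρL u (fun x hx => huL x (hL₁L hx))
    have hψu : ψ u = 0 := hψL u (fun x hx => huL x (hL₂L hx))
    have hφb : φ ^ b = (τ * g * τ⁻¹) * u := by
      rw [hu, mul_inv_cancel_left]
    have hρφb : ρ φ ^ b = ρ τ * ρ g * (ρ τ)⁻¹ := by
      rw [← map_pow, hφb, map_mul, hρu, mul_one, map_mul, map_mul, map_inv]
    refine ⟨?_, ?_, ?_⟩
    · -- roots of unity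
      have hga : ∀ j : ℕ, (g ^ j) ζ = ζ := by
        intro j
        induction j with
        | zero => rfl
        | succ j ih =>
          rw [pow_succ, AlgEquiv.mul_apply, hgζ, ih]
      obtain ⟨i, -, hi⟩ := hζ.eq_pow_of_pow_eq_one (h81_map_root m τ⁻¹ hζ.pow_eq_one)
      have h3 : (τ * g ^ a * τ⁻¹) ζ = τ ((g ^ a) (τ⁻¹ ζ)) := rfl
      rw [h1 ζ hζL, h3, ← hi, map_pow, hga a, hi, AlgEquiv.aut_inv, AlgEquiv.apply_symm_apply]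
    · -- regularity
      intro hcon
      apply hgreg
      have h3 := h81_disc_pow (ρ φ : Matrix (Fin 2) (Fin 2) k) b hcon
      have h4 : ((ρ φ : Matrix (Fin 2) (Fin 2) k)) ^ b =
          ((ρ τ * ρ g * (ρ τ)⁻¹ : GL (Fin 2) k) : Matrix (Fin 2) (Fin 2) k) := by
        rw [← hρφb, Units.val_pow_eq_pow_val]
      rw [h4, h81_trace_conj, h81_det_conj] at h3
      exact h3
    · -- the cocycle
      intro w hw hcon
      have h3 := h81_cocycle_pow hψ φ w hcon b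
      have h4 : ψ (φ ^ b) = ψ (τ * g * τ⁻¹) := by
        rw [hφb, hψ.2, hψu, h66_act_zero, add_zero]
      have h5 : ρ (φ ^ b) = ρ (τ * g * τ⁻¹) := by
        rw [hφb, map_mul, hρu, mul_one]
      rw [h4, h5] at h3
      obtain ⟨Y, hY, hYg⟩ := h81_cocycle_of_conj hψ τ g w hw h3
      exact hgψ Y hY hYg
  have := hLfin
  have := hLgal
  obtain ⟨q, hq, hqB, hall⟩ := h81_cheb_prop L Φ hΦ σ hΦσ (insert p B)
  have hqp : q ≠ p := fun h => hqB (h ▸ Finset.mem_insert_self p B)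
  have hqB' : q ∉ B := fun h => hqB (Finset.mem_insert_of_mem h)
  refine ⟨q, hq, hqB', ?_, fun A hA φ hφ => (hall A hA φ hφ).2⟩
  obtain ⟨v, φ₀, hv, hφ₀⟩ := exists_isFrobeniusAt q hq
  have hfix := (hall v hv φ₀ hφ₀).1
  have hn : ¬ q ∣ m := by
    intro hdvd
    have := hq.dvd_of_dvd_pow hdvd
    exact hqp ((Nat.prime_dvd_prime_iff_eq hq hp).mp this)
  exact h14_dvd_sub_one_of_frob_fix v q m hq hv hn φ₀ hφ₀ ζ hζ hfix

/-- **G8-CORE**, one Frobenius pair (the shape of the W4 row). -/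
theorem h81_tw_cheb_one [Finite k] {p : ℕ} [Fact p.Prime] [CharP k p] (hp2 : p ≠ 2)
    (K : Type*) [Field K] [Algebra k K] [IsAlgClosed K]
    (ρ : (Qb ≃ₐ[ℚ] Qb) →* GL (Fin 2) k)
    (hlev : ∃ L : IntermediateField ℚ Qb, FiniteDimensional ℚ L ∧
      ∀ σ : Qb ≃ₐ[ℚ] Qb, (∀ x ∈ L, σ x = x) → ρ σ = 1)
    (hcyc : ∀ (σ : Qb ≃ₐ[ℚ] Qb) (a : ℕ), (∀ μ : Qb, μ ^ p = 1 → σ μ = μ ^ a) →
      ((Matrix.GeneralLinearGroup.det (ρ σ) : kˣ) : k) = (a : k))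
    (hTW : ∀ H : Subgroup (Qb ≃ₐ[ℚ] Qb), H.index = 2 → h66_NoLine ρ K H)
    (hdetρ : ∀ z : ZMod p, z ≠ 0 → ∃ γ : Qb ≃ₐ[ℚ] Qb,
      ((Matrix.GeneralLinearGroup.det (ρ γ) : kˣ) : k) = ZMod.castHom (dvd_refl p) k z)
    (ψ : (Qb ≃ₐ[ℚ] Qb) → Matrix (Fin 2) (Fin 2) k) (hψ : h66_IsCocycle ρ ψ)
    (hψlev : ∃ L : IntermediateField ℚ Qb, FiniteDimensional ℚ L ∧
      ∀ σ : Qb ≃ₐ[ℚ] Qb, (∀ x ∈ L, σ x = x) → ψ σ = 0)
    (hnc : ¬ h66_IsCobdry ρ ψ) (n : ℕ) (B : Finset ℕ) :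
    ∃ (q : ℕ) (A : ValuationSubring Qb) (φ : Qb ≃ₐ[ℚ] Qb), q.Prime ∧ q ∉ B ∧
      p ^ (n + 1) ∣ q - 1 ∧ A.LiesOverPrime q ∧ A.IsFrobeniusAt φ q ∧
      (ρ φ : Matrix (Fin 2) (Fin 2) k).trace ^ 2 ≠ 4 * (ρ φ : Matrix (Fin 2) (Fin 2) k).det ∧
      ∀ w : Matrix (Fin 2) (Fin 2) k, w.trace = 0 → ψ φ ≠ h66_act (ρ φ) w - w := by
  obtain ⟨q, hq, hqB, hdvd, hall⟩ :=
    h81_tw_cheb hp2 K ρ hlev hcyc hTW hdetρ ψ hψ hψlev hnc n B
  obtain ⟨v, φ₀, hv, hφ₀⟩ := exists_isFrobeniusAt q hq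
  exact ⟨q, v, φ₀, hq, hqB, hdvd, hv, hφ₀, hall v hv φ₀ hφ₀⟩

end Core

end Fermat.Agent.S56
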