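/-
S56 / W3 / E-IRR row EI-GS2 (helper84): a generator of the tame inertia of a tame stable `M`.

`h43_tame_gen` is the row statement VERBATIM (skeleton `h43_EIrrSkel.lean`).  Tools:

* `h84_Rt p ξ` : `ξ` is a root of unity of order prime to `p`;
* `h84_rt_eq_one`, `h84_rt_unique` : such roots of unity are separated modulo the maximal ideal;
* `h84_tame_char` : the tame character `X : J_M → μ'(M)`, `g π ≡ X g · π`;
* `h84_tame_cyclic` : its image is cyclic of order `#(J-conjugates of π)`;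
* `h84_exists_near_nat` : `x^p = x`, `‖x‖ ≤ 1` ⟹ `x ≡ a` for some natural number `a`
  (`∏_{a<p} (X - a) ≡ X^p - X mod p`).
-/
import Mathlib
import Fermat.Agent.S56.h43_EIDefs
import Fermat.Agent.S56.h84_IrrLevel
import Fermat.Agent.S56.h19_ConjJ
import Fermat.Agent.S56.h49_K0Basic
import Fermat.Agent.S56.h49_K0Res
import Fermat.Agent.S56.h86_IrrAsm

set_option autoImplicit false

namespace Fermat.Agent.S56

variable (p : ℕ) [Fact p.Prime]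

local notation "Ω" => PadicAlgCl p
local notation "Fld" => IntermediateField ℚ_[p] (PadicAlgCl p)

/-! ## roots of unity of order prime to `p` -/

/-- `ξ` is a root of unity of order prime to `p`. -/
def h84_Rt (ξ : Ω) : Prop := ∃ n : ℕ, 0 < n ∧ ¬ p ∣ n ∧ ξ ^ n = 1

theorem h84_rt_one : h84_Rt p (1 : Ω) := ⟨1, one_pos, (Fact.out : p.Prime).one_lt.ne' ∘ Nat.dvd_one.1, one_pow 1⟩

theorem h84_rt_norm {ξ : Ω} (h : h84_Rt p ξ) : ‖ξ‖ = 1 := by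
  obtain ⟨n, hn, -, hξ⟩ := h
  have h1 : ‖ξ‖ ^ n = 1 := by rw [← norm_pow, hξ, norm_one]
  exact (pow_eq_one_iff_of_nonneg (norm_nonneg _) hn.ne').1 h1

theorem h84_rt_ne_zero {ξ : Ω} (h : h84_Rt p ξ) : ξ ≠ 0 := by
  intro h0
  have := h84_rt_norm p h
  rw [h0, norm_zero] at this
  exact zero_ne_one this

theorem h84_rt_mul {ξ ξ' : Ω} (h : h84_Rt p ξ) (h' : h84_Rt p ξ') : h84_Rt p (ξ * ξ') := by
  obtain ⟨n, hn, hpn, hξ⟩ := h
  obtain ⟨n', hn', hpn', hξ'⟩ := h'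
  refine ⟨n * n', Nat.mul_pos hn hn', ?_, ?_⟩
  · intro hd
    rcases (Fact.out : p.Prime).dvd_mul.1 hd with hd | hd
    · exact hpn hd
    · exact hpn' hd
  · rw [mul_pow, pow_mul, hξ, one_pow, mul_comm n n', pow_mul, hξ', one_pow, one_mul]

theorem h84_rt_pow {ξ : Ω} (h : h84_Rt p ξ) (j : ℕ) : h84_Rt p (ξ ^ j) := by
  obtain ⟨n, hn, hpn, hξ⟩ := h
  exact ⟨n, hn, hpn, by rw [← pow_mul, mul_comm, pow_mul, hξ, one_pow]⟩

theorem h84_rt_inv {ξ : Ω} (h : h84_Rt p ξ) : h84_Rt p ξ⁻¹ := by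
  obtain ⟨n, hn, hpn, hξ⟩ := h
  exact ⟨n, hn, hpn, by rw [inv_pow, hξ, inv_one]⟩

theorem h84_rt_map {ξ : Ω} (h : h84_Rt p ξ) (g : h78_G p) : h84_Rt p (g ξ) := by
  obtain ⟨n, hn, hpn, hξ⟩ := h
  exact ⟨n, hn, hpn, by rw [← map_pow, hξ, map_one]⟩

theorem h84_norm_natCast_of_not_dvd (n : ℕ) (hpn : ¬ p ∣ n) : ‖(n : Ω)‖ = 1 := by
  rw [h49_norm_natCast, Padic.norm_natCast_eq_one_iff]
  exact ((Fact.out : p.Prime).coprime_iff_not_dvd).2 hpn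

/-- a root of unity of order prime to `p` which is `≡ 1` is `1`. -/
theorem h84_rt_eq_one {ξ : Ω} (h : h84_Rt p ξ) (h1 : ‖ξ - 1‖ < 1) : ξ = 1 := by
  obtain ⟨n, hn, hpn, hξ⟩ := h
  have h2 := (h84_pow_sub_one p (x := ξ) (r := ‖ξ - 1‖) h1.le le_rfl n).1
  rw [hξ, sub_self, zero_sub, norm_neg, norm_mul, h84_norm_natCast_of_not_dvd p n hpn,
    one_mul] at h2
  have h3 : 0 ≤ ‖ξ - 1‖ := norm_nonneg _
  have h4 : ‖ξ - 1‖ = 0 := by nlinarith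
  exact sub_eq_zero.1 (norm_eq_zero.1 h4)

/-- two roots of unity of order prime to `p` which are congruent are equal. -/
theorem h84_rt_unique {ξ ξ' : Ω} (h : h84_Rt p ξ) (h' : h84_Rt p ξ') (h1 : ‖ξ - ξ'‖ < 1) :
    ξ = ξ' := by
  have h0 : ξ' ≠ 0 := h84_rt_ne_zero p h'
  have h2 : ξ * ξ'⁻¹ = 1 := by
    refine h84_rt_eq_one p (h84_rt_mul p h (h84_rt_inv p h')) ?_
    have e : ξ * ξ'⁻¹ - 1 = (ξ - ξ') * ξ'⁻¹ := by field_simp
    rw [e, norm_mul, norm_inv, h84_rt_norm p h', inv_one, mul_one]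
    exact h1
  field_simp at h2
  exact h2

/-- uniqueness of the leading root of unity. -/
theorem h84_lead_unique {π y ξ ξ' : Ω} (hπ0 : π ≠ 0) (h : h84_Rt p ξ) (h' : h84_Rt p ξ')
    (h1 : ‖y - ξ * π‖ < ‖π‖) (h2 : ‖y - ξ' * π‖ < ‖π‖) : ξ = ξ' := by
  refine h84_rt_unique p h h' ?_
  have hπpos : 0 < ‖π‖ := norm_pos_iff.2 hπ0
  have e : (ξ - ξ') * π = (y - ξ' * π) - (y - ξ * π) := by ring
  have h3 : ‖(ξ - ξ') * π‖ < ‖π‖ := by
    rw [e]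
    exact lt_of_le_of_lt (h5_norm_sub_le_max p _ _) (max_lt h2 h1)
  rw [norm_mul] at h3
  by_contra hcon
  rw [not_lt] at hcon
  have : ‖π‖ ≤ ‖ξ - ξ'‖ * ‖π‖ := le_mul_of_one_le_left hπpos.le hcon
  linarith

/-! ## the tame character -/

/-- the tame character `X : J_M → μ'(M)` with `g π ≡ X g · π`. -/
theorem h84_tame_char (M : Fld) (hM : h78_Stable p M) (π : Ω) (hπ : h78_IsUnif p M π)
    (hP : ∀ g ∈ h78_P p M π, ∀ z ∈ M, g z = z)
    (hteich : ∀ x ∈ M, ‖x‖ = 1 → ∃ ξ ∈ M, h84_Rt p ξ ∧ ‖x - ξ‖ < 1) :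
    ∃ X : h78_G p → Ω,
      (∀ g ∈ h78_J p M, X g ∈ M ∧ h84_Rt p (X g) ∧ ‖g π - X g * π‖ < ‖π‖) ∧
      (∀ g ∈ h78_J p M, ∀ ξ : Ω, h84_Rt p ξ → ‖g π - ξ * π‖ < ‖π‖ → X g = ξ) ∧
      (∀ g ∈ h78_J p M, ∀ h ∈ h78_J p M, X (g * h) = X g * X h) ∧
      X 1 = 1 ∧
      (∀ g ∈ h78_J p M, ∀ h ∈ h78_J p M, X g = X h → ∀ z ∈ M, g z = h z) := by
  classical
  obtain ⟨hπM, hπ0, hπ1, hπval⟩ := hπ
  have hπpos : 0 < ‖π‖ := norm_pos_iff.2 hπ0
  have hex : ∀ g : h78_G p, ∃ ξ : Ω, g ∈ h78_J p M →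
      (ξ ∈ M ∧ h84_Rt p ξ ∧ ‖g π - ξ * π‖ < ‖π‖) := by
    intro g
    by_cases hg : g ∈ h78_J p M
    · have hx : g π / π ∈ M := div_mem (hM g π hπM) hπM
      have hx1 : ‖g π / π‖ = 1 := by
        rw [norm_div, h78_norm_aut, div_self hπpos.ne']
      obtain ⟨ξ, hξM, hξ, hξ1⟩ := hteich _ hx hx1
      refine ⟨ξ, fun _ => ⟨hξM, hξ, ?_⟩⟩
      have e : g π - ξ * π = (g π / π - ξ) * π := by field_simp
      rw [e, norm_mul]
      calc ‖g π / π - ξ‖ * ‖π‖ < 1 * ‖π‖ := mul_lt_mul_of_pos_right hξ1 hπpos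
        _ = ‖π‖ := one_mul _
    · exact ⟨1, fun h => absurd h hg⟩
  choose X hX using hex
  have hXu : ∀ g ∈ h78_J p M, ∀ ξ : Ω, h84_Rt p ξ → ‖g π - ξ * π‖ < ‖π‖ → X g = ξ :=
    fun g hg ξ hξ h => h84_lead_unique p hπ0 (hX g hg).2.1 hξ (hX g hg).2.2 h
  have hfix : ∀ g ∈ h78_J p M, ∀ ξ ∈ M, h84_Rt p ξ → g ξ = ξ := fun g hg ξ hξM hξ =>
    h49_J_fix p M g hg ξ (IntermediateField.subset_adjoin _ _ ⟨hξM, hξ⟩)
  have hXmul : ∀ g ∈ h78_J p M, ∀ h ∈ h78_J p M, X (g * h) = X g * X h := by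
    intro g hg h hh
    refine hXu (g * h) (Subgroup.mul_mem _ hg hh) _
      (h84_rt_mul p (hX g hg).2.1 (hX h hh).2.1) ?_
    obtain ⟨hgM, hgR, hg1⟩ := hX g hg
    obtain ⟨hhM, hhR, hh1⟩ := hX h hh
    have e : (g * h) π - X g * X h * π
        = g (h π - X h * π) + X h * (g π - X g * π) := by
      rw [AlgEquiv.mul_apply, map_sub, map_mul, hfix g hg (X h) hhM hhR]
      ring
    rw [e]
    refine lt_of_le_of_lt (IsUltrametricDist.norm_add_le_max _ _) (max_lt ?_ ?_)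
    · rw [h78_norm_aut]; exact hh1
    · rw [norm_mul, h84_rt_norm p hhR, one_mul]; exact hg1
  have hX1 : X 1 = 1 := by
    refine hXu 1 (Subgroup.one_mem _) 1 (h84_rt_one p) ?_
    simpa using hπpos
  refine ⟨X, hX, hXu, hXmul, hX1, ?_⟩
  intro g hg h hh hgh z hz
  have hgi : g⁻¹ ∈ h78_J p M := Subgroup.inv_mem _ hg
  have hc : g⁻¹ * h ∈ h78_J p M := Subgroup.mul_mem _ hgi hh
  have h1 : X (g⁻¹ * h) = 1 := by
    rw [hXmul _ hgi _ hh, ← hgh, ← hXmul _ hgi _ hg, inv_mul_cancel, hX1]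
  have h2 : ‖(g⁻¹ * h) π - π‖ < ‖π‖ := by
    have := (hX _ hc).2.2
    rwa [h1, one_mul] at this
  have h3 : g⁻¹ * h ∈ h78_P p M π := ⟨hc, Or.inr h2⟩
  have h4 := hP _ h3 z hz
  have h5 : g ((g⁻¹ * h) z) = h z := by
    rw [← AlgEquiv.mul_apply, mul_inv_cancel_left]
  rw [← h5, h4]

/-- the image of the tame character is cyclic of order `#(J-conjugates of π)`. -/
theorem h84_tame_cyclic (M : Fld) (π : Ω) (X : h78_G p → Ω)
    (hX : ∀ g ∈ h78_J p M, h84_Rt p (X g) ∧ ‖g π - X g * π‖ < ‖π‖)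
    (hXu : ∀ g ∈ h78_J p M, ∀ ξ : Ω, h84_Rt p ξ → ‖g π - ξ * π‖ < ‖π‖ → X g = ξ)
    (hXmul : ∀ g ∈ h78_J p M, ∀ h ∈ h78_J p M, X (g * h) = X g * X h)
    (hX1 : X 1 = 1)
    (hXinj : ∀ g ∈ h78_J p M, ∀ h ∈ h78_J p M, X g = X h → g π = h π) :
    ∃ τ ∈ h78_J p M, ∀ m : ℕ, X τ ^ m = 1 ↔ (h78_conj p (h78_J p M) π).card ∣ m := by
  classical
  have hne : ∀ g : ↥(h78_J p M), X (g : h78_G p) ≠ 0 := fun g =>
    h84_rt_ne_zero p (hX g g.2).1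
  let Ξ : ↥(h78_J p M) →* Ωˣ :=
    { toFun := fun g => Units.mk0 (X (g : h78_G p)) (hne g)
      map_one' := Units.ext (by simpa using hX1)
      map_mul' := fun g h => Units.ext (by simpa using hXmul g g.2 h h.2) }
  have hΞ : ∀ g : ↥(h78_J p M), ((Ξ g : Ωˣ) : Ω) = X (g : h78_G p) := fun g => rfl
  have hwd : ∀ g ∈ h78_J p M, ∀ h ∈ h78_J p M, g π = h π → X g = X h := by
    intro g hg h hh hgh
    refine hXu g hg (X h) (hX h hh).1 ?_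
    rw [hgh]; exact (hX h hh).2
  have hrep : ∀ y : Ω, ∃ g : ↥(h78_J p M), y ∈ h78_conj p (h78_J p M) π →
      (g : h78_G p) π = y := by
    intro y
    by_cases hy : y ∈ h78_conj p (h78_J p M) π
    · obtain ⟨g, hg, hgy⟩ := (h19_mem_conj p (h78_J p M) π y).1 hy
      exact ⟨⟨g, hg⟩, fun _ => hgy⟩
    · exact ⟨1, fun h => absurd h hy⟩
  choose rep hrep using hrep
  have himage : (Ξ.range : Set Ωˣ)
      = (((h78_conj p (h78_J p M) π).image (fun y => Ξ (rep y)) : Finset Ωˣ) : Set Ωˣ) := by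
    ext c
    simp only [SetLike.mem_coe, MonoidHom.mem_range, Finset.coe_image, Set.mem_image]
    constructor
    · rintro ⟨g, rfl⟩
      have hy : (g : h78_G p) π ∈ h78_conj p (h78_J p M) π :=
        (h19_mem_conj p (h78_J p M) π _).2 ⟨g, g.2, rfl⟩
      refine ⟨(g : h78_G p) π, hy, ?_⟩
      apply Units.ext
      rw [hΞ, hΞ]
      exact hwd _ (rep _).2 _ g.2 (hrep _ hy)
    · rintro ⟨y, _, rfl⟩
      exact ⟨rep y, rfl⟩
  have hinjS : Set.InjOn (fun y => Ξ (rep y)) ((h78_conj p (h78_J p M) π : Finset Ω) : Set Ω) := by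
    intro y hy y' hy' h
    have h1 : X (rep y : h78_G p) = X (rep y' : h78_G p) := by
      have := congrArg (fun c : Ωˣ => (c : Ω)) h
      simpa [hΞ] using this
    have h2 := hXinj _ (rep y).2 _ (rep y').2 h1
    rw [hrep y hy, hrep y' hy'] at h2
    exact h2
  have hfin : Finite ↥Ξ.range := by
    have : (Ξ.range : Set Ωˣ).Finite := by rw [himage]; exact Finset.finite_toSet _
    exact this.to_subtype
  have hcardC : Nat.card ↥Ξ.range = (h78_conj p (h78_J p M) π).card := by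
    rw [← Finset.card_image_of_injOn hinjS, ← Set.ncard_coe_finset, ← himage]
    exact Nat.card_coe_set_eq _
  obtain ⟨c₀, hc₀⟩ := IsCyclic.exists_generator (α := ↥Ξ.range)
  obtain ⟨τ, hτ⟩ := c₀.2
  have hord : orderOf (c₀ : Ωˣ) = (h78_conj p (h78_J p M) π).card := by
    rw [Subgroup.orderOf_coe, orderOf_eq_card_of_forall_mem_zpowers hc₀, hcardC]
  refine ⟨(τ : h78_G p), τ.2, fun m => ?_⟩
  rw [← hord, orderOf_dvd_iff_pow_eq_one, ← hτ, ← Units.val_inj, Units.val_pow_eq_pow_val, hΞ,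
    Units.val_one]

/-! ## `∏_{a<p} (X - a) ≡ X^p - X mod p` -/

theorem h84_norm_intCast_le (n : ℤ) : ‖(n : Ω)‖ ≤ 1 :=
  IsUltrametricDist.norm_intCast_le_one Ω n

theorem h84_prod_range_sub (x : Ω) (hx : ‖x‖ ≤ 1) :
    ‖(∏ a ∈ Finset.range p, (x - (a : Ω))) - (x ^ p - x)‖ ≤ (p : ℝ)⁻¹ := by
  classical
  have hp : p.Prime := Fact.out
  set P : Polynomial ℤ := (∏ a ∈ Finset.range p, (Polynomial.X - Polynomial.C (a : ℤ)))
    - (Polynomial.X ^ p - Polynomial.X) with hPdef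
  have h2 : ∏ a : ZMod p, (Polynomial.X - Polynomial.C a)
      = (Polynomial.X ^ p - Polynomial.X : Polynomial (ZMod p)) := by
    have hroots := FiniteField.roots_X_pow_card_sub_X (ZMod p)
    rw [ZMod.card] at hroots
    have hmonic : (Polynomial.X ^ p - Polynomial.X : Polynomial (ZMod p)).Monic := by
      apply Polynomial.monic_X_pow_sub
      rw [Polynomial.degree_X]
      exact_mod_cast hp.one_lt
    have hcard : Multiset.card (Polynomial.X ^ p - Polynomial.X : Polynomial (ZMod p)).roots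
        = (Polynomial.X ^ p - Polynomial.X : Polynomial (ZMod p)).natDegree := by
      rw [hroots, FiniteField.X_pow_card_sub_X_natDegree_eq (ZMod p) hp.one_lt]
      simp [ZMod.card]
    have h3 := Polynomial.prod_multiset_X_sub_C_of_monic_of_roots_card_eq hmonic hcard
    rw [hroots] at h3
    exact h3
  have hmap : P.map (Int.castRingHom (ZMod p)) = 0 := by
    have h1 : ∏ a ∈ Finset.range p,
        (Polynomial.X - Polynomial.C (a : ℤ)).map (Int.castRingHom (ZMod p))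
          = ∏ a : ZMod p, (Polynomial.X - Polynomial.C a) := by
      refine Finset.prod_bij (fun a _ => (a : ZMod p)) (fun _ _ => Finset.mem_univ _) ?_ ?_ ?_
      · intro a ha b hb hab
        rw [Finset.mem_range] at ha hb
        have := (ZMod.natCast_eq_natCast_iff' a b p).1 hab
        rwa [Nat.mod_eq_of_lt ha, Nat.mod_eq_of_lt hb] at this
      · intro c _
        exact ⟨c.val, Finset.mem_range.2 (ZMod.val_lt c), ZMod.natCast_zmod_val c⟩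
      · intro a _
        simp
    rw [hPdef, Polynomial.map_sub, Polynomial.map_sub, Polynomial.map_pow, Polynomial.map_X,
      Polynomial.map_prod, h1, h2, sub_self]
  have hdvd : ∀ n : ℕ, (p : ℤ) ∣ P.coeff n := by
    intro n
    have h := congrArg (fun Q : Polynomial (ZMod p) => Q.coeff n) hmap
    simp only [Polynomial.coeff_map, Polynomial.coeff_zero] at h
    exact (ZMod.intCast_zmod_eq_zero_iff_dvd _ p).1 h
  have haeval : Polynomial.aeval x P = (∏ a ∈ Finset.range p, (x - (a : Ω))) - (x ^ p - x) := by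
    simp [hPdef, map_prod]
  rw [← haeval, Polynomial.aeval_eq_sum_range]
  refine IsUltrametricDist.norm_sum_le_of_forall_le_of_nonneg (inv_pos.2 (h5_p_pos p)).le ?_
  intro i _
  obtain ⟨k, hk⟩ := hdvd i
  rw [hk, zsmul_eq_mul, norm_mul, norm_pow]
  push_cast
  rw [norm_mul, h5_norm_p]
  have h1 : ‖(k : Ω)‖ ≤ 1 := h84_norm_intCast_le p k
  have h2 : ‖x‖ ^ i ≤ 1 := pow_le_one₀ (norm_nonneg _) hx
  have hpi : 0 ≤ (p : ℝ)⁻¹ := (inv_pos.2 (h5_p_pos p)).le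
  calc (p : ℝ)⁻¹ * ‖(k : Ω)‖ * ‖x‖ ^ i ≤ (p : ℝ)⁻¹ * 1 * 1 := by
        apply mul_le_mul (mul_le_mul_of_nonneg_left h1 hpi) h2 (pow_nonneg (norm_nonneg _) _)
        positivity
    _ = (p : ℝ)⁻¹ := by ring

/-- a root of `X^p - X` in the unit ball is congruent to a natural number. -/
theorem h84_exists_near_nat (x : Ω) (hx : ‖x‖ ≤ 1) (hxp : x ^ p = x) :
    ∃ a : ℕ, ‖x - (a : Ω)‖ < 1 := by
  by_contra hcon
  push Not at hcon
  have h := h84_prod_range_sub p x hx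
  rw [hxp, sub_self, sub_zero, norm_prod] at h
  have h1 : (1 : ℝ) ≤ ∏ a ∈ Finset.range p, ‖x - (a : Ω)‖ := by
    exact Finset.one_le_prod (fun a _ => hcon a)
  have := h5_inv_p_lt_one p
  linarith

/-! ## integer powers of `ζ` -/

theorem h84_zpow_sub_one (ζ : Ω) (hζp : ζ ^ p = 1) (hζ1 : ζ ≠ 1) (n : ℤ) :
    ‖ζ ^ n - 1 - (n : Ω) * (ζ - 1)‖ < ‖ζ - 1‖ := by
  have hp : p.Prime := Fact.out
  have hr1 : ‖ζ - 1‖ < 1 := h5_root_unity_lt_one p ζ hζp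
  have hr0 : 0 < ‖ζ - 1‖ := norm_pos_iff.2 (sub_ne_zero.2 hζ1)
  have hζ0 : ζ ≠ 0 := by
    intro h0
    rw [h0, zero_pow hp.ne_zero] at hζp
    exact zero_ne_one hζp
  have hpos : (0 : ℤ) < (p : ℤ) := by exact_mod_cast hp.pos
  obtain ⟨m, hm⟩ : ∃ m : ℕ, (m : ℤ) = n % (p : ℤ) :=
    ⟨(n % (p : ℤ)).toNat, Int.toNat_of_nonneg (Int.emod_nonneg n hpos.ne')⟩
  have hn : n = (p : ℤ) * (n / (p : ℤ)) + (m : ℤ) := by
    rw [hm]; exact (Int.mul_ediv_add_emod n p).symm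
  have hζn : ζ ^ n = ζ ^ m := by
    conv_lhs => rw [hn]
    rw [zpow_add₀ hζ0, zpow_mul, zpow_natCast, hζp, one_zpow, one_mul, zpow_natCast]
  have hcast : (n : Ω) = (p : Ω) * ((n / (p : ℤ) : ℤ) : Ω) + (m : Ω) := by
    conv_lhs => rw [hn]
    push_cast
    ring
  have e : ζ ^ n - 1 - (n : Ω) * (ζ - 1)
      = (ζ ^ m - 1 - (m : Ω) * (ζ - 1)) - (p : Ω) * ((n / (p : ℤ) : ℤ) : Ω) * (ζ - 1) := by
    rw [hζn, hcast]; ring
  rw [e]
  refine lt_of_le_of_lt (h5_norm_sub_le_max p _ _) (max_lt ?_ ?_)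
  · have h1 := (h84_pow_sub_one p (x := ζ) (r := ‖ζ - 1‖) hr1.le le_rfl m).1
    refine lt_of_le_of_lt h1 ?_
    rw [sq]
    calc ‖ζ - 1‖ * ‖ζ - 1‖ < 1 * ‖ζ - 1‖ := mul_lt_mul_of_pos_right hr1 hr0
      _ = ‖ζ - 1‖ := one_mul _
  · rw [norm_mul, norm_mul, h5_norm_p]
    have h1 : ‖((n / (p : ℤ) : ℤ) : Ω)‖ ≤ 1 := h84_norm_intCast_le p _
    have h2 := h5_inv_p_lt_one p
    have hpi : 0 < (p : ℝ)⁻¹ := inv_pos.2 (h5_p_pos p)
    calc (p : ℝ)⁻¹ * ‖((n / (p : ℤ) : ℤ) : Ω)‖ * ‖ζ - 1‖ ≤ (p : ℝ)⁻¹ * 1 * ‖ζ - 1‖ := by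
          apply mul_le_mul_of_nonneg_right _ hr0.le
          exact mul_le_mul_of_nonneg_left h1 hpi.le
      _ < 1 * 1 * ‖ζ - 1‖ := by
          apply mul_lt_mul_of_pos_right _ hr0
          rw [mul_one, mul_one]; exact h2
      _ = ‖ζ - 1‖ := by ring

/-! ## the row statement -/

/-- **EI-GS2**: a generator `τ` of the tame inertia of a tame stable `M`, with its root of unity
`ζτ` of exact order `e`. -/
theorem h43_tame_gen (hp2 : p ≠ 2) (M : Fld) [FiniteDimensional ℚ_[p] M] (hM : h78_Stable p M)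
    (π : Ω) (hπ : h78_IsUnif p M π)
    (hP : ∀ g ∈ h78_P p M π, ∀ z ∈ M, g z = z)
    (hJres : ∀ g ∈ h78_J p M, ∀ x ∈ M, ‖x‖ ≤ 1 → ‖g x - x‖ < 1)
    (hcard : ‖π‖ ^ (h78_conj p (h78_J p M) π).card = (p : ℝ)⁻¹)
    (hteich : ∀ x ∈ M, ‖x‖ = 1 →
      ∃ ξ ∈ M, (∃ n : ℕ, 0 < n ∧ ¬ p ∣ n ∧ ξ ^ n = 1) ∧ ‖x - ξ‖ < 1)
    (ζ : Ω) (hζM : ζ ∈ M) (hζp : ζ ^ p = 1) (hζ1 : ζ ≠ 1) :
    ∃ (e l : ℕ) (τ : h78_G p) (ζτ : Ω), 0 < l ∧ e = (p - 1) * l ∧ ‖π‖ ^ e = (p : ℝ)⁻¹ ∧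
      ζτ ∈ M ∧ (∀ m : ℕ, ζτ ^ m = 1 ↔ e ∣ m) ∧ ¬ p ∣ e ∧
      (∀ z ∈ M, ∀ i : ℕ, ‖z‖ = ‖π‖ ^ i → ‖τ z - ζτ ^ i * z‖ < ‖z‖) ∧
      (∀ n : ℤ, τ ζ = ζ ^ n → ‖ζτ ^ l - (n : Ω)‖ < 1) ∧
      (∀ (g : h78_G p) (j : ℕ), g ζτ = ζτ ^ j → ∀ z ∈ M, (g * τ) z = (τ ^ j * g) z) ∧
      (∀ g : h78_G p, ∃ j : ℕ, g ζτ = ζτ ^ j) ∧
      (ζτ ^ (p - 1) = 1 → ∀ g : h78_G p, g ζτ = ζτ) ∧
      (∀ m : ℕ, (∀ z ∈ M, (τ ^ m) z = z) → ζτ ^ m = 1) := by
  classical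
  have hp : p.Prime := Fact.out
  obtain ⟨X, hX, hXu, hXmul, hX1, hXinj⟩ := h84_tame_char p M hM π hπ hP hteich
  obtain ⟨hπM, hπ0, hπ1, hπval⟩ := id hπ
  have hπpos : 0 < ‖π‖ := norm_pos_iff.2 hπ0
  obtain ⟨τ, hτJ, hord⟩ := h84_tame_cyclic p M π X (fun g hg => (hX g hg).2) hXu hXmul hX1
    (fun g hg h hh hgh => hXinj g hg h hh hgh π hπM)
  set e : ℕ := (h78_conj p (h78_J p M) π).card with he
  obtain ⟨hζτM, hζτR, hζτ1⟩ := hX τ hτJ
  -- powers of `τ`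
  have hpowJ : ∀ j : ℕ, τ ^ j ∈ h78_J p M := fun j => Subgroup.pow_mem _ hτJ j
  have hXpow : ∀ j : ℕ, X (τ ^ j) = X τ ^ j := by
    intro j
    induction j with
    | zero => rw [pow_zero, pow_zero, hX1]
    | succ j ih => rw [pow_succ, hXmul _ (hpowJ j) _ hτJ, ih, pow_succ]
  -- `e > 0`
  have he0 : 0 < e := by
    rcases Nat.eq_zero_or_pos e with h0 | h0
    · rw [h0, pow_zero] at hcard
      have := h5_inv_p_lt_one p
      linarith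
    · exact h0
  -- the leading-term action of `τ`
  have hlead : ∀ z ∈ M, ∀ i : ℕ, ‖z‖ = ‖π‖ ^ i → ‖τ z - X τ ^ i * z‖ < ‖z‖ :=
    fun z hz i hi => h84_lev_tau p M π hπ τ (hJres τ hτJ) (X τ) hζτ1 z hz i hi
  -- the level of `ζ - 1`
  have hζ10 : ζ - 1 ≠ 0 := sub_ne_zero.2 hζ1
  obtain ⟨n, hn⟩ := hπval (ζ - 1) (sub_mem hζM (one_mem M)) hζ10
  have hroot : ‖ζ - 1‖ ^ (p - 1) = (p : ℝ)⁻¹ := h5_root_unity_eq p ζ hζp hζ1
  have hne : n * ((p - 1 : ℕ) : ℤ) = (e : ℤ) := by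
    apply h5_zpow_inj hπpos hπ1
    rw [zpow_mul, ← hn, zpow_natCast, hroot, zpow_natCast, hcard]
  have hp1 : 0 < p - 1 := Nat.sub_pos_of_lt hp.one_lt
  have hn0 : 0 < n := by
    by_contra hcon
    rw [not_lt] at hcon
    have h1 : n * ((p - 1 : ℕ) : ℤ) ≤ 0 :=
      mul_nonpos_of_nonpos_of_nonneg hcon (Int.natCast_nonneg _)
    have h2 : (0 : ℤ) < (e : ℤ) := by exact_mod_cast he0
    omega
  obtain ⟨l, hl⟩ : ∃ l : ℕ, (l : ℤ) = n := ⟨n.toNat, Int.toNat_of_nonneg hn0.le⟩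
  have hl0 : 0 < l := by
    have : (0 : ℤ) < (l : ℤ) := by rw [hl]; exact hn0
    exact_mod_cast this
  have hel : e = (p - 1) * l := by
    have : ((e : ℕ) : ℤ) = (((p - 1) * l : ℕ) : ℤ) := by
      rw [← hne, ← hl]; push_cast; ring
    exact_mod_cast this
  have hζl : ‖ζ - 1‖ = ‖π‖ ^ l := by rw [hn, ← hl, zpow_natCast]
  refine ⟨e, l, τ, X τ, hl0, hel, hcard, hζτM, hord, ?_, hlead, ?_, ?_, ?_, ?_, ?_⟩
  · -- `p ∤ e`
    obtain ⟨m, hm, hpm, hξm⟩ := hζτR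
    intro hd
    exact hpm (dvd_trans hd ((hord m).1 hξm))
  · -- the cyclotomic character
    intro k hk
    have h1 := hlead (ζ - 1) (sub_mem hζM (one_mem M)) l hζl
    rw [map_sub, map_one, hk] at h1
    have h2 := h84_zpow_sub_one p ζ hζp hζ1 k
    have e1 : (X τ ^ l - (k : Ω)) * (ζ - 1)
        = (ζ ^ k - 1 - (k : Ω) * (ζ - 1)) - (ζ ^ k - 1 - X τ ^ l * (ζ - 1)) := by ring
    have h3 : ‖(X τ ^ l - (k : Ω)) * (ζ - 1)‖ < ‖ζ - 1‖ := by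
      rw [e1]
      exact lt_of_le_of_lt (h5_norm_sub_le_max p _ _) (max_lt h2 h1)
    rw [norm_mul] at h3
    by_contra hcon
    rw [not_lt] at hcon
    have h4 : ‖ζ - 1‖ ≤ ‖X τ ^ l - (k : Ω)‖ * ‖ζ - 1‖ :=
      le_mul_of_one_le_left (norm_nonneg _) hcon
    linarith
  · -- conjugation
    intro g j hg z hz
    have hnormal : (h78_J p M).Normal := h86_J_normal p M (h49_K0_stable p M hM)
    have hb : g * τ * g⁻¹ ∈ h78_J p M := hnormal.conj_mem τ hτJ g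
    have hXb : X (g * τ * g⁻¹) = X τ ^ j := by
      refine hXu _ hb _ (h84_rt_pow p hζτR j) ?_
      have hπ' : g⁻¹ π ∈ M := hM g⁻¹ π hπM
      have h1 := hlead (g⁻¹ π) hπ' 1 (by rw [h78_norm_aut, pow_one])
      rw [h78_norm_aut, pow_one] at h1
      have hgg : g (g⁻¹ π) = π := by
        rw [← AlgEquiv.mul_apply, mul_inv_cancel]; rfl
      have e1 : (g * τ * g⁻¹) π - X τ ^ j * π = g (τ (g⁻¹ π) - X τ * g⁻¹ π) := by
        rw [map_sub, map_mul, hg, hgg]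
        rfl
      rw [e1, h78_norm_aut]
      exact h1
    have h2 := hXinj _ hb _ (hpowJ j) (by rw [hXb, hXpow]) (g z) (hM g z hz)
    show g (τ z) = (τ ^ j) (g z)
    rw [← h2]
    show g (τ z) = g (τ (g⁻¹ (g z)))
    have : g⁻¹ (g z) = z := by
      rw [← AlgEquiv.mul_apply, inv_mul_cancel]; rfl
    rw [this]
  · -- `g ζτ` is a power of `ζτ`
    intro g
    have hprim : IsPrimitiveRoot (X τ) e :=
      (IsPrimitiveRoot.iff_def _ _).2 ⟨(hord e).2 dvd_rfl, fun m hm => (hord m).1 hm⟩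
    have : NeZero e := ⟨he0.ne'⟩
    have h1 : (g (X τ)) ^ e = 1 := by rw [← map_pow, (hord e).2 dvd_rfl, map_one]
    obtain ⟨j, -, hj⟩ := hprim.eq_pow_of_pow_eq_one h1
    exact ⟨j, hj.symm⟩
  · -- central case
    intro h1 g
    have hx1 : ‖X τ‖ ≤ 1 := (h84_rt_norm p hζτR).le
    have hxp : X τ ^ p = X τ := by
      have h0 : X τ ^ p = X τ ^ (p - 1) * X τ := by
        rw [← pow_succ, Nat.sub_add_cancel hp.one_lt.le]
      rw [h0, h1, one_mul]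
    obtain ⟨a, ha⟩ := h84_exists_near_nat p (X τ) hx1 hxp
    refine h84_rt_unique p (h84_rt_map p hζτR g) hζτR ?_
    have e1 : g (X τ) - X τ = g (X τ - (a : Ω)) - (X τ - (a : Ω)) := by
      rw [map_sub, map_natCast]; ring
    rw [e1]
    refine lt_of_le_of_lt (h5_norm_sub_le_max p _ _) (max_lt ?_ ha)
    rw [h78_norm_aut]; exact ha
  · -- `τ^m = 1` on `M`
    intro m hm
    rw [← hXpow m]
    refine hXu _ (hpowJ m) 1 (h84_rt_one p) ?_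
    rw [hm π hπM, one_mul, sub_self, norm_zero]
    exact hπpos

end Fermat.Agent.S56
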