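/-
S56 / W3 / E-RED, row RED-S1 [D] (helper8): a point of `V1` fixed by `J₁ = {s ∈ J_L | s ζ = ζ}`
lies in `T`.  Its values lie in `K₀(L)(ζ)`, and `1, ζ - 1, …, (ζ - 1)^(p-2)` are orthogonal over
the unramified field `K₀(L)`, so the value group of `K₀(L)(ζ)` is `‖ζ - 1‖^ℤ`.
-/
import Fermat.Agent.S56.h78_RedDefs
import Fermat.Agent.S56.h62_W3Basics
import Fermat.Agent.S56.h49_K0Basic
import Fermat.Agent.S56.h28_K0Unram
import Fermat.Agent.S56.h5_KumBasic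
import Fermat.Agent.S56.h8_Expansion

set_option autoImplicit false

open Coalgebra WithConv Polynomial

namespace Fermat.Agent.S56

variable (p : ℕ) [Fact p.Prime]

local notation "Ω" => PadicAlgCl p
local notation "Fld" => IntermediateField ℚ_[p] (PadicAlgCl p)

/-- every element of `K(ζ)` is a `K`-polynomial of degree `< p - 1` in `ζ - 1`. -/
theorem h8_adjoin_zeta_expand (K : Fld) (ζ : Ω) (hζp : ζ ^ p = 1) (hζ1 : ζ ≠ 1) (x : Ω)
    (hx : x ∈ K ⊔ IntermediateField.adjoin ℚ_[p] {ζ}) :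
    ∃ c : Fin (p - 1) → Ω, (∀ i, c i ∈ K) ∧ x = ∑ i, c i * (ζ - 1) ^ (i : ℕ) := by
  have hp : p.Prime := Fact.out
  have hζint : IsIntegral ℚ_[p] ζ :=
    ⟨X ^ p - C 1, monic_X_pow_sub_C _ hp.ne_zero, by simp [hζp]⟩
  have hζintK : IsIntegral K ζ := hζint.tower_top
  rw [← IntermediateField.restrictScalars_adjoin_eq_sup] at hx
  have hx' : x ∈ (IntermediateField.adjoin K {ζ}).toSubalgebra := hx
  rw [IntermediateField.adjoin_simple_toSubalgebra_of_isAlgebraic hζintK.isAlgebraic,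
    Algebra.adjoin_singleton_eq_range_aeval] at hx'
  obtain ⟨f, hf⟩ := hx'
  -- reduce modulo the `p`-th cyclotomic polynomial
  set Φ : K[X] := cyclotomic p K with hΦ
  have hΦmonic : Φ.Monic := cyclotomic.monic p K
  have hΦdeg : Φ.natDegree = p - 1 := by
    rw [hΦ, natDegree_cyclotomic, Nat.totient_prime hp]
  have hΦroot : aeval ζ Φ = 0 := by
    have h1 : (aeval ζ) (cyclotomic p K) * (ζ - 1) = 0 := by
      have h2 : cyclotomic p K * (X - 1) = X ^ p - 1 := by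
        rw [cyclotomic_prime, _root_.geom_sum_mul]
      have h3 := congrArg (aeval ζ) h2
      rw [map_mul, map_sub, map_sub, map_pow, aeval_X, map_one] at h3
      rw [h3, hζp, sub_self]
    rcases mul_eq_zero.1 h1 with h | h
    · exact h
    · exact absurd (sub_eq_zero.1 h) hζ1
  have hΦne1 : Φ ≠ 1 := by
    intro h
    have : Φ.natDegree = 0 := by rw [h, natDegree_one]
    have hp2 := hp.two_le
    omega
  set f₁ : K[X] := f %ₘ Φ with hf₁
  have hf₁deg : f₁.natDegree < p - 1 := by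
    rw [← hΦdeg]; exact natDegree_modByMonic_lt f hΦmonic hΦne1
  have hf₁val : aeval ζ f₁ = x := by
    rw [← hf]
    exact aeval_modByMonic_eq_self_of_root hΦroot
  set g : K[X] := f₁.comp (X + C 1) with hg
  have hgdeg : g.natDegree < p - 1 := by
    rw [hg, natDegree_comp, natDegree_X_add_C, mul_one]; exact hf₁deg
  have hgval : aeval (ζ - 1) g = x := by
    rw [hg, aeval_comp, map_add, aeval_X, aeval_C, map_one, sub_add_cancel, hf₁val]
  refine ⟨fun i => ((g.coeff (i : ℕ) : K) : Ω), fun i => (g.coeff (i : ℕ)).2, ?_⟩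
  rw [← hgval, aeval_eq_sum_range' hgdeg, ← Fin.sum_univ_eq_sum_range
    (fun i => g.coeff i • (ζ - 1) ^ i) (p - 1)]
  refine Finset.sum_congr rfl (fun i _ => ?_)
  rw [Algebra.smul_def]; rfl

/-- field-level form of [D]: an element of `K(ζ)` of norm `< 1` has norm `≤ ‖ζ - 1‖`, for `K`
unramified. -/
theorem h8_red_D_field (K : Fld) [FiniteDimensional ℚ_[p] K]
    (hK : ∀ c ∈ K, c ≠ 0 → ∃ n : ℤ, ‖c‖ = (p : ℝ) ^ n)
    (ζ : Ω) (hζp : ζ ^ p = 1) (hζ1 : ζ ≠ 1) (x : Ω)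
    (hfix : ∀ g : h78_G p, (∀ c ∈ K, g c = c) → g ζ = ζ → g x = x) (hx : ‖x‖ < 1) :
    ‖x‖ ≤ ‖ζ - 1‖ := by
  have hp : p.Prime := Fact.out
  have hp2 := hp.two_le
  have hppos : (0 : ℝ) < (p : ℝ) := h5_p_pos p
  have hp1 : (1 : ℝ) < (p : ℝ) := by exact_mod_cast hp.one_lt
  have hζint : IsIntegral ℚ_[p] ζ :=
    ⟨X ^ p - C 1, monic_X_pow_sub_C _ hp.ne_zero, by simp [hζp]⟩
  have : FiniteDimensional ℚ_[p] (IntermediateField.adjoin ℚ_[p] {ζ}) :=
    IntermediateField.adjoin.finiteDimensional hζint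
  have hxE : x ∈ K ⊔ IntermediateField.adjoin ℚ_[p] {ζ} := by
    refine h62_mem_of_fixed p _ x (fun g hg => hfix g (fun c hc => hg c ?_) (hg ζ ?_))
    · exact (le_sup_left : K ≤ K ⊔ IntermediateField.adjoin ℚ_[p] {ζ}) hc
    · exact (le_sup_right : IntermediateField.adjoin ℚ_[p] {ζ} ≤
        K ⊔ IntermediateField.adjoin ℚ_[p] {ζ}) (IntermediateField.mem_adjoin_simple_self _ ζ)
  obtain ⟨c, hcK, hxc⟩ := h8_adjoin_zeta_expand p K ζ hζp hζ1 x hxE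
  set π : Ω := ζ - 1 with hπ
  have hπ0 : π ≠ 0 := sub_ne_zero.2 hζ1
  have hr0 : 0 < ‖π‖ := norm_pos_iff.2 hπ0
  have hr1 : ‖π‖ < 1 := h5_root_unity_lt_one p ζ hζp
  have hrp : ‖π‖ ^ (p - 1) = (p : ℝ)⁻¹ := h5_root_unity_eq p ζ hζp hζ1
  have hnp : ‖(p : Ω)‖ = (p : ℝ)⁻¹ := h5_norm_p p
  have hunif : h78_IsUnif p K (p : Ω) := by
    refine ⟨?_, ?_, ?_, ?_⟩
    · exact natCast_mem K p
    · intro h0
      rw [h0, norm_zero] at hnp
      exact (inv_pos.2 hppos).ne hnp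
    · rw [hnp]; exact h5_inv_p_lt_one p
    · intro z hz hz0
      obtain ⟨n, hn⟩ := hK z hz hz0
      refine ⟨-n, ?_⟩
      rw [hn, hnp, inv_zpow', neg_neg]
  have hterm : ∀ i : Fin (p - 1), ‖c i * π ^ (i : ℕ)‖ ≤ ‖π‖ := by
    intro i
    have h1 : ‖c i * π ^ (i : ℕ)‖ ≤ ‖x‖ := by
      rw [hxc]
      exact h8_expansion_norm p K π (p : Ω) hr1 hπ0 hunif (p - 1) (by rw [hnp, hrp]) c hcK i
    have h2 : ‖c i * π ^ (i : ℕ)‖ < 1 := lt_of_le_of_lt h1 hx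
    by_cases hc0 : c i = 0
    · rw [hc0, zero_mul, norm_zero]; exact hr0.le
    obtain ⟨n, hn⟩ := hK (c i) (hcK i) hc0
    rw [norm_mul, norm_pow, hn] at h2 ⊢
    have hi := i.2
    rcases lt_or_ge 0 n with hnpos | hnle
    · -- `n ≥ 1` is impossible
      exfalso
      have h3 : (p : ℝ) ≤ (p : ℝ) ^ n := by
        have : (p : ℝ) ^ (1 : ℤ) ≤ (p : ℝ) ^ n := zpow_le_zpow_right₀ hp1.le (by omega)
        simpa using this
      have h4 : ‖π‖ ^ (p - 1) ≤ ‖π‖ ^ (i : ℕ) :=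
        pow_le_pow_of_le_one hr0.le hr1.le (by omega)
      have h5 : (1 : ℝ) ≤ (p : ℝ) ^ n * ‖π‖ ^ (i : ℕ) := by
        calc (1 : ℝ) = (p : ℝ) * (p : ℝ)⁻¹ := (mul_inv_cancel₀ hppos.ne').symm
          _ ≤ (p : ℝ) ^ n * ‖π‖ ^ (i : ℕ) :=
            mul_le_mul h3 (by rw [← hrp]; exact h4) (inv_pos.2 hppos).le (le_trans hppos.le h3)
      linarith
    · have h3 : (p : ℝ) ^ n ≤ 1 := zpow_le_one_of_nonpos₀ hp1.le hnle
      have h3' : (0 : ℝ) < (p : ℝ) ^ n := zpow_pos hppos n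
      rcases Nat.eq_zero_or_pos (i : ℕ) with hi0 | hipos
      · rw [hi0, pow_zero, mul_one] at h2 ⊢
        have hn1 : n ≤ -1 := by
          by_contra hcon
          have hn0 : n = 0 := by omega
          rw [hn0, zpow_zero] at h2
          exact lt_irrefl _ h2
        calc (p : ℝ) ^ n ≤ (p : ℝ) ^ (-1 : ℤ) := zpow_le_zpow_right₀ hp1.le hn1
          _ = ‖π‖ ^ (p - 1) := by rw [hrp, zpow_neg_one]
          _ ≤ ‖π‖ := pow_le_of_le_one hr0.le hr1.le (by omega)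
      · calc (p : ℝ) ^ n * ‖π‖ ^ (i : ℕ) ≤ 1 * ‖π‖ ^ (i : ℕ) :=
              mul_le_mul_of_nonneg_right h3 (pow_nonneg hr0.le _)
          _ = ‖π‖ ^ (i : ℕ) := one_mul _
          _ ≤ ‖π‖ := pow_le_of_le_one hr0.le hr1.le (by omega)
  rw [hxc]
  exact IsUltrametricDist.norm_sum_le_of_forall_le_of_nonneg hr0.le (fun i _ => hterm i)

section points

variable {H : Type} [CommRing H] [Bialgebra (h78_Zp p) H]
  [Coalgebra.IsCocomm (h78_Zp p) H] [Module.Free (h78_Zp p) H] [Module.Finite (h78_Zp p) H]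

/-- [D] in the `≤ ‖ζ - 1‖` form. -/
theorem h8_red_D' (L : Fld) [FiniteDimensional ℚ_[p] L]
    (ζ : Ω) (hζp : ζ ^ p = 1) (hζ1 : ζ ≠ 1)
    (y : WithConv (H →ₐ[h78_Zp p] Ω)) (hy : y ∈ h78_V1 p H)
    (hfix : ∀ s ∈ h78_J p L, s ζ = ζ → h78_gal p s y = y) (h : H) :
    ‖y h - (1 : WithConv (H →ₐ[h78_Zp p] Ω)) h‖ ≤ ‖ζ - 1‖ := by
  have hfin : FiniteDimensional ℚ_[p] (h78_K0 p L) :=
    Module.Finite.of_injective (IntermediateField.inclusion (h49_K0_le p L)).toLinearMap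
      (IntermediateField.inclusion (h49_K0_le p L)).injective
  refine h8_red_D_field p (h78_K0 p L) (fun c hc hc0 => h28_K0_unram p L c hc hc0) ζ hζp hζ1 _
    ?_ (hy h)
  intro g hg hgζ
  have hgJ : g ∈ h78_J p L := (IntermediateField.mem_fixingSubgroup_iff _ _).2 hg
  have h1 : h78_gal p g y h = y h := by rw [hfix g hgJ hgζ]
  rw [h78_gal_apply] at h1
  have h2 : g ((1 : WithConv (H →ₐ[h78_Zp p] Ω)) h) = (1 : WithConv (H →ₐ[h78_Zp p] Ω)) h := by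
    rw [AlgHom.convOne_apply]
    show g (algebraMap ℚ Ω ((counit h : h78_Zp p) : ℚ)) = algebraMap ℚ Ω ((counit h : h78_Zp p) : ℚ)
    rw [eq_ratCast, map_ratCast]
  rw [map_sub, h1, h2]

/-- [D] a point of `V1` fixed by `J₁ = {s ∈ J | s ζ = ζ}` lies in `T`
(its values lie in `K₀(L)(ζ)`, whose value group is `|ζ - 1|^ℤ`).
Statement = `sk_red_D` of the RED skeleton, verbatim. -/
theorem h8_red_D (L : Fld) [FiniteDimensional ℚ_[p] L] (hL : h78_Stable p L)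
    (hLpts : ∀ (γ : H →ₐ[h78_Zp p] Ω) (h : H), γ h ∈ L)
    (ζ : Ω) (hζL : ζ ∈ L) (hζp : ζ ^ p = 1) (hζ1 : ζ ≠ 1)
    (y : WithConv (H →ₐ[h78_Zp p] Ω)) (hy : y ∈ h78_V1 p H)
    (hfix : ∀ s ∈ h78_J p L, s ζ = ζ → h78_gal p s y = y) : y ∈ h78_T p H := by
  intro h
  have h1 := h8_red_D' p L ζ hζp hζ1 y hy hfix h
  calc ‖y h - (1 : WithConv (H →ₐ[h78_Zp p] Ω)) h‖ ^ (p - 1) ≤ ‖ζ - 1‖ ^ (p - 1) :=
        pow_le_pow_left₀ (norm_nonneg _) h1 _
    _ = (p : ℝ)⁻¹ := h5_root_unity_eq p ζ hζp hζ1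

end points

end Fermat.Agent.S56
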