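/-
S56 / W3 / E-RED route R80, row W3-ER-FZ (helper8): the field `F = K₀(L)(ζ)` is contained in `L`,
finite, stable, `Gal(Ω/F) = {s ∈ J_L | s ζ = ζ}`, `ζ - 1` is a uniformizer of `F`, `F` is tame.
Statements = `skR_Fz_*` of the R80 skeleton v2, verbatim.
-/
import Fermat.Agent.S56.h80_ERedFzDef
import Fermat.Agent.S56.h81_FlatDatum
import Fermat.Agent.S56.h8_RedD

set_option autoImplicit false

namespace Fermat.Agent.S56

variable (p : ℕ) [Fact p.Prime]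

local notation "Ω" => PadicAlgCl p
local notation "Fld" => IntermediateField ℚ_[p] (PadicAlgCl p)

theorem h8_Fz_eq_sup (L : Fld) (ζ : Ω) :
    h80_Fz p L ζ = h78_K0 p L ⊔ IntermediateField.adjoin ℚ_[p] {ζ} := by
  unfold h80_Fz
  rw [IntermediateField.adjoin_union, IntermediateField.adjoin_self]

theorem h8_K0_le_Fz (L : Fld) (ζ : Ω) : h78_K0 p L ≤ h80_Fz p L ζ := by
  rw [h8_Fz_eq_sup]; exact le_sup_left

theorem h8_zeta_mem_Fz (L : Fld) (ζ : Ω) : ζ ∈ h80_Fz p L ζ :=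
  IntermediateField.subset_adjoin _ _ (Set.mem_union_right _ (Set.mem_singleton ζ))

theorem h8_Fz_le (L : Fld) (ζ : Ω) (hζL : ζ ∈ L) : h80_Fz p L ζ ≤ L :=
  IntermediateField.adjoin_le_iff.2
    (Set.union_subset (h49_K0_le p L) (Set.singleton_subset_iff.2 hζL))

theorem h8_Fz_finite (L : Fld) [FiniteDimensional ℚ_[p] L] (ζ : Ω) (hζL : ζ ∈ L) :
    FiniteDimensional ℚ_[p] (h80_Fz p L ζ) :=
  Module.Finite.of_injective (IntermediateField.inclusion (h8_Fz_le p L ζ hζL)).toLinearMap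
    (IntermediateField.inclusion (h8_Fz_le p L ζ hζL)).injective

theorem h8_Fz_fix (L : Fld) (ζ : Ω) (g : h78_G p) :
    (∀ z ∈ h80_Fz p L ζ, g z = z) ↔ (g ∈ h78_J p L ∧ g ζ = ζ) := by
  constructor
  · intro h
    refine ⟨(IntermediateField.mem_fixingSubgroup_iff _ _).2
      (fun c hc => h c (h8_K0_le_Fz p L ζ hc)), h ζ (h8_zeta_mem_Fz p L ζ)⟩
  · rintro ⟨hJ, hζ⟩
    refine h81_fix_adjoin p g _ ?_
    rintro x (hx | hx)
    · exact (IntermediateField.mem_fixingSubgroup_iff _ _).1 hJ x hx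
    · rw [Set.mem_singleton_iff.1 hx]; exact hζ

theorem h8_Fz_stable (L : Fld) (hL : h78_Stable p L) (ζ : Ω) (hζp : ζ ^ p = 1) :
    h78_Stable p (h80_Fz p L ζ) := by
  have hp : p.Prime := Fact.out
  have hmap : ∀ g : h78_G p, (h80_Fz p L ζ).map (g : Ω →ₐ[ℚ_[p]] Ω) ≤ h80_Fz p L ζ := by
    intro g
    have h1 : (h80_Fz p L ζ).map (g : Ω →ₐ[ℚ_[p]] Ω) =
        IntermediateField.adjoin ℚ_[p]
          ((g : Ω →ₐ[ℚ_[p]] Ω) '' ((h78_K0 p L : Set Ω) ∪ {ζ})) := by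
      unfold h80_Fz
      rw [IntermediateField.adjoin_map]
    rw [h1, IntermediateField.adjoin_le_iff]
    rintro _ ⟨x, hx | hx, rfl⟩
    · exact h8_K0_le_Fz p L ζ (h49_K0_stable p L hL g x hx)
    · rw [Set.mem_singleton_iff.1 hx]
      show g ζ ∈ h80_Fz p L ζ
      by_cases hζ1 : ζ = 1
      · rw [hζ1, map_one]; exact one_mem _
      · have hprim : IsPrimitiveRoot ζ p := by
          have h2 := IsPrimitiveRoot.orderOf ζ
          rwa [orderOf_eq_prime hζp hζ1] at h2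
        have hg : (g ζ) ^ p = 1 := by rw [← map_pow, hζp, map_one]
        have : NeZero p := ⟨hp.ne_zero⟩
        obtain ⟨i, -, hi⟩ := hprim.eq_pow_of_pow_eq_one hg
        rw [← hi]
        exact pow_mem (h8_zeta_mem_Fz p L ζ) i
  intro g z hz
  exact hmap g ⟨z, hz, rfl⟩

theorem h8_Fz_unif (L : Fld) [FiniteDimensional ℚ_[p] L] (ζ : Ω) (hζp : ζ ^ p = 1)
    (hζ1 : ζ ≠ 1) : h78_IsUnif p (h80_Fz p L ζ) (ζ - 1) := by
  have hp : p.Prime := Fact.out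
  have hp2 := hp.two_le
  have hppos : (0 : ℝ) < (p : ℝ) := h5_p_pos p
  set π : Ω := ζ - 1 with hπ
  have hπ0 : π ≠ 0 := sub_ne_zero.2 hζ1
  have hr0 : 0 < ‖π‖ := norm_pos_iff.2 hπ0
  have hr1 : ‖π‖ < 1 := h5_root_unity_lt_one p ζ hζp
  have hrp : ‖π‖ ^ (p - 1) = (p : ℝ)⁻¹ := h5_root_unity_eq p ζ hζp hζ1
  have hnp : ‖(p : Ω)‖ = (p : ℝ)⁻¹ := h5_norm_p p
  have hK : ∀ c ∈ h78_K0 p L, c ≠ 0 → ∃ n : ℤ, ‖c‖ = (p : ℝ) ^ n :=
    fun c hc hc0 => h28_K0_unram p L c hc hc0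
  have hunif : h78_IsUnif p (h78_K0 p L) (p : Ω) := by
    refine ⟨natCast_mem _ p, ?_, ?_, ?_⟩
    · intro h0
      rw [h0, norm_zero] at hnp
      exact (inv_pos.2 hppos).ne hnp
    · rw [hnp]; exact h5_inv_p_lt_one p
    · intro z hz hz0
      obtain ⟨n, hn⟩ := hK z hz hz0
      refine ⟨-n, ?_⟩
      rw [hn, hnp, inv_zpow', neg_neg]
  refine ⟨sub_mem (h8_zeta_mem_Fz p L ζ) (one_mem _), hπ0, hr1, ?_⟩
  intro x hx hx0
  rw [h8_Fz_eq_sup] at hx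
  obtain ⟨c, hcK, hxc⟩ := h8_adjoin_zeta_expand p (h78_K0 p L) ζ hζp hζ1 x hx
  have hne : (Finset.univ : Finset (Fin (p - 1))).Nonempty :=
    ⟨⟨0, by omega⟩, Finset.mem_univ _⟩
  obtain ⟨i0, -, hi0⟩ := IsUltrametricDist.exists_norm_finsetSum_le_of_nonempty hne
    (fun i : Fin (p - 1) => c i * π ^ (i : ℕ))
  have hle : ‖c i0 * π ^ (i0 : ℕ)‖ ≤ ‖x‖ := by
    rw [hxc]
    exact h8_expansion_norm p (h78_K0 p L) π (p : Ω) hr1 hπ0 hunif (p - 1) (by rw [hnp, hrp])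
      c hcK i0
  have heq : ‖x‖ = ‖c i0 * π ^ (i0 : ℕ)‖ := le_antisymm (by rw [hxc]; exact hi0) hle
  have hc0 : c i0 ≠ 0 := by
    intro h0
    rw [h0, zero_mul, norm_zero, norm_eq_zero] at heq
    exact hx0 heq
  obtain ⟨n, hn⟩ := hK (c i0) (hcK i0) hc0
  have h1 : ‖π‖ ^ (-n * ((p - 1 : ℕ) : ℤ)) = (p : ℝ) ^ n := by
    rw [mul_comm, zpow_mul, zpow_natCast, hrp, inv_zpow', neg_neg]
  refine ⟨-n * ((p - 1 : ℕ) : ℤ) + ((i0 : ℕ) : ℤ), ?_⟩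
  rw [heq, norm_mul, norm_pow, hn, zpow_add₀ hr0.ne', h1, zpow_natCast]

theorem h8_Fz_tame (L : Fld) [FiniteDimensional ℚ_[p] L] (ζ : Ω) (hζp : ζ ^ p = 1)
    (hζ1 : ζ ≠ 1) : h78_IsTame p (h80_Fz p L ζ) := by
  have hp : p.Prime := Fact.out
  have hp2 := hp.two_le
  have hrp : ‖ζ - 1‖ ^ (p - 1) = (p : ℝ)⁻¹ := h5_root_unity_eq p ζ hζp hζ1
  refine ⟨p - 1, ?_, ?_⟩
  · intro hdvd
    have := Nat.le_of_dvd (by omega) hdvd
    omega
  · intro x hx hx0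
    obtain ⟨n, hn⟩ := (h8_Fz_unif p L ζ hζp hζ1).2.2.2 x hx hx0
    refine ⟨-n, ?_⟩
    rw [hn, ← zpow_natCast (‖ζ - 1‖ ^ n) (p - 1), ← zpow_mul, mul_comm, zpow_mul, zpow_natCast,
      hrp, inv_zpow']

end Fermat.Agent.S56
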