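/-
S56 / W3 (flat local bound), E-RED quotient API, part 2 (abstract, Mathlib only):
Artin's lemma for equivariant functions (a `G`-equivariant function in the `Ω`-span of a set of
`G`-equivariant functions lies in its `K`-span, `K` the fixed field) and Lagrange interpolation
on a finite set.
-/
import Mathlib

set_option autoImplicit false

namespace Fermat.Agent.S56

section Artin

variable {K Ω V G : Type*} [Field K] [Field Ω] [Algebra K Ω]

/-- **Artin descent for spans.**  `σ g` are field endomorphisms of `Ω` whose common fixed field is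
`K`; `act` is an action on a set `V`; a function is equivariant if `f (act g v) = σ g (f v)`.
An equivariant function in the `Ω`-span of a set `S` of equivariant functions is in the
`K`-span of `S`. -/
theorem h8_artin_span (σ : G → Ω →+* Ω) (act : G → V → V)
    (hfix : ∀ x : Ω, (∀ g, σ g x = x) → x ∈ Set.range (algebraMap K Ω))
    (hsurj : ∀ g, Function.Surjective (act g))
    (S : Set (V → Ω)) (hS : ∀ f ∈ S, ∀ g v, f (act g v) = σ g (f v))
    (f : V → Ω) (hf : ∀ g v, f (act g v) = σ g (f v)) (hfS : f ∈ Submodule.span Ω S) :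
    f ∈ Submodule.span K S := by
  classical
  obtain ⟨b, hbS, hbspan, hbli⟩ := exists_linearIndependent Ω S
  rw [← hbspan, ← Subtype.range_coe (s := b)] at hfS
  obtain ⟨l, hl⟩ := (Finsupp.mem_span_range_iff_exists_finsupp).1 hfS
  have hinv : ∀ (g : G) (s : b), σ g (l s) = l s := by
    intro g s
    have h2 : (l.mapRange (σ g) (map_zero _)).sum (fun i a => a • (i : V → Ω)) = f := by
      funext v
      obtain ⟨v', rfl⟩ := hsurj g v
      have h5 : (l.mapRange (σ g) (map_zero _)).sum (fun i a => a • (i : V → Ω)) =
          l.sum (fun i a => σ g a • (i : V → Ω)) :=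
        Finsupp.sum_mapRange_index (fun i => zero_smul Ω (i : V → Ω))
      rw [hf g v', ← hl, h5]
      simp only [Finsupp.sum, Finset.sum_apply, Pi.smul_apply, smul_eq_mul, map_sum, map_mul]
      refine Finset.sum_congr rfl fun i _ => ?_
      rw [hS _ (hbS i.2) g v']
    have h3 : l.mapRange (σ g) (map_zero _) = l := by
      apply hbli
      rw [Finsupp.linearCombination_apply, Finsupp.linearCombination_apply, h2, hl]
    have h4 := DFunLike.congr_fun h3 s
    rwa [Finsupp.mapRange_apply] at h4
  choose c hc using fun s : b => hfix (l s) (fun g => hinv g s)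
  have hf' : f = ∑ i ∈ l.support, c i • (i : V → Ω) := by
    rw [← hl, Finsupp.sum]
    refine Finset.sum_congr rfl fun i _ => ?_
    rw [← hc i, algebraMap_smul]
  rw [hf']
  exact Submodule.sum_mem _ fun i _ =>
    Submodule.smul_mem _ _ (Submodule.subset_span (hbS i.2))

/-- **Artin's lemma**: `K`-linearly independent equivariant functions are `Ω`-linearly
independent. -/
theorem h8_artin_li {ι : Type*} (σ : G → Ω →+* Ω) (act : G → V → V)
    (hfix : ∀ x : Ω, (∀ g, σ g x = x) → x ∈ Set.range (algebraMap K Ω))
    (hsurj : ∀ g, Function.Surjective (act g))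
    (v : ι → V → Ω) (hv : ∀ i g w, v i (act g w) = σ g (v i w))
    (hli : LinearIndependent K v) : LinearIndependent Ω v := by
  rw [linearIndependent_iff_notMem_span] at hli ⊢
  intro i hi
  refine hli i (h8_artin_span σ act hfix hsurj _ ?_ (v i) (hv i) hi)
  rintro f ⟨j, -, rfl⟩
  exact hv j

end Artin

section Lagrange

variable {Ω V : Type*} [Field Ω] [Finite V]

/-- **Lagrange interpolation**: a multiplicatively closed set of functions on a finite set which
separates points spans all functions. -/
theorem h8_lagrange (M : Submonoid (V → Ω))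
    (hsep : ∀ v w : V, v ≠ w → ∃ f ∈ M, f v ≠ f w) (g : V → Ω) :
    g ∈ Submodule.span Ω (M : Set (V → Ω)) := by
  classical
  have : Fintype V := Fintype.ofFinite V
  have hA : ∀ x : V → Ω, x ∈ Algebra.adjoin Ω (M : Set (V → Ω)) →
      x ∈ Submodule.span Ω (M : Set (V → Ω)) := by
    intro x hx
    have h1 := Algebra.adjoin_eq_span Ω (M : Set (V → Ω))
    rw [Submonoid.closure_eq] at h1
    rw [← h1]
    exact hx
  apply hA
  -- indicators
  have hind : ∀ v0 : V, (Pi.single v0 (1 : Ω) : V → Ω) ∈ Algebra.adjoin Ω (M : Set (V → Ω)) := by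
    intro v0
    choose f hfM hfne using fun (w : {w : V // v0 ≠ w}) => hsep v0 w.1 w.2
    let F : V → V → Ω := fun w =>
      if h : v0 = w then 1 else
        (f ⟨w, h⟩ - algebraMap Ω (V → Ω) (f ⟨w, h⟩ w)) *
          algebraMap Ω (V → Ω) ((f ⟨w, h⟩ v0 - f ⟨w, h⟩ w)⁻¹)
    have hF : ∀ w, F w ∈ Algebra.adjoin Ω (M : Set (V → Ω)) := by
      intro w
      by_cases h : v0 = w
      · simp only [F, dif_pos h]; exact one_mem _
      · simp only [F, dif_neg h]
        exact mul_mem (sub_mem (Algebra.subset_adjoin (hfM ⟨w, h⟩)) (Subalgebra.algebraMap_mem _ _))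
          (Subalgebra.algebraMap_mem _ _)
    have hprod : (Pi.single v0 (1 : Ω) : V → Ω) = ∏ w, F w := by
      funext v
      rw [Finset.prod_apply]
      by_cases hv : v = v0
      · subst hv
        rw [Pi.single_eq_same]
        symm
        refine Finset.prod_eq_one fun w _ => ?_
        by_cases h : v = w
        · simp only [F, dif_pos h, Pi.one_apply]
        · simp only [F, dif_neg h, Pi.mul_apply, Pi.sub_apply, Pi.algebraMap_apply,
            Algebra.algebraMap_self, RingHom.id_apply]
          exact mul_inv_cancel₀ (sub_ne_zero.2 (hfne ⟨w, h⟩))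
      · rw [Pi.single_eq_of_ne hv]
        symm
        refine Finset.prod_eq_zero (Finset.mem_univ v) ?_
        have h : ¬ v0 = v := fun h => hv h.symm
        simp only [F, dif_neg h, Pi.mul_apply, Pi.sub_apply, Pi.algebraMap_apply,
          Algebra.algebraMap_self, RingHom.id_apply, sub_self, zero_mul]
    rw [hprod]
    exact prod_mem fun w _ => hF w
  have hg : g = ∑ v, g v • (Pi.single v (1 : Ω) : V → Ω) := by
    funext w
    rw [Finset.sum_apply]
    simp [Pi.single_apply]
  rw [hg]
  exact sum_mem fun v _ => Subalgebra.smul_mem _ (hind v) _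

end Lagrange

end Fermat.Agent.S56
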