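/-
S56 / W3 (flat local bound), E-RED quotient API, part 1 (abstract, Mathlib only):
rigidity of `p`-torsion elements of a commutative monoid `V` relative to a set `𝒟` of functions
`V → Ω` which is closed under "comultiplication"
(`d (a * b) = ∑ i, x i a * y i b` with `x i, y i ∈ 𝒟`).
This is `h78_rigid` transcribed to functions on the group of points: no coalgebra is needed,
so it applies to the functions invariant under a subgroup (= the quotient group scheme).
-/
import Mathlib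

set_option autoImplicit false

namespace Fermat.Agent.S56

variable {Ω : Type*} [NormedField Ω] [IsUltrametricDist Ω] {V : Type*} [CommMonoid V]

/-- a set of functions on a commutative monoid which is closed under comultiplication. -/
def h8_DeltaClosed (𝒟 : Set (V → Ω)) : Prop :=
  ∀ d ∈ 𝒟, ∃ (n : ℕ) (x y : Fin n → V → Ω), (∀ i, x i ∈ 𝒟 ∧ y i ∈ 𝒟) ∧
    ∀ a b : V, d (a * b) = ∑ i, x i a * y i b

/-- the difference operator along `γ`: `(δ f) a = f (γ * a) - f a`. -/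
noncomputable def h8_delta (γ : V) : Module.End Ω (V → Ω) :=
  LinearMap.funLeft Ω Ω (fun a => γ * a) - 1

omit [IsUltrametricDist Ω] in
theorem h8_delta_apply (γ : V) (f : V → Ω) (a : V) : h8_delta γ f a = f (γ * a) - f a := rfl

omit [IsUltrametricDist Ω] in
theorem h8_delta_stepL (γ : V) {n : ℕ} (x y : Fin n → V → Ω) (d : V → Ω)
    (h : ∀ a b : V, d (a * b) = ∑ i, x i a * y i b) (a b : V) :
    h8_delta γ d (a * b) = ∑ i, h8_delta γ (x i) a * y i b := by
  rw [h8_delta_apply, ← mul_assoc, h, h, ← Finset.sum_sub_distrib]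
  refine Finset.sum_congr rfl fun i _ => ?_
  rw [h8_delta_apply, sub_mul]

omit [IsUltrametricDist Ω] in
theorem h8_delta_stepR (γ : V) {n : ℕ} (x y : Fin n → V → Ω) (d : V → Ω)
    (h : ∀ a b : V, d (a * b) = ∑ i, x i a * y i b) (a b : V) :
    h8_delta γ d (a * b) = ∑ i, x i a * h8_delta γ (y i) b := by
  rw [h8_delta_apply, mul_left_comm, h, h, ← Finset.sum_sub_distrib]
  refine Finset.sum_congr rfl fun i _ => ?_
  rw [h8_delta_apply, mul_sub]

omit [IsUltrametricDist Ω] in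
theorem h8_delta_powL (γ : V) {n : ℕ} (m : ℕ) : ∀ (x y : Fin n → V → Ω) (d : V → Ω),
    (∀ a b : V, d (a * b) = ∑ i, x i a * y i b) → ∀ a b : V,
    (h8_delta γ ^ m) d (a * b) = ∑ i, (h8_delta γ ^ m) (x i) a * y i b := by
  induction m with
  | zero => intro x y d h a b; simpa using h a b
  | succ m ih =>
    intro x y d h a b
    have h1 := h8_delta_stepL γ (fun i => (h8_delta γ ^ m) (x i)) y ((h8_delta γ ^ m) d)
      (ih x y d h) a b
    simpa [pow_succ', Module.End.mul_apply] using h1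

omit [IsUltrametricDist Ω] in
theorem h8_delta_powR (γ : V) {n : ℕ} (l : ℕ) : ∀ (x y : Fin n → V → Ω) (d : V → Ω),
    (∀ a b : V, d (a * b) = ∑ i, x i a * y i b) → ∀ a b : V,
    (h8_delta γ ^ l) d (a * b) = ∑ i, x i a * (h8_delta γ ^ l) (y i) b := by
  induction l with
  | zero => intro x y d h a b; simpa using h a b
  | succ l ih =>
    intro x y d h a b
    have h1 := h8_delta_stepR γ x (fun i => (h8_delta γ ^ l) (y i)) ((h8_delta γ ^ l) d)
      (ih x y d h) a b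
    simpa [pow_succ', Module.End.mul_apply] using h1

omit [IsUltrametricDist Ω] in
/-- `δ^(m+l) d (a * b) = ∑ δ^m x_i (a) * δ^l y_i (b)`. -/
theorem h8_delta_pow_mul (γ : V) {n : ℕ} (x y : Fin n → V → Ω) (d : V → Ω)
    (h : ∀ a b : V, d (a * b) = ∑ i, x i a * y i b) (m l : ℕ) (a b : V) :
    (h8_delta γ ^ (m + l)) d (a * b) =
      ∑ i, (h8_delta γ ^ m) (x i) a * (h8_delta γ ^ l) (y i) b := by
  rw [pow_add, Module.End.mul_apply]
  exact h8_delta_powL γ m x (fun i => (h8_delta γ ^ l) (y i)) ((h8_delta γ ^ l) d)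
    (h8_delta_powR γ l x y d h) a b

omit [IsUltrametricDist Ω] in
theorem h8_funLeft_pow (γ : V) (n : ℕ) (f : V → Ω) (a : V) :
    ((LinearMap.funLeft Ω Ω (fun a : V => γ * a)) ^ n) f a = f (γ ^ n * a) := by
  induction n generalizing a with
  | zero => simp
  | succ n ih =>
    rw [pow_succ', Module.End.mul_apply]
    show ((LinearMap.funLeft Ω Ω (fun a : V => γ * a)) ^ n) f (γ * a) = _
    rw [ih, pow_succ, mul_assoc]

omit [IsUltrametricDist Ω] in
/-- Newton's expansion of a translate: `f (γ^n a) = ∑ m ≤ n, C(n,m) (δ^m f) a`. -/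
theorem h8_translate_eq (γ : V) (n : ℕ) (f : V → Ω) (a : V) :
    f (γ ^ n * a) = ∑ m ∈ Finset.range (n + 1), (n.choose m : Ω) * (h8_delta γ ^ m) f a := by
  have h1 : LinearMap.funLeft Ω Ω (fun a : V => γ * a) = h8_delta γ + 1 := by
    rw [h8_delta]; abel
  have h2 : (LinearMap.funLeft Ω Ω (fun a : V => γ * a)) ^ n =
      ∑ m ∈ Finset.range (n + 1), h8_delta γ ^ m * 1 ^ (n - m) * (n.choose m : Module.End Ω (V → Ω)) := by
    rw [h1]; exact (Commute.one_right _).add_pow n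
  rw [← h8_funLeft_pow (Ω := Ω) γ n f a, h2]
  simp only [one_pow, mul_one, LinearMap.sum_apply, Finset.sum_apply, Module.End.mul_apply]
  refine Finset.sum_congr rfl fun m _ => ?_
  have h3 : ((n.choose m : Module.End Ω (V → Ω))) f = (n.choose m : Ω) • f := by
    rw [Module.End.natCast_apply, Nat.cast_smul_eq_nsmul]
  rw [h3, map_smul]
  rfl

/-- iterated smallness: if `‖d γ - d 1‖ ≤ s` and `≤ r` on `𝒟`, then
`‖(δ^(m+1) d) 1‖ ≤ s * r^m` on `𝒟`. -/
theorem h8_delta_small {𝒟 : Set (V → Ω)} (h𝒟 : h8_DeltaClosed 𝒟) (γ : V) {r s : ℝ} (hr0 : 0 ≤ r)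
    (hs0 : 0 ≤ s) (hr : ∀ d ∈ 𝒟, ‖d γ - d 1‖ ≤ r) (hs : ∀ d ∈ 𝒟, ‖d γ - d 1‖ ≤ s) (m : ℕ) :
    ∀ d ∈ 𝒟, ‖(h8_delta γ ^ (m + 1)) d 1‖ ≤ s * r ^ m := by
  induction m with
  | zero =>
    intro d hd
    have := hs d hd
    simpa [h8_delta_apply] using this
  | succ m ih =>
    intro d hd
    obtain ⟨n, x, y, hxy, hd'⟩ := h𝒟 d hd
    have h1 := h8_delta_pow_mul γ x y d hd' (m + 1) 1 1 1
    rw [mul_one] at h1
    rw [h1]
    refine IsUltrametricDist.norm_sum_le_of_forall_le_of_nonneg (by positivity) ?_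
    intro i _
    rw [norm_mul]
    have hy1 : ‖(h8_delta γ ^ 1) (y i) 1‖ ≤ r := by
      have := hr _ (hxy i).2
      simpa [h8_delta_apply] using this
    calc ‖(h8_delta γ ^ (m + 1)) (x i) 1‖ * ‖(h8_delta γ ^ 1) (y i) 1‖
        ≤ (s * r ^ m) * r := mul_le_mul (ih _ (hxy i).1) hy1 (norm_nonneg _) (by positivity)
      _ = s * r ^ (m + 1) := by ring

/-- **Rigidity on a group of points.**  If `γ^p = 1`, `𝒟` is closed under comultiplication and
every `d ∈ 𝒟` has `‖d γ - d 1‖ ≤ r` with `p * r^(p-1) < 1`, then `d γ = d 1` on `𝒟`. -/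
theorem h8_grp_rigid (p : ℕ) [hpp : Fact p.Prime] (hp : ‖(p : Ω)‖ = (p : ℝ)⁻¹)
    {𝒟 : Set (V → Ω)} (h𝒟 : h8_DeltaClosed 𝒟) (γ : V) (hγ : γ ^ p = 1) {r : ℝ} (hr0 : 0 ≤ r)
    (hr : (p : ℝ) * r ^ (p - 1) < 1) (hsmall : ∀ d ∈ 𝒟, ‖d γ - d 1‖ ≤ r) :
    ∀ d ∈ 𝒟, d γ = d 1 := by
  have hp2 : 2 ≤ p := hpp.out.two_le
  have hppos : (0 : ℝ) < p := by exact_mod_cast hpp.out.pos
  have hr1 : r < 1 := by
    by_contra hcon
    rw [not_lt] at hcon
    have h1 : (1 : ℝ) ≤ r ^ (p - 1) := one_le_pow₀ hcon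
    have h2 : (1 : ℝ) ≤ p := by exact_mod_cast hpp.out.one_le
    nlinarith
  set θ : ℝ := max r ((p : ℝ) * r ^ (p - 1)) with hθ
  have hθ0 : 0 ≤ θ := le_max_of_le_left hr0
  have hθ1 : θ < 1 := max_lt hr1 hr
  -- the key improvement step
  have step : ∀ s : ℝ, 0 ≤ s → (∀ d ∈ 𝒟, ‖d γ - d 1‖ ≤ s) → ∀ d ∈ 𝒟, ‖d γ - d 1‖ ≤ s * θ := by
    intro s hs0 hys d hd
    have hexp := h8_translate_eq (Ω := Ω) γ p d 1
    rw [hγ, one_mul, Finset.sum_range_succ',
      show Finset.range p = Finset.range ((p - 1) + 1) from by congr 1; omega,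
      Finset.sum_range_succ'] at hexp
    simp only [Nat.choose_zero_right, Nat.cast_one, pow_zero, one_mul, zero_add,
      Nat.choose_one_right, pow_one, Module.End.one_apply] at hexp
    have hy : h8_delta γ d 1 = d γ - d 1 := by rw [h8_delta_apply, mul_one]
    have h1 : (p : Ω) * (d γ - d 1) =
        - ∑ m ∈ Finset.range (p - 1), ((p.choose (m + 2) : ℕ) : Ω) * (h8_delta γ ^ (m + 2)) d 1 := by
      rw [← hy]
      linear_combination -hexp
    have hbound : ‖∑ m ∈ Finset.range (p - 1),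
        ((p.choose (m + 2) : ℕ) : Ω) * (h8_delta γ ^ (m + 2)) d 1‖ ≤ (p : ℝ)⁻¹ * (s * θ) := by
      refine IsUltrametricDist.norm_sum_le_of_forall_le_of_nonneg (by positivity) ?_
      intro m hm
      rw [Finset.mem_range] at hm
      rw [norm_mul]
      have hym : ‖(h8_delta γ ^ (m + 2)) d 1‖ ≤ s * r ^ (m + 1) :=
        h8_delta_small h𝒟 γ hr0 hs0 hsmall hys (m + 1) d hd
      by_cases hmp : m + 2 = p
      · rw [hmp, Nat.choose_self, Nat.cast_one, norm_one, one_mul]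
        have hm1 : m + 1 = p - 1 := by omega
        calc ‖(h8_delta γ ^ p) d 1‖ = ‖(h8_delta γ ^ (m + 2)) d 1‖ := by rw [hmp]
          _ ≤ s * r ^ (m + 1) := hym
          _ = (p : ℝ)⁻¹ * (s * ((p : ℝ) * r ^ (p - 1))) := by
              rw [hm1]; field_simp
          _ ≤ (p : ℝ)⁻¹ * (s * θ) := by
              gcongr
              exact le_max_right _ _
      · have hlt : m + 2 < p := by omega
        have hdvd : p ∣ p.choose (m + 2) := hpp.out.dvd_choose_self (by omega) hlt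
        obtain ⟨c, hc⟩ := hdvd
        have hnc : ‖((p.choose (m + 2) : ℕ) : Ω)‖ ≤ (p : ℝ)⁻¹ := by
          rw [hc, Nat.cast_mul, norm_mul, hp]
          exact mul_le_of_le_one_right (by positivity) (IsUltrametricDist.norm_natCast_le_one Ω c)
        have hrm : r ^ (m + 1) ≤ r := by
          calc r ^ (m + 1) ≤ r ^ 1 := pow_le_pow_of_le_one hr0 hr1.le (by omega)
            _ = r := pow_one r
        calc ‖((p.choose (m + 2) : ℕ) : Ω)‖ * ‖(h8_delta γ ^ (m + 2)) d 1‖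
            ≤ (p : ℝ)⁻¹ * (s * r ^ (m + 1)) := mul_le_mul hnc hym (norm_nonneg _) (by positivity)
          _ ≤ (p : ℝ)⁻¹ * (s * θ) := by
              gcongr
              exact hrm.trans (le_max_left _ _)
    have h2 : ‖(p : Ω) * (d γ - d 1)‖ ≤ (p : ℝ)⁻¹ * (s * θ) := by rw [h1, norm_neg]; exact hbound
    rw [norm_mul, hp] at h2
    exact le_of_mul_le_mul_left h2 (by positivity)
  have hall : ∀ n : ℕ, ∀ d ∈ 𝒟, ‖d γ - d 1‖ ≤ r * θ ^ n := by
    intro n
    induction n with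
    | zero => simpa using hsmall
    | succ n ih =>
      have := step (r * θ ^ n) (by positivity) ih
      intro d hd
      have h3 := this d hd
      rwa [mul_assoc, ← pow_succ] at h3
  intro d hd
  have hlim : ‖d γ - d 1‖ ≤ 0 := by
    have htend : Filter.Tendsto (fun n : ℕ => r * θ ^ n) Filter.atTop (nhds (r * 0)) :=
      (tendsto_pow_atTop_nhds_zero_of_lt_one hθ0 hθ1).const_mul r
    rw [mul_zero] at htend
    exact ge_of_tendsto' htend (fun n => hall n d hd)
  exact sub_eq_zero.mp (norm_le_zero_iff.mp hlim)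

/-- second order expansion: `d (γ^n) = d 1 + n (d γ - d 1) + O(r^2)` on `𝒟`. -/
theorem h8_grp_second {𝒟 : Set (V → Ω)} (h𝒟 : h8_DeltaClosed 𝒟) (γ : V) {r : ℝ} (hr0 : 0 ≤ r)
    (hr1 : r ≤ 1) (hsmall : ∀ d ∈ 𝒟, ‖d γ - d 1‖ ≤ r) (n : ℕ) :
    ∀ d ∈ 𝒟, ‖d (γ ^ n) - d 1 - (n : Ω) * (d γ - d 1)‖ ≤ r ^ 2 := by
  intro d hd
  rcases Nat.eq_zero_or_pos n with rfl | hn
  · simp; positivity
  have hexp := h8_translate_eq (Ω := Ω) γ n d 1
  rw [mul_one, Finset.sum_range_succ',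
    show Finset.range n = Finset.range ((n - 1) + 1) from by congr 1; omega,
    Finset.sum_range_succ'] at hexp
  simp only [Nat.choose_zero_right, Nat.cast_one, pow_zero, one_mul, zero_add,
    Nat.choose_one_right, pow_one, Module.End.one_apply] at hexp
  have hy : h8_delta γ d 1 = d γ - d 1 := by rw [h8_delta_apply, mul_one]
  have h1 : d (γ ^ n) - d 1 - (n : Ω) * (d γ - d 1) =
      ∑ m ∈ Finset.range (n - 1), ((n.choose (m + 2) : ℕ) : Ω) * (h8_delta γ ^ (m + 2)) d 1 := by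
    rw [← hy]
    linear_combination hexp
  rw [h1]
  refine IsUltrametricDist.norm_sum_le_of_forall_le_of_nonneg (by positivity) ?_
  intro m _
  rw [norm_mul]
  have hym : ‖(h8_delta γ ^ (m + 2)) d 1‖ ≤ r * r ^ (m + 1) :=
    h8_delta_small h𝒟 γ hr0 hr0 hsmall hsmall (m + 1) d hd
  have hrm : r * r ^ (m + 1) ≤ r ^ 2 := by
    rw [← pow_succ']
    exact pow_le_pow_of_le_one hr0 hr1 (by omega)
  calc ‖((n.choose (m + 2) : ℕ) : Ω)‖ * ‖(h8_delta γ ^ (m + 2)) d 1‖
      ≤ 1 * (r * r ^ (m + 1)) :=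
        mul_le_mul (IsUltrametricDist.norm_natCast_le_one Ω _) hym (norm_nonneg _) zero_le_one
    _ ≤ r ^ 2 := by rw [one_mul]; exact hrm

end Fermat.Agent.S56
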