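/-
S56 / W3 (flat local bound), E-RED quotient API, part 3: lattices of equivariant functions on a
finite commutative monoid `V` with an action of `Gal(Ω/ℚ_p)`, and the functions invariant under
a subset `X` (= "functions on the quotient group scheme").  Main results:
* `h8_lat_deltaClosed` : the `X`-invariant functions are closed under comultiplication
  (two-sided), by a basis argument over the PID `ℤ_p` and Artin's lemma;
* `h8_lat_indicator` : `p^m • 1_X` is an `X`-invariant function of the lattice;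
* `h8_lat_rigid` : rigidity (Lemma A) for the quotient by `X`.
-/
import Fermat.Agent.S56.h62_W3Basics
import Fermat.Agent.S56.h8_QuotRigid
import Fermat.Agent.S56.h8_QuotArtin

set_option autoImplicit false

namespace Fermat.Agent.S56

variable (p : ℕ) [Fact p.Prime]

local notation "Ω" => PadicAlgCl p

/-- a lattice of functions on a commutative monoid `V` with `Gal(Ω/ℚ_p)`-action: a finitely
generated `ℤ_p`-submodule of `V → Ω` consisting of equivariant functions, which is a ring,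
separates points and is closed under comultiplication. -/
structure h8_FnLat {V : Type} [CommMonoid V] (act : h78_G p → V → V)
    (F : Submodule ℤ_[p] (V → PadicAlgCl p)) : Prop where
  fg : F.FG
  equiv : ∀ f ∈ F, ∀ (g : h78_G p) (v : V), f (act g v) = g (f v)
  one_mem : (1 : V → PadicAlgCl p) ∈ F
  mul_mem : ∀ f ∈ F, ∀ f' ∈ F, f * f' ∈ F
  sep : ∀ v w : V, v ≠ w → ∃ f ∈ F, f v ≠ f w
  delta : h8_DeltaClosed (F : Set (V → PadicAlgCl p))
  surj : ∀ g, Function.Surjective (act g)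

/-- the functions of the lattice `F` which are invariant under translation by `X`. -/
def h8_inv {V : Type} [CommMonoid V] (F : Submodule ℤ_[p] (V → PadicAlgCl p)) (X : Set V) :
    Submodule ℤ_[p] (V → PadicAlgCl p) where
  carrier := {f | f ∈ F ∧ ∀ a : V, ∀ u ∈ X, f (a * u) = f a}
  add_mem' := by
    rintro f f' ⟨hf, hf'⟩ ⟨hg, hg'⟩
    exact ⟨F.add_mem hf hg, fun a u hu => by rw [Pi.add_apply, Pi.add_apply, hf' a u hu, hg' a u hu]⟩
  zero_mem' := ⟨F.zero_mem, fun _ _ _ => rfl⟩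
  smul_mem' := by
    rintro c f ⟨hf, hf'⟩
    exact ⟨F.smul_mem c hf, fun a u hu => by rw [Pi.smul_apply, Pi.smul_apply, hf' a u hu]⟩

theorem h8_mem_inv {V : Type} [CommMonoid V] (F : Submodule ℤ_[p] (V → PadicAlgCl p)) (X : Set V)
    (f : V → PadicAlgCl p) :
    f ∈ h8_inv p F X ↔ f ∈ F ∧ ∀ a : V, ∀ u ∈ X, f (a * u) = f a := Iff.rfl

theorem h8_inv_le {V : Type} [CommMonoid V] (F : Submodule ℤ_[p] (V → PadicAlgCl p)) (X : Set V) :
    h8_inv p F X ≤ F := fun _ hf => hf.1

/-- the fixed field of `Gal(Ω/ℚ_p)` is `ℚ_p`. -/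
theorem h8_fixed_Qp (x : Ω) (hx : ∀ g : h78_G p, (g : Ω →+* Ω) x = x) :
    x ∈ Set.range (algebraMap ℚ_[p] Ω) := by
  have h1 := h62_mem_of_fixed p ⊥ x (fun g _ => hx g)
  exact IntermediateField.mem_bot.1 h1

theorem h8_torsionFree (V : Type) : Module.IsTorsionFree ℤ_[p] (V → Ω) := by
  refine Module.IsTorsionFree.of_smul_eq_zero fun r f h => ?_
  by_cases hr : r = 0
  · exact Or.inl hr
  right
  funext v
  have h1 : r • f v = 0 := congrFun h v
  have h2 : r • f v = algebraMap ℚ_[p] Ω (r : ℚ_[p]) * f v := by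
    rw [← Algebra.smul_def]; rfl
  rw [h2] at h1
  rcases mul_eq_zero.1 h1 with h3 | h3
  · exfalso
    apply hr
    have h4 : (r : ℚ_[p]) = 0 := by
      have := (algebraMap ℚ_[p] Ω).injective
      exact this (by rw [h3, map_zero])
    exact Subtype.ext h4
  · exact h3

/-- clearing denominators: an element of the `ℚ_p`-span of a `ℤ_p`-lattice becomes integral
after multiplication by a power of `p`. -/
theorem h8_span_Qp_clear {V : Type} (F : Submodule ℤ_[p] (V → Ω)) (x : V → Ω)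
    (hx : x ∈ Submodule.span ℚ_[p] (F : Set (V → Ω))) :
    ∃ m : ℕ, ((p : ℚ_[p]) ^ m) • x ∈ F := by
  have hp : p.Prime := Fact.out
  have hpow : ∀ (k : ℕ) (z : V → Ω), z ∈ F → ((p : ℚ_[p]) ^ k) • z ∈ F := by
    intro k z hz
    have : ((p : ℚ_[p]) ^ k) • z = ((p : ℤ_[p]) ^ k) • z := by
      show _ = ((((p : ℤ_[p]) ^ k : ℤ_[p]) : ℚ_[p])) • z
      push_cast; rfl
    rw [this]
    exact F.smul_mem _ hz
  refine Submodule.span_induction ?_ ?_ ?_ ?_ hx
  · intro y hy
    exact ⟨0, by simpa using hy⟩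
  · exact ⟨0, by simp⟩
  · rintro y z - - ⟨m1, h1⟩ ⟨m2, h2⟩
    refine ⟨m1 + m2, ?_⟩
    have : ((p : ℚ_[p]) ^ (m1 + m2)) • (y + z) =
        ((p : ℚ_[p]) ^ m2) • (((p : ℚ_[p]) ^ m1) • y) + ((p : ℚ_[p]) ^ m1) • (((p : ℚ_[p]) ^ m2) • z) := by
      rw [smul_add, smul_smul, smul_smul, ← pow_add, ← pow_add, add_comm m2 m1]
    rw [this]
    exact F.add_mem (hpow _ _ h1) (hpow _ _ h2)
  · rintro q y - ⟨m, hm⟩
    obtain ⟨k, hk⟩ : ∃ k : ℕ, ‖q‖ < (p : ℝ) ^ k :=
      pow_unbounded_of_one_lt ‖q‖ (by exact_mod_cast hp.one_lt)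
    have hn : ‖(p : ℚ_[p]) ^ k * q‖ ≤ 1 := by
      rw [norm_mul, norm_pow, Padic.norm_p, inv_pow]
      have hpk : (0 : ℝ) < (p : ℝ) ^ k := pow_pos (by exact_mod_cast hp.pos) k
      rw [inv_mul_le_iff₀ hpk, mul_one]
      exact hk.le
    refine ⟨k + m, ?_⟩
    let c : ℤ_[p] := ⟨(p : ℚ_[p]) ^ k * q, hn⟩
    have : ((p : ℚ_[p]) ^ (k + m)) • (q • y) = c • (((p : ℚ_[p]) ^ m) • y) := by
      show _ = ((p : ℚ_[p]) ^ k * q) • (((p : ℚ_[p]) ^ m) • y)
      rw [smul_smul, smul_smul, pow_add]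
      congr 1; ring
    rw [this]
    exact F.smul_mem c hm

/-- bases: every submodule `N ≤ F` has a finite `ℤ_p`-basis which is `Ω`-linearly independent. -/
theorem h8_exists_basis {V : Type} [CommMonoid V] {act : h78_G p → V → V}
    {F : Submodule ℤ_[p] (V → Ω)} (hF : h8_FnLat p act F)
    (N : Submodule ℤ_[p] (V → Ω)) (hN : N ≤ F) :
    ∃ (n : ℕ) (e : Fin n → V → Ω), (∀ i, e i ∈ N) ∧
      (∀ f ∈ N, ∃ c : Fin n → ℤ_[p], f = ∑ i, c i • e i) ∧ LinearIndependent Ω e := by
  have htf : Module.IsTorsionFree ℤ_[p] (V → Ω) := h8_torsionFree p V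
  have hFfin : Module.Finite ℤ_[p] F := Module.Finite.iff_fg.2 hF.fg
  have hNfg : N.FG := by
    have hnoeth : IsNoetherian ℤ_[p] F := inferInstance
    have h1 : (Submodule.comap F.subtype N).FG := IsNoetherian.noetherian _
    have h2 := h1.map F.subtype
    rwa [Submodule.map_comap_subtype, inf_eq_right.2 hN] at h2
  have hNfin : Module.Finite ℤ_[p] N := Module.Finite.iff_fg.2 hNfg
  have hNtf : Module.IsTorsionFree ℤ_[p] N :=
    Function.Injective.moduleIsTorsionFree (N.subtype) (Submodule.injective_subtype N)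
      (fun _ _ => rfl)
  obtain ⟨n, b⟩ := Module.basisOfFiniteTypeTorsionFree' (R := ℤ_[p]) (M := N)
  refine ⟨n, fun i => (b i : V → Ω), fun i => (b i).2, ?_, ?_⟩
  · intro f hf
    refine ⟨fun i => b.repr ⟨f, hf⟩ i, ?_⟩
    have h3 := congrArg (N.subtype) (b.sum_repr ⟨f, hf⟩)
    rw [map_sum] at h3
    simpa using h3.symm
  · have h1 : LinearIndependent ℤ_[p] (fun i => (b i : V → Ω)) :=
      b.linearIndependent.map' N.subtype (Submodule.ker_subtype N)
    have h2 : LinearIndependent ℚ_[p] (fun i => (b i : V → Ω)) :=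
      (LinearIndependent.iff_fractionRing ℤ_[p] ℚ_[p]).1 h1
    exact h8_artin_li (fun g : h78_G p => (g : Ω →+* Ω)) act (h8_fixed_Qp p) hF.surj _
      (fun i g w => hF.equiv _ (hN (b i).2) g w) h2

/-- **the `X`-invariant functions are closed under comultiplication.** -/
theorem h8_lat_deltaClosed {V : Type} [CommMonoid V] {act : h78_G p → V → V}
    {F : Submodule ℤ_[p] (V → Ω)} (hF : h8_FnLat p act F) (X : Set V) :
    h8_DeltaClosed (h8_inv p F X : Set (V → Ω)) := by
  classical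
  obtain ⟨n, e, heF, hespan, heli⟩ := h8_exists_basis p hF F le_rfl
  obtain ⟨n', e', he'D, he'span, he'li⟩ := h8_exists_basis p hF (h8_inv p F X) (h8_inv_le p F X)
  intro d hd
  obtain ⟨m, x, y, hxy, hd'⟩ := hF.delta d hd.1
  choose c hc using fun i => hespan (x i) (hxy i).1
  let Y : Fin n → V → Ω := fun j => ∑ i, c i j • y i
  have hYF : ∀ j, Y j ∈ F := fun j => F.sum_mem fun i _ => F.smul_mem _ (hxy i).2
  have h1 : ∀ a b : V, d (a * b) = ∑ j, e j a * Y j b := by
    intro a b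
    rw [hd' a b]
    calc ∑ i, x i a * y i b = ∑ i, ∑ j, (c i j • e j a) * y i b := by
          refine Finset.sum_congr rfl fun i _ => ?_
          conv_lhs => rw [hc i]
          rw [Finset.sum_apply, Finset.sum_mul]
          rfl
      _ = ∑ j, ∑ i, (c i j • e j a) * y i b := Finset.sum_comm
      _ = ∑ j, e j a * Y j b := by
          refine Finset.sum_congr rfl fun j _ => ?_
          show _ = e j a * (∑ i, c i j • y i) b
          rw [Finset.sum_apply, Finset.mul_sum]
          refine Finset.sum_congr rfl fun i _ => ?_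
          rw [Pi.smul_apply, smul_mul_assoc, mul_smul_comm]
  have hYD : ∀ j, Y j ∈ h8_inv p F X := by
    intro j
    refine ⟨hYF j, fun b u hu => ?_⟩
    have h2 : ∑ j, (Y j (b * u) - Y j b) • e j = 0 := by
      funext a
      rw [Finset.sum_apply]
      simp only [Pi.smul_apply, smul_eq_mul, Pi.zero_apply]
      have h3 := h1 a (b * u)
      have h4 := h1 a b
      have h5 : d (a * (b * u)) = d (a * b) := by rw [← mul_assoc]; exact hd.2 _ u hu
      calc ∑ j, (Y j (b * u) - Y j b) * e j a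
          = ∑ j, e j a * Y j (b * u) - ∑ j, e j a * Y j b := by
            rw [← Finset.sum_sub_distrib]; exact Finset.sum_congr rfl fun j _ => by ring
        _ = 0 := by rw [← h3, ← h4, h5, sub_self]
    have h6 := (Fintype.linearIndependent_iff.1 heli) _ h2 j
    exact sub_eq_zero.1 h6
  choose c' hc' using fun j => he'span (Y j) (hYD j)
  let Xf : Fin n' → V → Ω := fun k => ∑ j, c' j k • e j
  have hXF : ∀ k, Xf k ∈ F := fun k => F.sum_mem fun j _ => F.smul_mem _ (heF j)
  have h7 : ∀ a b : V, d (a * b) = ∑ k, Xf k a * e' k b := by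
    intro a b
    rw [h1 a b]
    calc ∑ j, e j a * Y j b = ∑ j, ∑ k, e j a * (c' j k • e' k b) := by
          refine Finset.sum_congr rfl fun j _ => ?_
          conv_lhs => rw [hc' j]
          rw [Finset.sum_apply, Finset.mul_sum]
          rfl
      _ = ∑ k, ∑ j, e j a * (c' j k • e' k b) := Finset.sum_comm
      _ = ∑ k, Xf k a * e' k b := by
          refine Finset.sum_congr rfl fun k _ => ?_
          show _ = (∑ j, c' j k • e j) a * e' k b
          rw [Finset.sum_apply, Finset.sum_mul]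
          refine Finset.sum_congr rfl fun j _ => ?_
          rw [Pi.smul_apply, smul_mul_assoc, mul_smul_comm]
  have hXD : ∀ k, Xf k ∈ h8_inv p F X := by
    intro k
    refine ⟨hXF k, fun a u hu => ?_⟩
    have h2 : ∑ k, (Xf k (a * u) - Xf k a) • e' k = 0 := by
      funext b
      rw [Finset.sum_apply]
      simp only [Pi.smul_apply, smul_eq_mul, Pi.zero_apply]
      have h3 := h7 (a * u) b
      have h4 := h7 a b
      have h5 : d (a * u * b) = d (a * b) := by
        rw [mul_right_comm]; exact hd.2 _ u hu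
      calc ∑ k, (Xf k (a * u) - Xf k a) * e' k b
          = ∑ k, Xf k (a * u) * e' k b - ∑ k, Xf k a * e' k b := by
            rw [← Finset.sum_sub_distrib]; exact Finset.sum_congr rfl fun j _ => by ring
        _ = 0 := by rw [← h3, ← h4, h5, sub_self]
    have h6 := (Fintype.linearIndependent_iff.1 he'li) _ h2 k
    exact sub_eq_zero.1 h6
  exact ⟨n', Xf, e', fun k => ⟨hXD k, he'D k⟩, h7⟩

/-- **`p^m • 1_X` is an `X`-invariant function of the lattice** (`X` stable under the Galois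
action and under "division by `X`"). -/
theorem h8_lat_indicator {V : Type} [CommMonoid V] [Finite V] {act : h78_G p → V → V}
    {F : Submodule ℤ_[p] (V → Ω)} (hF : h8_FnLat p act F) (X : Set V)
    (hXG : ∀ g v, act g v ∈ X ↔ v ∈ X) (hXc : ∀ a : V, ∀ u ∈ X, (a * u ∈ X ↔ a ∈ X)) :
    ∃ (m : ℕ) (d : V → Ω), d ∈ h8_inv p F X ∧
      (∀ v ∈ X, d v = (p : Ω) ^ m) ∧ ∀ v, v ∉ X → d v = 0 := by
  classical
  set ind : V → Ω := fun v => if v ∈ X then 1 else 0 with hind
  have h1 : ind ∈ Submodule.span Ω (F : Set (V → Ω)) := by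
    let M : Submonoid (V → Ω) :=
      { carrier := F
        mul_mem' := fun ha hb => hF.mul_mem _ ha _ hb
        one_mem' := hF.one_mem }
    exact h8_lagrange M hF.sep ind
  have h2 : ind ∈ Submodule.span ℚ_[p] (F : Set (V → Ω)) := by
    refine h8_artin_span (K := ℚ_[p]) (fun g : h78_G p => (g : Ω →+* Ω)) act (h8_fixed_Qp p)
      hF.surj _ (fun f hf g v => hF.equiv f hf g v) ind ?_ h1
    intro g v
    simp only [hind]
    by_cases hv : v ∈ X
    · rw [if_pos ((hXG g v).2 hv), if_pos hv]; exact (map_one _).symm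
    · rw [if_neg (fun h => hv ((hXG g v).1 h)), if_neg hv]; exact (map_zero _).symm
  obtain ⟨m, hm⟩ := h8_span_Qp_clear p F ind h2
  have hval : ∀ v, (((p : ℚ_[p]) ^ m) • ind) v = if v ∈ X then (p : Ω) ^ m else 0 := by
    intro v
    rw [Pi.smul_apply, Algebra.smul_def, map_pow, map_natCast]
    simp only [hind]
    split_ifs <;> simp
  refine ⟨m, ((p : ℚ_[p]) ^ m) • ind, ⟨hm, ?_⟩, fun v hv => by rw [hval, if_pos hv],
    fun v hv => by rw [hval, if_neg hv]⟩
  intro a u hu
  rw [hval, hval, if_congr (hXc a u hu) rfl rfl]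

/-- **rigidity for the quotient by `X`** (Lemma A on the `X`-invariant functions): if `γ^p = 1`
and every `X`-invariant function `d` of the lattice has `‖d γ - d 1‖ ≤ r` with
`p * r^(p-1) < 1`, then `γ ∈ X`. -/
theorem h8_lat_rigid {V : Type} [CommMonoid V] [Finite V] {act : h78_G p → V → V}
    {F : Submodule ℤ_[p] (V → Ω)} (hF : h8_FnLat p act F) (X : Set V)
    (hXG : ∀ g v, act g v ∈ X ↔ v ∈ X) (hXc : ∀ a : V, ∀ u ∈ X, (a * u ∈ X ↔ a ∈ X))
    (hX1 : (1 : V) ∈ X) (γ : V) (hγ : γ ^ p = 1) {r : ℝ} (hr0 : 0 ≤ r)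
    (hr : (p : ℝ) * r ^ (p - 1) < 1)
    (hsmall : ∀ d ∈ h8_inv p F X, ‖d γ - d 1‖ ≤ r) : γ ∈ X := by
  have hp : p.Prime := Fact.out
  obtain ⟨m, d, hd, hdX, hdn⟩ := h8_lat_indicator p hF X hXG hXc
  have h1 := h8_grp_rigid p (h62_norm_p p) (h8_lat_deltaClosed p hF X) γ hγ hr0 hr
    hsmall d hd
  rw [hdX 1 hX1] at h1
  by_contra hcon
  rw [hdn γ hcon] at h1
  have hp0 : (p : Ω) ≠ 0 := by exact_mod_cast hp.ne_zero
  exact pow_ne_zero m hp0 h1.symm

/-- the sup of `‖d γ - d 1‖` over the `X`-invariant functions is attained. -/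
theorem h8_lat_sup {V : Type} [CommMonoid V] {act : h78_G p → V → V}
    {F : Submodule ℤ_[p] (V → Ω)} (hF : h8_FnLat p act F) (X : Set V) (γ : V) :
    ∃ d₀ ∈ h8_inv p F X, ∀ d ∈ h8_inv p F X, ‖d γ - d 1‖ ≤ ‖d₀ γ - d₀ 1‖ := by
  classical
  obtain ⟨n, e, heD, hespan, -⟩ := h8_exists_basis p hF (h8_inv p F X) (h8_inv_le p F X)
  rcases Nat.eq_zero_or_pos n with rfl | hn
  · refine ⟨0, Submodule.zero_mem _, fun d hd => ?_⟩
    obtain ⟨c, hc⟩ := hespan d hd
    rw [hc]; simp
  · have : Nonempty (Fin n) := ⟨⟨0, hn⟩⟩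
    obtain ⟨i₀, -, hi₀⟩ := Finset.exists_max_image Finset.univ
      (fun i => ‖e i γ - e i 1‖) Finset.univ_nonempty
    refine ⟨e i₀, heD i₀, fun d hd => ?_⟩
    obtain ⟨c, hc⟩ := hespan d hd
    have h1 : d γ - d 1 = ∑ i, c i • (e i γ - e i 1) := by
      rw [hc, Finset.sum_apply, Finset.sum_apply, ← Finset.sum_sub_distrib]
      refine Finset.sum_congr rfl fun i _ => ?_
      rw [Pi.smul_apply, Pi.smul_apply, smul_sub]
    rw [h1]
    refine IsUltrametricDist.norm_sum_le_of_forall_le_of_nonneg (norm_nonneg _) ?_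
    intro i _
    have h2 : c i • (e i γ - e i 1) = algebraMap ℚ_[p] Ω (c i : ℚ_[p]) * (e i γ - e i 1) := by
      rw [← Algebra.smul_def]; rfl
    rw [h2, norm_mul, PadicAlgCl.norm_extends]
    calc ‖(c i : ℚ_[p])‖ * ‖e i γ - e i 1‖ ≤ 1 * ‖e i γ - e i 1‖ :=
          mul_le_mul_of_nonneg_right (c i).2 (norm_nonneg _)
      _ = ‖e i γ - e i 1‖ := one_mul _
      _ ≤ ‖e i₀ γ - e i₀ 1‖ := hi₀ i (Finset.mem_univ i)

end Fermat.Agent.S56
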