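/-
S56 / W3 (flat local bound), E-RED quotient API, part 4: the quotient of the group of points
`V = WithConv (H →ₐ[ℤ_(p)] Ω)` of a finite cocommutative bialgebra `H` over `ℤ_(p)` by a
Galois-stable submonoid `X`, at the level of functions on `V`:
* `h8_F p H`   : the `ℤ_p`-span of the evaluation functions `γ ↦ γ h`;
* `h8_Dq p X`  : the functions of `h8_F` invariant under translation by `X`
                 (= the functions on the quotient group scheme, over `ℤ_p`);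
* QA1 `h8_quot_rigid` : Lemma A (rigidity) for the quotient;
* QA2 `h8_quot_conn`  : a point `≡ 1 mod 𝔪` whose class mod `X` is fixed by inertia lies in `X`
                        (`p` odd);
* QA3 `h8_quot_second`, `h8_quot_equiv` : second order expansion and equivariance on `h8_Dq`;
* QA4 `h8_quot_sup`, `h8_quot_eq_iff` : the sup is attained; `h8_Dq` detects `X`.
-/
import Fermat.Agent.S56.h8_QuotLat

set_option autoImplicit false

open Coalgebra WithConv TensorProduct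

namespace Fermat.Agent.S56

variable (p : ℕ) [Fact p.Prime]

local notation "Ω" => PadicAlgCl p
local notation "Fld" => IntermediateField ℚ_[p] (PadicAlgCl p)

theorem h8_algebraMap_Zp (a : h78_Zp p) : algebraMap (h78_Zp p) Ω a = ((a : ℚ) : Ω) := by
  show algebraMap ℚ Ω (a : ℚ) = _
  exact eq_ratCast _ _

/-- an element of `Gal(Ω/ℚ_p)` as a `ℤ_(p)`-algebra endomorphism of `Ω`. -/
noncomputable def h8_zpHom (σ : h78_G p) : PadicAlgCl p →ₐ[h78_Zp p] PadicAlgCl p :=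
  { (σ : PadicAlgCl p →+* PadicAlgCl p) with
    commutes' := by
      intro a
      show σ (algebraMap (h78_Zp p) Ω a) = algebraMap (h78_Zp p) Ω a
      rw [h8_algebraMap_Zp, map_ratCast] }

theorem h8_zpHom_apply (σ : h78_G p) (x : Ω) : h8_zpHom p σ x = σ x := rfl

theorem h8_zp_smul (c : ℤ_[p]) (y : Ω) : c • y = algebraMap ℚ_[p] Ω (c : ℚ_[p]) * y := by
  rw [← Algebra.smul_def]; rfl

/-- `ℤ_(p) → ℤ_p`. -/
noncomputable def h8_toZp (a : h78_Zp p) : ℤ_[p] :=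
  ⟨((a : ℚ) : ℚ_[p]), by
    rw [← h62_norm_ratCast, ← h8_algebraMap_Zp]
    exact h62_norm_algebraMap_Zp_le_one p a⟩

section points

variable {H : Type} [CommRing H] [Bialgebra (h78_Zp p) H]

/-- the Galois action on points: `σ • γ = σ ∘ γ`. -/
noncomputable def h8_act (σ : h78_G p) (γ : WithConv (H →ₐ[h78_Zp p] PadicAlgCl p)) :
    WithConv (H →ₐ[h78_Zp p] PadicAlgCl p) :=
  toConv ((h8_zpHom p σ).comp γ.ofConv)

theorem h8_act_apply (σ : h78_G p) (γ : WithConv (H →ₐ[h78_Zp p] Ω)) (h : H) :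
    h8_act p σ γ h = σ (γ h) := rfl

theorem h8_pt_ext {γ γ' : WithConv (H →ₐ[h78_Zp p] Ω)} (h : ∀ x : H, γ x = γ' x) : γ = γ' :=
  WithConv.ext (AlgHom.ext h)

theorem h8_act_inv (σ : h78_G p) (γ : WithConv (H →ₐ[h78_Zp p] Ω)) :
    h8_act p σ (h8_act p σ⁻¹ γ) = γ := by
  apply h8_pt_ext
  intro x
  rw [h8_act_apply, h8_act_apply]
  show (σ * σ⁻¹) (γ x) = γ x
  rw [mul_inv_cancel]; rfl

theorem h8_act_inv' (σ : h78_G p) (γ : WithConv (H →ₐ[h78_Zp p] Ω)) :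
    h8_act p σ⁻¹ (h8_act p σ γ) = γ := by
  apply h8_pt_ext
  intro x
  rw [h8_act_apply, h8_act_apply]
  show (σ⁻¹ * σ) (γ x) = γ x
  rw [inv_mul_cancel]; rfl

theorem h8_act_one (σ : h78_G p) :
    h8_act p σ (1 : WithConv (H →ₐ[h78_Zp p] Ω)) = 1 := by
  apply h8_pt_ext
  intro x
  rw [h8_act_apply, AlgHom.convOne_apply, h8_algebraMap_Zp, map_ratCast]

theorem h8_act_mul (σ : h78_G p) (γ γ' : WithConv (H →ₐ[h78_Zp p] Ω)) :
    h8_act p σ (γ * γ') = h8_act p σ γ * h8_act p σ γ' := by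
  apply WithConv.ext
  exact AlgHom.comp_convMul_distrib (h8_zpHom p σ) γ γ'

/-- the evaluation function of `h : H` on the points. -/
noncomputable def h8_ev (h : H) : WithConv (H →ₐ[h78_Zp p] PadicAlgCl p) → PadicAlgCl p :=
  fun γ => γ h

variable (H) in
/-- the `ℤ_p`-lattice of functions on the points spanned by the evaluations. -/
noncomputable def h8_F : Submodule ℤ_[p] (WithConv (H →ₐ[h78_Zp p] PadicAlgCl p) → PadicAlgCl p) :=
  Submodule.span ℤ_[p] (Set.range (h8_ev p (H := H)))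

theorem h8_ev_mem (h : H) : h8_ev p h ∈ h8_F p H := Submodule.subset_span ⟨h, rfl⟩

theorem h8_ev_smul (a : h78_Zp p) (h : H) : h8_ev p (a • h) = h8_toZp p a • h8_ev p h := by
  funext γ
  show γ.ofConv (a • h) = h8_toZp p a • γ.ofConv h
  rw [h8_zp_smul, map_smul, Algebra.smul_def, h8_algebraMap_Zp]
  show _ = algebraMap ℚ_[p] Ω ((a : ℚ) : ℚ_[p]) * γ.ofConv h
  rw [map_ratCast]

/-- comultiplication of an evaluation function. -/
theorem h8_ev_delta [Coalgebra.IsCocomm (h78_Zp p) H] (h : H) :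
    ∃ (n : ℕ) (a b : Fin n → H), ∀ γ γ' : WithConv (H →ₐ[h78_Zp p] Ω),
      h8_ev p h (γ * γ') = ∑ i, h8_ev p (a i) γ * h8_ev p (b i) γ' := by
  classical
  obtain ⟨S, hS⟩ := TensorProduct.exists_finset (R := h78_Zp p) (comul (R := h78_Zp p) h)
  refine ⟨S.card, fun i => (S.equivFin.symm i).1.1, fun i => (S.equivFin.symm i).1.2, ?_⟩
  intro γ γ'
  show (γ * γ') h = _
  rw [AlgHom.convMul_apply, hS, map_sum]
  rw [← Finset.sum_coe_sort S]
  rw [← Equiv.sum_comp S.equivFin.symm]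
  refine Finset.sum_congr rfl fun i _ => ?_
  rw [Algebra.TensorProduct.lift_tmul]
  rfl

variable [Coalgebra.IsCocomm (h78_Zp p) H]

/-- the lattice of evaluation functions is a function lattice in the sense of `h8_FnLat`. -/
theorem h8_F_fnLat [Module.Finite (h78_Zp p) H] :
    h8_FnLat p (h8_act p (H := H)) (h8_F p H) where
  fg := by
    obtain ⟨n, s, hs⟩ := Module.Finite.exists_fin (R := h78_Zp p) (M := H)
    have h1 : h8_F p H = Submodule.span ℤ_[p] (Set.range (fun i => h8_ev p (s i))) := by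
      apply le_antisymm
      · rw [h8_F, Submodule.span_le]
        rintro _ ⟨h, rfl⟩
        have hh : h ∈ Submodule.span (h78_Zp p) (Set.range s) := by rw [hs]; trivial
        refine Submodule.span_induction ?_ ?_ ?_ ?_ hh
        · rintro _ ⟨i, rfl⟩
          exact Submodule.subset_span ⟨i, rfl⟩
        · have : h8_ev p (0 : H) = 0 := by funext γ; exact map_zero _
          rw [this]; exact Submodule.zero_mem _
        · intro x y _ _ hx hy
          have : h8_ev p (x + y) = h8_ev p x + h8_ev p y := by funext γ; exact map_add _ _ _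
          rw [this]; exact Submodule.add_mem _ hx hy
        · intro a x _ hx
          rw [h8_ev_smul]; exact Submodule.smul_mem _ _ hx
      · apply Submodule.span_mono
        rintro _ ⟨i, rfl⟩
        exact ⟨s i, rfl⟩
    rw [h1]
    exact Submodule.fg_span (Set.finite_range _)
  equiv := by
    intro f hf g v
    refine Submodule.span_induction ?_ ?_ ?_ ?_ hf
    · rintro _ ⟨h, rfl⟩
      rfl
    · exact (map_zero g).symm
    · intro x y _ _ hx hy
      rw [Pi.add_apply, Pi.add_apply, hx, hy, map_add]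
    · intro c x _ hx
      rw [Pi.smul_apply, Pi.smul_apply, hx, h8_zp_smul, h8_zp_smul, map_mul, AlgEquiv.commutes]
  one_mem := by
    have : (1 : WithConv (H →ₐ[h78_Zp p] Ω) → Ω) = h8_ev p (1 : H) := by
      funext γ; exact (map_one _).symm
    rw [this]; exact h8_ev_mem p 1
  mul_mem := by
    intro f hf f' hf'
    have h1 : f * f' ∈ h8_F p H * h8_F p H := Submodule.mul_mem_mul hf hf'
    rw [h8_F, Submodule.span_mul_span] at h1
    refine Submodule.span_mono ?_ h1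
    rintro _ ⟨_, ⟨h, rfl⟩, _, ⟨h', rfl⟩, rfl⟩
    exact ⟨h * h', by funext γ; exact map_mul _ _ _⟩
  sep := by
    intro v w hvw
    by_contra hcon
    exact hvw (h8_pt_ext p fun x => by_contra fun hne => hcon ⟨h8_ev p x, h8_ev_mem p x, hne⟩)
  delta := by
    intro d hd
    refine Submodule.span_induction ?_ ?_ ?_ ?_ hd
    · rintro _ ⟨h, rfl⟩
      obtain ⟨n, a, b, hab⟩ := h8_ev_delta p h
      exact ⟨n, fun i => h8_ev p (a i), fun i => h8_ev p (b i),
        fun i => ⟨h8_ev_mem p _, h8_ev_mem p _⟩, hab⟩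
    · exact ⟨0, Fin.elim0, Fin.elim0, fun i => i.elim0, fun a b => by simp⟩
    · rintro x y - - ⟨n, x1, y1, h1, h1'⟩ ⟨m, x2, y2, h2, h2'⟩
      refine ⟨n + m, Fin.append x1 x2, Fin.append y1 y2, ?_, ?_⟩
      · intro i
        refine Fin.addCases (fun j => ?_) (fun j => ?_) i
        · rw [Fin.append_left, Fin.append_left]; exact h1 j
        · rw [Fin.append_right, Fin.append_right]; exact h2 j
      · intro a b
        rw [Pi.add_apply, h1' a b, h2' a b, Fin.sum_univ_add]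
        simp only [Fin.append_left, Fin.append_right]
    · rintro c x - ⟨n, x1, y1, h1, h1'⟩
      refine ⟨n, fun i => c • x1 i, y1, fun i => ⟨Submodule.smul_mem _ c (h1 i).1, (h1 i).2⟩, ?_⟩
      intro a b
      rw [Pi.smul_apply, h1' a b, Finset.smul_sum]
      refine Finset.sum_congr rfl fun i _ => ?_
      show c • (x1 i a * y1 i b) = (c • x1 i a) * y1 i b
      rw [smul_mul_assoc]
  surj := fun g v => ⟨h8_act p g⁻¹ v, h8_act_inv p g v⟩

/-- **the functions on the quotient of the points by `X`**: the functions of the lattice `h8_F`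
invariant under translation by `X`. -/
noncomputable def h8_Dq (X : Set (WithConv (H →ₐ[h78_Zp p] PadicAlgCl p))) :
    Submodule ℤ_[p] (WithConv (H →ₐ[h78_Zp p] PadicAlgCl p) → PadicAlgCl p) :=
  h8_inv p (h8_F p H) X

theorem h8_mem_Dq (X : Set (WithConv (H →ₐ[h78_Zp p] Ω))) (f : WithConv (H →ₐ[h78_Zp p] Ω) → Ω) :
    f ∈ h8_Dq p X ↔ f ∈ h8_F p H ∧ ∀ a, ∀ u ∈ X, f (a * u) = f a := Iff.rfl

/-- QA3b : the functions of `h8_Dq` are Galois-equivariant. -/
theorem h8_quot_equiv [Module.Finite (h78_Zp p) H] (X : Set (WithConv (H →ₐ[h78_Zp p] Ω)))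
    (d : WithConv (H →ₐ[h78_Zp p] Ω) → Ω) (hd : d ∈ h8_Dq p X) (σ : h78_G p)
    (γ : WithConv (H →ₐ[h78_Zp p] Ω)) : d (h8_act p σ γ) = σ (d γ) :=
  (h8_F_fnLat p).equiv d hd.1 σ γ

/-- `h8_Dq` is closed under comultiplication. -/
theorem h8_quot_deltaClosed [Module.Finite (h78_Zp p) H]
    (X : Set (WithConv (H →ₐ[h78_Zp p] Ω))) :
    h8_DeltaClosed (h8_Dq p X : Set (WithConv (H →ₐ[h78_Zp p] Ω) → Ω)) :=
  h8_lat_deltaClosed p (h8_F_fnLat p) X

omit [Coalgebra.IsCocomm (h78_Zp p) H] in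
theorem h8_stable_iff (X : Submonoid (WithConv (H →ₐ[h78_Zp p] Ω)))
    (hXG : ∀ (σ : h78_G p) (γ : WithConv (H →ₐ[h78_Zp p] Ω)), γ ∈ X → h8_act p σ γ ∈ X)
    (σ : h78_G p) (γ : WithConv (H →ₐ[h78_Zp p] Ω)) : h8_act p σ γ ∈ (X : Set _) ↔ γ ∈ (X : Set _) := by
  refine ⟨fun h => ?_, hXG σ γ⟩
  have := hXG σ⁻¹ _ h
  rwa [h8_act_inv'] at this

omit [Coalgebra.IsCocomm (h78_Zp p) H] in
theorem h8_cancel_iff (hkill : ∀ γ : WithConv (H →ₐ[h78_Zp p] Ω), γ ^ p = 1)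
    (X : Submonoid (WithConv (H →ₐ[h78_Zp p] Ω))) (a u : WithConv (H →ₐ[h78_Zp p] Ω))
    (hu : u ∈ (X : Set _)) : a * u ∈ (X : Set _) ↔ a ∈ (X : Set _) := by
  have hp : p.Prime := Fact.out
  refine ⟨fun h => ?_, fun h => X.mul_mem h hu⟩
  have h1 : a = a * u * u ^ (p - 1) := by
    rw [mul_assoc, ← pow_succ', Nat.sub_add_cancel hp.one_le, hkill, mul_one]
  have h2 : a * u * u ^ (p - 1) ∈ X := X.mul_mem h (X.pow_mem hu _)
  rw [SetLike.mem_coe, h1]
  exact h2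

/-- **QA1 : rigidity (Lemma A) for the quotient by a Galois-stable submonoid `X`.** -/
theorem h8_quot_rigid [Module.Finite (h78_Zp p) H] [Finite (WithConv (H →ₐ[h78_Zp p] Ω))]
    (hkill : ∀ γ : WithConv (H →ₐ[h78_Zp p] Ω), γ ^ p = 1)
    (X : Submonoid (WithConv (H →ₐ[h78_Zp p] Ω)))
    (hXG : ∀ (σ : h78_G p) (γ : WithConv (H →ₐ[h78_Zp p] Ω)), γ ∈ X → h8_act p σ γ ∈ X)
    (γ : WithConv (H →ₐ[h78_Zp p] Ω)) {r : ℝ} (hr0 : 0 ≤ r) (hr : (p : ℝ) * r ^ (p - 1) < 1)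
    (hsmall : ∀ d ∈ h8_Dq p (X : Set (WithConv (H →ₐ[h78_Zp p] Ω))), ‖d γ - d 1‖ ≤ r) : γ ∈ X :=
  h8_lat_rigid p (h8_F_fnLat p) (X : Set (WithConv (H →ₐ[h78_Zp p] Ω))) (h8_stable_iff p X hXG)
    (fun a u hu => h8_cancel_iff p hkill X a u hu) X.one_mem γ (hkill γ) hr0 hr hsmall

/-- QA4a : `h8_Dq` detects `X`. -/
theorem h8_quot_eq_iff [Module.Finite (h78_Zp p) H] [Finite (WithConv (H →ₐ[h78_Zp p] Ω))]
    (hkill : ∀ γ : WithConv (H →ₐ[h78_Zp p] Ω), γ ^ p = 1)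
    (X : Submonoid (WithConv (H →ₐ[h78_Zp p] Ω)))
    (hXG : ∀ (σ : h78_G p) (γ : WithConv (H →ₐ[h78_Zp p] Ω)), γ ∈ X → h8_act p σ γ ∈ X)
    (γ : WithConv (H →ₐ[h78_Zp p] Ω)) :
    (∀ d ∈ h8_Dq p (X : Set (WithConv (H →ₐ[h78_Zp p] Ω))), d γ = d 1) ↔ γ ∈ X := by
  have hp : p.Prime := Fact.out
  constructor
  · intro h
    refine h8_quot_rigid p hkill X hXG γ (r := 0) le_rfl ?_ ?_
    · rw [zero_pow (by have := hp.two_le; omega), mul_zero]; exact zero_lt_one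
    · intro d hd
      rw [h d hd, sub_self, norm_zero]
  · intro hγ d hd
    have := hd.2 1 γ hγ
    rwa [one_mul] at this

/-- QA4b : the sup of `‖d γ - d 1‖` over `h8_Dq` is attained. -/
theorem h8_quot_sup [Module.Finite (h78_Zp p) H] (X : Set (WithConv (H →ₐ[h78_Zp p] Ω)))
    (γ : WithConv (H →ₐ[h78_Zp p] Ω)) :
    ∃ d₀ ∈ h8_Dq p X, ∀ d ∈ h8_Dq p X, ‖d γ - d 1‖ ≤ ‖d₀ γ - d₀ 1‖ :=
  h8_lat_sup p (h8_F_fnLat p) X γ

/-- QA3a : second order expansion on `h8_Dq`. -/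
theorem h8_quot_second [Module.Finite (h78_Zp p) H] (X : Set (WithConv (H →ₐ[h78_Zp p] Ω)))
    (γ : WithConv (H →ₐ[h78_Zp p] Ω)) {r : ℝ} (hr0 : 0 ≤ r) (hr1 : r ≤ 1)
    (hsmall : ∀ d ∈ h8_Dq p X, ‖d γ - d 1‖ ≤ r) (n : ℕ) :
    ∀ d ∈ h8_Dq p X, ‖d (γ ^ n) - d 1 - (n : Ω) * (d γ - d 1)‖ ≤ r ^ 2 :=
  h8_grp_second (h8_quot_deltaClosed p X) γ hr0 hr1 hsmall n

omit [Coalgebra.IsCocomm (h78_Zp p) H] in
/-- the functions of the lattice are integral and `≡` at points which are `≡ 1 mod 𝔪`. -/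
theorem h8_F_small (γ : WithConv (H →ₐ[h78_Zp p] Ω))
    (hγ : ∀ h : H, ‖γ h - (1 : WithConv (H →ₐ[h78_Zp p] Ω)) h‖ < 1)
    (f : WithConv (H →ₐ[h78_Zp p] Ω) → Ω) (hf : f ∈ h8_F p H) : ‖f γ - f 1‖ < 1 := by
  refine Submodule.span_induction ?_ ?_ ?_ ?_ hf
  · rintro _ ⟨h, rfl⟩
    exact hγ h
  · simp
  · intro x y _ _ hx hy
    have : (x + y) γ - (x + y) 1 = (x γ - x 1) + (y γ - y 1) := by
      simp only [Pi.add_apply]; ring
    rw [this]
    exact lt_of_le_of_lt (IsUltrametricDist.norm_add_le_max _ _) (max_lt hx hy)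
  · intro c x _ hx
    have : (c • x) γ - (c • x) 1 = algebraMap ℚ_[p] Ω (c : ℚ_[p]) * (x γ - x 1) := by
      rw [Pi.smul_apply, Pi.smul_apply, h8_zp_smul, h8_zp_smul, mul_sub]
    rw [this, norm_mul, PadicAlgCl.norm_extends]
    calc ‖(c : ℚ_[p])‖ * ‖x γ - x 1‖ ≤ 1 * ‖x γ - x 1‖ :=
          mul_le_mul_of_nonneg_right c.2 (norm_nonneg _)
      _ = ‖x γ - x 1‖ := one_mul _
      _ < 1 := hx

omit [Coalgebra.IsCocomm (h78_Zp p) H] in
/-- the functions of the lattice take their values in any field containing the values of the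
points. -/
theorem h8_F_mem (La : Fld) (hLpts : ∀ (γ : H →ₐ[h78_Zp p] Ω) (h : H), γ h ∈ La)
    (f : WithConv (H →ₐ[h78_Zp p] Ω) → Ω) (hf : f ∈ h8_F p H)
    (γ : WithConv (H →ₐ[h78_Zp p] Ω)) : f γ ∈ La := by
  refine Submodule.span_induction ?_ ?_ ?_ ?_ hf
  · rintro _ ⟨h, rfl⟩
    exact hLpts γ.ofConv h
  · exact La.zero_mem
  · intro x y _ _ hx hy
    exact La.add_mem hx hy
  · intro c x _ hx
    rw [Pi.smul_apply, h8_zp_smul]
    exact La.mul_mem (La.algebraMap_mem _) hx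

/-- **QA2 : a point `≡ 1 mod 𝔪` whose class modulo `X` is fixed by inertia lies in `X`**
(`p` odd; `X` a Galois-stable submonoid of the points; "inertia" = `h78_J p La` for a field `La`
containing the values of the points, whose `J`-fixed elements have norms in `p^ℤ`). -/
theorem h8_quot_conn (hp2 : p ≠ 2) [Module.Finite (h78_Zp p) H]
    [Finite (WithConv (H →ₐ[h78_Zp p] Ω))]
    (hkill : ∀ γ : WithConv (H →ₐ[h78_Zp p] Ω), γ ^ p = 1)
    (La : Fld) (hLpts : ∀ (γ : H →ₐ[h78_Zp p] Ω) (h : H), γ h ∈ La)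
    (hunr : ∀ x : Ω, x ∈ La → (∀ g ∈ h78_J p La, g x = x) → x ≠ 0 →
      ∃ n : ℤ, ‖x‖ = (p : ℝ) ^ n)
    (X : Submonoid (WithConv (H →ₐ[h78_Zp p] Ω)))
    (hXG : ∀ (σ : h78_G p) (γ : WithConv (H →ₐ[h78_Zp p] Ω)), γ ∈ X → h8_act p σ γ ∈ X)
    (γ : WithConv (H →ₐ[h78_Zp p] Ω))
    (hγ : ∀ h : H, ‖γ h - (1 : WithConv (H →ₐ[h78_Zp p] Ω)) h‖ < 1)
    (hJ : ∀ σ ∈ h78_J p La, ∃ u ∈ X, h8_act p σ γ = γ * u) : γ ∈ X := by
  have hp : p.Prime := Fact.out
  have hp3 : 3 ≤ p := by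
    have := hp.two_le
    omega
  have hp1 : (1 : ℝ) < p := by exact_mod_cast hp.one_lt
  have hp0 : (0 : ℝ) < p := by linarith
  refine h8_quot_rigid p hkill X hXG γ (r := (p : ℝ)⁻¹) (by positivity) ?_ ?_
  · have h1 : ((p : ℝ)⁻¹) ^ (p - 1) ≤ ((p : ℝ)⁻¹) ^ 2 :=
      pow_le_pow_of_le_one (by positivity) (inv_le_one_of_one_le₀ hp1.le) (by omega)
    have h2 : (p : ℝ) * ((p : ℝ)⁻¹) ^ 2 = (p : ℝ)⁻¹ := by field_simp
    calc (p : ℝ) * ((p : ℝ)⁻¹) ^ (p - 1) ≤ (p : ℝ) * ((p : ℝ)⁻¹) ^ 2 :=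
          mul_le_mul_of_nonneg_left h1 hp0.le
      _ = (p : ℝ)⁻¹ := h2
      _ < 1 := inv_lt_one_of_one_lt₀ hp1
  · intro d hd
    set x : Ω := d γ - d 1 with hx
    have hxL : x ∈ La := La.sub_mem (h8_F_mem p La hLpts d hd.1 γ) (h8_F_mem p La hLpts d hd.1 1)
    have hx1 : ‖x‖ < 1 := h8_F_small p γ hγ d hd.1
    have hxJ : ∀ g ∈ h78_J p La, g x = x := by
      intro g hg
      obtain ⟨u, hu, hgu⟩ := hJ g hg
      rw [hx, map_sub, ← h8_quot_equiv p _ d hd g γ, ← h8_quot_equiv p _ d hd g 1, hgu,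
        h8_act_one, hd.2 γ u hu]
    by_cases hx0 : x = 0
    · rw [hx0, norm_zero]; positivity
    obtain ⟨n, hn⟩ := hunr x hxL hxJ hx0
    rw [hn] at hx1 ⊢
    have hn1 : n ≤ -1 := by
      by_contra hcon
      have h0 : (0 : ℤ) ≤ n := by omega
      have : (1 : ℝ) ≤ (p : ℝ) ^ n := one_le_zpow₀ hp1.le h0
      linarith
    calc (p : ℝ) ^ n ≤ (p : ℝ) ^ (-1 : ℤ) := zpow_le_zpow_right₀ hp1.le hn1
      _ = (p : ℝ)⁻¹ := zpow_neg_one _

end points

end Fermat.Agent.S56
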