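/-
S56 / W3 / E-IRR row EI-KUM1 (tasks 639, helper93): the seven elementary lemmas on Kummer
characters `h43_IsKum` (statements verbatim from helper43's skeleton `h43_EIrrSkel`).
-/
import Fermat.Agent.S56.h43_EIDefs

set_option autoImplicit false

namespace Fermat.Agent.S56

variable (p : ℕ) [Fact p.Prime]

local notation "Ω" => PadicAlgCl p
local notation "Fld" => IntermediateField ℚ_[p] (PadicAlgCl p)

/-! ### exponent bookkeeping for a `p`-th root of unity -/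

theorem h93_kum_zeta_ne_zero {ζ : Ω} (hζp : ζ ^ p = 1) : ζ ≠ 0 := by
  rintro rfl
  rw [zero_pow (Fact.out : p.Prime).ne_zero] at hζp
  exact zero_ne_one hζp

/-- integer exponents of a `p`-th root of unity only matter modulo `p`. -/
theorem h93_kum_zpow_congr {ζ : Ω} (hζp : ζ ^ p = 1) {m n : ℤ}
    (h : (m : ZMod p) = (n : ZMod p)) : ζ ^ m = ζ ^ n := by
  have hζ0 := h93_kum_zeta_ne_zero p hζp
  obtain ⟨t, ht⟩ := (ZMod.intCast_eq_intCast_iff_dvd_sub m n p).mp h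
  have hn : n = m + (p : ℤ) * t := by linarith
  rw [hn, zpow_add₀ hζ0, zpow_mul, zpow_natCast, hζp, one_zpow, mul_one]

/-- `ζ ^ x.val = ζ ^ m` for any integer lift `m` of `x : ZMod p`. -/
theorem h93_kum_exp {ζ : Ω} (hζp : ζ ^ p = 1) (x : ZMod p) (m : ℤ) (h : (m : ZMod p) = x) :
    ζ ^ x.val = ζ ^ m := by
  have : NeZero p := ⟨(Fact.out : p.Prime).ne_zero⟩
  rw [← zpow_natCast]
  refine h93_kum_zpow_congr p hζp ?_
  rw [h, Int.cast_natCast, ZMod.natCast_zmod_val]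

theorem h93_kum_exp_add {ζ : Ω} (hζp : ζ ^ p = 1) (x y : ZMod p) :
    ζ ^ (x + y).val = ζ ^ x.val * ζ ^ y.val := by
  have : NeZero p := ⟨(Fact.out : p.Prime).ne_zero⟩
  rw [h93_kum_exp p hζp (x + y) ((x.val : ℤ) + (y.val : ℤ)) (by
    rw [Int.cast_add, Int.cast_natCast, Int.cast_natCast, ZMod.natCast_zmod_val,
      ZMod.natCast_zmod_val]),
    zpow_add₀ (h93_kum_zeta_ne_zero p hζp), zpow_natCast, zpow_natCast]

theorem h93_kum_prim {ζ : Ω} (hζp : ζ ^ p = 1) (hζ1 : ζ ≠ 1) : IsPrimitiveRoot ζ p := by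
  have h := orderOf_eq_prime hζp hζ1
  have h2 := IsPrimitiveRoot.orderOf ζ
  rwa [h] at h2

/-- equal powers of a primitive `p`-th root of unity have exponents congruent modulo `p`. -/
theorem h93_kum_pow_eq {ζ : Ω} (hζp : ζ ^ p = 1) (hζ1 : ζ ≠ 1) {a b : ℕ} (h : ζ ^ a = ζ ^ b) :
    (a : ZMod p) = (b : ZMod p) := by
  have hp0 : 0 < p := (Fact.out : p.Prime).pos
  have hprim := h93_kum_prim p hζp hζ1
  rw [pow_eq_pow_mod a hζp, pow_eq_pow_mod b hζp] at h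
  have h2 := hprim.pow_inj (Nat.mod_lt a hp0) (Nat.mod_lt b hp0) h
  exact (ZMod.natCast_eq_natCast_iff a b p).mpr h2

theorem h93_kum_val_eq {ζ : Ω} (hζp : ζ ^ p = 1) (hζ1 : ζ ≠ 1) {x y : ZMod p}
    (h : ζ ^ x.val = ζ ^ y.val) : x = y := by
  have : NeZero p := ⟨(Fact.out : p.Prime).ne_zero⟩
  have h2 := h93_kum_pow_eq p hζp hζ1 h
  rwa [ZMod.natCast_zmod_val, ZMod.natCast_zmod_val] at h2

/-- elements of `M` built from `ζ ∈ M` are fixed by `Gal(Ω/M)`. -/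
theorem h93_kum_fix_pow (M : Fld) {ζ : Ω} (hζM : ζ ∈ M) {g : h78_G p} (hg : h43_Fix p M g)
    (a : ℕ) : g (ζ ^ a) = ζ ^ a := by
  rw [map_pow, hg ζ hζM]

/-! ### the row statements -/

theorem h43_kum_add (M : Fld) (ζ : Ω) (hζp : ζ ^ p = 1) {u u' : Ω} {f f' : h78_G p → ZMod p}
    (h : h43_IsKum p M ζ u f) (h' : h43_IsKum p M ζ u' f') :
    h43_IsKum p M ζ (u * u') (f + f') := by
  obtain ⟨α, hα, hα0, hαf, hout⟩ := h
  obtain ⟨α', hα', hα'0, hαf', hout'⟩ := h'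
  refine ⟨α * α', by rw [mul_pow, hα, hα'], mul_ne_zero hα0 hα'0, fun g hg => ?_, fun g hg => ?_⟩
  · rw [map_mul, hαf g hg, hαf' g hg, Pi.add_apply, h93_kum_exp_add p hζp]
    ring
  · rw [Pi.add_apply, hout g hg, hout' g hg, add_zero]

theorem h43_kum_zpow (M : Fld) (ζ : Ω) (hζp : ζ ^ p = 1) {u : Ω} {f : h78_G p → ZMod p}
    (c : ℤ) (h : h43_IsKum p M ζ u f) : h43_IsKum p M ζ (u ^ c) (c • f) := by
  have : NeZero p := ⟨(Fact.out : p.Prime).ne_zero⟩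
  obtain ⟨α, hα, hα0, hαf, hout⟩ := h
  refine ⟨α ^ c, ?_, zpow_ne_zero c hα0, fun g hg => ?_, fun g hg => ?_⟩
  · rw [← hα, ← zpow_natCast, ← zpow_mul, mul_comm, zpow_mul, zpow_natCast]
  · rw [map_zpow₀, hαf g hg, mul_zpow]
    congr 1
    rw [Pi.smul_apply, ← zpow_natCast, ← zpow_mul]
    symm
    refine h93_kum_exp p hζp _ _ ?_
    rw [Int.cast_mul, Int.cast_natCast, ZMod.natCast_zmod_val, zsmul_eq_mul, mul_comm]
  · rw [Pi.smul_apply, hout g hg, smul_zero]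

theorem h43_kum_pth (M : Fld) (ζ : Ω) {w : Ω} (hw : w ∈ M) (hw0 : w ≠ 0) :
    h43_IsKum p M ζ (w ^ p) 0 := by
  refine ⟨w, rfl, hw0, fun g hg => ?_, fun g _ => rfl⟩
  rw [hg w hw, Pi.zero_apply, ZMod.val_zero, pow_zero, one_mul]

theorem h43_kum_char_unique (M : Fld) (ζ : Ω) (hζM : ζ ∈ M) (hζp : ζ ^ p = 1) (hζ1 : ζ ≠ 1)
    {u : Ω} {f f' : h78_G p → ZMod p}
    (h : h43_IsKum p M ζ u f) (h' : h43_IsKum p M ζ u f') : f = f' := by
  have : NeZero p := ⟨(Fact.out : p.Prime).ne_zero⟩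
  obtain ⟨α, hα, hα0, hαf, hout⟩ := h
  obtain ⟨α', hα', hα'0, hαf', hout'⟩ := h'
  have hprim := h93_kum_prim p hζp hζ1
  -- `α' = ζ ^ i * α`
  have hξ : (α' / α) ^ p = 1 := by
    rw [div_pow, hα, hα', div_self]
    rw [← hα]
    exact pow_ne_zero p hα0
  obtain ⟨i, -, hi⟩ := hprim.eq_pow_of_pow_eq_one hξ
  have hα'eq : α' = ζ ^ i * α := by
    rw [hi]
    field_simp
  funext g
  by_cases hg : h43_Fix p M g
  · have h1 := hαf' g hg
    rw [hα'eq, map_mul, h93_kum_fix_pow p M hζM hg, hαf g hg] at h1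
    have h2 : ζ ^ (f g).val = ζ ^ (f' g).val := by
      have h3 : ζ ^ i * α ≠ 0 := mul_ne_zero (pow_ne_zero i (h93_kum_zeta_ne_zero p hζp)) hα0
      have h4 : ζ ^ (f g).val * (ζ ^ i * α) = ζ ^ (f' g).val * (ζ ^ i * α) := by
        rw [← h1]
        ring
      exact mul_right_cancel₀ h3 h4
    exact h93_kum_val_eq p hζp hζ1 h2
  · rw [hout g hg, hout' g hg]

theorem h43_kum_elt_unique (M : Fld) (ζ : Ω)
    (hfix : ∀ x : Ω, (∀ g : h78_G p, h43_Fix p M g → g x = x) → x ∈ M)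
    {u u' : Ω} {f : h78_G p → ZMod p}
    (h : h43_IsKum p M ζ u f) (h' : h43_IsKum p M ζ u' f) :
    ∃ w ∈ M, w ≠ 0 ∧ u = u' * w ^ p := by
  obtain ⟨α, hα, hα0, hαf, -⟩ := h
  obtain ⟨α', hα', hα'0, hαf', -⟩ := h'
  refine ⟨α / α', hfix _ fun g hg => ?_, div_ne_zero hα0 hα'0, ?_⟩
  · have hz : ζ ^ (f g).val ≠ 0 := by
      intro h0
      have h1 := hαf g hg
      rw [h0, zero_mul] at h1
      exact hα0 ((map_eq_zero_iff g g.injective).mp h1)
    rw [map_div₀, hαf g hg, hαf' g hg, mul_div_mul_left _ _ hz]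
  · rw [div_pow, hα, hα']
    have : u' ≠ 0 := by
      rw [← hα']
      exact pow_ne_zero p hα'0
    field_simp

theorem h43_kum_additive (M : Fld) (ζ : Ω) (hζM : ζ ∈ M) (hζp : ζ ^ p = 1) (hζ1 : ζ ≠ 1)
    {u : Ω} {f : h78_G p → ZMod p} (h : h43_IsKum p M ζ u f)
    (g g' : h78_G p) (hg : h43_Fix p M g) (hg' : h43_Fix p M g') :
    f (g * g') = f g + f g' := by
  obtain ⟨α, hα, hα0, hαf, -⟩ := h
  have hgg' : h43_Fix p M (g * g') := by
    intro z hz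
    rw [AlgEquiv.mul_apply, hg' z hz, hg z hz]
  have h1 := hαf (g * g') hgg'
  rw [AlgEquiv.mul_apply, hαf g' hg', map_mul, h93_kum_fix_pow p M hζM hg, hαf g hg] at h1
  have h2 : ζ ^ (f g + f g').val = ζ ^ (f (g * g')).val := by
    rw [h93_kum_exp_add p hζp]
    have h4 : ζ ^ (f g).val * ζ ^ (f g').val * α = ζ ^ (f (g * g')).val * α := by
      rw [← h1]
      ring
    exact mul_right_cancel₀ hα0 h4
  exact (h93_kum_val_eq p hζp hζ1 h2).symm

theorem h43_kum_conj (M : Fld) (hM : h78_Stable p M) (ζ : Ω) (hζp : ζ ^ p = 1)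
    (g : h78_G p) (n : ℤ) (hn : g ζ = ζ ^ n) {u : Ω} {f : h78_G p → ZMod p}
    (h : h43_IsKum p M ζ u f) : h43_IsKum p M ζ (g u) (h43_tw p n g f) := by
  have : NeZero p := ⟨(Fact.out : p.Prime).ne_zero⟩
  obtain ⟨α, hα, hα0, hαf, hout⟩ := h
  have htw : ∀ s : h78_G p, h43_tw p n g f s = (n : ZMod p) * f (g⁻¹ * s * g) := fun s => rfl
  have hginv : ∀ z : Ω, g (g⁻¹ z) = z := by
    intro z
    have : (g * g⁻¹) z = z := by rw [mul_inv_cancel, AlgEquiv.one_apply]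
    exact this
  have hginv' : ∀ z : Ω, g⁻¹ (g z) = z := by
    intro z
    have : (g⁻¹ * g) z = z := by rw [inv_mul_cancel, AlgEquiv.one_apply]
    exact this
  have hconj : ∀ s : h78_G p, h43_Fix p M s ↔ h43_Fix p M (g⁻¹ * s * g) := by
    intro s
    constructor
    · intro hs z hz
      rw [AlgEquiv.mul_apply, AlgEquiv.mul_apply, hs (g z) (hM g z hz), hginv']
    · intro hs z hz
      have h1 := hs (g⁻¹ z) (hM g⁻¹ z hz)
      rw [AlgEquiv.mul_apply, AlgEquiv.mul_apply, hginv] at h1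
      have h2 := congrArg g h1
      rwa [hginv, hginv] at h2
  refine ⟨g α, by rw [← map_pow, hα], (map_ne_zero_iff g g.injective).mpr hα0,
    fun s hs => ?_, fun s hs => ?_⟩
  · have hs' := (hconj s).mp hs
    have h1 := hαf _ hs'
    rw [AlgEquiv.mul_apply, AlgEquiv.mul_apply] at h1
    have h2 := congrArg g h1
    rw [hginv, map_mul, map_pow, hn] at h2
    rw [h2, htw]
    congr 1
    rw [← zpow_natCast, ← zpow_mul]
    symm
    refine h93_kum_exp p hζp _ _ ?_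
    rw [Int.cast_mul, Int.cast_natCast, ZMod.natCast_zmod_val]
  · rw [htw, hout _ (fun h' => hs ((hconj s).mpr h')), mul_zero]

end Fermat.Agent.S56
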