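import Mathlib
import Fermat.Agent.S13.h99_Sigma
import Fermat.Agent.S56.h40_DecGen

/-!
# S56 local layer: the tame character calculus without uniformizers (helper93)

`P` a valuation subring of `ℚ̄`, `D_P` / `I_P` its decomposition / inertia group.  For `x ≠ 0` and
`σ ∈ D_P` the quotient `σ x / x` is a unit of `P`; its residue class is written
`h93_res P (σ x / x)`.

* `h93_theta_comp` : for `τ ∈ I_P`, `σ ∈ D_P` : `τ(σ x)/x ≡ (τ x/x)(σ x/x)` modulo `m_P`;
  `h93_theta_pow`, `h93_theta_inv`, `h93_theta_frob` (`(φ τ φ⁻¹) x / x ≡ (τ x / x)^q`).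
* **(C) FROB** `h93_tame_frob` : for a Frobenius `φ` at `P` and `τ ∈ I_P`, the element
  `ρ = φ τ φ⁻¹ τ^(-q)` lies in `I_P` and `ρ x / x ≡ 1` for every `x ≠ 0`.
* **(A) WILD** `h93_wild_trivial_of_pow` : a wild element (`τ x / x ≡ 1` on a `τ`-stable field
  `F`) whose order on `F` is a `P`-unit is trivial on `F`; `h93_wild_pow` : on a finite normal
  `F`, a wild element has `q`-power order.

No discreteness of the valuation is used.
-/

set_option autoImplicit false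

namespace Fermat.Agent.S56

open scoped Pointwise
open Fermat.Agent.S05 Fermat.Agent.S13

local notation "Qb" => AlgebraicClosure ℚ

section Theta

variable (P : ValuationSubring Qb)

/-! ## finite orbits and the valuation -/

/-- every element of `ℚ̄` has a finite orbit under an automorphism. -/
theorem h93_exists_iterate_eq (σ : Qb ≃ₐ[ℚ] Qb) (x : Qb) :
    ∃ n : ℕ, 0 < n ∧ (⇑σ)^[n] x = x := by
  have halg : IsIntegral ℚ x := ((AlgebraicClosure.isAlgebraic ℚ).isAlgebraic x).isIntegral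
  have hroot : ∀ k : ℕ, Polynomial.aeval ((⇑σ)^[k] x) (minpoly ℚ x) = 0 := by
    intro k
    induction k with
    | zero => simp
    | succ k ih =>
      rw [Function.iterate_succ_apply']
      have h := Polynomial.aeval_algHom_apply (σ : Qb →ₐ[ℚ] Qb) ((⇑σ)^[k] x) (minpoly ℚ x)
      have h' : Polynomial.aeval (σ ((⇑σ)^[k] x)) (minpoly ℚ x) =
          σ (Polynomial.aeval ((⇑σ)^[k] x) (minpoly ℚ x)) := h
      rw [h', ih, map_zero]
  have hmem : ∀ k : ℕ, (⇑σ)^[k] x ∈ (minpoly ℚ x).rootSet Qb := fun k =>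
    Polynomial.mem_rootSet.mpr ⟨minpoly.ne_zero halg, hroot k⟩
  have : Finite ((minpoly ℚ x).rootSet Qb) := (Polynomial.rootSet_finite _ _).to_subtype
  obtain ⟨i, j, hij, h⟩ := Finite.exists_ne_map_eq_of_infinite
    (fun k : ℕ => (⟨(⇑σ)^[k] x, hmem k⟩ : (minpoly ℚ x).rootSet Qb))
  have h' : (⇑σ)^[i] x = (⇑σ)^[j] x := congrArg Subtype.val h
  have key : ∀ a b : ℕ, a < b → (⇑σ)^[a] x = (⇑σ)^[b] x → ∃ n : ℕ, 0 < n ∧ (⇑σ)^[n] x = x := by
    intro a b hab hh
    refine ⟨b - a, Nat.sub_pos_of_lt hab, ?_⟩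
    have hinj : Function.Injective (⇑σ)^[a] := Function.Injective.iterate σ.injective a
    apply hinj
    rw [← Function.iterate_add_apply, Nat.add_sub_cancel' hab.le]
    exact hh.symm
  rcases lt_or_gt_of_ne hij with hlt | hlt
  · exact key i j hlt h'
  · exact key j i hlt h'.symm

/-- the decomposition group preserves the valuation. -/
theorem h93_dec_val {σ : Qb ≃ₐ[ℚ] Qb} (hσ : σ ∈ P.decompositionSubgroup ℚ) (x : Qb) :
    P.valuation (σ x) = P.valuation x := by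
  obtain ⟨n, hn, hx⟩ := h93_exists_iterate_eq σ x
  exact h99_val_sigma_eq P (σ : Qb ≃+* Qb) (fun y => by
    rw [ValuationSubring.valuation_le_one_iff, ValuationSubring.valuation_le_one_iff]
    exact h40_dec_mem_iff P hσ y) x hn hx

theorem h93_inertia_le_dec {τ : Qb ≃ₐ[ℚ] Qb} (hτ : τ ∈ P.inertiaSubgroupIn ℚ) :
    τ ∈ P.decompositionSubgroup ℚ := by
  obtain ⟨t, -, rfl⟩ := hτ
  exact t.2

/-- `σ x / x` is a unit of `P` for `σ` in the decomposition group. -/
theorem h93_theta_val {σ : Qb ≃ₐ[ℚ] Qb} (hσ : σ ∈ P.decompositionSubgroup ℚ) {x : Qb}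
    (hx : x ≠ 0) : P.valuation (σ x / x) = 1 := by
  rw [map_div₀, h93_dec_val P hσ, div_self]
  exact (P.valuation.ne_zero_iff.mpr hx)

/-! ## the residue map as a total function -/

open Classical in
/-- the residue class of an element of `ℚ̄` (junk value `0` outside `P`). -/
noncomputable def h93_res (a : Qb) : IsLocalRing.ResidueField P :=
  if h : a ∈ P then IsLocalRing.residue P ⟨a, h⟩ else 0

theorem h93_res_of_mem {a : Qb} (h : a ∈ P) : h93_res P a = IsLocalRing.residue P ⟨a, h⟩ := by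
  unfold h93_res
  exact dif_pos h

theorem h93_mem_of_val {a : Qb} (h : P.valuation a = 1) : a ∈ P :=
  (P.valuation_le_one_iff a).mp h.le

theorem h93_res_mul {a b : Qb} (ha : a ∈ P) (hb : b ∈ P) :
    h93_res P (a * b) = h93_res P a * h93_res P b := by
  rw [h93_res_of_mem P ha, h93_res_of_mem P hb, h93_res_of_mem P (P.mul_mem _ _ ha hb),
    ← map_mul]
  rfl

theorem h93_res_one : h93_res P 1 = 1 := by
  rw [h93_res_of_mem P P.one_mem]
  exact map_one _

theorem h93_res_pow {a : Qb} (ha : a ∈ P) (n : ℕ) : h93_res P (a ^ n) = h93_res P a ^ n := by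
  induction n with
  | zero => rw [pow_zero, pow_zero, h93_res_one]
  | succ n ih => rw [pow_succ, pow_succ, h93_res_mul P (P.pow_mem ha n) ha, ih]

theorem h93_res_eq_iff {a b : Qb} (ha : a ∈ P) (hb : b ∈ P) :
    h93_res P a = h93_res P b ↔ a - b ∈ P.nonunits := by
  rw [h93_res_of_mem P ha, h93_res_of_mem P hb, ← sub_eq_zero, ← map_sub,
    IsLocalRing.residue_eq_zero_iff, ← ValuationSubring.coe_mem_nonunits_iff]
  rfl

theorem h93_res_eq_zero_iff {a : Qb} (ha : a ∈ P) : h93_res P a = 0 ↔ a ∈ P.nonunits := by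
  rw [h93_res_of_mem P ha, IsLocalRing.residue_eq_zero_iff,
    ← ValuationSubring.coe_mem_nonunits_iff]

theorem h93_res_ne_zero {a : Qb} (h : P.valuation a = 1) : h93_res P a ≠ 0 := by
  rw [Ne, h93_res_eq_zero_iff P (h93_mem_of_val P h), ValuationSubring.mem_nonunits_iff, h]
  exact lt_irrefl _

theorem h93_val_inv {a : Qb} (h : P.valuation a = 1) : P.valuation a⁻¹ = 1 := by
  rw [map_inv₀, h, inv_one]

theorem h93_res_inv {a : Qb} (h : P.valuation a = 1) : h93_res P a⁻¹ = (h93_res P a)⁻¹ := by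
  have ha0 : a ≠ 0 := by
    rintro rfl
    rw [map_zero] at h
    exact zero_ne_one h
  have h1 : h93_res P a * h93_res P a⁻¹ = 1 := by
    rw [← h93_res_mul P (h93_mem_of_val P h) (h93_mem_of_val P (h93_val_inv P h)),
      mul_inv_cancel₀ ha0, h93_res_one]
  exact eq_inv_of_mul_eq_one_right h1

theorem h93_res_div {a b : Qb} (ha : a ∈ P) (hb : P.valuation b = 1) :
    h93_res P (a / b) = h93_res P a / h93_res P b := by
  rw [div_eq_mul_inv, div_eq_mul_inv,
    h93_res_mul P ha (h93_mem_of_val P (h93_val_inv P hb)), h93_res_inv P hb]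

/-! ## the calculus of `τ x / x` modulo `m_P` -/

theorem h93_res_inertia {τ : Qb ≃ₐ[ℚ] Qb} (hτ : τ ∈ P.inertiaSubgroupIn ℚ) {u : Qb}
    (hu : u ∈ P) : h93_res P (τ u) = h93_res P u := by
  rw [h93_res_eq_iff P (h26_mem_of_mem_inertia P hτ hu) hu]
  exact h26_sub_mem_nonunits_of_mem_inertia P hτ hu

/-- inertia acts trivially on units modulo `m_P` (multiplicatively). -/
theorem h93_theta_unit {τ : Qb ≃ₐ[ℚ] Qb} (hτ : τ ∈ P.inertiaSubgroupIn ℚ) {u : Qb}
    (hu : P.valuation u = 1) : h93_res P (τ u / u) = 1 := by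
  rw [h93_res_div P (h26_mem_of_mem_inertia P hτ (h93_mem_of_val P hu)) hu,
    h93_res_inertia P hτ (h93_mem_of_val P hu), div_self (h93_res_ne_zero P hu)]

theorem h93_theta_mul_unit {τ : Qb ≃ₐ[ℚ] Qb} (hτ : τ ∈ P.inertiaSubgroupIn ℚ) {x w : Qb}
    (hx : x ≠ 0) (hw : P.valuation w = 1) :
    h93_res P (τ (x * w) / (x * w)) = h93_res P (τ x / x) := by
  have hw0 : w ≠ 0 := by
    rintro rfl
    rw [map_zero] at hw
    exact zero_ne_one hw
  have hD := h93_inertia_le_dec P hτ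
  have h1 : τ (x * w) / (x * w) = (τ x / x) * (τ w / w) := by
    rw [map_mul]
    field_simp
  rw [h1, h93_res_mul P (h93_mem_of_val P (h93_theta_val P hD hx))
    (h93_mem_of_val P (h93_theta_val P hD hw0)), h93_theta_unit P hτ hw, mul_one]

/-- the cocycle rule modulo `m_P`. -/
theorem h93_theta_comp {τ σ : Qb ≃ₐ[ℚ] Qb} (hτ : τ ∈ P.inertiaSubgroupIn ℚ)
    (hσ : σ ∈ P.decompositionSubgroup ℚ) {x : Qb} (hx : x ≠ 0) :
    h93_res P ((τ * σ) x / x) = h93_res P (τ x / x) * h93_res P (σ x / x) := by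
  have hσx : σ x ≠ 0 := by rwa [Ne, EmbeddingLike.map_eq_zero_iff]
  have hD := h93_inertia_le_dec P hτ
  have h1 : (τ * σ) x / x = (τ (σ x) / σ x) * (σ x / x) := by
    rw [AlgEquiv.mul_apply]
    field_simp
  have h2 : σ x = x * (σ x / x) := by field_simp
  have h3 : h93_res P (τ (σ x) / σ x) = h93_res P (τ x / x) := by
    conv_lhs => rw [h2]
    exact h93_theta_mul_unit P hτ hx (h93_theta_val P hσ hx)
  rw [h1, h93_res_mul P (h93_mem_of_val P (h93_theta_val P hD hσx))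
    (h93_mem_of_val P (h93_theta_val P hσ hx)), h3]

theorem h93_theta_pow {τ : Qb ≃ₐ[ℚ] Qb} (hτ : τ ∈ P.inertiaSubgroupIn ℚ) {x : Qb}
    (hx : x ≠ 0) (n : ℕ) : h93_res P ((τ ^ n) x / x) = h93_res P (τ x / x) ^ n := by
  induction n with
  | zero =>
    rw [pow_zero, pow_zero, AlgEquiv.one_apply, div_self hx, h93_res_one]
  | succ n ih =>
    rw [pow_succ', h93_theta_comp P hτ
      ((P.decompositionSubgroup ℚ).pow_mem (h93_inertia_le_dec P hτ) n) hx, ih, pow_succ']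

theorem h93_theta_inv {τ : Qb ≃ₐ[ℚ] Qb} (hτ : τ ∈ P.inertiaSubgroupIn ℚ) {x : Qb}
    (hx : x ≠ 0) : h93_res P (τ⁻¹ x / x) = (h93_res P (τ x / x))⁻¹ := by
  have hD := h93_inertia_le_dec P hτ
  have hDi : τ⁻¹ ∈ P.decompositionSubgroup ℚ := (P.decompositionSubgroup ℚ).inv_mem hD
  have hy : τ⁻¹ x ≠ 0 := by rwa [Ne, EmbeddingLike.map_eq_zero_iff]
  have hτy : τ (τ⁻¹ x) = x := by
    rw [← AlgEquiv.mul_apply, mul_inv_cancel, AlgEquiv.one_apply]
  have h1 : τ⁻¹ x / x = (τ (τ⁻¹ x) / τ⁻¹ x)⁻¹ := by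
    rw [hτy, inv_div]
  have h2 : τ⁻¹ x = x * (τ⁻¹ x / x) := by field_simp
  have h3 : h93_res P (τ (τ⁻¹ x) / τ⁻¹ x) = h93_res P (τ x / x) := by
    conv_lhs => rw [h2]
    exact h93_theta_mul_unit P hτ hx (h93_theta_val P hDi hx)
  rw [h1, h93_res_inv P (h93_theta_val P hD hy), h3]

/-- conjugation by a Frobenius raises the tame character to the `q`-th power. -/
theorem h93_theta_frob {q : ℕ} {φ τ : Qb ≃ₐ[ℚ] Qb} (hφ : P.IsFrobeniusAt φ q)
    (hτ : τ ∈ P.inertiaSubgroupIn ℚ) {x : Qb} (hx : x ≠ 0) :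
    h93_res P ((φ * τ * φ⁻¹) x / x) = h93_res P (τ x / x) ^ q := by
  have hφD : φ ∈ P.decompositionSubgroup ℚ := hφ.mem_decompositionSubgroup
  have hφi : φ⁻¹ ∈ P.decompositionSubgroup ℚ := (P.decompositionSubgroup ℚ).inv_mem hφD
  have hD := h93_inertia_le_dec P hτ
  have hz : φ⁻¹ x ≠ 0 := by rwa [Ne, EmbeddingLike.map_eq_zero_iff]
  have hφz : φ (φ⁻¹ x) = x := by
    rw [← AlgEquiv.mul_apply, mul_inv_cancel, AlgEquiv.one_apply]
  have h1 : (φ * τ * φ⁻¹) x / x = φ (τ (φ⁻¹ x) / φ⁻¹ x) := by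
    rw [map_div₀, hφz]
    rfl
  have ht : τ (φ⁻¹ x) / φ⁻¹ x ∈ P := h93_mem_of_val P (h93_theta_val P hD hz)
  have h2 : h93_res P (φ (τ (φ⁻¹ x) / φ⁻¹ x)) = h93_res P (τ (φ⁻¹ x) / φ⁻¹ x) ^ q := by
    rw [← h93_res_pow P ht, h93_res_eq_iff P ((h40_dec_mem_iff P hφD _).mpr ht) (P.pow_mem ht q)]
    exact h40_frob_sub_pow_mem P hφ ht
  have h3 : φ⁻¹ x = x * (φ⁻¹ x / x) := by field_simp
  have h4 : h93_res P (τ (φ⁻¹ x) / φ⁻¹ x) = h93_res P (τ x / x) := by
    conv_lhs => rw [h3]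
    exact h93_theta_mul_unit P hτ hx (h93_theta_val P hφi hx)
  rw [h1, h2, h4]

/-! ## (C) FROB -/

/-- **(C) FROB.** For a Frobenius `φ` at `P` and `τ` in the inertia group, `φ τ φ⁻¹ τ^(-q)` is
in the inertia group and acts trivially on `x ↦ x` modulo `m_P`, multiplicatively (it is
"wild" on every subfield). -/
theorem h93_tame_frob {q : ℕ} {φ τ : Qb ≃ₐ[ℚ] Qb} (hφ : P.IsFrobeniusAt φ q)
    (hτ : τ ∈ P.inertiaSubgroupIn ℚ) :
    φ * τ * φ⁻¹ * (τ ^ q)⁻¹ ∈ P.inertiaSubgroupIn ℚ ∧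
      ∀ x : Qb, x ≠ 0 → (φ * τ * φ⁻¹ * (τ ^ q)⁻¹) x / x - 1 ∈ P.nonunits := by
  have hφD : φ ∈ P.decompositionSubgroup ℚ := hφ.mem_decompositionSubgroup
  have hD := h93_inertia_le_dec P hτ
  have hτq : τ ^ q ∈ P.inertiaSubgroupIn ℚ := (P.inertiaSubgroupIn ℚ).pow_mem hτ q
  have hτqi : (τ ^ q)⁻¹ ∈ P.decompositionSubgroup ℚ :=
    (P.decompositionSubgroup ℚ).inv_mem (h93_inertia_le_dec P hτq)
  have hc : φ * τ * φ⁻¹ ∈ P.decompositionSubgroup ℚ :=
    (P.decompositionSubgroup ℚ).mul_mem ((P.decompositionSubgroup ℚ).mul_mem hφD hD)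
      ((P.decompositionSubgroup ℚ).inv_mem hφD)
  have hρD : φ * τ * φ⁻¹ * (τ ^ q)⁻¹ ∈ P.decompositionSubgroup ℚ :=
    (P.decompositionSubgroup ℚ).mul_mem hc hτqi
  have key : ∀ x : Qb, x ≠ 0 → (φ * τ * φ⁻¹ * (τ ^ q)⁻¹) x / x - 1 ∈ P.nonunits := by
    intro x hx
    have hy : (τ ^ q)⁻¹ x ≠ 0 := by rwa [Ne, EmbeddingLike.map_eq_zero_iff]
    have h1 : (φ * τ * φ⁻¹ * (τ ^ q)⁻¹) x / x =
        ((φ * τ * φ⁻¹) ((τ ^ q)⁻¹ x) / (τ ^ q)⁻¹ x) * ((τ ^ q)⁻¹ x / x) := by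
      rw [AlgEquiv.mul_apply (φ * τ * φ⁻¹)]
      field_simp
    have h2 : (τ ^ q)⁻¹ x = x * ((τ ^ q)⁻¹ x / x) := by field_simp
    have h3 : h93_res P (τ ((τ ^ q)⁻¹ x) / (τ ^ q)⁻¹ x) = h93_res P (τ x / x) := by
      conv_lhs => rw [h2]
      exact h93_theta_mul_unit P hτ hx (h93_theta_val P hτqi hx)
    have h4 : h93_res P ((φ * τ * φ⁻¹ * (τ ^ q)⁻¹) x / x) = 1 := by
      rw [h1, h93_res_mul P (h93_mem_of_val P (h93_theta_val P hc hy))
        (h93_mem_of_val P (h93_theta_val P hτqi hx)), h93_theta_frob P hφ hτ hy, h3,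
        h93_theta_inv P hτq hx, h93_theta_pow P hτ hx]
      exact mul_inv_cancel₀ (pow_ne_zero _ (h93_res_ne_zero P (h93_theta_val P hD hx)))
    rw [← h93_res_one P, h93_res_eq_iff P (h93_mem_of_val P (h93_theta_val P hρD hx))
      P.one_mem] at h4
    exact h4
  refine ⟨?_, key⟩
  refine h24_mem_inertiaSubgroupIn_Qbar P _ fun b hb => ?_
  by_cases hb0 : b = 0
  · rw [hb0, map_zero, sub_zero]
    exact h24_zero_mem_nonunits P
  · have h1 : (φ * τ * φ⁻¹ * (τ ^ q)⁻¹) b - b =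
        b * ((φ * τ * φ⁻¹ * (τ ^ q)⁻¹) b / b - 1) := by field_simp
    rw [h1]
    exact h24_mul_mem_nonunits P (h24_integral_mem P hb) (key b hb0)

/-! ## (A) WILD -/

/-- powers of a wild element are wild. -/
theorem h93_wild_pow_mem (F : IntermediateField ℚ Qb) {τ : Qb ≃ₐ[ℚ] Qb}
    (hτ : τ ∈ P.inertiaSubgroupIn ℚ)
    (hw : ∀ x ∈ F, x ≠ 0 → τ x / x - 1 ∈ P.nonunits) (j : ℕ) :
    ∀ x ∈ F, x ≠ 0 → (τ ^ j) x / x - 1 ∈ P.nonunits := by
  intro x hxF hx
  have hD := h93_inertia_le_dec P hτ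
  have hDj : τ ^ j ∈ P.decompositionSubgroup ℚ := (P.decompositionSubgroup ℚ).pow_mem hD j
  have h1 : h93_res P (τ x / x) = 1 := by
    rw [← h93_res_one P, h93_res_eq_iff P (h93_mem_of_val P (h93_theta_val P hD hx)) P.one_mem]
    exact hw x hxF hx
  have h2 : h93_res P ((τ ^ j) x / x) = 1 := by
    rw [h93_theta_pow P hτ hx, h1, one_pow]
  rw [← h93_res_one P, h93_res_eq_iff P (h93_mem_of_val P (h93_theta_val P hDj hx))
    P.one_mem] at h2
  exact h2

theorem h93_pow_mem_field (F : IntermediateField ℚ Qb) {τ : Qb ≃ₐ[ℚ] Qb}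
    (hF : ∀ x ∈ F, τ x ∈ F) (j : ℕ) : ∀ x ∈ F, (τ ^ j) x ∈ F := by
  induction j with
  | zero => intro x hx; rwa [pow_zero, AlgEquiv.one_apply]
  | succ j ih =>
    intro x hx
    rw [pow_succ', AlgEquiv.mul_apply]
    exact hF _ (ih x hx)

/-- **(A) WILD, core.** A wild element of a `τ`-stable subfield `F` (`τ x / x ≡ 1` modulo `m_P`
for all `x ∈ F^×`) whose order on `F` divides a `P`-unit `n` is trivial on `F`.
No discreteness of the valuation is needed. -/
theorem h93_wild_trivial_of_pow (F : IntermediateField ℚ Qb) {τ : Qb ≃ₐ[ℚ] Qb}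
    (hτ : τ ∈ P.inertiaSubgroupIn ℚ) (hF : ∀ x ∈ F, τ x ∈ F)
    (hw : ∀ x ∈ F, x ≠ 0 → τ x / x - 1 ∈ P.nonunits)
    {n : ℕ} (hn : (n : Qb) ∉ P.nonunits) (hpow : ∀ x ∈ F, (τ ^ n) x = x) :
    ∀ x ∈ F, τ x = x := by
  intro x hxF
  by_cases hx : x = 0
  · rw [hx, map_zero]
  have hD := h93_inertia_le_dec P hτ
  have hDj : ∀ j : ℕ, τ ^ j ∈ P.decompositionSubgroup ℚ :=
    fun j => (P.decompositionSubgroup ℚ).pow_mem hD j
  have hwj := h93_wild_pow_mem P F hτ hw
  have hFj := h93_pow_mem_field F hF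
  have hn0 : n ≠ 0 := by
    rintro rfl
    apply hn
    rw [Nat.cast_zero]
    exact h24_zero_mem_nonunits P
  have hvn : P.valuation (n : Qb) = 1 := by
    rcases lt_or_eq_of_le ((P.valuation_le_one_iff _).mpr (h26_natCast_mem P n)) with h | h
    · exact absurd ((ValuationSubring.mem_nonunits_iff (A := P)).mpr h) hn
    · exact h
  -- the maximal defect
  obtain ⟨j₀, -, hj₀⟩ := Finset.exists_max_image (Finset.range n)
    (fun j => P.valuation ((τ ^ j) x / x - 1)) ⟨0, Finset.mem_range.mpr (Nat.pos_of_ne_zero hn0)⟩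
  -- the element `m = ∑ (τ^j x / x - 1)`
  set m : Qb := ∑ j ∈ Finset.range n, ((τ ^ j) x / x - 1) with hm
  have hmF : m ∈ F := by
    refine F.sum_mem fun j _ => F.sub_mem (F.div_mem (hFj j x hxF) hxF) F.one_mem
  have hmv : P.valuation m ≤ P.valuation ((τ ^ j₀) x / x - 1) :=
    P.valuation.map_sum_le (fun j hj => hj₀ j hj)
  have hmlt : P.valuation m < 1 :=
    lt_of_le_of_lt hmv ((ValuationSubring.mem_nonunits_iff (A := P)).mp (hwj j₀ x hxF hx))
  -- `s = n + m = ∑ τ^j x / x`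
  have hs : (n : Qb) + m = ∑ j ∈ Finset.range n, (τ ^ j) x / x := by
    rw [hm, Finset.sum_sub_distrib]
    simp
  have hsv : P.valuation ((n : Qb) + m) = 1 := by
    rw [add_comm, ← hvn]
    apply Valuation.map_add_eq_of_lt_right
    rw [hvn]
    exact hmlt
  have hs0 : (n : Qb) + m ≠ 0 := by
    intro h
    rw [h, map_zero] at hsv
    exact zero_ne_one hsv
  -- `y = x * s = ∑ τ^j x` is fixed by `τ`
  have hy : x * ((n : Qb) + m) = ∑ j ∈ Finset.range n, (τ ^ j) x := by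
    rw [hs, Finset.mul_sum]
    refine Finset.sum_congr rfl fun j _ => ?_
    field_simp
  have hτy : τ (x * ((n : Qb) + m)) = x * ((n : Qb) + m) := by
    rw [hy, map_sum]
    have h1 : ∀ j : ℕ, τ ((τ ^ j) x) = (τ ^ (j + 1)) x := by
      intro j
      rw [pow_succ', AlgEquiv.mul_apply]
    simp only [h1]
    have e1 := Finset.sum_range_succ' (fun j => (τ ^ j) x) n
    have e2 := Finset.sum_range_succ (fun j => (τ ^ j) x) n
    rw [e2] at e1
    simp only [hpow x hxF, pow_zero, AlgEquiv.one_apply] at e1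
    exact (add_right_cancel e1).symm
  have hτjy : ∀ j : ℕ, (τ ^ j) (x * ((n : Qb) + m)) = x * ((n : Qb) + m) := by
    intro j
    induction j with
    | zero => rw [pow_zero, AlgEquiv.one_apply]
    | succ j ih => rw [pow_succ', AlgEquiv.mul_apply, ih, hτy]
  -- the defect of `x` is the defect of `m`
  have hdef : ∀ j : ℕ, (τ ^ j) x / x - 1 = ((n : Qb) + m - (τ ^ j) ((n : Qb) + m)) /
      (τ ^ j) ((n : Qb) + m) := by
    intro j
    have h1 := hτjy j
    rw [map_mul] at h1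
    have h2 : (τ ^ j) ((n : Qb) + m) ≠ 0 := by
      rwa [Ne, EmbeddingLike.map_eq_zero_iff]
    have h3 : (τ ^ j) x = x * ((n : Qb) + m) / (τ ^ j) ((n : Qb) + m) := by
      rw [← h1]
      field_simp
    rw [h3]
    field_simp
  have hdefv : P.valuation ((τ ^ j₀) x / x - 1) = P.valuation ((τ ^ j₀) m - m) := by
    rw [hdef j₀, map_div₀, h93_dec_val P (hDj j₀), hsv, div_one, map_add, map_natCast,
      ← Valuation.map_neg]
    congr 1
    ring
  -- conclusion: the maximal defect vanishes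
  have hd0 : P.valuation ((τ ^ j₀) x / x - 1) = 0 := by
    by_contra hne
    by_cases hm0 : m = 0
    · rw [hdefv, hm0, map_zero, sub_zero, map_zero] at hne
      exact hne rfl
    · have h1 : (τ ^ j₀) m - m = m * ((τ ^ j₀) m / m - 1) := by field_simp
      have h2 : P.valuation ((τ ^ j₀) m / m - 1) < 1 :=
        (ValuationSubring.mem_nonunits_iff (A := P)).mp (hwj j₀ m hmF hm0)
      have h3 : P.valuation ((τ ^ j₀) x / x - 1) ≤
          P.valuation ((τ ^ j₀) x / x - 1) * P.valuation ((τ ^ j₀) m / m - 1) := by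
        conv_lhs => rw [hdefv, h1, map_mul]
        exact mul_le_mul_left hmv _
      have h4 : P.valuation ((τ ^ j₀) x / x - 1) * P.valuation ((τ ^ j₀) m / m - 1) <
          P.valuation ((τ ^ j₀) x / x - 1) := by
        have hpos : 0 < P.valuation ((τ ^ j₀) x / x - 1) := zero_lt_iff.mpr hne
        calc P.valuation ((τ ^ j₀) x / x - 1) * P.valuation ((τ ^ j₀) m / m - 1)
            < P.valuation ((τ ^ j₀) x / x - 1) * 1 := by
              exact mul_lt_mul_of_pos_left h2 hpos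
          _ = P.valuation ((τ ^ j₀) x / x - 1) := mul_one _
      exact lt_irrefl _ (lt_of_le_of_lt h3 h4)
  -- hence all defects vanish
  by_cases hn1 : n = 1
  · have := hpow x hxF
    rwa [hn1, pow_one] at this
  · have h1 : 1 ∈ Finset.range n := Finset.mem_range.mpr (by omega)
    have h2 := hj₀ 1 h1
    rw [hd0, le_zero_iff, Valuation.zero_iff, pow_one, sub_eq_zero, div_eq_one_iff_eq hx] at h2
    exact h2

/-- **(A) WILD.** On a finite normal `F`, a wild element of the inertia group at a place over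
`q` has `q`-power order. -/
theorem h93_wild_pow (F : IntermediateField ℚ Qb) [FiniteDimensional ℚ F] [Normal ℚ F]
    {q : ℕ} (hq : q.Prime) (hP : P.LiesOverPrime q) {τ : Qb ≃ₐ[ℚ] Qb}
    (hτ : τ ∈ P.inertiaSubgroupIn ℚ)
    (hw : ∀ x ∈ F, x ≠ 0 → τ x / x - 1 ∈ P.nonunits) :
    ∃ a : ℕ, ∀ x ∈ F, (τ ^ q ^ a) x = x := by
  -- stability of `F`
  have hstab : ∀ (σ : Qb ≃ₐ[ℚ] Qb), ∀ x ∈ F, σ x ∈ F := by
    intro σ x hx
    have h := AlgEquiv.restrictNormal_commutes σ F ⟨x, hx⟩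
    have h' : ((σ.restrictNormal F ⟨x, hx⟩ : F) : Qb) = σ x := h
    rw [← h']
    exact (σ.restrictNormal F ⟨x, hx⟩).2
  -- finite order on `F`
  have hfin : Finite (F ≃ₐ[ℚ] F) := inferInstance
  set r : F ≃ₐ[ℚ] F := AlgEquiv.restrictNormalHom F τ with hr
  have hN : 0 < orderOf r := orderOf_pos r
  have hpowN : ∀ x ∈ F, (τ ^ orderOf r) x = x := by
    intro x hx
    have h1 : AlgEquiv.restrictNormalHom F (τ ^ orderOf r) = 1 := by
      rw [map_pow, ← hr, pow_orderOf_eq_one]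
    have h2 := AlgEquiv.restrictNormal_commutes (τ ^ orderOf r) F ⟨x, hx⟩
    have h3 : ((τ ^ orderOf r).restrictNormal F) = AlgEquiv.restrictNormalHom F (τ ^ orderOf r) :=
      rfl
    rw [h3, h1] at h2
    exact h2.symm
  obtain ⟨a, n, hqn, hNeq⟩ := Nat.exists_eq_pow_mul_and_not_dvd hN.ne' q hq.ne_one
  refine ⟨a, ?_⟩
  have hτa : τ ^ q ^ a ∈ P.inertiaSubgroupIn ℚ := (P.inertiaSubgroupIn ℚ).pow_mem hτ _
  refine h93_wild_trivial_of_pow P F hτa (hstab _) (h93_wild_pow_mem P F hτ hw _)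
    (n := n) ?_ ?_
  · rw [h26_natCast_mem_nonunits_iff P hq hP]
    exact hqn
  · intro x hx
    rw [← pow_mul, ← hNeq]
    exact hpowN x hx

end Theta

end Fermat.Agent.S56
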