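import Fermat.Agent.S56.h73_TameOf
import Fermat.Agent.S56.h40_Tame
import Fermat.Agent.S56.h93_TameTheta

/-!
# S56 / MID row TS2 (helper93): the skeleton statement `h12_tame_cyclic`, no hypotheses

helper73's `h73_tame_cyclic_of` proves the row from the structural tame package
(A) WILD, (B) CYC, (C) FROB at the distinguished place `primeLocalPlace q`.  Here the three
hypotheses become theorems:

* `h93_hypA` : (A) from `h93_wild_pow` (`h93_TameTheta`; helper40's `h40_wild_pow_fix` is an
  independent proof of the same statement);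
* `h93_hypB` : (B) from helper40's `h40_tame_cyc_level`;
* `h93_hypC` : (C) from `h93_tame_frob` (`h93_TameTheta`).

`h93_tame_cyclic` is the row statement verbatim.
-/

set_option autoImplicit false

namespace Fermat.Agent.S56

open Fermat.Agent.S53 Fermat.Agent.S53.Dict ExtCitation groupCohomology

/-- (A) WILD at the distinguished place. -/
theorem h93_hypA (q : Nat.Primes) : h73_HypA q := by
  intro F hfin hnorm τ hw
  have := hfin
  have := hnorm
  exact h93_wild_pow (primeLocalPlace q) F q.2 (h66_primeLocalPlace_lies q) hw.1 hw.2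

/-- (B) CYC at the distinguished place (helper40's `h40_tame_cyc_level`). -/
theorem h93_hypB (q : Nat.Primes) : h73_HypB q := by
  intro F hfin hnorm
  have := hfin
  have := hnorm
  exact h40_tame_cyc_level (primeLocalPlace q) F q.2 (h66_primeLocalPlace_lies q)

/-- (C) FROB at the distinguished place. -/
theorem h93_hypC (q : Nat.Primes) : h73_HypC q := by
  intro F _ _ φ hφ τ hτ
  have h := h93_tame_frob (primeLocalPlace q) hφ hτ
  exact ⟨h.1, fun x _ hx => h.2 x hx⟩

variable (p : ℕ) [Fact p.Prime]

/-- **(TS2)** a homomorphism of `G_q` with open kernel whose image of inertia is a `p`-group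
(`p ≠ q`): the image of inertia is cyclic, generated by `f τ`, and `f (φ τ φ⁻¹) = f τ ^ q` for
Frobenius lifts `φ`.  Skeleton statement `h12_tame_cyclic`, verbatim. -/
theorem h93_tame_cyclic (q : Nat.Primes) (hpq : p ≠ (q : ℕ)) {H : Type*} [Group H]
    (f : primeLocalGaloisGroup q →* H)
    (hlev : ∃ F : IntermediateField ℚ (AlgebraicClosure ℚ), FiniteDimensional ℚ F ∧
      ∀ s : primeLocalGaloisGroup q, primeLocalToGlobal q s ∈ F.fixingSubgroup → f s = 1)
    (hp : ∀ i : primeLocalGaloisGroup q,
      primeLocalToGlobal q i ∈ (primeLocalPlace q).inertiaSubgroupIn ℚ →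
      ∃ n : ℕ, f i ^ (p ^ n) = 1) :
    ∃ τ : primeLocalGaloisGroup q,
      primeLocalToGlobal q τ ∈ (primeLocalPlace q).inertiaSubgroupIn ℚ ∧
      (∀ i : primeLocalGaloisGroup q,
        primeLocalToGlobal q i ∈ (primeLocalPlace q).inertiaSubgroupIn ℚ →
        ∃ m : ℕ, f i = f τ ^ m) ∧
      ∀ φ : primeLocalGaloisGroup q,
        (primeLocalPlace q).IsFrobeniusAt (primeLocalToGlobal q φ) (q : ℕ) →
        f (φ * τ * φ⁻¹) = f τ ^ (q : ℕ) :=
  h73_tame_cyclic_of p q (h93_hypA q) (h93_hypB q) (h93_hypC q) hpq f hlev hp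

end Fermat.Agent.S56
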