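import Fermat.Agent.S56.h43_EIDefs
import Fermat.Agent.S56.h94_ResFin

/-!
# S56 / W3 / E-IRR row EI-RES : the residue domain of `Ω = PadicAlgCl p`

`h43_res` (statement verbatim from the E-IRR skeleton): the closed unit ball `O` of `Ω` is a
subring, and it has a ring homomorphism `res` to a domain `κ` of characteristic `p` whose kernel
is the open unit ball.  (`κ` is the residue field `h94_k p ⊤` of `h94_ResFin`.)
-/

set_option autoImplicit false

namespace Fermat.Agent.S56

variable (p : ℕ) [Fact p.Prime]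

local notation "Ω" => PadicAlgCl p
local notation "Fld" => IntermediateField ℚ_[p] (PadicAlgCl p)

theorem h43_res : ∃ (κ : Type) (_ : CommRing κ) (_ : IsDomain κ) (_ : CharP κ p)
    (O : Subring Ω) (res : O →+* κ),
    (∀ x : Ω, x ∈ O ↔ ‖x‖ ≤ 1) ∧ ∀ x : O, res x = 0 ↔ ‖(x : Ω)‖ < 1 :=
  ⟨h94_k p ⊤, inferInstance, inferInstance, inferInstance, h94_O p ⊤,
    Ideal.Quotient.mk (h94_m p ⊤),
    fun x => by rw [h94_mem_O]; simp,
    fun x => by rw [Ideal.Quotient.eq_zero_iff_mem]; exact h94_mem_m p⟩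

end Fermat.Agent.S56
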