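import Mathlib
import Fermat.Agent.S56.h94_MTameFinal
import Fermat.Agent.S56.h94_ResFin
import Fermat.Agent.S56.h14_ERFrob
import Fermat.Agent.S56.h6_Wild
import Fermat.Agent.S56.h5_KumBasic

/-!
# S56 / W3 / E-RED (route R80) row W3-ER-UNIF

`h94_unif_of_abelian` = `skR_unif_of_abelian` of helper80's E-RED skeleton, verbatim: a finite
abelian extension `F/ℚ_p` of exponent prime to `p` which contains a primitive `p`-th root of unity
`ζ` has uniformizer `ζ - 1`, is tame, its inertia acts on `F` faithfully through its action on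
`ζ`, and every exponent prime to `p` is realised by an inertia element.

Proof: for a uniformizer `π` of `F` and `g ∈ J_F` the unit `g π / π` is congruent to a
`(p-1)`-th root of unity modulo the maximal ideal (Frobenius commutes with `g` on `F`), and
`g π ↦ g π / π mod 𝔪` is injective on the `J`-conjugates of `π` (wild inertia acts trivially on
`F`).  Hence `e ≤ p - 1`; `ζ - 1 ∈ F` gives `p - 1 ∣ e`.
-/

set_option autoImplicit false

namespace Fermat.Agent.S56

variable (p : ℕ) [Fact p.Prime]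

local notation "Ω" => PadicAlgCl p
local notation "Fld" => IntermediateField ℚ_[p] (PadicAlgCl p)

/-- wild inertia acts trivially on a field whose Galois group has exponent prime to `p`. -/
theorem h94_P_trivial (F : Fld) [FiniteDimensional ℚ_[p] F] (hF : h78_Stable p F)
    (m : ℕ) (hm : ¬ p ∣ m) (hexp : ∀ (g : h78_G p), ∀ z ∈ F, (g ^ m) z = z)
    (π : Ω) (hπ : h78_IsUnif p F π) (g : h78_G p) (hg : g ∈ h78_P p F π) :
    ∀ z ∈ F, g z = z := by
  have hm0 : 0 < m := Nat.pos_of_ne_zero (fun h => hm (h ▸ dvd_zero p))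
  exact h6_eq_of_pow_fix p F g (hF g)
    (fun i z hz hz0 => h6_P_small p F hF π hπ (g ^ i) (Subgroup.pow_mem _ hg i) z hz hz0)
    m hm0 hm (hexp g)

/-- two `J`-conjugates of the uniformizer which are congruent modulo `π 𝔪` are equal. -/
theorem h94_conj_eq_of_close (F : Fld) [FiniteDimensional ℚ_[p] F] (hF : h78_Stable p F)
    (m : ℕ) (hm : ¬ p ∣ m) (hexp : ∀ (g : h78_G p), ∀ z ∈ F, (g ^ m) z = z)
    (π : Ω) (hπ : h78_IsUnif p F π) (g h : h78_G p) (hg : g ∈ h78_J p F) (hh : h ∈ h78_J p F)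
    (hlt : ‖g π - h π‖ < ‖π‖) : g π = h π := by
  have hinv : ∀ z : Ω, h⁻¹ (h z) = z := by
    intro z
    show (h⁻¹ * h) z = z
    rw [inv_mul_cancel]; rfl
  have hinv' : ∀ z : Ω, h (h⁻¹ z) = z := by
    intro z
    show (h * h⁻¹) z = z
    rw [mul_inv_cancel]; rfl
  have hmem : h⁻¹ * g ∈ h78_P p F π := by
    refine ⟨Subgroup.mul_mem _ (Subgroup.inv_mem _ hh) hg, Or.inr ?_⟩
    have h1 : (h⁻¹ * g) π - π = h⁻¹ (g π - h π) := by
      rw [AlgEquiv.mul_apply, map_sub, hinv]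
    rw [h1, h78_norm_aut]; exact hlt
  have h2 := h94_P_trivial p F hF m hm hexp π hπ _ hmem π hπ.1
  rw [AlgEquiv.mul_apply] at h2
  have h3 := congrArg h h2
  rwa [hinv'] at h3

/-- for `g ∈ J_F` (and `F/ℚ_p` abelian) the unit `g π / π` is a `(p-1)`-th root of unity modulo
the maximal ideal. -/
theorem h94_theta_pow (F : Fld) [FiniteDimensional ℚ_[p] F] (hF : h78_Stable p F)
    (habel : ∀ (g h : h78_G p), ∀ z ∈ F, g (h z) = h (g z))
    (π : Ω) (hπ : h78_IsUnif p F π) (g : h78_G p) (hg : g ∈ h78_J p F) :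
    ‖(g π / π) ^ (p - 1) - 1‖ < 1 := by
  obtain ⟨hπF, hπ0, -, -⟩ := hπ
  have hp : p.Prime := Fact.out
  have hπpos : 0 < ‖π‖ := norm_pos_iff.2 hπ0
  obtain ⟨φ, hφ, -⟩ := h14_exists_frob p F hF
  set u : Ω := g π / π with hu
  set w : Ω := φ π / π with hw
  have huF : u ∈ F := F.div_mem (hF g π hπF) hπF
  have hwF : w ∈ F := F.div_mem (hF φ π hπF) hπF
  have hu1 : ‖u‖ = 1 := by
    rw [hu, norm_div, h78_norm_aut, div_self hπpos.ne']
  have hw1 : ‖w‖ = 1 := by
    rw [hw, norm_div, h78_norm_aut, div_self hπpos.ne']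
  have hw0 : w ≠ 0 := by
    intro h0; rw [h0, norm_zero] at hw1; exact zero_ne_one hw1
  have hφπ0 : φ π ≠ 0 := by
    rw [← norm_pos_iff, h78_norm_aut]; exact hπpos
  have hgw0 : g w ≠ 0 := by
    rw [← norm_pos_iff, h78_norm_aut, hw1]; exact one_pos
  -- `φ u = u * (g w / w)`
  have h1 : φ u = u * (g w / w) := by
    have hφπ : φ π = π * w := by rw [hw]; field_simp
    rw [hu, map_div₀, habel φ g π hπF, hφπ, map_mul]
    field_simp
  have h2 : ‖g w - w‖ < 1 := h49_J_res p F g hg w hwF hw1.le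
  have h3 : ‖φ u - u‖ < 1 := by
    have : φ u - u = u * ((g w - w) / w) := by
      rw [h1]; field_simp
    rw [this, norm_mul, hu1, one_mul, norm_div, hw1, div_one]
    exact h2
  have h4 : ‖φ u - u ^ p‖ < 1 := hφ u huF hu1.le
  have h5 : ‖u ^ p - u‖ < 1 := by
    have : u ^ p - u = (φ u - u) - (φ u - u ^ p) := by ring
    rw [this]
    exact h6_norm_sub_lt p h3 h4
  have h6 : u ^ p - u = u * (u ^ (p - 1) - 1) := by
    have hpp : u ^ p = u ^ (p - 1) * u := by
      rw [← pow_succ, Nat.sub_add_cancel hp.one_lt.le]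
    rw [hpp]; ring
  rw [h6, norm_mul, hu1, one_mul] at h5
  exact h5

/-- the number of `J`-conjugates of a uniformizer is at most `p - 1`. -/
theorem h94_card_conj_le (F : Fld) [FiniteDimensional ℚ_[p] F] (hF : h78_Stable p F)
    (habel : ∀ (g h : h78_G p), ∀ z ∈ F, g (h z) = h (g z))
    (m : ℕ) (hm : ¬ p ∣ m) (hexp : ∀ (g : h78_G p), ∀ z ∈ F, (g ^ m) z = z)
    (π : Ω) (hπ : h78_IsUnif p F π) :
    (h78_conj p (h78_J p F) π).card ≤ p - 1 := by
  classical
  have hπ0 : π ≠ 0 := hπ.2.1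
  have hπpos : 0 < ‖π‖ := norm_pos_iff.2 hπ0
  -- the residue map `x ↦ x / π mod 𝔪`
  let f : Ω → h94_k p ⊤ := fun x =>
    if h : ‖x / π‖ ≤ 1 then
      Ideal.Quotient.mk (h94_m p ⊤) ⟨x / π, ⟨IntermediateField.mem_top, h⟩⟩
    else 0
  have hnorm : ∀ g : h78_G p, ‖g π / π‖ ≤ 1 := by
    intro g
    rw [norm_div, h78_norm_aut, div_self hπpos.ne']
  have hf : ∀ g : h78_G p, f (g π) =
      Ideal.Quotient.mk (h94_m p ⊤) ⟨g π / π, ⟨IntermediateField.mem_top, hnorm g⟩⟩ := by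
    intro g
    exact dif_pos (hnorm g)
  have h1 : (h78_conj p (h78_J p F) π).card ≤
      ((Polynomial.nthRoots (p - 1) (1 : h94_k p ⊤)).toFinset).card := by
    apply Finset.card_le_card_of_injOn f
    · intro x hx
      rw [Finset.mem_coe, h19_mem_conj] at hx
      obtain ⟨g, hg, rfl⟩ := hx
      have hp1 : 0 < p - 1 := by have := (Fact.out : p.Prime).one_lt; omega
      rw [Finset.mem_coe, Multiset.mem_toFinset, Polynomial.mem_nthRoots hp1, hf g, ← map_pow,
        ← map_one (Ideal.Quotient.mk (h94_m p ⊤)), h94_mk_eq_iff]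
      exact h94_theta_pow p F hF habel π hπ g hg
    · intro x hx y hy hxy
      rw [Finset.mem_coe, h19_mem_conj] at hx hy
      obtain ⟨g, hg, rfl⟩ := hx
      obtain ⟨h, hh, rfl⟩ := hy
      rw [hf g, hf h, h94_mk_eq_iff] at hxy
      apply h94_conj_eq_of_close p F hF m hm hexp π hπ g h hg hh
      have h2 : g π - h π = (g π / π - h π / π) * π := by field_simp
      rw [h2, norm_mul]
      have h3 : ‖g π / π - h π / π‖ * ‖π‖ < 1 * ‖π‖ := mul_lt_mul_of_pos_right hxy hπpos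
      rwa [one_mul] at h3
  exact h1.trans ((Multiset.toFinset_card_le _).trans (Polynomial.card_nthRoots _ _))

/-- **W3-ER-UNIF** (`skR_unif_of_abelian` verbatim). -/
theorem h94_unif_of_abelian (F : Fld) [FiniteDimensional ℚ_[p] F] (hF : h78_Stable p F)
    (habel : ∀ (g h : h78_G p), ∀ z ∈ F, g (h z) = h (g z))
    (m : ℕ) (hm : ¬ p ∣ m) (hexp : ∀ (g : h78_G p), ∀ z ∈ F, (g ^ m) z = z)
    (ζ : Ω) (hζF : ζ ∈ F) (hζp : ζ ^ p = 1) (hζ1 : ζ ≠ 1) :
    h78_IsUnif p F (ζ - 1) ∧ h78_IsTame p F ∧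
      (∀ g ∈ h78_J p F, g ζ = ζ → ∀ z ∈ F, g z = z) ∧
      (∀ n : ℕ, ¬ p ∣ n → ∃ τ ∈ h78_J p F, τ ζ = ζ ^ n) := by
  classical
  have hp : p.Prime := Fact.out
  have hp1 : 1 ≤ p - 1 := by have := hp.one_lt; omega
  obtain ⟨π, hπ⟩ := h94_exists_unif p F
  have hπ0 : π ≠ 0 := hπ.2.1
  have hπpos : 0 < ‖π‖ := norm_pos_iff.2 hπ0
  have hπlt : ‖π‖ < 1 := hπ.2.2.1
  set e : ℕ := (h78_conj p (h78_J p F) π).card with he
  have hcard : ‖π‖ ^ e = (p : ℝ)⁻¹ := h94_card_conjJ p F π hπ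
  have hele : e ≤ p - 1 := h94_card_conj_le p F hF habel m hm hexp π hπ
  have hζF1 : ζ - 1 ∈ F := F.sub_mem hζF F.one_mem
  have hζ0 : ζ - 1 ≠ 0 := sub_ne_zero.2 hζ1
  have hζlt : ‖ζ - 1‖ < 1 := h5_root_unity_lt_one p ζ hζp
  have hζpos : 0 < ‖ζ - 1‖ := norm_pos_iff.2 hζ0
  have hζpow : ‖ζ - 1‖ ^ (p - 1) = (p : ℝ)⁻¹ := h5_root_unity_eq p ζ hζp hζ1
  obtain ⟨n, hn⟩ := hπ.2.2.2 (ζ - 1) hζF1 hζ0
  -- `n * (p - 1) = e`
  have hne : n * ((p - 1 : ℕ) : ℤ) = (e : ℤ) := by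
    apply h5_zpow_inj hπpos hπlt
    rw [zpow_mul, ← hn, zpow_natCast, zpow_natCast, hζpow, hcard]
  have he1 : 1 ≤ e := by
    rcases Nat.eq_zero_or_pos e with h0 | h0
    · rw [h0, pow_zero] at hcard
      have := h5_inv_p_lt_one p
      rw [← hcard] at this
      exact absurd this (lt_irrefl _)
    · exact h0
  have hn1 : n = 1 := by
    have h1 : (1 : ℤ) ≤ ((p - 1 : ℕ) : ℤ) := by exact_mod_cast hp1
    have h2 : (1 : ℤ) ≤ (e : ℤ) := by exact_mod_cast he1
    have h3 : (e : ℤ) ≤ ((p - 1 : ℕ) : ℤ) := by exact_mod_cast hele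
    have h4 : 0 < n := by
      by_contra hcon
      rw [not_lt] at hcon
      have : n * ((p - 1 : ℕ) : ℤ) ≤ 0 := mul_nonpos_of_nonpos_of_nonneg hcon (by linarith)
      linarith
    have h5 : n ≤ 1 := by
      by_contra hcon
      rw [not_le] at hcon
      have : 2 * ((p - 1 : ℕ) : ℤ) ≤ n * ((p - 1 : ℕ) : ℤ) :=
        mul_le_mul_of_nonneg_right (by linarith) (by linarith)
      linarith
    linarith
  have hnorm : ‖ζ - 1‖ = ‖π‖ := by rw [hn, hn1, zpow_one]
  have hunif : h78_IsUnif p F (ζ - 1) := by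
    refine ⟨hζF1, hζ0, hζlt, fun x hx hx0 => ?_⟩
    obtain ⟨k, hk⟩ := hπ.2.2.2 x hx hx0
    exact ⟨k, by rw [hk, hnorm]⟩
  refine ⟨hunif, ?_, ?_, ?_⟩
  · -- tame
    refine ⟨p - 1, ?_, fun x hx hx0 => ?_⟩
    · intro hdvd
      have := Nat.le_of_dvd (by omega) hdvd
      have := hp.one_lt
      omega
    · obtain ⟨k, hk⟩ := hunif.2.2.2 x hx hx0
      refine ⟨-k, ?_⟩
      rw [hk, ← zpow_natCast, ← zpow_mul, mul_comm, zpow_mul, zpow_natCast, hζpow, inv_zpow,
        zpow_neg]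
  · -- inertia acts faithfully through `ζ`
    intro g hg hgζ
    have hgP : g ∈ h78_P p F (ζ - 1) := by
      refine ⟨hg, Or.inr ?_⟩
      rw [map_sub, map_one, hgζ, sub_self, norm_zero]
      exact hζpos
    exact h94_P_trivial p F hF m hm hexp (ζ - 1) hunif g hgP
  · -- every exponent is realised
    have hprim : IsPrimitiveRoot ζ p := by
      have h := IsPrimitiveRoot.orderOf ζ
      rwa [orderOf_eq_prime hζp hζ1] at h
    haveI : NeZero p := ⟨hp.ne_zero⟩
    have hcard' : (h78_conj p (h78_J p F) (ζ - 1)).card = p - 1 := by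
      have h1 : ‖ζ - 1‖ ^ (h78_conj p (h78_J p F) (ζ - 1)).card = (p : ℝ)⁻¹ :=
        h94_card_conjJ p F (ζ - 1) hunif
      exact pow_right_injective₀ hζpos hζlt.ne (h1.trans hζpow.symm)
    set T : Finset Ω := (Finset.Ico 1 p).image (fun j => ζ ^ j - 1) with hT
    have hsub : h78_conj p (h78_J p F) (ζ - 1) ⊆ T := by
      intro x hx
      rw [h19_mem_conj] at hx
      obtain ⟨g, -, rfl⟩ := hx
      have hgp : (g ζ) ^ p = 1 := by rw [← map_pow, hζp, map_one]
      obtain ⟨i, hi, hiζ⟩ := hprim.eq_pow_of_pow_eq_one hgp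
      have hi0 : i ≠ 0 := by
        rintro rfl
        rw [pow_zero] at hiζ
        have : g ζ = g 1 := by rw [map_one, ← hiζ]
        exact hζ1 (g.injective this)
      rw [hT, Finset.mem_image]
      refine ⟨i, Finset.mem_Ico.2 ⟨Nat.one_le_iff_ne_zero.2 hi0, hi⟩, ?_⟩
      rw [map_sub, map_one, hiζ]
    have hTcard : T.card ≤ (h78_conj p (h78_J p F) (ζ - 1)).card := by
      rw [hcard']
      refine Finset.card_image_le.trans ?_
      rw [Nat.card_Ico]
    have hTeq : h78_conj p (h78_J p F) (ζ - 1) = T := Finset.eq_of_subset_of_card_le hsub hTcard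
    intro k hk
    have hk1 : 1 ≤ k % p := by
      rw [Nat.one_le_iff_ne_zero]
      intro h0
      exact hk (Nat.dvd_of_mod_eq_zero h0)
    have hk2 : k % p < p := Nat.mod_lt _ hp.pos
    have hmem : ζ ^ (k % p) - 1 ∈ h78_conj p (h78_J p F) (ζ - 1) := by
      rw [hTeq, hT, Finset.mem_image]
      exact ⟨k % p, Finset.mem_Ico.2 ⟨hk1, hk2⟩, rfl⟩
    rw [h19_mem_conj] at hmem
    obtain ⟨τ, hτ, hτζ⟩ := hmem
    refine ⟨τ, hτ, ?_⟩
    rw [map_sub, map_one] at hτζ
    have h1 : τ ζ = ζ ^ (k % p) := by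
      have := congrArg (fun t => t + 1) hτζ
      simpa using this
    rw [h1, pow_eq_pow_mod k hζp]

end Fermat.Agent.S56
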