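import Fermat.Agent.S56.h96_BaseAlg

/-!
# S56 W1 C7 ALG, part 2: `coind_C^G σ` in dimension form

`G` a group, `C ≤ G`, `σ : Representation k C W`, `M := Representation.coindV C.subtype σ`
(functions `f : G → W` with `f (c * g) = σ c (f g)`, `G` acting by right translation through
`Representation.coind C.subtype σ`).  `C` acts on `G ⧸ D` by left translation.

* `h96_coind_inv`            : `dim M^G = dim W^C`.
* `h96_twInv_finrank`        : `dim {f ∈ M | d • f = χ d • f ∀ d ∈ D} = dim eqv(G ⧸ D, χ⁻¹|_C ⊗ σ)`.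
* `h96_coind_neg_finrank`    : `dim {f ∈ M | c₀ • f = -f} = dim eqv(G ⧸ ⟨c₀⟩, ω⁻¹|_C ⊗ σ)` if
  `ω c₀ = -1`.
* `h96_twDual_finrank`       : `dim {μ ∈ M^∨ | μ (d • f) = ω d • μ f ∀ d ∈ D}
  = dim eqv(G ⧸ D, ω⁻¹|_C ⊗ σ)` for `G` finite, `|C|` invertible in `k` (`D` arbitrary).
-/

namespace Fermat.Agent.S56

open Module Representation

section coind

variable {k : Type*} [Field k] {G : Type*} [Group G] (C : Subgroup G)
  {W : Type*} [AddCommGroup W] [Module k W] (σ : Representation k C W)

/-- `dim (coind_C^G σ)^G = dim σ^C` -/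
theorem h96_coind_inv :
    finrank k (invariants (coind C.subtype σ)) = finrank k (invariants σ) := by
  let L : coindV C.subtype σ →ₗ[k] W := LinearMap.proj (1 : G) ∘ₗ (coindV C.subtype σ).subtype
  have hL : ∀ f : coindV C.subtype σ, L f = (f : G → W) 1 := fun f => rfl
  have hval : ∀ f ∈ invariants (coind C.subtype σ), ∀ g : G, (f : G → W) g = (f : G → W) 1 := by
    intro f hf g
    have h1 : (f : G → W) (1 * g) = (f : G → W) 1 := congrFun (congrArg Subtype.val (hf g)) 1
    rwa [one_mul] at h1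
  refine h96_finrank_eq_of_bij L _ _ ?_ ?_ ?_
  · intro f hf h0
    apply Subtype.ext
    funext g
    rw [hval f hf g, ← hL, h0]
    rfl
  · intro f hf c
    rw [hL]
    have h1 := f.2 c 1
    rw [← h1, hval f hf]
  · intro w hw
    refine ⟨⟨fun _ => w, fun c g => (hw c).symm⟩, ?_, rfl⟩
    intro g
    apply Subtype.ext
    funext x
    rfl

/-- the functions of `coind_C^G σ` which transform through `χ` under right translation by `D` -/
def h96_twFun (D : Subgroup G) (χ : G →* kˣ) : Submodule k (G → W) where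
  carrier := {f | (∀ (c : C) (g : G), f (c * g) = σ c (f g)) ∧
    ∀ d ∈ D, ∀ g : G, f (g * d) = (χ d : k) • f g}
  add_mem' := by
    rintro f f' ⟨h1, h2⟩ ⟨h1', h2'⟩
    refine ⟨fun c g => ?_, fun d hd g => ?_⟩
    · simp [h1 c g, h1' c g]
    · simp [h2 d hd g, h2' d hd g]
  zero_mem' := ⟨fun c g => by simp, fun d hd g => by simp⟩
  smul_mem' := by
    rintro a f ⟨h1, h2⟩
    refine ⟨fun c g => ?_, fun d hd g => ?_⟩
    · rw [Pi.smul_apply, Pi.smul_apply, h1 c g, map_smul]
    · rw [Pi.smul_apply, Pi.smul_apply, h2 d hd g, smul_comm]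

theorem h96_mem_twFun (D : Subgroup G) (χ : G →* kˣ) (f : G → W) :
    f ∈ h96_twFun C σ D χ ↔ (∀ (c : C) (g : G), f (c * g) = σ c (f g)) ∧
      ∀ d ∈ D, ∀ g : G, f (g * d) = (χ d : k) • f g := Iff.rfl

/-- **Mackey without double cosets**: `χ`-twisted right-`D`-invariant elements of `coind_C^G σ`
are the `C`-equivariant functions on `G ⧸ D` with values in `χ⁻¹|_C ⊗ σ`. -/
theorem h96_twFun_finrank (D : Subgroup G) (χ : G →* kˣ) :
    finrank k (h96_twFun C σ D χ) =
      finrank k (h96_eqv (G ⧸ D) (h96_tw (χ.comp C.subtype)⁻¹ σ)) := by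
  let L : (G → W) →ₗ[k] (G ⧸ D → W) :=
    { toFun := fun f x => (χ x.out : k)⁻¹ • f x.out
      map_add' := by
        intro f f'
        funext x
        simp
      map_smul' := by
        intro a f
        funext x
        change (χ x.out : k)⁻¹ • (a • f) x.out = a • ((χ x.out : k)⁻¹ • f x.out)
        rw [Pi.smul_apply, smul_comm] }
  have hL : ∀ f ∈ h96_twFun C σ D χ, ∀ g : G, L f (g : G ⧸ D) = (χ g : k)⁻¹ • f g := by
    intro f hf g
    obtain ⟨d, hd⟩ := QuotientGroup.mk_out_eq_mul D g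
    change (χ (g : G ⧸ D).out : k)⁻¹ • f (g : G ⧸ D).out = _
    rw [hd, hf.2 d d.2 g, map_mul, Units.val_mul, smul_smul]
    congr 1
    field_simp
  refine h96_finrank_eq_of_bij L _ _ ?_ ?_ ?_
  · intro f hf h0
    funext g
    have h1 := congrFun h0 (g : G ⧸ D)
    rw [hL f hf g] at h1
    simpa using h1
  · intro f hf c x
    induction x using QuotientGroup.induction_on with
    | H g =>
      rw [show c • (g : G ⧸ D) = (((c : G) * g : G) : G ⧸ D) from rfl, hL f hf, hL f hf,
        hf.1 c g, h96_tw_apply, map_mul, Units.val_mul, map_smul]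
      simp only [MonoidHom.inv_apply, MonoidHom.comp_apply, Subgroup.coe_subtype,
        Units.val_inv_eq_inv_val, smul_smul]
      congr 1
      rw [mul_inv, mul_comm]
  · intro F hF
    refine ⟨fun g => (χ g : k) • F (g : G ⧸ D), ⟨?_, ?_⟩, ?_⟩
    · intro c g
      have h1 := hF c (g : G ⧸ D)
      rw [show c • (g : G ⧸ D) = (((c : G) * g : G) : G ⧸ D) from rfl, h96_tw_apply] at h1
      change (χ ((c : G) * g) : k) • F (((c : G) * g : G) : G ⧸ D) = σ c ((χ g : k) • F (g : G ⧸ D))
      rw [h1, map_mul, Units.val_mul, map_smul]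
      simp only [MonoidHom.inv_apply, MonoidHom.comp_apply, Subgroup.coe_subtype,
        Units.val_inv_eq_inv_val, smul_smul]
      congr 1
      field_simp
    · intro d hd g
      change (χ (g * d) : k) • F ((g * d : G) : G ⧸ D) = (χ d : k) • ((χ g : k) • F (g : G ⧸ D))
      rw [QuotientGroup.mk_mul_of_mem g hd, map_mul, Units.val_mul, smul_smul, mul_comm]
    · funext x
      change (χ x.out : k)⁻¹ • ((χ x.out : k) • F (x.out : G ⧸ D)) = F x
      rw [QuotientGroup.out_eq', smul_smul, inv_mul_cancel₀ (Units.ne_zero _), one_smul]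

/-- the elements of `coind_C^G σ` on which `D` acts through `χ` -/
def h96_twInv (D : Subgroup G) (χ : G →* kˣ) : Submodule k (coindV C.subtype σ) where
  carrier := {f | ∀ d ∈ D, coind C.subtype σ d f = (χ d : k) • f}
  add_mem' := by
    intro f f' h h' d hd
    rw [map_add, h d hd, h' d hd, smul_add]
  zero_mem' := by
    intro d hd
    simp
  smul_mem' := by
    intro a f h d hd
    rw [map_smul, h d hd, smul_comm]

theorem h96_mem_twInv (D : Subgroup G) (χ : G →* kˣ) (f : coindV C.subtype σ) :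
    f ∈ h96_twInv C σ D χ ↔ ∀ d ∈ D, coind C.subtype σ d f = (χ d : k) • f := Iff.rfl

theorem h96_twInv_finrank (D : Subgroup G) (χ : G →* kˣ) :
    finrank k (h96_twInv C σ D χ) =
      finrank k (h96_eqv (G ⧸ D) (h96_tw (χ.comp C.subtype)⁻¹ σ)) := by
  rw [← h96_twFun_finrank]
  refine h96_finrank_eq_of_bij (coindV C.subtype σ).subtype _ _ ?_ ?_ ?_
  · intro f _ h0
    exact Subtype.ext h0
  · intro f hf
    refine ⟨fun c g => f.2 c g, fun d hd g => ?_⟩
    have h1 := congrFun (congrArg Subtype.val (hf d hd)) g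
    exact h1
  · intro f hf
    refine ⟨⟨f, fun c g => hf.1 c g⟩, ?_, rfl⟩
    intro d hd
    apply Subtype.ext
    funext g
    exact hf.2 d hd g

/-- the `(-1)`-eigenspace of an element `c₀` with `ω c₀ = -1` on `coind_C^G σ` -/
theorem h96_coind_neg_finrank (ω : G →* kˣ) (c₀ : G) (hω : ω c₀ = -1) :
    finrank k (Module.End.eigenspace (coind C.subtype σ c₀) (-1 : k)) =
      finrank k (h96_eqv (G ⧸ Subgroup.zpowers c₀) (h96_tw (ω.comp C.subtype)⁻¹ σ)) := by
  rw [← h96_twInv_finrank]
  suffices hEq : Module.End.eigenspace (coind C.subtype σ c₀) (-1 : k) =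
      h96_twInv C σ (Subgroup.zpowers c₀) ω by rw [hEq]
  ext f
  rw [Module.End.mem_eigenspace_iff, h96_mem_twInv]
  constructor
  · intro h
    let H : Subgroup G :=
      { carrier := {d | coind C.subtype σ d f = (ω d : k) • f}
        mul_mem' := by
          intro a b ha hb
          change coind C.subtype σ (a * b) f = (ω (a * b) : k) • f
          rw [map_mul, Module.End.mul_apply, show coind C.subtype σ b f = (ω b : k) • f from hb,
            map_smul, show coind C.subtype σ a f = (ω a : k) • f from ha, map_mul, Units.val_mul,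
            smul_smul, mul_comm]
        one_mem' := by
          change coind C.subtype σ 1 f = (ω 1 : k) • f
          rw [map_one, map_one, Units.val_one, one_smul, Module.End.one_apply]
        inv_mem' := by
          intro a ha
          change coind C.subtype σ a⁻¹ f = (ω a⁻¹ : k) • f
          have h1 : coind C.subtype σ a f = (ω a : k) • f := ha
          have h2 : f = (ω a⁻¹ : k) • coind C.subtype σ a f := by
            rw [h1, smul_smul, ← Units.val_mul, ← map_mul, inv_mul_cancel, map_one, Units.val_one,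
              one_smul]
          conv_lhs => rw [h2]
          rw [map_smul, ← Module.End.mul_apply, ← map_mul, inv_mul_cancel, map_one,
            Module.End.one_apply] }
    have hc : c₀ ∈ H := by
      change coind C.subtype σ c₀ f = (ω c₀ : k) • f
      rw [h, hω, Units.val_neg, Units.val_one]
    intro d hd
    exact (Subgroup.zpowers_le.2 hc) hd
  · intro h
    have h1 := h c₀ (Subgroup.mem_zpowers c₀)
    rw [h1, hω, Units.val_neg, Units.val_one]

end coind

section dual

variable {k : Type*} [Field k] {G : Type*} [Group G] (C : Subgroup G)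
  {W : Type*} [AddCommGroup W] [Module k W] (σ : Representation k C W)

/-- the linear forms on `coind_C^G σ` which transform through `χ` under `D`:
`μ (d • f) = χ d • μ f` (these are the `D`-invariants of the dual twisted by `χ`) -/
def h96_twDual (D : Subgroup G) (χ : G →* kˣ) :
    Submodule k (Module.Dual k (coindV C.subtype σ)) where
  carrier := {μ | ∀ d ∈ D, ∀ f, μ (coind C.subtype σ d f) = (χ d : k) • μ f}
  add_mem' := by
    intro μ μ' h h' d hd f
    rw [LinearMap.add_apply, LinearMap.add_apply, h d hd f, h' d hd f, smul_add]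
  zero_mem' := by
    intro d hd f
    simp
  smul_mem' := by
    intro a μ h d hd f
    rw [LinearMap.smul_apply, LinearMap.smul_apply, h d hd f, smul_comm]

theorem h96_mem_twDual (D : Subgroup G) (χ : G →* kˣ)
    (μ : Module.Dual k (coindV C.subtype σ)) :
    μ ∈ h96_twDual C σ D χ ↔ ∀ d ∈ D, ∀ f, μ (coind C.subtype σ d f) = (χ d : k) • μ f :=
  Iff.rfl

/-- the same condition in the shape of a dual twist: `χ d • (μ ∘ d⁻¹) = μ` -/
theorem h96_mem_twDual_iff (D : Subgroup G) (χ : G →* kˣ)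
    (μ : Module.Dual k (coindV C.subtype σ)) :
    μ ∈ h96_twDual C σ D χ ↔
      ∀ d ∈ D, (χ d : k) • (μ ∘ₗ coind C.subtype σ d⁻¹) = μ := by
  rw [h96_mem_twDual]
  constructor
  · intro h d hd
    ext f
    rw [LinearMap.smul_apply, LinearMap.comp_apply, ← h d hd, ← Module.End.mul_apply, ← map_mul,
      mul_inv_cancel, map_one, Module.End.one_apply]
  · intro h d hd f
    conv_lhs => rw [← h d hd]
    rw [LinearMap.smul_apply, LinearMap.comp_apply, ← Module.End.mul_apply, ← map_mul,
      inv_mul_cancel, map_one, Module.End.one_apply]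

theorem h96_funRep_single [DecidableEq G] (c : C) (g : G) (u : W) :
    h96_funRep G σ c (Pi.single g u) = Pi.single ((c : G) * g) (σ c u) := by
  funext x
  rw [h96_funRep_apply]
  by_cases hx : x = (c : G) * g
  · subst hx
    have h1 : c⁻¹ • ((c : G) * g) = g := by
      rw [Subgroup.smul_def, smul_eq_mul, Subgroup.coe_inv, inv_mul_cancel_left]
    rw [Pi.single_eq_same, h1, Pi.single_eq_same]
  · rw [Pi.single_eq_of_ne hx, Pi.single_eq_of_ne, map_zero]
    intro h
    apply hx
    rw [← h, Subgroup.smul_def, smul_eq_mul, Subgroup.coe_inv, mul_inv_cancel_left]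

theorem h96_funLeft_single [DecidableEq G] (d g : G) (w : W) :
    LinearMap.funLeft k W (fun x => x * d) (Pi.single g w) = Pi.single (g * d⁻¹) w := by
  funext x
  rw [LinearMap.funLeft_apply]
  by_cases hx : x = g * d⁻¹
  · subst hx
    rw [inv_mul_cancel_right, Pi.single_eq_same, Pi.single_eq_same]
  · rw [Pi.single_eq_of_ne hx, Pi.single_eq_of_ne]
    intro h
    apply hx
    rw [← h, mul_inv_cancel_right]

/-- **Duality for `coind`** (`|C|` invertible, `D` arbitrary): the `ω`-twisted `D`-invariant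
linear forms on `coind_C^G σ` are the elements of `coind_C^G σ^∨` on which `D` acts through
`ω⁻¹`. -/
theorem h96_twDual_eq_twFun [Finite G] (hC : (Nat.card C : k) ≠ 0) (D : Subgroup G)
    (ω : G →* kˣ) :
    finrank k (h96_twDual C σ D ω) = finrank k (h96_twFun C σ.dual D ω⁻¹) := by
  classical
  have : Fintype G := Fintype.ofFinite G
  have : Fintype C := Fintype.ofFinite C
  symm
  let ρL : Representation k C (G → W) := h96_funRep G σ
  have hinvM : ∀ F : G → W, F ∈ invariants ρL ↔ F ∈ coindV C.subtype σ := by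
    intro F
    rw [← h96_eqv_eq_invariants]
    exact Iff.rfl
  let avgM : (G → W) →ₗ[k] coindV C.subtype σ :=
    (h96_avg ρL).codRestrict (coindV C.subtype σ) (fun F => (hinvM _).1 (h96_avg_mem ρL F))
  have havgM_val : ∀ F, (avgM F : G → W) = h96_avg ρL F := fun F => rfl
  have havgM_mem : ∀ f : coindV C.subtype σ, avgM f.1 = f := by
    intro f
    apply Subtype.ext
    rw [havgM_val]
    exact h96_avg_of_mem hC ρL ((hinvM _).2 f.2)
  have havgM_left : ∀ (c : C) F, avgM (ρL c F) = avgM F := by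
    intro c F
    apply Subtype.ext
    rw [havgM_val, havgM_val, h96_avg_comp]
  have hRcomm : ∀ (d : G) (c : C) (F : G → W),
      LinearMap.funLeft k W (fun x => x * d) (ρL c F) =
        ρL c (LinearMap.funLeft k W (fun x => x * d) F) := by
    intro d c F
    funext x
    simp only [LinearMap.funLeft_apply, ρL, h96_funRep_apply]
    rw [Subgroup.smul_def, Subgroup.smul_def, smul_eq_mul, smul_eq_mul, mul_assoc]
  have havgM_right : ∀ (d : G) F,
      avgM (LinearMap.funLeft k W (fun x => x * d) F) = coind C.subtype σ d (avgM F) := by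
    intro d F
    apply Subtype.ext
    rw [havgM_val, ← h96_avg_comm ρL ρL (LinearMap.funLeft k W (fun x => x * d)) (hRcomm d) F]
    rfl
  let LS : (G → Module.Dual k W) ≃ₗ[k] Module.Dual k (G → W) :=
    LinearMap.lsum k (fun _ : G => W) k
  have hLS : ∀ ψ F, LS ψ F = ∑ g, ψ g (F g) := by
    intro ψ F
    simp [LS, LinearMap.lsum_apply, LinearMap.sum_apply]
  let L : (G → Module.Dual k W) →ₗ[k] Module.Dual k (coindV C.subtype σ) :=
    (LinearMap.lcomp k k (coindV C.subtype σ).subtype) ∘ₗ LS.toLinearMap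
  have hL : ∀ ψ (f : coindV C.subtype σ), L ψ f = LS ψ (f : G → W) := fun ψ f => rfl
  have hΛinv : ∀ ψ ∈ h96_twFun C σ.dual D ω⁻¹, ∀ (c : C) F, LS ψ (ρL c F) = LS ψ F := by
    intro ψ hψ c F
    rw [hLS, hLS, ← Equiv.sum_comp (Equiv.mulLeft (c : G)) (fun g => ψ g (ρL c F g))]
    refine Finset.sum_congr rfl fun g _ => ?_
    simp only [Equiv.coe_mulLeft, ρL, h96_funRep_apply]
    rw [hψ.1 c g, Representation.dual_apply, Module.Dual.transpose_apply, LinearMap.comp_apply,
      inv_self_apply, Subgroup.smul_def, smul_eq_mul, Subgroup.coe_inv, inv_mul_cancel_left]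
  have hΛavg : ∀ ψ ∈ h96_twFun C σ.dual D ω⁻¹, ∀ F, LS ψ (h96_avg ρL F) = LS ψ F := by
    intro ψ hψ F
    rw [h96_avg_apply, map_smul, map_sum]
    simp only [hΛinv ψ hψ, Finset.sum_const, Finset.card_univ, smul_eq_mul, nsmul_eq_mul]
    rw [← Nat.card_eq_fintype_card, ← mul_assoc, inv_mul_cancel₀ hC, one_mul]
  refine h96_finrank_eq_of_bij L _ _ ?_ ?_ ?_
  · intro ψ hψ h0
    have h1 : LS ψ = 0 := by
      refine LinearMap.ext fun F => ?_
      rw [← hΛavg ψ hψ F]
      exact LinearMap.congr_fun h0 (avgM F)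
    exact LS.injective (by rw [h1, map_zero])
  · intro ψ hψ d hd f
    rw [hL, hL, hLS, hLS,
      ← Equiv.sum_comp (Equiv.mulRight d⁻¹)
        (fun g => ψ g (((coind C.subtype σ d f : coindV C.subtype σ) : G → W) g)),
      Finset.smul_sum]
    refine Finset.sum_congr rfl fun g _ => ?_
    simp only [Equiv.coe_mulRight]
    have h1 : ((coind C.subtype σ d f : coindV C.subtype σ) : G → W) (g * d⁻¹) =
        (f : G → W) g := by
      change (f : G → W) (g * d⁻¹ * d) = _
      rw [inv_mul_cancel_right]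
    rw [h1, hψ.2 d⁻¹ (D.inv_mem hd) g]
    simp
  · intro μ hμ
    let Λ : (G → W) →ₗ[k] k := μ ∘ₗ avgM
    have hΛ : ∀ (g : G) (w : W), (LS.symm Λ) g w = μ (avgM (Pi.single g w)) := fun g w => rfl
    refine ⟨LS.symm Λ, ⟨?_, ?_⟩, ?_⟩
    · intro c g
      ext w
      rw [Representation.dual_apply, Module.Dual.transpose_apply, LinearMap.comp_apply, hΛ, hΛ]
      have h1 : Pi.single ((c : G) * g) w = ρL c (Pi.single g (σ c⁻¹ w)) := by
        rw [h96_funRep_single, self_inv_apply]
      rw [h1, havgM_left]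
    · intro d hd g
      ext w
      rw [LinearMap.smul_apply, hΛ, hΛ]
      have h1 : Pi.single (g * d) w =
          LinearMap.funLeft k W (fun x => x * d⁻¹) (Pi.single g w) := by
        rw [h96_funLeft_single, inv_inv]
      rw [h1, havgM_right, hμ d⁻¹ (D.inv_mem hd)]
      simp
    · ext f
      rw [hL, LinearEquiv.apply_symm_apply]
      change μ (avgM f.1) = μ f
      rw [havgM_mem]

/-- **The dual twist of `coind` in dimension form** (`G` finite, `|C|` invertible in `k`,
`D ≤ G` arbitrary): `dim {μ ∈ M^∨ | μ (d • f) = ω d • μ f ∀ d ∈ D} = dim eqv(G ⧸ D, ω⁻¹|_C ⊗ σ)`. -/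
theorem h96_twDual_finrank [Finite G] [Module.Finite k W] (hC : (Nat.card C : k) ≠ 0)
    (D : Subgroup G) (ω : G →* kˣ) :
    finrank k (h96_twDual C σ D ω) =
      finrank k (h96_eqv (G ⧸ D) (h96_tw (ω.comp C.subtype)⁻¹ σ)) := by
  rw [h96_twDual_eq_twFun C σ hC D ω, h96_twFun_finrank]
  have h1 : h96_tw ((ω⁻¹).comp C.subtype)⁻¹ σ.dual = (h96_tw (ω.comp C.subtype)⁻¹ σ).dual := by
    rw [h96_tw_dual]
    congr 1
  rw [h1]
  exact h96_eqv_dual (G ⧸ D) hC _

end dual

section count

variable {k : Type*} [Field k]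

/-- on a one-point `C`-set, `eqv` is the space of invariants -/
theorem h96_eqv_unique {C : Type*} [Group C] {W : Type*} [AddCommGroup W] [Module k W]
    (X : Type*) [MulAction C X] [Subsingleton X] [Nonempty X] (τ : Representation k C W) :
    finrank k (h96_eqv X τ) = finrank k (invariants τ) := by
  obtain ⟨x₀⟩ := ‹Nonempty X›
  refine h96_finrank_eq_of_bij (LinearMap.proj x₀) _ _ ?_ ?_ ?_
  · intro F _ h0
    funext x
    rw [Subsingleton.elim x x₀]
    exact h0
  · intro F hF c
    have h1 := hF c x₀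
    rw [Subsingleton.elim (c • x₀) x₀] at h1
    exact h1.symm
  · intro w hw
    exact ⟨fun _ => w, fun c x => (hw c).symm, rfl⟩

/-- **C7: the base-case count.**  `G` finite, `C ≤ G` with `|C|` invertible in `k`,
`M = coind_C^G σ`, `ω : G → kˣ` with `ω c₀ = -1`.  Inputs:
* (Herbrand, C3) an equivariant isomorphism `A × k ≃ L × (k[P∞] × k[Pf])` of `C`-modules, `C`
  acting on the line `L` through `ω`;
* (places) `Pf ≅ ⊔ᵢ G ⧸ Dᵢ` and `P∞ ≅ G ⧸ ⟨c₀⟩` as `C`-sets;
* `h⁰ = dim M^G`;
* (C1 + C2) `h¹ = dim Hom_C((ω⁻¹ ⊗ σ)^∨, A)`;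
* (C4 + C5') `h² = Σᵢ dim (M^∨ ⊗ ω)^{Dᵢ} - dim (M^∨ ⊗ ω)^G`.
Output: `h⁰ - h¹ + h² = - dim M^{c₀ = -1}`. -/
theorem h96_base_count {G : Type*} [Group G] [Finite G] (C : Subgroup G)
    (hC : (Nat.card C : k) ≠ 0)
    {W : Type*} [AddCommGroup W] [Module k W] [Module.Finite k W] (σ : Representation k C W)
    (ω : G →* kˣ) (c₀ : G) (hω : ω c₀ = -1)
    {A : Type*} [AddCommGroup A] [Module k A] [Module.Finite k A] (α : Representation k C A)
    {L : Type*} [AddCommGroup L] [Module k L] (hL : finrank k L = 1) (ℓ : Representation k C L)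
    (hℓ : ∀ (c : C) (x : L), ℓ c x = (ω c : k) • x)
    {Pinf Pf : Type*} [MulAction C Pinf] [MulAction C Pf] [Finite Pinf] [Finite Pf]
    (e : (A × k) ≃ₗ[k] (L × ((Pinf → k) × (Pf → k))))
    (he : ∀ (c : C) (a : A) (t : k), e (α c a, t) =
      (ℓ c (e (a, t)).1, (fun x => (e (a, t)).2.1 (c⁻¹ • x), fun x => (e (a, t)).2.2 (c⁻¹ • x))))
    {ι : Type*} [Fintype ι] (D : ι → Subgroup G)
    (ePf : Pf ≃ Σ i, G ⧸ D i) (hePf : ∀ (c : C) (x : Pf), ePf (c • x) = c • ePf x)
    (ePinf : Pinf ≃ G ⧸ Subgroup.zpowers c₀)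
    (hePinf : ∀ (c : C) (x : Pinf), ePinf (c • x) = c • ePinf x)
    (h0 h1 h2 : ℤ)
    (hh0 : h0 = finrank k (invariants (coind C.subtype σ)))
    (hh1 : h1 = finrank k (h96_hom (h96_tw (ω.comp C.subtype)⁻¹ σ).dual α))
    (hh2 : h2 = ∑ i, (finrank k (h96_twDual C σ (D i) ω) : ℤ) -
      finrank k (h96_twDual C σ ⊤ ω)) :
    h0 - h1 + h2 = -(finrank k (Module.End.eigenspace (coind C.subtype σ c₀) (-1 : k)) : ℤ) := by
  have hτσ : h96_tw (ω.comp C.subtype) (h96_tw (ω.comp C.subtype)⁻¹ σ) = σ := by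
    have h1 : ω.comp C.subtype * (ω.comp C.subtype)⁻¹ = 1 := by
      ext c
      simp
    rw [h96_tw_tw, h1, h96_tw_one]
  have H := h96_herbrand_count (h96_tw (ω.comp C.subtype)⁻¹ σ) α (ω.comp C.subtype) hL ℓ hℓ e he
  rw [hτσ] at H
  have hPf : finrank k (h96_eqv Pf (h96_tw (ω.comp C.subtype)⁻¹ σ)) =
      ∑ i, finrank k (h96_eqv (G ⧸ D i) (h96_tw (ω.comp C.subtype)⁻¹ σ)) := by
    rw [h96_eqv_congr _ ePf hePf]
    exact h96_eqv_sigma (fun i => G ⧸ D i) _
  have hPinf : finrank k (h96_eqv Pinf (h96_tw (ω.comp C.subtype)⁻¹ σ)) =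
      finrank k (Module.End.eigenspace (coind C.subtype σ c₀) (-1 : k)) := by
    rw [h96_eqv_congr _ ePinf hePinf, ← h96_coind_neg_finrank C σ ω c₀ hω]
  have htop : finrank k (h96_twDual C σ ⊤ ω) =
      finrank k (invariants (h96_tw (ω.comp C.subtype)⁻¹ σ)) := by
    rw [h96_twDual_finrank C σ hC ⊤ ω]
    have := QuotientGroup.subsingleton_quotient_top (G := G)
    exact h96_eqv_unique _ _
  rw [hh0, hh1, hh2, h96_coind_inv, htop]
  simp only [h96_twDual_finrank C σ hC _ ω]
  rw [← Nat.cast_sum, ← hPf, ← hPinf]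
  have H' : (finrank k (h96_hom (h96_tw (ω.comp C.subtype)⁻¹ σ).dual α) : ℤ) +
      finrank k (invariants (h96_tw (ω.comp C.subtype)⁻¹ σ)) =
      finrank k (invariants σ) + ((finrank k (h96_eqv Pinf (h96_tw (ω.comp C.subtype)⁻¹ σ)) : ℤ) +
        finrank k (h96_eqv Pf (h96_tw (ω.comp C.subtype)⁻¹ σ))) := by
    exact_mod_cast H
  linarith

end count

end Fermat.Agent.S56
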