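import Fermat.Agent.S56.h95_PlaceF
import Fermat.Agent.S56.h96_BaseCoind
import Fermat.Agent.S56.h72_PlaceInf
import Fermat.Agent.S56.h33_KumCount

/-!
# S56, front W1, base case: bridges between the producers' shapes

Everything the final substitution of the base case needs from the rows C1, C5, the descent and
the place dictionaries, in the shapes of the consumers (helper96's `h96_base_count` /
generator form, helper33's `h33_kum_count`, helper13's Herbrand isomorphism):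

* `h95_HomS_finrank_gen` : for `C` generated by the class of `γ`, `h95_HomS S L₀ C σ` has the
  dimension of helper33's `h33_HomSg S p L₀.F W γ (σ γ̄)`;
* `h95_hh1_gen` : `h¹(G_S, infl coind_C σ) = dim ker (γ ⊗ σ(γ̄) - χ_p(γ))` on `E_S/p ⊗ W`;
* `h95_hh0`, `h95_hh2` : the `h⁰`- and `h²`-terms as the hypotheses `hh0`, `hh2` of
  `h96_base_count` (`h95_dualInv_coind_eq` : `h95_dualInv (coind σ) ω D = h96_twDual C σ D ω`);
* `h95_delta_coind` : `h72_delta` of the base case unfolded, with the eigenspace spelling;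
* `h95_hχ_of_root`, `h95_cyclo_complexConjugation`, `h95_ωbar_cbar` : the cyclotomic character is
  trivial on `U` when `ζ_p ∈ F`, and is `-1` at complex conjugation;
* `h95_TEquiv`, `h95_TEquiv_perm`, `h95_infEquiv_perm` : the two place dictionaries as
  `γ`-equivariant bijections on helper13's index types `↥(h59_T F S)` and `InfinitePlace F`.
-/

set_option autoImplicit false
set_option linter.unusedSectionVars false
set_option linter.unusedVariables false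
set_option maxHeartbeats 400000
set_option synthInstance.maxHeartbeats 400000

open CategoryTheory Module groupCohomology ExtCitation NumberField IsDedekindDomain

noncomputable section

namespace Fermat.Agent.S56

open Fermat.Agent.S55

local notation "Qb" => AlgebraicClosure ℚ
local notation "GQ" => (AlgebraicClosure ℚ ≃ₐ[ℚ] AlgebraicClosure ℚ)

/-! ### The `h¹` bridge: `h95_HomS` for a cyclic `C` versus `h33_HomSg` -/

section HomBridge

variable {p : ℕ} [Fact p.Prime] {S : Finset Nat.Primes} (L₀ : h72_Lev S)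
  (C : Subgroup (GQ ⧸ L₀.U)) {W : Type} [AddCommGroup W] [Module (ZMod p) W]
  (σ : Representation (ZMod p) C W)

/-- the elements of `G_ℚ` over `C` for which a map `ψ` is equivariant. -/
def h95_eqvSub (ψ : GQ → W) (hadd : ∀ u ∈ L₀.U, ∀ u' ∈ L₀.U, ψ (u * u') = ψ u + ψ u') :
    Subgroup GQ where
  carrier := {h | ∃ hh : QuotientGroup.mk' L₀.U h ∈ C,
    ∀ u ∈ L₀.U, ψ (h * u * h⁻¹) = σ ⟨_, hh⟩ (ψ u)}
  one_mem' := by
    refine ⟨by rw [map_one]; exact C.one_mem, fun u hu => ?_⟩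
    have e : (⟨QuotientGroup.mk' L₀.U 1, by rw [map_one]; exact C.one_mem⟩ : C) = 1 :=
      Subtype.ext (map_one _)
    rw [e, map_one, one_mul, inv_one, mul_one]
    rfl
  mul_mem' := by
    rintro a b ⟨ha, ha'⟩ ⟨hb, hb'⟩
    refine ⟨by rw [map_mul]; exact C.mul_mem ha hb, fun u hu => ?_⟩
    have e : (⟨QuotientGroup.mk' L₀.U (a * b), by rw [map_mul]; exact C.mul_mem ha hb⟩ : C) =
        ⟨_, ha⟩ * ⟨_, hb⟩ := Subtype.ext (map_mul _ a b)
    have h1 : a * b * u * (a * b)⁻¹ = a * (b * u * b⁻¹) * a⁻¹ := by group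
    have h2 : b * u * b⁻¹ ∈ L₀.U := Subgroup.Normal.conj_mem inferInstance u hu b
    rw [e, map_mul, h1, ha' _ h2, hb' u hu]
    rfl
  inv_mem' := by
    rintro a ⟨ha, ha'⟩
    refine ⟨by rw [map_inv]; exact C.inv_mem ha, fun u hu => ?_⟩
    have e : (⟨QuotientGroup.mk' L₀.U a⁻¹, by rw [map_inv]; exact C.inv_mem ha⟩ : C) =
        (⟨_, ha⟩ : C)⁻¹ := Subtype.ext (map_inv _ a)
    have h2 : a⁻¹ * u * a⁻¹⁻¹ ∈ L₀.U := Subgroup.Normal.conj_mem inferInstance u hu a⁻¹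
    have h3 := ha' _ h2
    have h4 : a * (a⁻¹ * u * a⁻¹⁻¹) * a⁻¹ = u := by group
    rw [h4] at h3
    rw [e, h3, ← Module.End.mul_apply, ← map_mul, inv_mul_cancel, map_one]
    rfl

variable (S) in
/-- restriction to `U`, from `h95_HomS` to helper33's `h33_HomSg`. -/
def h95_HomSres (γ : GQ) (hγC : QuotientGroup.mk' L₀.U γ ∈ C) :
    ↥(h95_HomS S L₀ C σ) →ₗ[ZMod p] ↥(h33_HomSg S p L₀.F W γ (σ ⟨_, hγC⟩)) where
  toFun ψ := ⟨fun u => ψ.1 u.1, by
    obtain ⟨hlev, hout, hadd, heq⟩ := (h95_mem_HomS S L₀ C σ ψ.1).1 ψ.2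
    refine ⟨⟨fun s t => hadd s.1 s.2 t.1 t.2, ?_⟩, fun u => heq γ hγC u.1 u.2⟩
    obtain ⟨F₁, hF₁, hc⟩ := hlev
    refine ⟨F₁, hF₁, fun s hs => ?_⟩
    have h1 : ψ.1 1 = 0 := by
      have := hadd 1 L₀.U.one_mem 1 L₀.U.one_mem
      rw [mul_one] at this
      exact left_eq_add.1 this
    have h2 := hc 1 s.1 hs
    rw [one_mul] at h2
    exact h2.trans h1⟩
  map_add' _ _ := rfl
  map_smul' _ _ := rfl

theorem h95_HomSres_apply (γ : GQ) (hγC : QuotientGroup.mk' L₀.U γ ∈ C)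
    (ψ : ↥(h95_HomS S L₀ C σ)) (u : ↥L₀.F.fixingSubgroup) :
    (h95_HomSres S L₀ C σ γ hγC ψ : ↥L₀.F.fixingSubgroup → W) u = ψ.1 u.1 := rfl

theorem h95_HomSres_injective (γ : GQ) (hγC : QuotientGroup.mk' L₀.U γ ∈ C) :
    Function.Injective (h95_HomSres S L₀ C σ γ hγC) := by
  intro ψ ψ' h
  apply Subtype.ext
  funext g
  by_cases hg : g ∈ L₀.U
  · have h1 := congrFun (congrArg Subtype.val h) ⟨g, hg⟩
    exact h1
  · rw [((h95_mem_HomS S L₀ C σ ψ.1).1 ψ.2).2.1 g hg, ((h95_mem_HomS S L₀ C σ ψ'.1).1 ψ'.2).2.1 g hg]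

theorem h95_HomSres_surjective (γ : GQ) (hγC : QuotientGroup.mk' L₀.U γ ∈ C)
    (hgen : ∀ x ∈ C, ∃ n : ℤ, x = (QuotientGroup.mk' L₀.U γ) ^ n) :
    Function.Surjective (h95_HomSres S L₀ C σ γ hγC) := by
  classical
  rintro ⟨φ, ⟨hφadd, F₁, hF₁, hφ0⟩, hφγ⟩
  let ψ : GQ → W := fun g => if h : g ∈ L₀.U then φ ⟨g, h⟩ else 0
  have hψin : ∀ (g : GQ) (h : g ∈ L₀.U), ψ g = φ ⟨g, h⟩ := fun g h => dif_pos h
  have hψout : ∀ g : GQ, g ∉ L₀.U → ψ g = 0 := fun g h => dif_neg h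
  have hψadd : ∀ u ∈ L₀.U, ∀ u' ∈ L₀.U, ψ (u * u') = ψ u + ψ u' := by
    intro u hu u' hu'
    rw [hψin _ (L₀.U.mul_mem hu hu'), hψin u hu, hψin u' hu']
    exact hφadd ⟨u, hu⟩ ⟨u', hu'⟩
  have hψ1 : ψ 1 = 0 := by
    have := hψadd 1 L₀.U.one_mem 1 L₀.U.one_mem
    rw [mul_one] at this
    exact left_eq_add.1 this
  have hψinv : ∀ u ∈ L₀.U, ψ u⁻¹ = - ψ u := by
    intro u hu
    have := hψadd u hu u⁻¹ (L₀.U.inv_mem hu)
    rw [mul_inv_cancel, hψ1] at this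
    exact eq_neg_of_add_eq_zero_right this.symm
  -- level
  have hψlev : IsLevelConstantS₁ S ψ := by
    refine ⟨F₁ ⊔ L₀.F, hF₁.sup L₀.unr, fun g s hs => ?_⟩
    have hs1 : s ∈ F₁.fixingSubgroup := IntermediateField.fixingSubgroup_antitone le_sup_left hs
    have hs2 : s ∈ L₀.U := IntermediateField.fixingSubgroup_antitone le_sup_right hs
    by_cases hg : g ∈ L₀.U
    · rw [hψadd g hg s hs2, hψin s hs2, hφ0 ⟨s, hs2⟩ hs1, add_zero]
    · have hgs : g * s ∉ L₀.U := fun h => hg ((Subgroup.mul_mem_cancel_right _ hs2).1 h)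
      rw [hψout g hg, hψout _ hgs]
  -- equivariance
  have hγmem : γ ∈ h95_eqvSub L₀ C σ ψ hψadd := by
    refine ⟨hγC, fun u hu => ?_⟩
    rw [hψin u hu, hψin _ (h33_conj_mem_fixing L₀.F γ hu)]
    exact hφγ ⟨u, hu⟩
  have hUmem : ∀ u₀ ∈ L₀.U, u₀ ∈ h95_eqvSub L₀ C σ ψ hψadd := by
    intro u₀ hu₀
    have h1 : QuotientGroup.mk' L₀.U u₀ = 1 := (QuotientGroup.eq_one_iff u₀).2 hu₀
    refine ⟨by rw [h1]; exact C.one_mem, fun u hu => ?_⟩
    have e : (⟨QuotientGroup.mk' L₀.U u₀, by rw [h1]; exact C.one_mem⟩ : C) = 1 :=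
      Subtype.ext h1
    rw [e, map_one, hψadd _ (L₀.U.mul_mem hu₀ hu) _ (L₀.U.inv_mem hu₀), hψadd u₀ hu₀ u hu,
      hψinv u₀ hu₀]
    show ψ u₀ + ψ u + -ψ u₀ = ψ u
    abel
  have hall : ∀ (h : GQ) (hh : QuotientGroup.mk' L₀.U h ∈ C), ∀ u ∈ L₀.U,
      ψ (h * u * h⁻¹) = σ ⟨_, hh⟩ (ψ u) := by
    intro h hh
    obtain ⟨n, hn⟩ := hgen _ hh
    have h1 : γ ^ (-n) * h ∈ L₀.U := by
      rw [← QuotientGroup.eq_one_iff, ]
      show QuotientGroup.mk' L₀.U (γ ^ (-n) * h) = 1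
      rw [map_mul, map_zpow, hn, ← zpow_add, neg_add_cancel, zpow_zero]
    have h2 : h = γ ^ n * (γ ^ (-n) * h) := by
      rw [← mul_assoc, ← zpow_add, add_neg_cancel, zpow_zero, one_mul]
    have h3 : h ∈ h95_eqvSub L₀ C σ ψ hψadd := by
      rw [h2]
      exact Subgroup.mul_mem _ (Subgroup.zpow_mem _ hγmem n) (hUmem _ h1)
    obtain ⟨hh', h4⟩ := h3
    exact h4
  refine ⟨⟨ψ, (h95_mem_HomS S L₀ C σ ψ).2 ⟨hψlev, hψout, hψadd, hall⟩⟩, ?_⟩
  apply Subtype.ext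
  funext u
  exact hψin u.1 u.2

/-- **the `h¹` bridge**: for `C` generated by the class of `γ`, `h95_HomS` is helper33's
`h33_HomSg`. -/
theorem h95_HomS_finrank_gen (γ : GQ) (hγC : QuotientGroup.mk' L₀.U γ ∈ C)
    (hgen : ∀ x ∈ C, ∃ n : ℤ, x = (QuotientGroup.mk' L₀.U γ) ^ n) :
    Module.finrank (ZMod p) ↥(h95_HomS S L₀ C σ) =
      Module.finrank (ZMod p) ↥(h33_HomSg S p L₀.F W γ (σ ⟨_, hγC⟩)) :=
  (LinearEquiv.ofBijective (h95_HomSres S L₀ C σ γ hγC)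
    ⟨h95_HomSres_injective L₀ C σ γ hγC, h95_HomSres_surjective L₀ C σ γ hγC hgen⟩).finrank_eq

end HomBridge

/-! ### The cyclotomic character: triviality on `U`, value at complex conjugation -/

section Cyclo

variable {p : ℕ} [Fact p.Prime]

theorem h95_cyclo_eq_of_pow {ζ : Qb} (hζ : IsPrimitiveRoot ζ p) (g : GQ) (a : ZMod p)
    (h : g ζ = ζ ^ a.val) : ((cycloChar p g : (ZMod p)ˣ) : ZMod p) = a := by
  have : NeZero p := ⟨(Fact.out : p.Prime).ne_zero⟩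
  have h1 := h33_cycloChar_spec hζ g
  rw [h] at h1
  have h2 := hζ.pow_inj (ZMod.val_lt _) (ZMod.val_lt _) h1
  exact (ZMod.val_injective p h2).symm

theorem h95_cyclo_eq_one_of_fix {ζ : Qb} (hζ : IsPrimitiveRoot ζ p) (g : GQ) (h : g ζ = ζ) :
    cycloChar p g = 1 := by
  have : NeZero p := ⟨(Fact.out : p.Prime).ne_zero⟩
  apply Units.ext
  rw [Units.val_one]
  apply h95_cyclo_eq_of_pow hζ g 1
  rw [ZMod.val_one, pow_one, h]

theorem h95_complexConjugation_root {ζ : Qb} (hζ : IsPrimitiveRoot ζ p) :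
    complexConjugation ζ = ζ⁻¹ := by
  apply complexEmbedding.injective
  show complexEmbedding (complexConjugation ζ) = complexEmbedding ζ⁻¹
  rw [complexEmbedding_complexConjugation, map_inv₀]
  have h1 : (complexEmbedding ζ) ^ p = 1 := by rw [← map_pow, hζ.pow_eq_one, map_one]
  have h2 : ‖complexEmbedding ζ‖ = 1 :=
    Complex.norm_eq_one_of_pow_eq_one h1 (Fact.out : p.Prime).ne_zero
  exact (Complex.inv_eq_conj h2).symm

theorem h95_cyclo_complexConjugation {ζ : Qb} (hζ : IsPrimitiveRoot ζ p) :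
    cycloChar p complexConjugation = -1 := by
  have : NeZero p := ⟨(Fact.out : p.Prime).ne_zero⟩
  apply Units.ext
  rw [Units.val_neg, Units.val_one]
  apply h95_cyclo_eq_of_pow hζ
  rw [h95_complexConjugation_root hζ]
  have hp1 : 1 ≤ p := (Fact.out : p.Prime).one_le
  have h1 : ((-1 : ZMod p)).val = p - 1 := by
    have h2 : ((-1 : ZMod p)) = ((p - 1 : ℕ) : ZMod p) := by
      rw [Nat.cast_sub hp1, ZMod.natCast_self, Nat.cast_one, zero_sub]
    rw [h2, ZMod.val_natCast, Nat.mod_eq_of_lt (Nat.sub_lt hp1 Nat.one_pos)]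
  rw [h1]
  have h3 : ζ ^ (p - 1) * ζ = 1 := by rw [← pow_succ, Nat.sub_add_cancel hp1, hζ.pow_eq_one]
  exact (eq_inv_of_mul_eq_one_left h3).symm

variable {S : Finset Nat.Primes} (L₀ : h72_Lev S)

/-- `ζ_p ∈ F` ⟹ the cyclotomic character is trivial on `U`. -/
theorem h95_hχ_of_root {ζ : ↥L₀.F} (hζ : IsPrimitiveRoot ζ p) :
    ∀ s ∈ L₀.U, cycloChar p s = 1 := by
  intro s hs
  have hζ' : IsPrimitiveRoot (ζ : Qb) p :=
    hζ.map_of_injective (f := L₀.F.val) Subtype.val_injective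
  exact h95_cyclo_eq_one_of_fix hζ' s
    ((IntermediateField.mem_fixingSubgroup_iff L₀.F s).mp hs _ ζ.2)

theorem h95_ωbar_cbar {ζ : ↥L₀.F} (hζ : IsPrimitiveRoot ζ p)
    (hχ : ∀ s ∈ L₀.U, cycloChar p s = 1) : h95_ωbar L₀ hχ (h72_cbar L₀) = -1 := by
  have hζ' : IsPrimitiveRoot (ζ : Qb) p :=
    hζ.map_of_injective (f := L₀.F.val) Subtype.val_injective
  exact h95_cyclo_complexConjugation hζ'

end Cyclo

/-! ### The terms of `h72_delta` in helper96's shapes -/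

section Terms

variable {p : ℕ} [Fact p.Prime]

/-- `h95_dualInv` of a coinduced representation is helper96's `h96_twDual`. -/
theorem h95_dualInv_coind_eq {G : Type*} [Group G] (C : Subgroup G) {W : Type*} [AddCommGroup W]
    [Module (ZMod p) W] (σ : Representation (ZMod p) C W) (ω : G →* (ZMod p)ˣ) (D : Subgroup G) :
    h95_dualInv (Representation.coind C.subtype σ) ω D = h96_twDual C σ D ω := by
  ext l
  exact Iff.rfl

/-- the `(-1)`-eigenspace term of `h72_delta`. -/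
theorem h95_ker_add_one {G : Type*} [Group G] {V : Type*} [AddCommGroup V] [Module (ZMod p) V]
    (ρ : Representation (ZMod p) G V) (c : G) :
    LinearMap.ker (ρ c + 1) = Module.End.eigenspace (ρ c) (-1 : ZMod p) := by
  ext v
  rw [LinearMap.mem_ker, Module.End.mem_eigenspace_iff, LinearMap.add_apply,
    Module.End.one_apply, neg_smul, one_smul]
  exact add_eq_zero_iff_eq_neg

variable {S : Finset Nat.Primes}
  {CC : Type} [AddCommGroup CC] [DistribMulAction GQ CC]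
  {JJ : ↥S → Type} [∀ q, AddCommGroup (JJ q)] [∀ q, DistribMulAction GQ (JJ q)]
  {XX : ↥S → Type} [∀ q, AddCommGroup (XX q)]
  [∀ q : ↥S, DistribMulAction (primeLocalGaloisGroup q.1) (XX q)]
  {κ : ∀ q, JJ q →+ CC} {ev : ∀ q, JJ q →+ XX q} {zz : ∀ q, XX q}

/-- `hh0` of `h96_base_count`. -/
theorem h95_hh0 (L₀ : h72_Lev S) (C : Subgroup (GQ ⧸ L₀.U)) {W : Type} [AddCommGroup W]
    [Module (ZMod p) W] (σ : Representation (ZMod p) C W) :
    (Module.finrank (ZMod p) ↥(h4_H (h72_levels S) (h95_Mσ L₀ C σ) 0) : ℤ) =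
      Module.finrank (ZMod p)
        ↥(Representation.invariants (Representation.coind C.subtype σ)) := by
  rw [h95_h0_coind]

/-- `hh2` of `h96_base_count`. -/
theorem h95_hh2 (hp2 : p ≠ 2) (hpS : pPrime p ∈ S)
    (hA : h72_PTAmbient p S CC JJ XX κ ev zz)
    (L₀ : h72_Lev S) (hχ : ∀ s ∈ L₀.U, cycloChar p s = 1) (hsplit : h95_Split0 p S L₀)
    (C : Subgroup (GQ ⧸ L₀.U)) (hcop : (Nat.card C).Coprime p)
    {W : Type} [AddCommGroup W] [Module (ZMod p) W] [Module.Finite (ZMod p) W]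
    (σ : Representation (ZMod p) C W) :
    (Module.finrank (ZMod p) ↥(h4_H (h72_levels S) (h95_Mσ L₀ C σ) 2) : ℤ) =
      ∑ q : ↥S, (Module.finrank (ZMod p)
          ↥(h96_twDual C σ (h95_Dbar L₀ q.1) (h95_ωbar L₀ hχ)) : ℤ) -
        Module.finrank (ZMod p) ↥(h96_twDual C σ ⊤ (h95_ωbar L₀ hχ)) := by
  have h := h95_h2_base_G hp2 hpS hA L₀ hχ hsplit C hcop σ
  have e : ∀ D : Subgroup (GQ ⧸ L₀.U),
      Module.finrank (ZMod p)
        ↥(h95_dualInv (Representation.coind C.subtype σ) (h95_ωbar L₀ hχ) D) =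
      Module.finrank (ZMod p) ↥(h96_twDual C σ D (h95_ωbar L₀ hχ)) := fun D => by
    rw [h95_dualInv_coind_eq]
  rw [e ⊤, Finset.sum_congr rfl (fun q _ => e (h95_Dbar L₀ q.1))] at h
  rw [eq_sub_iff_add_eq, ← Nat.cast_sum, ← Nat.cast_add, h]

/-- `h72_delta` of the base case, unfolded. -/
theorem h95_delta_coind (L₀ : h72_Lev S) (C : Subgroup (GQ ⧸ L₀.U)) {W : Type} [AddCommGroup W]
    [Module (ZMod p) W] (σ : Representation (ZMod p) C W) :
    h72_delta S L₀ _ (Representation.coind C.subtype σ) =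
      (Module.finrank (ZMod p) ↥(h4_H (h72_levels S) (h95_Mσ L₀ C σ) 0) : ℤ) -
        Module.finrank (ZMod p) ↥(h4_H (h72_levels S) (h95_Mσ L₀ C σ) 1) +
        Module.finrank (ZMod p) ↥(h4_H (h72_levels S) (h95_Mσ L₀ C σ) 2) +
      (Module.finrank (ZMod p) ↥(Module.End.eigenspace
        (Representation.coind C.subtype σ (h72_cbar L₀)) (-1 : ZMod p)) : ℤ) := by
  rw [← h95_ker_add_one]
  rfl

end Terms

/-! ### Generator forms: `h¹`, and the two place dictionaries as `γ`-equivariant bijections -/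

section Gen

open TensorProduct

variable {p : ℕ} [Fact p.Prime] {S : Finset Nat.Primes}

/-- **the `h¹`-term in generator form** (C1 + bridge + helper33's C2'). -/
theorem h95_hh1_gen (hpS : pPrime p ∈ S) (L₀ : h72_Lev S) {ζ : ↥L₀.F} (hζ : IsPrimitiveRoot ζ p)
    (hCK : ∀ c : (↥L₀.F)ˣ ⧸ (powMonoidHom p : (↥L₀.F)ˣ →* (↥L₀.F)ˣ).range,
      c ∈ selmerGroup (R := 𝓞 ↥L₀.F) (K := ↥L₀.F) (S := h46_primesOver S L₀.F) (n := p) →
        ∃ u ∈ (h46_primesOver S L₀.F).unit ↥L₀.F,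
          (QuotientGroup.mk u : (↥L₀.F)ˣ ⧸ (powMonoidHom p : (↥L₀.F)ˣ →* (↥L₀.F)ˣ).range) = c)
    (C : Subgroup (GQ ⧸ L₀.U)) (hcop : (Nat.card C).Coprime p)
    {W : Type} [AddCommGroup W] [Module (ZMod p) W] (σ : Representation (ZMod p) C W)
    (γ : GQ) (hγC : QuotientGroup.mk' L₀.U γ ∈ C)
    (hgen : ∀ x ∈ C, ∃ n : ℤ, x = (QuotientGroup.mk' L₀.U γ) ^ n) :
    Module.finrank (ZMod p) ↥(h4_H (h72_levels S) (h95_Mσ L₀ C σ) 1) =
      Module.finrank (ZMod p) ↥(Module.End.eigenspace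
        (TensorProduct.map (h33_actA S p L₀.F γ) (σ ⟨_, hγC⟩))
        ((cycloChar p γ : (ZMod p)ˣ) : ZMod p)) := by
  rw [h95_shir L₀ C σ hcop, h95_HomS_finrank_gen L₀ C σ γ hγC hgen]
  exact h33_kum_count S p L₀.F W hpS ⟨L₀.unr, L₀.gal⟩ hζ hCK γ (σ ⟨_, hγC⟩)

variable (L₀ : h72_Lev S)

theorem h95_res_eq_π (g : GQ) : h72_res L₀ g = h97_π L₀.F g := rfl

/-- the finite place dictionary on helper13's index type `↥(h59_T F S)`. -/
def h95_TEquiv : ↥(h59_T ↥L₀.F S) ≃ Σ q : ↥S, (GQ ⧸ L₀.U) ⧸ h95_Dbar L₀ q.1 :=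
  (Equiv.subtypeEquivRight (fun v => by
    rw [← h33_coe_T_eq S L₀.F]
    exact Finset.mem_coe.symm)).trans (h95_placeEquiv L₀).symm

theorem h95_TEquiv_symm_coe (y : Σ q : ↥S, (GQ ⧸ L₀.U) ⧸ h95_Dbar L₀ q.1) :
    (((h95_TEquiv L₀).symm y : ↥(h59_T ↥L₀.F S)) : HeightOneSpectrum (𝓞 ↥L₀.F)) =
      (h95_placeEquiv L₀ y : HeightOneSpectrum (𝓞 ↥L₀.F)) := rfl

/-- `γ`-equivariance of the finite place dictionary, for helper13's permutation `h13_permT`. -/
theorem h95_TEquiv_perm (γ : GQ)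
    (hT : ∀ w ∈ h59_T ↥L₀.F S, h92_galPrime (h97_π L₀.F γ) w ∈ h59_T ↥L₀.F S)
    (w : ↥(h59_T ↥L₀.F S)) :
    h95_TEquiv L₀ (h13_permT (h59_T ↥L₀.F S) (h97_π L₀.F γ) hT w) =
      (QuotientGroup.mk' L₀.U γ) • h95_TEquiv L₀ w := by
  rw [← Equiv.eq_symm_apply]
  apply Subtype.ext
  rw [h95_TEquiv_symm_coe, h13_permT_coe]
  generalize hy : h95_TEquiv L₀ w = y
  obtain ⟨q, x⟩ := y
  have h2 : w = (h95_TEquiv L₀).symm ⟨q, x⟩ := by rw [← hy, Equiv.symm_apply_apply]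
  have h1 : (QuotientGroup.mk' L₀.U γ) • (⟨q, x⟩ : Σ q : ↥S, (GQ ⧸ L₀.U) ⧸ h95_Dbar L₀ q.1) =
      ⟨q, (QuotientGroup.mk' L₀.U γ) • x⟩ := rfl
  rw [h1, h95_placeEquiv_smul, ← h95_res_eq_π, h2, h95_TEquiv_symm_coe]

/-- `γ`-equivariance of helper72's infinite place dictionary, for the permutation
`MulAction.toPerm (γ|F)` of helper13. -/
theorem h95_infEquiv_perm (γ : GQ) (v : InfinitePlace ↥L₀.F) :
    (h72_infEquiv L₀).symm ((MulAction.toPerm (h97_π L₀.F γ) : Equiv.Perm (InfinitePlace ↥L₀.F)) v) =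
      (QuotientGroup.mk' L₀.U γ) • (h72_infEquiv L₀).symm v := by
  rw [Equiv.symm_apply_eq]
  have h := h72_infEquiv_smul L₀ γ ((h72_infEquiv L₀).symm v)
  rw [Equiv.apply_symm_apply] at h
  exact h.symm

end Gen

end Fermat.Agent.S56
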