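import Mathlib

/-!
# S56, front W1, row C5 (a): vanishing of `H¹` by a relative trace (Mathlib only)

`G` a group, `ρ` a representation of `G` on an `𝔽_p`-space `N`.

* `h95_avg_cobdry` : a 1-cocycle which is right-invariant under a subgroup `V` of finite index
  prime to `p` is a coboundary (averaging).
* `h95_rel_trace` : if `H ≤ G` has finite index, `θ : N → N` commutes with `H` and
  `∑_{x ∈ G/H} x θ x⁻¹ = id` (relative trace), then a 1-cocycle of `G` which is a coboundary
  on `H` is a coboundary.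
* `h95_rel_trace_vanish` : the combination, for cocycles inflated from `G ⧸ U`, `U ≤ H`,
  `[H : U]` prime to `p`.
* `h95_coindTheta` : for a coinduced representation `coind_C^G σ` the map "restrict to `C`,
  extend by zero" is such a `θ`.
-/

set_option autoImplicit false
set_option linter.unusedSectionVars false
set_option linter.unusedVariables false

namespace Fermat.Agent.S56

section Reindex

variable {G : Type*} [Group G] (H : Subgroup G) {N : Type*} [AddCommMonoid N]

/-- a function constant on left cosets of `H` has the same sum over the translated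
representatives. -/
theorem h95_sum_out_translate [Fintype (G ⧸ H)] (F : G → N)
    (hF : ∀ (g : G), ∀ k ∈ H, F (g * k) = F g) (h : G) :
    ∑ x : G ⧸ H, F (h * x.out) = ∑ x : G ⧸ H, F x.out := by
  have key : ∀ x : G ⧸ H, F (h * x.out) = F ((h • x).out) := by
    intro x
    have h1 : (h • x : G ⧸ H) = QuotientGroup.mk (h * x.out) := by
      conv_lhs => rw [← QuotientGroup.out_eq' x]
      rfl
    obtain ⟨k, hk⟩ := QuotientGroup.mk_out_eq_mul H (h * x.out)
    rw [h1, hk, hF _ k k.2]
  rw [Finset.sum_congr rfl (fun x _ => key x)]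
  exact Fintype.sum_equiv (MulAction.toPerm h) _ _ (fun x => rfl)

end Reindex

section Avg

variable {p : ℕ} [Fact p.Prime] {G : Type*} [Group G] {N : Type*} [AddCommGroup N]
  [Module (ZMod p) N] (ρ : Representation (ZMod p) G N)

/-- **Averaging**: a 1-cocycle which is right-invariant under a subgroup of finite index prime
to `p` is a coboundary. -/
theorem h95_avg_cobdry (V : Subgroup G) [Finite (G ⧸ V)]
    (hcop : (Nat.card (G ⧸ V)).Coprime p)
    (z : G → N) (hz : ∀ g h, z (g * h) = z g + ρ g (z h))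
    (hzV : ∀ (g : G), ∀ u ∈ V, z (g * u) = z g) :
    ∃ a : N, ∀ g, z g = ρ g a - a := by
  classical
  haveI : Fintype (G ⧸ V) := Fintype.ofFinite _
  have hp : p.Prime := Fact.out
  set m : ℕ := Nat.card (G ⧸ V) with hm
  have hm0 : (m : ZMod p) ≠ 0 := by
    intro h0
    rw [ZMod.natCast_eq_zero_iff] at h0
    have h1 : p ∣ Nat.gcd m p := Nat.dvd_gcd h0 dvd_rfl
    rw [Nat.Coprime.gcd_eq_one hcop] at h1
    exact hp.one_lt.ne' (Nat.dvd_one.1 h1)
  have key : ∀ g : G, (∑ x : G ⧸ V, z x.out) =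
      (m : ZMod p) • z g + ρ g (∑ x : G ⧸ V, z x.out) := by
    intro g
    have h1 := h95_sum_out_translate V z hzV g
    calc ∑ x : G ⧸ V, z x.out = ∑ x : G ⧸ V, z (g * x.out) := h1.symm
      _ = ∑ x : G ⧸ V, (z g + ρ g (z x.out)) := Finset.sum_congr rfl (fun x _ => hz g x.out)
      _ = _ := by
        rw [Finset.sum_add_distrib, ← map_sum, Finset.sum_const, Finset.card_univ,
          ← Nat.card_eq_fintype_card, Nat.cast_smul_eq_nsmul]
  refine ⟨-((m : ZMod p)⁻¹ • ∑ x : G ⧸ V, z x.out), fun g => ?_⟩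
  have h2 : (m : ZMod p) • z g = (∑ x : G ⧸ V, z x.out) - ρ g (∑ x : G ⧸ V, z x.out) :=
    eq_sub_of_add_eq (key g).symm
  have h3 : z g = (m : ZMod p)⁻¹ • ((∑ x : G ⧸ V, z x.out) - ρ g (∑ x : G ⧸ V, z x.out)) := by
    rw [← h2, smul_smul, inv_mul_cancel₀ hm0, one_smul]
  rw [map_neg, map_smul]
  conv_lhs => rw [h3]
  rw [smul_sub]
  abel

end Avg

section RelTrace

variable {p : ℕ} [Fact p.Prime] {G : Type*} [Group G] {N : Type*} [AddCommGroup N]
  [Module (ZMod p) N] (ρ : Representation (ZMod p) G N)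

/-- **Relative trace**: if `θ` commutes with `H` and `∑_{x ∈ G/H} x θ x⁻¹ = id`, a 1-cocycle of
`G` which is a coboundary on `H` is a coboundary. -/
theorem h95_rel_trace (H : Subgroup G) [Finite (G ⧸ H)]
    (θ : N →ₗ[ZMod p] N) (hθ : ∀ h ∈ H, ∀ n, θ (ρ h n) = ρ h (θ n))
    (htr : ∀ n, ∑ᶠ x : G ⧸ H, ρ x.out (θ (ρ x.out⁻¹ n)) = n)
    (z : G → N) (hz : ∀ g h, z (g * h) = z g + ρ g (z h))
    (a : N) (ha : ∀ h ∈ H, z h = ρ h a - a) :
    ∃ b : N, ∀ g, z g = ρ g b - b := by
  classical
  haveI : Fintype (G ⧸ H) := Fintype.ofFinite _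
  have htr' : ∀ n, ∑ x : G ⧸ H, ρ x.out (θ (ρ x.out⁻¹ n)) = n := fun n => by
    rw [← finsum_eq_sum_of_fintype]
    exact htr n
  have hρinv : ∀ (g : G) (n : N), ρ g⁻¹ (ρ g n) = n := fun g n => by
    rw [← Module.End.mul_apply, ← map_mul, inv_mul_cancel, map_one, Module.End.one_apply]
  -- the cocycle `y = z - d a` vanishes on `H`
  set y : G → N := fun g => z g - (ρ g a - a) with hy
  have hyc : ∀ g h, y (g * h) = y g + ρ g (y h) := by
    intro g h
    simp only [hy, hz g h, map_mul, Module.End.mul_apply, map_sub]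
    abel
  have hyH : ∀ h ∈ H, y h = 0 := fun h hh => by
    simp only [hy, ha h hh, sub_self]
  have hyr : ∀ (g : G), ∀ k ∈ H, y (g * k) = y g := fun g k hk => by
    rw [hyc, hyH k hk, map_zero, add_zero]
  -- the two coset functions
  have hT : ∀ (g : G), ∀ k ∈ H,
      ρ (g * k) (θ (ρ (g * k)⁻¹ (y (g * k)))) = ρ g (θ (ρ g⁻¹ (y g))) := by
    intro g k hk
    rw [hyr g k hk, mul_inv_rev, map_mul, map_mul, Module.End.mul_apply, Module.End.mul_apply,
      hθ k⁻¹ (H.inv_mem hk), ← Module.End.mul_apply (ρ k), ← map_mul, mul_inv_cancel, map_one,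
      Module.End.one_apply]
  have hR : ∀ (n : N) (g : G), ∀ k ∈ H,
      ρ (g * k) (θ (ρ (g * k)⁻¹ n)) = ρ g (θ (ρ g⁻¹ n)) := by
    intro n g k hk
    rw [mul_inv_rev, map_mul, map_mul, Module.End.mul_apply, Module.End.mul_apply,
      hθ k⁻¹ (H.inv_mem hk), ← Module.End.mul_apply (ρ k), ← map_mul, mul_inv_cancel, map_one,
      Module.End.one_apply]
  have hgb : ∀ g : G, ρ g (∑ x : G ⧸ H, ρ x.out (θ (ρ x.out⁻¹ (y x.out)))) =
      (∑ x : G ⧸ H, ρ x.out (θ (ρ x.out⁻¹ (y x.out)))) - y g := by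
    intro g
    have h1 := h95_sum_out_translate H (fun g' => ρ g' (θ (ρ g'⁻¹ (y g')))) hT g
    have h2 := h95_sum_out_translate H (fun g' => ρ g' (θ (ρ g'⁻¹ (y g)))) (hR (y g)) g
    rw [htr' (y g)] at h2
    have hterm : ∀ x : G, ρ (g * x) (θ (ρ (g * x)⁻¹ (y (g * x)))) =
        ρ g (ρ x (θ (ρ x⁻¹ (y x)))) + ρ (g * x) (θ (ρ (g * x)⁻¹ (y g))) := by
      intro x
      have e1 : ρ (g * x)⁻¹ (y (g * x)) = ρ (g * x)⁻¹ (y g) + ρ x⁻¹ (y x) := by
        rw [hyc g x, map_add]
        congr 1
        rw [mul_inv_rev, map_mul, Module.End.mul_apply, hρinv]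
      rw [e1, map_add, map_add, add_comm]
      congr 1
      rw [map_mul, Module.End.mul_apply]
    rw [eq_sub_iff_add_eq, map_sum]
    calc (∑ x : G ⧸ H, ρ g (ρ x.out (θ (ρ x.out⁻¹ (y x.out))))) + y g
        = (∑ x : G ⧸ H, ρ g (ρ x.out (θ (ρ x.out⁻¹ (y x.out))))) +
            ∑ x : G ⧸ H, ρ (g * x.out) (θ (ρ (g * x.out)⁻¹ (y g))) := by rw [h2]
      _ = ∑ x : G ⧸ H, ρ (g * x.out) (θ (ρ (g * x.out)⁻¹ (y (g * x.out)))) := by
        rw [← Finset.sum_add_distrib]
        exact Finset.sum_congr rfl fun x _ => (hterm x.out).symm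
      _ = _ := h1
  refine ⟨a - ∑ x : G ⧸ H, ρ x.out (θ (ρ x.out⁻¹ (y x.out))), fun g => ?_⟩
  have h3 : z g = y g + (ρ g a - a) := by simp only [hy]; abel
  rw [h3, map_sub, hgb g]
  abel

/-- **Vanishing of `H¹` by a relative trace**: `U ≤ H ≤ G`, `U` normal of finite index in `G`,
`[H : U]` prime to `p`, `θ` commuting with `H` with relative trace `id`: every 1-cocycle of `G`
inflated from `G ⧸ U` is a coboundary. -/
theorem h95_rel_trace_vanish (U H : Subgroup G) (hUH : U ≤ H) [Finite (G ⧸ U)]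
    (hcop : (U.relIndex H).Coprime p)
    (θ : N →ₗ[ZMod p] N) (hθ : ∀ h ∈ H, ∀ n, θ (ρ h n) = ρ h (θ n))
    (htr : ∀ n, ∑ᶠ x : G ⧸ H, ρ x.out (θ (ρ x.out⁻¹ n)) = n)
    (z : G → N) (hz : ∀ g h, z (g * h) = z g + ρ g (z h))
    (hzU : ∀ (g : G), ∀ u ∈ U, z (g * u) = z g) :
    ∃ b : N, ∀ g, z g = ρ g b - b := by
  classical
  haveI : U.FiniteIndex := Subgroup.finiteIndex_of_finite_quotient
  haveI : H.FiniteIndex := Subgroup.finiteIndex_of_le hUH
  haveI : Finite (G ⧸ H) := Subgroup.finite_quotient_of_finiteIndex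
  -- the restriction to `H` is a coboundary, by averaging over `H ⧸ U`
  haveI : (U.subgroupOf H).FiniteIndex := inferInstance
  haveI : Finite (↥H ⧸ U.subgroupOf H) := Subgroup.finite_quotient_of_finiteIndex
  have hcard : Nat.card (↥H ⧸ U.subgroupOf H) = U.relIndex H := by
    rw [Subgroup.relIndex, Subgroup.index_eq_card]
  obtain ⟨a, ha⟩ := h95_avg_cobdry (ρ.comp H.subtype) (U.subgroupOf H) (by rw [hcard]; exact hcop)
    (fun h : ↥H => z (h : G)) (fun g h => hz g h) (fun g u hu => hzU g u hu)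
  exact h95_rel_trace ρ H θ hθ htr z hz a (fun h hh => ha ⟨h, hh⟩)

end RelTrace

/-! ### The dual twist of a representation with a relative trace -/

section Dual

variable {p : ℕ} [Fact p.Prime] {G : Type*} [Group G] {N : Type*} [AddCommGroup N]
  [Module (ZMod p) N] (ρ : Representation (ZMod p) G N)

/-- a relative-trace datum `(H, θ)` for `ρ` gives the relative-trace datum `(H, θ^∨)` for any
twisted dual `ρ' g φ = χ(g) • (φ ∘ ρ g⁻¹)`. -/
theorem h95_dual_trace (χ : G →* (ZMod p)ˣ)
    (ρ' : Representation (ZMod p) G (Module.Dual (ZMod p) N))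
    (hρ' : ∀ (g : G) (φ : Module.Dual (ZMod p) N), ρ' g φ = (χ g : ZMod p) • (φ ∘ₗ ρ g⁻¹))
    (H : Subgroup G) [Finite (G ⧸ H)]
    (θ : N →ₗ[ZMod p] N) (hθ : ∀ h ∈ H, ∀ n, θ (ρ h n) = ρ h (θ n))
    (htr : ∀ n, ∑ᶠ x : G ⧸ H, ρ x.out (θ (ρ x.out⁻¹ n)) = n) :
    (∀ h ∈ H, ∀ φ, θ.dualMap (ρ' h φ) = ρ' h (θ.dualMap φ)) ∧
      (∀ φ, ∑ᶠ x : G ⧸ H, ρ' x.out (θ.dualMap (ρ' x.out⁻¹ φ)) = φ) := by
  classical
  haveI : Fintype (G ⧸ H) := Fintype.ofFinite _
  refine ⟨fun h hh φ => ?_, fun φ => ?_⟩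
  · rw [hρ', hρ']
    apply LinearMap.ext
    intro n
    simp only [LinearMap.dualMap_apply, LinearMap.smul_apply, LinearMap.comp_apply]
    rw [hθ h⁻¹ (H.inv_mem hh)]
  · rw [finsum_eq_sum_of_fintype]
    apply LinearMap.ext
    intro n
    have hterm : ∀ g : G, (ρ' g (θ.dualMap (ρ' g⁻¹ φ))) n = φ (ρ g (θ (ρ g⁻¹ n))) := by
      intro g
      rw [hρ', hρ']
      simp only [LinearMap.dualMap_apply, LinearMap.smul_apply, LinearMap.comp_apply, inv_inv,
        smul_eq_mul, map_inv, Units.val_inv_eq_inv_val]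
      rw [← mul_assoc, mul_inv_cancel₀ (Units.ne_zero _), one_mul]
    rw [LinearMap.sum_apply, Finset.sum_congr rfl (fun x _ => hterm x.out), ← map_sum,
      ← finsum_eq_sum_of_fintype, htr n]

end Dual

/-! ### Coinduced representations (inflated from a finite quotient) -/

section Coind

variable {p : ℕ} [Fact p.Prime] {G : Type*} [Group G] (U : Subgroup G) [U.Normal]
  (C : Subgroup (G ⧸ U)) {W : Type*} [AddCommGroup W] [Module (ZMod p) W]
  (σ : Representation (ZMod p) C W)

open Classical in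
/-- "restrict to `C`, extend by zero" on the coinduced module. -/
noncomputable def h95_coindTheta :
    Representation.coindV C.subtype σ →ₗ[ZMod p] Representation.coindV C.subtype σ where
  toFun f := ⟨fun x => if x ∈ C then f.1 x else 0, fun c x => by
    have hiff : (C.subtype c * x ∈ C) ↔ x ∈ C := Subgroup.mul_mem_cancel_left C c.2
    show (if C.subtype c * x ∈ C then f.1 (C.subtype c * x) else 0) =
      σ c (if x ∈ C then f.1 x else 0)
    by_cases hx : x ∈ C
    · rw [if_pos hx, if_pos (hiff.2 hx)]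
      exact f.2 c x
    · rw [if_neg hx, if_neg (fun h => hx (hiff.1 h)), map_zero]⟩
  map_add' f f' := by
    apply Subtype.ext
    funext x
    by_cases hx : x ∈ C
    · simp [hx]
    · simp [hx]
  map_smul' a f := by
    apply Subtype.ext
    funext x
    by_cases hx : x ∈ C
    · simp [hx]
    · simp [hx]

theorem h95_coindTheta_apply (f : Representation.coindV C.subtype σ) (x : G ⧸ U) :
    (h95_coindTheta U C σ f).1 x = (open Classical in if x ∈ C then f.1 x else 0) := rfl

theorem h95_coind_apply (g x : G ⧸ U) (f : Representation.coindV C.subtype σ) :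
    (Representation.coind C.subtype σ g f).1 x = f.1 (x * g) := rfl

/-- the relative-trace datum of the inflated coinduced representation: `H` = the preimage of
`C`, `θ` = `h95_coindTheta`. -/
theorem h95_coind_trace [Finite (G ⧸ U)] :
    (∀ h ∈ C.comap (QuotientGroup.mk' U), ∀ f,
      h95_coindTheta U C σ (Representation.coind C.subtype σ (QuotientGroup.mk' U h) f) =
        Representation.coind C.subtype σ (QuotientGroup.mk' U h) (h95_coindTheta U C σ f)) ∧
    (∀ f, ∑ᶠ x : G ⧸ C.comap (QuotientGroup.mk' U),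
      Representation.coind C.subtype σ (QuotientGroup.mk' U x.out)
        (h95_coindTheta U C σ
          (Representation.coind C.subtype σ (QuotientGroup.mk' U x.out⁻¹) f)) = f) := by
  classical
  set H : Subgroup G := C.comap (QuotientGroup.mk' U) with hH
  haveI : U.FiniteIndex := Subgroup.finiteIndex_of_finite_quotient
  haveI : H.FiniteIndex := Subgroup.finiteIndex_of_le (by
    intro u hu
    rw [hH, Subgroup.mem_comap]
    have : QuotientGroup.mk' U u = 1 := (QuotientGroup.eq_one_iff u).2 hu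
    rw [this]
    exact C.one_mem)
  haveI : Finite (G ⧸ H) := Subgroup.finite_quotient_of_finiteIndex
  haveI : Fintype (G ⧸ H) := Fintype.ofFinite _
  refine ⟨fun h hh f => ?_, fun f => ?_⟩
  · have hh' : QuotientGroup.mk' U h ∈ C := hh
    apply Subtype.ext
    funext x
    rw [h95_coindTheta_apply, h95_coind_apply, h95_coind_apply, h95_coindTheta_apply]
    have hiff : (x * QuotientGroup.mk' U h ∈ C) ↔ x ∈ C := Subgroup.mul_mem_cancel_right C hh'
    by_cases hx : x ∈ C
    · rw [if_pos hx, if_pos (hiff.2 hx)]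
    · rw [if_neg hx, if_neg (fun h' => hx (hiff.1 h'))]
  · rw [finsum_eq_sum_of_fintype]
    apply Subtype.ext
    funext y
    obtain ⟨y₀, rfl⟩ := QuotientGroup.mk'_surjective U y
    have hterm : ∀ g : G,
        (Representation.coind C.subtype σ (QuotientGroup.mk' U g)
          (h95_coindTheta U C σ
            (Representation.coind C.subtype σ (QuotientGroup.mk' U g⁻¹) f))).1
              (QuotientGroup.mk' U y₀) =
          if y₀ * g ∈ H then f.1 (QuotientGroup.mk' U y₀) else 0 := by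
      intro g
      rw [h95_coind_apply, h95_coindTheta_apply, h95_coind_apply]
      have e : (QuotientGroup.mk' U y₀ * QuotientGroup.mk' U g ∈ C) ↔ y₀ * g ∈ H := by
        rw [hH, Subgroup.mem_comap, map_mul]
      by_cases hg : y₀ * g ∈ H
      · rw [if_pos hg, if_pos (e.2 hg), mul_assoc, ← map_mul, mul_inv_cancel, map_one, mul_one]
      · rw [if_neg hg, if_neg (fun h' => hg (e.1 h'))]
    have hcoe : ((∑ x : G ⧸ H, Representation.coind C.subtype σ (QuotientGroup.mk' U x.out)
        (h95_coindTheta U C σ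
          (Representation.coind C.subtype σ (QuotientGroup.mk' U x.out⁻¹) f)) :
            Representation.coindV C.subtype σ) : G ⧸ U → W) (QuotientGroup.mk' U y₀) =
        ∑ x : G ⧸ H, (Representation.coind C.subtype σ (QuotientGroup.mk' U x.out)
          (h95_coindTheta U C σ
            (Representation.coind C.subtype σ (QuotientGroup.mk' U x.out⁻¹) f))).1
              (QuotientGroup.mk' U y₀) := by
      rw [Submodule.coe_sum, Finset.sum_apply]
    rw [hcoe, Finset.sum_congr rfl (fun x _ => hterm x.out)]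
    rw [Finset.sum_eq_single (QuotientGroup.mk y₀⁻¹ : G ⧸ H)]
    · rw [if_pos]
      obtain ⟨k, hk⟩ := QuotientGroup.mk_out_eq_mul H y₀⁻¹
      rw [hk, ← mul_assoc, mul_inv_cancel, one_mul]
      exact k.2
    · intro x _ hx
      rw [if_neg]
      intro hmem
      apply hx
      rw [← QuotientGroup.out_eq' x]
      exact (QuotientGroup.eq.2 (by rw [inv_inv]; exact hmem)).symm
    · intro h
      exact absurd (Finset.mem_univ _) h

/-- **`H¹(G, (infl coind_C^{G/U} σ)^∨(χ)) = 0`** for `p ∤ |C|`, on cocycles inflated from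
`G ⧸ U`. -/
theorem h95_coind_dualTwist_vanish [Finite (G ⧸ U)] (hcop : (Nat.card C).Coprime p)
    (χ : G →* (ZMod p)ˣ)
    (ρ' : Representation (ZMod p) G (Module.Dual (ZMod p) (Representation.coindV C.subtype σ)))
    (hρ' : ∀ (g : G) (φ : Module.Dual (ZMod p) (Representation.coindV C.subtype σ)),
      ρ' g φ = (χ g : ZMod p) •
        (φ ∘ₗ Representation.coind C.subtype σ (QuotientGroup.mk' U g⁻¹)))
    (z : G → Module.Dual (ZMod p) (Representation.coindV C.subtype σ))
    (hz : ∀ g h, z (g * h) = z g + ρ' g (z h))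
    (hzU : ∀ (g : G), ∀ u ∈ U, z (g * u) = z g) :
    ∃ b, ∀ g, z g = ρ' g b - b := by
  classical
  set H : Subgroup G := C.comap (QuotientGroup.mk' U) with hH
  have hUH : U ≤ H := by
    intro u hu
    rw [hH, Subgroup.mem_comap]
    have : QuotientGroup.mk' U u = 1 := (QuotientGroup.eq_one_iff u).2 hu
    rw [this]
    exact C.one_mem
  haveI : U.FiniteIndex := Subgroup.finiteIndex_of_finite_quotient
  haveI : H.FiniteIndex := Subgroup.finiteIndex_of_le hUH
  haveI : Finite (G ⧸ H) := Subgroup.finite_quotient_of_finiteIndex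
  have hrel : U.relIndex H = Nat.card C := by
    have h1 : (⊥ : Subgroup (G ⧸ U)).comap (QuotientGroup.mk' U) = U := QuotientGroup.ker_mk' U
    conv_lhs => rw [← h1]
    rw [hH, Subgroup.relIndex_comap, Subgroup.map_comap_eq_self_of_surjective
      (QuotientGroup.mk'_surjective U), Subgroup.relIndex_bot_left]
  obtain ⟨h1, h2⟩ := h95_coind_trace (p := p) U C σ
  obtain ⟨h3, h4⟩ := h95_dual_trace
    ((Representation.coind C.subtype σ).comp (QuotientGroup.mk' U)) χ ρ' hρ' H
    (h95_coindTheta U C σ) h1 h2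
  exact h95_rel_trace_vanish ρ' U H hUH (by rw [hrel]; exact hcop) _ h3 h4 z hz hzU

end Coind

end Fermat.Agent.S56
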