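import Fermat.Agent.S55.h97_Sha
import Fermat.Agent.S55.h97_LevAPI
import Fermat.Agent.S55.h72_AsmDefs
import Fermat.Agent.S56.h95_RelTrace

/-!
# S56, front W1, row C5 (b): `Ш¹_S(N) = 0` from (SPLIT0)

`L₀` an `S`-level (`U = L₀.U = Gal(ℚ̄/F)`), `N` a finite `𝔽_p[G_ℚ]`-module trivial on `U`.

* `h95_Split0 p S L₀` : every `S`-level map `φ : G_ℚ → 𝔽_p` which is additive on `U` and vanishes
  on `U ∩ g D_q g⁻¹` for all `q ∈ S`, `g ∈ G_ℚ` (`D_q` = the image of `primeLocalToGlobal q`)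
  vanishes on `U`.  [No `ℤ/p`-extension of `F` unramified outside `S` is split at all places
  above `S`.]
* `h95_CT L₀ N` : every 1-cocycle of `G_ℚ` in `N` inflated from `G_ℚ ⧸ U` is a coboundary.
* `h95_sha1_eq_bot` : (SPLIT0) + (CT) ⟹ `sha₁ S N = ⊥`.
* `h95_CT_coind_dualTwist` : (CT) for the twisted dual of the inflation of `coind_C^{G_ℚ/U} σ`,
  `p ∤ |C|`.
-/

set_option autoImplicit false
set_option linter.unusedSectionVars false
set_option linter.unusedVariables false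
set_option maxHeartbeats 400000
set_option synthInstance.maxHeartbeats 400000

open CategoryTheory Module groupCohomology ExtCitation

noncomputable section

namespace Fermat.Agent.S56

open Fermat.Agent.S55

local notation "Qb" => AlgebraicClosure ℚ
local notation "GQ" => (AlgebraicClosure ℚ ≃ₐ[ℚ] AlgebraicClosure ℚ)

variable {p : ℕ} [Fact p.Prime] {S : Finset Nat.Primes}

/-- **(SPLIT0)**: an `S`-level map `G_ℚ → 𝔽_p`, additive on `U = L₀.U`, which vanishes on the
intersections of `U` with all conjugates of the decomposition groups at the primes of `S`,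
vanishes on `U`. -/
def h95_Split0 (p : ℕ) (S : Finset Nat.Primes) (L₀ : h72_Lev S) : Prop :=
  ∀ φ : GQ → ZMod p, IsLevelConstantS₁ S φ →
    (∀ u ∈ L₀.U, ∀ u' ∈ L₀.U, φ (u * u') = φ u + φ u') →
    (∀ (q : ↥S) (g : GQ) (τ : primeLocalGaloisGroup q.1),
      g * primeLocalToGlobal q.1 τ * g⁻¹ ∈ L₀.U → φ (g * primeLocalToGlobal q.1 τ * g⁻¹) = 0) →
    ∀ u ∈ L₀.U, φ u = 0

/-- **(CT)**: every 1-cocycle of `G_ℚ` in `N` which is inflated from `G_ℚ ⧸ L₀.U` is a
coboundary. -/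
def h95_CT (L₀ : h72_Lev S) (N : Rep.{0, 0, 0} (ZMod p) GQ) : Prop :=
  ∀ z : GQ → N, (∀ g h, z (g * h) = z g + N.ρ g (z h)) →
    (∀ (g : GQ), ∀ s ∈ L₀.U, z (g * s) = z g) → ∃ a : N, ∀ g, z g = N.ρ g a - a

/-- **`Ш¹_S(N) = 0`** from (SPLIT0) and (CT). -/
theorem h95_sha1_eq_bot (hp2 : p ≠ 2) (L₀ : h72_Lev S) (N : Rep.{0, 0, 0} (ZMod p) GQ)
    (hN : ∀ s ∈ L₀.U, N.ρ s = 1) (hsplit : h95_Split0 p S L₀) (hCT : h95_CT L₀ N) :
    sha₁ S N = ⊥ := by
  classical
  rw [eq_bot_iff]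
  intro x hx
  obtain ⟨F, hF₀, hF, hgal, c, hinv, hloc, rfl⟩ := h97_sha₁_exists_rep S N hp2 L₀.F L₀.unr x hx
  rw [Submodule.mem_bot]
  set z : GQ → N := (c : GQ → N) with hz
  have hcoc : ∀ g h, z (g * h) = z g + N.ρ g (z h) := by
    intro g h
    have := (mem_cocycles₁_iff (c : GQ → N)).1 c.2 g h
    rw [hz, this, add_comm]
  have hz1 : z 1 = 0 := by
    have := hcoc 1 1
    rw [mul_one, map_one, Module.End.one_apply] at this
    exact left_eq_add.1 this
  have hρU : ∀ t ∈ L₀.U, ∀ n : N, N.ρ t n = n := fun t ht n => by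
    rw [hN t ht, Module.End.one_apply]
  -- the cocycle vanishes on the conjugates of the decomposition groups inside `U`
  have hdec : ∀ (q : ↥S) (g : GQ) (τ : primeLocalGaloisGroup q.1),
      g * primeLocalToGlobal q.1 τ * g⁻¹ ∈ L₀.U → z (g * primeLocalToGlobal q.1 τ * g⁻¹) = 0 := by
    intro q g τ ht
    obtain ⟨b, hb⟩ := hloc q
    set r : GQ := primeLocalToGlobal q.1 τ with hr
    have h1 : z g⁻¹ = - N.ρ g⁻¹ (z g) := by
      have := hcoc g⁻¹ g
      rw [inv_mul_cancel, hz1] at this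
      exact eq_neg_of_add_eq_zero_left this.symm
    have h2 : z (g * r * g⁻¹) = z g + N.ρ g (z r) - N.ρ (g * r * g⁻¹) (z g) := by
      rw [hcoc (g * r) g⁻¹, hcoc g r, h1, map_neg, ← Module.End.mul_apply, ← map_mul]
      abel
    rw [h2, hρU _ ht, hb τ, ← hr, map_sub, ← Module.End.mul_apply, ← map_mul]
    have h3 : g * r = (g * r * g⁻¹) * g := by group
    rw [h3, map_mul, Module.End.mul_apply, hρU _ ht]
    abel
  -- hence it vanishes on `U`
  have hzU : ∀ u ∈ L₀.U, z u = 0 := by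
    intro u hu
    rw [← Module.forall_dual_apply_eq_zero_iff (ZMod p)]
    intro lam
    refine hsplit (fun g => lam (z g)) ⟨F, hF, fun g s hs => ?_⟩ (fun u hu u' hu' => ?_)
      (fun q g τ ht => ?_) u hu
    · exact congrArg lam (hinv g s hs)
    · show lam (z (u * u')) = lam (z u) + lam (z u')
      rw [hcoc, hρU u hu, map_add]
    · show lam (z (g * primeLocalToGlobal q.1 τ * g⁻¹)) = 0
      rw [hdec q g τ ht, map_zero]
  -- so it is inflated from `G_ℚ ⧸ U`, hence a coboundary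
  obtain ⟨a, ha⟩ := hCT z hcoc (fun g s hs => by rw [hcoc, hzU s hs, map_zero, add_zero])
  exact (h97_H1π_eq_zero_iff N c).2 ⟨a, ha⟩

/-- **(CT) for the base case**: the twisted dual of the inflation of a representation coinduced
from a subgroup `C` of `G_ℚ ⧸ L₀.U` of order prime to `p`. -/
theorem h95_CT_coind_dualTwist (L₀ : h72_Lev S) (C : Subgroup (GQ ⧸ L₀.U))
    (hcop : (Nat.card C).Coprime p) {W : Type} [AddCommGroup W] [Module (ZMod p) W]
    (σ : Representation (ZMod p) C W) (χ : GQ →* (ZMod p)ˣ) :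
    h95_CT L₀ ((Rep.of ((Representation.coind C.subtype σ).comp
      (QuotientGroup.mk' L₀.U))).dualTwist χ) := by
  intro z hz hzU
  exact h95_coind_dualTwist_vanish L₀.U C σ hcop χ _ (fun g φ => rfl) z hz hzU

end Fermat.Agent.S56
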