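import Fermat.Agent.S56.h95_D2Formula
import Fermat.Agent.S56.h95_ShaVanish
import Fermat.Agent.S56.h72_ChiH2

/-!
# S56, front W1, row C5 (c): `h²(G_S, M)` in terms of local invariants

For a finite `𝔽_p[G_S]`-module `M` trivial on an `S`-level `L₀ ∋ ζ_p`, with `M' = M^∨(1)`:

* `h95_h2_formula` : `h²(G_S, M) + h⁰(G_ℚ, M') = dim Ш¹_S(M') + ∑_{q ∈ S} h⁰(G_q, M')`
  (the duality `h72_H2_finite_finrank` + the `d²`-formula `h95_d2_formula_level`);
* `h95_h2_base` : under (SPLIT0) and (CT) for `M'`: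
  `h²(G_S, M) + h⁰(G_ℚ, M') = ∑_{q ∈ S} h⁰(G_q, M')`;
* `h95_h2_base_coind` : the base case `M = infl coind_C^{G_ℚ/U} σ`, `p ∤ |C|`.

`h²` is stated both for the Prelude's `continuousH2S S M` and for helper4's level cohomology
`h4_H (h72_levels S) M 2` (the term of `h72_chi`).
-/

set_option autoImplicit false
set_option linter.unusedSectionVars false
set_option linter.unusedVariables false
set_option maxHeartbeats 400000
set_option synthInstance.maxHeartbeats 400000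

open CategoryTheory Module groupCohomology ExtCitation

noncomputable section

namespace Fermat.Agent.S56

open Fermat.Agent.S55

local notation "GQ" => (AlgebraicClosure ℚ ≃ₐ[ℚ] AlgebraicClosure ℚ)

variable {p : ℕ} [Fact p.Prime] {S : Finset Nat.Primes}
  {CC : Type} [AddCommGroup CC] [DistribMulAction GQ CC]
  {JJ : ↥S → Type} [∀ q, AddCommGroup (JJ q)] [∀ q, DistribMulAction GQ (JJ q)]
  {XX : ↥S → Type} [∀ q, AddCommGroup (XX q)]
  [∀ q : ↥S, DistribMulAction (primeLocalGaloisGroup q.1) (XX q)]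
  {κ : ∀ q, JJ q →+ CC} {ev : ∀ q, JJ q →+ XX q} {zz : ∀ q, XX q}

/-- **`h²(G_S, M) + h⁰(G_ℚ, M') = dim Ш¹_S(M') + ∑_{q ∈ S} h⁰(G_q, M')`.** -/
theorem h95_h2_formula (hp2 : p ≠ 2) (hpS : pPrime p ∈ S)
    (M : Rep.{0, 0, 0} (ZMod p) GQ) [FiniteDimensional (ZMod p) M]
    (hA : h72_PTAmbient p S CC JJ XX κ ev zz)
    (L₀ : h72_Lev S) (hL₀ : ∀ s ∈ L₀.U, M.ρ s = 1) :
    Module.finrank (ZMod p) (continuousH2S S M) +
        Module.finrank (ZMod p) ↥(h95_inv (M.dualTwist (cycloChar p))) =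
      Module.finrank (ZMod p) ↥(sha₁ S (M.dualTwist (cycloChar p))) +
        ∑ q : ↥S, Module.finrank (ZMod p) ↥(h95_invAt q.1 (M.dualTwist (cycloChar p))) := by
  rw [(h72_H2_finite_finrank S hpS M hA L₀ hL₀).2]
  exact h95_d2_formula_level hp2 hpS M hA L₀ hL₀

/-- the twisted dual is trivial on a level containing `ζ_p` on which `M` is trivial. -/
theorem h95_dualTwist_trivial (M : Rep.{0, 0, 0} (ZMod p) GQ) (L₀ : h72_Lev S)
    (hL₀ : ∀ s ∈ L₀.U, M.ρ s = 1) (hχ : ∀ s ∈ L₀.U, cycloChar p s = 1) :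
    ∀ s ∈ L₀.U, (M.dualTwist (cycloChar p)).ρ s = 1 := by
  intro s hs
  apply LinearMap.ext
  intro φ
  rw [Rep.dualTwist_ρ_apply, hχ s hs, hL₀ s⁻¹ (L₀.U.inv_mem hs), Units.val_one, one_smul]
  rfl

/-- **`h²` of the base case, abstract form**: under (SPLIT0) and (CT) for `M'`,
`h²(G_S, M) + h⁰(G_ℚ, M') = ∑_{q ∈ S} h⁰(G_q, M')`. -/
theorem h95_h2_base (hp2 : p ≠ 2) (hpS : pPrime p ∈ S)
    (M : Rep.{0, 0, 0} (ZMod p) GQ) [FiniteDimensional (ZMod p) M]
    (hA : h72_PTAmbient p S CC JJ XX κ ev zz)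
    (L₀ : h72_Lev S) (hL₀ : ∀ s ∈ L₀.U, M.ρ s = 1) (hχ : ∀ s ∈ L₀.U, cycloChar p s = 1)
    (hsplit : h95_Split0 p S L₀) (hCT : h95_CT L₀ (M.dualTwist (cycloChar p))) :
    Module.finrank (ZMod p) (continuousH2S S M) +
        Module.finrank (ZMod p) ↥(h95_inv (M.dualTwist (cycloChar p))) =
      ∑ q : ↥S, Module.finrank (ZMod p) ↥(h95_invAt q.1 (M.dualTwist (cycloChar p))) := by
  have h1 := h95_h2_formula hp2 hpS M hA L₀ hL₀
  have h2 : sha₁ S (M.dualTwist (cycloChar p)) = ⊥ :=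
    h95_sha1_eq_bot hp2 L₀ _ (h95_dualTwist_trivial M L₀ hL₀ hχ) hsplit hCT
  rw [h2, finrank_bot, zero_add] at h1
  exact h1

/-- the same for helper4's level cohomology (the `h²`-term of `h72_chi`). -/
theorem h95_h2_base_h4 (hp2 : p ≠ 2) (hpS : pPrime p ∈ S)
    (M : Rep.{0, 0, 0} (ZMod p) GQ) [FiniteDimensional (ZMod p) M]
    (hA : h72_PTAmbient p S CC JJ XX κ ev zz)
    (L₀ : h72_Lev S) (hL₀ : ∀ s ∈ L₀.U, M.ρ s = 1) (hχ : ∀ s ∈ L₀.U, cycloChar p s = 1)
    (hsplit : h95_Split0 p S L₀) (hCT : h95_CT L₀ (M.dualTwist (cycloChar p))) :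
    Module.finrank (ZMod p) ↥(h4_H (h72_levels S) M 2) +
        Module.finrank (ZMod p) ↥(h95_inv (M.dualTwist (cycloChar p))) =
      ∑ q : ↥S, Module.finrank (ZMod p) ↥(h95_invAt q.1 (M.dualTwist (cycloChar p))) := by
  rw [← (h72_H2equiv S M).finrank_eq]
  exact h95_h2_base hp2 hpS M hA L₀ hL₀ hχ hsplit hCT

/-- **`h²` of the base case**: `M = infl coind_C^{G_ℚ/U} σ` with `p ∤ |C|`, under (SPLIT0). -/
theorem h95_h2_base_coind (hp2 : p ≠ 2) (hpS : pPrime p ∈ S)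
    (hA : h72_PTAmbient p S CC JJ XX κ ev zz)
    (L₀ : h72_Lev S) (hχ : ∀ s ∈ L₀.U, cycloChar p s = 1) (hsplit : h95_Split0 p S L₀)
    (C : Subgroup (GQ ⧸ L₀.U)) (hcop : (Nat.card C).Coprime p)
    {W : Type} [AddCommGroup W] [Module (ZMod p) W] [Module.Finite (ZMod p) W]
    (σ : Representation (ZMod p) C W) :
    Module.finrank (ZMod p) ↥(h4_H (h72_levels S)
        (Rep.of ((Representation.coind C.subtype σ).comp (QuotientGroup.mk' L₀.U))) 2) +
      Module.finrank (ZMod p) ↥(h95_inv ((Rep.of ((Representation.coind C.subtype σ).comp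
        (QuotientGroup.mk' L₀.U))).dualTwist (cycloChar p))) =
      ∑ q : ↥S, Module.finrank (ZMod p) ↥(h95_invAt q.1
        ((Rep.of ((Representation.coind C.subtype σ).comp
          (QuotientGroup.mk' L₀.U))).dualTwist (cycloChar p))) := by
  haveI : Finite (GQ ⧸ L₀.U) := h97_lev_finite_quot L₀
  haveI : Module.Finite (ZMod p) (GQ ⧸ L₀.U → W) := inferInstance
  haveI : Module.Finite (ZMod p) ↥(Representation.coindV C.subtype σ) := inferInstance
  haveI : FiniteDimensional (ZMod p)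
      (Rep.of ((Representation.coind C.subtype σ).comp (QuotientGroup.mk' L₀.U))) :=
    inferInstanceAs (Module.Finite (ZMod p) ↥(Representation.coindV C.subtype σ))
  refine h95_h2_base_h4 hp2 hpS _ hA L₀ (fun s hs => ?_) hχ hsplit
    (h95_CT_coind_dualTwist L₀ C hcop σ (cycloChar p))
  have h1 : QuotientGroup.mk' L₀.U s = 1 := (QuotientGroup.eq_one_iff s).2 hs
  show (Representation.coind C.subtype σ) (QuotientGroup.mk' L₀.U s) = 1
  rw [h1, map_one]

end Fermat.Agent.S56
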