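import Fermat.Agent.S56.h96_BaseCoind

/-!
# S56 W1 C7 ALG, part 3: the base-case count in generator form

The count of `h96_BaseCoind` for a cyclic subgroup `C ≤ G` with a chosen generator `g`, with the
Herbrand isomorphism and the `h¹`-term given in operator form (one endomorphism `a` of `A`,
permutations of the place sets):

* `h96_K s χ a`               : `{T : W^∨ → A | a (T (f ∘ s)) = χ • T f}`;
* `h96_K_tensor`              : `dim ker (a ⊗ s - χ) = dim h96_K s χ a`;
* `h96_herbrand_count_gen`    : the Herbrand cancellation in operator form;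
* `h96_base_count_gen`        : `h⁰ - h¹ + h² = - dim M^{c₀ = -1}`.
-/

namespace Fermat.Agent.S56

open Module Representation TensorProduct

section opHerbrand

variable {k : Type*} [Field k] {W : Type*} [AddCommGroup W] [Module k W]
  {A A' B : Type*} [AddCommGroup A] [Module k A] [AddCommGroup A'] [Module k A']
  [AddCommGroup B] [Module k B]

/-- `K(a) := {T : W^∨ → A | a (T (f ∘ s)) = χ • T f}`: the operator form of
`Hom_C((χ⁻¹ s)^∨, a)`. -/
def h96_K (s : W →ₗ[k] W) (χ : k) (a : A →ₗ[k] A) : Submodule k (Module.Dual k W →ₗ[k] A) where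
  carrier := {T | ∀ f : Module.Dual k W, a (T (f ∘ₗ s)) = χ • T f}
  add_mem' := by
    intro T T' h h' f
    rw [LinearMap.add_apply, LinearMap.add_apply, map_add, h f, h' f, smul_add]
  zero_mem' := by
    intro f
    simp
  smul_mem' := by
    intro c T h f
    rw [LinearMap.smul_apply, LinearMap.smul_apply, map_smul, h f, smul_comm]

theorem h96_mem_K (s : W →ₗ[k] W) (χ : k) (a : A →ₗ[k] A) (T : Module.Dual k W →ₗ[k] A) :
    T ∈ h96_K s χ a ↔ ∀ f : Module.Dual k W, a (T (f ∘ₗ s)) = χ • T f := Iff.rfl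

theorem h96_K_congr (s : W →ₗ[k] W) (χ : k) {a : A →ₗ[k] A} {a' : A' →ₗ[k] A'}
    (e : A ≃ₗ[k] A') (he : ∀ x, e (a x) = a' (e x)) :
    finrank k (h96_K s χ a) = finrank k (h96_K s χ a') := by
  refine h96_finrank_eq_of_equiv
    (LinearEquiv.arrowCongr (LinearEquiv.refl k (Module.Dual k W)) e) _ _ ?_
  intro T
  simp only [h96_mem_K, LinearEquiv.arrowCongr_apply, LinearEquiv.refl_symm,
    LinearEquiv.refl_apply]
  constructor
  · intro h f
    rw [← he, h f, map_smul]
  · intro h f
    apply e.injective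
    rw [he, h f, map_smul]

/-- `K` of a product operator is the product of the `K`'s -/
def h96_KProd (s : W →ₗ[k] W) (χ : k) (a : A →ₗ[k] A) (b : B →ₗ[k] B) :
    h96_K s χ (a.prodMap b) ≃ₗ[k] h96_K s χ a × h96_K s χ b where
  toFun T := (⟨LinearMap.fst k A B ∘ₗ T.1, fun f => by
      have h := congrArg Prod.fst (T.2 f)
      simpa using h⟩,
    ⟨LinearMap.snd k A B ∘ₗ T.1, fun f => by
      have h := congrArg Prod.snd (T.2 f)
      simpa using h⟩)
  map_add' T T' := rfl
  map_smul' x T := rfl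
  invFun T := ⟨T.1.1.prod T.2.1, fun f => by
    simp [T.1.2 f, T.2.2 f]⟩
  left_inv T := by
    apply Subtype.ext
    ext f <;> rfl
  right_inv T := by
    apply Prod.ext <;> apply Subtype.ext <;> ext f <;> rfl

theorem h96_K_prod [Module.Finite k W] [Module.Finite k A] [Module.Finite k B]
    (s : W →ₗ[k] W) (χ : k) (a : A →ₗ[k] A) (b : B →ₗ[k] B) :
    finrank k (h96_K s χ (a.prodMap b)) = finrank k (h96_K s χ a) + finrank k (h96_K s χ b) := by
  rw [(h96_KProd s χ a b).finrank_eq, Module.finrank_prod]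

/-- `K` of a scalar operator `c` on a line: `{w | c • s w = χ • w}` -/
theorem h96_K_scalar [Module.Finite k W] (s : W →ₗ[k] W) (χ : k)
    {L : Type*} [AddCommGroup L] [Module k L] (hL : finrank k L = 1) (ℓ : L →ₗ[k] L) (c : k)
    (hℓ : ∀ x, ℓ x = c • x) :
    finrank k (h96_K s χ ℓ) =
      finrank k (LinearMap.ker (c • s - χ • (LinearMap.id : W →ₗ[k] W))) := by
  have : Module.Finite k L := Module.finite_of_finrank_pos (by rw [hL]; exact one_pos)
  let e₀ : k ≃ₗ[k] L := LinearEquiv.ofFinrankEq k L (by rw [hL, Module.finrank_self])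
  symm
  refine h96_finrank_eq_of_equiv
    ((Module.evalEquiv k W).trans (LinearEquiv.arrowCongr (LinearEquiv.refl k _) e₀)) _ _ ?_
  intro w
  simp only [h96_mem_K, LinearMap.mem_ker, LinearEquiv.trans_apply,
    LinearEquiv.arrowCongr_apply, LinearEquiv.refl_symm, LinearEquiv.refl_apply,
    Module.evalEquiv_apply, Module.Dual.eval_apply, hℓ, LinearMap.sub_apply,
    LinearMap.smul_apply, LinearMap.id_apply, LinearMap.comp_apply, sub_eq_zero]
  constructor
  · intro h f
    calc c • e₀ (f (s w)) = e₀ (f (c • s w)) := by rw [map_smul, map_smul]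
      _ = e₀ (f (χ • w)) := by rw [h]
      _ = χ • e₀ (f w) := by rw [map_smul, map_smul]
  · intro h
    have h1 : ∀ f : Module.Dual k W, f (c • s w - χ • w) = 0 := by
      intro f
      have h2 : e₀ (f (c • s w)) = e₀ (χ • f w) := by
        rw [map_smul, map_smul, h f, map_smul]
      have h3 := e₀.injective h2
      rw [map_sub, h3, map_smul, sub_self]
    exact sub_eq_zero.1 ((Module.forall_dual_apply_eq_zero_iff k _).1 h1)

/-- the functions on `P` which are equivariant for the permutation `π` and the operator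
`χ⁻¹ s`, in the form `s (F z) = χ • F (π z)` -/
def h96_eqvGen {P : Type*} (π : Equiv.Perm P) (s : W →ₗ[k] W) (χ : k) : Submodule k (P → W) where
  carrier := {F | ∀ z, s (F z) = χ • F (π z)}
  add_mem' := by
    intro F F' h h' z
    rw [Pi.add_apply, Pi.add_apply, map_add, h z, h' z, smul_add]
  zero_mem' := by
    intro z
    simp
  smul_mem' := by
    intro c F h z
    rw [Pi.smul_apply, Pi.smul_apply, map_smul, h z, smul_comm]

theorem h96_mem_eqvGen {P : Type*} (π : Equiv.Perm P) (s : W →ₗ[k] W) (χ : k) (F : P → W) :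
    F ∈ h96_eqvGen π s χ ↔ ∀ z, s (F z) = χ • F (π z) := Iff.rfl

theorem h96_eqvGen_congr {P X : Type*} (πP : Equiv.Perm P) (πX : Equiv.Perm X) (s : W →ₗ[k] W)
    (χ : k) (e : P ≃ X) (he : ∀ z, e (πP z) = πX (e z)) :
    finrank k (h96_eqvGen πP s χ) = finrank k (h96_eqvGen πX s χ) := by
  refine h96_finrank_eq_of_equiv (LinearEquiv.funCongrLeft k W e.symm) _ _ ?_
  intro F
  constructor
  · intro hF x
    have h1 := hF (e.symm x)
    have h2 : e.symm (πX x) = πP (e.symm x) := by
      apply e.injective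
      rw [he]
      simp
    simpa [LinearEquiv.funCongrLeft_apply, LinearMap.funLeft_apply, h2] using h1
  · intro hF z
    have h1 := hF (e z)
    rw [← he] at h1
    simpa [LinearEquiv.funCongrLeft_apply, LinearMap.funLeft_apply] using h1

/-- `K` of a permutation operator `R y x = y (π⁻¹ x)` -/
theorem h96_K_perm [Module.Finite k W] (s : W →ₗ[k] W) (χ : k) {P : Type*} (π : Equiv.Perm P)
    (R : (P → k) →ₗ[k] (P → k)) (hR : ∀ y x, R y x = y (π.symm x)) :
    finrank k (h96_K s χ R) = finrank k (h96_eqvGen π s χ) := by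
  symm
  let E : (P → W) →ₗ[k] (Module.Dual k W →ₗ[k] (P → k)) :=
    { toFun := fun F => LinearMap.pi fun x => Module.Dual.eval k W (F x)
      map_add' := by
        intro F F'
        ext f x
        simp
      map_smul' := by
        intro a F
        ext f x
        simp }
  have hE : ∀ F f x, E F f x = f (F x) := fun F f x => rfl
  refine h96_finrank_eq_of_bij E _ _ ?_ ?_ ?_
  · intro F _ hF
    funext x
    apply (Module.forall_dual_apply_eq_zero_iff k (F x)).1
    intro f
    have h1 := congrFun (LinearMap.congr_fun hF f) x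
    rwa [hE] at h1
  · intro F hF f
    funext z
    rw [hR, hE, Pi.smul_apply, hE, LinearMap.comp_apply, hF (π.symm z), Equiv.apply_symm_apply,
      map_smul]
  · intro T hT
    have hF : ∀ (f : Module.Dual k W) (x : P),
        f ((Module.evalEquiv k W).symm (LinearMap.proj x ∘ₗ T)) = T f x := fun f x =>
      Module.apply_evalEquiv_symm_apply k W f (LinearMap.proj x ∘ₗ T)
    refine ⟨fun x => (Module.evalEquiv k W).symm (LinearMap.proj x ∘ₗ T), ?_, ?_⟩
    · intro z
      apply sub_eq_zero.1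
      apply (Module.forall_dual_apply_eq_zero_iff k _).1
      intro f
      have h1 := congrFun (hT f) (π z)
      rw [hR, Equiv.symm_apply_apply, Pi.smul_apply] at h1
      rw [map_sub, map_smul, hF, ← LinearMap.comp_apply f s, hF, h1, sub_self]
    · ext f x
      rw [hE, hF]

/-- **The Herbrand cancellation in operator form.**  If `e : A × k ≃ L × (k[P∞] × k[Pf])`
intertwines `a × 1` with `ℓ × (π∞ × πf)` (`ℓ = χ` on the line `L`, permutation operators on the
function spaces) then
`dim K(a) + dim ker (s - χ) = dim ker (s - 1) + dim eqvGen(π∞) + dim eqvGen(πf)`. -/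
theorem h96_herbrand_count_gen [Module.Finite k W] [Module.Finite k A]
    (s : W →ₗ[k] W) (χ : k) (hχ : χ ≠ 0) (a : A →ₗ[k] A)
    {L : Type*} [AddCommGroup L] [Module k L] (hL : finrank k L = 1) (ℓ : L →ₗ[k] L)
    (hℓ : ∀ x, ℓ x = χ • x)
    {Pinf Pf : Type*} [Finite Pinf] [Finite Pf] (πinf : Equiv.Perm Pinf) (πf : Equiv.Perm Pf)
    (Rinf : (Pinf → k) →ₗ[k] (Pinf → k)) (hRinf : ∀ y x, Rinf y x = y (πinf.symm x))
    (Rf : (Pf → k) →ₗ[k] (Pf → k)) (hRf : ∀ y x, Rf y x = y (πf.symm x))
    (e : (A × k) ≃ₗ[k] (L × ((Pinf → k) × (Pf → k))))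
    (he : ∀ y, e (a.prodMap LinearMap.id y) = (ℓ.prodMap (Rinf.prodMap Rf)) (e y)) :
    finrank k (h96_K s χ a) + finrank k (Module.End.eigenspace s χ) =
      finrank k (Module.End.eigenspace s 1) +
        (finrank k (h96_eqvGen πinf s χ) + finrank k (h96_eqvGen πf s χ)) := by
  have : Module.Finite k L := Module.finite_of_finrank_pos (by rw [hL]; exact one_pos)
  have h1 := h96_K_congr s χ e he
  rw [h96_K_prod, h96_K_prod, h96_K_prod, h96_K_perm s χ πinf Rinf hRinf,
    h96_K_perm s χ πf Rf hRf, h96_K_scalar s χ hL ℓ χ hℓ,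
    h96_K_scalar s χ (Module.finrank_self k) LinearMap.id 1 (fun x => (one_smul k x).symm)] at h1
  have hA : LinearMap.ker ((1 : k) • s - χ • (LinearMap.id : W →ₗ[k] W)) =
      Module.End.eigenspace s χ := by
    ext w
    simp [sub_eq_zero]
  have hB : LinearMap.ker (χ • s - χ • (LinearMap.id : W →ₗ[k] W)) =
      Module.End.eigenspace s 1 := by
    ext w
    simp only [LinearMap.mem_ker, LinearMap.sub_apply, LinearMap.smul_apply, LinearMap.id_apply,
      sub_eq_zero, Module.End.mem_eigenspace_iff, one_smul]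
    constructor
    · intro h
      exact smul_right_injective W hχ h
    · intro h
      rw [h]
  rw [hA, hB] at h1
  exact h1

/-- **Tensor form of `K`**: `dim ker (a ⊗ s - χ) = dim K(a)` -/
theorem h96_K_tensor [Module.Finite k W] (s : W →ₗ[k] W) (χ : k) (a : A →ₗ[k] A) :
    finrank k (Module.End.eigenspace (TensorProduct.map a s) χ) = finrank k (h96_K s χ a) := by
  let Θ : A ⊗[k] W ≃ₗ[k] (Module.Dual k W →ₗ[k] A) :=
    (TensorProduct.comm k A W).trans
      ((TensorProduct.congr (Module.evalEquiv k W) (LinearEquiv.refl k A)).trans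
        (dualTensorHomEquiv k (Module.Dual k W) A))
  have hΘ : ∀ (x : A) (w : W) (f : Module.Dual k W), Θ (x ⊗ₜ w) f = f w • x := by
    intro x w f
    simp [Θ, dualTensorHom_apply]
  have hkey : ∀ (t : A ⊗[k] W) (f : Module.Dual k W),
      Θ (TensorProduct.map a s t) f = a (Θ t (f ∘ₗ s)) := by
    intro t f
    induction t using TensorProduct.induction_on with
    | zero => simp
    | tmul x w => rw [TensorProduct.map_tmul, hΘ, hΘ, LinearMap.comp_apply, map_smul]
    | add t t' h h' =>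
      rw [map_add, map_add, LinearMap.add_apply, h, h', map_add, LinearMap.add_apply, map_add]
  refine h96_finrank_eq_of_equiv Θ _ _ ?_
  intro t
  rw [Module.End.mem_eigenspace_iff, h96_mem_K]
  constructor
  · intro h f
    rw [← hkey, h, map_smul, LinearMap.smul_apply]
  · intro h
    apply Θ.injective
    ext f
    rw [hkey, h f, map_smul, LinearMap.smul_apply]

end opHerbrand

section gen

variable {k : Type*} [Field k] {G : Type*} [Group G] (C : Subgroup G) (g : C)
  (hg : ∀ x : C, x ∈ Subgroup.zpowers g)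

include hg

/-- invariants of a cyclic group = fixed vectors of a generator -/
theorem h96_inv_gen {V : Type*} [AddCommGroup V] [Module k V] (ρ : Representation k C V) :
    invariants ρ = Module.End.eigenspace (ρ g) 1 := by
  ext v
  rw [mem_invariants_iff_of_forall_mem_zpowers ρ g hg, Module.End.mem_eigenspace_iff, one_smul]

theorem h96_inv_tw_gen {W : Type*} [AddCommGroup W] [Module k W] (σ : Representation k C W)
    (χ : C →* kˣ) :
    invariants (h96_tw χ⁻¹ σ) = Module.End.eigenspace (σ g) (χ g : k) := by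
  ext w
  rw [mem_invariants_iff_of_forall_mem_zpowers _ g hg, Module.End.mem_eigenspace_iff,
    h96_tw_apply]
  have hu : ((χ⁻¹ g : kˣ) : k) = ((χ g : kˣ) : k)⁻¹ := by simp
  rw [hu]
  exact inv_smul_eq_iff₀ (Units.ne_zero _)

/-- `eqv` for a cyclic group in generator form -/
theorem h96_eqv_gen {X : Type*} [MulAction C X] {W : Type*} [AddCommGroup W] [Module k W]
    (σ : Representation k C W) (χ : C →* kˣ) (π : Equiv.Perm X) (hπ : ∀ x, π x = g • x) :
    h96_eqv X (h96_tw χ⁻¹ σ) = h96_eqvGen π (σ g) (χ g : k) := by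
  rw [h96_eqv_eq_invariants]
  ext F
  rw [mem_invariants_iff_of_forall_mem_zpowers _ g hg, h96_mem_eqvGen]
  have hu : ((χ⁻¹ g : kˣ) : k) = ((χ g : kˣ) : k)⁻¹ := by simp
  constructor
  · intro h z
    have h1 := congrFun h (g • z)
    rw [h96_funRep_apply, inv_smul_smul, h96_tw_apply, hu] at h1
    rw [hπ, ← h1, smul_smul, mul_inv_cancel₀ (Units.ne_zero _), one_smul]
  · intro h
    funext x
    have h1 := h (g⁻¹ • x)
    rw [hπ, smul_inv_smul] at h1
    rw [h96_funRep_apply, h96_tw_apply, hu, h1, smul_smul, inv_mul_cancel₀ (Units.ne_zero _),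
      one_smul]

omit hg

/-- **C7 in generator form.**  `G` finite, `C ≤ G` cyclic with generator `g`, `|C|` invertible
in `k`, `M = coind_C^G σ`, `ω : G → kˣ` with `ω c₀ = -1`.  Inputs in the producers' shapes:
* (Herbrand) `e : A × k ≃ L × (k[P∞] × k[Pf])` intertwining `a × 1` with `ℓ × (R∞ × Rf)`,
  `ℓ = ω g` on the line `L`, `R y x = y (π⁻¹ x)` for permutations `π∞`, `πf`;
* (places) `Pf ≅ ⊔ᵢ G ⧸ Dᵢ`, `P∞ ≅ G ⧸ ⟨c₀⟩`, carrying `πf`, `π∞` to left translation by `g`;
* `h⁰ = dim M^G`, `h¹ = dim ker (a ⊗ σ g - ω g)` on `A ⊗ W`,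
  `h² = Σᵢ dim (M^∨ ⊗ ω)^{Dᵢ} - dim (M^∨ ⊗ ω)^G`.
Output: `h⁰ - h¹ + h² = - dim M^{c₀ = -1}`. -/
theorem h96_base_count_gen [Finite G] (hC : (Nat.card C : k) ≠ 0)
    (hg : ∀ x : C, x ∈ Subgroup.zpowers g)
    {W : Type*} [AddCommGroup W] [Module k W] [Module.Finite k W] (σ : Representation k C W)
    (ω : G →* kˣ) (c₀ : G) (hω : ω c₀ = -1)
    {A : Type*} [AddCommGroup A] [Module k A] [Module.Finite k A] (a : A →ₗ[k] A)
    {L : Type*} [AddCommGroup L] [Module k L] (hL : finrank k L = 1) (ℓ : L →ₗ[k] L)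
    (hℓ : ∀ x, ℓ x = (ω (g : G) : k) • x)
    {Pinf Pf : Type*} [Finite Pinf] [Finite Pf] (πinf : Equiv.Perm Pinf) (πf : Equiv.Perm Pf)
    (Rinf : (Pinf → k) →ₗ[k] (Pinf → k)) (hRinf : ∀ y x, Rinf y x = y (πinf.symm x))
    (Rf : (Pf → k) →ₗ[k] (Pf → k)) (hRf : ∀ y x, Rf y x = y (πf.symm x))
    (e : (A × k) ≃ₗ[k] (L × ((Pinf → k) × (Pf → k))))
    (he : ∀ y, e (a.prodMap LinearMap.id y) = (ℓ.prodMap (Rinf.prodMap Rf)) (e y))
    {ι : Type*} [Fintype ι] (D : ι → Subgroup G)
    (ePf : Pf ≃ Σ i, G ⧸ D i) (hePf : ∀ x, ePf (πf x) = (g : G) • ePf x)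
    (ePinf : Pinf ≃ G ⧸ Subgroup.zpowers c₀) (hePinf : ∀ x, ePinf (πinf x) = (g : G) • ePinf x)
    (h0 h1 h2 : ℤ)
    (hh0 : h0 = finrank k (invariants (coind C.subtype σ)))
    (hh1 : h1 = finrank k (Module.End.eigenspace (TensorProduct.map a (σ g)) (ω (g : G) : k)))
    (hh2 : h2 = ∑ i, (finrank k (h96_twDual C σ (D i) ω) : ℤ) -
      finrank k (h96_twDual C σ ⊤ ω)) :
    h0 - h1 + h2 = -(finrank k (Module.End.eigenspace (coind C.subtype σ c₀) (-1 : k)) : ℤ) := by
  have H := h96_herbrand_count_gen (σ g) (ω (g : G) : k) (Units.ne_zero _) a hL ℓ hℓ πinf πf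
    Rinf hRinf Rf hRf e he
  rw [← h96_K_tensor] at H
  have hinvσ : finrank k (invariants σ) = finrank k (Module.End.eigenspace (σ g) 1) := by
    rw [h96_inv_gen C g hg σ]
  have hinvτ : finrank k (invariants (h96_tw (ω.comp C.subtype)⁻¹ σ)) =
      finrank k (Module.End.eigenspace (σ g) (ω (g : G) : k)) := by
    rw [h96_inv_tw_gen C g hg σ (ω.comp C.subtype)]
    rfl
  have hPf : finrank k (h96_eqvGen πf (σ g) (ω (g : G) : k)) =
      ∑ i, finrank k (h96_eqv (G ⧸ D i) (h96_tw (ω.comp C.subtype)⁻¹ σ)) := by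
    rw [h96_eqvGen_congr πf (MulAction.toPerm (g : G)) (σ g) _ ePf (fun z => hePf z)]
    have h3 := h96_eqv_gen (k := k) C g hg (X := Σ i, G ⧸ D i) σ (ω.comp C.subtype)
      (MulAction.toPerm (g : G)) (fun x => rfl)
    have h4 : finrank k (h96_eqvGen (MulAction.toPerm (g : G) : Equiv.Perm (Σ i, G ⧸ D i))
        (σ g) (ω (g : G) : k)) =
        finrank k (h96_eqv (Σ i, G ⧸ D i) (h96_tw (ω.comp C.subtype)⁻¹ σ)) := by
      rw [h3]
      rfl
    rw [h4]
    exact h96_eqv_sigma (fun i => G ⧸ D i) _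
  have hPinf : finrank k (h96_eqvGen πinf (σ g) (ω (g : G) : k)) =
      finrank k (Module.End.eigenspace (coind C.subtype σ c₀) (-1 : k)) := by
    rw [h96_eqvGen_congr πinf (MulAction.toPerm (g : G)) (σ g) _ ePinf (fun z => hePinf z)]
    have h3 := h96_eqv_gen (k := k) C g hg (X := G ⧸ Subgroup.zpowers c₀) σ (ω.comp C.subtype)
      (MulAction.toPerm (g : G)) (fun x => rfl)
    have h4 : finrank k (h96_eqvGen (MulAction.toPerm (g : G) :
        Equiv.Perm (G ⧸ Subgroup.zpowers c₀)) (σ g) (ω (g : G) : k)) =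
        finrank k (h96_eqv (G ⧸ Subgroup.zpowers c₀) (h96_tw (ω.comp C.subtype)⁻¹ σ)) := by
      rw [h3]
      rfl
    rw [h4]
    exact (h96_coind_neg_finrank C σ ω c₀ hω).symm
  have htop : finrank k (h96_twDual C σ ⊤ ω) =
      finrank k (invariants (h96_tw (ω.comp C.subtype)⁻¹ σ)) := by
    rw [h96_twDual_finrank C σ hC ⊤ ω]
    have := QuotientGroup.subsingleton_quotient_top (G := G)
    exact h96_eqv_unique _ _
  rw [hh0, hh1, hh2, h96_coind_inv, htop, hinvσ, hinvτ]
  simp only [h96_twDual_finrank C σ hC _ ω]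
  rw [← Nat.cast_sum, ← hPf, ← hPinf]
  have H' : (finrank k (Module.End.eigenspace (TensorProduct.map a (σ g)) (ω (g : G) : k)) : ℤ) +
      finrank k (Module.End.eigenspace (σ g) (ω (g : G) : k)) =
      finrank k (Module.End.eigenspace (σ g) 1) +
        ((finrank k (h96_eqvGen πinf (σ g) (ω (g : G) : k)) : ℤ) +
          finrank k (h96_eqvGen πf (σ g) (ω (g : G) : k))) := by
    exact_mod_cast H
  linarith

end gen

end Fermat.Agent.S56
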