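import Fermat.Agent.S56.h95_Base96
import Fermat.Agent.S56.h96_BaseGen
import Fermat.Agent.S56.h33_BaseInputs

/-!
# S56, front W1: the base case of the Euler characteristic formula (closed form)

`L₀` an `S`-level whose field `F` contains a primitive `p`-th root of unity, `p` odd, `p ∈ S`,
with (SPLIT0) (`h95_Split0 p S L₀`, row C6b) and the class-kill property `hCK` (row C6a: the
`S`-units of `F` surject onto the Selmer group `F(S, p)`).  Then for every cyclic subgroup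
`C ≤ G = G_ℚ ⧸ L₀.U` of order prime to `p` and every finite `𝔽_p[C]`-module `σ`:

`h72_delta S L₀ (coind_C^G σ) = χ_S(infl coind_C^G σ) + dim (coind_C^G σ)^{c = -1} = 0`.

This is the hypothesis `hbase` of helper72's `h72_EC_of_base`, verbatim.

Inputs: `h95_hh0` (h⁰), `h95_hh1_gen` (h¹: C1 SHIR + helper33's Kummer count), `h95_hh2` (h²: the
`d²`-formula + `Ш¹ = 0`), helper33's `h33_herb_level` (helper13's Herbrand isomorphism mod `p`),
the place dictionaries `h33_ePf` (= `h95_placeEquiv`) and `h33_ePinf` (= helper72's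
`h72_infEquiv`), and helper96's count `h96_base_count_gen`.
-/

set_option autoImplicit false
set_option linter.unusedSectionVars false
set_option linter.unusedVariables false
set_option maxHeartbeats 800000
set_option synthInstance.maxHeartbeats 400000

open CategoryTheory Module groupCohomology ExtCitation NumberField IsDedekindDomain TensorProduct

noncomputable section

namespace Fermat.Agent.S56

open Fermat.Agent.S55

local notation "Qb" => AlgebraicClosure ℚ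
local notation "GQ" => (AlgebraicClosure ℚ ≃ₐ[ℚ] AlgebraicClosure ℚ)

variable {p : ℕ} [Fact p.Prime] {S : Finset Nat.Primes}
  {CC : Type} [AddCommGroup CC] [DistribMulAction GQ CC]
  {JJ : ↥S → Type} [∀ q, AddCommGroup (JJ q)] [∀ q, DistribMulAction GQ (JJ q)]
  {XX : ↥S → Type} [∀ q, AddCommGroup (XX q)]
  [∀ q : ↥S, DistribMulAction (primeLocalGaloisGroup q.1) (XX q)]
  {κ : ∀ q, JJ q →+ CC} {ev : ∀ q, JJ q →+ XX q} {zz : ∀ q, XX q}

/-- **W1-BASE**: the base case `hbase` of `h72_EC_of_base`. -/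
theorem h95_hbase (hp2 : p ≠ 2) (hpS : pPrime p ∈ S)
    (hA : h72_PTAmbient p S CC JJ XX κ ev zz)
    (L₀ : h72_Lev S) {ζ : ↥L₀.F} (hζ : IsPrimitiveRoot ζ p) (hsplit : h95_Split0 p S L₀)
    (hCK : ∀ c : (↥L₀.F)ˣ ⧸ (powMonoidHom p : (↥L₀.F)ˣ →* (↥L₀.F)ˣ).range,
      c ∈ selmerGroup (R := 𝓞 ↥L₀.F) (K := ↥L₀.F) (S := h46_primesOver S L₀.F) (n := p) →
        ∃ u ∈ (h46_primesOver S L₀.F).unit ↥L₀.F,
          (QuotientGroup.mk u : (↥L₀.F)ˣ ⧸ (powMonoidHom p : (↥L₀.F)ˣ →* (↥L₀.F)ˣ).range) = c) :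
    ∀ C : Subgroup (GQ ⧸ L₀.U), IsCyclic C → (Nat.card C).Coprime p →
      ∀ (W : Type) [AddCommGroup W] [Module (ZMod p) W] [Finite W]
        (σ : Representation (ZMod p) C W),
        h72_delta S L₀ (Representation.coindV C.subtype σ)
          (Representation.coind C.subtype σ) = 0 := by
  intro C hcyc hcop W _ _ _ σ
  haveI : Finite (GQ ⧸ L₀.U) := h97_lev_finite_quot L₀
  haveI : Module.Finite (ZMod p) W := Module.Finite.of_finite
  haveI := h33_ES_finite S p L₀.F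
  have hχ := h95_hχ_of_root L₀ hζ
  obtain ⟨g, hg⟩ := hcyc.exists_generator
  obtain ⟨γ, hγ⟩ := QuotientGroup.mk_surjective (g : GQ ⧸ L₀.U)
  have hγ' : QuotientGroup.mk' L₀.U γ = (g : GQ ⧸ L₀.U) := hγ
  have hγC : QuotientGroup.mk' L₀.U γ ∈ C := by rw [hγ']; exact g.2
  have hgeq : (⟨QuotientGroup.mk' L₀.U γ, hγC⟩ : C) = g := Subtype.ext hγ'
  have hg' : ∀ x : C, x ∈ Subgroup.zpowers (⟨QuotientGroup.mk' L₀.U γ, hγC⟩ : C) := by
    rw [hgeq]; exact hg
  have hgen : ∀ x ∈ C, ∃ n : ℤ, x = (QuotientGroup.mk' L₀.U γ) ^ n := by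
    intro x hx
    obtain ⟨n, hn⟩ := Subgroup.mem_zpowers_iff.1 (hg' ⟨x, hx⟩)
    refine ⟨n, ?_⟩
    have h1 : (((⟨QuotientGroup.mk' L₀.U γ, hγC⟩ : C) ^ n : C) : GQ ⧸ L₀.U) = x :=
      congrArg (Subtype.val : C → GQ ⧸ L₀.U) hn
    rw [← h1]
    rfl
  have hm : γ ^ (Nat.card C) ∈ L₀.U := by
    rw [← QuotientGroup.eq_one_iff]
    show QuotientGroup.mk' L₀.U (γ ^ (Nat.card C)) = 1
    rw [map_pow]
    have h1 : (⟨QuotientGroup.mk' L₀.U γ, hγC⟩ : C) ^ (Nat.card C) = 1 := pow_card_eq_one'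
    exact congrArg (Subtype.val : C → GQ ⧸ L₀.U) h1
  have hpm : ¬ p ∣ Nat.card C := by
    intro h
    have h1 : p ∣ Nat.gcd (Nat.card C) p := Nat.dvd_gcd h dvd_rfl
    rw [hcop] at h1
    exact (Fact.out : p.Prime).one_lt.ne' (Nat.dvd_one.1 h1)
  have hC : ((Nat.card C : ℕ) : ZMod p) ≠ 0 := by
    rw [Ne, ZMod.natCast_eq_zero_iff]
    exact hpm
  obtain ⟨e, he⟩ := h33_herb_level L₀ hζ γ (Nat.card C) hm hpm
  have hh1 : (Module.finrank (ZMod p) ↥(h4_H (h72_levels S) (h95_Mσ L₀ C σ) 1) : ℤ) =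
      Module.finrank (ZMod p) ↥(Module.End.eigenspace
        (TensorProduct.map (h33_actA S p L₀.F γ) (σ ⟨_, hγC⟩))
        (((h95_ωbar L₀ hχ) ((⟨QuotientGroup.mk' L₀.U γ, hγC⟩ : C) : GQ ⧸ L₀.U) : (ZMod p)ˣ) :
          ZMod p)) := by
    rw [h95_hh1_gen hpS L₀ hζ hCK C hcop σ γ hγC hgen]
    rfl
  have key := h96_base_count_gen (k := ZMod p) C (⟨QuotientGroup.mk' L₀.U γ, hγC⟩ : C) hC hg' σ
    (h95_ωbar L₀ hχ) (h72_cbar L₀) (h95_ωbar_cbar L₀ hζ hχ)
    (h33_actA S p L₀.F γ) (Module.finrank_self (ZMod p))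
    ((((cycloChar p γ : (ZMod p)ˣ) : ZMod p)) • (1 : Module.End (ZMod p) (ZMod p)))
    (fun x => rfl)
    (MulAction.toPerm (h97_π L₀.F γ) : Equiv.Perm (InfinitePlace ↥L₀.F))
    (h13_permT (h59_T ↥L₀.F S) (h97_π L₀.F γ) (h33_T_stable S L₀.F (h97_π L₀.F γ)))
    (h13_permLin (ZMod p) _) (h13_permLin_apply (ZMod p) _)
    (h13_permLin (ZMod p) _) (h13_permLin_apply (ZMod p) _)
    e he (fun q : ↥S => h95_Dbar L₀ q.1) (h33_ePf L₀) (h33_ePf_perm L₀ γ)
    (h33_ePinf L₀) (h33_ePinf_perm L₀ γ) _ _ _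
    (h95_hh0 L₀ C σ) hh1 (h95_hh2 hp2 hpS hA L₀ hχ hsplit C hcop σ)
  rw [h95_delta_coind, key]
  ring

end Fermat.Agent.S56
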