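import Mathlib

/-!
# S56 W1 C7 ALG, part 1: the `inv` toolkit (Mathlib only)

`k` a field, `C` a group.  For a representation `ρ` of `C` we use Mathlib's
`Representation.invariants ρ`.

* `h96_inv_le_of_pairing`, `h96_inv_eq_of_pairing`: an invariant pairing which is nondegenerate
  on the left gives `dim V^C ≤ dim V'^C` (`C` finite of order prime to the characteristic).
* `h96_inv_dual`: `dim (V^∨)^C = dim V^C`.
* `h96_eqv X σ`: the `C`-equivariant functions `X → W` on a `C`-set `X`
  (`F (c • x) = σ c (F x)`); `h96_funRep X σ` the representation on all functions whose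
  invariants they are; additivity over sigma types, invariance under equivariant bijections,
  `h96_eqv_dual`: `dim eqv(X, σ^∨) = dim eqv(X, σ)`.
* `h96_tw χ σ`: twist by a character.
* `h96_hom π σ`: the `C`-equivariant linear maps; congruence, products in the second variable,
  transposition, twist, and the evaluations `hom(τ^∨, χ) = inv(χ τ)`,
  `hom(τ^∨, k[P]) = eqv(P, τ)`.
* `h96_herbrand_count`: the cancellation
  `hom(τ^∨, A) + inv(τ) = inv(ω τ) + eqv(P∞, τ) + eqv(Pf, τ)` from an equivariant isomorphism
  `A × k ≃ L × (k[P∞] × k[Pf])`, `C` acting on the line `L` through `ω` (no hypothesis on `C`).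
-/

namespace Fermat.Agent.S56

open Module Representation

section generic

variable {k : Type*} [Field k] {V V' : Type*} [AddCommGroup V] [Module k V]
  [AddCommGroup V'] [Module k V']

/-- two submodules matched by a linear equivalence have the same `finrank` -/
theorem h96_finrank_eq_of_equiv (E : V ≃ₗ[k] V') (p : Submodule k V) (q : Submodule k V')
    (h : ∀ v, v ∈ p ↔ E v ∈ q) : finrank k p = finrank k q := by
  have hmap : p.map (E : V →ₗ[k] V') = q := by
    ext w
    constructor
    · rintro ⟨v, hv, rfl⟩
      exact (h v).1 hv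
    · intro hw
      exact ⟨E.symm w, (h _).2 (by simpa using hw), by simp⟩
  rw [← hmap]
  exact (LinearEquiv.finrank_map_eq E p).symm

/-- a linear map which restricts to a bijection `p → q` gives `finrank p = finrank q` -/
theorem h96_finrank_eq_of_bij (L : V →ₗ[k] V') (p : Submodule k V) (q : Submodule k V')
    (hinj : ∀ v ∈ p, L v = 0 → v = 0) (hmap : ∀ v ∈ p, L v ∈ q)
    (hsurj : ∀ w ∈ q, ∃ v ∈ p, L v = w) : finrank k p = finrank k q := by
  let L' : p →ₗ[k] q := L.restrict hmap
  have hb : Function.Bijective L' := by
    constructor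
    · rw [injective_iff_map_eq_zero]
      intro x hx
      apply Subtype.ext
      apply hinj x.1 x.2
      have := congrArg Subtype.val hx
      simpa [L'] using this
    · intro w
      obtain ⟨v, hv, hvw⟩ := hsurj w.1 w.2
      exact ⟨⟨v, hv⟩, Subtype.ext hvw⟩
  exact (LinearEquiv.ofBijective L' hb).finrank_eq

end generic

section avg

variable {k : Type*} [Field k] {C : Type*} [Group C] [Fintype C]
  {V : Type*} [AddCommGroup V] [Module k V]

/-- the averaging operator of a representation of a finite group -/
noncomputable def h96_avg (ρ : Representation k C V) : V →ₗ[k] V :=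
  (Nat.card C : k)⁻¹ • ∑ c : C, ρ c

theorem h96_avg_apply (ρ : Representation k C V) (v : V) :
    h96_avg ρ v = (Nat.card C : k)⁻¹ • ∑ c : C, ρ c v := by
  simp [h96_avg, LinearMap.sum_apply]

theorem h96_avg_mem (ρ : Representation k C V) (v : V) : h96_avg ρ v ∈ invariants ρ := by
  intro d
  rw [h96_avg_apply, map_smul, map_sum]
  congr 1
  rw [← Equiv.sum_comp (Equiv.mulLeft d) (fun c => ρ c v)]
  refine Finset.sum_congr rfl fun c _ => ?_
  simp [map_mul]

theorem h96_avg_comp (ρ : Representation k C V) (d : C) (v : V) :
    h96_avg ρ (ρ d v) = h96_avg ρ v := by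
  rw [h96_avg_apply, h96_avg_apply]
  congr 1
  rw [← Equiv.sum_comp (Equiv.mulRight d) (fun c => ρ c v)]
  refine Finset.sum_congr rfl fun c _ => ?_
  simp [map_mul]

theorem h96_avg_of_mem (hC : (Nat.card C : k) ≠ 0) (ρ : Representation k C V) {v : V}
    (hv : v ∈ invariants ρ) : h96_avg ρ v = v := by
  rw [h96_avg_apply]
  have : ∀ c : C, ρ c v = v := hv
  simp only [this, Finset.sum_const, Finset.card_univ]
  rw [← Nat.card_eq_fintype_card, ← Nat.cast_smul_eq_nsmul k, smul_smul, inv_mul_cancel₀ hC,
    one_smul]

theorem h96_avg_comm (ρ : Representation k C V) {V' : Type*} [AddCommGroup V'] [Module k V']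
    (ρ' : Representation k C V') (R : V →ₗ[k] V') (hR : ∀ c v, R (ρ c v) = ρ' c (R v)) (v : V) :
    R (h96_avg ρ v) = h96_avg ρ' (R v) := by
  rw [h96_avg_apply, h96_avg_apply, map_smul, map_sum]
  simp only [hR]

end avg

section pair

variable {k : Type*} [Field k] {C : Type*} [Group C] [Finite C]
  {V V' : Type*} [AddCommGroup V] [Module k V] [AddCommGroup V'] [Module k V']

/-- **Invariant pairings.** If `b : V × V' → k` is `C`-invariant and nondegenerate on the left,
then `dim V^C ≤ dim V'^C` (`|C|` invertible in `k`). -/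
theorem h96_inv_le_of_pairing [Module.Finite k V'] (hC : (Nat.card C : k) ≠ 0)
    (ρ : Representation k C V) (ρ' : Representation k C V')
    (b : V →ₗ[k] V' →ₗ[k] k) (hb : ∀ c v v', b (ρ c v) (ρ' c v') = b v v')
    (hnd : ∀ v, (∀ v', b v v' = 0) → v = 0) :
    finrank k (invariants ρ) ≤ finrank k (invariants ρ') := by
  classical
  have : Fintype C := Fintype.ofFinite C
  have hb' : ∀ v ∈ invariants ρ, ∀ v', b v (h96_avg ρ' v') = b v v' := by
    intro v hv v'
    rw [h96_avg_apply, map_smul, map_sum]
    have h1 : ∀ c : C, b v (ρ' c v') = b v v' := by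
      intro c
      have h2 := hb c v v'
      rwa [hv c] at h2
    simp only [h1, Finset.sum_const, Finset.card_univ, smul_eq_mul, nsmul_eq_mul]
    rw [← Nat.card_eq_fintype_card, ← mul_assoc, inv_mul_cancel₀ hC, one_mul]
  let Φ : invariants ρ →ₗ[k] Module.Dual k (invariants ρ') :=
    b.domRestrict₁₂ (invariants ρ) (invariants ρ')
  have hinj : Function.Injective Φ := by
    rw [injective_iff_map_eq_zero]
    intro x hx
    apply Subtype.ext
    apply hnd
    intro v'
    have h3 := LinearMap.congr_fun hx ⟨h96_avg ρ' v', h96_avg_mem ρ' v'⟩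
    simp only [Φ, LinearMap.domRestrict₁₂_apply, LinearMap.zero_apply] at h3
    rw [hb' x.1 x.2 v'] at h3
    exact h3
  calc finrank k (invariants ρ) ≤ finrank k (Module.Dual k (invariants ρ')) :=
        LinearMap.finrank_le_finrank_of_injective hinj
    _ = finrank k (invariants ρ') := Subspace.dual_finrank_eq

/-- two-sided version of `h96_inv_le_of_pairing` -/
theorem h96_inv_eq_of_pairing [Module.Finite k V] [Module.Finite k V']
    (hC : (Nat.card C : k) ≠ 0)
    (ρ : Representation k C V) (ρ' : Representation k C V')
    (b : V →ₗ[k] V' →ₗ[k] k) (hb : ∀ c v v', b (ρ c v) (ρ' c v') = b v v')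
    (hnd : ∀ v, (∀ v', b v v' = 0) → v = 0) (hnd' : ∀ v', (∀ v, b v v' = 0) → v' = 0) :
    finrank k (invariants ρ) = finrank k (invariants ρ') :=
  le_antisymm (h96_inv_le_of_pairing hC ρ ρ' b hb hnd)
    (h96_inv_le_of_pairing hC ρ' ρ b.flip (fun c v' v => by simpa using hb c v v')
      (fun v' h => hnd' v' (fun v => by simpa using h v)))

/-- **Duals have the same invariants** (in dimension), `|C|` invertible. -/
theorem h96_inv_dual [Module.Finite k V] (hC : (Nat.card C : k) ≠ 0)
    (ρ : Representation k C V) :
    finrank k (invariants ρ.dual) = finrank k (invariants ρ) := by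
  refine h96_inv_eq_of_pairing hC ρ.dual ρ LinearMap.id ?_ ?_ ?_
  · intro c f v
    simp only [LinearMap.id_coe, id_eq, Representation.dual_apply, Module.Dual.transpose_apply,
      LinearMap.comp_apply]
    rw [← Module.End.mul_apply, ← map_mul, inv_mul_cancel, map_one, Module.End.one_apply]
  · intro f hf
    ext v
    simpa using hf v
  · intro v hv
    exact (Module.forall_dual_apply_eq_zero_iff k v).1 (fun f => by simpa using hv f)

end pair

section eqv

variable {k : Type*} [Field k] {C : Type*} [Group C]
  {W : Type*} [AddCommGroup W] [Module k W]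

/-- The representation of `C` on all functions `X → W` (`X` a `C`-set):
`(c • F) x = σ c (F (c⁻¹ • x))`. -/
def h96_funRep (X : Type*) [MulAction C X] (σ : Representation k C W) :
    Representation k C (X → W) where
  toFun c := LinearMap.pi fun x => (σ c) ∘ₗ LinearMap.proj (c⁻¹ • x)
  map_one' := by
    ext F x
    simp
  map_mul' c d := by
    ext F x
    simp [mul_smul]

theorem h96_funRep_apply (X : Type*) [MulAction C X] (σ : Representation k C W) (c : C)
    (F : X → W) (x : X) : h96_funRep X σ c F x = σ c (F (c⁻¹ • x)) := rfl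

/-- The `C`-equivariant functions `X → W`: `F (c • x) = σ c (F x)`. -/
def h96_eqv (X : Type*) [MulAction C X] (σ : Representation k C W) : Submodule k (X → W) where
  carrier := {F | ∀ (c : C) (x : X), F (c • x) = σ c (F x)}
  add_mem' := by
    intro F F' hF hF' c x
    simp [hF c x, hF' c x]
  zero_mem' := by
    intro c x
    simp
  smul_mem' := by
    intro a F hF c x
    simp [hF c x]

theorem h96_mem_eqv (X : Type*) [MulAction C X] (σ : Representation k C W) (F : X → W) :
    F ∈ h96_eqv X σ ↔ ∀ (c : C) (x : X), F (c • x) = σ c (F x) := Iff.rfl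

theorem h96_eqv_eq_invariants (X : Type*) [MulAction C X] (σ : Representation k C W) :
    h96_eqv X σ = invariants (h96_funRep X σ) := by
  ext F
  constructor
  · intro h c
    funext x
    rw [h96_funRep_apply, ← h c (c⁻¹ • x), smul_inv_smul]
  · intro h c x
    have h1 := congrFun (h c) (c • x)
    rw [h96_funRep_apply, inv_smul_smul] at h1
    exact h1.symm

/-- invariance of `eqv` under equivariant bijections of `C`-sets -/
theorem h96_eqv_congr {X Y : Type*} [MulAction C X] [MulAction C Y] (σ : Representation k C W)
    (e : X ≃ Y) (he : ∀ (c : C) (x : X), e (c • x) = c • e x) :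
    finrank k (h96_eqv X σ) = finrank k (h96_eqv Y σ) := by
  refine h96_finrank_eq_of_equiv (LinearEquiv.funCongrLeft k W e.symm) _ _ ?_
  intro F
  constructor
  · intro hF c y
    have h1 := hF c (e.symm y)
    have h2 : e.symm (c • y) = c • e.symm y := by
      apply e.injective
      rw [he]
      simp
    simpa [LinearEquiv.funCongrLeft_apply, LinearMap.funLeft_apply, h2] using h1
  · intro hF c x
    have h1 := hF c (e x)
    rw [← he] at h1
    simpa [LinearEquiv.funCongrLeft_apply, LinearMap.funLeft_apply] using h1

/-- `eqv` of a sigma type is the product of the `eqv`'s -/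
def h96_eqvSigma {ι : Type*} (X : ι → Type*) [∀ i, MulAction C (X i)]
    (σ : Representation k C W) :
    h96_eqv (Σ i, X i) σ ≃ₗ[k] ∀ i, h96_eqv (X i) σ where
  toFun F := fun i => ⟨fun x => F.1 ⟨i, x⟩, fun c x => F.2 c ⟨i, x⟩⟩
  map_add' F F' := by
    funext i
    rfl
  map_smul' a F := by
    funext i
    rfl
  invFun Φ := ⟨fun y => (Φ y.1).1 y.2, fun c y => (Φ y.1).2 c y.2⟩
  left_inv F := by
    apply Subtype.ext
    funext y
    rfl
  right_inv Φ := by
    funext i
    rfl

/-- additivity of `eqv` over finite disjoint unions -/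
theorem h96_eqv_sigma {ι : Type*} [Fintype ι] (X : ι → Type*) [∀ i, MulAction C (X i)]
    [∀ i, Finite (X i)] [Module.Finite k W] (σ : Representation k C W) :
    finrank k (h96_eqv (Σ i, X i) σ) = ∑ i, finrank k (h96_eqv (X i) σ) := by
  rw [(h96_eqvSigma X σ).finrank_eq, Module.finrank_pi_fintype]

/-- **`eqv` is invariant under duals** (in dimension): `dim eqv(X, σ^∨) = dim eqv(X, σ)` for a
finite `C`-set `X`, `|C|` invertible. -/
theorem h96_eqv_dual [Finite C] (X : Type*) [MulAction C X] [Finite X] [Module.Finite k W]
    (hC : (Nat.card C : k) ≠ 0) (σ : Representation k C W) :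
    finrank k (h96_eqv X σ.dual) = finrank k (h96_eqv X σ) := by
  classical
  have : Fintype X := Fintype.ofFinite X
  rw [h96_eqv_eq_invariants, h96_eqv_eq_invariants]
  let b : (X → Module.Dual k W) →ₗ[k] (X → W) →ₗ[k] k :=
    LinearMap.mk₂ k (fun Ψ F => ∑ x, Ψ x (F x))
      (by intro Ψ Ψ' F; simp [Finset.sum_add_distrib])
      (by intro a Ψ F; simp [Finset.mul_sum])
      (by intro Ψ F F'; simp [Finset.sum_add_distrib])
      (by intro a Ψ F; simp [Finset.mul_sum])
  have hb_apply : ∀ Ψ F, b Ψ F = ∑ x, Ψ x (F x) := fun Ψ F => rfl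
  refine h96_inv_eq_of_pairing hC (h96_funRep X σ.dual) (h96_funRep X σ) b ?_ ?_ ?_
  · intro c Ψ F
    rw [hb_apply, hb_apply]
    rw [← Equiv.sum_comp (MulAction.toPerm c⁻¹) (fun x => Ψ x (F x))]
    refine Finset.sum_congr rfl fun x _ => ?_
    simp only [h96_funRep_apply, MulAction.toPerm_apply, Representation.dual_apply,
      Module.Dual.transpose_apply, LinearMap.comp_apply]
    rw [← Module.End.mul_apply, ← map_mul, inv_mul_cancel, map_one, Module.End.one_apply]
  · intro Ψ hΨ
    funext x
    ext w
    have h1 := hΨ (Pi.single x w)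
    rw [hb_apply, Fintype.sum_eq_single x (fun y hy => by simp [Pi.single_eq_of_ne hy])] at h1
    simpa using h1
  · intro F hF
    funext x
    apply (Module.forall_dual_apply_eq_zero_iff k (F x)).1
    intro f
    have h1 := hF (Pi.single x f)
    rw [hb_apply, Fintype.sum_eq_single x (fun y hy => by simp [Pi.single_eq_of_ne hy])] at h1
    simpa using h1

end eqv

section twist

variable {k : Type*} [Field k] {C : Type*} [Group C]
  {W : Type*} [AddCommGroup W] [Module k W]

/-- twist of a representation by a character: `(χ ⊗ σ) c = χ c • σ c` -/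
def h96_tw (χ : C →* kˣ) (σ : Representation k C W) : Representation k C W where
  toFun c := (χ c : k) • σ c
  map_one' := by simp
  map_mul' c d := by
    rw [map_mul, map_mul, Units.val_mul, smul_mul_smul_comm]

theorem h96_tw_apply (χ : C →* kˣ) (σ : Representation k C W) (c : C) (w : W) :
    h96_tw χ σ c w = (χ c : k) • σ c w := rfl

theorem h96_tw_one (σ : Representation k C W) : h96_tw 1 σ = σ := by
  ext c w
  simp [h96_tw_apply]

theorem h96_tw_tw (χ χ' : C →* kˣ) (σ : Representation k C W) :
    h96_tw χ (h96_tw χ' σ) = h96_tw (χ * χ') σ := by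
  ext c w
  simp [h96_tw_apply, smul_smul]

theorem h96_tw_dual (χ : C →* kˣ) (σ : Representation k C W) :
    (h96_tw χ σ).dual = h96_tw χ⁻¹ σ.dual := by
  ext c f w
  simp [h96_tw_apply, Representation.dual_apply, Module.Dual.transpose_apply]

/-- the action through a character on a module -/
def h96_scalar (χ : C →* kˣ) (L : Type*) [AddCommGroup L] [Module k L] : Representation k C L where
  toFun c := (χ c : k) • LinearMap.id
  map_one' := by
    ext x
    simp
  map_mul' c d := by
    ext x
    simp [smul_smul, mul_comm]

theorem h96_scalar_apply (χ : C →* kˣ) (L : Type*) [AddCommGroup L] [Module k L] (c : C) (x : L) :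
    h96_scalar χ L c x = (χ c : k) • x := rfl

/-- the permutation representation on functions: `(c • y) x = y (c⁻¹ • x)` -/
def h96_perm (k : Type*) [Field k] {C : Type*} [Group C] (P : Type*) [MulAction C P] :
    Representation k C (P → k) where
  toFun c := LinearMap.funLeft k k (fun x => c⁻¹ • x)
  map_one' := by
    ext y x
    simp
  map_mul' c d := by
    ext y x
    simp [mul_smul]

theorem h96_perm_apply (P : Type*) [MulAction C P] (c : C) (y : P → k) (x : P) :
    h96_perm k P c y x = y (c⁻¹ • x) := rfl

end twist

section hom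

variable {k : Type*} [Field k] {C : Type*} [Group C]
  {A A' W W' W₁ W₂ : Type*} [AddCommGroup A] [Module k A] [AddCommGroup A'] [Module k A']
  [AddCommGroup W] [Module k W] [AddCommGroup W'] [Module k W']
  [AddCommGroup W₁] [Module k W₁] [AddCommGroup W₂] [Module k W₂]

/-- the `C`-equivariant linear maps `A → W` -/
def h96_hom (π : Representation k C A) (σ : Representation k C W) : Submodule k (A →ₗ[k] W) where
  carrier := {T | ∀ (c : C) (a : A), T (π c a) = σ c (T a)}
  add_mem' := by
    intro T T' hT hT' c a
    simp [hT c a, hT' c a]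
  zero_mem' := by
    intro c a
    simp
  smul_mem' := by
    intro x T hT c a
    simp [hT c a]

theorem h96_mem_hom (π : Representation k C A) (σ : Representation k C W) (T : A →ₗ[k] W) :
    T ∈ h96_hom π σ ↔ ∀ (c : C) (a : A), T (π c a) = σ c (T a) := Iff.rfl

theorem h96_hom_eq_invariants (π : Representation k C A) (σ : Representation k C W) :
    h96_hom π σ = invariants (linHom π σ) := by
  ext T
  rw [h96_mem_hom, mem_invariants]
  constructor
  · intro h c
    ext a
    rw [linHom_apply, LinearMap.comp_apply, LinearMap.comp_apply, ← h c, self_inv_apply]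
  · intro h c a
    have h1 := LinearMap.congr_fun (h c) (π c a)
    rw [linHom_apply, LinearMap.comp_apply, LinearMap.comp_apply, inv_self_apply] at h1
    exact h1.symm

/-- twisting both sides by the same character does not change `hom` -/
theorem h96_hom_tw (χ : C →* kˣ) (π : Representation k C A) (σ : Representation k C W) :
    h96_hom (h96_tw χ π) (h96_tw χ σ) = h96_hom π σ := by
  ext T
  simp only [h96_mem_hom, h96_tw_apply, map_smul]
  constructor
  · intro h c a
    exact smul_right_injective W (χ c).ne_zero (h c a)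
  · intro h c a
    rw [h c a]

theorem h96_hom_congr_right (π : Representation k C A) {σ : Representation k C W}
    {σ' : Representation k C W'} (e : W ≃ₗ[k] W') (he : ∀ c w, e (σ c w) = σ' c (e w)) :
    finrank k (h96_hom π σ) = finrank k (h96_hom π σ') := by
  refine h96_finrank_eq_of_equiv (LinearEquiv.arrowCongr (LinearEquiv.refl k A) e) _ _ ?_
  intro T
  simp only [h96_mem_hom, LinearEquiv.arrowCongr_apply, LinearEquiv.refl_symm,
    LinearEquiv.refl_apply]
  constructor
  · intro h c a
    rw [h c a, he]
  · intro h c a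
    apply e.injective
    rw [h c a, he]

theorem h96_hom_congr_left {π : Representation k C A} {π' : Representation k C A'}
    (σ : Representation k C W) (e : A ≃ₗ[k] A') (he : ∀ c a, e (π c a) = π' c (e a)) :
    finrank k (h96_hom π σ) = finrank k (h96_hom π' σ) := by
  refine h96_finrank_eq_of_equiv (LinearEquiv.arrowCongr e (LinearEquiv.refl k W)) _ _ ?_
  intro T
  simp only [h96_mem_hom, LinearEquiv.arrowCongr_apply, LinearEquiv.refl_apply]
  have he' : ∀ c a', e.symm (π' c a') = π c (e.symm a') := by
    intro c a'
    apply e.injective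
    rw [he]
    simp
  constructor
  · intro h c a'
    rw [he', h]
  · intro h c a
    have h1 := h c (e a)
    rw [← he] at h1
    simpa using h1

/-- `hom` into a product is the product of the `hom`'s -/
def h96_homProd (π : Representation k C A) (σ₁ : Representation k C W₁)
    (σ₂ : Representation k C W₂) :
    h96_hom π (σ₁.prod σ₂) ≃ₗ[k] h96_hom π σ₁ × h96_hom π σ₂ where
  toFun T := (⟨LinearMap.fst k W₁ W₂ ∘ₗ T.1, fun c a => by
      have h := congrArg Prod.fst (T.2 c a)
      simpa using h⟩,
    ⟨LinearMap.snd k W₁ W₂ ∘ₗ T.1, fun c a => by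
      have h := congrArg Prod.snd (T.2 c a)
      simpa using h⟩)
  map_add' T T' := rfl
  map_smul' x T := rfl
  invFun T := ⟨T.1.1.prod T.2.1, fun c a => by
    simp [T.1.2 c a, T.2.2 c a]⟩
  left_inv T := by
    apply Subtype.ext
    ext a <;> rfl
  right_inv T := by
    apply Prod.ext <;> apply Subtype.ext <;> ext a <;> rfl

theorem h96_hom_prod [Module.Finite k A] [Module.Finite k W₁] [Module.Finite k W₂]
    (π : Representation k C A) (σ₁ : Representation k C W₁) (σ₂ : Representation k C W₂) :
    finrank k (h96_hom π (σ₁.prod σ₂)) = finrank k (h96_hom π σ₁) + finrank k (h96_hom π σ₂) := by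
  rw [(h96_homProd π σ₁ σ₂).finrank_eq, Module.finrank_prod]

/-- `hom(τ^∨, χ) = inv(χ ⊗ τ)` for a line on which `C` acts through `χ` -/
theorem h96_hom_dual_scalar [Module.Finite k W] (τ : Representation k C W) (χ : C →* kˣ)
    {L : Type*} [AddCommGroup L] [Module k L] (hL : finrank k L = 1)
    (ℓ : Representation k C L) (hℓ : ∀ c x, ℓ c x = (χ c : k) • x) :
    finrank k (h96_hom τ.dual ℓ) = finrank k (invariants (h96_tw χ τ)) := by
  have : Module.Finite k L := Module.finite_of_finrank_pos (by rw [hL]; exact one_pos)
  let e₀ : k ≃ₗ[k] L := LinearEquiv.ofFinrankEq k L (by rw [hL, Module.finrank_self])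
  symm
  refine h96_finrank_eq_of_equiv
    ((Module.evalEquiv k W).trans (LinearEquiv.arrowCongr (LinearEquiv.refl k _) e₀)) _ _ ?_
  intro w
  simp only [h96_mem_hom, mem_invariants, h96_tw_apply, LinearEquiv.trans_apply,
    LinearEquiv.arrowCongr_apply, LinearEquiv.refl_symm, LinearEquiv.refl_apply,
    Module.evalEquiv_apply, Module.Dual.eval_apply, hℓ, ← map_smul]
  constructor
  · intro h c f
    congr 1
    have h1 := h c
    have h2 : τ c⁻¹ w = (χ c : k) • w := by
      conv_lhs => rw [← h1]
      rw [inv_self_apply]
    rw [Representation.dual_apply, Module.Dual.transpose_apply, LinearMap.comp_apply, h2]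
  · intro h c
    have h1 : ∀ f : Module.Dual k W, f (τ c⁻¹ w - (χ c : k) • w) = 0 := by
      intro f
      have h2 := e₀.injective (h c f)
      rw [Representation.dual_apply, Module.Dual.transpose_apply, LinearMap.comp_apply] at h2
      rw [map_sub, h2, sub_self]
    have h3 := (Module.forall_dual_apply_eq_zero_iff k _).1 h1
    have h4 : τ c⁻¹ w = (χ c : k) • w := sub_eq_zero.1 h3
    rw [← h4, self_inv_apply]

/-- `hom(τ^∨, k[P]) = eqv(P, τ)` -/
theorem h96_hom_dual_perm [Module.Finite k W] (τ : Representation k C W)
    (P : Type*) [MulAction C P] :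
    finrank k (h96_hom τ.dual (h96_perm k P)) = finrank k (h96_eqv P τ) := by
  symm
  let E : (P → W) →ₗ[k] (Module.Dual k W →ₗ[k] (P → k)) :=
    { toFun := fun F => LinearMap.pi fun x => Module.Dual.eval k W (F x)
      map_add' := by
        intro F F'
        ext f x
        simp
      map_smul' := by
        intro a F
        ext f x
        simp }
  have hE : ∀ F f x, E F f x = f (F x) := fun F f x => rfl
  refine h96_finrank_eq_of_bij E _ _ ?_ ?_ ?_
  · intro F _ hF
    funext x
    apply (Module.forall_dual_apply_eq_zero_iff k (F x)).1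
    intro f
    have h1 := congrFun (LinearMap.congr_fun hF f) x
    rwa [hE] at h1
  · intro F hF c f
    funext x
    rw [hE, h96_perm_apply, hE, Representation.dual_apply, Module.Dual.transpose_apply,
      LinearMap.comp_apply, ← hF c⁻¹ x]
  · intro T hT
    refine ⟨fun x => (Module.evalEquiv k W).symm (LinearMap.proj x ∘ₗ T), ?_, ?_⟩
    · intro c x
      apply (Module.evalEquiv k W).injective
      rw [LinearEquiv.apply_symm_apply]
      ext f
      rw [Module.evalEquiv_apply, Module.Dual.eval_apply]
      have h1 := congrFun (hT c⁻¹ f) x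
      rw [h96_perm_apply, inv_inv] at h1
      have h2 : f (τ c ((Module.evalEquiv k W).symm (LinearMap.proj x ∘ₗ T))) =
          T (τ.dual c⁻¹ f) x := by
        rw [Representation.dual_apply, Module.Dual.transpose_apply, inv_inv]
        exact Module.apply_evalEquiv_symm_apply k W (f ∘ₗ τ c) (LinearMap.proj x ∘ₗ T)
      rw [h2, h1]
      rfl
    · ext f x
      rw [hE, Module.apply_evalEquiv_symm_apply]
      rfl

/-- **The Herbrand cancellation.**  From an equivariant isomorphism
`A × k ≃ L × (k[P∞] × k[Pf])` (`C` acting trivially on the factor `k`, through `ω` on the line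
`L`, and by permutations on the function spaces) one gets, for every finite-dimensional `τ`,
`dim Hom_C(τ^∨, A) + dim τ^C = dim (ω ⊗ τ)^C + dim eqv(P∞, τ) + dim eqv(Pf, τ)`.
No hypothesis on the group `C`. -/
theorem h96_herbrand_count [Module.Finite k W] [Module.Finite k A]
    (τ : Representation k C W) (α : Representation k C A) (ω : C →* kˣ)
    {L : Type*} [AddCommGroup L] [Module k L] (hL : finrank k L = 1)
    (ℓ : Representation k C L) (hℓ : ∀ c x, ℓ c x = (ω c : k) • x)
    {Pinf Pf : Type*} [MulAction C Pinf] [MulAction C Pf] [Finite Pinf] [Finite Pf]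
    (e : (A × k) ≃ₗ[k] (L × ((Pinf → k) × (Pf → k))))
    (he : ∀ (c : C) (a : A) (t : k), e (α c a, t) =
      (ℓ c (e (a, t)).1, (fun x => (e (a, t)).2.1 (c⁻¹ • x), fun x => (e (a, t)).2.2 (c⁻¹ • x)))) :
    finrank k (h96_hom τ.dual α) + finrank k (invariants τ) =
      finrank k (invariants (h96_tw ω τ)) +
        (finrank k (h96_eqv Pinf τ) + finrank k (h96_eqv Pf τ)) := by
  have : Module.Finite k L := Module.finite_of_finrank_pos (by rw [hL]; exact one_pos)
  have h1 : finrank k (h96_hom τ.dual (α.prod (h96_scalar (1 : C →* kˣ) k))) =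
      finrank k (h96_hom τ.dual (ℓ.prod ((h96_perm k Pinf).prod (h96_perm k Pf)))) := by
    refine h96_hom_congr_right τ.dual e ?_
    rintro c ⟨a, t⟩
    have h2 := he c a t
    simp only [Representation.prod_apply_apply, h96_scalar_apply, MonoidHom.one_apply,
      Units.val_one, one_smul]
    rw [h2]
    rfl
  rw [h96_hom_prod, h96_hom_prod, h96_hom_prod, h96_hom_dual_perm, h96_hom_dual_perm,
    h96_hom_dual_scalar τ ω hL ℓ hℓ,
    h96_hom_dual_scalar τ 1 (Module.finrank_self k) (h96_scalar (1 : C →* kˣ) k)
      (fun c x => rfl), h96_tw_one] at h1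
  exact h1

end hom

end Fermat.Agent.S56
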