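/-
S56 / W1 base case (helper97): HERBRAND's theorem for the units of a number field, as a concrete
Galois-equivariant lattice statement (Mathlib only).

`θ : InfinitePlace K → (𝓞 K)ˣ` is a `Gal(K/ℚ)`-equivariant family of units such that the map
`ℤ[S_∞(K)] → (𝓞 K)ˣ`, `n ↦ ∏ θ_v ^ n_v`, has image of finite index modulo torsion and its kernel
modulo torsion is `ℤ • c` for one strictly positive invariant vector `c`.
-/
import Mathlib

set_option autoImplicit false
set_option maxSynthPendingDepth 3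

noncomputable section

open NumberField NumberField.InfinitePlace NumberField.Units
open NumberField.Units.dirichletUnitTheorem

namespace Fermat.Agent.S56

variable (K : Type*) [Field K] [NumberField K]

/-- the Galois action on the units of the ring of integers -/
def h97_unitAct (σ : K ≃ₐ[ℚ] K) : (𝓞 K)ˣ →* (𝓞 K)ˣ :=
  Units.map ((NumberField.RingOfIntegers.mapRingEquiv (σ : K ≃+* K) : 𝓞 K ≃+* 𝓞 K) : 𝓞 K →* 𝓞 K)

variable {K}

@[simp]
theorem h97_unitAct_coe (σ : K ≃ₐ[ℚ] K) (u : (𝓞 K)ˣ) :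
    ((h97_unitAct K σ u : (𝓞 K)ˣ) : K) = σ ((u : (𝓞 K)ˣ) : K) := rfl

theorem h97_unitAct_mul (σ τ : K ≃ₐ[ℚ] K) (u : (𝓞 K)ˣ) :
    h97_unitAct K (σ * τ) u = h97_unitAct K σ (h97_unitAct K τ u) := by
  apply Units.ext
  apply RingOfIntegers.ext
  rfl

/-- `w (σ u) = (σ⁻¹ • w) u` -/
theorem h97_place_unitAct (σ : K ≃ₐ[ℚ] K) (u : (𝓞 K)ˣ) (w : InfinitePlace K) :
    w ((h97_unitAct K σ u : (𝓞 K)ˣ) : K) = (σ⁻¹ • w) ((u : (𝓞 K)ˣ) : K) := by
  rw [h97_unitAct_coe, InfinitePlace.smul_apply]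
  rfl

variable (K)

/-- Mathlib's auxiliary unit at the place `u`: `|ε_u|_w < 1` for `w ≠ u`. -/
def h97_eps (u : InfinitePlace K) : (𝓞 K)ˣ := (exists_unit K u).choose

variable {K}

theorem h97_eps_lt_one {u w : InfinitePlace K} (h : w ≠ u) :
    w ((h97_eps K u : (𝓞 K)ˣ) : K) < 1 := by
  have h1 := (exists_unit K u).choose_spec w h
  have hpos := pos_at_place (h97_eps K u) w
  by_contra hcon
  push Not at hcon
  have := Real.log_nonneg hcon
  exact absurd h1 (not_lt.mpr this)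

variable (K)

/-- the equivariant family of units: `θ_v = ∏_τ τ(ε_{τ⁻¹ v})`. -/
def h97_theta (v : InfinitePlace K) : (𝓞 K)ˣ :=
  ∏ τ : K ≃ₐ[ℚ] K, h97_unitAct K τ (h97_eps K (τ⁻¹ • v))

variable {K}

theorem h97_theta_equivariant (σ : K ≃ₐ[ℚ] K) (v : InfinitePlace K) :
    h97_theta K (σ • v) = h97_unitAct K σ (h97_theta K v) := by
  unfold h97_theta
  rw [map_prod]
  refine (Fintype.prod_equiv (Equiv.mulLeft σ) _ _ (fun τ => ?_)).symm
  rw [Equiv.coe_mulLeft, h97_unitAct_mul, mul_inv_rev, mul_smul, inv_smul_smul]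

theorem h97_theta_coe_equivariant (σ : K ≃ₐ[ℚ] K) (v : InfinitePlace K) :
    ((h97_theta K (σ • v) : (𝓞 K)ˣ) : K) = σ ((h97_theta K v : (𝓞 K)ˣ) : K) := by
  rw [h97_theta_equivariant]
  rfl

/-- `|θ_v|_w < 1` for `w ≠ v`. -/
theorem h97_theta_lt_one {v w : InfinitePlace K} (h : w ≠ v) :
    w ((h97_theta K v : (𝓞 K)ˣ) : K) < 1 := by
  unfold h97_theta
  rw [Units.coe_prod, map_prod, map_prod]
  have hlt : ∀ τ : K ≃ₐ[ℚ] K,
      w ((algebraMap (𝓞 K) K) ((h97_unitAct K τ (h97_eps K (τ⁻¹ • v)) : (𝓞 K)ˣ) : 𝓞 K)) < 1 := by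
    intro τ
    have h1 := h97_place_unitAct τ (h97_eps K (τ⁻¹ • v)) w
    rw [h1]
    refine h97_eps_lt_one (fun hcon => h ?_)
    have := congrArg (fun u => τ • u) hcon
    simpa using this
  have hpos : ∀ τ : K ≃ₐ[ℚ] K,
      0 < w ((algebraMap (𝓞 K) K) ((h97_unitAct K τ (h97_eps K (τ⁻¹ • v)) : (𝓞 K)ˣ) : 𝓞 K)) :=
    fun τ => pos_at_place _ w
  have := Finset.prod_lt_prod_of_nonempty (s := Finset.univ) (fun τ _ => hpos τ)
    (g := fun _ => (1 : ℝ)) (fun τ _ => hlt τ) Finset.univ_nonempty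
  simpa using this

/-! ### The sign argument -/

/-- A real matrix with negative off-diagonal entries and zero column sums: every vector of its
kernel is zero, strictly positive or strictly negative. -/
theorem h97_sign_core {ι : Type*} [Fintype ι] (a : ι → ι → ℝ)
    (hneg : ∀ w v, w ≠ v → a w v < 0) (hcol : ∀ v, ∑ w, a w v = 0) (n : ι → ℝ)
    (hker : ∀ w, ∑ v, n v * a w v = 0) :
    (∀ v, n v ≤ 0) ∨ (∀ v, 0 < n v) := by
  classical
  by_contra hcon
  push Not at hcon
  obtain ⟨⟨v1, hv1⟩, ⟨v2, hv2⟩⟩ := hcon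
  -- `P` = the set of positive coordinates; `v1 ∈ P`, `v2 ∉ P`
  set P : Finset ι := Finset.univ.filter (fun v => 0 < n v) with hP
  have hv1P : v1 ∈ P := by rw [hP, Finset.mem_filter]; exact ⟨Finset.mem_univ _, hv1⟩
  have hv2P : v2 ∉ P := by
    rw [hP, Finset.mem_filter]
    rintro ⟨-, h⟩
    exact absurd h (not_lt.mpr hv2)
  have hsum : ∑ v, n v * ∑ w ∈ P, a w v = 0 := by
    have h1 : ∑ w ∈ P, ∑ v, n v * a w v = 0 := Finset.sum_eq_zero (fun w _ => hker w)
    rw [Finset.sum_comm] at h1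
    rw [← h1]
    exact Finset.sum_congr rfl (fun v _ => Finset.mul_sum _ _ _)
  -- every term is nonnegative, the term of `v1` is positive
  have hterm : ∀ v, 0 ≤ n v * ∑ w ∈ P, a w v := by
    intro v
    by_cases hv : v ∈ P
    · have hnv : 0 < n v := (Finset.mem_filter.mp hv).2
      have h1 : ∑ w ∈ P, a w v = -∑ w ∈ Pᶜ, a w v := by
        have := hcol v
        rw [← Finset.sum_add_sum_compl P] at this
        linarith
      have h2 : ∑ w ∈ Pᶜ, a w v ≤ 0 :=
        Finset.sum_nonpos (fun w hw => (hneg w v (fun h => (Finset.mem_compl.mp hw) (h ▸ hv))).le)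
      rw [h1]
      exact mul_nonneg hnv.le (by linarith)
    · have hnv : n v ≤ 0 := by
        by_contra h
        push Not at h
        exact hv (Finset.mem_filter.mpr ⟨Finset.mem_univ _, h⟩)
      have h2 : ∑ w ∈ P, a w v ≤ 0 :=
        Finset.sum_nonpos (fun w hw => (hneg w v (fun h => hv (h ▸ hw))).le)
      exact mul_nonneg_of_nonpos_of_nonpos hnv h2
  have hv1pos : 0 < n v1 * ∑ w ∈ P, a w v1 := by
    have h1 : ∑ w ∈ P, a w v1 = -∑ w ∈ Pᶜ, a w v1 := by
      have := hcol v1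
      rw [← Finset.sum_add_sum_compl P] at this
      linarith
    have h2 : ∑ w ∈ Pᶜ, a w v1 < 0 := by
      refine Finset.sum_neg (fun w hw => hneg w v1 (fun h => (Finset.mem_compl.mp hw) (h ▸ hv1P)))
        ⟨v2, Finset.mem_compl.mpr hv2P⟩
    rw [h1]
    exact mul_pos hv1 (by linarith)
  have := Finset.sum_pos' (fun v _ => hterm v) ⟨v1, Finset.mem_univ _, hv1pos⟩
  linarith

/-- trichotomy for the kernel -/
theorem h97_sign {ι : Type*} [Fintype ι] (a : ι → ι → ℝ)
    (hneg : ∀ w v, w ≠ v → a w v < 0) (hcol : ∀ v, ∑ w, a w v = 0) (n : ι → ℝ)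
    (hker : ∀ w, ∑ v, n v * a w v = 0) :
    (∀ v, n v = 0) ∨ (∀ v, 0 < n v) ∨ (∀ v, n v < 0) := by
  rcases h97_sign_core a hneg hcol n hker with h1 | h1
  · have hker' : ∀ w, ∑ v, (-n v) * a w v = 0 := by
      intro w
      have := hker w
      simp only [neg_mul, Finset.sum_neg_distrib, this, neg_zero]
    rcases h97_sign_core a hneg hcol (fun v => -n v) hker' with h2 | h2
    · left
      intro v
      have := h1 v
      have := h2 v
      linarith
    · right; right
      intro v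
      have := h2 v
      linarith
  · right; left
    exact h1

/-! ### The map `ℤ[S_∞(K)] → (𝓞 K)ˣ / torsion` -/

variable (K)

/-- `n ↦ ∏ θ_v ^ n_v` modulo torsion, as a `ℤ`-linear map. -/
def h97_ThetaBar : (InfinitePlace K → ℤ) →ₗ[ℤ] Additive ((𝓞 K)ˣ ⧸ (torsion K)) :=
  Fintype.linearCombination ℤ
    (fun v => Additive.ofMul (QuotientGroup.mk (h97_theta K v) : (𝓞 K)ˣ ⧸ (torsion K)))

/-- the log matrix of the family `θ` -/
def h97_logMat (w v : InfinitePlace K) : ℝ :=
  mult w * Real.log (w ((h97_theta K v : (𝓞 K)ˣ) : K))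

variable {K}

theorem h97_thetaBar_apply (n : InfinitePlace K → ℤ) :
    h97_ThetaBar K n = Additive.ofMul
      (QuotientGroup.mk (∏ v, h97_theta K v ^ n v) : (𝓞 K)ˣ ⧸ (torsion K)) := by
  unfold h97_ThetaBar
  rw [Fintype.linearCombination_apply, QuotientGroup.mk_prod, ofMul_prod]
  refine Finset.sum_congr rfl (fun v _ => ?_)
  rw [QuotientGroup.mk_zpow, ofMul_zpow]

theorem h97_thetaBar_eq_zero_iff (n : InfinitePlace K → ℤ) :
    h97_ThetaBar K n = 0 ↔ (∏ v, h97_theta K v ^ n v) ∈ torsion K := by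
  rw [h97_thetaBar_apply, ofMul_eq_zero, QuotientGroup.eq_one_iff]

theorem h97_logMat_neg {w v : InfinitePlace K} (h : w ≠ v) : h97_logMat K w v < 0 := by
  unfold h97_logMat
  refine mul_neg_of_pos_of_neg ?_ (Real.log_neg (pos_at_place _ w) (h97_theta_lt_one h))
  exact_mod_cast mult_pos

theorem h97_logMat_col (v : InfinitePlace K) : ∑ w, h97_logMat K w v = 0 :=
  sum_mult_mul_log (h97_theta K v)

theorem h97_mem_torsion_iff (n : InfinitePlace K → ℤ) :
    (∏ v, h97_theta K v ^ n v) ∈ torsion K ↔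
      ∀ w, ∑ v, (n v : ℝ) * h97_logMat K w v = 0 := by
  rw [mem_torsion]
  refine forall_congr' (fun w => ?_)
  have hmult : (mult w : ℝ) ≠ 0 := by exact_mod_cast (mult_pos (w := w)).ne'
  have hval : w (((∏ v, h97_theta K v ^ n v : (𝓞 K)ˣ) : 𝓞 K) : K)
      = ∏ v, w ((h97_theta K v : (𝓞 K)ˣ) : K) ^ n v := by
    let g : (𝓞 K)ˣ →* K := ((algebraMap (𝓞 K) K : 𝓞 K →+* K) : 𝓞 K →* K).comp (Units.coeHom (𝓞 K))
    show w (g (∏ v, h97_theta K v ^ n v)) = ∏ v, w (g (h97_theta K v)) ^ n v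
    rw [map_prod, map_prod]
    refine Finset.prod_congr rfl (fun v _ => ?_)
    rw [map_zpow, map_zpow₀]
  have hlog : Real.log (∏ v, w ((h97_theta K v : (𝓞 K)ˣ) : K) ^ n v)
      = ∑ v, (n v : ℝ) * Real.log (w ((h97_theta K v : (𝓞 K)ˣ) : K)) := by
    rw [Real.log_prod (fun v _ => zpow_ne_zero _ (pos_at_place _ w).ne')]
    exact Finset.sum_congr rfl (fun v _ => Real.log_zpow _ _)
  have hsum : ∑ v, (n v : ℝ) * h97_logMat K w v
      = mult w * Real.log (∏ v, w ((h97_theta K v : (𝓞 K)ˣ) : K) ^ n v) := by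
    rw [hlog, Finset.mul_sum]
    refine Finset.sum_congr rfl (fun v _ => ?_)
    unfold h97_logMat
    ring
  rw [hsum, hval, mul_eq_zero, or_iff_right hmult]
  have hpos : 0 < ∏ v, w ((h97_theta K v : (𝓞 K)ˣ) : K) ^ n v :=
    Finset.prod_pos (fun v _ => zpow_pos (pos_at_place _ w) _)
  constructor
  · intro h
    rw [h, Real.log_one]
  · intro h
    exact Real.eq_one_of_pos_of_log_eq_zero hpos h

/-- trichotomy for the kernel of `ThetaBar` -/
theorem h97_ker_trichotomy (n : InfinitePlace K → ℤ) (hn : h97_ThetaBar K n = 0) :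
    n = 0 ∨ (∀ v, 0 < n v) ∨ (∀ v, n v < 0) := by
  rw [h97_thetaBar_eq_zero_iff, h97_mem_torsion_iff] at hn
  rcases h97_sign (h97_logMat K) (fun w v h => h97_logMat_neg h) h97_logMat_col
    (fun v => (n v : ℝ)) hn with h | h | h
  · left
    funext v
    exact_mod_cast h v
  · right; left
    intro v
    exact_mod_cast h v
  · right; right
    intro v
    exact_mod_cast h v

/-- the kernel is nonzero: the rank of the units is `#S_∞ - 1` -/
theorem h97_exists_ker_ne_zero : ∃ n : InfinitePlace K → ℤ, n ≠ 0 ∧ h97_ThetaBar K n = 0 := by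
  classical
  by_contra hcon
  push Not at hcon
  have hinj : Function.Injective (h97_ThetaBar K) := by
    rw [← LinearMap.ker_eq_bot, Submodule.eq_bot_iff]
    intro n hn
    by_contra h0
    exact hcon n h0 (LinearMap.mem_ker.mp hn)
  have h1 := LinearMap.finrank_le_finrank_of_injective hinj
  rw [Module.finrank_fintype_fun_eq_card, finrank_modTorsion, Units.rank] at h1
  have := Fintype.card_pos (α := InfinitePlace K)
  omega

/-- the kernel of `ThetaBar` is `ℤ • c` for a strictly positive `c` -/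
theorem h97_exists_generator : ∃ c : InfinitePlace K → ℤ, (∀ v, 0 < c v) ∧
    ∀ n : InfinitePlace K → ℤ, h97_ThetaBar K n = 0 ↔ ∃ k : ℤ, n = k • c := by
  classical
  obtain ⟨n0, hn0, hn0k⟩ := h97_exists_ker_ne_zero (K := K)
  let v₀ : InfinitePlace K := Classical.arbitrary _
  have hex : ∃ m : ℕ, ∃ c : InfinitePlace K → ℤ,
      h97_ThetaBar K c = 0 ∧ (∀ v, 0 < c v) ∧ c v₀ = m := by
    rcases h97_ker_trichotomy n0 hn0k with h | h | h
    · exact absurd h hn0
    · exact ⟨(n0 v₀).toNat, n0, hn0k, h, (Int.toNat_of_nonneg (h v₀).le).symm⟩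
    · refine ⟨(-n0 v₀).toNat, -n0, by rw [map_neg, hn0k, neg_zero], fun v => ?_, ?_⟩
      · have := h v
        simp only [Pi.neg_apply]
        omega
      · have := h v₀
        simp only [Pi.neg_apply]
        omega
  obtain ⟨c, hck, hcpos, hcv⟩ := Nat.find_spec hex
  refine ⟨c, hcpos, fun n => ⟨fun hn => ?_, ?_⟩⟩
  · obtain ⟨q, hq⟩ : ∃ q : ℤ, q = n v₀ / c v₀ := ⟨_, rfl⟩
    have hm : h97_ThetaBar K (n - q • c) = 0 := by
      rw [map_sub, map_smul, hn, hck, smul_zero, sub_zero]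
    have hmv : (n - q • c) v₀ = n v₀ % c v₀ := by
      simp only [Pi.sub_apply, Pi.smul_apply, smul_eq_mul]
      rw [Int.emod_def, hq]
      ring
    have h0 : 0 ≤ (n - q • c) v₀ := by
      rw [hmv]
      exact Int.emod_nonneg _ (hcpos v₀).ne'
    have h1 : (n - q • c) v₀ < c v₀ := by
      rw [hmv]
      exact Int.emod_lt_of_pos _ (hcpos v₀)
    rcases h97_ker_trichotomy _ hm with h | h | h
    · exact ⟨q, sub_eq_zero.mp h⟩
    · exfalso
      have hlt : ((n - q • c) v₀).toNat < Nat.find hex := by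
        rw [hcv] at h1
        omega
      exact Nat.find_min hex hlt ⟨n - q • c, hm, h, (Int.toNat_of_nonneg h0).symm⟩
    · exfalso
      have := h v₀
      omega
  · rintro ⟨k, rfl⟩
    rw [map_smul, hck, smul_zero]

/-- the generator of the kernel is Galois-invariant -/
theorem h97_generator_invariant {c : InfinitePlace K → ℤ} (hcpos : ∀ v, 0 < c v)
    (hc : ∀ n : InfinitePlace K → ℤ, h97_ThetaBar K n = 0 ↔ ∃ k : ℤ, n = k • c)
    (σ : K ≃ₐ[ℚ] K) (v : InfinitePlace K) : c (σ • v) = c v := by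
  classical
  have hck : h97_ThetaBar K c = 0 := (hc c).mpr ⟨1, (one_smul _ _).symm⟩
  have hc' : h97_ThetaBar K (fun v => c (σ • v)) = 0 := by
    rw [h97_thetaBar_eq_zero_iff] at hck ⊢
    have h1 : (∏ v, h97_theta K v ^ c (σ • v))
        = h97_unitAct K σ⁻¹ (∏ v, h97_theta K v ^ c v) := by
      rw [map_prod]
      refine Fintype.prod_equiv (MulAction.toPerm σ) _ _ (fun v => ?_)
      rw [MulAction.toPerm_apply, map_zpow, ← h97_theta_equivariant, inv_smul_smul]
    rw [h1, mem_torsion]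
    intro w
    have h2 := h97_place_unitAct σ⁻¹ (∏ v, h97_theta K v ^ c v) w
    rw [h2]
    exact ((mem_torsion K).mp hck) _
  obtain ⟨k, hk⟩ := (hc _).mp hc'
  have hsum : ∑ v, c (σ • v) = ∑ v, c v :=
    Fintype.sum_equiv (MulAction.toPerm σ) _ _ (fun v => rfl)
  have hsum2 : ∑ v, c (σ • v) = k * ∑ v, c v := by
    rw [Finset.mul_sum]
    refine Finset.sum_congr rfl (fun v _ => ?_)
    have := congrFun hk v
    simpa using this
  have hpos : 0 < ∑ v, c v := Finset.sum_pos (fun v _ => hcpos v) Finset.univ_nonempty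
  have hk1 : k = 1 := by
    have h3 : (k - 1) * ∑ v, c v = 0 := by
      rw [sub_mul, one_mul, ← hsum2, hsum, sub_self]
    rcases mul_eq_zero.mp h3 with h | h
    · omega
    · omega
  have := congrFun hk v
  simpa [hk1] using this

/-- the image of `ThetaBar` has finite index -/
theorem h97_finite_index :
    Finite (Additive ((𝓞 K)ˣ ⧸ (torsion K)) ⧸ LinearMap.range (h97_ThetaBar K)) := by
  classical
  obtain ⟨c, hcpos, hc⟩ := h97_exists_generator (K := K)
  refine Submodule.finiteQuotientOfFreeOfRankEq _ ?_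
  have h1 := Submodule.finrank_quotient_add_finrank (LinearMap.ker (h97_ThetaBar K))
  have h2 : Module.finrank ℤ (LinearMap.range (h97_ThetaBar K))
      = Module.finrank ℤ ((InfinitePlace K → ℤ) ⧸ LinearMap.ker (h97_ThetaBar K)) :=
    (LinearMap.quotKerEquivRange (h97_ThetaBar K)).finrank_eq.symm
  have h3 : Module.finrank ℤ (LinearMap.ker (h97_ThetaBar K)) = 1 := by
    have hc0 : c ≠ 0 := fun h => by
      have := hcpos (Classical.arbitrary _)
      rw [h] at this
      exact lt_irrefl _ this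
    have hker : LinearMap.ker (h97_ThetaBar K) = Submodule.span ℤ {c} := by
      ext n
      rw [LinearMap.mem_ker, hc, Submodule.mem_span_singleton]
      constructor
      · rintro ⟨k, rfl⟩
        exact ⟨k, rfl⟩
      · rintro ⟨k, rfl⟩
        exact ⟨k, rfl⟩
    rw [hker]
    exact (LinearEquiv.toSpanNonzeroSingleton ℤ _ c hc0).finrank_eq.symm.trans
      (Module.finrank_self ℤ)
  rw [h2, finrank_modTorsion, Units.rank]
  rw [Module.finrank_fintype_fun_eq_card] at h1
  have := Fintype.card_pos (α := InfinitePlace K)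
  omega

variable (K)

/-- **Herbrand's theorem for the units**, equivariant lattice form. There are a
`Gal(K/ℚ)`-equivariant family of units `θ_v` (`v` an infinite place) and a strictly positive
invariant vector `c` such that `∏ θ_v ^ n_v` is torsion iff `n ∈ ℤ • c`, and the `θ_v` generate
a subgroup of finite index modulo torsion. -/
theorem h97_herbrand_units : ∃ (θ : InfinitePlace K → (𝓞 K)ˣ) (c : InfinitePlace K → ℤ),
    (∀ (σ : K ≃ₐ[ℚ] K) (v : InfinitePlace K),
      ((θ (σ • v) : (𝓞 K)ˣ) : K) = σ ((θ v : (𝓞 K)ˣ) : K)) ∧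
    (∀ v w : InfinitePlace K, w ≠ v → w ((θ v : (𝓞 K)ˣ) : K) < 1) ∧
    (∀ v, 0 < c v) ∧ (∀ (σ : K ≃ₐ[ℚ] K) (v : InfinitePlace K), c (σ • v) = c v) ∧
    (∀ n : InfinitePlace K → ℤ, (∏ v, θ v ^ n v) ∈ torsion K ↔ ∃ k : ℤ, n = k • c) ∧
    ∃ N : ℕ, 0 < N ∧ ∀ u : (𝓞 K)ˣ, ∃ n : InfinitePlace K → ℤ,
      u ^ N * (∏ v, θ v ^ n v)⁻¹ ∈ torsion K := by
  classical
  obtain ⟨c, hcpos, hc⟩ := h97_exists_generator (K := K)
  refine ⟨h97_theta K, c, h97_theta_coe_equivariant, fun v w h => h97_theta_lt_one h, hcpos,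
    h97_generator_invariant hcpos hc, fun n => ?_, ?_⟩
  · rw [← h97_thetaBar_eq_zero_iff]
    exact hc n
  · have hfin := h97_finite_index (K := K)
    refine ⟨Nat.card (Additive ((𝓞 K)ˣ ⧸ (torsion K)) ⧸ LinearMap.range (h97_ThetaBar K)),
      Nat.card_pos, fun u => ?_⟩
    have hmem : Nat.card (Additive ((𝓞 K)ˣ ⧸ (torsion K)) ⧸ LinearMap.range (h97_ThetaBar K))
        • (Additive.ofMul (QuotientGroup.mk u : (𝓞 K)ˣ ⧸ (torsion K)))
          ∈ LinearMap.range (h97_ThetaBar K) := by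
      have := AddSubgroup.nsmul_index_mem (LinearMap.range (h97_ThetaBar K)).toAddSubgroup
        (Additive.ofMul (QuotientGroup.mk u : (𝓞 K)ˣ ⧸ (torsion K)))
      exact this
    obtain ⟨n, hn⟩ := hmem
    refine ⟨n, ?_⟩
    rw [h97_thetaBar_apply, ← ofMul_pow, ← QuotientGroup.mk_pow] at hn
    have h1 := Additive.ofMul.injective hn
    rw [QuotientGroup.eq] at h1
    rwa [mul_comm] at h1

end Fermat.Agent.S56
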