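import Mathlib
import Fermat.Agent.S56.h97_Herbrand

/-!
# S56 / W1 / C3 HERB (helper97): the characteristic polynomial of a Galois element on the units

* `h97_charpoly_eq_of_injective` (linear algebra over a domain): an injective linear map between
  free modules of the same finite rank that intertwines two endomorphisms forces equal
  characteristic polynomials;
* `h97_latAct K σ` : the action of `σ : K ≃ₐ[ℚ] K` on `L_O = Additive ((𝓞 K)ˣ ⧸ torsion K)` as a
  `ℤ`-linear endomorphism; `h97_permAct K σ` : the permutation action `n ↦ n ∘ σ⁻¹` on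
  `InfinitePlace K → ℤ`;
* `h97_charpoly_units` : `charpoly (σ | ℤ^{Pl_∞}) = (X - 1) * charpoly (σ | L_O)`;
* `h97_trace_units` : `tr (σ | ℤ^{Pl_∞}) = 1 + tr (σ | L_O)`.
-/

set_option autoImplicit false
set_option maxSynthPendingDepth 3

open NumberField NumberField.InfinitePlace NumberField.Units Polynomial

namespace Fermat.Agent.S56

section LinAlg

variable {R : Type*} [CommRing R] [IsDomain R]
variable {M N : Type*} [AddCommGroup M] [Module R M] [Module.Free R M] [Module.Finite R M]
  [AddCommGroup N] [Module R N] [Module.Free R N] [Module.Finite R N]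

/-- matrix form: `P * A = A' * P` with `det P ≠ 0` forces equal characteristic polynomials -/
theorem h97_matrix_charpoly_eq {ι : Type*} [Fintype ι] [DecidableEq ι] (P A A' : Matrix ι ι R)
    (hP : P.det ≠ 0) (h : P * A = A' * P) : A.charpoly = A'.charpoly := by
  have h1 : (C : R →+* R[X]).mapMatrix P * A.charmatrix
      = A'.charmatrix * (C : R →+* R[X]).mapMatrix P := by
    unfold Matrix.charmatrix
    rw [mul_sub, sub_mul, ← map_mul, ← map_mul, h]
    congr 1
    exact (Matrix.scalar_commute (X : R[X]) (fun r' => Commute.all _ _) _).eq.symm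
  have h2 := congrArg Matrix.det h1
  rw [Matrix.det_mul, Matrix.det_mul, ← RingHom.map_det] at h2
  have h3 : (C : R →+* R[X]) P.det ≠ 0 := by
    rw [Ne, map_eq_zero_iff _ C_injective]
    exact hP
  unfold Matrix.charpoly
  rw [mul_comm] at h2
  exact mul_right_cancel₀ h3 h2

/-- an injective linear map between free modules of the same finite rank over a domain which
intertwines two endomorphisms forces equal characteristic polynomials -/
theorem h97_charpoly_eq_of_injective (hrank : Module.finrank R M = Module.finrank R N)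
    (g : M →ₗ[R] N) (hg : Function.Injective g) (φ : Module.End R M) (ψ : Module.End R N)
    (h : g ∘ₗ φ = ψ ∘ₗ g) : φ.charpoly = ψ.charpoly := by
  classical
  let b := Module.Free.chooseBasis R M
  let b₀ := Module.Free.chooseBasis R N
  have hcard : Fintype.card (Module.Free.ChooseBasisIndex R M)
      = Fintype.card (Module.Free.ChooseBasisIndex R N) := by
    rw [← Module.finrank_eq_card_chooseBasisIndex, ← Module.finrank_eq_card_chooseBasisIndex,
      hrank]
  let e := Fintype.equivOfCardEq hcard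
  let b' := b₀.reindex e.symm
  have hPA : LinearMap.toMatrix b b' g * LinearMap.toMatrix b b φ
      = LinearMap.toMatrix b' b' ψ * LinearMap.toMatrix b b' g := by
    rw [← LinearMap.toMatrix_comp, ← LinearMap.toMatrix_comp, h]
  have hdet : (LinearMap.toMatrix b b' g).det ≠ 0 := by
    intro hdet
    obtain ⟨v, hv, hv0⟩ := Matrix.exists_mulVec_eq_zero_iff.mpr hdet
    apply hv
    have h1 := LinearMap.toMatrix_mulVec_repr b b' g (b.equivFun.symm v)
    have h2 : (b.repr (b.equivFun.symm v) : Module.Free.ChooseBasisIndex R M → R) = v := by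
      rw [← Module.Basis.equivFun_apply, LinearEquiv.apply_symm_apply]
    rw [h2, hv0] at h1
    have h3 : g (b.equivFun.symm v) = 0 := by
      apply b'.repr.injective
      rw [map_zero]
      exact DFunLike.coe_injective h1.symm
    have h4 : b.equivFun.symm v = 0 := hg (by rw [h3, map_zero])
    have h5 := congrArg b.equivFun h4
    rwa [LinearEquiv.apply_symm_apply, map_zero] at h5
  rw [← LinearMap.charpoly_toMatrix φ b, ← LinearMap.charpoly_toMatrix ψ b']
  exact h97_matrix_charpoly_eq _ _ _ hdet hPA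

omit [IsDomain R] in
/-- the trace is minus the next coefficient of the characteristic polynomial -/
theorem h97_trace_eq_neg_nextCoeff (φ : Module.End R M) :
    LinearMap.trace R M φ = -φ.charpoly.nextCoeff := by
  classical
  rw [LinearMap.trace_eq_matrix_trace R (Module.Free.chooseBasis R M) φ,
    Matrix.trace_eq_neg_charpoly_nextCoeff, LinearMap.charpoly_toMatrix]

end LinAlg

section Units

variable (K : Type*) [Field K] [NumberField K]

/-- the Galois action preserves the torsion units -/
theorem h97_unitAct_torsion (σ : K ≃ₐ[ℚ] K) :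
    torsion K ≤ (torsion K).comap (h97_unitAct K σ) := by
  intro u hu
  rw [Subgroup.mem_comap, mem_torsion]
  intro w
  rw [h97_place_unitAct]
  exact (mem_torsion K).mp hu _

/-- the action of `σ` on `L_O = 𝓞ˣ / torsion` as a `ℤ`-linear endomorphism -/
noncomputable def h97_latAct (σ : K ≃ₐ[ℚ] K) :
    Module.End ℤ (Additive ((𝓞 K)ˣ ⧸ (torsion K))) :=
  (MonoidHom.toAdditive (QuotientGroup.map (torsion K) (torsion K) (h97_unitAct K σ)
    (h97_unitAct_torsion K σ))).toIntLinearMap

/-- the permutation action `n ↦ n ∘ σ⁻¹` on `ℤ^{Pl_∞}` -/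
def h97_permAct (σ : K ≃ₐ[ℚ] K) : Module.End ℤ (InfinitePlace K → ℤ) :=
  LinearMap.funLeft ℤ ℤ (fun v => σ⁻¹ • v)

variable {K}

theorem h97_latAct_mk (σ : K ≃ₐ[ℚ] K) (u : (𝓞 K)ˣ) :
    h97_latAct K σ (Additive.ofMul (QuotientGroup.mk u : (𝓞 K)ˣ ⧸ (torsion K)))
      = Additive.ofMul (QuotientGroup.mk (h97_unitAct K σ u) : (𝓞 K)ˣ ⧸ (torsion K)) := rfl

theorem h97_permAct_apply (σ : K ≃ₐ[ℚ] K) (n : InfinitePlace K → ℤ) (v : InfinitePlace K) :
    h97_permAct K σ n v = n (σ⁻¹ • v) := rfl

/-- `ThetaBar` is Galois-equivariant -/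
theorem h97_thetaBar_equivariant (σ : K ≃ₐ[ℚ] K) (n : InfinitePlace K → ℤ) :
    h97_ThetaBar K (h97_permAct K σ n) = h97_latAct K σ (h97_ThetaBar K n) := by
  unfold h97_ThetaBar
  rw [Fintype.linearCombination_apply, Fintype.linearCombination_apply, map_sum]
  refine Fintype.sum_equiv (MulAction.toPerm σ⁻¹) _ _ (fun v => ?_)
  rw [MulAction.toPerm_apply, map_zsmul, h97_permAct_apply, h97_latAct_mk,
    ← h97_theta_equivariant, smul_inv_smul]

variable (K)

/-- **(C1)** `charpoly (σ | ℤ^{Pl_∞}) = (X - 1) * charpoly (σ | 𝓞ˣ / torsion)`. -/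
theorem h97_charpoly_units (σ : K ≃ₐ[ℚ] K) :
    (h97_permAct K σ).charpoly = (X - 1) * (h97_latAct K σ).charpoly := by
  classical
  obtain ⟨c, hcpos, hc⟩ := h97_exists_generator (K := K)
  let lam : (InfinitePlace K → ℤ) →ₗ[ℤ] ℤ := ∑ v, LinearMap.proj v
  have hlam : ∀ n : InfinitePlace K → ℤ, lam n = ∑ v, n v := fun n => by
    simp [lam, LinearMap.sum_apply]
  let g : (InfinitePlace K → ℤ) →ₗ[ℤ] ℤ × Additive ((𝓞 K)ˣ ⧸ (torsion K)) :=
    lam.prod (h97_ThetaBar K)
  have hg : Function.Injective g := by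
    rw [← LinearMap.ker_eq_bot, LinearMap.ker_eq_bot']
    intro n hn
    have h1 : lam n = 0 := congrArg Prod.fst hn
    have h2 : h97_ThetaBar K n = 0 := congrArg Prod.snd hn
    obtain ⟨k, rfl⟩ := (hc n).mp h2
    rw [hlam] at h1
    have h3 : ∑ v, (k • c) v = k * ∑ v, c v := by
      rw [Finset.mul_sum]
      exact Finset.sum_congr rfl (fun v _ => by simp)
    rw [h3] at h1
    have h4 : 0 < ∑ v, c v := Finset.sum_pos (fun v _ => hcpos v) Finset.univ_nonempty
    rcases mul_eq_zero.mp h1 with h5 | h5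
    · rw [h5, zero_smul]
    · exact absurd h5 h4.ne'
  have hrank : Module.finrank ℤ (InfinitePlace K → ℤ)
      = Module.finrank ℤ (ℤ × Additive ((𝓞 K)ˣ ⧸ (torsion K))) := by
    rw [Module.finrank_prod, Module.finrank_self, finrank_modTorsion,
      Module.finrank_fintype_fun_eq_card, Units.rank]
    have := Fintype.card_pos (α := InfinitePlace K)
    omega
  have hcomm : g ∘ₗ h97_permAct K σ
      = (LinearMap.prodMap LinearMap.id (h97_latAct K σ)) ∘ₗ g := by
    refine LinearMap.ext fun n => Prod.ext ?_ ?_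
    · show lam (h97_permAct K σ n) = lam n
      rw [hlam, hlam]
      exact Fintype.sum_equiv (MulAction.toPerm σ⁻¹) _ _ (fun v => rfl)
    · exact h97_thetaBar_equivariant σ n
  rw [h97_charpoly_eq_of_injective hrank g hg _ _ hcomm, LinearMap.charpoly_prodMap]
  congr 1
  have h1 := LinearMap.charpoly_one (R := ℤ) (M := ℤ)
  rw [Module.finrank_self, pow_one] at h1
  exact h1

/-- `tr (σ | ℤ^{Pl_∞}) = 1 + tr (σ | 𝓞ˣ / torsion)`. -/
theorem h97_trace_units (σ : K ≃ₐ[ℚ] K) :
    LinearMap.trace ℤ _ (h97_permAct K σ) = 1 + LinearMap.trace ℤ _ (h97_latAct K σ) := by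
  have hX : (X - 1 : ℤ[X]) = X - C 1 := by simp
  rw [h97_trace_eq_neg_nextCoeff, h97_trace_eq_neg_nextCoeff, h97_charpoly_units, hX,
    Polynomial.Monic.nextCoeff_mul (monic_X_sub_C (1 : ℤ)) (LinearMap.charpoly_monic _),
    Polynomial.nextCoeff_X_sub_C]
  ring

/-- the trace of the permutation action is the number of fixed infinite places -/
theorem h97_trace_permAct (σ : K ≃ₐ[ℚ] K) :
    LinearMap.trace ℤ _ (h97_permAct K σ)
      = Nat.card {v : InfinitePlace K // σ • v = v} := by
  classical
  rw [LinearMap.trace_eq_matrix_trace ℤ (Pi.basisFun ℤ (InfinitePlace K)), Matrix.trace]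
  have h1 : ∀ v : InfinitePlace K,
      (LinearMap.toMatrix (Pi.basisFun ℤ (InfinitePlace K)) (Pi.basisFun ℤ (InfinitePlace K))
        (h97_permAct K σ)).diag v = if σ • v = v then 1 else 0 := by
    intro v
    rw [Matrix.diag_apply, LinearMap.toMatrix_apply, Pi.basisFun_repr, Pi.basisFun_apply,
      h97_permAct_apply, Pi.single_apply]
    have h2 : (σ⁻¹ • v = v) ↔ (σ • v = v) := by
      constructor
      · intro h
        rw [← h, smul_inv_smul]
        exact h.symm ▸ rfl
      · intro h
        rw [inv_smul_eq_iff, h]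
    simp only [h2]
  rw [Finset.sum_congr rfl (fun v _ => h1 v), Finset.sum_boole, Nat.card_eq_fintype_card,
    Fintype.card_subtype]

/-- **(C3a LOG, trace form)** `tr (σ | 𝓞ˣ / torsion) = #Fix_σ(Pl_∞) - 1`. -/
theorem h97_trace_latAct (σ : K ≃ₐ[ℚ] K) :
    LinearMap.trace ℤ _ (h97_latAct K σ)
      = (Nat.card {v : InfinitePlace K // σ • v = v} : ℤ) - 1 := by
  have h1 := h97_trace_units K σ
  rw [h97_trace_permAct] at h1
  linarith

variable {K}

theorem h97_latAct_one : h97_latAct K (1 : K ≃ₐ[ℚ] K) = LinearMap.id := by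
  refine LinearMap.ext fun x => ?_
  obtain ⟨u, rfl⟩ := QuotientGroup.mk_surjective (Additive.toMul x)
  exact congrArg (fun y => Additive.ofMul (QuotientGroup.mk y : (𝓞 K)ˣ ⧸ (torsion K)))
    (Units.ext (RingOfIntegers.ext rfl))

theorem h97_latAct_mul (σ τ : K ≃ₐ[ℚ] K) :
    h97_latAct K (σ * τ) = h97_latAct K σ ∘ₗ h97_latAct K τ := by
  refine LinearMap.ext fun x => ?_
  obtain ⟨u, rfl⟩ := QuotientGroup.mk_surjective (Additive.toMul x)
  exact congrArg (fun y => Additive.ofMul (QuotientGroup.mk y : (𝓞 K)ˣ ⧸ (torsion K)))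
    (h97_unitAct_mul σ τ u)

theorem h97_permAct_one : h97_permAct K (1 : K ≃ₐ[ℚ] K) = LinearMap.id := by
  refine LinearMap.ext fun n => funext fun v => ?_
  rw [h97_permAct_apply, inv_one, one_smul]
  rfl

theorem h97_permAct_mul (σ τ : K ≃ₐ[ℚ] K) :
    h97_permAct K (σ * τ) = h97_permAct K σ ∘ₗ h97_permAct K τ := by
  refine LinearMap.ext fun n => funext fun v => ?_
  rw [LinearMap.comp_apply, h97_permAct_apply, h97_permAct_apply, h97_permAct_apply,
    mul_inv_rev, mul_smul]

end Units

end Fermat.Agent.S56
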