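import Fermat.Agent.S56.h33_KumS
import Fermat.Agent.S56.h95_ShaVanish
import Fermat.Agent.S56.h30_FrobIndep
import Fermat.Agent.S55.h6_LocalLevels
import Fermat.Agent.GAL.WCheb

/-!
# S56, front W1, row C6b: existence of `T0` for (SPLIT0)  (helper97)

`F` an `S0`-level containing the `p`-th roots of unity, `p ∈ S0`.  Then there is a finite set
`T0` of primes such that for every `S ⊇ S0 ∪ T0` and every `S`-level `L₀` with `L₀.F = F` the
statement `h95_Split0 p S L₀` holds: no `ℤ/p`-extension of `F` unramified outside `S` is split at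
all places above `S`.

Route: a map `φ` as in (SPLIT0) is of level `S0` on `U = Gal(ℚ̄/F)` (it kills the inertia
groups at all primes outside `S0`), hence (Kummer universality, `h33_kum_universal`) it kills
`Gal(ℚ̄/K)` for the fixed `S0`-level `K = F(V_{S0}^{1/p})`.  For every class of
`G_ℚ / Gal(ℚ̄/K)` weak Chebotarev gives a prime `ℓ` and a Frobenius element at `ℓ` generating the
same cyclic subgroup modulo `Gal(ℚ̄/K)`; `T0` is the set of these primes.
-/

set_option autoImplicit false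
set_option linter.unusedSectionVars false
set_option linter.unusedVariables false
set_option maxHeartbeats 400000
set_option synthInstance.maxHeartbeats 400000

open groupCohomology ExtCitation
open scoped Pointwise

noncomputable section

namespace Fermat.Agent.S56

open Fermat.Agent.S55 Fermat.Agent.GAL

local notation "Qb" => AlgebraicClosure ℚ
local notation "GQ" => (AlgebraicClosure ℚ ≃ₐ[ℚ] AlgebraicClosure ℚ)

/-- the distinguished place over `q` lies over `q` -/
theorem h97_primeLocalPlace_liesOver (q : Nat.Primes) :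
    (primeLocalPlace q).LiesOverPrime (q : ℕ) := by
  have : Fact (q : ℕ).Prime := ⟨q.2⟩
  show (((q : ℕ) : ℕ) : Qb) ∈ (padicPlace (q : ℕ)).nonunits
  rw [ValuationSubring.mem_nonunits_iff_or]
  right
  rw [mem_padicPlace_iff, map_inv₀, map_natCast, ← NNReal.coe_le_coe, coe_nnnorm, norm_inv,
    h6_norm_natCast_q, inv_inv, NNReal.coe_one]
  have h1 : (1 : ℝ) < ((q : ℕ) : ℝ) := by exact_mod_cast q.2.one_lt
  exact not_le.mpr h1

/-- every element of the decomposition group of a place over `q` is a conjugate of an element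
of the image of `primeLocalToGlobal q` -/
theorem h97_dec_conj (q : Nat.Primes) (A : ValuationSubring Qb) (hA : A.LiesOverPrime (q : ℕ))
    {σ : GQ} (hσ : σ ∈ A.decompositionSubgroup ℚ) :
    ∃ (g : GQ) (τ : primeLocalGaloisGroup q), σ = g * primeLocalToGlobal q τ * g⁻¹ := by
  obtain ⟨g, hg⟩ := h30_exists_smul_eq (primeLocalPlace q) A (q : ℕ) q.2
    (h97_primeLocalPlace_liesOver q) hA
  have h1 : g⁻¹ * σ * g ∈ (primeLocalPlace q).decompositionSubgroup ℚ := by
    have h2 : σ • A = A := MulAction.mem_stabilizer_iff.mp hσ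
    refine MulAction.mem_stabilizer_iff.mpr ?_
    rw [mul_smul, mul_smul, ← hg, h2, hg, inv_smul_smul]
  obtain ⟨τ, hτ⟩ := h6_exists_primeLocal_lift q h1
  refine ⟨g, τ, ?_⟩
  rw [hτ]
  group

/-- the inertia group is contained in the decomposition group -/
theorem h97_inertia_le_dec (A : ValuationSubring Qb) :
    A.inertiaSubgroupIn ℚ ≤ A.decompositionSubgroup ℚ := by
  rintro σ ⟨τ, -, rfl⟩
  exact τ.2

/-- **Level reduction.**  A map `φ` which is of level `S`, additive on `U = Gal(ℚ̄/F)` for an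
`S0`-level `F`, and which vanishes on the intersections of `U` with the conjugates of the
decomposition groups at the primes of `S`, is of level `S0` on `U`. -/
theorem h97_split0_level {p : ℕ} {S0 S : Finset Nat.Primes} (F : IntermediateField ℚ Qb)
    (hF : F.IsUnramifiedOutside S0) (φ : GQ → ZMod p) (hlev : IsLevelConstantS₁ S φ)
    (hadd : ∀ u ∈ F.fixingSubgroup, ∀ u' ∈ F.fixingSubgroup, φ (u * u') = φ u + φ u')
    (hdec : ∀ (q : ↥S) (g : GQ) (τ : primeLocalGaloisGroup q.1),
      g * primeLocalToGlobal q.1 τ * g⁻¹ ∈ F.fixingSubgroup →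
        φ (g * primeLocalToGlobal q.1 τ * g⁻¹) = 0) :
    ∃ F₁ : IntermediateField ℚ Qb, F₁.IsUnramifiedOutside S0 ∧
      ∀ s ∈ F.fixingSubgroup, s ∈ F₁.fixingSubgroup → φ s = 0 := by
  classical
  have hgalQ : IsGalois ℚ Qb := Fermat.Agent.S13.h24_isGalois_Qbar
  obtain ⟨F', hF', hconst⟩ := hlev
  have hfdF : FiniteDimensional ℚ F := hF.1
  have hfdF' : FiniteDimensional ℚ F' := hF'.1
  have h1F : (1 : GQ) ∈ F.fixingSubgroup := one_mem _
  have h0 : φ 1 = 0 := by
    have := hadd 1 h1F 1 h1F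
    rw [one_mul] at this
    exact left_eq_add.mp this
  -- the kernel of `φ` on `U`
  let H : Subgroup GQ :=
    { carrier := {s | s ∈ F.fixingSubgroup ∧ φ s = 0}
      mul_mem' := by
        rintro a b ⟨ha, ha0⟩ ⟨hb, hb0⟩
        exact ⟨mul_mem ha hb, by rw [hadd a ha b hb, ha0, hb0, add_zero]⟩
      one_mem' := ⟨h1F, h0⟩
      inv_mem' := by
        rintro a ⟨ha, ha0⟩
        refine ⟨inv_mem ha, ?_⟩
        have := hadd a ha a⁻¹ (inv_mem ha)
        rw [mul_inv_cancel, h0, ha0, zero_add] at this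
        exact this.symm }
  have hmemH : ∀ s : GQ, s ∈ H ↔ s ∈ F.fixingSubgroup ∧ φ s = 0 := fun s => Iff.rfl
  have hFF' : FiniteDimensional ℚ (F ⊔ F' : IntermediateField ℚ Qb) :=
    IntermediateField.finiteDimensional_sup F F'
  have hle : (F ⊔ F').fixingSubgroup ≤ H := by
    intro s hs
    rw [IntermediateField.fixingSubgroup_sup] at hs
    refine (hmemH s).mpr ⟨hs.1, ?_⟩
    have := hconst 1 s hs.2
    rwa [one_mul, h0] at this
  have hopen : IsOpen (H : Set GQ) :=
    Subgroup.isOpen_mono hle (IntermediateField.fixingSubgroup_isOpen (F ⊔ F'))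
  have hclosed : IsClosed (H : Set GQ) := Subgroup.isClosed_of_isOpen H hopen
  have hfix : (IntermediateField.fixedField H).fixingSubgroup = H :=
    InfiniteGalois.fixingSubgroup_fixedField ⟨H, hclosed⟩
  have hF₁le : IntermediateField.fixedField H ≤ F ⊔ F' := by
    have h1 := InfiniteGalois.fixedField_fixingSubgroup (F ⊔ F' : IntermediateField ℚ Qb)
    rw [← h1]
    exact IntermediateField.fixedField_antitone hle
  refine ⟨IntermediateField.fixedField H, ⟨?_, ?_⟩, ?_⟩
  · exact FiniteDimensional.of_injective (IntermediateField.inclusion hF₁le).toLinearMap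
      (IntermediateField.inclusion_injective hF₁le)
  · intro q hq A hA σ hσ
    rw [hfix, hmemH]
    have hσF : σ ∈ F.fixingSubgroup := hF.2 q hq A hA hσ
    refine ⟨hσF, ?_⟩
    by_cases hqS : q ∈ S
    · obtain ⟨g, τ, rfl⟩ := h97_dec_conj q A hA (h97_inertia_le_dec A hσ)
      exact hdec ⟨q, hqS⟩ g τ hσF
    · have h2 : σ ∈ F'.fixingSubgroup := hF'.2 q hqS A hA hσ
      have := hconst 1 σ h2
      rwa [one_mul, h0] at this
  · intro s _ hs
    rw [hfix, hmemH] at hs
    exact hs.2

/-- a map additive on a subgroup is compatible with powers -/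
theorem h97_add_pow {G : Type*} [Group G] {X : Type*} [AddCommGroup X] (U : Subgroup G)
    (φ : G → X) (hadd : ∀ u ∈ U, ∀ u' ∈ U, φ (u * u') = φ u + φ u') {σ : G} (hσ : σ ∈ U)
    (h0 : φ σ = 0) (n : ℕ) : φ (σ ^ n) = 0 := by
  have h1 : φ 1 = 0 := by
    have := hadd 1 (one_mem _) 1 (one_mem _)
    rw [one_mul] at this
    exact left_eq_add.mp this
  induction n with
  | zero => rw [pow_zero]; exact h1
  | succ n ih => rw [pow_succ, hadd _ (pow_mem hσ n) _ hσ, ih, h0, add_zero]

/-- **C6b, field form.**  `F` an `S0`-level containing a primitive `p`-th root of unity,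
`p ∈ S0`: there is a finite set `T0` of primes such that for `S ⊇ S0 ∪ T0` every `S`-level map
`φ`, additive on `U = Gal(ℚ̄/F)`, which vanishes on the intersections of `U` with the conjugates
of the decomposition groups at the primes of `S`, vanishes on `U`. -/
theorem h97_exists_T0_split0_field (p : ℕ) [Fact p.Prime] (S0 : Finset Nat.Primes)
    (hpS0 : pPrime p ∈ S0) (F : IntermediateField ℚ Qb) (hF : h25_IsLevel S0 F)
    {ζ : ↥F} (hζ : IsPrimitiveRoot ζ p) :
    ∃ T0 : Finset Nat.Primes, ∀ S : Finset Nat.Primes, S0 ∪ T0 ⊆ S →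
      ∀ φ : GQ → ZMod p, IsLevelConstantS₁ S φ →
        (∀ u ∈ F.fixingSubgroup, ∀ u' ∈ F.fixingSubgroup, φ (u * u') = φ u + φ u') →
        (∀ (q : ↥S) (g : GQ) (τ : primeLocalGaloisGroup q.1),
          g * primeLocalToGlobal q.1 τ * g⁻¹ ∈ F.fixingSubgroup →
            φ (g * primeLocalToGlobal q.1 τ * g⁻¹) = 0) →
        ∀ u ∈ F.fixingSubgroup, φ u = 0 := by
  classical
  have hgalQ : IsGalois ℚ Qb := Fermat.Agent.S13.h24_isGalois_Qbar
  have hnf : NumberField ↥F := h33_level_numberField hF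
  obtain ⟨-, hK⟩ := h33_kumL_isLevel S0 p F hpS0 hF hζ
  set K : IntermediateField ℚ Qb := h33_kumL S0 p F with hKdef
  have hfdK : FiniteDimensional ℚ K := hK.1.1
  have hgalK : IsGalois ℚ K := hK.2
  have hKF : K.fixingSubgroup ≤ F.fixingSubgroup := h33_fixing_kumL_le S0 p F
  have hfin : Finite (GQ ⧸ K.fixingSubgroup) :=
    Subgroup.quotient_finite_of_isOpen _ K.fixingSubgroup_isOpen
  have hft : Fintype (GQ ⧸ K.fixingSubgroup) := Fintype.ofFinite _
  -- weak Chebotarev for every class modulo `Gal(ℚ̄/K)`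
  choose ℓ A σ a b hℓ hℓS hA hFr h1 h2 using fun c : GQ ⧸ K.fixingSubgroup =>
    gal_weak_chebotarev K (Quotient.out c) (S0.image (fun q : Nat.Primes => (q : ℕ)))
  refine ⟨Finset.univ.image (fun c : GQ ⧸ K.fixingSubgroup => (⟨ℓ c, hℓ c⟩ : Nat.Primes)),
    fun S hS φ hlev hadd hdec u hu => ?_⟩
  -- `φ` is of level `S0` on `U`, hence kills `Gal(ℚ̄/K)`
  have hlev0 := h97_split0_level F hF.1 φ hlev hadd hdec
  have hφK : ∀ s ∈ K.fixingSubgroup, φ s = 0 := h33_kum_universal S0 p F hF hζ φ hadd hlev0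
  -- the class of `u` and its Chebotarev data
  set c : GQ ⧸ K.fixingSubgroup := QuotientGroup.mk u with hc
  obtain ⟨k, hk⟩ := QuotientGroup.mk_out_eq_mul K.fixingSubgroup u
  have hkF : (k : GQ) ∈ F.fixingSubgroup := hKF k.2
  have hgF : Quotient.out c ∈ F.fixingSubgroup := by
    rw [hc, hk]
    exact mul_mem hu hkF
  -- the Frobenius element lies in `U`
  have hσF : σ c ∈ F.fixingSubgroup := by
    rw [IntermediateField.mem_fixingSubgroup_iff]
    intro x hx
    rw [h1 c x (h33_le_kumL S0 p F hx)]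
    exact (IntermediateField.mem_fixingSubgroup_iff F _).mp (pow_mem hgF (a c)) x hx
  -- `φ` kills the Frobenius element
  have hφσ : φ (σ c) = 0 := by
    have hqS : (⟨ℓ c, hℓ c⟩ : Nat.Primes) ∈ S :=
      hS (Finset.mem_union_right _ (Finset.mem_image.mpr ⟨c, Finset.mem_univ _, rfl⟩))
    obtain ⟨g, τ, hgτ⟩ := h97_dec_conj ⟨ℓ c, hℓ c⟩ (A c) (hA c)
      (hFr c).mem_decompositionSubgroup
    have h3 := hdec ⟨⟨ℓ c, hℓ c⟩, hqS⟩ g τ (hgτ ▸ hσF)
    rw [hgτ]
    exact h3
  have hφσb : φ (σ c ^ b c) = 0 := h97_add_pow F.fixingSubgroup φ hadd hσF hφσ (b c)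
  -- `σ ^ b` and the representative agree modulo `Gal(ℚ̄/K)`
  have hk' : (σ c ^ b c)⁻¹ * Quotient.out c ∈ K.fixingSubgroup := by
    rw [IntermediateField.mem_fixingSubgroup_iff]
    intro x hx
    show (σ c ^ b c)⁻¹ (Quotient.out c x) = x
    rw [← h2 c x hx]
    exact AlgEquiv.symm_apply_apply (σ c ^ b c) x
  have hφg : φ (Quotient.out c) = 0 := by
    have h4 : Quotient.out c = σ c ^ b c * ((σ c ^ b c)⁻¹ * Quotient.out c) := by group
    rw [h4, hadd _ (pow_mem hσF _) _ (hKF hk'), hφσb, hφK _ hk', add_zero]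
  have h5 : u = Quotient.out c * (k : GQ)⁻¹ := by
    rw [hc, hk]
    group
  rw [h5, hadd _ hgF _ (inv_mem hkF), hφg, hφK _ (inv_mem k.2), add_zero]

/-- **C6b.**  Existence of `T0` for (SPLIT0): `L0` an `S0`-level whose field contains a
primitive `p`-th root of unity, `p ∈ S0`.  Then `h95_Split0 p S L₀` holds for every
`S ⊇ S0 ∪ T0` and every `S`-level `L₀` with the same field. -/
theorem h97_exists_T0_split0 (p : ℕ) [Fact p.Prime] (S0 : Finset Nat.Primes)
    (hpS0 : pPrime p ∈ S0) (L0 : h72_Lev S0) {ζ : ↥L0.F} (hζ : IsPrimitiveRoot ζ p) :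
    ∃ T0 : Finset Nat.Primes, ∀ S : Finset Nat.Primes, S0 ∪ T0 ⊆ S →
      ∀ L₀ : h72_Lev S, L₀.F = L0.F → h95_Split0 p S L₀ := by
  obtain ⟨T0, hT0⟩ := h97_exists_T0_split0_field p S0 hpS0 L0.F ⟨L0.unr, L0.gal⟩ hζ
  refine ⟨T0, fun S hS L₀ hL φ hlev hadd hdec u hu => ?_⟩
  have hU : L₀.U = L0.F.fixingSubgroup := by
    show L₀.F.fixingSubgroup = _
    rw [hL]
  exact hT0 S hS φ hlev (fun u hu u' hu' => hadd u (hU ▸ hu) u' (hU ▸ hu'))
    (fun q g τ h => hdec q g τ (hU ▸ h)) u (hU ▸ hu)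

end Fermat.Agent.S56
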